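import Fermat.Agent.BR.TwoValInst
import Fermat.Agent.BR.ResGen
import Fermat.Agent.BR.KronCong
import Fermat.Agent.Jac.TransposeNorm

/-!
# Program C (design phase), node (b1): `F̄_{Mq²}` over two copies of `F̄_{Mq}`

`M` prime to the prime `q`; `F = Fb M`, `F' = Fb (M * q)`, `F'' = Fb (M * q * q)` inside `ℚ̄((q))`.
`α₁ β₁ : F → F'`, `α₂ β₂ : F' → F''` the Prelude degeneracy maps (`α` = inclusion of `q`-series,
`β` = `y(q) ↦ y(q^q)`).

* `alpha2_beta1` : the fibre square `α₂ ∘ β₁ = β₂ ∘ α₁`;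
* `finrankAlong_alpha2`, `finrankAlong_beta2` : `[F'' : α₂ F'] = [F'' : β₂ F'] = q`;
* `w1` : the Gauss valuation of `F''` (expansion at `∞`), its restrictions along `α₂`, `β₂` and its
  residues on the generators.
-/

set_option autoImplicit false
set_option linter.style.haveILetI false
set_option linter.unusedSectionVars false

noncomputable section

namespace Fermat.Agent.BR3.FibreProd

open ModularCurve AlgebraicCurve HahnSeries Fermat.Agent.X0 Fermat.Agent.Val Fermat.Agent.Hecke.AL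
open Fermat.Agent.BR.TwoVal Fermat.Agent.BR.ResGen Fermat.Agent.Jac Fermat.Agent.Jac.ALF

variable {M q : ℕ} [NeZero M] [hq : Fact q.Prime]

scoped instance neZero_Mqq : NeZero (M * q * q) :=
  ⟨Nat.mul_ne_zero (Nat.mul_ne_zero (NeZero.ne M) hq.out.ne_zero) hq.out.ne_zero⟩

variable (M q) in
/-- `α₂ : F̄_{Mq} → F̄_{Mq²}`, the inclusion of `q`-series. -/
abbrev alpha2 : Fb (M * q) →ₐ[Kb] Fb (M * q * q) := heckeAlphaBar Kb (M * q) q

variable (M q) in
/-- `β₂ : F̄_{Mq} → F̄_{Mq²}`, `y(q) ↦ y(q^q)`. -/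
abbrev beta2 : Fb (M * q) →ₐ[Kb] Fb (M * q * q) := heckeBetaBar Kb (M * q) q

/-- **The fibre square** `X₀(Mq²) → X₀(Mq) ×_{X₀(M)} X₀(Mq)`: `α₂ ∘ β₁ = β₂ ∘ α₁`. -/
theorem alpha2_beta1 (x : Fb M) :
    alpha2 M q (heckeBetaBar Kb M q x) = beta2 M q (heckeAlphaBar Kb M q x) := by
  apply Subtype.ext
  rw [coe_heckeAlphaBar, coe_heckeBetaBar, coe_heckeBetaBar, coe_heckeAlphaBar]

/-- `[F̄_{Mq²} : α₂ F̄_{Mq}] = q`. -/
theorem finrankAlong_alpha2 : finrankAlong Kb (alpha2 M q) = q :=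
  finrankAlong_heckeAlphaBar_of_dvd (M * q) q hq.out (dvd_mul_left q M)

/-- `[F̄_{Mq²} : β₂ F̄_{Mq}] = q`. -/
theorem finrankAlong_beta2 : finrankAlong Kb (beta2 M q) = q :=
  finrankAlong_heckeBetaBar_of_dvd (M * q) q hq.out (dvd_mul_left q M)

variable (B : ValuationSubring (AlgebraicClosure ℚ)) (hB : B.LiesOverPrime q)

local notation "kB" => IsLocalRing.ResidueField B

variable (M) in
/-- `w₁`: the Gauss valuation subring of `F̄_{Mq²}` (expansion at `∞`). -/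
abbrev w1 : ValuationSubring (Fb (M * q * q)) := O1 (M * q) B hB

variable (M) in
/-- The residue map of `w₁`. -/
abbrev resw1 : w1 M B hB →+* LaurentSeries kB := res1 (M * q) B hB

/-- `w₁ ∘ α₂ = O1`. -/
theorem comap_alpha2_w1 :
    (w1 M B hB).comap (alpha2 M q : Fb (M * q) →+* Fb (M * q * q)) = O1 M B hB :=
  comap_alpha_O1 (M := M * q) B hB

/-- `w₁ ∘ β₂ = O1`. -/
theorem comap_beta2_w1 :
    (w1 M B hB).comap (beta2 M q : Fb (M * q) →+* Fb (M * q * q)) = O1 M B hB :=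
  comap_beta_O1 (M := M * q) B hB

theorem alpha2_mem_w1_iff (x : Fb (M * q)) : alpha2 M q x ∈ w1 M B hB ↔ x ∈ O1 M B hB :=
  alpha_mem_O1_iff (M := M * q) B hB x

theorem beta2_mem_w1_iff (x : Fb (M * q)) : beta2 M q x ∈ w1 M B hB ↔ x ∈ O1 M B hB :=
  beta_mem_O1_iff (M := M * q) B hB x

/-- `res_{w₁} ∘ α₂ = res₁`. -/
theorem resw1_alpha2 (x : Fb (M * q)) (hx : x ∈ O1 M B hB) :
    resw1 M B hB ⟨alpha2 M q x, (alpha2_mem_w1_iff B hB x).2 hx⟩ = res1 M B hB ⟨x, hx⟩ :=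
  res1_alpha (M := M * q) B hB x hx

/-- `res_{w₁} ∘ β₂ = V ∘ res₁`. -/
theorem resw1_beta2 (x : Fb (M * q)) (hx : x ∈ O1 M B hB) :
    resw1 M B hB ⟨beta2 M q x, (beta2_mem_w1_iff B hB x).2 hx⟩ =
      qExpand kB q (res1 M B hB ⟨x, hx⟩) :=
  res1_beta (M := M * q) B hB x hx

end Fermat.Agent.BR3.FibreProd
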