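import Fermat.Agent.Hecke.AtkinLehner
import Fermat.Agent.BR3.FibreProd

/-!
# Program C, node (C-ALSQ), part 1: the general Atkin–Lehner involution `W_Q` of `F̄_N`

`N = M * Q` with `gcd(Q, M) = 1`.  The field `Fb N` has a `Kb`-automorphism `atkinLehnerGen` which
maps `j(q^{d e})` to `j(q^{d e'})` for all `d ∣ M`, `e * e' = Q`.  The proof is the one of
`Hecke/AtkinLehner.lean` (case `Q` prime): for `P = Kb[X_{d,e}]` and the evaluation
`P → Rb N`, the swap `(d, e) ↦ (d, Q / e)` preserves the kernel because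
`Ψ(ev (swap p))(z) = Ψ(ev p)(W z)` with `W z = γ₁ • (Q z)`, `γ₁ = [[x, y], [M, Q]]`
(`Q x - M y = 1`): for `e * e' = Q` one has `e · W z = γ_e • (e' z)` with
`γ_e = [[x e, y], [M, e']] ∈ Γ₀(M)`, whence `j(d e · W z) = j(d e' z)`.

Specialisation `Q = q * q`, `N = M * q * q`: `W2 = W_{q²}` with `W2 ∘ α₂ = β₂ ∘ W_q` and
`W2 ∘ β₂ = α₂ ∘ W_q`.
-/

set_option autoImplicit false
set_option linter.style.haveILetI false
set_option linter.unusedSectionVars false

noncomputable section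

namespace Fermat.Agent.BR3.ALSq

open UpperHalfPlane ModularCurve AlgebraicCurve Fermat.Agent.X0
open Fermat.Agent.S23 Fermat.Agent.S23.PrimEltQExp Fermat.Agent.Hecke.AL
open scoped MatrixGroups

/-! ## The analytic swap -/

/-- The analytic Atkin–Lehner map `W_Q`: there is `W : ℍ → ℍ` with
`j(d e · W z) = j(d e' z)` for all `d ∣ M`, `e * e' = Q`. -/
theorem exists_swapGen (M Q : ℕ) [NeZero M] [NeZero Q] (hcop : Nat.Coprime Q M) :
    ∃ W : ℍ → ℍ, ∀ (d e e' : ℕ) [NeZero d] [NeZero e] [NeZero e'] [NeZero (d * e)]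
      [NeZero (d * e')], d ∣ M → e * e' = Q → ∀ z : ℍ,
      jAn (scaleH (d * e) (W z)) = jAn (scaleH (d * e') z) := by
  obtain ⟨x, y, hxy⟩ : ∃ x y : ℤ, (Q : ℤ) * x - (M : ℤ) * y = 1 := by
    have h := (Nat.isCoprime_iff_coprime.mpr hcop)
    obtain ⟨a, b, hab⟩ := h
    exact ⟨a, -b, by linarith⟩
  have hdet1 : Matrix.det !![x, y; (M : ℤ), (Q : ℤ)] = 1 := by
    rw [Matrix.det_fin_two_of]; linarith
  let γ1 : SL(2, ℤ) := ⟨!![x, y; (M : ℤ), (Q : ℤ)], hdet1⟩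
  refine ⟨fun z => γ1 • scaleH Q z, ?_⟩
  intro d e e' _ _ _ _ _ hd he z
  have hQ : (Q : ℤ) = (e : ℤ) * (e' : ℤ) := by rw [← he]; push_cast; rfl
  have hdete : Matrix.det !![x * (e : ℤ), y; (M : ℤ), (e' : ℤ)] = 1 := by
    rw [Matrix.det_fin_two_of]
    rw [hQ] at hxy
    linarith
  let γe : SL(2, ℤ) := ⟨!![x * (e : ℤ), y; (M : ℤ), (e' : ℤ)], hdete⟩
  have hγe : γe ∈ CongruenceSubgroup.Gamma0 M := by
    rw [CongruenceSubgroup.Gamma0_mem]
    show (((M : ℤ) : ℤ) : ZMod M) = 0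
    simp
  have hkey : scaleH e (γ1 • scaleH Q z) = γe • scaleH e' z := by
    apply UpperHalfPlane.ext
    have h1 : γ1 0 0 = x := rfl
    have h2 : γ1 0 1 = y := rfl
    have h3 : γ1 1 0 = (M : ℤ) := rfl
    have h4 : γ1 1 1 = (Q : ℤ) := rfl
    have g1 : γe 0 0 = x * (e : ℤ) := rfl
    have g2 : γe 0 1 = y := rfl
    have g3 : γe 1 0 = (M : ℤ) := rfl
    have g4 : γe 1 1 = (e' : ℤ) := rfl
    rw [coe_scaleH, coe_specialLinearGroup_apply, coe_specialLinearGroup_apply γe, coe_scaleH,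
      coe_scaleH, h1, h2, h3, h4, g1, g2, g3, g4]
    simp only [algebraMap_int_eq, eq_intCast, Int.cast_mul, Int.cast_natCast]
    push_cast
    have hQc : (Q : ℂ) = (e : ℂ) * (e' : ℂ) := by rw [← he]; push_cast; rfl
    rw [hQc]
    have he0 : (e : ℂ) ≠ 0 := Nat.cast_ne_zero.mpr (NeZero.ne e)
    have he'0 : (e' : ℂ) ≠ 0 := Nat.cast_ne_zero.mpr (NeZero.ne e')
    have hden : ((M : ℂ) * (z : ℂ) + 1) ≠ 0 := by
      intro h0
      have him := congrArg Complex.im h0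
      simp only [Complex.add_im, Complex.mul_im, Complex.natCast_re, Complex.natCast_im,
        Complex.one_im, Complex.zero_im, zero_mul, add_zero, coe_im] at him
      have hN : (0 : ℝ) < M := Nat.cast_pos.mpr (NeZero.pos M)
      have := mul_pos hN z.im_pos
      linarith
    have hden1 : ((M : ℂ) * ((e : ℂ) * (e' : ℂ) * (z : ℂ)) + (e : ℂ) * (e' : ℂ)) ≠ 0 := by
      have : (M : ℂ) * ((e : ℂ) * (e' : ℂ) * (z : ℂ)) + (e : ℂ) * (e' : ℂ) =
          (e : ℂ) * (e' : ℂ) * ((M : ℂ) * (z : ℂ) + 1) := by ring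
      rw [this]
      exact mul_ne_zero (mul_ne_zero he0 he'0) hden
    have hden2 : ((M : ℂ) * ((e' : ℂ) * (z : ℂ)) + (e' : ℂ)) ≠ 0 := by
      have : (M : ℂ) * ((e' : ℂ) * (z : ℂ)) + (e' : ℂ) = (e' : ℂ) * ((M : ℂ) * (z : ℂ) + 1) := by
        ring
      rw [this]
      exact mul_ne_zero he'0 hden
    field_simp
  rw [← scaleH_mul d e, hkey, jAn_scaleH_smul hd γe hγe, scaleH_mul]

/-! ## The generators -/

section Algebraic

variable {N M Q : ℕ} [NeZero N] [NeZero M] [NeZero Q]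

/-- Index type for the generators `j(q^{d e})` (`d ∣ M`, `e ∣ Q`) of `Rb N`, `N = M * Q`. -/
abbrev Idx (M Q : ℕ) : Type := {d : ℕ // d ∣ M} × {e : ℕ // e ∣ Q}

/-- The level of a generator. -/
def lev (i : Idx M Q) : ℕ := i.1.1 * i.2.1

instance neZero_lev (i : Idx M Q) : NeZero (lev i) :=
  ⟨Nat.mul_ne_zero (ne_zero_of_dvd_ne_zero (NeZero.ne M) i.1.2)
    (ne_zero_of_dvd_ne_zero (NeZero.ne Q) i.2.2)⟩

omit [NeZero N] [NeZero M] [NeZero Q] in
theorem lev_dvd (hN : N = M * Q) (i : Idx M Q) : lev i ∣ N := by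
  rw [hN]
  exact Nat.mul_dvd_mul i.1.2 i.2.2

/-- The swap `(d, e) ↦ (d, Q / e)`. -/
def swap (i : Idx M Q) : Idx M Q := (i.1, ⟨Q / i.2.1, Nat.div_dvd_of_dvd i.2.2⟩)

omit [NeZero M] in
theorem swap_swap (i : Idx M Q) : swap (swap i) = i := by
  obtain ⟨d, e, he⟩ := i
  refine Prod.ext rfl (Subtype.ext ?_)
  exact Nat.div_div_self he (NeZero.ne Q)

omit [NeZero M] in
theorem swap_comp_swap : (swap : Idx M Q → Idx M Q) ∘ swap = id := funext swap_swap

/-- The generators `j(q^{d e})`. -/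
def gen (hN : N = M * Q) (i : Idx M Q) : Fb N := jBarD N (lev i) (lev_dvd hN i)

theorem gen_mem_Rb (hN : N = M * Q) (i : Idx M Q) : gen hN i ∈ Rb N := jBarD_mem_Rb _ _ _

/-- Every generator of `Rb N` is a `gen`. -/
theorem genSetB_subset_range (hN : N = M * Q) (hcop : Nat.Coprime Q M) :
    genSetB N ⊆ Set.range (gen hN) := by
  rintro x ⟨e, he0, he, rfl⟩
  have h1 : Nat.gcd e (M * Q) = Nat.gcd e M * Nat.gcd e Q :=
    Nat.Coprime.gcd_mul e hcop.symm
  have h2 : Nat.gcd e (M * Q) = e := Nat.gcd_eq_left (hN ▸ he)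
  refine ⟨(⟨Nat.gcd e M, Nat.gcd_dvd_right e M⟩, ⟨Nat.gcd e Q, Nat.gcd_dvd_right e Q⟩), ?_⟩
  exact jBarD_congr _ (by show Nat.gcd e M * Nat.gcd e Q = e; rw [← h1, h2]) _ _

theorem range_gen_subset (hN : N = M * Q) : Set.range (gen hN) ⊆ genSetB N := by
  rintro _ ⟨i, rfl⟩
  exact jBarD_mem_genSetB _ _ _

/-- The evaluation `Kb[X_i] → Rb N`. -/
def evR (hN : N = M * Q) : MvPolynomial (Idx M Q) Kb →ₐ[Kb] Rb N :=
  (MvPolynomial.aeval (gen hN)).codRestrict (Rb N) (by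
    intro p
    have h1 : MvPolynomial.aeval (gen hN) p ∈ (MvPolynomial.aeval (R := Kb) (gen hN)).range :=
      ⟨p, rfl⟩
    rw [← Algebra.adjoin_range_eq_range_aeval] at h1
    exact Algebra.adjoin_mono (range_gen_subset hN) h1)

theorem coe_evR (hN : N = M * Q) (p : MvPolynomial (Idx M Q) Kb) :
    ((evR hN p : Rb N) : Fb N) = MvPolynomial.aeval (gen hN) p := rfl

theorem evR_X (hN : N = M * Q) (i : Idx M Q) :
    evR hN (MvPolynomial.X i) = ⟨gen hN i, gen_mem_Rb hN i⟩ :=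
  Subtype.ext (by rw [coe_evR, MvPolynomial.aeval_X])

theorem evR_surjective (hN : N = M * Q) (hcop : Nat.Coprime Q M) :
    Function.Surjective (evR hN) := by
  rintro ⟨r, hr⟩
  have h1 : r ∈ Algebra.adjoin Kb (Set.range (gen hN)) :=
    Algebra.adjoin_mono (genSetB_subset_range hN hcop) hr
  rw [Algebra.adjoin_range_eq_range_aeval] at h1
  obtain ⟨p, hp⟩ := h1
  exact ⟨p, Subtype.ext hp⟩

/-- `Ψ ∘ ev` is evaluation at the points `j(lev i · z)`. -/
theorem Psi_evR (hN : N = M * Q) (p : MvPolynomial (Idx M Q) Kb) (z : ℍ) :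
    Psi N (evR hN p) z =
      MvPolynomial.eval₂ iotaC (fun i => jAn (scaleH (lev i) z)) p := by
  have h : ((Pi.evalRingHom (fun _ : ℍ => ℂ) z).comp
      ((Psi N).comp (evR hN).toRingHom)) =
      MvPolynomial.eval₂Hom iotaC (fun i => jAn (scaleH (lev i) z)) := by
    apply MvPolynomial.ringHom_ext
    · intro r
      have e1 : (evR hN).toRingHom (MvPolynomial.C r) = algebraMap Kb (Rb N) r := by
        rw [← MvPolynomial.algebraMap_eq]
        exact (evR hN).commutes r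
      simp only [RingHom.coe_comp, Function.comp_apply, Pi.evalRingHom_apply, e1, Psi_algebraMap,
        MvPolynomial.coe_eval₂Hom, MvPolynomial.eval₂_C]
    · intro i
      have e1 : (evR hN).toRingHom (MvPolynomial.X i) = ⟨gen hN i, gen_mem_Rb hN i⟩ :=
        evR_X hN i
      simp only [RingHom.coe_comp, Function.comp_apply, Pi.evalRingHom_apply, e1,
        MvPolynomial.coe_eval₂Hom, MvPolynomial.eval₂_X]
      unfold gen
      rw [Psi_jBarD]
  exact congrArg (fun f => f p) h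

/-- The swap preserves the kernel of the evaluation. -/
theorem evR_rename_swap_eq_zero (hN : N = M * Q) (hcop : Nat.Coprime Q M)
    (p : MvPolynomial (Idx M Q) Kb) (hp : evR hN p = 0) :
    evR hN (MvPolynomial.rename swap p) = 0 := by
  obtain ⟨W, hW⟩ := exists_swapGen M Q hcop
  apply Psi_injective
  funext z
  rw [Psi_evR, MvPolynomial.eval₂_rename, map_zero]
  have h2 : ((fun i : Idx M Q => jAn (scaleH (lev i) z)) ∘ swap) =
      fun i => jAn (scaleH (lev i) (W z)) := by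
    funext i
    obtain ⟨⟨d, hd⟩, ⟨e, he⟩⟩ := i
    haveI : NeZero d := ⟨ne_zero_of_dvd_ne_zero (NeZero.ne M) hd⟩
    haveI : NeZero e := ⟨ne_zero_of_dvd_ne_zero (NeZero.ne Q) he⟩
    have he' : e * (Q / e) = Q := Nat.mul_div_cancel' he
    haveI : NeZero (Q / e) := ⟨fun h0 => NeZero.ne Q (by rw [← he', h0, mul_zero])⟩
    haveI : NeZero (d * e) := ⟨Nat.mul_ne_zero (NeZero.ne d) (NeZero.ne e)⟩
    haveI : NeZero (d * (Q / e)) := ⟨Nat.mul_ne_zero (NeZero.ne d) (NeZero.ne (Q / e))⟩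
    exact (hW d e (Q / e) hd he' z).symm
  rw [h2, ← Psi_evR hN, hp, map_zero]
  rfl

/-! ## The involution on `Rb N` -/

/-- The Atkin–Lehner involution `W_Q` on `Rb N`, as an algebra endomorphism. -/
def wR (hN : N = M * Q) (hcop : Nat.Coprime Q M) : Rb N →ₐ[Kb] Rb N :=
  (Ideal.Quotient.liftₐ (RingHom.ker (evR hN)) ((evR hN).comp (MvPolynomial.rename swap))
      (fun a ha => evR_rename_swap_eq_zero hN hcop a (RingHom.mem_ker.mp ha))).comp
    (Ideal.quotientKerAlgEquivOfSurjective (evR_surjective hN hcop)).symm.toAlgHom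

theorem wR_evR (hN : N = M * Q) (hcop : Nat.Coprime Q M) (p : MvPolynomial (Idx M Q) Kb) :
    wR hN hcop (evR hN p) = evR hN (MvPolynomial.rename swap p) := by
  unfold wR
  rw [AlgHom.comp_apply]
  have h1 : (Ideal.quotientKerAlgEquivOfSurjective (evR_surjective hN hcop)).symm.toAlgHom
      (evR hN p) = Ideal.Quotient.mk (RingHom.ker (evR hN)) p :=
    Ideal.quotientKerAlgEquivOfSurjective_symm_apply (evR_surjective hN hcop) p
  rw [h1, Ideal.Quotient.liftₐ_apply, Ideal.Quotient.lift_mk]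
  rfl

theorem wR_wR (hN : N = M * Q) (hcop : Nat.Coprime Q M) (r : Rb N) :
    wR hN hcop (wR hN hcop r) = r := by
  obtain ⟨p, rfl⟩ := evR_surjective hN hcop r
  rw [wR_evR, wR_evR, MvPolynomial.rename_rename, swap_comp_swap (M := M) (Q := Q),
    MvPolynomial.rename_id]
  rfl

theorem wR_gen (hN : N = M * Q) (hcop : Nat.Coprime Q M) (i : Idx M Q) :
    wR hN hcop ⟨gen hN i, gen_mem_Rb hN i⟩ = ⟨gen hN (swap i), gen_mem_Rb hN _⟩ := by
  rw [← evR_X, wR_evR, MvPolynomial.rename_X, evR_X]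

/-- The Atkin–Lehner involution `W_Q` on `Rb N`, as an algebra automorphism. -/
def wREquiv (hN : N = M * Q) (hcop : Nat.Coprime Q M) : Rb N ≃ₐ[Kb] Rb N :=
  AlgEquiv.ofAlgHom (wR hN hcop) (wR hN hcop)
    (AlgHom.ext fun r => wR_wR hN hcop r) (AlgHom.ext fun r => wR_wR hN hcop r)

/-! ## The involution on `Fb N` -/

/-- **The general Atkin–Lehner involution** `W_Q` of `Fb N`, `N = M * Q`, `gcd(Q, M) = 1`. -/
def atkinLehnerGen (hN : N = M * Q) (hcop : Nat.Coprime Q M) : Fb N ≃ₐ[Kb] Fb N :=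
  AlgEquiv.ofRingEquiv
    (f := (IsFractionRing.ringEquivOfRingEquiv (K := Fb N) (L := Fb N)
      (wREquiv hN hcop).toRingEquiv)) (by
    intro c
    have h1 : algebraMap Kb (Fb N) c =
        algebraMap (Rb N) (Fb N) (algebraMap Kb (Rb N) c) := rfl
    rw [h1, IsFractionRing.ringEquivOfRingEquiv_algebraMap]
    congr 1
    exact (wREquiv hN hcop).commutes c)

theorem atkinLehnerGen_coe (hN : N = M * Q) (hcop : Nat.Coprime Q M) (r : Rb N) :
    atkinLehnerGen hN hcop (r : Fb N) = ((wR hN hcop r : Rb N) : Fb N) := by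
  have h := IsFractionRing.ringEquivOfRingEquiv_algebraMap (K := Fb N) (L := Fb N)
    (wREquiv hN hcop).toRingEquiv r
  exact h

theorem atkinLehnerGen_gen (hN : N = M * Q) (hcop : Nat.Coprime Q M) (i : Idx M Q) :
    atkinLehnerGen hN hcop (gen hN i) = gen hN (swap i) := by
  have h := atkinLehnerGen_coe hN hcop ⟨gen hN i, gen_mem_Rb hN i⟩
  rw [wR_gen] at h
  exact h

/-- `W_Q` is an involution. -/
theorem atkinLehnerGen_atkinLehnerGen (hN : N = M * Q) (hcop : Nat.Coprime Q M) (f : Fb N) :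
    atkinLehnerGen hN hcop (atkinLehnerGen hN hcop f) = f := by
  obtain ⟨g, h, -, rfl⟩ := exists_Rb_div N f
  rw [map_div₀, map_div₀, atkinLehnerGen_coe, atkinLehnerGen_coe, atkinLehnerGen_coe,
    atkinLehnerGen_coe, wR_wR, wR_wR]

/-- **`W_Q j(q^{d e}) = j(q^{d e'})`** for `d ∣ M`, `e * e' = Q`. -/
theorem atkinLehnerGen_jBarD (hN : N = M * Q) (hcop : Nat.Coprime Q M) (d e e' : ℕ)
    [NeZero (d * e)] [NeZero (d * e')] (hd : d ∣ M) (he : e * e' = Q) (h1 : d * e ∣ N)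
    (h2 : d * e' ∣ N) :
    atkinLehnerGen hN hcop (jBarD N (d * e) h1) = jBarD N (d * e') h2 := by
  have hed : e ∣ Q := Dvd.intro _ he
  have e1 : jBarD N (d * e) h1 = gen hN (⟨d, hd⟩, ⟨e, hed⟩) := rfl
  have he0 : 0 < e := by
    rcases Nat.eq_zero_or_pos e with h0 | h0
    · exact absurd (by rw [← he, h0, zero_mul]) (NeZero.ne Q)
    · exact h0
  have hdiv : Q / e = e' := Nat.div_eq_of_eq_mul_right he0 he.symm
  have e2 : gen hN (swap (⟨d, hd⟩, ⟨e, hed⟩)) = jBarD N (d * e') h2 :=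
    jBarD_congr _ (by show d * (Q / e) = d * e'; rw [hdiv]) _ _
  rw [e1, atkinLehnerGen_gen, e2]

end Algebraic

/-! ## The case `Q = q * q`: `W_{q²}` on `F̄_{Mq²}` -/

section Sq

open Fermat.Agent.BR3.FibreProd Fermat.Agent.BR.TwoVal Fermat.Agent.BR.ResGen

variable {M q : ℕ} [NeZero M] [hq : Fact q.Prime]

scoped instance neZero_qq : NeZero (q * q) := ⟨Nat.mul_ne_zero hq.out.ne_zero hq.out.ne_zero⟩

omit [NeZero M] in
theorem coprime_sq_of_not_dvd (hqM : ¬ q ∣ M) : Nat.Coprime (q * q) M :=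
  Nat.Coprime.mul_left (coprime_of_not_dvd hqM) (coprime_of_not_dvd hqM)

/-- **The Atkin–Lehner involution `W_{q²}`** of `F̄_{Mq²}`. -/
def W2 (hqM : ¬ q ∣ M) : Fb (M * q * q) ≃ₐ[Kb] Fb (M * q * q) :=
  atkinLehnerGen (N := M * q * q) (M := M) (Q := q * q) (mul_assoc M q q)
    (coprime_sq_of_not_dvd hqM)

@[simp]
theorem W2_W2 (hqM : ¬ q ∣ M) (f : Fb (M * q * q)) : W2 hqM (W2 hqM f) = f :=
  atkinLehnerGen_atkinLehnerGen _ _ f

omit [NeZero M] hq in
theorem dvd_Mqq_0 (d : ℕ) (hd : d ∣ M) : d ∣ M * q * q :=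
  Dvd.dvd.mul_right (Dvd.dvd.mul_right hd q) q

omit [NeZero M] hq in
theorem dvd_Mqq_1 (d : ℕ) (hd : d ∣ M) : d * q ∣ M * q * q :=
  Dvd.dvd.mul_right (Nat.mul_dvd_mul_right hd q) q

omit [NeZero M] hq in
theorem dvd_Mqq_2 (d : ℕ) (hd : d ∣ M) : d * q * q ∣ M * q * q :=
  Nat.mul_dvd_mul_right (Nat.mul_dvd_mul_right hd q) q

variable (hqM : ¬ q ∣ M) (d : ℕ) [NeZero d] (hd : d ∣ M)

/-- `W_{q²} j(q^d) = j(q^{d q²})`. -/
theorem W2_jBarD_0 :
    W2 hqM (jBarD (M * q * q) d (dvd_Mqq_0 d hd)) =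
      jBarD (M * q * q) (d * q * q) (dvd_Mqq_2 d hd) := by
  haveI : NeZero (d * 1) := ⟨by rw [mul_one]; exact NeZero.ne d⟩
  haveI : NeZero (d * (q * q)) := ⟨Nat.mul_ne_zero (NeZero.ne d) (NeZero.ne (q * q))⟩
  have h1 : d * 1 ∣ M * q * q := by rw [mul_one]; exact dvd_Mqq_0 d hd
  have h2 : d * (q * q) ∣ M * q * q := by rw [← mul_assoc]; exact dvd_Mqq_2 d hd
  have e1 : jBarD (M * q * q) d (dvd_Mqq_0 d hd) = jBarD (M * q * q) (d * 1) h1 :=
    jBarD_congr _ (mul_one d).symm _ _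
  have e2 : jBarD (M * q * q) (d * (q * q)) h2 = jBarD (M * q * q) (d * q * q) (dvd_Mqq_2 d hd) :=
    jBarD_congr _ (mul_assoc d q q).symm _ _
  rw [e1, ← e2]
  exact atkinLehnerGen_jBarD _ _ d 1 (q * q) hd (one_mul _) h1 h2

/-- `W_{q²} j(q^{d q}) = j(q^{d q})`. -/
theorem W2_jBarD_1 :
    W2 hqM (jBarD (M * q * q) (d * q) (dvd_Mqq_1 d hd)) =
      jBarD (M * q * q) (d * q) (dvd_Mqq_1 d hd) :=
  atkinLehnerGen_jBarD _ _ d q q hd rfl _ _

/-- `W_{q²} j(q^{d q²}) = j(q^d)`. -/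
theorem W2_jBarD_2 :
    W2 hqM (jBarD (M * q * q) (d * q * q) (dvd_Mqq_2 d hd)) =
      jBarD (M * q * q) d (dvd_Mqq_0 d hd) := by
  rw [← W2_jBarD_0 hqM d hd, W2_W2]

/-- **`W_{q²} ∘ α₂ = β₂ ∘ W_q`.** -/
theorem W2_alpha2 (x : Fb (M * q)) :
    W2 hqM (alpha2 M q x) = beta2 M q (Wq hqM x) := by
  have h := algHom_ext_Fb (M * q) ((W2 hqM).toAlgHom.comp (alpha2 M q))
    ((beta2 M q).comp (Wq hqM).toAlgHom) (by
      intro D _ hD
      by_cases hle : q ∣ D
      · obtain ⟨d, rfl⟩ := hle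
        have hd' : d ∣ M := by
          rw [mul_comm M q] at hD
          exact Nat.dvd_of_mul_dvd_mul_left hq.out.pos hD
        haveI : NeZero d := ⟨ne_zero_of_dvd_ne_zero (NeZero.ne M) hd'⟩
        have e0 : jBarD (M * q) (q * d) hD =
            jBarD (M * q) (d * q) (Nat.mul_dvd_mul_right hd' q) :=
          jBarD_congr _ (mul_comm q d) _ _
        rw [e0]
        show W2 hqM (heckeAlphaBar Kb (M * q) q (jBarD (M * q) (d * q) _)) =
          heckeBetaBar Kb (M * q) q (Wq hqM (jBarD (M * q) (d * q) _))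
        rw [heckeAlphaBar_jBarD, Wq_jBarD_mul hqM d hd', heckeBetaBar_jBarD]
        exact W2_jBarD_1 hqM d hd'
      · have hd' : D ∣ M := by
          have hc : Nat.Coprime D q := ((Nat.Prime.coprime_iff_not_dvd hq.out).mpr hle).symm
          exact hc.dvd_of_dvd_mul_right hD
        show W2 hqM (heckeAlphaBar Kb (M * q) q (jBarD (M * q) D _)) =
          heckeBetaBar Kb (M * q) q (Wq hqM (jBarD (M * q) D _))
        rw [heckeAlphaBar_jBarD, Wq_jBarD hqM D hd', heckeBetaBar_jBarD]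
        exact W2_jBarD_0 hqM D hd')
  exact congrArg (fun f => f x) h

/-- **`W_{q²} ∘ β₂ = α₂ ∘ W_q`.** -/
theorem W2_beta2 (x : Fb (M * q)) :
    W2 hqM (beta2 M q x) = alpha2 M q (Wq hqM x) := by
  have h := W2_alpha2 hqM (Wq hqM x)
  rw [Wq_Wq] at h
  rw [← h, W2_W2]

end Sq

end Fermat.Agent.BR3.ALSq
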