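import Mathlib
import Fermat.Agent.BR.Circle.ConserveEnds
import Fermat.Agent.Red.Charts

/-!
# Program C (S36), node A9 / (C-COVER-PT), part 4: the Newton count on an annulus sheet

`T` a set of places of `F / K` with an annulus core `C : Circle.AnnulusCore A T` (coordinate `u`
mapping `T` bijectively onto `|thick| < |c| < 1`, simple zeros, factorisation) — setup-free, so
usable for the annulus sheets of the cover BEFORE the semistable setup of the cover exists.

* `count_eq_sum_of_factor` : the number of zeros minus poles on `T` of a function `y`, read off a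
  factorisation `y = c · u^b · ∏_{Q ∈ S} (u - u(Q))^(n Q) · (tube unit)` : it is `∑_{Q ∈ S} n Q`;
* `hiExp_sub_loExp` : the exponents of the reduction formula on the circle of gauge `a` differ by
  the number of zeros on that circle;
* **`count_monomial`** : if `y₀ = c₀ · u^b₀ · (tube unit)` on `T` (`b₀ ≥ 1`: the sheet maps to the
  annulus downstairs with degree `b₀`, orientation preserved) and `|c'| = |c₀| |a|^b₀` for a gauge
  `|thick| < |a| < 1`, then `y₀ - c'` has exactly `b₀` zeros on `T`, counted with multiplicities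
  (Newton polygon: the reduction of `(y₀ - c') / c'` on the circle of gauge `a` is
  `λ X^b₀ - 1`).

This is the hypothesis `hcount` of `SheetCount.exists_mem_sheet_of_count` /
`SheetCount.partition_of_sheets` for an ANNULUS sheet `T''` over an annulus `T'` of the base with
coordinate `u'`: take `y₀ := ` the image of `u'` in `F''` (`b₀ = 1`, tube unit `1` for a split
sheet with the same coordinate; `b₀ = d` for a Kummer sheet `z^d = u' · η`; `b₀ = q` for the wild
sheet).
-/

set_option autoImplicit false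

noncomputable section

namespace Fermat.Agent.BR3.AnnulusCount

open AlgebraicCurve IsLocalRing Fermat.Agent.Red Fermat.Agent.BR.InertiaRed
  Fermat.Agent.BR.AnnulusRed Fermat.Agent.BR.P1 Fermat.Agent.BR.Centre Fermat.Agent.BR.Circle

variable {K F : Type*} [Field K] [Field F] [Algebra K F] {A : ValuationSubring K}
  {T : Set (Place K F)}

/-- **The count of zeros minus poles on the tube, read off a factorisation.** -/
theorem count_eq_sum_of_factor (C : AnnulusCore A T) {y : F} {S : Finset (Place K F)}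
    {n : Place K F → ℤ} {b : ℤ} {c : K} (hS : ∀ Q ∈ S, Q ∈ T) (hc : c ≠ 0)
    (hε : TubeUnit A T (y * (factorFun C S n b c)⁻¹)) (D : Divisor K F)
    (hD : ∀ P, D P = P.ord y) :
    Finsupp.mapDomain (fun P => P ∈ T) D True = ∑ Q ∈ S, n Q := by
  classical
  rw [mapDomain_apply_eq_sum]
  have e1 : ∀ P ∈ D.support,
      (letI := Classical.propDecidable ((P ∈ T) = True); if (P ∈ T) = True then D P else 0) =
      if P ∈ T then D P else 0 := by
    intro P _
    by_cases hP : P ∈ T
    · rw [if_pos hP, if_pos (eq_true hP)]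
    · rw [if_neg hP, if_neg (fun h => hP (of_eq_true h))]
  rw [Finset.sum_congr rfl e1, ← Finset.sum_filter]
  have hDT : ∀ P ∈ T, D P = if P ∈ S then n P else 0 := fun P hP => by
    rw [hD, ord_of_factor C hS hc hε hP]
  have e2 : D.support.filter (fun P => P ∈ T) = S.filter (fun Q => n Q ≠ 0) := by
    ext P
    simp only [Finset.mem_filter, Finsupp.mem_support_iff]
    constructor
    · rintro ⟨h1, h2⟩
      rw [hDT P h2] at h1
      by_cases hPS : P ∈ S
      · rw [if_pos hPS] at h1
        exact ⟨hPS, h1⟩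
      · rw [if_neg hPS] at h1
        exact absurd rfl h1
    · rintro ⟨h1, h2⟩
      refine ⟨?_, hS P h1⟩
      rw [hDT P (hS P h1), if_pos h1]
      exact h2
  rw [e2, Finset.sum_filter]
  refine Finset.sum_congr rfl fun Q hQ => ?_
  rw [hDT Q (hS Q hQ), if_pos hQ]
  by_cases h0 : n Q = 0
  · rw [if_neg (not_not.mpr h0), h0]
  · rw [if_pos h0]

open Classical in
/-- The exponents of the reduction formula on the circle of gauge `a` differ by the number of
zeros (minus poles) on that circle. -/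
theorem hiExp_sub_loExp (C : AnnulusCore A T) (a : K) (S : Finset (Place K F))
    (n : Place K F → ℤ) (b : ℤ) :
    hiExp C a S n b - loExp C a S n b =
      ∑ Q ∈ S with A.valuation (evalAt Q C.u) = A.valuation a, n Q := by
  rw [hiExp_eq, loExp_eq, Finset.sum_filter]
  rw [add_sub_add_left_eq_sub, ← Finset.sum_sub_distrib]
  refine Finset.sum_congr rfl fun Q _ => ?_
  rcases lt_trichotomy (A.valuation (evalAt Q C.u)) (A.valuation a) with h | h | h
  · rw [if_pos h.le, if_pos h, if_neg h.ne, sub_self]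
  · rw [if_pos h.le, if_neg (lt_irrefl _ |>.elim <| h ▸ ·), if_pos h]
    ring
  · rw [if_neg (not_le.mpr h), if_neg (not_lt.mpr h.le), if_neg h.ne', sub_self]

section Monomial

variable [IsAlgClosed (ResidueField A)]

local notation "k" => ResidueField A

/-- The reduction `λ X^b₀ - 1` has order `0` at `X = 0`. -/
theorem ord_zero_monomial_sub_one {l : k} {b₀ : ℕ} (hb₀ : 0 < b₀) :
    (placeAt k 0).ord (RatFunc.C l * (RatFunc.X : RatFunc k) ^ b₀ - 1) = 0 := by
  have h1 : IsValueAt (placeAt k 0) (RatFunc.C l * (RatFunc.X : RatFunc k) ^ b₀ - 1)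
      (l * 0 ^ b₀ - 1) := by
    have hC : IsValueAt (placeAt k 0) (RatFunc.C l : RatFunc k) l := by
      rw [← RatFunc.algebraMap_eq_C]
      exact isValueAt_algebraMap _ _
    exact (hC.mul ((isValueAt_placeAt_X (0 : k)).pow b₀)).sub (isValueAt_one _)
  rw [zero_pow hb₀.ne', mul_zero, zero_sub] at h1
  exact h1.ord_eq_zero (neg_ne_zero.mpr one_ne_zero)

/-- The reduction `λ X^b₀ - 1`, `λ ≠ 0`, has order `-b₀` at `X = ∞`. -/
theorem ord_infty_monomial_sub_one {l : k} (hl : l ≠ 0) {b₀ : ℕ} (hb₀ : 0 < b₀) :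
    (placeInfty k).ord (RatFunc.C l * (RatFunc.X : RatFunc k) ^ b₀ - 1) = -(b₀ : ℤ) := by
  have hX : (RatFunc.X : RatFunc k) ≠ 0 := RatFunc.X_ne_zero
  have hfac : RatFunc.C l * (RatFunc.X : RatFunc k) ^ b₀ - 1 =
      (RatFunc.X : RatFunc k) ^ b₀ * (RatFunc.C l - ((RatFunc.X : RatFunc k))⁻¹ ^ b₀) := by
    rw [mul_sub, inv_pow, mul_inv_cancel₀ (pow_ne_zero _ hX)]
    ring
  have h1 : IsValueAt (placeInfty k) (RatFunc.C l - ((RatFunc.X : RatFunc k))⁻¹ ^ b₀)
      (l - 0 ^ b₀) := by
    have hC : IsValueAt (placeInfty k) (RatFunc.C l : RatFunc k) l := by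
      rw [← RatFunc.algebraMap_eq_C]
      exact isValueAt_algebraMap _ _
    exact hC.sub (isValueAt_placeInfty_X_inv.pow b₀)
  rw [zero_pow hb₀.ne', sub_zero] at h1
  have h2 : RatFunc.C l - ((RatFunc.X : RatFunc k))⁻¹ ^ b₀ ≠ 0 := by
    intro h0
    rw [h0] at h1
    exact hl (h1.unique (isValueAt_zero _))
  rw [hfac, Place.ord_mul _ (pow_ne_zero _ hX) h2, h1.ord_eq_zero hl, add_zero,
    Fermat.Agent.X0.Place.ord_pow, ord_placeInfty_X]
  ring

/-- **The Newton count on an annulus sheet**: `y₀ = c₀ · u^b₀ · (tube unit)` on `T`, `b₀ ≥ 1`,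
and `|c'| = |c₀| |a|^b₀` for a gauge `|thick| < |a| < 1`. Then `y₀ - c'` has exactly `b₀` zeros on
`T`, counted with multiplicities. -/
theorem count_monomial (C : AnnulusCore A T) {y₀ : F} {c₀ : K} (hc₀ : c₀ ≠ 0) {b₀ : ℕ}
    (hb₀ : 0 < b₀) (hε₀ : TubeUnit A T (y₀ * (c₀ • C.u ^ b₀)⁻¹)) {c' a : K}
    (ha1 : A.valuation C.thick < A.valuation a) (ha2 : A.valuation a < 1)
    (hca : A.valuation c₀ * A.valuation a ^ b₀ = A.valuation c') (D : Divisor K F)
    (hD : ∀ P, D P = P.ord (y₀ - algebraMap K F c')) :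
    Finsupp.mapDomain (fun P => P ∈ T) D True = (b₀ : ℤ) := by
  classical
  have ha : a ≠ 0 := gauge_ne_zero ha1
  have hc' : c' ≠ 0 := by
    rintro rfl
    rw [map_zero] at hca
    have h1 : A.valuation c₀ ≠ 0 := (Valuation.ne_zero_iff _).mpr hc₀
    have h2 : A.valuation a ^ b₀ ≠ 0 := pow_ne_zero _ ((Valuation.ne_zero_iff _).mpr ha)
    exact mul_ne_zero h1 h2 hca
  -- the tube is not empty
  obtain ⟨P₀, ⟨hP₀, -⟩, -⟩ := C.bij a ha1 ha2
  have hu0 : C.u ≠ 0 := u_ne_zero_of_mem C hP₀
  have hg0 : c₀ • C.u ^ b₀ ≠ 0 := smul_ne_zero hc₀ (pow_ne_zero _ hu0)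
  set ε : F := y₀ * (c₀ • C.u ^ b₀)⁻¹ with hεdef
  have hy₀ : y₀ = ε * (c₀ • C.u ^ b₀) := by
    rw [hεdef, mul_assoc, inv_mul_cancel₀ hg0, mul_one]
  -- the constant `λ`
  set l : K := c₀ * a ^ b₀ / c' with hl
  have hlv : A.valuation l = 1 := by
    rw [hl, map_div₀, map_mul, map_pow, hca]
    exact div_self ((Valuation.ne_zero_iff _).mpr hc')
  have hlA : l ∈ A := (A.valuation_le_one_iff _).mp hlv.le
  have hlres : residue A ⟨l, hlA⟩ ≠ 0 := by
    intro h0
    rw [residue_eq_zero_iff] at h0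
    have := (A.valuation_lt_one_iff ⟨l, hlA⟩).mp h0
    rw [hlv] at this
    exact lt_irrefl _ this
  -- the normalised function and its reduction
  set y' : F := c'⁻¹ • (y₀ - algebraMap K F c') with hy'
  have hy'eq : y' = l • ((a⁻¹ • C.u) ^ b₀ * ε) + -1 := by
    rw [hy', hy₀, hl]
    have haF : algebraMap K F a ≠ 0 := (map_ne_zero _).mpr ha
    have hcF : algebraMap K F c' ≠ 0 := (map_ne_zero _).mpr hc'
    simp only [Algebra.smul_def, map_div₀, map_mul, map_pow, map_inv₀]
    rw [mul_pow, inv_pow]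
    field_simp
    ring
  set yb : RatFunc k := RatFunc.C (residue A ⟨l, hlA⟩) * (RatFunc.X : RatFunc k) ^ b₀ - 1
    with hyb
  have hred : IsRed C a y' yb := by
    have h1 := (((isRed_coord (C := C) ha).pow b₀).mul
      (isRed_tubeUnit (C := C) (a := a) hε₀)).smul hlA
    have h2 := h1.add (isRed_one (C := C) (a := a)).neg
    rw [mul_one, ← sub_eq_add_neg (RatFunc.C _ * _)] at h2
    rw [hy'eq]
    exact h2
  have hyb0 : yb ≠ 0 := by
    intro h0
    have := ord_infty_monomial_sub_one (A := A) hlres hb₀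
    rw [← hyb, h0, Place.ord_zero] at this
    omega
  have hy'0 : y' ≠ 0 := hred.ne_zero ha1 ha2 hyb0
  have hmem : y' ∈ circleRing C a ha1 ha2 := ⟨yb, hred⟩
  have hres : circleRes C a ha1 ha2 ⟨y', hmem⟩ = yb := circleRes_mk C a ha1 ha2 hred
  -- a factorisation of the normalised function
  obtain ⟨S, n, b, c, hS, hc, hε⟩ := C.factor y' hy'0
  have hε' : TubeUnit A T (y' * (factorFun C S n b c)⁻¹) := hε
  have hres0 : circleRes C a ha1 ha2 ⟨y', hmem⟩ ≠ 0 := by rw [hres]; exact hyb0
  have hlo : loExp C a S n b = 0 := by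
    rw [← ord_placeAt_zero_circleRes ha1 ha2 hc hε' hmem hres0, hres, hyb]
    exact ord_zero_monomial_sub_one hb₀
  have hhi : hiExp C a S n b = (b₀ : ℤ) := by
    have h1 := ord_placeInfty_circleRes ha1 ha2 hc hε' hmem hres0
    rw [hres, hyb, ord_infty_monomial_sub_one hlres hb₀] at h1
    omega
  -- all zeros lie on the circle of gauge `a`
  have hcirc : ∀ Q ∈ S, n Q ≠ 0 → A.valuation (evalAt Q C.u) = A.valuation a := by
    intro Q hQ hn
    have hQT := hS Q hQ
    obtain ⟨hv, hv1, hv2⟩ := isValueAt_evalAt_u C hQT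
    set v := evalAt Q C.u with hvdef
    obtain ⟨d, hd, hd1⟩ := hε₀ Q hQT
    have hdv : A.valuation d = 1 := by
      have h1 : d = (d - 1) + 1 := by ring
      rw [h1]
      exact Valuation.map_add_eq_of_lt_right _ (by rw [map_one]; exact hd1) |>.trans (map_one _)
    have hval : IsValueAt Q y' (c'⁻¹ * (d * (c₀ * v ^ b₀) - c')) := by
      rw [hy', hy₀]
      exact ((hd.mul ((hv.pow b₀).smul c₀)).sub (isValueAt_algebraMap Q c')).smul c'⁻¹
    have hordQ : Q.ord y' = n Q := by
      rw [ord_of_factor C hS hc hε' hQT, if_pos hQ]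
    have hzero : c'⁻¹ * (d * (c₀ * v ^ b₀) - c') = 0 := by
      by_contra hne
      exact hn (hordQ ▸ hval.ord_eq_zero hne)
    have h2 : d * (c₀ * v ^ b₀) = c' := by
      rcases mul_eq_zero.mp hzero with h | h
      · exact absurd (inv_eq_zero.mp h) hc'
      · exact sub_eq_zero.mp h
    have h3 : A.valuation c₀ * A.valuation v ^ b₀ = A.valuation c₀ * A.valuation a ^ b₀ := by
      rw [hca, ← h2, map_mul, map_mul, map_pow, hdv, one_mul]
    have h4 : A.valuation v ^ b₀ = A.valuation a ^ b₀ :=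
      mul_left_cancel₀ ((Valuation.ne_zero_iff _).mpr hc₀) h3
    rcases lt_trichotomy (A.valuation v) (A.valuation a) with h | h | h
    · exact absurd h4 (ne_of_lt (pow_lt_pow_left₀ h zero_le hb₀.ne'))
    · exact h
    · exact absurd h4 (ne_of_gt (pow_lt_pow_left₀ h zero_le hb₀.ne'))
  -- the count
  have hD' : ∀ P, D P = P.ord y' := by
    intro P
    have hne : y₀ - algebraMap K F c' ≠ 0 := by
      intro h0
      apply hy'0
      rw [hy', h0, smul_zero]
    rw [hD, hy', Algebra.smul_def, P.ord_mul ((map_ne_zero _).mpr (inv_ne_zero hc')) hne,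
      Fermat.Agent.X0.Place.ord_algebraMap, zero_add]
  rw [count_eq_sum_of_factor C hS hc hε' D hD']
  have h5 := hiExp_sub_loExp C a S n b
  rw [hhi, hlo, sub_zero] at h5
  rw [h5, Finset.sum_filter]
  refine Finset.sum_congr rfl fun Q hQ => ?_
  by_cases h0 : n Q = 0
  · rw [h0]
    split_ifs <;> rfl
  · rw [if_pos (hcirc Q hQ h0)]

/-- The Newton count when `K` is algebraically closed: the gauge exists for every `c'` in the
image range `|c₀| |thick|^b₀ < |c'| < |c₀|`. -/
theorem count_monomial_of_isAlgClosed [IsAlgClosed K] (C : AnnulusCore A T) {y₀ : F} {c₀ : K}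
    (hc₀ : c₀ ≠ 0) {b₀ : ℕ} (hb₀ : 0 < b₀) (hε₀ : TubeUnit A T (y₀ * (c₀ • C.u ^ b₀)⁻¹)) {c' : K}
    (h1 : A.valuation c₀ * A.valuation C.thick ^ b₀ < A.valuation c')
    (h2 : A.valuation c' < A.valuation c₀) (D : Divisor K F)
    (hD : ∀ P, D P = P.ord (y₀ - algebraMap K F c')) :
    Finsupp.mapDomain (fun P => P ∈ T) D True = (b₀ : ℤ) := by
  obtain ⟨a, ha⟩ := IsAlgClosed.exists_pow_nat_eq (c' / c₀) hb₀
  have hv0 : A.valuation c₀ ≠ 0 := (Valuation.ne_zero_iff _).mpr hc₀
  have hca : A.valuation c₀ * A.valuation a ^ b₀ = A.valuation c' := by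
    rw [← map_pow, ha, map_div₀, mul_div_cancel₀ _ hv0]
  have ha1 : A.valuation C.thick < A.valuation a := by
    by_contra hcon
    have hle : A.valuation a ^ b₀ ≤ A.valuation C.thick ^ b₀ :=
      pow_le_pow_left₀ zero_le (not_lt.mp hcon) b₀
    have : A.valuation c' ≤ A.valuation c₀ * A.valuation C.thick ^ b₀ := by
      rw [← hca]
      exact mul_le_mul_right hle _
    exact absurd h1 (not_lt.mpr this)
  have ha2 : A.valuation a < 1 := by
    by_contra hcon
    have hle : (1 : A.ValueGroup) ≤ A.valuation a ^ b₀ := one_le_pow₀ (not_lt.mp hcon)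
    have : A.valuation c₀ ≤ A.valuation c' := by
      rw [← hca]
      calc A.valuation c₀ = A.valuation c₀ * 1 := (mul_one _).symm
        _ ≤ A.valuation c₀ * A.valuation a ^ b₀ := mul_le_mul_right hle _
    exact absurd h2 (not_lt.mpr this)
  exact count_monomial C hc₀ hb₀ hε₀ ha1 ha2 hca D hD

/-- The coordinate itself: `u - c'` has exactly one zero on the tube, for every `c'` of the
annulus. (The count of a split sheet with the same coordinate.) -/
theorem count_coord (C : AnnulusCore A T) {c' : K} (h1 : A.valuation C.thick < A.valuation c')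
    (h2 : A.valuation c' < 1) (D : Divisor K F)
    (hD : ∀ P, D P = P.ord (C.u - algebraMap K F c')) :
    Finsupp.mapDomain (fun P => P ∈ T) D True = 1 := by
  obtain ⟨P₀, ⟨hP₀, -⟩, -⟩ := C.bij c' h1 h2
  have hu0 : C.u ≠ 0 := u_ne_zero_of_mem C hP₀
  have hε : TubeUnit A T (C.u * ((1 : K) • C.u ^ 1)⁻¹) := by
    rw [one_smul, pow_one, mul_inv_cancel₀ hu0]
    intro P _
    exact ⟨1, isValueAt_one P, by rw [sub_self, map_zero]; exact zero_lt_one⟩
  have := count_monomial C (one_ne_zero) (one_pos) hε h1 h2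
    (by rw [map_one, one_mul, pow_one]) D hD
  exact_mod_cast this

end Monomial

/-! ### the shape of `SheetCount.hcount` -/

section Cover

variable {F' : Type*} [Field F'] [Algebra K F'] [Algebra F' F] [IsScalarTower K F' F]
  [IsAlgClosed (ResidueField A)] [IsAlgClosed K]

/-- **`hcount` for an annulus sheet** (`F` is the function field of the cover, `F'` of the base,
`u'` the coordinate of the annulus of the base): if the image of `u'` is
`c₀ · u^b₀ · (tube unit)` on the sheet `T`, then `u' - c'` has `b₀` zeros on the sheet. -/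
theorem count_annulus_sheet (C : AnnulusCore A T) {u' : F'} {c₀ : K} (hc₀ : c₀ ≠ 0) {b₀ : ℕ}
    (hb₀ : 0 < b₀) (hε₀ : TubeUnit A T (algebraMap F' F u' * (c₀ • C.u ^ b₀)⁻¹)) {c' : K}
    (h1 : A.valuation c₀ * A.valuation C.thick ^ b₀ < A.valuation c')
    (h2 : A.valuation c' < A.valuation c₀) (D : Divisor K F)
    (hD : ∀ P, D P = P.ord (algebraMap F' F (u' - algebraMap K F' c'))) :
    Finsupp.mapDomain (fun P => P ∈ T) D True = (b₀ : ℤ) := by
  refine count_monomial_of_isAlgClosed C hc₀ hb₀ hε₀ h1 h2 D fun P => ?_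
  rw [hD, map_sub, ← IsScalarTower.algebraMap_apply]

end Cover

end Fermat.Agent.BR3.AnnulusCount
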