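import Mathlib
import Fermat.Agent.BR.TwoVal

/-!
# Program C, node (C-NR4), part 1: finitely many valuations over one valuation

`E / F` a finite field extension, `O₀` a valuation subring of `F`, `O : V → ValuationSubring E`
a family of rank one valuation subrings of `E` lying over `O₀`, pairwise separated
(generalisation of `BR/TwoVal` from two valuations to a finite family).

* `Setup O₀ O` : the family (`lies`, `arch`, pairwise `sep`);
* `Setup.exists_big_small`, `Setup.exists_big_small_finset` : an element which is big at `O v`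
  and small at all `O w`, `w ∈ T` (weak approximation, rank one);
* `Setup.exists_idem` : approximate idempotents `ε ≡ 1` at `O v`, `c • ε` small at the other
  valuations for finitely many prescribed constants `c`;
* `Setup.exists_adapted` : adapted families `x' ≡ x` at `O v`, small at the other valuations;
* `Setup.coeff_mem_nonunits`, `Setup.linearIndependent_of_adapted` : the fundamental inequality;
* `Full O₀ O ι` : the full situation `∑ f_v = [E : F]`;
* `Full.exists_basis` : an adapted `F`-basis of `E` which is an `O₀`-basis of `⋂ O v`, with the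
  coordinates of `⋂ 𝔪_v` in `𝔪₀`.
-/

set_option autoImplicit false

namespace Fermat.Agent.BR3.MultiVal

open Fermat.Agent.Val Fermat.Agent.BR.TwoVal

variable {F E : Type*} [Field F] [Field E] [Algebra F E]

/-- A family of rank one valuation subrings `O v` of `E` over `O₀`, pairwise separated. -/
structure Setup (O₀ : ValuationSubring F) {V : Type*} (O : V → ValuationSubring E) : Prop where
  lies : ∀ v, (O v).comap (algebraMap F E) = O₀
  arch : ∀ v, Arch (O v)
  sep : ∀ v w, v ≠ w → ∃ e : E, e ∈ (O v).nonunits ∧ 1 - e ∈ (O w).nonunits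

/-! ### one valuation: small and big elements -/

section Single

variable (O : ValuationSubring E)

theorem pow_mem_nonunits {t : E} (ht : t ∈ O.nonunits) {m : ℕ} (hm : m ≠ 0) :
    t ^ m ∈ O.nonunits := by
  obtain ⟨k, rfl⟩ := Nat.exists_eq_succ_of_ne_zero hm
  rw [pow_succ]
  exact mul_mem_nonunits_of_mem O (pow_mem (mem_of_mem_nonunits O ht) k) ht

theorem one_add_ne_zero {t : E} (ht : t ∈ O.nonunits) : 1 + t ≠ 0 := by
  intro h
  apply one_notMem_nonunits O
  have h1 : (1 : E) = -t := by linear_combination h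
  rw [h1]
  exact neg_mem_nonunits O ht

theorem one_add_inv_mem {t : E} (ht : t ∈ O.nonunits) : (1 + t)⁻¹ ∈ O :=
  inv_mem_of_notMem_nonunits O
    (notMem_nonunits_of_sub_one_mem O (by rwa [add_sub_cancel_left]))

theorem one_add_inv_sub_one_mem {t : E} (ht : t ∈ O.nonunits) :
    (1 + t)⁻¹ - 1 ∈ O.nonunits := by
  have h0 := one_add_ne_zero O ht
  have e : (1 + t)⁻¹ - 1 = -(t * (1 + t)⁻¹) := by
    field_simp
    ring
  rw [e]
  exact neg_mem_nonunits O (mul_mem_nonunits_right O ht (one_add_inv_mem O ht))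

/-- `z ^ m / (1 + z ^ m) ≡ 1` where `z` is big -/
theorem quot_sub_one_mem {z : E} (hz0 : z ≠ 0) (hz : z⁻¹ ∈ O.nonunits) {m : ℕ} (hm : m ≠ 0) :
    z ^ m * (1 + z ^ m)⁻¹ - 1 ∈ O.nonunits := by
  have h1 : (z⁻¹) ^ m ∈ O.nonunits := pow_mem_nonunits O hz hm
  have hzm : z ^ m ≠ 0 := pow_ne_zero m hz0
  have h2 := one_add_ne_zero O h1
  have e : z ^ m * (1 + z ^ m)⁻¹ = (1 + (z⁻¹) ^ m)⁻¹ := by
    have h3 : 1 + (z⁻¹) ^ m = (1 + z ^ m) * (z ^ m)⁻¹ := by
      rw [inv_pow]
      field_simp
      ring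
    rw [h3, mul_inv, inv_inv, mul_comm]
  rw [e]
  exact one_add_inv_sub_one_mem O h1

/-- `c * (z ^ m / (1 + z ^ m))` is small where `c * z ^ m` is small and `z` is small -/
theorem mul_quot_mem_nonunits {z c : E} (hz : z ∈ O.nonunits) {m : ℕ} (hm : m ≠ 0)
    (hc : c * z ^ m ∈ O.nonunits) : c * (z ^ m * (1 + z ^ m)⁻¹) ∈ O.nonunits := by
  rw [← mul_assoc]
  exact mul_mem_nonunits_right O hc (one_add_inv_mem O (pow_mem_nonunits O hz hm))

theorem ne_zero_of_sub_one_mem {u : E} (hu : u - 1 ∈ O.nonunits) : u ≠ 0 := by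
  rintro rfl
  exact notMem_nonunits_of_sub_one_mem O hu (zero_mem_nonunits O)

theorem inv_mem_of_sub_one_mem {u : E} (hu : u - 1 ∈ O.nonunits) : u⁻¹ ∈ O :=
  inv_mem_of_notMem_nonunits O (notMem_nonunits_of_sub_one_mem O hu)

end Single

/-! ### consequences of a `Setup` -/

namespace Setup

variable {O₀ : ValuationSubring F} {V : Type*} {O : V → ValuationSubring E} (S : Setup O₀ O)
include S

theorem algebraMap_mem (v : V) {c : F} (hc : c ∈ O₀) : algebraMap F E c ∈ O v := by
  rw [← ValuationSubring.mem_comap, S.lies v]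
  exact hc

theorem smul_mem (v : V) {c : F} (hc : c ∈ O₀) {z : E} (hz : z ∈ O v) : c • z ∈ O v := by
  rw [Algebra.smul_def]
  exact (O v).mul_mem _ _ (S.algebraMap_mem v hc) hz

theorem smul_mem_nonunits (v : V) {c : F} (hc : c ∈ O₀) {z : E} (hz : z ∈ (O v).nonunits) :
    c • z ∈ (O v).nonunits := by
  rw [Algebra.smul_def]
  exact mul_mem_nonunits_of_mem (O v) (S.algebraMap_mem v hc) hz

theorem nonunit_smul_mem_nonunits (v : V) {c : F} (hc : c ∈ O₀.nonunits) {z : E}
    (hz : z ∈ O v) : c • z ∈ (O v).nonunits := by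
  rw [Algebra.smul_def]
  exact mul_mem_nonunits_right (O v) ((algebraMap_mem_nonunits_iff (S.lies v) c).2 hc) hz

/-- two valuations: big at `v`, small at `w` -/
theorem exists_big_small {v w : V} (hvw : v ≠ w) :
    ∃ z : E, z ≠ 0 ∧ z⁻¹ ∈ (O v).nonunits ∧ z ∈ (O w).nonunits := by
  obtain ⟨e, hev, hew⟩ := S.sep v w hvw
  have he0 : e ≠ 0 := by
    rintro rfl
    rw [sub_zero] at hew
    exact one_notMem_nonunits (O w) hew
  have h1 : (1 - e) - 1 ∈ (O v).nonunits := by
    have : (1 - e) - 1 = -e := by ring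
    rw [this]
    exact neg_mem_nonunits (O v) hev
  have h2 : e - 1 ∈ (O w).nonunits := by
    have : e - 1 = -(1 - e) := by ring
    rw [this]
    exact neg_mem_nonunits (O w) hew
  have hu0 : 1 - e ≠ 0 := ne_zero_of_sub_one_mem (O v) h1
  refine ⟨(1 - e) * e⁻¹, mul_ne_zero hu0 (inv_ne_zero he0), ?_, ?_⟩
  · rw [mul_inv, inv_inv, mul_comm]
    exact mul_mem_nonunits_right (O v) hev (inv_mem_of_sub_one_mem (O v) h1)
  · exact mul_mem_nonunits_right (O w) hew (inv_mem_of_sub_one_mem (O w) h2)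

/-- uniform smallness of `c * z ^ m` for `m` large, at finitely many valuations and for finitely
many constants -/
theorem exists_pow_small (T : Finset V) {z : E} (hz0 : z ≠ 0)
    (hzT : ∀ w ∈ T, z ∈ (O w).nonunits) {σ : Type*} (s : Finset σ) (c : σ → E) :
    ∃ n : ℕ, ∀ m, n ≤ m → ∀ w ∈ T, ∀ t ∈ s, c t * z ^ m ∈ (O w).nonunits := by
  classical
  let n : V → σ → ℕ := fun w t =>
    if h : z ∈ (O w).nonunits then
      Classical.choose ((S.arch w).exists_forall_ge (c t) h hz0) else 0
  refine ⟨T.sup fun w => s.sup (n w), fun m hm w hw t ht => ?_⟩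
  have h := hzT w hw
  have hn : n w t ≤ m :=
    le_trans (le_trans (Finset.le_sup ht) (Finset.le_sup (f := fun w => s.sup (n w)) hw)) hm
  have hspec := Classical.choose_spec ((S.arch w).exists_forall_ge (c t) h hz0)
  have hn' : Classical.choose ((S.arch w).exists_forall_ge (c t) h hz0) ≤ m := by
    have : n w t = Classical.choose ((S.arch w).exists_forall_ge (c t) h hz0) := dif_pos h
    rw [← this]
    exact hn
  exact hspec m hn'

/-- **weak approximation**: big at `v`, small at every `w ∈ T` -/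
theorem exists_big_small_finset (v : V) (T : Finset V) (hT : T.Nonempty) (hv : v ∉ T) :
    ∃ z : E, z ≠ 0 ∧ z⁻¹ ∈ (O v).nonunits ∧ ∀ w ∈ T, z ∈ (O w).nonunits := by
  classical
  induction hT using Finset.Nonempty.cons_induction with
  | singleton u =>
    have hvu : v ≠ u := fun h => hv (h ▸ Finset.mem_singleton_self u)
    obtain ⟨z, hz0, hzv, hzu⟩ := S.exists_big_small hvu
    exact ⟨z, hz0, hzv, fun w hw => by rw [Finset.mem_singleton.mp hw]; exact hzu⟩
  | cons u T hu hT ih =>
    have hvu : v ≠ u := fun h => hv (h ▸ Finset.mem_cons_self u T)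
    have hvT : v ∉ T := fun h => hv (Finset.mem_cons.mpr (Or.inr h))
    obtain ⟨z, hz0, hzv, hzT⟩ := ih hvT
    obtain ⟨y, hy0, hyv, hyu⟩ := S.exists_big_small hvu
    obtain ⟨n, hn⟩ := S.exists_pow_small T hz0 hzT (Finset.univ : Finset Unit) (fun _ => y)
    set m := n + 1 with hm
    have hm0 : m ≠ 0 := Nat.succ_ne_zero n
    have hnm : n ≤ m := Nat.le_succ n
    have hzmv : (z⁻¹) ^ m ∈ O v := pow_mem (mem_of_mem_nonunits (O v) hzv) m
    by_cases hzu : z ∈ O u
    · -- `y * z ^ m`
      refine ⟨y * z ^ m, mul_ne_zero hy0 (pow_ne_zero m hz0), ?_, ?_⟩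
      · rw [mul_inv, ← inv_pow]
        exact mul_mem_nonunits_right (O v) hyv hzmv
      · intro w hw
        rcases Finset.mem_cons.mp hw with rfl | hwT
        · exact mul_mem_nonunits_right (O w) hyu (pow_mem hzu m)
        · exact hn m hnm w hwT () (Finset.mem_univ _)
    · -- `y * (z ^ m / (1 + z ^ m))`
      have hzu' : z⁻¹ ∈ (O u).nonunits := by
        rw [mem_nonunits_iff_inv_notMem (O u) (inv_ne_zero hz0), inv_inv]
        exact hzu
      have htv := quot_sub_one_mem (O v) hz0 hzv hm0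
      have htu := quot_sub_one_mem (O u) hz0 hzu' hm0
      have ht0 : z ^ m * (1 + z ^ m)⁻¹ ≠ 0 := ne_zero_of_sub_one_mem (O v) htv
      refine ⟨y * (z ^ m * (1 + z ^ m)⁻¹), mul_ne_zero hy0 ht0, ?_, ?_⟩
      · rw [mul_inv]
        exact mul_mem_nonunits_right (O v) hyv (inv_mem_of_sub_one_mem (O v) htv)
      · intro w hw
        rcases Finset.mem_cons.mp hw with rfl | hwT
        · exact mul_mem_nonunits_right (O w) hyu (mem_of_sub_one_mem_nonunits (O w) htu)
        · exact mul_quot_mem_nonunits (O w) (hzT w hwT) hm0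
            (hn m hnm w hwT () (Finset.mem_univ _))

/-- **approximate idempotents**: `ε ≡ 1` at `O v`; `ε` and the `c t * ε` are small at every
`O w`, `w ∈ T`. -/
theorem exists_idem (v : V) (T : Finset V) (hv : v ∉ T) {σ : Type*} (s : Finset σ)
    (c : σ → E) :
    ∃ ε : E, ε - 1 ∈ (O v).nonunits ∧
      ∀ w ∈ T, ε ∈ (O w).nonunits ∧ ∀ t ∈ s, c t * ε ∈ (O w).nonunits := by
  classical
  rcases T.eq_empty_or_nonempty with rfl | hT
  · refine ⟨1, ?_, fun w hw => absurd hw (Finset.notMem_empty w)⟩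
    rw [sub_self]
    exact zero_mem_nonunits (O v)
  · obtain ⟨z, hz0, hzv, hzT⟩ := S.exists_big_small_finset v T hT hv
    obtain ⟨n, hn⟩ := S.exists_pow_small T hz0 hzT s c
    set m := n + 1 with hm
    have hm0 : m ≠ 0 := Nat.succ_ne_zero n
    have hnm : n ≤ m := Nat.le_succ n
    refine ⟨z ^ m * (1 + z ^ m)⁻¹, quot_sub_one_mem (O v) hz0 hzv hm0, fun w hw => ⟨?_, ?_⟩⟩
    · exact mul_mem_nonunits_right (O w) (pow_mem_nonunits (O w) (hzT w hw) hm0)
        (one_add_inv_mem (O w) (pow_mem_nonunits (O w) (hzT w hw) hm0))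
    · intro t ht
      exact mul_quot_mem_nonunits (O w) (hzT w hw) hm0 (hn m hnm w hw t ht)

/-- approximate idempotents, `V` finite -/
theorem exists_idem_univ [Fintype V] (v : V) {σ : Type*} [Fintype σ] (c : σ → E) :
    ∃ ε : E, ε - 1 ∈ (O v).nonunits ∧
      ∀ w, w ≠ v → ε ∈ (O w).nonunits ∧ ∀ t, c t * ε ∈ (O w).nonunits := by
  classical
  obtain ⟨ε, hε, h⟩ := S.exists_idem v (Finset.univ.erase v) (Finset.notMem_erase v _)
    Finset.univ c
  exact ⟨ε, hε, fun w hw => ⟨(h w (Finset.mem_erase.mpr ⟨hw, Finset.mem_univ w⟩)).1,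
    fun t => (h w (Finset.mem_erase.mpr ⟨hw, Finset.mem_univ w⟩)).2 t (Finset.mem_univ t)⟩⟩

/-- **adapted families**: same residues at `O v`, small (also after multiplication by the
finitely many constants `c t`) at the other valuations. -/
theorem exists_adapted [Fintype V] (v : V) {ι : Type*} [Fintype ι] {x : ι → E}
    (hx : ∀ i, x i ∈ O v) {σ : Type*} [Fintype σ] (c : σ → E) :
    ∃ x' : ι → E, ∀ i, x' i ∈ O v ∧ x' i - x i ∈ (O v).nonunits ∧
      ∀ w, w ≠ v → x' i ∈ (O w).nonunits ∧ ∀ t, c t * x' i ∈ (O w).nonunits := by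
  classical
  obtain ⟨ε, hε, h⟩ := S.exists_idem_univ v
    (Sum.elim x (fun p : σ × ι => c p.1 * x p.2))
  refine ⟨fun i => x i * ε, fun i => ⟨?_, ?_, fun w hw => ⟨?_, fun t => ?_⟩⟩⟩
  · exact (O v).mul_mem _ _ (hx i) (mem_of_sub_one_mem_nonunits (O v) hε)
  · have e : x i * ε - x i = x i * (ε - 1) := by ring
    rw [e]
    exact mul_mem_nonunits_of_mem (O v) (hx i) hε
  · exact (h w hw).2 (Sum.inl i)
  · have := (h w hw).2 (Sum.inr (t, i))
    simp only [Sum.elim_inr] at this
    rwa [mul_assoc] at this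

end Setup

/-! ### adapted families of a family of residue-independent families -/

section Adapted

variable {O₀ : ValuationSubring F} {V : Type*} {O : V → ValuationSubring E}
variable {ι : V → Type*}

/-- `x'` is adapted to `x`: `x' v i ≡ x v i` at `O v`, and `x' v i` is small at the other
valuations. -/
def IsAdapted (O : V → ValuationSubring E) (x x' : ∀ v, ι v → E) : Prop :=
  ∀ v i, x' v i ∈ O v ∧ x' v i - x v i ∈ (O v).nonunits ∧ ∀ w, w ≠ v → x' v i ∈ (O w).nonunits

theorem IsAdapted.mem {x x' : ∀ v, ι v → E} (h : IsAdapted O x x') (w : V) (t : Σ v, ι v) :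
    x' t.1 t.2 ∈ O w := by
  by_cases hw : w = t.1
  · rw [hw]
    exact (h t.1 t.2).1
  · exact mem_of_mem_nonunits (O w) ((h t.1 t.2).2.2 w hw)

variable [Fintype V] [∀ v, Fintype (ι v)]

namespace Setup

variable (S : Setup O₀ O)
include S

/-- adapted families exist (with prescribed extra smallness) -/
theorem exists_isAdapted {x : ∀ v, ι v → E} (hx : ∀ v i, x v i ∈ O v) {σ : Type*} [Fintype σ]
    (c : V → σ → E) :
    ∃ x' : ∀ v, ι v → E, IsAdapted O x x' ∧
      ∀ v i w, w ≠ v → ∀ t, c v t * x' v i ∈ (O w).nonunits := by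
  choose x' hx' using fun v => S.exists_adapted v (hx v) (c v)
  exact ⟨x', fun v i => ⟨(hx' v i).1, (hx' v i).2.1, fun w hw => ((hx' v i).2.2 w hw).1⟩,
    fun v i w hw t => ((hx' v i).2.2 w hw).2 t⟩

/-- the `v`-block of a combination of an adapted family which is small at `O v` -/
theorem block_mem_nonunits {x x' : ∀ v, ι v → E} (hx' : IsAdapted O x x')
    (d : (Σ v, ι v) → F) (hd : ∀ t, d t ∈ O₀) (v : V)
    (h : ∑ t, d t • x' t.1 t.2 ∈ (O v).nonunits) :
    ∑ i, d ⟨v, i⟩ • x' v i ∈ (O v).nonunits := by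
  classical
  rw [Fintype.sum_sigma, ← Finset.add_sum_erase Finset.univ _ (Finset.mem_univ v)] at h
  have h2 : ∑ w ∈ Finset.univ.erase v, ∑ i, d ⟨w, i⟩ • x' w i ∈ (O v).nonunits :=
    sum_mem_nonunits (O v) _ _ fun w hw =>
      sum_mem_nonunits (O v) _ _ fun i _ =>
        S.smul_mem_nonunits v (hd _) ((hx' w i).2.2 v (Finset.ne_of_mem_erase hw).symm)
  have h3 := sub_mem_nonunits (O v) h h2
  rwa [add_sub_cancel_right] at h3

/-- passing from `x'` to `x` in a block -/
theorem block_mem_nonunits' {x x' : ∀ v, ι v → E} (hx' : IsAdapted O x x')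
    (d : (Σ v, ι v) → F) (hd : ∀ t, d t ∈ O₀) (v : V)
    (h : ∑ t, d t • x' t.1 t.2 ∈ (O v).nonunits) :
    ∑ i, d ⟨v, i⟩ • x v i ∈ (O v).nonunits := by
  have h1 := S.block_mem_nonunits hx' d hd v h
  have hdiff : ∑ i, d ⟨v, i⟩ • (x' v i - x v i) ∈ (O v).nonunits :=
    sum_mem_nonunits (O v) _ _ fun i _ => S.smul_mem_nonunits v (hd _) (hx' v i).2.1
  have h2 := sub_mem_nonunits (O v) h1 hdiff
  rw [← Finset.sum_sub_distrib] at h2
  refine (congrArg (· ∈ (O v).nonunits) (Finset.sum_congr rfl fun i _ => ?_)).mp h2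
  rw [← smul_sub, sub_sub_cancel]

/-- **core of all the arguments**: a combination with coefficients in `O₀` of an adapted family
which is small at every valuation has all its coefficients in the maximal ideal of `O₀`. -/
theorem coeff_mem_nonunits {x x' : ∀ v, ι v → E} (hx : ∀ v, ResIndep O₀ (O v) (x v))
    (hx' : IsAdapted O x x') (d : (Σ v, ι v) → F) (hd : ∀ t, d t ∈ O₀)
    (h : ∀ v, ∑ t, d t • x' t.1 t.2 ∈ (O v).nonunits) : ∀ t, d t ∈ O₀.nonunits := by
  rintro ⟨v, i⟩
  exact (hx v).2 (fun i => d ⟨v, i⟩) (fun i => hd _) (S.block_mem_nonunits' hx' d hd v (h v)) i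

/-- **the fundamental inequality**, linear independence form -/
theorem linearIndependent_of_adapted {x x' : ∀ v, ι v → E}
    (hx : ∀ v, ResIndep O₀ (O v) (x v)) (hx' : IsAdapted O x x') :
    LinearIndependent F (fun t : Σ v, ι v => x' t.1 t.2) := by
  rw [Fintype.linearIndependent_iff]
  intro g hg
  by_contra hne
  push Not at hne
  obtain ⟨t₀, ht₀, hpiv⟩ := exists_pivot O₀ g hne
  have hsum : ∑ t : Σ v, ι v, (g t / g t₀) • x' t.1 t.2 = 0 := by
    have h1 : ∑ t : Σ v, ι v, (g t / g t₀) • x' t.1 t.2 =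
        (g t₀)⁻¹ • ∑ t : Σ v, ι v, g t • x' t.1 t.2 := by
      rw [Finset.smul_sum]
      refine Finset.sum_congr rfl fun t _ => ?_
      rw [smul_smul, div_eq_inv_mul]
    rw [h1, hg, smul_zero]
  have h := S.coeff_mem_nonunits hx hx' (fun t => g t / g t₀) hpiv
    (fun v => hsum ▸ zero_mem_nonunits (O v)) t₀
  rw [div_self ht₀] at h
  rw [O₀.mem_nonunits_iff, map_one] at h
  exact lt_irrefl _ h

/-- **the fundamental inequality** `∑ f_v ≤ [E : F]` -/
theorem sum_card_le [FiniteDimensional F E] {x : ∀ v, ι v → E}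
    (hx : ∀ v, ResIndep O₀ (O v) (x v)) :
    ∑ v, Fintype.card (ι v) ≤ Module.finrank F E := by
  obtain ⟨x', hx', -⟩ := S.exists_isAdapted (fun v i => (hx v).1 i) (σ := Empty)
    (fun _ t => t.elim)
  have h := (S.linearIndependent_of_adapted hx hx').fintype_card_le_finrank
  rwa [Fintype.card_sigma] at h

end Setup

end Adapted

/-! ### the full situation `∑ f_v = [E : F]` -/

/-- The full situation: `∑ f_v = [E : F]`, witnessed by residue-independent families. -/
structure Full (O₀ : ValuationSubring F) {V : Type*} [Fintype V] (O : V → ValuationSubring E)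
    (ι : V → Type*) [∀ v, Fintype (ι v)] : Type _ where
  setup : Setup O₀ O
  x : ∀ v, ι v → E
  hx : ∀ v, ResIndep O₀ (O v) (x v)
  card_eq : ∑ v, Fintype.card (ι v) = Module.finrank F E

namespace Full

variable {O₀ : ValuationSubring F} {V : Type*} [Fintype V] {O : V → ValuationSubring E}
variable {ι : V → Type*} [∀ v, Fintype (ι v)]

/-- **the integral basis attached to an adapted family**: it is an `O₀`-basis of `⋂ O v`, and the
coordinates of an element of `⋂ 𝔪_v` lie in `𝔪₀`. -/
theorem basis_of_adapted [FiniteDimensional F E] (D : Full O₀ O ι) {x' : ∀ v, ι v → E}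
    (hx' : IsAdapted O D.x x') :
    ∃ b : Module.Basis (Σ v, ι v) F E, (∀ t, b t = x' t.1 t.2) ∧
      (∀ w : E, (∀ v, w ∈ O v) ↔ ∀ t, b.repr w t ∈ O₀) ∧
      ∀ w : E, (∀ v, w ∈ (O v).nonunits) → ∀ t, b.repr w t ∈ O₀.nonunits := by
  classical
  have S := D.setup
  have hli := S.linearIndependent_of_adapted D.hx hx'
  have hcard : Fintype.card (Σ v, ι v) = Module.finrank F E := by
    rw [Fintype.card_sigma]
    exact D.card_eq
  have : Nonempty (Σ v, ι v) := Fintype.card_pos_iff.1 (hcard ▸ Module.finrank_pos)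
  set b := basisOfLinearIndependentOfCardEqFinrank hli hcard with hb
  have hbz : ∀ t, b t = x' t.1 t.2 := fun t => by
    rw [hb, coe_basisOfLinearIndependentOfCardEqFinrank]
  have hrepr : ∀ w : E, ∑ t : Σ v, ι v, b.repr w t • x' t.1 t.2 = w := by
    intro w
    conv_rhs => rw [← b.sum_repr w]
    exact Finset.sum_congr rfl fun t _ => by rw [hbz]
  have hchar : ∀ w : E, (∀ v, w ∈ O v) ↔ ∀ t, b.repr w t ∈ O₀ := by
    intro w
    constructor
    · intro hw
      by_contra hne
      push Not at hne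
      obtain ⟨t₁, ht₁⟩ := hne
      have hex : ∃ t, b.repr w t ≠ 0 := ⟨t₁, fun h => ht₁ (h ▸ O₀.zero_mem)⟩
      obtain ⟨t₀, ht₀, hpiv⟩ := exists_pivot O₀ (fun t => b.repr w t) hex
      have ht₀' : b.repr w t₀ ∉ O₀ := by
        intro h
        apply ht₁
        have h1 : b.repr w t₁ = (b.repr w t₁ / b.repr w t₀) * b.repr w t₀ := by
          rw [div_mul_cancel₀ _ ht₀]
        rw [h1]
        exact O₀.mul_mem _ _ (hpiv t₁) h
      have hinv : (b.repr w t₀)⁻¹ ∈ O₀.nonunits := by
        rw [mem_nonunits_iff_inv_notMem O₀ (inv_ne_zero ht₀), inv_inv]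
        exact ht₀'
      have hsum : ∑ t : Σ v, ι v, (b.repr w t / b.repr w t₀) • x' t.1 t.2 =
          (b.repr w t₀)⁻¹ • w := by
        have h1 : ∑ t : Σ v, ι v, (b.repr w t / b.repr w t₀) • x' t.1 t.2 =
            (b.repr w t₀)⁻¹ • ∑ t : Σ v, ι v, b.repr w t • x' t.1 t.2 := by
          rw [Finset.smul_sum]
          refine Finset.sum_congr rfl fun t _ => ?_
          rw [smul_smul, div_eq_inv_mul]
        rw [h1, hrepr]
      have h := S.coeff_mem_nonunits D.hx hx' (fun t => b.repr w t / b.repr w t₀) hpiv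
        (fun v => hsum ▸ S.nonunit_smul_mem_nonunits v hinv (hw v)) t₀
      rw [div_self ht₀] at h
      rw [O₀.mem_nonunits_iff, map_one] at h
      exact lt_irrefl _ h
    · intro h v
      rw [← hrepr w]
      exact sum_mem fun t _ => S.smul_mem v (h t) (hx'.mem v t)
  refine ⟨b, hbz, hchar, fun w hw => ?_⟩
  have hd := (hchar w).mp fun v => mem_of_mem_nonunits (O v) (hw v)
  exact S.coeff_mem_nonunits D.hx hx' (fun t => b.repr w t) hd
    (fun v => by rw [hrepr]; exact hw v)

/-- **(T2)** an adapted `F`-basis of `E` which is an `O₀`-basis of `⋂ O v` -/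
theorem exists_basis [FiniteDimensional F E] (D : Full O₀ O ι) :
    ∃ (x' : ∀ v, ι v → E) (b : Module.Basis (Σ v, ι v) F E), IsAdapted O D.x x' ∧
      (∀ t, b t = x' t.1 t.2) ∧
      (∀ w : E, (∀ v, w ∈ O v) ↔ ∀ t, b.repr w t ∈ O₀) ∧
      ∀ w : E, (∀ v, w ∈ (O v).nonunits) → ∀ t, b.repr w t ∈ O₀.nonunits := by
  obtain ⟨x', hx', -⟩ := D.setup.exists_isAdapted (fun v i => (D.hx v).1 i) (σ := Empty)
    (fun _ t => t.elim)
  obtain ⟨b, h1, h2, h3⟩ := D.basis_of_adapted hx'
  exact ⟨x', b, hx', h1, h2, h3⟩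

end Full

end Fermat.Agent.BR3.MultiVal
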