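import Mathlib
import Fermat.Agent.Val.ConstRed
import Fermat.Agent.Val.OrthoApprox
import Fermat.Agent.BR.BallLattice
import Fermat.Agent.BR3.MultiVal

/-!
# Program C, node A10 (APPROX), part 1: best approximation for a unique extension

`K ⊆ F ⊆ E` fields, `E / F` finite, `A` a valuation subring of `K`, `C : Val.ConstRed A π` a
constant reduction of `F` (valuation subring `C.O`, best approximations), `O` a valuation subring
of `E` with residue map `res`.  If `E` has an `F`-basis `b` which is *orthonormal* for `O` over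
`C.O` (`w ∈ O ↔` all coordinates in `C.O`; `w ∈ 𝔪_O →` all coordinates in `𝔪`), then `(O, res)` has
best approximations (`approx_of_basis`): verbatim the field `approx` of `Val.ConstRed` and of
`SS.SemistableSetup`.

This is the situation of a unique extension with `e = 1`, `f = [E : F]`:
`approx_of_full_unit` takes a `MultiVal.Full C.O (fun _ : Unit => O) ι`.

Proof: for a finite `S ⊆ E` let `V₀ ⊆ F` be the `K`-span of the coordinates of the elements of `S`;
`V₀ ∩ C.O` has a lattice basis `z` (`ResBall.exists_latticeBasis`), the family `z i • b t` has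
orthonormal coordinates on its span `W ⊇ S`, and `Val.approx_of_exhaustion` applies.
-/

set_option autoImplicit false
set_option linter.unusedSectionVars false

noncomputable section

namespace Fermat.Agent.BR3.ApproxCover

open Fermat.Agent.Val Fermat.Agent.BR Fermat.Agent.Red

variable {K F k Ft : Type*} [Field K] [Field F] [Algebra K F] [Field k] [Field Ft] [Algebra k Ft]
  {A : ValuationSubring K} {π : A →+* k}

/-! ### the unit ball of a constant reduction -/

theorem mem_nonunits_of_inv_notMem {L : Type*} [Field L] (B : ValuationSubring L) {a : L}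
    (hai : a⁻¹ ∉ B) : a ∈ B.nonunits := by
  rcases eq_or_ne a 0 with rfl | h0
  · exact zero_mem_nonunits B
  · exact (mem_nonunits_iff_inv_notMem B h0).2 hai

/-- The unit ball of a constant reduction, in the language of `BR/BallLattice.lean`. -/
def ballOf (C : ConstRed (F := F) (Ft := Ft) A π) : ResBall (F := F) (R := Ft) A π where
  O := C.O.toSubring
  res := C.res
  algebraMap_mem := fun _ ha => C.algebraMap_mem ha
  res_algebraMap := fun a ha => C.res_algebraMap a ha _
  pi_eq_zero := fun a ha hai => (C.pi_eq_zero_iff ⟨a, ha⟩).2 (mem_nonunits_of_inv_notMem A hai)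

theorem ballOf_approx (C : ConstRed (F := F) (Ft := Ft) A π) : (ballOf C).Approx := C.approx

theorem mem_ballOf (C : ConstRed (F := F) (Ft := Ft) A π) {x : F} :
    x ∈ (ballOf C).O ↔ x ∈ C.O := Iff.rfl

variable (C : ConstRed (F := F) (Ft := Ft) A π)

theorem res_ne_zero_iff (x : C.O) : C.res x ≠ 0 ↔ (x : F) ∉ C.O.nonunits := by
  rw [Ne, C.res_eq_zero_iff, not_not, ValuationSubring.mem_nonunits_iff_exists_mem_maximalIdeal]
  constructor
  · rintro hu ⟨hx, hmax⟩
    exact (IsLocalRing.mem_maximalIdeal _).1 hmax hu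
  · intro h
    by_contra hu
    exact h ⟨x.2, (IsLocalRing.mem_maximalIdeal _).2 hu⟩

/-- every nonzero element is a constant times a unit -/
theorem exists_smul_unit {x : F} (hx : x ≠ 0) :
    ∃ c : K, c ≠ 0 ∧ c • x ∈ C.O ∧ c • x ∉ C.O.nonunits := by
  have hfin : Module.Finite K (⊥ : Submodule K F) := inferInstance
  obtain ⟨w, hw, c, hc, h, hne⟩ := C.approx ⊥ hfin x (by simpa using hx)
  rw [Submodule.mem_bot] at hw
  subst hw
  have h' : c • x ∈ C.O := by simpa using h
  refine ⟨c, hc, h', fun hnon => ?_⟩
  have h0 := hne 0 (by simp)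
  rw [map_zero] at h0
  have h1 := (res_ne_zero_iff C ⟨c • (x - 0), h⟩).1 h0.symm
  apply h1
  simpa using hnon

theorem algebraMap_mem_nonunits {a : K} (ha : a ∈ A.nonunits) :
    algebraMap K F a ∈ C.O.nonunits := by
  rcases eq_or_ne a 0 with rfl | h0
  · rw [map_zero]; exact zero_mem_nonunits _
  refine mem_nonunits_of_inv_notMem C.O ?_
  rw [← map_inv₀, C.algebraMap_mem_iff]
  exact (mem_nonunits_iff_inv_notMem A h0).1 ha

theorem smul_mem_nonunits {a : K} (ha : a ∈ A.nonunits) {x : F} (hx : x ∈ C.O) :
    a • x ∈ C.O.nonunits := by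
  rw [Algebra.smul_def, mul_comm]
  exact mul_mem_nonunits_of_mem C.O hx (algebraMap_mem_nonunits C ha)

/-- **Lattice bases with residues** for a constant reduction: every finite-dimensional subspace
`V₀` has a basis `z` such that `∑ a i • z i ∈ C.O ↔ a i ∈ A` and
`∑ a i • z i ∈ 𝔪 ↔ a i ∈ 𝔪_A`. -/
theorem exists_orthoBasis (V₀ : Submodule K F) [FiniteDimensional K V₀] :
    ∃ (d : ℕ) (z : Fin d → F), LinearIndependent K z ∧
      Submodule.span K (Set.range z) = V₀ ∧
      (∀ a : Fin d → K, ∑ i, a i • z i ∈ C.O ↔ ∀ i, a i ∈ A) ∧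
      (∀ a : Fin d → K, ∑ i, a i • z i ∈ C.O.nonunits ↔ ∀ i, a i ∈ A.nonunits) := by
  classical
  obtain ⟨z, hli, hzO, hspan, hlat⟩ := ResBall.exists_latticeBasis (ballOf_approx C) V₀
  have hmemV : ∀ a : Fin (Module.finrank K V₀) → K, ∑ i, a i • z i ∈ V₀ := by
    intro a
    exact (le_of_eq hspan) (Submodule.sum_mem _ fun i _ =>
      Submodule.smul_mem _ _ (Submodule.subset_span ⟨i, rfl⟩))
  have hO : ∀ a : Fin (Module.finrank K V₀) → K, ∑ i, a i • z i ∈ C.O ↔ ∀ i, a i ∈ A := by
    intro a
    constructor
    · intro h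
      obtain ⟨a', ha', heq⟩ := (hlat _ (hmemV a)).1 h
      have := Fintype.linearIndependent_iff.1 hli (fun i => a i - a' i) (by
        simp only [sub_smul, Finset.sum_sub_distrib, heq, sub_self])
      intro i
      rw [sub_eq_zero.1 (this i)]
      exact ha' i
    · intro h
      exact (hlat _ (hmemV a)).2 ⟨a, h, rfl⟩
  refine ⟨_, z, hli, hspan, hO, fun a => ⟨fun h => ?_, fun h => ?_⟩⟩
  · -- nonunit ⇒ coefficients nonunits
    by_cases hx : ∑ i, a i • z i = 0
    · have := Fintype.linearIndependent_iff.1 hli a hx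
      intro i
      rw [this i]
      exact zero_mem_nonunits A
    obtain ⟨c, hc, hcO, hcU⟩ := exists_smul_unit C hx
    have hcA : c ∉ A := by
      intro hcA
      apply hcU
      rw [Algebra.smul_def]
      exact mul_mem_nonunits_of_mem C.O (C.algebraMap_mem hcA) h
    have hci : c⁻¹ ∈ A.nonunits := by
      refine mem_nonunits_of_inv_notMem A ?_
      rwa [inv_inv]
    have hsum : c • ∑ i, a i • z i = ∑ i, (c * a i) • z i := by
      rw [Finset.smul_sum]
      exact Finset.sum_congr rfl fun i _ => by rw [mul_smul]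
    rw [hsum] at hcO
    have hA' := (hO _).1 hcO
    intro i
    have : a i = c⁻¹ * (c * a i) := by
      rw [← mul_assoc, inv_mul_cancel₀ hc, one_mul]
    rw [this, mul_comm]
    exact mul_mem_nonunits_of_mem A (hA' i) hci
  · -- coefficients nonunits ⇒ nonunit
    refine Fermat.Agent.BR.TwoVal.sum_mem_nonunits C.O _ _ fun i _ => ?_
    exact smul_mem_nonunits C (h i) (hzO i)

/-! ### the main theorem -/

section Main

variable {E R : Type*} [Field E] [Algebra K E] [Algebra F E] [IsScalarTower K F E] [Ring R]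

/-- **A10, part 1.**  Best approximation for a valuation subring `O` of a finite extension `E` of
`F` which has an orthonormal `F`-basis over the constant reduction `C` of `F`. -/
theorem approx_of_basis (O : ValuationSubring E) (res : O →+* R)
    (hres : ∀ x : O, res x = 0 ↔ ¬ IsUnit x)
    (hOA : ∀ a : K, algebraMap K E a ∈ O ↔ a ∈ A)
    {σ : Type*} [Fintype σ] (b : Module.Basis σ F E)
    (h1 : ∀ w : E, w ∈ O ↔ ∀ t, b.repr w t ∈ C.O)
    (h2 : ∀ w : E, w ∈ O.nonunits → ∀ t, b.repr w t ∈ C.O.nonunits)
    (V : Submodule K E) (hV : Module.Finite K V) (y : E) (hy : y ∉ V) :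
    ∃ w ∈ V, ∃ c : K, c ≠ 0 ∧ ∃ h : c • (y - w) ∈ O,
      ∀ z : O, (z : E) ∈ V → res z ≠ res ⟨c • (y - w), h⟩ := by
  classical
  -- residue zero ↔ nonunit
  have hres' : ∀ (x : E) (hx : x ∈ O), res ⟨x, hx⟩ = 0 ↔ x ∈ O.nonunits := by
    intro x hx
    rw [hres, ValuationSubring.mem_nonunits_iff_exists_mem_maximalIdeal]
    constructor
    · intro hu
      exact ⟨hx, (IsLocalRing.mem_maximalIdeal _).2 hu⟩
    · rintro ⟨hx', hmax⟩
      exact (IsLocalRing.mem_maximalIdeal _).1 hmax
  -- constants
  have hconst : ∀ a : K, a ∈ A.nonunits → algebraMap K E a ∈ O.nonunits := by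
    intro a ha
    rcases eq_or_ne a 0 with rfl | h0
    · rw [map_zero]; exact zero_mem_nonunits _
    refine mem_nonunits_of_inv_notMem O ?_
    rw [← map_inv₀, hOA]
    exact (mem_nonunits_iff_inv_notMem A h0).1 ha
  -- the basis vectors are integral
  have hbO : ∀ t, b t ∈ O := by
    intro t
    rw [h1]
    intro t'
    rw [b.repr_self, Finsupp.single_apply]
    split_ifs
    · exact C.O.one_mem
    · exact C.O.zero_mem
  refine approx_of_exhaustion A O res (fun S => ?_) V hV y hy
  refine ⟨1, one_ne_zero, O.one_mem, by rw [inv_one]; exact O.one_mem, ?_⟩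
  -- the coordinate space
  let N := Fintype.card σ
  let e : σ ≃ Fin N := Fintype.equivFin σ
  let T : Set F := ⋃ s ∈ S, Set.range fun t => b.repr s t
  have hT : T.Finite := Set.Finite.biUnion S.finite_toSet fun s _ => Set.finite_range _
  let V₀ : Submodule K F := Submodule.span K T
  have : FiniteDimensional K V₀ := FiniteDimensional.span_of_finite K hT
  obtain ⟨d, z, hli, hspan, hzO, hzU⟩ := exists_orthoBasis C V₀
  -- the family `z i • b t`
  let u : Fin d × Fin N → E := fun p => z p.1 • b (e.symm p.2)
  let Φ : (Fin d × Fin N → K) →ₗ[K] E := Fintype.linearCombination K u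
  have hΦ : ∀ c, Φ c = ∑ p, c p • u p := fun c => Fintype.linearCombination_apply K u c
  -- coordinates of `Φ c`
  have hrepr : ∀ (c : Fin d × Fin N → K) (t : σ),
      b.repr (Φ c) t = ∑ i, c (i, e t) • z i := by
    intro c t
    have h3 : Φ c = ∑ t' : σ, (∑ i, c (i, e t') • z i) • b t' := by
      rw [hΦ, Fintype.sum_prod_type, Finset.sum_comm]
      rw [← e.symm.sum_comp]
      refine Finset.sum_congr rfl fun t' _ => ?_
      rw [Finset.sum_smul]
      refine Finset.sum_congr rfl fun i _ => ?_
      simp only [u, Equiv.apply_symm_apply, smul_assoc]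
    rw [h3, b.repr_sum_self]
  have hinj : Function.Injective Φ := by
    rw [← LinearMap.ker_eq_bot, LinearMap.ker_eq_bot']
    intro c hc
    funext p
    have h4 := hrepr c (e.symm p.2)
    rw [hc, map_zero, Finsupp.zero_apply] at h4
    have := Fintype.linearIndependent_iff.1 hli _ h4.symm p.1
    simpa using this
  let W : Submodule K E := LinearMap.range Φ
  let coords : W ≃ₗ[K] (Fin d × Fin N → K) := (LinearEquiv.ofInjective Φ hinj).symm
  have hcoords : ∀ f : W, Φ (coords f) = (f : E) := by
    intro f
    have := (LinearEquiv.ofInjective Φ hinj).apply_symm_apply f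
    exact congrArg Subtype.val this
  have hmemO : ∀ c : Fin d × Fin N → K, Φ c ∈ O ↔ ∀ p, c p ∈ A := by
    intro c
    rw [h1]
    constructor
    · intro h p
      have := (hzO fun i => c (i, e (e.symm p.2))).1 (by rw [← hrepr]; exact h _) p.1
      simpa using this
    · intro h t
      rw [hrepr]
      exact (hzO _).2 fun i => h _
  have hmemU : ∀ c : Fin d × Fin N → K, Φ c ∈ O.nonunits ↔ ∀ p, c p ∈ A.nonunits := by
    intro c
    constructor
    · intro h p
      have h5 := h2 _ h (e.symm p.2)
      rw [hrepr] at h5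
      have := (hzU fun i => c (i, e (e.symm p.2))).1 h5 p.1
      simpa using this
    · intro h
      rw [hΦ]
      refine Fermat.Agent.BR.TwoVal.sum_mem_nonunits O _ _ fun p _ => ?_
      rw [Algebra.smul_def, mul_comm]
      refine mul_mem_nonunits_of_mem O ?_ (hconst _ (h p))
      have hz : z p.1 ∈ C.O := by
        have := (hzO fun i => if i = p.1 then 1 else 0).2 (fun i => by
          split_ifs
          · exact A.one_mem
          · exact A.zero_mem)
        simpa using this
      show z p.1 • b (e.symm p.2) ∈ O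
      rw [h1]
      intro t'
      rw [map_smul, Finsupp.smul_apply, b.repr_self, Finsupp.single_apply, smul_eq_mul]
      split_ifs
      · rw [mul_one]; exact hz
      · rw [mul_zero]; exact C.O.zero_mem
  refine ⟨Fin d × Fin N, inferInstance, W, coords, ?_, ?_, ?_⟩
  · intro f
    rw [← hcoords f, hmemO, supVal_le_iff]
    exact forall_congr' fun p => (A.valuation_le_one_iff _).symm
  · intro f hf
    rw [hres']
    conv_lhs => rw [← hcoords f]
    rw [hmemU]
    constructor
    · intro h
      by_cases hne : Nonempty (Fin d × Fin N)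
      · obtain ⟨p, hp⟩ := exists_eq_supVal A.valuation (coords f)
        rw [← hp]
        exact (A.mem_nonunits_iff).1 (h p)
      · rw [not_nonempty_iff] at hne
        have : coords f = 0 := funext fun p => (hne.false p).elim
        rw [this, supVal_zero]
        exact zero_lt_one
    · intro h p
      rw [A.mem_nonunits_iff]
      exact lt_of_le_of_lt (le_supVal A.valuation (coords f) p) h
  · intro s hs
    rw [one_mul]
    -- coordinates of `s` lie in `V₀ = span z`
    have hsV : ∀ t, b.repr s t ∈ Submodule.span K (Set.range z) := by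
      intro t
      rw [hspan]
      exact Submodule.subset_span (Set.mem_biUnion hs ⟨t, rfl⟩)
    choose a ha using fun t => (Submodule.mem_span_range_iff_exists_fun K).1 (hsV t)
    refine ⟨fun p => a (e.symm p.2) p.1, ?_⟩
    apply b.repr.injective
    ext t
    rw [hrepr]
    simp only [Equiv.symm_apply_apply]
    exact ha t

/-- **A10, part 1, unique-extension form.**  `O` is the only valuation subring of `E` over `C.O`
counted by a full family (`e = 1`, `f = [E : F]`): best approximation for `(O, res)`. -/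
theorem approx_of_full_unit [FiniteDimensional F E] (O : ValuationSubring E) (res : O →+* R)
    (hres : ∀ x : O, res x = 0 ↔ ¬ IsUnit x)
    (hOA : ∀ a : K, algebraMap K E a ∈ O ↔ a ∈ A)
    {ι : Unit → Type*} [∀ v, Fintype (ι v)]
    (D : MultiVal.Full C.O (fun _ : Unit => O) ι)
    (V : Submodule K E) (hV : Module.Finite K V) (y : E) (hy : y ∉ V) :
    ∃ w ∈ V, ∃ c : K, c ≠ 0 ∧ ∃ h : c • (y - w) ∈ O,
      ∀ z : O, (z : E) ∈ V → res z ≠ res ⟨c • (y - w), h⟩ := by
  obtain ⟨-, b, -, -, hb1, hb2⟩ := D.exists_basis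
  exact approx_of_basis C O res hres hOA b
    (fun w => ⟨fun h => (hb1 w).1 fun _ => h, fun h => (hb1 w).2 h ()⟩)
    (fun w h => hb2 w fun _ => h) V hV y hy

theorem mem_nonunits_valuationSubring {L Γ₀ : Type*} [Field L]
    [LinearOrderedCommGroupWithZero Γ₀] (u : Valuation L Γ₀) (a : L) :
    a ∈ u.valuationSubring.nonunits ↔ u a < 1 := by
  rw [ValuationSubring.mem_nonunits_iff]
  exact ((Valuation.isEquiv_valuation_valuationSubring u).lt_one_iff_lt_one).symm

/-- **A10, part 1, valuation form** (the output of `BR3/GaussExt`): `v`, `w` valuations of `F`, `E`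
with `v.valuationSubring = C.O` and an `F`-basis `b` of `E` which is orthonormal
(`w a ≤ 1 ↔ ∀ t, v (b.repr a t) ≤ 1`, `w a < 1 → ∀ t, v (b.repr a t) < 1`). -/
theorem approx_of_valuation {Γ₀ : Type*} [LinearOrderedCommGroupWithZero Γ₀]
    (v : Valuation F Γ₀) (hv : v.valuationSubring = C.O) (w : Valuation E Γ₀)
    (res : w.valuationSubring →+* R)
    (hres : ∀ x : w.valuationSubring, res x = 0 ↔ ¬ IsUnit x)
    (hOA : ∀ a : K, w (algebraMap K E a) ≤ 1 ↔ a ∈ A)
    {σ : Type*} [Fintype σ] (b : Module.Basis σ F E)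
    (h1 : ∀ a : E, w a ≤ 1 ↔ ∀ t, v (b.repr a t) ≤ 1)
    (h2 : ∀ a : E, w a < 1 → ∀ t, v (b.repr a t) < 1)
    (V : Submodule K E) (hV : Module.Finite K V) (y : E) (hy : y ∉ V) :
    ∃ x ∈ V, ∃ c : K, c ≠ 0 ∧ ∃ h : c • (y - x) ∈ w.valuationSubring,
      ∀ z : w.valuationSubring, (z : E) ∈ V → res z ≠ res ⟨c • (y - x), h⟩ := by
  refine approx_of_basis C w.valuationSubring res hres
    (fun a => by rw [Valuation.mem_valuationSubring_iff]; exact hOA a) b (fun a => ?_)
    (fun a ha t => ?_) V hV y hy
  · rw [Valuation.mem_valuationSubring_iff, h1]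
    exact forall_congr' fun t => by rw [← hv, Valuation.mem_valuationSubring_iff]
  · rw [← hv, mem_nonunits_valuationSubring]
    exact h2 a ((mem_nonunits_valuationSubring w a).1 ha) t

/-- The constant reduction of `E` attached to an orthonormal basis over the constant reduction
`C` of `F`. -/
def constRedOfBasis {Ft' : Type*} [Field Ft'] [Algebra k Ft'] (O : ValuationSubring E)
    (res : O →+* Ft') (res_surjective : Function.Surjective res)
    (hres : ∀ x : O, res x = 0 ↔ ¬ IsUnit x)
    (hOA : ∀ a : K, algebraMap K E a ∈ O ↔ a ∈ A)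
    (res_algebraMap : ∀ (a : K) (ha : a ∈ A) (ha' : algebraMap K E a ∈ O),
      res ⟨algebraMap K E a, ha'⟩ = algebraMap k Ft' (π ⟨a, ha⟩))
    {σ : Type*} [Fintype σ] (b : Module.Basis σ F E)
    (h1 : ∀ w : E, w ∈ O ↔ ∀ t, b.repr w t ∈ C.O)
    (h2 : ∀ w : E, w ∈ O.nonunits → ∀ t, b.repr w t ∈ C.O.nonunits) :
    ConstRed (F := E) (Ft := Ft') A π where
  O := O
  res := res
  res_surjective := res_surjective
  res_eq_zero_iff := hres
  algebraMap_mem_iff := hOA
  res_algebraMap := res_algebraMap
  approx := approx_of_basis C O res hres hOA b h1 h2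

end Main

end Fermat.Agent.BR3.ApproxCover
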