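import Mathlib
import Fermat.Agent.Val.ConstRedLattice
import Fermat.Agent.Val.SupNorm

/-!
# Program C, node A10 (APPROX), part 1: orthonormal coordinates

Linear algebra behind `BR3/ApproxFull.lean`.

* `approx_of_inj_coords` : `Val.approx_of_coords` with an *injective* coordinate map
  `coords : W →ₗ (κ → L)` instead of an equivalence;
* `exists_coords` : a finite-dimensional `K`-subspace `U` of the function field of a
  `Val.ConstRed` has orthonormal coordinates (from `ConstRed.exists_reducedBasis`):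
  `x ∈ O ↔` all coordinates in `A`, `x ∈ 𝔪 ↔` all coordinates in `𝔪_A`;
* `exists_coords_pi` : the same for a finite-dimensional `K`-subspace of `ι → F` with the
  sup-norm (`ι` finite).
-/

set_option autoImplicit false

namespace Fermat.Agent.BR3.ApproxFullLin

open Fermat.Agent.Val Module

section InjCoords

variable {L : Type*} [Field L] (A : ValuationSubring L) {κ : Type*} [Fintype κ]
  {F R : Type*} [Field F] [Algebra L F] [Ring R]

/-- `Val.approx_of_coords` for an injective coordinate map. -/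
theorem approx_of_inj_coords (O : ValuationSubring F) (res : O →+* R) (W : Submodule L F)
    (coords : W →ₗ[L] (κ → L)) (hinj : Function.Injective coords)
    (hO : ∀ f : W, (f : F) ∈ O ↔ supVal A.valuation (coords f) ≤ 1)
    (hres : ∀ (f : W) (hf : (f : F) ∈ O),
      res ⟨(f : F), hf⟩ = 0 ↔ supVal A.valuation (coords f) < 1)
    (V : Submodule L F) (hVW : V ≤ W) {y : F} (hyW : y ∈ W) (hyV : y ∉ V) :
    ∃ w ∈ V, ∃ c : L, c ≠ 0 ∧ ∃ h : c • (y - w) ∈ O,
      ∀ z : O, (z : F) ∈ V → res z ≠ res ⟨c • (y - w), h⟩ := by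
  let V₀ : Submodule L (κ → L) := (V.comap W.subtype).map coords
  have hmemV₀ : ∀ f : W, coords f ∈ V₀ ↔ (f : F) ∈ V := by
    intro f
    constructor
    · rintro ⟨g, hg, hgf⟩
      have : g = f := hinj hgf
      rw [← this]
      exact hg
    · intro hf
      exact ⟨f, hf, rfl⟩
  have hy₀ : coords ⟨y, hyW⟩ ∉ V₀ := fun h => hyV ((hmemV₀ ⟨y, hyW⟩).1 h)
  obtain ⟨w₀, hw₀, c, hc, hc1, hmin⟩ := exists_approx_supVal_eq_one A.valuation V₀ hy₀
  obtain ⟨w', hw'V, rfl⟩ := hw₀
  have hw'V' : (w' : F) ∈ V := hw'V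
  let u : W := c • (⟨y, hyW⟩ - w')
  have hu_coe : (u : F) = c • (y - (w' : F)) := rfl
  have hu_coords : coords u = c • (coords ⟨y, hyW⟩ - coords w') := by
    show coords (c • (⟨y, hyW⟩ - w')) = _
    rw [map_smul, map_sub]
  have huO : (u : F) ∈ O := (hO u).2 (by rw [hu_coords]; exact hc1.le)
  refine ⟨(w' : F), hw'V', c, hc, huO, fun z hz heq => ?_⟩
  let z' : W := ⟨(z : F), hVW hz⟩
  have hz'₀ : coords z' ∈ V₀ := (hmemV₀ z').2 hz
  have hdiffO : ((u - z' : W) : F) ∈ O := by
    show (u : F) - (z : F) ∈ O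
    exact sub_mem huO z.2
  have hres0 : res ⟨((u - z' : W) : F), hdiffO⟩ = 0 := by
    have h1 : (⟨((u - z' : W) : F), hdiffO⟩ : O) = ⟨(u : F), huO⟩ - z := Subtype.ext rfl
    rw [h1, map_sub, sub_eq_zero]
    exact heq.symm
  have hlt := (hres (u - z') hdiffO).1 hres0
  have hge := hmin (-(coords z')) (V₀.neg_mem hz'₀)
  rw [map_sub, hu_coords, sub_eq_add_neg] at hlt
  exact absurd hlt (not_lt.2 hge)

end InjCoords

section Reduced

variable {K F k Ft : Type*} [Field K] [Field F] [Algebra K F] [Field k] [Field Ft]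
  [Algebra k Ft] {A : ValuationSubring K} {π : A →+* k}
  (S : ConstRed (F := F) (Ft := Ft) A π) (hπ : Function.Surjective π)

include hπ in
/-- Orthonormal coordinates on a finite-dimensional subspace. -/
theorem exists_coords (U : Submodule K F) [FiniteDimensional K U] :
    ∃ (n : ℕ) (c : U →ₗ[K] (Fin n → K)), Function.Injective c ∧
      (∀ x : U, (x : F) ∈ S.O ↔ ∀ j, c x j ∈ A) ∧
      (∀ x : U, (x : F) ∈ S.O.nonunits ↔ ∀ j, A.valuation (c x j) < 1) := by
  classical
  obtain ⟨z, hzU, hzO, hzind, hzli, hzspan⟩ := S.exists_reducedBasis hπ U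
  let z' : Fin (finrank K U) → U := fun i => ⟨z i, hzU i⟩
  have hli' : LinearIndependent K z' := by
    apply LinearIndependent.of_comp U.subtype
    exact hzli
  have hspan' : ⊤ ≤ Submodule.span K (Set.range z') := by
    intro x _
    have hx : (x : F) ∈ Submodule.span K (Set.range z) := by rw [hzspan]; exact x.2
    obtain ⟨a, ha⟩ := (Submodule.mem_span_range_iff_exists_fun K).mp hx
    rw [Submodule.mem_span_range_iff_exists_fun]
    refine ⟨a, Subtype.ext ?_⟩
    rw [← ha]
    simp [z']
  let B : Basis (Fin (finrank K U)) K U := Basis.mk hli' hspan'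
  have hB : ∀ i, B i = z' i := fun i => Basis.mk_apply hli' hspan' i
  have hsum : ∀ x : U, (x : F) = ∑ j, B.equivFun x j • z j := by
    intro x
    have h1 := B.sum_equivFun x
    have h2 := congrArg (fun y : U => (y : F)) h1
    simp only [Submodule.coe_sum, Submodule.coe_smul, hB] at h2
    exact h2.symm
  have hO : ∀ x : U, (x : F) ∈ S.O ↔ ∀ j, B.equivFun x j ∈ A := by
    intro x
    constructor
    · intro hx
      exact S.mem_of_sum_smul_mem z hzO hzind _ (by rw [← hsum x]; exact hx)
    · intro h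
      rw [hsum x]
      exact S.O.sum_mem fun j _ => S.smul_mem (h j) (hzO j)
  refine ⟨finrank K U, B.equivFun.toLinearMap, B.equivFun.injective, hO, fun x => ?_⟩
  show (x : F) ∈ S.O.nonunits ↔ ∀ j, A.valuation (B.equivFun x j) < 1
  constructor
  · intro hx
    have hxO : (x : F) ∈ S.O := (S.O.valuation_le_one_iff _).1 ((S.O.mem_nonunits_iff).1 hx).le
    have ha := (hO x).1 hxO
    have h0 : S.resF (x : F) = 0 := (S.resF_eq_zero_iff hxO).2 hx
    have h1 := (S.resF_sum_smul z hzO (B.equivFun x) ha).2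
    rw [← hsum x, h0] at h1
    have h2 := Fintype.linearIndependent_iff.1 hzind (fun j => π ⟨B.equivFun x j, ha j⟩) h1.symm
    intro j
    have h3 := (S.pi_eq_zero_iff ⟨B.equivFun x j, ha j⟩).1 (h2 j)
    exact (A.mem_nonunits_iff).1 h3
  · intro h
    have ha : ∀ j, B.equivFun x j ∈ A := fun j => (A.valuation_le_one_iff _).1 (h j).le
    have hxO : (x : F) ∈ S.O := (hO x).2 ha
    rw [← S.resF_eq_zero_iff hxO]
    have h1 := (S.resF_sum_smul z hzO (B.equivFun x) ha).2
    rw [← hsum x] at h1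
    rw [h1]
    refine Finset.sum_eq_zero fun j _ => ?_
    have h3 : π ⟨B.equivFun x j, ha j⟩ = 0 :=
      (S.pi_eq_zero_iff ⟨B.equivFun x j, ha j⟩).2 ((A.mem_nonunits_iff).2 (h j))
    rw [h3, zero_smul]

include hπ in
/-- Orthonormal coordinates on a finite-dimensional subspace of `ι → F` (sup-norm). -/
theorem exists_coords_pi {ι : Type*} [Fintype ι] (U : Submodule K (ι → F))
    [FiniteDimensional K U] :
    ∃ (n : ι → ℕ) (c : U →ₗ[K] ((Σ i, Fin (n i)) → K)), Function.Injective c ∧
      (∀ g : U, (∀ i, (g : ι → F) i ∈ S.O) ↔ ∀ t, c g t ∈ A) ∧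
      (∀ g : U, (∀ i, (g : ι → F) i ∈ S.O.nonunits) ↔ ∀ t, A.valuation (c g t) < 1) := by
  classical
  let Ui : ι → Submodule K F := fun i => U.map (LinearMap.proj i : (ι → F) →ₗ[K] F)
  have hfin : ∀ i, FiniteDimensional K (Ui i) := fun i => Module.Finite.map U _
  choose n c hcinj hcO hcm using fun i => exists_coords S hπ (Ui i)
  let p : ∀ i, U →ₗ[K] Ui i := fun i =>
    (LinearMap.proj i : (ι → F) →ₗ[K] F).submoduleMap U
  have hp : ∀ i (g : U), ((p i g : Ui i) : F) = (g : ι → F) i := fun i g => rfl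
  let C : U →ₗ[K] ((Σ i, Fin (n i)) → K) :=
    LinearMap.pi fun t => (LinearMap.proj t.2).comp ((c t.1).comp (p t.1))
  have hC : ∀ (g : U) (t : Σ i, Fin (n i)), C g t = c t.1 (p t.1 g) t.2 := fun g t => rfl
  refine ⟨n, C, ?_, ?_, ?_⟩
  · intro g g' h
    apply Subtype.ext
    funext i
    have h1 : p i g = p i g' := by
      apply hcinj i
      funext j
      have := congrFun h ⟨i, j⟩
      rw [hC, hC] at this
      exact this
    have h2 := congrArg (fun x : Ui i => (x : F)) h1
    simp only [hp] at h2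
    exact h2
  · intro g
    constructor
    · intro h t
      rw [hC]
      exact (hcO t.1 (p t.1 g)).1 (h t.1) t.2
    · intro h i
      exact (hcO i (p i g)).2 fun j => h ⟨i, j⟩
  · intro g
    constructor
    · intro h t
      rw [hC]
      exact (hcm t.1 (p t.1 g)).1 (h t.1) t.2
    · intro h i
      exact (hcm i (p i g)).2 fun j => h ⟨i, j⟩

end Reduced

end Fermat.Agent.BR3.ApproxFullLin
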