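import Mathlib
import Fermat.Agent.BR3.MultiVal
import Fermat.Agent.BR2.NormResidueGen

/-!
# Program C, node (C-NR4), part 2: the norm–residue formula for finitely many valuations

`D : MultiVal.Full O₀ O ι` (`E / F` finite, `O v` the rank one valuation subrings of `E` over `O₀`,
residue degrees `f_v = |ι v|`, `∑ f_v = [E : F]`: no ramification, no defect).  Residue maps are
abstract: `res₀ : O₀ →+* k₀`, `res v : O v →+* k v` (`ResBase`, `ResOver` of `BR2/NormResidue`).

* `det_blockDiagonal'_eq_prod`, `det_eq_prod_of_blocks` : determinant of a block diagonal matrix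
  indexed by a sigma type;
* `exists_residue_basis` : the residues of an adapted family at `O v` form a `k₀`-basis of `k v`;
  `finrank_residue : [k v : k₀] = f_v`;
* **`norm_residue_multi`** : for `f ∈ ⋂ O v` : `N_{E/F} f ∈ O₀` and
  `res₀ (N f) = ∏ v, N_{k v / k₀} (res v f)`;
* `exists_normalizer` : `g` with `c v • g ≡ 1` at every `O v` and `N g * ∏ c v ^ f_v ≡ 1`;
* **`norm_residue_multi_gen`** : `c v • f ∈ O v` for all `v` ⟹ `N f * ∏ c v ^ f_v ∈ O₀` with
  residue `∏ v, N_{k v / k₀} (res v (c v • f))`;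
* `norm_residue_multi_gen_unit` : units go to units.
-/

set_option autoImplicit false
set_option linter.style.haveILetI false
set_option linter.unusedSectionVars false

namespace Fermat.Agent.BR3.MultiVal

open Polynomial Module Matrix Fermat.Agent.Val Fermat.Agent.BR.TwoVal
  Fermat.Agent.BR2.NormResidue

/-! ### block diagonal determinants -/

section Det

variable {V : Type*} [Fintype V] [DecidableEq V] {ι : V → Type*} [∀ v, Fintype (ι v)]
  [∀ v, DecidableEq (ι v)] {R : Type*} [CommRing R]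

theorem det_blockDiagonal'_eq_prod (d : ∀ v, Matrix (ι v) (ι v) R) :
    (blockDiagonal' d).det = ∏ v, (d v).det := by
  classical
  letI : LinearOrder V := LinearOrder.lift' (Fintype.equivFin V) (Fintype.equivFin V).injective
  rw [(blockTriangular_blockDiagonal' d).det_fintype]
  refine Finset.prod_congr rfl fun k _ => ?_
  rw [← Matrix.det_reindex_self (Equiv.sigmaSubtype k).symm (d k)]
  congr 1
  ext ⟨⟨v, i⟩, hi⟩ ⟨⟨w, j⟩, hj⟩
  simp only at hi hj
  subst hi
  subst hj
  simp [toSquareBlock_def, blockDiagonal'_apply_eq]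

/-- a matrix indexed by a sigma type with vanishing off-diagonal blocks -/
theorem det_eq_prod_of_blocks (M : Matrix (Σ v, ι v) (Σ v, ι v) R)
    (d : ∀ v, Matrix (ι v) (ι v) R)
    (hne : ∀ v w i j, v ≠ w → M ⟨v, i⟩ ⟨w, j⟩ = 0)
    (heq : ∀ v i j, M ⟨v, i⟩ ⟨v, j⟩ = d v i j) : M.det = ∏ v, (d v).det := by
  rw [← det_blockDiagonal'_eq_prod]
  congr 1
  ext ⟨v, i⟩ ⟨w, j⟩
  by_cases h : v = w
  · subst h
    rw [heq, blockDiagonal'_apply_eq]
  · rw [hne v w i j h, blockDiagonal'_apply_ne _ _ _ h]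

end Det

/-! ### residues in an adapted basis -/

section Residue

variable {F E : Type*} [Field F] [Field E] [Algebra F E]
variable {O₀ : ValuationSubring F} {V : Type*} [Fintype V] {O : V → ValuationSubring E}
variable {ι : V → Type*} [∀ v, Fintype (ι v)]
variable {k₀ : Type*} [Field k₀] {k : V → Type*} [∀ v, Field (k v)] [∀ v, Algebra k₀ (k v)]
variable {res₀ : O₀ →+* k₀} {res : ∀ v, O v →+* k v}

/-- an adapted family is residue-independent at each valuation -/
theorem IsAdapted.resIndep (S : Setup O₀ O) {x x' : ∀ v, ι v → E}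
    (hx : ∀ v, ResIndep O₀ (O v) (x v)) (hx' : IsAdapted O x x') (v : V) :
    ResIndep O₀ (O v) (x' v) :=
  resIndep_congr (hx v) (fun _ hc _ hz => S.smul_mem_nonunits v hc hz)
    (fun i => ⟨(hx' v i).1, (hx' v i).2.1⟩)

/-- the `v`-coordinates of an element of `(⋂ O w) ∩ 𝔪_v` lie in the maximal ideal of `O₀` -/
theorem repr_block_mem_nonunits (S : Setup O₀ O) {x x' : ∀ v, ι v → E}
    (hx : ∀ v, ResIndep O₀ (O v) (x v)) (hx' : IsAdapted O x x')
    (b : Module.Basis (Σ v, ι v) F E) (hbz : ∀ t, b t = x' t.1 t.2) {w : E} (v : V)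
    (hw : w ∈ (O v).nonunits) (hrepr : ∀ t, b.repr w t ∈ O₀) (i : ι v) :
    b.repr w ⟨v, i⟩ ∈ O₀.nonunits := by
  have hsum : ∑ t : Σ v, ι v, b.repr w t • x' t.1 t.2 = w := by
    conv_rhs => rw [← b.sum_repr w]
    exact Finset.sum_congr rfl fun t _ => by rw [hbz]
  have h1 := S.block_mem_nonunits hx' (fun t => b.repr w t) hrepr v (by rw [hsum]; exact hw)
  exact (hx'.resIndep S hx v).2 (fun i => b.repr w ⟨v, i⟩) (fun i => hrepr _) h1 i

/-- the residue at `O v` of an element of `⋂ O w` in terms of its coordinates in an adapted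
basis -/
theorem res_eq_sum_repr_block (S : Setup O₀ O) (H : ∀ v, ResOver res₀ (res v))
    {x x' : ∀ v, ι v → E} (hx' : IsAdapted O x x')
    (b : Module.Basis (Σ v, ι v) F E) (hbz : ∀ t, b t = x' t.1 t.2) {w : E} (v : V)
    (hw : w ∈ O v) (hrepr : ∀ t, b.repr w t ∈ O₀) :
    res v ⟨w, hw⟩ = ∑ i, res₀ ⟨b.repr w ⟨v, i⟩, hrepr _⟩ • res v ⟨x' v i, (hx' v i).1⟩ := by
  classical
  have hsum : ∑ t : Σ v, ι v, b.repr w t • x' t.1 t.2 = w := by
    conv_rhs => rw [← b.sum_repr w]
    exact Finset.sum_congr rfl fun t _ => by rw [hbz]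
  have hz : ∀ t : Σ v, ι v, x' t.1 t.2 ∈ O v := fun t => hx'.mem v t
  have hmem : ∑ t : Σ v, ι v, b.repr w t • x' t.1 t.2 ∈ O v := by rw [hsum]; exact hw
  have e : (⟨w, hw⟩ : O v) = ⟨∑ t : Σ v, ι v, b.repr w t • x' t.1 t.2, hmem⟩ :=
    Subtype.ext hsum.symm
  rw [e, (H v).res_sum Finset.univ (fun t => b.repr w t) hrepr (fun t => x' t.1 t.2) hz
    (fun t => S.algebraMap_mem v (hrepr t)) hmem, Fintype.sum_sigma]
  rw [Finset.sum_eq_single v]
  · intro u _ hu
    apply Finset.sum_eq_zero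
    intro i _
    have : res v ⟨x' u i, hz ⟨u, i⟩⟩ = 0 := ((H v).ker _).mpr ((hx' u i).2.2 v hu.symm)
    rw [this, smul_zero]
  · intro h
    exact absurd (Finset.mem_univ v) h

/-- **the residues of an adapted family at `O v` form a basis of the residue field** -/
theorem exists_residue_basis [FiniteDimensional F E] (D : Full O₀ O ι) (H₀ : ResBase res₀)
    (H : ∀ v, ResOver res₀ (res v)) {x' : ∀ v, ι v → E} (hx' : IsAdapted O D.x x')
    (b : Module.Basis (Σ v, ι v) F E) (hbz : ∀ t, b t = x' t.1 t.2)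
    (hchar : ∀ w : E, (∀ v, w ∈ O v) ↔ ∀ t, b.repr w t ∈ O₀) (v : V) :
    ∃ bv : Module.Basis (ι v) k₀ (k v), ∀ i, bv i = res v ⟨x' v i, (hx' v i).1⟩ := by
  classical
  have S := D.setup
  have hxI := hx'.resIndep S D.hx v
  have hli : LinearIndependent k₀ fun i => res v ⟨x' v i, (hx' v i).1⟩ :=
    linearIndependent_res H₀ (H v) (fun c hc => S.algebraMap_mem v hc) hxI
  have hspan : ⊤ ≤ Submodule.span k₀ (Set.range fun i => res v ⟨x' v i, (hx' v i).1⟩) := by
    intro yb _
    obtain ⟨y, rfl⟩ := (H v).surj yb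
    obtain ⟨y', hy'⟩ := S.exists_adapted v (ι := Unit) (x := fun _ => (y : E)) (fun _ => y.2)
      (σ := Empty) (fun t => t.elim)
    obtain ⟨hy'v, hy'd, hy'w⟩ := hy' ()
    have hall : ∀ u, y' () ∈ O u := by
      intro u
      by_cases hu : u = v
      · rw [hu]; exact hy'v
      · exact mem_of_mem_nonunits (O u) (hy'w u hu).1
    have hrepr := (hchar (y' ())).mp hall
    have h1 := res_eq_sum_repr_block S H hx' b hbz v hy'v hrepr
    have h2 : res v y = res v ⟨y' (), hy'v⟩ := by
      have h3 : res v (⟨y' (), hy'v⟩ - y) = 0 := ((H v).ker _).mpr hy'd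
      rw [map_sub, sub_eq_zero] at h3
      exact h3.symm
    rw [h2, h1]
    exact Submodule.sum_mem _ fun i _ =>
      Submodule.smul_mem _ _ (Submodule.subset_span ⟨i, rfl⟩)
  exact ⟨Module.Basis.mk hli hspan, fun i => Module.Basis.mk_apply hli hspan i⟩

/-- the residue degree at `O v` is `f_v` -/
theorem finrank_residue [FiniteDimensional F E] (D : Full O₀ O ι) (H₀ : ResBase res₀)
    (H : ∀ v, ResOver res₀ (res v)) (v : V) :
    Module.finrank k₀ (k v) = Fintype.card (ι v) := by
  obtain ⟨x', b, hx', hbz, hchar, -⟩ := D.exists_basis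
  obtain ⟨bv, -⟩ := exists_residue_basis D H₀ H hx' b hbz hchar v
  exact Module.finrank_eq_card_basis bv

theorem finite_residue [FiniteDimensional F E] (D : Full O₀ O ι) (H₀ : ResBase res₀)
    (H : ∀ v, ResOver res₀ (res v)) (v : V) : Module.Finite k₀ (k v) := by
  obtain ⟨x', b, hx', hbz, hchar, -⟩ := D.exists_basis
  obtain ⟨bv, -⟩ := exists_residue_basis D H₀ H hx' b hbz hchar v
  exact Module.Finite.of_basis bv

/-- **the norm–residue formula** for finitely many valuation rings `O v` over `O₀` in the full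
situation `∑ f_v = [E : F]`: for `f ∈ ⋂ O v` the norm `N_{E/F} f` lies in `O₀` and its residue is
the product of the norms of the residues of `f`. -/
theorem norm_residue_multi [FiniteDimensional F E] (D : Full O₀ O ι) (H₀ : ResBase res₀)
    (H : ∀ v, ResOver res₀ (res v)) {f : E} (hf : ∀ v, f ∈ O v) :
    ∃ h : Algebra.norm F f ∈ O₀, res₀ ⟨Algebra.norm F f, h⟩ =
      ∏ v, Algebra.norm k₀ (res v ⟨f, hf v⟩) := by
  classical
  have S := D.setup
  obtain ⟨x', b, hx', hbz, hchar, -⟩ := D.exists_basis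
  choose bv hbv using fun v => exists_residue_basis D H₀ H hx' b hbz hchar v
  have hbmem : ∀ t v, b t ∈ O v := fun t v => by rw [hbz]; exact hx'.mem v t
  have hcoef : ∀ s t, b.repr (f * b s) t ∈ O₀ := fun s t =>
    (hchar (f * b s)).mp (fun v => (O v).mul_mem _ _ (hf v) (hbmem s v)) t
  set M : Matrix (Σ v, ι v) (Σ v, ι v) O₀ := fun t s => ⟨b.repr (f * b s) t, hcoef s t⟩ with hM
  have hleft : Algebra.leftMulMatrix b f = O₀.subtype.mapMatrix M := by
    ext t s
    rw [Algebra.leftMulMatrix_eq_repr_mul]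
    rfl
  have hnorm : Algebra.norm F f = ((M.det : O₀) : F) := by
    rw [Algebra.norm_eq_matrix_det b f, hleft, ← RingHom.map_det]
    rfl
  have hmem : Algebra.norm F f ∈ O₀ := by
    rw [hnorm]
    exact (M.det).2
  refine ⟨hmem, ?_⟩
  have e0 : (⟨Algebra.norm F f, hmem⟩ : O₀) = M.det := Subtype.ext hnorm
  rw [e0, RingHom.map_det]
  rw [det_eq_prod_of_blocks (res₀.mapMatrix M)
    (fun v => Algebra.leftMulMatrix (bv v) (res v ⟨f, hf v⟩))]
  · exact Finset.prod_congr rfl fun v _ => (Algebra.norm_eq_matrix_det (bv v) _).symm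
  · intro v w i j hvw
    show res₀ (M ⟨v, i⟩ ⟨w, j⟩) = 0
    rw [H₀.ker]
    show b.repr (f * b ⟨w, j⟩) ⟨v, i⟩ ∈ O₀.nonunits
    apply repr_block_mem_nonunits S D.hx hx' b hbz v _ (hcoef _)
    rw [hbz]
    exact mul_mem_nonunits_of_mem (O v) (hf v) ((hx' w j).2.2 v hvw)
  · intro v i j
    rw [Algebra.leftMulMatrix_eq_repr_mul]
    show res₀ (M ⟨v, i⟩ ⟨v, j⟩) = (bv v).repr (res v ⟨f, hf v⟩ * bv v j) i
    have hw : f * b ⟨v, j⟩ ∈ O v := (O v).mul_mem _ _ (hf v) (hbmem _ v)
    have h1 := res_eq_sum_repr_block S H hx' b hbz v hw (hcoef ⟨v, j⟩)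
    have h2 : res v ⟨f * b ⟨v, j⟩, hw⟩ = res v ⟨f, hf v⟩ * bv v j := by
      rw [hbv v j, ← map_mul]
      congr 1
      apply Subtype.ext
      show f * b ⟨v, j⟩ = f * x' v j
      rw [hbz]
    rw [← h2, h1]
    have h3 : ∑ i', res₀ ⟨b.repr (f * b ⟨v, j⟩) ⟨v, i'⟩, hcoef _ _⟩ •
        res v ⟨x' v i', (hx' v i').1⟩ =
        ∑ i', (fun i' => res₀ ⟨b.repr (f * b ⟨v, j⟩) ⟨v, i'⟩, hcoef _ _⟩) i' • bv v i' :=
      Finset.sum_congr rfl fun i' _ => by rw [hbv]
    rw [h3, Module.Basis.repr_sum_self]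

end Residue

/-! ### general normalisations -/

section General

variable {F E : Type*} [Field F] [Field E] [Algebra F E]
variable {O₀ : ValuationSubring F} {V : Type*} [Fintype V] {O : V → ValuationSubring E}
variable {ι : V → Type*} [∀ v, Fintype (ι v)]
variable {k₀ : Type*} [Field k₀] {k : V → Type*} [∀ v, Field (k v)] [∀ v, Algebra k₀ (k v)]
variable {res₀ : O₀ →+* k₀} {res : ∀ v, O v →+* k v}

/-- **the normalizer**: for `c v ∈ Fˣ` there is `g ∈ E` with `c v • g ≡ 1` at every `O v` and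
`N_{E/F} g * ∏ c v ^ f_v ≡ 1` in `O₀`. -/
theorem exists_normalizer [FiniteDimensional F E] (D : Full O₀ O ι) (H₀ : ResBase res₀)
    {c : V → F} (hc : ∀ v, c v ≠ 0) :
    ∃ g : E, (∀ v, c v • g - 1 ∈ (O v).nonunits) ∧
      ∃ (u : F) (hu : u ∈ O₀), res₀ ⟨u, hu⟩ = 1 ∧
        Algebra.norm F g * ∏ v, c v ^ Fintype.card (ι v) = u := by
  classical
  have S := D.setup
  -- approximate idempotents, small with respect to the ratios of the constants
  choose ε hε using fun v => S.exists_idem_univ v (fun t : V => algebraMap F E (c t / c v))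
  set g : E := ∑ v, (c v)⁻¹ • ε v with hg
  have hg₁ : ∀ w, c w • g - 1 ∈ (O w).nonunits := by
    intro w
    have e : c w • g - 1 = (ε w - 1) +
        ∑ v ∈ Finset.univ.erase w, algebraMap F E (c w / c v) * ε v := by
      rw [hg, Finset.smul_sum, ← Finset.add_sum_erase Finset.univ _ (Finset.mem_univ w),
        smul_smul, mul_inv_cancel₀ (hc w), one_smul]
      have : ∑ v ∈ Finset.univ.erase w, c w • (c v)⁻¹ • ε v =
          ∑ v ∈ Finset.univ.erase w, algebraMap F E (c w / c v) * ε v :=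
        Finset.sum_congr rfl fun v _ => by
          rw [smul_smul, Algebra.smul_def, div_eq_mul_inv]
      rw [this]
      ring
    rw [e]
    exact add_mem_nonunits (O w) (hε w).1
      (sum_mem_nonunits (O w) _ _ fun v hv =>
        ((hε v).2 w (Finset.ne_of_mem_erase hv).symm).2 w)
  have hgmem : ∀ w, c w • g ∈ O w := fun w => mem_of_sub_one_mem_nonunits (O w) (hg₁ w)
  refine ⟨g, hg₁, ?_⟩
  -- an adapted basis, small with respect to the ratios of the constants
  obtain ⟨x', hx', hsmall⟩ := S.exists_isAdapted (fun v i => (D.hx v).1 i)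
    (fun v (t : V) => algebraMap F E (c v / c t))
  obtain ⟨b, hbz, hchar, hker⟩ := D.basis_of_adapted hx'
  -- the columns of the matrix of `g`, the `v`-columns multiplied by `c v`
  set wc : (Σ v, ι v) → E := fun s => c s.1 • (g * x' s.1 s.2) with hwc
  have hwb : ∀ s u, wc s - b s ∈ (O u).nonunits := by
    rintro ⟨v, i⟩ u
    rw [hbz]
    by_cases hu : u = v
    · subst hu
      have e : wc ⟨u, i⟩ - x' u i = (c u • g - 1) * x' u i := by
        simp only [hwc]
        rw [sub_mul, one_mul, smul_mul_assoc]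
      rw [e]
      exact mul_mem_nonunits_right (O u) (hg₁ u) (hx' u i).1
    · have e : wc ⟨v, i⟩ = (c u • g) * (algebraMap F E (c v / c u) * x' v i) := by
        simp only [hwc]
        rw [Algebra.smul_def, Algebra.smul_def, map_div₀]
        have h0 : algebraMap F E (c u) ≠ 0 := (_root_.map_ne_zero _).mpr (hc u)
        field_simp
      have h1 : wc ⟨v, i⟩ ∈ (O u).nonunits := by
        rw [e]
        exact mul_mem_nonunits_of_mem (O u) (hgmem u) (hsmall v i u hu u)
      exact sub_mem_nonunits (O u) h1 ((hx' v i).2.2 u hu)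
  -- the scaled matrix is `≡ 1`
  have hentry : ∀ t s, b.repr (wc s) t - (if t = s then 1 else 0) ∈ O₀.nonunits := by
    intro t s
    have h1 := hker (wc s - b s) (hwb s) t
    rw [map_sub, Finsupp.sub_apply, Module.Basis.repr_self, Finsupp.single_apply] at h1
    have e : (if s = t then (1 : F) else 0) = if t = s then 1 else 0 := by
      by_cases hts : t = s
      · rw [if_pos hts, if_pos hts.symm]
      · rw [if_neg hts, if_neg (Ne.symm hts)]
    rwa [e] at h1
  have hentryO : ∀ t s, b.repr (wc s) t ∈ O₀ := by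
    intro t s
    have h1 := mem_of_mem_nonunits O₀ (hentry t s)
    have h2 : (if t = s then (1 : F) else 0) ∈ O₀ := by
      split_ifs
      · exact O₀.one_mem
      · exact O₀.zero_mem
    have := O₀.add_mem _ _ h1 h2
    rwa [sub_add_cancel] at this
  set M' : Matrix (Σ v, ι v) (Σ v, ι v) O₀ := fun t s => ⟨b.repr (wc s) t, hentryO t s⟩
    with hM'
  have hM'res : res₀.mapMatrix M' = 1 := by
    ext t s
    show res₀ (M' t s) = (1 : Matrix (Σ v, ι v) (Σ v, ι v) k₀) t s
    have h1 : res₀ (M' t s - (if t = s then 1 else 0)) = 0 := by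
      rw [H₀.ker]
      have e : ((M' t s - (if t = s then 1 else 0) : O₀) : F) =
          b.repr (wc s) t - (if t = s then 1 else 0) := by
        split_ifs <;> simp [hM']
      rw [e]
      exact hentry t s
    rw [map_sub, sub_eq_zero] at h1
    rw [h1, Matrix.one_apply]
    split_ifs <;> simp
  refine ⟨((M'.det : O₀) : F), (M'.det).2, ?_, ?_⟩
  · have : (⟨((M'.det : O₀) : F), (M'.det).2⟩ : O₀) = M'.det := rfl
    rw [this, RingHom.map_det, hM'res, Matrix.det_one]
  · -- the matrix of `g` is `M'` with the `v`-columns divided by `c v`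
    have hleft : Algebra.leftMulMatrix b g =
        Matrix.of fun t s => (c s.1)⁻¹ * (O₀.subtype.mapMatrix M') t s := by
      ext t s
      rw [Algebra.leftMulMatrix_eq_repr_mul, Matrix.of_apply]
      show b.repr (g * b s) t = (c s.1)⁻¹ * b.repr (wc s) t
      simp only [hwc]
      rw [map_smul, Finsupp.smul_apply, smul_eq_mul, ← mul_assoc, inv_mul_cancel₀ (hc s.1),
        one_mul, hbz]
    rw [Algebra.norm_eq_matrix_det b g, hleft, Matrix.det_mul_row, ← RingHom.map_det]
    have hprod : ∏ s : Σ v, ι v, (c s.1)⁻¹ = ∏ v, ((c v)⁻¹) ^ Fintype.card (ι v) := by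
      rw [Fintype.prod_sigma]
      exact Finset.prod_congr rfl fun v _ => by
        show ∏ _y : ι v, (c v)⁻¹ = _
        rw [Finset.prod_const, Finset.card_univ]
    have hcancel : (∏ v, ((c v)⁻¹) ^ Fintype.card (ι v)) * ∏ v, c v ^ Fintype.card (ι v) = 1 := by
      rw [← Finset.prod_mul_distrib]
      exact Finset.prod_eq_one fun v _ => by
        rw [← mul_pow, inv_mul_cancel₀ (hc v), one_pow]
    rw [hprod, mul_assoc, mul_comm ((O₀.subtype) M'.det), ← mul_assoc, hcancel, one_mul]
    rfl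

/-- **the norm–residue formula, general normalisation**: `c v ∈ Fˣ`, `c v • f ∈ O v` for all `v`.
Then `N_{E/F} f * ∏ c v ^ f_v ∈ O₀` and its residue is `∏ v, N_{k v / k₀} (res v (c v • f))`. -/
theorem norm_residue_multi_gen [FiniteDimensional F E] (D : Full O₀ O ι) (H₀ : ResBase res₀)
    (H : ∀ v, ResOver res₀ (res v)) {c : V → F} (hc : ∀ v, c v ≠ 0) {f : E}
    (hf : ∀ v, c v • f ∈ O v) :
    ∃ h : Algebra.norm F f * ∏ v, c v ^ Fintype.card (ι v) ∈ O₀,
      res₀ ⟨Algebra.norm F f * ∏ v, c v ^ Fintype.card (ι v), h⟩ =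
        ∏ v, Algebra.norm k₀ (res v ⟨c v • f, hf v⟩) := by
  obtain ⟨g, hg₁, u, hu, hures, hnorm⟩ := exists_normalizer D H₀ hc
  have hi := fun v => (H v).res_inv_of_sub_one (hg₁ v)
  have hg0 : g ≠ 0 := by
    rintro rfl
    obtain ⟨v⟩ : Nonempty V := by
      by_contra hV
      rw [not_nonempty_iff] at hV
      have h1 := D.card_eq
      rw [Finset.univ_eq_empty, Finset.sum_empty] at h1
      exact (Module.finrank_pos (R := F) (M := E)).ne h1
    have h1 := hg₁ v
    rw [smul_zero, zero_sub] at h1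
    apply one_notMem_nonunits (O v)
    have := neg_mem_nonunits (O v) h1
    simpa using this
  have he : ∀ v, f * g⁻¹ = (c v • f) * (c v • g)⁻¹ := by
    intro v
    have hcF : algebraMap F E (c v) ≠ 0 := (_root_.map_ne_zero _).mpr (hc v)
    rw [Algebra.smul_def, Algebra.smul_def, mul_inv]
    field_simp
  have hm : ∀ v, f * g⁻¹ ∈ O v := fun v => by
    rw [he v]
    exact (O v).mul_mem _ _ (hf v) (hi v).choose
  obtain ⟨h, hres⟩ := norm_residue_multi D H₀ H hm
  have hr : ∀ v, res v ⟨f * g⁻¹, hm v⟩ = res v ⟨c v • f, hf v⟩ := by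
    intro v
    have : (⟨f * g⁻¹, hm v⟩ : O v) = ⟨c v • f, hf v⟩ * ⟨(c v • g)⁻¹, (hi v).choose⟩ :=
      Subtype.ext (he v)
    rw [this, map_mul, (hi v).choose_spec, mul_one]
  have hkey : Algebra.norm F f * ∏ v, c v ^ Fintype.card (ι v) =
      Algebra.norm F (f * g⁻¹) * u := by
    have hfg : f = f * g⁻¹ * g := by rw [mul_assoc, inv_mul_cancel₀ hg0, mul_one]
    conv_lhs => rw [hfg, map_mul, mul_assoc, hnorm]
  have hmem : Algebra.norm F f * ∏ v, c v ^ Fintype.card (ι v) ∈ O₀ := by
    rw [hkey]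
    exact O₀.mul_mem _ _ h hu
  refine ⟨hmem, ?_⟩
  have e : (⟨Algebra.norm F f * ∏ v, c v ^ Fintype.card (ι v), hmem⟩ : O₀) =
      ⟨Algebra.norm F (f * g⁻¹), h⟩ * ⟨u, hu⟩ := Subtype.ext hkey
  rw [e, map_mul, hures, mul_one, hres]
  exact Finset.prod_congr rfl fun v _ => by rw [hr v]

/-- units go to units -/
theorem norm_gen_notMem_nonunits [FiniteDimensional F E] (D : Full O₀ O ι) (H₀ : ResBase res₀)
    (H : ∀ v, ResOver res₀ (res v)) {c : V → F} (hc : ∀ v, c v ≠ 0) {f : E}
    (hf : ∀ v, c v • f ∈ O v) (hu : ∀ v, c v • f ∉ (O v).nonunits) :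
    Algebra.norm F f * ∏ v, c v ^ Fintype.card (ι v) ∉ O₀.nonunits := by
  obtain ⟨h, hres⟩ := norm_residue_multi_gen D H₀ H hc hf
  intro hn
  have h0 : res₀ ⟨Algebra.norm F f * ∏ v, c v ^ Fintype.card (ι v), h⟩ = 0 :=
    (H₀.ker _).mpr hn
  rw [hres, Finset.prod_eq_zero_iff] at h0
  obtain ⟨v, -, hv⟩ := h0
  haveI := finite_residue D H₀ H v
  rw [Algebra.norm_eq_zero_iff] at hv
  exact hu v (((H v).ker _).mp hv)

/-- a residue extension of degree one: the norm is the inverse of the structure map -/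
theorem algebraMap_norm_residue_of_card_eq_one [FiniteDimensional F E] (D : Full O₀ O ι)
    (H₀ : ResBase res₀) (H : ∀ v, ResOver res₀ (res v)) (v : V)
    (hv : Fintype.card (ι v) = 1) (y : k v) :
    algebraMap k₀ (k v) (Algebra.norm k₀ y) = y := by
  haveI := finite_residue D H₀ H v
  exact algebraMap_norm_of_finrank_eq_one ((finrank_residue D H₀ H v).trans hv) y

/-- a purely inseparable residue extension: the norm is the `f_v`-th power -/
theorem algebraMap_norm_residue_of_insep [FiniteDimensional F E] (D : Full O₀ O ι)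
    (H₀ : ResBase res₀) (H : ∀ v, ResOver res₀ (res v)) (v : V) (p : ℕ) [ExpChar k₀ p] (a : ℕ)
    (y : k v) (hy : y ^ p ^ a ∈ (algebraMap k₀ (k v)).range) :
    algebraMap k₀ (k v) (Algebra.norm k₀ y) = y ^ Fintype.card (ι v) := by
  haveI := finite_residue D H₀ H v
  rw [algebraMap_norm_of_pow_mem p a y hy, finrank_residue D H₀ H v]

end General

/-! ### a single valuation -/

section SingleVal

variable {F E : Type*} [Field F] [Field E] [Algebra F E]
variable {O₀ : ValuationSubring F} {O : ValuationSubring E}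
variable {ι : Type*} [Fintype ι]
variable {k₀ k : Type*} [Field k₀] [Field k] [Algebra k₀ k]
variable {res₀ : O₀ →+* k₀} {res : O →+* k}

/-- the full situation for a single valuation: `f = [E : F]` -/
def Full.single (hlies : O.comap (algebraMap F E) = O₀) (harch : Arch O) (x : ι → E)
    (hx : ResIndep O₀ O x) (hcard : Fintype.card ι = Module.finrank F E) :
    Full O₀ (fun _ : Unit => O) (fun _ => ι) where
  setup :=
    { lies := fun _ => hlies
      arch := fun _ => harch
      sep := fun v w h => absurd (Subsingleton.elim v w) h }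
  x := fun _ => x
  hx := fun _ => hx
  card_eq := by
    rw [Finset.univ_unique, Finset.sum_singleton]
    exact hcard

/-- **the norm–residue formula for a single valuation with `f = [E : F]`** -/
theorem norm_residue_single_gen [FiniteDimensional F E]
    (hlies : O.comap (algebraMap F E) = O₀) (harch : Arch O) (x : ι → E)
    (hx : ResIndep O₀ O x) (hcard : Fintype.card ι = Module.finrank F E)
    (H₀ : ResBase res₀) (H : ResOver res₀ res) {c : F} (hc : c ≠ 0) {f : E}
    (hf : c • f ∈ O) :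
    ∃ h : Algebra.norm F f * c ^ Fintype.card ι ∈ O₀,
      res₀ ⟨Algebra.norm F f * c ^ Fintype.card ι, h⟩ = Algebra.norm k₀ (res ⟨c • f, hf⟩) := by
  have D := Full.single hlies harch x hx hcard
  obtain ⟨h, hres⟩ := norm_residue_multi_gen (k := fun _ : Unit => k)
    (res := fun _ : Unit => res) D H₀ (fun _ => H) (c := fun _ => c) (fun _ => hc)
    (f := f) (fun _ => hf)
  have e : Algebra.norm F f * c ^ Fintype.card ι =
      Algebra.norm F f * ∏ _v : Unit, c ^ Fintype.card ι := by
    rw [Finset.univ_unique, Finset.prod_singleton]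
  have e' : ∏ _v : Unit, Algebra.norm k₀ (res ⟨c • f, hf⟩) =
      Algebra.norm k₀ (res ⟨c • f, hf⟩) := by
    rw [Finset.univ_unique, Finset.prod_singleton]
  have hmem : Algebra.norm F f * c ^ Fintype.card ι ∈ O₀ := by rw [e]; exact h
  refine ⟨hmem, ?_⟩
  have e2 : (⟨Algebra.norm F f * c ^ Fintype.card ι, hmem⟩ : O₀) =
      ⟨Algebra.norm F f * ∏ _v : Unit, c ^ Fintype.card ι, h⟩ := Subtype.ext e
  rw [e2, hres, e']

end SingleVal

end Fermat.Agent.BR3.MultiVal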