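import Mathlib
import Fermat.Agent.BR3.ApproxFullLin
import Fermat.Agent.BR3.NormResidueMulti
import Fermat.Agent.BR.GaussCompare

/-!
# Program C, node A10 (APPROX): best approximations upstairs, at `K`-level

`F / K` a function field with a constant reduction `S₀ : Val.ConstRed A π` (valuation ring
`S₀.O`), `E / F` a finite extension, `D : MultiVal.Full S₀.O O ι` the family of ALL extensions
`O v` of `S₀.O` to `E` in the situation `∑ f_v = [E : F]` (no ramification, no defect).

* `Compare A (O v)` : the `K`-level coordinate bound at one valuation (shape of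
  `ConstRedTwo.Compare`); it is the only input which does not come from downstairs;
* `exists_smul_unit` : `e = 1` upstairs: every nonzero element of `E` is a `K`-multiple of a unit
  of `O v`;
* `approx_of_full` : the `approx` field of `Val.ConstRed` for `(O v, res)`;
* `compare_semilocal`, `compare_of_unique` : the coordinate bound for `⋂ O v` comes from
  downstairs; in particular `Compare` is free when the extension is unique;
* `constRedOfFull` : the packaged `Val.ConstRed` upstairs.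

Proof of `approx_of_full`: a `K`-linear perturbation `Φ : W → (ι v → F)` of a finite-dimensional
`K`-subspace `W ≤ E` with `|z - ∑ i, Φ z i • ξ i|_v < |z|_v`, where `ξ` is the `v`-block of an
adapted basis (orthonormal at `O v`); then Gaussian elimination in orthonormal coordinates
(`ApproxFullLin`).
-/

set_option autoImplicit false
set_option linter.style.haveILetI false
set_option linter.unusedSectionVars false

namespace Fermat.Agent.BR3.ApproxFull

open Fermat.Agent.Val Fermat.Agent.BR.TwoVal Fermat.Agent.BR3.MultiVal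
  Fermat.Agent.BR3.ApproxFullLin Module

/-! ### orthonormal families at one valuation -/

section Ortho

variable {F E : Type*} [Field F] [Field E] [Algebra F E]
variable {O₀ : ValuationSubring F} {O : ValuationSubring E} {ι : Type*} [Fintype ι]
  {ξ : ι → E}

theorem algebraMap_mem_of_lies (hlies : O.comap (algebraMap F E) = O₀) {c : F} (hc : c ∈ O₀) :
    algebraMap F E c ∈ O := by
  rw [← hlies] at hc
  exact hc

theorem comb_mem (hlies : O.comap (algebraMap F E) = O₀) (hξ : ResIndep O₀ O ξ) {g : ι → F}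
    (hg : ∀ i, g i ∈ O₀) : ∑ i, g i • ξ i ∈ O :=
  sum_mem fun i _ => by
    rw [Algebra.smul_def]
    exact O.mul_mem _ _ (algebraMap_mem_of_lies hlies (hg i)) (hξ.1 i)

theorem comb_mem_nonunits (hlies : O.comap (algebraMap F E) = O₀) (hξ : ResIndep O₀ O ξ)
    {g : ι → F} (hg : ∀ i, g i ∈ O₀.nonunits) : ∑ i, g i • ξ i ∈ O.nonunits :=
  sum_mem_nonunits O _ _ fun i _ => by
    rw [Algebra.smul_def]
    exact mul_mem_nonunits_right O ((algebraMap_mem_nonunits_iff hlies _).2 (hg i)) (hξ.1 i)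

theorem coeff_mem_of_comb_mem (hlies : O.comap (algebraMap F E) = O₀) (hξ : ResIndep O₀ O ξ)
    {g : ι → F} (h : ∑ i, g i • ξ i ∈ O) : ∀ i, g i ∈ O₀ := by
  by_contra hne
  push Not at hne
  obtain ⟨i₁, hi₁⟩ := hne
  have hex : ∃ i, g i ≠ 0 := ⟨i₁, fun h0 => hi₁ (h0 ▸ O₀.zero_mem)⟩
  obtain ⟨t₀, ht₀, hpiv⟩ := exists_pivot O₀ g hex
  have ht₀' : g t₀ ∉ O₀ := by
    intro h'
    apply hi₁
    have h1 : g i₁ = (g i₁ / g t₀) * g t₀ := by rw [div_mul_cancel₀ _ ht₀]
    rw [h1]
    exact O₀.mul_mem _ _ (hpiv i₁) h'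
  have hinv : (g t₀)⁻¹ ∈ O₀.nonunits := by
    rw [mem_nonunits_iff_inv_notMem O₀ (inv_ne_zero ht₀), inv_inv]
    exact ht₀'
  have hsum : ∑ i, (g i / g t₀) • ξ i = (g t₀)⁻¹ • ∑ i, g i • ξ i := by
    rw [Finset.smul_sum]
    refine Finset.sum_congr rfl fun i _ => ?_
    rw [smul_smul, div_eq_inv_mul]
  have h2 : ∑ i, (g i / g t₀) • ξ i ∈ O.nonunits := by
    rw [hsum, Algebra.smul_def]
    exact mul_mem_nonunits_right O ((algebraMap_mem_nonunits_iff hlies _).2 hinv) h
  have h3 := hξ.2 (fun i => g i / g t₀) hpiv h2 t₀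
  rw [div_self ht₀] at h3
  exact one_notMem_nonunits O₀ h3

theorem coeff_mem_nonunits_of_comb (hlies : O.comap (algebraMap F E) = O₀)
    (hξ : ResIndep O₀ O ξ) {g : ι → F} (h : ∑ i, g i • ξ i ∈ O.nonunits) :
    ∀ i, g i ∈ O₀.nonunits :=
  hξ.2 g (coeff_mem_of_comb_mem hlies hξ (mem_of_mem_nonunits O h)) h

end Ortho

/-! ### downstairs: scaling to units -/

section Down

variable {K F k Ft : Type*} [Field K] [Field F] [Algebra K F] [Field k] [Field Ft]
  [Algebra k Ft] {A : ValuationSubring K} {π : A →+* k}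
  (S₀ : ConstRed (F := F) (Ft := Ft) A π)

/-- every nonzero element of `F` is a `K`-multiple of a unit of `S₀.O` -/
theorem exists_smul_unit₀ {x : F} (hx : x ≠ 0) :
    ∃ d : K, d ≠ 0 ∧ d • x ∈ S₀.O ∧ d • x ∉ S₀.O.nonunits := by
  have hfin : Module.Finite K (⊥ : Submodule K F) := inferInstance
  obtain ⟨w, hw, c, hc, h, hne⟩ := S₀.approx ⊥ hfin x (by
    rw [Submodule.mem_bot]
    exact hx)
  rw [Submodule.mem_bot] at hw
  subst hw
  have e : c • (x - 0) = c • x := by rw [sub_zero]
  refine ⟨c, hc, e ▸ h, fun hnon => ?_⟩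
  apply hne ⟨0, S₀.O.zero_mem⟩ (Submodule.zero_mem _)
  have h1 : S₀.resF (c • (x - 0)) = 0 := (S₀.resF_eq_zero_iff h).2 (by rw [e]; exact hnon)
  rw [S₀.resF_of_mem h] at h1
  rw [h1]
  exact map_zero S₀.res

/-- a nonzero vector is a `K`-multiple of a vector of sup-norm one -/
theorem exists_smul_unit_pi {ι : Type*} [Fintype ι] {g : ι → F} (hg : ∃ i, g i ≠ 0) :
    ∃ d : K, d ≠ 0 ∧ (∀ i, d • g i ∈ S₀.O) ∧ ∃ i, d • g i ∉ S₀.O.nonunits := by
  obtain ⟨t₀, ht₀, hpiv⟩ := exists_pivot S₀.O g hg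
  obtain ⟨d, hd, hdO, hdu⟩ := exists_smul_unit₀ S₀ ht₀
  refine ⟨d, hd, fun i => ?_, t₀, hdu⟩
  have h1 : d • g i = (g i / g t₀) * (d • g t₀) := by
    rw [Algebra.smul_def, Algebra.smul_def]
    field_simp
  rw [h1]
  exact S₀.O.mul_mem _ _ (hpiv i) hdO

end Down

/-! ### the tower `K ⊆ F ⊆ E` -/

section Main

variable {K F E : Type*} [Field K] [Field F] [Field E] [Algebra K F] [Algebra K E]
  [Algebra F E] [IsScalarTower K F E]
variable {A : ValuationSubring K} {O₀ : ValuationSubring F}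
variable {V : Type*} [Fintype V] {O : V → ValuationSubring E} {ι : V → Type*}
  [∀ v, Fintype (ι v)]

/-- constants: `O v ∩ K = A` -/
theorem comap_K (hA₀ : ∀ a : K, algebraMap K F a ∈ O₀ ↔ a ∈ A) (S : Setup O₀ O) (v : V) :
    (O v).comap (algebraMap K E) = A := by
  ext a
  rw [ValuationSubring.mem_comap, IsScalarTower.algebraMap_apply K F E,
    ← ValuationSubring.mem_comap, S.lies v, hA₀]

/-- **density of the `v`-block of a suitable adapted basis**: finitely many elements of `E` are
approximated modulo `ε` at `O v` by `F`-combinations of a family `ξ` orthonormal at `O v`. -/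
theorem exists_adapted_approx [FiniteDimensional F E] (D : Full O₀ O ι)
    (hA₀ : ∀ a : K, algebraMap K F a ∈ O₀ ↔ a ∈ A) {p : K} (hp0 : p ≠ 0)
    (hpA : p ∈ A.nonunits) (v : V) {m : ℕ} (z : Fin m → E) {ε : K} (hε : ε ≠ 0) :
    ∃ ξ : ι v → E, ResIndep O₀ (O v) ξ ∧
      ∀ j, ∃ g : ι v → F, (z j - ∑ i, g i • ξ i) * (algebraMap K E ε)⁻¹ ∈ O v := by
  classical
  have S := D.setup
  set û : E := algebraMap K E p with hû_def
  have hû0 : û ≠ 0 := (map_ne_zero _).2 hp0
  have hû : ∀ w, û ∈ (O w).nonunits := fun w =>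
    (algebraMap_mem_nonunits_iff (comap_K hA₀ S w) p).2 hpA
  have hN : ∀ (w : V) (j : Fin m), ∃ n, ∀ l, n ≤ l → z j * û ^ l ∈ (O w).nonunits :=
    fun w j => (S.arch w).exists_forall_ge (z j) (hû w) hû0
  choose N hN using hN
  set n := Finset.univ.sup (fun wj : V × Fin m => N wj.1 wj.2) with hn_def
  have hn : ∀ w j, z j * û ^ n ∈ O w := fun w j =>
    mem_of_mem_nonunits _ (hN w j n
      (Finset.le_sup (f := fun wj : V × Fin m => N wj.1 wj.2) (Finset.mem_univ (w, j))))
  set ε' : E := algebraMap K E ε with hε'_def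
  have hε' : ε' ≠ 0 := (map_ne_zero _).2 hε
  set q : E := (û ^ n * ε')⁻¹ with hq
  obtain ⟨x', hx', hsmall⟩ := S.exists_isAdapted (fun v i => (D.hx v).1 i) (σ := Unit)
    (fun _ _ => q)
  obtain ⟨b, hbz, hchar, -⟩ := D.basis_of_adapted hx'
  refine ⟨x' v, IsAdapted.resIndep S D.hx hx' v, fun j => ?_⟩
  set r := b.repr (z j * û ^ n) with hr_def
  have hr : ∀ t, r t ∈ O₀ := (hchar _).1 (fun w => hn w j)
  have hsum : ∑ t : Σ v, ι v, r t • x' t.1 t.2 = z j * û ^ n := by
    conv_rhs => rw [← b.sum_repr (z j * û ^ n)]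
    exact Finset.sum_congr rfl fun t _ => by rw [hbz]
  refine ⟨fun i => (algebraMap K F (p ^ n))⁻¹ * r ⟨v, i⟩, ?_⟩
  have hpn : algebraMap F E (algebraMap K F (p ^ n)) = û ^ n := by
    rw [← IsScalarTower.algebraMap_apply K F E, map_pow]
  have hûn : û ^ n ≠ 0 := pow_ne_zero n hû0
  have e1 : z j * ε'⁻¹ = ∑ t : Σ v, ι v, r t • (q * x' t.1 t.2) := by
    have h1 : z j * ε'⁻¹ = (z j * û ^ n) * q := by
      rw [hq, mul_inv]
      field_simp
    rw [h1, ← hsum, Finset.sum_mul]
    refine Finset.sum_congr rfl fun t _ => ?_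
    rw [Algebra.smul_def, Algebra.smul_def]
    ring
  have e2 : (∑ i, ((algebraMap K F (p ^ n))⁻¹ * r ⟨v, i⟩) • x' v i) * ε'⁻¹ =
      ∑ i, r ⟨v, i⟩ • (q * x' v i) := by
    rw [Finset.sum_mul]
    refine Finset.sum_congr rfl fun i _ => ?_
    rw [Algebra.smul_def, Algebra.smul_def, map_mul, map_inv₀, hpn, hq, mul_inv]
    ring
  have hkey : (z j - ∑ i, ((algebraMap K F (p ^ n))⁻¹ * r ⟨v, i⟩) • x' v i) * ε'⁻¹ =
      ∑ u ∈ Finset.univ.erase v, ∑ i, r ⟨u, i⟩ • (q * x' u i) := by
    rw [sub_mul, e1, e2, Fintype.sum_sigma,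
      ← Finset.add_sum_erase Finset.univ _ (Finset.mem_univ v), add_sub_cancel_left]
  rw [hkey]
  refine sum_mem fun u hu => sum_mem fun i _ => ?_
  have huv : v ≠ u := fun h => (Finset.ne_of_mem_erase hu) h.symm
  exact S.smul_mem v (hr _) (mem_of_mem_nonunits _ (hsmall u i v huv ()))

end Main

/-! ### `e = 1` upstairs -/

section Scale

variable {K F E k Ft : Type*} [Field K] [Field F] [Field E] [Algebra K F] [Algebra K E]
  [Algebra F E] [IsScalarTower K F E] [Field k] [Field Ft] [Algebra k Ft]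
variable {A : ValuationSubring K} {π : A →+* k}
variable {V : Type*} [Fintype V] {O : V → ValuationSubring E} {ι : V → Type*}
  [∀ v, Fintype (ι v)]

theorem valuation_eq_one_of_mem {O' : ValuationSubring E} {x : E} (h1 : x ∈ O')
    (h2 : x ∉ O'.nonunits) : O'.valuation x = 1 :=
  le_antisymm ((O'.valuation_le_one_iff x).2 h1)
    (not_lt.1 fun h => h2 ((O'.mem_nonunits_iff).2 h))

/-- **`e = 1` upstairs**: every nonzero element of `E` is a `K`-multiple of a unit of `O v`. -/
theorem exists_smul_unit [FiniteDimensional F E] (S₀ : ConstRed (F := F) (Ft := Ft) A π)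
    (D : Full S₀.O O ι) {p : K} (hp0 : p ≠ 0) (hpA : p ∈ A.nonunits) (v : V) {z : E}
    (hz : z ≠ 0) : ∃ d : K, d ≠ 0 ∧ d • z ∈ O v ∧ d • z ∉ (O v).nonunits := by
  classical
  have S := D.setup
  set w := (O v).valuation with hw
  set û : E := algebraMap K E p with hû_def
  have hû0 : û ≠ 0 := (map_ne_zero _).2 hp0
  have hû : û ∈ (O v).nonunits :=
    (algebraMap_mem_nonunits_iff (comap_K S₀.algebraMap_mem_iff S v) p).2 hpA
  have hwû : w û < 1 := ((O v).mem_nonunits_iff).1 hû
  have hwû0 : 0 < w û := by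
    rw [pos_iff_ne_zero, ne_eq, map_eq_zero]
    exact hû0
  obtain ⟨n, hn⟩ := S.arch v z⁻¹ û hû hû0
  have hwz0 : 0 < w z := by
    rw [pos_iff_ne_zero, ne_eq, map_eq_zero]
    exact hz
  have hn' : w û ^ n ≤ w z := by
    have h1 := ((O v).valuation_le_one_iff _).2 hn
    rw [map_mul, map_inv₀, map_pow] at h1
    rwa [inv_mul_le_iff₀ hwz0, mul_one] at h1
  obtain ⟨ξ, hξ, hg⟩ := exists_adapted_approx D S₀.algebraMap_mem_iff hp0 hpA v
    (fun _ : Fin 1 => z) (pow_ne_zero (n + 1) hp0)
  obtain ⟨g, hg⟩ := hg 0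
  set αg : E := ∑ i, g i • ξ i with hαg
  have hε0 : 0 < w (algebraMap K E (p ^ (n + 1))) := by
    rw [pos_iff_ne_zero, ne_eq, map_eq_zero, map_eq_zero]
    exact pow_ne_zero _ hp0
  have h1 : w (z - αg) ≤ w (algebraMap K E (p ^ (n + 1))) := by
    have h := ((O v).valuation_le_one_iff _).2 hg
    rw [map_mul, map_inv₀] at h
    rwa [mul_inv_le_iff₀ hε0, one_mul] at h
  have h2 : w (algebraMap K E (p ^ (n + 1))) < w z := by
    rw [map_pow, map_pow, pow_succ]
    calc w û ^ n * w û < w û ^ n * 1 := by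
          exact mul_lt_mul_of_pos_left hwû (pow_pos hwû0 n)
      _ = w û ^ n := mul_one _
      _ ≤ w z := hn'
  have h3 : w αg = w z := by
    have e : αg = z - (z - αg) := by ring
    rw [e]
    exact Valuation.map_sub_eq_of_lt_left w (lt_of_le_of_lt h1 h2)
  have hgex : ∃ i, g i ≠ 0 := by
    by_contra hcon
    push Not at hcon
    have h0 : αg = 0 := by
      rw [hαg]
      exact Finset.sum_eq_zero fun i _ => by rw [hcon i, zero_smul]
    rw [h0, map_zero] at h3
    exact hwz0.ne h3
  obtain ⟨d, hd, hdO, i₀, hdu⟩ := exists_smul_unit_pi S₀ hgex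
  have e : d • αg = ∑ i, (d • g i) • ξ i := by
    rw [hαg, Finset.smul_sum]
    exact Finset.sum_congr rfl fun i _ => (smul_assoc d (g i) (ξ i)).symm
  have hmem : d • αg ∈ O v := by
    rw [e]
    exact comb_mem (S.lies v) hξ hdO
  have hunit : d • αg ∉ (O v).nonunits := fun h =>
    hdu (coeff_mem_nonunits_of_comb (S.lies v) hξ (e ▸ h) i₀)
  have h4 : w (d • αg) = 1 := valuation_eq_one_of_mem hmem hunit
  have h5 : w (d • z) = 1 := by
    rw [Algebra.smul_def, map_mul, ← h3, ← map_mul, ← Algebra.smul_def]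
    exact h4
  refine ⟨d, hd, ((O v).valuation_le_one_iff _).1 h5.le, fun h => ?_⟩
  rw [(O v).mem_nonunits_iff, ← hw, h5] at h
  exact lt_irrefl _ h

end Scale

/-! ### the perturbation and best approximations -/

section Approx

variable {K F E k Ft : Type*} [Field K] [Field F] [Field E] [Algebra K F] [Algebra K E]
  [Algebra F E] [IsScalarTower K F E] [Field k] [Field Ft] [Algebra k Ft]
variable {A : ValuationSubring K} {π : A →+* k}
variable {V : Type*} [Fintype V] {O : V → ValuationSubring E} {ι : V → Type*}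
  [∀ v, Fintype (ι v)]

/-- The `K`-level coordinate bound at one valuation: unit balls of finite-dimensional
`K`-subspaces are bounded in coordinates (shape of `ConstRedTwo.Compare`). -/
def Compare (A : ValuationSubring K) (O' : ValuationSubring E) : Prop :=
  ∀ (m : ℕ) (w : Fin m → E), LinearIndependent K w →
    ∃ c : K, c ≠ 0 ∧ ∀ a : Fin m → K, ∑ i, a i • w i ∈ O' → ∀ i, c * a i ∈ A

/-- **the perturbation**: a `K`-linear map `Φ : W → (ι v → F)` with
`|z - ∑ i, Φ z i • ξ i|_v < |z|_v`, `ξ` orthonormal at `O v`. -/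
theorem exists_perturbation [FiniteDimensional F E] (S₀ : ConstRed (F := F) (Ft := Ft) A π)
    (D : Full S₀.O O ι) {p : K} (hp0 : p ≠ 0) (hpA : p ∈ A.nonunits) (v : V)
    (hcmp : Compare A (O v)) (W : Submodule K E) [FiniteDimensional K W] :
    ∃ (ξ : ι v → E) (Φ : W →ₗ[K] (ι v → F)), ResIndep S₀.O (O v) ξ ∧
      ∀ z : W, (z : E) ≠ 0 →
        (O v).valuation ((z : E) - ∑ i, Φ z i • ξ i) < (O v).valuation (z : E) := by
  classical
  have S := D.setup
  set w := (O v).valuation with hw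
  set B := Module.finBasis K W with hB
  set e : Fin (finrank K W) → E := fun j => ((B j : W) : E) with he
  have hli : LinearIndependent K e :=
    B.linearIndependent.map' W.subtype (Submodule.ker_subtype W)
  obtain ⟨c₀, hc₀, hcmp'⟩ := hcmp _ e hli
  have hε : c₀ * p ≠ 0 := mul_ne_zero hc₀ hp0
  obtain ⟨ξ, hξ, hg⟩ := exists_adapted_approx D S₀.algebraMap_mem_iff hp0 hpA v e hε
  choose g hg using hg
  set ε' : E := algebraMap K E (c₀ * p) with hε'_def
  have hε' : ε' ≠ 0 := (map_ne_zero _).2 hε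
  set Φ : W →ₗ[K] (ι v → F) := B.constr K g with hΦ
  have hΦapp : ∀ (z : W) (i : ι v), Φ z i = ∑ j, B.repr z j • g j i := by
    intro z i
    rw [hΦ, Basis.constr_apply_fintype]
    simp [Finset.sum_apply]
  have hzsum : ∀ z : W, (z : E) = ∑ j, B.repr z j • e j := by
    intro z
    have h1 := B.sum_repr z
    have h2 := congrArg (fun y : W => (y : E)) h1
    simp only [Submodule.coe_sum, Submodule.coe_smul] at h2
    exact h2.symm
  have hdiff : ∀ z : W, (z : E) - ∑ i, Φ z i • ξ i =
      ∑ j, B.repr z j • (e j - ∑ i, g j i • ξ i) := by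
    intro z
    have h1 : ∑ i, Φ z i • ξ i = ∑ j, B.repr z j • ∑ i, g j i • ξ i := by
      have h2 : ∀ i, Φ z i • ξ i = ∑ j, B.repr z j • (g j i • ξ i) := by
        intro i
        rw [hΦapp, Finset.sum_smul]
        exact Finset.sum_congr rfl fun j _ => smul_assoc _ _ _
      rw [Finset.sum_congr rfl fun i _ => h2 i, Finset.sum_comm]
      exact Finset.sum_congr rfl fun j _ => (Finset.smul_sum).symm
    rw [h1]
    conv_lhs => rw [hzsum z]
    rw [← Finset.sum_sub_distrib]
    exact Finset.sum_congr rfl fun j _ => (smul_sub _ _ _).symm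
  have P1 : ∀ z : W, (z : E) ∈ O v → (z : E) - ∑ i, Φ z i • ξ i ∈ (O v).nonunits := by
    intro z hz
    have ha : ∀ j, c₀ * B.repr z j ∈ A := by
      refine hcmp' (fun j => B.repr z j) ?_
      rw [← hzsum z]
      exact hz
    rw [hdiff z]
    refine sum_mem_nonunits (O v) _ _ fun j _ => ?_
    have h1 : B.repr z j • (e j - ∑ i, g j i • ξ i) =
        algebraMap K E (B.repr z j * (c₀ * p)) * ((e j - ∑ i, g j i • ξ i) * ε'⁻¹) := by
      rw [Algebra.smul_def, map_mul, ← hε'_def]
      field_simp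
    rw [h1]
    refine mul_mem_nonunits_right (O v) ?_ (hg j)
    rw [algebraMap_mem_nonunits_iff (comap_K S₀.algebraMap_mem_iff S v)]
    have h2 : B.repr z j * (c₀ * p) = (c₀ * B.repr z j) * p := by ring
    rw [h2]
    exact mul_mem_nonunits_of_mem A (ha j) hpA
  refine ⟨ξ, Φ, hξ, fun z hz => ?_⟩
  obtain ⟨d, hd, hdO, hdu⟩ := exists_smul_unit S₀ D hp0 hpA v hz
  have h1 := P1 (d • z) hdO
  have h2 : ((d • z : W) : E) - ∑ i, Φ (d • z) i • ξ i =
      d • ((z : E) - ∑ i, Φ z i • ξ i) := by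
    rw [smul_sub, Finset.smul_sum]
    congr 1
    refine Finset.sum_congr rfl fun i _ => ?_
    rw [map_smul, Pi.smul_apply, smul_assoc]
  rw [h2] at h1
  have h3 : w (d • (z : E)) = 1 := valuation_eq_one_of_mem hdO hdu
  have h4 : w (d • ((z : E) - ∑ i, Φ z i • ξ i)) < w (d • (z : E)) := by
    rw [h3]
    exact ((O v).mem_nonunits_iff).1 h1
  rw [Algebra.smul_def, Algebra.smul_def, map_mul, map_mul] at h4
  have hd0 : 0 < w (algebraMap K E d) := by
    rw [pos_iff_ne_zero, ne_eq, map_eq_zero, map_eq_zero]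
    exact hd
  exact lt_of_mul_lt_mul_left h4 hd0.le

theorem supVal_lt_one_iff {L : Type*} [Field L] (A' : ValuationSubring L) {κ : Type*}
    [Fintype κ] (x : κ → L) :
    supVal A'.valuation x < 1 ↔ ∀ t, A'.valuation (x t) < 1 := by
  constructor
  · intro h t
    exact (le_supVal A'.valuation x t).trans_lt h
  · intro h
    by_cases hne : Nonempty κ
    · obtain ⟨i, hi⟩ := exists_eq_supVal A'.valuation x
      rw [← hi]
      exact h i
    · rw [not_nonempty_iff] at hne
      have h0 : x = 0 := Subsingleton.elim _ _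
      rw [h0, supVal_zero]
      exact zero_lt_one

/-- **A10, best approximations upstairs**: the `approx` field of `Val.ConstRed` for every
extension `O v` of a `MultiVal.Full` family over a constant reduction `S₀`, given the `K`-level
coordinate bound at `O v`. -/
theorem approx_of_full [FiniteDimensional F E] (S₀ : ConstRed (F := F) (Ft := Ft) A π)
    (hπ : Function.Surjective π) (hp : ∃ p : K, p ≠ 0 ∧ p ∈ A.nonunits)
    (D : Full S₀.O O ι) (v : V) (hcmp : Compare A (O v)) {R : Type*} [Ring R]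
    (res : O v →+* R) (hker : ∀ x : O v, res x = 0 ↔ (x : E) ∈ (O v).nonunits)
    (W₀ : Submodule K E) (hW₀ : Module.Finite K W₀) (y : E) (hy : y ∉ W₀) :
    ∃ w ∈ W₀, ∃ c : K, c ≠ 0 ∧ ∃ h : c • (y - w) ∈ O v,
      ∀ z : O v, (z : E) ∈ W₀ → res z ≠ res ⟨c • (y - w), h⟩ := by
  classical
  obtain ⟨p, hp0, hpA⟩ := hp
  have S := D.setup
  set w := (O v).valuation with hw
  set W : Submodule K E := W₀ ⊔ Submodule.span K {y} with hW
  haveI : FiniteDimensional K W₀ := hW₀
  haveI : FiniteDimensional K W := Submodule.finiteDimensional_sup _ _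
  obtain ⟨ξ, Φ, hξ, hΦ⟩ := exists_perturbation S₀ D hp0 hpA v hcmp W
  have hval : ∀ z : W, w (∑ i, Φ z i • ξ i) = w (z : E) := by
    intro z
    by_cases hz : (z : E) = 0
    · have hz' : z = 0 := Subtype.ext hz
      rw [hz', map_zero]
      simp
    · have e : ∑ i, Φ z i • ξ i = (z : E) - ((z : E) - ∑ i, Φ z i • ξ i) := by ring
      rw [e]
      exact Valuation.map_sub_eq_of_lt_left w (hΦ z hz)
  have hΦinj : Function.Injective Φ := by
    rw [← LinearMap.ker_eq_bot, LinearMap.ker_eq_bot']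
    intro z hz
    by_contra hne
    have hne' : (z : E) ≠ 0 := fun h => hne (Subtype.ext h)
    have h1 := hΦ z hne'
    rw [hz] at h1
    simp at h1
  set U : Submodule K (ι v → F) := LinearMap.range Φ with hU
  haveI : FiniteDimensional K U := LinearMap.finiteDimensional_range Φ
  obtain ⟨n, c, hcinj, hcO, hcm⟩ := exists_coords_pi S₀ hπ U
  set coords : W →ₗ[K] ((Σ i, Fin (n i)) → K) := c.comp Φ.rangeRestrict with hcoords
  have hinj : Function.Injective coords := by
    intro z z' h
    have h1 : Φ.rangeRestrict z = Φ.rangeRestrict z' := hcinj h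
    have h2 := congrArg (fun u : U => (u : ι v → F)) h1
    exact hΦinj h2
  have hO : ∀ f : W, (f : E) ∈ O v ↔ supVal A.valuation (coords f) ≤ 1 := by
    intro f
    rw [supVal_le_one_iff_forall_mem A, ← (O v).valuation_le_one_iff, ← hw, ← hval f, hw,
      (O v).valuation_le_one_iff]
    have key := hcO (Φ.rangeRestrict f)
    exact ⟨fun h => key.1 (coeff_mem_of_comb_mem (S.lies v) hξ h),
      fun h => comb_mem (S.lies v) hξ (key.2 h)⟩
  have hres : ∀ (f : W) (hf : (f : E) ∈ O v),
      res ⟨(f : E), hf⟩ = 0 ↔ supVal A.valuation (coords f) < 1 := by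
    intro f hf
    rw [hker, supVal_lt_one_iff A, (O v).mem_nonunits_iff, ← hw, ← hval f, hw,
      ← (O v).mem_nonunits_iff]
    have key := hcm (Φ.rangeRestrict f)
    exact ⟨fun h => key.1 (coeff_mem_nonunits_of_comb (S.lies v) hξ h),
      fun h => comb_mem_nonunits (S.lies v) hξ (key.2 h)⟩
  exact approx_of_inj_coords A (O v) res W coords hinj hO hres W₀ le_sup_left
    (Submodule.mem_sup_right (Submodule.mem_span_singleton_self y)) hy

/-! ### the coordinate bound for `⋂ O v` comes from downstairs -/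

/-- **semi-local coordinate bound**: the unit ball `⋂ O v` of a finite-dimensional `K`-subspace
of `E` is bounded in coordinates. -/
theorem compare_semilocal [FiniteDimensional F E] (S₀ : ConstRed (F := F) (Ft := Ft) A π)
    (hπ : Function.Surjective π) (D : Full S₀.O O ι) (m : ℕ) (e : Fin m → E)
    (hli : LinearIndependent K e) :
    ∃ c : K, c ≠ 0 ∧ ∀ a : Fin m → K, (∀ v, ∑ i, a i • e i ∈ O v) → ∀ i, c * a i ∈ A := by
  classical
  obtain ⟨x', b, -, -, hchar, -⟩ := D.exists_basis
  let Ψ : E →ₗ[K] ((Σ v, ι v) → F) := (b.equivFun.toLinearMap).restrictScalars K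
  have hΨ : ∀ (z : E) (t : Σ v, ι v), Ψ z t = b.repr z t := fun z t => rfl
  have hΨinj : Function.Injective Ψ := b.equivFun.injective
  let U : Submodule K ((Σ v, ι v) → F) := Submodule.span K (Set.range fun j => Ψ (e j))
  haveI : FiniteDimensional K U := FiniteDimensional.span_of_finite K (Set.finite_range _)
  obtain ⟨n, c, hcinj, hcO, -⟩ := exists_coords_pi S₀ hπ U
  let w' : Fin m → U := fun j => ⟨Ψ (e j), Submodule.subset_span ⟨j, rfl⟩⟩
  have hw' : LinearIndependent K w' := by
    apply LinearIndependent.of_comp U.subtype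
    exact hli.map' Ψ (LinearMap.ker_eq_bot.2 hΨinj)
  let ψ : (Σ i, Fin (n i)) → U →ₗ[K] K := fun t => (LinearMap.proj t).comp c
  have hsep : ∀ f : U, (∀ t, ψ t f = 0) → f = 0 := by
    intro f hf
    apply hcinj
    rw [map_zero]
    funext t
    exact hf t
  obtain ⟨c₀, hc₀, hbound⟩ := Fermat.Agent.BR.GaussCompare.coord_bound A ψ hsep w' hw'
  refine ⟨c₀, hc₀, fun a ha => hbound a fun t => ?_⟩
  have hmem : ∀ t, b.repr (∑ i, a i • e i) t ∈ S₀.O := (hchar _).1 ha
  have hu : ((∑ i, a i • w' i : U) : (Σ v, ι v) → F) = Ψ (∑ i, a i • e i) := by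
    rw [map_sum]
    simp only [Submodule.coe_sum, Submodule.coe_smul, map_smul]
    rfl
  have h1 : ∀ t, ((∑ i, a i • w' i : U) : (Σ v, ι v) → F) t ∈ S₀.O := by
    intro t
    rw [hu, hΨ]
    exact hmem t
  exact (hcO _).1 h1 t

/-- **unique extension**: the coordinate bound is free. -/
theorem compare_of_unique [FiniteDimensional F E] [Unique V]
    (S₀ : ConstRed (F := F) (Ft := Ft) A π) (hπ : Function.Surjective π)
    (D : Full S₀.O O ι) : Compare A (O default) := by
  intro m e hli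
  obtain ⟨c, hc, h⟩ := compare_semilocal S₀ hπ D m e hli
  exact ⟨c, hc, fun a ha => h a fun v => by rw [Unique.eq_default v]; exact ha⟩

/-! ### the packaged constant reduction upstairs -/

theorem mem_nonunits_iff_not_isUnit' (O' : ValuationSubring E) (x : O') :
    (x : E) ∈ O'.nonunits ↔ ¬ IsUnit x := by
  rw [ValuationSubring.coe_mem_nonunits_iff, IsLocalRing.mem_maximalIdeal, mem_nonunits_iff]

/-- the compatibility with constants from the compatibility with `S₀.res` -/
theorem res_algebraMap_of_compat {Ft' : Type*} [Field Ft'] [Algebra k Ft'] [Algebra Ft Ft']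
    [IsScalarTower k Ft Ft'] (S₀ : ConstRed (F := F) (Ft := Ft) A π) {O' : ValuationSubring E}
    (res : O' →+* Ft')
    (hcompat : ∀ (c : S₀.O) (h : algebraMap F E (c : F) ∈ O'),
      res ⟨algebraMap F E (c : F), h⟩ = algebraMap Ft Ft' (S₀.res c))
    (a : K) (ha : a ∈ A) (h : algebraMap K E a ∈ O') :
    res ⟨algebraMap K E a, h⟩ = algebraMap k Ft' (π ⟨a, ha⟩) := by
  have e : algebraMap K E a = algebraMap F E (algebraMap K F a) :=
    IsScalarTower.algebraMap_apply K F E a
  have haO : algebraMap K F a ∈ S₀.O := S₀.algebraMap_mem ha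
  have h' : algebraMap F E (algebraMap K F a) ∈ O' := e ▸ h
  have e2 : (⟨algebraMap K E a, h⟩ : O') = ⟨algebraMap F E (algebraMap K F a), h'⟩ :=
    Subtype.ext e
  rw [e2, hcompat ⟨algebraMap K F a, haO⟩ h', S₀.res_algebraMap a ha haO,
    ← IsScalarTower.algebraMap_apply k Ft Ft']

/-- **A10, the constant reduction upstairs** at the extension `O v` of a `MultiVal.Full`
family. -/
noncomputable def constRedOfFull [FiniteDimensional F E] {Ft' : Type*} [Field Ft']
    [Algebra k Ft'] (S₀ : ConstRed (F := F) (Ft := Ft) A π) (hπ : Function.Surjective π)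
    (hp : ∃ p : K, p ≠ 0 ∧ p ∈ A.nonunits) (D : Full S₀.O O ι) (v : V)
    (hcmp : Compare A (O v)) (res : O v →+* Ft') (hsurj : Function.Surjective res)
    (hker : ∀ x : O v, res x = 0 ↔ (x : E) ∈ (O v).nonunits)
    (hresK : ∀ (a : K) (ha : a ∈ A) (h : algebraMap K E a ∈ O v),
      res ⟨algebraMap K E a, h⟩ = algebraMap k Ft' (π ⟨a, ha⟩)) :
    ConstRed (F := E) (Ft := Ft') A π where
  O := O v
  res := res
  res_surjective := hsurj
  res_eq_zero_iff := fun x => by
    rw [hker]
    exact mem_nonunits_iff_not_isUnit' (O v) x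
  algebraMap_mem_iff := fun a => by
    rw [← ValuationSubring.mem_comap, comap_K S₀.algebraMap_mem_iff D.setup v]
  res_algebraMap := hresK
  approx := approx_of_full S₀ hπ hp D v hcmp res hker

@[simp] theorem constRedOfFull_O [FiniteDimensional F E] {Ft' : Type*} [Field Ft']
    [Algebra k Ft'] (S₀ : ConstRed (F := F) (Ft := Ft) A π) (hπ : Function.Surjective π)
    (hp : ∃ p : K, p ≠ 0 ∧ p ∈ A.nonunits) (D : Full S₀.O O ι) (v : V)
    (hcmp : Compare A (O v)) (res : O v →+* Ft') (hsurj : Function.Surjective res)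
    (hker : ∀ x : O v, res x = 0 ↔ (x : E) ∈ (O v).nonunits)
    (hresK : ∀ (a : K) (ha : a ∈ A) (h : algebraMap K E a ∈ O v),
      res ⟨algebraMap K E a, h⟩ = algebraMap k Ft' (π ⟨a, ha⟩)) :
    (constRedOfFull S₀ hπ hp D v hcmp res hsurj hker hresK).O = O v := rfl

@[simp] theorem constRedOfFull_res [FiniteDimensional F E] {Ft' : Type*} [Field Ft']
    [Algebra k Ft'] (S₀ : ConstRed (F := F) (Ft := Ft) A π) (hπ : Function.Surjective π)
    (hp : ∃ p : K, p ≠ 0 ∧ p ∈ A.nonunits) (D : Full S₀.O O ι) (v : V)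
    (hcmp : Compare A (O v)) (res : O v →+* Ft') (hsurj : Function.Surjective res)
    (hker : ∀ x : O v, res x = 0 ↔ (x : E) ∈ (O v).nonunits)
    (hresK : ∀ (a : K) (ha : a ∈ A) (h : algebraMap K E a ∈ O v),
      res ⟨algebraMap K E a, h⟩ = algebraMap k Ft' (π ⟨a, ha⟩)) :
    (constRedOfFull S₀ hπ hp D v hcmp res hsurj hker hresK).res = res := rfl

/-- **A10, unique extension** (`f = [E : F]`, e.g. the Gauss extension of a critical circle):
the constant reduction upstairs needs no coordinate bound. -/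
noncomputable def constRedOfSingle [FiniteDimensional F E] {Ft' : Type*} [Field Ft']
    [Algebra k Ft'] (S₀ : ConstRed (F := F) (Ft := Ft) A π) (hπ : Function.Surjective π)
    (hp : ∃ p : K, p ≠ 0 ∧ p ∈ A.nonunits) {O' : ValuationSubring E}
    (hlies : O'.comap (algebraMap F E) = S₀.O) (harch : Arch O') {κ : Type*} [Fintype κ]
    (x : κ → E) (hx : ResIndep S₀.O O' x) (hcard : Fintype.card κ = finrank F E)
    (res : O' →+* Ft') (hsurj : Function.Surjective res)
    (hker : ∀ x : O', res x = 0 ↔ (x : E) ∈ O'.nonunits)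
    (hresK : ∀ (a : K) (ha : a ∈ A) (h : algebraMap K E a ∈ O'),
      res ⟨algebraMap K E a, h⟩ = algebraMap k Ft' (π ⟨a, ha⟩)) :
    ConstRed (F := E) (Ft := Ft') A π :=
  constRedOfFull (O := fun _ : Unit => O') (ι := fun _ => κ) S₀ hπ hp
    (Full.single hlies harch x hx hcard) ()
    (compare_of_unique (O := fun _ : Unit => O') (ι := fun _ => κ) S₀ hπ
      (Full.single hlies harch x hx hcard)) res hsurj hker hresK

@[simp] theorem constRedOfSingle_O [FiniteDimensional F E] {Ft' : Type*} [Field Ft']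
    [Algebra k Ft'] (S₀ : ConstRed (F := F) (Ft := Ft) A π) (hπ : Function.Surjective π)
    (hp : ∃ p : K, p ≠ 0 ∧ p ∈ A.nonunits) {O' : ValuationSubring E}
    (hlies : O'.comap (algebraMap F E) = S₀.O) (harch : Arch O') {κ : Type*} [Fintype κ]
    (x : κ → E) (hx : ResIndep S₀.O O' x) (hcard : Fintype.card κ = finrank F E)
    (res : O' →+* Ft') (hsurj : Function.Surjective res)
    (hker : ∀ x : O', res x = 0 ↔ (x : E) ∈ O'.nonunits)
    (hresK : ∀ (a : K) (ha : a ∈ A) (h : algebraMap K E a ∈ O'),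
      res ⟨algebraMap K E a, h⟩ = algebraMap k Ft' (π ⟨a, ha⟩)) :
    (constRedOfSingle S₀ hπ hp hlies harch x hx hcard res hsurj hker hresK).O = O' := rfl

@[simp] theorem constRedOfSingle_res [FiniteDimensional F E] {Ft' : Type*} [Field Ft']
    [Algebra k Ft'] (S₀ : ConstRed (F := F) (Ft := Ft) A π) (hπ : Function.Surjective π)
    (hp : ∃ p : K, p ≠ 0 ∧ p ∈ A.nonunits) {O' : ValuationSubring E}
    (hlies : O'.comap (algebraMap F E) = S₀.O) (harch : Arch O') {κ : Type*} [Fintype κ]
    (x : κ → E) (hx : ResIndep S₀.O O' x) (hcard : Fintype.card κ = finrank F E)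
    (res : O' →+* Ft') (hsurj : Function.Surjective res)
    (hker : ∀ x : O', res x = 0 ↔ (x : E) ∈ O'.nonunits)
    (hresK : ∀ (a : K) (ha : a ∈ A) (h : algebraMap K E a ∈ O'),
      res ⟨algebraMap K E a, h⟩ = algebraMap k Ft' (π ⟨a, ha⟩)) :
    (constRedOfSingle S₀ hπ hp hlies harch x hx hcard res hsurj hker hresK).res = res := rfl

/-- **A10 in the `ResOver` form of `BR2/NormResidue`**: the constant reduction upstairs from a
residue map over `S₀.res`. -/
noncomputable def constRedOfResOver [FiniteDimensional F E] {Ft' : Type*} [Field Ft']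
    [Algebra k Ft'] [Algebra Ft Ft'] [IsScalarTower k Ft Ft']
    (S₀ : ConstRed (F := F) (Ft := Ft) A π) (hπ : Function.Surjective π)
    (hp : ∃ p : K, p ≠ 0 ∧ p ∈ A.nonunits) (D : Full S₀.O O ι) (v : V)
    (hcmp : Compare A (O v)) (res : O v →+* Ft')
    (H : Fermat.Agent.BR2.NormResidue.ResOver S₀.res res) :
    ConstRed (F := E) (Ft := Ft') A π :=
  constRedOfFull S₀ hπ hp D v hcmp res H.surj H.ker
    (res_algebraMap_of_compat S₀ res H.compat)

@[simp] theorem constRedOfResOver_O [FiniteDimensional F E] {Ft' : Type*} [Field Ft']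
    [Algebra k Ft'] [Algebra Ft Ft'] [IsScalarTower k Ft Ft']
    (S₀ : ConstRed (F := F) (Ft := Ft) A π) (hπ : Function.Surjective π)
    (hp : ∃ p : K, p ≠ 0 ∧ p ∈ A.nonunits) (D : Full S₀.O O ι) (v : V)
    (hcmp : Compare A (O v)) (res : O v →+* Ft')
    (H : Fermat.Agent.BR2.NormResidue.ResOver S₀.res res) :
    (constRedOfResOver S₀ hπ hp D v hcmp res H).O = O v := rfl

@[simp] theorem constRedOfResOver_res [FiniteDimensional F E] {Ft' : Type*} [Field Ft']
    [Algebra k Ft'] [Algebra Ft Ft'] [IsScalarTower k Ft Ft']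
    (S₀ : ConstRed (F := F) (Ft := Ft) A π) (hπ : Function.Surjective π)
    (hp : ∃ p : K, p ≠ 0 ∧ p ∈ A.nonunits) (D : Full S₀.O O ι) (v : V)
    (hcmp : Compare A (O v)) (res : O v →+* Ft')
    (H : Fermat.Agent.BR2.NormResidue.ResOver S₀.res res) :
    (constRedOfResOver S₀ hπ hp D v hcmp res H).res = res := rfl

/-- `ResBase` for the residue map of a constant reduction. -/
theorem resBase_of_constRed (S₀ : ConstRed (F := F) (Ft := Ft) A π) :
    Fermat.Agent.BR2.NormResidue.ResBase S₀.res where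
  surj := S₀.res_surjective
  ker := fun c => by
    rw [S₀.res_eq_zero_iff]
    exact (mem_nonunits_iff_not_isUnit' S₀.O c).symm

end Approx

end Fermat.Agent.BR3.ApproxFull
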