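import Mathlib
import Fermat.Agent.BR.Circle.Basic
import Fermat.Agent.BR.TwoVal

/-!
# Program C (S36), node (I7-FULL), auxiliary: the circle valuation has rank one

`C : AnnulusCore A T` the `K`-level contract of a tube of `F / K`, `a` a gauge
(`|thick| < |a| < 1`).  If `A` has rank one then the valuation ring `circleRing C a` of the circle
`|u| = |a|` has rank one (`TwoVal.Arch`): every nonzero function is a nonzero constant times a
circle unit (`Circle.isGen_of_ne_zero`), and the constant of a non-unit is a non-unit of `A`.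

* `mem_circleRing_of_isGen`, `inv_mem_circleRing_of_isGen` (the function part is a unit);
* `arch_circleRing`.
-/

set_option autoImplicit false
set_option linter.unusedSectionVars false

namespace Fermat.Agent.BR3.ArchCircle

open AlgebraicCurve IsLocalRing Fermat.Agent.Red Fermat.Agent.BR.Circle Fermat.Agent.BR.TwoVal

variable {K F : Type*} [Field K] [Field F] [Algebra K F]
variable {A : ValuationSubring K} [IsAlgClosed (ResidueField A)] {T : Set (Place K F)}
variable (C : AnnulusCore A T) (a : K)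
variable (ha1 : A.valuation C.thick < A.valuation a) (ha2 : A.valuation a < 1)

include ha1 ha2

/-- a constant of `A` times a function with a reduction lies in the circle ring -/
theorem smul_mem_circleRing {γ : K} (hγ : γ ∈ A) {z : F} (hz : z ∈ circleRing C a ha1 ha2) :
    γ • z ∈ circleRing C a ha1 ha2 := by
  rw [Algebra.smul_def]
  exact (circleRing C a ha1 ha2).mul_mem _ _
    ((algebraMap_mem_circleRing_iff C a ha1 ha2 γ).mpr hγ) hz

/-- **The circle valuation has rank one.** -/
theorem arch_circleRing (hA : IsRankOne A) : Arch (circleRing C a ha1 ha2) := by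
  intro x u hu hu0
  rcases eq_or_ne x 0 with rfl | hx0
  · exact ⟨0, by rw [zero_mul]; exact (circleRing C a ha1 ha2).zero_mem⟩
  obtain ⟨γ, z, zb, hγ0, hzb, hz, rfl⟩ := isGen_of_ne_zero (C := C) ha1 ha2 hu0
  obtain ⟨δ, y, yb, hδ0, hyb, hy, rfl⟩ := isGen_of_ne_zero (C := C) ha1 ha2 hx0
  have hzmem : z ∈ circleRing C a ha1 ha2 := ⟨zb, hz⟩
  have hzinv : z⁻¹ ∈ circleRing C a ha1 ha2 := ⟨zb⁻¹, hz.inv hzb⟩
  have hymem : y ∈ circleRing C a ha1 ha2 := ⟨yb, hy⟩
  -- the constant of the non-unit `u` is a non-unit of `A`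
  have hγlt : A.valuation γ < 1 := by
    by_contra hge
    have hge' : 1 ≤ A.valuation γ := not_lt.mp hge
    have hγinv : γ⁻¹ ∈ A := by
      rw [← A.valuation_le_one_iff, map_inv₀]
      exact inv_le_one_of_one_le₀ hge'
    have hmem : (γ • z)⁻¹ ∈ circleRing C a ha1 ha2 := by
      have e : (γ • z)⁻¹ = γ⁻¹ • z⁻¹ := by
        rw [Algebra.smul_def, Algebra.smul_def, mul_inv, map_inv₀]
      rw [e]
      exact smul_mem_circleRing C a ha1 ha2 hγinv hzinv
    rw [ValuationSubring.mem_nonunits_iff_or] at hu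
    rcases hu with h | h
    · exact hu0 h
    · exact h hmem
  have hγA : γ ∈ A := (A.valuation_le_one_iff _).mp hγlt.le
  have hγnu : ¬ IsUnit (⟨γ, hγA⟩ : A) := by
    intro hunit
    have := (A.valuation_eq_one_iff ⟨γ, hγA⟩).mp hunit
    rw [this] at hγlt
    exact lt_irrefl _ hγlt
  -- the exponent
  have key : ∃ n : ℕ, δ * γ ^ n ∈ A := by
    rcases A.mem_or_inv_mem δ with hδ | hδ
    · exact ⟨0, by rwa [pow_zero, mul_one]⟩
    · have hb0 : (⟨δ⁻¹, hδ⟩ : A) ≠ 0 := by
        intro h
        exact inv_ne_zero hδ0 (congrArg Subtype.val h)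
      obtain ⟨n, c, hc⟩ := hA ⟨γ, hγA⟩ hγnu ⟨δ⁻¹, hδ⟩ hb0
      refine ⟨n, ?_⟩
      have h1 : γ ^ n = δ⁻¹ * (c : K) := by
        have := congrArg Subtype.val hc
        simpa using this
      rw [h1, ← mul_assoc, mul_inv_cancel₀ hδ0, one_mul]
      exact c.2
  obtain ⟨n, hn⟩ := key
  refine ⟨n, ?_⟩
  have e : δ • y * (γ • z) ^ n = (δ * γ ^ n) • (y * z ^ n) := by
    rw [Algebra.smul_def, Algebra.smul_def, Algebra.smul_def, mul_pow, map_mul, map_pow]
    ring
  rw [e]
  exact smul_mem_circleRing C a ha1 ha2 hn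
    ((circleRing C a ha1 ha2).mul_mem _ _ hymem (pow_mem hzmem n))

end Fermat.Agent.BR3.ArchCircle
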