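import Mathlib
import Fermat.Agent.BR.TwoVal

/-!
# Program C (S36), node (I7-CR): rank one passes to algebraic extensions

`E / F` an algebraic field extension, `O'` a valuation subring of `E` and
`O₀ = O'.comap (algebraMap F E)` its trace on `F`.

* `exists_pow_valuation_eq` : the value group of `O'` is torsion over that of `O₀`: for `y ≠ 0`
  algebraic over `F` there are `m ≥ 1` and `c ∈ F`, `c ≠ 0`, with `|y| ^ m = |c|`;
* `arch_of_comap` : if `O₀` has rank one (`TwoVal.Arch`) then so does `O'`.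
-/

set_option autoImplicit false

namespace Fermat.Agent.BR3.ArchExt

open Polynomial Fermat.Agent.BR.TwoVal

variable {F E : Type*} [Field F] [Field E] [Algebra F E]

/-- In a vanishing finite sum of elements of a valued field the maximal valuation is attained
twice. -/
theorem exists_ne_valuation_eq {Γ₀ : Type*} [LinearOrderedCommGroupWithZero Γ₀]
    (v : Valuation E Γ₀) {ι : Type*} [DecidableEq ι] {s : Finset ι} {t : ι → E}
    (hsum : ∑ i ∈ s, t i = 0) {i₀ : ι} (hi₀ : i₀ ∈ s) (h0 : t i₀ ≠ 0) :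
    ∃ i ∈ s, ∃ j ∈ s, i ≠ j ∧ t i ≠ 0 ∧ t j ≠ 0 ∧ v (t i) = v (t j) := by
  -- an index of maximal valuation
  obtain ⟨m, hm, hmax⟩ := Finset.exists_max_image s (fun i => v (t i)) ⟨i₀, hi₀⟩
  have hm0 : t m ≠ 0 := by
    intro h
    have h1 := hmax i₀ hi₀
    simp only [h, map_zero] at h1
    exact h0 ((map_eq_zero v).1 (le_antisymm h1 zero_le))
  have hg : v (t m) ≠ 0 := (Valuation.ne_zero_iff v).2 hm0
  by_contra hcon
  push Not at hcon
  have hlt : ∀ j ∈ s.erase m, v (t j) < v (t m) := by
    intro j hj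
    have hjs := Finset.mem_of_mem_erase hj
    have hne : m ≠ j := (Finset.ne_of_mem_erase hj).symm
    have hle := hmax j hjs
    rcases eq_or_ne (t j) 0 with hj0 | hj0
    · rw [hj0, map_zero]
      exact zero_lt_iff.2 hg
    · exact lt_of_le_of_ne hle fun heq => hcon m hm j hjs hne hm0 hj0 heq.symm
  have h1 : v (∑ j ∈ s.erase m, t j) < v (t m) := Valuation.map_sum_lt v hg hlt
  have h2 : t m = -∑ j ∈ s.erase m, t j := by
    have := Finset.add_sum_erase s t hm
    rw [hsum] at this
    exact eq_neg_of_add_eq_zero_left this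
  rw [h2, Valuation.map_neg] at h1
  exact lt_irrefl _ h1

/-- **The value group of an algebraic extension is torsion over the value group of the base.** -/
theorem exists_pow_valuation_eq (O' : ValuationSubring E) {y : E} (hy : y ≠ 0)
    (halg : IsAlgebraic F y) :
    ∃ m : ℕ, 0 < m ∧ ∃ c : F, c ≠ 0 ∧ O'.valuation (y ^ m) = O'.valuation (algebraMap F E c) := by
  classical
  obtain ⟨p, hp0, hpy⟩ := halg
  have hsum : ∑ i ∈ p.support, algebraMap F E (p.coeff i) * y ^ i = 0 := by
    rw [← hpy, aeval_eq_sum_range, Finset.sum_subset (s₁ := p.support)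
      (s₂ := Finset.range (p.natDegree + 1))]
    · exact Finset.sum_congr rfl fun i _ => by rw [Algebra.smul_def]
    · intro i hi
      rw [Finset.mem_range]
      exact Nat.lt_succ_of_le (le_natDegree_of_mem_supp i hi)
    · intro i _ hi
      rw [notMem_support_iff.1 hi, map_zero, zero_mul]
  have hne : p.support.Nonempty := nonempty_support_iff.2 hp0
  obtain ⟨i₀, hi₀⟩ := hne
  have ht0 : algebraMap F E (p.coeff i₀) * y ^ i₀ ≠ 0 :=
    mul_ne_zero ((_root_.map_ne_zero _).2 (mem_support_iff.1 hi₀)) (pow_ne_zero _ hy)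
  obtain ⟨i, hi, j, hj, hij, -, -, heq⟩ :=
    exists_ne_valuation_eq O'.valuation hsum hi₀ ht0
  have hvy : O'.valuation y ≠ 0 := (Valuation.ne_zero_iff _).2 hy
  have hci : p.coeff i ≠ 0 := mem_support_iff.1 hi
  have hcj : p.coeff j ≠ 0 := mem_support_iff.1 hj
  -- `|a_i| |y|^i = |a_j| |y|^j`
  rw [map_mul, map_mul, map_pow, map_pow] at heq
  have key : ∀ {i j : ℕ}, i < j → p.coeff i ≠ 0 → p.coeff j ≠ 0 →
      O'.valuation (algebraMap F E (p.coeff i)) * O'.valuation y ^ i =
        O'.valuation (algebraMap F E (p.coeff j)) * O'.valuation y ^ j →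
      ∃ m : ℕ, 0 < m ∧ ∃ c : F, c ≠ 0 ∧
        O'.valuation (y ^ m) = O'.valuation (algebraMap F E c) := by
    intro i j hlt hci hcj heq
    refine ⟨j - i, Nat.sub_pos_of_lt hlt, p.coeff i / p.coeff j, div_ne_zero hci hcj, ?_⟩
    have hvj : O'.valuation (algebraMap F E (p.coeff j)) ≠ 0 :=
      (Valuation.ne_zero_iff _).2 ((_root_.map_ne_zero _).2 hcj)
    have hpw : O'.valuation y ^ j = O'.valuation y ^ (j - i) * O'.valuation y ^ i := by
      rw [← pow_add]
      congr 1
      omega
    rw [hpw] at heq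
    have hyi : O'.valuation y ^ i ≠ 0 := pow_ne_zero _ hvy
    have h3 : O'.valuation (algebraMap F E (p.coeff i)) =
        O'.valuation (algebraMap F E (p.coeff j)) * O'.valuation y ^ (j - i) := by
      have h4 : O'.valuation (algebraMap F E (p.coeff i)) * O'.valuation y ^ i =
          (O'.valuation (algebraMap F E (p.coeff j)) * O'.valuation y ^ (j - i)) *
            O'.valuation y ^ i := by
        rw [heq, mul_assoc]
      exact mul_right_cancel₀ hyi h4
    rw [map_pow, map_div₀, map_div₀, h3, mul_comm, mul_div_assoc, div_self hvj, mul_one]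
  rcases lt_or_gt_of_ne hij with hlt | hlt
  · exact key hlt hci hcj heq
  · exact key hlt hcj hci heq.symm

/-- **Rank one passes to algebraic extensions.** -/
theorem arch_of_comap [Algebra.IsAlgebraic F E] (O' : ValuationSubring E)
    (hO₀ : Arch (O'.comap (algebraMap F E))) : Arch O' := by
  intro x u hu hu0
  rcases eq_or_ne x 0 with rfl | hx0
  · exact ⟨0, by rw [zero_mul]; exact O'.zero_mem⟩
  obtain ⟨m, hm, c, hc0, hc⟩ := exists_pow_valuation_eq (F := F) O' hu0
    (Algebra.IsAlgebraic.isAlgebraic u)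
  obtain ⟨m', hm', c', hc'0, hc'⟩ := exists_pow_valuation_eq (F := F) O' hx0
    (Algebra.IsAlgebraic.isAlgebraic x)
  have hu1 : O'.valuation u < 1 := (O'.mem_nonunits_iff).1 hu
  have hcE : O'.valuation (algebraMap F E c) < 1 := by
    rw [← hc, map_pow]
    exact pow_lt_one₀ zero_le hu1 hm.ne'
  have hcmem : c ∈ (O'.comap (algebraMap F E)).nonunits := by
    rw [ValuationSubring.mem_nonunits_iff_or]
    right
    rw [ValuationSubring.mem_comap, map_inv₀]
    intro h
    have h1 : O'.valuation (algebraMap F E c)⁻¹ ≤ 1 := (O'.valuation_le_one_iff _).2 h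
    rw [map_inv₀] at h1
    have hv0 : O'.valuation (algebraMap F E c) ≠ 0 :=
      (Valuation.ne_zero_iff _).2 ((_root_.map_ne_zero _).2 hc0)
    have h2 : 1 ≤ O'.valuation (algebraMap F E c) := by
      by_contra hlt
      rw [not_le] at hlt
      have h3 : 1 < (O'.valuation (algebraMap F E c))⁻¹ :=
        (one_lt_inv₀ (zero_lt_iff.2 hv0)).2 hlt
      exact absurd h1 (not_le.2 h3)
    exact absurd hcE (not_lt.2 h2)
  obtain ⟨n, hn⟩ := hO₀ c' c hcmem hc0
  rw [ValuationSubring.mem_comap, map_mul, map_pow] at hn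
  have hn' : O'.valuation (algebraMap F E c') * O'.valuation (algebraMap F E c) ^ n ≤ 1 := by
    have := (O'.valuation_le_one_iff _).2 hn
    rwa [map_mul, map_pow] at this
  refine ⟨m * n, ?_⟩
  rw [← O'.valuation_le_one_iff]
  -- `|x u^(mn)|^(m') ≤ 1`
  have hpow : O'.valuation (x * u ^ (m * n)) ^ m' ≤ 1 := by
    have e1 : O'.valuation (x * u ^ (m * n)) ^ m' =
        O'.valuation (x ^ m') * (O'.valuation (u ^ m) ^ n) ^ m' := by
      rw [map_mul, map_pow, map_pow, map_pow, mul_pow]
      congr 1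
      rw [← pow_mul, ← pow_mul, ← pow_mul, mul_assoc]
    rw [e1, hc', hc]
    obtain ⟨r, rfl⟩ : ∃ r, m' = r + 1 := ⟨m' - 1, by omega⟩
    rw [pow_succ, ← mul_assoc]
    have hle1 : (O'.valuation (algebraMap F E c) ^ n) ^ r ≤ 1 :=
      pow_le_one₀ zero_le (pow_le_one₀ zero_le hcE.le)
    calc O'.valuation (algebraMap F E c') * (O'.valuation (algebraMap F E c) ^ n) ^ r *
          O'.valuation (algebraMap F E c) ^ n
        = (O'.valuation (algebraMap F E c') * O'.valuation (algebraMap F E c) ^ n) *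
            (O'.valuation (algebraMap F E c) ^ n) ^ r := mul_right_comm _ _ _
      _ ≤ 1 * 1 := mul_le_mul' hn' hle1
      _ = 1 := one_mul 1
  by_contra hcon
  rw [not_le] at hcon
  have : 1 < O'.valuation (x * u ^ (m * n)) ^ m' := one_lt_pow₀ hcon hm'.ne'
  exact absurd hpow (not_le.2 this)

end Fermat.Agent.BR3.ArchExt
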