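import Mathlib

/-!
# Program C, node A11 (HYPERELL): quadratic extensions `F = E(ω)`  (Mathlib only)

`E ⊆ F` fields with `[F : E] = 2`, `ω : F` with `ω ^ 2 = a ∈ E`, `ω ∉ E`.

* `quadBasis` : the `E`-basis `(1, ω)` of `F`; `quadBasis_repr_add` (coordinates);
* `trace_gen_eq_zero`, `trace_add_smul_gen` : `Tr (α + β ω) = 2 α`;
* `isIntegral_add_smul_gen_iff` : for a subring `R` of `E` which is integrally closed in `E` and in
  which `2` is invertible: `α + β ω` is integral over `R` iff `α ∈ R` and `a β ^ 2 ∈ R`;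
* general relation `ω ^ 2 = τ ω - ν` (any characteristic): `trace_gen_of_sq`,
  `trace_add_smul_gen_of_sq` (`Tr (α + β ω) = 2 α + β τ`), `mul_conj_of_sq` (norm), and
  `isIntegral_iff_trace_norm` : `α + β ω` is integral over `R` iff `2 α + β τ ∈ R` and
  `α² + α β τ + β² ν ∈ R`;
* `mem_range_of_squarefree_mul_sq` : in the fraction field of a UFD, `f β ^ 2 ∈ R` with `f`
  squarefree forces `β ∈ R`;
* `not_isSquare_algebraMap_of_squarefree` : a squarefree non-unit of a UFD is not a square in the
  fraction field.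
-/

set_option autoImplicit false

open Module

namespace Fermat.Agent.BR3.QuadExt

section Basis

variable {E F : Type*} [Field E] [Field F] [Algebra E F]

/-- `1` and `ω ∉ E` are linearly independent over `E`. -/
theorem linearIndependent_one_gen {ω : F} (hnot : ω ∉ (algebraMap E F).range) :
    LinearIndependent E ![(1 : F), ω] := by
  rw [LinearIndependent.pair_iff]
  intro s t h
  have ht : t = 0 := by
    by_contra ht
    apply hnot
    refine ⟨-s / t, ?_⟩
    have h1 : algebraMap E F t * ω = -(algebraMap E F s) := by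
      have := eq_neg_of_add_eq_zero_right h
      rwa [Algebra.smul_def, Algebra.smul_def, mul_one] at this
    have ht' : algebraMap E F t ≠ 0 := (map_ne_zero _).mpr ht
    rw [map_div₀, map_neg, ← h1]
    field_simp
  subst ht
  rw [zero_smul, add_zero, Algebra.smul_def, mul_one] at h
  exact ⟨(map_eq_zero _).mp h, rfl⟩

/-- The basis `(1, ω)` of a quadratic extension. -/
noncomputable def quadBasis (hn : finrank E F = 2) {ω : F} (hnot : ω ∉ (algebraMap E F).range) :
    Basis (Fin 2) E F :=
  basisOfLinearIndependentOfCardEqFinrank (linearIndependent_one_gen hnot)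
    (by rw [Fintype.card_fin, hn])

theorem coe_quadBasis (hn : finrank E F = 2) {ω : F} (hnot : ω ∉ (algebraMap E F).range) :
    ⇑(quadBasis hn hnot) = ![(1 : F), ω] :=
  coe_basisOfLinearIndependentOfCardEqFinrank _ _

@[simp] theorem quadBasis_zero (hn : finrank E F = 2) {ω : F}
    (hnot : ω ∉ (algebraMap E F).range) : quadBasis hn hnot 0 = 1 := by
  rw [coe_quadBasis]; rfl

@[simp] theorem quadBasis_one (hn : finrank E F = 2) {ω : F}
    (hnot : ω ∉ (algebraMap E F).range) : quadBasis hn hnot 1 = ω := by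
  rw [coe_quadBasis]; rfl

/-- Every element is `α + β ω` with `α, β` its coordinates. -/
theorem quadBasis_sum_repr (hn : finrank E F = 2) {ω : F} (hnot : ω ∉ (algebraMap E F).range)
    (v : F) :
    (quadBasis hn hnot).repr v 0 • (1 : F) + (quadBasis hn hnot).repr v 1 • ω = v := by
  have h := (quadBasis hn hnot).sum_repr v
  rw [Fin.sum_univ_two, quadBasis_zero, quadBasis_one] at h
  exact h

/-- The coordinates of `α + β ω`. -/
theorem quadBasis_repr_add (hn : finrank E F = 2) {ω : F} (hnot : ω ∉ (algebraMap E F).range)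
    (α β : E) :
    (quadBasis hn hnot).repr (α • (1 : F) + β • ω) 0 = α ∧
      (quadBasis hn hnot).repr (α • (1 : F) + β • ω) 1 = β := by
  have h : α • (1 : F) + β • ω = α • quadBasis hn hnot 0 + β • quadBasis hn hnot 1 := by
    rw [quadBasis_zero, quadBasis_one]
  rw [h]
  simp only [map_add, map_smul, Basis.repr_self, Finsupp.coe_add, Finsupp.coe_smul,
    Pi.add_apply, Pi.smul_apply, smul_eq_mul]
  constructor
  · simp
  · simp

/-- `Tr ω = 0`. -/
theorem trace_gen_eq_zero (hn : finrank E F = 2) {ω : F} (hnot : ω ∉ (algebraMap E F).range)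
    {a : E} (hω : ω ^ 2 = algebraMap E F a) : Algebra.trace E F ω = 0 := by
  rw [Algebra.trace_eq_matrix_trace (quadBasis hn hnot), Matrix.trace_fin_two,
    Algebra.leftMulMatrix_eq_repr_mul, Algebra.leftMulMatrix_eq_repr_mul, quadBasis_zero,
    quadBasis_one, mul_one]
  have h1 : ω = (0 : E) • (1 : F) + (1 : E) • ω := by simp
  have h2 : ω * ω = a • (1 : F) + (0 : E) • ω := by
    rw [← pow_two, hω, Algebra.smul_def, mul_one, zero_smul, add_zero]
  have e1 := (quadBasis_repr_add hn hnot (0 : E) (1 : E)).1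
  have e2 := (quadBasis_repr_add hn hnot a (0 : E)).2
  rw [← h1] at e1
  rw [← h2] at e2
  rw [e1, e2, add_zero]

/-- `Tr (α + β ω) = 2 α`. -/
theorem trace_add_smul_gen (hn : finrank E F = 2) {ω : F} (hnot : ω ∉ (algebraMap E F).range)
    {a : E} (hω : ω ^ 2 = algebraMap E F a) (α β : E) :
    Algebra.trace E F (α • (1 : F) + β • ω) = 2 * α := by
  have h1 : Algebra.trace E F (1 : F) = 2 := by
    rw [← map_one (algebraMap E F), Algebra.trace_algebraMap, hn]
    simp
  rw [map_add, map_smul, map_smul, trace_gen_eq_zero hn hnot hω, smul_zero, add_zero, h1,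
    smul_eq_mul, mul_comm]

end Basis

section Integral

variable {R E F : Type*} [CommRing R] [Field E] [Field F] [Algebra R E] [Algebra E F]
  [Algebra R F] [IsScalarTower R E F]

/-- **Integrality in a quadratic extension.** `R ⊆ E` integrally closed in `E`, `2` invertible in
`R`: `α + β ω` is integral over `R` iff `α ∈ R` and `a β ^ 2 ∈ R`. -/
theorem isIntegral_add_smul_gen_iff
    (hcl : ∀ x : E, IsIntegral R x → x ∈ (algebraMap R E).range)
    (h2 : (2 : E)⁻¹ ∈ (algebraMap R E).range) (h2' : (2 : E) ≠ 0)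
    (hn : finrank E F = 2) {ω : F} (hnot : ω ∉ (algebraMap E F).range)
    {a : E} (hω : ω ^ 2 = algebraMap E F a) (α β : E) :
    IsIntegral R (α • (1 : F) + β • ω) ↔
      α ∈ (algebraMap R E).range ∧ a * β ^ 2 ∈ (algebraMap R E).range := by
  have hfd : FiniteDimensional E F := Module.finite_of_finrank_pos (by rw [hn]; norm_num)
  have hsq : (β • ω) ^ 2 = algebraMap E F (a * β ^ 2) := by
    rw [Algebra.smul_def, mul_pow, hω, map_mul, map_pow, mul_comm]
  constructor
  · intro hx
    have htr : IsIntegral R (Algebra.trace E F (α • (1 : F) + β • ω)) :=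
      Algebra.isIntegral_trace hx
    rw [trace_add_smul_gen hn hnot hω] at htr
    obtain ⟨r, hr⟩ := hcl _ htr
    obtain ⟨c, hc⟩ := h2
    have hα : α ∈ (algebraMap R E).range := by
      refine ⟨c * r, ?_⟩
      rw [map_mul, hr, hc, ← mul_assoc, inv_mul_cancel₀ h2', one_mul]
    refine ⟨hα, ?_⟩
    obtain ⟨r', hr'⟩ := hα
    have hα' : IsIntegral R (α • (1 : F)) := by
      rw [Algebra.smul_def, mul_one, ← hr', ← IsScalarTower.algebraMap_apply]
      exact isIntegral_algebraMap
    have hβ : IsIntegral R (β • ω) := by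
      have := hx.sub hα'
      rwa [add_sub_cancel_left] at this
    have hβ2 : IsIntegral R (algebraMap E F (a * β ^ 2)) := by
      rw [← hsq]
      exact hβ.pow 2
    exact hcl _ ((isIntegral_algebraMap_iff (algebraMap E F).injective).mp hβ2)
  · rintro ⟨⟨r, hr⟩, ⟨s, hs⟩⟩
    have hα' : IsIntegral R (α • (1 : F)) := by
      rw [Algebra.smul_def, mul_one, ← hr, ← IsScalarTower.algebraMap_apply]
      exact isIntegral_algebraMap
    have hβ : IsIntegral R (β • ω) := by
      refine IsIntegral.of_pow (n := 2) (by norm_num) ?_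
      rw [hsq, ← hs, ← IsScalarTower.algebraMap_apply]
      exact isIntegral_algebraMap
    exact hα'.add hβ

end Integral

/-! ### General relation `ω ^ 2 = τ ω - ν` -/

section General

variable {E F : Type*} [Field E] [Field F] [Algebra E F]

/-- `Tr ω = τ` for `ω ^ 2 = τ ω - ν`. -/
theorem trace_gen_of_sq (hn : finrank E F = 2) {ω : F} (hnot : ω ∉ (algebraMap E F).range)
    {τ ν : E} (hω : ω ^ 2 = algebraMap E F τ * ω - algebraMap E F ν) :
    Algebra.trace E F ω = τ := by
  rw [Algebra.trace_eq_matrix_trace (quadBasis hn hnot), Matrix.trace_fin_two,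
    Algebra.leftMulMatrix_eq_repr_mul, Algebra.leftMulMatrix_eq_repr_mul, quadBasis_zero,
    quadBasis_one, mul_one]
  have h1 : ω = (0 : E) • (1 : F) + (1 : E) • ω := by simp
  have h2 : ω * ω = (-ν) • (1 : F) + τ • ω := by
    rw [← pow_two, hω, Algebra.smul_def, Algebra.smul_def, mul_one, map_neg]
    ring
  have e1 := (quadBasis_repr_add hn hnot (0 : E) (1 : E)).1
  have e2 := (quadBasis_repr_add hn hnot (-ν) τ).2
  rw [← h1] at e1
  rw [← h2] at e2
  rw [e1, e2, zero_add]

/-- `Tr (α + β ω) = 2 α + β τ`. -/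
theorem trace_add_smul_gen_of_sq (hn : finrank E F = 2) {ω : F}
    (hnot : ω ∉ (algebraMap E F).range) {τ ν : E}
    (hω : ω ^ 2 = algebraMap E F τ * ω - algebraMap E F ν) (α β : E) :
    Algebra.trace E F (α • (1 : F) + β • ω) = 2 * α + β * τ := by
  have h1 : Algebra.trace E F (1 : F) = 2 := by
    rw [← map_one (algebraMap E F), Algebra.trace_algebraMap, hn]
    simp
  rw [map_add, map_smul, map_smul, trace_gen_of_sq hn hnot hω, h1, smul_eq_mul, smul_eq_mul,
    mul_comm α 2]

/-- The product of `α + β ω` with its conjugate `(α + β τ) - β ω` is the norm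
`α² + α β τ + β² ν`. -/
theorem mul_conj_of_sq {ω : F} {τ ν : E}
    (hω : ω ^ 2 = algebraMap E F τ * ω - algebraMap E F ν) (α β : E) :
    (α • (1 : F) + β • ω) * ((2 * α + β * τ) • (1 : F) - (α • (1 : F) + β • ω)) =
      (α ^ 2 + α * β * τ + β ^ 2 * ν) • (1 : F) := by
  simp only [Algebra.smul_def, mul_one, map_add, map_mul, map_pow, map_ofNat]
  have : algebraMap E F β * ω * (algebraMap E F β * ω) =
      algebraMap E F β ^ 2 * (algebraMap E F τ * ω - algebraMap E F ν) := by
    rw [← hω]; ring
  linear_combination (-1 : F) * this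

end General

section IntegralGeneral

variable {R E F : Type*} [CommRing R] [Field E] [Field F] [Algebra R E] [Algebra E F]
  [Algebra R F] [IsScalarTower R E F]

/-- **Integrality in a quadratic extension, general form** (any characteristic): for `R ⊆ E`
integrally closed in `E` and `ω ^ 2 = τ ω - ν`: `α + β ω` is integral over `R` iff its trace
`2 α + β τ` and its norm `α² + α β τ + β² ν` lie in `R`. -/
theorem isIntegral_iff_trace_norm
    (hcl : ∀ x : E, IsIntegral R x → x ∈ (algebraMap R E).range)
    (hn : finrank E F = 2) {ω : F} (hnot : ω ∉ (algebraMap E F).range) {τ ν : E}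
    (hω : ω ^ 2 = algebraMap E F τ * ω - algebraMap E F ν) (α β : E) :
    IsIntegral R (α • (1 : F) + β • ω) ↔
      2 * α + β * τ ∈ (algebraMap R E).range ∧
        α ^ 2 + α * β * τ + β ^ 2 * ν ∈ (algebraMap R E).range := by
  have hfd : FiniteDimensional E F := Module.finite_of_finrank_pos (by rw [hn]; norm_num)
  have hmem : ∀ {c : E}, c ∈ (algebraMap R E).range → IsIntegral R (c • (1 : F)) := by
    rintro c ⟨r, rfl⟩
    rw [Algebra.smul_def, mul_one, ← IsScalarTower.algebraMap_apply]
    exact isIntegral_algebraMap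
  have hconj := mul_conj_of_sq hω α β
  constructor
  · intro hx
    have htr : IsIntegral R (Algebra.trace E F (α • (1 : F) + β • ω)) :=
      Algebra.isIntegral_trace hx
    rw [trace_add_smul_gen_of_sq hn hnot hω] at htr
    have hT := hcl _ htr
    refine ⟨hT, ?_⟩
    have hx' : IsIntegral R ((2 * α + β * τ) • (1 : F) - (α • (1 : F) + β • ω)) :=
      (hmem hT).sub hx
    have hN : IsIntegral R ((α ^ 2 + α * β * τ + β ^ 2 * ν) • (1 : F)) := by
      rw [← hconj]
      exact hx.mul hx'
    rw [Algebra.smul_def, mul_one] at hN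
    exact hcl _ ((isIntegral_algebraMap_iff (algebraMap E F).injective).mp hN)
  · rintro ⟨⟨rT, hT⟩, ⟨rN, hN⟩⟩
    -- `x` is a root of `X² - T X + N`
    refine ⟨Polynomial.X ^ 2 + (Polynomial.C (-rT) * Polynomial.X + Polynomial.C rN),
      Polynomial.monic_X_pow_add (lt_of_le_of_lt Polynomial.degree_linear_le (by norm_num)), ?_⟩
    set x := α • (1 : F) + β • ω with hx
    have h1 : algebraMap R F rT = (2 * α + β * τ) • (1 : F) := by
      rw [IsScalarTower.algebraMap_apply R E F, hT, Algebra.smul_def, mul_one]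
    have h2 : algebraMap R F rN = (α ^ 2 + α * β * τ + β ^ 2 * ν) • (1 : F) := by
      rw [IsScalarTower.algebraMap_apply R E F, hN, Algebra.smul_def, mul_one]
    simp only [Polynomial.eval₂_add, Polynomial.eval₂_pow, Polynomial.eval₂_X,
      Polynomial.eval₂_mul, Polynomial.eval₂_C, Polynomial.C_neg, Polynomial.eval₂_neg]
    rw [h1, h2, ← hconj]
    ring

end IntegralGeneral

section Squarefree

variable {R E : Type*} [CommRing R] [IsDomain R] [UniqueFactorizationMonoid R] [Field E]
  [Algebra R E] [IsFractionRing R E]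

/-- In the fraction field of a UFD: `f β ^ 2 ∈ R` with `f` squarefree forces `β ∈ R`. -/
theorem mem_range_of_squarefree_mul_sq {f : R} (hf : Squarefree f) {β : E}
    (h : algebraMap R E f * β ^ 2 ∈ (algebraMap R E).range) : β ∈ (algebraMap R E).range := by
  obtain ⟨p, q, hpq, rfl⟩ := IsFractionRing.exists_reduced_fraction (A := R) (K := E) β
  obtain ⟨r, hr⟩ := h
  have hq0 : algebraMap R E (q : R) ≠ 0 :=
    IsFractionRing.to_map_ne_zero_of_mem_nonZeroDivisors q.2
  -- `f p² = r q²`
  have h1 : f * p ^ 2 = r * (q : R) ^ 2 := by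
    apply IsFractionRing.injective R E
    rw [map_mul, map_mul, map_pow, map_pow, hr, IsFractionRing.mk'_eq_div, div_pow]
    field_simp
  -- `q² ∣ f`
  have hcop : IsRelPrime ((q : R) ^ 2) (p ^ 2) := (hpq.symm.pow_left).pow_right
  have hdvd : (q : R) ^ 2 ∣ f := by
    have : (q : R) ^ 2 ∣ f * p ^ 2 := ⟨r, by rw [h1, mul_comm]⟩
    exact hcop.dvd_of_dvd_mul_right this
  have hunit : IsUnit (q : R) := hf _ (by rw [← pow_two]; exact hdvd)
  obtain ⟨u, hu⟩ := hunit
  refine ⟨p * ↑u⁻¹, ?_⟩
  rw [IsFractionRing.mk'_eq_div, map_mul, eq_div_iff hq0, mul_assoc, ← map_mul, ← hu,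
    Units.inv_mul, map_one, mul_one]

/-- A squarefree non-unit of a UFD is not a square in its fraction field. -/
theorem not_isSquare_algebraMap_of_squarefree {f : R} (hf : Squarefree f) (hu : ¬ IsUnit f)
    (r : E) : r ^ 2 ≠ algebraMap R E f := by
  intro h
  have hint : IsIntegral R r := by
    refine IsIntegral.of_pow (n := 2) (by norm_num) ?_
    rw [h]
    exact isIntegral_algebraMap
  obtain ⟨p, rfl⟩ := (IsIntegrallyClosed.isIntegral_iff (R := R) (K := E)).mp hint
  rw [← map_pow] at h
  have h' : p ^ 2 = f := IsFractionRing.injective R E h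
  have hpu : IsUnit p := hf p (by rw [← h', pow_two])
  exact hu (by rw [← h']; exact hpu.pow 2)

end Squarefree

end Fermat.Agent.BR3.QuadExt
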