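import Mathlib
import Fermat.Agent.FF.RiemannPkg
import Fermat.Agent.FF.GenusStd
import Fermat.Agent.BR3.QuadExt

/-!
# Program C, node A11 (HYPERELL), the case `q = 2`: Artin–Schreier curves `u ^ 2 + u = f(s)`

`K` a field of characteristic two, `f ∈ K[X]` of odd degree `2 m + 1`.

* coordinate context (`F` a separable extension of degree two of `RatFunc K`, `u ^ 2 + u = f`):
  `latF_quadBasis_AS` (`(1, u)` is a `K[X]`-basis of `Bf K F`), `latInf_quadBasis_AS`
  (`(1, X^{-(m+1)} u)` is an `Rinf K`-basis of `Binf K F`),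
  `genusFF_of_artinSchreier_coord : genusFF K F = m`;
* abstract form: `isSepVarS_of_artinSchreier`, `riemannPkg_of_artinSchreier`,
  `genusFF_artinSchreier : genusFF k L = m` for `L = k(s, u)`, `u ^ 2 + u = f(s)`;
* `genusFF_artinSchreier_cubic` : `u ^ 2 + u = s ^ 3` has genus one (the residue curve of the
  vertical components for `q = 2`).
-/

set_option autoImplicit false

open AlgebraicCurve Fermat.Agent.X0 Fermat.Agent.X0.RR Fermat.Agent.X0.RR7 Polynomial FunctionField
  Module IntermediateField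

namespace Fermat.Agent.BR3.ArtinSchreierGenus

open Fermat.Agent.FF Fermat.Agent.BR3.QuadExt

attribute [local instance] addCommGroupRepartitions

section RatFuncFacts

variable {K : Type*} [Field K]

theorem mem_range_poly_iff {x : RatFunc K} :
    x ∈ (algebraMap K[X] (RatFunc K)).range ↔ x ∈ polySub K := by
  rw [mem_polySub]; rfl

theorem mem_range_Rinf_iff {x : RatFunc K} :
    x ∈ (algebraMap (Rinf K) (RatFunc K)).range ↔ IntDegLE x 0 := by
  rw [← mem_Rinf_iff]
  constructor
  · rintro ⟨y, rfl⟩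
    exact y.2
  · intro hx
    exact ⟨⟨x, hx⟩, rfl⟩

theorem isIntegral_poly_mem_range (x : RatFunc K) (hx : IsIntegral K[X] x) :
    x ∈ (algebraMap K[X] (RatFunc K)).range :=
  (IsIntegrallyClosed.isIntegral_iff (R := K[X]) (K := RatFunc K)).mp hx

theorem isIntegral_Rinf_mem_range (x : RatFunc K) (hx : IsIntegral (Rinf K) x) :
    x ∈ (algebraMap (Rinf K) (RatFunc K)).range :=
  (IsIntegrallyClosed.isIntegral_iff (R := Rinf K) (K := RatFunc K)).mp hx

theorem two_eq_zero_ratFunc [CharP K 2] : (2 : RatFunc K) = 0 := by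
  rw [← map_ofNat (algebraMap K (RatFunc K)) 2, CharTwo.two_eq_zero, map_zero]

/-- A dominant term decides the degree. -/
theorem intDegree_add_of_intDegLE {x y : RatFunc K} (hy : y ≠ 0)
    (h : IntDegLE x (y.intDegree - 1)) : x + y ≠ 0 ∧ (x + y).intDegree = y.intDegree := by
  rcases h with rfl | h
  · rw [zero_add]
    exact ⟨hy, rfl⟩
  by_cases hx : x = 0
  · subst hx
    rw [zero_add]
    exact ⟨hy, rfl⟩
  have hne : x + y ≠ 0 := by
    intro h0
    have hxy : x = -y := eq_neg_of_add_eq_zero_left h0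
    rw [hxy, RatFunc.intDegree_neg] at h
    omega
  refine ⟨hne, le_antisymm ?_ ?_⟩
  · have := RatFunc.intDegree_add_le hy hne
    rw [max_eq_right (by omega)] at this
    exact this
  · have hnx : -x ≠ 0 := neg_ne_zero.mpr hx
    have hsum : (x + y) + (-x) ≠ 0 := by
      rw [add_neg_cancel_comm]
      exact hy
    have := RatFunc.intDegree_add_le hnx hsum
    rw [add_neg_cancel_comm, RatFunc.intDegree_neg] at this
    rcases le_max_iff.mp this with h1 | h1
    · exact h1
    · omega

/-- **The parity argument at infinity**: if `α² - α β - f β²` has degree `≤ 0` with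
`deg f = 2 m + 1` odd, then `deg α ≤ 0` and `deg β ≤ -(m + 1)`. -/
theorem intDegLE_of_norm {f : K[X]} {m : ℕ} (hdeg : f.natDegree = 2 * m + 1) (α β : RatFunc K)
    (h : IntDegLE (α ^ 2 + α * β * (-1) + β ^ 2 * (-(algebraMap K[X] (RatFunc K) f))) 0) :
    IntDegLE α 0 ∧ IntDegLE β (-((m : ℤ) + 1)) := by
  have hf0 : f ≠ 0 := by
    rintro rfl
    simp at hdeg
  set a := algebraMap K[X] (RatFunc K) f with ha
  have ha0 : a ≠ 0 := by simpa [ha] using hf0
  have hadeg : a.intDegree = 2 * (m : ℤ) + 1 := by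
    rw [ha, RatFunc.intDegree_polynomial, hdeg]
    push_cast
    ring
  by_cases hα : α = 0
  · subst hα
    refine ⟨IntDegLE.zero 0, ?_⟩
    by_cases hβ : β = 0
    · subst hβ
      exact IntDegLE.zero _
    · have hne : β ^ 2 * (-a) ≠ 0 := mul_ne_zero (pow_ne_zero 2 hβ) (neg_ne_zero.mpr ha0)
      have hd : (β ^ 2 * (-a)).intDegree = 2 * β.intDegree + (2 * (m : ℤ) + 1) := by
        rw [RatFunc.intDegree_mul (pow_ne_zero 2 hβ) (neg_ne_zero.mpr ha0), RatFunc.intDegree_neg,
          hadeg, pow_two, RatFunc.intDegree_mul hβ hβ]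
        ring
      simp only [ne_eq, OfNat.ofNat_ne_zero, not_false_eq_true, zero_pow, zero_mul, zero_add]
        at h
      rcases h with h | h
      · exact absurd h hne
      · rw [hd] at h
        exact Or.inr (by omega)
  by_cases hβ : β = 0
  · subst hβ
    refine ⟨?_, IntDegLE.zero _⟩
    simp only [mul_zero, zero_mul, add_zero, ne_eq, OfNat.ofNat_ne_zero, not_false_eq_true,
      zero_pow] at h
    rcases h with h | h
    · exact absurd h (pow_ne_zero 2 hα)
    · rw [pow_two, RatFunc.intDegree_mul hα hα] at h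
      exact Or.inr (by omega)
  -- both nonzero
  set A := α.intDegree with hA
  set B := β.intDegree with hB
  have h1ne : α ^ 2 ≠ 0 := pow_ne_zero 2 hα
  have h2ne : α * β * (-1) ≠ 0 :=
    mul_ne_zero (mul_ne_zero hα hβ) (neg_ne_zero.mpr one_ne_zero)
  have h3ne : β ^ 2 * (-a) ≠ 0 := mul_ne_zero (pow_ne_zero 2 hβ) (neg_ne_zero.mpr ha0)
  have hd1 : (α ^ 2).intDegree = 2 * A := by
    rw [pow_two, RatFunc.intDegree_mul hα hα]; ring
  have hd2 : (α * β * (-1)).intDegree = A + B := by
    rw [RatFunc.intDegree_mul (mul_ne_zero hα hβ) (neg_ne_zero.mpr one_ne_zero),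
      RatFunc.intDegree_mul hα hβ, RatFunc.intDegree_neg, RatFunc.intDegree_one, add_zero]
  have hd3 : (β ^ 2 * (-a)).intDegree = 2 * B + (2 * (m : ℤ) + 1) := by
    rw [RatFunc.intDegree_mul (pow_ne_zero 2 hβ) (neg_ne_zero.mpr ha0), RatFunc.intDegree_neg,
      hadeg, pow_two, RatFunc.intDegree_mul hβ hβ]
    ring
  rcases le_or_gt A (B + m) with hAB | hAB
  · -- the third term dominates
    have hrest : IntDegLE (α ^ 2 + α * β * (-1)) ((β ^ 2 * (-a)).intDegree - 1) := by
      refine IntDegLE.add (Or.inr ?_) (Or.inr ?_)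
      · rw [hd1, hd3]; omega
      · rw [hd2, hd3]; omega
    obtain ⟨hne, hd⟩ := intDegree_add_of_intDegLE h3ne hrest
    rcases h with h | h
    · exact absurd h hne
    · rw [hd, hd3] at h
      exact ⟨Or.inr (by omega), Or.inr (by omega)⟩
  · -- the first term dominates
    have hrest : IntDegLE (α * β * (-1) + β ^ 2 * (-a)) ((α ^ 2).intDegree - 1) := by
      refine IntDegLE.add (Or.inr ?_) (Or.inr ?_)
      · rw [hd2, hd1]; omega
      · rw [hd3, hd1]; omega
    obtain ⟨hne, hd⟩ := intDegree_add_of_intDegLE h1ne hrest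
    have hcomm : α ^ 2 + α * β * (-1) + β ^ 2 * (-a) =
        (α * β * (-1) + β ^ 2 * (-a)) + α ^ 2 := by ring
    rw [hcomm] at h
    rcases h with h | h
    · exact absurd h hne
    · rw [hd, hd1] at h
      exact ⟨Or.inr (by omega), Or.inr (by omega)⟩

/-- Conversely the norm has degree `≤ 0`. -/
theorem intDegLE_norm {f : K[X]} {m : ℕ} (hdeg : f.natDegree = 2 * m + 1) {α β : RatFunc K}
    (hα : IntDegLE α 0) (hβ : IntDegLE β (-((m : ℤ) + 1))) :
    IntDegLE (α ^ 2 + α * β * (-1) + β ^ 2 * (-(algebraMap K[X] (RatFunc K) f))) 0 := by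
  have h1 : IntDegLE (α ^ 2) 0 := by
    have := hα.mul hα
    rwa [← pow_two, add_zero] at this
  have h2 : IntDegLE (α * β * (-1)) 0 := by
    have := ((hα.mul hβ).neg).mono (show (0 : ℤ) + -((m : ℤ) + 1) ≤ 0 by omega)
    rwa [← mul_neg_one] at this
  have h3 : IntDegLE (β ^ 2 * (-(algebraMap K[X] (RatFunc K) f))) 0 := by
    have ha : IntDegLE (algebraMap K[X] (RatFunc K) f) (2 * (m : ℤ) + 1) :=
      intDegLE_polynomial_iff.mpr (Or.inr (by rw [hdeg]; push_cast; omega))
    have := (((hβ.mul hβ).mul ha.neg)).mono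
      (show -((m : ℤ) + 1) + -((m : ℤ) + 1) + (2 * (m : ℤ) + 1) ≤ 0 by omega)
    rwa [← pow_two] at this
  exact (h1.add h2).add h3

end RatFuncFacts

section Coord

variable {K F : Type*} [Field K] [Field F] [Algebra K F]
  [Algebra K[X] F] [Algebra (RatFunc K) F] [IsScalarTower K[X] (RatFunc K) F]
  [IsScalarTower K K[X] F] [IsScalarTower K (RatFunc K) F]
  [FunctionField K F] [Algebra.IsSeparable (RatFunc K) F]

omit [Algebra K F] [IsScalarTower K K[X] F] [IsScalarTower K (RatFunc K) F] [FunctionField K F]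
  [Algebra.IsSeparable (RatFunc K) F] in
/-- The relation in the form `u ^ 2 = τ u - ν` with `τ = -1`, `ν = -f`. -/
theorem sq_eq_of_artinSchreier {u : F} {f : K[X]} (hu : u ^ 2 + u = algebraMap K[X] F f) :
    u ^ 2 = algebraMap (RatFunc K) F (-1) * u -
      algebraMap (RatFunc K) F (-(algebraMap K[X] (RatFunc K) f)) := by
  rw [map_neg, map_neg, map_one, ← IsScalarTower.algebraMap_apply K[X] (RatFunc K) F, ← hu]
  ring

omit [Algebra K F] [IsScalarTower K K[X] F] [IsScalarTower K (RatFunc K) F] [FunctionField K F]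
  [Algebra.IsSeparable (RatFunc K) F] in
/-- `u` with `u ^ 2 + u = f` of odd degree is not in `RatFunc K`. -/
theorem gen_notMem_range_AS {u : F} {f : K[X]} {m : ℕ} (hu : u ^ 2 + u = algebraMap K[X] F f)
    (hdeg : f.natDegree = 2 * m + 1) : u ∉ (algebraMap (RatFunc K) F).range := by
  rintro ⟨r, rfl⟩
  rw [IsScalarTower.algebraMap_apply K[X] (RatFunc K) F, ← map_pow, ← map_add] at hu
  have h := (algebraMap (RatFunc K) F).injective hu
  -- `r` is integral over `K[X]`
  have hint : IsIntegral K[X] r := by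
    refine ⟨X ^ 2 + (C (1 : K[X]) * X + C (-f)),
      monic_X_pow_add (lt_of_le_of_lt degree_linear_le (by norm_num)), ?_⟩
    simp only [eval₂_add, eval₂_pow, eval₂_X, eval₂_C, eval₂_neg, map_one, one_mul, map_neg]
    rw [← h]
    ring
  obtain ⟨p, rfl⟩ := isIntegral_poly_mem_range r hint
  rw [← map_pow, ← map_add] at h
  have hp : p ^ 2 + p = f := IsFractionRing.injective K[X] (RatFunc K) h
  have hnat : f.natDegree = 2 * p.natDegree ∨ f.natDegree = 0 := by
    rcases Nat.eq_zero_or_pos p.natDegree with h0 | hpos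
    · right
      obtain ⟨c, rfl⟩ := natDegree_eq_zero.mp h0
      rw [← hp, ← C_pow, ← C_add, natDegree_C]
    · left
      rw [← hp, natDegree_add_eq_left_of_natDegree_lt (by rw [natDegree_pow]; omega),
        natDegree_pow]
  omega

omit [IsScalarTower K K[X] F] [FunctionField K F] [Algebra.IsSeparable (RatFunc K) F] in
/-- `(1, u)` is a `K[X]`-basis of the integral closure of `K[X]`. -/
theorem latF_quadBasis_AS [CharP K 2] (hn : finrank (RatFunc K) F = 2) {u : F} {f : K[X]}
    (hu : u ^ 2 + u = algebraMap K[X] F f) (hnot : u ∉ (algebraMap (RatFunc K) F).range) :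
    latF (quadBasis hn hnot) = BfK K F := by
  have hω := sq_eq_of_artinSchreier hu
  have hcrit := isIntegral_iff_trace_norm (R := K[X]) isIntegral_poly_mem_range hn hnot hω
  ext v
  rw [mem_latF, mem_BfK, mem_integralClosure_iff, Fin.forall_fin_two,
    ← quadBasis_sum_repr hn hnot v]
  set α := (quadBasis hn hnot).repr v 0
  set β := (quadBasis hn hnot).repr v 1
  rw [(quadBasis_repr_add hn hnot α β).1, (quadBasis_repr_add hn hnot α β).2,
    ← mem_range_poly_iff, ← mem_range_poly_iff]
  constructor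
  · rintro ⟨⟨p, hp⟩, ⟨r, hr⟩⟩
    rw [hcrit]
    refine ⟨⟨2 * p + r * (-1), by rw [map_add, map_mul, map_mul, map_neg, map_one, hp, hr,
      map_ofNat]⟩, ⟨p ^ 2 + p * r * (-1) + r ^ 2 * (-f), ?_⟩⟩
    rw [map_add, map_add, map_mul, map_mul, map_mul, map_pow, map_pow, map_neg, map_neg, map_one,
      hp, hr]
  · intro hx
    obtain ⟨⟨rT, hT⟩, -⟩ := (hcrit α β).mp hx
    have hβ : β ∈ (algebraMap K[X] (RatFunc K)).range := by
      refine ⟨-rT, ?_⟩
      rw [map_neg, hT, two_eq_zero_ratFunc, zero_mul, zero_add, mul_neg_one, neg_neg]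
    -- `u` is integral, hence `β u`, hence `α`
    have hu' : IsIntegral K[X] ((0 : RatFunc K) • (1 : F) + (1 : RatFunc K) • u) := by
      rw [hcrit]
      exact ⟨⟨-1, by simp⟩, ⟨-f, by simp⟩⟩
    rw [zero_smul, zero_add, one_smul] at hu'
    obtain ⟨r, hr⟩ := hβ
    have hβu : IsIntegral K[X] (β • u) := by
      rw [← hr, Algebra.smul_def, ← IsScalarTower.algebraMap_apply]
      exact isIntegral_algebraMap.mul hu'
    have hα : IsIntegral K[X] (α • (1 : F)) := by
      have := hx.sub hβu
      rwa [add_sub_cancel_right] at this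
    rw [Algebra.smul_def, mul_one] at hα
    exact ⟨isIntegral_poly_mem_range α
      ((isIntegral_algebraMap_iff (algebraMap (RatFunc K) F).injective).mp hα), ⟨r, hr⟩⟩

omit [IsScalarTower K K[X] F] [FunctionField K F] [Algebra.IsSeparable (RatFunc K) F] in
/-- `(1, X^{-(m+1)} u)` is an `Rinf K`-basis of the integral closure of `Rinf K`. -/
theorem latInf_quadBasis_AS [CharP K 2] (hn : finrank (RatFunc K) F = 2) {u : F} {f : K[X]}
    {m : ℕ} (hu : u ^ 2 + u = algebraMap K[X] F f) (hdeg : f.natDegree = 2 * m + 1)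
    (hnot : u ∉ (algebraMap (RatFunc K) F).range) :
    latInf (quadBasis hn hnot) ![0, -((m : ℤ) + 1)] = BinfK K F := by
  have hω := sq_eq_of_artinSchreier hu
  have hcrit := isIntegral_iff_trace_norm (R := Rinf K) isIntegral_Rinf_mem_range hn hnot hω
  ext v
  rw [mem_latInf, mem_BinfK, mem_integralClosure_iff, Fin.forall_fin_two,
    ← quadBasis_sum_repr hn hnot v]
  set α := (quadBasis hn hnot).repr v 0
  set β := (quadBasis hn hnot).repr v 1
  rw [(quadBasis_repr_add hn hnot α β).1, (quadBasis_repr_add hn hnot α β).2, hcrit,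
    mem_range_Rinf_iff, mem_range_Rinf_iff]
  show IntDegLE α 0 ∧ IntDegLE β (-((m : ℤ) + 1)) ↔ _
  constructor
  · rintro ⟨hα, hβ⟩
    refine ⟨?_, intDegLE_norm hdeg hα hβ⟩
    rw [two_eq_zero_ratFunc, zero_mul, zero_add, mul_neg_one]
    exact (hβ.mono (by omega)).neg
  · rintro ⟨-, hN⟩
    exact intDegLE_of_norm hdeg α β hN

/-- **The genus of `u ^ 2 + u = f`, `deg f = 2 m + 1`, characteristic two: coordinate form.** -/
theorem genusFF_of_artinSchreier_coord [CharP K 2] (hn : finrank (RatFunc K) F = 2) {u : F}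
    {f : K[X]} {m : ℕ} (hu : u ^ 2 + u = algebraMap K[X] F f) (hdeg : f.natDegree = 2 * m + 1) :
    genusFF K F = m := by
  have hnot : u ∉ (algebraMap (RatFunc K) F).range := gen_notMem_range_AS hu hdeg
  rw [Adele.genusFF_eq_finrank_quotient K F, ← latF_quadBasis_AS hn hu hnot,
    ← latInf_quadBasis_AS hn hu hdeg hnot, finrank_quotient_latF_sup_latInf, Fin.sum_univ_two]
  simp only [Matrix.cons_val_zero, Matrix.cons_val_one]
  omega

end Coord

/-! ## The abstract form -/

section Abstract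

variable {k L : Type*} [Field k] [Field L] [Algebra k L]

theorem algebraMap_aeval_gen (s : L) (f : k[X]) :
    algebraMap k⟮s⟯ L (aeval (AdjoinSimple.gen k s) f) = aeval s f := by
  rw [← aeval_algebraMap_apply, AdjoinSimple.algebraMap_gen]

/-- `u` with `u ^ 2 + u = f(s)`, `f` of odd degree, is not in `k(s)`. -/
theorem gen_notMem_adjoin_AS {s u : L} (hs : Transcendental k s) {f : k[X]} {m : ℕ}
    (hdeg : f.natDegree = 2 * m + 1) (hu : u ^ 2 + u = aeval s f) :
    u ∉ (algebraMap k⟮s⟯ L).range := by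
  let _ := algPoly k s
  let _ := algRat hs
  have := isScalarTower_poly_rat hs
  rintro ⟨y, rfl⟩
  have hu' : (algebraMap k⟮s⟯ L y) ^ 2 + algebraMap k⟮s⟯ L y = algebraMap k[X] L f := hu
  refine gen_notMem_range_AS hu' hdeg ⟨(RatFunc.algEquivOfTranscendental s hs).symm y, ?_⟩
  show k⟮s⟯.val ((RatFunc.algEquivOfTranscendental s hs)
    ((RatFunc.algEquivOfTranscendental s hs).symm y)) = _
  rw [AlgEquiv.apply_symm_apply]
  rfl

/-- **`s` is a separating variable of degree two of `k(s, u)`, `u ^ 2 + u = f(s)`**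
(characteristic two, `f` of odd degree). -/
theorem isSepVarS_of_artinSchreier [CharP k 2] {s u : L} (hs : Transcendental k s) {f : k[X]}
    {m : ℕ} (hdeg : f.natDegree = 2 * m + 1) (hu : u ^ 2 + u = aeval s f)
    (hgen : IntermediateField.adjoin k {s, u} = ⊤) : IsSepVarS k s 2 := by
  have hnot := gen_notMem_adjoin_AS hs hdeg hu
  set a : k⟮s⟯ := aeval (AdjoinSimple.gen k s) f with ha
  have haL : algebraMap k⟮s⟯ L a = aeval s f := algebraMap_aeval_gen s f
  set P : k⟮s⟯[X] := C 1 * X ^ 2 + C 1 * X + C (-a) with hP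
  have hP' : P = X ^ 2 + (C 1 * X + C (-a)) := by rw [hP, C_1, one_mul, add_assoc]
  have hroot : aeval u P = 0 := by
    rw [hP]
    simp only [map_add, map_pow, aeval_X, aeval_C, map_one, one_mul, map_neg]
    rw [haL, ← hu]
    ring
  have hmonic : P.Monic := by
    rw [hP']
    exact monic_X_pow_add (lt_of_le_of_lt degree_linear_le (by norm_num))
  have hint : IsIntegral k⟮s⟯ u := ⟨_, hmonic, hroot⟩
  have hdvd : minpoly k⟮s⟯ u ∣ P := minpoly.dvd _ _ hroot
  have hdeg2 : P.natDegree = 2 := by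
    rw [hP', natDegree_add_eq_left_of_degree_lt, natDegree_X_pow]
    rw [degree_X_pow]
    exact lt_of_le_of_lt degree_linear_le (by norm_num)
  have hle : (minpoly k⟮s⟯ u).natDegree ≤ 2 :=
    hdeg2 ▸ natDegree_le_of_dvd hdvd hmonic.ne_zero
  have hpos' : 0 < (minpoly k⟮s⟯ u).natDegree := minpoly.natDegree_pos hint
  have hne1 : (minpoly k⟮s⟯ u).natDegree ≠ 1 := fun h =>
    hnot (minpoly.natDegree_eq_one_iff.mp h)
  have hmin : (minpoly k⟮s⟯ u).natDegree = 2 := by omega
  have htop : k⟮s⟯⟮u⟯ = ⊤ := by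
    rw [← restrictScalars_eq_top_iff (K := k), adjoin_simple_adjoin_simple, hgen]
  have hfd' : FiniteDimensional k⟮s⟯ k⟮s⟯⟮u⟯ := adjoin.finiteDimensional hint
  have hfr' : finrank k⟮s⟯ k⟮s⟯⟮u⟯ = 2 := by rw [adjoin.finrank hint, hmin]
  rw [htop] at hfd' hfr'
  have hfd : FiniteDimensional k⟮s⟯ L :=
    Module.Finite.equiv (topEquiv (F := k⟮s⟯) (E := L)).toLinearEquiv
  have hfr : finrank k⟮s⟯ L = 2 := by rw [← finrank_top', hfr']
  have h2 : ((2 : ℕ) : k⟮s⟯) = 0 := by
    have : ((2 : ℕ) : k⟮s⟯) = algebraMap k k⟮s⟯ 2 := by rw [Nat.cast_ofNat, map_ofNat]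
    rw [this, CharTwo.two_eq_zero, map_zero]
  have hsepP : P.Separable :=
    separable_C_mul_X_pow_add_C_mul_X_add_C (1 : k⟮s⟯) 1 (-a) h2 isUnit_one
  have hsep : Algebra.IsSeparable k⟮s⟯ L := by
    rw [← isSeparable_top, ← htop, isSeparable_adjoin_iff_isSeparable]
    intro x hx
    rw [Set.mem_singleton_iff] at hx
    subst hx
    exact hsepP.of_dvd hdvd
  exact ⟨⟨hs, hfd, hfr⟩, hsep⟩

/-- The Riemann package of an Artin–Schreier curve. -/
theorem riemannPkg_of_artinSchreier [IsAlgClosed k] [CharP k 2] {s u : L}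
    (hs : Transcendental k s) {f : k[X]} {m : ℕ} (hdeg : f.natDegree = 2 * m + 1)
    (hu : u ^ 2 + u = aeval s f) (hgen : IntermediateField.adjoin k {s, u} = ⊤) :
    Red.RiemannPkg k L :=
  riemannPkg (isSepVarS_of_artinSchreier hs hdeg hu hgen)

/-- **The genus of `k(s, u)`, `u ^ 2 + u = f(s)`, `deg f = 2 m + 1`, characteristic two,
is `m`.** -/
theorem genusFF_artinSchreier [CharP k 2] {s u : L} (hs : Transcendental k s) {f : k[X]}
    {m : ℕ} (hdeg : f.natDegree = 2 * m + 1) (hu : u ^ 2 + u = aeval s f)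
    (hgen : IntermediateField.adjoin k {s, u} = ⊤) : genusFF k L = m := by
  have hx := isSepVarS_of_artinSchreier hs hdeg hu hgen
  let _ := algPoly k s
  let _ := algRat hx.transcendental
  have := isScalarTower_poly_rat hx.transcendental
  have := isScalarTower_base_poly (K := k) s
  have := hx.finite
  have := hx.separable
  have := functionField_of_finite hx.transcendental
  have := isSeparable_ratFunc_of hx.transcendental
  have := isScalarTower_base_rat (K := k) (F := L)
  have hn : finrank (RatFunc k) L = 2 := by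
    rw [finrank_ratFunc_eq hx.transcendental]
    exact hx.finrank_eq
  have hu' : u ^ 2 + u = algebraMap k[X] L f := hu
  exact genusFF_of_artinSchreier_coord hn hu' hdeg

/-- **The residue curve of the vertical components for `q = 2`**: `u ^ 2 + u = c s ^ 3`,
`c ≠ 0`, characteristic two, has genus one. -/
theorem genusFF_artinSchreier_cubic [CharP k 2] {s u : L} {c : k} (hc : c ≠ 0)
    (hs : Transcendental k s) (hu : u ^ 2 + u = algebraMap k L c * s ^ 3)
    (hgen : IntermediateField.adjoin k {s, u} = ⊤) : genusFF k L = 1 := by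
  refine genusFF_artinSchreier (f := C c * X ^ 3) (m := 1) hs ?_ ?_ hgen
  · rw [natDegree_C_mul_X_pow 3 c hc]
  · rw [hu]
    simp

/-- The Riemann package of `u ^ 2 + u = c s ^ 3`. -/
theorem riemannPkg_artinSchreier_cubic [IsAlgClosed k] [CharP k 2] {s u : L} {c : k}
    (hc : c ≠ 0) (hs : Transcendental k s) (hu : u ^ 2 + u = algebraMap k L c * s ^ 3)
    (hgen : IntermediateField.adjoin k {s, u} = ⊤) : Red.RiemannPkg k L := by
  refine riemannPkg_of_artinSchreier (f := C c * X ^ 3) (m := 1) hs ?_ ?_ hgen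
  · rw [natDegree_C_mul_X_pow 3 c hc]
  · rw [hu]
    simp

/-- `s ^ 3 ∈ k(u)`: the input `hpow` of `BR3/HyperellQuot` (with `t := s`, `w := u`, `n := 3`) for
the `μ_3`-quotient `(s, u) ↦ (ζ s, u)` of `u ^ 2 + u = c s ^ 3`, which is therefore rational. -/
theorem cube_mem_adjoin_of_artinSchreier {s u : L} {c : k} (hc : c ≠ 0)
    (hu : u ^ 2 + u = algebraMap k L c * s ^ 3) : s ^ 3 ∈ k⟮u⟯ := by
  have hc' : algebraMap k L c ≠ 0 := (_root_.map_ne_zero _).mpr hc
  have h : s ^ 3 = (algebraMap k L c)⁻¹ * (u ^ 2 + u) := by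
    rw [hu, inv_mul_cancel_left₀ hc']
  rw [h]
  exact mul_mem (inv_mem (IntermediateField.algebraMap_mem _ c))
    (add_mem (pow_mem (IntermediateField.mem_adjoin_simple_self k u) 2)
      (IntermediateField.mem_adjoin_simple_self k u))

end Abstract

end Fermat.Agent.BR3.ArtinSchreierGenus
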