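import Mathlib
import Fermat.Agent.BR.AnnulusRed
import Fermat.Agent.Red.Values
import Fermat.Prelude.Def_AlgebraicCurve_BaseChangeGalois

/-!
# Program C (S36), node A2 (INV ⇒ NAT), part 3: tube degrees and tube moments of divisors

`T` a set of places of `F / K` (the tube of a node), `u : F` (the annulus coordinate).

* `tdeg T E = ∑_{P ∈ T} E(P)` : the degree of the divisor `E` on the tube;
* `tmom T u E = ∏_{P ∈ T} (- u(P)) ^ E(P)` : the (multiplicative) moment of `E` on the tube;
* additivity / multiplicativity in `E`;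
* `sum_eq_tdeg`, `prod_eq_tmom` : for the data `(S, n)` of a factorisation
  `y = c u^b ∏_{Q ∈ S} (u - u(Q))^(n Q) ε` and `E = div y`;
* `tdeg_smul`, `tmom_smul` : for a semilinear automorphism `g` preserving `T` and fixing `u`:
  `tdeg T (g • E) = tdeg T E`, `tmom T u (g • E) = g (tmom T u E)`.
-/

set_option autoImplicit false

namespace Fermat.Agent.BR3.InvFiniteMoment

open AlgebraicCurve Fermat.Agent.Red

variable {K F : Type*} [Field K] [Field F] [Algebra K F]

open Classical in
/-- The degree of `E` on the tube `T`. -/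
noncomputable def tdeg (T : Set (Place K F)) (E : Divisor K F) : ℤ :=
  E.sum fun P n => if P ∈ T then n else 0

open Classical in
/-- The moment of `E` on the tube `T` for the coordinate `u`. -/
noncomputable def tmom (T : Set (Place K F)) (u : F) (E : Divisor K F) : K :=
  E.prod fun P n => if P ∈ T then (-evalAt P u) ^ n else 1

variable {T : Set (Place K F)} {u : F}

theorem tdeg_zero : tdeg T (0 : Divisor K F) = 0 := Finsupp.sum_zero_index

theorem tdeg_add (E E' : Divisor K F) : tdeg T (E + E') = tdeg T E + tdeg T E' := by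
  classical
  unfold tdeg
  refine Finsupp.sum_add_index' (fun P => ?_) (fun P n n' => ?_)
  · split_ifs <;> rfl
  · split_ifs <;> simp

theorem tdeg_neg (E : Divisor K F) : tdeg T (-E) = -tdeg T E := by
  have h := tdeg_add (T := T) E (-E)
  rw [add_neg_cancel, tdeg_zero] at h
  linarith

theorem tdeg_sub (E E' : Divisor K F) : tdeg T (E - E') = tdeg T E - tdeg T E' := by
  rw [sub_eq_add_neg, tdeg_add, tdeg_neg, sub_eq_add_neg]

theorem tdeg_nsmul (m : ℕ) (E : Divisor K F) : tdeg T (m • E) = m * tdeg T E := by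
  induction m with
  | zero => simp [tdeg_zero]
  | succ m ih => rw [succ_nsmul, tdeg_add, ih]; push_cast; ring

theorem tmom_zero : tmom T u (0 : Divisor K F) = 1 := Finsupp.prod_zero_index

theorem tmom_add (hu : ∀ P ∈ T, evalAt P u ≠ 0) (E E' : Divisor K F) :
    tmom T u (E + E') = tmom T u E * tmom T u E' := by
  classical
  unfold tmom
  refine Finsupp.prod_add_index' (fun P => ?_) (fun P n n' => ?_)
  · split_ifs <;> simp
  · split_ifs with hP
    · exact zpow_add₀ (neg_ne_zero.mpr (hu P hP)) n n'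
    · simp

theorem tmom_ne_zero (hu : ∀ P ∈ T, evalAt P u ≠ 0) (E : Divisor K F) : tmom T u E ≠ 0 := by
  classical
  unfold tmom
  rw [Finsupp.prod, Finset.prod_ne_zero_iff]
  intro P _
  split_ifs with hP
  · exact zpow_ne_zero _ (neg_ne_zero.mpr (hu P hP))
  · exact one_ne_zero

theorem tmom_neg (hu : ∀ P ∈ T, evalAt P u ≠ 0) (E : Divisor K F) :
    tmom T u (-E) = (tmom T u E)⁻¹ := by
  have h := tmom_add hu E (-E)
  rw [add_neg_cancel, tmom_zero] at h
  exact eq_inv_of_mul_eq_one_right h.symm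

theorem tmom_sub (hu : ∀ P ∈ T, evalAt P u ≠ 0) (E E' : Divisor K F) :
    tmom T u (E - E') = tmom T u E / tmom T u E' := by
  rw [sub_eq_add_neg, tmom_add hu, tmom_neg hu, div_eq_mul_inv]

theorem tmom_nsmul (hu : ∀ P ∈ T, evalAt P u ≠ 0) (m : ℕ) (E : Divisor K F) :
    tmom T u (m • E) = tmom T u E ^ m := by
  induction m with
  | zero => simp [tmom_zero]
  | succ m ih => rw [succ_nsmul, tmom_add hu, ih, pow_succ]

/-! ### the data of a factorisation -/

section Factor

variable {E : Divisor K F} {S : Finset (Place K F)} {n : Place K F → ℤ}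

open Classical in
theorem support_filter_eq (hS : ∀ Q ∈ S, Q ∈ T) (hn : ∀ P ∈ S, E P = n P)
    (h0 : ∀ P ∈ T, P ∉ S → E P = 0) :
    E.support.filter (fun P => P ∈ T) = S.filter (fun P => n P ≠ 0) := by
  ext P
  simp only [Finset.mem_filter, Finsupp.mem_support_iff]
  constructor
  · rintro ⟨hP, hPT⟩
    have hPS : P ∈ S := by
      by_contra hPS
      exact hP (h0 P hPT hPS)
    exact ⟨hPS, by rwa [← hn P hPS]⟩
  · rintro ⟨hPS, hP⟩
    exact ⟨by rwa [hn P hPS], hS P hPS⟩

theorem sum_eq_tdeg (hS : ∀ Q ∈ S, Q ∈ T) (hn : ∀ P ∈ S, E P = n P)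
    (h0 : ∀ P ∈ T, P ∉ S → E P = 0) : ∑ P ∈ S, n P = tdeg T E := by
  classical
  unfold tdeg
  rw [Finsupp.sum, ← Finset.sum_filter, support_filter_eq hS hn h0,
    ← Finset.sum_filter_ne_zero (s := S)]
  refine Finset.sum_congr rfl fun P hP => ?_
  exact (hn P (Finset.mem_filter.mp hP).1).symm

theorem prod_eq_tmom (hS : ∀ Q ∈ S, Q ∈ T) (hn : ∀ P ∈ S, E P = n P)
    (h0 : ∀ P ∈ T, P ∉ S → E P = 0) : ∏ P ∈ S, (-evalAt P u) ^ n P = tmom T u E := by
  classical
  unfold tmom
  rw [Finsupp.prod, ← Finset.prod_filter, support_filter_eq hS hn h0]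
  have h1 : ∏ P ∈ S, (-evalAt P u) ^ n P =
      ∏ P ∈ S.filter (fun P => n P ≠ 0), (-evalAt P u) ^ n P := by
    rw [Finset.prod_filter]
    refine Finset.prod_congr rfl fun P _ => ?_
    split_ifs with h
    · rfl
    · push Not at h
      rw [h, zpow_zero]
  rw [h1]
  refine Finset.prod_congr rfl fun P hP => ?_
  rw [hn P (Finset.mem_filter.mp hP).1]

end Factor

/-! ### the action of a semilinear automorphism -/

section Smul

variable (g : SemilinearAut K F)

theorem tdeg_smul (hT : ∀ P, g • P ∈ T ↔ P ∈ T) (E : Divisor K F) :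
    tdeg T (g • E) = tdeg T E := by
  classical
  unfold tdeg
  rw [SemilinearAut.divisor_smul_def, Finsupp.sum_mapDomain_index (fun P => by split_ifs <;> rfl)
    (fun P n n' => by split_ifs <;> simp)]
  refine Finsupp.sum_congr fun P _ => ?_
  simp only [hT P]

theorem tmom_smul (hT : ∀ P, g • P ∈ T ↔ P ∈ T) (hfix : g • u = u)
    (hu : ∀ P ∈ T, evalAt P u ≠ 0) (E : Divisor K F) :
    tmom T u (g • E) = SemilinearAut.baseAut g (tmom T u E) := by
  classical
  have hu' : ∀ P ∈ T, evalAt (g • P) u ≠ 0 := fun P hP => hu _ ((hT P).mpr hP)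
  unfold tmom
  rw [SemilinearAut.divisor_smul_def, Finsupp.prod_mapDomain_index (fun P => by split_ifs <;> simp)
    (fun P n n' => by
      split_ifs with hP
      · exact zpow_add₀ (neg_ne_zero.mpr (hu P hP)) n n'
      · simp)]
  rw [Finsupp.prod, Finsupp.prod, map_prod]
  refine Finset.prod_congr rfl fun P _ => ?_
  simp only [hT P]
  split_ifs with hP
  · rw [Fermat.Agent.BR.AnnulusRed.evalAt_smul_of_fixed g P hfix, map_zpow₀, map_neg]
  · rw [map_one]

end Smul

end Fermat.Agent.BR3.InvFiniteMoment
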