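import Mathlib
import Fermat.Agent.BR.Refine.FromFact
import Fermat.Agent.BR.SS.Basic
import Fermat.Agent.BR3.InvFiniteMoment

/-!
# Program C (S36), node A2 (INV ⇒ NAT), part 4: normal forms of a function at a node

`G : Fact.GaugeComp A u a O res` a component at the gauge `a` of an annulus with coordinate `u`,
`Q` a place of its residue field.

* `IsNF G Q y κ m` : `y = κ · (a⁻¹ u)^m · ε₁` with `ε₁` of value `1` at `Q`;
* `IsNF.mem_iff`, `IsNF.res_eq`, `IsNF.res_ne_zero_iff`, `IsNF.ord_eq`, `IsNF.valAt` : membership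
  in `O`, the residue, its order and its value at `Q`, read off from the normal form.

`N : Fact.NodeFact S₀ e u thick TU` the contract at a node `e` of a semistable setup.

* `NodeNF N y E b c` : the two normal forms of `y` (`E = div y`) at the node:
  `y = c · u^(b + tdeg E) · ε₁` near the branch `s₁ e` of `src e`,
  `y = (c · thick^b · tmom E) · (u / thick)^b · ε₂` near the branch `s₂ e` of `tgt e`;
* `exists_nodeNF` : every nonzero function has them.
-/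

set_option autoImplicit false

namespace Fermat.Agent.BR3.InvFiniteNode

open AlgebraicCurve IsLocalRing Fermat.Agent.Red Fermat.Agent.BR.SS Fermat.Agent.BR.Fact
  Fermat.Agent.BR.Refine Fermat.Agent.BR3.InvFiniteMoment

section Gauge

variable {K : Type*} [Field K] {A : ValuationSubring K} {F : Type*} [Field F] [Algebra K F]
  {L : Type*} [Field L] [Algebra (ResidueField A) L] {u : F} {a : K}
  {O : ValuationSubring F} {res : O →+* L}

/-- The residue of a power of the normalised coordinate. -/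
theorem res_t_zpow (G : GaugeComp A u a O res) (hT : G.T ≠ 0) (m : ℤ) :
    res ⟨(a⁻¹ • u) ^ m, G.t_zpow_mem hT m⟩ = G.T ^ m := by
  obtain ⟨n, rfl | rfl⟩ := m.eq_nat_or_neg
  · have e : (⟨(a⁻¹ • u) ^ (n : ℤ), G.t_zpow_mem hT n⟩ : O) = ⟨a⁻¹ • u, G.coord_mem⟩ ^ n := by
      apply Subtype.ext
      show (a⁻¹ • u) ^ (n : ℤ) = (a⁻¹ • u) ^ n
      rw [zpow_natCast]
    rw [e, map_pow, zpow_natCast]
    rfl
  · obtain ⟨h, hr⟩ := G.t_inv_mem hT
    have e : (⟨(a⁻¹ • u) ^ (-(n : ℤ)), G.t_zpow_mem hT _⟩ : O) = ⟨(a⁻¹ • u)⁻¹, h⟩ ^ n := by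
      apply Subtype.ext
      show (a⁻¹ • u) ^ (-(n : ℤ)) = ((a⁻¹ • u)⁻¹) ^ n
      rw [zpow_neg, zpow_natCast, inv_pow]
    rw [e, map_pow, hr, zpow_neg, zpow_natCast, inv_pow]

/-- `y = κ · (a⁻¹ u)^m · ε₁` with `ε₁` of value `1` at `Q`. -/
def IsNF (_G : GaugeComp A u a O res) (Q : Place (ResidueField A) L) (y : F) (κ : K) (m : ℤ) :
    Prop :=
  ∃ ε₁ : F, ValAt O res Q ε₁ 1 ∧ y = algebraMap K F κ * (a⁻¹ • u) ^ m * ε₁

namespace IsNF

variable {G : GaugeComp A u a O res} {Q : Place (ResidueField A) L} {y : F} {κ : K} {m : ℤ}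

theorem mem_iff (h : IsNF G Q y κ m) (hT : G.T ≠ 0) : y ∈ O ↔ κ ∈ A := by
  obtain ⟨ε₁, hε, rfl⟩ := h
  exact G.nf_mem_iff hT m hε

theorem res_eq (h : IsNF G Q y κ m) (hT : G.T ≠ 0) (hκ : κ ∈ A) (hy : y ∈ O) :
    ∃ ε₁ : F, ∃ hε : ValAt O res Q ε₁ 1, res ⟨y, hy⟩ =
      algebraMap (ResidueField A) L (residue A ⟨κ, hκ⟩) * G.T ^ m * res ⟨ε₁, hε.mem⟩ := by
  obtain ⟨ε₁, hε, rfl⟩ := h
  refine ⟨ε₁, hε, ?_⟩
  have e : (⟨algebraMap K F κ * (a⁻¹ • u) ^ m * ε₁, hy⟩ : O) =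
      ⟨algebraMap K F κ, G.mem_of_mem hκ⟩ * ⟨(a⁻¹ • u) ^ m, G.t_zpow_mem hT m⟩ * ⟨ε₁, hε.mem⟩ :=
    rfl
  rw [e, map_mul, map_mul, G.const_res κ hκ, res_t_zpow G hT m]

theorem res_eq_zero (h : IsNF G Q y κ m) (hT : G.T ≠ 0) (hκ : A.valuation κ < 1) (hy : y ∈ O) :
    res ⟨y, hy⟩ = 0 := by
  have hκA : κ ∈ A := (A.valuation_le_one_iff κ).mp hκ.le
  obtain ⟨ε₁, hε, hr⟩ := h.res_eq hT hκA hy
  have h0 : residue A ⟨κ, hκA⟩ = 0 := by
    rw [residue_eq_zero_iff]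
    exact (A.valuation_lt_one_iff _).mpr hκ
  rw [hr, h0, map_zero, zero_mul, zero_mul]

theorem res_ne_zero (h : IsNF G Q y κ m) (hT : G.T ≠ 0) (hκ : A.valuation κ = 1) (hy : y ∈ O) :
    res ⟨y, hy⟩ ≠ 0 := by
  have hκA : κ ∈ A := (A.valuation_le_one_iff κ).mp hκ.le
  obtain ⟨ε₁, hε, hr⟩ := h.res_eq hT hκA hy
  have h0 : residue A ⟨κ, hκA⟩ ≠ 0 := by
    intro h0
    rw [residue_eq_zero_iff] at h0
    have := (A.valuation_lt_one_iff _).mp h0
    rw [hκ] at this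
    exact lt_irrefl _ this
  rw [hr]
  exact mul_ne_zero (mul_ne_zero ((map_ne_zero _).mpr h0) (zpow_ne_zero _ hT))
    (hε.res_ne_zero one_ne_zero)

/-- The residue of `y` is nonzero iff the constant of the normal form is a unit. -/
theorem res_ne_zero_iff (h : IsNF G Q y κ m) (hT : G.T ≠ 0) (hy : y ∈ O) :
    res ⟨y, hy⟩ ≠ 0 ↔ A.valuation κ = 1 := by
  have hκA : κ ∈ A := (h.mem_iff hT).mp hy
  constructor
  · intro hne
    rcases lt_or_eq_of_le ((A.valuation_le_one_iff κ).mpr hκA) with hlt | heq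
    · exact absurd (h.res_eq_zero hT hlt hy) hne
    · exact heq
  · intro hκ
    exact h.res_ne_zero hT hκ hy

/-- The order at `Q` of the residue of `y`. -/
theorem ord_eq (h : IsNF G Q y κ m) (hT : G.T ≠ 0) (hκ : A.valuation κ = 1) (hy : y ∈ O) :
    Q.ord (res ⟨y, hy⟩) = m * Q.ord G.T := by
  have hκA : κ ∈ A := (A.valuation_le_one_iff κ).mp hκ.le
  obtain ⟨ε₁, hε, hr⟩ := h.res_eq hT hκA hy
  have h0 : residue A ⟨κ, hκA⟩ ≠ 0 := by
    intro h0
    rw [residue_eq_zero_iff] at h0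
    have := (A.valuation_lt_one_iff _).mp h0
    rw [hκ] at this
    exact lt_irrefl _ this
  have h1 : algebraMap (ResidueField A) L (residue A ⟨κ, hκA⟩) ≠ 0 := (map_ne_zero _).mpr h0
  have h2 : G.T ^ m ≠ 0 := zpow_ne_zero _ hT
  have h3 : res ⟨ε₁, hε.mem⟩ ≠ 0 := hε.res_ne_zero one_ne_zero
  rw [hr, Place.ord_mul _ (mul_ne_zero h1 h2) h3, Place.ord_mul _ h1 h2,
    Fermat.Agent.X0.Place.ord_algebraMap, Place.ord_zpow, hε.ord_eq_zero one_ne_zero]
  ring

/-- The value at `Q` of the residue of `y` when the exponent vanishes. -/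
theorem valAt (h : IsNF G Q y κ m) (hm : m = 0) (hκ : κ ∈ A) :
    ValAt O res Q y (residue A ⟨κ, hκ⟩) := by
  obtain ⟨ε₁, hε, rfl⟩ := h
  subst hm
  exact G.valAt_nf_zero hκ hε

theorem smul (h : IsNF G Q y κ m) (c' : K) : IsNF G Q (c' • y) (c' * κ) m := by
  obtain ⟨ε₁, hε, rfl⟩ := h
  refine ⟨ε₁, hε, ?_⟩
  rw [Algebra.smul_def, map_mul]
  ring

end IsNF

end Gauge

section Node

variable {K : Type} {F : Type*} [Field K] [Field F] [Algebra K F]
  {A : ValuationSubring K} [IsAlgClosed (ResidueField A)]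
  {ι₀ : Type} {Ft₀ : ι₀ → Type} [∀ v, Field (Ft₀ v)] [∀ v, Algebra (ResidueField A) (Ft₀ v)]
  {ν₀ : Type} {S₀ : SemistableSetup (F := F) A (residue A) ι₀ Ft₀ ν₀} {e : ν₀} {u : F}
  {thick : K} {TU : F → Prop}

/-- The two normal forms of `y` (with divisor `E`) at the node `e`. -/
structure NodeNF (N : NodeFact S₀ e u thick TU) (y : F) (E : Divisor K F) (b : ℤ) (c : K) :
    Prop where
  c_ne : c ≠ 0
  src : IsNF N.gaugeSrc (S₀.s₁ e) y c (b + tdeg (tube S₀ e) E)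
  tgt : IsNF N.gaugeTgt (S₀.s₂ e) y (c * thick ^ b * tmom (tube S₀ e) u E) b

theorem T_src_ne_zero (N : NodeFact S₀ e u thick TU) : N.gaugeSrc.T ≠ 0 :=
  N.gaugeSrc.T_ne_zero_of_ord_ne N.inner_src.ne'

theorem T_tgt_ne_zero (N : NodeFact S₀ e u thick TU) : N.gaugeTgt.T ≠ 0 :=
  N.gaugeTgt.T_ne_zero_of_ord_ne N.outer_tgt.ne

/-- **Every nonzero function has normal forms at the node.** -/
theorem exists_nodeNF (N : NodeFact S₀ e u thick TU) {y : F} (hy : y ≠ 0) {E : Divisor K F}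
    (hE : ∀ P, E P = P.ord y) : ∃ (b : ℤ) (c : K), NodeNF N y E b c := by
  classical
  obtain ⟨S, n, b, c, ε, hS, hc, hε, hyeq, hord, hord0⟩ := N.tubeFact.exists_factor N.u_ne_zero hy
  have hn : ∀ P ∈ S, E P = n P := fun P hP => by rw [hE, hord P hP]
  have h0 : ∀ P ∈ tube S₀ e, P ∉ S → E P = 0 := fun P hP hPS => by rw [hE, hord0 P hP hPS]
  refine ⟨b, c, hc, ?_, ?_⟩
  · obtain ⟨ε₁, hε₁, hnf⟩ := N.gaugeSrc.inner_nf N.inner_src S (fun P => evalAt P u) n
      (fun P hP => N.tubeFact.val_ne P (hS P hP)) b c (N.tu_src ε hε)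
    refine ⟨ε₁, hε₁, ?_⟩
    have hsum : (∑ P ∈ S, if A.valuation (evalAt P u) < A.valuation (1 : K) then n P else 0) =
        tdeg (tube S₀ e) E := by
      rw [← sum_eq_tdeg hS hn h0]
      refine Finset.sum_congr rfl fun P hP => ?_
      rw [if_pos (by rw [map_one]; exact N.lt_one P (hS P hP))]
    have hprod : (∏ P ∈ S, if A.valuation (evalAt P u) < A.valuation (1 : K) then (1 : K)
        else (-evalAt P u) ^ n P) = 1 := by
      refine Finset.prod_eq_one fun P hP => ?_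
      rw [if_pos (by rw [map_one]; exact N.lt_one P (hS P hP))]
    rw [hsum, hprod, one_zpow, mul_one, mul_one] at hnf
    rw [hyeq]
    exact hnf
  · obtain ⟨ε₂, hε₂, hnf⟩ := N.gaugeTgt.outer_nf N.outer_tgt S (fun P => evalAt P u) n b c
      (N.tu_tgt ε hε)
    refine ⟨ε₂, hε₂, ?_⟩
    have hsum : (∑ P ∈ S, if A.valuation (evalAt P u) ≤ A.valuation thick then n P else 0) = 0 := by
      refine Finset.sum_eq_zero fun P hP => ?_
      rw [if_neg (not_le.mpr (N.thick_lt P (hS P hP)))]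
    have hprod : (∏ P ∈ S, if A.valuation (evalAt P u) ≤ A.valuation thick then (1 : K)
        else (-evalAt P u) ^ n P) = tmom (tube S₀ e) u E := by
      rw [← prod_eq_tmom hS hn h0]
      refine Finset.prod_congr rfl fun P hP => ?_
      rw [if_neg (not_le.mpr (N.thick_lt P (hS P hP)))]
    rw [hsum, hprod, add_zero] at hnf
    rw [hyeq]
    exact hnf

namespace NodeNF

variable {N : NodeFact S₀ e u thick TU} {y : F} {E : Divisor K F} {b : ℤ} {c : K}

theorem smul (h : NodeNF N y E b c) {c' : K} (hc' : c' ≠ 0) : NodeNF N (c' • y) E b (c' * c) := by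
  refine ⟨mul_ne_zero hc' h.c_ne, h.src.smul c', ?_⟩
  have := h.tgt.smul c'
  rwa [← mul_assoc, ← mul_assoc] at this

theorem mem_src_iff (h : NodeNF N y E b c) : y ∈ S₀.O (S₀.src e) ↔ c ∈ A :=
  h.src.mem_iff (T_src_ne_zero N)

theorem mem_tgt_iff (h : NodeNF N y E b c) :
    y ∈ S₀.O (S₀.tgt e) ↔ c * thick ^ b * tmom (tube S₀ e) u E ∈ A :=
  h.tgt.mem_iff (T_tgt_ne_zero N)

theorem resF_src_ne_zero_iff (h : NodeNF N y E b c) :
    S₀.resF (S₀.src e) y ≠ 0 ↔ A.valuation c = 1 := by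
  constructor
  · intro hne
    have hy := S₀.mem_of_resF_ne_zero hne
    rw [S₀.resF_of_mem hy] at hne
    exact (h.src.res_ne_zero_iff (T_src_ne_zero N) hy).mp hne
  · intro hc
    have hy : y ∈ S₀.O (S₀.src e) := h.mem_src_iff.mpr ((A.valuation_le_one_iff c).mp hc.le)
    rw [S₀.resF_of_mem hy]
    exact h.src.res_ne_zero (T_src_ne_zero N) hc hy

theorem resF_tgt_ne_zero_iff (h : NodeNF N y E b c) :
    S₀.resF (S₀.tgt e) y ≠ 0 ↔ A.valuation (c * thick ^ b * tmom (tube S₀ e) u E) = 1 := by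
  constructor
  · intro hne
    have hy := S₀.mem_of_resF_ne_zero hne
    rw [S₀.resF_of_mem hy] at hne
    exact (h.tgt.res_ne_zero_iff (T_tgt_ne_zero N) hy).mp hne
  · intro hc
    have hy : y ∈ S₀.O (S₀.tgt e) := h.mem_tgt_iff.mpr ((A.valuation_le_one_iff _).mp hc.le)
    rw [S₀.resF_of_mem hy]
    exact h.tgt.res_ne_zero (T_tgt_ne_zero N) hc hy

theorem ord_src (h : NodeNF N y E b c) (hc : A.valuation c = 1) :
    (S₀.s₁ e).ord (S₀.resF (S₀.src e) y) =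
      (b + tdeg (tube S₀ e) E) * (S₀.s₁ e).ord N.gaugeSrc.T := by
  have hy : y ∈ S₀.O (S₀.src e) := h.mem_src_iff.mpr ((A.valuation_le_one_iff c).mp hc.le)
  rw [S₀.resF_of_mem hy]
  exact h.src.ord_eq (T_src_ne_zero N) hc hy

theorem ord_tgt (h : NodeNF N y E b c)
    (hc : A.valuation (c * thick ^ b * tmom (tube S₀ e) u E) = 1) :
    (S₀.s₂ e).ord (S₀.resF (S₀.tgt e) y) = b * (S₀.s₂ e).ord N.gaugeTgt.T := by
  have hy : y ∈ S₀.O (S₀.tgt e) := h.mem_tgt_iff.mpr ((A.valuation_le_one_iff _).mp hc.le)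
  rw [S₀.resF_of_mem hy]
  exact h.tgt.ord_eq (T_tgt_ne_zero N) hc hy

theorem valAt_src (h : NodeNF N y E b c) (hb : b + tdeg (tube S₀ e) E = 0) (hc : c ∈ A) :
    IsValueAt (S₀.s₁ e) (S₀.resF (S₀.src e) y) (residue A ⟨c, hc⟩) := by
  have hv := h.src.valAt hb hc
  rw [S₀.resF_of_mem hv.mem]
  exact hv.isValueAt hv.mem

theorem valAt_tgt (h : NodeNF N y E b c) (hb : b = 0)
    (hc : c * thick ^ b * tmom (tube S₀ e) u E ∈ A) :
    IsValueAt (S₀.s₂ e) (S₀.resF (S₀.tgt e) y) (residue A ⟨_, hc⟩) := by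
  have hv := h.tgt.valAt hb hc
  rw [S₀.resF_of_mem hv.mem]
  exact hv.isValueAt hv.mem

end NodeNF

end Node

end Fermat.Agent.BR3.InvFiniteNode
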