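import Mathlib
import Fermat.Agent.BR.InertiaRed

/-!
# Program C (S36), node A2 (INV ⇒ NAT), part 2: the tame character of an inertial automorphism

`A` a valuation subring of `K` with residue field `k`, `s : K ≃+* K` a ring automorphism which is
*inertial*: it preserves the valuation of `A` and acts trivially on the residues of the elements of
`A` (`IsInertial A s`; the base automorphism of a semilinear automorphism acting trivially on a
model).

* `theta A s c := resOf A (s c / c)` : the tame character;
* `theta_mul`, `theta_inv`, `theta_div`, `theta_pow`, `theta_zpow`, `theta_prod` : it is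
  multiplicative on `Kˣ`;
* `theta_of_valuation_eq_one` : it is trivial on the units of `A`;
* `theta_congr` : it only depends on the valuation;
* `valuation_eq_one_of_pow` : the value group is torsion free.
-/

set_option autoImplicit false

namespace Fermat.Agent.BR3.InvFiniteTheta

open IsLocalRing Fermat.Agent.BR.InertiaRed

variable {K : Type*} [Field K] (A : ValuationSubring K)

/-- `s` preserves the valuation of `A` and acts trivially on the residues. -/
structure IsInertial (s : K ≃+* K) : Prop where
  val : ∀ x : K, A.valuation (s x) = A.valuation x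
  res : ∀ x : K, x ∈ A → resOf A (s x) = resOf A x

/-- The tame character: the residue of `s c / c`. -/
noncomputable def theta (s : K ≃+* K) (c : K) : ResidueField A := resOf A (s c / c)

variable {A} {s : K ≃+* K}

theorem valuation_apply_div (hs : IsInertial A s) {c : K} (hc : c ≠ 0) :
    A.valuation (s c / c) = 1 :=
  valuation_div_eq_one A hc (hs.val c)

theorem theta_ne_zero (hs : IsInertial A s) {c : K} (hc : c ≠ 0) : theta A s c ≠ 0 :=
  resOf_ne_zero A (valuation_apply_div hs hc)

theorem theta_one : theta A s 1 = 1 := by
  unfold theta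
  rw [map_one, div_one]
  exact resOf_one A

theorem theta_mul (hs : IsInertial A s) {c d : K} (hc : c ≠ 0) (hd : d ≠ 0) :
    theta A s (c * d) = theta A s c * theta A s d := by
  unfold theta
  rw [← resOf_mul A (mem_of_valuation_eq_one A (valuation_apply_div hs hc))
    (mem_of_valuation_eq_one A (valuation_apply_div hs hd)), map_mul]
  congr 1
  have hc' : s c ≠ 0 := by rwa [Ne, map_eq_zero_iff _ s.injective]
  field_simp

theorem theta_inv (hs : IsInertial A s) {c : K} (hc : c ≠ 0) :
    theta A s c⁻¹ = (theta A s c)⁻¹ := by
  have h := theta_mul hs hc (inv_ne_zero hc)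
  rw [mul_inv_cancel₀ hc, theta_one] at h
  exact eq_inv_of_mul_eq_one_right h.symm

theorem theta_div (hs : IsInertial A s) {c d : K} (hc : c ≠ 0) (hd : d ≠ 0) :
    theta A s (c / d) = theta A s c / theta A s d := by
  rw [div_eq_mul_inv, theta_mul hs hc (inv_ne_zero hd), theta_inv hs hd, div_eq_mul_inv]

theorem theta_pow (hs : IsInertial A s) {c : K} (hc : c ≠ 0) (n : ℕ) :
    theta A s (c ^ n) = theta A s c ^ n := by
  induction n with
  | zero => rw [pow_zero, pow_zero]; exact theta_one
  | succ n ih => rw [pow_succ, pow_succ, theta_mul hs (pow_ne_zero n hc) hc, ih]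

theorem theta_zpow (hs : IsInertial A s) {c : K} (hc : c ≠ 0) (n : ℤ) :
    theta A s (c ^ n) = theta A s c ^ n := by
  cases n with
  | ofNat n => rw [Int.ofNat_eq_natCast, zpow_natCast, zpow_natCast]; exact theta_pow hs hc n
  | negSucc n =>
    rw [zpow_negSucc, zpow_negSucc, theta_inv hs (pow_ne_zero _ hc), theta_pow hs hc]

/-- The tame character is trivial on the units of `A`. -/
theorem theta_of_valuation_eq_one (hs : IsInertial A s) {c : K} (hc : A.valuation c = 1) :
    theta A s c = 1 := by
  have hc0 : c ≠ 0 := by
    rintro rfl
    rw [map_zero] at hc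
    exact zero_ne_one hc
  have hcA : c ∈ A := mem_of_valuation_eq_one A hc
  have hci : A.valuation c⁻¹ = 1 := by rw [map_inv₀, hc, inv_one]
  have hciA : c⁻¹ ∈ A := mem_of_valuation_eq_one A hci
  have hscA : s c ∈ A := mem_of_valuation_eq_one A (by rw [hs.val, hc])
  unfold theta
  rw [div_eq_mul_inv, resOf_mul A hscA hciA, hs.res c hcA, ← resOf_mul A hcA hciA,
    mul_inv_cancel₀ hc0]
  exact resOf_one A

/-- The tame character only depends on the valuation. -/
theorem theta_congr (hs : IsInertial A s) {c d : K} (hc : c ≠ 0) (hd : d ≠ 0)
    (h : A.valuation c = A.valuation d) : theta A s c = theta A s d := by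
  have h1 : A.valuation (c / d) = 1 := valuation_div_eq_one A hd h
  have h2 := theta_of_valuation_eq_one hs h1
  rw [theta_div hs hc hd] at h2
  exact (div_eq_one_iff_eq (theta_ne_zero hs hd)).mp h2

theorem theta_neg (c : K) : theta A s (-c) = theta A s c := by
  unfold theta
  rw [map_neg, neg_div_neg_eq]

theorem theta_prod (hs : IsInertial A s) {ι : Type*} (S : Finset ι) (f : ι → K)
    (hf : ∀ i ∈ S, f i ≠ 0) : theta A s (∏ i ∈ S, f i) = ∏ i ∈ S, theta A s (f i) := by
  classical
  induction S using Finset.induction_on with
  | empty => rw [Finset.prod_empty, Finset.prod_empty]; exact theta_one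
  | insert i S hi ih =>
    rw [Finset.prod_insert hi, Finset.prod_insert hi,
      theta_mul hs (hf i (Finset.mem_insert_self i S))
        (Finset.prod_ne_zero_iff.mpr fun j hj => hf j (Finset.mem_insert_of_mem hj)),
      ih fun j hj => hf j (Finset.mem_insert_of_mem hj)]

/-- The residue of `s c / c` is the tame character (restatement). -/
theorem resOf_apply_div (c : K) : resOf A (s c / c) = theta A s c := rfl

/-- The value group is torsion free. -/
theorem valuation_eq_one_of_pow {z : K} {m : ℕ} (hm : m ≠ 0) (h : A.valuation (z ^ m) = 1) :
    A.valuation z = 1 := by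
  rw [map_pow] at h
  exact (pow_eq_one_iff_of_nonneg zero_le hm).mp h

/-- The residue of a product of two units of `A`. -/
theorem resOf_mul_of_valuation (A : ValuationSubring K) {x y : K} (hx : A.valuation x = 1)
    (hy : A.valuation y = 1) : resOf A (x * y) = resOf A x * resOf A y :=
  resOf_mul A (mem_of_valuation_eq_one A hx) (mem_of_valuation_eq_one A hy)

end Fermat.Agent.BR3.InvFiniteTheta
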