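import Mathlib
import Fermat.Agent.BR2.Filtration
import Fermat.Agent.BR3.InvFiniteTheta
import Fermat.Agent.BR3.InvFiniteNode

/-!
# Program C (S36), node A2 (INV ⇒ NAT), part 5: the moment formula

`S₀` a semistable setup with node contracts `N e : Fact.NodeFact S₀ e (u e) (thick e) (TU e)`,
`g` a semilinear automorphism acting trivially on the model (`TrivialAction S₀ u g`).

For a divisor `D` and a function `h` with `div h = g • D - D`:

* `exists_unit_norm` : a constant multiple of `h` is a unit on EVERY component of `S₀`, its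
  residues are CONSTANTS `η v ∈ kˣ`, and along every node

    `η (tgt e) = η (src e) * θ_g (tmom_e D)`      (the **moment formula**),

  `tmom_e D = ∏_{P ∈ tube e} (- u_e(P))^(D P)` the moment of `D` on the tube of `e`, `θ_g` the
  tame character of the base automorphism of `g`.

Proof: maximum principle on the dual graph, with the normal forms of `InvFiniteNode` at the nodes
(the divisor `g • D - D` has degree `0` and a moment of absolute value `1` on every tube, and
reduces to `0` on the special fibre).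
-/

set_option autoImplicit false
set_option linter.unusedSectionVars false

namespace Fermat.Agent.BR3.InvFiniteUnit

open AlgebraicCurve IsLocalRing Fermat.Agent.Red Fermat.Agent.BR.SS Fermat.Agent.BR.Fact
  Fermat.Agent.BR.Refine Fermat.Agent.BR.InertiaRed Fermat.Agent.BR3.InvFiniteMoment
  Fermat.Agent.BR3.InvFiniteNode Fermat.Agent.BR3.InvFiniteTheta Fermat.Agent.BR2

variable {K : Type} {F : Type*} [Field K] [Field F] [Algebra K F]
  {A : ValuationSubring K} [IsAlgClosed (ResidueField A)]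
  {ι₀ : Type} {Ft₀ : ι₀ → Type} [∀ v, Field (Ft₀ v)] [∀ v, Algebra (ResidueField A) (Ft₀ v)]
  {ν₀ : Type} (S₀ : SemistableSetup (F := F) A (residue A) ι₀ Ft₀ ν₀)

/-- `g` acts trivially on the model `S₀`: it preserves the rings of the components and acts
trivially on the residues, on the reduction map and on the annulus coordinates, and its base
automorphism is inertial. -/
structure TrivialAction (u : ν₀ → F) (g : SemilinearAut K F) : Prop where
  equiv : Filt.Equivariant S₀ g (fun _ => 1)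
  r_smul : ∀ P, S₀.r (g • P) = S₀.r P
  u_smul : ∀ e, g • u e = u e
  val : ∀ x : K, A.valuation (SemilinearAut.baseAut g x) = A.valuation x
  res : ∀ x : K, x ∈ A → resOf A (SemilinearAut.baseAut g x) = resOf A x

variable {S₀}

namespace TrivialAction

variable {u : ν₀ → F} {g : SemilinearAut K F} (hg : TrivialAction S₀ u g)

include hg

theorem isInertial : IsInertial A (SemilinearAut.baseAut g) := ⟨hg.val, hg.res⟩

theorem smul_mem_tube_iff (e : ν₀) (P : Place K F) : g • P ∈ tube S₀ e ↔ P ∈ tube S₀ e := by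
  unfold tube
  rw [Set.mem_ofPred_eq, Set.mem_ofPred_eq, hg.r_smul]

theorem smul_mem (v : ι₀) {y : F} (hy : y ∈ S₀.O v) : g • y ∈ S₀.O v := hg.equiv.smul_mem v y hy

theorem res_smul (v : ι₀) {y : F} (hy : y ∈ S₀.O v) :
    S₀.res v ⟨g • y, hg.smul_mem v hy⟩ = S₀.res v ⟨y, hy⟩ := by
  rw [hg.equiv.res_smul v y hy, one_smul]

/-- The reduction of `g • D - D` vanishes. -/
theorem mapDomain_r_smul_sub (D : Divisor K F) : Finsupp.mapDomain S₀.r (g • D - D) = 0 := by
  have h1 : Finsupp.mapDomain S₀.r (g • D - D) =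
      Finsupp.mapDomain S₀.r (g • D) - Finsupp.mapDomain S₀.r D :=
    map_sub (Finsupp.mapDomain.addMonoidHom S₀.r) (g • D) D
  have h2 : Finsupp.mapDomain S₀.r (g • D) = Finsupp.mapDomain S₀.r D := by
    rw [SemilinearAut.divisor_smul_def, ← Finsupp.mapDomain_comp]
    congr 1
    funext P
    exact hg.r_smul P
  rw [h1, h2, sub_self]

end TrivialAction

section Main

variable {u : ν₀ → F} {thick : ν₀ → K} {TU : ν₀ → F → Prop}
  (N : ∀ e, NodeFact S₀ e (u e) (thick e) (TU e))

include N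

theorem evalAt_ne_zero (e : ν₀) : ∀ P ∈ tube S₀ e, evalAt P (u e) ≠ 0 :=
  (N e).tubeFact.val_ne

variable {g : SemilinearAut K F} (hg : TrivialAction S₀ u g)

include hg

theorem tdeg_smul_sub (e : ν₀) (D : Divisor K F) : tdeg (tube S₀ e) (g • D - D) = 0 := by
  rw [tdeg_sub, tdeg_smul g (hg.smul_mem_tube_iff e), sub_self]

theorem tmom_smul_sub (e : ν₀) (D : Divisor K F) :
    tmom (tube S₀ e) (u e) (g • D - D) =
      SemilinearAut.baseAut g (tmom (tube S₀ e) (u e) D) / tmom (tube S₀ e) (u e) D := by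
  rw [tmom_sub (evalAt_ne_zero N e),
    tmom_smul g (hg.smul_mem_tube_iff e) (hg.u_smul e) (evalAt_ne_zero N e)]

theorem valuation_tmom_smul_sub (e : ν₀) (D : Divisor K F) :
    A.valuation (tmom (tube S₀ e) (u e) (g • D - D)) = 1 := by
  rw [tmom_smul_sub N hg]
  exact valuation_apply_div hg.isInertial (tmom_ne_zero (evalAt_ne_zero N e) D)

theorem resOf_tmom_smul_sub (e : ν₀) (D : Divisor K F) :
    resOf A (tmom (tube S₀ e) (u e) (g • D - D)) =
      theta A (SemilinearAut.baseAut g) (tmom (tube S₀ e) (u e) D) := by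
  rw [tmom_smul_sub N hg]
  rfl

omit N hg in
theorem zpow_le_one_imp_nonneg {x : ValuationSubring.ValueGroup A} (hx0 : x ≠ 0) (hx : x < 1)
    {b : ℤ} (h : x ^ b ≤ 1) : 0 ≤ b := by
  have hR : 1 < x⁻¹ := (one_lt_inv₀ (zero_lt_iff.mpr hx0)).mpr hx
  have h1 : 1 ≤ x⁻¹ ^ b := by
    rw [inv_zpow]
    exact (one_le_inv₀ (zero_lt_iff.mpr (zpow_ne_zero _ hx0))).mpr h
  exact (one_le_zpow_iff_nonneg hR).mp h1

omit N hg in
theorem one_le_zpow_imp_nonpos {x : ValuationSubring.ValueGroup A} (hx0 : x ≠ 0) (hx : x < 1)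
    {b : ℤ} (h : 1 ≤ x ^ b) : b ≤ 0 := by
  have h1 : x ^ (-b) ≤ 1 := by
    rw [zpow_neg]
    exact inv_le_one_of_one_le₀ h
  have := zpow_le_one_imp_nonneg hx0 hx h1
  omega

/-- **The moment formula.** -/
theorem exists_unit_norm [Finite ι₀] (hF : RiemannPkg K F)
    (hFt : ∀ v, RiemannPkg (ResidueField A) (Ft₀ v))
    (hthick : ∀ e, A.valuation (thick e) < 1)
    (D : Divisor K F) {h : F} (h0 : h ≠ 0) (hh : ∀ P, (g • D - D) P = P.ord h) :
    ∃ (c₀ : K) (η : ι₀ → ResidueField A), c₀ ≠ 0 ∧ (∀ v, η v ≠ 0) ∧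
      (∀ v, ∃ hm : c₀ • h ∈ S₀.O v,
        S₀.res v ⟨c₀ • h, hm⟩ = algebraMap (ResidueField A) (Ft₀ v) (η v)) ∧
      ∀ e, η (S₀.tgt e) = η (S₀.src e) *
        theta A (SemilinearAut.baseAut g) (tmom (tube S₀ e) (u e) D) := by
  classical
  have : Nonempty ι₀ := by
    obtain ⟨P⟩ := hF.infinite_places.nonempty
    exact ⟨(S₀.r P).1⟩
  obtain ⟨c₀, hc₀, hmem, v₀, hv₀⟩ := S₀.exists_smul_mem_Oall h0
  set y : F := c₀ • h with hy
  set E : Divisor K F := g • D - D with hE
  have hy0 : y ≠ 0 := smul_ne_zero hc₀ h0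
  have hyE : ∀ P, E P = P.ord y := fun P => by
    rw [hy, Fermat.Agent.Red.NormalForm.ord_const_smul P hc₀, hh]
  have hthick0 : ∀ e, A.valuation (thick e) ≠ 0 := fun e =>
    (Valuation.ne_zero_iff _).mpr (N e).thick_ne
  -- the normal forms at the nodes
  choose b c hnf using fun e => exists_nodeNF (N e) hy0 hyE
  have htd : ∀ e, tdeg (tube S₀ e) E = 0 := fun e => tdeg_smul_sub N hg e D
  have htm : ∀ e, A.valuation (tmom (tube S₀ e) (u e) E) = 1 := fun e =>
    valuation_tmom_smul_sub N hg e D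
  have hκ : ∀ e, A.valuation (c e * thick e ^ b e * tmom (tube S₀ e) (u e) E) =
      A.valuation (c e) * A.valuation (thick e) ^ b e := fun e => by
    rw [map_mul, map_mul, map_zpow₀, htm e, mul_one]
  have hcA : ∀ e, A.valuation (c e) ≤ 1 := fun e =>
    (A.valuation_le_one_iff _).mpr ((hnf e).mem_src_iff.mp (S₀.mem_O_of_mem_Oall hmem _))
  have hκA : ∀ e, A.valuation (c e) * A.valuation (thick e) ^ b e ≤ 1 := fun e => by
    rw [← hκ e]
    exact (A.valuation_le_one_iff _).mpr ((hnf e).mem_tgt_iff.mp (S₀.mem_O_of_mem_Oall hmem _))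
  -- signs of the exponents
  have hbsrc : ∀ e, S₀.resF (S₀.src e) y ≠ 0 → 0 ≤ b e := by
    intro e hne
    have hc1 := (hnf e).resF_src_ne_zero_iff.mp hne
    have h1 := hκA e
    rw [hc1, one_mul] at h1
    exact zpow_le_one_imp_nonneg (hthick0 e) (hthick e) h1
  have hbtgt : ∀ e, S₀.resF (S₀.tgt e) y ≠ 0 → b e ≤ 0 := by
    intro e hne
    have hc1 := (hnf e).resF_tgt_ne_zero_iff.mp hne
    rw [hκ e] at hc1
    have h1 : 1 ≤ A.valuation (thick e) ^ b e := by
      rw [← hc1]
      exact mul_le_of_le_one_left' (hcA e)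
    exact one_le_zpow_imp_nonpos (hthick0 e) (hthick e) h1
  -- the residues of `y` have nonnegative divisors
  have hbranch : ∀ x : Σ v, Place (ResidueField A) (Ft₀ v), S₀.IsBranch x →
      S₀.resF x.1 y ≠ 0 → 0 ≤ x.2.ord (S₀.resF x.1 y) := by
    rintro x ⟨e, rfl | rfl⟩ hne
    · show 0 ≤ (S₀.s₁ e).ord (S₀.resF (S₀.src e) y)
      rw [(hnf e).ord_src ((hnf e).resF_src_ne_zero_iff.mp hne), htd e, add_zero]
      exact mul_nonneg (hbsrc e hne) (N e).inner_src.le
    · show 0 ≤ (S₀.s₂ e).ord (S₀.resF (S₀.tgt e) y)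
      rw [(hnf e).ord_tgt ((hnf e).resF_tgt_ne_zero_iff.mp hne)]
      exact mul_nonneg_of_nonpos_of_nonpos (hbtgt e hne) (N e).outer_tgt.le
  have hsmooth : ∀ (v : ι₀) (Q : Place (ResidueField A) (Ft₀ v)), ¬ S₀.IsBranch ⟨v, Q⟩ →
      S₀.resF v y ≠ 0 → Q.ord (S₀.resF v y) = 0 := by
    intro v Q hQ hne
    have hyv := S₀.mem_O_of_mem_Oall hmem v
    rw [S₀.resF_of_mem hyv] at hne ⊢
    have hcons := S₀.conservation v ⟨y, hyv⟩ hne E hyE Q
      (fun e he => hQ ⟨e, Or.inl he⟩) (fun e he => hQ ⟨e, Or.inr he⟩)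
    rw [← hcons, hE, hg.mapDomain_r_smul_sub, Finsupp.zero_apply]
  have hzero : ∀ v, S₀.resF v y ≠ 0 →
      ∀ Q : Place (ResidueField A) (Ft₀ v), Q.ord (S₀.resF v y) = 0 := by
    intro v hne
    have := (hFt v).principal
    have hnonneg : 0 ≤ divOf (ResidueField A) (S₀.resF v y) := by
      intro Q
      rw [Finsupp.zero_apply, divOf_apply]
      by_cases hQ : S₀.IsBranch ⟨v, Q⟩
      · exact hbranch ⟨v, Q⟩ hQ hne
      · exact (hsmooth v Q hQ hne).ge
    have hz := eq_zero_of_nonneg_of_degree_eq_zero (hFt v) hnonneg (degree_divOf _)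
    intro Q
    rw [← divOf_apply (K := ResidueField A), hz, Finsupp.zero_apply]
  -- all exponents at the nodes of a component where `y` is a unit vanish
  have hb0src : ∀ e, S₀.resF (S₀.src e) y ≠ 0 → b e = 0 := by
    intro e hne
    have h1 := hzero _ hne (S₀.s₁ e)
    rw [(hnf e).ord_src ((hnf e).resF_src_ne_zero_iff.mp hne), htd e, add_zero] at h1
    exact (mul_eq_zero.mp h1).resolve_right (N e).inner_src.ne'
  have hb0tgt : ∀ e, S₀.resF (S₀.tgt e) y ≠ 0 → b e = 0 := by
    intro e hne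
    have h1 := hzero _ hne (S₀.s₂ e)
    rw [(hnf e).ord_tgt ((hnf e).resF_tgt_ne_zero_iff.mp hne)] at h1
    exact (mul_eq_zero.mp h1).resolve_right (N e).outer_tgt.ne
  -- propagation along the edges
  have hT : {v | S₀.resF v y ≠ 0} = Set.univ := by
    refine S₀.connected _ ⟨v₀, hv₀⟩ fun e => ?_
    constructor
    · intro hne
      have hb := hb0src e hne
      have hc1 := (hnf e).resF_src_ne_zero_iff.mp hne
      apply (hnf e).resF_tgt_ne_zero_iff.mpr
      rw [hκ e, hc1, hb, zpow_zero, mul_one]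
    · intro hne
      have hb := hb0tgt e hne
      have hc1 := (hnf e).resF_tgt_ne_zero_iff.mp hne
      rw [hκ e, hb, zpow_zero, mul_one] at hc1
      exact (hnf e).resF_src_ne_zero_iff.mpr hc1
  have hall : ∀ v, S₀.resF v y ≠ 0 := fun v => by
    have : v ∈ {v | S₀.resF v y ≠ 0} := by rw [hT]; exact Set.mem_univ v
    exact this
  -- the residues are constants
  have hconst : ∀ v, ∃ η : ResidueField A, S₀.resF v y = algebraMap (ResidueField A) (Ft₀ v) η :=
    fun v => exists_const_of_forall_ord_nonneg (hFt v) fun Q => (hzero v (hall v) Q).ge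
  choose η hη using hconst
  have hη0 : ∀ v, η v ≠ 0 := by
    intro v h0
    apply hall v
    rw [hη v, h0, map_zero]
  refine ⟨c₀, η, hc₀, hη0, fun v => ?_, fun e => ?_⟩
  · have hyv := S₀.mem_O_of_mem_Oall hmem v
    exact ⟨hyv, by rw [← S₀.resF_of_mem hyv]; exact hη v⟩
  · have hb : b e = 0 := hb0src e (hall _)
    have hc1 : A.valuation (c e) = 1 := (hnf e).resF_src_ne_zero_iff.mp (hall _)
    have hcA' : c e ∈ A := (A.valuation_le_one_iff _).mp hc1.le
    -- the value at the source branch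
    have hv1 := (hnf e).valAt_src (by rw [hb, htd e, add_zero]) hcA'
    rw [hη] at hv1
    have e1 : η (S₀.src e) = residue A ⟨c e, hcA'⟩ := (isValueAt_algebraMap _ _).unique hv1
    -- the value at the target branch
    have hκA' : c e * thick e ^ b e * tmom (tube S₀ e) (u e) E ∈ A := by
      rw [← A.valuation_le_one_iff, hκ e]
      exact hκA e
    have hv2 := (hnf e).valAt_tgt hb hκA'
    rw [hη] at hv2
    have e2 : η (S₀.tgt e) = residue A ⟨_, hκA'⟩ := (isValueAt_algebraMap _ _).unique hv2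
    rw [e2, e1, ← resOf_tmom_smul_sub N hg e D, ← resOf_of_mem A hκA', ← resOf_of_mem A hcA',
      ← resOf_mul_of_valuation A hc1 (htm e)]
    congr 1
    rw [hb, zpow_zero, mul_one]

end Main

end Fermat.Agent.BR3.InvFiniteUnit
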