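import Mathlib
import Fermat.Agent.Red.Values
import Fermat.Prelude.Def_AlgebraicCurve_DivisorClassGroup

/-!
# Program C (S36), node (C-FILT), file A: transport of places along an isomorphism

`a : L ≃ₐ[k] L'` an isomorphism of function fields over `k`.

* `placeMap a : Place k L → Place k L'`, `placeEquiv a : Place k L ≃ Place k L'`;
* `ord_placeMap : (placeMap a Q).ord (a y) = Q.ord y`, `ord_placeMap' : (placeMap a Q).ord y' =
  Q.ord (a.symm y')`;
* `deg_placeMap`, `isValueAt_placeMap`, `adicValuation_placeMap`;
* `placeMap_refl`, `placeMap_trans`, `placeMap_symm_placeMap`;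
* `divMap a : Divisor k L →+ Divisor k L'` (`divMap_apply_placeMap`, `degree_divMap`,
  `divMap_mem_principal`, `divMap_eq_ord`).
-/

set_option autoImplicit false
set_option linter.unusedVariables false

namespace Fermat.Agent.BR3.PlaceIso

open AlgebraicCurve Fermat.Agent.Red

variable {k L L' L'' : Type*} [Field k] [Field L] [Field L'] [Field L'']
  [Algebra k L] [Algebra k L'] [Algebra k L'']

/-! ### valuation subrings -/

/-- the image of a valuation subring under an isomorphism -/
def mapVS (a : L ≃ₐ[k] L') (A : ValuationSubring L) : ValuationSubring L' :=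
  A.comap ((a.symm : L' ≃+* L) : L' →+* L)

theorem mem_mapVS {a : L ≃ₐ[k] L'} {A : ValuationSubring L} {y : L'} :
    y ∈ mapVS a A ↔ a.symm y ∈ A := Iff.rfl

theorem apply_mem_mapVS {a : L ≃ₐ[k] L'} {A : ValuationSubring L} {y : L} :
    a y ∈ mapVS a A ↔ y ∈ A := by
  rw [mem_mapVS, AlgEquiv.symm_apply_apply]

/-- `A ≃ a(A)` -/
def mapVSEquiv (a : L ≃ₐ[k] L') (A : ValuationSubring L) : A ≃+* mapVS a A where
  toFun x := ⟨a x, apply_mem_mapVS.mpr x.2⟩
  invFun y := ⟨a.symm y, y.2⟩
  left_inv x := Subtype.ext (a.symm_apply_apply _)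
  right_inv y := Subtype.ext (a.apply_symm_apply _)
  map_mul' x y := Subtype.ext (map_mul a _ _)
  map_add' x y := Subtype.ext (map_add a _ _)

@[simp]
theorem coe_mapVSEquiv_apply (a : L ≃ₐ[k] L') (A : ValuationSubring L) (x : A) :
    ((mapVSEquiv a A x : mapVS a A) : L') = a x := rfl

/-! ### places -/

/-- the image of a place under an isomorphism of function fields -/
def placeMap (a : L ≃ₐ[k] L') (Q : Place k L) : Place k L' where
  toValuationSubring := mapVS a Q.toValuationSubring
  algebraMap_mem' c := by
    rw [mem_mapVS, AlgEquiv.commutes]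
    exact Q.algebraMap_mem' c
  ne_top' h := Q.ne_top' <| by
    refine SetLike.ext fun x => ⟨fun _ => ValuationSubring.mem_top x, fun _ => ?_⟩
    have h1 : a x ∈ mapVS a Q.toValuationSubring := by rw [h]; exact ValuationSubring.mem_top _
    exact apply_mem_mapVS.mp h1
  isPrincipalIdealRing' :=
    IsPrincipalIdealRing.of_surjective (mapVSEquiv a Q.toValuationSubring : _ ≃+* _)
      (mapVSEquiv a Q.toValuationSubring).surjective

@[simp]
theorem placeMap_toValuationSubring (a : L ≃ₐ[k] L') (Q : Place k L) :
    (placeMap a Q).toValuationSubring = mapVS a Q.toValuationSubring := rfl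

theorem placeMap_refl (Q : Place k L) : placeMap (AlgEquiv.refl : L ≃ₐ[k] L) Q = Q := by
  apply Place.ext
  ext x
  rfl

theorem placeMap_trans (a : L ≃ₐ[k] L') (b : L' ≃ₐ[k] L'') (Q : Place k L) :
    placeMap (a.trans b) Q = placeMap b (placeMap a Q) := by
  apply Place.ext
  ext x
  rfl

theorem placeMap_symm_placeMap (a : L ≃ₐ[k] L') (Q : Place k L) :
    placeMap a.symm (placeMap a Q) = Q := by
  apply Place.ext
  ext x
  show a.symm (a.symm.symm x) ∈ Q.toValuationSubring ↔ _
  rw [AlgEquiv.symm_symm, AlgEquiv.symm_apply_apply]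

theorem placeMap_placeMap_symm (a : L ≃ₐ[k] L') (Q : Place k L') :
    placeMap a (placeMap a.symm Q) = Q := by
  have h := placeMap_symm_placeMap a.symm Q
  rwa [AlgEquiv.symm_symm] at h

/-- the bijection on places -/
def placeEquiv (a : L ≃ₐ[k] L') : Place k L ≃ Place k L' where
  toFun := placeMap a
  invFun := placeMap a.symm
  left_inv := placeMap_symm_placeMap a
  right_inv := placeMap_placeMap_symm a

@[simp]
theorem placeEquiv_apply (a : L ≃ₐ[k] L') (Q : Place k L) : placeEquiv a Q = placeMap a Q := rfl

theorem placeMap_injective (a : L ≃ₐ[k] L') : Function.Injective (placeMap (k := k) a) :=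
  (placeEquiv a).injective

/-! ### orders, valuations, values, degrees -/

theorem ord_placeMap (a : L ≃ₐ[k] L') (Q : Place k L) (f : L) :
    (placeMap a Q).ord (a f) = Q.ord f := by
  rcases eq_or_ne f 0 with rfl | hf
  · simp
  obtain ⟨π, hπ⟩ := IsDiscreteValuationRing.exists_irreducible Q.toValuationSubring
  obtain ⟨u, hu⟩ := Q.exists_unit_mul_zpow hf hπ
  set n := Q.ord f with hn
  set e := mapVSEquiv a Q.toValuationSubring with he
  have hπ' : Irreducible (e π) := (MulEquiv.irreducible_iff e).mpr hπ
  have hu' : IsUnit (e (u : Q.toValuationSubring)) := u.isUnit.map e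
  let U : ((placeMap a Q).toValuationSubring)ˣ := hu'.unit
  have hcoeu : (((U : ((placeMap a Q).toValuationSubring)ˣ) :
      (placeMap a Q).toValuationSubring) : L') = a ((u : Q.toValuationSubring) : L) := by
    show (((hu'.unit : (mapVS a Q.toValuationSubring)ˣ) : mapVS a Q.toValuationSubring) : L') = _
    rw [IsUnit.unit_spec]
    rfl
  have hπ'' : Irreducible (show (placeMap a Q).toValuationSubring from e π) := hπ'
  have hcoeπ : (((show (placeMap a Q).toValuationSubring from e π) :
      (placeMap a Q).toValuationSubring) : L') = a (π : L) := rfl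
  have key : a f = (((U : ((placeMap a Q).toValuationSubring)ˣ) :
      (placeMap a Q).toValuationSubring) : L')
      * ((((show (placeMap a Q).toValuationSubring from e π) :
        (placeMap a Q).toValuationSubring) : L') ^ n) := by
    rw [hcoeu, hcoeπ, hu, map_mul, map_zpow₀]
  rw [key, (placeMap a Q).ord_unit_smul_zpow U hπ'' n]

theorem ord_placeMap' (a : L ≃ₐ[k] L') (Q : Place k L) (f : L') :
    (placeMap a Q).ord f = Q.ord (a.symm f) := by
  rw [← ord_placeMap a Q (a.symm f), AlgEquiv.apply_symm_apply]

theorem adicValuation_placeMap_lt_one_iff (a : L ≃ₐ[k] L') (Q : Place k L) (f : L) :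
    (placeMap a Q).adicValuation (a f) < 1 ↔ Q.adicValuation f < 1 := by
  rw [adicValuation_lt_one_iff, adicValuation_lt_one_iff, ord_placeMap,
    EmbeddingLike.map_eq_zero_iff]

theorem isValueAt_placeMap {a : L ≃ₐ[k] L'} {Q : Place k L} {f : L} {c : k}
    (h : IsValueAt Q f c) : IsValueAt (placeMap a Q) (a f) c := by
  rw [IsValueAt] at h ⊢
  rw [← AlgEquiv.commutes a c, ← map_sub]
  exact (adicValuation_placeMap_lt_one_iff a Q _).mpr h

theorem isValueAt_placeMap_iff {a : L ≃ₐ[k] L'} {Q : Place k L} {f : L} {c : k} :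
    IsValueAt (placeMap a Q) (a f) c ↔ IsValueAt Q f c := by
  rw [IsValueAt, IsValueAt, ← AlgEquiv.commutes a c, ← map_sub]
  exact adicValuation_placeMap_lt_one_iff a Q _

/-- the residue fields are isomorphic over `k` -/
noncomputable def residueAlgEquiv (a : L ≃ₐ[k] L') (Q : Place k L) :
    Q.ResidueField ≃ₐ[k] (placeMap a Q).ResidueField :=
  AlgEquiv.ofRingEquiv (f := IsLocalRing.ResidueField.mapEquiv
      (mapVSEquiv a Q.toValuationSubring)) <| fun c => by
    have h3 : (mapVSEquiv a Q.toValuationSubring) (algebraMap k Q.toValuationSubring c)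
        = algebraMap k (placeMap a Q).toValuationSubring c := by
      apply Subtype.ext
      rw [coe_mapVSEquiv_apply, Place.coe_algebraMap, a.commutes]
      rfl
    show IsLocalRing.ResidueField.mapEquiv _ (IsLocalRing.residue _ _) = IsLocalRing.residue _ _
    rw [IsLocalRing.ResidueField.mapEquiv_apply, IsLocalRing.ResidueField.map_residue]
    exact congrArg _ h3

@[simp]
theorem deg_placeMap (a : L ≃ₐ[k] L') (Q : Place k L) : (placeMap a Q).deg = Q.deg :=
  ((residueAlgEquiv a Q).toLinearEquiv.finrank_eq).symm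

/-! ### divisors -/

/-- transport of divisors -/
noncomputable def divMap (a : L ≃ₐ[k] L') : Divisor k L →+ Divisor k L' :=
  Finsupp.mapDomain.addMonoidHom (placeMap a)

theorem divMap_def (a : L ≃ₐ[k] L') (D : Divisor k L) :
    divMap a D = Finsupp.mapDomain (placeMap a) D := rfl

@[simp]
theorem divMap_single (a : L ≃ₐ[k] L') (Q : Place k L) (n : ℤ) :
    divMap a (Finsupp.single Q n) = Finsupp.single (placeMap a Q) n := by
  rw [divMap_def, Finsupp.mapDomain_single]

theorem divMap_apply_placeMap (a : L ≃ₐ[k] L') (D : Divisor k L) (Q : Place k L) :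
    divMap a D (placeMap a Q) = D Q :=
  Finsupp.mapDomain_apply (placeMap_injective a) D Q

theorem divMap_apply (a : L ≃ₐ[k] L') (D : Divisor k L) (Q : Place k L') :
    divMap a D Q = D (placeMap a.symm Q) := by
  have h := divMap_apply_placeMap a D (placeMap a.symm Q)
  rwa [placeMap_placeMap_symm] at h

@[simp]
theorem degree_divMap (a : L ≃ₐ[k] L') (D : Divisor k L) :
    Divisor.degree (divMap a D) = Divisor.degree D := by
  induction D using Finsupp.induction with
  | zero => simp
  | single_add v n D _ _ ih =>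
    rw [map_add, map_add, map_add, ih, divMap_single, Divisor.degree_single,
      Divisor.degree_single, deg_placeMap]

/-- the divisor of `a f` is the transport of the divisor of `f` -/
theorem divMap_eq_ord (a : L ≃ₐ[k] L') {D : Divisor k L} {f : L}
    (hD : ∀ Q : Place k L, D Q = Q.ord f) (Q : Place k L') :
    divMap a D Q = Q.ord (a f) := by
  rw [divMap_apply, hD, ← ord_placeMap a (placeMap a.symm Q) f, placeMap_placeMap_symm]

theorem divMap_mem_principal (a : L ≃ₐ[k] L') {D : Divisor k L}
    (hD : D ∈ Divisor.principal (K := k) (F := L)) :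
    divMap a D ∈ Divisor.principal (K := k) (F := L') := by
  obtain ⟨f, hf, hD⟩ := hD
  exact ⟨a f, by simpa using hf, fun Q => divMap_eq_ord a hD Q⟩

end Fermat.Agent.BR3.PlaceIso
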