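import Mathlib
import Fermat.Agent.BR2.Filtration
import Fermat.Agent.BR3.PlaceIso

/-!
# Program C (S36), node (C-FILT), file B: automorphisms permuting the components

`S : SS.SemistableSetup A π ι Ft ν` a semistable valued function field `F/K`, `g` a semilinear
automorphism of `F/K` which *permutes* the components of the special fibre and acts `k`-linearly on
the residues (an element of the inertia group acting on a stable model which is not defined over
the maximal unramified extension).  Everything is stated component by component, so that no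
permutation of the index type (and no dependent transport) is needed:

* `MapsComp S g v w a` : `g` maps the component `v` to the component `w` and induces the
  `k`-isomorphism `a : Ft v ≃ₐ[k] Ft w` on the residue fields; `MapsComp.refl_one`, `MapsComp.comp`,
  `MapsComp.pow`, `MapsComp.inv`;
* `isResidue_mapsComp` : residues are transported by `a`;
* `MapsNode S g e e' a₁ a₂` : `g` maps the node `e` to the node `e'` (both branches);
* `isRep_sum`, `isResidue_prod` : representatives / residues of finite sums of classes;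
  `orbSum g n x = ∑ j < n, g ^ j • x`, `orbProd g n f = ∏ j < n, g ^ j • f`, `isRep_orbSum`,
  `isResidue_orbProd`;
* `PermutesComps S g` (every component is the image of a component), `smul_mem_natSub`,
  `smul_mem_torSub` : the filtration is stable under such a `g`.
-/

set_option autoImplicit false
set_option linter.unusedVariables false

namespace Fermat.Agent.BR3.FiltPerm

open AlgebraicCurve Fermat.Agent.Red Fermat.Agent.BR.SS Fermat.Agent.BR2.Filt
  Fermat.Agent.BR3.PlaceIso

variable {K F k : Type*} [Field K] [Field F] [Algebra K F] [Field k]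
  {A : ValuationSubring K} {π : A →+* k} {ι : Type*} {Ft : ι → Type*}
  [∀ v, Field (Ft v)] [∀ v, Algebra k (Ft v)] {ν : Type*}
  (S : SemistableSetup (F := F) A π ι Ft ν)

/-! ### `g` maps a component to a component -/

/-- `g` maps the valuation ring of the component `v` into that of `w` and induces the
`k`-isomorphism `a` on the residue fields. -/
structure MapsComp (g : SemilinearAut K F) (v w : ι) (a : Ft v ≃ₐ[k] Ft w) : Prop where
  smul_mem : ∀ y : F, y ∈ S.O v → g • y ∈ S.O w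
  res_smul : ∀ (y : F) (hy : y ∈ S.O v) (hy' : g • y ∈ S.O w),
    S.res w ⟨g • y, hy'⟩ = a (S.res v ⟨y, hy⟩)

variable {S}

theorem MapsComp.refl_one (v : ι) : MapsComp S (1 : SemilinearAut K F) v v AlgEquiv.refl where
  smul_mem y hy := by rwa [one_smul]
  res_smul y hy hy' := by
    have e : (⟨(1 : SemilinearAut K F) • y, hy'⟩ : S.O v) = ⟨y, hy⟩ :=
      Subtype.ext (one_smul _ y)
    rw [e]
    rfl

theorem MapsComp.comp {g g' : SemilinearAut K F} {v w u : ι} {a : Ft v ≃ₐ[k] Ft w}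
    {b : Ft w ≃ₐ[k] Ft u} (h : MapsComp S g v w a) (h' : MapsComp S g' w u b) :
    MapsComp S (g' * g) v u (a.trans b) where
  smul_mem y hy := by
    rw [mul_smul]
    exact h'.smul_mem _ (h.smul_mem y hy)
  res_smul y hy hy' := by
    have e : (⟨(g' * g) • y, hy'⟩ : S.O u) =
        ⟨g' • (g • y), h'.smul_mem _ (h.smul_mem y hy)⟩ := Subtype.ext (mul_smul g' g y)
    rw [e, h'.res_smul _ (h.smul_mem y hy), h.res_smul y hy]
    rfl

/-- `g⁻¹` maps `w` back to `v`. -/
theorem MapsComp.inv {g : SemilinearAut K F} {v w : ι} {a : Ft v ≃ₐ[k] Ft w}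
    (h : MapsComp S g v w a) : MapsComp S g⁻¹ w v a.symm := by
  have hmem : ∀ y : F, y ∈ S.O w → g⁻¹ • y ∈ S.O v := by
    intro y hy
    by_contra hn
    -- `z := (g⁻¹ y)⁻¹` is a non-unit of `O v`
    have hz : (g⁻¹ • y)⁻¹ ∈ S.O v := ((S.O v).mem_or_inv_mem (g⁻¹ • y)).resolve_left hn
    have hy0 : y ≠ 0 := by
      rintro rfl
      exact hn (by rw [smul_zero]; exact (S.O v).zero_mem)
    have hnu : ¬ IsUnit (⟨(g⁻¹ • y)⁻¹, hz⟩ : S.O v) := by
      intro hu
      obtain ⟨u, hu⟩ := hu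
      apply hn
      have h1 : ((u⁻¹ : (S.O v)ˣ) : S.O v) * ⟨(g⁻¹ • y)⁻¹, hz⟩ = 1 := by
        rw [← hu]; exact u.inv_mul
      have h2 := congrArg (Subtype.val : S.O v → F) h1
      have h3 : (((u⁻¹ : (S.O v)ˣ) : S.O v) : F) * (g⁻¹ • y)⁻¹ = 1 := h2
      have hgy : g⁻¹ • y ≠ 0 := by rwa [Ne, smul_eq_zero_iff_eq]
      have h4 : (((u⁻¹ : (S.O v)ˣ) : S.O v) : F) = g⁻¹ • y := by
        field_simp at h3
        exact h3
      rw [← h4]
      exact ((u⁻¹ : (S.O v)ˣ) : S.O v).2
    have hres : S.res v ⟨(g⁻¹ • y)⁻¹, hz⟩ = 0 := (S.res_eq_zero_iff v _).mpr hnu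
    have e1 : g • (g⁻¹ • y)⁻¹ = y⁻¹ := by
      rw [smul_inv'', smul_inv_smul]
    have hmem' : g • (g⁻¹ • y)⁻¹ ∈ S.O w := h.smul_mem _ hz
    have h5 := h.res_smul _ hz hmem'
    rw [hres, map_zero] at h5
    have h6 : ¬ IsUnit (⟨g • (g⁻¹ • y)⁻¹, hmem'⟩ : S.O w) := (S.res_eq_zero_iff w _).mp h5
    apply h6
    have hyinv : y⁻¹ ∈ S.O w := by rw [← e1]; exact hmem'
    refine ⟨⟨⟨g • (g⁻¹ • y)⁻¹, hmem'⟩, ⟨y, hy⟩, ?_, ?_⟩, rfl⟩
    · apply Subtype.ext
      show g • (g⁻¹ • y)⁻¹ * y = 1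
      rw [e1, inv_mul_cancel₀ hy0]
    · apply Subtype.ext
      show y * g • (g⁻¹ • y)⁻¹ = 1
      rw [e1, mul_inv_cancel₀ hy0]
  refine ⟨hmem, fun y hy hy' => ?_⟩
  have h1 := h.res_smul (g⁻¹ • y) hy' (by rw [smul_inv_smul]; exact hy)
  have e : (⟨g • (g⁻¹ • y), by rw [smul_inv_smul]; exact hy⟩ : S.O w) = ⟨y, hy⟩ :=
    Subtype.ext (smul_inv_smul g y)
  rw [e] at h1
  rw [h1, AlgEquiv.symm_apply_apply]

theorem MapsComp.smul_mem_iff {g : SemilinearAut K F} {v w : ι} {a : Ft v ≃ₐ[k] Ft w}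
    (h : MapsComp S g v w a) {y : F} : g • y ∈ S.O w ↔ y ∈ S.O v := by
  refine ⟨fun hy => ?_, h.smul_mem y⟩
  have := h.inv.smul_mem _ hy
  rwa [inv_smul_smul] at this

/-! ### transport of residues -/

theorem isResidue_mapsComp {g : SemilinearAut K F} {v w : ι} {a : Ft v ≃ₐ[k] Ft w}
    (h : MapsComp S g v w a) {f : F} {g₀ : Ft v} (hg : IsResidue S v f g₀) :
    IsResidue S w (g • f) (a g₀) := by
  obtain ⟨hg0, c, hc, hm, hr⟩ := hg
  have e : SemilinearAut.baseAut g c • (g • f) = g • (c • f) := by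
    rw [Algebra.smul_def, Algebra.smul_def, smul_mul', SemilinearAut.smul_algebraMap]
  have hm' : SemilinearAut.baseAut g c • (g • f) ∈ S.O w := by
    rw [e]; exact h.smul_mem _ hm
  refine ⟨by simpa using hg0, SemilinearAut.baseAut g c, ?_, hm', ?_⟩
  · rwa [Ne, map_eq_zero_iff _ (SemilinearAut.baseAut g).injective]
  · have h1 : (⟨SemilinearAut.baseAut g c • (g • f), hm'⟩ : S.O w) =
        ⟨g • (c • f), h.smul_mem _ hm⟩ := Subtype.ext e
    rw [h1, h.res_smul _ hm, hr]

/-! ### nodes -/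

variable (S) in
/-- `g` maps the node `e` to the node `e'`, branch by branch. -/
structure MapsNode (g : SemilinearAut K F) (e e' : ν)
    (a₁ : Ft (S.src e) ≃ₐ[k] Ft (S.src e')) (a₂ : Ft (S.tgt e) ≃ₐ[k] Ft (S.tgt e')) : Prop where
  src : MapsComp S g (S.src e) (S.src e') a₁
  tgt : MapsComp S g (S.tgt e) (S.tgt e') a₂
  s₁ : S.s₁ e' = placeMap a₁ (S.s₁ e)
  s₂ : S.s₂ e' = placeMap a₂ (S.s₂ e)

/-! ### finite sums of classes -/

theorem isRep_sum {m : ℕ} {J : Type*} (s : Finset J) (x : J → Pic0 K F)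
    (D : J → Divisor.degZero (K := K) (F := F)) (f : J → F)
    (h : ∀ j ∈ s, IsRep m (x j) (D j) (f j)) :
    IsRep m (∑ j ∈ s, x j) (∑ j ∈ s, D j) (∏ j ∈ s, f j) := by
  classical
  induction s using Finset.induction_on with
  | empty => simpa using isRep_zero (K := K) (F := F) m
  | insert j s hj ih =>
    rw [Finset.sum_insert hj, Finset.sum_insert hj, Finset.prod_insert hj]
    exact (h j (Finset.mem_insert_self j s)).add
      (ih fun i hi => h i (Finset.mem_insert_of_mem hi))

theorem isResidue_prod {J : Type*} (s : Finset J) (v : ι) (f : J → F) (R : J → Ft v)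
    (h : ∀ j ∈ s, IsResidue S v (f j) (R j)) :
    IsResidue S v (∏ j ∈ s, f j) (∏ j ∈ s, R j) := by
  classical
  induction s using Finset.induction_on with
  | empty => simpa using isResidue_one (S := S) v
  | insert j s hj ih =>
    rw [Finset.prod_insert hj, Finset.prod_insert hj]
    exact (h j (Finset.mem_insert_self j s)).mul
      (ih fun i hi => h i (Finset.mem_insert_of_mem hi))

/-- `∑_{j<n} g^j • x` -/
def orbSum {X : Type*} [AddCommGroup X] [DistribMulAction (SemilinearAut K F) X]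
    (g : SemilinearAut K F) (n : ℕ) (x : X) : X := ∑ j ∈ Finset.range n, g ^ j • x

/-- `∏_{j<n} g^j • f` -/
def orbProd (g : SemilinearAut K F) (n : ℕ) (f : F) : F := ∏ j ∈ Finset.range n, g ^ j • f

theorem isRep_orbSum (g : SemilinearAut K F) (n : ℕ) {m : ℕ} {x : Pic0 K F}
    {D : Divisor.degZero (K := K) (F := F)} {f : F} (h : IsRep m x D f) :
    IsRep m (∑ j ∈ Finset.range n, g ^ j • x)
      (∑ j ∈ Finset.range n, SemilinearAut.degZeroSMulHom (g ^ j) D) (orbProd g n f) :=
  isRep_sum _ _ _ _ fun j _ => h.smul (g ^ j)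

theorem isResidue_orbProd (g : SemilinearAut K F) (n : ℕ) (v : ι) (f : F) (R : ℕ → Ft v)
    (h : ∀ j < n, IsResidue S v (g ^ j • f) (R j)) :
    IsResidue S v (orbProd g n f) (∏ j ∈ Finset.range n, R j) :=
  isResidue_prod _ v _ _ fun j hj => h j (Finset.mem_range.mp hj)

/-! ### stability of the filtration -/

variable (S) in
/-- every component is the image under `g` of a component -/
def PermutesComps (g : SemilinearAut K F) : Prop :=
  ∀ w : ι, ∃ (v : ι) (a : Ft v ≃ₐ[k] Ft w), MapsComp S g v w a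

theorem smul_mem_natSub {g : SemilinearAut K F} (hg : PermutesComps S g) {m : ℕ}
    {x : Pic0 K F} (hx : x ∈ natSub S m) : g • x ∈ natSub S m := by
  obtain ⟨D, f, hR, hres⟩ := hx
  refine ⟨_, _, hR.smul g, fun w => ?_⟩
  obtain ⟨v, a, ha⟩ := hg w
  obtain ⟨g₀, hg₀, E, hE⟩ := hres v
  refine ⟨a g₀, isResidue_mapsComp ha hg₀, divMap a E, fun Q => ?_⟩
  rw [divMap_apply, ← hE, ← ord_placeMap a (placeMap a.symm Q) g₀, placeMap_placeMap_symm]

theorem smul_mem_torSub {g : SemilinearAut K F} (hg : PermutesComps S g) {m : ℕ}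
    {x : Pic0 K F} (hx : x ∈ torSub S m) : g • x ∈ torSub S m := by
  obtain ⟨D, f, hR, hres⟩ := hx
  refine ⟨_, _, hR.smul g, fun w => ?_⟩
  obtain ⟨v, a, ha⟩ := hg w
  obtain ⟨g₀, hg₀, u, c, hu⟩ := hres v
  refine ⟨a g₀, isResidue_mapsComp ha hg₀, a u, c, ?_⟩
  rw [hu, map_mul, map_pow, AlgEquiv.commutes]

end Fermat.Agent.BR3.FiltPerm
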