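import Mathlib
import Fermat.Agent.BR2.Filtration
import Fermat.Agent.BR2.G5
import Fermat.Agent.BR3.PlaceIso
import Fermat.Agent.BR3.FiltPerm

/-!
# Program C (S36), node (C-FILT), file C: the class-level maps of the filtration

`S : SS.SemistableSetup A π ι Ft ν` a semistable valued function field `F/K`, `m ≠ 0`.

* `pic0Map a : Pic0 k L →+ Pic0 k L'` : transport of divisor classes along an isomorphism
  `a : L ≃ₐ[k] L'` of function fields (`pic0Map_mk`, `pic0Map_refl`, `pic0Map_trans`,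
  `pic0Map_symm_apply`);
* `isResidue_unique` : two residues of the same function on a component differ by a constant;
  `isRep_unique` : two representatives `(D, f)`, `(D', f')` of the same class:
  `f' = c · f · t ^ m`, `D' = D + div t`;
* `abRes hF hFt hm v : natSub S m →+ Pic0 k (Ft v)` : **the abelian part** of a class of the finite
  part (`abRes_eq` : computed from any representative; `nsmul_abRes`; `abRes_eq_zero_iff` :
  the common kernel of the `abRes v` is `torSub S m`; `abRes_smul` : equivariance under an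
  automorphism permuting the components);
* `graphOrd hF m x : ν → ZMod m` : **the graph part** of an `m`-torsion class (the orders of the
  residues at the source branches of the nodes; `graphOrd_eq`, `graphOrd_add`, `graphOrd_smul`);
* `NodeCons S` (named Prop: conservation at the nodes) and `graphOrd_eq_zero_iff` : under
  `NodeCons S` the kernel of `graphOrd` is `natSub S m`.
-/

set_option autoImplicit false
set_option linter.unusedVariables false
set_option linter.unusedSectionVars false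

namespace Fermat.Agent.BR3.FiltMaps

open AlgebraicCurve Fermat.Agent.Red Fermat.Agent.BR.SS Fermat.Agent.BR2.Filt
  Fermat.Agent.BR3.PlaceIso Fermat.Agent.BR3.FiltPerm Fermat.Agent.BR2.G5 Fermat.Agent.X0

/-! ### transport of divisor classes along an isomorphism -/

section Pic0Map

variable {k L L' L'' : Type*} [Field k] [Field L] [Field L'] [Field L'']
  [Algebra k L] [Algebra k L'] [Algebra k L'']

theorem divMap_refl (D : Divisor k L) : divMap (AlgEquiv.refl : L ≃ₐ[k] L) D = D := by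
  rw [divMap_def]
  have : (placeMap (AlgEquiv.refl : L ≃ₐ[k] L)) = id := funext placeMap_refl
  rw [this, Finsupp.mapDomain_id]

theorem divMap_trans (a : L ≃ₐ[k] L') (b : L' ≃ₐ[k] L'') (D : Divisor k L) :
    divMap (a.trans b) D = divMap b (divMap a D) := by
  rw [divMap_def, divMap_def, divMap_def, ← Finsupp.mapDomain_comp]
  congr 1

theorem divMap_symm_divMap (a : L ≃ₐ[k] L') (D : Divisor k L) :
    divMap a.symm (divMap a D) = D := by
  ext Q
  rw [divMap_apply, AlgEquiv.symm_symm, divMap_apply_placeMap]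

theorem divMap_divMap_symm (a : L ≃ₐ[k] L') (D : Divisor k L') :
    divMap a (divMap a.symm D) = D := by
  have := divMap_symm_divMap a.symm D
  rwa [AlgEquiv.symm_symm] at this

/-- transport of degree zero divisors -/
noncomputable def degZeroMap (a : L ≃ₐ[k] L') :
    Divisor.degZero (K := k) (F := L) →+ Divisor.degZero (K := k) (F := L') :=
  ((divMap a).domRestrict (Divisor.degZero (K := k) (F := L))).codRestrict _ (fun D => by
    show Divisor.degree (divMap a (D : Divisor k L)) = 0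
    rw [degree_divMap]
    exact D.2)

@[simp]
theorem coe_degZeroMap (a : L ≃ₐ[k] L') (D : Divisor.degZero (K := k) (F := L)) :
    (degZeroMap a D : Divisor k L') = divMap a (D : Divisor k L) := rfl

/-- transport of divisor classes of degree zero -/
noncomputable def pic0Map (a : L ≃ₐ[k] L') : Pic0 k L →+ Pic0 k L' :=
  QuotientAddGroup.map _ _ (degZeroMap a) (fun D hD => by
    rw [AddSubgroup.mem_comap, AddSubgroup.mem_addSubgroupOf]
    exact divMap_mem_principal a (AddSubgroup.mem_addSubgroupOf.mp hD))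

theorem pic0Map_mk (a : L ≃ₐ[k] L') (D : Divisor.degZero (K := k) (F := L)) :
    pic0Map a (Pic0.mk D) = Pic0.mk (degZeroMap a D) := rfl

theorem pic0Map_refl (x : Pic0 k L) : pic0Map (AlgEquiv.refl : L ≃ₐ[k] L) x = x := by
  obtain ⟨D, rfl⟩ := Pic0.mk_surjective x
  rw [pic0Map_mk]
  exact congrArg Pic0.mk (Subtype.ext (divMap_refl _))

theorem pic0Map_trans (a : L ≃ₐ[k] L') (b : L' ≃ₐ[k] L'') (x : Pic0 k L) :
    pic0Map (a.trans b) x = pic0Map b (pic0Map a x) := by
  obtain ⟨D, rfl⟩ := Pic0.mk_surjective x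
  rw [pic0Map_mk, pic0Map_mk, pic0Map_mk]
  exact congrArg Pic0.mk (Subtype.ext (divMap_trans a b _))

theorem pic0Map_symm_apply (a : L ≃ₐ[k] L') (x : Pic0 k L) :
    pic0Map a.symm (pic0Map a x) = x := by
  obtain ⟨D, rfl⟩ := Pic0.mk_surjective x
  rw [pic0Map_mk, pic0Map_mk]
  exact congrArg Pic0.mk (Subtype.ext (divMap_symm_divMap a _))

theorem pic0Map_apply_symm (a : L ≃ₐ[k] L') (x : Pic0 k L') :
    pic0Map a (pic0Map a.symm x) = x := by
  have := pic0Map_symm_apply a.symm x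
  rwa [AlgEquiv.symm_symm] at this

/-- `pic0Map` as an isomorphism -/
noncomputable def pic0Equiv (a : L ≃ₐ[k] L') : Pic0 k L ≃+ Pic0 k L' where
  toFun := pic0Map a
  invFun := pic0Map a.symm
  left_inv := pic0Map_symm_apply a
  right_inv := pic0Map_apply_symm a
  map_add' := map_add _

@[simp]
theorem pic0Equiv_apply (a : L ≃ₐ[k] L') (x : Pic0 k L) : pic0Equiv a x = pic0Map a x := rfl

end Pic0Map

variable {K F k : Type*} [Field K] [Field F] [Algebra K F] [Field k]
  {A : ValuationSubring K} {π : A →+* k} {ι : Type*} {Ft : ι → Type*}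
  [∀ v, Field (Ft v)] [∀ v, Algebra k (Ft v)] {ν : Type*}
  {S : SemistableSetup (F := F) A π ι Ft ν}

/-! ### uniqueness of residues and of representatives -/

/-- the function of a residue is nonzero -/
theorem isResidue_fun_ne_zero {v : ι} {f : F} {g : Ft v} (h : IsResidue S v f g) : f ≠ 0 := by
  obtain ⟨hg, c, hc, hm, hr⟩ := h
  rintro rfl
  apply hg
  rw [← hr]
  have : (⟨c • (0 : F), hm⟩ : S.O v) = 0 := Subtype.ext (smul_zero c)
  rw [this, map_zero]

/-- Two residues of the same function on a component differ by a nonzero constant. -/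
theorem isResidue_unique {v : ι} {f : F} {g g' : Ft v} (h : IsResidue S v f g)
    (h' : IsResidue S v f g') : ∃ a : k, a ≠ 0 ∧ g' = algebraMap k (Ft v) a * g := by
  have hf : f ≠ 0 := isResidue_fun_ne_zero h
  obtain ⟨hg, c, hc, hm, hr⟩ := h
  obtain ⟨hg', c', hc', hm', hr'⟩ := h'
  -- `c • f` is a unit of `O v`
  have hu : IsUnit (⟨c • f, hm⟩ : S.O v) := by
    by_contra hnu
    exact hg (hr ▸ (S.res_eq_zero_iff v _).mpr hnu)
  obtain ⟨u, hu⟩ := hu
  have hcf : c • f ≠ 0 := smul_ne_zero hc hf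
  have e : algebraMap K F (c' * c⁻¹) * (c • f) = c' • f := by
    rw [Algebra.smul_def, Algebra.smul_def, map_mul, map_inv₀]
    have hc0 : algebraMap K F c ≠ 0 := (map_ne_zero _).mpr hc
    field_simp
  have hmem : algebraMap K F (c' * c⁻¹) ∈ S.O v := by
    have h1 : algebraMap K F (c' * c⁻¹) = (c' • f) * (((u⁻¹ : (S.O v)ˣ) : S.O v) : F) := by
      have h2 : ((u : S.O v) : F) * (((u⁻¹ : (S.O v)ˣ) : S.O v) : F) = 1 := by
        have h3 : ((u : S.O v) * ((u⁻¹ : (S.O v)ˣ) : S.O v) : S.O v) = 1 := u.mul_inv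
        exact congrArg (Subtype.val : S.O v → F) h3
      have h4 : ((u : S.O v) : F) = c • f := congrArg Subtype.val hu
      rw [h4] at h2
      rw [← e, mul_assoc, h2, mul_one]
    rw [h1]
    exact (S.O v).mul_mem _ _ hm' ((u⁻¹ : (S.O v)ˣ) : S.O v).2
  have hA : c' * c⁻¹ ∈ A := (S.algebraMap_mem_iff v _).mp hmem
  have h5 : (⟨c' • f, hm'⟩ : S.O v) = ⟨algebraMap K F (c' * c⁻¹), hmem⟩ * ⟨c • f, hm⟩ :=
    Subtype.ext e.symm
  have h6 : g' = algebraMap k (Ft v) (π ⟨c' * c⁻¹, hA⟩) * g := by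
    rw [← hr', h5, map_mul, S.res_algebraMap v _ hA hmem, hr]
  refine ⟨π ⟨c' * c⁻¹, hA⟩, ?_, h6⟩
  intro h0
  rw [h0, map_zero, zero_mul] at h6
  exact hg' h6

/-- A residue of `f` is a residue of any nonzero constant multiple of `f`. -/
theorem isResidue_const_mul {v : ι} {f : F} {g : Ft v} (h : IsResidue S v f g) {b : K}
    (hb : b ≠ 0) : IsResidue S v (algebraMap K F b * f) g := by
  obtain ⟨hg, c, hc, hm, hr⟩ := h
  have e : (c * b⁻¹) • (algebraMap K F b * f) = c • f := by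
    rw [Algebra.smul_def, Algebra.smul_def, map_mul, map_inv₀]
    have hb' : algebraMap K F b ≠ 0 := (map_ne_zero _).mpr hb
    field_simp
  refine ⟨hg, c * b⁻¹, mul_ne_zero hc (inv_ne_zero hb), by rw [e]; exact hm, ?_⟩
  have : (⟨(c * b⁻¹) • (algebraMap K F b * f), by rw [e]; exact hm⟩ : S.O v) = ⟨c • f, hm⟩ :=
    Subtype.ext e
  rw [this, hr]

theorem isResidue_zpow {v : ι} {f : F} {g : Ft v} (h : IsResidue S v f g) (n : ℤ) :
    IsResidue S v (f ^ n) (g ^ n) := by
  obtain ⟨n, rfl | rfl⟩ := n.eq_nat_or_neg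
  · simpa using isResidue_pow h n
  · simpa using (isResidue_pow h n).inv

/-- `m • x = 0` for a class with a representative -/
theorem nsmul_eq_zero_of_isRep {m : ℕ} {x : Pic0 K F} {D : Divisor.degZero (K := K) (F := F)}
    {f : F} (h : IsRep m x D f) : m • x = 0 := by
  obtain ⟨rfl, hf, hD⟩ := h
  show Pic0.mk (m • D) = 0
  rw [mk_eq_zero_iff]
  exact ⟨f, hf, fun P => hD P⟩

/-- Two representatives of the same class: `f' = c · f · t ^ m`, `D' = D + div t`. -/
theorem isRep_unique (hF : RiemannPkg K F) {m : ℕ} {x : Pic0 K F}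
    {D D' : Divisor.degZero (K := K) (F := F)} {f f' : F} (h : IsRep m x D f)
    (h' : IsRep m x D' f') :
    ∃ (t : F) (c : K), t ≠ 0 ∧ c ≠ 0 ∧ f' = algebraMap K F c * (f * t ^ m) ∧
      ∀ P : Place K F, (D' : Divisor K F) P = (D : Divisor K F) P + P.ord t := by
  obtain ⟨hx, hf, hD⟩ := h
  obtain ⟨hx', hf', hD'⟩ := h'
  have h1 : Pic0.mk D' = Pic0.mk D := by rw [hx, hx']
  rw [mk_eq_mk_iff] at h1
  obtain ⟨t, ht, hDt⟩ := h1
  have htm : t ^ m ≠ 0 := pow_ne_zero m ht
  have hftm : f * t ^ m ≠ 0 := mul_ne_zero hf htm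
  obtain ⟨c, hc⟩ := exists_const_of_forall_ord_nonneg hF (f := f' / (f * t ^ m)) (fun P => by
    rw [div_eq_mul_inv, P.ord_mul hf' (inv_ne_zero hftm), P.ord_inv, P.ord_mul hf htm,
      Place.ord_pow P, ← hD P, ← hD' P, ← hDt P]
    simp only [Finsupp.smul_apply, Finsupp.sub_apply, nsmul_eq_mul]
    apply le_of_eq
    ring)
  have hc0 : c ≠ 0 := by
    rintro rfl
    rw [map_zero] at hc
    exact div_ne_zero hf' hftm hc
  refine ⟨t, c, ht, hc0, by rw [← hc, div_mul_cancel₀ _ hftm], fun P => ?_⟩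
  have := hDt P
  rw [Finsupp.sub_apply] at this
  linarith

/-! ### the abelian part -/

/-- a divisor `E` with `m E = div g` (`m ≠ 0`) has degree zero -/
theorem degree_eq_zero_of_ord_eq {L : Type*} [Field L] [Algebra k L] [HasPrincipalDivisors k L]
    {m : ℕ} (hm : m ≠ 0) {g : L} {E : Divisor k L}
    (hE : ∀ Q : Place k L, Q.ord g = (m : ℤ) * E Q) : Divisor.degree E = 0 := by
  have hm' : (m : ℤ) ≠ 0 := by exact_mod_cast hm
  have h1 : divOf k g = m • E := by
    ext Q
    rw [divOf_apply, hE Q, Finsupp.smul_apply, nsmul_eq_mul]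
  have h2 := degree_divOf (K := k) g
  rw [h1, map_nsmul, nsmul_eq_mul] at h2
  exact (mul_eq_zero.mp h2).resolve_left hm'

variable (S) in
/-- `c` is the abelian part on the component `v` of the class `x` of the finite part: the class
of `E` where `m E` is the divisor of a residue on `v` of a representative of `x`. -/
def IsAbRes (m : ℕ) (v : ι) (x : Pic0 K F) (c : Pic0 k (Ft v)) : Prop :=
  ∃ (D : Divisor.degZero (K := K) (F := F)) (f : F) (g : Ft v)
    (E : Divisor.degZero (K := k) (F := Ft v)),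
    IsRep m x D f ∧ IsResidue S v f g ∧
      (∀ Q : Place k (Ft v), Q.ord g = (m : ℤ) * (E : Divisor k (Ft v)) Q) ∧ c = Pic0.mk E

theorem isAbRes_zero (m : ℕ) (v : ι) : IsAbRes S m v 0 0 :=
  ⟨0, 1, 1, 0, isRep_zero m, isResidue_one v, fun Q => by simp, rfl⟩

theorem IsAbRes.add {m : ℕ} {v : ι} {x y : Pic0 K F} {c c' : Pic0 k (Ft v)}
    (h : IsAbRes S m v x c) (h' : IsAbRes S m v y c') : IsAbRes S m v (x + y) (c + c') := by
  obtain ⟨D, f, g, E, hR, hg, hE, rfl⟩ := h
  obtain ⟨D', f', g', E', hR', hg', hE', rfl⟩ := h'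
  refine ⟨D + D', f * f', g * g', E + E', hR.add hR', hg.mul hg', fun Q => ?_, rfl⟩
  rw [Q.ord_mul hg.ne_zero hg'.ne_zero, hE Q, hE' Q, AddSubgroup.coe_add, Finsupp.add_apply,
    mul_add]

theorem exists_isAbRes (hFt : ∀ v, RiemannPkg k (Ft v)) {m : ℕ} (hm : m ≠ 0) (v : ι)
    {x : Pic0 K F} (hx : x ∈ natSub S m) : ∃ c : Pic0 k (Ft v), IsAbRes S m v x c := by
  obtain ⟨D, f, hR, hres⟩ := hx
  obtain ⟨g, hg, E, hE⟩ := hres v
  have := (hFt v).principal
  exact ⟨_, D, f, g, ⟨E, degree_eq_zero_of_ord_eq hm hE⟩, hR, hg, hE, rfl⟩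

/-- The abelian part is well defined. -/
theorem IsAbRes.unique (hF : RiemannPkg K F) {m : ℕ} (hm : m ≠ 0) {v : ι} {x : Pic0 K F}
    {c c' : Pic0 k (Ft v)} (h : IsAbRes S m v x c) (h' : IsAbRes S m v x c') : c = c' := by
  obtain ⟨D, f, g, E, hR, hg, hE, rfl⟩ := h
  obtain ⟨D', f', g', E', hR', hg', hE', rfl⟩ := h'
  have hm' : (m : ℤ) ≠ 0 := by exact_mod_cast hm
  obtain ⟨t, b, ht, hb, hf', -⟩ := isRep_unique hF hR hR'
  obtain ⟨τ, hτ⟩ := exists_isResidue (S := S) v ht
  have h1 : IsResidue S v f' (g * τ ^ m) := by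
    rw [hf']
    exact isResidue_const_mul (hg.mul (isResidue_pow hτ m)) hb
  obtain ⟨a, ha, hga⟩ := isResidue_unique h1 hg'
  symm
  rw [mk_eq_mk_iff]
  refine ⟨τ, hτ.ne_zero, fun Q => ?_⟩
  have h2 : Q.ord g' = Q.ord g + (m : ℤ) * Q.ord τ := by
    rw [hga, Q.ord_mul ((map_ne_zero _).mpr ha) (mul_ne_zero hg.ne_zero
      (pow_ne_zero m hτ.ne_zero)), Place.ord_algebraMap Q, zero_add,
      Q.ord_mul hg.ne_zero (pow_ne_zero m hτ.ne_zero), Place.ord_pow Q]
  rw [hE Q, hE' Q, ← mul_add] at h2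
  have h3 := mul_left_cancel₀ hm' h2
  rw [Finsupp.sub_apply, h3]
  ring

/-- **The abelian part** of the classes of the finite part, on the component `v`. -/
noncomputable def abRes (hF : RiemannPkg K F) (hFt : ∀ v, RiemannPkg k (Ft v)) {m : ℕ}
    (hm : m ≠ 0) (v : ι) : natSub S m →+ Pic0 k (Ft v) :=
  AddMonoidHom.mk' (fun y => Classical.choose (exists_isAbRes hFt hm v y.2)) (fun y y' =>
    IsAbRes.unique hF hm (Classical.choose_spec (exists_isAbRes hFt hm v (y + y').2))
      ((Classical.choose_spec (exists_isAbRes hFt hm v y.2)).add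
        (Classical.choose_spec (exists_isAbRes hFt hm v y'.2))))

theorem isAbRes_abRes (hF : RiemannPkg K F) (hFt : ∀ v, RiemannPkg k (Ft v)) {m : ℕ}
    (hm : m ≠ 0) (v : ι) (y : natSub S m) : IsAbRes S m v y (abRes hF hFt hm v y) :=
  Classical.choose_spec (exists_isAbRes hFt hm v y.2)

theorem abRes_eq_of_isAbRes (hF : RiemannPkg K F) (hFt : ∀ v, RiemannPkg k (Ft v)) {m : ℕ}
    (hm : m ≠ 0) {v : ι} {y : natSub S m} {c : Pic0 k (Ft v)}
    (h : IsAbRes S m v y c) : abRes hF hFt hm v y = c :=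
  IsAbRes.unique hF hm (isAbRes_abRes hF hFt hm v y) h

/-- The abelian part computed from any representative. -/
theorem abRes_eq (hF : RiemannPkg K F) (hFt : ∀ v, RiemannPkg k (Ft v)) {m : ℕ}
    (hm : m ≠ 0) {v : ι} {y : natSub S m} {D : Divisor.degZero (K := K) (F := F)} {f : F}
    (hR : IsRep m (y : Pic0 K F) D f) {g : Ft v} (hg : IsResidue S v f g)
    {E : Divisor.degZero (K := k) (F := Ft v)}
    (hE : ∀ Q : Place k (Ft v), Q.ord g = (m : ℤ) * (E : Divisor k (Ft v)) Q) :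
    abRes hF hFt hm v y = Pic0.mk E :=
  abRes_eq_of_isAbRes hF hFt hm ⟨D, f, g, E, hR, hg, hE, rfl⟩

/-- the abelian part is killed by `m` -/
theorem nsmul_abRes (hF : RiemannPkg K F) (hFt : ∀ v, RiemannPkg k (Ft v)) {m : ℕ}
    (hm : m ≠ 0) (v : ι) (y : natSub S m) : m • abRes hF hFt hm v y = 0 := by
  obtain ⟨D, f, g, E, hR, hg, hE, hc⟩ := isAbRes_abRes hF hFt hm v y
  rw [hc]
  show Pic0.mk (m • E) = 0
  rw [mk_eq_zero_iff]
  exact ⟨g, hg.ne_zero, fun Q => by
    rw [AddSubgroup.coe_nsmul, Finsupp.smul_apply, nsmul_eq_mul, hE Q]⟩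

/-- the toric part is contained in the finite part -/
theorem torSub_le_natSub (hFt : ∀ v, RiemannPkg k (Ft v)) {m : ℕ} (hm : m ≠ 0) :
    torSub S m ≤ natSub S m := by
  rintro x ⟨D, f, hR, hres⟩
  refine ⟨D, f, hR, fun v => ?_⟩
  obtain ⟨g, hg, u, c, hgu⟩ := hres v
  have := (hFt v).principal
  have hg0 : g ≠ 0 := hg.ne_zero
  have hc0 : c ≠ 0 := by
    rintro rfl
    rw [map_zero, zero_mul] at hgu
    exact hg0 hgu
  have hu0 : u ≠ 0 := by
    rintro rfl
    rw [zero_pow hm, mul_zero] at hgu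
    exact hg0 hgu
  refine ⟨g, hg, divOf k u, fun Q => ?_⟩
  rw [hgu, Q.ord_mul ((map_ne_zero _).mpr hc0) (pow_ne_zero m hu0), Place.ord_algebraMap Q,
    zero_add, Place.ord_pow Q, divOf_apply]

/-- **The common kernel of the abelian parts is the toric part.** -/
theorem abRes_eq_zero_iff (hF : RiemannPkg K F) (hFt : ∀ v, RiemannPkg k (Ft v)) {m : ℕ}
    (hm : m ≠ 0) (y : natSub S m) :
    (∀ v, abRes hF hFt hm v y = 0) ↔ (y : Pic0 K F) ∈ torSub S m := by
  constructor
  · intro h0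
    obtain ⟨D, f, hR, hres⟩ := y.2
    refine ⟨D, f, hR, fun v => ?_⟩
    obtain ⟨g, hg, E, hE⟩ := hres v
    have := (hFt v).principal
    refine ⟨g, hg, ?_⟩
    have h1 := abRes_eq hF hFt hm (y := y) hR hg
      (E := ⟨E, degree_eq_zero_of_ord_eq hm hE⟩) hE
    rw [h0 v] at h1
    have h2 := (mk_eq_zero_iff _).mp h1.symm
    obtain ⟨u, hu, hEu⟩ := h2
    obtain ⟨c, hc⟩ := eq_const_mul_pow_of_ord (hFt v) hg.ne_zero hu m (fun Q => by
      rw [hE Q, ← hEu Q])
    exact ⟨u, c, hc⟩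
  · rintro ⟨D, f, hR, hres⟩ v
    obtain ⟨g, hg, u, c, hgu⟩ := hres v
    have := (hFt v).principal
    have hg0 : g ≠ 0 := hg.ne_zero
    have hc0 : c ≠ 0 := by
      rintro rfl
      rw [map_zero, zero_mul] at hgu
      exact hg0 hgu
    have hu0 : u ≠ 0 := by
      rintro rfl
      rw [zero_pow hm, mul_zero] at hgu
      exact hg0 hgu
    have hE : ∀ Q : Place k (Ft v), Q.ord g = (m : ℤ) * (divOf k u) Q := fun Q => by
      rw [hgu, Q.ord_mul ((map_ne_zero _).mpr hc0) (pow_ne_zero m hu0), Place.ord_algebraMap Q,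
        zero_add, Place.ord_pow Q, divOf_apply]
    rw [abRes_eq hF hFt hm (y := y) hR hg (E := ⟨divOf k u, degree_divOf u⟩) hE, mk_eq_zero_iff]
    exact divOf_mem_principal hu0

/-- **Equivariance of the abelian part**: if `g` maps the component `v` to `w` through
`a : Ft v ≃ₐ[k] Ft w`, the abelian part of `g • x` on `w` is the transport of that of `x`
on `v`. -/
theorem IsAbRes.smul {g : SemilinearAut K F} {v w : ι} {a : Ft v ≃ₐ[k] Ft w}
    (h : MapsComp S g v w a) {m : ℕ} {x : Pic0 K F} {c : Pic0 k (Ft v)}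
    (hc : IsAbRes S m v x c) : IsAbRes S m w (g • x) (pic0Map a c) := by
  obtain ⟨D, f, g₀, E, hR, hg, hE, rfl⟩ := hc
  refine ⟨_, _, a g₀, degZeroMap a E, hR.smul g, isResidue_mapsComp h hg, fun Q => ?_, rfl⟩
  rw [coe_degZeroMap, divMap_apply, ← hE, ← ord_placeMap a (placeMap a.symm Q) g₀,
    placeMap_placeMap_symm]

theorem abRes_smul (hF : RiemannPkg K F) (hFt : ∀ v, RiemannPkg k (Ft v)) {m : ℕ}
    (hm : m ≠ 0) {g : SemilinearAut K F} {v w : ι} {a : Ft v ≃ₐ[k] Ft w}
    (h : MapsComp S g v w a) (y : natSub S m) (hy : g • (y : Pic0 K F) ∈ natSub S m) :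
    abRes hF hFt hm w ⟨g • (y : Pic0 K F), hy⟩ = pic0Map a (abRes hF hFt hm v y) :=
  abRes_eq_of_isAbRes hF hFt hm (y := ⟨g • (y : Pic0 K F), hy⟩)
    ((isAbRes_abRes hF hFt hm v y).smul h)

/-! ### the graph part -/

variable (S) in
/-- `n` is the graph part of the `m`-torsion class `x`: the orders (mod `m`) of the residues of a
representative at the source branches of the nodes. -/
def IsGraphOrd (m : ℕ) (x : Pic0 K F) (n : ν → ZMod m) : Prop :=
  ∃ (D : Divisor.degZero (K := K) (F := F)) (f : F), IsRep m x D f ∧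
    ∀ e, ∃ g : Ft (S.src e), IsResidue S (S.src e) f g ∧ n e = (((S.s₁ e).ord g : ℤ) : ZMod m)

theorem isGraphOrd_zero (m : ℕ) : IsGraphOrd S m 0 0 :=
  ⟨0, 1, isRep_zero m, fun e => ⟨1, isResidue_one _, by simp⟩⟩

theorem IsGraphOrd.add {m : ℕ} {x y : Pic0 K F} {n n' : ν → ZMod m}
    (h : IsGraphOrd S m x n) (h' : IsGraphOrd S m y n') : IsGraphOrd S m (x + y) (n + n') := by
  obtain ⟨D, f, hR, hn⟩ := h
  obtain ⟨D', f', hR', hn'⟩ := h'
  refine ⟨D + D', f * f', hR.add hR', fun e => ?_⟩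
  obtain ⟨g, hg, hge⟩ := hn e
  obtain ⟨g', hg', hge'⟩ := hn' e
  refine ⟨g * g', hg.mul hg', ?_⟩
  rw [Pi.add_apply, hge, hge', (S.s₁ e).ord_mul hg.ne_zero hg'.ne_zero, Int.cast_add]

theorem exists_isGraphOrd {m : ℕ} {x : Pic0 K F} (hx : m • x = 0) :
    ∃ n : ν → ZMod m, IsGraphOrd S m x n := by
  obtain ⟨D, f, hR⟩ := exists_isRep (K := K) (F := F) hx
  have hf : f ≠ 0 := hR.2.1
  choose g hg using fun e => exists_isResidue (S := S) (S.src e) hf
  exact ⟨fun e => (((S.s₁ e).ord (g e) : ℤ) : ZMod m), D, f, hR, fun e => ⟨g e, hg e, rfl⟩⟩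

/-- the graph part computed from any representative and any residue -/
theorem IsGraphOrd.eq_of_isRep (hF : RiemannPkg K F) {m : ℕ} {x : Pic0 K F} {n : ν → ZMod m}
    (h : IsGraphOrd S m x n) {D : Divisor.degZero (K := K) (F := F)} {f : F}
    (hR : IsRep m x D f) {e : ν} {g : Ft (S.src e)} (hg : IsResidue S (S.src e) f g) :
    n e = (((S.s₁ e).ord g : ℤ) : ZMod m) := by
  obtain ⟨D', f', hR', hn⟩ := h
  obtain ⟨g', hg', hge⟩ := hn e
  obtain ⟨t, b, ht, hb, hf', -⟩ := isRep_unique hF hR' hR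
  obtain ⟨τ, hτ⟩ := exists_isResidue (S := S) (S.src e) ht
  have h1 : IsResidue S (S.src e) f (g' * τ ^ m) := by
    rw [hf']
    exact isResidue_const_mul (hg'.mul (isResidue_pow hτ m)) hb
  obtain ⟨a, ha, hga⟩ := isResidue_unique h1 hg
  rw [hge, hga, (S.s₁ e).ord_mul ((map_ne_zero _).mpr ha) (mul_ne_zero hg'.ne_zero
      (pow_ne_zero m hτ.ne_zero)), Place.ord_algebraMap, zero_add,
      (S.s₁ e).ord_mul hg'.ne_zero (pow_ne_zero m hτ.ne_zero), Place.ord_pow]
  simp

theorem IsGraphOrd.unique (hF : RiemannPkg K F) {m : ℕ} {x : Pic0 K F} {n n' : ν → ZMod m}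
    (h : IsGraphOrd S m x n) (h' : IsGraphOrd S m x n') : n = n' := by
  obtain ⟨D', f', hR', hn⟩ := id h'
  funext e
  obtain ⟨g', hg', hge⟩ := hn e
  rw [h.eq_of_isRep hF hR' hg', hge]

open Classical in
variable (S) in
/-- **The graph part** of an `m`-torsion class (zero by convention if `m • x ≠ 0`). -/
noncomputable def graphOrd (m : ℕ) (x : Pic0 K F) : ν → ZMod m :=
  if hx : m • x = 0 then Classical.choose (exists_isGraphOrd (S := S) hx) else 0

theorem isGraphOrd_graphOrd {m : ℕ} {x : Pic0 K F} (hx : m • x = 0) :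
    IsGraphOrd S m x (graphOrd S m x) := by
  rw [graphOrd, dif_pos hx]
  exact Classical.choose_spec (exists_isGraphOrd (S := S) hx)

theorem graphOrd_eq_of_isGraphOrd (hF : RiemannPkg K F) {m : ℕ} {x : Pic0 K F}
    {n : ν → ZMod m} (h : IsGraphOrd S m x n) : graphOrd S m x = n := by
  obtain ⟨D, f, hR, -⟩ := id h
  exact (isGraphOrd_graphOrd (nsmul_eq_zero_of_isRep hR)).unique hF h

/-- the graph part computed from any representative and any residue -/
theorem graphOrd_eq (hF : RiemannPkg K F) {m : ℕ} {x : Pic0 K F}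
    {D : Divisor.degZero (K := K) (F := F)} {f : F} (hR : IsRep m x D f) {e : ν}
    {g : Ft (S.src e)} (hg : IsResidue S (S.src e) f g) :
    graphOrd S m x e = (((S.s₁ e).ord g : ℤ) : ZMod m) :=
  (isGraphOrd_graphOrd (nsmul_eq_zero_of_isRep hR)).eq_of_isRep hF hR hg

theorem graphOrd_zero (hF : RiemannPkg K F) (m : ℕ) : graphOrd S m (0 : Pic0 K F) = 0 :=
  graphOrd_eq_of_isGraphOrd hF (isGraphOrd_zero m)

theorem graphOrd_add (hF : RiemannPkg K F) {m : ℕ} {x y : Pic0 K F} (hx : m • x = 0)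
    (hy : m • y = 0) : graphOrd S m (x + y) = graphOrd S m x + graphOrd S m y :=
  graphOrd_eq_of_isGraphOrd hF ((isGraphOrd_graphOrd hx).add (isGraphOrd_graphOrd hy))

/-- **Equivariance of the graph part**: if `g` maps the node `e` to the node `e'`, the graph part
of `g • x` at `e'` is that of `x` at `e`. -/
theorem graphOrd_smul (hF : RiemannPkg K F) {g : SemilinearAut K F} {e e' : ν}
    {a₁ : Ft (S.src e) ≃ₐ[k] Ft (S.src e')} {a₂ : Ft (S.tgt e) ≃ₐ[k] Ft (S.tgt e')}
    (h : MapsNode S g e e' a₁ a₂) {m : ℕ} {x : Pic0 K F} (hx : m • x = 0) :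
    graphOrd S m (g • x) e' = graphOrd S m x e := by
  obtain ⟨D, f, hR⟩ := exists_isRep (K := K) (F := F) hx
  obtain ⟨g₀, hg₀⟩ := exists_isResidue (S := S) (S.src e) hR.2.1
  rw [graphOrd_eq hF (hR.smul g) (isResidue_mapsComp h.src hg₀), graphOrd_eq hF hR hg₀, h.s₁,
    ord_placeMap]

/-- the `m`-torsion classes -/
noncomputable def torsBy (K F : Type*) [Field K] [Field F] [Algebra K F] (m : ℕ) : AddSubgroup (Pic0 K F) :=
  (nsmulAddMonoidHom (α := Pic0 K F) m).ker

theorem mem_torsBy {m : ℕ} {x : Pic0 K F} : x ∈ torsBy K F m ↔ m • x = 0 := Iff.rfl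

theorem natSub_le_torsBy {m : ℕ} : natSub S m ≤ torsBy K F m := by
  rintro x ⟨D, f, hR, -⟩
  exact nsmul_eq_zero_of_isRep hR

variable (S) in
/-- the graph part as a homomorphism on the `m`-torsion -/
noncomputable def graphOrdHom (hF : RiemannPkg K F) (m : ℕ) : torsBy K F m →+ (ν → ZMod m) :=
  AddMonoidHom.mk' (fun x => graphOrd S m (x : Pic0 K F))
    (fun x y => graphOrd_add hF (mem_torsBy.mp x.2) (mem_torsBy.mp y.2))

@[simp]
theorem graphOrdHom_apply (hF : RiemannPkg K F) (m : ℕ) (x : torsBy K F m) :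
    graphOrdHom S hF m x = graphOrd S m (x : Pic0 K F) := rfl

/-! ### conservation at the nodes and the kernel of the graph part -/

variable (S) in
/-- **Conservation at the nodes** (named hypothesis; proved from annulus charts in
`BR3/NodeConserve`): the orders of the residues of `f` at the two branches of the node `e` add up
to the number of zeros of `f` in the annulus of `e`. -/
def NodeCons : Prop :=
  ∀ (e : ν) (f : F) (g₁ : Ft (S.src e)) (g₂ : Ft (S.tgt e)), IsResidue S (S.src e) f g₁ →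
    IsResidue S (S.tgt e) f g₂ → ∀ D : Divisor K F, (∀ P, D P = P.ord f) →
      (S.s₁ e).ord g₁ + (S.s₂ e).ord g₂ = Finsupp.mapDomain S.r D ⟨S.src e, S.s₁ e⟩

theorem graphOrd_eq_zero_of_mem_natSub (hF : RiemannPkg K F) {m : ℕ} {x : Pic0 K F}
    (hx : x ∈ natSub S m) : graphOrd S m x = 0 := by
  obtain ⟨D, f, hR, hres⟩ := hx
  funext e
  obtain ⟨g, hg, E, hE⟩ := hres (S.src e)
  rw [graphOrd_eq hF hR hg, hE]
  simp

/-- Under conservation at the nodes, an `m`-torsion class with trivial graph part lies in the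
finite part. -/
theorem mem_natSub_of_graphOrd_eq_zero (hN : NodeCons S) (hF : RiemannPkg K F)
    (hFt : ∀ v, RiemannPkg k (Ft v)) {m : ℕ} (hm : m ≠ 0) {x : Pic0 K F} (hx : m • x = 0)
    (h0 : graphOrd S m x = 0) : x ∈ natSub S m := by
  have : NeZero m := ⟨hm⟩
  obtain ⟨D, f, hR⟩ := exists_isRep (K := K) (F := F) hx
  have hf : f ≠ 0 := hR.2.1
  refine ⟨D, f, hR, fun v => ?_⟩
  obtain ⟨g, hg⟩ := exists_isResidue (S := S) v hf
  have := (hFt v).principal
  have hdvd : ∀ Q : Place k (Ft v), (m : ℤ) ∣ Q.ord g := by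
    intro Q
    by_cases hQ : S.IsBranch ⟨v, Q⟩
    · obtain ⟨e, h | h⟩ := hQ
      · obtain ⟨rfl, h2⟩ := Sigma.mk.inj_iff.mp h
        have h3 := eq_of_heq h2
        subst h3
        have h1 := graphOrd_eq hF hR hg
        rw [h0] at h1
        exact (ZMod.intCast_zmod_eq_zero_iff_dvd _ _).mp h1.symm
      · obtain ⟨rfl, h2⟩ := Sigma.mk.inj_iff.mp h
        have h3 := eq_of_heq h2
        subst h3
        obtain ⟨g₁, hg₁⟩ := exists_isResidue (S := S) (S.src e) hf
        have h1 := graphOrd_eq hF hR hg₁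
        rw [h0] at h1
        have h4 : (m : ℤ) ∣ (S.s₁ e).ord g₁ :=
          (ZMod.intCast_zmod_eq_zero_iff_dvd _ _).mp h1.symm
        have h5 := hN e f g₁ g hg₁ hg (m • (D : Divisor K F)) (fun P => hR.2.2 P)
        rw [Finsupp.mapDomain_smul, Finsupp.smul_apply, nsmul_eq_mul] at h5
        have h6 : (S.s₂ e).ord g = (m : ℤ) * _ - (S.s₁ e).ord g₁ := eq_sub_of_add_eq' h5
        rw [h6]
        exact dvd_sub (dvd_mul_right _ _) h4
    · rw [ord_residue_eq hR hg hQ]
      exact dvd_mul_right _ _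
  refine ⟨g, hg, (divOf k g).mapRange (fun z => z / (m : ℤ)) (by simp), fun Q => ?_⟩
  rw [Finsupp.mapRange_apply, divOf_apply, Int.mul_ediv_cancel' (hdvd Q)]

/-- **The kernel of the graph part is the finite part.** -/
theorem graphOrd_eq_zero_iff (hN : NodeCons S) (hF : RiemannPkg K F)
    (hFt : ∀ v, RiemannPkg k (Ft v)) {m : ℕ} (hm : m ≠ 0) {x : Pic0 K F} (hx : m • x = 0) :
    graphOrd S m x = 0 ↔ x ∈ natSub S m :=
  ⟨mem_natSub_of_graphOrd_eq_zero hN hF hFt hm hx, graphOrd_eq_zero_of_mem_natSub hF⟩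

/-- Conservation at a node, class form: for a class of the finite part the orders of a residue at
the two branches of a node are both divisible by `m` (no hypothesis `NodeCons` needed), and under
`NodeCons` divisibility at one branch gives divisibility at the other. -/
theorem dvd_ord_tgt_iff (hN : NodeCons S) {m : ℕ} {x : Pic0 K F}
    {D : Divisor.degZero (K := K) (F := F)} {f : F} (hR : IsRep m x D f) (e : ν)
    {g₁ : Ft (S.src e)} {g₂ : Ft (S.tgt e)} (hg₁ : IsResidue S (S.src e) f g₁)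
    (hg₂ : IsResidue S (S.tgt e) f g₂) :
    (m : ℤ) ∣ (S.s₁ e).ord g₁ ↔ (m : ℤ) ∣ (S.s₂ e).ord g₂ := by
  have h5 := hN e f g₁ g₂ hg₁ hg₂ (m • (D : Divisor K F)) (fun P => hR.2.2 P)
  rw [Finsupp.mapDomain_smul, Finsupp.smul_apply, nsmul_eq_mul] at h5
  constructor
  · intro h
    have h6 : (S.s₂ e).ord g₂ = (m : ℤ) * _ - (S.s₁ e).ord g₁ := eq_sub_of_add_eq' h5
    rw [h6]
    exact dvd_sub (dvd_mul_right _ _) h
  · intro h
    have h6 : (S.s₁ e).ord g₁ = (m : ℤ) * _ - (S.s₂ e).ord g₂ := eq_sub_of_add_eq h5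
    rw [h6]
    exact dvd_sub (dvd_mul_right _ _) h

end Fermat.Agent.BR3.FiltMaps
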