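import Mathlib
import Fermat.Agent.BR2.Filtration
import Fermat.Agent.BR.SS.Push
import Fermat.Agent.BR.SS.NormalForm
import Fermat.Agent.BR.SS.UnitNorm
import Fermat.Agent.BR3.PlaceIso
import Fermat.Agent.BR3.FiltPerm
import Fermat.Agent.BR3.FiltMaps

/-!
# Program C (S36), node (C-NTK-GL): the toric third, on the base model

`S : SS.SemistableSetup A π ι Ft ν` a semistable valued function field `F/K`, `m ≠ 0`.

* `IsGood S m z D f u` : `(D, f)` represents the class `z` killed by `m`, `D` is supported on places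
  with smooth reduction, and on every component `v` the function `u v` has divisor the reduction
  of `D` on `v` (in particular order `0` at all branch points) and `c · (u v) ^ m` is a residue of
  `f` (a rational section, regular and invertible at the nodes, of the multidegree zero line
  bundle of a toric class);
* the *value cochain* of a good representative: `ξ e = u (tgt e) (s₂ e) / u (src e) (s₁ e)`
  (`IsGood.exists_values`), used division-free;
* `nsmul_eq_zero_of_coboundary` : if `ξ ^ C` is a coboundary then `C • z = 0`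
  (from `SS.NoTorsionInKernel S`, no refined model);
* `exists_unit_const_of_smooth` : a function with smooth divisor whose residues have order zero at
  the branch points has ONE Gauss constant on all components and matching values at the nodes;
* `IsGood.exists_coboundary` : two good representatives of the same class have value cochains
  differing by a coboundary;
* `ActsOn S g p a`, `IsGood.smul` : equivariance under an automorphism permuting the components;
* `TorGood S m` : the named hypothesis "every class of the toric part has a good representative".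
-/

set_option autoImplicit false
set_option linter.unusedVariables false
set_option linter.unusedSectionVars false

namespace Fermat.Agent.BR3.TorGlue

open AlgebraicCurve Fermat.Agent.Red Fermat.Agent.BR.SS Fermat.Agent.BR2.Filt
  Fermat.Agent.BR3.PlaceIso Fermat.Agent.BR3.FiltPerm Fermat.Agent.BR3.FiltMaps
  Fermat.Agent.BR2.G5 Fermat.Agent.X0

variable {K F k : Type*} [Field K] [Field F] [Algebra K F] [Field k]
  {A : ValuationSubring K} {π : A →+* k} {ι : Type*} {Ft : ι → Type*}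
  [∀ v, Field (Ft v)] [∀ v, Algebra k (Ft v)] {ν : Type*}
  {S : SemistableSetup (F := F) A π ι Ft ν}

/-! ### good representatives -/

variable (S) in
/-- `(D, f, u)` is a good representative of the class `z`. -/
structure IsGood (m : ℕ) (z : Pic0 K F) (D : Divisor.degZero (K := K) (F := F)) (f : F)
    (u : ∀ v, Ft v) : Prop where
  isRep : IsRep m z D f
  smooth : ∀ P ∈ (D : Divisor K F).support, S.IsSmoothPlace P
  u_ne : ∀ v, u v ≠ 0
  ord_u : ∀ v (Q : Place k (Ft v)), Q.ord (u v) = S.push (D : Divisor K F) v Q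
  res : ∀ v, ∃ c : k, c ≠ 0 ∧ IsResidue S v f (algebraMap k (Ft v) c * u v ^ m)

variable (S) in
/-- **The named hypothesis of the toric third**: every class of the toric part has a good
representative (a moving lemma). -/
def TorGood (m : ℕ) : Prop :=
  ∀ z ∈ torSub S m, ∃ (D : Divisor.degZero (K := K) (F := F)) (f : F) (u : ∀ v, Ft v),
    IsGood S m z D f u

/-- a function of order zero at a place of degree one has a nonzero value there -/
theorem exists_value_of_ord_eq_zero {L : Type*} [Field L] [Algebra k L] {Q : Place k L}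
    (hdeg : Q.deg = 1) {g : L} (hg : g ≠ 0) (h0 : Q.ord g = 0) :
    ∃ c : k, c ≠ 0 ∧ IsValueAt Q g c := by
  obtain ⟨c, hc⟩ := exists_isValueAt Q hdeg (Place.mem_of_ord_nonneg Q (le_of_eq h0.symm))
  exact ⟨c, value_ne_zero_of_ord_eq_zero hc hg h0, hc⟩

theorem IsGood.ord_src {m : ℕ} {z : Pic0 K F} {D : Divisor.degZero (K := K) (F := F)} {f : F}
    {u : ∀ v, Ft v} (h : IsGood S m z D f u) (e : ν) : (S.s₁ e).ord (u (S.src e)) = 0 := by
  rw [h.ord_u, S.push_apply_src h.smooth]

theorem IsGood.ord_tgt {m : ℕ} {z : Pic0 K F} {D : Divisor.degZero (K := K) (F := F)} {f : F}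
    {u : ∀ v, Ft v} (h : IsGood S m z D f u) (e : ν) : (S.s₂ e).ord (u (S.tgt e)) = 0 := by
  rw [h.ord_u, S.push_apply_tgt h.smooth]

/-- the values of a good representative at the branches of the nodes -/
theorem IsGood.exists_values (hFt : ∀ v, RiemannPkg k (Ft v)) {m : ℕ} {z : Pic0 K F}
    {D : Divisor.degZero (K := K) (F := F)} {f : F} {u : ∀ v, Ft v} (h : IsGood S m z D f u) :
    ∃ a b : ν → k, (∀ e, a e ≠ 0 ∧ IsValueAt (S.s₁ e) (u (S.src e)) (a e)) ∧
      ∀ e, b e ≠ 0 ∧ IsValueAt (S.s₂ e) (u (S.tgt e)) (b e) := by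
  choose a ha using fun e => exists_value_of_ord_eq_zero ((hFt _).deg_one (S.s₁ e))
    (h.u_ne (S.src e)) (h.ord_src e)
  choose b hb using fun e => exists_value_of_ord_eq_zero ((hFt _).deg_one (S.s₂ e))
    (h.u_ne (S.tgt e)) (h.ord_tgt e)
  exact ⟨a, b, ha, hb⟩

/-! ### the kill -/

/-- **If the `C`-th power of the value cochain is a coboundary then `C` kills the class.** -/
theorem nsmul_eq_zero_of_coboundary (hS : NoTorsionInKernel S) {m : ℕ} (hm : (m : k) ≠ 0)
    {z : Pic0 K F} {D : Divisor.degZero (K := K) (F := F)} {f : F} {u : ∀ v, Ft v}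
    (h : IsGood S m z D f u) (C : ℕ) (a b : ν → k)
    (ha : ∀ e, IsValueAt (S.s₁ e) (u (S.src e)) (a e))
    (hb : ∀ e, IsValueAt (S.s₂ e) (u (S.tgt e)) (b e))
    (κ : ι → k) (hκ : ∀ v, κ v ≠ 0)
    (hcob : ∀ e, b e ^ C * κ (S.src e) = a e ^ C * κ (S.tgt e)) : C • z = 0 := by
  classical
  obtain ⟨hz, hf, hD⟩ := h.isRep
  subst hz
  show Pic0.mk (C • D) = 0
  rw [mk_eq_zero_iff]
  show C • (D : Divisor K F) ∈ _
  refine hS m hm (C • (D : Divisor K F)) ?_ ?_ ?_
  · intro P hP
    exact h.smooth P (Finsupp.support_smul hP)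
  · rw [smul_comm]
    have hmD : m • (D : Divisor K F) ∈ Divisor.principal (K := K) (F := F) :=
      ⟨f, hf, fun P => hD P⟩
    exact nsmul_mem hmD C
  · refine ⟨fun v => algebraMap k (Ft v) (κ v)⁻¹ * u v ^ C, fun v => ?_, fun v Q => ?_,
      fun e => ?_⟩
    · exact mul_ne_zero ((map_ne_zero _).mpr (inv_ne_zero (hκ v))) (pow_ne_zero C (h.u_ne v))
    · rw [Q.ord_mul ((map_ne_zero _).mpr (inv_ne_zero (hκ v))) (pow_ne_zero C (h.u_ne v)),
        Place.ord_algebraMap Q, zero_add, Place.ord_pow Q, h.ord_u, S.push_apply,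
        Finsupp.mapDomain_smul, Finsupp.smul_apply, nsmul_eq_mul]
    · refine ⟨(κ (S.src e))⁻¹ * a e ^ C,
        (isValueAt_algebraMap _ _).mul ((ha e).pow C), ?_⟩
      have h1 : (κ (S.src e))⁻¹ * a e ^ C = (κ (S.tgt e))⁻¹ * b e ^ C := by
        have := hcob e
        have h2 := hκ (S.src e)
        have h3 := hκ (S.tgt e)
        field_simp
        linear_combination -this
      rw [h1]
      exact (isValueAt_algebraMap _ _).mul ((hb e).pow C)

/-! ### one Gauss constant -/

/-- a value of the zero function is zero -/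
theorem value_zero_eq {L : Type*} [Field L] [Algebra k L] {Q : Place k L} {c : k}
    (h : IsValueAt Q (0 : L) c) : c = 0 :=
  h.unique (isValueAt_zero Q)

/-- At a node, the two Gauss constants of a function without zeros or poles in the annulus,
whose residues have order zero at the two branches, differ by a unit of `A`. -/
theorem unit_ratio_of_node (hFt : ∀ v, RiemannPkg k (Ft v)) {t : F} (e : ν)
    (hann : ∀ P, S.r P = ⟨S.src e, S.s₁ e⟩ → P.ord t = 0)
    {c₁ c₂ : K} (hc₁ : c₁ ≠ 0) (hc₂ : c₂ ≠ 0)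
    (hm₁ : c₁ • t ∈ S.O (S.src e)) (hm₂ : c₂ • t ∈ S.O (S.tgt e))
    (h1 : (S.s₁ e).ord (S.resF (S.src e) (c₁ • t)) = 0)
    (h2 : (S.s₂ e).ord (S.resF (S.tgt e) (c₂ • t)) = 0)
    (hne₁ : S.resF (S.src e) (c₁ • t) ≠ 0) (hne₂ : S.resF (S.tgt e) (c₂ • t) ≠ 0) :
    c₂ / c₁ ∈ A ∧ c₁ / c₂ ∈ A := by
  have key : ∀ {r : K}, r ∈ A → r * c₁ = c₂ → r⁻¹ ∈ A := by
    intro r hr hrc
    -- `y = c₂ • t = r • (c₁ • t)` lies in both rings
    have hy : c₂ • t = r • (c₁ • t) := by rw [smul_smul, hrc]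
    have hmem₁ : c₂ • t ∈ S.O (S.src e) := by rw [hy]; exact S.smul_mem_O _ hr hm₁
    obtain ⟨c, hv1, hv2⟩ := S.node_match e (c₂ • t) hmem₁ hm₂ (fun P hP => by
      rw [Fermat.Agent.Red.NormalForm.ord_const_smul P hc₂, hann P hP])
    rw [← S.resF_of_mem hmem₁] at hv1
    rw [← S.resF_of_mem hm₂] at hv2
    have hc0 : c ≠ 0 := value_ne_zero_of_ord_eq_zero hv2 hne₂ h2
    have hπ : π ⟨r, hr⟩ ≠ 0 := by
      intro h0
      rw [hy, S.resF_smul _ hr hm₁, h0, zero_smul] at hv1
      exact hc0 (value_zero_eq hv1)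
    by_contra hinv
    exact hπ (S.pi_eq_zero_of_inv_not_mem (S.src e) hr hinv)
  have key' : ∀ {r : K}, r ∈ A → r * c₂ = c₁ → r⁻¹ ∈ A := by
    intro r hr hrc
    have hy : c₁ • t = r • (c₂ • t) := by rw [smul_smul, hrc]
    have hmem₂ : c₁ • t ∈ S.O (S.tgt e) := by rw [hy]; exact S.smul_mem_O _ hr hm₂
    obtain ⟨c, hv1, hv2⟩ := S.node_match e (c₁ • t) hm₁ hmem₂ (fun P hP => by
      rw [Fermat.Agent.Red.NormalForm.ord_const_smul P hc₁, hann P hP])
    rw [← S.resF_of_mem hm₁] at hv1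
    rw [← S.resF_of_mem hmem₂] at hv2
    have hc0 : c ≠ 0 := value_ne_zero_of_ord_eq_zero hv1 hne₁ h1
    have hπ : π ⟨r, hr⟩ ≠ 0 := by
      intro h0
      rw [hy, S.resF_smul _ hr hm₂, h0, zero_smul] at hv2
      exact hc0 (value_zero_eq hv2)
    by_contra hinv
    exact hπ (S.pi_eq_zero_of_inv_not_mem (S.src e) hr hinv)
  rcases A.mem_or_inv_mem (c₂ / c₁) with h | h
  · refine ⟨h, ?_⟩
    have := key h (by field_simp)
    rwa [inv_div] at this
  · rw [inv_div] at h
    refine ⟨?_, h⟩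
    have := key' h (by field_simp)
    rwa [inv_div] at this

/-- **One Gauss constant.** A function `t` without zeros or poles at the annular places whose
residues on the components have order zero at all branch points has ONE Gauss constant `c₀` on
all components: `c₀ • t` is a unit of every `O v`, its residues are constant multiples of the given
ones, and their values at the two branches of every node agree. -/
theorem exists_unit_const_of_smooth (hFt : ∀ v, RiemannPkg k (Ft v)) (v₀ : ι) {t : F}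
    (hann : ∀ P, ¬ S.IsSmoothPlace P → P.ord t = 0)
    (τ : ∀ v, Ft v) (hτ : ∀ v, IsResidue S v t (τ v))
    (h1 : ∀ e, (S.s₁ e).ord (τ (S.src e)) = 0) (h2 : ∀ e, (S.s₂ e).ord (τ (S.tgt e)) = 0) :
    ∃ c₀ : K, c₀ ≠ 0 ∧ c₀ • t ∈ S.Oall ∧
      (∀ v, ∃ a : k, a ≠ 0 ∧ S.resF v (c₀ • t) = algebraMap k (Ft v) a * τ v) ∧
      S.MatchAt (S.resAll (c₀ • t)) := by
  have hτ' : ∀ v, ∃ c : K, c ≠ 0 ∧ ∃ h : c • t ∈ S.O v, S.res v ⟨c • t, h⟩ = τ v :=
    fun v => (hτ v).2
  choose c hc hm hr using hτ'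
  have hres : ∀ v, S.resF v (c v • t) = τ v := fun v => by rw [S.resF_of_mem (hm v), hr v]
  have hτ0 : ∀ v, τ v ≠ 0 := fun v => (hτ v).1
  have hannr : ∀ e P, S.r P = ⟨S.src e, S.s₁ e⟩ → P.ord t = 0 := fun e P hP =>
    hann P ((S.not_isSmoothPlace_iff P).mpr ⟨e, hP⟩)
  have hnode : ∀ e, c (S.tgt e) / c (S.src e) ∈ A ∧ c (S.src e) / c (S.tgt e) ∈ A := fun e =>
    unit_ratio_of_node hFt e (hannr e) (hc _) (hc _) (hm _) (hm _)
      (by rw [hres]; exact h1 e) (by rw [hres]; exact h2 e)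
      (by rw [hres]; exact hτ0 _) (by rw [hres]; exact hτ0 _)
  -- all Gauss constants differ from `c v₀` by units
  have hT : {v | c v / c v₀ ∈ A ∧ c v₀ / c v ∈ A} = Set.univ := by
    refine S.connected _ ⟨v₀, ?_⟩ fun e => ?_
    · show c v₀ / c v₀ ∈ A ∧ c v₀ / c v₀ ∈ A
      rw [div_self (hc v₀)]
      exact ⟨A.one_mem, A.one_mem⟩
    · obtain ⟨ha, hb⟩ := hnode e
      have hs := hc (S.src e)
      have ht := hc (S.tgt e)
      have h0 := hc v₀
      constructor
      · rintro ⟨h3, h4⟩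
        refine ⟨?_, ?_⟩
        · have : c (S.tgt e) / c v₀ = (c (S.tgt e) / c (S.src e)) * (c (S.src e) / c v₀) := by
            field_simp
          rw [this]
          exact A.mul_mem _ _ ha h3
        · have : c v₀ / c (S.tgt e) = (c v₀ / c (S.src e)) * (c (S.src e) / c (S.tgt e)) := by
            field_simp
          rw [this]
          exact A.mul_mem _ _ h4 hb
      · rintro ⟨h3, h4⟩
        refine ⟨?_, ?_⟩
        · have : c (S.src e) / c v₀ = (c (S.src e) / c (S.tgt e)) * (c (S.tgt e) / c v₀) := by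
            field_simp
          rw [this]
          exact A.mul_mem _ _ hb h3
        · have : c v₀ / c (S.src e) = (c v₀ / c (S.tgt e)) * (c (S.tgt e) / c (S.src e)) := by
            field_simp
          rw [this]
          exact A.mul_mem _ _ h4 ha
  have hall : ∀ v, c v / c v₀ ∈ A ∧ c v₀ / c v ∈ A := fun v => by
    have : v ∈ {v | c v / c v₀ ∈ A ∧ c v₀ / c v ∈ A} := by rw [hT]; exact Set.mem_univ v
    exact this
  have heq : ∀ v, c v₀ • t = (c v₀ / c v) • (c v • t) := fun v => by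
    rw [smul_smul, div_mul_cancel₀ _ (hc v)]
  have hmem : ∀ v, c v₀ • t ∈ S.O v := fun v => by
    rw [heq v]
    exact S.smul_mem_O v (hall v).2 (hm v)
  refine ⟨c v₀, hc v₀, S.mem_Oall.mpr hmem, fun v => ?_, fun e => ?_⟩
  · refine ⟨π ⟨c v₀ / c v, (hall v).2⟩, ?_, ?_⟩
    · refine S.pi_ne_zero_of_unit v (hall v).2 ?_ (div_ne_zero (hc v₀) (hc v))
      rw [inv_div]
      exact (hall v).1
    · rw [heq v, S.resF_smul v (hall v).2 (hm v), hres v, Algebra.smul_def]
  · obtain ⟨a, hv1, hv2⟩ := S.node_match e (c v₀ • t) (hmem _) (hmem _) (fun P hP => by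
      rw [Fermat.Agent.Red.NormalForm.ord_const_smul P (hc v₀), hannr e P hP])
    refine ⟨a, ?_, ?_⟩
    · show IsValueAt _ (S.resF _ _) a
      rw [S.resF_of_mem (hmem _)]
      exact hv1
    · show IsValueAt _ (S.resF _ _) a
      rw [S.resF_of_mem (hmem _)]
      exact hv2

/-! ### the value cochain is well defined up to a coboundary -/

/-- **Two good representatives of the same class have value cochains differing by a
coboundary.** -/
theorem IsGood.exists_coboundary (hF : RiemannPkg K F) (hFt : ∀ v, RiemannPkg k (Ft v))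
    (v₀ : ι) {m : ℕ} (hm : m ≠ 0) {z : Pic0 K F} {D D' : Divisor.degZero (K := K) (F := F)}
    {f f' : F} {u u' : ∀ v, Ft v} (h : IsGood S m z D f u) (h' : IsGood S m z D' f' u') :
    ∃ κ : ι → k, (∀ v, κ v ≠ 0) ∧ ∀ (e : ν) (a b a' b' : k),
      IsValueAt (S.s₁ e) (u (S.src e)) a → IsValueAt (S.s₂ e) (u (S.tgt e)) b →
      IsValueAt (S.s₁ e) (u' (S.src e)) a' → IsValueAt (S.s₂ e) (u' (S.tgt e)) b' →
      b' * a * κ (S.src e) = a' * b * κ (S.tgt e) := by
  classical
  have hm' : (m : ℤ) ≠ 0 := by exact_mod_cast hm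
  obtain ⟨t, b₀, ht, hb₀, hf', hDt⟩ := isRep_unique hF h.isRep h'.isRep
  -- `t` has no zeros or poles at the annular places
  have hann : ∀ P, ¬ S.IsSmoothPlace P → P.ord t = 0 := by
    intro P hP
    have h1 : (D : Divisor K F) P = 0 := by
      by_contra hne
      exact hP (h.smooth P (Finsupp.mem_support_iff.mpr hne))
    have h2 : (D' : Divisor K F) P = 0 := by
      by_contra hne
      exact hP (h'.smooth P (Finsupp.mem_support_iff.mpr hne))
    have := hDt P
    rw [h1, h2] at this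
    linarith
  -- residues of `t`
  choose τ hτ using fun v => exists_isResidue (S := S) v ht
  -- the relation `u' = κ · u · τ`
  have hrel : ∀ v, ∃ κ : k, κ ≠ 0 ∧ u' v = algebraMap k (Ft v) κ * (u v * τ v) := by
    intro v
    obtain ⟨c, hc, hres⟩ := h.res v
    obtain ⟨c', hc', hres'⟩ := h'.res v
    have h1 : IsResidue S v f' (algebraMap k (Ft v) c * u v ^ m * τ v ^ m) := by
      rw [hf']
      exact isResidue_const_mul (hres.mul (isResidue_pow (hτ v) m)) hb₀
    obtain ⟨a, ha, hga⟩ := isResidue_unique h1 hres'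
    have hu0 := h.u_ne v
    have hu'0 := h'.u_ne v
    have hτ0 : τ v ≠ 0 := (hτ v).ne_zero
    have hw0 : u' v / (u v * τ v) ≠ 0 := div_ne_zero hu'0 (mul_ne_zero hu0 hτ0)
    have hord : ∀ Q : Place k (Ft v), Q.ord (u' v) = Q.ord (u v) + Q.ord (τ v) := by
      intro Q
      have h2 := congrArg Q.ord hga
      rw [Q.ord_mul ((map_ne_zero _).mpr hc') (pow_ne_zero m hu'0), Place.ord_algebraMap Q,
        zero_add, Place.ord_pow Q,
        Q.ord_mul ((map_ne_zero _).mpr ha) (mul_ne_zero (mul_ne_zero ((map_ne_zero _).mpr hc)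
          (pow_ne_zero m hu0)) (pow_ne_zero m hτ0)), Place.ord_algebraMap Q, zero_add,
        Q.ord_mul (mul_ne_zero ((map_ne_zero _).mpr hc) (pow_ne_zero m hu0)) (pow_ne_zero m hτ0),
        Q.ord_mul ((map_ne_zero _).mpr hc) (pow_ne_zero m hu0), Place.ord_algebraMap Q, zero_add,
        Place.ord_pow Q, Place.ord_pow Q, ← mul_add] at h2
      exact mul_left_cancel₀ hm' h2
    obtain ⟨κ, hκ⟩ := exists_const_of_forall_ord_nonneg (hFt v) (f := u' v / (u v * τ v))
      (fun Q => by
        rw [div_eq_mul_inv, Q.ord_mul hu'0 (inv_ne_zero (mul_ne_zero hu0 hτ0)), Q.ord_inv,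
          Q.ord_mul hu0 hτ0, hord Q]
        simp)
    refine ⟨κ, ?_, ?_⟩
    · rintro rfl
      rw [map_zero] at hκ
      exact hw0 hκ
    · rw [← hκ, div_mul_cancel₀ _ (mul_ne_zero hu0 hτ0)]
  choose κ hκ0 hκ using hrel
  -- orders of `τ` at the branch points
  have hordτ : ∀ v (Q : Place k (Ft v)), Q.ord (τ v) = Q.ord (u' v) - Q.ord (u v) := by
    intro v Q
    have hτ0 : τ v ≠ 0 := (hτ v).ne_zero
    rw [hκ v, Q.ord_mul ((map_ne_zero _).mpr (hκ0 v)) (mul_ne_zero (h.u_ne v) hτ0),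
      Place.ord_algebraMap Q, zero_add, Q.ord_mul (h.u_ne v) hτ0]
    ring
  have h1 : ∀ e, (S.s₁ e).ord (τ (S.src e)) = 0 := fun e => by
    rw [hordτ, h.ord_src, h'.ord_src, sub_zero]
  have h2 : ∀ e, (S.s₂ e).ord (τ (S.tgt e)) = 0 := fun e => by
    rw [hordτ, h.ord_tgt, h'.ord_tgt, sub_zero]
  obtain ⟨c₀, hc₀, hmem, hσ, hmatch⟩ := exists_unit_const_of_smooth hFt v₀ hann τ hτ h1 h2
  choose α hα0 hα using hσ
  refine ⟨fun v => κ v / α v, fun v => div_ne_zero (hκ0 v) (hα0 v), ?_⟩
  intro e a b a' b' ha hb ha' hb'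
  obtain ⟨s, hs1, hs2⟩ := hmatch e
  -- `u' = (κ / α) · u · σ`
  have hu'σ : ∀ v, u' v = algebraMap k (Ft v) (κ v / α v) * (u v * S.resF v (c₀ • t)) := by
    intro v
    rw [hκ v, hα v, map_div₀]
    have : algebraMap k (Ft v) (α v) ≠ 0 := (map_ne_zero _).mpr (hα0 v)
    field_simp
  have e1 : a' = κ (S.src e) / α (S.src e) * (a * s) := by
    refine ha'.unique ?_
    rw [hu'σ (S.src e)]
    exact (isValueAt_algebraMap _ _).mul (ha.mul hs1)
  have e2 : b' = κ (S.tgt e) / α (S.tgt e) * (b * s) := by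
    refine hb'.unique ?_
    rw [hu'σ (S.tgt e)]
    exact (isValueAt_algebraMap _ _).mul (hb.mul hs2)
  rw [e1, e2]
  ring

/-! ### equivariance -/

variable (S) in
/-- `g` acts on the semistable setup: it maps the component `v` to `p v` through
`a v : Ft v ≃ₐ[k] Ft (p v)`, compatibly with the reduction of places and with the branch points. -/
structure ActsOn (g : SemilinearAut K F) (p : Equiv.Perm ι) (a : ∀ v, Ft v ≃ₐ[k] Ft (p v)) :
    Prop where
  maps : ∀ v, MapsComp S g v (p v) (a v)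
  r_smul : ∀ P : Place K F,
    S.r (g • P) = ⟨p (S.r P).1, placeMap (a (S.r P).1) (S.r P).2⟩
  branch : ∀ (v : ι) (Q : Place k (Ft v)),
    S.IsBranch ⟨v, Q⟩ ↔ S.IsBranch ⟨p v, placeMap (a v) Q⟩

/-- the map induced on the points of the special fibre -/
def sigmaMap (p : Equiv.Perm ι) (a : ∀ v, Ft v ≃ₐ[k] Ft (p v)) :
    (Σ v, Place k (Ft v)) → Σ v, Place k (Ft v) :=
  fun x => ⟨p x.1, placeMap (a x.1) x.2⟩

theorem sigmaMap_injective (p : Equiv.Perm ι) (a : ∀ v, Ft v ≃ₐ[k] Ft (p v)) :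
    Function.Injective (sigmaMap (k := k) p a) := by
  rintro ⟨v, Q⟩ ⟨w, Q'⟩ h
  obtain ⟨h1, h2⟩ := Sigma.mk.inj_iff.mp h
  have hvw : v = w := p.injective h1
  subst hvw
  have h3 : placeMap (a v) Q = placeMap (a v) Q' := eq_of_heq h2
  rw [placeMap_injective (a v) h3]

theorem ActsOn.isSmoothPlace {g : SemilinearAut K F} {p : Equiv.Perm ι}
    {a : ∀ v, Ft v ≃ₐ[k] Ft (p v)} (hA : ActsOn S g p a) {P : Place K F}
    (hP : S.IsSmoothPlace P) : S.IsSmoothPlace (g • P) := by
  unfold SemistableSetup.IsSmoothPlace at hP ⊢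
  rw [hA.r_smul P]
  intro hb
  apply hP
  have : S.r P = ⟨(S.r P).1, (S.r P).2⟩ := rfl
  rw [this]
  exact (hA.branch _ _).mpr hb

/-- the reduction of `g • D` -/
theorem ActsOn.push_smul {g : SemilinearAut K F} {p : Equiv.Perm ι}
    {a : ∀ v, Ft v ≃ₐ[k] Ft (p v)} (hA : ActsOn S g p a) (D : Divisor K F) (v : ι)
    (Q : Place k (Ft v)) :
    S.push (g • D) (p v) (placeMap (a v) Q) = S.push D v Q := by
  rw [S.push_apply, S.push_apply, SemilinearAut.divisor_smul_def, ← Finsupp.mapDomain_comp]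
  have h1 : S.r ∘ (fun P : Place K F => g • P) = sigmaMap p a ∘ S.r := by
    funext P
    exact hA.r_smul P
  rw [h1, Finsupp.mapDomain_comp]
  exact Finsupp.mapDomain_apply (sigmaMap_injective p a) _ (⟨v, Q⟩ : Σ v, Place k (Ft v))

/-- **Equivariance of good representatives.** -/
theorem IsGood.smul {g : SemilinearAut K F} {p : Equiv.Perm ι}
    {a : ∀ v, Ft v ≃ₐ[k] Ft (p v)} (hA : ActsOn S g p a) {m : ℕ} {z : Pic0 K F}
    {D : Divisor.degZero (K := K) (F := F)} {f : F} {u : ∀ v, Ft v} (h : IsGood S m z D f u) :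
    IsGood S m (g • z) (SemilinearAut.degZeroSMulHom g D) (g • f)
      (Equiv.piCongrLeft Ft p fun v => a v (u v)) where
  isRep := h.isRep.smul g
  smooth := by
    intro P hP
    rw [SemilinearAut.coe_degZeroSMulHom, Finsupp.mem_support_iff,
      SemilinearAut.divisor_smul_apply] at hP
    have := hA.isSmoothPlace (h.smooth _ (Finsupp.mem_support_iff.mpr hP))
    rwa [smul_inv_smul] at this
  u_ne := by
    intro w
    obtain ⟨v, rfl⟩ := p.surjective w
    rw [Equiv.piCongrLeft_apply_apply]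
    simpa using h.u_ne v
  ord_u := by
    intro w Q
    obtain ⟨v, rfl⟩ := p.surjective w
    rw [Equiv.piCongrLeft_apply_apply, SemilinearAut.coe_degZeroSMulHom]
    have hQ : Q = placeMap (a v) (placeMap (a v).symm Q) := (placeMap_placeMap_symm _ _).symm
    rw [hQ, ord_placeMap, hA.push_smul, h.ord_u]
  res := by
    intro w
    obtain ⟨v, rfl⟩ := p.surjective w
    obtain ⟨c, hc, hres⟩ := h.res v
    refine ⟨c, hc, ?_⟩
    have := isResidue_mapsComp (hA.maps v) hres
    rwa [map_mul, map_pow, AlgEquiv.commutes, ← Equiv.piCongrLeft_apply_apply Ft p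
      (fun v => a v (u v)) v] at this

/-- the transported family at the image component -/
theorem piCongrLeft_apply (p : Equiv.Perm ι) (a : ∀ v, Ft v ≃ₐ[k] Ft (p v)) (u : ∀ v, Ft v)
    (v : ι) : (Equiv.piCongrLeft Ft p fun v => a v (u v)) (p v) = a v (u v) :=
  Equiv.piCongrLeft_apply_apply Ft p _ v

/-- transport of values along the action -/
theorem isValueAt_transport (p : Equiv.Perm ι) (a : ∀ v, Ft v ≃ₐ[k] Ft (p v)) (u : ∀ v, Ft v)
    {x y : Σ v, Place k (Ft v)} (hxy : y = sigmaMap p a x) {c : k}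
    (hc : IsValueAt x.2 (u x.1) c) :
    IsValueAt y.2 ((Equiv.piCongrLeft Ft p fun v => a v (u v)) y.1) c := by
  subst hxy
  show IsValueAt (placeMap (a x.1) x.2) ((Equiv.piCongrLeft Ft p fun v => a v (u v)) (p x.1)) c
  rw [piCongrLeft_apply]
  exact isValueAt_placeMap hc

/-- **Invariance of the value cochain** (the hypothesis `hinv` of the graph lemma): if `g` acts on
the setup, maps the node `e` to the node `pν e`, and fixes the class `z`, then the value cochain
of a good representative and its transport along `pν` differ by a coboundary. -/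
theorem IsGood.exists_coboundary_of_fixed (hF : RiemannPkg K F) (hFt : ∀ v, RiemannPkg k (Ft v))
    (v₀ : ι) {m : ℕ} (hm : m ≠ 0) {g : SemilinearAut K F} {p : Equiv.Perm ι}
    {a : ∀ v, Ft v ≃ₐ[k] Ft (p v)} (hA : ActsOn S g p a) {z : Pic0 K F}
    {D : Divisor.degZero (K := K) (F := F)} {f : F} {u : ∀ v, Ft v} (h : IsGood S m z D f u)
    (hz : g • z = z) (pν : ν → ν)
    (hs₁ : ∀ e, (⟨S.src (pν e), S.s₁ (pν e)⟩ : Σ v, Place k (Ft v)) =
      sigmaMap p a ⟨S.src e, S.s₁ e⟩)
    (hs₂ : ∀ e, (⟨S.tgt (pν e), S.s₂ (pν e)⟩ : Σ v, Place k (Ft v)) =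
      sigmaMap p a ⟨S.tgt e, S.s₂ e⟩)
    (av bv : ν → k) (ha : ∀ e, IsValueAt (S.s₁ e) (u (S.src e)) (av e))
    (hb : ∀ e, IsValueAt (S.s₂ e) (u (S.tgt e)) (bv e)) :
    ∃ κ : ι → k, (∀ v, κ v ≠ 0) ∧
      ∀ e, bv e * av (pν e) * κ (S.src (pν e)) = av e * bv (pν e) * κ (S.tgt (pν e)) := by
  have h' := h.smul hA
  rw [hz] at h'
  obtain ⟨κ, hκ, hcob⟩ := h.exists_coboundary hF hFt v₀ hm h'
  refine ⟨κ, hκ, fun e => ?_⟩
  exact hcob (pν e) (av (pν e)) (bv (pν e)) (av e) (bv e) (ha _) (hb _)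
    (isValueAt_transport p a u (x := ⟨S.src e, S.s₁ e⟩) (y := ⟨S.src (pν e), S.s₁ (pν e)⟩)
      (hs₁ e) (ha e))
    (isValueAt_transport p a u (x := ⟨S.tgt e, S.s₂ e⟩) (y := ⟨S.tgt (pν e), S.s₂ (pν e)⟩)
      (hs₂ e) (hb e))

end Fermat.Agent.BR3.TorGlue
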