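import Mathlib
import Fermat.Agent.BR3.TorGlue
import Fermat.Agent.BR3.InvFiniteNode
import Fermat.Agent.BR3.InvFiniteUnit

/-!
# Program C (S36), node (C-ML), part (ML-d′): `TorGood` from one balanced function

`S₀` a semistable setup with node contracts `N e : Fact.NodeFact S₀ e (u e) (thick e) (TU e)`.

* `BalTube S₀ u thick` : the named hypothesis (C-BAL-D°): for every divisor `D₀` supported in the
  tubes of the nodes, all constants `c v ≠ 0` and integers `n e` which are *balanced* along the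
  nodes, `|c (tgt e)| · |tmom_e D₀| = |c (src e)| · |thick e| ^ (- n e)`, there is a function `t`
  with `c v • t` a unit on every component and `div t = D₀` on the tubes;
* `torGood_of_balTube` : under (C-BAL-D°), every class of the toric part has a good
  representative on the model `S₀` itself (`TorGlue.TorGood S₀ m`).

Proof: one application of (C-BAL-D°).  For a representative `(D, f)` of a toric class with Gauss
constants `γ v` and residues `c_v · w_v ^ m`, the normal forms of `f` at the nodes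
(`InvFiniteNode.exists_nodeNF`) give `b e = m · n e` and
`|γ (tgt e)| · |thick e| ^ (b e) · |tmom_e D| ^ m = |γ (src e)|`; for `m`-th roots `α v` of the
`γ v` the family `c := α⁻¹`, `D₀ := - D` on the tubes, `n := - n` is balanced.  With the function
`t` so obtained, `(D + div t, f · t ^ m)` is a representative supported at smooth places, which is
a unit on every component, and whose residues have order zero at all branch points.
-/

set_option autoImplicit false
set_option linter.unusedVariables false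
set_option linter.unusedSectionVars false

namespace Fermat.Agent.BR3.TorGoodOfBal

open AlgebraicCurve IsLocalRing Fermat.Agent.Red Fermat.Agent.BR.SS Fermat.Agent.BR.Fact
  Fermat.Agent.BR.Refine Fermat.Agent.BR3.InvFiniteMoment Fermat.Agent.BR3.InvFiniteNode
  Fermat.Agent.BR2.Filt Fermat.Agent.BR3.TorGlue Fermat.Agent.BR2.G5

/-! ### tube degrees and moments only depend on the divisor on the tube -/

section Congr

variable {K F : Type*} [Field K] [Field F] [Algebra K F] {T : Set (Place K F)} {u : F}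

theorem tdeg_congr {E E' : Divisor K F} (h : ∀ P ∈ T, E P = E' P) : tdeg T E = tdeg T E' := by
  classical
  unfold tdeg
  rw [Finsupp.sum_of_support_subset E (Finset.subset_union_left (s₂ := E'.support)) _
      (by intros; split_ifs <;> rfl),
    Finsupp.sum_of_support_subset E' (Finset.subset_union_right (s₁ := E.support)) _
      (by intros; split_ifs <;> rfl)]
  refine Finset.sum_congr rfl fun P _ => ?_
  split_ifs with hP
  · exact h P hP
  · rfl

theorem tmom_congr {E E' : Divisor K F} (h : ∀ P ∈ T, E P = E' P) :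
    tmom T u E = tmom T u E' := by
  classical
  unfold tmom
  rw [Finsupp.prod_of_support_subset E (Finset.subset_union_left (s₂ := E'.support)) _
      (by intros; split_ifs <;> simp),
    Finsupp.prod_of_support_subset E' (Finset.subset_union_right (s₁ := E.support)) _
      (by intros; split_ifs <;> simp)]
  refine Finset.prod_congr rfl fun P _ => ?_
  split_ifs with hP
  · rw [h P hP]
  · rfl

theorem tdeg_eq_zero_of_forall {E : Divisor K F} (h : ∀ P ∈ T, E P = 0) : tdeg T E = 0 := by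
  rw [tdeg_congr (E' := 0) (fun P hP => by rw [h P hP, Finsupp.zero_apply]), tdeg_zero]

theorem tmom_eq_one_of_forall {E : Divisor K F} (h : ∀ P ∈ T, E P = 0) : tmom T u E = 1 := by
  rw [tmom_congr (E' := 0) (fun P hP => by rw [h P hP, Finsupp.zero_apply]), tmom_zero]

end Congr

variable {K : Type} {F : Type*} [Field K] [Field F] [Algebra K F]
  {A : ValuationSubring K} [IsAlgClosed (ResidueField A)]
  {ι₀ : Type} {Ft₀ : ι₀ → Type} [∀ v, Field (Ft₀ v)] [∀ v, Algebra (ResidueField A) (Ft₀ v)]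
  {ν₀ : Type}

/-- **The named hypothesis (C-BAL-D°)**: balanced constants and a prescribed divisor on the tubes
are realised by a function which is a unit, up to the given constants, on every component. -/
def BalTube (S₀ : SemistableSetup (F := F) A (residue A) ι₀ Ft₀ ν₀) (u : ν₀ → F)
    (thick : ν₀ → K) : Prop :=
  ∀ (D₀ : Divisor K F) (c : ι₀ → K) (n : ν₀ → ℤ),
    (∀ P ∈ D₀.support, ∃ e, P ∈ tube S₀ e) → (∀ v, c v ≠ 0) →
    (∀ e, A.valuation (c (S₀.tgt e)) * A.valuation (tmom (tube S₀ e) (u e) D₀) =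
      A.valuation (c (S₀.src e)) * A.valuation (thick e) ^ (-n e)) →
    ∃ t : F, t ≠ 0 ∧ (∀ v, S₀.resF v (c v • t) ≠ 0) ∧ ∀ e, ∀ P ∈ tube S₀ e, P.ord t = D₀ P

/-- In a linearly ordered commutative group with zero, `m`-th powers are injective. -/
theorem eq_of_pow_eq_pow {Γ : Type*} [LinearOrderedCommGroupWithZero Γ] {x y : Γ} {m : ℕ}
    (hm : m ≠ 0) (h : x ^ m = y ^ m) : x = y :=
  (pow_left_inj₀ zero_le zero_le hm).mp h

variable {S₀ : SemistableSetup (F := F) A (residue A) ι₀ Ft₀ ν₀}
  {u : ν₀ → F} {thick : ν₀ → K} {TU : ν₀ → F → Prop}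

/-- **`TorGood` from (C-BAL-D°)**: one application of the balanced function with prescribed tube
divisor moves every representative of a toric class to a good one. -/
theorem torGood_of_balTube (N : ∀ e, NodeFact S₀ e (u e) (thick e) (TU e))
    (hF : RiemannPkg K F) (hbal : BalTube S₀ u thick) {m : ℕ} (hm : m ≠ 0)
    (hroot : ∀ x : K, ∃ y : K, y ^ m = x)
    (hthick : ∀ e, A.valuation (thick e) < 1)
    (h1 : ∀ e, (S₀.s₁ e).ord (N e).gaugeSrc.T = 1) : TorGood S₀ m := by
  classical
  have hprin := hF.principal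
  have hmZ : (m : ℤ) ≠ 0 := Int.natCast_ne_zero.mpr hm
  intro z hz
  obtain ⟨D, f, hR, hres⟩ := hz
  choose g hg hgu using hres
  choose w cc hgw using hgu
  have hγ : ∀ v, ∃ γ : K, γ ≠ 0 ∧ ∃ h : γ • f ∈ S₀.O v, S₀.res v ⟨γ • f, h⟩ = g v :=
    fun v => (hg v).2
  choose γ hγ0 hγm hγr using hγ
  have hg0 : ∀ v, g v ≠ 0 := fun v => (hg v).1
  have hcc0 : ∀ v, cc v ≠ 0 := fun v h0 => hg0 v (by rw [hgw v, h0, map_zero, zero_mul])
  have hw0 : ∀ v, w v ≠ 0 := fun v h0 =>
    hg0 v (by rw [hgw v, h0, zero_pow hm, mul_zero])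
  have hccF : ∀ v, algebraMap (ResidueField A) (Ft₀ v) (cc v) ≠ 0 := fun v =>
    (map_ne_zero _).mpr (hcc0 v)
  have hf : f ≠ 0 := hR.2.1
  have hD : ∀ P : Place K F, (m • (D : Divisor K F)) P = P.ord f := hR.2.2
  have hresF : ∀ v, S₀.resF v (γ v • f) = g v := fun v => by
    rw [S₀.resF_of_mem (hγm v), hγr v]
  have hu0 : ∀ e, ∀ P ∈ tube S₀ e, evalAt P (u e) ≠ 0 := fun e => (N e).tubeFact.val_ne
  -- the normal forms of `f` at the nodes
  choose b c hnf using fun e => exists_nodeNF (N e) hf hD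
  have hc0 : ∀ e, c e ≠ 0 := fun e => (hnf e).c_ne
  have hnfs : ∀ e, NodeNF (N e) (γ (S₀.src e) • f) (m • (D : Divisor K F)) (b e)
      (γ (S₀.src e) * c e) := fun e => (hnf e).smul (hγ0 _)
  have hnft : ∀ e, NodeNF (N e) (γ (S₀.tgt e) • f) (m • (D : Divisor K F)) (b e)
      (γ (S₀.tgt e) * c e) := fun e => (hnf e).smul (hγ0 _)
  have hvs : ∀ e, A.valuation (γ (S₀.src e) * c e) = 1 := fun e =>
    (hnfs e).resF_src_ne_zero_iff.mp (by rw [hresF]; exact hg0 _)
  have hvt : ∀ e, A.valuation (γ (S₀.tgt e) * c e * thick e ^ b e *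
      tmom (tube S₀ e) (u e) (m • (D : Divisor K F))) = 1 := fun e =>
    (hnft e).resF_tgt_ne_zero_iff.mp (by rw [hresF]; exact hg0 _)
  -- the exponents are divisible by `m`
  set n : ν₀ → ℤ := fun e => (S₀.s₁ e).ord (w (S₀.src e)) - tdeg (tube S₀ e) (D : Divisor K F)
    with hn
  have hb : ∀ e, b e = m * n e := by
    intro e
    have e1 := (hnfs e).ord_src (hvs e)
    rw [hresF, h1 e, mul_one, hgw, Place.ord_mul _ (hccF _) (pow_ne_zero m (hw0 _)),
      Fermat.Agent.X0.Place.ord_algebraMap, zero_add, Fermat.Agent.X0.Place.ord_pow,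
      tdeg_nsmul] at e1
    rw [hn]
    linear_combination -e1
  -- roots of the Gauss constants
  choose α hα using fun v => hroot (γ v)
  have hα0 : ∀ v, α v ≠ 0 := fun v h0 => hγ0 v (by rw [← hα v, h0, zero_pow hm])
  -- the balance
  have hbalance : ∀ e, A.valuation (α (S₀.src e)) = A.valuation (α (S₀.tgt e)) *
      A.valuation (thick e) ^ n e * A.valuation (tmom (tube S₀ e) (u e) (D : Divisor K F)) := by
    intro e
    apply eq_of_pow_eq_pow hm
    have hcv : A.valuation (c e) ≠ 0 := (Valuation.ne_zero_iff _).mpr (hc0 e)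
    have e1 := hvs e
    have e2 := hvt e
    rw [tmom_nsmul (hu0 e), map_mul, map_mul, map_mul, map_zpow₀, map_pow, hb e, ← hα] at e2
    rw [map_mul, ← hα] at e1
    rw [map_pow] at e1 e2
    rw [mul_pow, mul_pow, ← zpow_natCast (A.valuation (thick e) ^ n e), ← zpow_mul,
      mul_comm (n e) (m : ℤ)]
    have e3 : A.valuation (α (S₀.src e)) ^ m * A.valuation (c e) =
        A.valuation (α (S₀.tgt e)) ^ m * A.valuation (thick e) ^ ((m : ℤ) * n e) *
          A.valuation (tmom (tube S₀ e) (u e) (D : Divisor K F)) ^ m * A.valuation (c e) := by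
      rw [e1, ← e2]
      ac_rfl
    exact mul_right_cancel₀ hcv e3
  -- the tube part of `D`
  set Dres : Divisor K F := Finsupp.filter (fun P => ¬ S₀.IsSmoothPlace P) (D : Divisor K F)
    with hDres
  have hnsm : ∀ e, ∀ P ∈ tube S₀ e, ¬ S₀.IsSmoothPlace P := fun e P hP =>
    (S₀.not_isSmoothPlace_iff P).mpr ⟨e, hP⟩
  have hDres_tube : ∀ e, ∀ P ∈ tube S₀ e, (-Dres) P = -(D : Divisor K F) P := fun e P hP => by
    rw [Finsupp.neg_apply, hDres,
      Finsupp.filter_apply_pos (fun P => ¬ S₀.IsSmoothPlace P) _ (hnsm e P hP)]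
  have hsupp : ∀ P ∈ (-Dres).support, ∃ e, P ∈ tube S₀ e := by
    intro P hP
    rw [Finsupp.support_neg, hDres, Finsupp.support_filter, Finset.mem_filter] at hP
    exact (S₀.not_isSmoothPlace_iff P).mp hP.2
  have htmomres : ∀ e, tmom (tube S₀ e) (u e) (-Dres) =
      (tmom (tube S₀ e) (u e) (D : Divisor K F))⁻¹ := fun e => by
    rw [tmom_congr (E' := -(D : Divisor K F))
      (fun P hP => by rw [hDres_tube e P hP, Finsupp.neg_apply]), tmom_neg (hu0 e)]
  obtain ⟨t, ht0, htres, htord⟩ := hbal (-Dres) (fun v => (α v)⁻¹) (fun e => -n e) hsupp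
    (fun v => inv_ne_zero (hα0 v)) (fun e => by
      have ht : A.valuation (thick e) ^ n e ≠ 0 :=
        zpow_ne_zero _ ((Valuation.ne_zero_iff _).mpr (N e).thick_ne)
      have hM : A.valuation (tmom (tube S₀ e) (u e) (D : Divisor K F)) ≠ 0 :=
        (Valuation.ne_zero_iff _).mpr (tmom_ne_zero (hu0 e) _)
      have ha : A.valuation (α (S₀.tgt e)) ≠ 0 := (Valuation.ne_zero_iff _).mpr (hα0 _)
      rw [htmomres e, map_inv₀, map_inv₀, map_inv₀, neg_neg, hbalance e, mul_inv, mul_inv,
        mul_right_comm _ _ (A.valuation (thick e) ^ n e), mul_assoc _ _ (A.valuation (thick e) ^ n e),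
        inv_mul_cancel₀ ht, mul_one])
  have htord' : ∀ e, ∀ P ∈ tube S₀ e, P.ord t = -(D : Divisor K F) P := fun e P hP => by
    rw [htord e P hP, hDres_tube e P hP]
  -- the new representative
  set Dt : Divisor.degZero (K := K) (F := F) :=
    ⟨divOf K t, Divisor.mem_degZero.mpr (degree_divOf t)⟩ with hDt
  set τ : ∀ v, Ft₀ v := fun v => S₀.resF v ((α v)⁻¹ • t) with hτ
  have hD'coe : ∀ P : Place K F, ((D + Dt : Divisor.degZero (K := K) (F := F)) : Divisor K F) P =
      (D : Divisor K F) P + P.ord t := fun P => by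
    rw [AddSubgroup.coe_add, Finsupp.add_apply, hDt]
    show _ + divOf K t P = _
    rw [divOf_apply]
  have hD'tube : ∀ e, ∀ P ∈ tube S₀ e,
      ((D + Dt : Divisor.degZero (K := K) (F := F)) : Divisor K F) P = 0 := fun e P hP => by
    rw [hD'coe, htord' e P hP, add_neg_cancel]
  have hsmooth : ∀ P ∈ ((D + Dt : Divisor.degZero (K := K) (F := F)) : Divisor K F).support,
      S₀.IsSmoothPlace P := by
    intro P hP
    by_contra hns
    obtain ⟨e, he⟩ := (S₀.not_isSmoothPlace_iff P).mp hns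
    exact (Finsupp.mem_support_iff.mp hP) (hD'tube e P he)
  have hf' : f * t ^ m ≠ 0 := mul_ne_zero hf (pow_ne_zero m ht0)
  have hR' : IsRep m z (D + Dt) (f * t ^ m) := by
    refine ⟨?_, hf', fun P => ?_⟩
    · rw [Pic0.mk_add, hR.1]
      have : Pic0.mk Dt = 0 := by
        rw [mk_eq_zero_iff]
        exact divOf_mem_principal ht0
      rw [this, add_zero]
    · rw [Finsupp.smul_apply, hD'coe, smul_add, P.ord_mul hf (pow_ne_zero m ht0),
        Fermat.Agent.X0.Place.ord_pow, ← hD P, Finsupp.smul_apply, nsmul_eq_mul, nsmul_eq_mul]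
  have hτres : ∀ v, IsResidue S₀ v t (τ v) := fun v =>
    ⟨htres v, (α v)⁻¹, inv_ne_zero (hα0 v), S₀.mem_of_resF_ne_zero (htres v),
      (S₀.resF_of_mem (S₀.mem_of_resF_ne_zero (htres v))).symm⟩
  have hres' : ∀ v, IsResidue S₀ v (f * t ^ m)
      (algebraMap (ResidueField A) (Ft₀ v) (cc v) * (w v * τ v) ^ m) := fun v => by
    have := (hg v).mul (isResidue_pow (hτres v) m)
    rwa [hgw v, mul_assoc, ← mul_pow] at this
  -- the function `f'` is a unit on every component, with residue `c_v (w_v τ_v)^m`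
  have hfeq : ∀ v, f * t ^ m = (γ v • f) * ((α v)⁻¹ • t) ^ m := fun v => by
    rw [smul_pow, smul_mul_smul_comm, inv_pow, hα v, mul_inv_cancel₀ (hγ0 v), one_smul]
  have hresF' : ∀ v, S₀.resF v (f * t ^ m) =
      algebraMap (ResidueField A) (Ft₀ v) (cc v) * (w v * τ v) ^ m := fun v => by
    have hmt : (α v)⁻¹ • t ∈ S₀.O v := S₀.mem_of_resF_ne_zero (htres v)
    rw [hfeq v, S₀.resF_mul (hγm v) ((S₀.O v).pow_mem hmt m), S₀.resF_pow hmt, hresF v, hgw v,
      mul_assoc, ← mul_pow]
  have hwτ0 : ∀ v, w v * τ v ≠ 0 := fun v => mul_ne_zero (hw0 v) (htres v)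
  have hresF'0 : ∀ v, S₀.resF v (f * t ^ m) ≠ 0 := fun v => by
    rw [hresF' v]
    exact mul_ne_zero (hccF v) (pow_ne_zero m (hwτ0 v))
  have hordres : ∀ v (Q : Place (ResidueField A) (Ft₀ v)),
      Q.ord (S₀.resF v (f * t ^ m)) = m * Q.ord (w v * τ v) := fun v Q => by
    rw [hresF' v, Place.ord_mul _ (hccF v) (pow_ne_zero m (hwτ0 v)),
      Fermat.Agent.X0.Place.ord_algebraMap, zero_add, Fermat.Agent.X0.Place.ord_pow]
  -- the normal forms of `f'` at the nodes
  have hD' : ∀ P : Place K F,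
      (m • ((D + Dt : Divisor.degZero (K := K) (F := F)) : Divisor K F)) P = P.ord (f * t ^ m) :=
    hR'.2.2
  have hE'tube : ∀ e, ∀ P ∈ tube S₀ e,
      (m • ((D + Dt : Divisor.degZero (K := K) (F := F)) : Divisor K F)) P = 0 := fun e P hP => by
    rw [Finsupp.smul_apply, hD'tube e P hP, smul_zero]
  choose b' c' hnf' using fun e => exists_nodeNF (N e) hf' hD'
  have hb'0 : ∀ e, b' e = 0 := by
    intro e
    have hv1 := (hnf' e).resF_src_ne_zero_iff.mp (hresF'0 _)
    have hv2 := (hnf' e).resF_tgt_ne_zero_iff.mp (hresF'0 _)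
    rw [tmom_eq_one_of_forall (hE'tube e), mul_one, map_mul, hv1, one_mul, map_zpow₀] at hv2
    have hth0 : A.valuation (thick e) ≠ 0 := (Valuation.ne_zero_iff _).mpr (N e).thick_ne
    have := InvFiniteUnit.zpow_le_one_imp_nonneg hth0 (hthick e) hv2.le
    have := InvFiniteUnit.one_le_zpow_imp_nonpos hth0 (hthick e) hv2.ge
    omega
  have hord1 : ∀ e, (S₀.s₁ e).ord (w (S₀.src e) * τ (S₀.src e)) = 0 := by
    intro e
    have e1 := (hnf' e).ord_src ((hnf' e).resF_src_ne_zero_iff.mp (hresF'0 _))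
    rw [hordres, hb'0 e, tdeg_eq_zero_of_forall (hE'tube e), add_zero, zero_mul] at e1
    exact (mul_eq_zero.mp e1).resolve_left hmZ
  have hord2 : ∀ e, (S₀.s₂ e).ord (w (S₀.tgt e) * τ (S₀.tgt e)) = 0 := by
    intro e
    have e1 := (hnf' e).ord_tgt ((hnf' e).resF_tgt_ne_zero_iff.mp (hresF'0 _))
    rw [hordres, hb'0 e, zero_mul] at e1
    exact (mul_eq_zero.mp e1).resolve_left hmZ
  refine ⟨D + Dt, f * t ^ m, fun v => w v * τ v, hR', hsmooth, hwτ0, fun v Q => ?_,
    fun v => ⟨cc v, hcc0 v, hres' v⟩⟩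
  by_cases hQ : S₀.IsBranch ⟨v, Q⟩
  · rw [S₀.push_apply_of_isBranch hsmooth hQ]
    obtain ⟨e, he | he⟩ := hQ
    · obtain ⟨rfl, h2⟩ := Sigma.mk.inj_iff.mp he
      rw [eq_of_heq h2]
      exact hord1 e
    · obtain ⟨rfl, h2⟩ := Sigma.mk.inj_iff.mp he
      rw [eq_of_heq h2]
      exact hord2 e
  · have e1 := ord_residue_eq hR' (hres' v) hQ
    rw [Place.ord_mul _ (hccF v) (pow_ne_zero m (hwτ0 v)),
      Fermat.Agent.X0.Place.ord_algebraMap, zero_add, Fermat.Agent.X0.Place.ord_pow] at e1
    rw [S₀.push_apply]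
    exact mul_left_cancel₀ hmZ e1

end Fermat.Agent.BR3.TorGoodOfBal
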