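import Mathlib
import Fermat.Agent.BR.Refine.Chain
import Fermat.Agent.BR.SS.Basic
import Fermat.Agent.BR3.InvFiniteMoment

/-!
# Program C (S36), node (C-ML) moving lemma: the interface `PZ` (prescribed tube zeros)

`S` a semistable setup with annulus coordinates `u e` and thickness elements `thick e` at its
nodes.

* `PZ S u thick` : **prescribed tube zeros** — every effective divisor `Z` supported in the tubes
  of the nodes whose moment on every tube has the absolute value of an integral power of the
  thickness is the tube part of the divisor of a function `T` which is a unit on every component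
  (all other zeros and poles of `T` are at smooth places).
* `RadiusAttained S u thick` : every element of the open annulus `|thick e| < |c| < 1` is the value
  of the coordinate `u e` at a place of the tube of `e`.

`PZ` is proved in `BR3/TorPZ` (from the lattice layer `ResRank`, the nodal Riemann count and the
normal forms at the nodes); it is consumed by `BR3/TorGoodOfPZ` (every class of the toric part has
a good representative).
-/

set_option autoImplicit false

namespace Fermat.Agent.BR3.TorPZDef

open AlgebraicCurve IsLocalRing Fermat.Agent.Red Fermat.Agent.BR.SS Fermat.Agent.BR.Refine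
  Fermat.Agent.BR3.InvFiniteMoment

variable {K : Type} {F : Type*} [Field K] [Field F] [Algebra K F]
  {A : ValuationSubring K} [IsAlgClosed (ResidueField A)]
  {ι : Type} {Ft : ι → Type} [∀ v, Field (Ft v)] [∀ v, Algebra (ResidueField A) (Ft v)]
  {ν : Type}

/-- **Prescribed tube zeros.** -/
def PZ (S : SemistableSetup (F := F) A (residue A) ι Ft ν) (u : ν → F) (thick : ν → K) : Prop :=
  ∀ Z : Divisor K F, 0 ≤ Z → (∀ P ∈ Z.support, ∃ e, P ∈ tube S e) →
    (∀ e, ∃ a : ℤ, A.valuation (tmom (tube S e) (u e) Z) = A.valuation (thick e) ^ a) →
    ∃ T : F, (∀ v, S.resF v T ≠ 0) ∧ ∀ e, ∀ P ∈ tube S e, P.ord T = Z P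

/-- Every element of the open annulus of the node `e` is a value of the coordinate on the tube. -/
def RadiusAttained (S : SemistableSetup (F := F) A (residue A) ι Ft ν) (u : ν → F)
    (thick : ν → K) : Prop :=
  ∀ e (c : K), A.valuation (thick e) < A.valuation c → A.valuation c < 1 →
    ∃ P ∈ tube S e, evalAt P (u e) = c

end Fermat.Agent.BR3.TorPZDef
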