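import Mathlib
import Fermat.Agent.BR3.TorGoodOfBal
import Fermat.Agent.BR3.TorPZDef

/-!
# Program C (S36), node (C-ML), part (ML-d): (C-BAL-D°) from prescribed tube zeros

`S₀` a semistable setup with node contracts `N e : Fact.NodeFact S₀ e (u e) (thick e) (TU e)`.

* `exists_zpow_sandwich` : rank one — every nonzero absolute value lies between two consecutive
  powers of an absolute value `< 1`;
* `exists_aux_point` : (rank one, every radius attained) every nonzero moment is moved to a power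
  of the thickness by at most one auxiliary point of the tube;
* `balTube_of_pz` : the balanced functions with prescribed tube divisor `TorGoodOfBal.BalTube`
  from `TorPZDef.PZ` (prescribed tube zeros, Gauss norms one), `TorPZDef.RadiusAttained` and the
  existence of functions with prescribed Gauss norms.

Proof of `balTube_of_pz`: `G` with the Gauss norms `|c v|⁻¹`; the normal forms of `G` at the nodes
and the balance of `c` give `|tmom_e W| ∈ |thick e| ^ ℤ` for `W := D₀ - div G` on the tubes; write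
`W = W₊ - W₋` and add one auxiliary point `X e` per tube so that `W₊ + X` and `W₋ + X` both have
moments in `|thick e| ^ ℤ`; `T₁`, `T₂` from `PZ`; `t := G · T₁ / T₂`.
-/

set_option autoImplicit false
set_option linter.unusedVariables false
set_option linter.unusedSectionVars false

namespace Fermat.Agent.BR3.BalOfPZ

open AlgebraicCurve IsLocalRing Fermat.Agent.Red Fermat.Agent.BR.SS Fermat.Agent.BR.Fact
  Fermat.Agent.BR.Refine Fermat.Agent.BR3.InvFiniteMoment Fermat.Agent.BR3.InvFiniteNode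
  Fermat.Agent.BR3.TorGoodOfBal Fermat.Agent.BR3.TorPZDef

section Arch

variable {K : Type*} [Field K] {A : ValuationSubring K}

/-- Rank one: the powers of an element of absolute value `< 1` tend to zero. -/
theorem exists_pow_le_valuation (hA : IsRankOne A) {x : K} (hx : A.valuation x < 1) {y : K}
    (hy : y ≠ 0) : ∃ n : ℕ, A.valuation x ^ n ≤ A.valuation y := by
  have hxA : x ∈ A := (A.valuation_le_one_iff _).mp hx.le
  by_cases hyA : y ∈ A
  · have hnu : ¬ IsUnit (⟨x, hxA⟩ : A) := by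
      intro hu
      have := (A.valuation_eq_one_iff ⟨x, hxA⟩).mp hu
      exact absurd hx (by rw [this]; exact lt_irrefl _)
    have hy0 : (⟨y, hyA⟩ : A) ≠ 0 := fun h0 => hy (congrArg Subtype.val h0)
    obtain ⟨n, w, hw⟩ := hA ⟨x, hxA⟩ hnu ⟨y, hyA⟩ hy0
    have hw' : x ^ n = y * (w : K) := by
      have := congrArg Subtype.val hw
      simpa using this
    refine ⟨n, ?_⟩
    rw [← map_pow, hw', map_mul]
    exact mul_le_of_le_one_right' ((A.valuation_le_one_iff _).mpr w.2)
  · refine ⟨0, ?_⟩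
    rw [pow_zero]
    exact (not_le.mp (fun h => hyA ((A.valuation_le_one_iff _).mp h))).le

/-- Rank one: every nonzero absolute value lies between two consecutive powers of `|x| < 1`. -/
theorem exists_zpow_sandwich (hA : IsRankOne A) {x : K} (hx0 : x ≠ 0) (hx : A.valuation x < 1)
    {y : K} (hy : y ≠ 0) :
    ∃ a : ℤ, A.valuation x ^ (a + 1) < A.valuation y ∧ A.valuation y ≤ A.valuation x ^ a := by
  have hpos : 0 < A.valuation x := zero_lt_iff.mpr ((Valuation.ne_zero_iff _).mpr hx0)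
  obtain ⟨n₁, hn₁⟩ := exists_pow_le_valuation hA hx hy
  obtain ⟨n₂, hn₂⟩ := exists_pow_le_valuation hA hx (inv_ne_zero hy)
  have hy0 : A.valuation y ≠ 0 := (Valuation.ne_zero_iff _).mpr hy
  -- `P j : |x|^j < |y|`
  have hinh : ∃ j : ℤ, A.valuation x ^ j < A.valuation y := by
    refine ⟨(n₁ : ℤ) + 1, lt_of_lt_of_le ?_ hn₁⟩
    rw [← zpow_natCast]
    exact zpow_lt_zpow_right_of_lt_one₀ hpos hx (by omega)
  have hbdd : ∃ b : ℤ, ∀ j : ℤ, A.valuation x ^ j < A.valuation y → b ≤ j := by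
    refine ⟨-(n₂ : ℤ), fun j hj => ?_⟩
    by_contra hlt
    push Not at hlt
    have h1 : A.valuation x ^ (-(n₂ : ℤ)) ≤ A.valuation x ^ j :=
      zpow_le_zpow_right_of_le_one₀ hpos hx.le hlt.le
    have h2 : A.valuation y ≤ A.valuation x ^ (-(n₂ : ℤ)) := by
      rw [zpow_neg, zpow_natCast]
      rw [map_inv₀] at hn₂
      exact (le_inv_comm₀ (pow_pos hpos n₂) (zero_lt_iff.mpr hy0)).mp hn₂
    exact absurd hj (not_lt.mpr (h2.trans h1))
  obtain ⟨j₀, hj₀, hmin⟩ := Int.exists_least_of_bdd hbdd hinh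
  refine ⟨j₀ - 1, by rwa [sub_add_cancel], ?_⟩
  by_contra hlt
  push Not at hlt
  have := hmin _ hlt
  omega

end Arch

variable {K : Type} {F : Type*} [Field K] [Field F] [Algebra K F]
  {A : ValuationSubring K} [IsAlgClosed (ResidueField A)]
  {ι₀ : Type} {Ft₀ : ι₀ → Type} [∀ v, Field (Ft₀ v)] [∀ v, Algebra (ResidueField A) (Ft₀ v)]
  {ν₀ : Type} {S₀ : SemistableSetup (F := F) A (residue A) ι₀ Ft₀ ν₀}

section OneNode

variable {e : ν₀} {u : F} {thick : K} {TU : F → Prop}

/-- The Gauss constants of a function at the two components through a node are related by a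
power of the thickness and the moment of its divisor on the tube. -/
theorem exists_gauss_relation (N : NodeFact S₀ e u thick TU) {G : F} (hG : G ≠ 0)
    {E : Divisor K F} (hE : ∀ P, E P = P.ord G) {c₁ c₂ : K} (hc₁ : c₁ ≠ 0) (hc₂ : c₂ ≠ 0)
    (h₁ : S₀.resF (S₀.src e) (c₁ • G) ≠ 0) (h₂ : S₀.resF (S₀.tgt e) (c₂ • G) ≠ 0) :
    ∃ b : ℤ, A.valuation c₂ * A.valuation thick ^ b * A.valuation (tmom (tube S₀ e) u E) =
      A.valuation c₁ := by
  obtain ⟨b, c, hnf⟩ := exists_nodeNF N hG hE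
  have hv1 := (hnf.smul hc₁).resF_src_ne_zero_iff.mp h₁
  have hv2 := (hnf.smul hc₂).resF_tgt_ne_zero_iff.mp h₂
  have hcv : A.valuation c ≠ 0 := (Valuation.ne_zero_iff _).mpr hnf.c_ne
  refine ⟨b, mul_right_cancel₀ hcv ?_⟩
  rw [map_mul] at hv1
  rw [map_mul, map_mul, map_mul, map_zpow₀] at hv2
  rw [hv1, ← hv2]
  ac_rfl

/-- The moment of a single point of the tube. -/
theorem tmom_single {T : Set (Place K F)} {P : Place K F} (hP : P ∈ T) :
    tmom T u (Finsupp.single P 1) = -evalAt P u := by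
  classical
  unfold tmom
  rw [Finsupp.prod_single_index (by simp), if_pos hP, zpow_one]

/-- **One auxiliary point.** In rank one, if every radius of the annulus is attained, every nonzero
moment is moved to a power of the thickness by at most one point of the tube. -/
theorem exists_aux_point (N : NodeFact S₀ e u thick TU) (hA : IsRankOne A)
    (hthick : A.valuation thick < 1)
    (hRA : ∀ c : K, A.valuation thick < A.valuation c → A.valuation c < 1 →
      ∃ P ∈ tube S₀ e, evalAt P u = c) {M : K} (hM : M ≠ 0) :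
    ∃ X : Divisor K F, 0 ≤ X ∧ (∀ P ∈ X.support, P ∈ tube S₀ e) ∧
      ∃ a : ℤ, A.valuation M * A.valuation (tmom (tube S₀ e) u X) = A.valuation thick ^ a := by
  classical
  have hth0 : thick ≠ 0 := N.thick_ne
  have hthv : A.valuation thick ≠ 0 := (Valuation.ne_zero_iff _).mpr hth0
  have hMv : A.valuation M ≠ 0 := (Valuation.ne_zero_iff _).mpr hM
  obtain ⟨a, ha1, ha2⟩ := exists_zpow_sandwich hA hth0 hthick hM
  rcases eq_or_lt_of_le ha2 with heq | hlt
  · exact ⟨0, le_refl _, fun P hP => by simp at hP, a, by rw [tmom_zero, map_one, mul_one, heq]⟩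
  · -- the auxiliary point at the radius `|thick|^(a+1) / |M|`
    have hcK : A.valuation (thick ^ (a + 1) * M⁻¹) =
        A.valuation thick ^ (a + 1) * (A.valuation M)⁻¹ := by
      rw [map_mul, map_zpow₀, map_inv₀]
    have hlt1 : A.valuation (thick ^ (a + 1) * M⁻¹) < 1 := by
      rw [hcK, mul_inv_lt_iff₀ (zero_lt_iff.mpr hMv), one_mul]
      exact ha1
    have hgt : A.valuation thick < A.valuation (thick ^ (a + 1) * M⁻¹) := by
      rw [hcK, lt_mul_inv_iff₀ (zero_lt_iff.mpr hMv), zpow_add_one₀ hthv, mul_comm]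
      exact (mul_lt_mul_iff_left₀ (zero_lt_iff.mpr hthv)).mpr hlt
    obtain ⟨P, hP, hPu⟩ := hRA _ hgt hlt1
    refine ⟨Finsupp.single P 1, ?_, ?_, a + 1, ?_⟩
    · intro Q
      rw [Finsupp.zero_apply, Finsupp.single_apply]
      split_ifs <;> decide
    · intro Q hQ
      rw [Finsupp.mem_support_iff, Finsupp.single_apply] at hQ
      split_ifs at hQ with h
      · rw [← h]
        exact hP
      · exact absurd rfl hQ
    · rw [tmom_single hP, Valuation.map_neg, hPu, hcK, mul_comm, mul_assoc,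
        inv_mul_cancel₀ hMv, mul_one]

end OneNode

section Main

variable {u : ν₀ → F} {thick : ν₀ → K} {TU : ν₀ → F → Prop}

/-- **(C-BAL-D°) from prescribed tube zeros.** -/
theorem balTube_of_pz [Finite ν₀] (N : ∀ e, NodeFact S₀ e (u e) (thick e) (TU e))
    (hA : IsRankOne A) (hF : RiemannPkg K F) (hthick : ∀ e, A.valuation (thick e) < 1)
    (hgauss : ∀ c : ι₀ → K, (∀ v, c v ≠ 0) → ∃ G : F, G ≠ 0 ∧ ∀ v, S₀.resF v (c v • G) ≠ 0)
    (hPZ : PZ S₀ u thick) (hRA : RadiusAttained S₀ u thick) : BalTube S₀ u thick := by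
  classical
  have hprin := hF.principal
  have : Fintype ν₀ := Fintype.ofFinite ν₀
  have hne : Nonempty ι₀ := by
    obtain ⟨P⟩ := hF.infinite_places.nonempty
    exact ⟨(S₀.r P).1⟩
  obtain ⟨v₀⟩ := hne
  intro D₀ c n hsupp hc hbal
  have hu0 : ∀ e, ∀ P ∈ tube S₀ e, evalAt P (u e) ≠ 0 := fun e => (N e).tubeFact.val_ne
  have hthv : ∀ e, A.valuation (thick e) ≠ 0 := fun e =>
    (Valuation.ne_zero_iff _).mpr (N e).thick_ne
  obtain ⟨G, hG0, hGres⟩ := hgauss c hc
  choose bG hbG using fun e => exists_gauss_relation (N e) hG0 (fun P => divOf_apply G P)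
    (hc (S₀.src e)) (hc (S₀.tgt e)) (hGres (S₀.src e)) (hGres (S₀.tgt e))
  have hnsm : ∀ e, ∀ P ∈ tube S₀ e, ¬ S₀.IsSmoothPlace P := fun e P hP =>
    (S₀.not_isSmoothPlace_iff P).mpr ⟨e, hP⟩
  -- the divisor `W = D₀ - div G` on the tubes
  set Gres : Divisor K F := Finsupp.filter (fun P => ¬ S₀.IsSmoothPlace P) (divOf K G) with hGr
  set W : Divisor K F := D₀ - Gres with hW
  have hGres_tube : ∀ e, ∀ P ∈ tube S₀ e, Gres P = P.ord G := fun e P hP => by
    rw [hGr, Finsupp.filter_apply_pos (fun P => ¬ S₀.IsSmoothPlace P) _ (hnsm e P hP),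
      divOf_apply]
  have hWtube : ∀ e, ∀ P ∈ tube S₀ e, W P = D₀ P - P.ord G := fun e P hP => by
    rw [hW, Finsupp.sub_apply, hGres_tube e P hP]
  have hWsupp : ∀ P ∈ W.support, ∃ e, P ∈ tube S₀ e := by
    intro P hP
    by_cases h1 : P ∈ D₀.support
    · exact hsupp P h1
    · have h2 : Gres P ≠ 0 := by
        intro h0
        rw [Finsupp.mem_support_iff, hW, Finsupp.sub_apply, h0, sub_zero] at hP
        exact h1 (Finsupp.mem_support_iff.mpr hP)
      have h3 : P ∈ Gres.support := Finsupp.mem_support_iff.mpr h2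
      rw [hGr, Finsupp.support_filter, Finset.mem_filter] at h3
      exact (S₀.not_isSmoothPlace_iff P).mp h3.2
  have hWmom : ∀ e, A.valuation (tmom (tube S₀ e) (u e) W) =
      A.valuation (thick e) ^ (bG e - n e) := by
    intro e
    have hX2 : A.valuation (tmom (tube S₀ e) (u e) (divOf K G)) ≠ 0 :=
      (Valuation.ne_zero_iff _).mpr (tmom_ne_zero (hu0 e) _)
    have hct : A.valuation (c (S₀.tgt e)) ≠ 0 := (Valuation.ne_zero_iff _).mpr (hc _)
    have h3 : A.valuation (c (S₀.tgt e)) * A.valuation (tmom (tube S₀ e) (u e) D₀) =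
        A.valuation (c (S₀.tgt e)) * (A.valuation (thick e) ^ (bG e - n e) *
          A.valuation (tmom (tube S₀ e) (u e) (divOf K G))) := by
      rw [hbal e, ← hbG e, zpow_sub₀ (hthv e), div_eq_mul_inv, zpow_neg]
      ac_rfl
    have h4 := mul_left_cancel₀ hct h3
    rw [hW, tmom_sub (hu0 e), map_div₀,
      tmom_congr (E := Gres) (E' := divOf K G)
        (fun P hP => by rw [hGres_tube e P hP, divOf_apply]),
      h4, mul_div_assoc, div_self hX2, mul_one]
  -- positive and negative parts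
  set Wp : Divisor K F := W.mapRange (fun z => max z 0) (max_self 0) with hWp
  set Wn : Divisor K F := W.mapRange (fun z => max (-z) 0) (by simp) with hWn
  have hWp_apply : ∀ P, Wp P = max (W P) 0 := fun P => Finsupp.mapRange_apply
  have hWn_apply : ∀ P, Wn P = max (-W P) 0 := fun P => Finsupp.mapRange_apply
  have hWpn : Wp = W + Wn := by
    ext P
    rw [Finsupp.add_apply, hWp_apply, hWn_apply]
    omega
  have hWp0 : 0 ≤ Wp := fun P => by
    rw [Finsupp.zero_apply, hWp_apply]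
    exact le_max_right _ _
  have hWn0 : 0 ≤ Wn := fun P => by
    rw [Finsupp.zero_apply, hWn_apply]
    exact le_max_right _ _
  have hWpsupp : ∀ P ∈ Wp.support, ∃ e, P ∈ tube S₀ e := fun P hP =>
    hWsupp P (Finsupp.support_mapRange hP)
  have hWnsupp : ∀ P ∈ Wn.support, ∃ e, P ∈ tube S₀ e := fun P hP =>
    hWsupp P (Finsupp.support_mapRange hP)
  -- the auxiliary points
  choose X hX0 hXsupp aX hXmom using fun e => exists_aux_point (N e) hA (hthick e) (hRA e)
    (tmom_ne_zero (hu0 e) Wp)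
  set XX : Divisor K F := ∑ e, X e with hXX
  have hXX0 : 0 ≤ XX := Finset.sum_nonneg fun e _ => hX0 e
  have hXXtube : ∀ e, ∀ P ∈ tube S₀ e, XX P = X e P := by
    intro e P hP
    rw [hXX, Finsupp.finsetSum_apply, Finset.sum_eq_single e]
    · intro e' _ hne
      by_contra h0
      exact hne (tube_unique S₀ (hXsupp e' P (Finsupp.mem_support_iff.mpr h0)) hP)
    · intro h
      exact absurd (Finset.mem_univ e) h
  have hXXsupp : ∀ P ∈ XX.support, ∃ e, P ∈ tube S₀ e := by
    intro P hP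
    rw [Finsupp.mem_support_iff, hXX, Finsupp.finsetSum_apply] at hP
    obtain ⟨e, -, he⟩ := Finset.exists_ne_zero_of_sum_ne_zero hP
    exact ⟨e, hXsupp e P (Finsupp.mem_support_iff.mpr he)⟩
  have hXXmom : ∀ e, tmom (tube S₀ e) (u e) XX = tmom (tube S₀ e) (u e) (X e) := fun e =>
    tmom_congr (hXXtube e)
  -- the two effective divisors
  have hZsupp : ∀ Y : Divisor K F, (∀ P ∈ Y.support, ∃ e, P ∈ tube S₀ e) →
      ∀ P ∈ (Y + XX).support, ∃ e, P ∈ tube S₀ e := by
    intro Y hY P hP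
    rcases Finset.mem_union.mp (Finsupp.support_add hP) with h | h
    · exact hY P h
    · exact hXXsupp P h
  have hZ1mom : ∀ e, A.valuation (tmom (tube S₀ e) (u e) (Wp + XX)) =
      A.valuation (thick e) ^ aX e := fun e => by
    rw [tmom_add (hu0 e), hXXmom e, map_mul, hXmom e]
  have hZ2mom : ∀ e, A.valuation (tmom (tube S₀ e) (u e) (Wn + XX)) =
      A.valuation (thick e) ^ (aX e - (bG e - n e)) := fun e => by
    rw [zpow_sub₀ (hthv e), ← hWmom e, ← hXmom e, hWpn, tmom_add (hu0 e), tmom_add (hu0 e),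
      hXXmom e, map_mul, map_mul]
    have hWv : A.valuation (tmom (tube S₀ e) (u e) W) ≠ 0 :=
      (Valuation.ne_zero_iff _).mpr (tmom_ne_zero (hu0 e) _)
    rw [eq_div_iff hWv]
    ac_rfl
  obtain ⟨T₁, hT₁res, hT₁ord⟩ := hPZ (Wp + XX) (add_nonneg hWp0 hXX0) (hZsupp Wp hWpsupp)
    (fun e => ⟨_, hZ1mom e⟩)
  obtain ⟨T₂, hT₂res, hT₂ord⟩ := hPZ (Wn + XX) (add_nonneg hWn0 hXX0) (hZsupp Wn hWnsupp)
    (fun e => ⟨_, hZ2mom e⟩)
  have hT₁0 : T₁ ≠ 0 := S₀.ne_zero_of_resF_ne_zero (hT₁res v₀)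
  have hT₂0 : T₂ ≠ 0 := S₀.ne_zero_of_resF_ne_zero (hT₂res v₀)
  refine ⟨G * T₁ * T₂⁻¹, mul_ne_zero (mul_ne_zero hG0 hT₁0) (inv_ne_zero hT₂0), fun v => ?_,
    fun e P hP => ?_⟩
  · have e1 : c v • (G * T₁ * T₂⁻¹) = (c v • G) * T₁ * T₂⁻¹ := by
      rw [smul_mul_assoc, smul_mul_assoc]
    have m1 : c v • G ∈ S₀.O v := S₀.mem_of_resF_ne_zero (hGres v)
    have m2 : T₁ ∈ S₀.O v := S₀.mem_of_resF_ne_zero (hT₁res v)
    have m3 : T₂⁻¹ ∈ S₀.O v := S₀.inv_mem_of_resF_ne_zero (hT₂res v)
    rw [e1, S₀.resF_mul ((S₀.O v).mul_mem _ _ m1 m2) m3, S₀.resF_mul m1 m2,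
      S₀.resF_inv (hT₂res v)]
    exact mul_ne_zero (mul_ne_zero (hGres v) (hT₁res v)) (inv_ne_zero (hT₂res v))
  · rw [P.ord_mul (mul_ne_zero hG0 hT₁0) (inv_ne_zero hT₂0), P.ord_mul hG0 hT₁0, P.ord_inv,
      hT₁ord e P hP, hT₂ord e P hP, Finsupp.add_apply, Finsupp.add_apply, hWp_apply, hWn_apply,
      hWtube e P hP]
    omega

end Main

end Fermat.Agent.BR3.BalOfPZ
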