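import Mathlib
import Fermat.Agent.BR.CentreRed
import Fermat.Agent.BR.S0.SmoothFields
import Fermat.Prelude.Def_AlgebraicCurve_DivisorPushPull

/-!
# Program C (S36), node A9 / (C-COVER-PT), part 2: places of a finite cover and their reductions

`F'' / F'` a finite extension of function fields over `K` (for `X₀(Mq²) → X₀(Mq)`: along `a` or
along `b`), `P''` a place of `F''`, `P''.restrict F'` the place of `F'` under it.

* `isValueAt_restrict_iff`, `ord_nonneg_restrict_iff`, `ord_pos_restrict_iff`,
  `evalAt_restrict`, `integralAt_restrict_iff` : values, regularity and integrality of the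
  functions of `F'` at `P''` are read at the place under it;
* `isRedOf_restrict` : **push-down of a reduction.** If `Q''` is the reduction of `P''` on the
  component `(O'', res'')`, tested on a ring `R''` containing the image of the chart ring `R'` of
  `F'`, and `(O'', res'')` lies over `(O', res')`, then the place of `Ft'` under `Q''` is the
  reduction of `P''.restrict F'` on `(O', res')`, tested on `R'`;
* `RegTube` : the `K`-level regularity of a local ring `R` at a point `Q` of a component on a
  tube `T` (`normal` + values on the tube reduce to values at `Q`; the consequences of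
  helper24's `RegChart` / of a `SmoothModel` which the dictionary uses);
* `RegTube.isRedOf_under` : **the identification lemma** (architect's design note §2): a tube
  `T''` of `F''` with a regular local ring at `Q''` — however it was constructed, e.g. as a Hensel
  sheet along the OTHER map `b` — is mapped by `a` into the tube of the point under `Q''`, as soon
  as the functions of the chart ring `R'` of `F'` have no poles on `T''`
  (`isRedOf_restrict_of_regTube`).
-/

set_option autoImplicit false

namespace Fermat.Agent.BR3.CoverPlaces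

open AlgebraicCurve Fermat.Agent.Red Fermat.Agent.BR.Centre

variable {K F' F'' : Type*} [Field K] [Field F'] [Field F''] [Algebra K F'] [Algebra K F'']
  [Algebra F' F''] [IsScalarTower K F' F''] [Algebra.IsIntegral F' F'']

/-! ### values at the place under `P''` -/

theorem ord_algebraMap_eq (P'' : Place K F'') (y : F') :
    P''.ord (algebraMap F' F'' y) = P''.ramificationIndex F' * (P''.restrict F').ord y :=
  P''.ord_restrict y

theorem ord_pos_restrict_iff (P'' : Place K F'') (y : F') :
    0 < (P''.restrict F').ord y ↔ 0 < P''.ord (algebraMap F' F'' y) := by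
  have he : 0 < P''.ramificationIndex F' := P''.ramificationIndex_pos (F := F')
  rw [ord_algebraMap_eq]
  constructor
  · intro h
    positivity
  · intro h
    by_contra hcon
    have h1 : (P''.restrict F').ord y ≤ 0 := not_lt.mp hcon
    have h2 : (P''.ramificationIndex F' : ℤ) * (P''.restrict F').ord y ≤ 0 :=
      mul_nonpos_of_nonneg_of_nonpos (by positivity) h1
    omega

theorem ord_nonneg_restrict_iff (P'' : Place K F'') (y : F') :
    0 ≤ (P''.restrict F').ord y ↔ 0 ≤ P''.ord (algebraMap F' F'' y) := by
  have he : 0 < P''.ramificationIndex F' := P''.ramificationIndex_pos (F := F')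
  rw [ord_algebraMap_eq]
  constructor
  · intro h
    positivity
  · intro h
    by_contra hcon
    have h1 : (P''.restrict F').ord y < 0 := not_le.mp hcon
    have h2 : (P''.ramificationIndex F' : ℤ) * (P''.restrict F').ord y < 0 :=
      mul_neg_of_pos_of_neg (by exact_mod_cast he) h1
    omega

theorem adicValuation_lt_one_restrict_iff (P'' : Place K F'') (y : F') :
    (P''.restrict F').adicValuation y < 1 ↔ P''.adicValuation (algebraMap F' F'' y) < 1 := by
  rw [adicValuation_lt_one_iff, adicValuation_lt_one_iff, ord_pos_restrict_iff]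
  constructor
  · rintro (h | h)
    · exact Or.inl (by rw [h, map_zero])
    · exact Or.inr h
  · rintro (h | h)
    · exact Or.inl ((map_eq_zero_iff _ (algebraMap F' F'').injective).mp h)
    · exact Or.inr h

/-- The value of a function of `F'` at `P''` is its value at the place under `P''`. -/
theorem isValueAt_restrict_iff (P'' : Place K F'') (y : F') (c : K) :
    IsValueAt (P''.restrict F') y c ↔ IsValueAt P'' (algebraMap F' F'' y) c := by
  unfold IsValueAt
  rw [adicValuation_lt_one_restrict_iff, map_sub, ← IsScalarTower.algebraMap_apply]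

theorem evalAt_restrict (P'' : Place K F'') (y : F') :
    evalAt (P''.restrict F') y = evalAt P'' (algebraMap F' F'' y) := by
  by_cases hex : ∃ c : K, IsValueAt (P''.restrict F') y c
  · obtain ⟨c, hc⟩ := hex
    rw [evalAt_eq_of_isValueAt hc, evalAt_eq_of_isValueAt ((isValueAt_restrict_iff P'' y c).mp hc)]
  · have hex' : ¬ ∃ c : K, IsValueAt P'' (algebraMap F' F'' y) c := by
      rintro ⟨c, hc⟩
      exact hex ⟨c, (isValueAt_restrict_iff P'' y c).mpr hc⟩
    rw [evalAt, evalAt, dif_neg hex, dif_neg hex']

/-- Integrality on a ring of functions of `F'` is read at the place under `P''`. -/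
theorem integralAt_restrict_iff (A : ValuationSubring K) (R' : Subring F') (P'' : Place K F'') :
    IntegralAt A R' (P''.restrict F') ↔
      IntegralAt A (R'.map (algebraMap F' F'')) P'' := by
  constructor
  · rintro h _ ⟨y, hy, rfl⟩
    obtain ⟨c, hcA, hc⟩ := h y hy
    exact ⟨c, hcA, (isValueAt_restrict_iff P'' y c).mp hc⟩
  · intro h y hy
    obtain ⟨c, hcA, hc⟩ := h _ ⟨y, hy, rfl⟩
    exact ⟨c, hcA, (isValueAt_restrict_iff P'' y c).mpr hc⟩

theorem integralAt_restrict_of_le {A : ValuationSubring K} {R' : Subring F'} {R'' : Subring F''}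
    (hle : ∀ y ∈ R', algebraMap F' F'' y ∈ R'') {P'' : Place K F''} (h : IntegralAt A R'' P'') :
    IntegralAt A R' (P''.restrict F') := by
  rw [integralAt_restrict_iff]
  refine h.mono ?_
  rintro _ ⟨y, hy, rfl⟩
  exact hle y hy

/-! ### push-down of a reduction -/

section Push

variable {k Ft' Ft'' : Type*} [Field k] [Field Ft'] [Field Ft''] [Algebra k Ft'] [Algebra k Ft'']
  [Algebra Ft' Ft'']

/-- The place `Q'` of `Ft'` lies under the place `Q''` of `Ft''`, in the only form needed: values
of the functions of `Ft'` at `Q''` are values at `Q'`. -/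
def LiesUnder (Q'' : Place k Ft'') (Q' : Place k Ft') : Prop :=
  ∀ (g : Ft') (c : k), IsValueAt Q'' (algebraMap Ft' Ft'' g) c → IsValueAt Q' g c

theorem liesUnder_restrict [IsScalarTower k Ft' Ft''] [Algebra.IsIntegral Ft' Ft'']
    (Q'' : Place k Ft'') :
    LiesUnder Q'' (Q''.restrict Ft') :=
  fun g c h => (isValueAt_restrict_iff Q'' g c).mpr h

variable {A : ValuationSubring K} {π : A →+* k}
  {O' : ValuationSubring F'} {res' : O' →+* Ft'} {O'' : ValuationSubring F''}
  {res'' : O'' →+* Ft''} {R' : Subring F'} {R'' : Subring F''}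

/-- **Push-down of a reduction.** -/
theorem isRedOf_restrict (hR'O' : R' ≤ O'.toSubring) (hR''O'' : R'' ≤ O''.toSubring)
    (hle : ∀ y ∈ R', algebraMap F' F'' y ∈ R'')
    (hres : ∀ (y : F') (hy : y ∈ R'),
      res'' ⟨algebraMap F' F'' y, hR''O'' (hle y hy)⟩ = algebraMap Ft' Ft'' (res' ⟨y, hR'O' hy⟩))
    {P'' : Place K F''} {Q'' : Place k Ft''} {Q' : Place k Ft'} (hQ : LiesUnder Q'' Q')
    (h : IsRedOf A π R'' O'' res'' hR''O'' P'' Q'') :
    IsRedOf A π R' O' res' hR'O' (P''.restrict F') Q' := by
  have hint : IntegralAt A R' (P''.restrict F') := integralAt_restrict_of_le hle h.integralAt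
  refine ⟨hint, fun y hy => ?_⟩
  apply hQ
  have h1 := h.isValueAt (hle y hy)
  rw [hres y hy] at h1
  have e : evHom A R' (P''.restrict F') hint ⟨y, hy⟩ =
      evHom A R'' P'' h.integralAt ⟨algebraMap F' F'' y, hle y hy⟩ := by
    apply Subtype.ext
    rw [coe_evHom, coe_evHom]
    exact evalAt_restrict P'' y
  rw [e]
  exact h1

end Push

/-! ### regular tubes and the identification lemma -/

section Reg

variable {k : Type*} [Field k]

/-- **A regular tube**: the `K`-level regularity of the local ring `R` of a model at the point `Q`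
of the component `(O, res)`, on the tube `T` of the point: `R` contains every function of `O`
without poles on `T` (normality), and the values on `T` of the functions of `R` are integral and
reduce to the value at `Q` of their reduction. (Consequences of helper24's `RegChart`, resp. of a
`S0.SmoothModel`; see `RegTube.ofSmoothChart`.) -/
structure RegTube {F Ft : Type*} [Field F] [Algebra K F] [Field Ft] [Algebra k Ft]
    (A : ValuationSubring K) (π : A →+* k) (O : ValuationSubring F) (res : O →+* Ft)
    (Q : Place k Ft) (T : Set (Place K F)) where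
  /-- the local ring at the point -/
  R : Subring F
  le : R ≤ O.toSubring
  normal : ∀ y : F, y ∈ O → (∀ P ∈ T, 0 ≤ P.ord y) → y ∈ R
  value : ∀ P ∈ T, ∀ (y : F) (hy : y ∈ R),
    ∃ c : A, IsValueAt P y c ∧ IsValueAt Q (res ⟨y, le hy⟩) (π c)

namespace RegTube

variable {F Ft : Type*} [Field F] [Algebra K F] [Field Ft] [Algebra k Ft]
  {A : ValuationSubring K} {π : A →+* k} {O : ValuationSubring F} {res : O →+* Ft}
  {Q : Place k Ft} {T : Set (Place K F)}

theorem integralAt (X : RegTube A π O res Q T) {P : Place K F} (hP : P ∈ T) :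
    IntegralAt A X.R P := by
  intro y hy
  obtain ⟨c, hc, -⟩ := X.value P hP y hy
  exact ⟨c, c.2, hc⟩

/-- The point is the reduction of every place of the tube, tested on the local ring. -/
theorem isRedOf (X : RegTube A π O res Q T) {P : Place K F} (hP : P ∈ T) :
    IsRedOf A π X.R O res X.le P Q := by
  refine ⟨X.integralAt hP, fun y hy => ?_⟩
  obtain ⟨c, hc, hcQ⟩ := X.value P hP y hy
  have e : evHom A X.R P (X.integralAt hP) ⟨y, hy⟩ = c := by
    apply Subtype.ext
    rw [coe_evHom]
    exact evalAt_eq_of_isValueAt hc
  rw [e]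
  exact hcQ

/-- A regular tube from a smooth chart all of whose places are centred at the local ring
(= helper24's `RegChart`, fields `chart` and `centred`). -/
def ofSmoothChart (C : Fermat.Agent.BR.S0.SmoothChart A O res Q T)
    (hres : ∀ (a : K) (ha : a ∈ A) (h : algebraMap K F a ∈ O),
      res ⟨algebraMap K F a, h⟩ = algebraMap k Ft (π ⟨a, ha⟩))
    (hπ0 : ∀ a : A, A.valuation (a : K) < 1 → π a = 0)
    (hc : ∀ P ∈ T, CentredAt A C.R P) : RegTube A π O res Q T where
  R := C.R
  le := fun y hy => C.le y hy
  normal := C.normal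
  value := by
    intro P hP y hy
    obtain ⟨a, ha⟩ := C.residue ⟨y, hy⟩
    obtain ⟨hint, hcen⟩ := hc P hP
    have hlt : A.valuation (evalAt P
        ((⟨y, hy⟩ - ⟨algebraMap K F a, C.algebraMap_mem a a.2⟩ : C.R) : F)) < 1 :=
      (mem_centre_iff hint _).mp (hcen _ ha)
    have hy1 : IsValueAt P y (evalAt P y) := hint.isValueAt_evalAt hy
    have e1 : ((⟨y, hy⟩ - ⟨algebraMap K F a, C.algebraMap_mem a a.2⟩ : C.R) : F) =
        y - algebraMap K F a := rfl
    have hv : IsValueAt P (y - algebraMap K F a) (evalAt P y - a) :=
      hy1.sub (isValueAt_algebraMap P _)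
    rw [e1, evalAt_eq_of_isValueAt hv] at hlt
    refine ⟨⟨evalAt P y, hint.evalAt_mem hy⟩, hy1, ?_⟩
    have hπ : π ⟨evalAt P y, hint.evalAt_mem hy⟩ = π a := by
      have h0 : π (⟨evalAt P y, hint.evalAt_mem hy⟩ - a) = 0 := hπ0 _ hlt
      rw [map_sub, sub_eq_zero] at h0
      exact h0
    rw [hπ]
    have h1 := C.branch _ ha
    have e : (⟨((⟨y, hy⟩ : C.R) - ⟨algebraMap K F a, C.algebraMap_mem a a.2⟩ : C.R), C.le _
        ((⟨y, hy⟩ : C.R) - ⟨algebraMap K F a, C.algebraMap_mem a a.2⟩ : C.R).2⟩ : O) =
        ⟨y, C.le y hy⟩ - ⟨algebraMap K F a, C.le _ (C.algebraMap_mem a a.2)⟩ := rfl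
    rw [e, map_sub, hres a a.2] at h1
    exact h1

end RegTube

variable {Ft' Ft'' : Type*} [Field Ft'] [Field Ft''] [Algebra k Ft'] [Algebra k Ft'']
  [Algebra Ft' Ft''] {A : ValuationSubring K} {π : A →+* k}
  {O' : ValuationSubring F'} {res' : O' →+* Ft'} {O'' : ValuationSubring F''}
  {res'' : O'' →+* Ft''} {R' : Subring F'}

/-- **The identification lemma.** `T''` a tube of `F''` with a regular local ring at the point
`Q''` of the component `(O'', res'')` (however it was constructed: e.g. a Hensel sheet along the
OTHER map), `(O'', res'')` over the component `(O', res')` of `F'`, `R' ≤ O'` a chart ring of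
`F'` whose functions have no poles on `T''`. Then the place of `Ft'` under `Q''` is the reduction,
tested on `R'`, of the place under every place of `T''`: **`T''` is mapped into the tube of the
point under `Q''`.** -/
theorem RegTube.isRedOf_under {Q'' : Place k Ft''} {T'' : Set (Place K F'')}
    (X : RegTube A π O'' res'' Q'' T'') (hR'O' : R' ≤ O'.toSubring)
    (hO : ∀ y ∈ O', algebraMap F' F'' y ∈ O'')
    (hres : ∀ (y : F') (hy : y ∈ O'),
      res'' ⟨algebraMap F' F'' y, hO y hy⟩ = algebraMap Ft' Ft'' (res' ⟨y, hy⟩))
    (hpole : ∀ y ∈ R', ∀ P ∈ T'', 0 ≤ P.ord (algebraMap F' F'' y))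
    {Q' : Place k Ft'} (hQ : LiesUnder Q'' Q') {P'' : Place K F''} (hP : P'' ∈ T'') :
    IsRedOf A π R' O' res' hR'O' (P''.restrict F') Q' := by
  have hle : ∀ y ∈ R', algebraMap F' F'' y ∈ X.R := fun y hy =>
    X.normal _ (hO y (hR'O' hy)) (hpole y hy)
  exact CoverPlaces.isRedOf_restrict hR'O' X.le hle (fun y hy => hres y (hR'O' hy)) hQ
    (X.isRedOf hP)

end Reg

end Fermat.Agent.BR3.CoverPlaces
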