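import Mathlib
import Fermat.Agent.BR.S0.SmoothFields
import Fermat.Agent.BR.Centre
import Fermat.Agent.BR3.CoverPlaces

/-!
# Program C (S36), node A6-K (K-level lift of a smooth chart along a standard étale sheet):
the steps (VAL) and (DIV), stand-alone

`F'' / F'` a finite extension of function fields over `K`, `A ⊆ K` a valuation ring with residue
map `π : A → k`, `R' ⊆ F'` the local ring of a smooth chart downstairs (parameter `t`, tube `T'`,
point `Q'` of the component `(O', res')`), `θ ∈ F''` a root of `Ψ` with coefficients in `R'`,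
`(O'', res'')` a component of the cover and `Q''` the point on the sheet `θ ≡ u`.

* `PtValue O res Q x c` : `x` is integral on the component and its reduction takes the value `c`
  at the point `Q`;  `Compat π O res Q P z` : `z` has an integral value at the place `P` whose
  residue is the value of the reduction of `z` at the point.
* `polyRing R' θ` : the ring `R'[θ]`;  `coverRing R' θ O'' res'' Q''` : `R''`, its localisation at
  the functions not vanishing at `Q''`.
* **(VAL)** `compat_polyRing`, `compat_coverRing` : every function of `R''` has compatible values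
  at the places of the sheet `θ ≡ u` over the tube and at the point `Q''`; explicit formulas
  `isValueAt_aeval`, `ptValue_aeval`.
* **(DIV)** `exists_eq_mul_of_smoothChart` (downstairs, from `normal`, `simple`, `inj`),
  `exists_taylor`, `exists_mul_eq_of_isValueAt_zero` (core: `θ - ϑ = -Ψ(ϑ) / g`,
  `g = Ψ'(θ) + w (ϑ - θ)`), `div_mem_coverRing` : a function of `R''` vanishing at a place `P''`
  of the sheet with `t(P'') = c` is divisible by `t - c` in `R''`.
* `compat_of_smoothChart`, `PtValue.map`, `compat_base` : the hypothesis `hbase` from a smooth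
  chart centred at the place under `P''` and the compatibilities of the two components.
-/

set_option autoImplicit false
set_option linter.unusedVariables false
set_option linter.unusedSectionVars false

namespace Fermat.Agent.BR3.CoverDiv

open AlgebraicCurve Polynomial Fermat.Agent.Red Fermat.Agent.BR.Centre Fermat.Agent.BR.S0
  Fermat.Agent.BR3.CoverPlaces

/-! ### values at a point of a component -/

section PtValue

variable {F k Ft : Type*} [Field F] [Field k] [Field Ft] [Algebra k Ft]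

/-- `x` is integral on the component `(O, res)` and its reduction takes the value `c` at the
point `Q` -/
def PtValue (O : ValuationSubring F) (res : O →+* Ft) (Q : Place k Ft) (x : F) (c : k) : Prop :=
  ∃ h : x ∈ O, IsValueAt Q (res ⟨x, h⟩) c

variable {O : ValuationSubring F} {res : O →+* Ft} {Q : Place k Ft}

theorem PtValue.mem {x : F} {c : k} (h : PtValue O res Q x c) : x ∈ O := h.1

theorem ptValue_zero : PtValue O res Q 0 0 := by
  refine ⟨O.zero_mem, ?_⟩
  have : (⟨0, O.zero_mem⟩ : O) = 0 := rfl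
  rw [this, map_zero]
  exact isValueAt_zero Q

theorem ptValue_one : PtValue O res Q 1 1 := by
  refine ⟨O.one_mem, ?_⟩
  have : (⟨1, O.one_mem⟩ : O) = 1 := rfl
  rw [this, map_one]
  exact isValueAt_one Q

theorem PtValue.add {x y : F} {c d : k} (hx : PtValue O res Q x c) (hy : PtValue O res Q y d) :
    PtValue O res Q (x + y) (c + d) := by
  obtain ⟨h1, h2⟩ := hx
  obtain ⟨h3, h4⟩ := hy
  refine ⟨O.add_mem _ _ h1 h3, ?_⟩
  have : (⟨x + y, O.add_mem _ _ h1 h3⟩ : O) = ⟨x, h1⟩ + ⟨y, h3⟩ := rfl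
  rw [this, map_add]
  exact h2.add h4

theorem PtValue.mul {x y : F} {c d : k} (hx : PtValue O res Q x c) (hy : PtValue O res Q y d) :
    PtValue O res Q (x * y) (c * d) := by
  obtain ⟨h1, h2⟩ := hx
  obtain ⟨h3, h4⟩ := hy
  refine ⟨O.mul_mem _ _ h1 h3, ?_⟩
  have : (⟨x * y, O.mul_mem _ _ h1 h3⟩ : O) = ⟨x, h1⟩ * ⟨y, h3⟩ := rfl
  rw [this, map_mul]
  exact h2.mul h4

theorem PtValue.neg {x : F} {c : k} (hx : PtValue O res Q x c) : PtValue O res Q (-x) (-c) := by
  obtain ⟨h1, h2⟩ := hx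
  refine ⟨O.neg_mem _ h1, ?_⟩
  have : (⟨-x, O.neg_mem _ h1⟩ : O) = -⟨x, h1⟩ := rfl
  rw [this, map_neg]
  exact h2.neg

theorem PtValue.sub {x y : F} {c d : k} (hx : PtValue O res Q x c) (hy : PtValue O res Q y d) :
    PtValue O res Q (x - y) (c - d) := by
  rw [sub_eq_add_neg, sub_eq_add_neg]
  exact hx.add hy.neg

theorem PtValue.unique {x : F} {c d : k} (hx : PtValue O res Q x c) (hy : PtValue O res Q x d) :
    c = d := by
  obtain ⟨h1, h2⟩ := hx
  obtain ⟨h3, h4⟩ := hy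
  exact h2.unique h4

end PtValue

/-! ### the ring `R'[θ]` -/

section Adjoin

variable {F' F'' : Type*} [Field F'] [Field F''] [Algebra F' F'']

/-- the subring `R'[θ]` of `F''`: the values at `θ` of the polynomials with coefficients in `R'` -/
def polyRing (R' : Subring F') (θ : F'') : Subring F'' where
  carrier := {y | ∃ a : F'[X], (∀ n, a.coeff n ∈ R') ∧ aeval θ a = y}
  zero_mem' := ⟨0, fun n => by rw [coeff_zero]; exact R'.zero_mem, by rw [map_zero]⟩
  one_mem' := ⟨1, fun n => by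
    rw [coeff_one]
    split_ifs
    · exact R'.one_mem
    · exact R'.zero_mem, by rw [map_one]⟩
  add_mem' := by
    rintro _ _ ⟨a, ha, rfl⟩ ⟨b, hb, rfl⟩
    exact ⟨a + b, fun n => by rw [coeff_add]; exact R'.add_mem (ha n) (hb n), by rw [map_add]⟩
  mul_mem' := by
    rintro _ _ ⟨a, ha, rfl⟩ ⟨b, hb, rfl⟩
    refine ⟨a * b, fun n => ?_, by rw [map_mul]⟩
    rw [coeff_mul]
    exact R'.sum_mem fun x _ => R'.mul_mem (ha _) (hb _)
  neg_mem' := by
    rintro _ ⟨a, ha, rfl⟩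
    exact ⟨-a, fun n => by rw [coeff_neg]; exact R'.neg_mem (ha n), by rw [map_neg]⟩

theorem mem_polyRing {R' : Subring F'} {θ : F''} {y : F''} :
    y ∈ polyRing R' θ ↔ ∃ a : F'[X], (∀ n, a.coeff n ∈ R') ∧ aeval θ a = y := Iff.rfl

theorem aeval_mem_polyRing {R' : Subring F'} {θ : F''} {a : F'[X]} (ha : ∀ n, a.coeff n ∈ R') :
    aeval θ a ∈ polyRing R' θ := ⟨a, ha, rfl⟩

theorem algebraMap_mem_polyRing {R' : Subring F'} (θ : F'') {y : F'} (hy : y ∈ R') :
    algebraMap F' F'' y ∈ polyRing R' θ := by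
  refine ⟨C y, fun n => ?_, by rw [aeval_C]⟩
  rw [coeff_C]
  split_ifs
  · exact hy
  · exact R'.zero_mem

theorem self_mem_polyRing (R' : Subring F') (θ : F'') : θ ∈ polyRing R' θ := by
  refine ⟨X, fun n => ?_, by rw [aeval_X]⟩
  rw [coeff_X]
  split_ifs
  · exact R'.one_mem
  · exact R'.zero_mem

/-- `R'[θ]` is generated by the image of `R'` and `θ`: induction principle. -/
theorem polyRing_induction {R' : Subring F'} {θ : F''} {p : F'' → Prop}
    (hbase : ∀ y ∈ R', p (algebraMap F' F'' y)) (hθ : p θ)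
    (hadd : ∀ x y, p x → p y → p (x + y)) (hmul : ∀ x y, p x → p y → p (x * y))
    {z : F''} (hz : z ∈ polyRing R' θ) : p z := by
  obtain ⟨a, ha, rfl⟩ := hz
  have hpow : ∀ n : ℕ, p (θ ^ n) := by
    intro n
    induction n with
    | zero =>
      rw [pow_zero, ← map_one (algebraMap F' F'')]
      exact hbase 1 R'.one_mem
    | succ n ih =>
      rw [pow_succ]
      exact hmul _ _ ih hθ
  have hsum : ∀ s : Finset ℕ, p (∑ n ∈ s, algebraMap F' F'' (a.coeff n) * θ ^ n) := by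
    intro s
    classical
    induction s using Finset.induction_on with
    | empty =>
      rw [Finset.sum_empty, ← map_zero (algebraMap F' F'')]
      exact hbase 0 R'.zero_mem
    | insert n s hn ih =>
      rw [Finset.sum_insert hn]
      exact hadd _ _ (hmul _ _ (hbase _ (ha n)) (hpow n)) ih
  rw [aeval_eq_sum_range]
  simp only [Algebra.smul_def]
  exact hsum _

/-- **second order Taylor expansion inside `R'[θ]`**: for `Ψ` with coefficients in `R'` and
`y ∈ R'[θ]`: `Ψ(y) = Ψ(θ) + (Ψ'(θ) + w (y - θ)) (y - θ)` with `w ∈ R'[θ]`. -/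
theorem exists_taylor {R' : Subring F'} {θ : F''} {Ψ : F'[X]} (hΨ : ∀ n, Ψ.coeff n ∈ R')
    {y : F''} (hy : y ∈ polyRing R' θ) :
    ∃ w ∈ polyRing R' θ,
      aeval y Ψ = aeval θ Ψ + (aeval θ (derivative Ψ) + w * (y - θ)) * (y - θ) := by
  set B := polyRing R' θ with hB
  have hcoeffs : (↑(Ψ.map (algebraMap F' F'')).coeffs : Set F'') ⊆ B := by
    intro c hc
    rw [Finset.mem_coe, Polynomial.mem_coeffs_iff] at hc
    obtain ⟨n, -, rfl⟩ := hc
    rw [coeff_map]
    exact algebraMap_mem_polyRing θ (hΨ n)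
  set ΨB : B[X] := (Ψ.map (algebraMap F' F'')).toSubring B hcoeffs with hΨB
  have hmap : ΨB.map B.subtype = Ψ.map (algebraMap F' F'') := map_toSubring _ _ _
  have heval : ∀ b : B, ((ΨB.eval b : B) : F'') = aeval (b : F'') Ψ := by
    intro b
    have h1 : B.subtype (ΨB.eval b) = (ΨB.map B.subtype).eval (B.subtype b) := by
      rw [eval_map, eval₂_at_apply]
    rw [hmap, eval_map, ← aeval_def] at h1
    exact h1
  have hderiv : ∀ b : B, ((ΨB.derivative.eval b : B) : F'') = aeval (b : F'') (derivative Ψ) := by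
    intro b
    have h1 : B.subtype (ΨB.derivative.eval b) =
        (ΨB.derivative.map B.subtype).eval (B.subtype b) := by
      rw [eval_map, eval₂_at_apply]
    rw [← derivative_map, hmap, derivative_map, eval_map, ← aeval_def] at h1
    exact h1
  obtain ⟨w, hw⟩ := binomExpansion ΨB ⟨θ, self_mem_polyRing R' θ⟩
    (⟨y, hy⟩ - ⟨θ, self_mem_polyRing R' θ⟩)
  refine ⟨w, w.2, ?_⟩
  have h2 := congrArg (fun b : B => (b : F'')) hw
  simp only [add_sub_cancel] at h2
  have h3 : ((ΨB.eval (⟨y, hy⟩ : B) : B) : F'') = aeval y Ψ := heval ⟨y, hy⟩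
  rw [h3] at h2
  rw [h2]
  push_cast
  rw [heval, hderiv]
  ring

end Adjoin

/-! ### (VAL): compatibility of the values on the tube and at the point -/

section Val

variable {K : Type*} [Field K] {F' F'' : Type*} [Field F'] [Field F''] [Algebra K F']
  [Algebra K F''] [Algebra F' F''] [IsScalarTower K F' F'']
  {k : Type*} [Field k] {Ft'' : Type*} [Field Ft''] [Algebra k Ft'']
  {A : ValuationSubring K} {π : A →+* k}
  {O'' : ValuationSubring F''} {res'' : O'' →+* Ft''} {Q'' : Place k Ft''}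

/-- `z` has an integral value at the place `P` whose residue is the value at the point `Q` of
the reduction of `z` on the component `(O, res)`. -/
def Compat {F Ft : Type*} [Field F] [Algebra K F] [Field Ft] [Algebra k Ft] (π : A →+* k)
    (O : ValuationSubring F) (res : O →+* Ft) (Q : Place k Ft) (P : Place K F) (z : F) : Prop :=
  ∃ c : A, IsValueAt P z (c : K) ∧ PtValue O res Q z (π c)

section CompatAPI

variable {F Ft : Type*} [Field F] [Algebra K F] [Field Ft] [Algebra k Ft]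
  {O : ValuationSubring F} {res : O →+* Ft} {Q : Place k Ft} {P : Place K F}

theorem Compat.add {x y : F} (hx : Compat π O res Q P x) (hy : Compat π O res Q P y) :
    Compat π O res Q P (x + y) := by
  obtain ⟨c, h1, h2⟩ := hx
  obtain ⟨d, h3, h4⟩ := hy
  refine ⟨c + d, ?_, ?_⟩
  · push_cast
    exact h1.add h3
  · rw [map_add]
    exact h2.add h4

theorem Compat.mul {x y : F} (hx : Compat π O res Q P x) (hy : Compat π O res Q P y) :
    Compat π O res Q P (x * y) := by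
  obtain ⟨c, h1, h2⟩ := hx
  obtain ⟨d, h3, h4⟩ := hy
  refine ⟨c * d, ?_, ?_⟩
  · push_cast
    exact h1.mul h3
  · rw [map_mul]
    exact h2.mul h4

theorem Compat.exists_isValueAt {x : F} (hx : Compat π O res Q P x) :
    ∃ c : K, c ∈ A ∧ IsValueAt P x c := by
  obtain ⟨c, h1, -⟩ := hx
  exact ⟨c, c.2, h1⟩

end CompatAPI

/-- the residue of an element of `A` congruent to `u` -/
theorem map_eq_of_valuation_sub_lt (hπ0 : ∀ a : A, A.valuation (a : K) < 1 → π a = 0) {u : A}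
    {ϑ : K} (hϑ : A.valuation (ϑ - u) < 1) : ∃ h : ϑ ∈ A, π ⟨ϑ, h⟩ = π u := by
  have h1 : ϑ - u ∈ A := (A.valuation_le_one_iff _).mp hϑ.le
  have h2 : ϑ ∈ A := by
    have := A.add_mem _ _ h1 u.2
    rwa [sub_add_cancel] at this
  refine ⟨h2, ?_⟩
  have h3 : (⟨ϑ, h2⟩ : A) = ⟨ϑ - u, h1⟩ + u := Subtype.ext (by simp)
  rw [h3, map_add, hπ0 ⟨ϑ - u, h1⟩ hϑ, zero_add]

/-- **(VAL)**: the values of `z ∈ R'[θ]` at a place `P''` of the sheet `θ ≡ u` and at the point
`Q''` are compatible. -/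
theorem compat_polyRing (hπ0 : ∀ a : A, A.valuation (a : K) < 1 → π a = 0)
    {P'' : Place K F''} {R' : Subring F'} {θ : F''} {u : A} {ϑ : K}
    (hbase : ∀ y ∈ R', Compat π O'' res'' Q'' P'' (algebraMap F' F'' y))
    (hθP : IsValueAt P'' θ ϑ) (hϑ : A.valuation (ϑ - u) < 1)
    (hθQ : PtValue O'' res'' Q'' θ (π u)) {z : F''} (hz : z ∈ polyRing R' θ) :
    Compat π O'' res'' Q'' P'' z := by
  refine polyRing_induction (p := fun z => Compat π O'' res'' Q'' P'' z) hbase ?_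
    (fun x y hx hy => hx.add hy) (fun x y hx hy => hx.mul hy) hz
  obtain ⟨h2, h3⟩ := map_eq_of_valuation_sub_lt hπ0 hϑ
  exact ⟨⟨ϑ, h2⟩, hθP, by rw [h3]; exact hθQ⟩

theorem isValueAt_finset_sum {P'' : Place K F''} {ι : Type*} (s : Finset ι) (f : ι → F'')
    (g : ι → K) (h : ∀ i ∈ s, IsValueAt P'' (f i) (g i)) :
    IsValueAt P'' (∑ i ∈ s, f i) (∑ i ∈ s, g i) := by
  classical
  induction s using Finset.induction_on with
  | empty =>
    rw [Finset.sum_empty, Finset.sum_empty]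
    exact isValueAt_zero P''
  | insert i s hi ih =>
    rw [Finset.sum_insert hi, Finset.sum_insert hi]
    exact (h i (Finset.mem_insert_self i s)).add
      (ih fun j hj => h j (Finset.mem_insert_of_mem hj))

/-- the explicit form of (VAL) on the tube: the value of `Σ a_l θ^l` at `P''` is
`Σ a_l(P') ϑ^l`. -/
theorem isValueAt_aeval {P'' : Place K F''} {θ : F''} {ϑ : K} (hθP : IsValueAt P'' θ ϑ)
    (a : F'[X]) (b : K[X])
    (hab : ∀ n, IsValueAt P'' (algebraMap F' F'' (a.coeff n)) (b.coeff n)) :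
    IsValueAt P'' (aeval θ a) (b.eval ϑ) := by
  have hzero : ∀ n, a.coeff n = 0 → b.coeff n = 0 := by
    intro n hn
    have h1 := hab n
    rw [hn, map_zero] at h1
    exact h1.unique (isValueAt_zero P'')
  set N := max a.natDegree b.natDegree + 1 with hN
  have ha : aeval θ a = ∑ n ∈ Finset.range N, algebraMap F' F'' (a.coeff n) * θ ^ n := by
    rw [aeval_eq_sum_range' (n := N) (by rw [hN]; omega)]
    simp only [Algebra.smul_def]
  have hb : b.eval ϑ = ∑ n ∈ Finset.range N, b.coeff n * ϑ ^ n := by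
    rw [eval_eq_sum_range' (n := N) (by rw [hN]; omega)]
  rw [ha, hb]
  exact isValueAt_finset_sum _ _ _ fun n _ => (hab n).mul (hθP.pow n)

theorem PtValue.pow {x : F''} {c : k} (hx : PtValue O'' res'' Q'' x c) (n : ℕ) :
    PtValue O'' res'' Q'' (x ^ n) (c ^ n) := by
  induction n with
  | zero =>
    rw [pow_zero, pow_zero]
    exact ptValue_one
  | succ n ih =>
    rw [pow_succ, pow_succ]
    exact ih.mul hx

theorem ptValue_finset_sum {ι : Type*} (s : Finset ι) (f : ι → F'')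
    (g : ι → k) (h : ∀ i ∈ s, PtValue O'' res'' Q'' (f i) (g i)) :
    PtValue O'' res'' Q'' (∑ i ∈ s, f i) (∑ i ∈ s, g i) := by
  classical
  induction s using Finset.induction_on with
  | empty =>
    rw [Finset.sum_empty, Finset.sum_empty]
    exact ptValue_zero
  | insert i s hi ih =>
    rw [Finset.sum_insert hi, Finset.sum_insert hi]
    exact (h i (Finset.mem_insert_self i s)).add
      (ih fun j hj => h j (Finset.mem_insert_of_mem hj))

/-- the explicit form of (VAL) at the point: the value of the reduction of `Σ a_l θ^l` at `Q''`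
is `Σ ā_l(Q') ū^l`. -/
theorem ptValue_aeval {θ : F''} {ū : k} (hθQ : PtValue O'' res'' Q'' θ ū)
    (a : F'[X]) (b : k[X])
    (hab : ∀ n, PtValue O'' res'' Q'' (algebraMap F' F'' (a.coeff n)) (b.coeff n)) :
    PtValue O'' res'' Q'' (aeval θ a) (b.eval ū) := by
  have hzero : ∀ n, a.coeff n = 0 → b.coeff n = 0 := by
    intro n hn
    have h1 := hab n
    rw [hn, map_zero] at h1
    exact h1.unique ptValue_zero
  set N := max a.natDegree b.natDegree + 1 with hN
  have ha : aeval θ a = ∑ n ∈ Finset.range N, algebraMap F' F'' (a.coeff n) * θ ^ n := by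
    rw [aeval_eq_sum_range' (n := N) (by rw [hN]; omega)]
    simp only [Algebra.smul_def]
  have hb : b.eval ū = ∑ n ∈ Finset.range N, b.coeff n * ū ^ n := by
    rw [eval_eq_sum_range' (n := N) (by rw [hN]; omega)]
  rw [ha, hb]
  exact ptValue_finset_sum _ _ _ fun n _ => (hab n).mul (hθQ.pow n)

/-- the local ring `R''` of the cover at the point: `R'[θ]` localised at the functions whose
reduction does not vanish at `Q''`. -/
def coverRing (R' : Subring F') (θ : F'') (O'' : ValuationSubring F'') (res'' : O'' →+* Ft'')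
    (Q'' : Place k Ft'') : Subring F'' where
  carrier := {y | ∃ a s, a ∈ polyRing R' θ ∧ s ∈ polyRing R' θ ∧
    (∃ d : k, d ≠ 0 ∧ PtValue O'' res'' Q'' s d) ∧ y * s = a}
  zero_mem' := ⟨0, 1, Subring.zero_mem _, Subring.one_mem _, ⟨1, one_ne_zero, ptValue_one⟩,
    by rw [zero_mul]⟩
  one_mem' := ⟨1, 1, Subring.one_mem _, Subring.one_mem _, ⟨1, one_ne_zero, ptValue_one⟩,
    by rw [one_mul]⟩
  add_mem' := by
    rintro y₁ y₂ ⟨a₁, s₁, ha₁, hs₁, ⟨d₁, hd₁, hv₁⟩, h₁⟩ ⟨a₂, s₂, ha₂, hs₂, ⟨d₂, hd₂, hv₂⟩, h₂⟩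
    refine ⟨a₁ * s₂ + a₂ * s₁, s₁ * s₂,
      Subring.add_mem _ (Subring.mul_mem _ ha₁ hs₂) (Subring.mul_mem _ ha₂ hs₁),
      Subring.mul_mem _ hs₁ hs₂, ⟨d₁ * d₂, mul_ne_zero hd₁ hd₂, hv₁.mul hv₂⟩, ?_⟩
    rw [← h₁, ← h₂]
    ring
  mul_mem' := by
    rintro y₁ y₂ ⟨a₁, s₁, ha₁, hs₁, ⟨d₁, hd₁, hv₁⟩, h₁⟩ ⟨a₂, s₂, ha₂, hs₂, ⟨d₂, hd₂, hv₂⟩, h₂⟩
    refine ⟨a₁ * a₂, s₁ * s₂, Subring.mul_mem _ ha₁ ha₂,
      Subring.mul_mem _ hs₁ hs₂, ⟨d₁ * d₂, mul_ne_zero hd₁ hd₂, hv₁.mul hv₂⟩, ?_⟩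
    rw [← h₁, ← h₂]
    ring
  neg_mem' := by
    rintro y ⟨a, s, ha, hs, hd, h⟩
    exact ⟨-a, s, Subring.neg_mem _ ha, hs, hd, by rw [← h]; ring⟩

theorem mem_coverRing {R' : Subring F'} {θ : F''} {y : F''} :
    y ∈ coverRing R' θ O'' res'' Q'' ↔ ∃ a s, a ∈ polyRing R' θ ∧ s ∈ polyRing R' θ ∧
      (∃ d : k, d ≠ 0 ∧ PtValue O'' res'' Q'' s d) ∧ y * s = a := Iff.rfl

theorem polyRing_le_coverRing (R' : Subring F') (θ : F'') :
    polyRing R' θ ≤ coverRing R' θ O'' res'' Q'' := by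
  intro y hy
  exact ⟨y, 1, hy, Subring.one_mem _, ⟨1, one_ne_zero, ptValue_one⟩, by rw [mul_one]⟩

/-- the functions of `R'[θ]` not vanishing at the point are invertible in `R''` -/
theorem inv_mem_coverRing {R' : Subring F'} {θ : F''} {s : F''} (hs : s ∈ polyRing R' θ) {d : k}
    (hd : d ≠ 0) (hsd : PtValue O'' res'' Q'' s d) : s⁻¹ ∈ coverRing R' θ O'' res'' Q'' := by
  by_cases hs0 : s = 0
  · rw [hs0, inv_zero]
    exact Subring.zero_mem _
  · exact ⟨1, s, Subring.one_mem _, hs, ⟨d, hd, hsd⟩, inv_mul_cancel₀ hs0⟩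

/-- the reduction of the inverse of a function not vanishing at the point -/
theorem PtValue.inv {F Ft : Type*} [Field F] [Field Ft] [Algebra k Ft] {O : ValuationSubring F}
    {res : O →+* Ft} {Q : Place k Ft}
    (hres0 : ∀ x : O, (x : F) ∈ O.nonunits → res x = 0) {x : F} {c : k}
    (hx : PtValue O res Q x c) (hc : c ≠ 0) : PtValue O res Q x⁻¹ c⁻¹ := by
  obtain ⟨h1, h2⟩ := hx
  have hne : res ⟨x, h1⟩ ≠ 0 := by
    intro h0
    rw [h0] at h2
    exact hc (h2.unique (isValueAt_zero Q))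
  have hnon : x ∉ O.nonunits := fun h => hne (hres0 ⟨x, h1⟩ h)
  have hval : O.valuation x = 1 := by
    rw [ValuationSubring.mem_nonunits_iff, not_lt] at hnon
    exact le_antisymm ((O.valuation_le_one_iff x).mpr h1) hnon
  have hinv : x⁻¹ ∈ O := by
    rw [← O.valuation_le_one_iff, map_inv₀, hval, inv_one]
  have hx0 : x ≠ 0 := by
    rintro rfl
    rw [map_zero] at hval
    exact zero_ne_one hval
  refine ⟨hinv, ?_⟩
  have h3 : res ⟨x⁻¹, hinv⟩ * res ⟨x, h1⟩ = 1 := by
    rw [← map_mul]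
    have : (⟨x⁻¹, hinv⟩ : O) * ⟨x, h1⟩ = 1 := Subtype.ext (inv_mul_cancel₀ hx0)
    rw [this, map_one]
  rw [eq_inv_of_mul_eq_one_left h3]
  exact IsValueAt.inv h2 hc

/-- **(VAL) for `R''`**. -/
theorem compat_coverRing (hπ0 : ∀ a : A, A.valuation (a : K) < 1 → π a = 0)
    (hπ : ∀ a : A, π a ≠ 0 → (a : K)⁻¹ ∈ A)
    (hres0 : ∀ x : O'', (x : F'') ∈ O''.nonunits → res'' x = 0)
    {P'' : Place K F''} {R' : Subring F'} {θ : F''} {u : A} {ϑ : K}
    (hbase : ∀ y ∈ R', Compat π O'' res'' Q'' P'' (algebraMap F' F'' y))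
    (hθP : IsValueAt P'' θ ϑ) (hϑ : A.valuation (ϑ - u) < 1)
    (hθQ : PtValue O'' res'' Q'' θ (π u)) {z : F''} (hz : z ∈ coverRing R' θ O'' res'' Q'') :
    Compat π O'' res'' Q'' P'' z := by
  obtain ⟨a, s, ha, hs, ⟨d, hd, hsd⟩, hzs⟩ := hz
  obtain ⟨ca, hca1, hca2⟩ := compat_polyRing hπ0 hbase hθP hϑ hθQ ha
  obtain ⟨cs, hcs1, hcs2⟩ := compat_polyRing hπ0 hbase hθP hϑ hθQ hs
  have hπcs : π cs = d := hcs2.unique hsd
  have hπcs0 : π cs ≠ 0 := by rw [hπcs]; exact hd
  have hcsinv : (cs : K)⁻¹ ∈ A := hπ cs hπcs0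
  have hcs0 : (cs : K) ≠ 0 := by
    intro h0
    apply hπcs0
    have : cs = 0 := Subtype.ext h0
    rw [this, map_zero]
  have hs0 : s ≠ 0 := by
    rintro rfl
    exact hcs0 (hcs1.unique (isValueAt_zero P''))
  have hz : z = a * s⁻¹ := by
    rw [← hzs, mul_assoc, mul_inv_cancel₀ hs0, mul_one]
  have hπinv : π ⟨(cs : K)⁻¹, hcsinv⟩ = (π cs)⁻¹ := by
    apply eq_inv_of_mul_eq_one_left
    rw [← map_mul]
    have : (⟨(cs : K)⁻¹, hcsinv⟩ : A) * cs = 1 := Subtype.ext (inv_mul_cancel₀ hcs0)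
    rw [this, map_one]
  refine ⟨ca * ⟨(cs : K)⁻¹, hcsinv⟩, ?_, ?_⟩
  · rw [hz]
    push_cast
    exact hca1.mul (IsValueAt.inv hcs1 hcs0)
  · rw [hz, map_mul, hπinv]
    exact hca2.mul (PtValue.inv hres0 hcs2 hπcs0)

end Val

/-! ### (DIV) -/

section Div

variable {K : Type*} [Field K] {F' F'' : Type*} [Field F'] [Field F''] [Algebra K F']
  [Algebra K F''] [Algebra F' F''] [IsScalarTower K F' F''] [Algebra.IsIntegral F' F'']
  {k : Type*} [Field k] {Ft' Ft'' : Type*} [Field Ft'] [Algebra k Ft'] [Field Ft'']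
  [Algebra k Ft'']
  {A : ValuationSubring K} {π : A →+* k}
  {O' : ValuationSubring F'} {res' : O' →+* Ft'} {Q' : Place k Ft'} {T' : Set (Place K F')}
  {O'' : ValuationSubring F''} {res'' : O'' →+* Ft''} {Q'' : Place k Ft''}

/-- a function with a value at a place is regular there -/
theorem ord_nonneg_of_isValueAt' {P : Place K F'} {x : F'} {a : K} (hx : IsValueAt P x a) :
    0 ≤ P.ord x := by
  rcases (P.adicValuation_le_one_iff).mp hx.adicValuation_le_one with rfl | h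
  · rw [Place.ord_zero]
  · exact h

/-- **(DIV) downstairs**, from a smooth chart: a function of the local ring vanishing at a place
`P'` of the tube with `t(P') = c` is divisible by `t - c` in the local ring. -/
theorem exists_eq_mul_of_smoothChart (C : SmoothChart A O' res' Q' T')
    (hres : ∀ (a : K) (ha : a ∈ A) (h : algebraMap K F' a ∈ O'),
      res' ⟨algebraMap K F' a, h⟩ = algebraMap k Ft' (π ⟨a, ha⟩))
    (hres0 : ∀ x : O', res' x = 0 ↔ (x : F') ∈ O'.nonunits)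
    (hπ0 : ∀ a : A, A.valuation (a : K) < 1 → π a = 0)
    (hint : ∀ P ∈ T', IntegralAt A C.R P)
    {P' : Place K F'} (hP' : P' ∈ T') {c : K} (hc : IsValueAt P' C.t c)
    {y : F'} (hy : y ∈ C.R) (hy0 : IsValueAt P' y 0) :
    ∃ y' ∈ C.R, y = (C.t - algebraMap K F' c) * y' := by
  obtain ⟨c', hc'lt, hc'⟩ := C.value P' hP'
  have hcc : c = c' := hc.unique hc'
  subst hcc
  have hcA : c ∈ A := (A.valuation_le_one_iff c).mp hc'lt.le
  have hcR : algebraMap K F' c ∈ C.R := C.algebraMap_mem c hcA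
  have htcR : C.t - algebraMap K F' c ∈ C.R := C.R.sub_mem C.t_mem hcR
  have htcO : C.t - algebraMap K F' c ∈ O' := C.le _ htcR
  -- the reduction of `t - c` is the reduction of `t`
  have hrest : res' ⟨C.t - algebraMap K F' c, htcO⟩ = res' ⟨C.t, C.le _ C.t_mem⟩ := by
    have e : (⟨C.t - algebraMap K F' c, htcO⟩ : O') =
        ⟨C.t, C.le _ C.t_mem⟩ - ⟨algebraMap K F' c, C.le _ hcR⟩ := rfl
    rw [e, map_sub, hres c hcA, hπ0 ⟨c, hcA⟩ hc'lt, map_zero, sub_zero]
  have hrest0 : res' ⟨C.t - algebraMap K F' c, htcO⟩ ≠ 0 := by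
    rw [hrest]
    intro h0
    have := C.ord_res_t
    rw [h0, Place.ord_zero] at this
    exact zero_ne_one this
  have hnon : C.t - algebraMap K F' c ∉ O'.nonunits := fun h => hrest0 ((hres0 _).mpr h)
  have hval : O'.valuation (C.t - algebraMap K F' c) = 1 := by
    rw [ValuationSubring.mem_nonunits_iff, not_lt] at hnon
    exact le_antisymm ((O'.valuation_le_one_iff _).mpr htcO) hnon
  have htc0 : C.t - algebraMap K F' c ≠ 0 := by
    intro h0
    rw [h0, map_zero] at hval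
    exact zero_ne_one hval
  have hinvO : (C.t - algebraMap K F' c)⁻¹ ∈ O' := by
    rw [← O'.valuation_le_one_iff, map_inv₀, hval, inv_one]
  refine ⟨(C.t - algebraMap K F' c)⁻¹ * y, ?_, by rw [mul_inv_cancel_left₀ htc0]⟩
  refine C.normal _ (O'.mul_mem _ _ hinvO (C.le y hy)) fun P hP => ?_
  by_cases hy0' : y = 0
  · rw [hy0', mul_zero, Place.ord_zero]
  rw [P.ord_mul (inv_ne_zero htc0) hy0', Place.ord_inv]
  by_cases hPP : P = P'
  · subst hPP
    rw [C.simple P hP c hc]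
    have h1 : 0 < P.ord y := by
      have h2 : P.adicValuation y < 1 := by
        have := hy0
        unfold IsValueAt at this
        rwa [map_zero, sub_zero] at this
      exact ((adicValuation_lt_one_iff P).mp h2).resolve_left hy0'
    omega
  · obtain ⟨cP, -, hcP⟩ := C.value P hP
    have hne : cP - c ≠ 0 := by
      intro h0
      have h1 : cP = c := sub_eq_zero.mp h0
      rw [h1] at hcP
      exact hPP (C.inj P hP P' hP' c hcP hc)
    have h1 : P.ord (C.t - algebraMap K F' c) = 0 :=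
      (hcP.sub (isValueAt_algebraMap P c)).ord_eq_zero hne
    obtain ⟨a, -, ha⟩ := hint P hP y hy
    have h2 := ord_nonneg_of_isValueAt' ha
    omega

/-- downstairs compatibility from a smooth chart at a place at which the local ring is centred -/
theorem compat_of_smoothChart (C : SmoothChart A O' res' Q' T')
    (hres : ∀ (a : K) (ha : a ∈ A) (h : algebraMap K F' a ∈ O'),
      res' ⟨algebraMap K F' a, h⟩ = algebraMap k Ft' (π ⟨a, ha⟩))
    (hπ0 : ∀ a : A, A.valuation (a : K) < 1 → π a = 0)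
    {P' : Place K F'} (hcen : CentredAt A C.R P') {y : F'} (hy : y ∈ C.R) :
    Compat π O' res' Q' P' y := by
  obtain ⟨hI, hcent⟩ := hcen
  obtain ⟨a, ha⟩ := C.residue ⟨y, hy⟩
  have hmem := hcent _ ha
  rw [mem_centre_iff] at hmem
  have hvy := hI.isValueAt_evalAt hy
  have hev : evalAt P' (((⟨y, hy⟩ : C.R) - ⟨algebraMap K F' a, C.algebraMap_mem a a.2⟩ : C.R) : F')
      = evalAt P' y - a :=
    evalAt_eq_of_isValueAt (hvy.sub (isValueAt_algebraMap P' (a : K)))
  rw [hev] at hmem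
  obtain ⟨h2, h3⟩ := map_eq_of_valuation_sub_lt hπ0 hmem
  refine ⟨⟨evalAt P' y, h2⟩, hvy, C.le y hy, ?_⟩
  rw [h3]
  have h1 := C.branch _ ha
  have e : (⟨((⟨y, hy⟩ : C.R) - ⟨algebraMap K F' a, C.algebraMap_mem a a.2⟩ : C.R), C.le _
      ((⟨y, hy⟩ : C.R) - ⟨algebraMap K F' a, C.algebraMap_mem a a.2⟩ : C.R).2⟩ : O') =
      ⟨y, C.le y hy⟩ - ⟨algebraMap K F' a, C.le _ (C.algebraMap_mem a a.2)⟩ := rfl
  rw [e, map_sub, hres a a.2] at h1
  exact h1

/-- the coefficients of the derivative of a polynomial with coefficients in `R'` lie in `R'` -/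
theorem coeff_derivative_mem {R' : Subring F'} {Ψ : F'[X]} (hΨ : ∀ n, Ψ.coeff n ∈ R') (n : ℕ) :
    (derivative Ψ).coeff n ∈ R' := by
  rw [coeff_derivative]
  refine R'.mul_mem (hΨ _) ?_
  have : ((n : F') + 1) = ((n + 1 : ℕ) : F') := by push_cast; ring
  rw [this]
  exact natCast_mem R' (n + 1)

/-- the value of a polynomial with coefficients in `R'` at a point of `R'` lies in `R'` -/
theorem eval_mem {R' : Subring F'} {Ψ : F'[X]} (hΨ : ∀ n, Ψ.coeff n ∈ R') {x : F'} (hx : x ∈ R') :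
    Ψ.eval x ∈ R' := by
  rw [eval_eq_sum_range]
  exact R'.sum_mem fun n _ => R'.mul_mem (hΨ n) (R'.pow_mem hx n)

/-- every function of `R'[θ]` has an integral value at a place over the tube at which `θ` has an
integral value -/
theorem exists_isValueAt_polyRing {R' : Subring F'} {P'' : Place K F''}
    (hint : IntegralAt A R' (P''.restrict F')) {θ : F''} {ϑ : K} (hϑA : ϑ ∈ A)
    (hθP : IsValueAt P'' θ ϑ) {z : F''} (hz : z ∈ polyRing R' θ) :
    ∃ c : K, c ∈ A ∧ IsValueAt P'' z c := by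
  refine polyRing_induction (p := fun z => ∃ c : K, c ∈ A ∧ IsValueAt P'' z c) ?_ ⟨ϑ, hϑA, hθP⟩
    ?_ ?_ hz
  · intro y hy
    obtain ⟨c, hcA, hc⟩ := hint y hy
    exact ⟨c, hcA, (isValueAt_restrict_iff P'' y c).mp hc⟩
  · rintro x y ⟨c, hcA, hc⟩ ⟨d, hdA, hd⟩
    exact ⟨c + d, A.add_mem _ _ hcA hdA, hc.add hd⟩
  · rintro x y ⟨c, hcA, hc⟩ ⟨d, hdA, hd⟩
    exact ⟨c * d, A.mul_mem _ _ hcA hdA, hc.mul hd⟩

/-- **(DIV), core**: for every place `P''` over the tube with `θ(P'') = ϑ ∈ A` there is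
`g = Ψ'(θ) + w (ϑ - θ) ∈ R'[θ]` such that `g z ∈ (t - c) R'[θ]` for every `z ∈ R'[θ]` vanishing
at `P''`. -/
theorem exists_mul_eq_of_isValueAt_zero {R' : Subring F'} {t : F'} {c : K}
    (hA : ∀ a ∈ A, algebraMap K F' a ∈ R') {P'' : Place K F''}
    (hint : IntegralAt A R' (P''.restrict F'))
    (hdiv' : ∀ y ∈ R', IsValueAt (P''.restrict F') y 0 →
      ∃ y' ∈ R', y = (t - algebraMap K F' c) * y')
    {θ : F''} {Ψ : F'[X]} (hΨ : ∀ n, Ψ.coeff n ∈ R') (hroot : aeval θ Ψ = 0)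
    {ϑ : K} (hϑA : ϑ ∈ A) (hθP : IsValueAt P'' θ ϑ) :
    ∃ g ∈ polyRing R' θ,
      (∃ w ∈ polyRing R' θ, g = aeval θ (derivative Ψ) + w * (algebraMap K F'' ϑ - θ)) ∧
      ∀ z ∈ polyRing R' θ, IsValueAt P'' z 0 → ∃ z₁ ∈ polyRing R' θ,
        z * g = (algebraMap F' F'' t - algebraMap K F'' c) * z₁ := by
  set B := polyRing R' θ with hB
  -- constants
  have hconst : ∀ a : K, a ∈ A → algebraMap K F'' a ∈ B := by
    intro a ha
    rw [IsScalarTower.algebraMap_apply K F' F'']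
    exact algebraMap_mem_polyRing θ (hA a ha)
  have htc : algebraMap F' F'' (t - algebraMap K F' c) =
      algebraMap F' F'' t - algebraMap K F'' c := by
    rw [map_sub, ← IsScalarTower.algebraMap_apply]
  -- the Taylor expansion at `θ`
  obtain ⟨w, hw, htay⟩ := exists_taylor (θ := θ) hΨ (hconst ϑ hϑA)
  obtain ⟨g, hg⟩ : ∃ g : F'', g = aeval θ (derivative Ψ) + w * (algebraMap K F'' ϑ - θ) :=
    ⟨_, rfl⟩
  rw [hroot, zero_add, ← hg] at htay
  have hgB : g ∈ B := by
    rw [hg]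
    exact B.add_mem (aeval_mem_polyRing (coeff_derivative_mem hΨ))
      (B.mul_mem hw (B.sub_mem (hconst ϑ hϑA) (self_mem_polyRing R' θ)))
  -- `Ψ(ϑ)` is a function of `R'` vanishing at the place under `P''`
  have hψ₀R : Ψ.eval (algebraMap K F' ϑ) ∈ R' := eval_mem hΨ (hA ϑ hϑA)
  have hψ₀ : algebraMap F' F'' (Ψ.eval (algebraMap K F' ϑ)) = aeval (algebraMap K F'' ϑ) Ψ := by
    rw [IsScalarTower.algebraMap_apply K F' F'', aeval_algebraMap_apply, coe_aeval_eq_eval]
  have hθϑ : IsValueAt P'' (algebraMap K F'' ϑ - θ) 0 := by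
    have := (isValueAt_algebraMap P'' ϑ).sub hθP
    rwa [sub_self] at this
  have hψ₀val : IsValueAt (P''.restrict F') (Ψ.eval (algebraMap K F' ϑ)) 0 := by
    rw [isValueAt_restrict_iff, hψ₀, htay]
    obtain ⟨cg, -, hcg⟩ := exists_isValueAt_polyRing hint hϑA hθP hgB
    have := hcg.mul hθϑ
    rwa [mul_zero] at this
  obtain ⟨ψ₁, hψ₁R, hψ₁⟩ := hdiv' _ hψ₀R hψ₀val
  -- `(θ - ϑ) g = -(t - c) ψ₁`
  have hθg : (θ - algebraMap K F'' ϑ) * g =
      (algebraMap F' F'' t - algebraMap K F'' c) * (-algebraMap F' F'' ψ₁) := by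
    have h1 : (θ - algebraMap K F'' ϑ) * g = -(g * (algebraMap K F'' ϑ - θ)) := by ring
    rw [h1, ← htay, ← hψ₀, hψ₁, map_mul, htc]
    ring
  refine ⟨g, hgB, ⟨w, hw, hg⟩, ?_⟩
  -- the induction
  have key : ∀ z ∈ B, z ∈ B ∧ ∃ cz : K, cz ∈ A ∧ IsValueAt P'' z cz ∧ ∃ z₁ ∈ B,
      (z - algebraMap K F'' cz) * g = (algebraMap F' F'' t - algebraMap K F'' c) * z₁ := by
    intro z hz
    refine polyRing_induction (p := fun z => z ∈ B ∧ ∃ cz : K, cz ∈ A ∧ IsValueAt P'' z cz ∧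
      ∃ z₁ ∈ B, (z - algebraMap K F'' cz) * g =
        (algebraMap F' F'' t - algebraMap K F'' c) * z₁) ?_ ?_ ?_ ?_ hz
    · intro y hy
      obtain ⟨cy, hcyA, hcy⟩ := hint y hy
      have hyR : y - algebraMap K F' cy ∈ R' := R'.sub_mem hy (hA cy hcyA)
      have hy0 : IsValueAt (P''.restrict F') (y - algebraMap K F' cy) 0 := by
        have := hcy.sub (isValueAt_algebraMap (P''.restrict F') cy)
        rwa [sub_self] at this
      obtain ⟨y₁, hy₁R, hy₁⟩ := hdiv' _ hyR hy0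
      refine ⟨algebraMap_mem_polyRing θ hy, cy, hcyA, (isValueAt_restrict_iff P'' y cy).mp hcy,
        algebraMap F' F'' y₁ * g, B.mul_mem (algebraMap_mem_polyRing θ hy₁R) hgB, ?_⟩
      have h1 : algebraMap F' F'' y - algebraMap K F'' cy =
          algebraMap F' F'' (y - algebraMap K F' cy) := by
        rw [map_sub, ← IsScalarTower.algebraMap_apply]
      rw [h1, hy₁, map_mul, htc]
      ring
    · exact ⟨self_mem_polyRing R' θ, ϑ, hϑA, hθP, -algebraMap F' F'' ψ₁,
        B.neg_mem (algebraMap_mem_polyRing θ hψ₁R), hθg⟩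
    · rintro x y ⟨hxB, cx, hcxA, hcx, x₁, hx₁B, hx₁⟩ ⟨hyB, cy, hcyA, hcy, y₁, hy₁B, hy₁⟩
      refine ⟨B.add_mem hxB hyB, cx + cy, A.add_mem _ _ hcxA hcyA, hcx.add hcy, x₁ + y₁,
        B.add_mem hx₁B hy₁B, ?_⟩
      rw [map_add]
      linear_combination hx₁ + hy₁
    · rintro x y ⟨hxB, cx, hcxA, hcx, x₁, hx₁B, hx₁⟩ ⟨hyB, cy, hcyA, hcy, y₁, hy₁B, hy₁⟩
      refine ⟨B.mul_mem hxB hyB, cx * cy, A.mul_mem _ _ hcxA hcyA, hcx.mul hcy,
        x₁ * y + algebraMap K F'' cx * y₁,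
        B.add_mem (B.mul_mem hx₁B hyB) (B.mul_mem (hconst cx hcxA) hy₁B), ?_⟩
      rw [map_mul]
      linear_combination y * hx₁ + algebraMap K F'' cx * hy₁
  intro z hz hz0
  obtain ⟨-, cz, -, hcz, z₁, hz₁B, hz₁⟩ := key z hz
  have hcz0 : cz = 0 := hcz.unique hz0
  rw [hcz0, map_zero, sub_zero] at hz₁
  exact ⟨z₁, hz₁B, hz₁⟩

/-- **(DIV)**: a function of `R''` vanishing at a place `P''` of the sheet with `t(P'') = c` is
divisible by `t - c` in `R''`. -/
theorem div_mem_coverRing (hπ0 : ∀ a : A, A.valuation (a : K) < 1 → π a = 0)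
    (hπ : ∀ a : A, π a ≠ 0 → (a : K)⁻¹ ∈ A)
    (hres0 : ∀ x : O'', (x : F'') ∈ O''.nonunits → res'' x = 0)
    {R' : Subring F'} {t : F'} {c : K}
    (hA : ∀ a ∈ A, algebraMap K F' a ∈ R') {P'' : Place K F''}
    (hbase : ∀ y ∈ R', Compat π O'' res'' Q'' P'' (algebraMap F' F'' y))
    (hdiv' : ∀ y ∈ R', IsValueAt (P''.restrict F') y 0 →
      ∃ y' ∈ R', y = (t - algebraMap K F' c) * y')
    {θ : F''} {Ψ : F'[X]} (hΨ : ∀ n, Ψ.coeff n ∈ R') (hroot : aeval θ Ψ = 0)
    {u : A} {ϑ : K} (hθP : IsValueAt P'' θ ϑ) (hϑ : A.valuation (ϑ - u) < 1)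
    (hθQ : PtValue O'' res'' Q'' θ (π u))
    (hsimple : ∀ d : k, PtValue O'' res'' Q'' (aeval θ (derivative Ψ)) d → d ≠ 0)
    {z : F''} (hz : z ∈ coverRing R' θ O'' res'' Q'') (hz0 : IsValueAt P'' z 0) :
    z / (algebraMap F' F'' t - algebraMap K F'' c) ∈ coverRing R' θ O'' res'' Q'' := by
  obtain ⟨hϑA, hπϑ⟩ := map_eq_of_valuation_sub_lt hπ0 hϑ
  have hint : IntegralAt A R' (P''.restrict F') := by
    intro y hy
    obtain ⟨cy, hcy, -⟩ := hbase y hy
    exact ⟨cy, cy.2, (isValueAt_restrict_iff P'' y cy).mpr hcy⟩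
  obtain ⟨g, hgB, ⟨w, hwB, hg⟩, hdiv⟩ :=
    exists_mul_eq_of_isValueAt_zero hA hint hdiv' hΨ hroot hϑA hθP
  -- `g` does not vanish at the point
  obtain ⟨dg, hdg0, hdg⟩ : ∃ d : k, d ≠ 0 ∧ PtValue O'' res'' Q'' g d := by
    obtain ⟨cΨ, -, hcΨ⟩ := compat_polyRing hπ0 hbase hθP hϑ hθQ
      (aeval_mem_polyRing (θ := θ) (coeff_derivative_mem hΨ))
    obtain ⟨cw, -, hcw⟩ := compat_polyRing hπ0 hbase hθP hϑ hθQ hwB
    have hconst : PtValue O'' res'' Q'' (algebraMap K F'' ϑ) (π u) := by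
      obtain ⟨cϑ, h1, h2⟩ := hbase _ (hA ϑ hϑA)
      rw [← IsScalarTower.algebraMap_apply] at h1 h2
      have h3 : (cϑ : K) = ϑ := h1.unique (isValueAt_algebraMap P'' ϑ)
      have h4 : cϑ = ⟨ϑ, hϑA⟩ := Subtype.ext h3
      rw [h4, hπϑ] at h2
      exact h2
    refine ⟨π cΨ, hsimple _ hcΨ, ?_⟩
    rw [hg]
    have h5 := hcΨ.add (hcw.mul (hconst.sub hθQ))
    rwa [sub_self, mul_zero, add_zero] at h5
  obtain ⟨a, s, haB, hsB, ⟨d, hd0, hsd⟩, hzs⟩ := hz
  -- `a = z s` vanishes at `P''`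
  obtain ⟨cs, hcs, -⟩ := compat_polyRing hπ0 hbase hθP hϑ hθQ hsB
  have ha0 : IsValueAt P'' a 0 := by
    rw [← hzs]
    have := hz0.mul hcs
    rwa [zero_mul] at this
  obtain ⟨a₁, ha₁B, ha₁⟩ := hdiv a haB ha0
  have hs0 : s ≠ 0 := by
    rintro rfl
    exact hd0 (hsd.unique ptValue_zero)
  have hg0 : g ≠ 0 := by
    rintro rfl
    exact hdg0 (hdg.unique ptValue_zero)
  by_cases htc : algebraMap F' F'' t - algebraMap K F'' c = 0
  · rw [htc, div_zero]
    exact Subring.zero_mem _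
  have hform : z / (algebraMap F' F'' t - algebraMap K F'' c) = a₁ * g⁻¹ * s⁻¹ := by
    have hz' : z = a * s⁻¹ := by
      rw [← hzs, mul_assoc, mul_inv_cancel₀ hs0, mul_one]
    have ha' : a = (algebraMap F' F'' t - algebraMap K F'' c) * a₁ * g⁻¹ := by
      rw [← ha₁, mul_assoc, mul_inv_cancel₀ hg0, mul_one]
    rw [hz', ha']
    field_simp
  rw [hform]
  exact Subring.mul_mem _ (Subring.mul_mem _ (polyRing_le_coverRing R' θ ha₁B)
    (inv_mem_coverRing hgB hdg0 hdg)) (inv_mem_coverRing hsB hd0 hsd)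

/-- transfer of the values at the point along the cover (the fields `comap_eq`, `res_map`,
`ord_map` of a standard étale sheet) -/
theorem PtValue.map [Algebra Ft' Ft''] [IsScalarTower k Ft' Ft'']
    (hO : ∀ y ∈ O', algebraMap F' F'' y ∈ O'')
    (res_map : ∀ (y : F') (hy : y ∈ O') (hy' : algebraMap F' F'' y ∈ O''),
      res'' ⟨algebraMap F' F'' y, hy'⟩ = algebraMap Ft' Ft'' (res' ⟨y, hy⟩))
    (ord_map : ∀ f : Ft', Q''.ord (algebraMap Ft' Ft'' f) = Q'.ord f)
    {y : F'} {c : k} (h : PtValue O' res' Q' y c) :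
    PtValue O'' res'' Q'' (algebraMap F' F'' y) c := by
  obtain ⟨h1, h2⟩ := h
  refine ⟨hO y h1, ?_⟩
  rw [res_map y h1 (hO y h1)]
  unfold IsValueAt at h2 ⊢
  rw [IsScalarTower.algebraMap_apply k Ft' Ft'', ← map_sub, adicValuation_lt_one_iff]
  rw [adicValuation_lt_one_iff] at h2
  rcases h2 with h2 | h2
  · left
    rw [h2, map_zero]
  · right
    rw [ord_map]
    exact h2

/-- **the hypothesis `hbase`** of (VAL) and (DIV) from a smooth chart downstairs centred at the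
place under `P''`. -/
theorem compat_base [Algebra Ft' Ft''] [IsScalarTower k Ft' Ft'']
    (C : SmoothChart A O' res' Q' T')
    (hres : ∀ (a : K) (ha : a ∈ A) (h : algebraMap K F' a ∈ O'),
      res' ⟨algebraMap K F' a, h⟩ = algebraMap k Ft' (π ⟨a, ha⟩))
    (hπ0 : ∀ a : A, A.valuation (a : K) < 1 → π a = 0)
    (hO : ∀ y ∈ O', algebraMap F' F'' y ∈ O'')
    (res_map : ∀ (y : F') (hy : y ∈ O') (hy' : algebraMap F' F'' y ∈ O''),
      res'' ⟨algebraMap F' F'' y, hy'⟩ = algebraMap Ft' Ft'' (res' ⟨y, hy⟩))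
    (ord_map : ∀ f : Ft', Q''.ord (algebraMap Ft' Ft'' f) = Q'.ord f)
    {P'' : Place K F''} (hcen : CentredAt A C.R (P''.restrict F')) :
    ∀ y ∈ C.R, Compat π O'' res'' Q'' P'' (algebraMap F' F'' y) := by
  intro y hy
  obtain ⟨c, h1, h2⟩ := compat_of_smoothChart C hres hπ0 hcen hy
  exact ⟨c, (isValueAt_restrict_iff P'' y c).mp h1, h2.map hO res_map ord_map⟩

end Div

end Fermat.Agent.BR3.CoverDiv
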