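import Mathlib
import Fermat.Agent.FF.NormFormula
import Fermat.Agent.Red.Values

/-!
# Program C, node A6-K, engine (E3): the tube of the cover maps onto the tube of the base

`F'' = F'(θ)` a finite separable extension of function fields over `K`, `Ψ` the minimal polynomial
of `θ`.

* `norm_sub_algebraMap` : `N_{F''/F'} (θ - a) = (-1) ^ deg Ψ · Ψ(a)`;
* `exists_place_over_isValueAt` : if `Ψ(ϑ)` vanishes at a place `P'` of `F'` (`ϑ : K` a constant),
  there is a place `P''` of `F''` over `P'` at which `θ` takes the value `ϑ` (norm formula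
  `FF.ord_norm_eq_sum_placesAbove`: some place over `P'` has `ord (θ - ϑ) > 0`).
-/

set_option autoImplicit false
set_option linter.unusedSectionVars false

namespace Fermat.Agent.BR3.PlaceOnto

open AlgebraicCurve Polynomial Fermat.Agent.Red Fermat.Agent.FF

section Norm

variable {F' F'' : Type*} [Field F'] [Field F''] [Algebra F' F'']

/-- The norm of `θ - a`, for a generator `θ` with minimal polynomial `Ψ`. -/
theorem norm_sub_algebraMap {θ : F''} {Ψ : F'[X]} (hΨ : Ψ.Monic) (hirr : Irreducible Ψ)
    (hroot : aeval θ Ψ = 0) (hgen : ∀ y : F'', ∃ p : F'[X], aeval θ p = y) (a : F') :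
    Algebra.norm F' (θ - algebraMap F' F'' a) = (-1) ^ Ψ.natDegree * Ψ.eval a := by
  have hmin : Ψ = minpoly F' θ := minpoly.eq_of_irreducible_of_monic hirr hroot hΨ
  have hint : IsIntegral F' θ := ⟨Ψ, hΨ, hroot⟩
  have hintg : IsIntegral F' (θ - algebraMap F' F'' a) := hint.sub isIntegral_algebraMap
  have hθ : θ ∈ Algebra.adjoin F' {θ - algebraMap F' F'' a} := by
    have h : (θ - algebraMap F' F'' a) + algebraMap F' F'' a ∈
        Algebra.adjoin F' {θ - algebraMap F' F'' a} :=
      add_mem (Algebra.subset_adjoin (Set.mem_singleton _)) (Subalgebra.algebraMap_mem _ a)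
    rwa [sub_add_cancel] at h
  have htop : Algebra.adjoin F' {θ - algebraMap F' F'' a} = ⊤ := by
    rw [eq_top_iff]
    intro y _
    obtain ⟨p, rfl⟩ := hgen y
    exact Algebra.adjoin_le (Set.singleton_subset_iff.mpr hθ)
      (Polynomial.aeval_mem_adjoin_singleton F' θ)
  have h1 := Algebra.PowerBasis.norm_gen_eq_coeff_zero_minpoly
    (PowerBasis.ofAdjoinEqTop hintg htop)
  rw [PowerBasis.ofAdjoinEqTop_gen, PowerBasis.ofAdjoinEqTop_dim,
    minpoly.sub_algebraMap θ a, ← hmin] at h1
  rw [h1, Polynomial.natDegree_comp, Polynomial.natDegree_X_add_C, mul_one,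
    Polynomial.coeff_zero_eq_eval_zero, Polynomial.eval_comp]
  simp

end Norm

variable {K F' F'' : Type*} [Field K] [Field F'] [Field F''] [Algebra K F'] [Algebra K F'']
  [Algebra F' F''] [IsScalarTower K F' F''] [FiniteDimensional F' F''] [Algebra.IsSeparable F' F'']

/-- **(E3) A place over `P'` at which the generator takes a prescribed value.** -/
theorem exists_place_over_isValueAt (P' : Place K F') {θ : F''} {Ψ : F'[X]} (hΨ : Ψ.Monic)
    (hirr : Irreducible Ψ) (hroot : aeval θ Ψ = 0)
    (hgen : ∀ y : F'', ∃ p : F'[X], aeval θ p = y) {ϑ : K}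
    (h0 : IsValueAt P' (Ψ.eval (algebraMap K F' ϑ)) 0) :
    ∃ P'' : Place K F'', P''.restrict F' = P' ∧ IsValueAt P'' θ ϑ := by
  have hgK : θ - algebraMap F' F'' (algebraMap K F' ϑ) = θ - algebraMap K F'' ϑ := by
    rw [← IsScalarTower.algebraMap_apply K F' F'']
  by_cases hg0 : θ - algebraMap F' F'' (algebraMap K F' ϑ) = 0
  · obtain ⟨w, hw⟩ := placesAbove_nonempty P' (F' := F'')
    refine ⟨w, ?_, ?_⟩
    · rw [restrict_eq_comapField]
      exact (mem_placesAbove P').mp hw
    · unfold IsValueAt
      rw [← hgK, hg0, map_zero]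
      exact zero_lt_one
  · have hnorm := norm_sub_algebraMap hΨ hirr hroot hgen (algebraMap K F' ϑ)
    have hN0 : Algebra.norm F' (θ - algebraMap F' F'' (algebraMap K F' ϑ)) ≠ 0 :=
      Algebra.norm_ne_zero_iff.mpr hg0
    have hlt : P'.adicValuation (Algebra.norm F' (θ - algebraMap F' F'' (algebraMap K F' ϑ))) < 1 := by
      rw [hnorm, map_mul, map_pow, Valuation.map_neg, map_one, one_pow, one_mul]
      exact isValueAt_zero_iff.mp h0
    have hpos : 0 < P'.ord (Algebra.norm F' (θ - algebraMap F' F'' (algebraMap K F' ϑ))) :=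
      ((adicValuation_lt_one_iff P').mp hlt).resolve_left hN0
    rw [ord_norm_eq_sum_placesAbove P' hg0] at hpos
    obtain ⟨w, hw, hwpos⟩ : ∃ w ∈ placesAbove P' F'',
        0 < w.ord (θ - algebraMap F' F'' (algebraMap K F' ϑ)) := by
      by_contra hcon
      have hle : ∀ w ∈ placesAbove P' F'',
          (w.inertiaDeg F' : ℤ) * w.ord (θ - algebraMap F' F'' (algebraMap K F' ϑ)) ≤ 0 := by
        intro w hw
        have h1 : w.ord (θ - algebraMap F' F'' (algebraMap K F' ϑ)) ≤ 0 := by
          by_contra h2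
          exact hcon ⟨w, hw, not_le.mp h2⟩
        exact mul_nonpos_of_nonneg_of_nonpos (Int.natCast_nonneg _) h1
      have := Finset.sum_nonpos hle
      omega
    refine ⟨w, ?_, ?_⟩
    · rw [restrict_eq_comapField]
      exact (mem_placesAbove P').mp hw
    · unfold IsValueAt
      rw [← hgK]
      exact (adicValuation_lt_one_iff w).mpr (Or.inr hwpos)

end Fermat.Agent.BR3.PlaceOnto
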