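import Mathlib

/-!
# Program C, node A6-K, engine (E2): simple roots in a residue class

`A` a valuation subring of a field `K`.

* `root_unique` : a polynomial with coefficients in `A` has at most one root in a residue class of
  `A` on which its derivative does not vanish modulo `𝔪_A` (Taylor expansion over `A`).
* `exists_root` : over an algebraically closed field, a monic polynomial with coefficients in `A`
  which is small at a point `u ∈ A` has a root in the residue class of `u` (the roots lie in `A`
  because `A` is integrally closed; `∏ |u - x_i| = |P(u)| < 1`).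
-/

set_option autoImplicit false

namespace Fermat.Agent.BR3.SimpleRoot

open Polynomial

variable {K : Type*} [Field K] (A : ValuationSubring K)

/-- **Uniqueness of a simple root in a residue class.** -/
theorem root_unique {P : K[X]} (hP : ∀ n, P.coeff n ∈ A) {x y : K} (hx : x ∈ A) (hy : y ∈ A)
    (hPx : P.eval x = 0) (hPy : P.eval y = 0) (hxy : A.valuation (x - y) < 1)
    (hder : ¬ A.valuation (P.derivative.eval x) < 1) : x = y := by
  by_contra hne
  have hsub : (↑P.coeffs : Set K) ⊆ A.toSubring := by
    intro c hc
    obtain ⟨n, -, rfl⟩ := (Polynomial.mem_coeffs_iff).mp hc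
    exact hP n
  set PA : A.toSubring[X] := P.toSubring A.toSubring hsub with hPA
  have hmap : PA.map A.toSubring.subtype = P := Polynomial.map_toSubring P A.toSubring hsub
  have hd : y - x ∈ A := sub_mem hy hx
  obtain ⟨k, hk⟩ := Polynomial.binomExpansion PA (⟨x, hx⟩ : A.toSubring) ⟨y - x, hd⟩
  -- transport to `K`
  have hk' := congrArg A.toSubring.subtype hk
  simp only [map_add, map_mul, map_pow] at hk'
  rw [← Polynomial.eval_map_apply, ← Polynomial.eval_map_apply, ← Polynomial.eval_map_apply,
    ← Polynomial.derivative_map, hmap] at hk'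
  have e1 : A.toSubring.subtype (⟨x, hx⟩ + ⟨y - x, hd⟩ : A.toSubring) = y := by
    show x + (y - x) = y
    ring
  have e2 : A.toSubring.subtype (⟨x, hx⟩ : A.toSubring) = x := rfl
  have e3 : A.toSubring.subtype (⟨y - x, hd⟩ : A.toSubring) = y - x := rfl
  rw [e1, e2, e3, hPy, hPx, zero_add] at hk'
  have hyx : y - x ≠ 0 := sub_ne_zero.mpr (Ne.symm hne)
  have h1 : P.derivative.eval x = -(A.toSubring.subtype k * (y - x)) := by
    have h2 : (y - x) * (P.derivative.eval x + A.toSubring.subtype k * (y - x)) = 0 := by
      linear_combination -hk'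
    rcases mul_eq_zero.mp h2 with h3 | h3
    · exact absurd h3 hyx
    · linear_combination h3
  apply hder
  rw [h1, Valuation.map_neg, map_mul]
  have hklt : A.valuation (A.toSubring.subtype k) ≤ 1 := (A.valuation_le_one_iff _).mpr k.2
  have hlt : A.valuation (y - x) < 1 := by
    rw [← Valuation.map_neg, neg_sub]
    exact hxy
  exact mul_lt_one_of_nonneg_of_lt_one_right hklt zero_le hlt

/-- The roots of a monic polynomial with coefficients in `A` lie in `A`. -/
theorem mem_of_root {P : K[X]} (hP : P.Monic) (hPA : ∀ n, P.coeff n ∈ A) {x : K}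
    (hx : P.eval x = 0) : x ∈ A := by
  have hsub : (↑P.coeffs : Set K) ⊆ A.toSubring := by
    intro c hc
    obtain ⟨n, -, rfl⟩ := (Polynomial.mem_coeffs_iff).mp hc
    exact hPA n
  have hmap : (P.toSubring A.toSubring hsub).map A.toSubring.subtype = P :=
    Polynomial.map_toSubring P A.toSubring hsub
  have hint : IsIntegral A x := by
    refine ⟨P.toSubring A.toSubring hsub, (Polynomial.monic_toSubring P A.toSubring hsub).mpr hP,
      ?_⟩
    have : Polynomial.eval₂ (algebraMap A K) x (P.toSubring A.toSubring hsub) =
        ((P.toSubring A.toSubring hsub).map A.toSubring.subtype).eval x := by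
      rw [Polynomial.eval_map]
      rfl
    rw [this, hmap, hx]
  obtain ⟨y, rfl⟩ := IsIntegrallyClosed.isIntegral_iff.mp hint
  exact y.2

/-- **Existence of a root in a residue class**, over an algebraically closed field. -/
theorem exists_root [IsAlgClosed K] {P : K[X]} (hP : P.Monic) (hPA : ∀ n, P.coeff n ∈ A) {u : K}
    (hu : u ∈ A) (hPu : A.valuation (P.eval u) < 1) :
    ∃ x ∈ A, P.eval x = 0 ∧ A.valuation (x - u) < 1 := by
  have _hu := hu
  by_contra hcon
  replace hcon : ∀ x ∈ A, P.eval x = 0 → 1 ≤ A.valuation (x - u) := by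
    intro x hxA hx0
    by_contra hlt
    exact hcon ⟨x, hxA, hx0, not_le.mp hlt⟩
  have hsplit : P.Splits := IsAlgClosed.splits P
  have heval := hsplit.eval_eq_prod_roots_of_monic hP u
  have h1 : (1 : A.ValueGroup) ≤ A.valuation ((P.roots.map (u - ·)).prod) := by
    rw [map_multiset_prod, Multiset.map_map]
    apply Multiset.one_le_prod_of_one_le
    intro γ hγ
    obtain ⟨x, hx, rfl⟩ := Multiset.mem_map.mp hγ
    have hx0 : P.eval x = 0 := (Polynomial.mem_roots hP.ne_zero).mp hx
    have hxA : x ∈ A := mem_of_root A hP hPA hx0
    have := hcon x hxA hx0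
    show 1 ≤ A.valuation (u - x)
    rw [← Valuation.map_neg, neg_sub]
    exact this
  rw [← heval] at h1
  exact absurd hPu (not_lt.mpr h1)

end Fermat.Agent.BR3.SimpleRoot
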