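import Mathlib

/-!
# Program C, node A6-K, engine (E1): the Gauss contraction

`O' ⊆ F'`, `O'' ⊆ F''` valuation subrings with `O''` over `O'`, `θ ∈ O''` a root of a monic
`Ψ ∈ O'[X]` which factors modulo `d` as `ψ · ψc` (`ψ, ψc ∈ O'[X]` monic), `g := ψc(θ)` a unit of
`O''`, and the powers `1, θ, …, θ^{deg ψ - 1}` orthogonal (`horth`: a polynomial of degree
`< deg ψ` whose value at `θ` lies in `O''` has coefficients in `O'`).

`gaussContract` : if `z ∈ O'[X]` has `z(θ) ∈ c · O''` and `d ^ N ∈ c · O'`, then `g ^ N · z(θ)` is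
the value at `θ` of a polynomial with coefficients in `c · O'`.

One step (`step`): coefficients in `m · O'`, value in `c · O''` ⇒ after multiplication by `g` the
coefficients can be taken in `m' · O'`, `m'` the larger of `d · m` and `c` (divide by the monic
`ψ`; `ψ(θ) · g = (ψ ψc - Ψ)(θ) ∈ d · O''`; the remainder has its value in `m' · O''`, hence its
coefficients in `m' · O'` by orthogonality).
-/

set_option autoImplicit false

namespace Fermat.Agent.BR3.GaussContract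

open Polynomial

variable {F' F'' : Type*} [Field F'] [Field F''] [Algebra F' F'']

/-- The polynomials with coefficients in `O'`. -/
def IsIntPoly (O' : ValuationSubring F') (w : F'[X]) : Prop := ∀ n, w.coeff n ∈ O'

namespace IsIntPoly

variable {O' : ValuationSubring F'} {p q : F'[X]}

theorem zero : IsIntPoly O' 0 := fun n => by
  rw [coeff_zero]
  exact O'.zero_mem

theorem add (hp : IsIntPoly O' p) (hq : IsIntPoly O' q) : IsIntPoly O' (p + q) := fun n => by
  rw [coeff_add]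
  exact O'.add_mem _ _ (hp n) (hq n)

theorem neg (hp : IsIntPoly O' p) : IsIntPoly O' (-p) := fun n => by
  rw [coeff_neg]
  exact O'.neg_mem _ (hp n)

theorem mul (hp : IsIntPoly O' p) (hq : IsIntPoly O' q) : IsIntPoly O' (p * q) := fun n => by
  rw [coeff_mul]
  exact O'.toSubring.sum_mem fun x _ => O'.mul_mem _ _ (hp _) (hq _)

theorem smul {a : F'} (ha : a ∈ O') (hp : IsIntPoly O' p) : IsIntPoly O' (a • p) := fun n => by
  rw [coeff_smul, smul_eq_mul]
  exact O'.mul_mem _ _ ha (hp n)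

theorem pow (hp : IsIntPoly O' p) (n : ℕ) : IsIntPoly O' (p ^ n) := by
  induction n with
  | zero =>
    intro k
    rw [pow_zero, coeff_one]
    split_ifs
    · exact O'.one_mem
    · exact O'.zero_mem
  | succ n ih =>
    rw [pow_succ]
    exact ih.mul hp

theorem coeffs_subset (hp : IsIntPoly O' p) : (↑p.coeffs : Set F') ⊆ O'.toSubring := by
  intro c hc
  obtain ⟨n, -, rfl⟩ := (Polynomial.mem_coeffs_iff).mp hc
  exact hp n

/-- Division by a monic polynomial keeps the coefficients in `O'`. -/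
theorem divByMonic_modByMonic (hp : IsIntPoly O' p) (hq : IsIntPoly O' q) (hm : q.Monic) :
    IsIntPoly O' (p /ₘ q) ∧ IsIntPoly O' (p %ₘ q) := by
  have hp' := Polynomial.map_toSubring p O'.toSubring hp.coeffs_subset
  have hq' := Polynomial.map_toSubring q O'.toSubring hq.coeffs_subset
  have hm' : (q.toSubring O'.toSubring hq.coeffs_subset).Monic :=
    (Polynomial.monic_toSubring q O'.toSubring hq.coeffs_subset).mpr hm
  have h1 := Polynomial.map_divByMonic (p := p.toSubring O'.toSubring hp.coeffs_subset)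
    O'.toSubring.subtype hm'
  have h2 := Polynomial.map_modByMonic (p := p.toSubring O'.toSubring hp.coeffs_subset)
    O'.toSubring.subtype hm'
  rw [hp', hq'] at h1 h2
  constructor
  · intro n
    rw [← h1, coeff_map]
    exact SetLike.coe_mem _
  · intro n
    rw [← h2, coeff_map]
    exact SetLike.coe_mem _

/-- The value at a point of `O''` of a polynomial with coefficients in `O'`. -/
theorem aeval_mem {O'' : ValuationSubring F''}
    (hO : ∀ x : F', x ∈ O' → algebraMap F' F'' x ∈ O'') {θ : F''} (hθ : θ ∈ O'')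
    (hp : IsIntPoly O' p) : aeval θ p ∈ O'' := by
  rw [aeval_def, eval₂_eq_sum, sum_def]
  exact O''.toSubring.sum_mem fun i _ =>
    O''.mul_mem _ _ (hO _ (hp i)) (O''.toSubring.pow_mem hθ i)

end IsIntPoly

/-- A polynomial with coefficients in `d · O'` is `d` times a polynomial with coefficients in
`O'`. -/
theorem exists_eq_smul {O' : ValuationSubring F'} {d : F'} {w : F'[X]}
    (hw : ∀ n, ∃ a ∈ O', w.coeff n = d * a) : ∃ w₀ : F'[X], IsIntPoly O' w₀ ∧ w = d • w₀ := by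
  by_cases hd : d = 0
  · refine ⟨0, IsIntPoly.zero, ?_⟩
    ext n
    obtain ⟨a, -, ha⟩ := hw n
    rw [ha, hd, zero_mul, smul_zero, coeff_zero]
  · refine ⟨d⁻¹ • w, fun n => ?_, ?_⟩
    · obtain ⟨a, ha, han⟩ := hw n
      rw [coeff_smul, smul_eq_mul, han, ← mul_assoc, inv_mul_cancel₀ hd, one_mul]
      exact ha
    · rw [smul_smul, mul_inv_cancel₀ hd, one_smul]

section Step

variable {O' : ValuationSubring F'} {O'' : ValuationSubring F''}

/-- **One step of the contraction.** -/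
theorem step (hO : ∀ x : F', x ∈ O' → algebraMap F' F'' x ∈ O'') {θ : F''} (hθ : θ ∈ O'')
    {Ψ ψ ψc : F'[X]} (hψ : ψ.Monic) (hψO : IsIntPoly O' ψ) (hψcO : IsIntPoly O' ψc)
    (hroot : aeval θ Ψ = 0) {d : F'}
    (hfac : ∀ n, ∃ a ∈ O', (Ψ - ψ * ψc).coeff n = d * a)
    (hg : (aeval θ ψc)⁻¹ ∈ O'')
    (horth : ∀ r : F'[X], r.natDegree < ψ.natDegree → aeval θ r ∈ O'' → ∀ n, r.coeff n ∈ O')
    {z : F'[X]} {c m m' : F'} (hm : m ≠ 0)
    (h1 : m'⁻¹ * (d * m) ∈ O') (h2 : m'⁻¹ * c ∈ O')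
    (hzm : IsIntPoly O' (m⁻¹ • z))
    (hzc : ∃ y ∈ O'', aeval θ z = algebraMap F' F'' c * y) :
    ∃ z' : F'[X], IsIntPoly O' (m'⁻¹ • z') ∧ aeval θ z' = aeval θ ψc * aeval θ z := by
  set g : F'' := aeval θ ψc with hgdef
  by_cases hg0 : g = 0
  · refine ⟨0, ?_, ?_⟩
    · rw [smul_zero]
      exact IsIntPoly.zero
    · rw [map_zero, hg0, zero_mul]
  obtain ⟨y, hy, hzy⟩ := hzc
  -- division of `m⁻¹ z` by `ψ`
  obtain ⟨hh₀, hr₀⟩ := hzm.divByMonic_modByMonic hψO hψ
  set h₀ : F'[X] := (m⁻¹ • z) /ₘ ψ with hh₀def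
  set r₀ : F'[X] := (m⁻¹ • z) %ₘ ψ with hr₀def
  have hz : z = m • r₀ + ψ * (m • h₀) := by
    have e1 : m⁻¹ • z = r₀ + ψ * h₀ := (Polynomial.modByMonic_add_div (m⁻¹ • z) ψ).symm
    have e2 : z = m • (m⁻¹ • z) := by rw [smul_smul, mul_inv_cancel₀ hm, one_smul]
    rw [e2, e1, smul_add, mul_smul_comm]
  -- the defect `Δ = Ψ - ψ ψc = d Δ₀`
  obtain ⟨Δ₀, hΔ₀, hΔ⟩ := exists_eq_smul hfac
  set p : F'' := aeval θ ψ with hpdef
  set δ₀ : F'' := aeval θ Δ₀ with hδ₀def
  set η₀ : F'' := aeval θ h₀ with hη₀def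
  have hδ₀ : δ₀ ∈ O'' := hΔ₀.aeval_mem hO hθ
  have hη₀ : η₀ ∈ O'' := hh₀.aeval_mem hO hθ
  have hpg : p * g = -(algebraMap F' F'' d * δ₀) := by
    have e1 := congrArg (aeval θ) hΔ
    rw [map_sub, map_mul, hroot, zero_sub, map_smul, Algebra.smul_def] at e1
    rw [← e1, neg_neg]
  have hp : p = -(algebraMap F' F'' d * δ₀ * g⁻¹) := by
    have e1 : p = p * g * g⁻¹ := by rw [mul_assoc, mul_inv_cancel₀ hg0, mul_one]
    rw [e1, hpg]
    ring
  have hzval : aeval θ z = algebraMap F' F'' m * aeval θ r₀ + p * (algebraMap F' F'' m * η₀) := by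
    conv_lhs => rw [hz]
    rw [map_add, map_mul, map_smul, map_smul, Algebra.smul_def, Algebra.smul_def]
  -- the remainder `r₁ = m'⁻¹ m r₀`
  have hr₁val : aeval θ ((m'⁻¹ * m) • r₀) =
      algebraMap F' F'' (m'⁻¹ * c) * y +
        algebraMap F' F'' (m'⁻¹ * (d * m)) * (δ₀ * g⁻¹ * η₀) := by
    have e1 : algebraMap F' F'' m * aeval θ r₀ =
        algebraMap F' F'' c * y - p * (algebraMap F' F'' m * η₀) := by
      rw [← hzy, hzval]
      ring
    rw [map_smul, Algebra.smul_def, map_mul, mul_assoc, e1, hp, map_mul, map_mul, map_mul]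
    ring
  have hr₁mem : aeval θ ((m'⁻¹ * m) • r₀) ∈ O'' := by
    rw [hr₁val]
    exact O''.add_mem _ _ (O''.mul_mem _ _ (hO _ h2) hy)
      (O''.mul_mem _ _ (hO _ h1) (O''.mul_mem _ _ (O''.mul_mem _ _ hδ₀ hg) hη₀))
  have hr₁ : IsIntPoly O' ((m'⁻¹ * m) • r₀) := by
    by_cases hψ1 : ψ = 1
    · have : r₀ = 0 := by rw [hr₀def, hψ1, Polynomial.modByMonic_one]
      rw [this, smul_zero]
      exact IsIntPoly.zero
    · apply horth _ _ hr₁mem
      exact lt_of_le_of_lt (Polynomial.natDegree_smul_le _ _)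
        (Polynomial.natDegree_modByMonic_lt _ hψ hψ1)
  -- the new polynomial
  refine ⟨-((Ψ - ψ * ψc) * (m • h₀)) + ψc * (m • r₀), ?_, ?_⟩
  · have e1 : m'⁻¹ • (-((Ψ - ψ * ψc) * (m • h₀)) + ψc * (m • r₀)) =
        -((m'⁻¹ * (d * m)) • (Δ₀ * h₀)) + ψc * ((m'⁻¹ * m) • r₀) := by
      rw [hΔ]
      simp only [Polynomial.smul_eq_C_mul, map_mul]
      ring
    rw [e1]
    exact ((hΔ₀.mul hh₀).smul h1).neg.add (hψcO.mul hr₁)
  · rw [map_add, map_neg, map_mul, map_mul, map_smul, map_smul, Algebra.smul_def,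
      Algebra.smul_def, map_sub, map_mul, hroot, zero_sub, hzval]
    ring

end Step

/-- **(E1) The Gauss contraction.** -/
theorem gaussContract (O' : ValuationSubring F') (O'' : ValuationSubring F'')
    (hO : ∀ x : F', algebraMap F' F'' x ∈ O'' ↔ x ∈ O') {θ : F''} (hθ : θ ∈ O'')
    {Ψ ψ ψc : F'[X]} (hΨ : Ψ.Monic) (hψ : ψ.Monic) (hψc : ψc.Monic)
    (hΨO : ∀ n, Ψ.coeff n ∈ O') (hψO : ∀ n, ψ.coeff n ∈ O') (hψcO : ∀ n, ψc.coeff n ∈ O')
    (hroot : aeval θ Ψ = 0) {d : F'} (hd : d ∈ O')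
    (hfac : ∀ n, ∃ a ∈ O', (Ψ - ψ * ψc).coeff n = d * a)
    (hg : (aeval θ ψc)⁻¹ ∈ O'')
    (horth : ∀ r : F'[X], r.natDegree < ψ.natDegree → aeval θ r ∈ O'' → ∀ n, r.coeff n ∈ O')
    {z : F'[X]} (hz : ∀ n, z.coeff n ∈ O') {c : F'} (hc0 : c ≠ 0)
    (hzc : (algebraMap F' F'' c)⁻¹ * aeval θ z ∈ O'') {N : ℕ} (hN : c⁻¹ * d ^ N ∈ O') :
    ∃ z' : F'[X], (∀ n, c⁻¹ * z'.coeff n ∈ O') ∧ aeval θ z' = aeval θ ψc ^ N * aeval θ z := by
  have _hΨ := hΨ
  have _hψc := hψc
  have _hΨO := hΨO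
  have _hd := hd
  have hO' : ∀ x : F', x ∈ O' → algebraMap F' F'' x ∈ O'' := fun x hx => (hO x).mpr hx
  have hgmem : aeval θ ψc ∈ O'' := IsIntPoly.aeval_mem (p := ψc) hO' hθ hψcO
  have hcF : algebraMap F' F'' c ≠ 0 := (_root_.map_ne_zero _).mpr hc0
  -- the trivial case `c ∉ O'`
  by_cases hcO : c ∈ O'
  swap
  · have hcinv : c⁻¹ ∈ O' := (O'.mem_or_inv_mem c).resolve_left hcO
    refine ⟨ψc ^ N * z, fun n => ?_, by rw [map_mul, map_pow]⟩
    exact O'.mul_mem _ _ hcinv (((IsIntPoly.pow hψcO N).mul hz) n)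
  -- the induction
  have key : ∀ k : ℕ, ∃ zk : F'[X], aeval θ zk = aeval θ ψc ^ k * aeval θ z ∧
      (IsIntPoly O' (c⁻¹ • zk) ∨
        (d ^ k ≠ 0 ∧ (d ^ k)⁻¹ * c ∈ O' ∧ IsIntPoly O' ((d ^ k)⁻¹ • zk))) := by
    intro k
    induction k with
    | zero =>
      refine ⟨z, by rw [pow_zero, one_mul], Or.inr ⟨by rw [pow_zero]; exact one_ne_zero, ?_, ?_⟩⟩
      · rw [pow_zero, inv_one, one_mul]
        exact hcO
      · rw [pow_zero, inv_one, one_smul]
        exact hz
    | succ k ih =>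
      obtain ⟨zk, hzk, hcase⟩ := ih
      have hzkc : ∃ y ∈ O'', aeval θ zk = algebraMap F' F'' c * y := by
        refine ⟨aeval θ ψc ^ k * ((algebraMap F' F'' c)⁻¹ * aeval θ z),
          O''.mul_mem _ _ (O''.toSubring.pow_mem hgmem k) hzc, ?_⟩
        rw [hzk]
        field_simp
      rcases hcase with hc1 | ⟨hdk, hdkc, hdkz⟩
      · -- coefficients already in `c O'`: multiply by `ψc`
        refine ⟨ψc * zk, by rw [map_mul, hzk, pow_succ]; ring, Or.inl ?_⟩
        rw [← mul_smul_comm]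
        exact IsIntPoly.mul (p := ψc) hψcO hc1
      · by_cases hlast : c⁻¹ * d ^ (k + 1) ∈ O'
        · obtain ⟨z', hz', hz'val⟩ := step hO' hθ hψ hψO hψcO hroot hfac hg horth hdk
            (by rw [← pow_succ']; exact hlast) (by rw [inv_mul_cancel₀ hc0]; exact O'.one_mem)
            hdkz hzkc
          exact ⟨z', by rw [hz'val, hzk, pow_succ]; ring, Or.inl hz'⟩
        · have hinv : (c⁻¹ * d ^ (k + 1))⁻¹ ∈ O' :=
            (O'.mem_or_inv_mem _).resolve_left hlast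
          have hdk1 : d ^ (k + 1) ≠ 0 := by
            intro h0
            apply hlast
            rw [h0, mul_zero]
            exact O'.zero_mem
          obtain ⟨z', hz', hz'val⟩ := step hO' hθ hψ hψO hψcO hroot hfac hg horth hdk
            (by rw [← pow_succ', inv_mul_cancel₀ hdk1]; exact O'.one_mem)
            (by
              have : (d ^ (k + 1))⁻¹ * c = (c⁻¹ * d ^ (k + 1))⁻¹ := by
                rw [mul_inv, inv_inv, mul_comm]
              rw [this]
              exact hinv)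
            hdkz hzkc
          refine ⟨z', by rw [hz'val, hzk, pow_succ]; ring, Or.inr ⟨hdk1, ?_, hz'⟩⟩
          have : (d ^ (k + 1))⁻¹ * c = (c⁻¹ * d ^ (k + 1))⁻¹ := by
            rw [mul_inv, inv_inv, mul_comm]
          rw [this]
          exact hinv
  obtain ⟨zN, hzN, hcase⟩ := key N
  refine ⟨zN, ?_, hzN⟩
  rcases hcase with hc1 | ⟨hdN, -, hdNz⟩
  · intro n
    have := hc1 n
    rwa [coeff_smul, smul_eq_mul] at this
  · intro n
    have h3 := hdNz n
    rw [coeff_smul, smul_eq_mul] at h3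
    have : c⁻¹ * zN.coeff n = (c⁻¹ * d ^ N) * ((d ^ N)⁻¹ * zN.coeff n) := by
      field_simp
    rw [this]
    exact O'.mul_mem _ _ hN h3

end Fermat.Agent.BR3.GaussContract
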