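import Mathlib
import Fermat.Agent.BR3.GaussContract

/-!
# Program C, node A6-K, engine (E1'): the Gauss contraction with coefficients in a subring

`GaussContract.gaussContract` produces a polynomial `z'` with coefficients in `c · O'` and
`z'(θ) = g ^ N · z(θ)`.  For the vertical step (VERT) of A6-K the coefficients of `z'` must also stay
in the subring `S = C'.R` which contains the coefficients of `Ψ`, `ψc` and `z` (so that the
coefficients of `z' / c` are regular on the tube and `normal` applies downstairs).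

When `Ψ` is irreducible the explicit remainder `(ψc ^ N * z) %ₘ Ψ` does both jobs
(`gaussContract_sub`): it has its coefficients in `S` (division by the monic `Ψ`), the same value
at `θ`, and it is the remainder modulo `Ψ` of the `z'` of `gaussContract` (two polynomials of
degree `< deg Ψ` with the same value at `θ` are equal), whose coefficients lie in `c · O'`.
-/

set_option autoImplicit false

namespace Fermat.Agent.BR3.GaussContractSub

open Polynomial Fermat.Agent.BR3.GaussContract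

variable {F' F'' : Type*} [Field F'] [Field F''] [Algebra F' F'']

/-- The polynomials with coefficients in the subring `S`. -/
def IsSubPoly (S : Subring F') (w : F'[X]) : Prop := ∀ n, w.coeff n ∈ S

namespace IsSubPoly

variable {S : Subring F'} {p q : F'[X]}

theorem zero : IsSubPoly S 0 := fun n => by
  rw [coeff_zero]
  exact S.zero_mem

theorem one : IsSubPoly S 1 := fun n => by
  rw [coeff_one]
  split_ifs
  · exact S.one_mem
  · exact S.zero_mem

theorem add (hp : IsSubPoly S p) (hq : IsSubPoly S q) : IsSubPoly S (p + q) := fun n => by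
  rw [coeff_add]
  exact S.add_mem (hp n) (hq n)

theorem neg (hp : IsSubPoly S p) : IsSubPoly S (-p) := fun n => by
  rw [coeff_neg]
  exact S.neg_mem (hp n)

theorem sub (hp : IsSubPoly S p) (hq : IsSubPoly S q) : IsSubPoly S (p - q) := fun n => by
  rw [coeff_sub]
  exact S.sub_mem (hp n) (hq n)

theorem mul (hp : IsSubPoly S p) (hq : IsSubPoly S q) : IsSubPoly S (p * q) := fun n => by
  rw [coeff_mul]
  exact S.sum_mem fun x _ => S.mul_mem (hp _) (hq _)

theorem pow (hp : IsSubPoly S p) (n : ℕ) : IsSubPoly S (p ^ n) := by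
  induction n with
  | zero =>
    rw [pow_zero]
    exact one
  | succ n ih =>
    rw [pow_succ]
    exact ih.mul hp

theorem coeffs_subset (hp : IsSubPoly S p) : (↑p.coeffs : Set F') ⊆ S := by
  intro c hc
  obtain ⟨n, -, rfl⟩ := (Polynomial.mem_coeffs_iff).mp hc
  exact hp n

/-- Division by a monic polynomial keeps the coefficients in `S`. -/
theorem divByMonic_modByMonic (hp : IsSubPoly S p) (hq : IsSubPoly S q) (hm : q.Monic) :
    IsSubPoly S (p /ₘ q) ∧ IsSubPoly S (p %ₘ q) := by
  have hp' := Polynomial.map_toSubring p S hp.coeffs_subset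
  have hq' := Polynomial.map_toSubring q S hq.coeffs_subset
  have hm' : (q.toSubring S hq.coeffs_subset).Monic :=
    (Polynomial.monic_toSubring q S hq.coeffs_subset).mpr hm
  have h1 := Polynomial.map_divByMonic (p := p.toSubring S hp.coeffs_subset) S.subtype hm'
  have h2 := Polynomial.map_modByMonic (p := p.toSubring S hp.coeffs_subset) S.subtype hm'
  rw [hp', hq'] at h1 h2
  constructor
  · intro n
    rw [← h1, coeff_map]
    exact SetLike.coe_mem _
  · intro n
    rw [← h2, coeff_map]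
    exact SetLike.coe_mem _

end IsSubPoly

/-- Two polynomials of degree `< deg Ψ` with the same value at a root `θ` of the irreducible monic
`Ψ` are equal; here in the form: the remainders modulo `Ψ` of two polynomials with the same value
at `θ` coincide. -/
theorem modByMonic_eq_of_aeval_eq {θ : F''} {Ψ : F'[X]} (hΨ : Ψ.Monic) (hirr : Irreducible Ψ)
    (hroot : aeval θ Ψ = 0) {p q : F'[X]} (h : aeval θ p = aeval θ q) : p %ₘ Ψ = q %ₘ Ψ := by
  have hint : IsIntegral F' θ := ⟨Ψ, hΨ, hroot⟩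
  have hmin : Ψ = minpoly F' θ := minpoly.eq_of_irreducible_of_monic hirr hroot hΨ
  have hdvd : Ψ ∣ p - q := by
    rw [hmin]
    apply minpoly.dvd
    rw [map_sub, h, sub_self]
  have h0 : (p - q) %ₘ Ψ = 0 := (Polynomial.modByMonic_eq_zero_iff_dvd hΨ).mpr hdvd
  rw [Polynomial.sub_modByMonic, sub_eq_zero] at h0
  exact h0

/-- The value at `θ` of the remainder modulo `Ψ`. -/
theorem aeval_modByMonic {θ : F''} {Ψ : F'[X]} (hΨ : Ψ.Monic) (hroot : aeval θ Ψ = 0)
    (p : F'[X]) : aeval θ (p %ₘ Ψ) = aeval θ p := by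
  have _h := hΨ
  conv_rhs => rw [← Polynomial.modByMonic_add_div p Ψ]
  rw [map_add, map_mul, hroot, zero_mul, add_zero]

/-- **(E1') The Gauss contraction, coefficients in a subring.** Same hypotheses as
`GaussContract.gaussContract`, plus: `Ψ` irreducible, and `S` a subring containing the
coefficients of `Ψ`, `ψc`, `z`.  The explicit polynomial `(ψc ^ N * z) %ₘ Ψ` has coefficients in
`S ∩ c · O'` and value `g ^ N · z(θ)` at `θ`. -/
theorem gaussContract_sub (O' : ValuationSubring F') (O'' : ValuationSubring F'')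
    (hO : ∀ x : F', algebraMap F' F'' x ∈ O'' ↔ x ∈ O') {θ : F''} (hθ : θ ∈ O'')
    {Ψ ψ ψc : F'[X]} (hΨ : Ψ.Monic) (hirr : Irreducible Ψ) (hψ : ψ.Monic) (hψc : ψc.Monic)
    (hΨO : ∀ n, Ψ.coeff n ∈ O') (hψO : ∀ n, ψ.coeff n ∈ O') (hψcO : ∀ n, ψc.coeff n ∈ O')
    (hroot : aeval θ Ψ = 0) {d : F'} (hd : d ∈ O')
    (hfac : ∀ n, ∃ a ∈ O', (Ψ - ψ * ψc).coeff n = d * a)
    (hg : (aeval θ ψc)⁻¹ ∈ O'')
    (horth : ∀ r : F'[X], r.natDegree < ψ.natDegree → aeval θ r ∈ O'' → ∀ n, r.coeff n ∈ O')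
    {z : F'[X]} (hz : ∀ n, z.coeff n ∈ O') {c : F'} (hc0 : c ≠ 0)
    (hzc : (algebraMap F' F'' c)⁻¹ * aeval θ z ∈ O'') {N : ℕ} (hN : c⁻¹ * d ^ N ∈ O')
    (S : Subring F') (hΨS : ∀ n, Ψ.coeff n ∈ S) (hψcS : ∀ n, ψc.coeff n ∈ S)
    (hzS : ∀ n, z.coeff n ∈ S) :
    (∀ n, ((ψc ^ N * z) %ₘ Ψ).coeff n ∈ S) ∧ (∀ n, c⁻¹ * ((ψc ^ N * z) %ₘ Ψ).coeff n ∈ O') ∧
      aeval θ ((ψc ^ N * z) %ₘ Ψ) = aeval θ ψc ^ N * aeval θ z := by
  have hval : aeval θ ((ψc ^ N * z) %ₘ Ψ) = aeval θ ψc ^ N * aeval θ z := by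
    rw [aeval_modByMonic hΨ hroot, map_mul, map_pow]
  refine ⟨?_, ?_, hval⟩
  · have h1 : IsSubPoly S (ψc ^ N * z) := (IsSubPoly.pow (p := ψc) hψcS N).mul hzS
    exact (h1.divByMonic_modByMonic hΨS hΨ).2
  · obtain ⟨z', hz', hz'val⟩ := gaussContract O' O'' hO hθ hΨ hψ hψc hΨO hψO hψcO hroot hd hfac hg
      horth hz hc0 hzc hN
    have heq : (ψc ^ N * z) %ₘ Ψ = z' %ₘ Ψ :=
      modByMonic_eq_of_aeval_eq hΨ hirr hroot (by rw [hz'val, map_mul, map_pow])
    have hz'int : IsIntPoly O' (c⁻¹ • z') := fun n => by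
      rw [coeff_smul, smul_eq_mul]
      exact hz' n
    have h2 : IsIntPoly O' ((c⁻¹ • z') %ₘ Ψ) := (hz'int.divByMonic_modByMonic hΨO hΨ).2
    intro n
    have h3 := h2 n
    rw [Polynomial.smul_modByMonic, coeff_smul, smul_eq_mul] at h3
    rw [heq]
    exact h3


end Fermat.Agent.BR3.GaussContractSub
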