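import Mathlib
import Fermat.Agent.BR.S0.SmoothDescent

/-!
# Program C, node A6-K: the K-level regularity properties of the chart of a family of levels

`H : SmoothFamily A O res Q T t R ϖ` a directed family of finite levels at a smooth point
(`BR/S0/SmoothDescent`), `H.chart : SmoothChart A O res Q T` its chart (`R = ⨆ i, R i`).  The
properties forgotten by `SmoothChart` and needed to lift the chart along a cover (`RegChart`):

* `centred` : the places of the tube are centred at the ring of the chart;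
* `frac` : every function is a quotient of functions of the ring of the chart;
* `valueGroup` : every nonzero function is a constant times a unit of the component `O`
  (Krull intersection + `vert` at one level).
-/

set_option autoImplicit false

namespace Fermat.Agent.BR3.RegFamily

open AlgebraicCurve IsLocalRing Fermat.Agent.Red Fermat.Agent.X0 Fermat.Agent.BR
  Fermat.Agent.BR.Centre Fermat.Agent.BR.S0

variable {K F k : Type*} [Field K] [Field F] [Algebra K F] [Field k]
  {Ft : Type*} [Field Ft] [Algebra k Ft]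
  {A : ValuationSubring K} {π : A →+* k} {O : ValuationSubring F} {res : O →+* Ft}
  {Q : Place k Ft} {T : Set (Place K F)} {t : F} {ι : Type*} {R : ι → Subring F} {ϖ : ι → K}

/-- **`centred`**: the places of the tube are centred at the ring of the chart. -/
theorem centred (H : SmoothFamily A O res Q T t R ϖ)
    (hres : ∀ (a : K) (ha : a ∈ A) (h : algebraMap K F a ∈ O),
      res ⟨algebraMap K F a, h⟩ = algebraMap k Ft (π ⟨a, ha⟩))
    (hAO : ∀ c : K, A.valuation c < 1 → algebraMap K F c ∈ O.nonunits)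
    (hord : ∀ h : t ∈ O, Q.ord (res ⟨t, h⟩) = 1) {P : Place K F} (hP : P ∈ T) :
    CentredAt A (H.chart hres hAO hord).R P := by
  show CentredAt A (⨆ i, R i) P
  have hI : IntegralAt A (⨆ i, R i) P := by
    intro y hy
    obtain ⟨i, hi⟩ := H.mem_iSup_iff.mp hy
    exact (H.level i).integralAt hP y hi
  refine ⟨hI, fun y hy => ?_⟩
  obtain ⟨i, hi⟩ := H.mem_iSup_iff.mp y.2
  have hnu : ¬ IsUnit (⟨y, hi⟩ : R i) := by
    intro hu
    apply hy
    obtain ⟨w, hw⟩ := isUnit_iff_exists_inv.mp hu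
    refine isUnit_iff_exists_inv.mpr ⟨⟨w, H.mem_iSup_iff.mpr ⟨i, w.2⟩⟩, ?_⟩
    apply Subtype.ext
    exact congrArg (fun z : R i => (z : F)) hw
  obtain ⟨hi', hcen⟩ := (H.level i).centred P hP
  have h1 := hcen ⟨y, hi⟩ hnu
  rw [mem_centre_iff] at h1 ⊢
  exact h1

/-- **`frac`**: every function is a quotient of functions of the ring of the chart. -/
theorem frac (H : SmoothFamily A O res Q T t R ϖ)
    (hres : ∀ (a : K) (ha : a ∈ A) (h : algebraMap K F a ∈ O),
      res ⟨algebraMap K F a, h⟩ = algebraMap k Ft (π ⟨a, ha⟩))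
    (hAO : ∀ c : K, A.valuation c < 1 → algebraMap K F c ∈ O.nonunits)
    (hord : ∀ h : t ∈ O, Q.ord (res ⟨t, h⟩) = 1) (y : F) :
    ∃ a b : (H.chart hres hAO hord).R, b ≠ 0 ∧ y * (b : F) = (a : F) := by
  obtain ⟨i, a, b, hb, hab⟩ := H.frac y
  refine ⟨⟨a, H.mem_iSup_iff.mpr ⟨i, a.2⟩⟩, ⟨b, H.mem_iSup_iff.mpr ⟨i, b.2⟩⟩, ?_, hab⟩
  intro h0
  apply hb
  apply Subtype.ext
  have h1 : ((b : R i) : F) = 0 := congrArg (fun z : (H.chart hres hAO hord).R => (z : F)) h0
  exact h1

/-- A nonzero function of a level is a power of the uniformiser times a unit of the component. -/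
theorem exists_eq_pow_mul {R₀ : Subring F} {ϖ₀ : K} (L : SmoothLevel A O res Q T t R₀ ϖ₀)
    (hAO : ∀ c : K, A.valuation c < 1 → algebraMap K F c ∈ O.nonunits) {a : R₀} (ha : a ≠ 0) :
    ∃ (m : ℕ) (a' : F), (a : F) = algebraMap K F ϖ₀ ^ m * a' ∧ a' ∈ O ∧ a'⁻¹ ∈ O := by
  have := L.noeth
  have hnu : ¬ IsUnit (⟨algebraMap K F ϖ₀, L.unif_mem⟩ : R₀) :=
    L.unif_nonunit (hAO ϖ₀ L.unif_lt)
  have hfin : FiniteMultiplicity (⟨algebraMap K F ϖ₀, L.unif_mem⟩ : R₀) a :=
    FiniteMultiplicity.of_not_isUnit hnu ha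
  obtain ⟨a', ha', hna'⟩ := hfin.exists_eq_pow_mul_and_not_dvd
  refine ⟨multiplicity (⟨algebraMap K F ϖ₀, L.unif_mem⟩ : R₀) a, (a' : F), ?_, L.le _ a'.2, ?_⟩
  · have h1 := congrArg (fun x : R₀ => (x : F)) ha'
    simpa only [Subring.coe_mul, Subring.coe_pow] using h1
  · have hnon : (a' : F) ∉ O.nonunits := fun h => hna' (L.vert a' h)
    have h1 : ¬ O.valuation (a' : F) < 1 := fun h =>
      hnon ((ValuationSubring.mem_nonunits_iff O).mpr h)
    have h2 : O.valuation (a' : F) = 1 :=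
      le_antisymm ((O.valuation_le_one_iff _).mpr (L.le _ a'.2)) (not_lt.mp h1)
    rw [← O.valuation_le_one_iff, map_inv₀, h2, inv_one]

/-- **`valueGroup`**: every nonzero function is a constant times a unit of the component. -/
theorem valueGroup (H : SmoothFamily A O res Q T t R ϖ)
    (hAO : ∀ c : K, A.valuation c < 1 → algebraMap K F c ∈ O.nonunits) {y : F} (hy : y ≠ 0) :
    ∃ c : K, c ≠ 0 ∧ algebraMap K F c * y ∈ O ∧ (algebraMap K F c * y)⁻¹ ∈ O := by
  obtain ⟨i, a, b, hb, hab⟩ := H.frac y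
  have hbF : (b : F) ≠ 0 := fun h0 => hb (Subtype.ext h0)
  have ha : a ≠ 0 := by
    intro h0
    rw [h0, ZeroMemClass.coe_zero] at hab
    exact (mul_ne_zero hy hbF) hab
  obtain ⟨m, a', ha', ha'O, ha'inv⟩ := exists_eq_pow_mul (H.level i) hAO ha
  obtain ⟨m', b', hb', hb'O, hb'inv⟩ := exists_eq_pow_mul (H.level i) hAO hb
  have hϖ : ϖ i ≠ 0 := (H.level i).unif_ne
  have hϖF : algebraMap K F (ϖ i) ≠ 0 := (map_ne_zero _).mpr hϖ
  have hb'0 : b' ≠ 0 := by
    rintro rfl
    rw [mul_zero] at hb'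
    exact hbF hb'
  have ha'0 : a' ≠ 0 := by
    rintro rfl
    rw [mul_zero] at ha'
    exact ha (Subtype.ext ha')
  have key : algebraMap K F (ϖ i ^ m' * (ϖ i ^ m)⁻¹) * y = a' * b'⁻¹ := by
    have hy' : y = (a : F) * ((b : F))⁻¹ := by
      rw [← hab, mul_assoc, mul_inv_cancel₀ hbF, mul_one]
    rw [hy', ha', hb', map_mul, map_inv₀, map_pow, map_pow]
    field_simp
  refine ⟨ϖ i ^ m' * (ϖ i ^ m)⁻¹, mul_ne_zero (pow_ne_zero _ hϖ) (inv_ne_zero (pow_ne_zero _ hϖ)),
    ?_, ?_⟩
  · rw [key]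
    exact O.mul_mem _ _ ha'O hb'inv
  · rw [key, mul_inv, inv_inv]
    exact O.mul_mem _ _ ha'inv hb'O

end Fermat.Agent.BR3.RegFamily
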