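import Mathlib
import Fermat.Agent.BR.Circle.Conserve
import Fermat.Agent.BR.S0.SmoothFields

/-!
# Program C, node A6-K, engine (E4): the smooth chart of a residue disc of a circle of an annulus

`C : Circle.AnnulusCore A T` the K-level contract of the tube of a node, `a` a gauge with
`|thick| < |a| < 1`, `circleRing C a` / `circleRes C a` the valuation ring of the circle
`|u(P)| = |a|` and its residue map onto `k(X)` (`k = ResidueField A`), `cb ≠ 0` a residue class.

* `classDisc C a cb` : the residue disc `{P ∈ T | |u(P)| = |a|, ū(P) = cb}`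
  (`mem_classDisc_iff_sub` : `= {P ∈ T | |u(P) - c| < |a|}` for `cb` the class of `c / a`);
* `IsRedOn C a cb y ȳ` : `ȳ` is the POINTWISE reduction of `y` on the disc: at every point `P` of
  the disc `y` has a value in `A`, whose residue is the value of `ȳ` at `X = cb`;
* `isRedOn_circleRes` : a function of the circle ring without poles on the disc reduces pointwise
  on the disc to its residue (from `AnnulusCore.factor`);
* `discRing C a cb` : the functions of the circle ring without poles on the disc;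
* `discChart` : **the `SmoothChart`** of the disc, with `R = discRing`,
  `t = a⁻¹ • (u - c)`;
* `discRing_centred`, `discRing_frac`, `circle_valueGroup` : the K-level regularity properties
  (`RegChart`).
-/

set_option autoImplicit false
set_option linter.unusedSectionVars false

noncomputable section

namespace Fermat.Agent.BR3.SubDisc

open AlgebraicCurve IsLocalRing Fermat.Agent.Red Fermat.Agent.BR.InertiaRed
  Fermat.Agent.BR.AnnulusRed Fermat.Agent.BR.P1 Fermat.Agent.BR.Centre Fermat.Agent.BR.Circle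
  Fermat.Agent.BR.S0 Fermat.Agent.X0

variable {K F : Type*} [Field K] [Field F] [Algebra K F]
  {A : ValuationSubring K} [IsAlgClosed (ResidueField A)] {T : Set (Place K F)}

local notation "k" => ResidueField A

/-- The residue disc of class `cb` on the circle of gauge `a`. -/
def classDisc (C : AnnulusCore A T) (a : K) (cb : k) : Set (Place K F) :=
  {P | P ∈ T ∧ A.valuation (evalAt P C.u) = A.valuation a ∧ ubar A C.u a P = cb}

/-- `ȳ` is the pointwise reduction of `y` on the residue disc of class `cb`. -/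
def IsRedOn (C : AnnulusCore A T) (a : K) (cb : k) (y : F) (yb : RatFunc k) : Prop :=
  ∀ P ∈ classDisc C a cb, ∃ (d : K) (hd : d ∈ A), IsValueAt P y d ∧
    IsValueAt (placeAt k cb) yb (residue A ⟨d, hd⟩)

variable {C : AnnulusCore A T} {a : K} {cb : ResidueField A}


theorem IsRedOn.add {y y' : F} {yb yb' : RatFunc k} (h : IsRedOn C a cb y yb)
    (h' : IsRedOn C a cb y' yb') : IsRedOn C a cb (y + y') (yb + yb') := by
  intro P hP
  obtain ⟨d, hd, h1, h2⟩ := h P hP
  obtain ⟨d', hd', h1', h2'⟩ := h' P hP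
  refine ⟨d + d', A.add_mem _ _ hd hd', h1.add h1', ?_⟩
  have := h2.add h2'
  rwa [← map_add] at this

theorem IsRedOn.mul {y y' : F} {yb yb' : RatFunc k} (h : IsRedOn C a cb y yb)
    (h' : IsRedOn C a cb y' yb') : IsRedOn C a cb (y * y') (yb * yb') := by
  intro P hP
  obtain ⟨d, hd, h1, h2⟩ := h P hP
  obtain ⟨d', hd', h1', h2'⟩ := h' P hP
  refine ⟨d * d', A.mul_mem _ _ hd hd', h1.mul h1', ?_⟩
  have := h2.mul h2'
  rwa [← map_mul] at this

theorem IsRedOn.neg {y : F} {yb : RatFunc k} (h : IsRedOn C a cb y yb) : IsRedOn C a cb (-y) (-yb) := by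
  intro P hP
  obtain ⟨d, hd, h1, h2⟩ := h P hP
  refine ⟨-d, A.neg_mem _ hd, h1.neg, ?_⟩
  have := h2.neg
  rwa [← map_neg] at this

theorem IsRedOn.const {c : K} (hc : c ∈ A) :
    IsRedOn C a cb (algebraMap K F c) (algebraMap k (RatFunc k) (residue A ⟨c, hc⟩)) :=
  fun P _ => ⟨c, hc, isValueAt_algebraMap P c, isValueAt_algebraMap _ _⟩

theorem IsRedOn.zero : IsRedOn C a cb (0 : F) 0 :=
  fun P _ => ⟨0, A.zero_mem, isValueAt_zero P, by
    have h0 : residue A (⟨0, A.zero_mem⟩ : A) = 0 := map_zero _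
    rw [h0]; exact isValueAt_zero _⟩

theorem IsRedOn.one : IsRedOn C a cb (1 : F) 1 :=
  fun P _ => ⟨1, A.one_mem, isValueAt_one P, by
    have h1 : residue A (⟨1, A.one_mem⟩ : A) = 1 := map_one _
    rw [h1]; exact isValueAt_one _⟩

theorem IsRedOn.tubeUnit {ε : F} (hε : TubeUnit A T ε) : IsRedOn C a cb ε 1 := by
  intro P hP
  obtain ⟨d, h1, h2⟩ := hε P hP.1
  have hd1 : d - 1 ∈ A := (A.valuation_le_one_iff _).mp h2.le
  have hd : d ∈ A := by
    have := A.add_mem _ _ hd1 A.one_mem
    simpa using this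
  refine ⟨d, hd, h1, ?_⟩
  have hres : residue A ⟨d, hd⟩ = 1 := by
    have h3 : residue A (⟨d - 1, hd1⟩ : A) = 0 := by
      rw [residue_eq_zero_iff]
      exact (A.valuation_lt_one_iff _).mpr h2
    have h4 : (⟨d, hd⟩ : A) = ⟨d - 1, hd1⟩ + 1 := by
      apply Subtype.ext
      simp
    rw [h4, map_add, h3, zero_add, map_one]
  rw [hres]
  exact isValueAt_one _

/-- `u / a` reduces pointwise to the coordinate `X`. -/
theorem IsRedOn.coord (ha : a ≠ 0) : IsRedOn C a cb (a⁻¹ • C.u) RatFunc.X := by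
  intro P hP
  obtain ⟨hPT, hv, hcb⟩ := hP
  obtain ⟨h1, -, -⟩ := isValueAt_evalAt_u C hPT
  obtain ⟨h, hub⟩ := ubar_eq_residue C hv ha
  refine ⟨evalAt P C.u / a, h, ?_, ?_⟩
  · have := h1.smul a⁻¹
    rwa [inv_mul_eq_div] at this
  · rw [← hub, hcb, isValueAt_iff]
    right
    rw [RatFunc.algebraMap_eq_C, ord_placeAt_X_sub]
    exact one_pos

theorem IsRedOn.pow {y : F} {yb : RatFunc k} (h : IsRedOn C a cb y yb) (n : ℕ) :
    IsRedOn C a cb (y ^ n) (yb ^ n) := by
  induction n with
  | zero => rw [pow_zero, pow_zero]; exact IsRedOn.one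
  | succ n ih => rw [pow_succ, pow_succ]; exact ih.mul h

/-- The pointwise reduction of the inverse, when the reduction does not vanish at the point. -/
theorem IsRedOn.inv {y : F} {yb : RatFunc k} (h : IsRedOn C a cb y yb) (hyb : yb ≠ 0)
    (hord : ¬ 0 < (placeAt k cb).ord yb) : IsRedOn C a cb y⁻¹ yb⁻¹ := by
  intro P hP
  obtain ⟨d, hd, h1, h2⟩ := h P hP
  have hres : residue A ⟨d, hd⟩ ≠ 0 := by
    intro h0
    rw [h0, isValueAt_zero_iff, adicValuation_lt_one_iff] at h2
    rcases h2 with h2 | h2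
    · exact hyb h2
    · exact hord h2
  have hdu : IsUnit (⟨d, hd⟩ : A) := by
    by_contra hnu
    exact hres ((residue_eq_zero_iff _).mpr ((mem_maximalIdeal _).mpr hnu))
  have hd0 : d ≠ 0 := by
    rintro rfl
    exact hres (map_zero _)
  have hdinv : d⁻¹ ∈ A := by
    have h3 : A.valuation d = 1 := (A.valuation_eq_one_iff ⟨d, hd⟩).mp hdu
    exact mem_of_valuation_eq_one A (by rw [map_inv₀, h3, inv_one])
  refine ⟨d⁻¹, hdinv, IsValueAt.inv h1 hd0, ?_⟩
  have h4 : residue A ⟨d⁻¹, hdinv⟩ = (residue A ⟨d, hd⟩)⁻¹ := by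
    apply eq_inv_of_mul_eq_one_left
    rw [← map_mul]
    have : (⟨d⁻¹, hdinv⟩ : A) * ⟨d, hd⟩ = 1 := Subtype.ext (inv_mul_cancel₀ hd0)
    rw [this, map_one]
  rw [h4]
  exact IsValueAt.inv h2 hres

/-- Integral powers, when the reduction is a unit at the point. -/
theorem IsRedOn.zpow {y : F} {yb : RatFunc k} (h : IsRedOn C a cb y yb) (hyb : yb ≠ 0)
    (hord : (placeAt k cb).ord yb = 0) (n : ℤ) : IsRedOn C a cb (y ^ n) (yb ^ n) := by
  cases n with
  | ofNat n => rw [Int.ofNat_eq_natCast, zpow_natCast, zpow_natCast]; exact h.pow n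
  | negSucc n =>
    rw [zpow_negSucc, zpow_negSucc]
    refine (h.pow (n + 1)).inv (pow_ne_zero _ hyb) ?_
    rw [← zpow_natCast, Place.ord_zpow, hord, mul_zero]
    exact lt_irrefl _

/-- Nonnegative integral powers. -/
theorem IsRedOn.zpow_of_nonneg {y : F} {yb : RatFunc k} (h : IsRedOn C a cb y yb) {n : ℤ} (hn : 0 ≤ n) :
    IsRedOn C a cb (y ^ n) (yb ^ n) := by
  obtain ⟨m, rfl⟩ := Int.eq_ofNat_of_zero_le hn
  rw [zpow_natCast, zpow_natCast]
  exact h.pow m

theorem IsRedOn.prod {ι : Type*} (s : Finset ι) (f : ι → F) (fb : ι → RatFunc k)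
    (h : ∀ i ∈ s, IsRedOn C a cb (f i) (fb i)) :
    IsRedOn C a cb (∏ i ∈ s, f i) (∏ i ∈ s, fb i) := by
  classical
  induction s using Finset.induction_on with
  | empty => rw [Finset.prod_empty, Finset.prod_empty]; exact IsRedOn.one
  | insert i s hi ih =>
    rw [Finset.prod_insert hi, Finset.prod_insert hi]
    exact (h i (Finset.mem_insert_self i s)).mul
      (ih fun j hj => h j (Finset.mem_insert_of_mem hj))

theorem IsRedOn.smul {y : F} {yb : RatFunc k} {c : K} (hc : c ∈ A) (h : IsRedOn C a cb y yb) :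
    IsRedOn C a cb (c • y) (RatFunc.C (residue A ⟨c, hc⟩) * yb) := by
  rw [Algebra.smul_def, ← RatFunc.algebraMap_eq_C]
  exact (IsRedOn.const hc).mul h


/-- The explicit pointwise reduction of `u - c`. -/
theorem isRedOn_coord_sub (ha : a ≠ 0) (c : K) :
    IsRedOn C a cb ((cstOf A a c)⁻¹ • (C.u - algebraMap K F c)) (redOf A a c) := by
  rcases le_or_gt (A.valuation c) (A.valuation a) with hle | hgt
  · rw [cstOf_of_le hle, redOf_of_le hle]
    have hca : c / a ∈ A := by
      rw [← A.valuation_le_one_iff, map_div₀]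
      exact div_le_one_of_le₀ hle zero_le
    have h := (IsRedOn.coord (C := C) (cb := cb) ha).add
      (IsRedOn.const (C := C) (a := a) (cb := cb) hca).neg
    rw [← sub_eq_add_neg, ← sub_eq_add_neg, RatFunc.algebraMap_eq_C] at h
    have h1 : a⁻¹ • (C.u - algebraMap K F c) = a⁻¹ • C.u - algebraMap K F (c / a) := by
      rw [smul_sub, Algebra.smul_def a⁻¹ (algebraMap K F c), ← map_mul, inv_mul_eq_div]
    have h2 : angRes A c a = residue A ⟨c / a, hca⟩ := by
      unfold angRes
      exact resOf_of_mem A hca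
    rw [h1, h2]
    exact h
  · rw [cstOf_of_gt hgt, redOf_of_gt hgt]
    have hc0 : c ≠ 0 := by
      rintro rfl
      rw [map_zero] at hgt
      exact not_lt_zero hgt
    have hac : A.valuation (a / c) < 1 := by
      rw [map_div₀]
      exact (div_lt_one₀ (lt_of_le_of_lt zero_le hgt)).mpr hgt
    have hac' : a / c ∈ A := (A.valuation_le_one_iff _).mp hac.le
    have hres : residue A ⟨a / c, hac'⟩ = 0 := by
      rw [residue_eq_zero_iff]
      exact (A.valuation_lt_one_iff _).mpr hac
    have h := (IsRedOn.one (C := C) (a := a) (cb := cb)).add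
      ((IsRedOn.const (C := C) (a := a) (cb := cb) hac').mul
        (IsRedOn.coord (C := C) (cb := cb) ha)).neg
    rw [hres, map_zero, zero_mul, neg_zero, add_zero, ← sub_eq_add_neg] at h
    have h1 : (-c)⁻¹ • (C.u - algebraMap K F c) =
        1 - algebraMap K F (a / c) * (a⁻¹ • C.u) := by
      have hcF : algebraMap K F c ≠ 0 := (map_ne_zero _).mpr hc0
      have haF : algebraMap K F a ≠ 0 := (map_ne_zero _).mpr ha
      rw [Algebra.smul_def, Algebra.smul_def, map_inv₀, map_neg, map_div₀, map_inv₀]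
      field_simp
      ring
    rw [h1]
    exact h

/-! ### the pointwise reduction of a factorised function -/

omit [IsAlgClosed (ResidueField A)] in
theorem mem_classDisc_iff {Q : Place K F} (hQ : Q ∈ T) :
    Q ∈ classDisc C a cb ↔
      A.valuation (evalAt Q C.u) = A.valuation a ∧ angRes A (evalAt Q C.u) a = cb :=
  ⟨fun h => h.2, fun h => ⟨hQ, h⟩⟩

omit [IsAlgClosed (ResidueField A)] in
/-- The normalised monomial part of a factorisation, as a product of normalised factors. -/
theorem factorFun_normalised (ha : a ≠ 0) (S : Finset (Place K F)) (n : Place K F → ℤ) (b : ℤ)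
    {c : K} (hc : c ≠ 0) :
    (factorCst C a S n b c)⁻¹ • factorFun C S n b c =
      (a⁻¹ • C.u) ^ b *
        ∏ Q ∈ S, ((cstOf A a (evalAt Q C.u))⁻¹ •
          (C.u - algebraMap K F (evalAt Q C.u))) ^ n Q := by
  unfold factorCst factorFun
  have hcF : algebraMap K F c ≠ 0 := (map_ne_zero _).mpr hc
  have haF : algebraMap K F a ≠ 0 := (map_ne_zero _).mpr ha
  have hprod : ∏ Q ∈ S, ((cstOf A a (evalAt Q C.u))⁻¹ •
        (C.u - algebraMap K F (evalAt Q C.u))) ^ n Q =
      (algebraMap K F (∏ Q ∈ S, cstOf A a (evalAt Q C.u) ^ n Q))⁻¹ *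
        ∏ Q ∈ S, (C.u - algebraMap K F (evalAt Q C.u)) ^ n Q := by
    rw [map_prod, ← Finset.prod_inv_distrib, ← Finset.prod_mul_distrib]
    refine Finset.prod_congr rfl fun Q _ => ?_
    rw [Algebra.smul_def, mul_zpow, map_inv₀, inv_zpow, map_zpow₀]
  have hpP : algebraMap K F (∏ Q ∈ S, cstOf A a (evalAt Q C.u) ^ n Q) ≠ 0 := by
    rw [map_ne_zero, Finset.prod_ne_zero_iff]
    exact fun Q _ => zpow_ne_zero _ (cstOf_ne_zero ha)
  rw [hprod, Algebra.smul_def, Algebra.smul_def, Algebra.smul_def, mul_zpow, map_inv₀,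
    map_mul, map_mul, map_zpow₀, map_inv₀, inv_zpow]
  field_simp

/-- The pointwise reduction of the monomial part, when the exponents of the points of the disc
are nonnegative. -/
theorem isRedOn_factorFun (ha : a ≠ 0) (hcb : cb ≠ 0) (S : Finset (Place K F))
    (n : Place K F → ℤ) (b : ℤ) {c : K} (hc : c ≠ 0) (hS : ∀ Q ∈ S, Q ∈ T)
    (hn : ∀ Q ∈ S, Q ∈ classDisc C a cb → 0 ≤ n Q) :
    IsRedOn C a cb ((factorCst C a S n b c)⁻¹ • factorFun C S n b c)
      (factorRed C a S n b) := by
  classical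
  have h1 : IsRedOn C a cb ((a⁻¹ • C.u) ^ b) (RatFunc.X ^ b) :=
    (IsRedOn.coord ha).zpow RatFunc.X_ne_zero (ord_placeAt_X_of_ne_zero hcb) b
  have h2 : IsRedOn C a cb
      (∏ Q ∈ S, ((cstOf A a (evalAt Q C.u))⁻¹ • (C.u - algebraMap K F (evalAt Q C.u))) ^ n Q)
      (∏ Q ∈ S, redOf A a (evalAt Q C.u) ^ n Q) := by
    refine IsRedOn.prod S _ _ fun Q hQ => ?_
    by_cases hQd : Q ∈ classDisc C a cb
    · exact (isRedOn_coord_sub ha _).zpow_of_nonneg (hn Q hQ hQd)
    · refine (isRedOn_coord_sub ha _).zpow (redOf_ne_zero A a _) ?_ (n Q)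
      rw [ord_placeAt_redOf a _ hcb, if_neg]
      intro h
      exact hQd ((mem_classDisc_iff (hS Q hQ)).mpr h)
  rw [factorFun_normalised ha S n b hc]
  exact h1.mul h2

/-- The pointwise reduction of a factorised function. -/
theorem isRedOn_of_factor (ha : a ≠ 0) (hcb : cb ≠ 0) {S : Finset (Place K F)}
    {n : Place K F → ℤ} {b : ℤ} {c : K} (hc : c ≠ 0) (hS : ∀ Q ∈ S, Q ∈ T)
    (hn : ∀ Q ∈ S, Q ∈ classDisc C a cb → 0 ≤ n Q) {y : F}
    (hε : TubeUnit A T (y * (factorFun C S n b c)⁻¹)) :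
    IsRedOn C a cb ((factorCst C a S n b c)⁻¹ • y) (factorRed C a S n b) := by
  intro P hP
  have h1 := ((IsRedOn.tubeUnit (C := C) (a := a) (cb := cb) hε).mul
    (isRedOn_factorFun ha hcb S n b hc hS hn)) P hP
  rw [one_mul] at h1
  have hg0 : factorFun C S n b c ≠ 0 := factorFun_ne_zero C hS hc hP.1
  have heq : (factorCst C a S n b c)⁻¹ • y =
      y * (factorFun C S n b c)⁻¹ * ((factorCst C a S n b c)⁻¹ • factorFun C S n b c) := by
    rw [Algebra.smul_def, Algebra.smul_def]
    field_simp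
  rw [heq]
  exact h1

section Ring

variable (ha1 : A.valuation C.thick < A.valuation a) (ha2 : A.valuation a < 1)

include ha1 ha2

/-- **A function of the circle ring without poles on the disc reduces pointwise on the disc to
its residue.** -/
theorem isRedOn_circleRes (hcb : cb ≠ 0) (y : circleRing C a ha1 ha2)
    (hy : ∀ P ∈ classDisc C a cb, 0 ≤ P.ord (y : F)) :
    IsRedOn C a cb (y : F) (circleRes C a ha1 ha2 y) := by
  classical
  have ha : a ≠ 0 := gauge_ne_zero ha1
  by_cases hy0 : (y : F) = 0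
  · have : y = 0 := Subtype.ext hy0
    rw [this, map_zero]
    exact IsRedOn.zero
  obtain ⟨S, n, b, c, hS, hc, hε⟩ := C.factor (y : F) hy0
  have hn : ∀ Q ∈ S, Q ∈ classDisc C a cb → 0 ≤ n Q := by
    intro Q hQ hQd
    have h1 := ord_of_factor C hS hc hε (hS Q hQ)
    rw [if_pos hQ] at h1
    rw [← h1]
    exact hy Q hQd
  have hγ : factorCst C a S n b c ∈ A :=
    (A.valuation_le_one_iff _).mp ((mem_circleRing_iff_of_factor ha1 ha2 hc hε).mp y.2)
  have h1 := (isRedOn_of_factor ha hcb hc hS hn hε).smul hγ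
  rw [smul_smul, mul_inv_cancel₀ (factorCst_ne_zero ha hc), one_smul] at h1
  have h2 := circleRes_of_factor ha1 ha2 hc hε y.2 hγ
  have e : (⟨(y : F), y.2⟩ : circleRing C a ha1 ha2) = y := rfl
  rw [e] at h2
  rw [h2]
  exact h1

end Ring

/-! ### the ring of the disc -/

section DiscRing

variable (C) (a) (cb)
variable (ha1 : A.valuation C.thick < A.valuation a) (ha2 : A.valuation a < 1)

/-- The functions of the circle ring without poles on the disc. -/
def discRing : Subring F where
  carrier := {y | y ∈ circleRing C a ha1 ha2 ∧ ∀ P ∈ classDisc C a cb, y ∈ P.toValuationSubring}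
  mul_mem' := fun h h' => ⟨mul_mem h.1 h'.1, fun P hP => mul_mem (h.2 P hP) (h'.2 P hP)⟩
  one_mem' := ⟨one_mem _, fun _ _ => one_mem _⟩
  add_mem' := fun h h' => ⟨add_mem h.1 h'.1, fun P hP => add_mem (h.2 P hP) (h'.2 P hP)⟩
  zero_mem' := ⟨zero_mem _, fun _ _ => zero_mem _⟩
  neg_mem' := fun h => ⟨neg_mem h.1, fun P hP => neg_mem (h.2 P hP)⟩

variable {C a cb ha1 ha2}

theorem mem_discRing_iff {y : F} : y ∈ discRing C a cb ha1 ha2 ↔
    y ∈ circleRing C a ha1 ha2 ∧ ∀ P ∈ classDisc C a cb, y ∈ P.toValuationSubring := Iff.rfl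

/-- The functions of the ring of the disc reduce pointwise on the disc to their residue. -/
theorem isRedOn_of_mem_discRing (hcb : cb ≠ 0) {y : F} (hy : y ∈ discRing C a cb ha1 ha2) :
    IsRedOn C a cb y (circleRes C a ha1 ha2 ⟨y, hy.1⟩) :=
  isRedOn_circleRes ha1 ha2 hcb ⟨y, hy.1⟩ fun P hP => (Place.mem_iff_ord_nonneg P).mp (hy.2 P hP)

omit [IsAlgClosed (ResidueField A)] in
theorem classDisc_nonempty (ha1 : A.valuation C.thick < A.valuation a)
    (ha2 : A.valuation a < 1) (hcb : cb ≠ 0) : (classDisc C a cb).Nonempty := by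
  obtain ⟨P, hP, hv, hub⟩ := exists_circle_point C ha1 ha2 cb hcb
  exact ⟨P, hP, hv, hub⟩

/-- A function of the ring of the disc whose residue does not vanish at the point is a unit. -/
theorem isUnit_of_not_lt (hcb : cb ≠ 0) (y : discRing C a cb ha1 ha2)
    (hy : ¬ (placeAt k cb).adicValuation (circleRes C a ha1 ha2 ⟨y, y.2.1⟩) < 1) : IsUnit y := by
  have hred := isRedOn_of_mem_discRing hcb y.2
  have hyb0 : circleRes C a ha1 ha2 ⟨y, y.2.1⟩ ≠ 0 := by
    intro h0
    rw [h0, map_zero] at hy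
    exact hy zero_lt_one
  have hord : ¬ 0 < (placeAt k cb).ord (circleRes C a ha1 ha2 ⟨y, y.2.1⟩) := by
    intro h
    exact hy ((adicValuation_lt_one_iff _).mpr (Or.inr h))
  have hinv := hred.inv hyb0 hord
  have hmem : ((y : F))⁻¹ ∈ discRing C a cb ha1 ha2 := by
    refine ⟨⟨_, (isRed_circleRes C a ha1 ha2 ⟨y, y.2.1⟩).inv hyb0⟩, fun P hP => ?_⟩
    obtain ⟨d, -, h1, -⟩ := hinv P hP
    exact h1.mem
  have hy0 : (y : F) ≠ 0 := by
    intro h0
    apply hyb0
    have : (⟨(y : F), y.2.1⟩ : circleRing C a ha1 ha2) = 0 := Subtype.ext h0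
    rw [this, map_zero]
  exact isUnit_iff_exists_inv.mpr ⟨⟨_, hmem⟩, Subtype.ext (mul_inv_cancel₀ hy0)⟩

/-- **`branch`**: the non-units of the ring of the disc vanish at the point. -/
theorem lt_one_of_not_isUnit (hcb : cb ≠ 0) (y : discRing C a cb ha1 ha2) (hy : ¬ IsUnit y) :
    (placeAt k cb).adicValuation (circleRes C a ha1 ha2 ⟨y, y.2.1⟩) < 1 := by
  by_contra h
  exact hy (isUnit_of_not_lt hcb y h)

/-- The values on the disc of the non-units of the ring of the disc are non-units of `A`. -/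
theorem valuation_evalAt_lt_one (hcb : cb ≠ 0) (y : discRing C a cb ha1 ha2) (hy : ¬ IsUnit y)
    {P : Place K F} (hP : P ∈ classDisc C a cb) : A.valuation (evalAt P (y : F)) < 1 := by
  obtain ⟨d, hd, h1, h2⟩ := isRedOn_of_mem_discRing hcb y.2 P hP
  have h3 := lt_one_of_not_isUnit hcb y hy
  rw [← isValueAt_zero_iff] at h3
  have h4 : residue A ⟨d, hd⟩ = 0 := h2.unique h3
  rw [evalAt_eq_of_isValueAt h1]
  rw [residue_eq_zero_iff] at h4
  exact (A.valuation_lt_one_iff _).mp h4

/-- **`centred`**: the places of the disc are centred at the ring of the disc. -/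
theorem discRing_centred (hcb : cb ≠ 0) {P : Place K F} (hP : P ∈ classDisc C a cb) :
    CentredAt A (discRing C a cb ha1 ha2) P := by
  have hI : IntegralAt A (discRing C a cb ha1 ha2) P := by
    intro y hy
    obtain ⟨d, hd, h1, -⟩ := isRedOn_of_mem_discRing hcb hy P hP
    exact ⟨d, hd, h1⟩
  refine ⟨hI, fun y hy => ?_⟩
  rw [mem_centre_iff]
  exact valuation_evalAt_lt_one hcb y hy hP

/-- **`residue`**: the residue field of the ring of the disc is the residue field of `A`. -/
theorem exists_not_isUnit_sub (hcb : cb ≠ 0) (y : discRing C a cb ha1 ha2) :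
    ∃ (a₀ : A) (h : algebraMap K F (a₀ : K) ∈ discRing C a cb ha1 ha2),
      ¬ IsUnit (y - ⟨algebraMap K F (a₀ : K), h⟩) := by
  obtain ⟨P, hP⟩ := classDisc_nonempty ha1 ha2 hcb
  obtain ⟨d, hd, h1, -⟩ := isRedOn_of_mem_discRing hcb y.2 P hP
  have hmem : algebraMap K F d ∈ discRing C a cb ha1 ha2 :=
    ⟨⟨_, isRed_const hd⟩, fun Q _ => Q.algebraMap_mem' d⟩
  refine ⟨⟨d, hd⟩, hmem, fun hu => ?_⟩
  obtain ⟨w, hw⟩ := isUnit_iff_exists_inv.mp hu
  have hwF : ((y : F) - algebraMap K F d) * (w : F) = 1 := congrArg Subtype.val hw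
  have h2 := congrArg P.adicValuation hwF
  rw [map_mul, map_one] at h2
  have h3 : P.adicValuation ((y : F) - algebraMap K F d) * P.adicValuation (w : F) < 1 :=
    mul_lt_one_of_nonneg_of_lt_one_left zero_le h1
      (P.adicValuation_le_one_of_mem (w.2.2 P hP))
  rw [h2] at h3
  exact lt_irrefl _ h3

end DiscRing

/-! ### the parameter and the chart -/

section Chart

variable (C) (a)

/-- The parameter of the disc of centre `c`: `(u - c) / a`. -/
def discParam (c : K) : F := a⁻¹ • (C.u - algebraMap K F c)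

variable {C a} {c : K}

theorem isRed_discParam (ha : a ≠ 0) (hc : A.valuation c = A.valuation a) :
    IsRed C a (discParam C a c) (RatFunc.X - RatFunc.C (angRes A c a)) := by
  have h := isRed_coord_sub (C := C) ha c
  rwa [cstOf_of_le hc.le, redOf_of_le hc.le] at h

omit [IsAlgClosed (ResidueField A)] in
/-- The points of the disc of class `c / a` are the points of the tube with `|u(P) - c| < |a|`. -/
theorem valuation_sub_lt (ha : a ≠ 0) (hc : A.valuation c = A.valuation a) {P : Place K F}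
    (hP : P ∈ classDisc C a (angRes A c a)) :
    A.valuation (evalAt P C.u - c) < A.valuation a := by
  obtain ⟨-, hv, hub⟩ := hP
  have h1 : evalAt P C.u / a ∈ A := mem_of_valuation_eq_one A (valuation_div_eq_one A ha hv)
  have h2 : c / a ∈ A := mem_of_valuation_eq_one A (valuation_div_eq_one A ha hc)
  unfold ubar angRes at hub
  rw [resOf_of_mem A h1, resOf_of_mem A h2] at hub
  have h3 : residue A (⟨evalAt P C.u / a, h1⟩ - ⟨c / a, h2⟩) = 0 := by
    rw [map_sub, hub, sub_self]
  rw [residue_eq_zero_iff] at h3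
  have h4 : A.valuation (evalAt P C.u / a - c / a) < 1 := (A.valuation_lt_one_iff _).mp h3
  have h5 : evalAt P C.u - c = a * (evalAt P C.u / a - c / a) := by
    field_simp
  rw [h5, map_mul]
  have ha0 : A.valuation a ≠ 0 := (Valuation.ne_zero_iff _).mpr ha
  calc A.valuation a * A.valuation (evalAt P C.u / a - c / a)
      < A.valuation a * 1 := by
        exact mul_lt_mul_of_pos_left h4 (zero_lt_iff.mpr ha0)
    _ = A.valuation a := mul_one _

omit [IsAlgClosed (ResidueField A)] in
theorem mem_classDisc_iff_sub (ha : a ≠ 0) (hc : A.valuation c = A.valuation a) {P : Place K F} :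
    P ∈ classDisc C a (angRes A c a) ↔
      P ∈ T ∧ A.valuation (evalAt P C.u - c) < A.valuation a := by
  refine ⟨fun hP => ⟨hP.1, valuation_sub_lt ha hc hP⟩, fun ⟨hPT, hlt⟩ => ⟨hPT, ?_, ?_⟩⟩
  · have h1 : evalAt P C.u = c + (evalAt P C.u - c) := by ring
    rw [h1, ← hc]
    exact Valuation.map_add_eq_of_lt_left _ (by rw [hc]; exact hlt)
  · have hv : A.valuation (evalAt P C.u) = A.valuation a := by
      have h1 : evalAt P C.u = c + (evalAt P C.u - c) := by ring
      rw [h1, ← hc]
      exact Valuation.map_add_eq_of_lt_left _ (by rw [hc]; exact hlt)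
    have h1 : evalAt P C.u / a ∈ A := mem_of_valuation_eq_one A (valuation_div_eq_one A ha hv)
    have h2 : c / a ∈ A := mem_of_valuation_eq_one A (valuation_div_eq_one A ha hc)
    unfold ubar angRes
    rw [resOf_of_mem A h1, resOf_of_mem A h2]
    have h3 : residue A (⟨evalAt P C.u / a, h1⟩ - ⟨c / a, h2⟩) = 0 := by
      rw [residue_eq_zero_iff]
      apply (A.valuation_lt_one_iff _).mpr
      show A.valuation (evalAt P C.u / a - c / a) < 1
      have h5 : evalAt P C.u / a - c / a = (evalAt P C.u - c) / a := by ring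
      rw [h5, map_div₀]
      exact (div_lt_one₀ (zero_lt_iff.mpr ((Valuation.ne_zero_iff _).mpr ha))).mpr hlt
    rw [map_sub, sub_eq_zero] at h3
    exact h3

omit [IsAlgClosed (ResidueField A)] in
/-- The value of the parameter at a point of the disc. -/
theorem isValueAt_discParam {P : Place K F} (hP : P ∈ T) :
    IsValueAt P (discParam C a c) (a⁻¹ * (evalAt P C.u - c)) :=
  (((isValueAt_evalAt_u C hP).1.sub (isValueAt_algebraMap P c)).smul a⁻¹)

variable (ha1 : A.valuation C.thick < A.valuation a) (ha2 : A.valuation a < 1)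

theorem discParam_mem (hc : A.valuation c = A.valuation a) :
    discParam C a c ∈ discRing C a (angRes A c a) ha1 ha2 :=
  ⟨⟨_, isRed_discParam (gauge_ne_zero ha1) hc⟩, fun _ hP => (isValueAt_discParam hP.1).mem⟩

variable (C a c)

/-- **(E4) The smooth chart of the residue disc `|u - c| < |a|` of the circle of gauge `a`.** -/
def discChart (hc : A.valuation c = A.valuation a) :
    SmoothChart A (circleRing C a ha1 ha2) (circleRes C a ha1 ha2) (placeAt k (angRes A c a))
      (classDisc C a (angRes A c a)) where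
  R := discRing C a (angRes A c a) ha1 ha2
  le := fun _ hy => hy.1
  algebraMap_mem := fun x hx => ⟨⟨_, isRed_const hx⟩, fun Q _ => Q.algebraMap_mem' x⟩
  residue := fun y => by
    obtain ⟨a₀, _, hnu⟩ := exists_not_isUnit_sub (angRes_ne_zero A (gauge_ne_zero ha1) hc) y
    exact ⟨a₀, hnu⟩
  branch := fun y hy => lt_one_of_not_isUnit (angRes_ne_zero A (gauge_ne_zero ha1) hc) y hy
  normal := fun _ hyO hord => ⟨hyO, fun P hP => (Place.mem_iff_ord_nonneg P).mpr (hord P hP)⟩
  t := discParam C a c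
  t_mem := discParam_mem ha1 ha2 hc
  ord_res_t := by
    have h := circleRes_mk C a ha1 ha2 (isRed_discParam (C := C) (gauge_ne_zero ha1) hc)
    have e : (⟨discParam C a c, (discParam_mem ha1 ha2 hc).1⟩ : circleRing C a ha1 ha2) =
        ⟨discParam C a c, ⟨_, isRed_discParam (C := C) (gauge_ne_zero ha1) hc⟩⟩ := rfl
    rw [e, h]
    exact ord_placeAt_X_sub _
  value := fun P hP => by
    have ha : a ≠ 0 := gauge_ne_zero ha1
    refine ⟨a⁻¹ * (evalAt P C.u - c), ?_, isValueAt_discParam hP.1⟩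
    rw [map_mul, map_inv₀, inv_mul_eq_div]
    exact (div_lt_one₀ (zero_lt_iff.mpr ((Valuation.ne_zero_iff _).mpr ha))).mpr
      (valuation_sub_lt ha hc hP)
  simple := fun P hP c' hc' => by
    have ha : a ≠ 0 := gauge_ne_zero ha1
    have hval : c' = a⁻¹ * (evalAt P C.u - c) := hc'.unique (isValueAt_discParam hP.1)
    have e : discParam C a c - algebraMap K F c' =
        algebraMap K F a⁻¹ * (C.u - algebraMap K F (evalAt P C.u)) := by
      rw [hval, discParam, Algebra.smul_def, map_mul, map_sub]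
      ring
    rw [e, P.ord_mul ((map_ne_zero _).mpr (inv_ne_zero ha)) (u_sub_ne_zero C hP.1),
      Place.ord_algebraMap, zero_add]
    exact C.simple P hP.1
  inj := fun P hP P' hP' c' h h' => by
    have ha : a ≠ 0 := gauge_ne_zero ha1
    have h1 : c' = a⁻¹ * (evalAt P C.u - c) := h.unique (isValueAt_discParam hP.1)
    have h2 : c' = a⁻¹ * (evalAt P' C.u - c) := h'.unique (isValueAt_discParam hP'.1)
    apply evalAt_u_injOn C hP.1 hP'.1
    have h3 := h1.symm.trans h2
    have h4 := mul_left_cancel₀ (inv_ne_zero ha) h3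
    linear_combination h4

@[simp]
theorem discChart_R (hc : A.valuation c = A.valuation a) :
    (discChart C a c ha1 ha2 hc).R = discRing C a (angRes A c a) ha1 ha2 := rfl

@[simp]
theorem discChart_t (hc : A.valuation c = A.valuation a) :
    (discChart C a c ha1 ha2 hc).t = discParam C a c := rfl

end Chart

/-! ### the value group and the fraction field -/

section Frac

variable (ha1 : A.valuation C.thick < A.valuation a) (ha2 : A.valuation a < 1)

include ha1 ha2 in
/-- **`valueGroup`**: every nonzero function is a constant times a unit of the circle ring. -/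
theorem circle_valueGroup {y : F} (hy : y ≠ 0) :
    ∃ γ : K, γ ≠ 0 ∧ algebraMap K F γ * y ∈ circleRing C a ha1 ha2 ∧
      (algebraMap K F γ * y)⁻¹ ∈ circleRing C a ha1 ha2 := by
  obtain ⟨γ₀, z, zb, hγ, hzb, hz, rfl⟩ := isGen_of_ne_zero ha1 ha2 hy
  have e : algebraMap K F γ₀⁻¹ * (γ₀ • z) = z := by
    rw [Algebra.smul_def, ← mul_assoc, ← map_mul, inv_mul_cancel₀ hγ, map_one, one_mul]
  refine ⟨γ₀⁻¹, inv_ne_zero hγ, ?_, ?_⟩
  · rw [e]
    exact ⟨zb, hz⟩
  · rw [e]
    exact ⟨zb⁻¹, hz.inv hzb⟩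

/-- A common constant bringing two nonzero functions into the circle ring. -/
theorem exists_common_const {y z : F} (hy : y ≠ 0) (hz : z ≠ 0) :
    ∃ γ : K, γ ≠ 0 ∧ algebraMap K F γ * y ∈ circleRing C a ha1 ha2 ∧
      algebraMap K F γ * z ∈ circleRing C a ha1 ha2 := by
  obtain ⟨γ₁, hγ₁, h1, -⟩ := circle_valueGroup ha1 ha2 hy
  obtain ⟨γ₂, hγ₂, h2, -⟩ := circle_valueGroup ha1 ha2 hz
  have hconst : ∀ x : K, x ∈ A → algebraMap K F x ∈ circleRing C a ha1 ha2 :=
    fun x hx => ⟨_, isRed_const hx⟩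
  rcases le_total (A.valuation γ₁) (A.valuation γ₂) with hle | hle
  · refine ⟨γ₁, hγ₁, h1, ?_⟩
    have hq : γ₁ * γ₂⁻¹ ∈ A := by
      rw [← A.valuation_le_one_iff, map_mul, map_inv₀, ← div_eq_mul_inv]
      exact div_le_one_of_le₀ hle zero_le
    have e : algebraMap K F γ₁ * z = algebraMap K F (γ₁ * γ₂⁻¹) * (algebraMap K F γ₂ * z) := by
      rw [← mul_assoc, ← map_mul, mul_assoc, inv_mul_cancel₀ hγ₂, mul_one]
    rw [e]
    exact mul_mem (hconst _ hq) h2
  · refine ⟨γ₂, hγ₂, ?_, h2⟩
    have hq : γ₂ * γ₁⁻¹ ∈ A := by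
      rw [← A.valuation_le_one_iff, map_mul, map_inv₀, ← div_eq_mul_inv]
      exact div_le_one_of_le₀ hle zero_le
    have e : algebraMap K F γ₂ * y = algebraMap K F (γ₂ * γ₁⁻¹) * (algebraMap K F γ₁ * y) := by
      rw [← mul_assoc, ← map_mul, mul_assoc, inv_mul_cancel₀ hγ₁, mul_one]
    rw [e]
    exact mul_mem (hconst _ hq) h1

open Classical in
/-- **`frac`**: every function is a quotient of functions of the ring of the disc. -/
theorem discRing_frac (y : F) :
    ∃ a' b' : discRing C a cb ha1 ha2, b' ≠ 0 ∧ y * (b' : F) = (a' : F) := by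
  by_cases hy0 : y = 0
  · exact ⟨0, 1, one_ne_zero, by rw [hy0, zero_mul]; rfl⟩
  obtain ⟨S, n, b, c, hS, hc, hε⟩ := C.factor y hy0
  -- the poles on the disc
  set S' : Finset (Place K F) := S.filter (fun Q => Q ∈ classDisc C a cb ∧ n Q < 0) with hS'
  have hS'T : ∀ Q ∈ S', Q ∈ T := fun Q hQ => hS Q (Finset.mem_filter.mp hQ).1
  set b₀ : F := ∏ Q ∈ S', (C.u - algebraMap K F (evalAt Q C.u)) ^ (((-n Q).toNat : ℕ) : ℤ)
    with hb₀
  have hb₀0 : b₀ ≠ 0 :=
    Finset.prod_ne_zero_iff.mpr fun Q hQ => zpow_ne_zero _ (u_sub_ne_zero C (hS'T Q hQ))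
  -- the denominator is regular on the tube
  have hb₀mem : ∀ P ∈ T, b₀ ∈ P.toValuationSubring := by
    intro P hP
    refine Subring.prod_mem P.toValuationSubring.toSubring fun Q _ => ?_
    rw [zpow_natCast]
    exact pow_mem (((isValueAt_evalAt_u C hP).1.sub (isValueAt_algebraMap P _)).mem) _
  -- the order of the denominator
  have hordb : ∀ P ∈ T, P.ord b₀ = if P ∈ S' then (((-n P).toNat : ℕ) : ℤ) else 0 := by
    intro P hP
    rw [hb₀, ord_prod_zpow_aux P S' _ _ fun Q hQ => u_sub_ne_zero C (hS'T Q hQ)]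
    rw [Finset.sum_congr rfl fun Q hQ => by rw [ord_u_sub C hP (hS'T Q hQ)]]
    simp only [mul_ite, mul_one, mul_zero]
    exact Finset.sum_ite_eq' S' P _
  -- the numerator is regular on the disc
  have hnum : ∀ P ∈ classDisc C a cb, y * b₀ ∈ P.toValuationSubring := by
    intro P hP
    rw [Place.mem_iff_ord_nonneg, P.ord_mul hy0 hb₀0, ord_of_factor C hS hc hε hP.1,
      hordb P hP.1]
    by_cases hPS : P ∈ S
    · rw [if_pos hPS]
      by_cases hn : n P < 0
      · have hPS' : P ∈ S' := Finset.mem_filter.mpr ⟨hPS, hP, hn⟩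
        rw [if_pos hPS', Int.toNat_of_nonneg (by omega)]
        omega
      · have hPS' : P ∉ S' := fun h => hn (Finset.mem_filter.mp h).2.2
        rw [if_neg hPS']
        omega
    · have hPS' : P ∉ S' := fun h => hPS (Finset.mem_filter.mp h).1
      rw [if_neg hPS, if_neg hPS', add_zero]
  obtain ⟨γ, hγ, h1, h2⟩ := exists_common_const ha1 ha2 (mul_ne_zero hy0 hb₀0) hb₀0
  have hmem1 : algebraMap K F γ * (y * b₀) ∈ discRing C a cb ha1 ha2 :=
    ⟨h1, fun P hP => mul_mem (P.algebraMap_mem' γ) (hnum P hP)⟩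
  have hmem2 : algebraMap K F γ * b₀ ∈ discRing C a cb ha1 ha2 :=
    ⟨h2, fun P hP => mul_mem (P.algebraMap_mem' γ) (hb₀mem P hP.1)⟩
  refine ⟨⟨_, hmem1⟩, ⟨_, hmem2⟩, ?_, ?_⟩
  · intro h0
    have h3 : algebraMap K F γ * b₀ = 0 := congrArg Subtype.val h0
    exact mul_ne_zero ((map_ne_zero _).mpr hγ) hb₀0 h3
  · show y * (algebraMap K F γ * b₀) = algebraMap K F γ * (y * b₀)
    ring

end Frac

end Fermat.Agent.BR3.SubDisc
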