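import Fermat.Agent.BR.Inst.SmoothModularAll
import Fermat.Agent.BR3.CoverK.Inst

/-!
# Program C, node (I7-REGBASE), core: the regular charts of `S'` at the non-crossing points

The smooth charts of the two-component model `S'` of `X₀(qM)` at `q` on main
(`BR/Inst/SmoothModularAll.smooth_zero_atlas`, `smooth_one_atlas`, hence the fields `smooth₀`,
`smooth₁` of `modularData_final`) are the charts of directed families of levels
(`SmoothFamily.ofModels`), but only the bare `SmoothChart` is exported.  Here the `CoverK.RegChart`
(= `SmoothChart` + `centred` + `frac`) with THE SAME underlying chart, at every non-crossing point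
of either component (finite points and cusps), for every proof `H` of the atlas hypotheses:

* `exists_regChart_of_family` : `∃ C : RegChart …, C.chart = Hf.chart …`;
* `exists_regChart_zero_atlas`, `exists_regChart_one_atlas`;
* `regChartZero`, `regChartOne` with `regChartZero_chart`, `regChartOne_chart`
  (`= smooth_zero_atlas …`, `= smooth_one_atlas …`), and the forms for `G : GeomInputs`
  (`= smooth₀_modular …`, `= smooth₁_modular …`);
* `regChartCan`, `regChartEt` : the same with the components written `constRedW1`, `constRedW2`.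
-/

set_option autoImplicit false
set_option linter.unusedSectionVars false
set_option linter.style.haveILetI false

noncomputable section

/- S36 build-time patch: file-local shortcut instances. They only shorten instance search;
each is the instance that the search finds anyway (reducible, same terms after unfolding). -/
local instance (priority := 100000) Fermat.Agent.BR3.FastInst.instAlgFullC_RegAtlas
    {k : Type*} [Field k] (N : ℕ) :
    Algebra k ↥(ModularCurve.modularFunctionFieldFullC k N) := inferInstance
local instance (priority := 100000) Fermat.Agent.BR3.FastInst.instFieldFullC_RegAtlas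
    {k : Type*} [Field k] (N : ℕ) :
    Field ↥(ModularCurve.modularFunctionFieldFullC k N) := inferInstance
local instance (priority := 100000) Fermat.Agent.BR3.FastInst.instAlgLaurent_RegAtlas
    {k : Type*} [Field k] : Algebra k (LaurentSeries k) := inferInstance


namespace Fermat.Agent.BR3.RegAtlas

open ModularCurve AlgebraicCurve IsLocalRing
open Fermat.Agent.X0 Fermat.Agent.Val Fermat.Agent.Red Fermat.Agent.BR.Centre
open Fermat.Agent.BR.TwoVal Fermat.Agent.BR.TwoValInst Fermat.Agent.BR.ConstRedTwo
open Fermat.Agent.BR.S0
open Fermat.Agent.BR.S0.RedModular Fermat.Agent.BR.S0.RedHyp Fermat.Agent.BR.S0.PointDict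
open Fermat.Agent.BR.Inst.SmoothModularAll Fermat.Agent.BR3.CoverK

set_option synthInstance.maxHeartbeats 400000

section Generic

variable {K F k : Type*} [Field K] [Field F] [Algebra K F] [Field k]
  {Ft : Type*} [Field Ft] [Algebra k Ft]
  {A : ValuationSubring K} {π : A →+* k} {O : ValuationSubring F} {res : O →+* Ft}
  {Q : Place k Ft} {T : Set (Place K F)} {t : F} {ι : Type*} {R : ι → Subring F} {ϖ : ι → K}

/-- The chart of a directed family of levels underlies a regular chart. -/
theorem exists_regChart_of_family (Hf : SmoothFamily A O res Q T t R ϖ)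
    (hres : ∀ (a : K) (ha : a ∈ A) (h : algebraMap K F a ∈ O),
      res ⟨algebraMap K F a, h⟩ = algebraMap k Ft (π ⟨a, ha⟩))
    (hAO : ∀ c : K, A.valuation c < 1 → algebraMap K F c ∈ O.nonunits)
    (hord : ∀ h : t ∈ O, Q.ord (res ⟨t, h⟩) = 1) :
    ∃ C : RegChart A O res Q T, C.chart = Hf.chart hres hAO hord :=
  ⟨RegChart.ofFamily Hf hres hAO hord, rfl⟩

end Generic

variable {M q : ℕ} [NeZero M] [hqF : Fact q.Prime]
variable (B : ValuationSubring Kb) (hB : B.LiesOverPrime q) (hqM : ¬ q ∣ M)

local notation "kB" => IsLocalRing.ResidueField B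
local notation "FtM" => modularFunctionFieldFullC (IsLocalRing.ResidueField B) M

set_option maxHeartbeats 3200000 in
/-- **The smooth chart of `S'` at a non-crossing point of the component `0` underlies a regular
chart.** -/
theorem exists_regChart_zero_atlas (H : AtlasHyp (chartDataModular B hB hqM) (jx M q))
    (Q : Place kB FtM) (hQ : ∀ e, Q ≠ z₁ (chartDataModular B hB hqM) e) :
    ∃ C : RegChart B (compW B hB hqM 0).O (compW B hB hqM 0).res Q {P | H.r P = ⟨0, Q⟩},
      C.chart = smooth_zero_atlas B hB hqM H Q hQ := by
  unfold smooth_zero_atlas Fermat.Agent.BR.S0.SmoothLevelsGlue.smooth_zero_levels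
  split_ifs with h
  · unfold Fermat.Agent.BR.S0.SmoothLevelsGlue.smoothChart_zero_fin_levels
      Fermat.Agent.BR.S0.SmoothAssembly.smoothChartOf_zero_fin
      Fermat.Agent.BR.S0.SmoothAssembly.smoothChart_zero_fin
      Fermat.Agent.BR.S0.smoothChartOfModels
    exact exists_regChart_of_family _ _ _ _
  · unfold Fermat.Agent.BR.S0.SmoothLevelsGlue.smoothChart_zero_inf_levels
      Fermat.Agent.BR.S0.SmoothAssembly.smoothChartOf_zero_inf
      Fermat.Agent.BR.S0.SmoothAssembly.smoothChart_zero_inf
      Fermat.Agent.BR.S0.smoothChartOfModels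
    exact exists_regChart_of_family _ _ _ _

set_option maxHeartbeats 3200000 in
/-- **The smooth chart of `S'` at a non-crossing point of the component `1` underlies a regular
chart.** -/
theorem exists_regChart_one_atlas (H : AtlasHyp (chartDataModular B hB hqM) (jx M q))
    (Q : Place kB FtM) (hQ : ∀ e, Q ≠ z₂ (chartDataModular B hB hqM) e) :
    ∃ C : RegChart B (compW B hB hqM 1).O (compW B hB hqM 1).res Q {P | H.r P = ⟨1, Q⟩},
      C.chart = smooth_one_atlas B hB hqM H Q hQ := by
  unfold smooth_one_atlas Fermat.Agent.BR.S0.SmoothLevelsGlue.smooth_one_levels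
  split_ifs with h
  · unfold Fermat.Agent.BR.S0.SmoothLevelsGlue.smoothChart_one_fin_levels
      Fermat.Agent.BR.S0.SmoothAssembly.smoothChartOf_one_fin
      Fermat.Agent.BR.S0.SmoothAssembly.smoothChart_one_fin
      Fermat.Agent.BR.S0.smoothChartOfModels
    exact exists_regChart_of_family _ _ _ _
  · unfold Fermat.Agent.BR.S0.SmoothLevelsGlue.smoothChart_one_inf_levels
      Fermat.Agent.BR.S0.SmoothAssembly.smoothChartOf_one_inf
      Fermat.Agent.BR.S0.SmoothAssembly.smoothChart_one_inf
      Fermat.Agent.BR.S0.smoothChartOfModels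
    exact exists_regChart_of_family _ _ _ _

/-- **The regular chart of `S'` at a non-crossing point of the component `0`** (`can`). -/
def regChartZero (H : AtlasHyp (chartDataModular B hB hqM) (jx M q))
    (Q : Place kB FtM) (hQ : ∀ e, Q ≠ z₁ (chartDataModular B hB hqM) e) :
    RegChart B (compW B hB hqM 0).O (compW B hB hqM 0).res Q {P | H.r P = ⟨0, Q⟩} :=
  (exists_regChart_zero_atlas B hB hqM H Q hQ).choose

theorem regChartZero_chart (H : AtlasHyp (chartDataModular B hB hqM) (jx M q))
    (Q : Place kB FtM) (hQ : ∀ e, Q ≠ z₁ (chartDataModular B hB hqM) e) :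
    (regChartZero B hB hqM H Q hQ).chart = smooth_zero_atlas B hB hqM H Q hQ :=
  (exists_regChart_zero_atlas B hB hqM H Q hQ).choose_spec

/-- **The regular chart of `S'` at a non-crossing point of the component `1`** (`et`). -/
def regChartOne (H : AtlasHyp (chartDataModular B hB hqM) (jx M q))
    (Q : Place kB FtM) (hQ : ∀ e, Q ≠ z₂ (chartDataModular B hB hqM) e) :
    RegChart B (compW B hB hqM 1).O (compW B hB hqM 1).res Q {P | H.r P = ⟨1, Q⟩} :=
  (exists_regChart_one_atlas B hB hqM H Q hQ).choose

theorem regChartOne_chart (H : AtlasHyp (chartDataModular B hB hqM) (jx M q))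
    (Q : Place kB FtM) (hQ : ∀ e, Q ≠ z₂ (chartDataModular B hB hqM) e) :
    (regChartOne B hB hqM H Q hQ).chart = smooth_one_atlas B hB hqM H Q hQ :=
  (exists_regChart_one_atlas B hB hqM H Q hQ).choose_spec

/-- the chart of `regChartZero` is the field `smooth₀` of `Final.ModularData` on main -/
theorem regChartZero_chart_modular (G : GeomInputs B hB hqM)
    (Q : Place kB FtM) (hQ : ∀ e, Q ≠ z₁ (chartDataModular B hB hqM) e) :
    (regChartZero B hB hqM (atlasHyp_modular B hB hqM G) Q hQ).chart =
      smooth₀_modular B hB hqM G Q hQ :=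
  regChartZero_chart B hB hqM _ Q hQ

/-- the chart of `regChartOne` is the field `smooth₁` of `Final.ModularData` on main -/
theorem regChartOne_chart_modular (G : GeomInputs B hB hqM)
    (Q : Place kB FtM) (hQ : ∀ e, Q ≠ z₂ (chartDataModular B hB hqM) e) :
    (regChartOne B hB hqM (atlasHyp_modular B hB hqM G) Q hQ).chart =
      smooth₁_modular B hB hqM G Q hQ :=
  regChartOne_chart B hB hqM _ Q hQ

/-- `regChartZero` with the component written `constRedW1` (the shape of the sheets `cInf` and of
the middle components along `α₂`). -/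
def regChartCan (H : AtlasHyp (chartDataModular B hB hqM) (jx M q))
    (Q : Place kB FtM) (hQ : ∀ e, Q ≠ z₁ (chartDataModular B hB hqM) e) :
    RegChart B (constRedW1 B hB hqM).O (constRedW1 B hB hqM).res Q {P | H.r P = ⟨0, Q⟩} :=
  regChartZero B hB hqM H Q hQ

/-- `regChartOne` with the component written `constRedW2` (the shape of the sheets `cZero` and of
the middle components along `β₂`). -/
def regChartEt (H : AtlasHyp (chartDataModular B hB hqM) (jx M q))
    (Q : Place kB FtM) (hQ : ∀ e, Q ≠ z₂ (chartDataModular B hB hqM) e) :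
    RegChart B (constRedW2 B hB hqM).O (constRedW2 B hB hqM).res Q {P | H.r P = ⟨1, Q⟩} :=
  regChartOne B hB hqM H Q hQ

theorem regChartCan_eq (H : AtlasHyp (chartDataModular B hB hqM) (jx M q))
    (Q : Place kB FtM) (hQ : ∀ e, Q ≠ z₁ (chartDataModular B hB hqM) e) :
    regChartCan B hB hqM H Q hQ = regChartZero B hB hqM H Q hQ := rfl

theorem regChartEt_eq (H : AtlasHyp (chartDataModular B hB hqM) (jx M q))
    (Q : Place kB FtM) (hQ : ∀ e, Q ≠ z₂ (chartDataModular B hB hqM) e) :
    regChartEt B hB hqM H Q hQ = regChartOne B hB hqM H Q hQ := rfl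

end Fermat.Agent.BR3.RegAtlas
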