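import Fermat.Agent.BR3.CoverSheetInf.ValueEt
import Fermat.Agent.BR3.RegAtlas
import Fermat.Agent.BR3.CoverK.Chart

/-!
# Program C, node SC1 (instance): the regular charts of `cInf` at the finite non-crossing points

For `H : AtlasHyp (chartDataModular B hB hqM) (jx M q)` and a point `Q'` of the component `can`
of `S'` which is not a crossing and at which `j̃` is regular, the lift of main's regular chart
`RegAtlas.regChartCan B hB hqM H Q' hQ'` (tube `{P | H.r P = ⟨0, Q'⟩}`) along the sheet
`coverSheet_cInf` (generator `Θ = β₂ T`, sheet constant `u ^ q`):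

* `cInfChart …  : RegChart B (constRedCInf ..).O (constRedCInf ..).res Q'
    (coverTube B {P | H.r P = ⟨0, Q'⟩} (Theta M q) (u ^ q))` (algebra along `α₂`), with
  `cInfChart_t` (`= α₂` of the parameter of the chart of `S'`) by `rfl`;
* `uInf`, `isValueAt_uInf`, `residue_uInf_ne_zero` : a chosen lift of the value of `T̄` at `Q'`;
  `cInfTube B hB hqM H Q' hQ' hjQ := coverTube B {P | H.r P = ⟨0, Q'⟩} (Theta M q) (uInf .. ^ q)`,
  `restrict_mem_of_mem_cInfTube` (the tube lies over the tube of `Q'`), and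
  `cInfChartAt … : RegChart B (constRedCInf ..).O (constRedCInf ..).res Q' (cInfTube ..)` (take
  `.chart` for the field `smInf` of `SDD.CaseInput`);
* `exists_value_TB'_of_not_crossing_et` : the hypotheses `hu`, `hu0` of
  `CZeroSheet.coverSheet_cZero_chart` at every finite non-crossing point of `et`.

The hypotheses `hj`, `hjq'` (`j`, `j(s^q)` regular on the tube) are those of
`coverSheet_cInf`; `harch` is the rank-one property of `B`.
-/

set_option autoImplicit false
set_option linter.style.haveILetI false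
set_option linter.unusedSectionVars false

noncomputable section

/- S36 build-time patch: file-local shortcut instances. They only shorten instance search;
each is the instance that the search finds anyway (reducible, same terms after unfolding). -/
local instance (priority := 100000) Fermat.Agent.BR3.FastInst.instAlgFullC_CInfChart
    {k : Type*} [Field k] (N : ℕ) :
    Algebra k ↥(ModularCurve.modularFunctionFieldFullC k N) := inferInstance
local instance (priority := 100000) Fermat.Agent.BR3.FastInst.instFieldFullC_CInfChart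
    {k : Type*} [Field k] (N : ℕ) :
    Field ↥(ModularCurve.modularFunctionFieldFullC k N) := inferInstance
local instance (priority := 100000) Fermat.Agent.BR3.FastInst.instAlgLaurent_CInfChart
    {k : Type*} [Field k] : Algebra k (LaurentSeries k) := inferInstance


set_option synthInstance.maxHeartbeats 400000

namespace Fermat.Agent.BR3.CInfChart

open ModularCurve AlgebraicCurve HahnSeries Polynomial Fermat.Agent.X0 Fermat.Agent.Val
open Fermat.Agent.Hecke.AL Fermat.Agent.BR.TwoVal Fermat.Agent.BR.ResGen Fermat.Agent.Red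
open Fermat.Agent.BR.TwoValInst Fermat.Agent.BR3.FibreProd Fermat.Agent.BR.ModUnit
open Fermat.Agent.BR.ConstRedTwo Fermat.Agent.BR3.CInfRes Fermat.Agent.BR3.CoverK
open Fermat.Agent.BR.S0 Fermat.Agent.BR.S0.RedModular Fermat.Agent.BR.S0.PointDict
open Fermat.Agent.BR3.CoverSheetInf Fermat.Agent.BR3.RegAtlas Fermat.Agent.BR.S0.RedHyp

variable {M q : ℕ} [NeZero M] [hq : Fact q.Prime]
variable (B : ValuationSubring (AlgebraicClosure ℚ)) (hB : B.LiesOverPrime q) (hqM : ¬ q ∣ M)

local notation "kB" => IsLocalRing.ResidueField B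
local notation "FtM" => modularFunctionFieldFullC (IsLocalRing.ResidueField B) M

set_option maxHeartbeats 4000000 in
/-- **The regular chart of `cInf` at a finite non-crossing point**: the lift of the regular chart
of `S'` at the point `Q'` of `can` along the sheet `Θ ≡ u ^ q`. -/
def cInfChart (H : AtlasHyp (chartDataModular B hB hqM) (jx M q)) (Q' : Place kB FtM)
    (hQ' : ∀ e, Q' ≠ z₁ (chartDataModular B hB hqM) e)
    (hj : ∀ P ∈ {P | H.r P = (⟨0, Q'⟩ : Σ _ : Fin 2, Place kB FtM)}, 0 ≤ P.ord (jBar (M * q)))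
    (hjq' : ∀ P ∈ {P | H.r P = (⟨0, Q'⟩ : Σ _ : Fin 2, Place kB FtM)}, 0 ≤ P.ord (jq' M q))
    (u : B)
    (hu : IsValueAt Q' ((constRedW1 B hB hqM).res ⟨TB M q, TB_mem_O1 M q B hB⟩)
      (IsLocalRing.residue B u))
    (hu0 : IsLocalRing.residue B u ≠ 0)
    (harch : ∀ a c : Kb, B.valuation a < 1 → c ≠ 0 →
      ∃ N : ℕ, B.valuation a ^ N ≤ B.valuation c) :
    letI := algebraAlong (alpha2 M q)
    haveI := isScalarTower_along (alpha2 M q)
    haveI : Module.Finite (Fb (M * q)) (Fb (M * q * q)) :=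
      Fermat.Agent.Hecke.finiteAlong_heckeAlphaBar (M * q) q
    RegChart B (constRedCInf B hB hqM).O (constRedCInf B hB hqM).res Q'
      (coverTube B {P | H.r P = (⟨0, Q'⟩ : Σ _ : Fin 2, Place kB FtM)} (Theta M q) (u ^ q)) := by
  letI := algebraAlong (alpha2 M q)
  haveI := isScalarTower_along (alpha2 M q)
  haveI : Module.Finite (Fb (M * q)) (Fb (M * q * q)) :=
    Fermat.Agent.Hecke.finiteAlong_heckeAlphaBar (M * q) q
  exact coverRegChartOfConstRed (constRedW1 B hB hqM) (regChartCan B hB hqM H Q' hQ')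
    (coverSheet_cInf B hB hqM Q' _ _ (regChartCan B hB hqM H Q' hQ').chart.normal hj hjq' u hu
      hu0) harch

set_option maxHeartbeats 4000000 in
/-- the parameter of `cInfChart` is the image of the parameter of the chart of `S'` -/
theorem cInfChart_t (H : AtlasHyp (chartDataModular B hB hqM) (jx M q)) (Q' : Place kB FtM)
    (hQ' : ∀ e, Q' ≠ z₁ (chartDataModular B hB hqM) e)
    (hj : ∀ P ∈ {P | H.r P = (⟨0, Q'⟩ : Σ _ : Fin 2, Place kB FtM)}, 0 ≤ P.ord (jBar (M * q)))
    (hjq' : ∀ P ∈ {P | H.r P = (⟨0, Q'⟩ : Σ _ : Fin 2, Place kB FtM)}, 0 ≤ P.ord (jq' M q))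
    (u : B)
    (hu : IsValueAt Q' ((constRedW1 B hB hqM).res ⟨TB M q, TB_mem_O1 M q B hB⟩)
      (IsLocalRing.residue B u))
    (hu0 : IsLocalRing.residue B u ≠ 0)
    (harch : ∀ a c : Kb, B.valuation a < 1 → c ≠ 0 →
      ∃ N : ℕ, B.valuation a ^ N ≤ B.valuation c) :
    (cInfChart B hB hqM H Q' hQ' hj hjq' u hu hu0 harch).chart.t =
      alpha2 M q (regChartCan B hB hqM H Q' hQ').chart.t := rfl

/-! ### The sheet constant chosen -/

/-- a lift `u : B` of the value of `T̄` at a finite non-crossing point of `can` -/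
def uInf (Q' : Place kB FtM) (hQ' : ∀ e, Q' ≠ z₁ (chartDataModular B hB hqM) e)
    (hjQ : jFullC kB M ∈ Q'.toValuationSubring) : B :=
  (exists_value_TB_of_not_crossing B hB hqM Q'
    ((riemannPkg_modL_residueField M hqM B hB).deg_one Q') hQ' hjQ).choose

theorem isValueAt_uInf (Q' : Place kB FtM) (hQ' : ∀ e, Q' ≠ z₁ (chartDataModular B hB hqM) e)
    (hjQ : jFullC kB M ∈ Q'.toValuationSubring) :
    IsValueAt Q' ((constRedW1 B hB hqM).res ⟨TB M q, TB_mem_O1 M q B hB⟩)
      (IsLocalRing.residue B (uInf B hB hqM Q' hQ' hjQ)) :=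
  (exists_value_TB_of_not_crossing B hB hqM Q'
    ((riemannPkg_modL_residueField M hqM B hB).deg_one Q') hQ' hjQ).choose_spec.1

theorem residue_uInf_ne_zero (Q' : Place kB FtM)
    (hQ' : ∀ e, Q' ≠ z₁ (chartDataModular B hB hqM) e)
    (hjQ : jFullC kB M ∈ Q'.toValuationSubring) :
    IsLocalRing.residue B (uInf B hB hqM Q' hQ' hjQ) ≠ 0 :=
  (exists_value_TB_of_not_crossing B hB hqM Q'
    ((riemannPkg_modL_residueField M hqM B hB).deg_one Q') hQ' hjQ).choose_spec.2

/-- **The tube of the point `Q'` of `cInf`** (finite, not over a crossing): the places over the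
tube of the point `Q'` of `can` at which `Θ ≡ ū ^ q`. -/
def cInfTube (H : AtlasHyp (chartDataModular B hB hqM) (jx M q)) (Q' : Place kB FtM)
    (hQ' : ∀ e, Q' ≠ z₁ (chartDataModular B hB hqM) e)
    (hjQ : jFullC kB M ∈ Q'.toValuationSubring) : Set (Place Kb (Fb (M * q * q))) :=
  letI := algebraAlong (alpha2 M q)
  haveI := isScalarTower_along (alpha2 M q)
  haveI : Module.Finite (Fb (M * q)) (Fb (M * q * q)) :=
    Fermat.Agent.Hecke.finiteAlong_heckeAlphaBar (M * q) q
  coverTube B {P | H.r P = (⟨0, Q'⟩ : Σ _ : Fin 2, Place kB FtM)} (Theta M q)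
    (uInf B hB hqM Q' hQ' hjQ ^ q)

/-- the tube of a point of `cInf` lies over the tube of the point of `can` -/
theorem restrict_mem_of_mem_cInfTube (H : AtlasHyp (chartDataModular B hB hqM) (jx M q))
    (Q' : Place kB FtM) (hQ' : ∀ e, Q' ≠ z₁ (chartDataModular B hB hqM) e)
    (hjQ : jFullC kB M ∈ Q'.toValuationSubring) {P : Place Kb (Fb (M * q * q))}
    (hP : P ∈ cInfTube B hB hqM H Q' hQ' hjQ) :
    letI := algebraAlong (alpha2 M q)
    haveI := isScalarTower_along (alpha2 M q)
    haveI : Module.Finite (Fb (M * q)) (Fb (M * q * q)) :=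
      Fermat.Agent.Hecke.finiteAlong_heckeAlphaBar (M * q) q
    H.r (P.restrict (Fb (M * q))) = ⟨0, Q'⟩ := by
  letI := algebraAlong (alpha2 M q)
  haveI := isScalarTower_along (alpha2 M q)
  haveI : Module.Finite (Fb (M * q)) (Fb (M * q * q)) :=
    Fermat.Agent.Hecke.finiteAlong_heckeAlphaBar (M * q) q
  exact (mem_coverTube.1 hP).1

set_option maxHeartbeats 4000000 in
/-- **The regular chart of `cInf` at a finite non-crossing point, on `cInfTube`.** -/
def cInfChartAt (H : AtlasHyp (chartDataModular B hB hqM) (jx M q)) (Q' : Place kB FtM)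
    (hQ' : ∀ e, Q' ≠ z₁ (chartDataModular B hB hqM) e)
    (hjQ : jFullC kB M ∈ Q'.toValuationSubring)
    (hj : ∀ P ∈ {P | H.r P = (⟨0, Q'⟩ : Σ _ : Fin 2, Place kB FtM)}, 0 ≤ P.ord (jBar (M * q)))
    (hjq' : ∀ P ∈ {P | H.r P = (⟨0, Q'⟩ : Σ _ : Fin 2, Place kB FtM)}, 0 ≤ P.ord (jq' M q))
    (harch : ∀ a c : Kb, B.valuation a < 1 → c ≠ 0 →
      ∃ N : ℕ, B.valuation a ^ N ≤ B.valuation c) :
    RegChart B (constRedCInf B hB hqM).O (constRedCInf B hB hqM).res Q'
      (cInfTube B hB hqM H Q' hQ' hjQ) :=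
  cInfChart B hB hqM H Q' hQ' hj hjq' (uInf B hB hqM Q' hQ' hjQ)
    (isValueAt_uInf B hB hqM Q' hQ' hjQ) (residue_uInf_ne_zero B hB hqM Q' hQ' hjQ) harch

/-! ### The hypotheses of the sheets of `cZero` in the `T'` form -/

set_option maxHeartbeats 2000000 in
/-- **`res₂ T' = H(j̃)` has a nonzero finite value at every finite non-crossing point of `et`**
(the hypotheses `hu`, `hu0` of `CZeroSheet.coverSheet_cZero_chart`). -/
theorem exists_value_TB'_of_not_crossing_et {x : Fb (M * q)}
    (H : AtlasHyp (chartDataModular B hB hqM) x) (Q' : Place kB FtM)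
    (hnc : ∀ e : Crossing (chartDataModular B hB hqM), Q' ≠ z₂ (chartDataModular B hB hqM) e)
    (hj : jFullC kB M ∈ Q'.toValuationSubring) :
    ∃ u : B, IsValueAt Q' ((constRedW2 B hB hqM).res ⟨TB' M q, TB'_mem_O2 M q B hB hqM⟩)
      (IsLocalRing.residue B u) ∧ IsLocalRing.residue B u ≠ 0 := by
  obtain ⟨u, hu, hu0⟩ := exists_value_TB_of_not_crossing_et B hB hqM H Q' hnc hj
  refine ⟨u, ?_, hu0⟩
  rw [constRedW2_res_TB']
  rwa [constRedW1_res_TB] at hu

end Fermat.Agent.BR3.CInfChart
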