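import Mathlib
import Fermat.Agent.Red.Charts
import Fermat.Agent.BR3.CoverPlaces

/-!
# Program C (S36), node A9 / (C-COVER-PT), part 3: the place dictionary of a cover, by counting

`F'' / F'` a finite extension of function fields over `K` of degree `n` (fundamental identity
`∑_{P'' | P'} e(P'' | P') = n`, all places of degree one). `T'` a tube of `F'` with a coordinate
`t` (values exist, `t - t(P')` has a simple zero at `P'`, `t` separates the places of `T'`: the
fields `value`, `simple`, `inj` of a `S0.SmoothChart`, resp. `val_mem`/`bij`, `simple` of an annulus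
chart). `Ts i`, `i : I`, finitely many pairwise disjoint **sheets**: sets of places of `F''` over
`T'`, such that the function `t - c` of `F'` (`c` a value of `t` on `T'`) has exactly `e i` zeros
on the sheet `Ts i`, counted with multiplicities — this is what `S0.SmoothChart.conservation`
gives for the tube of a point `Q''` with `e i = ord_{Q''} (res'' t)` = the ramification index of
`Q''` over the point under it (`= 1` for an étale sheet, `= n` for the single sheet over a point
at which the cover is purely inseparable mod `𝔪`), and what the Newton polygon gives for an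
annulus. If `∑ e i = n`:

* `exists_mem_sheet_of_count` : **every place of `F''` over `T'` lies in one of the sheets**
  (the sheets exhaust the fibres);
* `existsUnique_sheet_of_count` : … in exactly one.

No model of `F''` is used: the sheets may have been constructed along another map.
-/

set_option autoImplicit false

namespace Fermat.Agent.BR3.SheetCount

open AlgebraicCurve Fermat.Agent.Red

variable {K F' F'' : Type*} [Field K] [Field F'] [Field F''] [Algebra K F'] [Algebra K F'']
  [Algebra F' F''] [IsScalarTower K F' F''] [Algebra.IsIntegral F' F'']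
  [HasPrincipalDivisors K F''] [FundamentalIdentity K F' F'']

/-- The sum of the ramification indices over a place is the degree (all places of degree one). -/
theorem sum_ramificationIndex_fiber (hdeg'' : ∀ P : Place K F'', P.deg = 1)
    (hdeg' : ∀ P : Place K F', P.deg = 1) (P' : Place K F') :
    ∑ P ∈ P'.fiber F'', (P.ramificationIndex F' : ℤ) = (Module.finrank F' F'' : ℤ) := by
  have h := FundamentalIdentity.sum_ramificationIndex_mul_deg (K := K) (F := F') (F' := F'') P'
  rw [hdeg' P', Nat.cast_one, mul_one] at h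
  rw [← h]
  refine Finset.sum_congr rfl fun P _ => ?_
  rw [hdeg'' P, Nat.cast_one, mul_one]

/-- **The sheets exhaust the fibres.** -/
theorem exists_mem_sheet_of_count (hdeg'' : ∀ P : Place K F'', P.deg = 1)
    (hdeg' : ∀ P : Place K F', P.deg = 1) {t : F'} {T' : Set (Place K F')}
    (hval : ∀ P ∈ T', ∃ c : K, IsValueAt P t c)
    (hsimple : ∀ P ∈ T', ∀ c : K, IsValueAt P t c → P.ord (t - algebraMap K F' c) = 1)
    (hinj : ∀ P ∈ T', ∀ P₁ ∈ T', ∀ c : K, IsValueAt P t c → IsValueAt P₁ t c → P = P₁)
    {I : Type*} [Fintype I] (Ts : I → Set (Place K F'')) (e : I → ℕ)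
    (hsub : ∀ i, ∀ P ∈ Ts i, P.restrict F' ∈ T')
    (hdisj : ∀ i j P, P ∈ Ts i → P ∈ Ts j → i = j)
    (hcount : ∀ i, ∀ P' ∈ T', ∀ c : K, IsValueAt P' t c → ∀ D : Divisor K F'',
      (∀ P, D P = P.ord (algebraMap F' F'' (t - algebraMap K F' c))) →
      Finsupp.mapDomain (fun P => P ∈ Ts i) D True = (e i : ℤ))
    (hsum : ∑ i, e i = Module.finrank F' F'')
    {P'' : Place K F''} (hP : P''.restrict F' ∈ T') : ∃ i, P'' ∈ Ts i := by
  classical
  by_contra hcon
  rw [not_exists] at hcon
  set P' := P''.restrict F' with hP'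
  obtain ⟨c, hc⟩ := hval P' hP
  set f : F' := t - algebraMap K F' c with hf
  have hf1 : P'.ord f = 1 := hsimple P' hP c hc
  have hf0 : f ≠ 0 := by
    intro h
    rw [h, Place.ord_zero] at hf1
    omega
  have hf0'' : algebraMap F' F'' f ≠ 0 :=
    fun h => hf0 ((map_eq_zero_iff _ (algebraMap F' F'').injective).mp h)
  obtain ⟨D, hD, -⟩ := HasPrincipalDivisors.exists_divisor (K := K) (algebraMap F' F'' f) hf0''
  -- a zero of `f` on a sheet lies over `P'`
  have hkey : ∀ i, ∀ P ∈ Ts i, D P ≠ 0 → P.restrict F' = P' := by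
    intro i P hPi hne
    have h1 : P.restrict F' ∈ T' := hsub i P hPi
    obtain ⟨c', hc'⟩ := hval _ h1
    by_cases hcc : c' = c
    · rw [hcc] at hc'
      exact hinj _ h1 _ hP c hc' hc
    · exfalso
      have hv : IsValueAt (P.restrict F') f (c' - c) := hc'.sub (isValueAt_algebraMap _ c)
      have h0 : (P.restrict F').ord f = 0 :=
        hv.ord_eq_zero (sub_ne_zero.mpr hcc)
      apply hne
      rw [hD, Place.ord_restrict, h0, mul_zero]
  have hfib : ∀ P : Place K F'', P.restrict F' = P' → D P = (P.ramificationIndex F' : ℤ) := by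
    intro P h
    rw [hD, Place.ord_restrict, h, hf1, mul_one]
  -- the count on each sheet
  have hcnt : ∀ i, (e i : ℤ) =
      ∑ P ∈ P'.fiber F'', if P ∈ Ts i then (P.ramificationIndex F' : ℤ) else 0 := by
    intro i
    rw [← hcount i P' hP c hc D hD, mapDomain_apply_eq_sum]
    have e1 : ∀ a ∈ D.support,
        (letI := Classical.propDecidable ((a ∈ Ts i) = True); if (a ∈ Ts i) = True then D a else 0) =
        if a ∈ Ts i then D a else 0 := by
      intro a _
      by_cases ha : a ∈ Ts i
      · rw [if_pos ha, if_pos (eq_true ha)]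
      · rw [if_neg ha, if_neg (fun h => ha (of_eq_true h))]
    rw [Finset.sum_congr rfl e1, ← Finset.sum_filter, ← Finset.sum_filter]
    have e2 : D.support.filter (fun a => a ∈ Ts i) = (P'.fiber F'').filter (fun a => a ∈ Ts i) := by
      ext a
      simp only [Finset.mem_filter, Finsupp.mem_support_iff, Place.mem_fiber]
      constructor
      · rintro ⟨h1, h2⟩
        exact ⟨hkey i a h2 h1, h2⟩
      · rintro ⟨h1, h2⟩
        refine ⟨?_, h2⟩
        rw [hfib a h1]
        have := a.ramificationIndex_pos (F := F')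
        omega
    rw [e2]
    refine Finset.sum_congr rfl fun a ha => ?_
    exact hfib a (Place.mem_fiber.mp (Finset.mem_filter.mp ha).1)
  -- the total count
  have htot := sum_ramificationIndex_fiber hdeg'' hdeg' P'
  have hsumZ : (∑ i, (e i : ℤ)) = (Module.finrank F' F'' : ℤ) := by
    rw [← hsum]
    push_cast
    rfl
  have hswap : (∑ i, (e i : ℤ)) =
      ∑ P ∈ P'.fiber F'', ∑ i, if P ∈ Ts i then (P.ramificationIndex F' : ℤ) else 0 := by
    rw [Finset.sum_comm]
    exact Finset.sum_congr rfl fun i _ => hcnt i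
  have hle : ∀ P ∈ P'.fiber F'',
      (∑ i, if P ∈ Ts i then (P.ramificationIndex F' : ℤ) else 0) ≤
        if P = P'' then 0 else (P.ramificationIndex F' : ℤ) := by
    intro P _
    by_cases hPP : P = P''
    · rw [if_pos hPP, hPP]
      refine le_of_eq (Finset.sum_eq_zero fun i _ => ?_)
      rw [if_neg (hcon i)]
    · rw [if_neg hPP]
      by_cases hex : ∃ i₀, P ∈ Ts i₀
      · obtain ⟨i₀, hi₀⟩ := hex
        rw [Finset.sum_eq_single i₀]
        · rw [if_pos hi₀]
        · intro j _ hj
          rw [if_neg]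
          intro hPj
          exact hj (hdisj j i₀ P hPj hi₀)
        · intro h
          exact absurd (Finset.mem_univ i₀) h
      · rw [not_exists] at hex
        rw [Finset.sum_eq_zero fun i _ => if_neg (hex i)]
        positivity
  have hmem : P'' ∈ P'.fiber F'' := Place.mem_fiber.mpr rfl
  have hlt : (∑ P ∈ P'.fiber F'', if P = P'' then 0 else (P.ramificationIndex F' : ℤ)) <
      ∑ P ∈ P'.fiber F'', (P.ramificationIndex F' : ℤ) := by
    refine Finset.sum_lt_sum (fun P _ => ?_) ⟨P'', hmem, ?_⟩
    · split_ifs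
      · positivity
      · exact le_rfl
    · rw [if_pos rfl]
      have := P''.ramificationIndex_pos (F := F')
      exact_mod_cast this
  have := Finset.sum_le_sum hle
  rw [← hswap, hsumZ] at this
  omega

/-- … in exactly one sheet. -/
theorem existsUnique_sheet_of_count (hdeg'' : ∀ P : Place K F'', P.deg = 1)
    (hdeg' : ∀ P : Place K F', P.deg = 1) {t : F'} {T' : Set (Place K F')}
    (hval : ∀ P ∈ T', ∃ c : K, IsValueAt P t c)
    (hsimple : ∀ P ∈ T', ∀ c : K, IsValueAt P t c → P.ord (t - algebraMap K F' c) = 1)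
    (hinj : ∀ P ∈ T', ∀ P₁ ∈ T', ∀ c : K, IsValueAt P t c → IsValueAt P₁ t c → P = P₁)
    {I : Type*} [Fintype I] (Ts : I → Set (Place K F'')) (e : I → ℕ)
    (hsub : ∀ i, ∀ P ∈ Ts i, P.restrict F' ∈ T')
    (hdisj : ∀ i j P, P ∈ Ts i → P ∈ Ts j → i = j)
    (hcount : ∀ i, ∀ P' ∈ T', ∀ c : K, IsValueAt P' t c → ∀ D : Divisor K F'',
      (∀ P, D P = P.ord (algebraMap F' F'' (t - algebraMap K F' c))) →
      Finsupp.mapDomain (fun P => P ∈ Ts i) D True = (e i : ℤ))
    (hsum : ∑ i, e i = Module.finrank F' F'')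
    {P'' : Place K F''} (hP : P''.restrict F' ∈ T') : ∃! i, P'' ∈ Ts i := by
  obtain ⟨i, hi⟩ := exists_mem_sheet_of_count hdeg'' hdeg' hval hsimple hinj Ts e hsub hdisj hcount
    hsum hP
  exact ⟨i, hi, fun j hj => hdisj j i P'' hj hi⟩

/-- The preimage of the tube is the union of the sheets. -/
theorem preimage_eq_iUnion_of_count (hdeg'' : ∀ P : Place K F'', P.deg = 1)
    (hdeg' : ∀ P : Place K F', P.deg = 1) {t : F'} {T' : Set (Place K F')}
    (hval : ∀ P ∈ T', ∃ c : K, IsValueAt P t c)
    (hsimple : ∀ P ∈ T', ∀ c : K, IsValueAt P t c → P.ord (t - algebraMap K F' c) = 1)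
    (hinj : ∀ P ∈ T', ∀ P₁ ∈ T', ∀ c : K, IsValueAt P t c → IsValueAt P₁ t c → P = P₁)
    {I : Type*} [Fintype I] (Ts : I → Set (Place K F'')) (e : I → ℕ)
    (hsub : ∀ i, ∀ P ∈ Ts i, P.restrict F' ∈ T')
    (hdisj : ∀ i j P, P ∈ Ts i → P ∈ Ts j → i = j)
    (hcount : ∀ i, ∀ P' ∈ T', ∀ c : K, IsValueAt P' t c → ∀ D : Divisor K F'',
      (∀ P, D P = P.ord (algebraMap F' F'' (t - algebraMap K F' c))) →
      Finsupp.mapDomain (fun P => P ∈ Ts i) D True = (e i : ℤ))
    (hsum : ∑ i, e i = Module.finrank F' F'') :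
    {P'' : Place K F'' | P''.restrict F' ∈ T'} = ⋃ i, Ts i := by
  ext P''
  simp only [Set.mem_ofPred_eq, Set.mem_iUnion]
  constructor
  · intro hP
    exact exists_mem_sheet_of_count hdeg'' hdeg' hval hsimple hinj Ts e hsub hdisj hcount hsum hP
  · rintro ⟨i, hi⟩
    exact hsub i P'' hi

/-! ### the partition of the places of the cover -/

/-- **The partition of the places of `F''` into the tubes of the points of the cover.**
`r₀ : Place K F' → β₀` the reduction map of the base (`β₀` = points of the normalisation of the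
special fibre of the base), `t x'` a coordinate on the tube `{P' | r₀ P' = x'}` of the point `x'`
(parameter of a smooth chart, annulus coordinate of a node); `β''` the points of the cover,
`under : β'' → β₀`, `fib x'` the finitely many points over `x'` which have a non-empty tube
(annular places are attached to the source branches), `tube x''` the tube of `x''`, mapped into the
tube of `under x''` (`hsub`; for a tube constructed along another map: the identification lemma
`CoverPlaces.RegTube.isRedOf_under`), the tubes over one point pairwise disjoint (`hdisj`: distinct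
residue classes of a generator), `t x' - c` has `e x''` zeros on `tube x''` (`hcount`:
`count_of_smoothChart`, resp. Newton polygon on an annulus) and `∑_{x'' | x'} e x'' = [F'' : F']`.
Then the tubes `tube x''` form a partition of the places of `F''` (the fields `cover`,
`disjoint` of `BR3.MultiInput`), compatible with `r₀` (`under` is the map induced on the points
of the special fibres). -/
theorem partition_of_sheets (hdeg'' : ∀ P : Place K F'', P.deg = 1)
    (hdeg' : ∀ P : Place K F', P.deg = 1) {β₀ β'' : Type*} (r₀ : Place K F' → β₀)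
    (under : β'' → β₀) (tube : β'' → Set (Place K F'')) (t : β₀ → F') (fib : β₀ → Finset β'')
    (e : β'' → ℕ)
    (hval : ∀ P', ∃ c : K, IsValueAt P' (t (r₀ P')) c)
    (hsimple : ∀ P' (c : K), IsValueAt P' (t (r₀ P')) c →
      P'.ord (t (r₀ P') - algebraMap K F' c) = 1)
    (hinj : ∀ P' P₁', r₀ P₁' = r₀ P' → ∀ c : K, IsValueAt P' (t (r₀ P')) c →
      IsValueAt P₁' (t (r₀ P')) c → P' = P₁')
    (hfib : ∀ x' x'', x'' ∈ fib x' → under x'' = x')
    (hsub : ∀ x'' P, P ∈ tube x'' → r₀ (P.restrict F') = under x'')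
    (hdisj : ∀ x'' y'' P, under x'' = under y'' → P ∈ tube x'' → P ∈ tube y'' → x'' = y'')
    (hcount : ∀ x' x'', x'' ∈ fib x' → ∀ P', r₀ P' = x' → ∀ c : K, IsValueAt P' (t x') c →
      ∀ D : Divisor K F'', (∀ P, D P = P.ord (algebraMap F' F'' (t x' - algebraMap K F' c))) →
      Finsupp.mapDomain (fun P => P ∈ tube x'') D True = (e x'' : ℤ))
    (hsum : ∀ P', ∑ x'' ∈ fib (r₀ P'), e x'' = Module.finrank F' F'') :
    (∀ P, ∃ x'', P ∈ tube x'') ∧ (∀ P x'' y'', P ∈ tube x'' → P ∈ tube y'' → x'' = y'') ∧
      ∀ P x'', P ∈ tube x'' → r₀ (P.restrict F') = under x'' := by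
  refine ⟨fun P => ?_, fun P x'' y'' hx hy => ?_, fun P x'' h => hsub x'' P h⟩
  · set x' := r₀ (P.restrict F') with hx'
    let T' : Set (Place K F') := {P' | r₀ P' = x'}
    have hres := exists_mem_sheet_of_count (I := {x'' // x'' ∈ fib x'}) hdeg'' hdeg'
      (t := t x') (T' := T')
      (fun P' (hP' : r₀ P' = x') => by
        have := hval P'
        rwa [hP'] at this)
      (fun P' (hP' : r₀ P' = x') c hc => by
        have := hsimple P' c
        rw [hP'] at this
        exact this hc)
      (fun P' (hP' : r₀ P' = x') P₁' (hP₁' : r₀ P₁' = x') c hc hc₁ => by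
        have := hinj P' P₁' (hP₁'.trans hP'.symm) c
        rw [hP'] at this
        exact this hc hc₁)
      (fun i => tube i.1) (fun i => e i.1)
      (fun i P'' hP'' => by
        show r₀ (P''.restrict F') = x'
        rw [hsub i.1 P'' hP'', hfib x' i.1 i.2])
      (fun i j P'' hi hj => by
        apply Subtype.ext
        exact hdisj i.1 j.1 P'' ((hfib x' i.1 i.2).trans (hfib x' j.1 j.2).symm) hi hj)
      (fun i P' (hP' : r₀ P' = x') c hc D hD => hcount x' i.1 i.2 P' hP' c hc D hD)
      (by
        rw [← hsum (P.restrict F'), ← hx']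
        exact Finset.sum_coe_sort (fib x') e)
      (P'' := P) rfl
    obtain ⟨i, hi⟩ := hres
    exact ⟨i.1, hi⟩
  · exact hdisj x'' y'' P ((hsub x'' P hx).symm.trans (hsub y'' P hy)) hx hy

/-! ### the count on a sheet with a smooth chart -/

section Chart

omit [HasPrincipalDivisors K F''] [FundamentalIdentity K F' F''] [Algebra.IsIntegral F' F'']
  [IsScalarTower K F' F'']

variable {k Ft' Ft'' : Type*} [Field k] [Field Ft'] [Field Ft''] [Algebra k Ft'] [Algebra k Ft'']
  [Algebra Ft' Ft'']
  {A : ValuationSubring K} {π : A →+* k}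
  {O' : ValuationSubring F'} {res' : O' →+* Ft'} {O'' : ValuationSubring F''}
  {res'' : O'' →+* Ft''} {Q'' : Place k Ft''} {T'' : Set (Place K F'')}

/-- **The count on a sheet with a smooth chart**: if the sheet `T''` is the tube of a smooth chart
at the point `Q''` of the component `(O'', res'')` over `(O', res')`, then `t - c` (`t ∈ O'` with
nonzero reduction, `|c| < 1`) has `ord_{Q''} (res' t)` zeros on `T''` (= the ramification index of
`Q''` over the point under it when `res' t` is a uniformizer there). -/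
theorem count_of_smoothChart (C'' : Fermat.Agent.BR.S0.SmoothChart A O'' res'' Q'' T'')
    (hres'' : ∀ (a : K) (ha : a ∈ A) (h : algebraMap K F'' a ∈ O''),
      res'' ⟨algebraMap K F'' a, h⟩ = algebraMap k Ft'' (π ⟨a, ha⟩))
    (hπ0 : ∀ a : A, A.valuation (a : K) < 1 → π a = 0)
    (hunit : ∀ x : O'', res'' x ≠ 0 → IsUnit x)
    (hO : ∀ y ∈ O', algebraMap F' F'' y ∈ O'')
    (hresmap : ∀ (y : F') (hy : y ∈ O'),
      res'' ⟨algebraMap F' F'' y, hO y hy⟩ = algebraMap Ft' Ft'' (res' ⟨y, hy⟩))
    (hAO' : ∀ a ∈ A, algebraMap K F' a ∈ O')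
    (hres' : ∀ (a : K) (ha : a ∈ A),
      res' ⟨algebraMap K F' a, hAO' a ha⟩ = algebraMap k Ft' (π ⟨a, ha⟩))
    {t : F'} (ht : t ∈ O') (ht0 : res' ⟨t, ht⟩ ≠ 0) {e : ℕ}
    (he : Q''.ord (algebraMap Ft' Ft'' (res' ⟨t, ht⟩)) = (e : ℤ))
    {c : K} (hc : A.valuation c < 1) (D : Divisor K F'')
    (hD : ∀ P, D P = P.ord (algebraMap F' F'' (t - algebraMap K F' c))) :
    Finsupp.mapDomain (fun P => P ∈ T'') D True = (e : ℤ) := by
  have hcA : c ∈ A := (A.valuation_le_one_iff c).mp hc.le
  have hmem' : t - algebraMap K F' c ∈ O' := sub_mem ht (hAO' c hcA)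
  have hr' : res' ⟨t - algebraMap K F' c, hmem'⟩ = res' ⟨t, ht⟩ := by
    have e1 : (⟨t - algebraMap K F' c, hmem'⟩ : O') = ⟨t, ht⟩ - ⟨algebraMap K F' c, hAO' c hcA⟩ :=
      rfl
    rw [e1, map_sub, hres' c hcA, hπ0 ⟨c, hcA⟩ hc, map_zero, sub_zero]
  have hr'' : res'' ⟨algebraMap F' F'' (t - algebraMap K F' c), hO _ hmem'⟩ =
      algebraMap Ft' Ft'' (res' ⟨t, ht⟩) := by
    rw [hresmap _ hmem', hr']
  have hne : res'' ⟨algebraMap F' F'' (t - algebraMap K F' c), hO _ hmem'⟩ ≠ 0 := by
    rw [hr'']
    exact fun h => ht0 ((map_eq_zero_iff _ (algebraMap Ft' Ft'').injective).mp h)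
  have h1 := C''.conservation hres'' hπ0 hunit (fun P => P ∈ T'') True
    (fun P => ⟨fun h => eq_true h, fun h => of_eq_true h⟩)
    ⟨algebraMap F' F'' (t - algebraMap K F' c), hO _ hmem'⟩ hne D hD
  rw [h1, hr'', he]

end Chart

end Fermat.Agent.BR3.SheetCount
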