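import Mathlib
import Fermat.Agent.BR.SS.Setup
import Fermat.Agent.BR3.SheetCount
import Fermat.Agent.BR3.AnnulusCount

/-!
# Program C (S36), node (I7-PART): the place dictionary of the cover `S''`, against the fields
`cover` / `disjoint` of `BR3.MultiInput`

`S₀` a semistable setup of `F' / K` (think `S'ref_a`), `F'' / F'` finite (`[Algebra F' F'']` =
along `a`), `tube'' : β'' → Set (Place K F'')` the candidate tubes of the points of the cover
(`β'' = Σ w, Place k (Ft'' w)`; built by whatever means: `coverTube`s along `a`, Hensel sheets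
along `b`, annulus sheets).

* `SmoothSheets A O' res' Q' T' C' tube''` : the sheets over the tube `T'` of a smooth point of the
  base with chart `C'` (parameter `C'.t`): a finite set `fib` of points of the cover whose tubes
  lie over `T'`, are pairwise disjoint, carry `e x` zeros of `t - c` (`count`:
  `SheetCount.count_of_smoothChart`) and `∑ e x = [F'' : F']`;
  `SmoothSheets.exists_mem` : every place over `T'` lies in the tube of a point of `fib`;
* `NodeSheets A T' C' tube''` : the same over the tube of a node of the base with annulus core `C'`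
  (coordinate `C'.u`; `count`: `AnnulusCount.count_annulus_sheet`); `NodeSheets.exists_mem`;
* **`cover_of_sheets`** : sheets over every smooth point and every node of `S₀` ⟹ the field
  `cover` of `MultiInput` for `tube''`;
* **`disjoint_of_sheets`** : the field `disjoint`, from `under : β'' → Σ v, Place k (Ft₀ v)` with
  `tube'' x` over the tube of `under x` and disjointness over each point of the base;
* `r_restrict_eq_under` : for ANY `r''` with `r'' P = x ↔ P ∈ tube'' x` (`MultiInput.r_eq_iff`):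
  `S₀.r (P.restrict F') = under (r'' P)` — the map induced by `a` on the points of the special
  fibres (consumed by the push-forward statements C-G5M, gluing classes).
-/

set_option autoImplicit false

namespace Fermat.Agent.BR3.CoverDict

open AlgebraicCurve Fermat.Agent.Red Fermat.Agent.BR.SS Fermat.Agent.BR.S0 Fermat.Agent.BR.Circle
  Fermat.Agent.BR3.SheetCount

variable {K F' F'' : Type*} [Field K] [Field F'] [Field F''] [Algebra K F'] [Algebra K F'']
  [Algebra F' F''] [IsScalarTower K F' F''] [Algebra.IsIntegral F' F'']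
  [HasPrincipalDivisors K F''] [FundamentalIdentity K F' F'']

section Smooth

variable {k Ft' : Type*} [Field k] [Field Ft'] [Algebra k Ft']

/-- **The sheets over the tube of a smooth point of the base.** -/
structure SmoothSheets (A : ValuationSubring K) (O' : ValuationSubring F') (res' : O' →+* Ft')
    (Q' : Place k Ft') (T' : Set (Place K F')) (C' : SmoothChart A O' res' Q' T') {β'' : Type*}
    (tube'' : β'' → Set (Place K F'')) where
  /-- the points of the cover over the point -/
  fib : Finset β''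
  /-- the number of zeros of `t - c` on the tube of a point of the cover (= the ramification
  index of the point over the point of the base) -/
  e : β'' → ℕ
  sub : ∀ x ∈ fib, ∀ P ∈ tube'' x, P.restrict F' ∈ T'
  disj : ∀ x ∈ fib, ∀ y ∈ fib, ∀ P, P ∈ tube'' x → P ∈ tube'' y → x = y
  count : ∀ x ∈ fib, ∀ c : K, A.valuation c < 1 → ∀ D : Divisor K F'',
    (∀ P, D P = P.ord (algebraMap F' F'' (C'.t - algebraMap K F' c))) →
    Finsupp.mapDomain (fun P => P ∈ tube'' x) D True = (e x : ℤ)
  sum : ∑ x ∈ fib, e x = Module.finrank F' F''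

variable {A : ValuationSubring K} {O' : ValuationSubring F'} {res' : O' →+* Ft'}
  {Q' : Place k Ft'} {T' : Set (Place K F')} {C' : SmoothChart A O' res' Q' T'} {β'' : Type*}
  {tube'' : β'' → Set (Place K F'')}

/-- Every place over the tube of the smooth point lies in the tube of a point of the cover. -/
theorem SmoothSheets.exists_mem (X : SmoothSheets A O' res' Q' T' C' tube'')
    (hdeg'' : ∀ P : Place K F'', P.deg = 1) (hdeg' : ∀ P : Place K F', P.deg = 1)
    {P'' : Place K F''} (hP : P''.restrict F' ∈ T') : ∃ x ∈ X.fib, P'' ∈ tube'' x := by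
  have hlt : ∀ P' ∈ T', ∀ c : K, IsValueAt P' C'.t c → A.valuation c < 1 := by
    intro P' hP' c hc
    obtain ⟨c₁, h1, h2⟩ := C'.value P' hP'
    rw [hc.unique h2]
    exact h1
  obtain ⟨i, hi⟩ := exists_mem_sheet_of_count (I := {x // x ∈ X.fib}) hdeg'' hdeg'
    (t := C'.t) (T' := T')
    (fun P' hP' => by
      obtain ⟨c, -, hc⟩ := C'.value P' hP'
      exact ⟨c, hc⟩)
    C'.simple C'.inj (fun i => tube'' i.1) (fun i => X.e i.1)
    (fun i P hPi => X.sub i.1 i.2 P hPi)
    (fun i j P hi hj => Subtype.ext (X.disj i.1 i.2 j.1 j.2 P hi hj))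
    (fun i P' hP' c hc D hD => X.count i.1 i.2 c (hlt P' hP' c hc) D hD)
    (by
      rw [← X.sum]
      exact Finset.sum_coe_sort X.fib X.e)
    hP
  exact ⟨i.1, i.2, hi⟩

end Smooth

section Node

/-- **The sheets over the tube of a node of the base.** -/
structure NodeSheets (A : ValuationSubring K) (T' : Set (Place K F')) (C' : AnnulusCore A T')
    {β'' : Type*} (tube'' : β'' → Set (Place K F'')) where
  /-- the (source branches of the) nodes of the cover over the node -/
  fib : Finset β''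
  /-- the degree of the sheet over the annulus -/
  e : β'' → ℕ
  sub : ∀ x ∈ fib, ∀ P ∈ tube'' x, P.restrict F' ∈ T'
  disj : ∀ x ∈ fib, ∀ y ∈ fib, ∀ P, P ∈ tube'' x → P ∈ tube'' y → x = y
  count : ∀ x ∈ fib, ∀ c : K, A.valuation C'.thick < A.valuation c → A.valuation c < 1 →
    ∀ D : Divisor K F'', (∀ P, D P = P.ord (algebraMap F' F'' (C'.u - algebraMap K F' c))) →
    Finsupp.mapDomain (fun P => P ∈ tube'' x) D True = (e x : ℤ)
  sum : ∑ x ∈ fib, e x = Module.finrank F' F''

variable {A : ValuationSubring K} {T' : Set (Place K F')} {C' : AnnulusCore A T'} {β'' : Type*}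
  {tube'' : β'' → Set (Place K F'')}

/-- Every place over the tube of the node lies in the tube of a node of the cover. -/
theorem NodeSheets.exists_mem (X : NodeSheets A T' C' tube'')
    (hdeg'' : ∀ P : Place K F'', P.deg = 1) (hdeg' : ∀ P : Place K F', P.deg = 1)
    {P'' : Place K F''} (hP : P''.restrict F' ∈ T') : ∃ x ∈ X.fib, P'' ∈ tube'' x := by
  have hrange : ∀ P' ∈ T', ∀ c : K, IsValueAt P' C'.u c →
      A.valuation C'.thick < A.valuation c ∧ A.valuation c < 1 := by
    intro P' hP' c hc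
    obtain ⟨c₁, h0, h1, h2⟩ := C'.val_mem P' hP'
    rw [hc.unique h0]
    exact ⟨h1, h2⟩
  obtain ⟨i, hi⟩ := exists_mem_sheet_of_count (I := {x // x ∈ X.fib}) hdeg'' hdeg'
    (t := C'.u) (T' := T')
    (fun P' hP' => by
      obtain ⟨c, hc, -, -⟩ := C'.val_mem P' hP'
      exact ⟨c, hc⟩)
    (fun P' hP' c hc => by
      have := C'.simple P' hP'
      rwa [evalAt_eq_of_isValueAt hc] at this)
    (fun P' hP' P₁' hP₁' c hc hc₁ => by
      obtain ⟨h1, h2⟩ := hrange P' hP' c hc
      exact (C'.bij c h1 h2).unique ⟨hP', hc⟩ ⟨hP₁', hc₁⟩)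
    (fun i => tube'' i.1) (fun i => X.e i.1)
    (fun i P hPi => X.sub i.1 i.2 P hPi)
    (fun i j P hi hj => Subtype.ext (X.disj i.1 i.2 j.1 j.2 P hi hj))
    (fun i P' hP' c hc D hD =>
      X.count i.1 i.2 c (hrange P' hP' c hc).1 (hrange P' hP' c hc).2 D hD)
    (by
      rw [← X.sum]
      exact Finset.sum_coe_sort X.fib X.e)
    hP
  exact ⟨i.1, i.2, hi⟩

end Node

section Setup

variable {k : Type*} [Field k] {A : ValuationSubring K} {π : A →+* k} {ι₀ : Type*}
  {Ft₀ : ι₀ → Type*} [∀ v, Field (Ft₀ v)] [∀ v, Algebra k (Ft₀ v)] {ν₀ : Type*}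
  (S₀ : SemistableSetup (F := F') A π ι₀ Ft₀ ν₀) {β'' : Type*}
  (tube'' : β'' → Set (Place K F''))

/-- **The field `cover` of `BR3.MultiInput` for the cover**: sheets over every smooth point and
every node of the base. -/
theorem cover_of_sheets (hdeg'' : ∀ P : Place K F'', P.deg = 1)
    (hdeg' : ∀ P : Place K F', P.deg = 1)
    (hs : ∀ v (Q' : Place k (Ft₀ v)),
      (∀ e, (⟨v, Q'⟩ : Σ v, Place k (Ft₀ v)) ≠ ⟨S₀.src e, S₀.s₁ e⟩) →
      (∀ e, (⟨v, Q'⟩ : Σ v, Place k (Ft₀ v)) ≠ ⟨S₀.tgt e, S₀.s₂ e⟩) →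
      ∃ C' : SmoothChart A (S₀.O v) (S₀.res v) Q' {P | S₀.r P = ⟨v, Q'⟩},
        Nonempty (SmoothSheets A (S₀.O v) (S₀.res v) Q' {P | S₀.r P = ⟨v, Q'⟩} C' tube''))
    (hn : ∀ e, ∃ C' : AnnulusCore A {P | S₀.r P = ⟨S₀.src e, S₀.s₁ e⟩},
        Nonempty (NodeSheets A {P | S₀.r P = ⟨S₀.src e, S₀.s₁ e⟩} C' tube''))
    (P'' : Place K F'') : ∃ x, P'' ∈ tube'' x := by
  obtain ⟨⟨v, Q'⟩, hx⟩ : ∃ x, S₀.r (P''.restrict F') = x := ⟨_, rfl⟩
  by_cases hsrc : ∃ e, (⟨v, Q'⟩ : Σ v, Place k (Ft₀ v)) = ⟨S₀.src e, S₀.s₁ e⟩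
  · obtain ⟨e, he⟩ := hsrc
    obtain ⟨C', ⟨X⟩⟩ := hn e
    obtain ⟨x, -, hx'⟩ := X.exists_mem hdeg'' hdeg' (P'' := P'') (hx.trans he)
    exact ⟨x, hx'⟩
  · rw [not_exists] at hsrc
    have htgt : ∀ e, (⟨v, Q'⟩ : Σ v, Place k (Ft₀ v)) ≠ ⟨S₀.tgt e, S₀.s₂ e⟩ := by
      intro e he
      exact S₀.r_ne_tgt (P''.restrict F') e (hx.trans he)
    obtain ⟨C', ⟨X⟩⟩ := hs v Q' hsrc htgt
    obtain ⟨x, -, hx'⟩ := X.exists_mem hdeg'' hdeg' (P'' := P'') hx
    exact ⟨x, hx'⟩

omit [HasPrincipalDivisors K F''] [FundamentalIdentity K F' F''] in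
/-- **The field `disjoint` of `BR3.MultiInput` for the cover.** -/
theorem disjoint_of_sheets (under : β'' → Σ v, Place k (Ft₀ v))
    (hsub : ∀ x, ∀ P ∈ tube'' x, S₀.r (P.restrict F') = under x)
    (hdisj : ∀ x y P, under x = under y → P ∈ tube'' x → P ∈ tube'' y → x = y)
    (P : Place K F'') (x y : β'') (hx : P ∈ tube'' x) (hy : P ∈ tube'' y) : x = y :=
  hdisj x y P ((hsub x P hx).symm.trans (hsub y P hy)) hx hy

omit [HasPrincipalDivisors K F''] [FundamentalIdentity K F' F''] in
/-- The reduction map of the cover lies over the reduction map of the base. -/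
theorem r_restrict_eq_under (under : β'' → Σ v, Place k (Ft₀ v))
    (hsub : ∀ x, ∀ P ∈ tube'' x, S₀.r (P.restrict F') = under x)
    (r'' : Place K F'' → β'') (hr : ∀ P x, r'' P = x ↔ P ∈ tube'' x) (P : Place K F'') :
    S₀.r (P.restrict F') = under (r'' P) :=
  hsub (r'' P) P ((hr P (r'' P)).mp rfl)

end Setup

end Fermat.Agent.BR3.CoverDict
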