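import Fermat.Agent.BR3.CZeroChartCusp
import Fermat.Agent.BR3.CoverK.Fibre

/-!
# Program C, node SC6 (part 2d): the chart of `cZero` at EVERY non-crossing point, one function

`H : AtlasHyp (chartDataModular B hB hqM) (jx M q)` the atlas of `S'`, `Q` a place of `F̃_M` which
is not a crossing point of `et`.  By the dichotomy "`j̃` is regular at `Q` or `1/j̃` vanishes at
`Q`" (`finite_or_cusp`) the two charts `CZeroChart.cZeroChart` (finite points) and
`CZeroChartCusp.cZeroChartCusp` (cusps) are glued into ONE function: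

* `cZeroTubeAll B hB hqM H Q hnc : Set (Place Kb (Fb (M * q * q)))`
  (`cZeroTubeAll_of_finite`, `cZeroTubeAll_of_cusp`);
* `cZeroRegAll : RegChart B cZero.O cZero.res Q (cZeroTubeAll …)`,
  `cZeroSmoothAll := (cZeroRegAll …).chart` — the field `smZero` of `SDD.CaseInput` with
  `TH true Q := cZeroTubeAll …`;
* `restrictAlong_mem_of_mem_cZeroTubeAll` : the places of the tube lie over the tube of `Q` on `et`
  along `β₂`.
-/

set_option autoImplicit false
set_option linter.unusedSectionVars false
set_option linter.style.haveILetI false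

noncomputable section

/- S36 build-time patch: file-local shortcut instances. They only shorten instance search;
each is the instance that the search finds anyway (reducible, same terms after unfolding). -/
local instance (priority := 100000) Fermat.Agent.BR3.FastInst.instAlgFullC_CZeroChartAll
    {k : Type*} [Field k] (N : ℕ) :
    Algebra k ↥(ModularCurve.modularFunctionFieldFullC k N) := inferInstance
local instance (priority := 100000) Fermat.Agent.BR3.FastInst.instFieldFullC_CZeroChartAll
    {k : Type*} [Field k] (N : ℕ) :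
    Field ↥(ModularCurve.modularFunctionFieldFullC k N) := inferInstance
local instance (priority := 100000) Fermat.Agent.BR3.FastInst.instAlgLaurent_CZeroChartAll
    {k : Type*} [Field k] : Algebra k (LaurentSeries k) := inferInstance


namespace Fermat.Agent.BR3.CZeroChartAll

open ModularCurve AlgebraicCurve IsLocalRing Polynomial
open Fermat.Agent.X0 Fermat.Agent.Val Fermat.Agent.Red Fermat.Agent.BR.Centre
open Fermat.Agent.Hecke.AL Fermat.Agent.BR.TwoVal Fermat.Agent.BR.TwoValInst
open Fermat.Agent.BR.ConstRedTwo Fermat.Agent.BR.ResGen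
open Fermat.Agent.BR.S0
open Fermat.Agent.BR.S0.RedModular Fermat.Agent.BR.S0.RedHyp Fermat.Agent.BR.S0.PointDict
open Fermat.Agent.BR3.CoverK Fermat.Agent.BR3.FibreProd
open Fermat.Agent.BR3.CZeroRes Fermat.Agent.BR3.RegAtlas
open Fermat.Agent.BR3.CZeroChart Fermat.Agent.BR3.CZeroChartCusp

set_option synthInstance.maxHeartbeats 400000

variable {M q : ℕ} [NeZero M] [hqF : Fact q.Prime]
variable (B : ValuationSubring Kb) (hB : B.LiesOverPrime q) (hqM : ¬ q ∣ M)

local notation "kB" => IsLocalRing.ResidueField B
local notation "FtM" => modularFunctionFieldFullC (IsLocalRing.ResidueField B) M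

/-- a point at which `j̃` is not regular is a cusp -/
theorem cusp_of_not_finite {Q : Place kB FtM} (hj : jFullC kB M ∉ Q.toValuationSubring) :
    Q.adicValuation ((jFullC kB M)⁻¹) < 1 :=
  Fermat.Agent.BR.S0.SmoothLevelsGlue.adicValuation_lt_one_of_mul_eq_one
    (mul_inv_cancel₀ (Fermat.Agent.BR3.CuspSheet.jFullC_ne_zero' B)) hj

/-- **The dichotomy**: a point of `F̃_M` is finite or a cusp. -/
theorem finite_or_cusp (Q : Place kB FtM) :
    jFullC kB M ∈ Q.toValuationSubring ∨ Q.adicValuation ((jFullC kB M)⁻¹) < 1 := by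
  by_cases hj : jFullC kB M ∈ Q.toValuationSubring
  · exact Or.inl hj
  · exact Or.inr (cusp_of_not_finite B hj)

open Classical in
/-- **The tube of the point `Q` of `cZero`** (`Q` not a crossing point of `et`), built along
`β₂`. -/
def cZeroTubeAll (H : AtlasHyp (chartDataModular B hB hqM) (jx M q)) (Q : Place kB FtM)
    (hnc : ∀ e : Crossing (chartDataModular B hB hqM), Q ≠ z₂ (chartDataModular B hB hqM) e) :
    Set (Place Kb (Fb (M * q * q))) :=
  if hj : jFullC kB M ∈ Q.toValuationSubring then cZeroTube B hB hqM H Q hnc hj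
  else cZeroTubeCusp B hB hqM H Q

theorem cZeroTubeAll_of_finite (H : AtlasHyp (chartDataModular B hB hqM) (jx M q))
    (Q : Place kB FtM)
    (hnc : ∀ e : Crossing (chartDataModular B hB hqM), Q ≠ z₂ (chartDataModular B hB hqM) e)
    (hj : jFullC kB M ∈ Q.toValuationSubring) :
    cZeroTubeAll B hB hqM H Q hnc = cZeroTube B hB hqM H Q hnc hj := by
  rw [cZeroTubeAll, dif_pos hj]

theorem cZeroTubeAll_of_cusp (H : AtlasHyp (chartDataModular B hB hqM) (jx M q))
    (Q : Place kB FtM)
    (hnc : ∀ e : Crossing (chartDataModular B hB hqM), Q ≠ z₂ (chartDataModular B hB hqM) e)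
    (hj : jFullC kB M ∉ Q.toValuationSubring) :
    cZeroTubeAll B hB hqM H Q hnc = cZeroTubeCusp B hB hqM H Q := by
  rw [cZeroTubeAll, dif_neg hj]

open Classical in
/-- **The regular chart of `cZero` at every non-crossing point**, built along `β₂` over the
charts of `et` of `S'`. -/
def cZeroRegAll (H : AtlasHyp (chartDataModular B hB hqM) (jx M q)) (Q : Place kB FtM)
    (hnc : ∀ e : Crossing (chartDataModular B hB hqM), Q ≠ z₂ (chartDataModular B hB hqM) e) :
    RegChart B (constRedCZero B hB hqM).O (constRedCZero B hB hqM).res Q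
      (cZeroTubeAll B hB hqM H Q hnc) :=
  if hj : jFullC kB M ∈ Q.toValuationSubring then
    Fibre.regChartOfEq (cZeroTubeAll_of_finite B hB hqM H Q hnc hj)
      (cZeroChart B hB hqM H Q hnc hj)
  else
    Fibre.regChartOfEq (cZeroTubeAll_of_cusp B hB hqM H Q hnc hj)
      (cZeroChartCusp B hB hqM H Q (cusp_of_not_finite B hj))

/-- **The smooth chart of `cZero` at every non-crossing point** = the field `smZero` of
`SDD.CaseInput` (with `TH true Q := cZeroTubeAll …`). -/
def cZeroSmoothAll (H : AtlasHyp (chartDataModular B hB hqM) (jx M q)) (Q : Place kB FtM)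
    (hnc : ∀ e : Crossing (chartDataModular B hB hqM), Q ≠ z₂ (chartDataModular B hB hqM) e) :
    SmoothChart B (constRedCZero B hB hqM).O (constRedCZero B hB hqM).res Q
      (cZeroTubeAll B hB hqM H Q hnc) :=
  (cZeroRegAll B hB hqM H Q hnc).chart

/-- the places of the tube lie over the tube of `Q` on `et` (along `β₂`) -/
theorem restrictAlong_mem_of_mem_cZeroTubeAll
    (H : AtlasHyp (chartDataModular B hB hqM) (jx M q)) (Q : Place kB FtM)
    (hnc : ∀ e : Crossing (chartDataModular B hB hqM), Q ≠ z₂ (chartDataModular B hB hqM) e)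
    (hβ : (beta2 M q).toRingHom.IsIntegral) {P : Place Kb (Fb (M * q * q))}
    (hP : P ∈ cZeroTubeAll B hB hqM H Q hnc) :
    H.r (P.restrictAlong (beta2 M q) hβ) = ⟨1, Q⟩ := by
  by_cases hj : jFullC kB M ∈ Q.toValuationSubring
  · rw [cZeroTubeAll_of_finite B hB hqM H Q hnc hj] at hP
    exact restrictAlong_mem_of_mem_cZeroTube B hB hqM H Q hnc hj hβ hP
  · rw [cZeroTubeAll_of_cusp B hB hqM H Q hnc hj] at hP
    exact restrictAlong_mem_of_mem_cZeroTubeCusp B hB hqM H Q hβ hP

/-- the parameter of the chart is the parameter of the chart of `et`, pulled back by `β₂` -/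
theorem cZeroRegAll_t (H : AtlasHyp (chartDataModular B hB hqM) (jx M q)) (Q : Place kB FtM)
    (hnc : ∀ e : Crossing (chartDataModular B hB hqM), Q ≠ z₂ (chartDataModular B hB hqM) e) :
    (cZeroRegAll B hB hqM H Q hnc).chart.t =
      beta2 M q (regChartEt B hB hqM H Q hnc).chart.t := by
  unfold cZeroRegAll
  split_ifs with hj
  · rw [Fibre.regChartOfEq_t]
    rfl
  · rw [Fibre.regChartOfEq_t]
    rfl

end Fermat.Agent.BR3.CZeroChartAll
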