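import Fermat.Agent.BR3.CInfChartCusp
import Fermat.Agent.BR3.CuspSheet.Chart
import Fermat.Agent.BR3.CZeroChartAll

/-!
# Program C, nodes SC1 + SC2: the chart of `cInf` at EVERY non-crossing point, one function

`H : AtlasHyp (chartDataModular B hB hqM) (jx M q)` the atlas of `S'`, `Q` a place of `F̃_M` which
is not a crossing point of `can`.  By the dichotomy "`j̃` is regular at `Q` or `1/j̃` vanishes at
`Q`" (`CZeroChartAll.finite_or_cusp`) the two charts `CInfChart.cInfChartAt` (finite points) and
`CuspSheet.cInfChartCusp` (cusps) are glued into ONE function: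

* `cInfTubeAll B hB hqM H Q hnc : Set (Place Kb (Fb (M * q * q)))`
  (`cInfTubeAll_of_finite`, `cInfTubeAll_of_cusp`);
* `cInfRegAll : RegChart B cInf.O cInf.res Q (cInfTubeAll …)`,
  `cInfSmoothAll := (cInfRegAll …).chart` — the field `smInf` of `SDD.CaseInput` with
  `TH false Q := cInfTubeAll …`;
* `restrictAlong_mem_of_mem_cInfTubeAll` : the places of the tube lie over the tube of `Q` on `can`
  along `α₂`;
* `cInfRegAll_t` : the parameter is the parameter of `RegAtlas.regChartCan`, pulled back by `α₂`.
-/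

set_option autoImplicit false
set_option linter.unusedSectionVars false
set_option linter.style.haveILetI false

noncomputable section

/- S36 build-time patch: file-local shortcut instances. They only shorten instance search;
each is the instance that the search finds anyway (reducible, same terms after unfolding). -/
local instance (priority := 100000) Fermat.Agent.BR3.FastInst.instAlgFullC_CInfChartAll
    {k : Type*} [Field k] (N : ℕ) :
    Algebra k ↥(ModularCurve.modularFunctionFieldFullC k N) := inferInstance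
local instance (priority := 100000) Fermat.Agent.BR3.FastInst.instFieldFullC_CInfChartAll
    {k : Type*} [Field k] (N : ℕ) :
    Field ↥(ModularCurve.modularFunctionFieldFullC k N) := inferInstance
local instance (priority := 100000) Fermat.Agent.BR3.FastInst.instAlgLaurent_CInfChartAll
    {k : Type*} [Field k] : Algebra k (LaurentSeries k) := inferInstance


namespace Fermat.Agent.BR3.CInfChartAll

open ModularCurve AlgebraicCurve IsLocalRing Polynomial
open Fermat.Agent.X0 Fermat.Agent.Val Fermat.Agent.Red Fermat.Agent.BR.Centre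
open Fermat.Agent.Hecke.AL Fermat.Agent.BR.TwoVal Fermat.Agent.BR.TwoValInst
open Fermat.Agent.BR.ConstRedTwo Fermat.Agent.BR.ResGen
open Fermat.Agent.BR.S0
open Fermat.Agent.BR.S0.RedModular Fermat.Agent.BR.S0.RedHyp Fermat.Agent.BR.S0.PointDict
open Fermat.Agent.BR3.CoverK Fermat.Agent.BR3.FibreProd
open Fermat.Agent.BR3.CInfRes Fermat.Agent.BR3.RegAtlas
open Fermat.Agent.BR3.CInfChart Fermat.Agent.BR3.CZeroChartAll

set_option synthInstance.maxHeartbeats 400000

variable {M q : ℕ} [NeZero M] [hqF : Fact q.Prime]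
variable (B : ValuationSubring Kb) (hB : B.LiesOverPrime q) (hqM : ¬ q ∣ M)

local notation "kB" => IsLocalRing.ResidueField B
local notation "FtM" => modularFunctionFieldFullC (IsLocalRing.ResidueField B) M

open Classical in
/-- **The tube of the point `Q` of `cInf`** (`Q` not a crossing point of `can`), built along
`α₂`. -/
def cInfTubeAll (H : AtlasHyp (chartDataModular B hB hqM) (jx M q)) (Q : Place kB FtM)
    (hnc : ∀ e : Crossing (chartDataModular B hB hqM), Q ≠ z₁ (chartDataModular B hB hqM) e) :
    Set (Place Kb (Fb (M * q * q))) :=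
  if hj : jFullC kB M ∈ Q.toValuationSubring then cInfTube B hB hqM H Q hnc hj
  else cInfTubeCusp B hB hqM H Q

theorem cInfTubeAll_of_finite (H : AtlasHyp (chartDataModular B hB hqM) (jx M q))
    (Q : Place kB FtM)
    (hnc : ∀ e : Crossing (chartDataModular B hB hqM), Q ≠ z₁ (chartDataModular B hB hqM) e)
    (hj : jFullC kB M ∈ Q.toValuationSubring) :
    cInfTubeAll B hB hqM H Q hnc = cInfTube B hB hqM H Q hnc hj := by
  rw [cInfTubeAll, dif_pos hj]

theorem cInfTubeAll_of_cusp (H : AtlasHyp (chartDataModular B hB hqM) (jx M q))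
    (Q : Place kB FtM)
    (hnc : ∀ e : Crossing (chartDataModular B hB hqM), Q ≠ z₁ (chartDataModular B hB hqM) e)
    (hj : jFullC kB M ∉ Q.toValuationSubring) :
    cInfTubeAll B hB hqM H Q hnc = cInfTubeCusp B hB hqM H Q := by
  rw [cInfTubeAll, dif_neg hj]

/-- the chart of `cInf` at a finite non-crossing point, all hypotheses discharged -/
def cInfRegFinite (H : AtlasHyp (chartDataModular B hB hqM) (jx M q)) (Q : Place kB FtM)
    (hnc : ∀ e : Crossing (chartDataModular B hB hqM), Q ≠ z₁ (chartDataModular B hB hqM) e)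
    (hj : jFullC kB M ∈ Q.toValuationSubring) :
    RegChart B (constRedCInf B hB hqM).O (constRedCInf B hB hqM).res Q
      (cInfTube B hB hqM H Q hnc hj) :=
  cInfChartAt B hB hqM H Q hnc hj (ord_jBar_nonneg_zero B hB hqM H hj)
    (ord_jq'_nonneg_zero B hB hqM H hj)
    (Fermat.Agent.BR3.VertSheet.arch_of_isRankOne (Fermat.Agent.Val.isRankOne B hB))

/-- the chart of `cInf` at a cusp, all hypotheses discharged, on `cInfTubeCusp` -/
def cInfRegCusp (H : AtlasHyp (chartDataModular B hB hqM) (jx M q)) (Q : Place kB FtM)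
    (hnc : ∀ e : Crossing (chartDataModular B hB hqM), Q ≠ z₁ (chartDataModular B hB hqM) e)
    (hQ : Q.adicValuation ((jFullC kB M)⁻¹) < 1) :
    RegChart B (constRedCInf B hB hqM).O (constRedCInf B hB hqM).res Q
      (cInfTubeCusp B hB hqM H Q) :=
  Fermat.Agent.BR3.CuspSheet.cInfChartCusp B hB hqM H Q hnc hQ
    (Fermat.Agent.BR3.VertSheet.arch_of_isRankOne (Fermat.Agent.Val.isRankOne B hB))

open Classical in
/-- **The regular chart of `cInf` at every non-crossing point**, built along `α₂` over the
charts of `can` of `S'`. -/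
def cInfRegAll (H : AtlasHyp (chartDataModular B hB hqM) (jx M q)) (Q : Place kB FtM)
    (hnc : ∀ e : Crossing (chartDataModular B hB hqM), Q ≠ z₁ (chartDataModular B hB hqM) e) :
    RegChart B (constRedCInf B hB hqM).O (constRedCInf B hB hqM).res Q
      (cInfTubeAll B hB hqM H Q hnc) :=
  if hj : jFullC kB M ∈ Q.toValuationSubring then
    Fibre.regChartOfEq (cInfTubeAll_of_finite B hB hqM H Q hnc hj)
      (cInfRegFinite B hB hqM H Q hnc hj)
  else
    Fibre.regChartOfEq (cInfTubeAll_of_cusp B hB hqM H Q hnc hj)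
      (cInfRegCusp B hB hqM H Q hnc (cusp_of_not_finite B hj))

/-- **The smooth chart of `cInf` at every non-crossing point** = the field `smInf` of
`SDD.CaseInput` (with `TH false Q := cInfTubeAll …`). -/
def cInfSmoothAll (H : AtlasHyp (chartDataModular B hB hqM) (jx M q)) (Q : Place kB FtM)
    (hnc : ∀ e : Crossing (chartDataModular B hB hqM), Q ≠ z₁ (chartDataModular B hB hqM) e) :
    SmoothChart B (constRedCInf B hB hqM).O (constRedCInf B hB hqM).res Q
      (cInfTubeAll B hB hqM H Q hnc) :=
  (cInfRegAll B hB hqM H Q hnc).chart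

/-- the places of the tube lie over the tube of `Q` on `can` (restriction along the algebra
structure of `α₂`) -/
theorem restrict_mem_of_mem_cInfTubeAll
    (H : AtlasHyp (chartDataModular B hB hqM) (jx M q)) (Q : Place kB FtM)
    (hnc : ∀ e : Crossing (chartDataModular B hB hqM), Q ≠ z₁ (chartDataModular B hB hqM) e)
    {P : Place Kb (Fb (M * q * q))} (hP : P ∈ cInfTubeAll B hB hqM H Q hnc) :
    letI := algebraAlong (alpha2 M q)
    haveI := isScalarTower_along (alpha2 M q)
    haveI : Module.Finite (Fb (M * q)) (Fb (M * q * q)) :=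
      Fermat.Agent.Hecke.finiteAlong_heckeAlphaBar (M * q) q
    H.r (P.restrict (Fb (M * q))) = ⟨0, Q⟩ := by
  by_cases hj : jFullC kB M ∈ Q.toValuationSubring
  · rw [cInfTubeAll_of_finite B hB hqM H Q hnc hj] at hP
    exact restrict_mem_of_mem_cInfTube B hB hqM H Q hnc hj hP
  · rw [cInfTubeAll_of_cusp B hB hqM H Q hnc hj] at hP
    exact restrict_mem_of_mem_cInfTubeCusp B hB hqM H Q hP

/-- the same with `Place.restrictAlong` -/
theorem restrictAlong_mem_of_mem_cInfTubeAll
    (H : AtlasHyp (chartDataModular B hB hqM) (jx M q)) (Q : Place kB FtM)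
    (hnc : ∀ e : Crossing (chartDataModular B hB hqM), Q ≠ z₁ (chartDataModular B hB hqM) e)
    (hα : (alpha2 M q).toRingHom.IsIntegral) {P : Place Kb (Fb (M * q * q))}
    (hP : P ∈ cInfTubeAll B hB hqM H Q hnc) :
    H.r (P.restrictAlong (alpha2 M q) hα) = ⟨0, Q⟩ :=
  restrict_mem_of_mem_cInfTubeAll B hB hqM H Q hnc hP

/-- the places of the tube of a finite point: those over the tube of `can` at which
`Θ = β₂ T ≡ u^q` -/
theorem mem_cInfTubeAll_iff_of_finite (H : AtlasHyp (chartDataModular B hB hqM) (jx M q))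
    (Q : Place kB FtM)
    (hnc : ∀ e : Crossing (chartDataModular B hB hqM), Q ≠ z₁ (chartDataModular B hB hqM) e)
    (hj : jFullC kB M ∈ Q.toValuationSubring) (hα : (alpha2 M q).toRingHom.IsIntegral)
    {P : Place Kb (Fb (M * q * q))} :
    P ∈ cInfTubeAll B hB hqM H Q hnc ↔
      H.r (P.restrictAlong (alpha2 M q) hα) = ⟨0, Q⟩ ∧
        ∃ c : Kb, IsValueAt P (Fermat.Agent.BR3.CoverSheetInf.Theta M q) c ∧
          B.valuation (c - (uInf B hB hqM Q hnc hj ^ q : B)) < 1 := by
  rw [cInfTubeAll_of_finite B hB hqM H Q hnc hj]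
  exact Iff.rfl

/-- the places of the tube of a cusp: those over the tube of `can` at which `θ∞ ≡ 1` -/
theorem mem_cInfTubeAll_iff_of_cusp (H : AtlasHyp (chartDataModular B hB hqM) (jx M q))
    (Q : Place kB FtM)
    (hnc : ∀ e : Crossing (chartDataModular B hB hqM), Q ≠ z₁ (chartDataModular B hB hqM) e)
    (hj : jFullC kB M ∉ Q.toValuationSubring) (hα : (alpha2 M q).toRingHom.IsIntegral)
    {P : Place Kb (Fb (M * q * q))} :
    P ∈ cInfTubeAll B hB hqM H Q hnc ↔
      H.r (P.restrictAlong (alpha2 M q) hα) = ⟨0, Q⟩ ∧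
        ∃ c : Kb, IsValueAt P (Fermat.Agent.BR3.CuspSheet.thetaInf M q) c ∧
          B.valuation (c - ((1 : B) : Kb)) < 1 := by
  rw [cInfTubeAll_of_cusp B hB hqM H Q hnc hj]
  exact Iff.rfl

/-- the parameter of the chart is the parameter of the chart of `can`, pulled back by `α₂` -/
theorem cInfRegAll_t (H : AtlasHyp (chartDataModular B hB hqM) (jx M q)) (Q : Place kB FtM)
    (hnc : ∀ e : Crossing (chartDataModular B hB hqM), Q ≠ z₁ (chartDataModular B hB hqM) e) :
    (cInfRegAll B hB hqM H Q hnc).chart.t =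
      alpha2 M q (regChartCan B hB hqM H Q hnc).chart.t := by
  unfold cInfRegAll
  split_ifs with hj
  · rw [Fibre.regChartOfEq_t]
    rfl
  · rw [Fibre.regChartOfEq_t]
    rfl

end Fermat.Agent.BR3.CInfChartAll
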