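import Fermat.Agent.BR3.GaussEmbApprox
import Fermat.Agent.X0.Psi
import Fermat.Agent.BR3.FibreProd

/-!
# Program C, node A10 (APPROX), part 3: best approximation for the Gauss valuation of `F̄_N` at
**any** level and **any** prime

`gaussValQbar B N hℓ hB` is the Gauss valuation subring of `F̄_N = Fb N` (expansion at `∞`) for a
valuation subring `B ⊂ ℚ̄` over a prime `ℓ`; `ℓ ∣ N` is allowed.  `approx_gaussValQbar` is the
field `approx` of `Val.ConstRed` for `(gaussValQbar, gaussResQbar)`, from `GaussEmb.approx_emb`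
with `σ :=` the inclusion `Fb N → ℚ̄((q))`, `R := Rb N = ℚ̄[j(q^d) : d ∣ N]`.

In particular for `N = M * q * q`, `ℓ = q`: the component `cInf = w1 = O1 (M * q) B hB` of the
special fibre of `X₀(Mq²)`.
-/

set_option autoImplicit false
set_option linter.style.haveILetI false
set_option linter.unusedSectionVars false

noncomputable section

set_option synthInstance.maxHeartbeats 400000

namespace Fermat.Agent.BR3.GaussApproxAny

open Fermat.Agent.Val ModularCurve AlgebraicCurve Fermat.Agent.X0 Fermat.Agent.BR3.GaussEmb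

variable (B : ValuationSubring (AlgebraicClosure ℚ)) (N : ℕ) [NeZero N] {ℓ : ℕ} (hℓ : ℓ ≠ 0)
  (hB : B.LiesOverPrime ℓ)

/-- the inclusion `Fb N → ℚ̄((q))` -/
abbrev incl : Fb N →+* LaurentSeries Kb := algebraMap (Fb N) (LaurentSeries Kb)

theorem incl_apply (x : Fb N) : incl N x = (x : LaurentSeries Kb) := rfl

include hℓ hB in
theorem hasContent_incl (x : Fb N) (hx : x ≠ 0) :
    ∃ c, HasContent B (IsLocalRing.residue B) (incl N x) c :=
  haveI := algebraIsAlgebraic_rat_algebraicClosure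
  hasContent_of_mem_bar B (IsLocalRing.residue B) N hℓ hB x.2 fun h => hx (Subtype.ext h)

theorem incl_algebraMap (c : Kb) : incl N (algebraMap Kb (Fb N) c) = HahnSeries.C c := by
  show algebraMap Kb (LaurentSeries Kb) c = _
  rw [algebraMap_laurentSeries_eq_single]
  rfl

/-- the image of `Rb N` consists of `ℚ̄`-combinations of series over `ℤ_(ℓ)` -/
theorem incl_mem_intSpan {x : Fb N} (hx : x ∈ Rb N) :
    incl N x ∈ intSpan B (locKToA B (⊥ : IntermediateField ℚ Kb)) := by
  let σA : Fb N →ₐ[Kb] LaurentSeries Kb :=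
    { incl N with
      commutes' := fun c => by
        show incl N (algebraMap Kb (Fb N) c) = _
        rw [incl_algebraMap, algebraMap_laurentSeries_eq_single]
        rfl }
  have hle : Rb N ≤ (intSpan B (locKToA B (⊥ : IntermediateField ℚ Kb))).comap σA := by
    rw [Rb, Algebra.adjoin_le_iff]
    rintro y ⟨d, hd0, hd, rfl⟩
    show incl N (jBarD N d hd) ∈ intSpan B (locKToA B (⊥ : IntermediateField ℚ Kb))
    rw [incl_apply, coe_jBarD, coeffEmb_jqN,
      ← oIota_jqNModC B (locKToA B (⊥ : IntermediateField ℚ Kb))]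
    exact oIota_mem_intSpan B _ _
  exact hle hx

/-- **Best approximation for the Gauss valuation of `F̄_N`**, any level, any prime. -/
theorem approx_gaussValQbar (V : Submodule Kb (Fb N)) (hV : Module.Finite Kb V)
    (y : Fb N) (hy : y ∉ V) :
    ∃ w ∈ V, ∃ c : Kb, c ≠ 0 ∧ ∃ h : c • (y - w) ∈ gaussValQbar B N hℓ hB,
      ∀ z : gaussValQbar B N hℓ hB, (z : Fb N) ∈ V →
        gaussResQbar B N hℓ hB z ≠ gaussResQbar B N hℓ hB ⟨c • (y - w), h⟩ := by
  haveI := algebraIsAlgebraic_rat_algebraicClosure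
  haveI := locK_isDVR B (⊥ : IntermediateField ℚ Kb) hℓ hB
  haveI : IsPrincipalIdealRing (locK B (⊥ : IntermediateField ℚ Kb)) :=
    IsDiscreteValuationRing.toIsPrincipalIdealRing
  haveI : IsNoetherianRing (locK B (⊥ : IntermediateField ℚ Kb)) :=
    PrincipalIdealRing.isNoetherianRing
  obtain ⟨w, hw, c, hc, h, hne⟩ := approx_emb B (IsLocalRing.residue B) (incl N)
    (hasContent_incl B N hℓ hB) (locKToA B (⊥ : IntermediateField ℚ Kb))
    (residue_eq_zero_of_mem_maximalIdeal B) (incl_algebraMap N) (Rb N)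
    (fun x hx => incl_mem_intSpan B N hx)
    (fun y => by
      obtain ⟨a, b, hb, rfl⟩ := IsFractionRing.div_surjective (A := Rb N) y
      have hb0 : (b : Fb N) ≠ 0 := fun h0 => nonZeroDivisors.ne_zero hb (Subtype.ext h0)
      refine ⟨a, b, fun h0 => hb0 (by rw [h0]; rfl), ?_⟩
      show ((a : Fb N) / (b : Fb N)) * (b : Fb N) = (a : Fb N)
      field_simp) V hV y hy
  exact ⟨w, hw, c, hc, h, fun z hz => hne ⟨z, z.2⟩ hz⟩

/-! ### the component `cInf = w1` of `X₀(Mq²)` -/

section W1

open Fermat.Agent.BR3.FibreProd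

variable {M q : ℕ} [NeZero M] [hq : Fact q.Prime]
variable (B : ValuationSubring (AlgebraicClosure ℚ)) (hB : B.LiesOverPrime q)

/-- **Best approximation for `w1`**, the Gauss valuation of `F̄_{Mq²}` at `∞`. -/
theorem approx_w1 (V : Submodule Kb (Fb (M * q * q))) (hV : Module.Finite Kb V)
    (y : Fb (M * q * q)) (hy : y ∉ V) :
    ∃ w ∈ V, ∃ c : Kb, c ≠ 0 ∧ ∃ h : c • (y - w) ∈ w1 M B hB,
      ∀ z : w1 M B hB, (z : Fb (M * q * q)) ∈ V →
        resw1 M B hB z ≠ resw1 M B hB ⟨c • (y - w), h⟩ :=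
  approx_gaussValQbar B (M * q * q) hq.out.ne_zero hB V hV y hy

end W1

end Fermat.Agent.BR3.GaussApproxAny
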