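import Fermat.Agent.BR3.FibreProdMidFull
import Fermat.Agent.BR3.GaussApproxAny
import Fermat.Agent.BR.ConstRedTwoFinal

/-!
# Program C, node I7 / A6-K: the component `cInf = w₁` of `X₀(Mq²)` has residue field `F̃_M`

`F₁ = Fb (M * q)`, `F₂ = Fb (M * q * q)`, `α₂ : F₁ → F₂`; `w₁ = O1 (M * q) B hB` is the Gauss
valuation subring of `F₂` at `∞`, `O1 M B hB` that of `F₁` (the component `can`).

* `exists_alpha2_sub_mem_nonunits` : **`f(w₁ | can) = 1`**: every element of `w₁` is congruent
  modulo `𝔪_{w₁}` to an element of `α₂ (O1)` (from helper6's `setupAll`, `card_mid_mul` and the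
  fundamental inequality `MultiVal.Setup.sum_card_le`);
* `resw1_mem_kappaCan`, `resw1_mem_fullC` : the residues of `w₁` lie in
  `F̃_M = modularFunctionFieldFullC k M`;
* `resInf : w₁ →+* F̃_M`, `coe_resInf`, `resInf_surjective`, `resInf_eq_zero_iff`,
  `resInf_eq_zero_iff_mem_nonunits`, `resInf_alpha2` (compatibility with the residue map of
  `constRedW1`), `resInf_algebraMap`;
* `constRedCInf : ConstRed (F := Fb (M * q * q)) (Ft := F̃_M) B (residue B)` with `.O = w₁`
  (`approx` := helper1's `GaussApproxAny.approx_w1`).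
-/

set_option autoImplicit false
set_option linter.style.haveILetI false
set_option linter.unusedSectionVars false

noncomputable section

set_option synthInstance.maxHeartbeats 400000

namespace Fermat.Agent.BR3.CInfRes

open ModularCurve AlgebraicCurve HahnSeries Polynomial Fermat.Agent.X0 Fermat.Agent.Val
open Fermat.Agent.Hecke.AL Fermat.Agent.BR.TwoVal Fermat.Agent.BR.ResGen
open Fermat.Agent.BR.TwoValInst Fermat.Agent.BR.ConstRedTwo Fermat.Agent.BR3.FibreProd

variable {M q : ℕ} [NeZero M] [hq : Fact q.Prime]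
variable (B : ValuationSubring (AlgebraicClosure ℚ)) (hB : B.LiesOverPrime q) (hqM : ¬ q ∣ M)

local notation "kB" => IsLocalRing.ResidueField B
local notation "FtM" => modularFunctionFieldFullC (IsLocalRing.ResidueField B) M

section Count

variable {ζ : Kbˣ} (hζ : IsPrimitiveRoot ζ q)

/-- residue degrees with `2` at `w₁` -/
def fAll2 : Option (Mid B hB hqM hζ) → ℕ
  | none => 2
  | some _ => fMid M B hB

/-- the families with `![1, x]` at `w₁` -/
def xAll2 (x : Fb (M * q * q)) :
    ∀ v : Option (Mid B hB hqM hζ), Fin (fAll2 B hB hqM hζ v) → Fb (M * q * q)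
  | none => ![1, x]
  | some i => xAll B hB hqM hζ (some i)

theorem sum_fAll2 :
    ∑ v, Fintype.card (Fin (fAll2 B hB hqM hζ v)) =
      2 + Fintype.card (Mid B hB hqM hζ) * fMid M B hB := by
  rw [Fintype.sum_option]
  show Fintype.card (Fin 2) + ∑ _x : Mid B hB hqM hζ, Fintype.card (Fin (fMid M B hB)) = _
  rw [Fintype.card_fin, Finset.sum_const, Fintype.card_fin, Finset.card_univ, smul_eq_mul]

end Count

include hqM in
/-- **`f(w₁ | can) = 1`**: every element of `w₁` is congruent modulo the maximal ideal to an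
element of `α₂ (O1)`. -/
theorem exists_alpha2_sub_mem_nonunits {x : Fb (M * q * q)} (hx : x ∈ w1 M B hB) :
    ∃ c ∈ O1 M B hB, x - alpha2 M q c ∈ (w1 M B hB).nonunits := by
  obtain ⟨ζ₀, hζ₀⟩ := HasEnoughRootsOfUnity.exists_primitiveRoot Kb q
  have hζ : IsPrimitiveRoot (hζ₀.isUnit (NeZero.ne q)).unit q := by
    rw [← IsPrimitiveRoot.coe_units_iff]
    exact hζ₀
  letI := algebraAlong (alpha2 M q)
  haveI := finiteDimensional_alpha2 (M := M) (q := q)
  have S := setupAll B hB hqM hζ
  by_contra hcon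
  push Not at hcon
  have hind : ResIndep (O1 M B hB) (w1 M B hB) (![1, x] : Fin 2 → Fb (M * q * q)) := by
    refine ⟨fun i => ?_, fun c hc h => ?_⟩
    · fin_cases i
      · exact (w1 M B hB).one_mem
      · exact hx
    · rw [Fin.sum_univ_two] at h
      simp only [Matrix.cons_val_zero, Matrix.cons_val_one] at h
      have h1 : c 1 ∈ (O1 M B hB).nonunits := by
        by_contra h1
        have hinv : (c 1)⁻¹ ∈ O1 M B hB := inv_mem_of_notMem_nonunits (O1 M B hB) h1
        have hc10 : c 1 ≠ 0 := fun h0 => h1 (h0 ▸ zero_mem_nonunits (O1 M B hB))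
        apply hcon (-(c 0 * (c 1)⁻¹))
          ((O1 M B hB).neg_mem _ ((O1 M B hB).mul_mem _ _ (hc 0) hinv))
        have h2 := S.smul_mem_nonunits none hinv h
        have h3 : (c 1)⁻¹ • (c 0 • (1 : Fb (M * q * q)) + c 1 • x) =
            x - algebraMap (Fb (M * q)) (Fb (M * q * q)) (-(c 0 * (c 1)⁻¹)) := by
          rw [smul_add, smul_smul, smul_smul, inv_mul_cancel₀ hc10, one_smul, map_neg,
            sub_neg_eq_add, Algebra.smul_def, mul_one, mul_comm (c 1)⁻¹ (c 0), add_comm]
        rw [h3] at h2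
        exact h2
      have h0 : c 0 ∈ (O1 M B hB).nonunits := by
        have h2 : c 1 • x ∈ (w1 M B hB).nonunits := S.nonunit_smul_mem_nonunits none h1 hx
        have h3 : c 0 • (1 : Fb (M * q * q)) ∈ (w1 M B hB).nonunits := by
          have := sub_mem_nonunits (w1 M B hB) h h2
          rwa [add_sub_cancel_right] at this
        rw [Algebra.smul_def, mul_one] at h3
        exact (algebraMap_mem_nonunits_iff (S.lies none) (c 0)).1 h3
      intro i
      fin_cases i
      · exact h0
      · exact h1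
  have hfam : ∀ v, ResIndep (O1 M B hB) (OAll B hB hqM hζ v) (xAll2 B hB hqM hζ x v) := by
    rintro (_ | i)
    · exact hind
    · exact resIndep_xAll B hB hqM hζ (some i)
  have hle := S.sum_card_le hfam
  rw [sum_fAll2, card_mid_mul B hB hqM hζ,
    show Module.finrank (Fb (M * q)) (Fb (M * q * q)) = q from finrankAlong_alpha2] at hle
  have := hq.out.two_le
  omega

include hqM in
/-- the residues of `w₁` lie in the residue field `κ = res₁(O1)` of `can` -/
theorem resw1_mem_kappaCan (x : w1 M B hB) : resw1 M B hB x ∈ kappaCan M B hB := by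
  obtain ⟨c, hc, hd⟩ := exists_alpha2_sub_mem_nonunits B hB hqM x.2
  have hαmem : alpha2 M q c ∈ w1 M B hB := (alpha2_mem_w1_iff B hB c).2 hc
  have hdmem : (x : Fb (M * q * q)) - alpha2 M q c ∈ w1 M B hB :=
    (w1 M B hB).toSubring.sub_mem x.2 hαmem
  have h0 : resw1 M B hB ⟨(x : Fb (M * q * q)) - alpha2 M q c, hdmem⟩ = 0 :=
    (mem_nonunits_O1_iff (M := M * q) B hB hdmem).1 hd
  have h1 : (⟨(x : Fb (M * q * q)) - alpha2 M q c, hdmem⟩ : w1 M B hB) =
      x - ⟨alpha2 M q c, hαmem⟩ := Subtype.ext rfl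
  rw [h1, map_sub, sub_eq_zero] at h0
  rw [h0, resw1_alpha2 B hB c hc]
  exact res1_mem_kappaCan B hB ⟨c, hc⟩

include hqM in
/-- **the residue field of `cInf` is `F̃_M`**: the residues of `w₁` lie in
`modularFunctionFieldFullC k M`. -/
theorem resw1_mem_fullC (x : w1 M B hB) : resw1 M B hB x ∈ FtM := by
  obtain ⟨c, hc⟩ := (mem_kappaCan_iff B hB).1 (resw1_mem_kappaCan B hB hqM x)
  rw [← hc, ← coe_constRedW1_res B hB hqM c]
  exact ((constRedW1 B hB hqM).res c).2

/-- **The residue map of `cInf = w₁`**, with values in `F̃_M`. -/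
def resInf : w1 M B hB →+* FtM :=
  (resw1 M B hB).codRestrict FtM (resw1_mem_fullC B hB hqM)

@[simp]
theorem coe_resInf (x : w1 M B hB) :
    ((resInf B hB hqM x : FtM) : LaurentSeries kB) = resw1 M B hB x := rfl

/-- compatibility with the residue map of `can` along `α₂` -/
theorem resInf_alpha2 (x : Fb (M * q)) (hx : x ∈ O1 M B hB) :
    resInf B hB hqM ⟨alpha2 M q x, (alpha2_mem_w1_iff B hB x).2 hx⟩ =
      (constRedW1 B hB hqM).res ⟨x, hx⟩ := by
  apply Subtype.ext
  rw [coe_resInf, resw1_alpha2 B hB x hx]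
  exact (coe_constRedW1_res B hB hqM ⟨x, hx⟩).symm

theorem resInf_surjective : Function.Surjective (resInf B hB hqM) := by
  intro t
  obtain ⟨a, ha⟩ := (constRedW1 B hB hqM).res_surjective t
  refine ⟨⟨alpha2 M q (a : Fb (M * q)), (alpha2_mem_w1_iff B hB _).2 a.2⟩, ?_⟩
  rw [← ha]
  exact resInf_alpha2 B hB hqM (a : Fb (M * q)) a.2

theorem resInf_eq_zero_iff_mem_nonunits (x : w1 M B hB) :
    resInf B hB hqM x = 0 ↔ (x : Fb (M * q * q)) ∈ (w1 M B hB).nonunits := by
  rw [mem_nonunits_O1_iff (M := M * q) B hB x.2]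
  constructor
  · intro h
    exact congrArg Subtype.val h
  · intro h
    exact Subtype.ext h

theorem resInf_eq_zero_iff (x : w1 M B hB) : resInf B hB hqM x = 0 ↔ ¬ IsUnit x := by
  rw [resInf_eq_zero_iff_mem_nonunits, ValuationSubring.coe_mem_nonunits_iff,
    IsLocalRing.mem_maximalIdeal, mem_nonunits_iff]

theorem algebraMap_mem_w1_iff (c : Kb) : algebraMap Kb (Fb (M * q * q)) c ∈ w1 M B hB ↔ c ∈ B :=
  Fermat.Agent.BR.ValTwo.algebraMap_mem_valOne_iff (M := M * q) hq.out B hB c

theorem resInf_algebraMap (a : Kb) (ha : a ∈ B) (ha' : algebraMap Kb (Fb (M * q * q)) a ∈ w1 M B hB) :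
    resInf B hB hqM ⟨algebraMap Kb (Fb (M * q * q)) a, ha'⟩ =
      algebraMap kB FtM (IsLocalRing.residue B ⟨a, ha⟩) := by
  apply Subtype.ext
  show resw1 M B hB _ = algebraMap kB (LaurentSeries kB) _
  rw [algebraMap_laurentSeries_eq_single, ← HahnSeries.C_apply]
  exact Fermat.Agent.BR.ValTwo.resOne_algebraMap (M := M * q) hq.out B hB ⟨a, ha⟩

/-- **The constant reduction `cInf = w₁` of `F̄_{Mq²}`**, with residue field `F̃_M`. -/
def constRedCInf : ConstRed (F := Fb (M * q * q)) (Ft := FtM) B (IsLocalRing.residue B) where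
  O := w1 M B hB
  res := resInf B hB hqM
  res_surjective := resInf_surjective B hB hqM
  res_eq_zero_iff := resInf_eq_zero_iff B hB hqM
  algebraMap_mem_iff := algebraMap_mem_w1_iff B hB
  res_algebraMap := resInf_algebraMap B hB hqM
  approx := by
    intro V hV y hy
    obtain ⟨w, hw, c, hc0, h, hne⟩ := GaussApproxAny.approx_w1 B hB V hV y hy
    exact ⟨w, hw, c, hc0, h, fun z hz heq => hne z hz (congrArg Subtype.val heq)⟩

@[simp] theorem constRedCInf_O : (constRedCInf B hB hqM).O = w1 M B hB := rfl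

@[simp] theorem constRedCInf_res : (constRedCInf B hB hqM).res = resInf B hB hqM := rfl

end Fermat.Agent.BR3.CInfRes
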