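import Mathlib
import Fermat.Agent.BR2.G3PrepCross
import Fermat.Agent.BR2.G3PrepRed
import Fermat.Agent.BR.S0.ThickFinal
import Fermat.Agent.BR.Inst.CkPointModular
import Fermat.Agent.BR.AnnulusPlace
import Fermat.Agent.BR.S0.Sandwich

/-!
# Program C (S36), node (I7-ZE-B), part 0: the crossing `Fr e` of `S'` under `z e` along `b`

The two branches of a crossing `e = (Q₁, Q₂)` of the two-component model of `X₀(M q)` are exchanged
by the Frobenius (helper26's `G3PrepCross.exists_values_of_gluedF`: the values of the rational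
functions of level `M` at `Q₁`, `Q₂` are conjugate under `c ↦ c^q`, and lie in `𝔽_{q²}`).  Hence
the SWAPPED pair `(Q₂, Q₁)` is again a crossing:

* `glued_swap e : GluedF D (z₂ D e) (z₁ D e)` (`hzero_modular`: the point `Q₂` of the component `0`
  is supersingular, so it is glued to a point `Q₃` of the component `1`; `Q₃ = Q₁` by Kronecker);
* `Fr e : Crossing D`, `z₁_Fr`, `z₂_Fr` (`rfl`), `Fr_Fr`, `Fr_injective`, `Fr_bijective`.

`Fr e` is the crossing of `S'` under the vertical component `z e` of `X₀(M q²)` along `b = β₂`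
(`BR3/VertBeta*.lean`).
-/

set_option autoImplicit false
set_option linter.unusedSectionVars false
set_option linter.style.haveILetI false
set_option synthInstance.maxHeartbeats 400000

noncomputable section

/- S36 build-time patch: file-local shortcut instances. They only shorten instance search;
each is the instance that the search finds anyway (reducible, same terms after unfolding). -/
local instance (priority := 100000) Fermat.Agent.BR3.FastInst.instAlgFullC_VertBetaFr
    {k : Type*} [Field k] (N : ℕ) :
    Algebra k ↥(ModularCurve.modularFunctionFieldFullC k N) := inferInstance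
local instance (priority := 100000) Fermat.Agent.BR3.FastInst.instFieldFullC_VertBetaFr
    {k : Type*} [Field k] (N : ℕ) :
    Field ↥(ModularCurve.modularFunctionFieldFullC k N) := inferInstance
local instance (priority := 100000) Fermat.Agent.BR3.FastInst.instAlgLaurent_VertBetaFr
    {k : Type*} [Field k] : Algebra k (LaurentSeries k) := inferInstance


namespace Fermat.Agent.BR3.VertBetaFr

open Polynomial ModularCurve ModularCurve.IgusaScheme AlgebraicCurve IsLocalRing
open Fermat.Agent.X0 Fermat.Agent.Val Fermat.Agent.Red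
open Fermat.Agent.BR.TwoVal Fermat.Agent.BR.TwoValInst Fermat.Agent.BR.ConstRedTwo
open Fermat.Agent.BR.ResGen Fermat.Agent.BR.Inst Fermat.Agent.BR.Inst.SpecIso
open Fermat.Agent.BR.ModUnit
open Fermat.Agent.BR.S0.RedModular Fermat.Agent.BR.S0.PointDict Fermat.Agent.BR.S0.SepModular
open Fermat.Agent.BR.S0.RedHyp Fermat.Agent.BR.Inst.CkPointModular
open Fermat.Agent.BR2.G3PrepCross Fermat.Agent.BR2.G3Prep Fermat.Agent.Igusa

variable {M q : ℕ} [NeZero M] [hqF : Fact q.Prime]
variable (B : ValuationSubring Kb) (hB : B.LiesOverPrime q) (hqM : ¬ q ∣ M)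

local notation "kB" => IsLocalRing.ResidueField B
local notation "FtM" => modularFunctionFieldFullC (IsLocalRing.ResidueField B) M

/-- A polynomial with coefficients in the prime field commutes with the Frobenius. -/
theorem eval_pow_char_of_zmod {k : Type*} [Field k] [CharP k q] (P : (ZMod q)[X]) (c : k) :
    (P.map (ZMod.castHom (dvd_refl q) k)).eval (c ^ q) =
      ((P.map (ZMod.castHom (dvd_refl q) k)).eval c) ^ q := by
  have h1 : ((P.map (ZMod.castHom (dvd_refl q) k)).eval c) ^ q =
      frobenius k q ((P.map (ZMod.castHom (dvd_refl q) k)).eval c) := (frobenius_def _ _).symm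
  rw [h1, ← Polynomial.eval_map_apply, Polynomial.map_map]
  have h2 : (frobenius k q).comp (ZMod.castHom (dvd_refl q) k) = ZMod.castHom (dvd_refl q) k :=
    Subsingleton.elim _ _
  rw [h2, frobenius_def]

/-- the values of `j̃` at the two branches of a crossing -/
theorem exists_values_jFullC (e : Crossing (chartDataModular B hB hqM)) :
    ∃ c : kB, IsValueAt (z₂ (chartDataModular B hB hqM) e) (jFullC kB M) c ∧
      IsValueAt (z₁ (chartDataModular B hB hqM) e) (jFullC kB M) (c ^ q) := by
  haveI : CharP kB q := Val.charP_residueField_of_liesOverPrime B hB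
  haveI : IsAlgClosed kB := Val.residueField_isAlgClosed B
  obtain ⟨c, h1, h2⟩ := glued (chartDataModular B hB hqM) e (jx M q) jx_mem_chartFin
  have e1 : (chartDataModular B hB hqM).res 0
      ⟨jx M q, (chartDataModular B hB hqM).hfin 0 jx_mem_chartFin⟩ = jFullC kB M :=
    res_zero_jx B hB hqM _
  have e2 : (chartDataModular B hB hqM).res 1
      ⟨jx M q, (chartDataModular B hB hqM).hfin 1 jx_mem_chartFin⟩ = jFullC kB M ^ q :=
    res_one_jx B hB hqM _
  rw [e1] at h1
  rw [e2] at h2
  have h3 := Fermat.Agent.BR.S0.SepModular.isValueAt_of_pow_char q _ h2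
  refine ⟨_, h3, ?_⟩
  rwa [← frobenius_def, frobenius_apply_frobeniusEquiv_symm]

set_option maxHeartbeats 1600000 in
/-- **The branch `z₂ e`, as a point of the component `0`, is supersingular.** -/
theorem ord_pos_z₂ (e : Crossing (chartDataModular B hB hqM)) :
    haveI := charP_res q B hB
    0 < (z₂ (chartDataModular B hB hqM) e).ord (aeval (jFullC kB M) (TbarPolyK kB q)) := by
  haveI := charP_res q B hB
  obtain ⟨c, h2, h1⟩ := exists_values_jFullC B hB hqM e
  have hT := TB_mem_chartFin M q
  have e0 : (chartDataModular B hB hqM).res 0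
      ⟨TB M q, (chartDataModular B hB hqM).hfin 0 hT⟩ =
      aeval (jFullC kB M) (TbarPolyK kB q) := constRedW1_res_TB M q B hB hqM
  have hne : aeval (jFullC kB M) (TbarPolyK kB q) ≠ 0 :=
    Fermat.Agent.BR.S0.aeval_jFullC_ne_zero M q B hB hqM _ (TbarPolyK_natDegree kB q)
  have hpos := AtlasHyp.ord_pos_of_crossing (D := chartDataModular B hB hqM) hT
    (constRedW2_res_TB M q B hB hqM) (by rw [e0]; exact hne) e
  rw [e0] at hpos
  -- `H(j̃)` vanishes at `z₁ e`
  have hv1 : IsValueAt (z₁ (chartDataModular B hB hqM) e)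
      (aeval (jFullC kB M) (TbarPolyK kB q)) 0 := by
    rw [isValueAt_zero_iff, adicValuation_lt_one_iff]
    exact Or.inr hpos
  have hv1' := Fermat.Agent.BR.AnnulusRed.isValueAt_aeval h1 (TbarPolyK kB q)
  have hz : (TbarPolyK kB q).eval (c ^ q) = 0 := hv1'.unique hv1
  have hz' : (TbarPolyK kB q).eval c = 0 := by
    rw [TbarPolyK, eval_pow_char_of_zmod] at hz
    exact pow_eq_zero_iff (hqF.out.ne_zero) |>.mp hz
  have hv2 := Fermat.Agent.BR.AnnulusRed.isValueAt_aeval h2 (TbarPolyK kB q)
  rw [hz', isValueAt_zero_iff, adicValuation_lt_one_iff] at hv2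
  exact hv2.resolve_left hne

set_option maxHeartbeats 1600000 in
/-- **The swapped pair of a crossing is a crossing.** -/
theorem glued_swap (e : Crossing (chartDataModular B hB hqM)) :
    GluedF (chartDataModular B hB hqM) (z₂ (chartDataModular B hB hqM) e)
      (z₁ (chartDataModular B hB hqM) e) := by
  haveI := isDedekindDomain_Ck B hB hqM
  haveI := Fermat.Agent.BR.S0.SepModular.isFractionRing_Ck B hB hqM
  haveI : IsScalarTower kB ↥(Ck M B) ↥FtM := IsScalarTower.of_algebraMap_eq (fun _ => rfl)
  obtain ⟨Q₃, h3⟩ := Fermat.Agent.BR.S0.ThickFinal.hzero_modular B hB hqM _ (ord_pos_z₂ B hB hqM e)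
  have hQ : Q₃ = z₁ (chartDataModular B hB hqM) e := by
    refine place_eq_of_span (Dk := ↥(Ck M B)) _ (mem_span_redMF B hB hqM) Q₃ _ ?_
    rintro z ⟨b, hb, hO, rfl⟩
    obtain ⟨c₁, c₂, k1, k2, e21, e12⟩ :=
      exists_values_of_gluedF B hB hqM (glued (chartDataModular B hB hqM) e) hb hO
    obtain ⟨d₁, d₂, l1, l2, f21, f12⟩ := exists_values_of_gluedF B hB hqM h3 hb hO
    have hd : d₁ = c₂ := l1.unique k2
    refine ⟨c₁, ?_, k1⟩
    rw [e12, ← hd, ← f21]
    exact l2
  rw [← hQ]
  exact h3

/-- **The crossing `Fr e`**: the two branches of `e` exchanged. -/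
def Fr (e : Crossing (chartDataModular B hB hqM)) : Crossing (chartDataModular B hB hqM) :=
  ⟨(z₂ (chartDataModular B hB hqM) e, z₁ (chartDataModular B hB hqM) e), glued_swap B hB hqM e⟩

@[simp] theorem z₁_Fr (e : Crossing (chartDataModular B hB hqM)) :
    z₁ (chartDataModular B hB hqM) (Fr B hB hqM e) = z₂ (chartDataModular B hB hqM) e := rfl

@[simp] theorem z₂_Fr (e : Crossing (chartDataModular B hB hqM)) :
    z₂ (chartDataModular B hB hqM) (Fr B hB hqM e) = z₁ (chartDataModular B hB hqM) e := rfl

@[simp] theorem Fr_Fr (e : Crossing (chartDataModular B hB hqM)) :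
    Fr B hB hqM (Fr B hB hqM e) = e := Subtype.ext rfl

theorem Fr_involutive : Function.Involutive (Fr B hB hqM) := Fr_Fr B hB hqM

theorem Fr_injective : Function.Injective (Fr B hB hqM) := (Fr_involutive B hB hqM).injective

theorem Fr_bijective : Function.Bijective (Fr B hB hqM) := (Fr_involutive B hB hqM).bijective

end Fermat.Agent.BR3.VertBetaFr
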