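import Fermat.Agent.BR3.CInfChart
import Fermat.Agent.BR3.CuspSheet.Inf
import Fermat.Agent.BR3.VertBetaFr
import Fermat.Agent.BR3.CoverK.Mono

/-!
# Program C, node SC2 (instance): the regular charts of `cInf` at the cusps

For `H : AtlasHyp (chartDataModular B hB hqM) (jx M q)` and a cusp `Q` of the component `can` of
`S'` (`1/j̃` vanishes at `Q`), the lift of main's regular chart `RegAtlas.regChartCan` at `Q`
along helper2's sheet `CuspSheet.coverSheet_cInf_cusp` (generator `θ∞ = β₂ (j(s^q)/j^q)`,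
sheet constant `1`):

* `ne_z₁_of_cusp`, `ne_z₂_of_cusp` : a cusp is not a crossing;
* `cInfTubeCusp B hB hqM H Q := coverTube B {P | H.r P = ⟨0, Q⟩} (thetaInf M q) 1`,
  `restrict_mem_of_mem_cInfTubeCusp`;
* `cInfChartCusp … : RegChart B (constRedCInf ..).O (constRedCInf ..).res Q (cInfTubeCusp ..)`
  (`.chart` = the field `smInf` of `SDD.CaseInput` at the cusps), `cInfChartCusp_t` by `rfl`.

Hypotheses: `1/j` and the separator at infinity `hSepInf = j(s^q)/j^q` are regular on the tube
of the cusp (`hj`, `hh`), `harch` is the rank-one property of `B`.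
-/

set_option autoImplicit false
set_option linter.style.haveILetI false
set_option linter.unusedSectionVars false

noncomputable section

/- S36 build-time patch: file-local shortcut instances. They only shorten instance search;
each is the instance that the search finds anyway (reducible, same terms after unfolding). -/
local instance (priority := 100000) Fermat.Agent.BR3.FastInst.instAlgFullC_CInfChartCusp
    {k : Type*} [Field k] (N : ℕ) :
    Algebra k ↥(ModularCurve.modularFunctionFieldFullC k N) := inferInstance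
local instance (priority := 100000) Fermat.Agent.BR3.FastInst.instFieldFullC_CInfChartCusp
    {k : Type*} [Field k] (N : ℕ) :
    Field ↥(ModularCurve.modularFunctionFieldFullC k N) := inferInstance
local instance (priority := 100000) Fermat.Agent.BR3.FastInst.instAlgLaurent_CInfChartCusp
    {k : Type*} [Field k] : Algebra k (LaurentSeries k) := inferInstance


set_option synthInstance.maxHeartbeats 400000

namespace Fermat.Agent.BR3.CInfChart

open ModularCurve AlgebraicCurve HahnSeries Polynomial Fermat.Agent.X0 Fermat.Agent.Val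
open Fermat.Agent.Hecke.AL Fermat.Agent.BR.TwoVal Fermat.Agent.BR.ResGen Fermat.Agent.Red
open Fermat.Agent.BR.TwoValInst Fermat.Agent.BR3.FibreProd Fermat.Agent.BR.ModUnit
open Fermat.Agent.BR.ConstRedTwo Fermat.Agent.BR3.CInfRes Fermat.Agent.BR3.CoverK
open Fermat.Agent.BR.S0 Fermat.Agent.BR.S0.RedModular Fermat.Agent.BR.S0.PointDict
open Fermat.Agent.BR3.CoverSheetInf Fermat.Agent.BR3.RegAtlas Fermat.Agent.BR.S0.RedHyp
open Fermat.Agent.BR3.CuspSheet

variable {M q : ℕ} [NeZero M] [hq : Fact q.Prime]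
variable (B : ValuationSubring (AlgebraicClosure ℚ)) (hB : B.LiesOverPrime q) (hqM : ¬ q ∣ M)

local notation "kB" => IsLocalRing.ResidueField B
local notation "FtM" => modularFunctionFieldFullC (IsLocalRing.ResidueField B) M

/-- a nonzero function whose inverse vanishes at a place has no value there -/
theorem not_isValueAt_of_inv_small {k L : Type*} [Field k] [Field L] [Algebra k L]
    {Q : Place k L} {g : L} (hg0 : g ≠ 0) (hQ : Q.adicValuation g⁻¹ < 1) (c : k) :
    ¬ IsValueAt Q g c := by
  intro hc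
  have h1 : Q.adicValuation g ≤ 1 := Q.adicValuation_le_one_of_mem hc.mem
  rw [map_inv₀] at hQ
  have hpos : 0 < Q.adicValuation g := by
    rw [pos_iff_ne_zero, ne_eq, map_eq_zero]
    exact hg0
  have h2 : 1 < Q.adicValuation g := (inv_lt_one₀ hpos).1 hQ
  exact absurd h1 (not_le.2 h2)

/-- **A cusp of `can` is not a crossing.** -/
theorem ne_z₁_of_cusp (Q : Place kB FtM) (hQ : Q.adicValuation ((jFullC kB M)⁻¹) < 1)
    (e : Crossing (chartDataModular B hB hqM)) : Q ≠ z₁ (chartDataModular B hB hqM) e := by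
  rintro rfl
  obtain ⟨c, -, hc⟩ := Fermat.Agent.BR3.VertBetaFr.exists_values_jFullC B hB hqM e
  exact not_isValueAt_of_inv_small (jFullC_ne_zero' B) hQ _ hc

/-- **A cusp of `et` is not a crossing.** -/
theorem ne_z₂_of_cusp (Q : Place kB FtM) (hQ : Q.adicValuation ((jFullC kB M)⁻¹) < 1)
    (e : Crossing (chartDataModular B hB hqM)) : Q ≠ z₂ (chartDataModular B hB hqM) e := by
  rintro rfl
  obtain ⟨c, hc, -⟩ := Fermat.Agent.BR3.VertBetaFr.exists_values_jFullC B hB hqM e
  exact not_isValueAt_of_inv_small (jFullC_ne_zero' B) hQ _ hc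

/-- **The tube of a cusp `Q` of `cInf`**: the places over the tube of the cusp `Q` of `can` at
which `θ∞ ≡ 1`. -/
def cInfTubeCusp (H : AtlasHyp (chartDataModular B hB hqM) (jx M q)) (Q : Place kB FtM) :
    Set (Place Kb (Fb (M * q * q))) :=
  letI := algebraAlong (alpha2 M q)
  haveI := isScalarTower_along (alpha2 M q)
  haveI : Module.Finite (Fb (M * q)) (Fb (M * q * q)) :=
    Fermat.Agent.Hecke.finiteAlong_heckeAlphaBar (M * q) q
  coverTube B {P | H.r P = (⟨0, Q⟩ : Σ _ : Fin 2, Place kB FtM)} (thetaInf M q) 1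

/-- the tube of a cusp of `cInf` lies over the tube of the cusp of `can` -/
theorem restrict_mem_of_mem_cInfTubeCusp (H : AtlasHyp (chartDataModular B hB hqM) (jx M q))
    (Q : Place kB FtM) {P : Place Kb (Fb (M * q * q))} (hP : P ∈ cInfTubeCusp B hB hqM H Q) :
    letI := algebraAlong (alpha2 M q)
    haveI := isScalarTower_along (alpha2 M q)
    haveI : Module.Finite (Fb (M * q)) (Fb (M * q * q)) :=
      Fermat.Agent.Hecke.finiteAlong_heckeAlphaBar (M * q) q
    H.r (P.restrict (Fb (M * q))) = ⟨0, Q⟩ := by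
  letI := algebraAlong (alpha2 M q)
  haveI := isScalarTower_along (alpha2 M q)
  haveI : Module.Finite (Fb (M * q)) (Fb (M * q * q)) :=
    Fermat.Agent.Hecke.finiteAlong_heckeAlphaBar (M * q) q
  exact (mem_coverTube.1 hP).1

set_option maxHeartbeats 4000000 in
/-- **The regular chart of `cInf` at a cusp.** -/
def cInfChartCusp (H : AtlasHyp (chartDataModular B hB hqM) (jx M q)) (Q : Place kB FtM)
    (hQ : Q.adicValuation ((jFullC kB M)⁻¹) < 1)
    (hj : ∀ P ∈ {P | H.r P = (⟨0, Q⟩ : Σ _ : Fin 2, Place kB FtM)},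
      0 ≤ P.ord ((jBar (M * q))⁻¹))
    (hh : ∀ P ∈ {P | H.r P = (⟨0, Q⟩ : Σ _ : Fin 2, Place kB FtM)}, 0 ≤ P.ord (hSepInf M q))
    (harch : ∀ a c : Kb, B.valuation a < 1 → c ≠ 0 →
      ∃ N : ℕ, B.valuation a ^ N ≤ B.valuation c) :
    RegChart B (constRedCInf B hB hqM).O (constRedCInf B hB hqM).res Q
      (cInfTubeCusp B hB hqM H Q) := by
  letI := algebraAlong (alpha2 M q)
  haveI := isScalarTower_along (alpha2 M q)
  haveI : Module.Finite (Fb (M * q)) (Fb (M * q * q)) :=
    Fermat.Agent.Hecke.finiteAlong_heckeAlphaBar (M * q) q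
  exact coverRegChartOfConstRed (constRedW1 B hB hqM)
    (regChartCan B hB hqM H Q (ne_z₁_of_cusp B hB hqM Q hQ))
    ((coverSheet_cInf_cusp B hB hqM Q hQ).of_le_chart _
      (cuspRing_le_chart B hB hqM _
        ((regChartCan B hB hqM H Q (ne_z₁_of_cusp B hB hqM Q hQ)).chart.normal _
          (inv_jBar_mem_O1 B hB) hj)
        ((regChartCan B hB hqM H Q (ne_z₁_of_cusp B hB hqM Q hQ)).chart.normal _
          (hSepInf_mem_O1 B hB) hh))) harch

set_option maxHeartbeats 4000000 in
/-- the parameter of `cInfChartCusp` is the image of the parameter of the chart of `S'` -/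
theorem cInfChartCusp_t (H : AtlasHyp (chartDataModular B hB hqM) (jx M q)) (Q : Place kB FtM)
    (hQ : Q.adicValuation ((jFullC kB M)⁻¹) < 1)
    (hj : ∀ P ∈ {P | H.r P = (⟨0, Q⟩ : Σ _ : Fin 2, Place kB FtM)},
      0 ≤ P.ord ((jBar (M * q))⁻¹))
    (hh : ∀ P ∈ {P | H.r P = (⟨0, Q⟩ : Σ _ : Fin 2, Place kB FtM)}, 0 ≤ P.ord (hSepInf M q))
    (harch : ∀ a c : Kb, B.valuation a < 1 → c ≠ 0 →
      ∃ N : ℕ, B.valuation a ^ N ≤ B.valuation c) :
    (cInfChartCusp B hB hqM H Q hQ hj hh harch).chart.t =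
      alpha2 M q (regChartCan B hB hqM H Q (ne_z₁_of_cusp B hB hqM Q hQ)).chart.t := rfl

end Fermat.Agent.BR3.CInfChart
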