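import Fermat.Agent.BR3.FibreProdRoots
import Fermat.Agent.BR3.IgSq.Laurent

/-!
# Program C, node I3 (MID), part 1: the middle valuations `w₂ b` of `F₂ = Fb (M * q * q)`

For a primitive `q`-th root of unity `ζ` and `b < q - 1`, `σ_b = sigmaB : F₂ → ℚ̄((s))` is the
embedding over `α₂ F₁` with `j(s^{q²}) ↦ j(ζ^{b+1} s)`.

* `hasContent_sigmaB` : every nonzero element of `σ_b(F₂)` has content (descent to a number field
  containing `ζ`);
* `w2 B hB hqM hζ hb` : the valuation subring `σ_b⁻¹(Gauss ring)` of `F₂`, `resw2` its residue map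
  into `k((s))` (kernel = maximal ideal);
* along `α₂` it lies over `O1` (= the component `can` of `F₁`) with `res ∘ α₂ = res₁`
  (`comap_alpha2_w2`, `resw2_alpha2`);
* `resw2_jqq : res j(s^{q²}) = j̃`, `resw2_U : res U = 0`, and the **Kummer generator**
  `resw2_Utilde : res (U / (ζ^{b+1} - 1)) = θ j̃` (`θ = s d/ds`, `thetaL` of `BR3/IgSq/Laurent`);
* on the split sheet `w₁`: `resw1_jqq = j̃^{q²}`, `U` is a unit of `w₁`, `w2 ≠ w1`.
-/

set_option autoImplicit false
set_option linter.style.haveILetI false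
set_option linter.unusedSectionVars false

noncomputable section

set_option synthInstance.maxHeartbeats 400000

namespace Fermat.Agent.BR3.FibreProd

open ModularCurve AlgebraicCurve HahnSeries Polynomial Fermat.Agent.X0 Fermat.Agent.Val
open Fermat.Agent.Hecke.AL Fermat.Agent.Igusa Fermat.Agent.BR.Kron Fermat.Agent.BR3.IgSq
open Fermat.Agent.BR.TwoVal Fermat.Agent.BR.ResGen Fermat.Agent.Jac Fermat.Agent.Jac.ALF

variable {M q : ℕ} [NeZero M] [hq : Fact q.Prime]

/-! ### Descent of `σ_b(F₂)` to number fields -/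

section Descent

/-- the subfield of `ℚ̄((s))` generated by the constants of `K`, by `F_{N}` and by one more
series `t` -/
def midOver (N : ℕ) (t : LaurentSeries Kb) (K : IntermediateField ℚ Kb) :
    Subfield (LaurentSeries Kb) :=
  Subfield.closure ((barOver (modularFunctionFieldFull N) K : Set (LaurentSeries Kb)) ∪ {t})

theorem midOver_mono (N : ℕ) (t : LaurentSeries Kb) {K K' : IntermediateField ℚ Kb} (h : K ≤ K') :
    midOver N t K ≤ midOver N t K' :=
  Subfield.closure_mono (Set.union_subset_union_left _ (barOver_mono _ h))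

theorem barOver_le_midOver (N : ℕ) (t : LaurentSeries Kb) (K : IntermediateField ℚ Kb) :
    barOver (modularFunctionFieldFull N) K ≤ midOver N t K := fun _ hx =>
  Subfield.subset_closure (Or.inl hx)

theorem self_mem_midOver (N : ℕ) (t : LaurentSeries Kb) (K : IntermediateField ℚ Kb) :
    t ∈ midOver N t K :=
  Subfield.subset_closure (Or.inr rfl)

/-- the union of the `midOver N t K` over all number fields `K ⊆ ℚ̄` -/
def midUnion (N : ℕ) (t : LaurentSeries Kb) : Subfield (LaurentSeries Kb) where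
  carrier := {y | ∃ K : IntermediateField ℚ Kb, FiniteDimensional ℚ K ∧ y ∈ midOver N t K}
  mul_mem' := by
    rintro x y ⟨K, hK, hx⟩ ⟨K', hK', hy⟩
    exact ⟨K ⊔ K', inferInstance, (midOver N t (K ⊔ K')).mul_mem
      (midOver_mono N t le_sup_left hx) (midOver_mono N t le_sup_right hy)⟩
  one_mem' := ⟨⊥, inferInstance, (midOver N t ⊥).one_mem⟩
  add_mem' := by
    rintro x y ⟨K, hK, hx⟩ ⟨K', hK', hy⟩
    exact ⟨K ⊔ K', inferInstance, (midOver N t (K ⊔ K')).add_mem
      (midOver_mono N t le_sup_left hx) (midOver_mono N t le_sup_right hy)⟩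
  zero_mem' := ⟨⊥, inferInstance, (midOver N t ⊥).zero_mem⟩
  neg_mem' := by
    rintro x ⟨K, hK, hx⟩
    exact ⟨K, hK, (midOver N t K).neg_mem hx⟩
  inv_mem' := by
    rintro x ⟨K, hK, hx⟩
    exact ⟨K, hK, (midOver N t K).inv_mem hx⟩

theorem mem_midUnion_iff {N : ℕ} {t y : LaurentSeries Kb} :
    y ∈ midUnion N t ↔
      ∃ K : IntermediateField ℚ Kb, FiniteDimensional ℚ K ∧ y ∈ midOver N t K := Iff.rfl

variable (hqM : ¬ q ∣ M) {ζ : Kbˣ} (hζ : IsPrimitiveRoot ζ q) {b : ℕ} (hb : b < q - 1)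

/-- every `σ_b x` lies in `K · F_{Mq} (j(ζ^{b+1} s))` for a number field `K` -/
theorem sigmaB_mem_midUnion (x : Fb (M * q * q)) :
    sigmaB hqM hζ hb x ∈ midUnion (M * q) (scale (ζ ^ (b + 1)) (jqModC Kb)) := by
  haveI := algebraIsAlgebraic_rat_algebraicClosure
  letI := algebraAlong (alpha2 M q)
  set t := scale (ζ ^ (b + 1)) (jqModC Kb) with ht
  let T : IntermediateField (Fb (M * q)) (Fb (M * q * q)) :=
    ((midUnion (M * q) t).comap (sigmaB hqM hζ hb)).toIntermediateField fun y => by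
      show sigmaB hqM hζ hb (alpha2 M q y) ∈ midUnion (M * q) t
      rw [sigmaB_alpha2]
      obtain ⟨K, hK, hyK⟩ := exists_finiteDimensional_mem_barOver
        (modularFunctionFieldFull (M * q)) y.2
      exact ⟨K, hK, barOver_le_midOver _ _ _ hyK⟩
  have hle : IntermediateField.adjoin (Fb (M * q)) {jqq M q} ≤ T := by
    rw [IntermediateField.adjoin_le_iff]
    rintro y rfl
    show sigmaB hqM hζ hb (jqq M q) ∈ midUnion (M * q) t
    rw [sigmaB_jqq]
    exact ⟨⊥, inferInstance, self_mem_midOver _ _ _⟩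
  rw [adjoin_jqq_eq_top hqM] at hle
  exact hle (IntermediateField.mem_top (x := x))

end Descent

/-! ### Contents -/

section Generic

variable {L : Type*} [Field L] [Algebra ℚ L] (A : ValuationSubring L)

/-- a root of unity of a number field `K ⊆ L` as a unit of the local ring of `K` at the centre
of `A` -/
theorem exists_unit_locK (K : IntermediateField ℚ L) [FiniteDimensional ℚ K] {z : Lˣ} {n : ℕ}
    (hn : n ≠ 0) (hz : z ^ n = 1) (hzK : (z : L) ∈ K) :
    ∃ u : (locK A K)ˣ, ((locKToA A K (u : locK A K) : A) : L) = (z : L) := by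
  have hzn : (z : L) ^ n = 1 := by rw [← Units.val_pow_eq_pow_val, hz, Units.val_one]
  have hint : IsIntegral ℤ (⟨(z : L), hzK⟩ : K) :=
    ⟨X ^ n - 1, Polynomial.monic_X_pow_sub_C 1 hn, by
      simp only [Polynomial.eval₂_sub, Polynomial.eval₂_pow, Polynomial.eval₂_X,
        Polynomial.eval₂_one]
      rw [sub_eq_zero]
      exact Subtype.ext hzn⟩
  let zI : integralClosure ℤ K := ⟨⟨(z : L), hzK⟩, hint⟩
  have hzI : zI ^ n = 1 := Subtype.ext (Subtype.ext hzn)
  have hu : IsUnit zI := IsUnit.of_pow_eq_one hzI hn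
  refine ⟨(hu.map (algebraMap (integralClosure ℤ K) (locK A K))).unit, ?_⟩
  rw [IsUnit.unit_spec, locKToA_algebraMap]
  rfl

/-- `j(z s)` is a quotient of series over the local ring of `K`, for a root of unity `z ∈ K`. -/
theorem scale_jqModC_mem_fracFieldOver (K : IntermediateField ℚ L) [FiniteDimensional ℚ K]
    {z : Lˣ} {n : ℕ} (hn : n ≠ 0) (hz : z ^ n = 1) (hzK : (z : L) ∈ K) :
    scale z (jqModC L) ∈ fracFieldOver A (locKToA A K) := by
  obtain ⟨u, hu⟩ := exists_unit_locK A K hn hz hzK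
  have h1 : oIota A (locKToA A K) (scale u (jqModC (locK A K))) = scale z (jqModC L) := by
    rw [oIota_apply, coeffMap_scale, aIota, coeffMap_scale, ModularCurve.coeffMap_jqModC,
      ModularCurve.coeffMap_jqModC]
    congr 2
    apply Units.ext
    rw [Units.coe_map, Units.coe_map]
    exact hu
  rw [← h1]
  exact oIota_mem_fracFieldOver A _ _

end Generic

section Contents

variable (B : ValuationSubring (AlgebraicClosure ℚ)) (hB : B.LiesOverPrime q)

local notation "kB" => IsLocalRing.ResidueField B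

/-- `midOver` consists of quotients of series over the local ring of `K`. -/
theorem midOver_le_fracFieldOver (N : ℕ) [NeZero N] (K : IntermediateField ℚ Kb)
    [FiniteDimensional ℚ K] {z : Kbˣ} {n : ℕ} (hn : n ≠ 0) (hz : z ^ n = 1) (hzK : (z : Kb) ∈ K) :
    midOver N (scale z (jqModC Kb)) K ≤ fracFieldOver B (locKToA B K) := by
  rw [midOver, Subfield.closure_le]
  rintro y (hy | rfl)
  · have hle : barOver (modularFunctionFieldFull N) K ≤ fracFieldOver B (locKToA B K) := by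
      rw [barOver, Subfield.closure_le]
      rintro y (⟨c, hc, rfl⟩ | ⟨z, hz, rfl⟩)
      · exact C_mem_fracFieldOver_locK B K ⟨c, hc⟩
      · exact coeffEmb_mem_fracFieldOver B (locKToA B K) N hz
    exact hle hy
  · exact scale_jqModC_mem_fracFieldOver B K hn hz hzK

variable (hqM : ¬ q ∣ M) {ζ : Kbˣ} (hζ : IsPrimitiveRoot ζ q) {b : ℕ} (hb : b < q - 1)

include hB in
/-- **Contents on `σ_b(F₂)`.** -/
theorem hasContent_sigmaB {x : Fb (M * q * q)} (hx : x ≠ 0) :
    ∃ c, HasContent B (IsLocalRing.residue B) (sigmaB hqM hζ hb x) c := by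
  haveI := algebraIsAlgebraic_rat_algebraicClosure
  obtain ⟨K, hK, hxK⟩ := sigmaB_mem_midUnion hqM hζ hb x
  have hzint : IsIntegral ℚ ((ζ ^ (b + 1) : Kbˣ) : Kb) := Algebra.IsIntegral.isIntegral _
  haveI : FiniteDimensional ℚ (IntermediateField.adjoin ℚ {((ζ ^ (b + 1) : Kbˣ) : Kb)}) :=
    IntermediateField.adjoin.finiteDimensional hzint
  let K' : IntermediateField ℚ Kb := K ⊔ IntermediateField.adjoin ℚ {((ζ ^ (b + 1) : Kbˣ) : Kb)}
  haveI : FiniteDimensional ℚ K' := inferInstance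
  have hzK' : ((ζ ^ (b + 1) : Kbˣ) : Kb) ∈ K' :=
    (le_sup_right : _ ≤ K') (IntermediateField.mem_adjoin_simple_self ℚ _)
  have hz : (ζ ^ (b + 1)) ^ q = 1 := by
    rw [← pow_mul, mul_comm, pow_mul, hζ.pow_eq_one, one_pow]
  have := locK_isDVR B K' hq.out.ne_zero hB
  have h1 := midOver_le_fracFieldOver B (M * q) K' hq.out.ne_zero hz hzK'
    (midOver_mono _ _ (le_sup_left : K ≤ K') hxK)
  have hx0 : sigmaB hqM hζ hb x ≠ 0 := by
    rwa [Ne, map_eq_zero]
  exact exists_hasContent_of_mem_fracFieldOver B (IsLocalRing.residue B) (locKToA B K')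
    (locKToA_injective B K') h1 hx0

end Contents

/-! ### The middle valuations `w₂ b` -/

section W2

variable (B : ValuationSubring (AlgebraicClosure ℚ)) (hB : B.LiesOverPrime q)
variable (hqM : ¬ q ∣ M) {ζ : Kbˣ} (hζ : IsPrimitiveRoot ζ q) {b : ℕ} (hb : b < q - 1)

local notation "kB" => IsLocalRing.ResidueField B

/-- **The middle valuation subring** `w₂ b` of `F₂`: the Gauss valuation of `ℚ̄((s))` pulled back
along `σ_b`. -/
def w2 : ValuationSubring (Fb (M * q * q)) :=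
  { (gaussRingA B (IsLocalRing.residue B)).comap (sigmaB hqM hζ hb) with
    mem_or_inv_mem' := fun x => by
      by_cases hx0 : x = 0
      · left
        show sigmaB hqM hζ hb x ∈ gaussRingA B (IsLocalRing.residue B)
        rw [hx0, map_zero]
        exact (gaussRingA B (IsLocalRing.residue B)).zero_mem
      obtain ⟨c, hc⟩ := hasContent_sigmaB B hB hqM hζ hb hx0
      rcases B.mem_or_inv_mem c with h | h
      · left
        exact hc.mem_gaussRingA_of_mem h
      · right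
        show sigmaB hqM hζ hb x⁻¹ ∈ gaussRingA B (IsLocalRing.residue B)
        rw [map_inv₀]
        exact hc.inv.mem_gaussRingA_of_mem h }

theorem mem_w2_iff {x : Fb (M * q * q)} :
    x ∈ w2 B hB hqM hζ hb ↔ sigmaB hqM hζ hb x ∈ gaussRingA B (IsLocalRing.residue B) := Iff.rfl

/-- `σ_b` restricted to `w₂ b`, with values in the Gauss ring. -/
def sigmaW2 : w2 B hB hqM hζ hb →+* gaussRingA B (IsLocalRing.residue B) where
  toFun x := ⟨sigmaB hqM hζ hb (x : Fb (M * q * q)), x.2⟩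
  map_one' := Subtype.ext (map_one _)
  map_mul' _ _ := Subtype.ext (map_mul _ _ _)
  map_zero' := Subtype.ext (map_zero _)
  map_add' _ _ := Subtype.ext (map_add _ _ _)

/-- **The residue map** of `w₂ b`, with values in `k((s))`. -/
def resw2 : w2 B hB hqM hζ hb →+* LaurentSeries kB :=
  (gaussResA B (IsLocalRing.residue B)).comp (sigmaW2 B hB hqM hζ hb)

theorem resw2_apply (x : w2 B hB hqM hζ hb) :
    resw2 B hB hqM hζ hb x =
      gaussResA B (IsLocalRing.residue B) ⟨sigmaB hqM hζ hb (x : Fb (M * q * q)), x.2⟩ := rfl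

/-- Units of `w₂ b` are the elements of nonzero residue. -/
theorem isUnit_iff_resw2_ne_zero (x : w2 B hB hqM hζ hb) :
    IsUnit x ↔ resw2 B hB hqM hζ hb x ≠ 0 := by
  constructor
  · intro hx
    exact (hx.map (resw2 B hB hqM hζ hb)).ne_zero
  · intro hx
    have hx0 : (x : Fb (M * q * q)) ≠ 0 := by
      intro h
      apply hx
      have : x = 0 := Subtype.ext h
      rw [this, map_zero]
    have hinv : (x : Fb (M * q * q))⁻¹ ∈ w2 B hB hqM hζ hb := by
      rw [mem_w2_iff, map_inv₀]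
      exact inv_mem_gaussRingA_of_gaussResA_ne_zero B _ ⟨sigmaB hqM hζ hb x, x.2⟩ hx
    refine ⟨⟨x, ⟨(x : Fb (M * q * q))⁻¹, hinv⟩, ?_, ?_⟩, rfl⟩
    · exact Subtype.ext (mul_inv_cancel₀ hx0)
    · exact Subtype.ext (inv_mul_cancel₀ hx0)

/-- The kernel of the residue map is the maximal ideal. -/
theorem resw2_eq_zero_iff (x : w2 B hB hqM hζ hb) :
    resw2 B hB hqM hζ hb x = 0 ↔ x ∈ IsLocalRing.maximalIdeal (w2 B hB hqM hζ hb) := by
  rw [IsLocalRing.mem_maximalIdeal, mem_nonunits_iff, isUnit_iff_resw2_ne_zero, not_not]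

theorem ker_resw2 :
    RingHom.ker (resw2 B hB hqM hζ hb) = IsLocalRing.maximalIdeal (w2 B hB hqM hζ hb) := by
  ext x
  rw [RingHom.mem_ker, resw2_eq_zero_iff]

theorem mem_nonunits_w2_iff {x : Fb (M * q * q)} (hx : x ∈ w2 B hB hqM hζ hb) :
    x ∈ (w2 B hB hqM hζ hb).nonunits ↔ resw2 B hB hqM hζ hb ⟨x, hx⟩ = 0 := by
  rw [resw2_eq_zero_iff, ← ValuationSubring.coe_mem_nonunits_iff]

/-! #### Restriction along `α₂` -/

theorem alpha2_mem_w2_iff (x : Fb (M * q)) :
    alpha2 M q x ∈ w2 B hB hqM hζ hb ↔ x ∈ O1 M B hB := by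
  rw [mem_w2_iff, sigmaB_alpha2]
  exact Iff.rfl

/-- `w₂ b ∘ α₂ = O1` (the component `can`). -/
theorem comap_alpha2_w2 :
    (w2 B hB hqM hζ hb).comap (alpha2 M q : Fb (M * q) →+* Fb (M * q * q)) = O1 M B hB := by
  ext x
  rw [ValuationSubring.mem_comap, RingHom.coe_coe]
  exact alpha2_mem_w2_iff B hB hqM hζ hb x

/-- `res_{w₂ b} ∘ α₂ = res₁`. -/
theorem resw2_alpha2 (x : Fb (M * q)) (hx : x ∈ O1 M B hB) :
    resw2 B hB hqM hζ hb ⟨alpha2 M q x, (alpha2_mem_w2_iff B hB hqM hζ hb x).2 hx⟩ =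
      res1 M B hB ⟨x, hx⟩ := by
  rw [resw2_apply]
  exact Fermat.Agent.BR.ResGen.gaussResA_congr B _ hx (sigmaB_alpha2 hqM hζ hb x)

end W2


/-! ### The difference quotient `(f(z s) - f(s)) / (z - 1)` -/

section DiffQuot

variable {R : Type*} [CommRing R]

/-- `(z^n - 1)/(z - 1)` for a unit `z` and `n : ℤ`. -/
def geomZ (z : Rˣ) (n : ℤ) : R :=
  if 0 ≤ n then ∑ i ∈ Finset.range n.toNat, (z : R) ^ i
  else -(((z⁻¹ : Rˣ) : R) ^ (-n).toNat * ∑ i ∈ Finset.range (-n).toNat, (z : R) ^ i)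

theorem geomZ_mul (z : Rˣ) (n : ℤ) : geomZ z n * ((z : R) - 1) = ((z ^ n : Rˣ) : R) - 1 := by
  unfold geomZ
  split_ifs with h
  · obtain ⟨m, rfl⟩ := Int.eq_ofNat_of_zero_le h
    rw [Int.toNat_natCast, geom_sum_mul, zpow_natCast, Units.val_pow_eq_pow_val]
  · push_neg at h
    obtain ⟨m, hm⟩ : ∃ m : ℕ, n = -(m : ℤ) := ⟨(-n).toNat, by omega⟩
    subst hm
    rw [neg_neg, Int.toNat_natCast, neg_mul, mul_assoc, geom_sum_mul, zpow_neg, zpow_natCast,
      mul_sub, mul_one, ← Units.val_pow_eq_pow_val, ← Units.val_pow_eq_pow_val, ← Units.val_mul,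
      inv_pow, inv_mul_cancel, Units.val_one, neg_sub]

theorem map_geomZ {k : Type*} [CommRing k] (π : R →+* k) (z : Rˣ) (hz : π (z : R) = 1) (n : ℤ) :
    π (geomZ z n) = (n : k) := by
  have hzi : π ((z⁻¹ : Rˣ) : R) = 1 := by
    have h := congrArg π (Units.inv_mul z)
    rwa [map_mul, hz, mul_one, map_one] at h
  unfold geomZ
  split_ifs with h
  · obtain ⟨m, rfl⟩ := Int.eq_ofNat_of_zero_le h
    rw [Int.toNat_natCast, map_sum]
    simp [hz]
  · push_neg at h
    obtain ⟨m, hm⟩ : ∃ m : ℕ, n = -(m : ℤ) := ⟨(-n).toNat, by omega⟩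
    subst hm
    rw [neg_neg, Int.toNat_natCast, map_neg, map_mul, map_pow, hzi, one_pow, one_mul, map_sum]
    simp [hz]

/-- the difference quotient `(f(z s) - f(s)) / (z - 1)`, coefficientwise -/
def diffQuot (z : Rˣ) (f : LaurentSeries R) : LaurentSeries R :=
  hahnOfFunA f (fun n => geomZ z n * f.coeff n) (fun n hn => by rw [hn, mul_zero])

@[simp] theorem diffQuot_coeff (z : Rˣ) (f : LaurentSeries R) (n : ℤ) :
    (diffQuot z f).coeff n = geomZ z n * f.coeff n := rfl

theorem C_mul_diffQuot (z : Rˣ) (f : LaurentSeries R) :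
    HahnSeries.C ((z : R) - 1) * diffQuot z f = scale z f - f := by
  ext n
  rw [HahnSeries.C_mul_eq_smul, HahnSeries.coeff_smul, diffQuot_coeff, HahnSeries.coeff_sub,
    scale_coeff, smul_eq_mul, ← mul_assoc, mul_comm ((z : R) - 1), geomZ_mul]
  ring

theorem coeffMap_diffQuot {k : Type*} [CommRing k] (π : R →+* k) (z : Rˣ) (hz : π (z : R) = 1)
    (f : LaurentSeries R) : coeffMap π (diffQuot z f) = thetaL k (coeffMap π f) := by
  ext n
  rw [coeffMap_coeff, diffQuot_coeff, coeff_thetaL, coeffMap_coeff, map_mul, map_geomZ π z hz]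

end DiffQuot


/-! ### Roots of unity in `B` -/

section RootsOfUnity

variable (B : ValuationSubring (AlgebraicClosure ℚ))

/-- a root of unity of `ℚ̄` is a unit of every valuation subring -/
theorem exists_unitB {z : Kbˣ} {n : ℕ} (hn : n ≠ 0) (hz : z ^ n = 1) :
    ∃ zB : Bˣ, ((zB : B) : Kb) = (z : Kb) ∧ zB ^ n = 1 := by
  have hzn : (z : Kb) ^ n = 1 := by rw [← Units.val_pow_eq_pow_val, hz, Units.val_one]
  have hint : IsIntegral ℤ (z : Kb) :=
    ⟨X ^ n - 1, Polynomial.monic_X_pow_sub_C 1 hn, by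
      simp only [Polynomial.eval₂_sub, Polynomial.eval₂_pow, Polynomial.eval₂_X,
        Polynomial.eval₂_one]
      rw [sub_eq_zero]
      exact hzn⟩
  have hmem : (z : Kb) ∈ B := mem_valSubring_of_isIntegral_int B hint
  have hpow : (⟨(z : Kb), hmem⟩ : B) ^ n = 1 := Subtype.ext hzn
  have hu : IsUnit (⟨(z : Kb), hmem⟩ : B) := IsUnit.of_pow_eq_one hpow hn
  refine ⟨hu.unit, by rw [IsUnit.unit_spec], ?_⟩
  apply Units.ext
  rw [Units.val_pow_eq_pow_val, IsUnit.unit_spec, hpow, Units.val_one]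

/-- a `q`-th root of unity reduces to `1` in characteristic `q` -/
theorem residue_eq_one_of_pow_eq_one {k : Type*} [Field k] (q : ℕ) [Fact q.Prime] [CharP k q]
    {x : k} (hx : x ^ q = 1) : x = 1 := by
  have h : (x - 1) ^ q = 0 := by rw [sub_pow_char, hx, one_pow, sub_self]
  exact sub_eq_zero.1 (pow_eq_zero_iff (Fact.out : q.Prime).ne_zero |>.1 h)

end RootsOfUnity

/-! ### Residues on the generators -/

section Residues

variable (B : ValuationSubring (AlgebraicClosure ℚ)) (hB : B.LiesOverPrime q)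
variable (hqM : ¬ q ∣ M) {ζ : Kbˣ} (hζ : IsPrimitiveRoot ζ q) {b : ℕ} (hb : b < q - 1)

local notation "kB" => IsLocalRing.ResidueField B

include hζ in
theorem zeta_pow_pow : (ζ ^ (b + 1)) ^ q = 1 := by
  rw [← pow_mul, mul_comm, pow_mul, hζ.pow_eq_one, one_pow]

include hζ hb in
theorem zeta_pow_ne_one : ζ ^ (b + 1) ≠ 1 := by
  intro h
  have h1 := hζ.dvd_of_pow_eq_one _ h
  have h2 := Nat.le_of_dvd (Nat.succ_pos b) h1
  omega

/-- `σ_b` on constants. -/
theorem sigmaB_algebraMap (c : Kb) :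
    sigmaB hqM hζ hb (algebraMap Kb (Fb (M * q * q)) c) = HahnSeries.C c := by
  have h1 : algebraMap Kb (Fb (M * q * q)) c = alpha2 M q (algebraMap Kb (Fb (M * q)) c) :=
    ((alpha2 M q).commutes c).symm
  rw [h1, sigmaB_alpha2]
  show algebraMap Kb (LaurentSeries Kb) c = _
  rw [algebraMap_laurentSeries_eq_single]
  rfl

include hB in
/-- `σ_b j(s^{q²}) = j(ζ^{b+1} s)` comes from `B((s))`, with reduction `j̃`. -/
theorem exists_aIota_sigmaB_jqq :
    ∃ y : LaurentSeries B, aIota B y = sigmaB hqM hζ hb (jqq M q) ∧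
      aRed (IsLocalRing.residue B) y = jqModC kB := by
  haveI := charP_kB B hB
  obtain ⟨zB, hzB, hzBq⟩ := exists_unitB B hq.out.ne_zero (zeta_pow_pow hζ (b := b))
  refine ⟨scale zB (jqModC B), ?_, ?_⟩
  · rw [sigmaB_jqq, aIota, coeffMap_scale, ModularCurve.coeffMap_jqModC]
    congr 2
    apply Units.ext
    rw [Units.coe_map]
    exact hzB
  · rw [aRed, coeffMap_scale, ModularCurve.coeffMap_jqModC]
    have h1 : Units.map (IsLocalRing.residue B : B →* kB) zB = 1 := by
      apply Units.ext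
      rw [Units.coe_map, Units.val_one]
      apply residue_eq_one_of_pow_eq_one q
      have := congrArg (fun u : Bˣ => IsLocalRing.residue B (u : B)) hzBq
      simpa using this
    rw [h1, scale_one_apply]

include hB in
theorem jqq_mem_w2 : jqq M q ∈ w2 B hB hqM hζ hb := by
  obtain ⟨y, hy, -⟩ := exists_aIota_sigmaB_jqq B hB hqM hζ hb
  rw [mem_w2_iff, ← hy]
  exact aIota_mem_gaussRingA B _ y

/-- `res_{w₂ b} j(s^{q²}) = j̃`. -/
theorem resw2_jqq :
    resw2 B hB hqM hζ hb ⟨jqq M q, jqq_mem_w2 B hB hqM hζ hb⟩ = jqModC kB := by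
  obtain ⟨y, hy, hred⟩ := exists_aIota_sigmaB_jqq B hB hqM hζ hb
  rw [resw2_apply, ← hred, ← gaussResA_aIota B (IsLocalRing.residue B) y]
  exact Fermat.Agent.BR.ResGen.gaussResA_congr B _ _ hy.symm

theorem jBar_mem_O1 : jBar (M * q) ∈ O1 M B hB := by
  rw [jBar_eq_jBarD_one]
  exact jBarD_mem_O1 B hB 1 (one_dvd M)

theorem res1_jBar : res1 M B hB ⟨jBar (M * q), jBar_mem_O1 B hB⟩ = jqModC kB := by
  have h := res1_jBarD B hB 1 (one_dvd M)
  rw [jqNModC_one] at h
  rw [← h]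
  congr 1
  exact Subtype.ext (jBar_eq_jBarD_one (M * q))

include hB in
theorem U_mem_w2 : U M q ∈ w2 B hB hqM hζ hb :=
  sub_mem (jqq_mem_w2 B hB hqM hζ hb)
    ((alpha2_mem_w2_iff B hB hqM hζ hb _).2 (jBar_mem_O1 B hB))

/-- `res_{w₂ b} U = 0`: `U` is a non-unit of every middle valuation. -/
theorem resw2_U : resw2 B hB hqM hζ hb ⟨U M q, U_mem_w2 B hB hqM hζ hb⟩ = 0 := by
  have h : (⟨U M q, U_mem_w2 B hB hqM hζ hb⟩ : w2 B hB hqM hζ hb) =
      ⟨jqq M q, jqq_mem_w2 B hB hqM hζ hb⟩ -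
        ⟨alpha2 M q (jBar (M * q)),
          (alpha2_mem_w2_iff B hB hqM hζ hb _).2 (jBar_mem_O1 B hB)⟩ := rfl
  rw [h, map_sub, resw2_jqq, resw2_alpha2 B hB hqM hζ hb _ (jBar_mem_O1 B hB), res1_jBar,
    sub_self]

theorem U_mem_nonunits_w2 : U M q ∈ (w2 B hB hqM hζ hb).nonunits :=
  (mem_nonunits_w2_iff B hB hqM hζ hb (U_mem_w2 B hB hqM hζ hb)).2 (resw2_U B hB hqM hζ hb)

variable (M q) in
/-- `Ũ_z = U / (z - 1)` for a constant `z`. -/
def Utilde (z : Kb) : Fb (M * q * q) := U M q * algebraMap Kb (Fb (M * q * q)) (z - 1)⁻¹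

include hB in
/-- `σ_b (U / (ζ^{b+1} - 1))` is the difference quotient of `j`, an integral series reducing to
`θ j̃`. -/
theorem exists_aIota_sigmaB_Utilde :
    ∃ y : LaurentSeries B, aIota B y = sigmaB hqM hζ hb (Utilde M q ((ζ ^ (b + 1) : Kbˣ) : Kb)) ∧
      aRed (IsLocalRing.residue B) y = thetaL kB (jqModC kB) := by
  haveI := charP_kB B hB
  obtain ⟨zB, hzB, hzBq⟩ := exists_unitB B hq.out.ne_zero (zeta_pow_pow hζ (b := b))
  have hres : IsLocalRing.residue B (zB : B) = 1 := by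
    apply residue_eq_one_of_pow_eq_one q
    have := congrArg (fun u : Bˣ => IsLocalRing.residue B (u : B)) hzBq
    simpa using this
  have hne : ((ζ ^ (b + 1) : Kbˣ) : Kb) - 1 ≠ 0 := by
    intro h
    apply zeta_pow_ne_one hζ hb
    exact Units.ext (by rw [Units.val_one]; exact sub_eq_zero.1 h)
  refine ⟨diffQuot zB (jqModC B), ?_, ?_⟩
  · have h1 : HahnSeries.C ((((zB : B) - 1 : B)) : Kb) * aIota B (diffQuot zB (jqModC B)) =
        aIota B (scale zB (jqModC B)) - aIota B (jqModC B) := by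
      rw [← aIota_C, ← map_mul, ← map_sub, C_mul_diffQuot]
    have h2 : aIota B (scale zB (jqModC B)) = sigmaB hqM hζ hb (jqq M q) := by
      rw [sigmaB_jqq, aIota, coeffMap_scale, ModularCurve.coeffMap_jqModC]
      congr 2
      apply Units.ext
      rw [Units.coe_map]
      exact hzB
    have h3 : aIota B (jqModC B) = sigmaB hqM hζ hb (alpha2 M q (jBar (M * q))) := by
      rw [sigmaB_alpha2, coe_jBar, aIota, ModularCurve.coeffMap_jqModC]
    have h4 : (((zB : B) - 1 : B) : Kb) = ((ζ ^ (b + 1) : Kbˣ) : Kb) - 1 := by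
      rw [← hzB]
      rfl
    have h5 : sigmaB hqM hζ hb (jqq M q) - sigmaB hqM hζ hb (alpha2 M q (jBar (M * q))) =
        sigmaB hqM hζ hb (U M q) := by
      rw [← map_sub]
      rfl
    rw [h2, h3, h5, h4] at h1
    rw [Utilde, map_mul, sigmaB_algebraMap, ← h1, mul_comm, ← mul_assoc, ← map_mul,
      inv_mul_cancel₀ hne, map_one, one_mul]
  · rw [aRed, coeffMap_diffQuot _ zB hres, ModularCurve.coeffMap_jqModC]

include hB in
theorem Utilde_mem_w2 : Utilde M q ((ζ ^ (b + 1) : Kbˣ) : Kb) ∈ w2 B hB hqM hζ hb := by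
  obtain ⟨y, hy, -⟩ := exists_aIota_sigmaB_Utilde B hB hqM hζ hb
  rw [mem_w2_iff, ← hy]
  exact aIota_mem_gaussRingA B _ y

/-- **The Kummer generator**: `res_{w₂ b} (U / (ζ^{b+1} - 1)) = θ j̃`. -/
theorem resw2_Utilde :
    resw2 B hB hqM hζ hb ⟨Utilde M q ((ζ ^ (b + 1) : Kbˣ) : Kb), Utilde_mem_w2 B hB hqM hζ hb⟩ =
      thetaL kB (jqModC kB) := by
  obtain ⟨y, hy, hred⟩ := exists_aIota_sigmaB_Utilde B hB hqM hζ hb
  rw [resw2_apply, ← hred, ← gaussResA_aIota B (IsLocalRing.residue B) y]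
  exact Fermat.Agent.BR.ResGen.gaussResA_congr B _ _ hy.symm

/-! #### The split sheet `w₁`: `U` is a unit there -/

theorem jqq_mem_w1 : jqq M q ∈ w1 M B hB := by
  unfold jqq
  exact jBarD_mul_mem_O1 (M := M * q) B hB q (dvd_mul_left q M)

/-- `res_{w₁} j(s^{q²}) = j̃^{q²}`. -/
theorem resw1_jqq : resw1 M B hB ⟨jqq M q, jqq_mem_w1 B hB⟩ = jqModC kB ^ (q * q) := by
  haveI := charP_kB B hB
  have h := res1_jBarD_mul (M := M * q) B hB q (dvd_mul_left q M)
  have h2 : jqNModC kB q = jqModC kB ^ q := by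
    have h3 := jqNModC_mul_char kB q 1
    rw [jqNModC_one] at h3
    rw [← h3]
    exact qExpand_congr (one_mul q).symm _
  rw [h2, ← pow_mul] at h
  rw [← h]
  rfl

theorem U_mem_w1 : U M q ∈ w1 M B hB :=
  sub_mem (jqq_mem_w1 B hB) ((alpha2_mem_w1_iff B hB _).2 (jBar_mem_O1 B hB))

/-- `res_{w₁} U = j̃^{q²} - j̃`. -/
theorem resw1_U :
    resw1 M B hB ⟨U M q, U_mem_w1 B hB⟩ = jqModC kB ^ (q * q) - jqModC kB := by
  have h : (⟨U M q, U_mem_w1 B hB⟩ : w1 M B hB) =
      ⟨jqq M q, jqq_mem_w1 B hB⟩ -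
        ⟨alpha2 M q (jBar (M * q)), (alpha2_mem_w1_iff B hB _).2 (jBar_mem_O1 B hB)⟩ := rfl
  rw [h, map_sub, resw1_jqq, resw1_alpha2 B hB _ (jBar_mem_O1 B hB), res1_jBar]

theorem resw1_U_ne_zero : resw1 M B hB ⟨U M q, U_mem_w1 B hB⟩ ≠ 0 := by
  rw [resw1_U]
  intro h0
  have heq : jqModC kB ^ (q * q) = jqModC kB := sub_eq_zero.1 h0
  have hord := congrArg HahnSeries.order heq
  rw [HahnSeries.order_pow, Fermat.Agent.BR.TwoValInst.order_jqModC B] at hord
  have hq2 : 2 ≤ q := hq.out.two_le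
  have h4 : (4 : ℤ) ≤ ((q * q : ℕ) : ℤ) := by
    have : 4 ≤ q * q := by nlinarith
    exact_mod_cast this
  simp only [nsmul_eq_mul, mul_neg, mul_one] at hord
  omega

/-- `U` is a unit of `w₁`. -/
theorem U_notMem_nonunits_w1 : U M q ∉ (w1 M B hB).nonunits := fun h =>
  resw1_U_ne_zero B hB ((Fermat.Agent.BR.TwoValInst.mem_nonunits_O1_iff (M := M * q) B hB (U_mem_w1 B hB)).1 h)

/-- the middle valuations differ from `w₁` -/
theorem w2_ne_w1 : w2 B hB hqM hζ hb ≠ w1 M B hB := fun h =>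
  U_notMem_nonunits_w1 B hB (h ▸ U_mem_nonunits_w2 B hB hqM hζ hb)

end Residues

end Fermat.Agent.BR3.FibreProd
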