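import Fermat.Agent.BR3.ALSq
import Fermat.Agent.BR3.GaussApproxAny
import Fermat.Agent.BR3.FibreProdMid
import Fermat.Agent.BR.TwoValInst
import Fermat.Agent.BR.GaussCompare

/-!
# Program C, node (C-ALSQ), part 2: the component `cZero` of the special fibre of `X₀(Mq²)`

`cZero := w₁ ∘ W_{q²}` is the Gauss valuation of `F̄_{Mq²}` for the expansion at the cusp `0`
(BOARD v1.3: `cInf = w1`, `cZero = w1 ∘ W_{q²}`, the middle components are `w2 b`).

* `cZero`, `resZero : cZero →+* k((q))`, `resZero x = res_{w₁} (W_{q²} x)`;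
* restrictions, in the shape of `FibreProd.comap_alpha2_w1` … `resw1_beta2`:
  `comap_alpha2_cZero`, `comap_beta2_cZero` (`= O2`, the component `et` of `X₀(Mq)`),
  `resZero_alpha2 = V ∘ res₂` (`f = q`, purely inseparable along `α₂`),
  `resZero_beta2 = res₂` (`f = 1` along `β₂`);
* `mem_nonunits_cZero_iff`, `arch_cZero`, `range_resZero`;
* `W2_U : W_{q²} U = -U`, `U` is a unit at `cZero`; `cZero_ne_w1`, `w2_ne_cZero`;
* `compare_w1`, `compare_cZero`, `approx_cZero` (verbatim `ConstRed.approx` for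
  `(cZero, resZero)`).
-/

set_option autoImplicit false
set_option linter.style.haveILetI false
set_option linter.unusedSectionVars false

noncomputable section

set_option synthInstance.maxHeartbeats 400000

namespace Fermat.Agent.BR3.CZero

open ModularCurve AlgebraicCurve HahnSeries Fermat.Agent.X0 Fermat.Agent.Val
open Fermat.Agent.Hecke.AL Fermat.Agent.BR.TwoVal Fermat.Agent.BR.ResGen
open Fermat.Agent.BR3.FibreProd Fermat.Agent.BR3.ALSq

variable {M q : ℕ} [NeZero M] [hq : Fact q.Prime]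
variable (B : ValuationSubring (AlgebraicClosure ℚ)) (hB : B.LiesOverPrime q) (hqM : ¬ q ∣ M)

local notation "kB" => IsLocalRing.ResidueField B

/-- **The component `cZero`**: `w₁ ∘ W_{q²}`, the Gauss valuation subring of `F̄_{Mq²}` for the
expansion at the cusp `0`. -/
def cZero : ValuationSubring (Fb (M * q * q)) :=
  (w1 M B hB).comap
    ((W2 hqM : Fb (M * q * q) ≃ₐ[Kb] Fb (M * q * q)) : Fb (M * q * q) →+* Fb (M * q * q))

theorem mem_cZero_iff {x : Fb (M * q * q)} :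
    x ∈ cZero B hB hqM ↔ W2 hqM x ∈ w1 M B hB := Iff.rfl

theorem W2_mem_w1_iff {x : Fb (M * q * q)} :
    W2 hqM x ∈ w1 M B hB ↔ x ∈ cZero B hB hqM := Iff.rfl

theorem W2_mem_cZero_iff {x : Fb (M * q * q)} :
    W2 hqM x ∈ cZero B hB hqM ↔ x ∈ w1 M B hB := by
  rw [mem_cZero_iff, W2_W2]

/-- `W_{q²}` as a ring homomorphism `cZero → w₁`. -/
def W2O : cZero B hB hqM →+* w1 M B hB where
  toFun x := ⟨W2 hqM (x : Fb (M * q * q)), x.2⟩
  map_one' := Subtype.ext (map_one _)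
  map_mul' _ _ := Subtype.ext (map_mul _ _ _)
  map_zero' := Subtype.ext (map_zero _)
  map_add' _ _ := Subtype.ext (map_add _ _ _)

@[simp]
theorem coe_W2O (x : cZero B hB hqM) :
    ((W2O B hB hqM x : w1 M B hB) : Fb (M * q * q)) = W2 hqM (x : Fb (M * q * q)) := rfl

theorem W2O_surjective : Function.Surjective (W2O B hB hqM) := fun y =>
  ⟨⟨W2 hqM (y : Fb (M * q * q)), (W2_mem_cZero_iff B hB hqM).2 y.2⟩,
    Subtype.ext (W2_W2 hqM _)⟩

theorem W2O_injective : Function.Injective (W2O B hB hqM) := fun x y h =>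
  Subtype.ext ((W2 hqM).injective (congrArg Subtype.val h))

/-- **The residue map of `cZero`**, with values in `k((q))`: `resZero x = res_{w₁} (W_{q²} x)`. -/
def resZero : cZero B hB hqM →+* LaurentSeries kB :=
  (resw1 M B hB).comp (W2O B hB hqM)

theorem resZero_apply (x : cZero B hB hqM) :
    resZero B hB hqM x = resw1 M B hB (W2O B hB hqM x) := rfl

/-- `resZero` and `res_{w₁}` have the same image. -/
theorem range_resZero : (resZero B hB hqM).range = (resw1 M B hB).range := by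
  ext y
  constructor
  · rintro ⟨x, rfl⟩
    exact ⟨W2O B hB hqM x, rfl⟩
  · rintro ⟨x, rfl⟩
    obtain ⟨x', rfl⟩ := W2O_surjective B hB hqM x
    exact ⟨x', rfl⟩

/-! ### Restrictions along `α₂`, `β₂` -/

theorem alpha2_mem_cZero_iff (x : Fb (M * q)) :
    alpha2 M q x ∈ cZero B hB hqM ↔ x ∈ O2 B hB hqM := by
  rw [mem_cZero_iff, W2_alpha2, beta2_mem_w1_iff, Wq_mem_O1_iff]

theorem beta2_mem_cZero_iff (x : Fb (M * q)) :
    beta2 M q x ∈ cZero B hB hqM ↔ x ∈ O2 B hB hqM := by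
  rw [mem_cZero_iff, W2_beta2, alpha2_mem_w1_iff, Wq_mem_O1_iff]

/-- `cZero ∘ α₂ = O2`: along `α₂`, `cZero` lies over the component `et` of `X₀(Mq)`. -/
theorem comap_alpha2_cZero :
    (cZero B hB hqM).comap (alpha2 M q : Fb (M * q) →+* Fb (M * q * q)) = O2 B hB hqM := by
  ext x
  rw [ValuationSubring.mem_comap]
  exact alpha2_mem_cZero_iff B hB hqM x

/-- `cZero ∘ β₂ = O2`: along `β₂`, `cZero` lies over the component `et` of `X₀(Mq)`. -/
theorem comap_beta2_cZero :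
    (cZero B hB hqM).comap (beta2 M q : Fb (M * q) →+* Fb (M * q * q)) = O2 B hB hqM := by
  ext x
  rw [ValuationSubring.mem_comap]
  exact beta2_mem_cZero_iff B hB hqM x

/-- `res_{cZero} ∘ α₂ = V ∘ res₂` (`f = q`, purely inseparable). -/
theorem resZero_alpha2 (x : Fb (M * q)) (hx : x ∈ O2 B hB hqM) :
    resZero B hB hqM ⟨alpha2 M q x, (alpha2_mem_cZero_iff B hB hqM x).2 hx⟩ =
      qExpand kB q (res2 B hB hqM ⟨x, hx⟩) := by
  have hx1 : Wq hqM x ∈ O1 M B hB := (mem_O2_iff B hB hqM).1 hx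
  have h : W2O B hB hqM ⟨alpha2 M q x, (alpha2_mem_cZero_iff B hB hqM x).2 hx⟩ =
      ⟨beta2 M q (Wq hqM x), (beta2_mem_w1_iff B hB _).2 hx1⟩ :=
    Subtype.ext (W2_alpha2 hqM x)
  rw [resZero_apply, h, resw1_beta2 B hB _ hx1]
  rfl

/-- `res_{cZero} ∘ β₂ = res₂` (`f = 1`). -/
theorem resZero_beta2 (x : Fb (M * q)) (hx : x ∈ O2 B hB hqM) :
    resZero B hB hqM ⟨beta2 M q x, (beta2_mem_cZero_iff B hB hqM x).2 hx⟩ =
      res2 B hB hqM ⟨x, hx⟩ := by
  have hx1 : Wq hqM x ∈ O1 M B hB := (mem_O2_iff B hB hqM).1 hx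
  have h : W2O B hB hqM ⟨beta2 M q x, (beta2_mem_cZero_iff B hB hqM x).2 hx⟩ =
      ⟨alpha2 M q (Wq hqM x), (alpha2_mem_w1_iff B hB _).2 hx1⟩ :=
    Subtype.ext (W2_beta2 hqM x)
  rw [resZero_apply, h, resw1_alpha2 B hB _ hx1]
  rfl

/-! ### Nonunits, rank one -/

theorem mem_nonunits_cZero_iff_W2 {x : Fb (M * q * q)} :
    x ∈ (cZero B hB hqM).nonunits ↔ W2 hqM x ∈ (w1 M B hB).nonunits := by
  rw [ValuationSubring.mem_nonunits_iff_or, ValuationSubring.mem_nonunits_iff_or, mem_cZero_iff,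
    map_inv₀, map_eq_zero_iff _ (W2 hqM).injective]

theorem mem_nonunits_w1_iff_W2 {x : Fb (M * q * q)} :
    x ∈ (w1 M B hB).nonunits ↔ W2 hqM x ∈ (cZero B hB hqM).nonunits := by
  rw [mem_nonunits_cZero_iff_W2, W2_W2]

/-- Nonunits of `cZero` are the elements of residue zero. -/
theorem mem_nonunits_cZero_iff {x : Fb (M * q * q)} (hx : x ∈ cZero B hB hqM) :
    x ∈ (cZero B hB hqM).nonunits ↔ resZero B hB hqM ⟨x, hx⟩ = 0 := by
  rw [mem_nonunits_cZero_iff_W2,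
    Fermat.Agent.BR.TwoValInst.mem_nonunits_O1_iff (M := M * q) B hB
      ((mem_cZero_iff B hB hqM).1 hx)]
  rfl

/-- `cZero` has rank one (element form). -/
theorem arch_cZero : Arch (cZero B hB hqM) := by
  intro x u hu hu0
  have hu' := (mem_nonunits_cZero_iff_W2 B hB hqM).1 hu
  have hu0' : W2 hqM u ≠ 0 := fun h => hu0 ((map_eq_zero_iff _ (W2 hqM).injective).1 h)
  obtain ⟨n, hn⟩ := Fermat.Agent.BR.TwoValInst.arch_O1 (M := M * q) B hB (W2 hqM x) (W2 hqM u)
    hu' hu0'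
  refine ⟨n, ?_⟩
  rw [mem_cZero_iff, map_mul, map_pow]
  exact hn

/-- `cZero ≠ w₁`: their restrictions along `α₂` are `O2 ≠ O1`. -/
theorem cZero_ne_w1 : cZero B hB hqM ≠ w1 M B hB := fun h => by
  have h1 := comap_alpha2_cZero B hB hqM
  rw [h, comap_alpha2_w1] at h1
  exact Fermat.Agent.BR.TwoValInst.O1_ne_O2 B hB hqM h1

/-! ### The Kummer element `U = j(q^{q²}) - j(q)` -/

/-- `W_{q²} j(q^{q²}) = j(q)`. -/
theorem W2_jqq : W2 hqM (jqq M q) = alpha2 M q (jBar (M * q)) := by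
  haveI : NeZero (1 * q * q) := ⟨by rw [one_mul]; exact NeZero.ne (q * q)⟩
  have e1 : jqq M q = jBarD (M * q * q) (1 * q * q) (dvd_Mqq_2 1 (one_dvd M)) := by
    unfold jqq
    exact jBarD_congr _ (by rw [one_mul]) _ _
  rw [e1, W2_jBarD_2 hqM 1 (one_dvd M), jBar_eq_jBarD_one, heckeAlphaBar_jBarD]

/-- `W_{q²} j(q) = j(q^{q²})`. -/
theorem W2_alpha2_jBar : W2 hqM (alpha2 M q (jBar (M * q))) = jqq M q := by
  rw [← W2_jqq hqM, W2_W2]

/-- `W_{q²} U = -U`. -/
theorem W2_U : W2 hqM (U M q) = -U M q := by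
  unfold U
  rw [map_sub, W2_jqq, W2_alpha2_jBar]
  ring

theorem U_mem_cZero : U M q ∈ cZero B hB hqM := by
  rw [mem_cZero_iff, W2_U]
  exact neg_mem (U_mem_w1 B hB)

/-- `U` is a unit of `cZero`. -/
theorem U_notMem_nonunits_cZero : U M q ∉ (cZero B hB hqM).nonunits := by
  rw [mem_nonunits_cZero_iff_W2, W2_U]
  intro h
  exact U_notMem_nonunits_w1 B hB (by simpa using neg_mem_nonunits _ h)

/-- `res_{cZero} U = j̃ - j̃^{q²}`. -/
theorem resZero_U :
    resZero B hB hqM ⟨U M q, U_mem_cZero B hB hqM⟩ = jqModC kB - jqModC kB ^ (q * q) := by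
  have h : W2O B hB hqM ⟨U M q, U_mem_cZero B hB hqM⟩ = -⟨U M q, U_mem_w1 B hB⟩ :=
    Subtype.ext (W2_U hqM)
  rw [resZero_apply, h, map_neg, resw1_U]
  ring

/-- the middle valuations differ from `cZero` -/
theorem w2_ne_cZero {ζ : Kbˣ} (hζ : IsPrimitiveRoot ζ q) {b : ℕ} (hb : b < q - 1) :
    w2 B hB hqM hζ hb ≠ cZero B hB hqM := fun h =>
  U_notMem_nonunits_cZero B hB hqM (h ▸ U_mem_nonunits_w2 B hB hqM hζ hb)

/-! ### Compare -/

theorem W2_smul (c : Kb) (x : Fb (M * q * q)) : W2 hqM (c • x) = c • W2 hqM x := by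
  rw [Algebra.smul_def, map_mul, AlgEquiv.commutes, ← Algebra.smul_def]

/-- **Compare for `w₁`.** -/
theorem compare_w1 {m : ℕ} (v : Fin m → Fb (M * q * q)) (hv : LinearIndependent Kb v) :
    ∃ c : Kb, c ≠ 0 ∧ ∀ a : Fin m → Kb,
      ∑ i, a i • v i ∈ w1 M B hB → ∀ i, c * a i ∈ B :=
  Fermat.Agent.BR.GaussCompare.compare (M * q * q) hq.out.ne_zero B hB v hv

/-- **Compare for `cZero`.** -/
theorem compare_cZero {m : ℕ} (v : Fin m → Fb (M * q * q)) (hv : LinearIndependent Kb v) :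
    ∃ c : Kb, c ≠ 0 ∧ ∀ a : Fin m → Kb,
      ∑ i, a i • v i ∈ cZero B hB hqM → ∀ i, c * a i ∈ B := by
  have hv' : LinearIndependent Kb (fun i => W2 hqM (v i)) :=
    hv.map' (W2 hqM).toLinearMap (LinearMap.ker_eq_bot.2 (W2 hqM).injective)
  obtain ⟨c, hc, h⟩ := compare_w1 B hB _ hv'
  refine ⟨c, hc, fun a ha => h a ?_⟩
  rw [mem_cZero_iff, map_sum] at ha
  simpa only [W2_smul] using ha

/-! ### Best approximation -/

/-- **Best approximation for `cZero`** (verbatim the field `approx` of `Val.ConstRed` for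
`(cZero, resZero)`). -/
theorem approx_cZero (V : Submodule Kb (Fb (M * q * q))) (hV : Module.Finite Kb V)
    (y : Fb (M * q * q)) (hy : y ∉ V) :
    ∃ w ∈ V, ∃ c : Kb, c ≠ 0 ∧ ∃ h : c • (y - w) ∈ cZero B hB hqM,
      ∀ z : cZero B hB hqM, (z : Fb (M * q * q)) ∈ V →
        resZero B hB hqM z ≠ resZero B hB hqM ⟨c • (y - w), h⟩ := by
  let V' : Submodule Kb (Fb (M * q * q)) := V.map (W2 hqM).toLinearMap
  haveI : Module.Finite Kb V := hV
  have hV' : Module.Finite Kb V' := Module.Finite.map V (W2 hqM).toLinearMap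
  have hy' : W2 hqM y ∉ V' := by
    rintro ⟨v, hv, hvy⟩
    have : v = y := (W2 hqM).injective hvy
    exact hy (this ▸ hv)
  obtain ⟨w', hw', c, hc, h, hne⟩ := GaussApproxAny.approx_w1 B hB V' hV' (W2 hqM y) hy'
  obtain ⟨w, hw, rfl⟩ := hw'
  have hmem : c • (y - w) ∈ cZero B hB hqM := by
    rw [mem_cZero_iff, W2_smul, map_sub]
    exact h
  refine ⟨w, hw, c, hc, hmem, fun z hz => ?_⟩
  have h1 : W2O B hB hqM ⟨c • (y - w), hmem⟩ =
      ⟨c • (W2 hqM y - (W2 hqM).toLinearMap w), h⟩ :=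
    Subtype.ext (by rw [coe_W2O, W2_smul, map_sub]; rfl)
  rw [resZero_apply, resZero_apply, h1]
  exact hne (W2O B hB hqM z) ⟨(z : Fb (M * q * q)), hz, rfl⟩

end Fermat.Agent.BR3.CZero
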