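import Fermat.Agent.BR3.CZero
import Fermat.Agent.BR3.CInfRes

/-!
# Program C, node I7 (M1): the component `cZero` of `X₀(Mq²)` as a constant reduction with residue
field `F̃_M`

Mirror of `BR3/CInfRes.lean` (helper23) through `W_{q²}`: `cZero = w₁ ∘ W_{q²}`.

* `exists_beta2_sub_mem_nonunits` : **`f(cZero | et) = 1` along `β₂`**;
* `resZ : cZero →+* F̃_M` (`coe_resZ = resZero`), `resZ_surjective`, `resZ_eq_zero_iff`,
  `resZ_eq_zero_iff_mem_nonunits`, `resZ_beta2` (compatibility with the residue map of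
  `constRedW2` along `β₂`), `coe_resZ_alpha2` (`= V ∘ res₂` along `α₂`), `resZ_algebraMap`;
* `constRedCZero : ConstRed (F := Fb (M * q * q)) (Ft := F̃_M) B (residue B)` with `.O = cZero`,
  `.res = resZ`, `approx := CZero.approx_cZero`.
-/

set_option autoImplicit false
set_option linter.style.haveILetI false
set_option linter.unusedSectionVars false

noncomputable section

set_option synthInstance.maxHeartbeats 400000

namespace Fermat.Agent.BR3.CZeroRes

open ModularCurve AlgebraicCurve HahnSeries Fermat.Agent.X0 Fermat.Agent.Val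
open Fermat.Agent.Hecke.AL Fermat.Agent.BR.TwoVal Fermat.Agent.BR.ResGen
open Fermat.Agent.BR.TwoValInst Fermat.Agent.BR.ConstRedTwo Fermat.Agent.BR3.FibreProd
open Fermat.Agent.BR3.ALSq Fermat.Agent.BR3.CZero Fermat.Agent.BR3.CInfRes

variable {M q : ℕ} [NeZero M] [hq : Fact q.Prime]
variable (B : ValuationSubring (AlgebraicClosure ℚ)) (hB : B.LiesOverPrime q) (hqM : ¬ q ∣ M)

local notation "kB" => IsLocalRing.ResidueField B
local notation "FtM" => modularFunctionFieldFullC (IsLocalRing.ResidueField B) M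

/-- **`f(cZero | et) = 1` along `β₂`**: every element of `cZero` is congruent modulo the maximal
ideal to an element of `β₂ (O2)`. -/
theorem exists_beta2_sub_mem_nonunits {x : Fb (M * q * q)} (hx : x ∈ cZero B hB hqM) :
    ∃ c ∈ O2 B hB hqM, x - beta2 M q c ∈ (cZero B hB hqM).nonunits := by
  obtain ⟨c, hc, hd⟩ := exists_alpha2_sub_mem_nonunits B hB hqM ((mem_cZero_iff B hB hqM).1 hx)
  refine ⟨Wq hqM c, (Wq_mem_O2_iff B hB hqM).2 hc, ?_⟩
  rw [mem_nonunits_cZero_iff_W2, map_sub, W2_beta2, Wq_Wq]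
  exact hd

/-- **The residue map of `cZero`**, with values in `F̃_M`. -/
def resZ : cZero B hB hqM →+* FtM :=
  (resInf B hB hqM).comp (W2O B hB hqM)

@[simp]
theorem coe_resZ (x : cZero B hB hqM) :
    ((resZ B hB hqM x : FtM) : LaurentSeries kB) = resZero B hB hqM x := rfl

theorem resZ_apply (x : cZero B hB hqM) :
    resZ B hB hqM x = resInf B hB hqM (W2O B hB hqM x) := rfl

/-- compatibility with the residue map of `et` along `β₂` -/
theorem resZ_beta2 (x : Fb (M * q)) (hx : x ∈ O2 B hB hqM) :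
    resZ B hB hqM ⟨beta2 M q x, (beta2_mem_cZero_iff B hB hqM x).2 hx⟩ =
      (constRedW2 B hB hqM).res ⟨x, hx⟩ := by
  apply Subtype.ext
  rw [coe_resZ, resZero_beta2 B hB hqM x hx]
  exact (coe_constRedW2_res B hB hqM ⟨x, hx⟩).symm

/-- along `α₂` the residue map of `cZero` is `V ∘ res₂` (purely inseparable of degree `q`) -/
theorem coe_resZ_alpha2 (x : Fb (M * q)) (hx : x ∈ O2 B hB hqM) :
    ((resZ B hB hqM ⟨alpha2 M q x, (alpha2_mem_cZero_iff B hB hqM x).2 hx⟩ : FtM) :
      LaurentSeries kB) = qExpand kB q (res2 B hB hqM ⟨x, hx⟩) := by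
  rw [coe_resZ, resZero_alpha2 B hB hqM x hx]

theorem resZ_surjective : Function.Surjective (resZ B hB hqM) := by
  intro t
  obtain ⟨a, ha⟩ := (constRedW2 B hB hqM).res_surjective t
  refine ⟨⟨beta2 M q (a : Fb (M * q)), (beta2_mem_cZero_iff B hB hqM _).2 a.2⟩, ?_⟩
  rw [← ha]
  exact resZ_beta2 B hB hqM (a : Fb (M * q)) a.2

theorem resZ_eq_zero_iff_mem_nonunits (x : cZero B hB hqM) :
    resZ B hB hqM x = 0 ↔ (x : Fb (M * q * q)) ∈ (cZero B hB hqM).nonunits := by
  rw [mem_nonunits_cZero_iff B hB hqM x.2]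
  constructor
  · intro h
    exact congrArg Subtype.val h
  · intro h
    exact Subtype.ext h

theorem resZ_eq_zero_iff (x : cZero B hB hqM) : resZ B hB hqM x = 0 ↔ ¬ IsUnit x := by
  rw [resZ_eq_zero_iff_mem_nonunits, ValuationSubring.coe_mem_nonunits_iff,
    IsLocalRing.mem_maximalIdeal, mem_nonunits_iff]

theorem algebraMap_mem_cZero_iff (c : Kb) :
    algebraMap Kb (Fb (M * q * q)) c ∈ cZero B hB hqM ↔ c ∈ B := by
  rw [mem_cZero_iff, AlgEquiv.commutes]
  exact algebraMap_mem_w1_iff B hB c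

theorem resZ_algebraMap (a : Kb) (ha : a ∈ B)
    (ha' : algebraMap Kb (Fb (M * q * q)) a ∈ cZero B hB hqM) :
    resZ B hB hqM ⟨algebraMap Kb (Fb (M * q * q)) a, ha'⟩ =
      algebraMap kB FtM (IsLocalRing.residue B ⟨a, ha⟩) := by
  have ha'' : algebraMap Kb (Fb (M * q * q)) a ∈ w1 M B hB := (algebraMap_mem_w1_iff B hB a).2 ha
  have h : W2O B hB hqM ⟨algebraMap Kb (Fb (M * q * q)) a, ha'⟩ =
      ⟨algebraMap Kb (Fb (M * q * q)) a, ha''⟩ :=
    Subtype.ext ((W2 hqM).commutes a)
  rw [resZ_apply, h]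
  exact resInf_algebraMap B hB hqM a ha ha''

/-- **The constant reduction `cZero` of `F̄_{Mq²}`**, with residue field `F̃_M`. -/
def constRedCZero : ConstRed (F := Fb (M * q * q)) (Ft := FtM) B (IsLocalRing.residue B) where
  O := cZero B hB hqM
  res := resZ B hB hqM
  res_surjective := resZ_surjective B hB hqM
  res_eq_zero_iff := resZ_eq_zero_iff B hB hqM
  algebraMap_mem_iff := algebraMap_mem_cZero_iff B hB hqM
  res_algebraMap := resZ_algebraMap B hB hqM
  approx := by
    intro V hV y hy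
    obtain ⟨w, hw, c, hc0, h, hne⟩ := approx_cZero B hB hqM V hV y hy
    exact ⟨w, hw, c, hc0, h, fun z hz heq => hne z hz (congrArg Subtype.val heq)⟩

@[simp] theorem constRedCZero_O : (constRedCZero B hB hqM).O = cZero B hB hqM := rfl

@[simp] theorem constRedCZero_res : (constRedCZero B hB hqM).res = resZ B hB hqM := rfl

/-- the two horizontal constant reductions are different -/
theorem constRedCZero_O_ne : (constRedCZero B hB hqM).O ≠ (constRedCInf B hB hqM).O :=
  cZero_ne_w1 B hB hqM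

end Fermat.Agent.BR3.CZeroRes
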