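import Fermat.Agent.BR3.CoverSheetMirror
import Fermat.Agent.BR3.CZeroRes

/-!
# Program C, node SC6 (MIRROR): a cover sheet for `cInf` along `α₂` gives a cover sheet for `cZero`
along `β₂`

Instance of `CoverSheetMirror.coverSheet_mirror` with `φa = α₂`, `φb = β₂`, `σ₁ = W_q`,
`σ₂ = W_{q²}`: the hypotheses `CoverK.CoverSheet` at a point `Q''` of `cInf` over a point `Q'` of
`can` (along `α₂`) are transported to the hypotheses at the same place `Q''` of `F̃_M`, now a point
of `cZero` over the point `Q'` of `et` (along `β₂`); generator `W_{q²} θ`, polynomials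
`W_q Ψ, W_q ψ, W_q ψc`, chart ring `W_q R'`.
-/

set_option autoImplicit false
set_option linter.style.haveILetI false
set_option linter.unusedSectionVars false

noncomputable section

/- S36 build-time patch: file-local shortcut instances. They only shorten instance search;
each is the instance that the search finds anyway (reducible, same terms after unfolding). -/
local instance (priority := 100000) Fermat.Agent.BR3.FastInst.instAlgFullC_CoverSheetMirrorMod
    {k : Type*} [Field k] (N : ℕ) :
    Algebra k ↥(ModularCurve.modularFunctionFieldFullC k N) := inferInstance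
local instance (priority := 100000) Fermat.Agent.BR3.FastInst.instFieldFullC_CoverSheetMirrorMod
    {k : Type*} [Field k] (N : ℕ) :
    Field ↥(ModularCurve.modularFunctionFieldFullC k N) := inferInstance
local instance (priority := 100000) Fermat.Agent.BR3.FastInst.instAlgLaurent_CoverSheetMirrorMod
    {k : Type*} [Field k] : Algebra k (LaurentSeries k) := inferInstance


set_option synthInstance.maxHeartbeats 400000

namespace Fermat.Agent.BR3.CoverSheetMirrorMod

open ModularCurve AlgebraicCurve Polynomial Fermat.Agent.X0 Fermat.Agent.Val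
open Fermat.Agent.Hecke.AL Fermat.Agent.BR.TwoVal Fermat.Agent.BR.ResGen
open Fermat.Agent.BR.ConstRedTwo Fermat.Agent.BR3.FibreProd Fermat.Agent.BR3.ALSq
open Fermat.Agent.BR3.CZero Fermat.Agent.BR3.CInfRes Fermat.Agent.BR3.CZeroRes
open Fermat.Agent.BR3.CoverK Fermat.Agent.BR3.CoverSheetMirror

variable {M q : ℕ} [NeZero M] [hq : Fact q.Prime]
variable (B : ValuationSubring (AlgebraicClosure ℚ)) (hB : B.LiesOverPrime q) (hqM : ¬ q ∣ M)

local notation "kB" => IsLocalRing.ResidueField B
local notation "FtM" => modularFunctionFieldFullC (IsLocalRing.ResidueField B) M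

/-- `res_{et} = res_{can} ∘ W_q` -/
theorem constRedW2_res_eq (x : Fb (M * q)) (hx : x ∈ (constRedW2 B hB hqM).O)
    (hx' : Wq hqM x ∈ (constRedW1 B hB hqM).O) :
    (constRedW2 B hB hqM).res ⟨x, hx⟩ = (constRedW1 B hB hqM).res ⟨Wq hqM x, hx'⟩ := by
  apply Subtype.ext
  rw [coe_constRedW2_res, coe_constRedW1_res]
  rfl

/-- **SC6 from SC1/SC2**: the mirror of a cover sheet of `cInf` over `can` along `α₂` is a cover
sheet of `cZero` over `et` along `β₂`. -/
theorem coverSheet_cZero_of_cInf {Q' Q'' : Place kB FtM} {R' : Subring (Fb (M * q))}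
    {θ : Fb (M * q * q)} {Ψ ψ ψc : (Fb (M * q))[X]} {u : B}
    (H : letI := algebraAlong (alpha2 M q); haveI := isScalarTower_along (alpha2 M q)
      CoverSheet B (IsLocalRing.residue B) (constRedW1 B hB hqM).O (constRedW1 B hB hqM).res Q'
        (constRedCInf B hB hqM).O (constRedCInf B hB hqM).res Q'' R' θ Ψ ψ ψc u) :
    letI := algebraAlong (beta2 M q); haveI := isScalarTower_along (beta2 M q)
    CoverSheet B (IsLocalRing.residue B) (constRedW2 B hB hqM).O (constRedW2 B hB hqM).res Q'
      (constRedCZero B hB hqM).O (constRedCZero B hB hqM).res Q''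
      (R'.map ((Wq hqM : Fb (M * q) ≃ₐ[Kb] Fb (M * q)) : Fb (M * q) →+* Fb (M * q)))
      (W2 hqM θ)
      (Ψ.map ((Wq hqM : Fb (M * q) ≃ₐ[Kb] Fb (M * q)) : Fb (M * q) →+* Fb (M * q)))
      (ψ.map ((Wq hqM : Fb (M * q) ≃ₐ[Kb] Fb (M * q)) : Fb (M * q) →+* Fb (M * q)))
      (ψc.map ((Wq hqM : Fb (M * q) ≃ₐ[Kb] Fb (M * q)) : Fb (M * q) →+* Fb (M * q))) u :=
  coverSheet_mirror (alpha2 M q) (beta2 M q) (Wq hqM) (W2 hqM) (Wq_Wq hqM) (W2_W2 hqM)
    (W2_alpha2 hqM) (fun _ => Iff.rfl) (constRedW2_res_eq B hB hqM) (fun _ => Iff.rfl)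
    (fun _ _ _ => rfl) H

end Fermat.Agent.BR3.CoverSheetMirrorMod
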