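import Mathlib
import Fermat.Agent.BR.S0.AnnulusDescent
import Fermat.Agent.BR.Circle.Basic

/-!
# Program C (S36), spike (C-VERT) / node I2, GLUE part B (circle facts from the levels)

`L : AnnulusLevels A T ι` the level data of the tube of a crossing point (`BR/S0/AnnulusLevels`),
`C := L.core` its `K`-level core, `a` a gauge (`|thick| < |a| < 1`), `O := circleRing C a`,
`res := circleRes C a : O →+* RatFunc k`.

* `isRed_of_sub_const_not_isUnit`, `exists_isRed_const_of_mem_level` : **a function of a level
  reduces to a constant on every circle** (the closed point of the level);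
  `exists_isRed_const_of_isUnit` : a unit of a level reduces to a nonzero constant;
* `mem_circleRing_of_mem_level`, `circleRes_of_mem_level`;
* `valuation_algebraMap_lt` : constants keep their order in the circle valuation.
-/

set_option autoImplicit false
set_option linter.unusedSectionVars false

noncomputable section

namespace Fermat.Agent.BR3.VertCircle

open AlgebraicCurve IsLocalRing Fermat.Agent.Red Fermat.Agent.BR.Centre Fermat.Agent.BR.Circle
  Fermat.Agent.BR.S0 Fermat.Agent.BR.AnnulusRed Fermat.Agent.BR.P1

variable {K F : Type*} [Field K] [Field F] [Algebra K F]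
  {A : ValuationSubring K} [IsAlgClosed (ResidueField A)] {T : Set (Place K F)} {ι : Type*}
  (L : AnnulusLevels A T ι) (a : K)

local notation "k" => ResidueField A

/-- A function of a level which is congruent to the constant `d` at the closed point reduces to the
constant `d̄` on every circle. -/
theorem isRed_of_sub_const_not_isUnit (i : ι) {y : F} (hy : y ∈ (L.level i).R) {d : K}
    (hd : d ∈ A) (hdR : algebraMap K F d ∈ (L.level i).R)
    (hnu : ¬ IsUnit ((⟨y, hy⟩ : (L.level i).R) - ⟨algebraMap K F d, hdR⟩)) :
    IsRed L.core a y (algebraMap k (RatFunc k) (residue A ⟨d, hd⟩)) := by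
  refine ⟨∅, fun P hP _ _ => ?_⟩
  have hval := (L.level i).isValueAt_evalAt hP hy
  have hmem := (L.level i).evalAt_memA hP hy
  refine ⟨evalAt P y, hmem, hval, ?_⟩
  have h1 := (L.level i).valuation_evalAt_lt_one hP hnu
  have h2 : evalAt P (y - algebraMap K F d) = evalAt P y - d := by
    rw [(L.level i).evalAt_sub hP hy hdR, evalAt_eq_of_isValueAt (isValueAt_algebraMap P d)]
  have h3 : A.valuation (evalAt P y - d) < 1 := by
    rw [← h2]
    exact h1
  have h4 : residue A ⟨evalAt P y, hmem⟩ = residue A ⟨d, hd⟩ := by
    rw [← sub_eq_zero, ← map_sub, residue_eq_zero_iff]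
    exact (A.valuation_lt_one_iff _).mpr h3
  rw [h4]
  exact isValueAt_algebraMap _ _

/-- **A function of a level reduces to a constant on every circle.** -/
theorem exists_isRed_const_of_mem_level (i : ι) {y : F} (hy : y ∈ (L.level i).R) :
    ∃ γ : k, IsRed L.core a y (algebraMap k (RatFunc k) γ) := by
  obtain ⟨d, hdR, hnu⟩ := (L.level i).residue ⟨y, hy⟩
  exact ⟨_, isRed_of_sub_const_not_isUnit L a i hy d.2 hdR hnu⟩

variable (ha1 : A.valuation L.core.thick < A.valuation a) (ha2 : A.valuation a < 1)

include ha1 ha2 in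
/-- A unit of a level reduces to a NONZERO constant on every circle. -/
theorem exists_isRed_const_of_isUnit (i : ι) {y : F} (hy : y ∈ (L.level i).R)
    (hu : IsUnit (⟨y, hy⟩ : (L.level i).R)) :
    ∃ γ : k, γ ≠ 0 ∧ IsRed L.core a y (algebraMap k (RatFunc k) γ) := by
  obtain ⟨γ, hγ⟩ := exists_isRed_const_of_mem_level L a i hy
  obtain ⟨y', hy'⟩ := hu.exists_right_inv
  obtain ⟨γ', hγ'⟩ := exists_isRed_const_of_mem_level L a i y'.2
  have h1 := hγ.mul hγ'
  have h2 : y * (y' : F) = 1 := by
    have := congrArg (fun z : (L.level i).R => (z : F)) hy'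
    simpa using this
  rw [h2] at h1
  have h3 := IsRed.unique ha1 ha2 h1 (isRed_one (C := L.core) (a := a))
  refine ⟨γ, fun h0 => ?_, hγ⟩
  rw [h0, map_zero, zero_mul] at h3
  exact zero_ne_one h3

/-- A function of a level lies in every circle ring. -/
theorem mem_circleRing_of_mem_level (i : ι) {y : F} (hy : y ∈ (L.level i).R) :
    y ∈ circleRing L.core a ha1 ha2 := by
  obtain ⟨γ, hγ⟩ := exists_isRed_const_of_mem_level L a i hy
  exact ⟨_, hγ⟩

/-- Constants keep their order in the circle valuation. -/
theorem valuation_algebraMap_lt {d d' : K} (h : A.valuation d < A.valuation d') :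
    (circleRing L.core a ha1 ha2).valuation (algebraMap K F d) <
      (circleRing L.core a ha1 ha2).valuation (algebraMap K F d') := by
  have hd' : d' ≠ 0 := by
    rintro rfl
    rw [map_zero] at h
    exact not_lt_zero h
  have hlt : A.valuation (d / d') < 1 := by
    rw [map_div₀, div_lt_one₀ (by rw [zero_lt_iff, ne_eq, map_eq_zero]; exact hd')]
    exact h
  have hmemA : d / d' ∈ A := (A.valuation_le_one_iff _).mp hlt.le
  have hmem : algebraMap K F (d / d') ∈ circleRing L.core a ha1 ha2 :=
    (algebraMap_mem_circleRing_iff L.core a ha1 ha2 _).mpr hmemA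
  have hres : circleRes L.core a ha1 ha2 ⟨algebraMap K F (d / d'), hmem⟩ = 0 := by
    rw [circleRes_algebraMap L.core a ha1 ha2 _ hmemA]
    have : residue A ⟨d / d', hmemA⟩ = 0 := by
      rw [residue_eq_zero_iff]
      exact (A.valuation_lt_one_iff _).mpr hlt
    rw [this, map_zero]
  have hnu := (circleRes_eq_zero_iff L.core a ha1 ha2 _).mp hres
  have hlt' : (circleRing L.core a ha1 ha2).valuation (algebraMap K F (d / d')) < 1 := by
    have h1 := (circleRing L.core a ha1 ha2).valuation_le_one ⟨algebraMap K F (d / d'), hmem⟩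
    refine lt_of_le_of_ne h1 fun h2 => hnu ?_
    exact ((circleRing L.core a ha1 ha2).valuation_eq_one_iff ⟨_, hmem⟩).mpr h2
  have hd'F : algebraMap K F d' ≠ 0 := (map_ne_zero _).mpr hd'
  rw [map_div₀, map_div₀, div_lt_one₀ (by rw [zero_lt_iff, ne_eq, map_eq_zero]; exact hd'F)]
    at hlt'
  exact hlt'

end Fermat.Agent.BR3.VertCircle
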