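import Fermat.Agent.BR3.FibreProdCofactor

/-!
# Program C, node I1 (FP), part 3: the roots in `evalEval` form, the generator `U`, the mirror

`F₁ = Fb (M * q)`, `F₂ = Fb (M * q * q)`, `α₂ β₂ : F₁ → F₂`.  With `j = jBar (M * q) = j(s)`,
`jq' = j(s^q)` (the *middle* invariant) and `jqq = j(s^{q²})`:

* `beta2_jBar : β₂ j = α₂ jq'`, `beta2_jq' : β₂ jq' = jqq`;
* the root facts `Φ_q(jq', j) = Φ_q(j, jq') = 0` in `F₁` and `Φ_q(α₂ jq', jqq) = Φ_q(jqq, α₂ jq') = 0`
  in `F₂`, in the `Polynomial.evalEval` form used by `BR/NodeKron`;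
* `U = jqq - α₂ j ≠ 0`, `PsiU = G.comp (X + C j)` is its minimal polynomial over `α₂ F₁`
  (`X * PsiU = Φ_q(jq', j + X)`), it generates `F₂`, and every monic `P ∈ F₁[X]` of degree `q`
  killing `U` is `PsiU` (`eq_PsiU_of_monic_of_root`: the glue for an explicit Taylor form);
* the mirror along `β₂`: `α₂ j ∉ β₂ F₁`, `F₂ = β₂F₁(α₂ j)`, minimal polynomial
  `GB = Φ_q(j, X) /ₘ (X - jq')`, and the generator `UB = α₂ j - β₂ jq' = -U`.
-/

set_option autoImplicit false
set_option linter.style.haveILetI false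
set_option linter.unusedSectionVars false

noncomputable section

/- S36 build-time patch: file-local shortcut instances. They only shorten instance search;
each is the instance that the search finds anyway (reducible, same terms after unfolding). -/
local instance (priority := 100000) Fermat.Agent.BR3.FastInst.instAlgFullC_FibreProdRoots
    {k : Type*} [Field k] (N : ℕ) :
    Algebra k ↥(ModularCurve.modularFunctionFieldFullC k N) := inferInstance
local instance (priority := 100000) Fermat.Agent.BR3.FastInst.instFieldFullC_FibreProdRoots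
    {k : Type*} [Field k] (N : ℕ) :
    Field ↥(ModularCurve.modularFunctionFieldFullC k N) := inferInstance
local instance (priority := 100000) Fermat.Agent.BR3.FastInst.instAlgLaurent_FibreProdRoots
    {k : Type*} [Field k] : Algebra k (LaurentSeries k) := inferInstance


set_option synthInstance.maxHeartbeats 400000

namespace Fermat.Agent.BR3.FibreProd

open ModularCurve AlgebraicCurve HahnSeries Polynomial Fermat.Agent.X0 Fermat.Agent.Val
open Fermat.Agent.Hecke.AL Fermat.Agent.Igusa Fermat.Agent.BR.Kron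
open Fermat.Agent.BR.TwoVal Fermat.Agent.BR.ResGen Fermat.Agent.Jac Fermat.Agent.Jac.ALF

variable {M q : ℕ} [NeZero M] [hq : Fact q.Prime]

/-! ### The generators under `α₂`, `β₂` -/

theorem coeB_injective (N : ℕ) : Function.Injective (coeB N) := (coeB N).injective

theorem coeB_beta2 (x : Fb (M * q)) :
    coeB (M * q * q) (beta2 M q x) = qExpand Kb q (coeB (M * q) x) := by
  rw [coeB_apply, coeB_apply, coe_heckeBetaBar]

/-- `β₂ j = α₂ j(s^q)`: the middle invariant. -/
theorem beta2_jBar : beta2 M q (jBar (M * q)) = alpha2 M q (jq' M q) := by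
  apply coeB_injective
  rw [coeB_beta2, coeB_alpha2, coeB_apply, coeB_apply, coe_jBar, coe_jq', J_one_unit]

/-- `β₂ j(s^q) = j(s^{q²})`. -/
theorem beta2_jq' : beta2 M q (jq' M q) = jqq M q := by
  haveI : NeZero (q * q) := ⟨Nat.mul_ne_zero hq.out.ne_zero hq.out.ne_zero⟩
  apply coeB_injective
  rw [coeB_beta2, coeB_apply, coeB_apply, coe_jq', coe_jqq, qExpand_J]

/-! ### The four root facts -/

/-- `Φ_q(inner := j(s^q), outer := j(s)) = 0` in `F₁`. -/
theorem phiK_evalEval_mid_j :
    (phiK q (Fb (M * q))).evalEval (jq' M q) (jBar (M * q)) = 0 := by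
  rw [← Polynomial.map_evalRingHom_eval]
  exact PhiAt_eval_jBar

/-- `Φ_q(inner := j(s), outer := j(s^q)) = 0` in `F₁`. -/
theorem phiK_evalEval_j_mid :
    (phiK q (Fb (M * q))).evalEval (jBar (M * q)) (jq' M q) = 0 := by
  apply coeB_injective (M * q)
  rw [map_zero, map_phiK_evalEval, coeB_apply, coeB_apply, coe_jBar, coe_jq',
    J_one_unit_eq_jqNModC]
  exact phiK_evalEval_jq q hq.out Kb

/-- `Φ_q(inner := α₂ j(s^q), outer := α₂ j(s)) = 0` in `F₂`. -/
theorem phiK_evalEval_mid_j₂ :
    (phiK q (Fb (M * q * q))).evalEval (alpha2 M q (jq' M q)) (alpha2 M q (jBar (M * q))) = 0 := by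
  have h := congrArg (alpha2 M q : Fb (M * q) →+* Fb (M * q * q))
    (phiK_evalEval_mid_j (M := M) (q := q))
  rwa [map_phiK_evalEval, map_zero] at h

/-- `Φ_q(inner := α₂ j(s), outer := α₂ j(s^q)) = 0` in `F₂`. -/
theorem phiK_evalEval_j_mid₂ :
    (phiK q (Fb (M * q * q))).evalEval (alpha2 M q (jBar (M * q))) (alpha2 M q (jq' M q)) = 0 := by
  have h := congrArg (alpha2 M q : Fb (M * q) →+* Fb (M * q * q))
    (phiK_evalEval_j_mid (M := M) (q := q))
  rwa [map_phiK_evalEval, map_zero] at h

/-- `Φ_q(inner := α₂ j(s^q), outer := j(s^{q²})) = 0` in `F₂`. -/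
theorem phiK_evalEval_mid_jqq :
    (phiK q (Fb (M * q * q))).evalEval (alpha2 M q (jq' M q)) (jqq M q) = 0 := by
  rw [← beta2_jBar, ← beta2_jq']
  have h := congrArg (beta2 M q : Fb (M * q) →+* Fb (M * q * q))
    (phiK_evalEval_j_mid (M := M) (q := q))
  rwa [map_phiK_evalEval, map_zero] at h

/-- `Φ_q(inner := j(s^{q²}), outer := α₂ j(s^q)) = 0` in `F₂`. -/
theorem phiK_evalEval_jqq_mid :
    (phiK q (Fb (M * q * q))).evalEval (jqq M q) (alpha2 M q (jq' M q)) = 0 := by
  rw [← beta2_jBar, ← beta2_jq']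
  have h := congrArg (beta2 M q : Fb (M * q) →+* Fb (M * q * q))
    (phiK_evalEval_mid_j (M := M) (q := q))
  rwa [map_phiK_evalEval, map_zero] at h

/-- `PhiAt` evaluated: `PhiAt(x) = Φ_q(inner := j(s^q), outer := x)`. -/
theorem PhiAt_eval (x : Fb (M * q)) :
    (PhiAt M q).eval x = (phiK q (Fb (M * q))).evalEval (jq' M q) x := by
  rw [PhiAt, Polynomial.map_evalRingHom_eval]

/-- Kronecker's congruence in the orientation of `PhiAt` (outer variable first). -/
theorem phiK_evalEval_outer {K : Type*} [CommRing K] (x y : K) :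
    (phiK q K).evalEval y x = (x ^ q - y) * (x - y ^ q) + q * (psiK q K).evalEval y x := by
  rw [phiK_evalEval q hq.out]
  ring

/-! ### The generator `U = j(s^{q²}) - α₂ j` -/

variable (M q) in
/-- `U = j(s^{q²}) - α₂ j(s) ∈ F₂`. -/
def U : Fb (M * q * q) := jqq M q - alpha2 M q (jBar (M * q))

variable (M q) in
/-- `Ψ_U = G(X + j) ∈ F₁[X]`: the minimal polynomial of `U` over `α₂ F₁`. -/
def PsiU : (Fb (M * q))[X] := (G M q).comp (X + Polynomial.C (jBar (M * q)))

theorem PsiU_monic : (PsiU M q).Monic := G_monic.comp_X_add_C _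

theorem PsiU_natDegree : (PsiU M q).natDegree = q := by
  rw [PsiU, Polynomial.natDegree_comp, Polynomial.natDegree_X_add_C, mul_one, G_natDegree]

/-- `X · Ψ_U = Φ_q(inner := j(s^q), outer := j + X)`. -/
theorem X_mul_PsiU :
    X * PsiU M q = (PhiAt M q).comp (X + Polynomial.C (jBar (M * q))) := by
  rw [← X_sub_C_mul_G, Polynomial.mul_comp, Polynomial.sub_comp, Polynomial.X_comp,
    Polynomial.C_comp, add_sub_cancel_right, PsiU]

/-- Evaluated form: `u · Ψ_U(u) = Φ_q(j(s^q), j + u)`. -/
theorem mul_PsiU_eval (u : Fb (M * q)) :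
    u * (PsiU M q).eval u = (phiK q (Fb (M * q))).evalEval (jq' M q) (jBar (M * q) + u) := by
  have h := congrArg (Polynomial.eval u) (X_mul_PsiU (M := M) (q := q))
  rw [Polynomial.eval_mul, Polynomial.eval_X, Polynomial.eval_comp, Polynomial.eval_add,
    Polynomial.eval_X, Polynomial.eval_C, PhiAt_eval, add_comm u] at h
  exact h

theorem PsiU_map_alpha2_eval_U :
    ((PsiU M q).map (alpha2 M q : Fb (M * q) →+* Fb (M * q * q))).eval (U M q) = 0 := by
  rw [PsiU, Polynomial.map_comp, Polynomial.eval_comp, Polynomial.map_add, Polynomial.map_X,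
    Polynomial.map_C, Polynomial.eval_add, Polynomial.eval_X, Polynomial.eval_C, U, RingHom.coe_coe,
    sub_add_cancel]
  exact G_map_alpha2_eval_jqq

section Simple

variable (hqM : ¬ q ∣ M)

include hqM in
theorem U_ne_zero : U M q ≠ 0 := fun h =>
  jqq_notMem_range_alpha2 hqM ⟨jBar (M * q), (sub_eq_zero.1 h).symm⟩

include hqM in
/-- `U ∉ α₂ F₁`. -/
theorem U_notMem_range_alpha2 : U M q ∉ Set.range (alpha2 M q) := by
  rintro ⟨y, hy⟩
  refine jqq_notMem_range_alpha2 hqM ⟨y + jBar (M * q), ?_⟩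
  rw [map_add, hy, U, sub_add_cancel]

include hqM in
/-- **Glue.** A monic polynomial of degree `q` over `F₁` with root `x ∉ α₂ F₁` (along `α₂`) is the
minimal polynomial of `x`, and `x` generates `F₂`. -/
theorem minpoly_eq_of_monic_of_root {x : Fb (M * q * q)} (hx : x ∉ Set.range (alpha2 M q))
    {P : (Fb (M * q))[X]} (hP : P.Monic) (hdeg : P.natDegree = q)
    (h : (P.map (alpha2 M q : Fb (M * q) →+* Fb (M * q * q))).eval x = 0) :
    letI := algebraAlong (alpha2 M q)
    minpoly (Fb (M * q)) x = P ∧ IntermediateField.adjoin (Fb (M * q)) {x} = ⊤ := by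
  letI := algebraAlong (alpha2 M q)
  haveI : Module.Finite (Fb (M * q)) (Fb (M * q * q)) :=
    Fermat.Agent.Hecke.finiteAlong_heckeAlphaBar (M * q) q
  have hfd : Module.finrank (Fb (M * q)) (Fb (M * q * q)) = q := finrankAlong_alpha2
  have hmul := Module.finrank_mul_finrank (Fb (M * q))
    (IntermediateField.adjoin (Fb (M * q)) {x}) (Fb (M * q * q))
  rw [hfd] at hmul
  have hdvd : Module.finrank (Fb (M * q)) (IntermediateField.adjoin (Fb (M * q)) {x}) ∣ q :=
    Dvd.intro _ hmul
  have htop : IntermediateField.adjoin (Fb (M * q)) {x} = ⊤ := by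
    rcases (Nat.dvd_prime hq.out).1 hdvd with h1 | h1
    · exfalso
      rw [IntermediateField.finrank_adjoin_simple_eq_one_iff, IntermediateField.mem_bot] at h1
      exact hx h1
    · refine IntermediateField.eq_of_le_of_finrank_eq le_top ?_
      rw [h1, IntermediateField.finrank_top', hfd]
  refine ⟨?_, htop⟩
  have hint : IsIntegral (Fb (M * q)) x := Algebra.IsIntegral.isIntegral _
  have haeval : Polynomial.aeval x P = 0 := by
    rw [Polynomial.aeval_def, Polynomial.eval₂_eq_eval_map]
    exact h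
  have hd : minpoly (Fb (M * q)) x ∣ P := minpoly.dvd _ _ haeval
  have hnat : (minpoly (Fb (M * q)) x).natDegree = q := by
    rw [← IntermediateField.adjoin.finrank hint, htop, IntermediateField.finrank_top', hfd]
  exact (Polynomial.eq_of_monic_of_dvd_of_natDegree_le (minpoly.monic hint) hP hd
    (by rw [hnat, hdeg])).symm

include hqM in
/-- `Ψ_U` is the minimal polynomial of `U` over `α₂ F₁`. -/
theorem minpoly_U :
    letI := algebraAlong (alpha2 M q)
    minpoly (Fb (M * q)) (U M q) = PsiU M q :=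
  (minpoly_eq_of_monic_of_root hqM (U_notMem_range_alpha2 hqM) PsiU_monic PsiU_natDegree
    PsiU_map_alpha2_eval_U).1

include hqM in
/-- `F₂ = α₂F₁(U)`. -/
theorem adjoin_U_eq_top :
    letI := algebraAlong (alpha2 M q)
    IntermediateField.adjoin (Fb (M * q)) {U M q} = ⊤ :=
  (minpoly_eq_of_monic_of_root hqM (U_notMem_range_alpha2 hqM) PsiU_monic PsiU_natDegree
    PsiU_map_alpha2_eval_U).2

include hqM in
/-- **Glue for an explicit Taylor form**: every monic `P ∈ F₁[X]` of degree `q` with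
`P^{α₂}(U) = 0` is `Ψ_U`. -/
theorem eq_PsiU_of_monic_of_root {P : (Fb (M * q))[X]} (hP : P.Monic) (hdeg : P.natDegree = q)
    (h : (P.map (alpha2 M q : Fb (M * q) →+* Fb (M * q * q))).eval (U M q) = 0) :
    P = PsiU M q := by
  letI := algebraAlong (alpha2 M q)
  rw [← (minpoly_eq_of_monic_of_root hqM (U_notMem_range_alpha2 hqM) hP hdeg h).1, minpoly_U hqM]

include hqM in
theorem PsiU_irreducible : Irreducible (PsiU M q) := by
  letI := algebraAlong (alpha2 M q)
  haveI : Module.Finite (Fb (M * q)) (Fb (M * q * q)) :=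
    Fermat.Agent.Hecke.finiteAlong_heckeAlphaBar (M * q) q
  rw [← minpoly_U hqM]
  exact minpoly.irreducible (Algebra.IsIntegral.isIntegral _)

include hqM in
theorem G_irreducible : Irreducible (G M q) := by
  letI := algebraAlong (alpha2 M q)
  haveI : Module.Finite (Fb (M * q)) (Fb (M * q * q)) :=
    Fermat.Agent.Hecke.finiteAlong_heckeAlphaBar (M * q) q
  rw [← minpoly_jqq hqM]
  exact minpoly.irreducible (Algebra.IsIntegral.isIntegral _)

include hqM in
theorem PsiU_separable : (PsiU M q).Separable := (PsiU_irreducible hqM).separable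

include hqM in
theorem G_separable : (G M q).Separable := (G_irreducible hqM).separable

end Simple

/-! ### The mirror along `β₂` -/

variable (M q) in
/-- `Φ_q(inner := j(s), outer := X) ∈ F₁[X]`. -/
def PhiAtB : (Fb (M * q))[X] :=
  (phiK q (Fb (M * q))).map (Polynomial.evalRingHom (jBar (M * q)))

theorem PhiAtB_monic : (PhiAtB M q).Monic := (phiK_monic q hq.out _).map _

theorem PhiAtB_natDegree : (PhiAtB M q).natDegree = q + 1 := by
  rw [PhiAtB, (phiK_monic q hq.out _).natDegree_map, phiK_natDegree q hq.out]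

theorem PhiAtB_eval (x : Fb (M * q)) :
    (PhiAtB M q).eval x = (phiK q (Fb (M * q))).evalEval (jBar (M * q)) x := by
  rw [PhiAtB, Polynomial.map_evalRingHom_eval]

theorem PhiAtB_eval_jq' : (PhiAtB M q).eval (jq' M q) = 0 := by
  rw [PhiAtB_eval]
  exact phiK_evalEval_j_mid

variable (M q) in
/-- The cofactor along `β₂`: `GB = Φ_q(j, X) /ₘ (X - j(s^q)) ∈ F₁[X]`. -/
def GB : (Fb (M * q))[X] := PhiAtB M q /ₘ (X - Polynomial.C (jq' M q))

theorem X_sub_C_mul_GB : (X - Polynomial.C (jq' M q)) * GB M q = PhiAtB M q :=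
  Polynomial.mul_divByMonic_eq_iff_isRoot.2 PhiAtB_eval_jq'

theorem GB_monic : (GB M q).Monic := by
  have h := PhiAtB_monic (M := M) (q := q)
  rw [← X_sub_C_mul_GB] at h
  exact (Polynomial.monic_X_sub_C _).of_mul_monic_left h

theorem GB_natDegree : (GB M q).natDegree = q := by
  have h := PhiAtB_natDegree (M := M) (q := q)
  rw [← X_sub_C_mul_GB, (Polynomial.monic_X_sub_C _).natDegree_mul GB_monic,
    Polynomial.natDegree_X_sub_C] at h
  omega

/-- Both `PhiAt^{α₂}` and `PhiAtB^{β₂}` are `Φ_q(inner := middle, outer := X)` over `F₂`. -/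
theorem PhiAtB_map_beta2 :
    (PhiAtB M q).map (beta2 M q : Fb (M * q) →+* Fb (M * q * q)) =
      (PhiAt M q).map (alpha2 M q : Fb (M * q) →+* Fb (M * q * q)) := by
  have key : ∀ (f : Fb (M * q) →+* Fb (M * q * q)) (y : Fb (M * q)),
      ((phiK q (Fb (M * q))).map (Polynomial.evalRingHom y)).map f =
        (phiK q (Fb (M * q * q))).map (Polynomial.evalRingHom (f y)) := by
    intro f y
    unfold phiK
    simp only [Polynomial.map_map]
    congr 1
    apply Polynomial.ringHom_ext
    · intro a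
      simp
    · simp
  rw [PhiAtB, PhiAt, key, key, RingHom.coe_coe, RingHom.coe_coe, beta2_jBar]

/-- `α₂ j` is not a series in `s^q`: `α₂ j ∉ β₂ F₁`. -/
theorem alpha2_jBar_notMem_range_beta2 :
    alpha2 M q (jBar (M * q)) ∉ Set.range (beta2 M q) := by
  rintro ⟨y, hy⟩
  have h3 := congrArg (fun z : Fb (M * q * q) => ((z : LaurentSeries Kb)).coeff (-1)) hy
  simp only [coe_heckeBetaBar, coe_heckeAlphaBar] at h3
  rw [coe_jBar, coeff_jqModC_neg_one, qExpand_coeff_of_not_dvd] at h3
  · exact zero_ne_one h3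
  · rw [Int.dvd_neg, Int.natCast_dvd]
    simpa using hq.out.one_lt.ne'

theorem jqq_ne_alpha2_jBar : jqq M q ≠ alpha2 M q (jBar (M * q)) := by
  intro h
  exact alpha2_jBar_notMem_range_beta2 ⟨jq' M q, by rw [beta2_jq', h]⟩

/-- `α₂ j` is a root of `GB` transported along `β₂`. -/
theorem GB_map_beta2_eval :
    ((GB M q).map (beta2 M q : Fb (M * q) →+* Fb (M * q * q))).eval (alpha2 M q (jBar (M * q)))
      = 0 := by
  have h1 : ((PhiAtB M q).map (beta2 M q : Fb (M * q) →+* Fb (M * q * q))).eval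
      (alpha2 M q (jBar (M * q))) = 0 := by
    rw [PhiAtB_map_beta2, ← RingHom.coe_coe, Polynomial.eval_map_apply, PhiAt_eval_jBar, map_zero]
  rw [← X_sub_C_mul_GB, Polynomial.map_mul, Polynomial.eval_mul, Polynomial.map_sub,
    Polynomial.map_X, Polynomial.map_C, Polynomial.eval_sub, Polynomial.eval_X,
    Polynomial.eval_C, RingHom.coe_coe, beta2_jq'] at h1
  rcases mul_eq_zero.1 h1 with h | h
  · exact absurd (sub_eq_zero.1 h).symm jqq_ne_alpha2_jBar
  · exact h

/-- **Glue along `β₂`.** -/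
theorem minpoly_eq_of_monic_of_root_beta {x : Fb (M * q * q)} (hx : x ∉ Set.range (beta2 M q))
    {P : (Fb (M * q))[X]} (hP : P.Monic) (hdeg : P.natDegree = q)
    (h : (P.map (beta2 M q : Fb (M * q) →+* Fb (M * q * q))).eval x = 0) :
    letI := algebraAlong (beta2 M q)
    minpoly (Fb (M * q)) x = P ∧ IntermediateField.adjoin (Fb (M * q)) {x} = ⊤ := by
  letI := algebraAlong (beta2 M q)
  haveI : Module.Finite (Fb (M * q)) (Fb (M * q * q)) :=
    Fermat.Agent.Hecke.finiteAlong_heckeBetaBar (M * q) q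
  have hfd : Module.finrank (Fb (M * q)) (Fb (M * q * q)) = q := finrankAlong_beta2
  have hmul := Module.finrank_mul_finrank (Fb (M * q))
    (IntermediateField.adjoin (Fb (M * q)) {x}) (Fb (M * q * q))
  rw [hfd] at hmul
  have hdvd : Module.finrank (Fb (M * q)) (IntermediateField.adjoin (Fb (M * q)) {x}) ∣ q :=
    Dvd.intro _ hmul
  have htop : IntermediateField.adjoin (Fb (M * q)) {x} = ⊤ := by
    rcases (Nat.dvd_prime hq.out).1 hdvd with h1 | h1
    · exfalso
      rw [IntermediateField.finrank_adjoin_simple_eq_one_iff, IntermediateField.mem_bot] at h1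
      exact hx h1
    · refine IntermediateField.eq_of_le_of_finrank_eq le_top ?_
      rw [h1, IntermediateField.finrank_top', hfd]
  refine ⟨?_, htop⟩
  have hint : IsIntegral (Fb (M * q)) x := Algebra.IsIntegral.isIntegral _
  have haeval : Polynomial.aeval x P = 0 := by
    rw [Polynomial.aeval_def, Polynomial.eval₂_eq_eval_map]
    exact h
  have hd : minpoly (Fb (M * q)) x ∣ P := minpoly.dvd _ _ haeval
  have hnat : (minpoly (Fb (M * q)) x).natDegree = q := by
    rw [← IntermediateField.adjoin.finrank hint, htop, IntermediateField.finrank_top', hfd]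
  exact (Polynomial.eq_of_monic_of_dvd_of_natDegree_le (minpoly.monic hint) hP hd
    (by rw [hnat, hdeg])).symm

/-- `GB` is the minimal polynomial of `α₂ j` over `β₂ F₁`. -/
theorem minpoly_alpha2_jBar_beta :
    letI := algebraAlong (beta2 M q)
    minpoly (Fb (M * q)) (alpha2 M q (jBar (M * q))) = GB M q :=
  (minpoly_eq_of_monic_of_root_beta alpha2_jBar_notMem_range_beta2 GB_monic GB_natDegree
    GB_map_beta2_eval).1

/-- `F₂ = β₂F₁(α₂ j)`. -/
theorem adjoin_alpha2_jBar_eq_top_beta :
    letI := algebraAlong (beta2 M q)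
    IntermediateField.adjoin (Fb (M * q)) {alpha2 M q (jBar (M * q))} = ⊤ :=
  (minpoly_eq_of_monic_of_root_beta alpha2_jBar_notMem_range_beta2 GB_monic GB_natDegree
    GB_map_beta2_eval).2

variable (M q) in
/-- `U_B = α₂ j - β₂ j(s^q) = -U`. -/
def UB : Fb (M * q * q) := alpha2 M q (jBar (M * q)) - beta2 M q (jq' M q)

theorem UB_eq_neg_U : UB M q = - U M q := by
  rw [UB, U, beta2_jq', neg_sub]

variable (M q) in
/-- `Ψ_{U_B} = GB(X + j(s^q)) ∈ F₁[X]`. -/
def PsiUB : (Fb (M * q))[X] := (GB M q).comp (X + Polynomial.C (jq' M q))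

theorem PsiUB_monic : (PsiUB M q).Monic := GB_monic.comp_X_add_C _

theorem PsiUB_natDegree : (PsiUB M q).natDegree = q := by
  rw [PsiUB, Polynomial.natDegree_comp, Polynomial.natDegree_X_add_C, mul_one, GB_natDegree]

/-- `X · Ψ_{U_B} = Φ_q(inner := j(s), outer := j(s^q) + X)`. -/
theorem X_mul_PsiUB :
    X * PsiUB M q = (PhiAtB M q).comp (X + Polynomial.C (jq' M q)) := by
  rw [← X_sub_C_mul_GB, Polynomial.mul_comp, Polynomial.sub_comp, Polynomial.X_comp,
    Polynomial.C_comp, add_sub_cancel_right, PsiUB]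

theorem mul_PsiUB_eval (u : Fb (M * q)) :
    u * (PsiUB M q).eval u = (phiK q (Fb (M * q))).evalEval (jBar (M * q)) (jq' M q + u) := by
  have h := congrArg (Polynomial.eval u) (X_mul_PsiUB (M := M) (q := q))
  rw [Polynomial.eval_mul, Polynomial.eval_X, Polynomial.eval_comp, Polynomial.eval_add,
    Polynomial.eval_X, Polynomial.eval_C, PhiAtB_eval, add_comm u] at h
  exact h

theorem PsiUB_map_beta2_eval_UB :
    ((PsiUB M q).map (beta2 M q : Fb (M * q) →+* Fb (M * q * q))).eval (UB M q) = 0 := by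
  rw [PsiUB, Polynomial.map_comp, Polynomial.eval_comp, Polynomial.map_add, Polynomial.map_X,
    Polynomial.map_C, Polynomial.eval_add, Polynomial.eval_X, Polynomial.eval_C, UB,
    RingHom.coe_coe, sub_add_cancel]
  exact GB_map_beta2_eval

theorem UB_notMem_range_beta2 : UB M q ∉ Set.range (beta2 M q) := by
  rintro ⟨y, hy⟩
  refine alpha2_jBar_notMem_range_beta2 ⟨y + jq' M q, ?_⟩
  rw [map_add, hy, UB, sub_add_cancel]

/-- `Ψ_{U_B}` is the minimal polynomial of `U_B` over `β₂ F₁`. -/
theorem minpoly_UB :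
    letI := algebraAlong (beta2 M q)
    minpoly (Fb (M * q)) (UB M q) = PsiUB M q :=
  (minpoly_eq_of_monic_of_root_beta UB_notMem_range_beta2 PsiUB_monic PsiUB_natDegree
    PsiUB_map_beta2_eval_UB).1

theorem adjoin_UB_eq_top :
    letI := algebraAlong (beta2 M q)
    IntermediateField.adjoin (Fb (M * q)) {UB M q} = ⊤ :=
  (minpoly_eq_of_monic_of_root_beta UB_notMem_range_beta2 PsiUB_monic PsiUB_natDegree
    PsiUB_map_beta2_eval_UB).2

/-- Glue along `β₂` for an explicit Taylor form. -/
theorem eq_PsiUB_of_monic_of_root {P : (Fb (M * q))[X]} (hP : P.Monic) (hdeg : P.natDegree = q)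
    (h : (P.map (beta2 M q : Fb (M * q) →+* Fb (M * q * q))).eval (UB M q) = 0) :
    P = PsiUB M q := by
  letI := algebraAlong (beta2 M q)
  rw [← (minpoly_eq_of_monic_of_root_beta UB_notMem_range_beta2 hP hdeg h).1, minpoly_UB]

end Fermat.Agent.BR3.FibreProd
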