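import Mathlib

/-!
# Program C, node I2 (VERT), the abstract valuation engine: the Gauss extension of a valuation

`K` a field with a valuation `v : Valuation K Γ₀`, `L / K` a finite extension with a power basis
`1, θ, …, θ^(n-1)` such that the minimal polynomial `P` of `θ` has `v`-integral coefficients and
its reduction `Pbar` (with respect to a residue map `res : v.integer →+* κ` with kernel `{v < 1}`)
is **irreducible**.  Then

* `gaussExt … : Valuation L Γ₀`, `w (∑ aᵢ θ^i) = max v aᵢ` (`gaussExt_apply`): the basis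
  `1, θ, …` is orthonormal; `w` extends `v` with the same value group (`e = 1`);
* `O_w = ⊕ O_v θ^i` (`gaussExt_le_one_iff`);
* `resExt : w.integer →+* AdjoinRoot Pbar`, with kernel `{w < 1}`, surjective when `res` is
  (`f = n`: the residue field is `κ[X] / (Pbar)`);
* `gaussExt_unique` : `w.valuationSubring` is the only valuation subring of `L` over
  `v.valuationSubring`.

No separability is needed.
-/

set_option autoImplicit false
set_option linter.unusedSectionVars false

open Polynomial

namespace Fermat.Agent.BR3.GaussExt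

variable {K L : Type*} [Field K] [Field L] [Algebra K L]
  {Γ₀ : Type*} [LinearOrderedCommGroupWithZero Γ₀] (v : Valuation K Γ₀) (pb : PowerBasis K L)

/-! ### The Gauss norm with respect to the power basis -/

/-- `max v aᵢ` for `a = ∑ aᵢ θ^i`. -/
noncomputable def gnorm (a : L) : Γ₀ :=
  Finset.univ.sup fun i : Fin pb.dim => v (pb.basis.repr a i)

theorem gnorm_le_iff {a : L} {r : Γ₀} : gnorm v pb a ≤ r ↔ ∀ i, v (pb.basis.repr a i) ≤ r := by
  simp [gnorm, Finset.sup_le_iff]

theorem le_gnorm (a : L) (i : Fin pb.dim) : v (pb.basis.repr a i) ≤ gnorm v pb a :=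
  Finset.le_sup (f := fun i : Fin pb.dim => v (pb.basis.repr a i)) (Finset.mem_univ i)

theorem exists_eq_gnorm (a : L) : ∃ i, gnorm v pb a = v (pb.basis.repr a i) := by
  have : Nonempty (Fin pb.dim) := ⟨⟨0, pb.dim_pos⟩⟩
  obtain ⟨i, -, hi⟩ := Finset.exists_mem_eq_sup Finset.univ Finset.univ_nonempty
    (fun i : Fin pb.dim => v (pb.basis.repr a i))
  exact ⟨i, hi⟩

theorem gnorm_lt_iff {a : L} {r : Γ₀} :
    gnorm v pb a < r ↔ ∀ i, v (pb.basis.repr a i) < r := by
  constructor
  · intro h i
    exact (le_gnorm v pb a i).trans_lt h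
  · intro h
    obtain ⟨i, hi⟩ := exists_eq_gnorm v pb a
    rw [hi]
    exact h i

@[simp] theorem gnorm_zero : gnorm v pb 0 = 0 := by
  simp [gnorm]

theorem gnorm_eq_zero_iff {a : L} : gnorm v pb a = 0 ↔ a = 0 := by
  constructor
  · intro h
    have h' : ∀ i, pb.basis.repr a i = 0 := fun i => by
      have := le_gnorm v pb a i
      rw [h] at this
      exact (Valuation.zero_iff v).mp (le_antisymm this zero_le)
    apply pb.basis.repr.injective
    ext i
    simp [h' i]
  · rintro rfl
    exact gnorm_zero v pb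

theorem gnorm_smul (c : K) (a : L) : gnorm v pb (c • a) = v c * gnorm v pb a := by
  apply le_antisymm
  · rw [gnorm_le_iff]
    intro i
    rw [map_smul, Finsupp.smul_apply, smul_eq_mul, map_mul]
    gcongr
    exact le_gnorm v pb a i
  · obtain ⟨i, hi⟩ := exists_eq_gnorm v pb a
    rw [hi, ← map_mul]
    have := le_gnorm v pb (c • a) i
    rwa [map_smul, Finsupp.smul_apply, smul_eq_mul] at this

theorem gnorm_add_le (a b : L) : gnorm v pb (a + b) ≤ max (gnorm v pb a) (gnorm v pb b) := by
  rw [gnorm_le_iff]
  intro i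
  rw [map_add, Finsupp.add_apply]
  exact (v.map_add _ _).trans (max_le_max (le_gnorm v pb a i) (le_gnorm v pb b i))

/-! ### Polynomial representatives -/

/-- The coordinates of `f(θ)` for `deg f < n` are the coefficients of `f`. -/
theorem repr_aeval_of_natDegree_lt {f : K[X]} (hf : f.natDegree < pb.dim) (i : Fin pb.dim) :
    pb.basis.repr (aeval pb.gen f) i = f.coeff i := by
  have h1 : aeval pb.gen f = ∑ j : Fin pb.dim, f.coeff j • pb.basis j := by
    conv_lhs => rw [as_sum_range' f pb.dim hf]
    rw [map_sum, ← Fin.sum_univ_eq_sum_range (fun j => aeval pb.gen (monomial j (f.coeff j)))]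
    refine Finset.sum_congr rfl fun j _ => ?_
    rw [aeval_monomial, pb.basis_eq_pow, Algebra.smul_def]
  rw [h1, pb.basis.repr_sum_self]

theorem natDegree_modByMonic_minpoly_lt (F : K[X]) :
    (F %ₘ minpoly K pb.gen).natDegree < pb.dim := by
  have hmonic : (minpoly K pb.gen).Monic := minpoly.monic (pb.isIntegral_gen)
  have hne : minpoly K pb.gen ≠ 1 := by
    intro h
    have := pb.natDegree_minpoly
    rw [h, natDegree_one] at this
    exact pb.dim_pos.ne this
  rw [← pb.natDegree_minpoly]
  exact natDegree_modByMonic_lt F hmonic hne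

/-- The coordinates of `F(θ)` are the coefficients of `F mod P`. -/
theorem repr_aeval (F : K[X]) (i : Fin pb.dim) :
    pb.basis.repr (aeval pb.gen F) i = (F %ₘ minpoly K pb.gen).coeff i := by
  rw [← minpoly.aeval_modByMonic_minpoly F pb.gen,
    repr_aeval_of_natDegree_lt pb (natDegree_modByMonic_minpoly_lt pb F)]

/-! ### Integral representatives -/

section Integral

variable (hint : ∀ i, v ((minpoly K pb.gen).coeff i) ≤ 1)

include hint in
theorem coeffs_subset_integer : (↑(minpoly K pb.gen).coeffs : Set K) ⊆ ↑v.integer := by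
  intro c hc
  obtain ⟨n, -, rfl⟩ := mem_coeffs_iff.mp (Finset.mem_coe.mp hc)
  exact (Valuation.mem_integer_iff v _).mpr (hint n)

/-- The minimal polynomial as a polynomial over the valuation ring. -/
noncomputable def intMinpoly : (v.integer)[X] :=
  (minpoly K pb.gen).toSubring v.integer (coeffs_subset_integer v pb hint)

theorem map_intMinpoly : (intMinpoly v pb hint).map v.integer.subtype = minpoly K pb.gen :=
  map_toSubring _ _ _

theorem intMinpoly_monic : (intMinpoly v pb hint).Monic :=
  (monic_toSubring _ _ _).mpr (minpoly.monic pb.isIntegral_gen)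

theorem coeff_intMinpoly (i : ℕ) :
    ((intMinpoly v pb hint).coeff i : K) = (minpoly K pb.gen).coeff i :=
  coeff_toSubring _ _ _

/-- The coordinates of `F₀(θ)`, `F₀` with integral coefficients, are integral. -/
theorem repr_aeval_int (F₀ : (v.integer)[X]) (i : Fin pb.dim) :
    pb.basis.repr (aeval pb.gen (F₀.map v.integer.subtype)) i =
      ((F₀ %ₘ intMinpoly v pb hint).coeff i : K) := by
  rw [repr_aeval, ← map_intMinpoly v pb hint, ← map_modByMonic _ (intMinpoly_monic v pb hint),
    coeff_map]
  rfl

include hint in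
theorem gnorm_aeval_int_le (F₀ : (v.integer)[X]) :
    gnorm v pb (aeval pb.gen (F₀.map v.integer.subtype)) ≤ 1 := by
  rw [gnorm_le_iff]
  intro i
  rw [repr_aeval_int v pb hint]
  exact (Valuation.mem_integer_iff v _).mp (Subtype.mem _)

/-- The integral representative of an element of norm `≤ 1`. -/
noncomputable def intRep (a : L) (ha : gnorm v pb a ≤ 1) : (v.integer)[X] :=
  ∑ i : Fin pb.dim, monomial (i : ℕ)
    (⟨pb.basis.repr a i, (Valuation.mem_integer_iff v _).mpr ((gnorm_le_iff v pb).mp ha i)⟩ :
      v.integer)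

theorem natDegree_intRep_lt (a : L) (ha : gnorm v pb a ≤ 1) :
    (intRep v pb a ha).natDegree < pb.dim := by
  have h : (intRep v pb a ha).natDegree ≤ pb.dim - 1 := by
    refine natDegree_sum_le_of_forall_le _ _ fun i _ => ?_
    exact (natDegree_monomial_le _).trans (by have := i.2; omega)
  have := pb.dim_pos
  omega

theorem aeval_intRep (a : L) (ha : gnorm v pb a ≤ 1) :
    aeval pb.gen ((intRep v pb a ha).map v.integer.subtype) = a := by
  conv_rhs => rw [← pb.basis.sum_repr a]
  rw [intRep, Polynomial.map_sum, map_sum]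
  refine Finset.sum_congr rfl fun i _ => ?_
  rw [map_monomial, aeval_monomial, pb.basis_eq_pow, Algebra.smul_def]
  rfl

theorem coeff_intRep (a : L) (ha : gnorm v pb a ≤ 1) (i : Fin pb.dim) :
    ((intRep v pb a ha).coeff i : K) = pb.basis.repr a i := by
  have h := repr_aeval_of_natDegree_lt pb
    (f := (intRep v pb a ha).map v.integer.subtype)
    ((natDegree_map_le).trans_lt (natDegree_intRep_lt v pb a ha)) i
  rw [aeval_intRep, coeff_map] at h
  exact h.symm

include hint in
/-- The unit ball is closed under multiplication. -/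
theorem gnorm_mul_le_one {a b : L} (ha : gnorm v pb a ≤ 1) (hb : gnorm v pb b ≤ 1) :
    gnorm v pb (a * b) ≤ 1 := by
  have h := gnorm_aeval_int_le v pb hint (intRep v pb a ha * intRep v pb b hb)
  rwa [Polynomial.map_mul, map_mul, aeval_intRep, aeval_intRep] at h

theorem natDegree_intMinpoly : (intMinpoly v pb hint).natDegree = pb.dim := by
  rw [← pb.natDegree_minpoly, ← map_intMinpoly v pb hint,
    natDegree_map_eq_of_injective v.integer.subtype_injective]

theorem intMinpoly_ne_one : intMinpoly v pb hint ≠ 1 := by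
  intro h
  have := natDegree_intMinpoly v pb hint
  rw [h, natDegree_one] at this
  exact pb.dim_pos.ne this

end Integral

/-! ### Reduction and multiplicativity -/

section Reduction

variable (hint : ∀ i, v ((minpoly K pb.gen).coeff i) ≤ 1)
  {κ : Type*} [Field κ] (res : v.integer →+* κ)
  (hres : ∀ a : v.integer, res a = 0 ↔ v (a : K) < 1)
  (Pbar : κ[X])
  (hcoeff : ∀ i, res ⟨(minpoly K pb.gen).coeff i,
    (Valuation.mem_integer_iff v _).mpr (hint i)⟩ = Pbar.coeff i)
  (hirr : Irreducible Pbar)

include hcoeff in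
theorem map_res_intMinpoly : (intMinpoly v pb hint).map res = Pbar := by
  ext i
  rw [coeff_map, ← hcoeff i]
  congr 1
  exact Subtype.ext (coeff_intMinpoly v pb hint i)

include hcoeff in
theorem monic_Pbar : Pbar.Monic := by
  rw [← map_res_intMinpoly v pb hint res Pbar hcoeff]
  exact (intMinpoly_monic v pb hint).map res

include hcoeff in
theorem natDegree_Pbar : Pbar.natDegree = pb.dim := by
  rw [← map_res_intMinpoly v pb hint res Pbar hcoeff,
    (intMinpoly_monic v pb hint).natDegree_map, natDegree_intMinpoly]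

include hres in
theorem res_ne_zero_iff (a : v.integer) : res a ≠ 0 ↔ v (a : K) = 1 := by
  rw [Ne, hres, not_lt]
  exact ⟨fun h => le_antisymm ((Valuation.mem_integer_iff v _).mp a.2) h, fun h => h.ge⟩

include hres hcoeff hirr in
/-- The key step: the product of two elements of norm one has norm one. -/
theorem one_le_gnorm_mul {a b : L} (ha : gnorm v pb a = 1) (hb : gnorm v pb b = 1) :
    1 ≤ gnorm v pb (a * b) := by
  set A₀ := intRep v pb a ha.le with hA₀
  set B₀ := intRep v pb b hb.le with hB₀
  have hdim := natDegree_Pbar v pb hint res Pbar hcoeff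
  have hmonic := monic_Pbar v pb hint res Pbar hcoeff
  have hne : ∀ (c : L) (hc : gnorm v pb c = 1), ¬ Pbar ∣ (intRep v pb c hc.le).map res := by
    intro c hc
    have h0 : (intRep v pb c hc.le).map res ≠ 0 := by
      obtain ⟨i, hi⟩ := exists_eq_gnorm v pb c
      intro h
      have h1 : ((intRep v pb c hc.le).map res).coeff i = 0 := by rw [h, coeff_zero]
      rw [coeff_map] at h1
      have h2 := (res_ne_zero_iff v res hres _).mpr
        ((coeff_intRep v pb c hc.le i).symm ▸ hi.symm.trans hc)
      exact h2 h1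
    refine not_dvd_of_natDegree_lt h0 ?_
    rw [hdim]
    exact natDegree_map_le.trans_lt (natDegree_intRep_lt v pb c hc.le)
  have hAB : ¬ Pbar ∣ (A₀ * B₀).map res := by
    rw [Polynomial.map_mul]
    exact fun h => (hirr.prime.dvd_or_dvd h).elim (hne a ha) (hne b hb)
  have hmod : ((A₀ * B₀) %ₘ intMinpoly v pb hint).map res ≠ 0 := by
    rw [map_modByMonic _ (intMinpoly_monic v pb hint),
      map_res_intMinpoly v pb hint res Pbar hcoeff, Ne, modByMonic_eq_zero_iff_dvd hmonic]
    exact hAB
  obtain ⟨i, hi⟩ : ∃ i, (((A₀ * B₀) %ₘ intMinpoly v pb hint).map res).coeff i ≠ 0 := by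
    by_contra h
    refine hmod (Polynomial.ext fun i => ?_)
    rw [coeff_zero]
    by_contra hi
    exact h ⟨i, hi⟩
  have hlt : ((A₀ * B₀) %ₘ intMinpoly v pb hint).natDegree < pb.dim := by
    have := natDegree_modByMonic_lt (A₀ * B₀) (intMinpoly_monic v pb hint)
      (intMinpoly_ne_one v pb hint)
    rwa [natDegree_intMinpoly] at this
  have hilt : i < pb.dim := by
    by_contra hge
    rw [coeff_map, coeff_eq_zero_of_natDegree_lt (hlt.trans_le (not_lt.mp hge)), map_zero] at hi
    exact hi rfl
  rw [coeff_map] at hi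
  have h1 := (res_ne_zero_iff v res hres _).mp hi
  have h2 := repr_aeval_int v pb hint (A₀ * B₀) ⟨i, hilt⟩
  rw [Polynomial.map_mul, map_mul, hA₀, hB₀, aeval_intRep, aeval_intRep] at h2
  have h3 := le_gnorm v pb (a * b) ⟨i, hilt⟩
  rw [h2] at h3
  exact h1.symm.le.trans h3

include hres hcoeff hirr in
theorem gnorm_mul_of_one {a b : L} (ha : gnorm v pb a = 1) (hb : gnorm v pb b = 1) :
    gnorm v pb (a * b) = 1 :=
  le_antisymm (gnorm_mul_le_one v pb hint ha.le hb.le)
    (one_le_gnorm_mul v pb hint res hres Pbar hcoeff hirr ha hb)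

/-- Every nonzero element is a scalar multiple of an element of norm one. -/
theorem exists_smul_eq {a : L} (ha : a ≠ 0) :
    ∃ (α : K) (a' : L), α ≠ 0 ∧ v α = gnorm v pb a ∧ gnorm v pb a' = 1 ∧ a = α • a' := by
  obtain ⟨i, hi⟩ := exists_eq_gnorm v pb a
  have hα : pb.basis.repr a i ≠ 0 := by
    intro h
    rw [h, map_zero] at hi
    exact ha ((gnorm_eq_zero_iff v pb).mp hi)
  refine ⟨pb.basis.repr a i, (pb.basis.repr a i)⁻¹ • a, hα, hi.symm, ?_, ?_⟩
  · rw [gnorm_smul, hi, map_inv₀, inv_mul_cancel₀ ((Valuation.ne_zero_iff v).mpr hα)]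
  · rw [smul_smul, mul_inv_cancel₀ hα, one_smul]

include hres hcoeff hirr in
/-- **The Gauss norm is multiplicative.** -/
theorem gnorm_mul (a b : L) : gnorm v pb (a * b) = gnorm v pb a * gnorm v pb b := by
  by_cases ha : a = 0
  · rw [ha, zero_mul, gnorm_zero, zero_mul]
  by_cases hb : b = 0
  · rw [hb, mul_zero, gnorm_zero, mul_zero]
  obtain ⟨α, a', -, hvα, ha', rfl⟩ := exists_smul_eq v pb ha
  obtain ⟨β, b', -, hvβ, hb', rfl⟩ := exists_smul_eq v pb hb
  rw [smul_mul_smul_comm, gnorm_smul, gnorm_smul, gnorm_smul, map_mul,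
    gnorm_mul_of_one v pb hint res hres Pbar hcoeff hirr ha' hb', ha', hb']
  simp

include hres hcoeff hirr in
theorem gnorm_one : gnorm v pb 1 = 1 := by
  have h := gnorm_mul v pb hint res hres Pbar hcoeff hirr 1 1
  rw [mul_one] at h
  have h0 : gnorm v pb (1 : L) ≠ 0 := fun h0 => one_ne_zero ((gnorm_eq_zero_iff v pb).mp h0)
  exact (mul_eq_left₀ h0).mp h.symm

/-- **The Gauss extension of `v` to `L`**: `w (∑ aᵢ θ^i) = max v aᵢ`. -/
noncomputable def gaussExt : Valuation L Γ₀ where
  toFun := gnorm v pb
  map_zero' := gnorm_zero v pb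
  map_one' := gnorm_one v pb hint res hres Pbar hcoeff hirr
  map_mul' := gnorm_mul v pb hint res hres Pbar hcoeff hirr
  map_add_le_max' := gnorm_add_le v pb

/-! ### Basic properties of the Gauss extension -/

theorem gaussExt_apply (a : L) :
    gaussExt v pb hint res hres Pbar hcoeff hirr a =
      Finset.univ.sup fun i : Fin pb.dim => v (pb.basis.repr a i) := rfl

theorem gaussExt_eq_gnorm (a : L) :
    gaussExt v pb hint res hres Pbar hcoeff hirr a = gnorm v pb a := rfl

/-- `O_w = ⊕ O_v θ^i`. -/
theorem gaussExt_le_one_iff {a : L} :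
    gaussExt v pb hint res hres Pbar hcoeff hirr a ≤ 1 ↔ ∀ i, v (pb.basis.repr a i) ≤ 1 :=
  gnorm_le_iff v pb

theorem gaussExt_lt_one_iff {a : L} :
    gaussExt v pb hint res hres Pbar hcoeff hirr a < 1 ↔ ∀ i, v (pb.basis.repr a i) < 1 :=
  gnorm_lt_iff v pb

/-- `w` extends `v` (same value group: `e = 1`). -/
theorem gaussExt_algebraMap (c : K) :
    gaussExt v pb hint res hres Pbar hcoeff hirr (algebraMap K L c) = v c := by
  rw [gaussExt_eq_gnorm, Algebra.algebraMap_eq_smul_one, gnorm_smul,
    gnorm_one v pb hint res hres Pbar hcoeff hirr, mul_one]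

theorem comap_gaussExt :
    (gaussExt v pb hint res hres Pbar hcoeff hirr).comap (algebraMap K L) = v :=
  Valuation.ext fun c => gaussExt_algebraMap v pb hint res hres Pbar hcoeff hirr c

/-- The basis vectors `θ^i`, `i < n`, have norm one. -/
theorem gaussExt_gen_pow (i : Fin pb.dim) :
    gaussExt v pb hint res hres Pbar hcoeff hirr (pb.gen ^ (i : ℕ)) = 1 := by
  classical
  rw [gaussExt_eq_gnorm, ← pb.basis_eq_pow]
  apply le_antisymm
  · rw [gnorm_le_iff]
    intro j
    rw [pb.basis.repr_self, Finsupp.single_apply]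
    split_ifs
    · rw [map_one]
    · rw [map_zero]; exact zero_le_one
  · have := le_gnorm v pb (pb.basis i) i
    rwa [pb.basis.repr_self, Finsupp.single_eq_same, map_one] at this

theorem gaussExt_gen (h : 1 < pb.dim) :
    gaussExt v pb hint res hres Pbar hcoeff hirr pb.gen = 1 := by
  have := gaussExt_gen_pow v pb hint res hres Pbar hcoeff hirr ⟨1, h⟩
  rwa [pow_one] at this

/-- The orthonormal-basis formula in sum form. -/
theorem gaussExt_sum (c : Fin pb.dim → K) :
    gaussExt v pb hint res hres Pbar hcoeff hirr (∑ i, c i • pb.gen ^ (i : ℕ)) =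
      Finset.univ.sup fun i => v (c i) := by
  rw [gaussExt_apply]
  have : (∑ i, c i • pb.gen ^ (i : ℕ)) = ∑ i, c i • pb.basis i := by
    refine Finset.sum_congr rfl fun i _ => ?_
    rw [pb.basis_eq_pow]
  rw [this, pb.basis.repr_sum_self]

/-! ### The residue map -/

include hcoeff in
/-- Well-definedness of the reduction of integral representatives. -/
theorem mk_map_intRep (a : L) (ha : gnorm v pb a ≤ 1) (F₀ : (v.integer)[X])
    (hF : aeval pb.gen (F₀.map v.integer.subtype) = a) :
    AdjoinRoot.mk Pbar ((intRep v pb a ha).map res) = AdjoinRoot.mk Pbar (F₀.map res) := by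
  have hlt : (F₀ %ₘ intMinpoly v pb hint).natDegree < pb.dim := by
    have := natDegree_modByMonic_lt F₀ (intMinpoly_monic v pb hint) (intMinpoly_ne_one v pb hint)
    rwa [natDegree_intMinpoly] at this
  have h1 : intRep v pb a ha = F₀ %ₘ intMinpoly v pb hint := by
    ext i
    by_cases hi : i < pb.dim
    · have h2 := coeff_intRep v pb a ha ⟨i, hi⟩
      have h3 := repr_aeval_int v pb hint F₀ ⟨i, hi⟩
      rw [hF] at h3
      exact h2.trans h3
    · rw [coeff_eq_zero_of_natDegree_lt ((natDegree_intRep_lt v pb a ha).trans_le (not_lt.mp hi)),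
        coeff_eq_zero_of_natDegree_lt (hlt.trans_le (not_lt.mp hi))]
  rw [h1, map_modByMonic _ (intMinpoly_monic v pb hint),
    map_res_intMinpoly v pb hint res Pbar hcoeff, AdjoinRoot.mk_eq_mk]
  refine ⟨-(F₀.map res /ₘ Pbar), ?_⟩
  have := modByMonic_add_div (F₀.map res) Pbar
  rw [mul_neg, eq_neg_iff_add_eq_zero, sub_add_eq_add_sub, this, sub_self]

theorem mem_integer_iff {a : L} :
    a ∈ (gaussExt v pb hint res hres Pbar hcoeff hirr).integer ↔ gnorm v pb a ≤ 1 :=
  Valuation.mem_integer_iff _ _

/-- **The residue map** `O_w → κ[X] / (Pbar)`. -/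
noncomputable def resExt :
    (gaussExt v pb hint res hres Pbar hcoeff hirr).integer →+* AdjoinRoot Pbar where
  toFun a := AdjoinRoot.mk Pbar
    ((intRep v pb a ((mem_integer_iff v pb hint res hres Pbar hcoeff hirr).mp a.2)).map res)
  map_one' := by
    rw [mk_map_intRep v pb hint res Pbar hcoeff _ _ 1 (by simp)]
    simp
  map_zero' := by
    rw [mk_map_intRep v pb hint res Pbar hcoeff _ _ 0 (by simp)]
    simp
  map_mul' a b := by
    rw [mk_map_intRep v pb hint res Pbar hcoeff _ _
      (intRep v pb a ((mem_integer_iff v pb hint res hres Pbar hcoeff hirr).mp a.2) *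
        intRep v pb b ((mem_integer_iff v pb hint res hres Pbar hcoeff hirr).mp b.2))
      (by rw [Polynomial.map_mul, map_mul, aeval_intRep, aeval_intRep]; rfl)]
    rw [Polynomial.map_mul, map_mul]
  map_add' a b := by
    rw [mk_map_intRep v pb hint res Pbar hcoeff _ _
      (intRep v pb a ((mem_integer_iff v pb hint res hres Pbar hcoeff hirr).mp a.2) +
        intRep v pb b ((mem_integer_iff v pb hint res hres Pbar hcoeff hirr).mp b.2))
      (by rw [Polynomial.map_add, map_add, aeval_intRep, aeval_intRep]; rfl)]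
    rw [Polynomial.map_add, map_add]

/-- Computing `resExt` on any integral polynomial expression in `θ`. -/
theorem resExt_aeval (F₀ : (v.integer)[X])
    (a : (gaussExt v pb hint res hres Pbar hcoeff hirr).integer)
    (hF : aeval pb.gen (F₀.map v.integer.subtype) = (a : L)) :
    resExt v pb hint res hres Pbar hcoeff hirr a = AdjoinRoot.mk Pbar (F₀.map res) :=
  mk_map_intRep v pb hint res Pbar hcoeff _ _ F₀ hF

/-- The kernel of the residue map is `{w < 1}`. -/
theorem resExt_eq_zero_iff (a : (gaussExt v pb hint res hres Pbar hcoeff hirr).integer) :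
    resExt v pb hint res hres Pbar hcoeff hirr a = 0 ↔
      gaussExt v pb hint res hres Pbar hcoeff hirr (a : L) < 1 := by
  have ha := (mem_integer_iff v pb hint res hres Pbar hcoeff hirr).mp a.2
  show AdjoinRoot.mk Pbar ((intRep v pb a ha).map res) = 0 ↔ _
  rw [AdjoinRoot.mk_eq_zero, gaussExt_lt_one_iff]
  have hdeg : ((intRep v pb a ha).map res).natDegree < Pbar.natDegree := by
    rw [natDegree_Pbar v pb hint res Pbar hcoeff]
    exact natDegree_map_le.trans_lt (natDegree_intRep_lt v pb a ha)
  constructor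
  · intro hdvd i
    have h0 : (intRep v pb a ha).map res = 0 := eq_zero_of_dvd_of_natDegree_lt hdvd hdeg
    have h1 : ((intRep v pb a ha).map res).coeff i = 0 := by rw [h0, coeff_zero]
    rw [coeff_map, hres, coeff_intRep] at h1
    exact h1
  · intro h
    have h0 : (intRep v pb a ha).map res = 0 := by
      ext i
      rw [coeff_map, coeff_zero]
      by_cases hi : i < pb.dim
      · rw [hres, coeff_intRep v pb a ha ⟨i, hi⟩]
        exact h ⟨i, hi⟩
      · rw [coeff_eq_zero_of_natDegree_lt
          ((natDegree_intRep_lt v pb a ha).trans_le (not_lt.mp hi)), map_zero]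
    rw [h0]
    exact dvd_zero _

theorem algebraMap_mem_integer (c : v.integer) :
    algebraMap K L (c : K) ∈ (gaussExt v pb hint res hres Pbar hcoeff hirr).integer := by
  rw [Valuation.mem_integer_iff, gaussExt_algebraMap]
  exact (Valuation.mem_integer_iff v _).mp c.2

theorem gen_mem_integer :
    pb.gen ∈ (gaussExt v pb hint res hres Pbar hcoeff hirr).integer := by
  have h := gnorm_aeval_int_le v pb hint (X : (v.integer)[X])
  rw [Polynomial.map_X, aeval_X] at h
  exact (mem_integer_iff v pb hint res hres Pbar hcoeff hirr).mpr h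

/-- `resExt` restricted to `O_v` is `res`. -/
theorem resExt_algebraMap (c : v.integer) :
    resExt v pb hint res hres Pbar hcoeff hirr
      ⟨algebraMap K L (c : K), algebraMap_mem_integer v pb hint res hres Pbar hcoeff hirr c⟩ =
      AdjoinRoot.of Pbar (res c) := by
  rw [resExt_aeval v pb hint res hres Pbar hcoeff hirr (C c) _
    (by rw [Polynomial.map_C, aeval_C]; rfl), Polynomial.map_C, AdjoinRoot.mk_C]

/-- `resExt θ` is the root of `Pbar`. -/
theorem resExt_gen :
    resExt v pb hint res hres Pbar hcoeff hirr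
      ⟨pb.gen, gen_mem_integer v pb hint res hres Pbar hcoeff hirr⟩ = AdjoinRoot.root Pbar := by
  rw [resExt_aeval v pb hint res hres Pbar hcoeff hirr X _
    (by rw [Polynomial.map_X, aeval_X]), Polynomial.map_X, AdjoinRoot.mk_X]

/-- If `res` is onto, so is `resExt`: the residue field of `w` is `κ[X] / (Pbar)` (`f = n`). -/
theorem resExt_surjective (hsurj : Function.Surjective res) :
    Function.Surjective (resExt v pb hint res hres Pbar hcoeff hirr) := by
  intro y
  obtain ⟨G, rfl⟩ := AdjoinRoot.mk_surjective y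
  obtain ⟨G₀, rfl⟩ := Polynomial.map_surjective res hsurj G
  refine ⟨⟨aeval pb.gen (G₀.map v.integer.subtype),
    (mem_integer_iff v pb hint res hres Pbar hcoeff hirr).mpr
      (gnorm_aeval_int_le v pb hint G₀)⟩, ?_⟩
  exact resExt_aeval v pb hint res hres Pbar hcoeff hirr G₀ _ rfl

theorem comap_valuationSubring_gaussExt :
    (gaussExt v pb hint res hres Pbar hcoeff hirr).valuationSubring.comap (algebraMap K L) =
      v.valuationSubring := by
  ext c
  rw [ValuationSubring.mem_comap, Valuation.mem_valuationSubring_iff,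
    Valuation.mem_valuationSubring_iff, gaussExt_algebraMap]

/-! ### Uniqueness -/

include hint in
/-- `θ` lies in every valuation subring of `L` containing `O_v`. -/
theorem gen_mem_of_comap (B : ValuationSubring L)
    (hB : ∀ c : K, v c ≤ 1 → algebraMap K L c ∈ B) : pb.gen ∈ B := by
  let f : v.integer →+* B :=
    ((algebraMap K L).comp v.integer.subtype).codRestrict B.toSubring
      (fun c => hB c ((Valuation.mem_integer_iff v _).mp c.2))
  have hf : (algebraMap B L).comp f = (algebraMap K L).comp v.integer.subtype := by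
    ext c
    rfl
  have hI : IsIntegral B pb.gen := by
    refine ⟨(intMinpoly v pb hint).map f, (intMinpoly_monic v pb hint).map f, ?_⟩
    rw [eval₂_map, hf, ← eval₂_map, map_intMinpoly]
    exact minpoly.aeval K pb.gen
  obtain ⟨y, hy⟩ := IsIntegrallyClosed.isIntegral_iff.mp hI
  rw [← hy]
  exact y.2

include hint in
/-- **Uniqueness**: `w.valuationSubring` is the only valuation subring of `L` over `O_v`. -/
theorem gaussExt_unique (B : ValuationSubring L)
    (hB : B.comap (algebraMap K L) = v.valuationSubring) :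
    B = (gaussExt v pb hint res hres Pbar hcoeff hirr).valuationSubring := by
  have hmem : ∀ c : K, algebraMap K L c ∈ B ↔ v c ≤ 1 := fun c => by
    rw [← Valuation.mem_valuationSubring_iff, ← hB, ValuationSubring.mem_comap]
  have hθ : pb.gen ∈ B := gen_mem_of_comap v pb hint B fun c hc => (hmem c).mpr hc
  -- small scalars are small for `B`
  have hsmall : ∀ c : K, v c < 1 → B.valuation (algebraMap K L c) < 1 := by
    intro c hc
    by_cases h0 : c = 0
    · rw [h0, map_zero, map_zero]; exact zero_lt_one
    have h1 : ¬ algebraMap K L c⁻¹ ∈ B := by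
      rw [hmem, map_inv₀, not_le]
      exact (one_lt_inv₀ ((Valuation.pos_iff v).mpr h0)).mpr hc
    rw [← B.valuation_le_one_iff, map_inv₀, map_inv₀, not_le] at h1
    have hpos : 0 < B.valuation (algebraMap K L c) :=
      (Valuation.pos_iff _).mpr ((map_ne_zero (algebraMap K L)).mpr h0)
    exact (one_lt_inv₀ hpos).mp h1
  have hpow : ∀ i : ℕ, B.valuation (pb.gen ^ i) ≤ 1 := fun i =>
    (B.valuation_le_one_iff _).mpr (B.pow_mem hθ i)
  -- `{w < 1}` is small for `B`
  have hlt : ∀ y : L, gnorm v pb y < 1 → B.valuation y < 1 := by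
    intro y hy
    rw [← pb.basis.sum_repr y]
    refine Valuation.map_sum_lt _ one_ne_zero fun i _ => ?_
    rw [pb.basis_eq_pow, Algebra.smul_def, map_mul]
    exact mul_lt_one_of_nonneg_of_lt_one_left zero_le
      (hsmall _ ((gnorm_lt_iff v pb).mp hy i)) (hpow i)
  ext a
  rw [Valuation.mem_valuationSubring_iff, gaussExt_eq_gnorm]
  constructor
  · intro ha
    by_contra hgt
    rw [not_le] at hgt
    have ha0 : a ≠ 0 := by
      rintro rfl
      rw [gnorm_zero] at hgt
      exact not_lt.mpr zero_le hgt
    have hinv : gnorm v pb a⁻¹ < 1 := by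
      have h := map_inv₀ (gaussExt v pb hint res hres Pbar hcoeff hirr) a
      rw [gaussExt_eq_gnorm, gaussExt_eq_gnorm] at h
      rw [h]
      exact inv_lt_one_of_one_lt₀ hgt
    have h1 := hlt _ hinv
    rw [map_inv₀] at h1
    have hpos : 0 < B.valuation a := (Valuation.pos_iff _).mpr ha0
    have h2 : 1 < B.valuation a := (inv_lt_one₀ hpos).mp h1
    exact not_le.mpr h2 ((B.valuation_le_one_iff a).mpr ha)
  · intro ha
    rw [← pb.basis.sum_repr a]
    refine B.toSubring.sum_mem fun i _ => ?_
    rw [pb.basis_eq_pow, Algebra.smul_def]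
    exact B.mul_mem _ _ ((hmem _).mpr ((gnorm_le_iff v pb).mp ha i)) (B.pow_mem hθ i)

end Reduction

/-! ### A power basis from a primitive element -/

/-- The power basis `1, θ, …` of `L = K(θ)`. -/
noncomputable def powerBasisOfAdjoinEqTop {θ : L} (hθ : IsIntegral K θ)
    (htop : IntermediateField.adjoin K {θ} = ⊤) : PowerBasis K L :=
  (IntermediateField.adjoin.powerBasis hθ).map
    ((IntermediateField.equivOfEq htop).trans IntermediateField.topEquiv)

@[simp] theorem powerBasisOfAdjoinEqTop_gen {θ : L} (hθ : IsIntegral K θ)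
    (htop : IntermediateField.adjoin K {θ} = ⊤) :
    (powerBasisOfAdjoinEqTop hθ htop).gen = θ := by
  simp [powerBasisOfAdjoinEqTop]

theorem powerBasisOfAdjoinEqTop_dim {θ : L} (hθ : IsIntegral K θ)
    (htop : IntermediateField.adjoin K {θ} = ⊤) :
    (powerBasisOfAdjoinEqTop hθ htop).dim = (minpoly K θ).natDegree := by
  simp [powerBasisOfAdjoinEqTop]

end Fermat.Agent.BR3.GaussExt
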