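import Mathlib
import Fermat.Agent.BR3.GaussExt

/-!
# Program C, node I2 (VERT): the Gauss extension, valuation-subring form

The same engine as `BR3/GaussExt.lean`, in the language of Program B: a valuation subring `A` of
`K` with a residue map `res : A →+* κ` whose kernel is the set of non-units (e.g.
`Circle.circleRing C a ha1 ha2` with `Circle.circleRes`), `L = K(θ)` with a power basis, the minimal
polynomial of `θ` with coefficients in `A` and irreducible reduction `Pbar`.

* `extSubring … : ValuationSubring L`, `mem_extSubring_iff : a ∈ B ↔ ∀ i, (coordinates of a) ∈ A`;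
* `comap_extSubring : B.comap (algebraMap K L) = A`, `extSubring_unique`;
* `extRes : B →+* AdjoinRoot Pbar`, `extRes_eq_zero_iff : extRes x = 0 ↔ ¬ IsUnit x`,
  `extRes_algebraMap`, `extRes_gen`, `extRes_surjective`;
* `extVal : Valuation L A.ValueGroup` with the orthonormal-basis formula `extVal_sum`.
-/

set_option autoImplicit false
set_option linter.unusedSectionVars false

open Polynomial

namespace Fermat.Agent.BR3.GaussExtSubring

open Fermat.Agent.BR3.GaussExt

variable {K L : Type*} [Field K] [Field L] [Algebra K L]
  (A : ValuationSubring K) (pb : PowerBasis K L)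
  (hint : ∀ i, (minpoly K pb.gen).coeff i ∈ A)
  {κ : Type*} [Field κ] (res : A →+* κ) (hres : ∀ a : A, res a = 0 ↔ ¬ IsUnit a)
  (Pbar : κ[X]) (hcoeff : ∀ i, res ⟨(minpoly K pb.gen).coeff i, hint i⟩ = Pbar.coeff i)
  (hirr : Irreducible Pbar)

/-- The inclusion `{v ≤ 1} → A`. -/
noncomputable def intIncl : A.valuation.integer →+* A :=
  Subring.inclusion (le_of_eq A.integer_valuation)

@[simp] theorem coe_intIncl (a : A.valuation.integer) : ((intIncl A a : A) : K) = (a : K) := rfl

/-- The residue map on `{v ≤ 1}`. -/
noncomputable def resInt : A.valuation.integer →+* κ := res.comp (intIncl A)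

theorem not_isUnit_iff (a : A) : ¬ IsUnit a ↔ A.valuation (a : K) < 1 := by
  rw [A.valuation_eq_one_iff]
  exact (A.valuation_le_one a).lt_iff_ne.symm

include hres in
theorem resInt_eq_zero_iff (a : A.valuation.integer) :
    resInt A res a = 0 ↔ A.valuation (a : K) < 1 := by
  show res (intIncl A a) = 0 ↔ _
  rw [hres, not_isUnit_iff]
  rfl

include hint in
theorem hint_val (i : ℕ) : A.valuation ((minpoly K pb.gen).coeff i) ≤ 1 :=
  (A.valuation_le_one_iff _).mpr (hint i)

include hcoeff in
theorem hcoeff_int (i : ℕ) :
    resInt A res ⟨(minpoly K pb.gen).coeff i,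
      (Valuation.mem_integer_iff A.valuation _).mpr (hint_val A pb hint i)⟩ = Pbar.coeff i :=
  hcoeff i

/-- **The Gauss extension as a valuation** with values in the value group of `A`. -/
noncomputable def extVal : Valuation L A.ValueGroup :=
  gaussExt A.valuation pb (hint_val A pb hint) (resInt A res) (resInt_eq_zero_iff A res hres) Pbar
    (hcoeff_int A pb hint res Pbar hcoeff) hirr

/-- **The Gauss extension as a valuation subring of `L`.** -/
noncomputable def extSubring : ValuationSubring L :=
  (extVal A pb hint res hres Pbar hcoeff hirr).valuationSubring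

theorem extVal_algebraMap (c : K) :
    extVal A pb hint res hres Pbar hcoeff hirr (algebraMap K L c) = A.valuation c :=
  gaussExt_algebraMap _ _ _ _ _ _ _ _ c

/-- The orthonormal-basis formula. -/
theorem extVal_sum (c : Fin pb.dim → K) :
    extVal A pb hint res hres Pbar hcoeff hirr (∑ i, c i • pb.gen ^ (i : ℕ)) =
      Finset.univ.sup fun i => A.valuation (c i) :=
  gaussExt_sum _ _ _ _ _ _ _ _ c

theorem extVal_apply (a : L) :
    extVal A pb hint res hres Pbar hcoeff hirr a =
      Finset.univ.sup fun i : Fin pb.dim => A.valuation (pb.basis.repr a i) := rfl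

/-- `B = ⊕ A θ^i`. -/
theorem mem_extSubring_iff {a : L} :
    a ∈ extSubring A pb hint res hres Pbar hcoeff hirr ↔ ∀ i, pb.basis.repr a i ∈ A := by
  rw [extSubring, Valuation.mem_valuationSubring_iff]
  rw [show extVal A pb hint res hres Pbar hcoeff hirr a ≤ 1 ↔
    ∀ i, A.valuation (pb.basis.repr a i) ≤ 1 from gaussExt_le_one_iff _ _ _ _ _ _ _ _]
  exact forall_congr' fun i => A.valuation_le_one_iff _

theorem extVal_lt_one_iff {a : L} :
    extVal A pb hint res hres Pbar hcoeff hirr a < 1 ↔ ∀ i, pb.basis.repr a i ∈ A.nonunits :=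
  gaussExt_lt_one_iff _ _ _ _ _ _ _ _

/-- `B` lies over `A`. -/
theorem comap_extSubring :
    (extSubring A pb hint res hres Pbar hcoeff hirr).comap (algebraMap K L) = A := by
  rw [extSubring, extVal, comap_valuationSubring_gaussExt, A.valuationSubring_valuation]

/-- **Uniqueness**: `B` is the only valuation subring of `L` over `A`. -/
theorem extSubring_unique (B : ValuationSubring L) (hB : B.comap (algebraMap K L) = A) :
    B = extSubring A pb hint res hres Pbar hcoeff hirr :=
  gaussExt_unique _ _ _ _ _ _ _ _ B (by rw [hB, A.valuationSubring_valuation])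

theorem gen_mem_extSubring : pb.gen ∈ extSubring A pb hint res hres Pbar hcoeff hirr :=
  gen_mem_integer _ _ _ _ _ _ _ _

theorem algebraMap_mem_extSubring (c : A) :
    algebraMap K L (c : K) ∈ extSubring A pb hint res hres Pbar hcoeff hirr := by
  rw [extSubring, Valuation.mem_valuationSubring_iff]
  rw [show extVal A pb hint res hres Pbar hcoeff hirr (algebraMap K L (c : K)) = A.valuation c from
    extVal_algebraMap A pb hint res hres Pbar hcoeff hirr c]
  exact A.valuation_le_one c

/-- `B → {w ≤ 1}` (the identity). -/
noncomputable def toInteger :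
    extSubring A pb hint res hres Pbar hcoeff hirr →+*
      (extVal A pb hint res hres Pbar hcoeff hirr).integer where
  toFun x := ⟨x.1, x.2⟩
  map_one' := rfl
  map_mul' _ _ := rfl
  map_zero' := rfl
  map_add' _ _ := rfl

/-- **The residue map** `B → κ[X] / (Pbar)`. -/
noncomputable def extRes :
    extSubring A pb hint res hres Pbar hcoeff hirr →+* AdjoinRoot Pbar :=
  (resExt A.valuation pb (hint_val A pb hint) (resInt A res) (resInt_eq_zero_iff A res hres) Pbar
    (hcoeff_int A pb hint res Pbar hcoeff) hirr).comp (toInteger A pb hint res hres Pbar hcoeff hirr)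

/-- The kernel of the residue map is the set of non-units. -/
theorem extRes_eq_zero_iff (x : extSubring A pb hint res hres Pbar hcoeff hirr) :
    extRes A pb hint res hres Pbar hcoeff hirr x = 0 ↔ ¬ IsUnit x := by
  rw [not_isUnit_iff]
  show resExt _ _ _ _ _ _ _ _ (toInteger A pb hint res hres Pbar hcoeff hirr x) = 0 ↔ _
  rw [resExt_eq_zero_iff]
  exact (Valuation.isEquiv_valuation_valuationSubring
    (extVal A pb hint res hres Pbar hcoeff hirr)).lt_one_iff_lt_one

theorem extRes_algebraMap (c : A) :
    extRes A pb hint res hres Pbar hcoeff hirr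
      ⟨algebraMap K L (c : K), algebraMap_mem_extSubring A pb hint res hres Pbar hcoeff hirr c⟩ =
      AdjoinRoot.of Pbar (res c) := by
  have h := resExt_algebraMap A.valuation pb (hint_val A pb hint) (resInt A res)
    (resInt_eq_zero_iff A res hres) Pbar (hcoeff_int A pb hint res Pbar hcoeff) hirr
    ⟨(c : K), (Valuation.mem_integer_iff _ _).mpr (A.valuation_le_one c)⟩
  exact h

theorem extRes_gen :
    extRes A pb hint res hres Pbar hcoeff hirr
      ⟨pb.gen, gen_mem_extSubring A pb hint res hres Pbar hcoeff hirr⟩ = AdjoinRoot.root Pbar :=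
  resExt_gen _ _ _ _ _ _ _ _

theorem extRes_surjective (hsurj : Function.Surjective res) :
    Function.Surjective (extRes A pb hint res hres Pbar hcoeff hirr) := by
  have h1 : Function.Surjective (resInt A res) := by
    intro y
    obtain ⟨a, rfl⟩ := hsurj y
    exact ⟨⟨(a : K), (Valuation.mem_integer_iff _ _).mpr (A.valuation_le_one a)⟩, rfl⟩
  have h2 := resExt_surjective A.valuation pb (hint_val A pb hint) (resInt A res)
    (resInt_eq_zero_iff A res hres) Pbar (hcoeff_int A pb hint res Pbar hcoeff) hirr h1
  intro y
  obtain ⟨x, rfl⟩ := h2 y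
  exact ⟨⟨x.1, x.2⟩, rfl⟩

/-- The inclusion `A → {v ≤ 1}`. -/
noncomputable def inclInt : A →+* A.valuation.integer :=
  Subring.inclusion (ge_of_eq A.integer_valuation)

/-- Computing `extRes` on a polynomial expression in `θ` with coefficients in `A`. -/
theorem extRes_aeval (F₀ : A[X]) (x : extSubring A pb hint res hres Pbar hcoeff hirr)
    (hF : aeval pb.gen (F₀.map A.subtype) = (x : L)) :
    extRes A pb hint res hres Pbar hcoeff hirr x = AdjoinRoot.mk Pbar (F₀.map res) := by
  have h1 : (F₀.map (inclInt A)).map A.valuation.integer.subtype = F₀.map A.subtype := by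
    rw [Polynomial.map_map]
    rfl
  have h2 : (F₀.map (inclInt A)).map (resInt A res) = F₀.map res := by
    rw [Polynomial.map_map]
    rfl
  have h := resExt_aeval A.valuation pb (hint_val A pb hint) (resInt A res)
    (resInt_eq_zero_iff A res hres) Pbar (hcoeff_int A pb hint res Pbar hcoeff) hirr
    (F₀.map (inclInt A)) (toInteger A pb hint res hres Pbar hcoeff hirr x) (by rw [h1, hF]; rfl)
  rw [h2] at h
  exact h

/-- Elements of `A[θ]` lie in `B`. -/
theorem aeval_mem_extSubring (F₀ : A[X]) :
    aeval pb.gen (F₀.map A.subtype) ∈ extSubring A pb hint res hres Pbar hcoeff hirr := by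
  have h1 : (F₀.map (inclInt A)).map A.valuation.integer.subtype = F₀.map A.subtype := by
    rw [Polynomial.map_map]
    rfl
  rw [extSubring, Valuation.mem_valuationSubring_iff, ← h1]
  exact gnorm_aeval_int_le A.valuation pb (hint_val A pb hint) (F₀.map (inclInt A))

end Fermat.Agent.BR3.GaussExtSubring
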