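import Mathlib
import Fermat.Agent.BR.NodeNewton

/-!
# Program C (S36), spike (C-VERT), file A: the exact vertical polynomial

`Φ ∈ K[X][Y]` (inner variable `X`, outer variable `Y`; `Φ.evalEval x y = Φ(inner = x, outer = y)`,
the conventions of `BR/KronCong.lean`, `BR/NodeKron.lean`) of the Kronecker shape

  `Φ = (Y^q - X) (Y - X^q) + q Ψ`.

For a point `(x, y)` the **vertical polynomial** `vertPoly Φ x y ∈ K[X]` is the difference quotient
of `Φ(x, ·)` at `y`:  `Φ(x, y + u) - Φ(x, y) = u · (vertPoly Φ x y)(u)` (`evalEval_add_sub`).  If `y`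
and `y + u` are two DIFFERENT roots of `Φ(x, ·)` (two different `q`-isogenies out of the curve with
invariant `x`) then `u` is a root of `vertPoly Φ x y` (`eval_vertPoly_eq_zero`).

* `vertPoly_eq` : **the exact shape**
  `vertPoly Φ x y = X^q + (y - x^q) X^(q-1) + (y^q - x) + q · vertH Ψ q x y`, with an explicit
  `vertH`; `intCoeff_vertH` : it has integral coefficients when `x, y` are integral and `Ψ` has
  integral coefficients;
* `vertPoly_monic`, `vertPoly_natDegree` : monic of degree `q` when `Φ(x, ·)` is monic of degree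
  `q + 1`;
* `vertScaled` : `c^(-q) · vertPoly(c X)`; `vertScaled_eq`, `vertScaled_monic`,
  `vertScaled_natDegree`, `eval_vertScaled`;
* `vertScaled_coeff_sub_lt` : **the reduction on the critical circle**: if `|q| < |c|^q`,
  `|c| ≤ 1`, then all coefficients of `vertScaled - (X^q + b X^(q-1) + a)` have size `< 1`, where
  `b = (y - x^q)/c`, `a = (y^q - x)/c^q`; `vertA_mul_vertB` : `a b = - q Ψ(x, y) / c^(q+1)` at a
  zero of `Φ`.
-/

set_option autoImplicit false

noncomputable section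

namespace Fermat.Agent.BR3.VertTaylor

open Polynomial Finset
open Fermat.Agent.BR.NodeNewton
open scoped Polynomial.Bivariate

variable {K : Type*} [Field K]

/-! ### the difference quotient -/

/-- `Φ(x, ·)` as a polynomial in the outer variable. -/
def outerAt (Φ : K[X][Y]) (x : K) : K[X] := Φ.map (evalRingHom x)

theorem eval_outerAt (Φ : K[X][Y]) (x y : K) : (outerAt Φ x).eval y = Φ.evalEval x y :=
  map_evalRingHom_eval x y Φ

/-- **The vertical polynomial**: the difference quotient of `Φ(x, ·)` at `y`. -/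
def vertPoly (Φ : K[X][Y]) (x y : K) : K[X] := divX ((outerAt Φ x).comp (X + C y))

theorem vertPoly_mul_X_add (Φ : K[X][Y]) (x y : K) :
    vertPoly Φ x y * X + C (Φ.evalEval x y) = (outerAt Φ x).comp (X + C y) := by
  have h := divX_mul_X_add ((outerAt Φ x).comp (X + C y))
  have h0 : ((outerAt Φ x).comp (X + C y)).coeff 0 = Φ.evalEval x y := by
    rw [coeff_zero_eq_eval_zero, eval_comp, eval_add, eval_X, eval_C, zero_add, eval_outerAt]
  rw [h0] at h
  exact h

/-- `Φ(x, y + u) - Φ(x, y) = u · vertPoly(u)`. -/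
theorem evalEval_add_sub (Φ : K[X][Y]) (x y u : K) :
    Φ.evalEval x (y + u) - Φ.evalEval x y = u * (vertPoly Φ x y).eval u := by
  have h := congrArg (fun P : K[X] => P.eval u) (vertPoly_mul_X_add Φ x y)
  simp only [eval_add, eval_mul, eval_X, eval_C, eval_comp, eval_outerAt] at h
  rw [add_comm u y] at h
  rw [← h]
  ring

/-- Two different roots `y`, `y + u` of `Φ(x, ·)`: `u` is a root of the vertical polynomial. -/
theorem eval_vertPoly_eq_zero {Φ : K[X][Y]} {x y u : K} (h0 : Φ.evalEval x y = 0)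
    (h1 : Φ.evalEval x (y + u) = 0) (hu : u ≠ 0) : (vertPoly Φ x y).eval u = 0 := by
  have h := evalEval_add_sub Φ x y u
  rw [h0, h1, sub_zero] at h
  exact (mul_eq_zero.mp h.symm).resolve_left hu

/-- uniqueness of the decomposition `g X + c` -/
theorem divX_mul_X_add_C (g : K[X]) (c : K) : divX (g * X + C c) = g := by
  ext n
  rw [coeff_divX, coeff_add, coeff_mul_X, coeff_C_succ, add_zero]

/-! ### the Kronecker shape -/

/-- the binomial cofactor: `(X + y)^q = X^q + y^q + q X y · binomCof q y` -/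
def binomCof (q : ℕ) (y : K) : K[X] :=
  ∑ k ∈ Ioo 0 q, X ^ (k - 1) * (C y) ^ (q - k - 1) * ((q.choose k / q : ℕ) : K[X])

theorem add_pow_eq_binomCof {q : ℕ} (hq : q.Prime) (y : K) :
    (X + C y : K[X]) ^ q = X ^ q + C y ^ q + (q : K[X]) * X * C y * binomCof q y :=
  add_pow_prime_eq hq X (C y)

/-- the difference quotient of `Ψ(x, ·)` at `y` -/
def diffQuot (Ψ : K[X][Y]) (x y : K) : K[X] := vertPoly Ψ x y

/-- **The error polynomial** of the vertical polynomial. -/
def vertH (Ψ : K[X][Y]) (q : ℕ) (x y : K) : K[X] :=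
  C y * binomCof q y * (X + C (y - x ^ q)) + diffQuot Ψ x y

/-- **The exact shape of the vertical polynomial** for `Φ = (Y^q - X)(Y - X^q) + q Ψ`. -/
theorem vertPoly_eq {q : ℕ} (hq : q.Prime) {Φ Ψ : K[X][Y]}
    (hΦ : Φ = (X ^ q - C X) * (X - C (X ^ q)) + C (C (q : K)) * Ψ) (x y : K) :
    vertPoly Φ x y =
      X ^ q + C (y - x ^ q) * X ^ (q - 1) + C (y ^ q - x) + C (q : K) * vertH Ψ q x y := by
  have hq1 : q = (q - 1) + 1 := (Nat.succ_pred_eq_of_pos hq.pos).symm
  have hout : outerAt Φ x = (X ^ q - C x) * (X - C (x ^ q)) + C (q : K) * outerAt Ψ x := by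
    rw [hΦ, outerAt, outerAt]
    simp [Polynomial.map_add, Polynomial.map_mul, Polynomial.map_sub, Polynomial.map_pow]
  have hΨ := vertPoly_mul_X_add Ψ x y
  have hXq : (X : K[X]) ^ q = X ^ (q - 1) * X := by rw [← pow_succ, ← hq1]
  have key : (outerAt Φ x).comp (X + C y) =
      (X ^ q + C (y - x ^ q) * X ^ (q - 1) + C (y ^ q - x) + C (q : K) * vertH Ψ q x y) * X +
        C (Φ.evalEval x y) := by
    have hval : Φ.evalEval x y = (y ^ q - x) * (y - x ^ q) + (q : K) * Ψ.evalEval x y := by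
      rw [← eval_outerAt, hout]
      simp [eval_outerAt]
    rw [hval, hout]
    simp only [add_comp, mul_comp, sub_comp, pow_comp, X_comp, C_comp]
    rw [← hΨ, add_pow_eq_binomCof hq y, vertH, diffQuot]
    have hnat : ((q : ℕ) : K[X]) = C (q : K) := by simp
    rw [hnat]
    simp only [C_sub, C_pow, C_mul, C_add]
    rw [hXq]
    ring
  rw [vertPoly, key, divX_mul_X_add_C]

/-! ### integrality -/

section Integral

variable {Γ₀ : Type*} [LinearOrderedCommGroupWithZero Γ₀] {v : Valuation K Γ₀}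

theorem natCast_le_one (n : ℕ) : v (n : K) ≤ 1 := by
  induction n with
  | zero => simp
  | succ n ih =>
    rw [Nat.cast_succ]
    exact le_trans (v.map_add _ _) (max_le ih (by simp))

theorem intCoeff_binomCof (q : ℕ) {y : K} (hy : v y ≤ 1) : IntCoeff v (binomCof q y) := by
  apply IntCoeff.sum
  intro k _
  refine ((IntCoeff.X.pow _).mul ((IntCoeff.C hy).pow _)).mul ?_
  have h : ((q.choose k / q : ℕ) : K[X]) = C ((q.choose k / q : ℕ) : K) := by simp
  rw [h]
  exact IntCoeff.C (natCast_le_one _)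

theorem intCoeff_outerAt {Ψ : K[X][Y]} (hΨ : IntCoeff₂ v Ψ) {x : K} (hx : v x ≤ 1) :
    IntCoeff v (outerAt Ψ x) := fun i => by
  rw [outerAt, coeff_map, coe_evalRingHom]
  exact (hΨ i).eval_le hx

theorem intCoeff_divX {P : K[X]} (hP : IntCoeff v P) : IntCoeff v (divX P) := fun i => by
  rw [coeff_divX]
  exact hP _

theorem intCoeff_vertPoly {Ψ : K[X][Y]} (hΨ : IntCoeff₂ v Ψ) {x y : K} (hx : v x ≤ 1)
    (hy : v y ≤ 1) : IntCoeff v (vertPoly Ψ x y) :=
  intCoeff_divX ((intCoeff_outerAt hΨ hx).comp (IntCoeff.X.add (IntCoeff.C hy)))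

/-- **The error polynomial has integral coefficients.** -/
theorem intCoeff_vertH {Ψ : K[X][Y]} (hΨ : IntCoeff₂ v Ψ) (q : ℕ) {x y : K} (hx : v x ≤ 1)
    (hy : v y ≤ 1) : IntCoeff v (vertH Ψ q x y) := by
  have h1 : v (y - x ^ q) ≤ 1 := by
    refine le_trans (v.map_sub _ _) (max_le hy ?_)
    rw [map_pow]
    exact pow_le_one' hx q
  exact (((IntCoeff.C hy).mul (intCoeff_binomCof q hy)).mul
    (IntCoeff.X.add (IntCoeff.C h1))).add (intCoeff_vertPoly hΨ hx hy)

end Integral

/-! ### degree -/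

section Degree

variable {Φ : K[X][Y]} {x : K} {q : ℕ}

theorem natDegree_comp_X_add_C (P : K[X]) (y : K) : (P.comp (X + C y)).natDegree = P.natDegree := by
  rw [natDegree_comp, natDegree_X_add_C, mul_one]

theorem vertPoly_natDegree (hdeg : (outerAt Φ x).natDegree = q + 1) (y : K) :
    (vertPoly Φ x y).natDegree = q := by
  rw [vertPoly, natDegree_divX_eq_natDegree_tsub_one, natDegree_comp_X_add_C, hdeg,
    Nat.add_sub_cancel]

theorem vertPoly_monic (hmon : (outerAt Φ x).Monic) (hdeg : (outerAt Φ x).natDegree = q + 1)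
    (y : K) : (vertPoly Φ x y).Monic := by
  have h1 : ((outerAt Φ x).comp (X + C y)).Monic := hmon.comp_X_add_C y
  have h2 : ((outerAt Φ x).comp (X + C y)).natDegree = q + 1 := by
    rw [natDegree_comp_X_add_C, hdeg]
  rw [Monic, leadingCoeff, vertPoly_natDegree hdeg y, vertPoly, coeff_divX, ← h2]
  exact h1

end Degree

/-! ### the scaled vertical polynomial -/

section Scaled

/-- `c^(-q) · vertPoly(c X)` -/
def vertScaled (Φ : K[X][Y]) (q : ℕ) (x y c : K) : K[X] :=
  C (c ^ q)⁻¹ * (vertPoly Φ x y).comp (C c * X)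

theorem eval_vertScaled (Φ : K[X][Y]) (q : ℕ) (x y c t : K) :
    (vertScaled Φ q x y c).eval t = (c ^ q)⁻¹ * (vertPoly Φ x y).eval (c * t) := by
  simp [vertScaled, eval_comp]

theorem coeff_vertScaled (Φ : K[X][Y]) (q : ℕ) (x y c : K) (n : ℕ) :
    (vertScaled Φ q x y c).coeff n = (c ^ q)⁻¹ * ((vertPoly Φ x y).coeff n * c ^ n) := by
  rw [vertScaled, coeff_C_mul, comp_C_mul_X_coeff]

/-- a root `u` of the vertical polynomial gives the root `u / c` of the scaled one -/
theorem eval_vertScaled_div {Φ : K[X][Y]} {q : ℕ} {x y c u : K} (hc : c ≠ 0)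
    (hu : (vertPoly Φ x y).eval u = 0) : (vertScaled Φ q x y c).eval (u / c) = 0 := by
  rw [eval_vertScaled, mul_div_cancel₀ u hc, hu, mul_zero]

variable {Φ : K[X][Y]} {x : K} {q : ℕ}

theorem vertScaled_natDegree (hdeg : (outerAt Φ x).natDegree = q + 1)
    (hmon : (outerAt Φ x).Monic) (y : K) {c : K} (hc : c ≠ 0) :
    (vertScaled Φ q x y c).natDegree = q := by
  apply le_antisymm
  · rw [natDegree_le_iff_coeff_eq_zero]
    intro n hn
    rw [coeff_vertScaled, coeff_eq_zero_of_natDegree_lt (by rw [vertPoly_natDegree hdeg y]; exact hn)]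
    simp
  · apply le_natDegree_of_ne_zero
    rw [coeff_vertScaled]
    have h1 : (vertPoly Φ x y).coeff q = 1 := by
      have := vertPoly_monic hmon hdeg y
      rwa [Monic, leadingCoeff, vertPoly_natDegree hdeg y] at this
    rw [h1, one_mul, inv_mul_cancel₀ (pow_ne_zero q hc)]
    exact one_ne_zero

theorem vertScaled_monic (hdeg : (outerAt Φ x).natDegree = q + 1)
    (hmon : (outerAt Φ x).Monic) (y : K) {c : K} (hc : c ≠ 0) :
    (vertScaled Φ q x y c).Monic := by
  have h1 : (vertPoly Φ x y).coeff q = 1 := by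
    have := vertPoly_monic hmon hdeg y
    rwa [Monic, leadingCoeff, vertPoly_natDegree hdeg y] at this
  rw [Monic, leadingCoeff, vertScaled_natDegree hdeg hmon y hc, coeff_vertScaled, h1, one_mul,
    inv_mul_cancel₀ (pow_ne_zero q hc)]

/-- the two leading residues on the critical circle -/
def vertB (q : ℕ) (x y c : K) : K := (y - x ^ q) / c

/-- the constant residue on the critical circle -/
def vertA (q : ℕ) (x y c : K) : K := (y ^ q - x) / c ^ q

/-- the small part of the scaled vertical polynomial -/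
def vertE (Ψ : K[X][Y]) (q : ℕ) (x y c : K) : K[X] :=
  C ((q : K) / c ^ q) * (vertH Ψ q x y).comp (C c * X)

/-- **The exact shape of the scaled vertical polynomial.** -/
theorem vertScaled_eq (hq : q.Prime) {Ψ : K[X][Y]}
    (hΦ : Φ = (X ^ q - C X) * (X - C (X ^ q)) + C (C (q : K)) * Ψ) (y : K) {c : K} (hc : c ≠ 0) :
    vertScaled Φ q x y c =
      X ^ q + C (vertB q x y c) * X ^ (q - 1) + C (vertA q x y c) + vertE Ψ q x y c := by
  have hq1 : q = (q - 1) + 1 := (Nat.succ_pred_eq_of_pos hq.pos).symm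
  have hcq : c ^ q ≠ 0 := pow_ne_zero q hc
  rw [vertScaled, vertPoly_eq hq hΦ, vertB, vertA, vertE]
  simp only [add_comp, mul_comp, pow_comp, X_comp, C_comp, mul_pow, mul_add]
  have e1 : C (c ^ q)⁻¹ * ((C c) ^ q * X ^ q) = X ^ q := by
    rw [← mul_assoc, ← C_pow, ← C_mul, inv_mul_cancel₀ hcq, C_1, one_mul]
  have e2 : C (c ^ q)⁻¹ * (C (y - x ^ q) * ((C c) ^ (q - 1) * X ^ (q - 1))) =
      C ((y - x ^ q) / c) * X ^ (q - 1) := by
    rw [← mul_assoc, ← mul_assoc, ← C_pow, ← C_mul, ← C_mul]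
    congr 2
    have : c ^ q = c ^ (q - 1) * c := by rw [← pow_succ, ← hq1]
    rw [this]
    field_simp
  have e3 : C (c ^ q)⁻¹ * C (y ^ q - x) = C ((y ^ q - x) / c ^ q) := by
    rw [← C_mul]
    congr 1
    field_simp
  have e4 : C (c ^ q)⁻¹ * (C (q : K) * (vertH Ψ q x y).comp (C c * X)) =
      C ((q : K) / c ^ q) * (vertH Ψ q x y).comp (C c * X) := by
    rw [← mul_assoc, ← C_mul]
    congr 2
    field_simp
  rw [e1, e2, e3, e4]

/-- `a b = - q Ψ(x, y) / c^(q+1)` at a zero of `Φ`. -/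
theorem vertA_mul_vertB {Ψ : K[X][Y]}
    (hΦ : Φ = (X ^ q - C X) * (X - C (X ^ q)) + C (C (q : K)) * Ψ) {y : K}
    (h0 : Φ.evalEval x y = 0) (c : K) :
    vertA q x y c * vertB q x y c = -((q : K) * Ψ.evalEval x y) / c ^ (q + 1) := by
  have hval : Φ.evalEval x y = (y ^ q - x) * (y - x ^ q) + (q : K) * Ψ.evalEval x y := by
    rw [hΦ]
    simp [evalEval]
  rw [h0] at hval
  have h1 : (y ^ q - x) * (y - x ^ q) = -((q : K) * Ψ.evalEval x y) := by
    linear_combination -hval
  rw [vertA, vertB, div_mul_div_comm, h1, pow_succ]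

end Scaled

/-! ### the reduction on the critical circle -/

section Reduction

variable {Γ₀ : Type*} [LinearOrderedCommGroupWithZero Γ₀] {v : Valuation K Γ₀}

/-- **All coefficients of the small part have size `< 1`** when `|q| < |c|^q`, `|c| ≤ 1`. -/
theorem vertE_coeff_lt {Ψ : K[X][Y]} (hΨ : IntCoeff₂ v Ψ) (q : ℕ) {x y c : K} (hx : v x ≤ 1)
    (hy : v y ≤ 1) (hc1 : v c ≤ 1) (hc : c ≠ 0) (hqc : v (q : K) < v c ^ q) (n : ℕ) :
    v ((vertE Ψ q x y c).coeff n) < 1 := by
  have hint : IntCoeff v ((vertH Ψ q x y).comp (C c * X)) :=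
    (intCoeff_vertH hΨ q hx hy).comp ((IntCoeff.C hc1).mul IntCoeff.X)
  have hcq : v (c ^ q) ≠ 0 := by
    rw [ne_eq, Valuation.zero_iff]
    exact pow_ne_zero q hc
  have h1 : v ((q : K) / c ^ q) < 1 := by
    rw [map_div₀, div_lt_one₀ (zero_lt_iff.mpr hcq), map_pow]
    exact hqc
  rw [vertE, coeff_C_mul, map_mul]
  calc v ((q : K) / c ^ q) * v (((vertH Ψ q x y).comp (C c * X)).coeff n)
      ≤ v ((q : K) / c ^ q) * 1 := mul_le_mul' le_rfl (hint n)
    _ = v ((q : K) / c ^ q) := mul_one _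
    _ < 1 := h1

/-- **The reduction of the scaled vertical polynomial on the critical circle**: all coefficients
of `vertScaled - (X^q + b X^(q-1) + a)` have size `< 1`. -/
theorem vertScaled_coeff_sub_lt {q : ℕ} (hq : q.Prime) {Φ Ψ : K[X][Y]}
    (hΦ : Φ = (X ^ q - C X) * (X - C (X ^ q)) + C (C (q : K)) * Ψ) (hΨ : IntCoeff₂ v Ψ)
    {x y c : K} (hx : v x ≤ 1) (hy : v y ≤ 1) (hc1 : v c ≤ 1) (hc : c ≠ 0)
    (hqc : v (q : K) < v c ^ q) (n : ℕ) :
    v ((vertScaled Φ q x y c -
      (X ^ q + C (vertB q x y c) * X ^ (q - 1) + C (vertA q x y c))).coeff n) < 1 := by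
  rw [vertScaled_eq hq hΦ y hc, add_sub_cancel_left]
  exact vertE_coeff_lt hΨ q hx hy hc1 hc hqc n

/-- the scaled vertical polynomial has integral coefficients on the critical circle -/
theorem intCoeff_vertScaled {q : ℕ} (hq : q.Prime) {Φ Ψ : K[X][Y]}
    (hΦ : Φ = (X ^ q - C X) * (X - C (X ^ q)) + C (C (q : K)) * Ψ) (hΨ : IntCoeff₂ v Ψ)
    {x y c : K} (hx : v x ≤ 1) (hy : v y ≤ 1) (hc1 : v c ≤ 1) (hc : c ≠ 0)
    (hqc : v (q : K) < v c ^ q) (hb : v (vertB q x y c) ≤ 1) (ha : v (vertA q x y c) ≤ 1) :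
    IntCoeff v (vertScaled Φ q x y c) := by
  rw [vertScaled_eq hq hΦ y hc]
  refine (((IntCoeff.X.pow q).add ((IntCoeff.C hb).mul (IntCoeff.X.pow _))).add
    (IntCoeff.C ha)).add fun n => ?_
  exact le_of_lt (vertE_coeff_lt hΨ q hx hy hc1 hc hqc n)

end Reduction

end Fermat.Agent.BR3.VertTaylor
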