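import Mathlib
import Fermat.Agent.BR3.VertTaylor

/-!
# Program C (S36), spike (C-VERT), file A': coefficientwise reduction of the scaled vertical
polynomial, in the shape consumed by the Gauss-extension engine (`BR3/GaussExt.lean`)

`v : Valuation K Γ₀`, `res : v.integer →+* κ` with `res a = 0 ↔ v a < 1`.  On the critical circle
(`|q| < |c|^q`, `|c| ≤ 1`, `b = (y - x^q)/c`, `a = (y^q - x)/c^q` integral) the scaled vertical
polynomial `vertScaled Φ q x y c` has integral coefficients and reduces coefficientwise to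
`X^q + C (res b) * X^(q-1) + C (res a)`.

* `res_eq_of_sub_lt` : two integral elements whose difference has size `< 1` have the same residue;
* `res_coeff_vertScaled` : **the coefficientwise reduction**;
* `res_vertA_mul_res_vertB` : `res a * res b = res (- q Ψ(x,y) / c^(q+1))` at a zero of `Φ`.
-/

set_option autoImplicit false

noncomputable section

namespace Fermat.Agent.BR3.VertReduce

open Polynomial
open Fermat.Agent.BR.NodeNewton Fermat.Agent.BR3.VertTaylor
open scoped Polynomial.Bivariate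

variable {K : Type*} [Field K] {Γ₀ : Type*} [LinearOrderedCommGroupWithZero Γ₀]
  {v : Valuation K Γ₀} {κ : Type*} [Field κ]

/-- two integral elements whose difference has size `< 1` have the same residue -/
theorem res_eq_of_sub_lt (res : v.integer →+* κ) (hres : ∀ a : v.integer, res a = 0 ↔ v (a : K) < 1)
    {s t : K} (hs : v s ≤ 1) (ht : v t ≤ 1) (h : v (s - t) < 1) :
    res ⟨s, hs⟩ = res ⟨t, ht⟩ := by
  have h1 : res (⟨s, hs⟩ - ⟨t, ht⟩) = 0 := (hres _).mpr h
  rw [map_sub, sub_eq_zero] at h1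
  exact h1

/-- the coefficients of the model polynomial `X^q + B X^(q-1) + A` -/
theorem coeff_model {R : Type*} [CommRing R] (q : ℕ) (B A : R) (n : ℕ) :
    (X ^ q + C B * X ^ (q - 1) + C A : R[X]).coeff n =
      (if n = q then 1 else 0) + (if n = q - 1 then B else 0) + (if n = 0 then A else 0) := by
  simp only [coeff_add, coeff_X_pow, coeff_C_mul, coeff_C, mul_ite, mul_one, mul_zero]

theorem intCoeff_model {q : ℕ} {B A : K} (hB : v B ≤ 1) (hA : v A ≤ 1) :
    IntCoeff v (X ^ q + C B * X ^ (q - 1) + C A : K[X]) :=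
  ((IntCoeff.X.pow q).add ((IntCoeff.C hB).mul (IntCoeff.X.pow _))).add (IntCoeff.C hA)

/-- **The coefficientwise reduction of the scaled vertical polynomial on the critical circle.** -/
theorem res_coeff_vertScaled (res : v.integer →+* κ)
    (hres : ∀ a : v.integer, res a = 0 ↔ v (a : K) < 1) {q : ℕ} (hq : q.Prime) {Φ Ψ : K[X][Y]}
    (hΦ : Φ = (X ^ q - C X) * (X - C (X ^ q)) + C (C (q : K)) * Ψ) (hΨ : IntCoeff₂ v Ψ)
    {x y c : K} (hx : v x ≤ 1) (hy : v y ≤ 1) (hc1 : v c ≤ 1) (hc : c ≠ 0)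
    (hqc : v (q : K) < v c ^ q) (hb : v (vertB q x y c) ≤ 1) (ha : v (vertA q x y c) ≤ 1)
    (n : ℕ) (hn : v ((vertScaled Φ q x y c).coeff n) ≤ 1) :
    res ⟨(vertScaled Φ q x y c).coeff n, hn⟩ =
      (X ^ q + C (res ⟨vertB q x y c, hb⟩) * X ^ (q - 1) +
        C (res ⟨vertA q x y c, ha⟩) : κ[X]).coeff n := by
  have hm : v ((X ^ q + C (vertB q x y c) * X ^ (q - 1) + C (vertA q x y c) : K[X]).coeff n) ≤ 1 :=
    intCoeff_model hb ha n
  have h1 := res_eq_of_sub_lt res hres hn hm (by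
    rw [← coeff_sub]
    exact vertScaled_coeff_sub_lt hq hΦ hΨ hx hy hc1 hc hqc n)
  rw [h1]
  conv_rhs => rw [coeff_model]
  have e : (⟨(X ^ q + C (vertB q x y c) * X ^ (q - 1) + C (vertA q x y c) : K[X]).coeff n, hm⟩ :
      v.integer) = (if n = q then 1 else 0) + (if n = q - 1 then ⟨vertB q x y c, hb⟩ else 0) +
        (if n = 0 then ⟨vertA q x y c, ha⟩ else 0) := by
    apply Subtype.ext
    show (X ^ q + C (vertB q x y c) * X ^ (q - 1) + C (vertA q x y c) : K[X]).coeff n = _
    rw [coeff_model]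
    split_ifs <;> simp
  rw [e, map_add, map_add]
  split_ifs <;> simp

/-- `res a * res b = res (- q Ψ(x, y) / c^(q+1))` at a zero of `Φ`. -/
theorem res_vertA_mul_res_vertB (res : v.integer →+* κ) {q : ℕ} {Φ Ψ : K[X][Y]}
    (hΦ : Φ = (X ^ q - C X) * (X - C (X ^ q)) + C (C (q : K)) * Ψ) {x y : K}
    (h0 : Φ.evalEval x y = 0) (c : K) (hb : v (vertB q x y c) ≤ 1) (ha : v (vertA q x y c) ≤ 1)
    (hρ : v (-((q : K) * Ψ.evalEval x y) / c ^ (q + 1)) ≤ 1) :
    res ⟨vertA q x y c, ha⟩ * res ⟨vertB q x y c, hb⟩ =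
      res ⟨-((q : K) * Ψ.evalEval x y) / c ^ (q + 1), hρ⟩ := by
  rw [← map_mul]
  congr 1
  apply Subtype.ext
  exact vertA_mul_vertB hΦ h0 c

end Fermat.Agent.BR3.VertReduce
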