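import Mathlib
import Fermat.Agent.BR3.VertReduce
import Fermat.Agent.BR3.GaussExtSubring

/-!
# Program C (S36), spike (C-VERT) / node I2, GLUE part A (abstract)

`L / K` a field extension of prime degree `q`, `Φ = (Y^q - X)(Y - X^q) + q Ψ ∈ K[X][Y]` of Kronecker
shape with `Φ(x, ·)` monic of degree `q + 1`, two different roots `y` and `y + U` of `Φ(x, ·)` with
`y ∈ K`, `U ∈ L ∖ K`.  For `c ∈ Kˣ` put `θ = U / c`.

* `minpoly_theta` : the minimal polynomial of `θ` over `K` is helper9's
  `vertScaled Φ q x y c`, and `K(θ) = L`;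
* `thetaPB : PowerBasis K L` with generator `θ`;
* for a valuation subring `O` of `K` with residue map `res : O →+* κ` (kernel = non-units) on the
  critical circle (`|q| < |c|^q`, `b = (y - x^q)/c`, `a = (y^q - x)/c^q` in `O`) and
  `Pbar := X^q + res b X^(q-1) + res a` irreducible:
  `vertSubring : ValuationSubring L` is THE extension of `O` to `L` (`comap_vertSubring`,
  `vertSubring_unique`), with residue map `vertRes : vertSubring →+* AdjoinRoot Pbar`
  (`vertRes_eq_zero_iff`, `vertRes_surjective`, `vertRes_algebraMap`, `vertRes_theta`): `e = 1`,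
  `f = q`.
-/

set_option autoImplicit false
set_option linter.unusedSectionVars false

noncomputable section

namespace Fermat.Agent.BR3.VertGlueAbs

open Polynomial
open Fermat.Agent.BR.NodeNewton Fermat.Agent.BR3.VertTaylor Fermat.Agent.BR3.VertReduce
open Fermat.Agent.BR3.GaussExt Fermat.Agent.BR3.GaussExtSubring
open scoped Polynomial.Bivariate

variable {K L : Type*} [Field K] [Field L] [Algebra K L]

/-! ### prime degree: a monic polynomial of degree `q` with a root outside `K` -/

/-- In an extension of prime degree `q`, a monic polynomial of degree `q` with a root `t ∉ K` is the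
minimal polynomial of `t`, and `t` generates. -/
theorem minpoly_eq_of_prime_finrank [FiniteDimensional K L] {q : ℕ} (hq : q.Prime)
    (hfin : Module.finrank K L = q) {t : L} (ht : t ∉ Set.range (algebraMap K L)) {P : K[X]}
    (hP : P.Monic) (hdeg : P.natDegree = q) (h : aeval t P = 0) :
    minpoly K t = P ∧ IntermediateField.adjoin K {t} = ⊤ := by
  have hmul := Module.finrank_mul_finrank K (IntermediateField.adjoin K {t}) L
  rw [hfin] at hmul
  have hdvd : Module.finrank K (IntermediateField.adjoin K {t}) ∣ q := Dvd.intro _ hmul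
  have htop : IntermediateField.adjoin K {t} = ⊤ := by
    rcases (Nat.dvd_prime hq).1 hdvd with h1 | h1
    · exfalso
      rw [IntermediateField.finrank_adjoin_simple_eq_one_iff, IntermediateField.mem_bot] at h1
      exact ht h1
    · refine IntermediateField.eq_of_le_of_finrank_eq le_top ?_
      rw [h1, IntermediateField.finrank_top', hfin]
  refine ⟨?_, htop⟩
  have hint : IsIntegral K t := Algebra.IsIntegral.isIntegral _
  have hd : minpoly K t ∣ P := minpoly.dvd _ _ h
  have hnat : (minpoly K t).natDegree = q := by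
    rw [← IntermediateField.adjoin.finrank hint, htop, IntermediateField.finrank_top', hfin]
  exact (Polynomial.eq_of_monic_of_dvd_of_natDegree_le (minpoly.monic hint) hP hd
    (by rw [hnat, hdeg])).symm

/-! ### the generator `θ = U / c` -/

section Theta

variable {Φ : K[X][Y]} {x y c : K} {U : L} {q : ℕ}

/-- `U` is a root of the vertical polynomial. -/
theorem aeval_vertPoly_eq_zero (h0 : Φ.evalEval x y = 0)
    (h1 : aeval (algebraMap K L y + U) (outerAt Φ x) = 0) (hU : U ≠ 0) :
    aeval U (vertPoly Φ x y) = 0 := by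
  have h := congrArg (aeval U) (vertPoly_mul_X_add Φ x y)
  rw [map_add, map_mul, aeval_X, aeval_C, h0, map_zero, add_zero, aeval_comp, map_add, aeval_X,
    aeval_C, add_comm U, h1] at h
  exact (mul_eq_zero.mp h).resolve_right hU

/-- `θ = U / c` is a root of the scaled vertical polynomial. -/
theorem aeval_vertScaled_eq_zero (h0 : Φ.evalEval x y = 0)
    (h1 : aeval (algebraMap K L y + U) (outerAt Φ x) = 0) (hU : U ≠ 0) (hc : c ≠ 0) :
    aeval (U / algebraMap K L c) (vertScaled Φ q x y c) = 0 := by
  have hc' : algebraMap K L c ≠ 0 := (_root_.map_ne_zero _).mpr hc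
  rw [vertScaled, map_mul, aeval_C, aeval_comp, map_mul, aeval_C, aeval_X,
    mul_div_cancel₀ _ hc', aeval_vertPoly_eq_zero h0 h1 hU, mul_zero]

theorem theta_notMem_range (hU : U ∉ Set.range (algebraMap K L)) (hc : c ≠ 0) :
    U / algebraMap K L c ∉ Set.range (algebraMap K L) := by
  rintro ⟨z, hz⟩
  have hc' : algebraMap K L c ≠ 0 := (_root_.map_ne_zero _).mpr hc
  exact hU ⟨z * c, by rw [map_mul, hz, div_mul_cancel₀ _ hc']⟩

theorem ne_zero_of_notMem_range (hU : U ∉ Set.range (algebraMap K L)) : U ≠ 0 := fun h =>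
  hU ⟨0, by rw [map_zero, h]⟩

variable [FiniteDimensional K L] (hq : q.Prime) (hfin : Module.finrank K L = q)
  (hmon : (outerAt Φ x).Monic) (hdeg : (outerAt Φ x).natDegree = q + 1)
  (h0 : Φ.evalEval x y = 0) (h1 : aeval (algebraMap K L y + U) (outerAt Φ x) = 0)
  (hU : U ∉ Set.range (algebraMap K L)) (hc : c ≠ 0)

include hq hfin hmon hdeg h0 h1 hU hc

/-- **The minimal polynomial of `θ = U / c`** is the scaled vertical polynomial. -/
theorem minpoly_theta : minpoly K (U / algebraMap K L c) = vertScaled Φ q x y c :=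
  (minpoly_eq_of_prime_finrank hq hfin (theta_notMem_range hU hc)
    (vertScaled_monic hdeg hmon y hc) (vertScaled_natDegree hdeg hmon y hc)
    (aeval_vertScaled_eq_zero h0 h1 (ne_zero_of_notMem_range hU) hc)).1

/-- `L = K(θ)`. -/
theorem adjoin_theta_eq_top : IntermediateField.adjoin K {U / algebraMap K L c} = ⊤ :=
  (minpoly_eq_of_prime_finrank hq hfin (theta_notMem_range hU hc)
    (vertScaled_monic hdeg hmon y hc) (vertScaled_natDegree hdeg hmon y hc)
    (aeval_vertScaled_eq_zero h0 h1 (ne_zero_of_notMem_range hU) hc)).2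

/-- The power basis `1, θ, …, θ^(q-1)` of `L / K`. -/
def thetaPB : PowerBasis K L :=
  powerBasisOfAdjoinEqTop (θ := U / algebraMap K L c) (Algebra.IsIntegral.isIntegral _)
    (adjoin_theta_eq_top hq hfin hmon hdeg h0 h1 hU hc)

@[simp] theorem thetaPB_gen :
    (thetaPB hq hfin hmon hdeg h0 h1 hU hc).gen = U / algebraMap K L c :=
  powerBasisOfAdjoinEqTop_gen _ _

theorem minpoly_thetaPB_gen :
    minpoly K (thetaPB hq hfin hmon hdeg h0 h1 hU hc).gen = vertScaled Φ q x y c := by
  rw [thetaPB_gen, minpoly_theta hq hfin hmon hdeg h0 h1 hU hc]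

theorem thetaPB_dim : (thetaPB hq hfin hmon hdeg h0 h1 hU hc).dim = q := by
  rw [thetaPB, powerBasisOfAdjoinEqTop_dim, minpoly_theta hq hfin hmon hdeg h0 h1 hU hc,
    vertScaled_natDegree hdeg hmon y hc]

end Theta

/-! ### the extension of a circle valuation -/

section Ext

/-- **The hypotheses of the vertical component**, bundled: `L / K` of prime degree `q`, the
Kronecker shape of `Φ`, the two roots `y`, `y + U` of `Φ(x, ·)`, the gauge `c` and the critical
circle valuation `O` of `K`. -/
structure VertHyp (q : ℕ) (Φ Ψ : K[X][Y]) (x y c : K) (U : L) (O : ValuationSubring K) :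
    Prop where
  prime : q.Prime
  finrank_eq : Module.finrank K L = q
  monic : (outerAt Φ x).Monic
  natDegree_eq : (outerAt Φ x).natDegree = q + 1
  root : Φ.evalEval x y = 0
  root' : aeval (algebraMap K L y + U) (outerAt Φ x) = 0
  notMem : U ∉ Set.range (algebraMap K L)
  c_ne : c ≠ 0
  shape : Φ = (X ^ q - C X) * (X - C (X ^ q)) + C (C (q : K)) * Ψ
  intCoeff : IntCoeff₂ O.valuation Ψ
  x_mem : x ∈ O
  y_mem : y ∈ O
  c_mem : c ∈ O
  crit : O.valuation (q : K) < O.valuation c ^ q
  b_mem : vertB q x y c ∈ O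
  a_mem : vertA q x y c ∈ O

variable {Φ Ψ : K[X][Y]} {x y c : K} {U : L} {q : ℕ} {O : ValuationSubring K}
  [FiniteDimensional K L] (H : VertHyp q Φ Ψ x y c U O)
  {κ : Type*} [Field κ] (res : O →+* κ) (hres : ∀ a : O, res a = 0 ↔ ¬ IsUnit a)

namespace VertHyp

/-- The power basis `1, θ, …, θ^(q-1)`, `θ = U / c`. -/
def pb : PowerBasis K L :=
  thetaPB H.prime H.finrank_eq H.monic H.natDegree_eq H.root H.root' H.notMem H.c_ne

@[simp] theorem pb_gen : H.pb.gen = U / algebraMap K L c := thetaPB_gen _ _ _ _ _ _ _ _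

theorem pb_dim : H.pb.dim = q := thetaPB_dim _ _ _ _ _ _ _ _

theorem minpoly_pb_gen : minpoly K H.pb.gen = vertScaled Φ q x y c :=
  minpoly_thetaPB_gen _ _ _ _ _ _ _ _

/-- The residue polynomial `X^q + b̃ X^(q-1) + ã` on the critical circle. -/
def Pbar : κ[X] :=
  X ^ q + C (res ⟨vertB q x y c, H.b_mem⟩) * X ^ (q - 1) + C (res ⟨vertA q x y c, H.a_mem⟩)

include H in
/-- The scaled vertical polynomial has coefficients in `O`. -/
theorem vertScaled_coeff_mem (i : ℕ) : (vertScaled Φ q x y c).coeff i ∈ O :=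
  (O.valuation_le_one_iff _).mp (intCoeff_vertScaled H.prime H.shape H.intCoeff
    ((O.valuation_le_one_iff _).mpr H.x_mem) ((O.valuation_le_one_iff _).mpr H.y_mem)
    ((O.valuation_le_one_iff _).mpr H.c_mem) H.c_ne H.crit
    ((O.valuation_le_one_iff _).mpr H.b_mem) ((O.valuation_le_one_iff _).mpr H.a_mem) i)

include hres in
/-- The coefficientwise reduction of the scaled vertical polynomial. -/
theorem res_vertScaled_coeff (i : ℕ) (hi : (vertScaled Φ q x y c).coeff i ∈ O) :
    res ⟨(vertScaled Φ q x y c).coeff i, hi⟩ = (H.Pbar res).coeff i :=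
  res_coeff_vertScaled (resInt O res) (resInt_eq_zero_iff O res hres) H.prime H.shape H.intCoeff
    ((O.valuation_le_one_iff _).mpr H.x_mem) ((O.valuation_le_one_iff _).mpr H.y_mem)
    ((O.valuation_le_one_iff _).mpr H.c_mem) H.c_ne H.crit
    ((O.valuation_le_one_iff _).mpr H.b_mem) ((O.valuation_le_one_iff _).mpr H.a_mem) i
    ((O.valuation_le_one_iff _).mpr hi)

theorem hint (i : ℕ) : (minpoly K H.pb.gen).coeff i ∈ O := by
  rw [H.minpoly_pb_gen]
  exact H.vertScaled_coeff_mem i

include hres in
theorem hcoeff (i : ℕ) :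
    res ⟨(minpoly K H.pb.gen).coeff i, H.hint i⟩ = (H.Pbar res).coeff i := by
  rw [← H.res_vertScaled_coeff res hres i (H.vertScaled_coeff_mem i)]
  congr 1
  apply Subtype.ext
  show (minpoly K H.pb.gen).coeff i = _
  rw [H.minpoly_pb_gen]

variable (hirr : Irreducible (H.Pbar res))

/-- **The vertical component**: THE extension to `L` of the circle valuation `O` of `K`. -/
def vertSubring : ValuationSubring L :=
  extSubring O H.pb H.hint res hres (H.Pbar res) (H.hcoeff res hres) hirr

/-- `Z` lies over `O`. -/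
theorem comap_vertSubring :
    (H.vertSubring res hres hirr).comap (algebraMap K L) = O :=
  comap_extSubring _ _ _ _ _ _ _ _

/-- **Uniqueness** (`e f = q` with `f = q`): `Z` is the only valuation subring of `L` over `O`. -/
theorem vertSubring_unique (B : ValuationSubring L) (hB : B.comap (algebraMap K L) = O) :
    B = H.vertSubring res hres hirr :=
  extSubring_unique _ _ _ _ _ _ _ _ B hB

/-- `Z = ⊕ O θ^i`. -/
theorem mem_vertSubring_iff {a : L} :
    a ∈ H.vertSubring res hres hirr ↔ ∀ i, H.pb.basis.repr a i ∈ O :=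
  mem_extSubring_iff _ _ _ _ _ _ _ _

theorem theta_mem : U / algebraMap K L c ∈ H.vertSubring res hres hirr := by
  have h := gen_mem_extSubring O H.pb H.hint res hres (H.Pbar res) (H.hcoeff res hres) hirr
  rwa [H.pb_gen] at h

theorem algebraMap_mem (a : O) : algebraMap K L (a : K) ∈ H.vertSubring res hres hirr :=
  algebraMap_mem_extSubring _ _ _ _ _ _ _ _ a

/-- `U = c θ ∈ Z`. -/
theorem U_mem : U ∈ H.vertSubring res hres hirr := by
  have h := (H.vertSubring res hres hirr).mul_mem _ _
    (H.algebraMap_mem res hres hirr ⟨c, H.c_mem⟩) (H.theta_mem res hres hirr)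
  rwa [mul_div_cancel₀ _ ((_root_.map_ne_zero _).mpr H.c_ne)] at h

/-- **The residue map** `Z → κ[X] / (X^q + b̃ X^(q-1) + ã)`. -/
def vertRes : H.vertSubring res hres hirr →+* AdjoinRoot (H.Pbar res) :=
  extRes O H.pb H.hint res hres (H.Pbar res) (H.hcoeff res hres) hirr

/-- The kernel of the residue map is the set of non-units. -/
theorem vertRes_eq_zero_iff (z : H.vertSubring res hres hirr) :
    H.vertRes res hres hirr z = 0 ↔ ¬ IsUnit z :=
  extRes_eq_zero_iff _ _ _ _ _ _ _ _ z

theorem vertRes_algebraMap (a : O) :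
    H.vertRes res hres hirr ⟨algebraMap K L (a : K), H.algebraMap_mem res hres hirr a⟩ =
      AdjoinRoot.of (H.Pbar res) (res a) :=
  extRes_algebraMap _ _ _ _ _ _ _ _ a

/-- The residue of `θ = U / c` is the root of the residue polynomial. -/
theorem vertRes_theta :
    H.vertRes res hres hirr ⟨U / algebraMap K L c, H.theta_mem res hres hirr⟩ =
      AdjoinRoot.root (H.Pbar res) := by
  have h := extRes_gen O H.pb H.hint res hres (H.Pbar res) (H.hcoeff res hres) hirr
  rw [← h]
  congr 1

theorem vertRes_surjective (hsurj : Function.Surjective res) :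
    Function.Surjective (H.vertRes res hres hirr) :=
  extRes_surjective _ _ _ _ _ _ _ _ hsurj

theorem Pbar_degree_lt :
    (C (res ⟨vertB q x y c, H.b_mem⟩) * X ^ (q - 1) + C (res ⟨vertA q x y c, H.a_mem⟩) :
      κ[X]).degree < (q : WithBot ℕ) := by
  have hq1 : q - 1 < q := Nat.sub_lt H.prime.pos Nat.one_pos
  refine lt_of_le_of_lt (degree_add_le _ _) (max_lt ?_ ?_)
  · refine lt_of_le_of_lt (degree_C_mul_X_pow_le _ _) ?_
    exact_mod_cast hq1
  · refine lt_of_le_of_lt degree_C_le ?_
    exact_mod_cast H.prime.pos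

/-- The residue polynomial is monic of degree `q`: the residue degree is `f = q`. -/
theorem Pbar_monic : (H.Pbar res).Monic := by
  unfold Pbar
  rw [add_assoc]
  exact monic_X_pow_add (H.Pbar_degree_lt res)

theorem Pbar_natDegree : (H.Pbar res).natDegree = q := by
  unfold Pbar
  rw [add_assoc]
  rw [natDegree_add_eq_left_of_degree_lt (by rw [degree_X_pow]; exact H.Pbar_degree_lt res),
    natDegree_X_pow]

end VertHyp

end Ext

end Fermat.Agent.BR3.VertGlueAbs
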