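import Mathlib

/-!
# Program C (S36), spike (C-VERT), file B: the residue polynomial of the vertical component

Over `κ = RatFunc k` (the residue field of the Gauss valuation on a circle of an annulus, variable
`T`), for `β, ρ ∈ kˣ` and `q ≥ 2`:

  `vertBar q β ρ = X^q + (β T) X^(q-1) - ρ / (β T)`

(the reduction of the scaled vertical polynomial `VertTaylor.vertScaled` on the critical circle:
`b̃ = β T`, `ã b̃ = -ρ`).

* `irreducible_of_reverse` : over a field, a polynomial with nonzero constant term whose reverse is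
  irreducible is irreducible;
* `eisQ`, `eisQ_irreducible` : `X^q - (β²/ρ) T² X - (β/ρ) T` is Eisenstein at `(T)` in `k[T][X]`,
  hence irreducible over `k(T)`;
* `vertBar_irreducible` : **`vertBar q β ρ` is irreducible over `k(T)`**;
* `vertBar_separable` : it is separable when `k` has characteristic `q`;
* `vertBar_monic`, `vertBar_natDegree`, `vertBar_coeff`.
-/

set_option autoImplicit false

noncomputable section

namespace Fermat.Agent.BR3.VertResidue

open Polynomial

/-! ### irreducibility and reversal -/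

theorem irreducible_of_reverse {κ : Type*} [Field κ] {P : κ[X]} (h0 : P.coeff 0 ≠ 0)
    (h : Irreducible P.reverse) : Irreducible P := by
  have key : ∀ f : κ[X], f.coeff 0 ≠ 0 → IsUnit f.reverse → IsUnit f := by
    intro f hf0 hu
    have h1 : f.reverse.natDegree = 0 := natDegree_eq_zero_of_isUnit hu
    have h2 : f.natTrailingDegree = 0 := natTrailingDegree_eq_zero.mpr (Or.inr hf0)
    rw [reverse_natDegree, h2, Nat.sub_zero] at h1
    rw [eq_C_of_natDegree_eq_zero h1]
    exact isUnit_C.mpr (isUnit_iff_ne_zero.mpr hf0)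
  constructor
  · intro hu
    obtain ⟨c, hc, rfl⟩ := Polynomial.isUnit_iff.mp hu
    apply h.not_isUnit
    rw [reverse_C]
    exact hu
  · intro f g hfg
    have hr : P.reverse = f.reverse * g.reverse := by rw [hfg, reverse_mul_of_domain]
    have hc : P.coeff 0 = f.coeff 0 * g.coeff 0 := by rw [hfg, mul_coeff_zero]
    have hf0 : f.coeff 0 ≠ 0 := fun h' => h0 (by rw [hc, h', zero_mul])
    have hg0 : g.coeff 0 ≠ 0 := fun h' => h0 (by rw [hc, h', mul_zero])
    rcases h.isUnit_or_isUnit hr with hu | hu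
    · exact Or.inl (key f hf0 hu)
    · exact Or.inr (key g hg0 hu)

/-! ### the Eisenstein polynomial -/

section Eis

variable (k : Type*) [Field k] (q : ℕ) (c₁ c₀ : k)

/-- `X^q - c₁ T² X - c₀ T ∈ k[T][X]` -/
def eisQ : k[X][X] := X ^ q - C (C c₁ * X ^ 2) * X - C (C c₀ * X)

variable {k q c₁ c₀}

theorem eisQ_eq : eisQ k q c₁ c₀ = X ^ q - (C (C c₁ * X ^ 2) * X + C (C c₀ * X)) := by
  rw [eisQ]; ring

theorem natDegree_rem_le : (C (C c₁ * X ^ 2) * X + C (C c₀ * X) : k[X][X]).natDegree ≤ 1 := by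
  refine le_trans (natDegree_add_le _ _) (max_le ?_ ?_)
  · exact le_trans (natDegree_C_mul_le _ _) (by rw [natDegree_X])
  · rw [natDegree_C]; exact Nat.zero_le _

theorem degree_rem_lt (hq : 2 ≤ q) :
    (C (C c₁ * X ^ 2) * X + C (C c₀ * X) : k[X][X]).degree < (q : WithBot ℕ) := by
  refine lt_of_le_of_lt (degree_le_of_natDegree_le natDegree_rem_le) ?_
  exact_mod_cast (by omega : 1 < q)

theorem eisQ_monic (hq : 2 ≤ q) : (eisQ k q c₁ c₀).Monic := by
  rw [eisQ_eq]
  exact monic_X_pow_sub (degree_rem_lt hq)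

theorem eisQ_natDegree (hq : 2 ≤ q) : (eisQ k q c₁ c₀).natDegree = q := by
  rw [eisQ_eq, natDegree_sub_eq_left_of_natDegree_lt, natDegree_X_pow]
  rw [natDegree_X_pow]
  exact lt_of_le_of_lt natDegree_rem_le (by omega)

theorem eisQ_coeff_zero (hq : 2 ≤ q) : (eisQ k q c₁ c₀).coeff 0 = -(C c₀ * X) := by
  have hq0 : ¬ (0 = q) := by omega
  simp [eisQ, coeff_X_pow, hq0]

theorem eisQ_coeff_mem {n : ℕ} (hn : n < q) :
    (eisQ k q c₁ c₀).coeff n ∈ Ideal.span {(X : k[X])} := by
  have hnq : n ≠ q := hn.ne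
  have h1 : (C c₁ * X ^ 2 : k[X]) ∈ Ideal.span {(X : k[X])} :=
    Ideal.mem_span_singleton.mpr ⟨C c₁ * X, by ring⟩
  have h0 : (C c₀ * X : k[X]) ∈ Ideal.span {(X : k[X])} :=
    Ideal.mem_span_singleton.mpr ⟨C c₀, by ring⟩
  rw [eisQ_eq, coeff_sub, coeff_X_pow, if_neg hnq, zero_sub, neg_mem_iff, coeff_add, coeff_C_mul,
    coeff_C]
  refine Ideal.add_mem _ (Ideal.mul_mem_right _ _ h1) ?_
  split_ifs
  · exact h0
  · exact zero_mem _

/-- **`eisQ` is irreducible in `k[T][X]`** (Eisenstein at `(T)`). -/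
theorem eisQ_irreducible (hq : 2 ≤ q) (hc₀ : c₀ ≠ 0) : Irreducible (eisQ k q c₁ c₀) := by
  have hprime : (Ideal.span {(X : k[X])}).IsPrime := by
    rw [Ideal.span_singleton_prime X_ne_zero]
    exact prime_X
  have hE : (eisQ k q c₁ c₀).IsEisensteinAt (Ideal.span {(X : k[X])}) := by
    refine ⟨?_, ?_, ?_⟩
    · rw [(eisQ_monic hq).leadingCoeff]
      exact fun h => hprime.ne_top ((Ideal.eq_top_iff_one _).mpr h)
    · intro n hn
      rw [eisQ_natDegree hq] at hn
      exact eisQ_coeff_mem hn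
    · rw [eisQ_coeff_zero hq, Ideal.span_singleton_pow, Ideal.mem_span_singleton]
      rintro ⟨r, hr⟩
      have h2 : (C c₀ : k[X]) = -(X * r) := by
        have h3 : X * (-(C c₀)) = X * (X * r) := by
          rw [← mul_assoc, ← sq, ← hr]; ring
        have := mul_left_cancel₀ (X_ne_zero (R := k)) h3
        rw [← this]; ring
      have h4 := congrArg (fun p : k[X] => p.coeff 0) h2
      simp only [coeff_C_zero, coeff_neg, coeff_X_mul_zero, neg_zero] at h4
      exact hc₀ h4
  exact hE.irreducible hprime (eisQ_monic hq).isPrimitive (by rw [eisQ_natDegree hq]; omega)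

/-- `eisQ` over the fraction field `k(T)` is irreducible. -/
theorem eisQ_map_irreducible (hq : 2 ≤ q) (hc₀ : c₀ ≠ 0) :
    Irreducible ((eisQ k q c₁ c₀).map (algebraMap k[X] (RatFunc k))) :=
  ((eisQ_monic hq).irreducible_iff_irreducible_map_fraction_map (K := RatFunc k)).mp
    (eisQ_irreducible hq hc₀)

end Eis

/-! ### the residue polynomial -/

section Bar

variable {k : Type*} [Field k]

local notation "T" => (RatFunc.X : RatFunc k)

/-- **The residue polynomial of the vertical component**: `X^q + (β T) X^(q-1) - ρ/(β T)`. -/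
def vertBar (q : ℕ) (β ρ : k) : (RatFunc k)[X] :=
  X ^ q + C (RatFunc.C β * T) * X ^ (q - 1) + C (-(RatFunc.C ρ / (RatFunc.C β * T)))

variable {q : ℕ} {β ρ : k}

theorem vertBar_eq_add (q : ℕ) (β ρ : k) :
    vertBar q β ρ = X ^ q + (C (RatFunc.C β * T) * X ^ (q - 1) +
      C (-(RatFunc.C ρ / (RatFunc.C β * T)))) := by
  rw [vertBar, add_assoc]

theorem degree_vertBar_rem_lt (hq : 2 ≤ q) (B A : RatFunc k) :
    (C B * X ^ (q - 1) + C A : (RatFunc k)[X]).degree < (q : WithBot ℕ) := by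
  refine lt_of_le_of_lt (degree_add_le _ _) (max_lt ?_ ?_)
  · refine lt_of_le_of_lt (degree_C_mul_X_pow_le _ _) ?_
    exact_mod_cast (by omega : q - 1 < q)
  · refine lt_of_le_of_lt degree_C_le ?_
    exact_mod_cast (by omega : 0 < q)

theorem vertBar_monic (hq : 2 ≤ q) : (vertBar q β ρ).Monic := by
  rw [vertBar_eq_add]
  exact monic_X_pow_add (degree_vertBar_rem_lt hq _ _)

theorem vertBar_natDegree (hq : 2 ≤ q) : (vertBar q β ρ).natDegree = q := by
  rw [vertBar_eq_add, natDegree_add_eq_left_of_degree_lt, natDegree_X_pow]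
  rw [degree_X_pow]
  exact degree_vertBar_rem_lt hq _ _

theorem vertBar_coeff_zero (hq : 2 ≤ q) :
    (vertBar q β ρ).coeff 0 = -(RatFunc.C ρ / (RatFunc.C β * T)) := by
  have h1 : ¬ (0 = q) := by omega
  have h2 : ¬ (0 = q - 1) := by omega
  simp [vertBar, coeff_X_pow, h1, h2]

theorem natDegree_head (hq : 2 ≤ q) (B : RatFunc k) :
    ((X : (RatFunc k)[X]) ^ q + C B * X ^ (q - 1)).natDegree = q := by
  rw [natDegree_add_eq_left_of_degree_lt, natDegree_X_pow]
  rw [degree_X_pow]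
  refine lt_of_le_of_lt (degree_C_mul_X_pow_le _ _) ?_
  exact_mod_cast (by omega : q - 1 < q)

theorem reverse_vertBar (hq : 2 ≤ q) :
    (vertBar q β ρ).reverse = 1 + C (RatFunc.C β * T) * X +
      C (-(RatFunc.C ρ / (RatFunc.C β * T))) * X ^ q := by
  have h1 : ((X : (RatFunc k)[X]) ^ q + C (RatFunc.C β * T) * X ^ (q - 1)) =
      X ^ (q - 1) * (1 * X + C (RatFunc.C β * T)) := by
    have : q = (q - 1) + 1 := by omega
    nth_rewrite 1 [this]
    ring
  have h2 : reverse (1 : (RatFunc k)[X]) = 1 := by rw [← C_1, reverse_C]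
  rw [vertBar, reverse_add_C, natDegree_head hq, h1, reverse_X_pow_mul, reverse_add_C,
    reverse_mul_X, h2]
  simp

/-- **The residue polynomial of the vertical component is irreducible over `k(T)`.** -/
theorem vertBar_irreducible (hq : 2 ≤ q) (hβ : β ≠ 0) (hρ : ρ ≠ 0) :
    Irreducible (vertBar q β ρ) := by
  have hT : (T : RatFunc k) ≠ 0 := RatFunc.X_ne_zero
  have hCβ : (RatFunc.C β : RatFunc k) ≠ 0 := by
    rw [ne_eq, map_eq_zero]; exact hβ
  have hCρ : (RatFunc.C ρ : RatFunc k) ≠ 0 := by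
    rw [ne_eq, map_eq_zero]; exact hρ
  have hA : -(RatFunc.C ρ / (RatFunc.C β * T)) ≠ 0 :=
    neg_ne_zero.mpr (div_ne_zero hCρ (mul_ne_zero hCβ hT))
  apply irreducible_of_reverse
  · rw [vertBar_coeff_zero hq]; exact hA
  · have hirr := eisQ_map_irreducible (k := k) (q := q) (c₁ := β ^ 2 / ρ) (c₀ := β / ρ) hq
      (div_ne_zero hβ hρ)
    have hmap : (eisQ k q (β ^ 2 / ρ) (β / ρ)).map (algebraMap k[X] (RatFunc k)) =
        X ^ q - C (RatFunc.C (β ^ 2 / ρ) * T ^ 2) * X - C (RatFunc.C (β / ρ) * T) := by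
      simp [eisQ]
    have e1 : -(RatFunc.C ρ / (RatFunc.C β * T)) * (RatFunc.C (β ^ 2 / ρ) * T ^ 2) =
        -(RatFunc.C β * T) := by
      rw [map_div₀, map_pow]
      field_simp
    have e2 : -(RatFunc.C ρ / (RatFunc.C β * T)) * (RatFunc.C (β / ρ) * T) = -1 := by
      rw [map_div₀]
      field_simp
    have e : (vertBar q β ρ).reverse =
        C (-(RatFunc.C ρ / (RatFunc.C β * T))) *
          (eisQ k q (β ^ 2 / ρ) (β / ρ)).map (algebraMap k[X] (RatFunc k)) := by
      rw [reverse_vertBar hq, hmap, mul_sub, mul_sub, ← mul_assoc, ← C_mul, ← C_mul, e1, e2]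
      simp only [C_neg, C_1]
      ring
    rw [e]
    exact (irreducible_isUnit_mul (isUnit_C.mpr (isUnit_iff_ne_zero.mpr hA))).mpr hirr

/-- **The residue polynomial is separable** in characteristic `q`. -/
theorem vertBar_separable [CharP k q] (hq : 2 ≤ q) (hβ : β ≠ 0) (hρ : ρ ≠ 0) :
    (vertBar q β ρ).Separable := by
  have hT : (T : RatFunc k) ≠ 0 := RatFunc.X_ne_zero
  have hCβ : (RatFunc.C β : RatFunc k) ≠ 0 := by
    rw [ne_eq, map_eq_zero]; exact hβ
  have hCρ : (RatFunc.C ρ : RatFunc k) ≠ 0 := by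
    rw [ne_eq, map_eq_zero]; exact hρ
  set B : RatFunc k := RatFunc.C β * T with hB
  set A : RatFunc k := -(RatFunc.C ρ / B) with hAdef
  have hB0 : B ≠ 0 := mul_ne_zero hCβ hT
  have hA : A ≠ 0 := neg_ne_zero.mpr (div_ne_zero hCρ hB0)
  have hchar : CharP (RatFunc k) q :=
    charP_of_injective_algebraMap (IsFractionRing.injective k[X] (RatFunc k)) q
  have hq0 : ((q : ℕ) : RatFunc k) = 0 := CharP.cast_eq_zero _ q
  have hq1 : (((q - 1 : ℕ)) : RatFunc k) = -1 := by
    have h : ((q - 1 : ℕ) : RatFunc k) + 1 = 0 := by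
      have : ((q - 1 + 1 : ℕ) : RatFunc k) = 0 := by
        rw [show q - 1 + 1 = q by omega]; exact hq0
      rwa [Nat.cast_succ] at this
    exact eq_neg_of_add_eq_zero_left h
  have hder : derivative (vertBar q β ρ) = -(C B * X ^ (q - 2)) := by
    have hq2 : q - 1 - 1 = q - 2 := by omega
    rw [vertBar]
    simp only [derivative_add, derivative_mul, derivative_C, derivative_X_pow, zero_mul, zero_add,
      add_zero, hq2]
    rw [hq0, C_0, zero_mul, zero_add, hq1]
    simp only [C_neg, C_1]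
    ring
  rw [separable_def, hder]
  refine ⟨C A⁻¹, C (A * B)⁻¹ * (X ^ 2 + C B * X), ?_⟩
  have h1 : q = (q - 2) + 2 := by omega
  have h2 : q - 1 = (q - 2) + 1 := by omega
  have e : vertBar q β ρ = X ^ (q - 2) * (X ^ 2 + C B * X) + C A := by
    rw [vertBar]
    nth_rewrite 1 [h1]
    rw [h2]
    ring
  rw [e]
  have hAB : A * B ≠ 0 := mul_ne_zero hA hB0
  have e3 : (C A⁻¹ : (RatFunc k)[X]) * C A = 1 := by
    rw [← C_mul, inv_mul_cancel₀ hA, C_1]
  have e4 : (C (A * B)⁻¹ : (RatFunc k)[X]) * C B = C A⁻¹ := by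
    rw [← C_mul]
    congr 1
    field_simp
  calc C A⁻¹ * (X ^ (q - 2) * (X ^ 2 + C B * X) + C A) +
        C (A * B)⁻¹ * (X ^ 2 + C B * X) * -(C B * X ^ (q - 2))
      = C A⁻¹ * C A + (C A⁻¹ - C (A * B)⁻¹ * C B) * (X ^ (q - 2) * (X ^ 2 + C B * X)) := by ring
    _ = 1 := by rw [e3, e4, sub_self, zero_mul, add_zero]

end Bar

end Fermat.Agent.BR3.VertResidue
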