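import Mathlib
import Fermat.Agent.BR3.FibreProdRoots
import Fermat.Agent.BR3.VertResidue
import Fermat.Agent.BR3.VertGlueAbs
import Fermat.Agent.BR.NodeKron

/-!
# Program C (S36), spike (C-VERT) / node I2, GLUE part A (modular instance)

`F₁ = Fb (M q)`, `F₂ = Fb (M q q)` along `a = alpha2 M q` (inclusion of `q`-series),
`x = jq' = j(s^q)` (middle), `y = jBar = j(s)`, `U = j(s^{q²}) - a j(s)` (helper6's `FibreProd`),
`Φ = phiK q F₁`, `Ψ = psiK q F₁`.

* `vertHyp_modular` : the bundle `VertGlueAbs.VertHyp` from the data of a critical circle valuation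
  `O` of `F₁` with gauge `c` (`|q| < |c|^q`, `x, y, c, b = (y - x^q)/c, a = (y^q - x)/c^q ∈ O`);
* `exists_vertComponent` : if moreover `res b = β T` and `res a = - ρ / (β T)` in `RatFunc k`
  (`β, ρ ≠ 0`) there is exactly ONE valuation subring `Z` of `F₂` over `O` along `a`; its residue
  field is `AdjoinRoot (vertBar q β ρ)` (`e = 1`, `f = q`), the residue of `U / c` being the root.
-/

set_option autoImplicit false
set_option linter.unusedSectionVars false
set_option linter.style.haveILetI false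

noncomputable section

namespace Fermat.Agent.BR3.VertGlueMod

open Polynomial ModularCurve AlgebraicCurve
open Fermat.Agent.X0 Fermat.Agent.Val Fermat.Agent.Hecke.AL Fermat.Agent.BR.Kron
open Fermat.Agent.BR.NodeNewton Fermat.Agent.BR.NodeKron
open Fermat.Agent.BR3.FibreProd Fermat.Agent.BR3.VertTaylor Fermat.Agent.BR3.VertResidue
open Fermat.Agent.BR3.VertGlueAbs Fermat.Agent.Jac.ALF
open scoped Polynomial.Bivariate

variable {M q : ℕ} [NeZero M] [hq : Fact q.Prime]

/-- `j(s^{q²})` is a root of `Φ_q(j(s^q), ·)` along `α₂`. -/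
theorem aeval_jqq_PhiAt :
    letI := algebraAlong (alpha2 M q)
    aeval (algebraMap (Fb (M * q)) (Fb (M * q * q)) (jBar (M * q)) + U M q)
      (outerAt (phiK q (Fb (M * q))) (jq' M q)) = 0 := by
  letI := algebraAlong (alpha2 M q)
  have h1 : outerAt (phiK q (Fb (M * q))) (jq' M q) = PhiAt M q := rfl
  have h2 : algebraMap (Fb (M * q)) (Fb (M * q * q)) (jBar (M * q)) + U M q = jqq M q := by
    show alpha2 M q (jBar (M * q)) + U M q = jqq M q
    rw [U, add_sub_cancel]
  rw [h1, h2, ← X_sub_C_mul_G, map_mul, aeval_def, aeval_def, eval₂_eq_eval_map,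
    eval₂_eq_eval_map]
  have h3 : ((G M q).map (algebraMap (Fb (M * q)) (Fb (M * q * q)))).eval (jqq M q) = 0 :=
    G_map_alpha2_eval_jqq
  rw [h3, mul_zero]

/-- **The bundle of hypotheses of the vertical component** for `X₀(M q²) → X₀(M q)` along `α₂`. -/
theorem vertHyp_modular (hqM : ¬ q ∣ M) (O : ValuationSubring (Fb (M * q))) {c : Fb (M * q)}
    (hc : c ≠ 0) (hx : jq' M q ∈ O) (hy : jBar (M * q) ∈ O) (hc1 : c ∈ O)
    (hqc : O.valuation (q : Fb (M * q)) < O.valuation c ^ q)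
    (hb : vertB q (jq' M q) (jBar (M * q)) c ∈ O) (ha : vertA q (jq' M q) (jBar (M * q)) c ∈ O) :
    letI := algebraAlong (alpha2 M q)
    VertHyp (L := Fb (M * q * q)) q (phiK q (Fb (M * q))) (psiK q (Fb (M * q))) (jq' M q)
      (jBar (M * q)) c (U M q) O := by
  letI := algebraAlong (alpha2 M q)
  exact
  { prime := hq.out
    finrank_eq := finrankAlong_alpha2
    monic := PhiAt_monic
    natDegree_eq := PhiAt_natDegree
    root := phiK_evalEval_mid_j
    root' := aeval_jqq_PhiAt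
    notMem := U_notMem_range_alpha2 hqM
    c_ne := hc
    shape := phiK_eq q hq.out _
    intCoeff := intCoeff₂_map_int (PsiZ q)
    x_mem := hx
    y_mem := hy
    c_mem := hc1
    crit := hqc
    b_mem := hb
    a_mem := ha }

/-- The vertical component, for a residue polynomial given up to equality. -/
theorem exists_vertComponent_of_eq (hqM : ¬ q ∣ M) (O : ValuationSubring (Fb (M * q)))
    {c : Fb (M * q)} (hc : c ≠ 0) (hx : jq' M q ∈ O) (hy : jBar (M * q) ∈ O) (hc1 : c ∈ O)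
    (hqc : O.valuation (q : Fb (M * q)) < O.valuation c ^ q)
    (hb : vertB q (jq' M q) (jBar (M * q)) c ∈ O) (ha : vertA q (jq' M q) (jBar (M * q)) c ∈ O)
    {κ : Type*} [Field κ] (res : O →+* κ) (hres : ∀ a : O, res a = 0 ↔ ¬ IsUnit a)
    (hsurj : Function.Surjective res) (Pbar : κ[X])
    (hP : X ^ q + C (res ⟨vertB q (jq' M q) (jBar (M * q)) c, hb⟩) * X ^ (q - 1) +
      C (res ⟨vertA q (jq' M q) (jBar (M * q)) c, ha⟩) = Pbar)
    (hirr : Irreducible Pbar) :
    ∃ (Z : ValuationSubring (Fb (M * q * q))) (resZ : Z →+* AdjoinRoot Pbar),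
      Z.comap (alpha2 M q : Fb (M * q) →+* Fb (M * q * q)) = O ∧
      (∀ B : ValuationSubring (Fb (M * q * q)),
        B.comap (alpha2 M q : Fb (M * q) →+* Fb (M * q * q)) = O → B = Z) ∧
      Function.Surjective resZ ∧ (∀ z : Z, resZ z = 0 ↔ ¬ IsUnit z) ∧
      (∀ (a : O) (h : alpha2 M q (a : Fb (M * q)) ∈ Z),
        resZ ⟨alpha2 M q (a : Fb (M * q)), h⟩ = AdjoinRoot.of Pbar (res a)) ∧
      ∃ hθ : U M q / alpha2 M q c ∈ Z, resZ ⟨U M q / alpha2 M q c, hθ⟩ = AdjoinRoot.root Pbar := by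
  letI := algebraAlong (alpha2 M q)
  haveI : Module.Finite (Fb (M * q)) (Fb (M * q * q)) :=
    Fermat.Agent.Hecke.finiteAlong_heckeAlphaBar (M * q) q
  have H := vertHyp_modular hqM O hc hx hy hc1 hqc hb ha
  subst hP
  have hirr' : Irreducible (H.Pbar res) := hirr
  exact ⟨H.vertSubring res hres hirr', H.vertRes res hres hirr',
    H.comap_vertSubring res hres hirr', H.vertSubring_unique res hres hirr',
    H.vertRes_surjective res hres hirr' hsurj, H.vertRes_eq_zero_iff res hres hirr',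
    fun a _ => H.vertRes_algebraMap res hres hirr' a,
    H.theta_mem res hres hirr', H.vertRes_theta res hres hirr'⟩

/-- **The vertical component `z e` over a critical circle of `F₁`** (spike (C-VERT), one
supersingular point): if the circle valuation `O` of `F₁ = Fb (M q)` with residue field `k(T)`
satisfies `res ((j - j(s^q)^q)/c) = β T` and `res ((j^q - j(s^q))/c^q) = - ρ / (β T)` with
`β, ρ ∈ kˣ`, then `O` has exactly one extension `Z` to `F₂ = Fb (M q q)` along `α₂`; its residue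
field is `k(T)[Ũ] / (Ũ^q + β T Ũ^(q-1) - ρ/(β T))`, `Ũ` the residue of `U / c`
(`e = 1`, `f = q`). -/
theorem exists_vertComponent (hqM : ¬ q ∣ M) (O : ValuationSubring (Fb (M * q)))
    {c : Fb (M * q)} (hc : c ≠ 0) (hx : jq' M q ∈ O) (hy : jBar (M * q) ∈ O) (hc1 : c ∈ O)
    (hqc : O.valuation (q : Fb (M * q)) < O.valuation c ^ q)
    (hb : vertB q (jq' M q) (jBar (M * q)) c ∈ O) (ha : vertA q (jq' M q) (jBar (M * q)) c ∈ O)
    {k : Type*} [Field k] (res : O →+* RatFunc k) (hres : ∀ a : O, res a = 0 ↔ ¬ IsUnit a)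
    (hsurj : Function.Surjective res) {β ρ : k} (hβ : β ≠ 0) (hρ : ρ ≠ 0)
    (hbres : res ⟨vertB q (jq' M q) (jBar (M * q)) c, hb⟩ = RatFunc.C β * RatFunc.X)
    (hares : res ⟨vertA q (jq' M q) (jBar (M * q)) c, ha⟩ =
      -(RatFunc.C ρ / (RatFunc.C β * RatFunc.X))) :
    ∃ (Z : ValuationSubring (Fb (M * q * q))) (resZ : Z →+* AdjoinRoot (vertBar q β ρ)),
      Z.comap (alpha2 M q : Fb (M * q) →+* Fb (M * q * q)) = O ∧
      (∀ B : ValuationSubring (Fb (M * q * q)),
        B.comap (alpha2 M q : Fb (M * q) →+* Fb (M * q * q)) = O → B = Z) ∧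
      Function.Surjective resZ ∧ (∀ z : Z, resZ z = 0 ↔ ¬ IsUnit z) ∧
      (∀ (a : O) (h : alpha2 M q (a : Fb (M * q)) ∈ Z),
        resZ ⟨alpha2 M q (a : Fb (M * q)), h⟩ = AdjoinRoot.of (vertBar q β ρ) (res a)) ∧
      ∃ hθ : U M q / alpha2 M q c ∈ Z,
        resZ ⟨U M q / alpha2 M q c, hθ⟩ = AdjoinRoot.root (vertBar q β ρ) :=
  exists_vertComponent_of_eq hqM O hc hx hy hc1 hqc hb ha res hres hsurj (vertBar q β ρ)
    (by rw [hbres, hares, vertBar]) (vertBar_irreducible hq.out.two_le hβ hρ)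

/-- The constant residue from the product: if `res (- q Ψ(x, y) / c^(q+1)) = - ρ` and
`res b = β T` then `res a = - ρ / (β T)`. -/
theorem res_vertA_of_res_prod (O : ValuationSubring (Fb (M * q))) {c : Fb (M * q)}
    (hb : vertB q (jq' M q) (jBar (M * q)) c ∈ O) (ha : vertA q (jq' M q) (jBar (M * q)) c ∈ O)
    {k : Type*} [Field k] (res : O →+* RatFunc k) {β ρ : k} (hβ : β ≠ 0)
    (hbres : res ⟨vertB q (jq' M q) (jBar (M * q)) c, hb⟩ = RatFunc.C β * RatFunc.X)
    (hρm : -((q : Fb (M * q)) * (psiK q (Fb (M * q))).evalEval (jq' M q) (jBar (M * q))) /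
      c ^ (q + 1) ∈ O)
    (hρres : res ⟨_, hρm⟩ = -RatFunc.C ρ) :
    res ⟨vertA q (jq' M q) (jBar (M * q)) c, ha⟩ =
      -(RatFunc.C ρ / (RatFunc.C β * RatFunc.X)) := by
  have hT : (RatFunc.C β * RatFunc.X : RatFunc k) ≠ 0 :=
    mul_ne_zero (by rw [ne_eq, map_eq_zero]; exact hβ) RatFunc.X_ne_zero
  have h1 : res ⟨vertA q (jq' M q) (jBar (M * q)) c, ha⟩ *
      res ⟨vertB q (jq' M q) (jBar (M * q)) c, hb⟩ = res ⟨_, hρm⟩ := by
    rw [← map_mul]
    congr 1
    apply Subtype.ext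
    exact vertA_mul_vertB (phiK_eq q hq.out _) phiK_evalEval_mid_j c
  rw [hbres, hρres] at h1
  rw [← neg_div, eq_div_iff hT, h1]

end Fermat.Agent.BR3.VertGlueMod
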