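import Mathlib
import Fermat.Agent.BR3.VertGlueMod
import Fermat.Agent.BR3.VertCircle

/-!
# Program C (S36), spike (C-VERT) / node I2: the vertical component over a critical circle of the
tube of a crossing point, from the level data

`L : AnnulusLevels B T ι` level data of a tube `T` of `F₁ = Fb (M q)` (e.g. main's
`annulusLevels_modular_final B hB hqM hne e`), `a₀` a gauge on the critical circle
`|a₀|^(q+1) = |q|`, `O := circleRing L.core a₀`.  Named hypotheses:

* `hx hy` : `j(s^q), j(s)` are functions of a level `i`;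
* `hR` : `Ψ_q(j(s^q), j(s))` is a UNIT of the level `i` (thickness one, node (C-THICK1));
* `hb` : on the circle `(j(s) - j(s^q)^q) / a₀` reduces to `β T`, `β ≠ 0` (helper9's `VertCoord`).

Conclusion `exists_vertComponent_of_levels` : `O` has exactly one extension `Z` to `F₂ = Fb (M q q)`
along `α₂`, with residue field `k(T)[Ũ]/(Ũ^q + β T Ũ^(q-1) - ρ/(β T))` for a `ρ ≠ 0`.
-/

set_option autoImplicit false
set_option linter.unusedSectionVars false
set_option linter.style.haveILetI false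

noncomputable section

namespace Fermat.Agent.BR3.VertCircleMod

open Polynomial ModularCurve AlgebraicCurve IsLocalRing
open Fermat.Agent.X0 Fermat.Agent.Val Fermat.Agent.Red Fermat.Agent.BR.Kron
open Fermat.Agent.BR.Circle Fermat.Agent.BR.S0
open Fermat.Agent.BR3.FibreProd Fermat.Agent.BR3.VertTaylor Fermat.Agent.BR3.VertResidue
open Fermat.Agent.BR3.VertGlueMod Fermat.Agent.BR3.VertCircle

variable {M q : ℕ} [NeZero M] [hq : Fact q.Prime]
  {B : ValuationSubring Kb} [IsAlgClosed (ResidueField B)]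
  {T : Set (Place Kb (Fb (M * q)))} {ι : Type*}

local notation "kB" => ResidueField B

set_option maxHeartbeats 800000 in
/-- **The vertical component over the critical circle of a tube, from the level data.** -/
theorem exists_vertComponent_of_levels (hqM : ¬ q ∣ M) (L : AnnulusLevels B T ι) (a₀ : Kb)
    (ha1 : B.valuation L.core.thick < B.valuation a₀) (ha2 : B.valuation a₀ < 1)
    (ha₀ : B.valuation a₀ ^ (q + 1) = B.valuation (q : Kb)) (i : ι)
    (hx : jq' M q ∈ (L.level i).R) (hy : jBar (M * q) ∈ (L.level i).R)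
    (hΨ : (psiK q (Fb (M * q))).evalEval (jq' M q) (jBar (M * q)) ∈ (L.level i).R)
    (hR : IsUnit (⟨_, hΨ⟩ : (L.level i).R)) {β : kB} (hβ : β ≠ 0)
    (hb : IsRed L.core a₀ (a₀⁻¹ • (jBar (M * q) - jq' M q ^ q)) (RatFunc.C β * RatFunc.X)) :
    ∃ ρ : kB, ρ ≠ 0 ∧
      ∃ (Z : ValuationSubring (Fb (M * q * q))) (resZ : Z →+* AdjoinRoot (vertBar q β ρ)),
        Z.comap (alpha2 M q : Fb (M * q) →+* Fb (M * q * q)) = circleRing L.core a₀ ha1 ha2 ∧
        (∀ Z' : ValuationSubring (Fb (M * q * q)),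
          Z'.comap (alpha2 M q : Fb (M * q) →+* Fb (M * q * q)) = circleRing L.core a₀ ha1 ha2 →
            Z' = Z) ∧
        Function.Surjective resZ ∧ (∀ z : Z, resZ z = 0 ↔ ¬ IsUnit z) ∧
        (∀ (y : circleRing L.core a₀ ha1 ha2) (h : alpha2 M q (y : Fb (M * q)) ∈ Z),
          resZ ⟨alpha2 M q (y : Fb (M * q)), h⟩ =
            AdjoinRoot.of (vertBar q β ρ) (circleRes L.core a₀ ha1 ha2 y)) ∧
        ∃ hθ : U M q / alpha2 M q (algebraMap Kb (Fb (M * q)) a₀) ∈ Z,
          resZ ⟨U M q / alpha2 M q (algebraMap Kb (Fb (M * q)) a₀), hθ⟩ =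
            AdjoinRoot.root (vertBar q β ρ) := by
  set O := circleRing L.core a₀ ha1 ha2 with hO
  set c : Fb (M * q) := algebraMap Kb (Fb (M * q)) a₀ with hc
  set x := jq' M q with hxdef
  set y := jBar (M * q) with hydef
  have ha₀0 : a₀ ≠ 0 := gauge_ne_zero ha1
  have hc0 : c ≠ 0 := (_root_.map_ne_zero _).mpr ha₀0
  have ha₀B : a₀ ∈ B := (B.valuation_le_one_iff _).mp ha2.le
  have hxO : x ∈ O := mem_circleRing_of_mem_level L a₀ ha1 ha2 i hx
  have hyO : y ∈ O := mem_circleRing_of_mem_level L a₀ ha1 ha2 i hy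
  have hc1 : c ∈ O := (algebraMap_mem_circleRing_iff L.core a₀ ha1 ha2 _).mpr ha₀B
  have hva₀ : 0 < B.valuation a₀ := by
    rw [zero_lt_iff, ne_eq, map_eq_zero]; exact ha₀0
  -- the critical inequality
  have hqc : O.valuation (q : Fb (M * q)) < O.valuation c ^ q := by
    have h1 : B.valuation (q : Kb) < B.valuation (a₀ ^ q) := by
      rw [← ha₀, map_pow, pow_succ]
      calc B.valuation a₀ ^ q * B.valuation a₀ < B.valuation a₀ ^ q * 1 :=
            mul_lt_mul_of_pos_left ha2 (pow_pos hva₀ q)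
        _ = B.valuation a₀ ^ q := mul_one _
    have h2 := valuation_algebraMap_lt L a₀ ha1 ha2 h1
    rwa [map_natCast, map_pow, map_pow] at h2
  -- `b`
  have hvB : vertB q x y c = a₀⁻¹ • (y - x ^ q) := by
    rw [vertB, Algebra.smul_def, map_inv₀, div_eq_inv_mul]
  have hbO : vertB q x y c ∈ O := by
    rw [hvB]; exact ⟨_, hb⟩
  have hbres : circleRes L.core a₀ ha1 ha2 ⟨vertB q x y c, hbO⟩ = RatFunc.C β * RatFunc.X := by
    apply circleRes_eq
    show IsRed L.core a₀ (vertB q x y c) _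
    rw [hvB]; exact hb
  have hβX : (RatFunc.C β * RatFunc.X : RatFunc kB) ≠ 0 :=
    mul_ne_zero (by rw [ne_eq, map_eq_zero]; exact hβ) RatFunc.X_ne_zero
  have hbunit : IsUnit (⟨vertB q x y c, hbO⟩ : O) := by
    by_contra hnu
    rw [← circleRes_eq_zero_iff, hbres] at hnu
    exact hβX hnu
  -- the constant
  obtain ⟨γ, hγ0, hγ⟩ := exists_isRed_const_of_isUnit L a₀ ha1 ha2 i hΨ hR
  have hvd : B.valuation ((q : Kb) / a₀ ^ (q + 1)) = 1 := by
    rw [map_div₀, map_pow, ha₀, div_self]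
    rw [← ha₀]
    exact (pow_pos hva₀ _).ne'
  have hdB : -((q : Kb) / a₀ ^ (q + 1)) ∈ B :=
    B.neg_mem _ ((B.valuation_le_one_iff _).mp hvd.le)
  have hd'B : (q : Kb) / a₀ ^ (q + 1) ∈ B := (B.valuation_le_one_iff _).mp hvd.le
  have hρel : -((q : Fb (M * q)) * (psiK q (Fb (M * q))).evalEval x y) / c ^ (q + 1) =
      algebraMap Kb (Fb (M * q)) (-((q : Kb) / a₀ ^ (q + 1))) *
        (psiK q (Fb (M * q))).evalEval x y := by
    rw [map_neg, map_div₀, map_pow, map_natCast, ← hc]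
    field_simp
  have hredρ := (isRed_const (C := L.core) (a := a₀) hdB).mul hγ
  rw [← hρel] at hredρ
  have hρm : -((q : Fb (M * q)) * (psiK q (Fb (M * q))).evalEval x y) / c ^ (q + 1) ∈ O :=
    ⟨_, hredρ⟩
  set ρ : kB := residue B ⟨(q : Kb) / a₀ ^ (q + 1), hd'B⟩ * γ with hρdef
  have hres0 : residue B ⟨(q : Kb) / a₀ ^ (q + 1), hd'B⟩ ≠ 0 := by
    rw [ne_eq, residue_eq_zero_iff]
    intro hmem
    have := (B.valuation_lt_one_iff _).mp hmem
    rw [hvd] at this
    exact lt_irrefl _ this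
  have hρ0 : ρ ≠ 0 := mul_ne_zero hres0 hγ0
  have hρres : circleRes L.core a₀ ha1 ha2 ⟨_, hρm⟩ = -RatFunc.C ρ := by
    rw [circleRes_eq L.core a₀ ha1 ha2 (y := ⟨_, hρm⟩) hredρ, hρdef, map_mul, ← neg_mul]
    congr 1
    rw [← RatFunc.algebraMap_eq_C, ← map_neg, ← map_neg]
    rfl
  -- `a`
  have hab : vertA q x y c * vertB q x y c =
      -((q : Fb (M * q)) * (psiK q (Fb (M * q))).evalEval x y) / c ^ (q + 1) :=
    vertA_mul_vertB (phiK_eq q hq.out _) phiK_evalEval_mid_j c
  have hB0 : vertB q x y c ≠ 0 := by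
    intro h0
    have : (⟨vertB q x y c, hbO⟩ : O) = 0 := Subtype.ext h0
    rw [this] at hbunit
    exact not_isUnit_zero hbunit
  have haO : vertA q x y c ∈ O := by
    obtain ⟨w, hw⟩ := hbunit.exists_right_inv
    have h1 : vertB q x y c * (w : Fb (M * q)) = 1 := by
      have := congrArg (fun z : O => (z : Fb (M * q))) hw
      simpa using this
    have h2 : vertA q x y c = (-((q : Fb (M * q)) * (psiK q (Fb (M * q))).evalEval x y) /
        c ^ (q + 1)) * (w : Fb (M * q)) := by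
      rw [← hab, mul_assoc, h1, mul_one]
    rw [h2]
    exact O.mul_mem _ _ hρm w.2
  have hares := res_vertA_of_res_prod (M := M) (q := q) O hbO haO (circleRes L.core a₀ ha1 ha2)
    hβ hbres hρm hρres
  exact ⟨ρ, hρ0, exists_vertComponent hqM O hc0 hxO hyO hc1 hqc hbO haO
    (circleRes L.core a₀ ha1 ha2) (circleRes_eq_zero_iff L.core a₀ ha1 ha2)
    (circleRes_surjective L.core a₀ ha1 ha2) hβ hρ0 hbres hares⟩

end Fermat.Agent.BR3.VertCircleMod
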