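import Fermat.Agent.BR3.FibreProd

/-!
# Program C, node I1 (FP), part 2: the modular cofactor and the conjugate embeddings

`F₁ = Fb (M * q)`, `F₂ = Fb (M * q * q)`, `α₂ : F₁ → F₂` the inclusion of `q`-series.

* `jq' M q = j(s^q) ∈ F₁`, `jqq M q = j(s^{q²}) ∈ F₂`;
* `PhiAt M q = Φ_q(inner := j(s^q), outer := X) ∈ F₁[X]`, monic of degree `q + 1`, with the root `j`;
* `G M q = PhiAt /ₘ (X - j)`, monic of degree `q`; over `ℚ̄((s))` it is
  `(X - j(s^{q²})) ∏_{0<b<q} (X - j(ζ^b s))` (`G_map_coe`);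
* `adjoin_jqq_eq_top`, `minpoly_jqq` : `F₂ = α₂F₁(j(s^{q²}))` with minimal polynomial `G`;
* `sigmaB` : the embedding `F₂ → ℚ̄((s))` over `α₂ F₁` with `j(s^{q²}) ↦ j(ζ^{b+1} s)`.
-/

set_option autoImplicit false
set_option linter.style.haveILetI false
set_option linter.unusedSectionVars false

noncomputable section

/- S36 build-time patch: file-local shortcut instances. They only shorten instance search;
each is the instance that the search finds anyway (reducible, same terms after unfolding). -/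
local instance (priority := 100000) Fermat.Agent.BR3.FastInst.instAlgFullC_FibreProdCofactor
    {k : Type*} [Field k] (N : ℕ) :
    Algebra k ↥(ModularCurve.modularFunctionFieldFullC k N) := inferInstance
local instance (priority := 100000) Fermat.Agent.BR3.FastInst.instFieldFullC_FibreProdCofactor
    {k : Type*} [Field k] (N : ℕ) :
    Field ↥(ModularCurve.modularFunctionFieldFullC k N) := inferInstance
local instance (priority := 100000) Fermat.Agent.BR3.FastInst.instAlgLaurent_FibreProdCofactor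
    {k : Type*} [Field k] : Algebra k (LaurentSeries k) := inferInstance


set_option synthInstance.maxHeartbeats 400000

namespace Fermat.Agent.BR3.FibreProd

open ModularCurve AlgebraicCurve HahnSeries Polynomial Fermat.Agent.X0 Fermat.Agent.Val
open Fermat.Agent.Hecke.AL Fermat.Agent.Igusa Fermat.Agent.BR.Kron
open Fermat.Agent.BR.TwoVal Fermat.Agent.BR.ResGen Fermat.Agent.Jac Fermat.Agent.Jac.ALF

variable {M q : ℕ} [NeZero M] [hq : Fact q.Prime]

/-- the coercion `Fb N → ℚ̄((q))` as a ring homomorphism -/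
abbrev coeB (N : ℕ) : Fb N →+* LaurentSeries Kb := algebraMap (Fb N) (LaurentSeries Kb)

theorem coeB_apply (N : ℕ) (x : Fb N) : coeB N x = (x : LaurentSeries Kb) := rfl

variable (M q) in
/-- `j(q^q) ∈ F̄_{Mq}`. -/
def jq' : Fb (M * q) := jBarD (M * q) q (dvd_mul_left q M)

variable (M q) in
/-- `j(q^{q²}) ∈ F̄_{Mq²}`. -/
def jqq : Fb (M * q * q) :=
  haveI : NeZero (q * q) := ⟨Nat.mul_ne_zero hq.out.ne_zero hq.out.ne_zero⟩
  jBarD (M * q * q) (q * q) ⟨M, by ring⟩

theorem coe_jq' : ((jq' M q : Fb (M * q)) : LaurentSeries Kb) = J (1 : Kbˣ) q := by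
  rw [jq', coe_jBarD, coeffEmb_jqN, J_one_unit, jqNModC]

theorem coe_jqq :
    haveI : NeZero (q * q) := ⟨Nat.mul_ne_zero hq.out.ne_zero hq.out.ne_zero⟩
    ((jqq M q : Fb (M * q * q)) : LaurentSeries Kb) = J (1 : Kbˣ) (q * q) := by
  haveI : NeZero (q * q) := ⟨Nat.mul_ne_zero hq.out.ne_zero hq.out.ne_zero⟩
  rw [jqq, coe_jBarD, coeffEmb_jqN, J_one_unit, jqNModC]

theorem coe_jBar (N : ℕ) [NeZero N] : ((jBar N : Fb N) : LaurentSeries Kb) = jqModC Kb := by
  rw [X0.coe_jBar]
  have h := coeffEmb_jqN (L := Kb) 1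
  rwa [qExpand_one_apply, jqNModC_one] at h

variable (M q) in
/-- `Φ_q(X, Y = j(q^q)) ∈ F̄_{Mq}[X]`. -/
def PhiAt : (Fb (M * q))[X] := (phiK q (Fb (M * q))).map (Polynomial.evalRingHom (jq' M q))

theorem PhiAt_monic : (PhiAt M q).Monic := (phiK_monic q hq.out _).map _

theorem PhiAt_natDegree : (PhiAt M q).natDegree = q + 1 := by
  rw [PhiAt, (phiK_monic q hq.out _).natDegree_map, phiK_natDegree q hq.out]

/-- Over `ℚ̄((q))`: `Φ_q(X, j(q^q)) = (X - j(q^{q²})) · normPoly q j`. -/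
theorem PhiAt_map_coe :
    haveI : NeZero (q * q) := ⟨Nat.mul_ne_zero hq.out.ne_zero hq.out.ne_zero⟩
    (PhiAt M q).map (coeB (M * q)) =
      (X - Polynomial.C (J (1 : Kbˣ) (q * q))) * normPoly q (jqModC Kb) := by
  haveI : NeZero (q * q) := ⟨Nat.mul_ne_zero hq.out.ne_zero hq.out.ne_zero⟩
  rw [← evY_phiK q hq.out Kb, evY_apply, PhiAt]
  unfold phiK
  rw [Polynomial.map_map, Polynomial.map_map, Polynomial.map_map]
  congr 1
  apply Polynomial.ringHom_ext
  · intro a
    simp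
  · simp only [RingHom.comp_apply, Polynomial.coe_mapRingHom, Polynomial.map_X,
      Polynomial.coe_evalRingHom, Polynomial.eval_X, Polynomial.coe_eval₂RingHom,
      Polynomial.eval₂_X]
    exact coe_jq' (M := M) (q := q)


/-- `j ∈ F̄_{Mq}` is a root of `Φ_q(X, j(q^q))`. -/
theorem PhiAt_eval_jBar : (PhiAt M q).eval (jBar (M * q)) = 0 := by
  haveI : NeZero (q * q) := ⟨Nat.mul_ne_zero hq.out.ne_zero hq.out.ne_zero⟩
  apply (coeB (M * q)).injective
  rw [map_zero, ← Polynomial.eval_map_apply, PhiAt_map_coe, Polynomial.eval_mul]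
  obtain ⟨ζ, hζ⟩ := HasEnoughRootsOfUnity.exists_primitiveRoot Kb q
  have hζu : IsPrimitiveRoot (hζ.isUnit (NeZero.ne q)).unit q := by
    rw [← IsPrimitiveRoot.coe_units_iff]
    exact hζ
  rw [normPoly_eq_prod q hζu, Polynomial.eval_prod]
  refine mul_eq_zero_of_right _ (Finset.prod_eq_zero (Finset.mem_range.2 (NeZero.pos q)) ?_)
  rw [pow_zero, scale_one_apply, Polynomial.eval_sub, Polynomial.eval_X, Polynomial.eval_C,
    coeB_apply, coe_jBar, sub_self]

variable (M q) in
/-- **The modular cofactor** `G = Φ_q(X, j(q^q)) / (X - j) ∈ F̄_{Mq}[X]`. -/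
def G : (Fb (M * q))[X] := PhiAt M q /ₘ (X - Polynomial.C (jBar (M * q)))

theorem X_sub_C_mul_G : (X - Polynomial.C (jBar (M * q))) * G M q = PhiAt M q :=
  Polynomial.mul_divByMonic_eq_iff_isRoot.2 PhiAt_eval_jBar

theorem G_monic : (G M q).Monic := by
  have h := PhiAt_monic (M := M) (q := q)
  rw [← X_sub_C_mul_G] at h
  exact (Polynomial.monic_X_sub_C _).of_mul_monic_left h

theorem G_natDegree : (G M q).natDegree = q := by
  have h := PhiAt_natDegree (M := M) (q := q)
  rw [← X_sub_C_mul_G, (Polynomial.monic_X_sub_C _).natDegree_mul G_monic,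
    Polynomial.natDegree_X_sub_C] at h
  omega


/-- `coe ∘ α₂ = coe`. -/
theorem coeB_alpha2 (x : Fb (M * q)) : coeB (M * q * q) (alpha2 M q x) = coeB (M * q) x := by
  rw [coeB_apply, coeB_apply, coe_heckeAlphaBar]

theorem coeB_comp_alpha2 :
    (coeB (M * q * q)).comp (alpha2 M q : Fb (M * q) →+* Fb (M * q * q)) = coeB (M * q) := by
  refine RingHom.ext fun x => ?_
  rw [RingHom.comp_apply, RingHom.coe_coe, coeB_alpha2]

/-- Over `ℚ̄((q))`, for a primitive `q`-th root of unity `ζ`: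
`G = (X - j(q^{q²})) · ∏_{0 < b < q} (X - j(ζ^b q))`. -/
theorem G_map_coe {ζ : Kbˣ} (hζ : IsPrimitiveRoot ζ q) :
    haveI : NeZero (q * q) := ⟨Nat.mul_ne_zero hq.out.ne_zero hq.out.ne_zero⟩
    (G M q).map (coeB (M * q)) =
      (X - Polynomial.C (J (1 : Kbˣ) (q * q))) *
        ∏ b ∈ Finset.range (q - 1), (X - Polynomial.C (scale (ζ ^ (b + 1)) (jqModC Kb))) := by
  haveI : NeZero (q * q) := ⟨Nat.mul_ne_zero hq.out.ne_zero hq.out.ne_zero⟩
  have h1 := PhiAt_map_coe (M := M) (q := q)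
  rw [← X_sub_C_mul_G, Polynomial.map_mul, Polynomial.map_sub, Polynomial.map_X, Polynomial.map_C,
    normPoly_eq_prod q hζ] at h1
  obtain ⟨q', hq'⟩ : ∃ q', q = q' + 1 := ⟨q - 1, (Nat.succ_pred_eq_of_pos hq.out.pos).symm⟩
  have h2 : ∏ b ∈ Finset.range q, (X - Polynomial.C (scale (ζ ^ b) (jqModC Kb))) =
      (∏ b ∈ Finset.range (q - 1), (X - Polynomial.C (scale (ζ ^ (b + 1)) (jqModC Kb)))) *
        (X - Polynomial.C (jqModC Kb)) := by
    have hq1 : q - 1 = q' := by omega
    rw [hq1]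
    conv_lhs => rw [hq']
    rw [Finset.prod_range_succ', pow_zero, scale_one_apply]
  rw [h2, coeB_apply, coe_jBar] at h1
  have hne : (X - Polynomial.C (jqModC Kb) : (LaurentSeries Kb)[X]) ≠ 0 :=
    Polynomial.X_sub_C_ne_zero _
  apply mul_left_cancel₀ hne
  rw [h1]
  ring

/-- `j(q^{q²})` is a root of `G` (transported along `α₂`). -/
theorem G_map_alpha2_eval_jqq :
    ((G M q).map (alpha2 M q : Fb (M * q) →+* Fb (M * q * q))).eval (jqq M q) = 0 := by
  haveI : NeZero (q * q) := ⟨Nat.mul_ne_zero hq.out.ne_zero hq.out.ne_zero⟩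
  obtain ⟨ζ, hζ⟩ := HasEnoughRootsOfUnity.exists_primitiveRoot Kb q
  have hζu : IsPrimitiveRoot (hζ.isUnit (NeZero.ne q)).unit q := by
    rw [← IsPrimitiveRoot.coe_units_iff]
    exact hζ
  apply (coeB (M * q * q)).injective
  rw [map_zero, ← Polynomial.eval_map_apply, Polynomial.map_map, coeB_comp_alpha2,
    G_map_coe hζu, Polynomial.eval_mul, coeB_apply, coe_jqq, Polynomial.eval_sub,
    Polynomial.eval_X, Polynomial.eval_C, sub_self, zero_mul]

/-- `j(q^{q²}) ∉ α₂ F̄_{Mq}` (apply `W_{Mq²}`: `j(q^M)` is not a series in `q^q`). -/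
theorem jqq_notMem_range_alpha2 (hqM : ¬ q ∣ M) : jqq M q ∉ Set.range (alpha2 M q) := by
  haveI : NeZero (q * q) := ⟨Nat.mul_ne_zero hq.out.ne_zero hq.out.ne_zero⟩
  rintro ⟨y, hy⟩
  have h1 : atkinLehnerFull (M * q * q) (jqq M q) =
      jBarD (M * q * q) M (Dvd.intro_left (q * q) (by ring : q * q * M = M * q * q)) :=
    atkinLehnerFull_jBarD (M * q * q) (q * q) M (by ring)
  have h2 := atkinLehnerFull_alpha (M * q) q y
  rw [hy, h1] at h2
  have h3 := congrArg (fun z : Fb (M * q * q) => ((z : LaurentSeries Kb)).coeff ((M : ℤ) * (-1))) h2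
  simp only [coe_jBarD, coeffEmb_jqN, coe_heckeBetaBar] at h3
  rw [jqNModC, qExpand_coeff_mul, coeff_jqModC_neg_one, qExpand_coeff_of_not_dvd] at h3
  · exact one_ne_zero h3
  · rw [mul_neg_one, Int.dvd_neg, Int.natCast_dvd_natCast]
    exact hqM


/-! ### `F̄_{Mq²} = α₂ F̄_{Mq} (j(q^{q²}))`, `G` is the minimal polynomial -/

section Simple

variable (hqM : ¬ q ∣ M)

include hqM in
/-- `F̄_{Mq²}` is generated over `α₂ F̄_{Mq}` by `j(q^{q²})` (prime degree). -/
theorem adjoin_jqq_eq_top :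
    letI := algebraAlong (alpha2 M q)
    IntermediateField.adjoin (Fb (M * q)) {jqq M q} = ⊤ := by
  letI := algebraAlong (alpha2 M q)
  haveI : Module.Finite (Fb (M * q)) (Fb (M * q * q)) :=
    Fermat.Agent.Hecke.finiteAlong_heckeAlphaBar (M * q) q
  have hdeg : Module.finrank (Fb (M * q)) (Fb (M * q * q)) = q := finrankAlong_alpha2
  have hmul := Module.finrank_mul_finrank (Fb (M * q))
    (IntermediateField.adjoin (Fb (M * q)) {jqq M q}) (Fb (M * q * q))
  rw [hdeg] at hmul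
  have hdvd : Module.finrank (Fb (M * q)) (IntermediateField.adjoin (Fb (M * q)) {jqq M q}) ∣ q :=
    Dvd.intro _ hmul
  rcases (Nat.dvd_prime hq.out).1 hdvd with h1 | h1
  · exfalso
    rw [IntermediateField.finrank_adjoin_simple_eq_one_iff, IntermediateField.mem_bot] at h1
    exact jqq_notMem_range_alpha2 hqM h1
  · refine IntermediateField.eq_of_le_of_finrank_eq le_top ?_
    rw [h1, IntermediateField.finrank_top', hdeg]

include hqM in
/-- `G` is the minimal polynomial of `j(q^{q²})` over `α₂ F̄_{Mq}`. -/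
theorem minpoly_jqq :
    letI := algebraAlong (alpha2 M q)
    minpoly (Fb (M * q)) (jqq M q) = G M q := by
  letI := algebraAlong (alpha2 M q)
  haveI : Module.Finite (Fb (M * q)) (Fb (M * q * q)) :=
    Fermat.Agent.Hecke.finiteAlong_heckeAlphaBar (M * q) q
  have hdeg : Module.finrank (Fb (M * q)) (Fb (M * q * q)) = q := finrankAlong_alpha2
  have hint : IsIntegral (Fb (M * q)) (jqq M q) := Algebra.IsIntegral.isIntegral _
  have haeval : Polynomial.aeval (jqq M q) (G M q) = 0 := by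
    rw [Polynomial.aeval_def, Polynomial.eval₂_eq_eval_map]
    exact G_map_alpha2_eval_jqq
  have hdvd : minpoly (Fb (M * q)) (jqq M q) ∣ G M q := minpoly.dvd _ _ haeval
  have hnat : (minpoly (Fb (M * q)) (jqq M q)).natDegree = q := by
    rw [← IntermediateField.adjoin.finrank hint, adjoin_jqq_eq_top hqM,
      IntermediateField.finrank_top', hdeg]
  exact (Polynomial.eq_of_monic_of_dvd_of_natDegree_le (minpoly.monic hint) G_monic hdvd
    (by rw [hnat, G_natDegree])).symm

end Simple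

/-! ### The conjugate embeddings `σ_b` of `F̄_{Mq²}` over `α₂ F̄_{Mq}` -/

section Sigma

variable (hqM : ¬ q ∣ M) {ζ : Kbˣ} (hζ : IsPrimitiveRoot ζ q) {b : ℕ} (hb : b < q - 1)

include hζ hb in
theorem G_map_coe_eval_scale :
    ((G M q).map (coeB (M * q))).eval (scale (ζ ^ (b + 1)) (jqModC Kb)) = 0 := by
  rw [G_map_coe hζ, Polynomial.eval_mul, Polynomial.eval_prod]
  refine mul_eq_zero_of_right _ (Finset.prod_eq_zero (Finset.mem_range.2 hb) ?_)
  rw [Polynomial.eval_sub, Polynomial.eval_X, Polynomial.eval_C, sub_self]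

include hqM hζ hb in
theorem scale_mem_aroots :
    letI := algebraAlong (alpha2 M q)
    scale (ζ ^ (b + 1)) (jqModC Kb) ∈
      (minpoly (Fb (M * q)) (jqq M q)).aroots (LaurentSeries Kb) := by
  letI := algebraAlong (alpha2 M q)
  rw [minpoly_jqq hqM, Polynomial.mem_aroots]
  refine ⟨G_monic.ne_zero, ?_⟩
  rw [Polynomial.aeval_def, Polynomial.eval₂_eq_eval_map]
  exact G_map_coe_eval_scale hζ hb

/-- The embedding `σ_b : F̄_{Mq²} → ℚ̄((q))` over `α₂ F̄_{Mq}` with `j(q^{q²}) ↦ j(ζ^{b+1} q)`. -/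
def sigmaB : Fb (M * q * q) →+* LaurentSeries Kb :=
  letI := algebraAlong (alpha2 M q)
  haveI : Module.Finite (Fb (M * q)) (Fb (M * q * q)) :=
    Fermat.Agent.Hecke.finiteAlong_heckeAlphaBar (M * q) q
  (((IntermediateField.algHomAdjoinIntegralEquiv (Fb (M * q))
      (Algebra.IsIntegral.isIntegral (jqq M q))).symm
      ⟨scale (ζ ^ (b + 1)) (jqModC Kb), scale_mem_aroots hqM hζ hb⟩).comp
    (((IntermediateField.topEquiv (F := Fb (M * q)) (E := Fb (M * q * q))).symm.trans
      (IntermediateField.equivOfEq (adjoin_jqq_eq_top hqM).symm)) :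
        Fb (M * q * q) →ₐ[Fb (M * q)] _)).toRingHom

theorem sigmaB_alpha2 (x : Fb (M * q)) :
    sigmaB hqM hζ hb (alpha2 M q x) = (x : LaurentSeries Kb) := by
  letI := algebraAlong (alpha2 M q)
  unfold sigmaB
  exact AlgHom.commutes _ x

theorem sigmaB_jqq :
    sigmaB hqM hζ hb (jqq M q) = scale (ζ ^ (b + 1)) (jqModC Kb) := by
  letI := algebraAlong (alpha2 M q)
  haveI : Module.Finite (Fb (M * q)) (Fb (M * q * q)) :=
    Fermat.Agent.Hecke.finiteAlong_heckeAlphaBar (M * q) q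
  have h := IntermediateField.algHomAdjoinIntegralEquiv_symm_apply_gen (Fb (M * q))
    (Algebra.IsIntegral.isIntegral (jqq M q))
    (⟨scale (ζ ^ (b + 1)) (jqModC Kb), scale_mem_aroots hqM hζ hb⟩ :
      { x // x ∈ (minpoly (Fb (M * q)) (jqq M q)).aroots (LaurentSeries Kb) })
  exact h

end Sigma

end Fermat.Agent.BR3.FibreProd
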