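import Mathlib
import Fermat.Agent.BR.Inst.AnnulusInstFinal
import Fermat.Agent.BR.Inst.DegenModel
import Fermat.Agent.BR3.FibreProdCofactor

/-!
# Program C (S36), spike (C-VERT) / node I2: `j(s)`, `j(s^q)` and `Ψ_q(j(s^q), j(s))` are functions
of every level of main's level data of the tube of a crossing of `X₀(M q)`

`L := annulusLevels_modular_final B hB hqM hne e` (the field `L` of `Final.ModularData`); its levels
are the local rings `(crossingModel_modular_final … S e).loc` of the normal models
`CS (M q) q (baseFin M q B) S`.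
-/

set_option autoImplicit false
set_option linter.unusedSectionVars false
set_option linter.style.haveILetI false
set_option synthInstance.maxHeartbeats 400000

noncomputable section

namespace Fermat.Agent.BR3.VertLevelMem

open AlgebraicCurve ModularCurve IsLocalRing Polynomial
open Fermat.Agent.Red Fermat.Agent.Val Fermat.Agent.X0 Fermat.Agent.BR.SS
open Fermat.Agent.BR.S0 Fermat.Agent.BR.S0.RedModular Fermat.Agent.BR.S0.PointDict
open Fermat.Agent.BR.S0.Modular Fermat.Agent.BR.S0.CrossingFamilyAssembly
open Fermat.Agent.BR.Inst.Levels Fermat.Agent.BR.Inst.NormalModel Fermat.Agent.BR.Inst.LevelsInst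
open Fermat.Agent.BR.Inst.NodeInstFinal Fermat.Agent.BR.Inst.AnnulusInst
open Fermat.Agent.BR.Inst.AnnulusInstFinal Fermat.Agent.BR.Kron
open Fermat.Agent.BR3.FibreProd Fermat.Agent.BR.Inst.ChartInModel Fermat.Agent.BR.Inst.NormalGen

variable {M q : ℕ} [NeZero M] [hq : Fact q.Prime]
variable (B : ValuationSubring Kb) (hB : B.LiesOverPrime q) (hqM : ¬ q ∣ M)

include hB in
/-- `j(s)` lies in every model of the tower. -/
theorem jBar_mem_CS (S : Finset Kb) : jBar (M * q) ∈ CS (M * q) q (baseFin M q B) S :=
  base_le_CS (baseFamily_fin (M * q) B hq.out hB) S (jBar_mem_modelBase (M * q) _)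

include hB in
/-- `j(s^q)` lies in every model of the tower. -/
theorem jq'_mem_CS (S : Finset Kb) : jq' M q ∈ CS (M * q) q (baseFin M q B) S := by
  have hWK : ∀ x ∈ WS B q S, x ∈ KS q S := fun x hx => (mem_WS_iff.1 hx).2
  have hCM := isModel_modelOf (modelBase M (WS B q S)) (modelField M (KS q S))
  have hC : IsModel (modelBase (M * q) (WS B q S)) (modelField (M * q) (KS q S))
      (CS (M * q) q (baseFin M q B) S) := isModel_CS S
  have h := Fermat.Agent.BR.Inst.DegenModel.beta_mem_model M q hq.out hCM hC
    (jBar_mem_model M hCM hWK)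
  rwa [Fermat.Agent.BR.Inst.DegenModel.beta_jBar] at h

/-- integer polynomials in two elements of a subring -/
theorem psiK_evalEval_mem {F : Type*} [Field F] (R : Subring F) {x y : F} (hx : x ∈ R)
    (hy : y ∈ R) : (psiK q F).evalEval x y ∈ R := by
  have h := map_psiK_evalEval q R.subtype ⟨x, hx⟩ ⟨y, hy⟩
  rw [← show R.subtype ⟨x, hx⟩ = x from rfl, ← show R.subtype ⟨y, hy⟩ = y from rfl, ← h]
  exact Subtype.coe_prop _

section Final

variable [IsAlgClosed (ResidueField B)]
  (hne : Nonempty (Crossing (chartDataModular B hB hqM)))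
  (e : Crossing (chartDataModular B hB hqM))

set_option maxHeartbeats 4000000 in
/-- The model of level `S` lies in the level `S` of main's level data of the tube of `e`. -/
theorem CS_le_level (S : Finset Kb) {y : Fb (M * q)}
    (hy : y ∈ CS (M * q) q (baseFin M q B) S) :
    y ∈ ((annulusLevels_modular_final B hB hqM hne e).level S).R :=
  (crossingModel_modular_final B hB hqM
    (Fermat.Agent.BR.S0.RedHyp.atlasHyp_modular B hB hqM
      (Fermat.Agent.BR.S0.GeomFinal.geomInputs_modular_final B hB hqM)) S e).le_loc hy

theorem jBar_mem_level (S : Finset Kb) :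
    jBar (M * q) ∈ ((annulusLevels_modular_final B hB hqM hne e).level S).R :=
  CS_le_level B hB hqM hne e S (jBar_mem_CS B hB S)

theorem jq'_mem_level (S : Finset Kb) :
    jq' M q ∈ ((annulusLevels_modular_final B hB hqM hne e).level S).R :=
  CS_le_level B hB hqM hne e S (jq'_mem_CS B hB S)

theorem psiK_mem_level (S : Finset Kb) :
    (psiK q (Fb (M * q))).evalEval (jq' M q) (jBar (M * q)) ∈
      ((annulusLevels_modular_final B hB hqM hne e).level S).R :=
  psiK_evalEval_mem _ (jq'_mem_level B hB hqM hne e S) (jBar_mem_level B hB hqM hne e S)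

end Final

end Fermat.Agent.BR3.VertLevelMem
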