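import Mathlib
import Fermat.Agent.BR3.VertLevelMem
import Fermat.Agent.BR3.VertCircleMod

/-!
# Program C (S36), spike (C-VERT) / node I2: the vertical component `z e` at a crossing `e` of main's
two-component model of `X₀(M q)`

`L := annulusLevels_modular_final B hB hqM hne e` (the field `L` of `Final.ModularData`).

* `exists_gauge` : from thickness one in the form `|L.thick| = |q|` there is a gauge `a₀` of the
  `a`-critical circle: `|L.thick| < |a₀| < 1`, `|a₀|^(q+1) = |q|`;
* `exists_vertComponent_final` : **`z e`**: the circle valuation `circleRing L.core a₀` of `Fb (M q)`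
  has exactly one extension to `Fb (M q q)` along `α₂`, with residue field
  `k(T)[Ũ]/(Ũ^q + β T Ũ^(q-1) - ρ/(β T))` (`e = 1`, `f = q`), from the two named hypotheses
  `hR` (`Ψ_q(j(s^q), j(s))` is a unit of a level: thickness one, (C-THICK1)) and
  `hb` (`(j(s) - j(s^q)^q)/a₀` reduces to `β T` on the circle: `VertCoord`).
-/

set_option autoImplicit false
set_option linter.unusedSectionVars false
set_option linter.style.haveILetI false
set_option synthInstance.maxHeartbeats 400000

noncomputable section

namespace Fermat.Agent.BR3.VertFinal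

open Polynomial ModularCurve AlgebraicCurve IsLocalRing
open Fermat.Agent.X0 Fermat.Agent.Val Fermat.Agent.Red Fermat.Agent.BR.Kron
open Fermat.Agent.BR.Circle Fermat.Agent.BR.S0 Fermat.Agent.BR.S0.RedModular
open Fermat.Agent.BR.S0.PointDict
open Fermat.Agent.BR.Inst.AnnulusInstFinal
open Fermat.Agent.BR3.FibreProd Fermat.Agent.BR3.VertResidue
open Fermat.Agent.BR3.VertCircleMod Fermat.Agent.BR3.VertLevelMem

variable {M q : ℕ} [NeZero M] [hq : Fact q.Prime]
variable (B : ValuationSubring Kb) (hB : B.LiesOverPrime q) (hqM : ¬ q ∣ M)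

local notation "kB" => ResidueField B

include hB in
/-- **The gauge of the `a`-critical circle** of a tube of thickness one. -/
theorem exists_gauge {thick : Kb} (hthick : B.valuation thick = B.valuation (q : Kb)) :
    ∃ a₀ : Kb, B.valuation thick < B.valuation a₀ ∧ B.valuation a₀ < 1 ∧
      B.valuation a₀ ^ (q + 1) = B.valuation (q : Kb) := by
  have hq0 : (q : Kb) ≠ 0 := Nat.cast_ne_zero.mpr hq.out.ne_zero
  have hq1 : B.valuation (q : Kb) < 1 := (B.mem_nonunits_iff).1 hB
  obtain ⟨a₀, ha₀⟩ := IsAlgClosed.exists_pow_nat_eq (q : Kb) (Nat.succ_pos q)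
  have ha0 : a₀ ≠ 0 := by
    rintro rfl
    rw [zero_pow (Nat.succ_ne_zero q)] at ha₀
    exact hq0 ha₀.symm
  have hv : B.valuation a₀ ^ (q + 1) = B.valuation (q : Kb) := by
    rw [← map_pow, ha₀]
  have hpos : 0 < B.valuation a₀ := by
    rw [zero_lt_iff, ne_eq, map_eq_zero]; exact ha0
  have hlt1 : B.valuation a₀ < 1 := by
    by_contra h
    have h1 : 1 ≤ B.valuation a₀ := not_lt.mp h
    have h2 : 1 ≤ B.valuation a₀ ^ (q + 1) := one_le_pow₀ h1
    rw [hv] at h2
    exact absurd hq1 (not_lt.mpr h2)
  refine ⟨a₀, ?_, hlt1, hv⟩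
  rw [hthick, ← hv, pow_succ]
  have hq1' : q ≠ 0 := hq.out.ne_zero
  calc B.valuation a₀ ^ q * B.valuation a₀ < 1 * B.valuation a₀ :=
        mul_lt_mul_of_pos_right (pow_lt_one₀ zero_le hlt1 hq1') hpos
    _ = B.valuation a₀ := one_mul _

section Final

variable [IsAlgClosed (ResidueField B)]
  (hne : Nonempty (Crossing (chartDataModular B hB hqM)))
  (e : Crossing (chartDataModular B hB hqM))

/-- **The vertical component `z e`** over the `a`-critical circle of the tube of the crossing `e` of
main's two-component model of `X₀(M q)`. -/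
theorem exists_vertComponent_final (a₀ : Kb)
    (ha1 : B.valuation (annulusLevels_modular_final B hB hqM hne e).core.thick < B.valuation a₀)
    (ha2 : B.valuation a₀ < 1) (ha₀ : B.valuation a₀ ^ (q + 1) = B.valuation (q : Kb))
    (S : Finset Kb)
    (hR : IsUnit (⟨_, psiK_mem_level B hB hqM hne e S⟩ :
      ((annulusLevels_modular_final B hB hqM hne e).level S).R))
    {β : kB} (hβ : β ≠ 0)
    (hb : IsRed (annulusLevels_modular_final B hB hqM hne e).core a₀
      (a₀⁻¹ • (jBar (M * q) - jq' M q ^ q)) (RatFunc.C β * RatFunc.X)) :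
    ∃ ρ : kB, ρ ≠ 0 ∧
      ∃ (Z : ValuationSubring (Fb (M * q * q))) (resZ : Z →+* AdjoinRoot (vertBar q β ρ)),
        Z.comap (alpha2 M q : Fb (M * q) →+* Fb (M * q * q)) =
          circleRing (annulusLevels_modular_final B hB hqM hne e).core a₀ ha1 ha2 ∧
        (∀ Z' : ValuationSubring (Fb (M * q * q)),
          Z'.comap (alpha2 M q : Fb (M * q) →+* Fb (M * q * q)) =
            circleRing (annulusLevels_modular_final B hB hqM hne e).core a₀ ha1 ha2 → Z' = Z) ∧
        Function.Surjective resZ ∧ (∀ z : Z, resZ z = 0 ↔ ¬ IsUnit z) ∧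
        (∀ (y : circleRing (annulusLevels_modular_final B hB hqM hne e).core a₀ ha1 ha2)
          (h : alpha2 M q (y : Fb (M * q)) ∈ Z),
          resZ ⟨alpha2 M q (y : Fb (M * q)), h⟩ =
            AdjoinRoot.of (vertBar q β ρ)
              (circleRes (annulusLevels_modular_final B hB hqM hne e).core a₀ ha1 ha2 y)) ∧
        ∃ hθ : U M q / alpha2 M q (algebraMap Kb (Fb (M * q)) a₀) ∈ Z,
          resZ ⟨U M q / alpha2 M q (algebraMap Kb (Fb (M * q)) a₀), hθ⟩ =
            AdjoinRoot.root (vertBar q β ρ) :=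
  exists_vertComponent_of_levels hqM (annulusLevels_modular_final B hB hqM hne e) a₀ ha1 ha2 ha₀ S
    (jq'_mem_level B hB hqM hne e S) (jBar_mem_level B hB hqM hne e S)
    (psiK_mem_level B hB hqM hne e S) hR hβ hb

end Final

end Fermat.Agent.BR3.VertFinal
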