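/-
Program C (S36), ruling (R-d): the Riemann package of a FINITE SEPARABLE EXTENSION of a function
field with a separating variable (helper17).

`FF.riemannPkg_of` produces `Red.RiemannPkg K F` from a transcendental `x : F` with `F` finite
separable over `K⟮x⟯`.  Here is the tower adapter: if `F'/F` is finite separable, then the image of
`x` in `F'` is again such a variable, hence `Red.RiemannPkg K F'`.  This is the input `hFt` of
`SS.mainStatement` for the residue fields `κ_w` of the model `S''` (finite separable over `FtM`,
resp. over `RatFunc k`).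
-/
import Mathlib
import Fermat.Agent.FF.RiemannPkg
import Fermat.Agent.BR.POneGenus
import Fermat.Agent.Val.RiemannPkgModL

set_option autoImplicit false
set_option linter.style.haveILetI false

open IntermediateField

namespace Fermat.Agent.BR3.RiemannPkgExt

open Fermat.Agent.FF Fermat.Agent.X0

variable {K F F' : Type*} [Field K] [Field F] [Field F'] [Algebra K F] [Algebra K F']
  [Algebra F F'] [IsScalarTower K F F']

/-- the subfield `K(x)` of `F` is isomorphic to the subfield `K(x')` of `F'`, `x'` the image of
`x`, compatibly with the embeddings into `F'` -/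
theorem exists_ringEquiv_adjoin (x : F) :
    ∃ e : K⟮x⟯ ≃+* K⟮algebraMap F F' x⟯,
      (algebraMap K⟮algebraMap F F' x⟯ F').comp (e : K⟮x⟯ →+* K⟮algebraMap F F' x⟯) =
        ((RingEquiv.refl F' : F' ≃+* F') : F' →+* F').comp (algebraMap K⟮x⟯ F') := by
  classical
  set f : F →ₐ[K] F' := IsScalarTower.toAlgHom K F F' with hf
  have hmap : K⟮x⟯.map f = K⟮algebraMap F F' x⟯ := by
    rw [IntermediateField.adjoin_map]
    simp [f]
  refine ⟨((IntermediateField.equivMap K⟮x⟯ f).trans
    (IntermediateField.equivOfEq hmap)).toRingEquiv, ?_⟩
  ext a
  rfl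

/-- the image of a separating variable of `F` in a finite extension `F'`: finiteness -/
theorem finiteDimensional_adjoin_algebraMap [FiniteDimensional F F'] (x : F)
    [FiniteDimensional K⟮x⟯ F] : FiniteDimensional K⟮algebraMap F F' x⟯ F' := by
  haveI : FiniteDimensional K⟮x⟯ F' := FiniteDimensional.trans K⟮x⟯ F F'
  obtain ⟨e, he⟩ := exists_ringEquiv_adjoin (K := K) (F' := F') x
  exact Module.Finite.of_equiv_equiv e (RingEquiv.refl F') he

/-- the image of a separating variable of `F` in a separable extension `F'`: separability -/
theorem isSeparable_adjoin_algebraMap [Algebra.IsSeparable F F'] (x : F)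
    [Algebra.IsSeparable K⟮x⟯ F] : Algebra.IsSeparable K⟮algebraMap F F' x⟯ F' := by
  haveI : Algebra.IsSeparable K⟮x⟯ F' := Algebra.IsSeparable.trans K⟮x⟯ F F'
  obtain ⟨e, he⟩ := exists_ringEquiv_adjoin (K := K) (F' := F') x
  exact Algebra.IsSeparable.of_equiv_equiv e (RingEquiv.refl F') he

/-- **(R-d), unbundled.** The Riemann package of a finite separable extension `F'` of a function
field `F` with a separating variable `x`. -/
theorem riemannPkg_of_finite_separable [IsAlgClosed K] [FiniteDimensional F F']
    [Algebra.IsSeparable F F'] {x : F} (hx : Transcendental K x) [FiniteDimensional K⟮x⟯ F]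
    [Algebra.IsSeparable K⟮x⟯ F] : Red.RiemannPkg K F' := by
  haveI := finiteDimensional_adjoin_algebraMap (K := K) (F' := F') x
  haveI := isSeparable_adjoin_algebraMap (K := K) (F' := F') x
  exact FF.riemannPkg_of (x := algebraMap F F' x)
    ((transcendental_algebraMap_iff (algebraMap F F').injective).2 hx)

/-- **(R-d).** The Riemann package of a finite separable extension `F'` of a function field `F`
with a separating variable in the sense of `IsSepVarS`. -/
theorem riemannPkg_of_isSepVarS [IsAlgClosed K] [FiniteDimensional F F']
    [Algebra.IsSeparable F F'] {x : F} {n : ℕ} (hx : IsSepVarS K x n) : Red.RiemannPkg K F' := by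
  haveI := hx.finite
  haveI := hx.separable
  exact riemannPkg_of_finite_separable (F := F) hx.transcendental

/-- **(R-d), genus-zero base.**  The Riemann package of a finite separable extension of
`RatFunc k`. -/
theorem riemannPkg_of_finite_separable_ratFunc {k L : Type*} [Field k] [IsAlgClosed k] [Field L]
    [Algebra k L] [Algebra (RatFunc k) L] [IsScalarTower k (RatFunc k) L]
    [FiniteDimensional (RatFunc k) L] [Algebra.IsSeparable (RatFunc k) L] : Red.RiemannPkg k L :=
  riemannPkg_of_isSepVarS (F := RatFunc k)
    (Fermat.Agent.BR.POne.isSepVarS_of_adjoin_eq_top (RatFunc.transcendental_X (K := k))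
      RatFunc.adjoin_X)

/-- **(R-d), modular base.**  The shape used for the residue fields of `S''`: `F'` finite separable
over a field `F` which is `k`-isomorphic to nothing in particular but carries a `RiemannPkg`
produced from a separating variable; restated with the variable existentially quantified. -/
theorem riemannPkg_of_exists_sepVar [IsAlgClosed K] [FiniteDimensional F F']
    [Algebra.IsSeparable F F'] (h : ∃ (x : F) (n : ℕ), IsSepVarS K x n) : Red.RiemannPkg K F' := by
  obtain ⟨x, n, hx⟩ := h
  exact riemannPkg_of_isSepVarS hx

set_option synthInstance.maxHeartbeats 400000 in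
set_option maxHeartbeats 1600000 in
/-- **(R-d), modular base `FtM`.**  The Riemann package of a finite separable extension of the
function field of `X₀(N)` over the residue field of a valuation subring of `ℚ̄` lying over
`ℓ ∤ N`. -/
theorem riemannPkg_of_finite_separable_modL (N : ℕ) [NeZero N] {ℓ : ℕ} [hℓ : Fact ℓ.Prime]
    (hℓN : ¬ ℓ ∣ N) (A : ValuationSubring (AlgebraicClosure ℚ)) (hA : A.LiesOverPrime ℓ)
    {L : Type*} [Field L] [Algebra (IsLocalRing.ResidueField A) L]
    [Algebra (ModularCurve.modularFunctionFieldFullC (IsLocalRing.ResidueField A) N) L]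
    [IsScalarTower (IsLocalRing.ResidueField A)
      (ModularCurve.modularFunctionFieldFullC (IsLocalRing.ResidueField A) N) L]
    [FiniteDimensional (ModularCurve.modularFunctionFieldFullC (IsLocalRing.ResidueField A) N) L]
    [Algebra.IsSeparable (ModularCurve.modularFunctionFieldFullC (IsLocalRing.ResidueField A) N) L] :
    Red.RiemannPkg (IsLocalRing.ResidueField A) L := by
  haveI : CharP (IsLocalRing.ResidueField A) ℓ :=
    Fermat.Agent.Val.charP_residueField_of_liesOverPrime A hA
  haveI : IsAlgClosed (IsLocalRing.ResidueField A) := Fermat.Agent.Val.residueField_isAlgClosed A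
  exact riemannPkg_of_isSepVarS
    (Fermat.Agent.Val.isSepVarS_jFullC N (IsLocalRing.ResidueField A) hℓ.out hℓN)

end Fermat.Agent.BR3.RiemannPkgExt
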