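import Mathlib
import Fermat.Agent.BR.PicFunct
import Fermat.Agent.BR3.PlaceIso
import Fermat.Agent.FF.NormFormula

/-!
# Program C (S36), node (C-GAL): norm–conorm on `Pic⁰` (`π^* π_* = ∑_g g_*`)

Everything is deduced from the behaviour on principal divisors by the constancy lemma
`Hecke.eq_of_eq_on_principal` (as in `BR/PicFunct`): both sides are positive additive maps of
divisors multiplying degrees by the same constant, and they agree on principal divisors because
`φ' (N_φ z) = ∏ σ_i z`.  No orbit / stabiliser theory is needed.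

* (0) `pic0Map a : Pic0 k L →+ Pic0 k L'` for `a : L ≃ₐ[k] L'` (`pic0Map_mk`, `_refl`, `_trans`,
  `pic0MapEquiv`), `divMap_divOf`; bridge to the Prelude action: `placeMap_eq_smul`,
  `divMap_eq_smul`, `pic0Map_eq_smul : pic0Map σ x = SemilinearAut.ofAlgAut σ • x`;
* (1) core, one matrix entry of the étale-algebra form: `pullbackAlong_pushforwardAlong_eq_sum`,
  `pic0Pull_pic0Push_eq_sum : φ'^* φ_* x = ∑ i, pic0Map (σ i) x` from
  `hnorm : φ' (normAlong φ z) = ∏ i, σ i z` and `hcard : card ι = finrankAlong k φ'`;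
* (2) a finite group `Γ` acting on `F'` through `ρ : Γ →* (F' ≃ₐ[K] F')`, faithfully (`hρ`), fixing
  `φ(F)` (`hfix`), with fixed field `φ(F)` (`hinv`): `isGaloisGroup_along`, `finiteAlong_of_group`,
  `isIntegral_of_group`, `fundamentalIdentityAlong_of_group`, `normFormulaAlong_of_group`,
  `apply_normAlong_eq_prod`, `card_eq_finrankAlong`, **`pic0Pull_pic0Push_eq_sum_group`**;
  instance forms `pic0Pull_pic0Push_eq_sum_gal` (`[IsGalois F F']`, sum over `F' ≃ₐ[F] F'`) and
  `pic0Pull_pic0Push_eq_sum_range` (cyclic: `∑ j < orderOf a, a ^ j`);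
* (3) `pic0Pull_pic0Push_eq_sum_iso`: an entry `κ_i → κ_j` from the Galois group of `κ_i/κ` and one
  `κ`-isomorphism `a₀ : κ_i ≃ κ_j`;
* (4) `pic0_eq_zero_of_genus_zero`, `sum_smul_eq_zero_of_pic0_trivial`,
  `sum_smul_eq_zero_of_genus_zero`, `sum_range_smul_eq_zero_of_genus_zero` (A11),
  `card_smul_eq_zero_of_fixed_of_push_eq_zero`, `orderOf_smul_eq_zero_of_fixed_of_push_eq_zero`;
  several components: `pushSum`, `pic0Pull_pushSum`, `smul_eq_zero_of_fixed_of_pushSum_eq_zero`.
-/

set_option autoImplicit false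
set_option linter.style.haveILetI false
set_option linter.unusedSectionVars false
set_option linter.unusedVariables false

noncomputable section

namespace Fermat.Agent.BR3.GalTrace

open AlgebraicCurve Fermat.Agent.Red Fermat.Agent.Jac Fermat.Agent.BR.PicFunct
  Fermat.Agent.BR3.PlaceIso

/-! ### (0) transport of `Pic⁰` along an isomorphism -/

section Iso

variable {k L L' L'' : Type*} [Field k] [Field L] [Field L'] [Field L'']
  [Algebra k L] [Algebra k L'] [Algebra k L'']

theorem divMap_nonneg (a : L ≃ₐ[k] L') {D : Divisor k L} (hD : 0 ≤ D) : 0 ≤ divMap a D := by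
  intro Q
  rw [divMap_apply]
  exact hD _

theorem divMap_refl (D : Divisor k L) : divMap (AlgEquiv.refl : L ≃ₐ[k] L) D = D := by
  ext Q
  rw [divMap_apply]
  show D (placeMap (AlgEquiv.refl : L ≃ₐ[k] L) Q) = D Q
  rw [placeMap_refl]

theorem divMap_trans (a : L ≃ₐ[k] L') (b : L' ≃ₐ[k] L'') (D : Divisor k L) :
    divMap (a.trans b) D = divMap b (divMap a D) := by
  induction D using Finsupp.induction with
  | zero => simp
  | single_add v n D _ _ ih =>
    rw [map_add, map_add, map_add, ih, divMap_single, divMap_single, divMap_single,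
      placeMap_trans]

theorem divMap_mem_degZero (a : L ≃ₐ[k] L') {D : Divisor k L}
    (hD : D ∈ Divisor.degZero (K := k) (F := L)) :
    divMap a D ∈ Divisor.degZero (K := k) (F := L') := by
  rwa [Divisor.mem_degZero, degree_divMap]

/-- transport of divisors of degree zero -/
def degZeroMap (a : L ≃ₐ[k] L') :
    Divisor.degZero (K := k) (F := L) →+ Divisor.degZero (K := k) (F := L') :=
  ((divMap a).domRestrict (Divisor.degZero (K := k) (F := L))).codRestrict _
    (fun D => divMap_mem_degZero a D.2)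

@[simp]
theorem coe_degZeroMap (a : L ≃ₐ[k] L') (D : Divisor.degZero (K := k) (F := L)) :
    (degZeroMap a D : Divisor k L') = divMap a (D : Divisor k L) := rfl

/-- transport of `Pic⁰` along an isomorphism of function fields -/
def pic0Map (a : L ≃ₐ[k] L') : Pic0 k L →+ Pic0 k L' :=
  QuotientAddGroup.map _ _ (degZeroMap a) (by
    rintro ⟨D, hD0⟩ hD
    simp only [AddSubgroup.mem_addSubgroupOf] at hD ⊢
    exact divMap_mem_principal a hD)

theorem pic0Map_mk (a : L ≃ₐ[k] L') (D : Divisor.degZero (K := k) (F := L)) :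
    pic0Map a (Pic0.mk D) = Pic0.mk (degZeroMap a D) := rfl

theorem pic0Map_refl (x : Pic0 k L) : pic0Map (AlgEquiv.refl : L ≃ₐ[k] L) x = x := by
  obtain ⟨D, rfl⟩ := Pic0.mk_surjective x
  rw [pic0Map_mk]
  exact congrArg Pic0.mk (Subtype.ext (by rw [coe_degZeroMap, divMap_refl]))

theorem pic0Map_trans (a : L ≃ₐ[k] L') (b : L' ≃ₐ[k] L'') (x : Pic0 k L) :
    pic0Map (a.trans b) x = pic0Map b (pic0Map a x) := by
  obtain ⟨D, rfl⟩ := Pic0.mk_surjective x
  rw [pic0Map_mk, pic0Map_mk, pic0Map_mk]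
  exact congrArg Pic0.mk (Subtype.ext (by
    rw [coe_degZeroMap, coe_degZeroMap, coe_degZeroMap, divMap_trans]))

theorem pic0Map_symm_pic0Map (a : L ≃ₐ[k] L') (x : Pic0 k L) :
    pic0Map a.symm (pic0Map a x) = x := by
  rw [← pic0Map_trans]
  have : a.trans a.symm = AlgEquiv.refl := by ext y; simp
  rw [this, pic0Map_refl]

theorem pic0Map_pic0Map_symm (a : L ≃ₐ[k] L') (x : Pic0 k L') :
    pic0Map a (pic0Map a.symm x) = x := by
  rw [← pic0Map_trans]
  have : a.symm.trans a = AlgEquiv.refl := by ext y; simp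
  rw [this, pic0Map_refl]

/-- `pic0Map` as an additive equivalence -/
def pic0MapEquiv (a : L ≃ₐ[k] L') : Pic0 k L ≃+ Pic0 k L' :=
  { pic0Map a with
    invFun := pic0Map a.symm
    left_inv := pic0Map_symm_pic0Map a
    right_inv := pic0Map_pic0Map_symm a }

@[simp]
theorem pic0MapEquiv_apply (a : L ≃ₐ[k] L') (x : Pic0 k L) : pic0MapEquiv a x = pic0Map a x := rfl

theorem mk_sum {J : Type*} (s : Finset J) (D : J → Divisor.degZero (K := k) (F := L)) :
    Pic0.mk (∑ j ∈ s, D j) = ∑ j ∈ s, Pic0.mk (D j) :=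
  map_sum (QuotientAddGroup.mk' ((Divisor.principal (K := k) (F := L)).addSubgroupOf
    (Divisor.degZero (K := k) (F := L)))) D s

/-- the divisor of `a f` is the transport of the divisor of `f` -/
theorem divMap_divOf [HasPrincipalDivisors k L] [HasPrincipalDivisors k L'] (a : L ≃ₐ[k] L')
    (f : L) : divMap a (divOf k f) = divOf k (a f) := by
  ext Q
  rw [divMap_eq_ord a (fun P => divOf_apply f P) Q, divOf_apply]

/-! #### bridge to the Prelude action of `SemilinearAut` -/

theorem placeMap_eq_smul (σ : L ≃ₐ[k] L) (Q : Place k L) :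
    placeMap σ Q = SemilinearAut.ofAlgAut σ • Q := by
  ext1
  ext y
  rw [placeMap_toValuationSubring, mem_mapVS, SemilinearAut.smul_toValuationSubring,
    ValuationSubring.mem_pointwise_smul_iff_inv_smul_mem]
  rfl

theorem divMap_eq_smul (σ : L ≃ₐ[k] L) (D : Divisor k L) :
    divMap σ D = SemilinearAut.ofAlgAut σ • D := by
  induction D using Finsupp.induction with
  | zero => simp
  | single_add v n D _ _ ih =>
    rw [map_add, smul_add, ih, divMap_single, SemilinearAut.smul_single, placeMap_eq_smul]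

theorem pic0Map_eq_smul (σ : L ≃ₐ[k] L) (x : Pic0 k L) :
    pic0Map σ x = SemilinearAut.ofAlgAut σ • x := by
  obtain ⟨D, rfl⟩ := Pic0.mk_surjective x
  rw [pic0Map_mk, SemilinearAut.pic0_smul_mk]
  exact congrArg Pic0.mk (Subtype.ext (by
    rw [coe_degZeroMap, SemilinearAut.coe_degZeroSMulHom, divMap_eq_smul]))

end Iso

/-! ### (1) the core: one matrix entry of `π^* π_*` -/

section Core

variable {k F₀ L L' : Type*} [Field k] [Field F₀] [Field L] [Field L']
  [Algebra k F₀] [Algebra k L] [Algebra k L']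
  [HasPrincipalDivisors k F₀] [HasPrincipalDivisors k L] [HasPrincipalDivisors k L']
  (φ : F₀ →ₐ[k] L) (hφ : φ.toRingHom.IsIntegral)
  (hfin : FiniteAlong k φ) (hN : NormFormulaAlong k φ hfin)
  (φ' : F₀ →ₐ[k] L') (hφ' : φ'.toRingHom.IsIntegral)
  (hFI' : FundamentalIdentityAlong k φ' hφ')
  {ι : Type*} [Fintype ι] (σ : ι → L ≃ₐ[k] L')
  (hnorm : ∀ z : L, φ' (normAlong φ z) = ∏ i, σ i z)
  (hcard : Fintype.card ι = finrankAlong k φ')

include hfin hN hFI' hnorm hcard in
/-- **Norm–conorm on divisors of degree zero** (one matrix entry): if `φ' ∘ N_φ = ∏ σ_i` on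
functions, then `φ'^* φ_* D = ∑ σ_i D` for `D` of degree zero. -/
theorem pullbackAlong_pushforwardAlong_eq_sum (hL : RiemannPkg k L) (hL' : RiemannPkg k L')
    (D : Divisor k L) (hD : Divisor.degree D = 0) :
    Divisor.pullbackAlong φ' hφ' (Divisor.pushforwardAlong φ hφ D) = ∑ i, divMap (σ i) D := by
  classical
  have h := Fermat.Agent.Hecke.eq_of_eq_on_principal hL hL'.deg_one
    ((Divisor.pullbackAlong φ' hφ').comp (Divisor.pushforwardAlong φ hφ))
    (∑ i, divMap (σ i))
    (fun D hD => pullbackAlong_nonneg φ' hφ' (pushforwardAlong_nonneg φ hφ hD))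
    (fun D hD => by
      rw [AddMonoidHom.finsetSum_apply]
      exact Finset.sum_nonneg fun i _ => divMap_nonneg (σ i) hD)
    (finrankAlong k φ' : ℤ)
    (fun D => by
      rw [AddMonoidHom.comp_apply, Divisor.degree_pullbackAlong φ' hφ' hFI',
        Divisor.degree_pushforwardAlong])
    (fun D => by
      rw [AddMonoidHom.finsetSum_apply, map_sum]
      simp only [degree_divMap]
      rw [Finset.sum_const, Finset.card_univ, hcard, nsmul_eq_mul])
    (fun z hz => by
      rw [AddMonoidHom.comp_apply, AddMonoidHom.finsetSum_apply,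
        pushforwardAlong_divOf φ hφ hfin hN hz, pullbackAlong_divOf, hnorm]
      simp only [divMap_divOf]
      have hne : ∀ i ∈ (Finset.univ : Finset ι), σ i z ≠ 0 := fun i _ =>
        (map_ne_zero (σ i)).mpr hz
      generalize (Finset.univ : Finset ι) = s at hne ⊢
      induction s using Finset.induction_on with
      | empty => simp [divOf_one]
      | insert j s hj ih =>
        rw [Finset.prod_insert hj, Finset.sum_insert hj,
          divOf_mul (hne j (Finset.mem_insert_self j s))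
            (Finset.prod_ne_zero_iff.mpr fun i hi => hne i (Finset.mem_insert_of_mem hi)),
          ih fun i hi => hne i (Finset.mem_insert_of_mem hi)])
    D hD
  rw [AddMonoidHom.comp_apply, AddMonoidHom.finsetSum_apply] at h
  exact h

include hnorm hcard in
/-- **Norm–conorm on `Pic⁰`** (one matrix entry): `φ'^* φ_* = ∑ (σ_i)_*`. -/
theorem pic0Pull_pic0Push_eq_sum (hL : RiemannPkg k L) (hL' : RiemannPkg k L') (x : Pic0 k L) :
    pic0Pull φ' hφ' hFI' (pic0Push φ hφ hfin hN x) = ∑ i, pic0Map (σ i) x := by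
  classical
  obtain ⟨D, rfl⟩ := Pic0.mk_surjective x
  rw [pic0Push_mk, pic0Pull_mk]
  simp only [pic0Map_mk]
  rw [← mk_sum]
  refine congrArg Pic0.mk (Subtype.ext ?_)
  rw [coe_degZeroPull, coe_degZeroPush,
    pullbackAlong_pushforwardAlong_eq_sum φ hφ hfin hN φ' hφ' hFI' σ hnorm hcard hL hL' _
      (Divisor.mem_degZero.mp D.2)]
  exact (map_sum (AddSubgroup.subtype (Divisor.degZero (K := k) (F := L')))
    (fun j => degZeroMap (σ j) D) Finset.univ).symm

end Core

/-! ### (2) a finite group acting with fixed field `φ(F)` -/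

section GaloisGroupNorm

variable {F F' Γ : Type*} [Field F] [Field F'] [Algebra F F'] [Group Γ] [Fintype Γ]
  [MulSemiringAction Γ F'] [IsGaloisGroup Γ F F']

/-- The norm is the product over the Galois group (`IsGaloisGroup` form). -/
theorem algebraMap_norm_eq_prod_smul (z : F') :
    algebraMap F F' (Algebra.norm F z) = ∏ γ : Γ, γ • z := by
  classical
  haveI : FiniteDimensional F F' := IsGaloisGroup.finiteDimensional Γ F F'
  haveI : IsGalois F F' := IsGaloisGroup.isGalois Γ F F'
  rw [Algebra.norm_eq_prod_automorphisms]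
  exact (Fintype.prod_equiv (IsGaloisGroup.mulEquivAlgEquiv Γ F F').toEquiv _ _
    (fun γ => rfl)).symm

end GaloisGroupNorm

section Group

variable {K F F' : Type*} [Field K] [Field F] [Field F'] [Algebra K F] [Algebra K F']
  [HasPrincipalDivisors K F] [HasPrincipalDivisors K F']
  (φ : F →ₐ[K] F')
  {Γ : Type*} [Group Γ] [Fintype Γ] (ρ : Γ →* (F' ≃ₐ[K] F'))
  (hρ : Function.Injective ρ)
  (hfix : ∀ (γ : Γ) (f : F), ρ γ (φ f) = φ f)
  (hinv : ∀ z : F', (∀ γ : Γ, ρ γ z = z) → ∃ f : F, φ f = z)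

/-- the action of `Γ` on `F'` through `ρ` -/
abbrev actionOf : MulSemiringAction Γ F' := MulSemiringAction.compHom F' ρ

include hρ hfix hinv in
/-- `Γ` is a Galois group of `F' / φ(F)` in the sense of Mathlib. -/
theorem isGaloisGroup_along :
    letI := algebraAlong φ
    letI := actionOf ρ
    IsGaloisGroup Γ F F' := by
  letI := algebraAlong φ
  letI := actionOf ρ
  refine ⟨⟨fun {γ γ'} h => hρ (AlgEquiv.ext fun z => h z)⟩, ⟨fun γ f z => ?_⟩,
    ⟨fun z hz => hinv z hz⟩⟩
  show ρ γ (φ f * z) = φ f * ρ γ z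
  rw [map_mul, hfix]

include hρ hfix hinv in
theorem finiteAlong_of_group : FiniteAlong K φ := by
  unfold FiniteAlong
  letI := algebraAlong φ
  letI := actionOf ρ
  haveI := isGaloisGroup_along φ ρ hρ hfix hinv
  exact IsGaloisGroup.finiteDimensional Γ F F'

include hρ hfix hinv in
theorem isGalois_along_of_group : letI := algebraAlong φ; IsGalois F F' := by
  letI := algebraAlong φ
  letI := actionOf ρ
  haveI := isGaloisGroup_along φ ρ hρ hfix hinv
  exact IsGaloisGroup.isGalois Γ F F'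

include hρ hfix hinv in
theorem isIntegral_of_group : φ.toRingHom.IsIntegral := by
  letI := algebraAlong φ
  haveI : Module.Finite F F' := finiteAlong_of_group φ ρ hρ hfix hinv
  haveI : Algebra.IsIntegral F F' := Algebra.IsIntegral.of_finite F F'
  exact fun z => Algebra.IsIntegral.isIntegral z

include hρ hfix hinv in
theorem fundamentalIdentityAlong_of_group (hφ : φ.toRingHom.IsIntegral) :
    FundamentalIdentityAlong K φ hφ := by
  unfold FundamentalIdentityAlong
  letI := algebraAlong φ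
  haveI := isScalarTower_along φ
  haveI : FiniteDimensional F F' := finiteAlong_of_group φ ρ hρ hfix hinv
  haveI : IsGalois F F' := isGalois_along_of_group φ ρ hρ hfix hinv
  exact Fermat.Agent.FF.fundamentalIdentity

include hρ hfix hinv in
theorem normFormulaAlong_of_group (hfin : FiniteAlong K φ) : NormFormulaAlong K φ hfin := by
  unfold NormFormulaAlong
  letI := algebraAlong φ
  haveI := isScalarTower_along φ
  haveI : FiniteDimensional F F' := hfin
  haveI : IsGalois F F' := isGalois_along_of_group φ ρ hρ hfix hinv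
  exact Fermat.Agent.FF.pushforwardNormFormula

include hρ hfix hinv in
/-- `φ (N z) = ∏_γ γ z`. -/
theorem apply_normAlong_eq_prod (z : F') : φ (normAlong φ z) = ∏ γ : Γ, ρ γ z := by
  letI := algebraAlong φ
  letI := actionOf ρ
  haveI := isGaloisGroup_along φ ρ hρ hfix hinv
  exact algebraMap_norm_eq_prod_smul (F := F) (Γ := Γ) z

include hρ hfix hinv in
theorem card_eq_finrankAlong : Fintype.card Γ = finrankAlong K φ := by
  letI := algebraAlong φ
  letI := actionOf ρ
  haveI := isGaloisGroup_along φ ρ hρ hfix hinv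
  rw [← Nat.card_eq_fintype_card]
  exact IsGaloisGroup.card_eq_finrank Γ F F'

include hρ hfix hinv in
/-- **Norm–conorm for a finite group `Γ` acting on `F'` with fixed field `φ(F)`**:
`φ^* φ_* x = ∑_γ γ • x` on `Pic⁰(F')`. -/
theorem pic0Pull_pic0Push_eq_sum_group (hφ : φ.toRingHom.IsIntegral)
    (hFI : FundamentalIdentityAlong K φ hφ) (hfin : FiniteAlong K φ)
    (hN : NormFormulaAlong K φ hfin) (hF' : RiemannPkg K F') (x : Pic0 K F') :
    pic0Pull φ hφ hFI (pic0Push φ hφ hfin hN x) =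
      ∑ γ : Γ, SemilinearAut.ofAlgAut (ρ γ) • x := by
  rw [pic0Pull_pic0Push_eq_sum φ hφ hfin hN φ hφ hFI (fun γ => ρ γ)
    (apply_normAlong_eq_prod φ ρ hρ hfix hinv) (card_eq_finrankAlong φ ρ hρ hfix hinv) hF' hF' x]
  exact Finset.sum_congr rfl fun γ _ => pic0Map_eq_smul (ρ γ) x

end Group

/-! ### (2') the instance forms: `IsGalois`, cyclic -/

section GaloisInst

variable {K F F' : Type*} [Field K] [Field F] [Field F'] [Algebra K F] [Algebra K F']
  [Algebra F F'] [IsScalarTower K F F'] [HasPrincipalDivisors K F] [HasPrincipalDivisors K F']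
  [FiniteDimensional F F'] [IsGalois F F']

/-- **Norm–conorm for a finite Galois extension `F'/F`**: `π^* π_* x = ∑_{g ∈ Gal(F'/F)} g • x`. -/
theorem pic0Pull_pic0Push_eq_sum_gal
    (hφ : (IsScalarTower.toAlgHom K F F').toRingHom.IsIntegral)
    (hFI : FundamentalIdentityAlong K (IsScalarTower.toAlgHom K F F') hφ)
    (hfin : FiniteAlong K (IsScalarTower.toAlgHom K F F'))
    (hN : NormFormulaAlong K (IsScalarTower.toAlgHom K F F') hfin)
    (hF' : RiemannPkg K F') (x : Pic0 K F') :
    pic0Pull (IsScalarTower.toAlgHom K F F') hφ hFI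
        (pic0Push (IsScalarTower.toAlgHom K F F') hφ hfin hN x) =
      ∑ g : F' ≃ₐ[F] F', SemilinearAut.ofAlgAut (g.restrictScalars K) • x := by
  refine pic0Pull_pic0Push_eq_sum_group (IsScalarTower.toAlgHom K F F')
    (AlgEquiv.restrictScalarsHom K) (AlgEquiv.restrictScalars_injective K)
    (fun g f => g.commutes f) (fun z hz => ?_) hφ hFI hfin hN hF' x
  exact (IsGaloisGroup.of_isGalois (K := F) (L := F')).isInvariant.isInvariant z hz

end GaloisInst

section Cyclic

variable {K F F' : Type*} [Field K] [Field F] [Field F'] [Algebra K F] [Algebra K F']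
  [HasPrincipalDivisors K F] [HasPrincipalDivisors K F']
  (φ : F →ₐ[K] F')

theorem sum_zpowers_eq_sum_range {G M : Type*} [Group G] [AddCommMonoid M] (a : G)
    (ha : IsOfFinOrder a) [Fintype (Subgroup.zpowers a)] (f : G → M) :
    ∑ γ : Subgroup.zpowers a, f γ = ∑ j ∈ Finset.range (orderOf a), f (a ^ j) := by
  rw [Finset.sum_range]
  exact (Fintype.sum_equiv (finEquivZPowers ha) _ _ (fun i => rfl)).symm

variable (a : F' ≃ₐ[K] F') (ha : IsOfFinOrder a)
  (hfix : ∀ f : F, a (φ f) = φ f)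
  (hinv : ∀ z : F', a z = z → ∃ f : F, φ f = z)

include hfix in
theorem zpowers_fix (γ : Subgroup.zpowers a) (f : F) : (γ : F' ≃ₐ[K] F') (φ f) = φ f := by
  let S : Subgroup (F' ≃ₐ[K] F') :=
    { carrier := {g | ∀ f : F, g (φ f) = φ f}
      one_mem' := fun f => rfl
      mul_mem' := fun {g h} hg hh f => by
        show g (h (φ f)) = φ f
        rw [hh f, hg f]
      inv_mem' := fun {g} hg f => by
        show g.symm (φ f) = φ f
        rw [AlgEquiv.symm_apply_eq, hg f] }
  have hle : Subgroup.zpowers a ≤ S := (Subgroup.zpowers_le).mpr hfix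
  exact hle γ.2 f

include ha hfix hinv in
/-- **Cyclic form**: `a` of finite order `n` with fixed field `φ(F)`:
`φ^* φ_* x = ∑_{j<n} a^j • x`. -/
theorem pic0Pull_pic0Push_eq_sum_range (hφ : φ.toRingHom.IsIntegral)
    (hFI : FundamentalIdentityAlong K φ hφ) (hfin : FiniteAlong K φ)
    (hN : NormFormulaAlong K φ hfin) (hF' : RiemannPkg K F') (x : Pic0 K F') :
    pic0Pull φ hφ hFI (pic0Push φ hφ hfin hN x) =
      ∑ j ∈ Finset.range (orderOf a), SemilinearAut.ofAlgAut (a ^ j) • x := by
  letI : Fintype (Subgroup.zpowers a) := Fintype.ofEquiv _ (finEquivZPowers ha)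
  rw [pic0Pull_pic0Push_eq_sum_group φ (Subgroup.zpowers a).subtype
    (Subgroup.subtype_injective _) (zpowers_fix φ a hfix)
    (fun z hz => hinv z (hz ⟨a, Subgroup.mem_zpowers a⟩)) hφ hFI hfin hN hF' x]
  exact sum_zpowers_eq_sum_range a ha (fun g => SemilinearAut.ofAlgAut g • x)

end Cyclic

/-! ### (3) an entry of the étale-algebra form from a Galois group and one isomorphism -/

section Entry

variable {k F₀ L L' : Type*} [Field k] [Field F₀] [Field L] [Field L']
  [Algebra k F₀] [Algebra k L] [Algebra k L']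
  [HasPrincipalDivisors k F₀] [HasPrincipalDivisors k L] [HasPrincipalDivisors k L']
  (φ : F₀ →ₐ[k] L) (φ' : F₀ →ₐ[k] L')
  {Γ : Type*} [Group Γ] [Fintype Γ] (ρ : Γ →* (L ≃ₐ[k] L))
  (hρ : Function.Injective ρ)
  (hfix : ∀ (γ : Γ) (f : F₀), ρ γ (φ f) = φ f)
  (hinv : ∀ z : L, (∀ γ : Γ, ρ γ z = z) → ∃ f : F₀, φ f = z)
  (a₀ : L ≃ₐ[k] L') (ha₀ : ∀ f : F₀, a₀ (φ f) = φ' f)

include ha₀ in
theorem finrankAlong_eq_of_iso : finrankAlong k φ' = finrankAlong k φ := by
  unfold finrankAlong
  letI := algebraAlong φ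
  symm
  letI A' : Algebra F₀ L' := algebraAlong φ'
  refine Algebra.finrank_eq_of_equiv_equiv (RingEquiv.refl F₀) (a₀ : L ≃+* L') ?_
  ext f
  exact (ha₀ f).symm

include hρ hfix hinv ha₀ in
/-- `φ' (N_φ z) = ∏_γ a₀ (γ z)`. -/
theorem apply_normAlong_eq_prod_iso (z : L) :
    φ' (normAlong φ z) = ∏ γ : Γ, ((ρ γ).trans a₀) z := by
  rw [← ha₀, apply_normAlong_eq_prod φ ρ hρ hfix hinv, map_prod]
  rfl

include hρ hfix hinv ha₀ in
theorem card_eq_finrankAlong_iso : Fintype.card Γ = finrankAlong k φ' := by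
  rw [finrankAlong_eq_of_iso φ φ' a₀ ha₀, card_eq_finrankAlong φ ρ hρ hfix hinv]

include hρ hfix hinv ha₀ in
/-- **Entry of the étale-algebra form**: `L/φ(F₀)` Galois with group `Γ`, and one isomorphism
`a₀ : L ≃ L'` over `F₀`: `φ'^* φ_* x = ∑_γ (a₀ ∘ γ)_* x`. -/
theorem pic0Pull_pic0Push_eq_sum_iso (hφ : φ.toRingHom.IsIntegral) (hfin : FiniteAlong k φ)
    (hN : NormFormulaAlong k φ hfin) (hφ' : φ'.toRingHom.IsIntegral)
    (hFI' : FundamentalIdentityAlong k φ' hφ') (hL : RiemannPkg k L) (hL' : RiemannPkg k L')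
    (x : Pic0 k L) :
    pic0Pull φ' hφ' hFI' (pic0Push φ hφ hfin hN x) =
      ∑ γ : Γ, pic0Map ((ρ γ).trans a₀) x :=
  pic0Pull_pic0Push_eq_sum φ hφ hfin hN φ' hφ' hFI' (fun γ => (ρ γ).trans a₀)
    (apply_normAlong_eq_prod_iso φ φ' ρ hρ hfix hinv a₀ ha₀)
    (card_eq_finrankAlong_iso φ φ' ρ hρ hfix hinv a₀ ha₀) hL hL' x

end Entry

/-! ### (4) corollaries -/

section GenusZero

variable {K F : Type*} [Field K] [Field F] [Algebra K F]

/-- **`Pic⁰` of a function field of genus zero is trivial.** -/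
theorem pic0_eq_zero_of_genus_zero (hF : RiemannPkg K F) (hg : genusFF K F = 0)
    (y : Pic0 K F) : y = 0 := by
  obtain ⟨D, rfl⟩ := Pic0.mk_surjective y
  have hdeg : Divisor.degree (D : Divisor K F) = 0 := Divisor.mem_degZero.mp D.2
  have hne : riemannRochSpace (D : Divisor K F) ≠ ⊥ := by
    intro hbot
    have h1 := hF.riemann_le (D : Divisor K F)
    rw [hbot, finrank_bot, hdeg, hg] at h1
    simp at h1
  have hprin := mem_principal_of_degree_eq_zero_of_ne_bot hF hdeg hne
  exact (QuotientAddGroup.eq_zero_iff D).mpr (by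
    simpa only [AddSubgroup.mem_addSubgroupOf] using hprin)

end GenusZero

section Corollaries

variable {K F F' : Type*} [Field K] [Field F] [Field F'] [Algebra K F] [Algebra K F']
  [HasPrincipalDivisors K F] [HasPrincipalDivisors K F']
  (φ : F →ₐ[K] F')
  {Γ : Type*} [Group Γ] [Fintype Γ] (ρ : Γ →* (F' ≃ₐ[K] F'))
  (hρ : Function.Injective ρ)
  (hfix : ∀ (γ : Γ) (f : F), ρ γ (φ f) = φ f)
  (hinv : ∀ z : F', (∀ γ : Γ, ρ γ z = z) → ∃ f : F, φ f = z)

include hρ hfix hinv in
/-- If `Pic⁰` of the fixed field is trivial, `∑_γ γ_* = 0` on `Pic⁰(F')`. -/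
theorem sum_smul_eq_zero_of_pic0_trivial (hF' : RiemannPkg K F')
    (h0 : ∀ y : Pic0 K F, y = 0) (x : Pic0 K F') :
    ∑ γ : Γ, SemilinearAut.ofAlgAut (ρ γ) • x = 0 := by
  have hφ := isIntegral_of_group φ ρ hρ hfix hinv
  have hfin := finiteAlong_of_group φ ρ hρ hfix hinv
  have hFI := fundamentalIdentityAlong_of_group φ ρ hρ hfix hinv hφ
  have hN := normFormulaAlong_of_group φ ρ hρ hfix hinv hfin
  rw [← pic0Pull_pic0Push_eq_sum_group φ ρ hρ hfix hinv hφ hFI hfin hN hF' x,
    h0 (pic0Push φ hφ hfin hN x), map_zero]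

include hρ hfix hinv in
/-- **Quotient of genus zero**: `∑_γ γ_* = 0` on `Pic⁰(F')`. -/
theorem sum_smul_eq_zero_of_genus_zero (hF' : RiemannPkg K F') (hF : RiemannPkg K F)
    (hg : genusFF K F = 0) (x : Pic0 K F') :
    ∑ γ : Γ, SemilinearAut.ofAlgAut (ρ γ) • x = 0 :=
  sum_smul_eq_zero_of_pic0_trivial φ ρ hρ hfix hinv hF' (pic0_eq_zero_of_genus_zero hF hg) x

include hρ hfix hinv in
/-- **Fixed and norm-zero implies `|Γ|`-torsion.** -/
theorem card_smul_eq_zero_of_fixed_of_push_eq_zero (hφ : φ.toRingHom.IsIntegral)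
    (hfin : FiniteAlong K φ) (hN : NormFormulaAlong K φ hfin) (hF' : RiemannPkg K F')
    (x : Pic0 K F') (hx : ∀ γ : Γ, SemilinearAut.ofAlgAut (ρ γ) • x = x)
    (hpush : pic0Push φ hφ hfin hN x = 0) : Fintype.card Γ • x = 0 := by
  have hFI := fundamentalIdentityAlong_of_group φ ρ hρ hfix hinv hφ
  have h := pic0Pull_pic0Push_eq_sum_group φ ρ hρ hfix hinv hφ hFI hfin hN hF' x
  rw [hpush, map_zero] at h
  rw [h, Finset.sum_congr rfl fun γ _ => hx γ, Finset.sum_const, Finset.card_univ]

end Corollaries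

section CyclicCor

variable {K F F' : Type*} [Field K] [Field F] [Field F'] [Algebra K F] [Algebra K F']
  [HasPrincipalDivisors K F] [HasPrincipalDivisors K F']
  (φ : F →ₐ[K] F') (a : F' ≃ₐ[K] F') (ha : IsOfFinOrder a)
  (hfix : ∀ f : F, a (φ f) = φ f)
  (hinv : ∀ z : F', a z = z → ∃ f : F, φ f = z)

include ha hfix hinv in
/-- **Cyclic quotient of genus zero** (the shape of A11): `∑_{j<n} (a^j)_* = 0` on `Pic⁰(F')`. -/
theorem sum_range_smul_eq_zero_of_genus_zero (hF' : RiemannPkg K F') (hF : RiemannPkg K F)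
    (hg : genusFF K F = 0) (x : Pic0 K F') :
    ∑ j ∈ Finset.range (orderOf a), SemilinearAut.ofAlgAut (a ^ j) • x = 0 := by
  letI : Fintype (Subgroup.zpowers a) := Fintype.ofEquiv _ (finEquivZPowers ha)
  have h := sum_smul_eq_zero_of_genus_zero φ (Subgroup.zpowers a).subtype
    (Subgroup.subtype_injective _) (zpowers_fix φ a hfix)
    (fun z hz => hinv z (hz ⟨a, Subgroup.mem_zpowers a⟩)) hF' hF hg x
  rw [← h]
  exact (sum_zpowers_eq_sum_range a ha (fun g => SemilinearAut.ofAlgAut g • x)).symm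

include ha hfix hinv in
/-- cyclic form of "fixed and norm-zero implies `n`-torsion" -/
theorem orderOf_smul_eq_zero_of_fixed_of_push_eq_zero (hφ : φ.toRingHom.IsIntegral)
    (hfin : FiniteAlong K φ) (hN : NormFormulaAlong K φ hfin) (hF' : RiemannPkg K F')
    (x : Pic0 K F') (hx : SemilinearAut.ofAlgAut a • x = x)
    (hpush : pic0Push φ hφ hfin hN x = 0) : orderOf a • x = 0 := by
  letI : Fintype (Subgroup.zpowers a) := Fintype.ofEquiv _ (finEquivZPowers ha)
  have hx' : ∀ γ : Subgroup.zpowers a,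
      SemilinearAut.ofAlgAut ((Subgroup.zpowers a).subtype γ) • x = x := by
    intro γ
    let S : Subgroup (F' ≃ₐ[K] F') :=
      { carrier := {g | SemilinearAut.ofAlgAut g • x = x}
        one_mem' := by
          show SemilinearAut.ofAlgAut (1 : F' ≃ₐ[K] F') • x = x
          rw [map_one, one_smul]
        mul_mem' := fun {g h} hg hh => by
          show SemilinearAut.ofAlgAut (g * h) • x = x
          rw [map_mul, mul_smul]
          exact (congrArg _ hh).trans hg
        inv_mem' := fun {g} hg => by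
          show SemilinearAut.ofAlgAut g⁻¹ • x = x
          rw [map_inv, inv_smul_eq_iff]
          exact hg.symm }
    have hle : Subgroup.zpowers a ≤ S := (Subgroup.zpowers_le).mpr hx
    exact hle γ.2
  have h := card_smul_eq_zero_of_fixed_of_push_eq_zero φ (Subgroup.zpowers a).subtype
    (Subgroup.subtype_injective _) (zpowers_fix φ a hfix)
    (fun z hz => hinv z (hz ⟨a, Subgroup.mem_zpowers a⟩)) hφ hfin hN hF' x hx' hpush
  have hc : Fintype.card (Subgroup.zpowers a) = orderOf a := by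
    rw [Fintype.card_congr (finEquivZPowers ha).symm, Fintype.card_fin]
  rwa [hc] at h

end CyclicCor

/-! ### (4c) several components: fixed and norm-zero implies torsion -/

section Multi

variable {k F₀ : Type*} [Field k] [Field F₀] [Algebra k F₀] [HasPrincipalDivisors k F₀]
  {Mid : Type*} [Fintype Mid] {Ft : Mid → Type*} [∀ i, Field (Ft i)] [∀ i, Algebra k (Ft i)]
  [∀ i, HasPrincipalDivisors k (Ft i)]
  (φ : ∀ i, F₀ →ₐ[k] Ft i) (hφ : ∀ i, (φ i).toRingHom.IsIntegral)
  (hfin : ∀ i, FiniteAlong k (φ i)) (hN : ∀ i, NormFormulaAlong k (φ i) (hfin i))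
  (hFI : ∀ i, FundamentalIdentityAlong k (φ i) (hφ i))
  (hR : ∀ i, RiemannPkg k (Ft i))

/-- `π_*` on `⊕_i Pic⁰(κ_i)` -/
def pushSum (r : ∀ i, Pic0 k (Ft i)) : Pic0 k F₀ :=
  ∑ i, pic0Push (φ i) (hφ i) (hfin i) (hN i) (r i)

variable (j : Mid) {T : Mid → Type*} [∀ i, Fintype (T i)] (σ : ∀ i, T i → (Ft i ≃ₐ[k] Ft j))
  (hnorm : ∀ (i : Mid) (z : Ft i), φ j (normAlong (φ i) z) = ∏ t, σ i t z)
  (hcard : ∀ i, Fintype.card (T i) = finrankAlong k (φ j))

include hnorm hcard hR in
/-- **The `j`-th component of `π^* π_*`** on `⊕_i Pic⁰(κ_i)`. -/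
theorem pic0Pull_pushSum (r : ∀ i, Pic0 k (Ft i)) :
    pic0Pull (φ j) (hφ j) (hFI j) (pushSum φ hφ hfin hN r) =
      ∑ i, ∑ t, pic0Map (σ i t) (r i) := by
  rw [pushSum, map_sum]
  exact Finset.sum_congr rfl fun i _ =>
    pic0Pull_pic0Push_eq_sum (φ i) (hφ i) (hfin i) (hN i) (φ j) (hφ j) (hFI j) (σ i)
      (hnorm i) (hcard i) (hR i) (hR j) (r i)

include hnorm hcard hR hFI in
/-- **Fixed and norm-zero implies torsion**, several components (`Mid` any finite type; no
assumption on the number of components). -/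
theorem smul_eq_zero_of_fixed_of_pushSum_eq_zero (r : ∀ i, Pic0 k (Ft i))
    (hfixed : ∀ (i : Mid) (t : T i), pic0Map (σ i t) (r i) = r j)
    (hpush : pushSum φ hφ hfin hN r = 0) :
    (Fintype.card Mid * finrankAlong k (φ j)) • r j = 0 := by
  have h := pic0Pull_pushSum φ hφ hfin hN hFI hR j σ hnorm hcard r
  rw [hpush, map_zero] at h
  rw [h]
  have : ∀ i ∈ (Finset.univ : Finset Mid), ∑ t, pic0Map (σ i t) (r i) =
      finrankAlong k (φ j) • r j := fun i _ => by
    rw [Finset.sum_congr rfl fun t _ => hfixed i t, Finset.sum_const, Finset.card_univ, hcard i]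
  rw [Finset.sum_congr rfl this, Finset.sum_const, Finset.card_univ, mul_smul]

end Multi

end Fermat.Agent.BR3.GalTrace

end
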