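import Mathlib
import Fermat.Agent.BR3.GalTrace

/-!
# Program C (S36), node (C-GAL), adapters: Mathlib's `IsGaloisGroup` as input

`F'/F` an extension of function fields over `K` given by instances (`[Algebra F F']`,
`[IsScalarTower K F F']`), `φ := IsScalarTower.toAlgHom K F F'`.

* `Γ` a finite group with `[MulSemiringAction Γ F'] [SMulCommClass Γ K F'] [IsGaloisGroup Γ F F']`:
  `pic0Pull_pic0Push_eq_sum_isGaloisGroup`, `sum_smul_eq_zero_of_isGaloisGroup_of_genus_zero`,
  `card_smul_eq_zero_of_isGaloisGroup`;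
* `a : F' ≃ₐ[K] F'` of finite order with `[IsGaloisGroup (Subgroup.zpowers a) F F']`:
  `sum_range_smul_eq_zero_of_isGaloisGroup_zpowers` (the shape of A11),
  `pic0Pull_pic0Push_eq_sum_range_of_isGaloisGroup_zpowers`.
-/

set_option autoImplicit false
set_option linter.style.haveILetI false
set_option linter.unusedSectionVars false
set_option linter.unusedVariables false

noncomputable section

namespace Fermat.Agent.BR3.GalTrace

open AlgebraicCurve Fermat.Agent.Red Fermat.Agent.Jac Fermat.Agent.BR.PicFunct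
  Fermat.Agent.BR3.PlaceIso

section General

variable {K F F' : Type*} [Field K] [Field F] [Field F'] [Algebra K F] [Algebra K F']
  [Algebra F F'] [IsScalarTower K F F'] [HasPrincipalDivisors K F] [HasPrincipalDivisors K F']
  {Γ : Type*} [Group Γ] [Fintype Γ] [MulSemiringAction Γ F'] [SMulCommClass Γ K F']

theorem toAlgAut_injective_of_isGaloisGroup (hG : IsGaloisGroup Γ F F') :
    Function.Injective (MulSemiringAction.toAlgAut Γ K F') := by
  intro γ γ' h
  haveI : FaithfulSMul Γ F' := hG.faithful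
  exact eq_of_smul_eq_smul fun z : F' => AlgEquiv.congr_fun h z

theorem toAlgAut_fix_of_isGaloisGroup (hG : IsGaloisGroup Γ F F') (γ : Γ) (f : F) :
    MulSemiringAction.toAlgAut Γ K F' γ (IsScalarTower.toAlgHom K F F' f) =
      IsScalarTower.toAlgHom K F F' f := by
  haveI : SMulCommClass Γ F F' := hG.commutes
  exact smul_algebraMap γ f

theorem toAlgAut_inv_of_isGaloisGroup (hG : IsGaloisGroup Γ F F') (z : F')
    (hz : ∀ γ : Γ, MulSemiringAction.toAlgAut Γ K F' γ z = z) :
    ∃ f : F, IsScalarTower.toAlgHom K F F' f = z :=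
  hG.isInvariant.isInvariant z hz

variable [hG : IsGaloisGroup Γ F F']

/-- **Norm–conorm with Mathlib's `IsGaloisGroup` as input.** -/
theorem pic0Pull_pic0Push_eq_sum_isGaloisGroup
    (hφ : (IsScalarTower.toAlgHom K F F').toRingHom.IsIntegral)
    (hFI : FundamentalIdentityAlong K (IsScalarTower.toAlgHom K F F') hφ)
    (hfin : FiniteAlong K (IsScalarTower.toAlgHom K F F'))
    (hN : NormFormulaAlong K (IsScalarTower.toAlgHom K F F') hfin)
    (hF' : RiemannPkg K F') (x : Pic0 K F') :
    pic0Pull (IsScalarTower.toAlgHom K F F') hφ hFI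
        (pic0Push (IsScalarTower.toAlgHom K F F') hφ hfin hN x) =
      ∑ γ : Γ, SemilinearAut.ofAlgAut (MulSemiringAction.toAlgAut Γ K F' γ) • x :=
  pic0Pull_pic0Push_eq_sum_group (IsScalarTower.toAlgHom K F F')
    (MulSemiringAction.toAlgAut Γ K F') (toAlgAut_injective_of_isGaloisGroup hG)
    (toAlgAut_fix_of_isGaloisGroup hG) (toAlgAut_inv_of_isGaloisGroup hG)
    hφ hFI hfin hN hF' x

variable (F Γ) in
/-- Quotient of genus zero, `IsGaloisGroup` input. -/
theorem sum_smul_eq_zero_of_isGaloisGroup_of_genus_zero (hF' : RiemannPkg K F')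
    (hF : RiemannPkg K F) (hg : genusFF K F = 0) (x : Pic0 K F') :
    ∑ γ : Γ, SemilinearAut.ofAlgAut (MulSemiringAction.toAlgAut Γ K F' γ) • x = 0 :=
  sum_smul_eq_zero_of_genus_zero (IsScalarTower.toAlgHom K F F')
    (MulSemiringAction.toAlgAut Γ K F') (toAlgAut_injective_of_isGaloisGroup hG)
    (toAlgAut_fix_of_isGaloisGroup hG) (toAlgAut_inv_of_isGaloisGroup hG)
    hF' hF hg x

/-- Fixed and norm-zero implies `|Γ|`-torsion, `IsGaloisGroup` input. -/
theorem card_smul_eq_zero_of_isGaloisGroup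
    (hφ : (IsScalarTower.toAlgHom K F F').toRingHom.IsIntegral)
    (hfin : FiniteAlong K (IsScalarTower.toAlgHom K F F'))
    (hN : NormFormulaAlong K (IsScalarTower.toAlgHom K F F') hfin)
    (hF' : RiemannPkg K F') (x : Pic0 K F')
    (hx : ∀ γ : Γ, SemilinearAut.ofAlgAut (MulSemiringAction.toAlgAut Γ K F' γ) • x = x)
    (hpush : pic0Push (IsScalarTower.toAlgHom K F F') hφ hfin hN x = 0) :
    Fintype.card Γ • x = 0 :=
  card_smul_eq_zero_of_fixed_of_push_eq_zero (IsScalarTower.toAlgHom K F F')
    (MulSemiringAction.toAlgAut Γ K F') (toAlgAut_injective_of_isGaloisGroup hG)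
    (toAlgAut_fix_of_isGaloisGroup hG) (toAlgAut_inv_of_isGaloisGroup hG)
    hφ hfin hN hF' x hx hpush

end General

section Zpowers

variable {K F F' : Type*} [Field K] [Field F] [Field F'] [Algebra K F] [Algebra K F']
  [Algebra F F'] [IsScalarTower K F F'] [HasPrincipalDivisors K F] [HasPrincipalDivisors K F']
  (a : F' ≃ₐ[K] F') [IsGaloisGroup (Subgroup.zpowers a) F F']

variable (F) in
theorem zpowers_hfix (f : F) :
    a (IsScalarTower.toAlgHom K F F' f) = IsScalarTower.toAlgHom K F F' f := by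
  haveI : SMulCommClass (Subgroup.zpowers a) F F' := IsGaloisGroup.commutes
  exact smul_algebraMap (⟨a, Subgroup.mem_zpowers a⟩ : Subgroup.zpowers a) f

variable (F) in
theorem zpowers_hinv (z : F') (hz : a z = z) : ∃ f : F, IsScalarTower.toAlgHom K F F' f = z := by
  refine (IsGaloisGroup.isInvariant (G := Subgroup.zpowers a) (A := F) (B := F')).isInvariant z
    fun γ => ?_
  let S : Subgroup (F' ≃ₐ[K] F') :=
    { carrier := {g | g z = z}
      one_mem' := rfl
      mul_mem' := fun {g h} hg hh => by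
        show g (h z) = z
        rw [hh, hg]
      inv_mem' := fun {g} hg => by
        show g.symm z = z
        rw [AlgEquiv.symm_apply_eq, hg] }
  have hle : Subgroup.zpowers a ≤ S := (Subgroup.zpowers_le).mpr hz
  exact hle γ.2

variable (F) in
/-- **Cyclic quotient of genus zero, `IsGaloisGroup (zpowers a)` input** (the shape of A11). -/
theorem sum_range_smul_eq_zero_of_isGaloisGroup_zpowers (ha : IsOfFinOrder a)
    (hF' : RiemannPkg K F') (hF : RiemannPkg K F) (hg : genusFF K F = 0) (x : Pic0 K F') :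
    ∑ j ∈ Finset.range (orderOf a), SemilinearAut.ofAlgAut (a ^ j) • x = 0 :=
  sum_range_smul_eq_zero_of_genus_zero (IsScalarTower.toAlgHom K F F') a ha (zpowers_hfix F a)
    (zpowers_hinv F a) hF' hF hg x

/-- cyclic norm–conorm, `IsGaloisGroup (zpowers a)` input -/
theorem pic0Pull_pic0Push_eq_sum_range_of_isGaloisGroup_zpowers (ha : IsOfFinOrder a)
    (hφ : (IsScalarTower.toAlgHom K F F').toRingHom.IsIntegral)
    (hFI : FundamentalIdentityAlong K (IsScalarTower.toAlgHom K F F') hφ)
    (hfin : FiniteAlong K (IsScalarTower.toAlgHom K F F'))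
    (hN : NormFormulaAlong K (IsScalarTower.toAlgHom K F F') hfin)
    (hF' : RiemannPkg K F') (x : Pic0 K F') :
    pic0Pull (IsScalarTower.toAlgHom K F F') hφ hFI
        (pic0Push (IsScalarTower.toAlgHom K F F') hφ hfin hN x) =
      ∑ j ∈ Finset.range (orderOf a), SemilinearAut.ofAlgAut (a ^ j) • x :=
  pic0Pull_pic0Push_eq_sum_range (IsScalarTower.toAlgHom K F F') a ha (zpowers_hfix F a)
    (zpowers_hinv F a) hφ hFI hfin hN hF' x

end Zpowers

end Fermat.Agent.BR3.GalTrace

end
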