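import Mathlib
import Fermat.Agent.FF.GenusStd
import Fermat.Agent.FF.RiemannPkg

/-!
# Program C, node (C-HYP), coordinate part: the genus of a hyperelliptic function field

Coordinate context of `FF/GenusStd.lean`: `F` a separable extension of degree two of `RatFunc K`,
`K` algebraically closed with `2 ≠ 0`, `w ∈ F` with `w ^ 2 = f`, `f ∈ K[X]` squarefree of degree
`2 g + 2`.  Then

* `(1, w)` is a `RatFunc K`-basis of `F` (`hyperBasis`);
* the integral closure of `K[X]` in `F` is `K[X] ⊕ K[X] w` (`latF_hyperBasis`);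
* the integral closure of `Rinf K` in `F` is `Rinf ⊕ X ^ (-(g+1)) Rinf w` (`latInf_hyperBasis`);
* `genusFF K F = g` (`genusFF_coord_of_sq_eq`), by the standard-basis formula
  `genusFF = ∑ i, (-d i - 1).toNat`.
-/

set_option autoImplicit false
set_option linter.unusedSectionVars false

open AlgebraicCurve Fermat.Agent.X0 Fermat.Agent.X0.RR Polynomial Module

namespace Fermat.Agent.BR3.HyperGenus

open Fermat.Agent.FF

section Basis

variable {K F : Type*} [Field K] [Field F] [Algebra K[X] F] [Algebra (RatFunc K) F]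
  [IsScalarTower K[X] (RatFunc K) F]

/-- A rational function whose square is a squarefree polynomial of positive degree does not
exist. -/
theorem not_sq_eq_of_squarefree {f : K[X]} (hf : Squarefree f) (hdeg : 0 < f.natDegree)
    (r : RatFunc K) : r ^ 2 ≠ algebraMap K[X] (RatFunc K) f := by
  intro h
  have hint : IsIntegral K[X] r := by
    refine IsIntegral.of_pow (n := 2) (by norm_num) ?_
    rw [h]
    exact isIntegral_algebraMap
  obtain ⟨p, rfl⟩ := IsIntegrallyClosed.isIntegral_iff.mp hint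
  rw [← map_pow] at h
  have h' : p ^ 2 = f := IsFractionRing.injective K[X] (RatFunc K) h
  have hu : IsUnit p := hf p ⟨1, by rw [mul_one, ← h', sq]⟩
  have : f.natDegree = 0 := by
    rw [← h']
    exact Polynomial.natDegree_eq_zero_of_isUnit (hu.pow 2)
  omega

variable {f : K[X]} {w : F}

/-- `w` with `w ^ 2 = f` squarefree of positive degree is not in `RatFunc K`. -/
theorem notMem_range_of_sq_eq (hf : Squarefree f) (hdeg : 0 < f.natDegree)
    (hw : w ^ 2 = algebraMap K[X] F f) (r : RatFunc K) : algebraMap (RatFunc K) F r ≠ w := by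
  rintro rfl
  rw [← map_pow, IsScalarTower.algebraMap_apply K[X] (RatFunc K) F] at hw
  exact not_sq_eq_of_squarefree hf hdeg r ((algebraMap (RatFunc K) F).injective hw)

theorem linearIndependent_one_w (hf : Squarefree f) (hdeg : 0 < f.natDegree)
    (hw : w ^ 2 = algebraMap K[X] F f) : LinearIndependent (RatFunc K) ![(1 : F), w] := by
  rw [LinearIndependent.pair_iff]
  intro s t hst
  have ht : t = 0 := by
    by_contra ht
    refine notMem_range_of_sq_eq hf hdeg hw (-s / t) ?_
    have h1 : t • w = -(s • (1 : F)) := by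
      rw [eq_neg_iff_add_eq_zero, add_comm]; exact hst
    rw [Algebra.smul_def, Algebra.smul_def, mul_one] at h1
    rw [map_div₀, map_neg, div_eq_iff ((_root_.map_ne_zero _).mpr ht), mul_comm]
    exact h1.symm
  subst ht
  rw [zero_smul, add_zero, Algebra.smul_def, mul_one] at hst
  exact ⟨(map_eq_zero _).mp hst, rfl⟩

/-- The basis `(1, w)` of `F` over `RatFunc K`. -/
noncomputable def hyperBasis (hf : Squarefree f) (hdeg : 0 < f.natDegree)
    (hw : w ^ 2 = algebraMap K[X] F f) (h2 : finrank (RatFunc K) F = 2) :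
    Basis (Fin 2) (RatFunc K) F :=
  basisOfLinearIndependentOfCardEqFinrank (linearIndependent_one_w hf hdeg hw)
    (by rw [Fintype.card_fin, h2])

variable (hf : Squarefree f) (hdeg : 0 < f.natDegree) (hw : w ^ 2 = algebraMap K[X] F f)
  (h2 : finrank (RatFunc K) F = 2)

theorem hyperBasis_zero : hyperBasis hf hdeg hw h2 0 = 1 := by
  simp [hyperBasis]

theorem hyperBasis_one : hyperBasis hf hdeg hw h2 1 = w := by
  simp [hyperBasis]

theorem repr_hyperBasis (a c : RatFunc K) :
    (hyperBasis hf hdeg hw h2).repr (a • (1 : F) + c • w) 0 = a ∧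
    (hyperBasis hf hdeg hw h2).repr (a • (1 : F) + c • w) 1 = c := by
  have h : a • (1 : F) + c • w =
      a • hyperBasis hf hdeg hw h2 0 + c • hyperBasis hf hdeg hw h2 1 := by
    rw [hyperBasis_zero, hyperBasis_one]
  rw [h]
  simp

theorem eq_repr_hyperBasis (z : F) :
    z = (hyperBasis hf hdeg hw h2).repr z 0 • (1 : F) + (hyperBasis hf hdeg hw h2).repr z 1 • w := by
  conv_lhs => rw [← (hyperBasis hf hdeg hw h2).sum_repr z]
  rw [Fin.sum_univ_two, hyperBasis_zero, hyperBasis_one]

end Basis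

section Squarefree

variable {K : Type*} [Field K]

/-- If `c ^ 2 * f` is a polynomial, `f` squarefree, then the rational function `c` is a
polynomial. -/
theorem exists_poly_of_sq_mul {f : K[X]} (hf : Squarefree f) (c : RatFunc K) (h : K[X])
    (hc : algebraMap K[X] (RatFunc K) h = c ^ 2 * algebraMap K[X] (RatFunc K) f) :
    ∃ n : K[X], algebraMap K[X] (RatFunc K) n = c := by
  have hd0 : algebraMap K[X] (RatFunc K) c.denom ≠ 0 :=
    RatFunc.algebraMap_ne_zero (RatFunc.denom_ne_zero c)
  have hcd : c * algebraMap K[X] (RatFunc K) c.denom = algebraMap K[X] (RatFunc K) c.num := by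
    rw [← eq_div_iff hd0]
    exact (RatFunc.num_div_denom c).symm
  have h1 : h * c.denom ^ 2 = c.num ^ 2 * f := by
    apply IsFractionRing.injective K[X] (RatFunc K)
    rw [map_mul, map_mul, map_pow, map_pow, hc, ← hcd]
    ring
  have hcop : IsCoprime (c.denom ^ 2) (c.num ^ 2) := (RatFunc.isCoprime_num_denom c).symm.pow
  have hdvd : c.denom ^ 2 ∣ f := by
    refine hcop.dvd_of_dvd_mul_left ?_
    rw [← h1]
    exact dvd_mul_left _ _
  have hu : IsUnit c.denom := hf c.denom (by rw [← sq]; exact hdvd)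
  have hone : c.denom = 1 := (RatFunc.monic_denom c).eq_one_of_isUnit hu
  refine ⟨c.num, ?_⟩
  rw [← hcd, hone, map_one, mul_one]

end Squarefree

section Trace

variable {K F : Type*} [Field K] [Field F] [Algebra K[X] F] [Algebra (RatFunc K) F]
  [IsScalarTower K[X] (RatFunc K) F] {f : K[X]} {w : F}
  (hf : Squarefree f) (hdeg : 0 < f.natDegree) (hw : w ^ 2 = algebraMap K[X] F f)
  (h2 : finrank (RatFunc K) F = 2)

include hw in
theorem smul_add_smul_mul_w (a c : RatFunc K) :
    (a • (1 : F) + c • w) * w = (c * algebraMap K[X] (RatFunc K) f) • (1 : F) + a • w := by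
  rw [add_mul, smul_mul_assoc, one_mul, smul_mul_assoc, ← sq, hw,
    IsScalarTower.algebraMap_apply K[X] (RatFunc K) F, mul_smul, ← Algebra.algebraMap_eq_smul_one,
    add_comm]

include hf hdeg hw h2 in
/-- `Tr (a + c w) = 2 a`. -/
theorem trace_smul_add_smul (a c : RatFunc K) :
    Algebra.trace (RatFunc K) F (a • (1 : F) + c • w) = 2 * a := by
  classical
  rw [Algebra.trace_eq_matrix_trace (hyperBasis hf hdeg hw h2), Matrix.trace, Fin.sum_univ_two]
  simp only [Matrix.diag_apply, Algebra.leftMulMatrix_eq_repr_mul]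
  rw [hyperBasis_zero, hyperBasis_one, mul_one, smul_add_smul_mul_w hw,
    (repr_hyperBasis hf hdeg hw h2 a c).1, (repr_hyperBasis hf hdeg hw h2 _ a).2]
  ring

include hw in
theorem isIntegral_w : IsIntegral K[X] w := by
  refine IsIntegral.of_pow (n := 2) (by norm_num) ?_
  rw [hw]
  exact isIntegral_algebraMap

theorem two_eq_algebraMap : (2 : RatFunc K) = algebraMap K[X] (RatFunc K) (C 2) := by
  rw [← map_ofNat (algebraMap K[X] (RatFunc K)) 2]
  congr 1

include hf hdeg hw h2 in
/-- Finite part, `⟹`. -/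
theorem repr_mem_polySub_of_isIntegral (h2K : (2 : K) ≠ 0) {z : F} (hz : IsIntegral K[X] z) :
    (hyperBasis hf hdeg hw h2).repr z 0 ∈ polySub K ∧
      (hyperBasis hf hdeg hw h2).repr z 1 ∈ polySub K := by
  have : FiniteDimensional (RatFunc K) F := Module.finite_of_finrank_pos (by rw [h2]; norm_num)
  obtain ⟨a, c, rfl⟩ : ∃ a c : RatFunc K, z = a • (1 : F) + c • w :=
    ⟨_, _, eq_repr_hyperBasis hf hdeg hw h2 z⟩
  rw [(repr_hyperBasis hf hdeg hw h2 a c).1, (repr_hyperBasis hf hdeg hw h2 a c).2]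
  -- `a`
  have hT : IsIntegral K[X] (Algebra.trace (RatFunc K) F (a • (1 : F) + c • w)) :=
    Algebra.isIntegral_trace hz
  rw [trace_smul_add_smul hf hdeg hw h2] at hT
  obtain ⟨p, hp⟩ := IsIntegrallyClosed.isIntegral_iff.mp hT
  have ha : algebraMap K[X] (RatFunc K) (C (2⁻¹ : K) * p) = a := by
    rw [map_mul, hp, two_eq_algebraMap, ← mul_assoc, ← map_mul, ← C_mul, inv_mul_cancel₀ h2K,
      C_1, map_one, one_mul]
  refine ⟨⟨_, ha⟩, ?_⟩
  -- `c`
  have ha1 : IsIntegral K[X] (a • (1 : F)) := by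
    rw [← ha, Algebra.smul_def, mul_one, ← IsScalarTower.algebraMap_apply K[X] (RatFunc K) F]
    exact isIntegral_algebraMap
  have hcw : IsIntegral K[X] (c • w) := by
    have := hz.sub ha1
    rwa [add_sub_cancel_left] at this
  have hsq : IsIntegral K[X]
      (algebraMap (RatFunc K) F (c ^ 2 * algebraMap K[X] (RatFunc K) f)) := by
    have := hcw.pow 2
    rwa [_root_.smul_pow, hw, Algebra.smul_def, IsScalarTower.algebraMap_apply K[X] (RatFunc K) F,
      ← map_mul] at this
  have hsq' : IsIntegral K[X] (c ^ 2 * algebraMap K[X] (RatFunc K) f) :=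
    (isIntegral_algebraMap_iff (algebraMap (RatFunc K) F).injective).mp hsq
  obtain ⟨h, hh⟩ := IsIntegrallyClosed.isIntegral_iff.mp hsq'
  exact exists_poly_of_sq_mul hf c h hh

include hw in
/-- Finite part, `⟸`. -/
theorem isIntegral_of_mem_polySub {a c : RatFunc K} (ha : a ∈ polySub K) (hc : c ∈ polySub K) :
    IsIntegral K[X] (a • (1 : F) + c • w) := by
  obtain ⟨p, rfl⟩ := ha
  obtain ⟨r, rfl⟩ := hc
  refine IsIntegral.add ?_ ?_
  · rw [Algebra.smul_def, mul_one]
    change IsIntegral K[X] (algebraMap (RatFunc K) F (algebraMap K[X] (RatFunc K) p))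
    rw [← IsScalarTower.algebraMap_apply K[X] (RatFunc K) F]
    exact isIntegral_algebraMap
  · rw [Algebra.smul_def]
    refine IsIntegral.mul ?_ (isIntegral_w hw)
    change IsIntegral K[X] (algebraMap (RatFunc K) F (algebraMap K[X] (RatFunc K) r))
    rw [← IsScalarTower.algebraMap_apply K[X] (RatFunc K) F]
    exact isIntegral_algebraMap

/-! ### The part at infinity -/

theorem intDegLE_of_two_mul (h2K : (2 : K) ≠ 0) {a : RatFunc K} (h : IntDegLE (2 * a) 0) :
    IntDegLE a 0 := by
  by_cases ha : a = 0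
  · exact Or.inl ha
  have h2R : (2 : RatFunc K) = RatFunc.C 2 := by
    rw [← map_ofNat (RatFunc.C (K := K)) 2]
  have h2ne : (2 : RatFunc K) ≠ 0 := by
    rw [h2R]
    exact (map_ne_zero_iff _ (RatFunc.C (K := K)).injective).mpr h2K
  rcases h with h | h
  · exact absurd h (mul_ne_zero h2ne ha)
  · right
    rw [RatFunc.intDegree_mul h2ne ha, h2R, RatFunc.intDegree_C, zero_add] at h
    exact h

theorem intDegLE_of_sq_mul (g : ℕ) (hg : f.natDegree = 2 * g + 2) {c : RatFunc K}
    (h : IntDegLE (c ^ 2 * algebraMap K[X] (RatFunc K) f) 0) : IntDegLE c (-((g : ℤ) + 1)) := by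
  by_cases hc : c = 0
  · exact Or.inl hc
  have hf0 : f ≠ 0 := by
    rintro rfl
    simp at hg
  have hf0' : algebraMap K[X] (RatFunc K) f ≠ 0 := RatFunc.algebraMap_ne_zero hf0
  rcases h with h | h
  · exact absurd h (mul_ne_zero (pow_ne_zero 2 hc) hf0')
  · right
    rw [RatFunc.intDegree_mul (pow_ne_zero 2 hc) hf0', sq, RatFunc.intDegree_mul hc hc,
      RatFunc.intDegree_polynomial, hg] at h
    push_cast at h
    omega

theorem intDegLE_sq_mul (g : ℕ) (hg : f.natDegree = 2 * g + 2) {c : RatFunc K}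
    (h : IntDegLE c (-((g : ℤ) + 1))) : IntDegLE (c ^ 2 * algebraMap K[X] (RatFunc K) f) 0 := by
  by_cases hc : c = 0
  · left
    rw [hc]
    simp
  have hf0 : f ≠ 0 := by
    rintro rfl
    simp at hg
  have hf0' : algebraMap K[X] (RatFunc K) f ≠ 0 := RatFunc.algebraMap_ne_zero hf0
  rcases h with h | h
  · exact absurd h hc
  · right
    rw [RatFunc.intDegree_mul (pow_ne_zero 2 hc) hf0', sq, RatFunc.intDegree_mul hc hc,
      RatFunc.intDegree_polynomial, hg]
    push_cast
    omega

theorem isIntegral_Rinf_algebraMap {a : RatFunc K} (ha : a ∈ Rinf K) :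
    IsIntegral ↥(Rinf K) (algebraMap (RatFunc K) F a) := by
  have : algebraMap (RatFunc K) F a = algebraMap ↥(Rinf K) F ⟨a, ha⟩ := by
    rw [IsScalarTower.algebraMap_apply ↥(Rinf K) (RatFunc K) F]
    rfl
  rw [this]
  exact isIntegral_algebraMap

theorem mem_Rinf_of_isIntegral {a : RatFunc K} (ha : IsIntegral ↥(Rinf K) a) : a ∈ Rinf K := by
  obtain ⟨y, hy⟩ := IsIntegrallyClosed.isIntegral_iff.mp ha
  rw [← hy]
  exact y.2

include hf hdeg hw h2 in
/-- Part at infinity, `⟹`. -/
theorem repr_intDegLE_of_isIntegral (h2K : (2 : K) ≠ 0) (g : ℕ) (hg : f.natDegree = 2 * g + 2)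
    {z : F} (hz : IsIntegral ↥(Rinf K) z) :
    IntDegLE ((hyperBasis hf hdeg hw h2).repr z 0) 0 ∧
      IntDegLE ((hyperBasis hf hdeg hw h2).repr z 1) (-((g : ℤ) + 1)) := by
  have : FiniteDimensional (RatFunc K) F := Module.finite_of_finrank_pos (by rw [h2]; norm_num)
  obtain ⟨a, c, rfl⟩ : ∃ a c : RatFunc K, z = a • (1 : F) + c • w :=
    ⟨_, _, eq_repr_hyperBasis hf hdeg hw h2 z⟩
  rw [(repr_hyperBasis hf hdeg hw h2 a c).1, (repr_hyperBasis hf hdeg hw h2 a c).2]
  have hT : IsIntegral ↥(Rinf K) (Algebra.trace (RatFunc K) F (a • (1 : F) + c • w)) :=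
    Algebra.isIntegral_trace hz
  rw [trace_smul_add_smul hf hdeg hw h2] at hT
  have ha : IntDegLE a 0 :=
    intDegLE_of_two_mul h2K ((mem_Rinf_iff _).mp (mem_Rinf_of_isIntegral hT))
  refine ⟨ha, ?_⟩
  have ha1 : IsIntegral ↥(Rinf K) (a • (1 : F)) := by
    rw [Algebra.smul_def, mul_one]
    exact isIntegral_Rinf_algebraMap ((mem_Rinf_iff _).mpr ha)
  have hcw : IsIntegral ↥(Rinf K) (c • w) := by
    have := hz.sub ha1
    rwa [add_sub_cancel_left] at this
  have hsq : IsIntegral ↥(Rinf K)
      (algebraMap (RatFunc K) F (c ^ 2 * algebraMap K[X] (RatFunc K) f)) := by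
    have := hcw.pow 2
    rwa [_root_.smul_pow, hw, Algebra.smul_def, IsScalarTower.algebraMap_apply K[X] (RatFunc K) F,
      ← map_mul] at this
  have hsq' : IsIntegral ↥(Rinf K) (c ^ 2 * algebraMap K[X] (RatFunc K) f) :=
    (isIntegral_algebraMap_iff (algebraMap (RatFunc K) F).injective).mp hsq
  exact intDegLE_of_sq_mul g hg ((mem_Rinf_iff _).mp (mem_Rinf_of_isIntegral hsq'))

include hw in
/-- Part at infinity, `⟸`. -/
theorem isIntegral_Rinf_of_intDegLE (g : ℕ) (hg : f.natDegree = 2 * g + 2) {a c : RatFunc K}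
    (ha : IntDegLE a 0) (hc : IntDegLE c (-((g : ℤ) + 1))) :
    IsIntegral ↥(Rinf K) (a • (1 : F) + c • w) := by
  refine IsIntegral.add ?_ ?_
  · rw [Algebra.smul_def, mul_one]
    exact isIntegral_Rinf_algebraMap ((mem_Rinf_iff _).mpr ha)
  · refine IsIntegral.of_pow (n := 2) (by norm_num) ?_
    rw [_root_.smul_pow, hw, Algebra.smul_def, IsScalarTower.algebraMap_apply K[X] (RatFunc K) F,
      ← map_mul]
    exact isIntegral_Rinf_algebraMap ((mem_Rinf_iff _).mpr (intDegLE_sq_mul g hg hc))

end Trace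

section Genus

variable {K F : Type*} [Field K] [Field F] [Algebra K F]
  [Algebra K[X] F] [Algebra (RatFunc K) F] [IsScalarTower K[X] (RatFunc K) F]
  [IsScalarTower K K[X] F] [IsScalarTower K (RatFunc K) F]
  {f : K[X]} {w : F}
  (hf : Squarefree f) (hdeg : 0 < f.natDegree) (hw : w ^ 2 = algebraMap K[X] F f)
  (h2 : finrank (RatFunc K) F = 2)

/-- The integral closure of `K[X]` is `K[X] ⊕ K[X] w`. -/
theorem latF_hyperBasis (h2K : (2 : K) ≠ 0) : latF (hyperBasis hf hdeg hw h2) = BfK K F := by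
  ext z
  rw [mem_latF, mem_BfK]
  constructor
  · intro h
    have := isIntegral_of_mem_polySub hw (h 0) (h 1)
    rw [← eq_repr_hyperBasis hf hdeg hw h2 z] at this
    exact this
  · intro hz i
    have := repr_mem_polySub_of_isIntegral hf hdeg hw h2 h2K hz
    fin_cases i
    · exact this.1
    · exact this.2

/-- The integral closure of `Rinf K` is `Rinf ⊕ X ^ (-(g+1)) Rinf w`. -/
theorem latInf_hyperBasis (h2K : (2 : K) ≠ 0) (g : ℕ) (hg : f.natDegree = 2 * g + 2) :
    latInf (hyperBasis hf hdeg hw h2) ![0, -((g : ℤ) + 1)] = BinfK K F := by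
  ext z
  rw [mem_latInf, mem_BinfK]
  constructor
  · intro h
    have h0 := h 0
    have h1 := h 1
    simp only [Matrix.cons_val_zero, Matrix.cons_val_one] at h0 h1
    have := isIntegral_Rinf_of_intDegLE hw g hg h0 h1
    rw [← eq_repr_hyperBasis hf hdeg hw h2 z] at this
    exact this
  · intro hz i
    have := repr_intDegLE_of_isIntegral hf hdeg hw h2 h2K g hg hz
    fin_cases i
    · exact this.1
    · exact this.2

variable [FunctionField K F] [Algebra.IsSeparable (RatFunc K) F]

/-- **The genus of a hyperelliptic function field** (coordinate context): `w ^ 2 = f`, `f`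
squarefree of degree `2 g + 2`, `2 ≠ 0`. -/
theorem genusFF_coord_of_sq_eq [IsAlgClosed K] (h2K : (2 : K) ≠ 0) (f : K[X]) (hf : Squarefree f)
    (g : ℕ) (hg : f.natDegree = 2 * g + 2) (w : F) (hw : w ^ 2 = algebraMap K[X] F f)
    (h2 : finrank (RatFunc K) F = 2) : genusFF K F = g := by
  have hdeg : 0 < f.natDegree := by omega
  rw [Adele.genusFF_eq_finrank_quotient K F, ← latF_hyperBasis hf hdeg hw h2 h2K,
    ← latInf_hyperBasis hf hdeg hw h2 h2K g hg, finrank_quotient_latF_sup_latInf,
    Fin.sum_univ_two]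
  simp only [Matrix.cons_val_zero, Matrix.cons_val_one]
  omega

end Genus

end Fermat.Agent.BR3.HyperGenus
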