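import Mathlib
import Fermat.Agent.BR3.HyperGenusCoord
import Fermat.Agent.BR.POneGenus

/-!
# Program C, node (C-HYP): the genus of a hyperelliptic function field

`k` algebraically closed with `2 ≠ 0`, `L / k` a field generated by `t` (transcendental) and `w`
with `w ^ 2 = f(t)`, `f ∈ k[X]` squarefree.

* `isSepVarS_of_sq_eq` : `t` is a separating variable of degree two (`0 < deg f`);
* `riemannPkg_of_sq_eq` : the Riemann package of `L`;
* `genusFF_of_sq_eq` : `genusFF k L = g` when `deg f = 2 g + 2`;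
* `genusFF_vertical`, `genusFF_vertical'` : the curves `w ^ 2 = t ^ (q + 1) + 4` and
  `w ^ 2 = 1 + 4 t ^ (q + 1)` in characteristic `q` odd have genus `(q - 1) / 2` (the vertical
  components `Z_e` of the stable model of `X₀(q² M')`).
-/

set_option autoImplicit false
set_option linter.unusedSectionVars false
set_option linter.style.haveILetI false

open AlgebraicCurve Fermat.Agent.X0 Fermat.Agent.X0.RR Fermat.Agent.X0.RR7 Polynomial FunctionField
  Module IntermediateField

namespace Fermat.Agent.BR3.HyperGenus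

open Fermat.Agent.FF

variable {k L : Type*} [Field k] [Field L] [Algebra k L]

section SepVar

variable {f : k[X]} {t w : L}

/-- `w ∉ k(t)`. -/
theorem notMem_adjoin_of_sq_eq (hf : Squarefree f) (hdeg : 0 < f.natDegree)
    (ht : Transcendental k t) (hw : w ^ 2 = aeval t f) : w ∉ k⟮t⟯ := by
  intro hmem
  letI := algPoly k t
  letI := algRat ht
  haveI := isScalarTower_poly_rat ht
  set e := RatFunc.algEquivOfTranscendental t ht with he
  refine notMem_range_of_sq_eq (K := k) (F := L) hf hdeg (w := w) hw (e.symm ⟨w, hmem⟩) ?_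
  show k⟮t⟯.val (e (e.symm ⟨w, hmem⟩)) = w
  rw [AlgEquiv.apply_symm_apply]
  rfl

theorem aeval_mem_adjoin_simple (t : L) (f : k[X]) : aeval t f ∈ k⟮t⟯ :=
  IntermediateField.algebra_adjoin_le_adjoin k {t} (Polynomial.aeval_mem_adjoin_singleton k t)

/-- The quadratic polynomial `X ^ 2 - f(t)` over `k(t)`. -/
noncomputable def quadPoly (t : L) (f : k[X]) : (k⟮t⟯)[X] :=
  X ^ 2 - C (⟨aeval t f, aeval_mem_adjoin_simple t f⟩ : k⟮t⟯)

theorem quadPoly_monic (t : L) (f : k[X]) : (quadPoly t f).Monic :=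
  monic_X_pow_sub_C _ (by norm_num)

theorem quadPoly_natDegree (t : L) (f : k[X]) : (quadPoly t f).natDegree = 2 :=
  natDegree_X_pow_sub_C

theorem aeval_quadPoly (hw : w ^ 2 = aeval t f) : aeval w (quadPoly t f) = 0 := by
  rw [quadPoly, map_sub, map_pow, aeval_X, aeval_C, hw]
  exact sub_self _

theorem isIntegral_adjoin_w (hw : w ^ 2 = aeval t f) : IsIntegral k⟮t⟯ w :=
  ⟨quadPoly t f, quadPoly_monic t f, aeval_quadPoly hw⟩

theorem adjoin_adjoin_eq_top (htop : IntermediateField.adjoin k {t, w} = ⊤) :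
    (k⟮t⟯)⟮w⟯ = ⊤ := by
  rw [← IntermediateField.restrictScalars_eq_top_iff (K := k), IntermediateField.adjoin_adjoin_left,
    ← htop]
  congr 1

theorem natDegree_minpoly_w (hf : Squarefree f) (hdeg : 0 < f.natDegree)
    (ht : Transcendental k t) (hw : w ^ 2 = aeval t f) : (minpoly k⟮t⟯ w).natDegree = 2 := by
  have hint := isIntegral_adjoin_w hw
  have h1 : 2 ≤ (minpoly k⟮t⟯ w).natDegree := by
    rw [minpoly.two_le_natDegree_iff hint]
    rintro ⟨x, hx⟩
    exact notMem_adjoin_of_sq_eq hf hdeg ht hw (hx ▸ x.2)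
  have h2 : (minpoly k⟮t⟯ w).natDegree ≤ 2 := by
    rw [← quadPoly_natDegree t f]
    exact natDegree_le_natDegree (minpoly.min _ _ (quadPoly_monic t f) (aeval_quadPoly hw))
  omega

theorem finiteDimensional_of_sq_eq (hw : w ^ 2 = aeval t f)
    (htop : IntermediateField.adjoin k {t, w} = ⊤) : FiniteDimensional k⟮t⟯ L := by
  have h1 : FiniteDimensional k⟮t⟯ (k⟮t⟯)⟮w⟯ :=
    IntermediateField.adjoin.finiteDimensional (isIntegral_adjoin_w hw)
  rw [adjoin_adjoin_eq_top htop] at h1
  exact Module.Finite.equiv (IntermediateField.topEquiv (F := k⟮t⟯) (E := L)).toLinearEquiv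

theorem finrank_of_sq_eq (hf : Squarefree f) (hdeg : 0 < f.natDegree)
    (ht : Transcendental k t) (hw : w ^ 2 = aeval t f)
    (htop : IntermediateField.adjoin k {t, w} = ⊤) : finrank k⟮t⟯ L = 2 := by
  rw [← IntermediateField.finrank_top', ← adjoin_adjoin_eq_top htop,
    IntermediateField.adjoin.finrank (isIntegral_adjoin_w hw), natDegree_minpoly_w hf hdeg ht hw]

theorem isSeparable_of_sq_eq (h2 : (2 : k) ≠ 0) (hf0 : f ≠ 0) (ht : Transcendental k t)
    (hw : w ^ 2 = aeval t f)
    (htop : IntermediateField.adjoin k {t, w} = ⊤) : Algebra.IsSeparable k⟮t⟯ L := by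
  have hc0 : (⟨aeval t f, aeval_mem_adjoin_simple t f⟩ : k⟮t⟯) ≠ 0 := by
    intro h
    have h' : aeval t f = 0 := congrArg Subtype.val h
    exact hf0 ((transcendental_iff.mp ht) f h')
  have h2E : ((2 : ℕ) : k⟮t⟯) ≠ 0 := by
    have : ((2 : ℕ) : k⟮t⟯) = algebraMap k k⟮t⟯ 2 := by rw [Nat.cast_ofNat, map_ofNat]
    rw [this]
    exact (map_ne_zero_iff _ (algebraMap k k⟮t⟯).injective).mpr h2
  have hsepP : (quadPoly t f).Separable := separable_X_pow_sub_C _ h2E hc0
  have hsepw : IsSeparable k⟮t⟯ w :=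
    hsepP.of_dvd (minpoly.dvd _ _ (aeval_quadPoly hw))
  have h1 : Algebra.IsSeparable k⟮t⟯ (k⟮t⟯)⟮w⟯ :=
    (IntermediateField.isSeparable_adjoin_simple_iff_isSeparable _ _).mpr hsepw
  rw [adjoin_adjoin_eq_top htop] at h1
  exact Algebra.IsSeparable.of_algHom k⟮t⟯ (⊤ : IntermediateField k⟮t⟯ L)
    (IntermediateField.topEquiv (F := k⟮t⟯) (E := L)).symm.toAlgHom

/-- `t` is a separating variable of degree two. -/
theorem isSepVarS_of_sq_eq (h2 : (2 : k) ≠ 0) (hf : Squarefree f) (hdeg : 0 < f.natDegree)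
    (ht : Transcendental k t) (hw : w ^ 2 = aeval t f)
    (htop : IntermediateField.adjoin k {t, w} = ⊤) : IsSepVarS k t 2 := by
  have hf0 : f ≠ 0 := by
    rintro rfl
    simp at hdeg
  exact ⟨⟨ht, finiteDimensional_of_sq_eq hw htop, finrank_of_sq_eq hf hdeg ht hw htop⟩,
    isSeparable_of_sq_eq h2 hf0 ht hw htop⟩

end SepVar

section Main

variable [IsAlgClosed k] {f : k[X]} {t w : L}

/-- The Riemann package of `k(t, w)`, `w ^ 2 = f(t)`. -/
theorem riemannPkg_of_sq_eq (h2 : (2 : k) ≠ 0) (hf : Squarefree f) (hdeg : 0 < f.natDegree)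
    (ht : Transcendental k t) (hw : w ^ 2 = aeval t f)
    (htop : IntermediateField.adjoin k {t, w} = ⊤) : Red.RiemannPkg k L :=
  riemannPkg (isSepVarS_of_sq_eq h2 hf hdeg ht hw htop)

/-- **The genus of the hyperelliptic function field `k(t, w)`, `w ^ 2 = f(t)`**, `f` squarefree
of degree `2 g + 2`, `2 ≠ 0` in `k`: it is `g`. -/
theorem genusFF_of_sq_eq (h2 : (2 : k) ≠ 0) (hf : Squarefree f) (g : ℕ)
    (hg : f.natDegree = 2 * g + 2)
    (ht : Transcendental k t) (hw : w ^ 2 = aeval t f)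
    (htop : IntermediateField.adjoin k {t, w} = ⊤) : genusFF k L = g := by
  have hx := isSepVarS_of_sq_eq h2 hf (by omega) ht hw htop
  let _ := algPoly k t
  let _ := algRat hx.transcendental
  have := isScalarTower_poly_rat hx.transcendental
  have := isScalarTower_base_poly (K := k) t
  have := hx.finite
  have := hx.separable
  have := functionField_of_finite hx.transcendental
  have := isSeparable_ratFunc_of hx.transcendental
  have := isScalarTower_base_rat (K := k) (F := L)
  refine genusFF_coord_of_sq_eq h2 f hf g hg w hw ?_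
  rw [finrank_ratFunc_eq hx.transcendental]
  exact hx.finrank_eq

end Main

section Vertical

variable [IsAlgClosed k] {t w : L} (q : ℕ) [Fact q.Prime] [CharP k q]

theorem two_ne_zero_of_charP (hq : q ≠ 2) : (2 : k) ≠ 0 := by
  intro h
  have h' : ((2 : ℕ) : k) = 0 := by exact_mod_cast h
  rw [CharP.cast_eq_zero_iff k q] at h'
  exact hq ((Nat.prime_dvd_prime_iff_eq (Fact.out : q.Prime) Nat.prime_two).mp h')

/-- `a X ^ (q+1) + b` is squarefree in characteristic `q` (`b ≠ 0`). -/
theorem squarefree_monomial_add_C {a b : k} (hb : b ≠ 0) :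
    Squarefree (C a * X ^ (q + 1) + C b : k[X]) := by
  refine Polynomial.Separable.squarefree ?_
  rw [Polynomial.separable_def]
  have hder : derivative (C a * X ^ (q + 1) + C b : k[X]) = C a * X ^ q := by
    rw [derivative_add, derivative_C, add_zero, derivative_C_mul, derivative_X_pow]
    have : ((q + 1 : ℕ) : k) = 1 := by
      rw [Nat.cast_add, Nat.cast_one, CharP.cast_eq_zero k q, zero_add]
    rw [this, Nat.add_sub_cancel, C_1, one_mul]
  rw [hder]
  -- `1 = b⁻¹ (a X^(q+1) + b) - b⁻¹ X (a X^q)`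
  refine ⟨C b⁻¹, -(C b⁻¹ * X), ?_⟩
  have hb' : C b⁻¹ * C b = (1 : k[X]) := by rw [← C_mul, inv_mul_cancel₀ hb, C_1]
  calc C b⁻¹ * (C a * X ^ (q + 1) + C b) + -(C b⁻¹ * X) * (C a * X ^ q)
      = C b⁻¹ * C b := by ring
    _ = 1 := hb'

theorem natDegree_monomial_add_C {a b : k} (ha : a ≠ 0) :
    (C a * X ^ (q + 1) + C b : k[X]).natDegree = q + 1 := by
  rw [natDegree_add_C, natDegree_C_mul_X_pow _ _ ha]

/-- The vertical component, general form: `w ^ 2 = a t ^ (q+1) + b` in odd characteristic `q`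
has genus `(q - 1) / 2`. -/
theorem genusFF_vertical_general (hq : q ≠ 2) {a b : k} (ha : a ≠ 0) (hb : b ≠ 0)
    (ht : Transcendental k t)
    (hw : w ^ 2 = algebraMap k L a * t ^ (q + 1) + algebraMap k L b)
    (htop : IntermediateField.adjoin k {t, w} = ⊤) : genusFF k L = (q - 1) / 2 := by
  have hodd : q % 2 = 1 := by
    rcases (Fact.out : q.Prime).eq_two_or_odd with h | h
    · exact absurd h hq
    · exact h
  have hq1 : 1 ≤ q := (Fact.out : q.Prime).one_lt.le
  refine genusFF_of_sq_eq (two_ne_zero_of_charP q hq) (squarefree_monomial_add_C q (a := a) hb)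
    ((q - 1) / 2) ?_ ht ?_ htop
  · rw [natDegree_monomial_add_C q ha]
    omega
  · rw [hw]
    simp [aeval_C]

/-- `w ^ 2 = t ^ (q+1) + 4`. -/
theorem genusFF_vertical (hq : q ≠ 2) (ht : Transcendental k t)
    (hw : w ^ 2 = t ^ (q + 1) + 4)
    (htop : IntermediateField.adjoin k {t, w} = ⊤) : genusFF k L = (q - 1) / 2 := by
  have h2 := two_ne_zero_of_charP (k := k) q hq
  have h4 : (4 : k) ≠ 0 := by
    have : (4 : k) = 2 * 2 := by norm_num
    rw [this]
    exact mul_ne_zero h2 h2
  refine genusFF_vertical_general q hq (a := 1) (b := 4) one_ne_zero h4 ht ?_ htop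
  rw [hw, map_one, one_mul, map_ofNat]

/-- `w ^ 2 = 1 + 4 t ^ (q+1)`. -/
theorem genusFF_vertical' (hq : q ≠ 2) (ht : Transcendental k t)
    (hw : w ^ 2 = 1 + 4 * t ^ (q + 1))
    (htop : IntermediateField.adjoin k {t, w} = ⊤) : genusFF k L = (q - 1) / 2 := by
  have h2 := two_ne_zero_of_charP (k := k) q hq
  have h4 : (4 : k) ≠ 0 := by
    have : (4 : k) = 2 * 2 := by norm_num
    rw [this]
    exact mul_ne_zero h2 h2
  refine genusFF_vertical_general q hq (a := 4) (b := 1) h4 one_ne_zero ht ?_ htop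
  rw [hw, map_one, map_ofNat, add_comm]

end Vertical

end Fermat.Agent.BR3.HyperGenus
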