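import Mathlib
import Fermat.Agent.BR.POneGenus

/-!
# Program C, node A11 (HYPERELL), part 2: the quotient of `Z_e` by `μ_n` is rational

`k` a field, `Z = k(t, w)` a field with `t ^ n ∈ k(w)` (for `Z_e`: `n = q + 1`,
`t ^ (q + 1) = w ^ 2 - c`), `ζ ∈ k` a primitive `n`-th root of unity, `a : Z ≃ₐ[k] Z` with
`a t = ζ • t`, `a w = w`.

* `algEquiv_eq_one_of_fix`, `algEquiv_ext_gens` : automorphisms are determined on `t, w`;
* `pow_apply_t`, `pow_eq_one_iff`, `orderOf_eq` : `a` has order `n`;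
* `exists_pow_eq_of_fix` : every `σ : Z ≃ₐ[k] Z` fixing `w` is a power of `a`;
* `finrank_fixedField_zpowers`, `fixedField_zpowers_eq` : the fixed field of `⟨a⟩` is `k(w)`,
  `[Z : k(w)] = n`; `isGalois_adjoin`;
* `transcendental_gen` : `w` is transcendental when `t` is;
* `genusFF_adjoin_simple`, `riemannPkg_adjoin_simple`, `genusFF_fixedField`,
  `riemannPkg_fixedField` : the quotient field has genus `0`.
-/

set_option autoImplicit false

open AlgebraicCurve IntermediateField Polynomial Module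

namespace Fermat.Agent.BR3.HyperellQuot

variable {k Z : Type*} [Field k] [Field Z] [Algebra k Z]

section Gens

variable {t w : Z}

/-- An automorphism fixing the two generators is the identity. -/
theorem algEquiv_eq_one_of_fix (hgen : IntermediateField.adjoin k {t, w} = ⊤) (σ : Z ≃ₐ[k] Z)
    (ht : σ t = t) (hw : σ w = w) : σ = 1 := by
  ext x
  have hx : x ∈ IntermediateField.adjoin k {t, w} := hgen ▸ IntermediateField.mem_top
  show σ x = x
  induction hx using IntermediateField.adjoin_induction with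
  | mem y hy =>
    rcases hy with rfl | hy
    · exact ht
    · rw [Set.mem_singleton_iff] at hy
      rw [hy]
      exact hw
  | algebraMap r => exact σ.commutes r
  | add x y _ _ hx hy => rw [map_add, hx, hy]
  | inv x _ hx => rw [map_inv₀, hx]
  | mul x y _ _ hx hy => rw [map_mul, hx, hy]

/-- Automorphisms are determined by their values on the two generators. -/
theorem algEquiv_ext_gens (hgen : IntermediateField.adjoin k {t, w} = ⊤) (σ τ : Z ≃ₐ[k] Z)
    (ht : σ t = τ t) (hw : σ w = τ w) : σ = τ := by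
  have h : τ⁻¹ * σ = 1 := by
    refine algEquiv_eq_one_of_fix hgen _ ?_ ?_
    · rw [AlgEquiv.mul_apply, ht]
      exact τ.symm_apply_apply t
    · rw [AlgEquiv.mul_apply, hw]
      exact τ.symm_apply_apply w
  calc σ = τ * (τ⁻¹ * σ) := by group
    _ = τ := by rw [h, mul_one]

end Gens

section Cyclic

variable {n : ℕ} {t w : Z} {ζ : k} {a : Z ≃ₐ[k] Z}

theorem pow_apply_t (hat : a t = ζ • t) (j : ℕ) : (a ^ j) t = ζ ^ j • t := by
  induction j with
  | zero => simp
  | succ j ih =>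
    rw [pow_succ', AlgEquiv.mul_apply, ih, map_smul, hat, smul_smul, pow_succ]

theorem pow_apply_w (haw : a w = w) (j : ℕ) : (a ^ j) w = w := by
  induction j with
  | zero => simp
  | succ j ih => rw [pow_succ', AlgEquiv.mul_apply, ih, haw]

theorem pow_eq_one_iff (hgen : IntermediateField.adjoin k {t, w} = ⊤) (ht0 : t ≠ 0)
    (hat : a t = ζ • t) (haw : a w = w) (j : ℕ) : a ^ j = 1 ↔ ζ ^ j = 1 := by
  constructor
  · intro h
    have h1 := pow_apply_t hat j
    rw [h, AlgEquiv.one_apply] at h1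
    have h2 : (ζ ^ j - 1) • t = 0 := by rw [sub_smul, one_smul, ← h1, sub_self]
    rcases smul_eq_zero.mp h2 with h3 | h3
    · exact sub_eq_zero.mp h3
    · exact absurd h3 ht0
  · intro h
    refine algEquiv_eq_one_of_fix hgen _ ?_ (pow_apply_w haw j)
    rw [pow_apply_t hat, h, one_smul]

/-- `a` has order `n`. -/
theorem orderOf_eq (hgen : IntermediateField.adjoin k {t, w} = ⊤) (ht0 : t ≠ 0)
    (hζ : IsPrimitiveRoot ζ n) (hat : a t = ζ • t) (haw : a w = w) : orderOf a = n := by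
  rw [hζ.eq_orderOf]
  exact orderOf_eq_orderOf_iff.mpr (pow_eq_one_iff hgen ht0 hat haw)

/-- Every automorphism fixing `w` is a power of `a`. -/
theorem exists_pow_eq_of_fix (hn : 0 < n) (hgen : IntermediateField.adjoin k {t, w} = ⊤)
    (ht0 : t ≠ 0) (hζ : IsPrimitiveRoot ζ n) (hat : a t = ζ • t) (haw : a w = w)
    (hpow : t ^ n ∈ k⟮w⟯) (σ : Z ≃ₐ[k] Z) (hσ : σ w = w) : ∃ j < n, σ = a ^ j := by
  have : NeZero n := ⟨hn.ne'⟩
  -- `σ` fixes `k(w)`
  have hfix : ∀ x ∈ k⟮w⟯, σ x = x := by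
    intro x hx
    induction hx using IntermediateField.adjoin_induction with
    | mem y hy =>
      rw [Set.mem_singleton_iff] at hy
      rw [hy]
      exact hσ
    | algebraMap r => exact σ.commutes r
    | add x y _ _ hx hy => rw [map_add, hx, hy]
    | inv x _ hx => rw [map_inv₀, hx]
    | mul x y _ _ hx hy => rw [map_mul, hx, hy]
  have h1 : (σ t) ^ n = t ^ n := by rw [← map_pow, hfix _ hpow]
  have h2 : (σ t / t) ^ n = 1 := by rw [div_pow, h1, div_self (pow_ne_zero n ht0)]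
  have hζ' : IsPrimitiveRoot (algebraMap k Z ζ) n := hζ.map_of_injective (algebraMap k Z).injective
  obtain ⟨j, hj, hj'⟩ := hζ'.eq_pow_of_pow_eq_one h2
  refine ⟨j, hj, algEquiv_ext_gens hgen _ _ ?_ ?_⟩
  · rw [pow_apply_t hat, Algebra.smul_def, map_pow, hj', div_mul_cancel₀ _ ht0]
  · rw [pow_apply_w haw, hσ]

theorem gen_le_fixedField (haw : a w = w) :
    k⟮w⟯ ≤ IntermediateField.fixedField (Subgroup.zpowers a) := by
  rw [IntermediateField.adjoin_simple_le_iff, IntermediateField.mem_fixedField_iff]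
  intro σ hσ
  have hle : Subgroup.zpowers a ≤ MulAction.stabilizer (Z ≃ₐ[k] Z) w :=
    Subgroup.zpowers_le.mpr (MulAction.mem_stabilizer_iff.mpr haw)
  exact MulAction.mem_stabilizer_iff.mp (hle hσ)

/-- **Artin**: `[Z : Z^⟨a⟩] = n`. -/
theorem finrank_fixedField_zpowers (hn : 0 < n) (hgen : IntermediateField.adjoin k {t, w} = ⊤)
    (ht0 : t ≠ 0) (hζ : IsPrimitiveRoot ζ n) (hat : a t = ζ • t) (haw : a w = w) :
    finrank (IntermediateField.fixedField (Subgroup.zpowers a)) Z = n := by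
  have ho := orderOf_eq hgen ht0 hζ hat haw
  have hfin : Finite (Subgroup.zpowers a) :=
    (finite_zpowers.mpr (orderOf_pos_iff.mp (by rw [ho]; exact hn))).to_subtype
  have := Fintype.ofFinite (Subgroup.zpowers a)
  have h1 : finrank (IntermediateField.fixedField (Subgroup.zpowers a)) Z =
      Fintype.card (Subgroup.zpowers a) := FixedPoints.finrank_eq_card (Subgroup.zpowers a) Z
  rw [h1, ← Nat.card_eq_fintype_card, Nat.card_zpowers, ho]

/-- `Z` is finite over `k(w)` of degree at most `n`. -/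
theorem finrank_adjoin_le (hn : 0 < n) (hgen : IntermediateField.adjoin k {t, w} = ⊤)
    (hpow : t ^ n ∈ k⟮w⟯) : FiniteDimensional k⟮w⟯ Z ∧ finrank k⟮w⟯ Z ≤ n := by
  set b : k⟮w⟯ := ⟨t ^ n, hpow⟩ with hb
  have hroot : aeval t (X ^ n - C b : k⟮w⟯[X]) = 0 := by
    rw [map_sub, map_pow, aeval_X, aeval_C]
    exact sub_self _
  have hmonic : (X ^ n - C b : k⟮w⟯[X]).Monic := monic_X_pow_sub_C b hn.ne'
  have hint : IsIntegral k⟮w⟯ t := ⟨_, hmonic, hroot⟩
  have hdvd : minpoly k⟮w⟯ t ∣ X ^ n - C b := minpoly.dvd _ _ hroot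
  have hdeg : (X ^ n - C b : k⟮w⟯[X]).natDegree = n := natDegree_X_pow_sub_C
  have hle : (minpoly k⟮w⟯ t).natDegree ≤ n := hdeg ▸ natDegree_le_of_dvd hdvd hmonic.ne_zero
  have htop : k⟮w⟯⟮t⟯ = ⊤ := by
    rw [← IntermediateField.restrictScalars_eq_top_iff (K := k),
      IntermediateField.adjoin_simple_adjoin_simple, Set.pair_comm, hgen]
  have hfd' : FiniteDimensional k⟮w⟯ k⟮w⟯⟮t⟯ := IntermediateField.adjoin.finiteDimensional hint
  have hfr' : finrank k⟮w⟯ k⟮w⟯⟮t⟯ = (minpoly k⟮w⟯ t).natDegree :=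
    IntermediateField.adjoin.finrank hint
  rw [htop] at hfd' hfr'
  refine ⟨Module.Finite.equiv (IntermediateField.topEquiv (F := k⟮w⟯) (E := Z)).toLinearEquiv, ?_⟩
  rw [← IntermediateField.finrank_top', hfr']
  exact hle

/-- **The fixed field of `⟨a⟩` is `k(w)`.** -/
theorem fixedField_zpowers_eq (hn : 0 < n) (hgen : IntermediateField.adjoin k {t, w} = ⊤)
    (ht0 : t ≠ 0) (hζ : IsPrimitiveRoot ζ n) (hat : a t = ζ • t) (haw : a w = w)
    (hpow : t ^ n ∈ k⟮w⟯) : IntermediateField.fixedField (Subgroup.zpowers a) = k⟮w⟯ := by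
  obtain ⟨hfd, hle⟩ := finrank_adjoin_le hn hgen hpow
  refine (IntermediateField.eq_of_le_of_finrank_le' (gen_le_fixedField haw) ?_).symm
  rw [finrank_fixedField_zpowers hn hgen ht0 hζ hat haw]
  exact hle

/-- `[Z : k(w)] = n`. -/
theorem finrank_adjoin_eq (hn : 0 < n) (hgen : IntermediateField.adjoin k {t, w} = ⊤)
    (ht0 : t ≠ 0) (hζ : IsPrimitiveRoot ζ n) (hat : a t = ζ • t) (haw : a w = w)
    (hpow : t ^ n ∈ k⟮w⟯) : finrank k⟮w⟯ Z = n := by
  rw [← fixedField_zpowers_eq hn hgen ht0 hζ hat haw hpow]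
  exact finrank_fixedField_zpowers hn hgen ht0 hζ hat haw

/-- `Z / k(w)` is Galois (with group `⟨a⟩`). -/
theorem isGalois_adjoin (hn : 0 < n) (hgen : IntermediateField.adjoin k {t, w} = ⊤)
    (ht0 : t ≠ 0) (hζ : IsPrimitiveRoot ζ n) (hat : a t = ζ • t) (haw : a w = w)
    (hpow : t ^ n ∈ k⟮w⟯) : IsGalois k⟮w⟯ Z := by
  have ho := orderOf_eq hgen ht0 hζ hat haw
  have hfin : Finite (Subgroup.zpowers a) :=
    (finite_zpowers.mpr (orderOf_pos_iff.mp (by rw [ho]; exact hn))).to_subtype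
  have h : IsGalois (IntermediateField.fixedField (Subgroup.zpowers a)) Z :=
    IsGalois.of_fixed_field Z (Subgroup.zpowers a)
  rwa [fixedField_zpowers_eq hn hgen ht0 hζ hat haw hpow] at h

/-- `w` is transcendental over `k` as soon as `t` is. -/
theorem transcendental_gen (hn : 0 < n) (hgen : IntermediateField.adjoin k {t, w} = ⊤)
    (hpow : t ^ n ∈ k⟮w⟯) (ht : Transcendental k t) : Transcendental k w := by
  intro hw
  obtain ⟨hfd, -⟩ := finrank_adjoin_le hn hgen hpow
  have h1 : Algebra.IsAlgebraic k k⟮w⟯ := IntermediateField.isAlgebraic_adjoin_simple hw.isIntegral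
  have h2 : Algebra.IsAlgebraic k⟮w⟯ Z := Algebra.IsAlgebraic.of_finite _ _
  have h3 : Algebra.IsAlgebraic k Z := Algebra.IsAlgebraic.trans k k⟮w⟯ Z
  exact ht (h3.isAlgebraic t)

end Cyclic

/-! ## Genus zero -/

section Genus

variable {w : Z}

theorem adjoin_gen_eq_top (w : Z) :
    k⟮AdjoinSimple.gen k w⟯ = (⊤ : IntermediateField k k⟮w⟯) := by
  apply IntermediateField.map_injective (k⟮w⟯.val)
  rw [IntermediateField.adjoin_map, Set.image_singleton]
  ext x
  simp only [IntermediateField.coe_val, AdjoinSimple.coe_gen, IntermediateField.mem_map,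
    IntermediateField.mem_top, true_and]
  constructor
  · intro hx
    exact ⟨⟨x, hx⟩, rfl⟩
  · rintro ⟨y, rfl⟩
    exact y.2

theorem transcendental_adjoinSimple_gen (hw : Transcendental k w) :
    Transcendental k (AdjoinSimple.gen k w) := by
  intro h
  apply hw
  have := h.algebraMap (A := Z)
  rwa [AdjoinSimple.algebraMap_gen] at this

variable [IsAlgClosed k]

/-- `k(w)` has genus zero. -/
theorem genusFF_adjoin_simple (hw : Transcendental k w) : genusFF k k⟮w⟯ = 0 :=
  Fermat.Agent.BR.POne.genusFF_of_adjoin_eq_top (transcendental_adjoinSimple_gen hw)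
    (adjoin_gen_eq_top w)

/-- The Riemann package of `k(w)`. -/
theorem riemannPkg_adjoin_simple (hw : Transcendental k w) : Fermat.Agent.Red.RiemannPkg k k⟮w⟯ :=
  Fermat.Agent.BR.POne.riemannPkg_of_adjoin_eq_top (transcendental_adjoinSimple_gen hw)
    (adjoin_gen_eq_top w)

/-- The fixed field of `⟨a⟩` has genus zero. -/
theorem genusFF_fixedField_zpowers {n : ℕ} {t : Z} {ζ : k} {a : Z ≃ₐ[k] Z} (hn : 0 < n)
    (hgen : IntermediateField.adjoin k {t, w} = ⊤) (ht : Transcendental k t)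
    (hζ : IsPrimitiveRoot ζ n) (hat : a t = ζ • t) (haw : a w = w) (hpow : t ^ n ∈ k⟮w⟯) :
    genusFF k (IntermediateField.fixedField (Subgroup.zpowers a)) = 0 := by
  have ht0 : t ≠ 0 := by
    rintro rfl
    exact ht isAlgebraic_zero
  rw [fixedField_zpowers_eq hn hgen ht0 hζ hat haw hpow]
  exact genusFF_adjoin_simple (transcendental_gen hn hgen hpow ht)

/-- The Riemann package of the fixed field of `⟨a⟩`. -/
theorem riemannPkg_fixedField_zpowers {n : ℕ} {t : Z} {ζ : k} {a : Z ≃ₐ[k] Z} (hn : 0 < n)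
    (hgen : IntermediateField.adjoin k {t, w} = ⊤) (ht : Transcendental k t)
    (hζ : IsPrimitiveRoot ζ n) (hat : a t = ζ • t) (haw : a w = w) (hpow : t ^ n ∈ k⟮w⟯) :
    Fermat.Agent.Red.RiemannPkg k (IntermediateField.fixedField (Subgroup.zpowers a)) := by
  have ht0 : t ≠ 0 := by
    rintro rfl
    exact ht isAlgebraic_zero
  rw [fixedField_zpowers_eq hn hgen ht0 hζ hat haw hpow]
  exact riemannPkg_adjoin_simple (transcendental_gen hn hgen hpow ht)

end Genus

/-! ## The curve `Z_e` : `w ^ 2 = t ^ (q + 1) + c` -/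

section Ze

variable {q : ℕ} {c : k} {t w : Z} {ζ : k} {a : Z ≃ₐ[k] Z}

theorem pow_mem_adjoin_of_sq_eq (hw : w ^ 2 = t ^ (q + 1) + algebraMap k Z c) :
    t ^ (q + 1) ∈ k⟮w⟯ := by
  have h : t ^ (q + 1) = w ^ 2 - algebraMap k Z c := by rw [hw]; ring
  rw [h]
  exact sub_mem (pow_mem (IntermediateField.mem_adjoin_simple_self k w) 2)
    (IntermediateField.algebraMap_mem _ c)

/-- **The `μ_{q+1}`-quotient of `Z_e` is rational**: for `Z = k(t, w)`, `w ^ 2 = t ^ (q+1) + c`,
and `a : (t, w) ↦ (ζ t, w)` with `ζ` a primitive `(q+1)`-th root of unity: `a` has order `q + 1`,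
its fixed field is `k(w)`, of genus `0`, `[Z : k(w)] = q + 1`, `Z / k(w)` is Galois, and every
`k`-automorphism fixing `w` is a power of `a`. -/
theorem ze_quotient [IsAlgClosed k] (hgen : IntermediateField.adjoin k {t, w} = ⊤)
    (ht : Transcendental k t) (hw : w ^ 2 = t ^ (q + 1) + algebraMap k Z c)
    (hζ : IsPrimitiveRoot ζ (q + 1)) (hat : a t = ζ • t) (haw : a w = w) :
    orderOf a = q + 1 ∧
    IntermediateField.fixedField (Subgroup.zpowers a) = k⟮w⟯ ∧
    finrank k⟮w⟯ Z = q + 1 ∧ IsGalois k⟮w⟯ Z ∧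
    Transcendental k w ∧ genusFF k k⟮w⟯ = 0 ∧
    genusFF k (IntermediateField.fixedField (Subgroup.zpowers a)) = 0 ∧
    ∀ σ : Z ≃ₐ[k] Z, σ w = w → ∃ j < q + 1, σ = a ^ j := by
  have ht0 : t ≠ 0 := by
    rintro rfl
    exact ht isAlgebraic_zero
  have hn : 0 < q + 1 := Nat.succ_pos q
  have hpow := pow_mem_adjoin_of_sq_eq hw
  have htr := transcendental_gen hn hgen hpow ht
  exact ⟨orderOf_eq hgen ht0 hζ hat haw, fixedField_zpowers_eq hn hgen ht0 hζ hat haw hpow,
    finrank_adjoin_eq hn hgen ht0 hζ hat haw hpow, isGalois_adjoin hn hgen ht0 hζ hat haw hpow,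
    htr, genusFF_adjoin_simple htr, genusFF_fixedField_zpowers hn hgen ht hζ hat haw hpow,
    exists_pow_eq_of_fix hn hgen ht0 hζ hat haw hpow⟩

end Ze

end Fermat.Agent.BR3.HyperellQuot
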