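import Mathlib
import Fermat.Agent.BR3.HyperellQuot

/-!
# Program C, node A11 (HYPERELL), part 2b: `⟨a⟩` as a Galois group of `Z / k(w)`

In the setting of `BR3/HyperellQuot` (`Z = k(t, w)`, `t ^ n ∈ k(w)`, `a : (t, w) ↦ (ζ t, w)`):

* `isGaloisGroup_zpowers : IsGaloisGroup (Subgroup.zpowers a) k⟮w⟯ Z` (Mathlib's predicate:
  faithful action with fixed field `k(w)`) — the input of the cyclic corollary of `BR3/GalTrace`;
* `exists_pow_eq_restrictScalars` : every `σ : Z ≃ₐ[k⟮w⟯] Z` is (after restriction of scalars to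
  `k`) a power `a ^ j`, `j < n`;
* `card_zpowers` : `Nat.card (Subgroup.zpowers a) = n`.
-/

set_option autoImplicit false

open IntermediateField Module

namespace Fermat.Agent.BR3.HyperellQuot

variable {k Z : Type*} [Field k] [Field Z] [Algebra k Z]
variable {n : ℕ} {t w : Z} {ζ : k} {a : Z ≃ₐ[k] Z}

/-- `⟨a⟩` is a Galois group for `Z / k(w)`. -/
theorem isGaloisGroup_zpowers (hn : 0 < n) (hgen : IntermediateField.adjoin k {t, w} = ⊤)
    (ht0 : t ≠ 0) (hζ : IsPrimitiveRoot ζ n) (hat : a t = ζ • t) (haw : a w = w)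
    (hpow : t ^ n ∈ k⟮w⟯) : IsGaloisGroup (Subgroup.zpowers a) k⟮w⟯ Z where
  faithful := inferInstance
  commutes := ⟨fun g x z => by
    have hx : (x : Z) ∈ IntermediateField.fixedField (Subgroup.zpowers a) :=
      gen_le_fixedField haw x.2
    rw [IntermediateField.mem_fixedField_iff] at hx
    show (g : Z ≃ₐ[k] Z) ((x : Z) * z) = (x : Z) * (g : Z ≃ₐ[k] Z) z
    rw [map_mul, hx _ g.2]⟩
  isInvariant := ⟨fun b hb => by
    have hb' : b ∈ IntermediateField.fixedField (Subgroup.zpowers a) := by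
      rw [IntermediateField.mem_fixedField_iff]
      intro g hg
      exact hb ⟨g, hg⟩
    rw [fixedField_zpowers_eq hn hgen ht0 hζ hat haw hpow] at hb'
    exact ⟨⟨b, hb'⟩, rfl⟩⟩

/-- Every automorphism of `Z / k(w)` is a power of `a`. -/
theorem exists_pow_eq_restrictScalars (hn : 0 < n)
    (hgen : IntermediateField.adjoin k {t, w} = ⊤) (ht0 : t ≠ 0) (hζ : IsPrimitiveRoot ζ n)
    (hat : a t = ζ • t) (haw : a w = w) (hpow : t ^ n ∈ k⟮w⟯) (σ : Z ≃ₐ[k⟮w⟯] Z) :
    ∃ j < n, σ.restrictScalars k = a ^ j := by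
  refine exists_pow_eq_of_fix hn hgen ht0 hζ hat haw hpow (σ.restrictScalars k) ?_
  have := σ.commutes ⟨w, IntermediateField.mem_adjoin_simple_self k w⟩
  exact this

theorem card_zpowers (hgen : IntermediateField.adjoin k {t, w} = ⊤) (ht0 : t ≠ 0)
    (hζ : IsPrimitiveRoot ζ n) (hat : a t = ζ • t) (haw : a w = w) :
    Nat.card (Subgroup.zpowers a) = n := by
  rw [Nat.card_zpowers, orderOf_eq hgen ht0 hζ hat haw]

end Fermat.Agent.BR3.HyperellQuot
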