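import Mathlib
import Fermat.Agent.BR3.HyperGenus
import Fermat.Agent.BR3.HyperellQuotGal
import Fermat.Agent.BR3.ArtinSchreierGenus

/-!
# Program C, node A11 (HYPERELL), part 3: the residue curve of `z e` in the coordinates of I2

The residue field of the vertical component `z e` is produced by I2 (VERT) as `L = k(b, U)` with

  `b U ^ q + b ^ 2 U ^ (q - 1) = ρ`,  `ρ ∈ k`, `ρ ≠ 0`, `b` transcendental over `k`

(`k` algebraically closed of characteristic `q`).  This file changes coordinates to the normal forms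
of `BR3/HyperGenus` (`q` odd: `t = γ / U`, `γ ^ (q + 1) = 16 ρ`, `w = 4 b / U + 2`,
`w ^ 2 = t ^ (q + 1) + 4`) and of `BR3/ArtinSchreierGenus` (`q = 2`: `s = 1 / b`, `u = U / b`,
`u ^ 2 + u = ρ s ^ 3`):

* `vert_coords` : the coordinate change for `q` odd;
* `genusFF_vert : genusFF k L = (q - 1) / 2`, `riemannPkg_vert`;
* `vert_quotient` : for `a : L ≃ₐ[k] L` with `a b = ξ • b`, `a U = ξ • U`, `ξ` a primitive
  `(q + 1)`-th root of unity: `a` has order `q + 1`, fixes `w = 4 b / U + 2`, its fixed field is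
  `k(w)`, of genus `0`, and `⟨a⟩` is a Galois group of `L / k(w)`;
* `genusFF_vert_two : genusFF k L = 1`, `riemannPkg_vert_two`, `vert_quotient_two` (`q = 2`).
-/

set_option autoImplicit false

open AlgebraicCurve IntermediateField Polynomial Module

namespace Fermat.Agent.BR3.VertCurve

open Fermat.Agent.BR3.HyperellQuot

variable {k L : Type*} [Field k] [Field L] [Algebra k L]

/-- If both generators are algebraic then everything is. -/
theorem isAlgebraic_of_gens {t w : L} (hgen : IntermediateField.adjoin k {t, w} = ⊤)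
    (ht : IsAlgebraic k t) (hw : IsAlgebraic k w) (z : L) : IsAlgebraic k z := by
  have h : Algebra.IsAlgebraic k (IntermediateField.adjoin k {t, w}) := by
    refine IntermediateField.isAlgebraic_adjoin ?_
    intro x hx
    rcases hx with rfl | hx
    · exact ht.isIntegral
    · rw [Set.mem_singleton_iff] at hx
      rw [hx]
      exact hw.isIntegral
  have hz : z ∈ IntermediateField.adjoin k {t, w} := hgen ▸ IntermediateField.mem_top
  exact IntermediateField.isAlgebraic_iff.mp (h.isAlgebraic ⟨z, hz⟩)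

/-- Two generating pairs: if `b, U ∈ k(t, w)` and `k(b, U) = L` then `k(t, w) = L`. -/
theorem adjoin_eq_top_of_mem {b U t w : L} (hgen : IntermediateField.adjoin k {b, U} = ⊤)
    (hb : b ∈ IntermediateField.adjoin k {t, w}) (hU : U ∈ IntermediateField.adjoin k {t, w}) :
    IntermediateField.adjoin k {t, w} = ⊤ := by
  rw [eq_top_iff, ← hgen, IntermediateField.adjoin_le_iff]
  intro x hx
  rcases hx with rfl | hx
  · exact hb
  · rw [Set.mem_singleton_iff] at hx
    rw [hx]
    exact hU

section Odd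

variable [IsAlgClosed k]

/-- **The coordinate change for `q` odd**: from `b U ^ q + b ^ 2 U ^ (q - 1) = ρ` to
`w ^ 2 = t ^ (q + 1) + 4`. -/
theorem vert_coords (q : ℕ) [hq : Fact q.Prime] (h2 : (2 : k) ≠ 0) {ρ : k} (hρ : ρ ≠ 0)
    {b U : L} (hb : Transcendental k b)
    (heq : b * U ^ q + b ^ 2 * U ^ (q - 1) = algebraMap k L ρ)
    (hgen : IntermediateField.adjoin k {b, U} = ⊤) :
    ∃ γ : k, γ ≠ 0 ∧ γ ^ (q + 1) = 16 * ρ ∧ U ≠ 0 ∧
      Transcendental k (algebraMap k L γ / U) ∧
      (4 * b / U + 2) ^ 2 = (algebraMap k L γ / U) ^ (q + 1) + 4 ∧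
      IntermediateField.adjoin k {algebraMap k L γ / U, 4 * b / U + 2} = ⊤ := by
  obtain ⟨m, rfl⟩ : ∃ m, q = m + 1 := ⟨q - 1, (Nat.succ_pred_eq_of_pos hq.out.pos).symm⟩
  rw [Nat.add_sub_cancel] at heq
  have h2L : (2 : L) ≠ 0 := by
    rw [← map_ofNat (algebraMap k L) 2]
    exact (_root_.map_ne_zero _).mpr h2
  have h4L : (4 : L) ≠ 0 := by
    have : (4 : L) = 2 * 2 := by norm_num
    rw [this]
    exact mul_ne_zero h2L h2L
  have h16 : (16 : k) ≠ 0 := by
    have : (16 : k) = 2 * 2 * 2 * 2 := by norm_num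
    rw [this]
    exact mul_ne_zero (mul_ne_zero (mul_ne_zero h2 h2) h2) h2
  obtain ⟨γ, hγ⟩ := IsAlgClosed.exists_pow_nat_eq (16 * ρ) (Nat.succ_pos (m + 1))
  have hγ0 : γ ≠ 0 := by
    rintro rfl
    rw [zero_pow (Nat.succ_ne_zero _)] at hγ
    exact mul_ne_zero h16 hρ hγ.symm
  have hρL : algebraMap k L ρ ≠ 0 := (_root_.map_ne_zero _).mpr hρ
  have hU0 : U ≠ 0 := by
    rintro rfl
    rw [zero_pow (Nat.succ_ne_zero _), mul_zero, zero_add] at heq
    rcases Nat.eq_zero_or_pos m with rfl | hm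
    · -- `m = 0` means `q = 1`, not prime
      exact absurd hq.out Nat.not_prime_one
    · rw [zero_pow hm.ne', mul_zero] at heq
      exact hρL heq.symm
  set γ' := algebraMap k L γ with hγ'
  have hγ'0 : γ' ≠ 0 := (_root_.map_ne_zero _).mpr hγ0
  have hγL : γ' ^ (m + 1 + 1) = 16 * (b * U ^ (m + 1) + b ^ 2 * U ^ m) := by
    rw [heq, hγ', ← map_pow, hγ, map_mul, map_ofNat]
  set t := γ' / U with ht
  set w := 4 * b / U + 2 with hw
  have ht0 : t ≠ 0 := div_ne_zero hγ'0 hU0
  have hrel : w ^ 2 = t ^ (m + 1 + 1) + 4 := by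
    rw [ht, hw, div_pow, hγL]
    field_simp
    ring
  have hUmem : U ∈ IntermediateField.adjoin k {t, w} := by
    have h1 : U = γ' / t := by
      rw [ht]
      field_simp
    rw [h1]
    exact div_mem (IntermediateField.algebraMap_mem _ γ)
      (IntermediateField.subset_adjoin k _ (Set.mem_insert t {w}))
  have hbmem : b ∈ IntermediateField.adjoin k {t, w} := by
    have h1 : b = (w - 2) * U / 4 := by
      rw [hw]
      field_simp
      ring
    rw [h1]
    have hwmem : w ∈ IntermediateField.adjoin k {t, w} :=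
      IntermediateField.subset_adjoin k _ (Set.mem_insert_of_mem t (Set.mem_singleton w))
    have h2mem : (2 : L) ∈ IntermediateField.adjoin k {t, w} := by
      rw [← map_ofNat (algebraMap k L) 2]
      exact IntermediateField.algebraMap_mem _ _
    have h4mem : (4 : L) ∈ IntermediateField.adjoin k {t, w} := by
      rw [← map_ofNat (algebraMap k L) 4]
      exact IntermediateField.algebraMap_mem _ _
    exact div_mem (mul_mem (sub_mem hwmem h2mem) hUmem) h4mem
  have htop := adjoin_eq_top_of_mem hgen hbmem hUmem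
  refine ⟨γ, hγ0, hγ, hU0, ?_, hrel, htop⟩
  -- transcendence of `t`
  intro htalg
  have hwalg : IsAlgebraic k w := by
    refine IsAlgebraic.of_pow (n := 2) (by norm_num) ?_
    rw [hrel]
    refine (htalg.pow _).add ?_
    rw [← map_ofNat (algebraMap k L) 4]
    exact isAlgebraic_algebraMap _
  exact hb (isAlgebraic_of_gens htop htalg hwalg b)

variable (q : ℕ) [hq : Fact q.Prime] [CharP k q]

/-- **The genus of the residue curve of `z e`** (`q` odd), in the coordinates of I2. -/
theorem genusFF_vert (hq2 : q ≠ 2) {ρ : k} (hρ : ρ ≠ 0) {b U : L} (hb : Transcendental k b)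
    (heq : b * U ^ q + b ^ 2 * U ^ (q - 1) = algebraMap k L ρ)
    (hgen : IntermediateField.adjoin k {b, U} = ⊤) : genusFF k L = (q - 1) / 2 := by
  obtain ⟨γ, -, -, -, htr, hrel, htop⟩ :=
    vert_coords q (HyperGenus.two_ne_zero_of_charP q hq2) hρ hb heq hgen
  exact HyperGenus.genusFF_vertical q hq2 htr hrel htop

/-- The Riemann package of the residue curve of `z e` (`q` odd). -/
theorem riemannPkg_vert (hq2 : q ≠ 2) {ρ : k} (hρ : ρ ≠ 0) {b U : L} (hb : Transcendental k b)
    (heq : b * U ^ q + b ^ 2 * U ^ (q - 1) = algebraMap k L ρ)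
    (hgen : IntermediateField.adjoin k {b, U} = ⊤) : Fermat.Agent.Red.RiemannPkg k L := by
  have h2 := HyperGenus.two_ne_zero_of_charP (k := k) q hq2
  obtain ⟨γ, -, -, -, htr, hrel, htop⟩ := vert_coords q h2 hρ hb heq hgen
  have h4 : (4 : k) ≠ 0 := by
    have : (4 : k) = 2 * 2 := by norm_num
    rw [this]
    exact mul_ne_zero h2 h2
  refine HyperGenus.riemannPkg_of_sq_eq h2
    (HyperGenus.squarefree_monomial_add_C q (a := 1) (b := 4) h4) ?_ htr ?_ htop
  · rw [HyperGenus.natDegree_monomial_add_C q one_ne_zero]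
    exact Nat.succ_pos q
  · rw [hrel]
    simp only [map_add, map_pow, aeval_X, map_one, one_mul, map_ofNat]

/-- **The quotient of the residue curve of `z e` by the inertia action is rational** (`q` odd):
for `a : (b, U) ↦ (ξ b, ξ U)`, `ξ` a primitive `(q + 1)`-th root of unity. -/
theorem vert_quotient (hq2 : q ≠ 2) {ρ : k} (hρ : ρ ≠ 0) {b U : L} (hb : Transcendental k b)
    (heq : b * U ^ q + b ^ 2 * U ^ (q - 1) = algebraMap k L ρ)
    (hgen : IntermediateField.adjoin k {b, U} = ⊤) {ξ : k} (hξ : IsPrimitiveRoot ξ (q + 1))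
    {a : L ≃ₐ[k] L} (hab : a b = ξ • b) (haU : a U = ξ • U) :
    orderOf a = q + 1 ∧
    IntermediateField.fixedField (Subgroup.zpowers a) = k⟮4 * b / U + 2⟯ ∧
    IsGaloisGroup (Subgroup.zpowers a) (IntermediateField.fixedField (Subgroup.zpowers a)) L ∧
    IsGalois (IntermediateField.fixedField (Subgroup.zpowers a)) L ∧
    finrank (IntermediateField.fixedField (Subgroup.zpowers a)) L = q + 1 ∧
    genusFF k (IntermediateField.fixedField (Subgroup.zpowers a)) = 0 ∧
    Fermat.Agent.Red.RiemannPkg k (IntermediateField.fixedField (Subgroup.zpowers a)) := by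
  have h2 := HyperGenus.two_ne_zero_of_charP (k := k) q hq2
  obtain ⟨γ, hγ0, -, hU0, htr, hrel, htop⟩ := vert_coords q h2 hρ hb heq hgen
  have hn : 0 < q + 1 := Nat.succ_pos q
  have hξ0 : ξ ≠ 0 := hξ.ne_zero hn.ne'
  have hξL : algebraMap k L ξ ≠ 0 := (_root_.map_ne_zero _).mpr hξ0
  have hζ : IsPrimitiveRoot ξ⁻¹ (q + 1) := hξ.inv
  set t := algebraMap k L γ / U with ht
  set w := 4 * b / U + 2 with hw
  have ht0 : t ≠ 0 := by
    rintro h0
    exact htr (h0 ▸ isAlgebraic_zero)
  have hat : a t = ξ⁻¹ • t := by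
    rw [ht, map_div₀, a.commutes, haU, Algebra.smul_def, Algebra.smul_def, map_inv₀]
    field_simp
  have haw : a w = w := by
    rw [hw, map_add, map_div₀, map_mul, hab, haU, map_ofNat, map_ofNat, Algebra.smul_def,
      Algebra.smul_def]
    field_simp
  have hrel' : w ^ 2 = t ^ (q + 1) + algebraMap k L 4 := by rw [hrel, map_ofNat]
  have hpow := pow_mem_adjoin_of_sq_eq hrel'
  have hfix := fixedField_zpowers_eq hn htop ht0 hζ hat haw hpow
  refine ⟨orderOf_eq htop ht0 hζ hat haw, hfix, ?_, ?_, ?_,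
    genusFF_fixedField_zpowers hn htop htr hζ hat haw hpow,
    riemannPkg_fixedField_zpowers hn htop htr hζ hat haw hpow⟩
  · rw [hfix]
    exact isGaloisGroup_zpowers hn htop ht0 hζ hat haw hpow
  · rw [hfix]
    exact isGalois_adjoin hn htop ht0 hζ hat haw hpow
  · exact finrank_fixedField_zpowers hn htop ht0 hζ hat haw

end Odd

/-! ## `q = 2` -/

section Two

variable [CharP k 2]

omit [CharP k 2] in
/-- **The coordinate change for `q = 2`**: from `b U ^ 2 + b ^ 2 U = ρ` to `u ^ 2 + u = ρ s ^ 3`,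
`s = 1 / b`, `u = U / b`. -/
theorem vert_coords_two {ρ : k} {b U : L} (hb : Transcendental k b)
    (heq : b * U ^ 2 + b ^ 2 * U = algebraMap k L ρ)
    (hgen : IntermediateField.adjoin k {b, U} = ⊤) :
    Transcendental k b⁻¹ ∧ (U / b) ^ 2 + U / b = algebraMap k L ρ * b⁻¹ ^ 3 ∧
      IntermediateField.adjoin k {b⁻¹, U / b} = ⊤ := by
  have hb0 : b ≠ 0 := by
    rintro rfl
    exact hb isAlgebraic_zero
  refine ⟨?_, ?_, ?_⟩
  · intro h
    have := h.inv
    rw [inv_inv] at this
    exact hb this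
  · rw [← heq]
    field_simp
  · have hs : b⁻¹ ∈ IntermediateField.adjoin k {b⁻¹, U / b} :=
      IntermediateField.subset_adjoin k _ (Set.mem_insert _ _)
    have hu : U / b ∈ IntermediateField.adjoin k {b⁻¹, U / b} :=
      IntermediateField.subset_adjoin k _ (Set.mem_insert_of_mem _ (Set.mem_singleton _))
    have hbm : b ∈ IntermediateField.adjoin k {b⁻¹, U / b} := by
      have := inv_mem hs
      rwa [inv_inv] at this
    refine adjoin_eq_top_of_mem hgen hbm ?_
    have hU := mul_mem hu hbm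
    rwa [div_mul_cancel₀ U hb0] at hU

/-- **The genus of the residue curve of `z e` for `q = 2`** is one. -/
theorem genusFF_vert_two {ρ : k} (hρ : ρ ≠ 0) {b U : L} (hb : Transcendental k b)
    (heq : b * U ^ 2 + b ^ 2 * U = algebraMap k L ρ)
    (hgen : IntermediateField.adjoin k {b, U} = ⊤) : genusFF k L = 1 := by
  obtain ⟨hs, hrel, htop⟩ := vert_coords_two hb heq hgen
  exact ArtinSchreierGenus.genusFF_artinSchreier_cubic hρ hs hrel htop

/-- The Riemann package of the residue curve of `z e` for `q = 2`. -/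
theorem riemannPkg_vert_two [IsAlgClosed k] {ρ : k} (hρ : ρ ≠ 0) {b U : L}
    (hb : Transcendental k b) (heq : b * U ^ 2 + b ^ 2 * U = algebraMap k L ρ)
    (hgen : IntermediateField.adjoin k {b, U} = ⊤) : Fermat.Agent.Red.RiemannPkg k L := by
  obtain ⟨hs, hrel, htop⟩ := vert_coords_two hb heq hgen
  exact ArtinSchreierGenus.riemannPkg_artinSchreier_cubic hρ hs hrel htop

omit [CharP k 2] in
/-- **The quotient of the residue curve of `z e` by the inertia action is rational** (`q = 2`):
for `a : (b, U) ↦ (ξ b, ξ U)`, `ξ` a primitive cube root of unity. -/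
theorem vert_quotient_two [IsAlgClosed k] {ρ : k} (hρ : ρ ≠ 0) {b U : L}
    (hb : Transcendental k b) (heq : b * U ^ 2 + b ^ 2 * U = algebraMap k L ρ)
    (hgen : IntermediateField.adjoin k {b, U} = ⊤) {ξ : k} (hξ : IsPrimitiveRoot ξ 3)
    {a : L ≃ₐ[k] L} (hab : a b = ξ • b) (haU : a U = ξ • U) :
    orderOf a = 3 ∧
    IntermediateField.fixedField (Subgroup.zpowers a) = k⟮U / b⟯ ∧
    IsGaloisGroup (Subgroup.zpowers a) (IntermediateField.fixedField (Subgroup.zpowers a)) L ∧
    IsGalois (IntermediateField.fixedField (Subgroup.zpowers a)) L ∧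
    finrank (IntermediateField.fixedField (Subgroup.zpowers a)) L = 3 ∧
    genusFF k (IntermediateField.fixedField (Subgroup.zpowers a)) = 0 ∧
    Fermat.Agent.Red.RiemannPkg k (IntermediateField.fixedField (Subgroup.zpowers a)) := by
  obtain ⟨htr, hrel, htop⟩ := vert_coords_two hb heq hgen
  have hn : 0 < 3 := by norm_num
  have hξ0 : ξ ≠ 0 := hξ.ne_zero hn.ne'
  have hξL : algebraMap k L ξ ≠ 0 := (_root_.map_ne_zero _).mpr hξ0
  have hζ : IsPrimitiveRoot ξ⁻¹ 3 := hξ.inv
  have hb0 : b ≠ 0 := by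
    rintro rfl
    exact hb isAlgebraic_zero
  have ht0 : b⁻¹ ≠ 0 := inv_ne_zero hb0
  have hat : a b⁻¹ = ξ⁻¹ • b⁻¹ := by
    rw [map_inv₀, hab, Algebra.smul_def, Algebra.smul_def, map_inv₀, mul_inv]
  have haw : a (U / b) = U / b := by
    rw [map_div₀, hab, haU, Algebra.smul_def, Algebra.smul_def]
    field_simp
  have hpow := ArtinSchreierGenus.cube_mem_adjoin_of_artinSchreier hρ hrel
  have hfix := fixedField_zpowers_eq hn htop ht0 hζ hat haw hpow
  refine ⟨orderOf_eq htop ht0 hζ hat haw, hfix, ?_, ?_, ?_,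
    genusFF_fixedField_zpowers hn htop htr hζ hat haw hpow,
    riemannPkg_fixedField_zpowers hn htop htr hζ hat haw hpow⟩
  · rw [hfix]
    exact isGaloisGroup_zpowers hn htop ht0 hζ hat haw hpow
  · rw [hfix]
    exact isGalois_adjoin hn htop ht0 hζ hat haw hpow
  · exact finrank_fixedField_zpowers hn htop ht0 hζ hat haw

end Two


end Fermat.Agent.BR3.VertCurve
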