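import Mathlib
import Fermat.Agent.BR3.VertCurve
import Fermat.Agent.BR3.GalTraceInst

/-!
# Program C, node A11 (HYPERELL), part 4: inertia-invariant classes on `z e` are `(q + 1)`-torsion

`L = k(b, U)`, `b U ^ q + b ^ 2 U ^ (q - 1) = ρ` the residue curve of `z e` (coordinates of I2),
`a : (b, U) ↦ (ξ b, ξ U)` the generator of the inertia action (`ξ` a primitive `(q + 1)`-th root of
unity).  The quotient by `⟨a⟩` is rational (`BR3/VertCurve.vert_quotient`), hence by the
norm–conorm formula (`BR3/GalTrace`)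

* `vert_sum_range_smul_eq_zero` : `∑ j < q + 1, (a ^ j) • x = 0` for every `x : Pic0 k L`;
* `vert_smul_eq_zero_of_fixed` : `a • x = x → (q + 1) • x = 0`;

and the twins for `q = 2` (`vert_sum_range_smul_eq_zero_two`, `vert_smul_eq_zero_of_fixed_two`,
`3 • x = 0`).  General form: `sum_range_smul_eq_zero_of_quot`, `smul_eq_zero_of_fixed_of_quot`
(setting of `BR3/HyperellQuot`).
-/

set_option autoImplicit false

open AlgebraicCurve IntermediateField Module

namespace Fermat.Agent.BR3.VertCurve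

open Fermat.Agent.BR3.HyperellQuot Fermat.Agent.BR3.GalTrace Fermat.Agent.Red

variable {k L : Type*} [Field k] [Field L] [Algebra k L]

/-- If `x` is fixed by `a` then `∑ j < n, (a ^ j) • x = n • x`. -/
theorem sum_range_smul_of_fixed (a : L ≃ₐ[k] L) (n : ℕ) (x : Pic0 k L)
    (hx : SemilinearAut.ofAlgAut a • x = x) :
    ∑ j ∈ Finset.range n, SemilinearAut.ofAlgAut (a ^ j) • x = n • x := by
  have h : ∀ j : ℕ, SemilinearAut.ofAlgAut (a ^ j) • x = x := by
    intro j
    induction j with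
    | zero => rw [pow_zero, map_one, one_smul]
    | succ j ih => rw [pow_succ, map_mul, mul_smul, hx, ih]
  rw [Finset.sum_congr rfl fun j _ => h j, Finset.sum_const, Finset.card_range]

section General

variable [IsAlgClosed k] {n : ℕ} {t w : L} {ζ : k} {a : L ≃ₐ[k] L}

/-- **General form**: in the setting of `BR3/HyperellQuot` (`L = k(t, w)`, `t ^ n ∈ k(w)`,
`a : (t, w) ↦ (ζ t, w)`) the trace of `⟨a⟩` kills `Pic0 k L`. -/
theorem sum_range_smul_eq_zero_of_quot (hn : 0 < n)
    (hgen : IntermediateField.adjoin k {t, w} = ⊤) (ht : Transcendental k t)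
    (hζ : IsPrimitiveRoot ζ n) (hat : a t = ζ • t) (haw : a w = w) (hpow : t ^ n ∈ k⟮w⟯)
    (hL : RiemannPkg k L) (x : Pic0 k L) :
    ∑ j ∈ Finset.range n, SemilinearAut.ofAlgAut (a ^ j) • x = 0 := by
  have ht0 : t ≠ 0 := by
    rintro rfl
    exact ht isAlgebraic_zero
  have ho := orderOf_eq hgen ht0 hζ hat haw
  have ha : IsOfFinOrder a := orderOf_pos_iff.mp (by rw [ho]; exact hn)
  have htr := transcendental_gen hn hgen hpow ht
  have hF := riemannPkg_adjoin_simple (k := k) htr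
  have hg := genusFF_adjoin_simple (k := k) htr
  have := hL.principal
  have := hF.principal
  have := isGaloisGroup_zpowers hn hgen ht0 hζ hat haw hpow
  have h := sum_range_smul_eq_zero_of_isGaloisGroup_zpowers (↥k⟮w⟯) a ha hL hF hg x
  rwa [ho] at h

theorem smul_eq_zero_of_fixed_of_quot (hn : 0 < n)
    (hgen : IntermediateField.adjoin k {t, w} = ⊤) (ht : Transcendental k t)
    (hζ : IsPrimitiveRoot ζ n) (hat : a t = ζ • t) (haw : a w = w) (hpow : t ^ n ∈ k⟮w⟯)
    (hL : RiemannPkg k L) (x : Pic0 k L) (hx : SemilinearAut.ofAlgAut a • x = x) :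
    n • x = 0 := by
  rw [← sum_range_smul_of_fixed a n x hx]
  exact sum_range_smul_eq_zero_of_quot hn hgen ht hζ hat haw hpow hL x

end General

/-! ## The coordinates of I2 -/

section Odd

variable [IsAlgClosed k] (q : ℕ) [hq : Fact q.Prime] [CharP k q]

omit [IsAlgClosed k] in
/-- The action of `a : (b, U) ↦ (ξ b, ξ U)` in the hyperelliptic coordinates. -/
theorem vert_action {b U : L} (hU0 : U ≠ 0) {ξ : k} (hξ0 : ξ ≠ 0) {a : L ≃ₐ[k] L}
    (hab : a b = ξ • b) (haU : a U = ξ • U) (γ : k) :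
    a (algebraMap k L γ / U) = ξ⁻¹ • (algebraMap k L γ / U) ∧
      a (4 * b / U + 2) = 4 * b / U + 2 := by
  have hξL : algebraMap k L ξ ≠ 0 := (_root_.map_ne_zero _).mpr hξ0
  constructor
  · rw [map_div₀, a.commutes, haU, Algebra.smul_def, Algebra.smul_def, map_inv₀]
    field_simp
  · rw [map_add, map_div₀, map_mul, hab, haU, map_ofNat, map_ofNat, Algebra.smul_def,
      Algebra.smul_def]
    field_simp

/-- **The trace of the inertia action kills `Pic0` of the residue curve of `z e`** (`q` odd). -/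
theorem vert_sum_range_smul_eq_zero (hq2 : q ≠ 2) {ρ : k} (hρ : ρ ≠ 0) {b U : L}
    (hb : Transcendental k b) (heq : b * U ^ q + b ^ 2 * U ^ (q - 1) = algebraMap k L ρ)
    (hgen : IntermediateField.adjoin k {b, U} = ⊤) {ξ : k} (hξ : IsPrimitiveRoot ξ (q + 1))
    {a : L ≃ₐ[k] L} (hab : a b = ξ • b) (haU : a U = ξ • U) (x : Pic0 k L) :
    ∑ j ∈ Finset.range (q + 1), SemilinearAut.ofAlgAut (a ^ j) • x = 0 := by
  have h2 := HyperGenus.two_ne_zero_of_charP (k := k) q hq2
  obtain ⟨γ, hγ0, -, hU0, htr, hrel, htop⟩ := vert_coords q h2 hρ hb heq hgen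
  have hn : 0 < q + 1 := Nat.succ_pos q
  have hξ0 : ξ ≠ 0 := hξ.ne_zero hn.ne'
  obtain ⟨hat, haw⟩ := vert_action hU0 hξ0 hab haU γ
  have hrel' : (4 * b / U + 2) ^ 2 = (algebraMap k L γ / U) ^ (q + 1) + algebraMap k L 4 := by
    rw [hrel, map_ofNat]
  exact sum_range_smul_eq_zero_of_quot hn htop htr hξ.inv hat haw
    (pow_mem_adjoin_of_sq_eq hrel') (riemannPkg_vert q hq2 hρ hb heq hgen) x

/-- **Inertia-invariant classes on the residue curve of `z e` are `(q + 1)`-torsion**
(`q` odd). -/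
theorem vert_smul_eq_zero_of_fixed (hq2 : q ≠ 2) {ρ : k} (hρ : ρ ≠ 0) {b U : L}
    (hb : Transcendental k b) (heq : b * U ^ q + b ^ 2 * U ^ (q - 1) = algebraMap k L ρ)
    (hgen : IntermediateField.adjoin k {b, U} = ⊤) {ξ : k} (hξ : IsPrimitiveRoot ξ (q + 1))
    {a : L ≃ₐ[k] L} (hab : a b = ξ • b) (haU : a U = ξ • U) (x : Pic0 k L)
    (hx : SemilinearAut.ofAlgAut a • x = x) : (q + 1) • x = 0 := by
  rw [← sum_range_smul_of_fixed a (q + 1) x hx]
  exact vert_sum_range_smul_eq_zero q hq2 hρ hb heq hgen hξ hab haU x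

end Odd

section Two

variable [IsAlgClosed k] [CharP k 2]

/-- The trace of the inertia action kills `Pic0` of the residue curve of `z e` (`q = 2`). -/
theorem vert_sum_range_smul_eq_zero_two {ρ : k} (hρ : ρ ≠ 0) {b U : L}
    (hb : Transcendental k b) (heq : b * U ^ 2 + b ^ 2 * U = algebraMap k L ρ)
    (hgen : IntermediateField.adjoin k {b, U} = ⊤) {ξ : k} (hξ : IsPrimitiveRoot ξ 3)
    {a : L ≃ₐ[k] L} (hab : a b = ξ • b) (haU : a U = ξ • U) (x : Pic0 k L) :
    ∑ j ∈ Finset.range 3, SemilinearAut.ofAlgAut (a ^ j) • x = 0 := by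
  obtain ⟨htr, hrel, htop⟩ := vert_coords_two hb heq hgen
  have hn : 0 < 3 := by norm_num
  have hξ0 : ξ ≠ 0 := hξ.ne_zero hn.ne'
  have hξL : algebraMap k L ξ ≠ 0 := (_root_.map_ne_zero _).mpr hξ0
  have hat : a b⁻¹ = ξ⁻¹ • b⁻¹ := by
    rw [map_inv₀, hab, Algebra.smul_def, Algebra.smul_def, map_inv₀, mul_inv]
  have haw : a (U / b) = U / b := by
    have hb0 : b ≠ 0 := by
      rintro rfl
      exact hb isAlgebraic_zero
    rw [map_div₀, hab, haU, Algebra.smul_def, Algebra.smul_def]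
    field_simp
  exact sum_range_smul_eq_zero_of_quot hn htop htr hξ.inv hat haw
    (ArtinSchreierGenus.cube_mem_adjoin_of_artinSchreier hρ hrel)
    (riemannPkg_vert_two hρ hb heq hgen) x

/-- Inertia-invariant classes on the residue curve of `z e` are `3`-torsion (`q = 2`). -/
theorem vert_smul_eq_zero_of_fixed_two {ρ : k} (hρ : ρ ≠ 0) {b U : L}
    (hb : Transcendental k b) (heq : b * U ^ 2 + b ^ 2 * U = algebraMap k L ρ)
    (hgen : IntermediateField.adjoin k {b, U} = ⊤) {ξ : k} (hξ : IsPrimitiveRoot ξ 3)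
    {a : L ≃ₐ[k] L} (hab : a b = ξ • b) (haU : a U = ξ • U) (x : Pic0 k L)
    (hx : SemilinearAut.ofAlgAut a • x = x) : 3 • x = 0 := by
  rw [← sum_range_smul_of_fixed a 3 x hx]
  exact vert_sum_range_smul_eq_zero_two hρ hb heq hgen hξ hab haU x

end Two

end Fermat.Agent.BR3.VertCurve
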