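import Mathlib
import Fermat.Agent.BR3.VertResidue
import Fermat.Agent.BR3.VertKill

/-!
# Program C, node (I2-RES): the residue field `AdjoinRoot (vertBar q β ρ)` of `z e`

`GaussExt` produces the residue field of the vertical component `z e` as
`L = AdjoinRoot P` over `κ = RatFunc k`, `P = vertBar q β ρ = X^q + (βT) X^(q-1) - ρ/(βT)`
(`BR3/VertResidue`).  This file discharges the hypotheses `hb`, `heq`, `hgen` of
`BR3/VertCurve` / `BR3/VertKill` for `b := AdjoinRoot.of P (β T)`, `U := AdjoinRoot.root P`: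

* general form over any field `κ / k` and `B : κ` with `k(B) = κ`:
  `P = X^q + B X^(q-1) - ρ/B` irreducible: `adjoinRoot_heq`, `adjoinRoot_transcendental`,
  `adjoinRoot_adjoin_eq_top`;
* for `vertBar q β ρ` : `vertBar_heq`, `vertBar_hb`, `vertBar_hgen`, and the consequences
  `genusFF_vertBar` (`(q - 1) / 2`, `q` odd), `riemannPkg_vertBar`, `genusFF_vertBar_two` (`1`),
  `riemannPkg_vertBar_two`, `vertBar_smul_eq_zero_of_fixed`, `vertBar_smul_eq_zero_of_fixed_two`.
-/

set_option autoImplicit false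

open AlgebraicCurve IntermediateField Polynomial

namespace Fermat.Agent.BR3.VertResField

section General

variable {k κ : Type*} [Field k] [Field κ] [Algebra k κ] {q : ℕ} {B : κ} {ρ : k} {P : κ[X]}

/-- The relation `b U^q + b² U^(q-1) = ρ` in `AdjoinRoot P`. -/
theorem adjoinRoot_heq (hPdef : P = X ^ q + C B * X ^ (q - 1) + C (-(algebraMap k κ ρ / B)))
    (hB : B ≠ 0) :
    AdjoinRoot.of P B * AdjoinRoot.root P ^ q +
      AdjoinRoot.of P B ^ 2 * AdjoinRoot.root P ^ (q - 1) = algebraMap k (AdjoinRoot P) ρ := by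
  have h0 : Polynomial.aeval (AdjoinRoot.root P) P = 0 := by
    rw [AdjoinRoot.aeval_eq, AdjoinRoot.mk_self]
  have h1 : AdjoinRoot.root P ^ q + AdjoinRoot.of P B * AdjoinRoot.root P ^ (q - 1) -
      AdjoinRoot.of P (algebraMap k κ ρ / B) = 0 := by
    have h2 : Polynomial.aeval (AdjoinRoot.root P)
        (X ^ q + C B * X ^ (q - 1) + C (-(algebraMap k κ ρ / B))) = 0 := by
      rw [← hPdef]
      exact h0
    simp only [map_add, map_mul, map_pow, aeval_X, aeval_C, map_neg, AdjoinRoot.algebraMap_eq]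
      at h2
    rw [← h2]
    ring
  have h3 : algebraMap k (AdjoinRoot P) ρ = AdjoinRoot.of P (algebraMap k κ ρ) := by
    rw [IsScalarTower.algebraMap_apply k κ (AdjoinRoot P), AdjoinRoot.algebraMap_eq]
  have h4 : AdjoinRoot.of P B * AdjoinRoot.of P (algebraMap k κ ρ / B) =
      AdjoinRoot.of P (algebraMap k κ ρ) := by
    rw [← map_mul, mul_div_cancel₀ _ hB]
  rw [h3, ← h4]
  linear_combination (AdjoinRoot.of P B) * h1

variable [hP : Fact (Irreducible P)]

/-- `b = of B` is transcendental over `k` when `B` is. -/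
theorem adjoinRoot_transcendental (hB : Transcendental k B) :
    Transcendental k (AdjoinRoot.of P B) := by
  have hinj : Function.Injective (algebraMap κ (AdjoinRoot P)) :=
    (algebraMap κ (AdjoinRoot P)).injective
  rw [← AdjoinRoot.algebraMap_eq]
  exact (transcendental_algebraMap_iff hinj).mpr hB

/-- `b` and `U` generate `AdjoinRoot P` over `k` when `B` generates `κ`. -/
theorem adjoinRoot_adjoin_eq_top (hgenB : k⟮B⟯ = ⊤) :
    IntermediateField.adjoin k {AdjoinRoot.of P B, AdjoinRoot.root P} = ⊤ := by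
  set E := IntermediateField.adjoin k {AdjoinRoot.of P B, AdjoinRoot.root P} with hE
  have hb : AdjoinRoot.of P B ∈ E :=
    IntermediateField.subset_adjoin k _ (Set.mem_insert _ _)
  have hU : AdjoinRoot.root P ∈ E :=
    IntermediateField.subset_adjoin k _ (Set.mem_insert_of_mem _ (Set.mem_singleton _))
  -- all of `κ` lands in `E`
  have hκ : ∀ r : κ, AdjoinRoot.of P r ∈ E := by
    intro r
    have hle : k⟮B⟯ ≤ E.comap (IsScalarTower.toAlgHom k κ (AdjoinRoot P)) := by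
      rw [IntermediateField.adjoin_simple_le_iff]
      show algebraMap κ (AdjoinRoot P) B ∈ E
      rw [AdjoinRoot.algebraMap_eq]
      exact hb
    have hr : r ∈ E.comap (IsScalarTower.toAlgHom k κ (AdjoinRoot P)) :=
      hle (hgenB ▸ IntermediateField.mem_top)
    have hr' : algebraMap κ (AdjoinRoot P) r ∈ E := hr
    rwa [AdjoinRoot.algebraMap_eq] at hr'
  rw [eq_top_iff]
  intro x _
  induction x using AdjoinRoot.induction_on with
  | ih p =>
    rw [← AdjoinRoot.aeval_eq, Polynomial.aeval_eq_sum_range]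
    refine sum_mem fun i _ => ?_
    rw [Algebra.smul_def, AdjoinRoot.algebraMap_eq]
    exact mul_mem (hκ _) (pow_mem hU i)

end General

/-! ## The polynomial `vertBar q β ρ` -/

section VertBar

open Fermat.Agent.BR3.VertResidue Fermat.Agent.BR3.VertCurve

variable {k : Type*} [Field k] {q : ℕ} {β ρ : k}

local notation "T" => (RatFunc.X : RatFunc k)

theorem vertBar_def' (q : ℕ) (β ρ : k) :
    vertBar q β ρ = X ^ q + C (RatFunc.C β * T) * X ^ (q - 1) +
      C (-(algebraMap k (RatFunc k) ρ / (RatFunc.C β * T))) := by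
  rw [RatFunc.algebraMap_eq_C]
  rfl

theorem C_mul_X_ne_zero (hβ : β ≠ 0) : (RatFunc.C β * T : RatFunc k) ≠ 0 :=
  mul_ne_zero ((_root_.map_ne_zero _).mpr hβ) RatFunc.X_ne_zero

theorem X_eq_smul (hβ : β ≠ 0) : (T : RatFunc k) = β⁻¹ • (RatFunc.C β * T) := by
  rw [Algebra.smul_def, RatFunc.algebraMap_eq_C, ← mul_assoc, ← map_mul, inv_mul_cancel₀ hβ,
    map_one, one_mul]

theorem transcendental_C_mul_X (hβ : β ≠ 0) : Transcendental k (RatFunc.C β * T : RatFunc k) := by
  intro h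
  apply RatFunc.transcendental_X (K := k)
  rw [X_eq_smul hβ, Algebra.smul_def]
  exact (isAlgebraic_algebraMap _).mul h

theorem adjoin_C_mul_X (hβ : β ≠ 0) : k⟮(RatFunc.C β * T : RatFunc k)⟯ = ⊤ := by
  rw [eq_top_iff, ← RatFunc.adjoin_X (K := k), IntermediateField.adjoin_simple_le_iff]
  have h := IntermediateField.mem_adjoin_simple_self k (RatFunc.C β * T : RatFunc k)
  have h2 : β⁻¹ • (RatFunc.C β * T : RatFunc k) ∈ k⟮(RatFunc.C β * T : RatFunc k)⟯ :=
    IntermediateField.smul_mem _ h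
  rwa [← X_eq_smul hβ] at h2

theorem fact_irreducible_vertBar (hq : 2 ≤ q) (hβ : β ≠ 0) (hρ : ρ ≠ 0) :
    Fact (Irreducible (vertBar q β ρ)) :=
  ⟨vertBar_irreducible hq hβ hρ⟩

variable [hP : Fact (Irreducible (vertBar q β ρ))]

/-- `heq` for the residue field of `z e`. -/
theorem vertBar_heq (hβ : β ≠ 0) :
    AdjoinRoot.of (vertBar q β ρ) (RatFunc.C β * T) * AdjoinRoot.root (vertBar q β ρ) ^ q +
      AdjoinRoot.of (vertBar q β ρ) (RatFunc.C β * T) ^ 2 *
        AdjoinRoot.root (vertBar q β ρ) ^ (q - 1) =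
      algebraMap k (AdjoinRoot (vertBar q β ρ)) ρ :=
  adjoinRoot_heq (vertBar_def' q β ρ) (C_mul_X_ne_zero hβ)

/-- `hb` for the residue field of `z e`. -/
theorem vertBar_hb (hβ : β ≠ 0) :
    Transcendental k (AdjoinRoot.of (vertBar q β ρ) (RatFunc.C β * T)) :=
  adjoinRoot_transcendental (transcendental_C_mul_X hβ)

/-- `hgen` for the residue field of `z e`. -/
theorem vertBar_hgen (hβ : β ≠ 0) :
    IntermediateField.adjoin k {AdjoinRoot.of (vertBar q β ρ) (RatFunc.C β * T),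
      AdjoinRoot.root (vertBar q β ρ)} = ⊤ :=
  adjoinRoot_adjoin_eq_top (adjoin_C_mul_X hβ)

end VertBar

section Consequences

open Fermat.Agent.BR3.VertResidue Fermat.Agent.BR3.VertCurve

variable {k : Type*} [Field k] [IsAlgClosed k]

local notation "T" => (RatFunc.X : RatFunc k)

section Odd

variable (q : ℕ) [hq : Fact q.Prime] [CharP k q] {β ρ : k}
  [hP : Fact (Irreducible (vertBar q β ρ))]

/-- **The residue field of `z e` has genus `(q - 1) / 2`** (`q` odd). -/
theorem genusFF_vertBar (hq2 : q ≠ 2) (hβ : β ≠ 0) (hρ : ρ ≠ 0) :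
    genusFF k (AdjoinRoot (vertBar q β ρ)) = (q - 1) / 2 :=
  genusFF_vert q hq2 hρ (vertBar_hb hβ) (vertBar_heq hβ) (vertBar_hgen hβ)

/-- The Riemann package of the residue field of `z e` (`q` odd). -/
theorem riemannPkg_vertBar (hq2 : q ≠ 2) (hβ : β ≠ 0) (hρ : ρ ≠ 0) :
    Fermat.Agent.Red.RiemannPkg k (AdjoinRoot (vertBar q β ρ)) :=
  riemannPkg_vert q hq2 hρ (vertBar_hb hβ) (vertBar_heq hβ) (vertBar_hgen hβ)

/-- **Inertia-invariant classes on `z e` are `(q + 1)`-torsion** (`q` odd): for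
`a : (b̃, Ũ) ↦ (ξ b̃, ξ Ũ)`. -/
theorem vertBar_smul_eq_zero_of_fixed (hq2 : q ≠ 2) (hβ : β ≠ 0) (hρ : ρ ≠ 0) {ξ : k}
    (hξ : IsPrimitiveRoot ξ (q + 1))
    {a : AdjoinRoot (vertBar q β ρ) ≃ₐ[k] AdjoinRoot (vertBar q β ρ)}
    (hab : a (AdjoinRoot.of (vertBar q β ρ) (RatFunc.C β * T)) =
      algebraMap k (AdjoinRoot (vertBar q β ρ)) ξ *
        AdjoinRoot.of (vertBar q β ρ) (RatFunc.C β * T))
    (haU : a (AdjoinRoot.root (vertBar q β ρ)) =
      algebraMap k (AdjoinRoot (vertBar q β ρ)) ξ * AdjoinRoot.root (vertBar q β ρ))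
    (x : Pic0 k (AdjoinRoot (vertBar q β ρ))) (hx : SemilinearAut.ofAlgAut a • x = x) :
    (q + 1) • x = 0 := by
  have hab' : a (AdjoinRoot.of (vertBar q β ρ) (RatFunc.C β * T)) =
      ξ • (AdjoinRoot.of (vertBar q β ρ) (RatFunc.C β * T)) := by
    rw [hab, Algebra.smul_def]
  have haU' : a (AdjoinRoot.root (vertBar q β ρ)) = ξ • AdjoinRoot.root (vertBar q β ρ) := by
    rw [haU, Algebra.smul_def]
  have h1 := vertBar_hb (q := q) (ρ := ρ) hβ
  have h2 := vertBar_heq (q := q) (ρ := ρ) hβ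
  have h3 := vertBar_hgen (q := q) (ρ := ρ) hβ
  have h4 := vert_smul_eq_zero_of_fixed (L := AdjoinRoot (vertBar q β ρ)) q hq2 hρ h1 h2 h3 hξ
    hab' haU'
  exact h4 x hx

end Odd

section Two

variable [CharP k 2] {β ρ : k} [hP : Fact (Irreducible (vertBar 2 β ρ))]

omit [IsAlgClosed k] [CharP k 2] in
theorem vertBar_heq_two (hβ : β ≠ 0) :
    AdjoinRoot.of (vertBar 2 β ρ) (RatFunc.C β * T) * AdjoinRoot.root (vertBar 2 β ρ) ^ 2 +
      AdjoinRoot.of (vertBar 2 β ρ) (RatFunc.C β * T) ^ 2 * AdjoinRoot.root (vertBar 2 β ρ) =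
      algebraMap k (AdjoinRoot (vertBar 2 β ρ)) ρ := by
  have h := vertBar_heq (q := 2) (ρ := ρ) hβ
  simpa using h

omit [IsAlgClosed k] in
/-- **The residue field of `z e` has genus one for `q = 2`.** -/
theorem genusFF_vertBar_two (hβ : β ≠ 0) (hρ : ρ ≠ 0) :
    genusFF k (AdjoinRoot (vertBar 2 β ρ)) = 1 :=
  genusFF_vert_two hρ (vertBar_hb hβ) (vertBar_heq_two hβ) (vertBar_hgen hβ)

/-- The Riemann package of the residue field of `z e` for `q = 2`. -/
theorem riemannPkg_vertBar_two (hβ : β ≠ 0) (hρ : ρ ≠ 0) :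
    Fermat.Agent.Red.RiemannPkg k (AdjoinRoot (vertBar 2 β ρ)) :=
  riemannPkg_vert_two hρ (vertBar_hb hβ) (vertBar_heq_two hβ) (vertBar_hgen hβ)

/-- Inertia-invariant classes on `z e` are `3`-torsion for `q = 2`. -/
theorem vertBar_smul_eq_zero_of_fixed_two (hβ : β ≠ 0) (hρ : ρ ≠ 0) {ξ : k}
    (hξ : IsPrimitiveRoot ξ 3)
    {a : AdjoinRoot (vertBar 2 β ρ) ≃ₐ[k] AdjoinRoot (vertBar 2 β ρ)}
    (hab : a (AdjoinRoot.of (vertBar 2 β ρ) (RatFunc.C β * T)) =
      algebraMap k (AdjoinRoot (vertBar 2 β ρ)) ξ *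
        AdjoinRoot.of (vertBar 2 β ρ) (RatFunc.C β * T))
    (haU : a (AdjoinRoot.root (vertBar 2 β ρ)) =
      algebraMap k (AdjoinRoot (vertBar 2 β ρ)) ξ * AdjoinRoot.root (vertBar 2 β ρ))
    (x : Pic0 k (AdjoinRoot (vertBar 2 β ρ))) (hx : SemilinearAut.ofAlgAut a • x = x) :
    3 • x = 0 := by
  have hab' : a (AdjoinRoot.of (vertBar 2 β ρ) (RatFunc.C β * T)) =
      ξ • (AdjoinRoot.of (vertBar 2 β ρ) (RatFunc.C β * T)) := by
    rw [hab, Algebra.smul_def]
  have haU' : a (AdjoinRoot.root (vertBar 2 β ρ)) = ξ • AdjoinRoot.root (vertBar 2 β ρ) := by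
    rw [haU, Algebra.smul_def]
  have h1 := vertBar_hb (q := 2) (ρ := ρ) hβ
  have h2 := vertBar_heq_two (ρ := ρ) hβ
  have h3 := vertBar_hgen (q := 2) (ρ := ρ) hβ
  have h4 := vert_smul_eq_zero_of_fixed_two (L := AdjoinRoot (vertBar 2 β ρ)) hρ h1 h2 h3 hξ
    hab' haU'
  exact h4 x hx

end Two

end Consequences

end Fermat.Agent.BR3.VertResField
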