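import Fermat.Agent.BR3.RegAtlasTube
import Fermat.Agent.BR3.CoverSheetInf.ValueEt
import Fermat.Agent.BR3.CoverK.Chart
import Fermat.Agent.BR3.VertSheet.Modular

/-!
# Program C, node SC6 (part 2b): the chart of `cZero` at the finite non-crossing points, built
along `β₂`

`H : AtlasHyp (chartDataModular B hB hqM) (jx M q)` the atlas of `S'`, `Q'` a place of `F̃_M` with
`j̃` regular at `Q'` which is not a crossing point of `et` (component `1`).  Over the regular chart
`RegAtlas.regChartEt` of `et` at `Q'` and the sheet `CZeroSheet.coverSheet_cZero_chart`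
(generator `ThetaZ = α₂ T'`), the engine `CoverK.coverRegChartOfConstRed` gives the regular chart
of `cZero` at `Q'` on the tube `coverTube B {P | H.r P = ⟨1, Q'⟩} ThetaZ (u ^ q)`
(`F̄_{Mq²}` as an extension of `F̄_{Mq}` ALONG `β₂`).

* `exists_value_TB'_et` : the reduction of `T'` on `et` has a nonzero finite value at `Q'`;
* `uZero` : a lift to `B` of this value; `uZero_spec`;
* `cZeroTube`, `cZeroChart : RegChart B cZero.O cZero.res Q' (cZeroTube …)`,
  `cZeroChart_t`, `cZeroChart_R`; `cZeroSmooth := (cZeroChart …).chart`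
  (the field `smZero` of `SDD.CaseInput` at the finite points).
-/

set_option autoImplicit false
set_option linter.unusedSectionVars false
set_option linter.style.haveILetI false

noncomputable section

/- S36 build-time patch: file-local shortcut instances. They only shorten instance search;
each is the instance that the search finds anyway (reducible, same terms after unfolding). -/
local instance (priority := 100000) Fermat.Agent.BR3.FastInst.instAlgFullC_CZeroChart
    {k : Type*} [Field k] (N : ℕ) :
    Algebra k ↥(ModularCurve.modularFunctionFieldFullC k N) := inferInstance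
local instance (priority := 100000) Fermat.Agent.BR3.FastInst.instFieldFullC_CZeroChart
    {k : Type*} [Field k] (N : ℕ) :
    Field ↥(ModularCurve.modularFunctionFieldFullC k N) := inferInstance
local instance (priority := 100000) Fermat.Agent.BR3.FastInst.instAlgLaurent_CZeroChart
    {k : Type*} [Field k] : Algebra k (LaurentSeries k) := inferInstance


namespace Fermat.Agent.BR3.CZeroChart

open ModularCurve AlgebraicCurve IsLocalRing Polynomial
open Fermat.Agent.X0 Fermat.Agent.Val Fermat.Agent.Red Fermat.Agent.BR.Centre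
open Fermat.Agent.Hecke.AL Fermat.Agent.BR.TwoVal Fermat.Agent.BR.TwoValInst
open Fermat.Agent.BR.ConstRedTwo Fermat.Agent.BR.ResGen Fermat.Agent.BR.ModUnit
open Fermat.Agent.BR.S0
open Fermat.Agent.BR.S0.RedModular Fermat.Agent.BR.S0.RedHyp Fermat.Agent.BR.S0.PointDict
open Fermat.Agent.BR3.CoverK Fermat.Agent.BR3.FibreProd Fermat.Agent.BR3.CZeroSheet
open Fermat.Agent.BR3.CZeroRes Fermat.Agent.BR3.RegAtlas Fermat.Agent.BR3.CoverSheetInf

set_option synthInstance.maxHeartbeats 400000

variable {M q : ℕ} [NeZero M] [hqF : Fact q.Prime]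
variable (B : ValuationSubring Kb) (hB : B.LiesOverPrime q) (hqM : ¬ q ∣ M)

local notation "kB" => IsLocalRing.ResidueField B
local notation "FtM" => modularFunctionFieldFullC (IsLocalRing.ResidueField B) M

/-- **The reduction of `T'` on `et` has a nonzero finite value at every finite non-crossing point
of `et`.** -/
theorem exists_value_TB'_et (H : AtlasHyp (chartDataModular B hB hqM) (jx M q))
    (Q' : Place kB FtM)
    (hnc : ∀ e : Crossing (chartDataModular B hB hqM), Q' ≠ z₂ (chartDataModular B hB hqM) e)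
    (hj : jFullC kB M ∈ Q'.toValuationSubring) :
    ∃ u : B, IsValueAt Q' ((constRedW2 B hB hqM).res ⟨TB' M q, TB'_mem_O2 M q B hB hqM⟩)
      (IsLocalRing.residue B u) ∧ IsLocalRing.residue B u ≠ 0 := by
  rw [Fermat.Agent.BR3.CZeroSheet.constRedW2_res_TB' B hB hqM]
  exact exists_value_TB_of_not_crossing_et B hB hqM H Q' hnc hj

/-- A lift to `B` of the value of the reduction of `T'` at the point. -/
def uZero (H : AtlasHyp (chartDataModular B hB hqM) (jx M q)) (Q' : Place kB FtM)
    (hnc : ∀ e : Crossing (chartDataModular B hB hqM), Q' ≠ z₂ (chartDataModular B hB hqM) e)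
    (hj : jFullC kB M ∈ Q'.toValuationSubring) : B :=
  (exists_value_TB'_et B hB hqM H Q' hnc hj).choose

theorem uZero_spec (H : AtlasHyp (chartDataModular B hB hqM) (jx M q)) (Q' : Place kB FtM)
    (hnc : ∀ e : Crossing (chartDataModular B hB hqM), Q' ≠ z₂ (chartDataModular B hB hqM) e)
    (hj : jFullC kB M ∈ Q'.toValuationSubring) :
    IsValueAt Q' ((constRedW2 B hB hqM).res ⟨TB' M q, TB'_mem_O2 M q B hB hqM⟩)
      (IsLocalRing.residue B (uZero B hB hqM H Q' hnc hj)) ∧
      IsLocalRing.residue B (uZero B hB hqM H Q' hnc hj) ≠ 0 :=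
  (exists_value_TB'_et B hB hqM H Q' hnc hj).choose_spec

/-- **The tube of the point of `cZero` over the finite non-crossing point `Q'` of `et`** (built
along `β₂`): the places of `F̄_{Mq²}` over the tube of `Q'` at which `α₂ T' ≡ u^q`. -/
def cZeroTube (H : AtlasHyp (chartDataModular B hB hqM) (jx M q)) (Q' : Place kB FtM)
    (hnc : ∀ e : Crossing (chartDataModular B hB hqM), Q' ≠ z₂ (chartDataModular B hB hqM) e)
    (hj : jFullC kB M ∈ Q'.toValuationSubring) : Set (Place Kb (Fb (M * q * q))) :=
  letI := algebraAlong (beta2 M q)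
  haveI := isScalarTower_along (beta2 M q)
  haveI : Module.Finite (Fb (M * q)) (Fb (M * q * q)) :=
    Fermat.Agent.Hecke.finiteAlong_heckeBetaBar (M * q) q
  coverTube B {P | H.r P = ⟨1, Q'⟩} (ThetaZ M q) (uZero B hB hqM H Q' hnc hj ^ q)

/-- the sheet of `cZero` over the regular chart of `et` at the point -/
theorem coverSheet_cZero_regChartEt (H : AtlasHyp (chartDataModular B hB hqM) (jx M q))
    (Q' : Place kB FtM)
    (hnc : ∀ e : Crossing (chartDataModular B hB hqM), Q' ≠ z₂ (chartDataModular B hB hqM) e)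
    (hj : jFullC kB M ∈ Q'.toValuationSubring) :
    letI := algebraAlong (beta2 M q)
    haveI := isScalarTower_along (beta2 M q)
    CoverSheet B (IsLocalRing.residue B) (constRedW2 B hB hqM).O (constRedW2 B hB hqM).res Q'
      (constRedCZero B hB hqM).O (constRedCZero B hB hqM).res Q'
      (regChartEt B hB hqM H Q' hnc).chart.R (ThetaZ M q)
      (PsiThetaZ hqM) (X - Polynomial.C (TB' M q ^ q)) (X ^ (q - 1))
      (uZero B hB hqM H Q' hnc hj ^ q) :=
  coverSheet_cZero_chart B hB hqM Q' _ (regChartEt B hB hqM H Q' hnc)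
    (ord_jBar_nonneg_one B hB hqM H hj) (ord_jq'_nonneg_one B hB hqM H hj) _
    (uZero_spec B hB hqM H Q' hnc hj).1 (uZero_spec B hB hqM H Q' hnc hj).2

/-- **The regular chart of `cZero` at a finite non-crossing point**, built along `β₂` over the
chart of `et` of `S'`. -/
def cZeroChart (H : AtlasHyp (chartDataModular B hB hqM) (jx M q)) (Q' : Place kB FtM)
    (hnc : ∀ e : Crossing (chartDataModular B hB hqM), Q' ≠ z₂ (chartDataModular B hB hqM) e)
    (hj : jFullC kB M ∈ Q'.toValuationSubring) :
    RegChart B (constRedCZero B hB hqM).O (constRedCZero B hB hqM).res Q'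
      (cZeroTube B hB hqM H Q' hnc hj) := by
  letI := algebraAlong (beta2 M q)
  haveI := isScalarTower_along (beta2 M q)
  haveI : Module.Finite (Fb (M * q)) (Fb (M * q * q)) :=
    Fermat.Agent.Hecke.finiteAlong_heckeBetaBar (M * q) q
  exact coverRegChartOfConstRed (constRedW2 B hB hqM) (regChartEt B hB hqM H Q' hnc)
    (coverSheet_cZero_regChartEt B hB hqM H Q' hnc hj)
    (Fermat.Agent.BR3.VertSheet.arch_of_isRankOne (Fermat.Agent.Val.isRankOne B hB))

/-- the parameter of the chart of `cZero` is the parameter of the chart of `et`, pulled back by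
`β₂` -/
theorem cZeroChart_t (H : AtlasHyp (chartDataModular B hB hqM) (jx M q)) (Q' : Place kB FtM)
    (hnc : ∀ e : Crossing (chartDataModular B hB hqM), Q' ≠ z₂ (chartDataModular B hB hqM) e)
    (hj : jFullC kB M ∈ Q'.toValuationSubring) :
    (cZeroChart B hB hqM H Q' hnc hj).chart.t =
      beta2 M q (regChartEt B hB hqM H Q' hnc).chart.t := rfl

/-- **The smooth chart of `cZero` at a finite non-crossing point** (the field `smZero` of
`SDD.CaseInput` at the finite points). -/
def cZeroSmooth (H : AtlasHyp (chartDataModular B hB hqM) (jx M q)) (Q' : Place kB FtM)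
    (hnc : ∀ e : Crossing (chartDataModular B hB hqM), Q' ≠ z₂ (chartDataModular B hB hqM) e)
    (hj : jFullC kB M ∈ Q'.toValuationSubring) :
    SmoothChart B (constRedCZero B hB hqM).O (constRedCZero B hB hqM).res Q'
      (cZeroTube B hB hqM H Q' hnc hj) :=
  (cZeroChart B hB hqM H Q' hnc hj).chart

/-- the places of the tube lie over the tube of `et` (along `β₂`) -/
theorem restrict_mem_of_mem_cZeroTube (H : AtlasHyp (chartDataModular B hB hqM) (jx M q))
    (Q' : Place kB FtM)
    (hnc : ∀ e : Crossing (chartDataModular B hB hqM), Q' ≠ z₂ (chartDataModular B hB hqM) e)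
    (hj : jFullC kB M ∈ Q'.toValuationSubring) {P : Place Kb (Fb (M * q * q))}
    (hP : P ∈ cZeroTube B hB hqM H Q' hnc hj) :
    letI := algebraAlong (beta2 M q)
    haveI := isScalarTower_along (beta2 M q)
    haveI : Module.Finite (Fb (M * q)) (Fb (M * q * q)) :=
      Fermat.Agent.Hecke.finiteAlong_heckeBetaBar (M * q) q
    H.r (P.restrict (Fb (M * q))) = ⟨1, Q'⟩ :=
  hP.1

/-- the same with `Place.restrictAlong` -/
theorem restrictAlong_mem_of_mem_cZeroTube (H : AtlasHyp (chartDataModular B hB hqM) (jx M q))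
    (Q' : Place kB FtM)
    (hnc : ∀ e : Crossing (chartDataModular B hB hqM), Q' ≠ z₂ (chartDataModular B hB hqM) e)
    (hj : jFullC kB M ∈ Q'.toValuationSubring) (hβ : (beta2 M q).toRingHom.IsIntegral)
    {P : Place Kb (Fb (M * q * q))} (hP : P ∈ cZeroTube B hB hqM H Q' hnc hj) :
    H.r (P.restrictAlong (beta2 M q) hβ) = ⟨1, Q'⟩ :=
  hP.1

/-- the places of the tube are those over the tube of `et` at which `α₂ T' ≡ u^q` -/
theorem mem_cZeroTube_iff (H : AtlasHyp (chartDataModular B hB hqM) (jx M q))
    (Q' : Place kB FtM)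
    (hnc : ∀ e : Crossing (chartDataModular B hB hqM), Q' ≠ z₂ (chartDataModular B hB hqM) e)
    (hj : jFullC kB M ∈ Q'.toValuationSubring) (hβ : (beta2 M q).toRingHom.IsIntegral)
    {P : Place Kb (Fb (M * q * q))} :
    P ∈ cZeroTube B hB hqM H Q' hnc hj ↔
      H.r (P.restrictAlong (beta2 M q) hβ) = ⟨1, Q'⟩ ∧
        ∃ c : Kb, IsValueAt P (ThetaZ M q) c ∧
          B.valuation (c - (uZero B hB hqM H Q' hnc hj ^ q : B)) < 1 :=
  Iff.rfl

/-- the local ring of the chart of `cZero` -/
theorem cZeroChart_R (H : AtlasHyp (chartDataModular B hB hqM) (jx M q)) (Q' : Place kB FtM)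
    (hnc : ∀ e : Crossing (chartDataModular B hB hqM), Q' ≠ z₂ (chartDataModular B hB hqM) e)
    (hj : jFullC kB M ∈ Q'.toValuationSubring) :
    letI := algebraAlong (beta2 M q)
    (cZeroChart B hB hqM H Q' hnc hj).chart.R =
      Fermat.Agent.BR3.CoverDiv.coverRing (regChartEt B hB hqM H Q' hnc).chart.R (ThetaZ M q)
        (constRedCZero B hB hqM).O (constRedCZero B hB hqM).res Q' := rfl

end Fermat.Agent.BR3.CZeroChart
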