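import Fermat.Agent.BR3.CZeroChart
import Fermat.Agent.BR3.CuspSheet.Chart
import Fermat.Agent.BR3.CInfChartCusp

/-!
# Program C, node SC6 (part 2c): the chart of `cZero` at the cusps of `et`, built along `β₂`

Mirror of helper2's SC2 (`CuspSheet.coverSheet_cInf_cusp`) through `W_q`, `W_{q²}`.
`H : AtlasHyp (chartDataModular B hB hqM) (jx M q)` the atlas of `S'`, `Q` a cusp of `et`
(`1/j̃` vanishes at `Q`).

* `integralAt_chartInf_one`, `ord_nonneg_of_mem_chartInf_one`, `chartInf_le_regChartEt` : the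
  chart at infinity on the tube of a cusp of the component `1`;
* `cuspRing_map_Wq_le_regChartEt` : the mirror coefficient ring (integral over `ℤ[1/j]`) lies in
  the ring of the regular chart `RegAtlas.regChartEt` at the cusp;
* `thetaZeroCusp hqM := W_{q²} θ∞`, `psiZeroCusp hqM := W_q ψ∞`;
* `coverSheet_cZero_cusp`, `coverSheet_cZero_cusp_chart` : the sheet of `cZero` at the cusp along
  `β₂` (`ψ = X - 1`, `u = 1`);
* `cZeroTubeCusp`, `cZeroChartCusp`, `cZeroChartCusp_t`, `cZeroSmoothCusp`.
-/

set_option autoImplicit false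
set_option linter.unusedSectionVars false
set_option linter.style.haveILetI false

noncomputable section

/- S36 build-time patch: file-local shortcut instances. They only shorten instance search;
each is the instance that the search finds anyway (reducible, same terms after unfolding). -/
local instance (priority := 100000) Fermat.Agent.BR3.FastInst.instAlgFullC_CZeroChartCusp
    {k : Type*} [Field k] (N : ℕ) :
    Algebra k ↥(ModularCurve.modularFunctionFieldFullC k N) := inferInstance
local instance (priority := 100000) Fermat.Agent.BR3.FastInst.instFieldFullC_CZeroChartCusp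
    {k : Type*} [Field k] (N : ℕ) :
    Field ↥(ModularCurve.modularFunctionFieldFullC k N) := inferInstance
local instance (priority := 100000) Fermat.Agent.BR3.FastInst.instAlgLaurent_CZeroChartCusp
    {k : Type*} [Field k] : Algebra k (LaurentSeries k) := inferInstance


namespace Fermat.Agent.BR3.CZeroChartCusp

open ModularCurve AlgebraicCurve IsLocalRing Polynomial
open Fermat.Agent.X0 Fermat.Agent.Val Fermat.Agent.Red Fermat.Agent.BR.Centre
open Fermat.Agent.Hecke.AL Fermat.Agent.BR.TwoVal Fermat.Agent.BR.TwoValInst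
open Fermat.Agent.BR.ConstRedTwo Fermat.Agent.BR.ResGen Fermat.Agent.BR.ModUnit
open Fermat.Agent.BR.S0
open Fermat.Agent.BR.S0.RedModular Fermat.Agent.BR.S0.RedHyp Fermat.Agent.BR.S0.PointDict
open Fermat.Agent.BR.Inst.SmoothModularAll Fermat.Agent.BR.Inst.CkPointModular
open Fermat.Agent.BR3.CoverK Fermat.Agent.BR3.FibreProd Fermat.Agent.BR3.CZeroSheet
open Fermat.Agent.BR3.CZeroRes Fermat.Agent.BR3.RegAtlas Fermat.Agent.BR3.CuspSheet
open Fermat.Agent.BR3.ALSq Fermat.Agent.BR3.CoverSheetMirrorMod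

set_option synthInstance.maxHeartbeats 400000

variable {M q : ℕ} [NeZero M] [hqF : Fact q.Prime]

local notation "WqHom" hqM =>
  ((Wq hqM : Fb (M * q) ≃ₐ[Kb] Fb (M * q)) : Fb (M * q) →+* Fb (M * q))

/-! ### Generic -/

section Generic

variable {K F k : Type*} [Field K] [Field F] [Algebra K F] [Field k]
  {Ft : Type*} [Field Ft] [Algebra k Ft] {A : ValuationSubring K} {π : A →+* k}
  {D : ChartData A π Ft F} {x : F}

theorem integralAt_Rinf_of_r_eq_one (H : AtlasHyp D x) {Q : Place k Ft}
    (hi : IsValueAt Q (D.res 1 ⟨x⁻¹, D.hinf 1 H.inv_mem⟩) 0) {P : Place K F}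
    (hP : H.r P = ⟨1, Q⟩) : IntegralAt A D.Rinf P :=
  ((H.red_iff_inf hi).mp (H.r_eq_one_iff.mp hP).1).integralAt

/-- transport of integrality over a subalgebra along a ring homomorphism into a subring -/
theorem isIntegral_map_of_mem {F₁ F₂ : Type*} [Field F₁] [Field F₂] (σ : F₁ →+* F₂)
    {S : Subalgebra ℤ F₁} {R : Subring F₂} (h : ∀ r ∈ S, σ r ∈ R) {y : F₁}
    (hy : IsIntegral S y) : IsIntegral R (σ y) := by
  obtain ⟨p, hp, hpy⟩ := hy
  let τ : S →+* R := (σ.comp (algebraMap S F₁)).codRestrict R fun x => h x x.2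
  refine ⟨p.map τ, hp.map τ, ?_⟩
  rw [Polynomial.eval₂_map]
  have e : (algebraMap R F₂).comp τ = σ.comp (algebraMap S F₁) := RingHom.ext fun x => rfl
  rw [e, ← Polynomial.hom_eval₂, hpy, map_zero]

end Generic

/-! ### The tube of a cusp of `et` -/

variable (B : ValuationSubring Kb) (hB : B.LiesOverPrime q) (hqM : ¬ q ∣ M)

local notation "kB" => IsLocalRing.ResidueField B
local notation "FtM" => modularFunctionFieldFullC (IsLocalRing.ResidueField B) M

/-- at a cusp the residue of `1/j` on the component `1` vanishes -/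
theorem isValueAt_res_one_jx_inv (H : AtlasHyp (chartDataModular B hB hqM) (jx M q))
    {Q : Place kB FtM} (hQ : Q.adicValuation ((jFullC kB M)⁻¹) < 1) :
    IsValueAt Q ((chartDataModular B hB hqM).res 1
      ⟨(jx M q)⁻¹, (chartDataModular B hB hqM).hinf 1 H.inv_mem⟩) 0 := by
  have e : (chartDataModular B hB hqM).res 1
      ⟨(jx M q)⁻¹, (chartDataModular B hB hqM).hinf 1 H.inv_mem⟩ = (jFullC kB M ^ q)⁻¹ :=
    res_one_jx_inv B hB hqM _
  rw [IsValueAt, e, map_zero, sub_zero, ← inv_pow, map_pow]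
  exact pow_lt_one' hQ hqF.out.ne_zero

/-- the places of the tube of a cusp of the component `1` are integral on the chart at
infinity -/
theorem integralAt_chartInf_one (H : AtlasHyp (chartDataModular B hB hqM) (jx M q))
    {Q : Place kB FtM} (hQ : Q.adicValuation ((jFullC kB M)⁻¹) < 1)
    {P : Place Kb (Fb (M * q))} (hP : H.r P = ⟨1, Q⟩) :
    IntegralAt B (chartInf (M := M) (q := q)) P :=
  integralAt_Rinf_of_r_eq_one H (isValueAt_res_one_jx_inv B hB hqM H hQ) hP

theorem ord_nonneg_of_mem_chartInf_one (H : AtlasHyp (chartDataModular B hB hqM) (jx M q))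
    {Q : Place kB FtM} (hQ : Q.adicValuation ((jFullC kB M)⁻¹) < 1)
    {P : Place Kb (Fb (M * q))} (hP : H.r P = ⟨1, Q⟩) {y : Fb (M * q)}
    (hy : y ∈ chartInf (M := M) (q := q)) : 0 ≤ P.ord y :=
  ord_nonneg_of_integralAt B (integralAt_chartInf_one B hB hqM H hQ hP) hy

/-- the functions of the chart at infinity lie in the ring of the regular chart of `et` at a
cusp -/
theorem chartInf_le_regChartEt (H : AtlasHyp (chartDataModular B hB hqM) (jx M q))
    (Q : Place kB FtM) (hQnc : ∀ e, Q ≠ z₂ (chartDataModular B hB hqM) e)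
    (hQ : Q.adicValuation ((jFullC kB M)⁻¹) < 1) {y : Fb (M * q)}
    (hy : y ∈ chartInf (M := M) (q := q)) : y ∈ (regChartEt B hB hqM H Q hQnc).chart.R :=
  (regChartEt B hB hqM H Q hQnc).chart.normal y (chartInf_le B hB hqM 1 hy)
    fun _ hP => ord_nonneg_of_mem_chartInf_one B hB hqM H hQ hP hy

/-- `1/j` lies in the ring of the regular chart of `et` at a cusp -/
theorem inv_jBar_mem_regChartEt (H : AtlasHyp (chartDataModular B hB hqM) (jx M q))
    (Q : Place kB FtM) (hQnc : ∀ e, Q ≠ z₂ (chartDataModular B hB hqM) e)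
    (hQ : Q.adicValuation ((jFullC kB M)⁻¹) < 1) :
    (jBar (M * q))⁻¹ ∈ (regChartEt B hB hqM H Q hQnc).chart.R := by
  have h1 : (jx M q)⁻¹ ∈ chartInf (M := M) (q := q) := H.inv_mem
  rw [jx_eq_jBar] at h1
  exact chartInf_le_regChartEt B hB hqM H Q hQnc hQ h1

/-- **the mirror coefficient ring lies in the ring of the regular chart of `et` at the cusp** -/
theorem cuspRing_map_Wq_le_regChartEt (H : AtlasHyp (chartDataModular B hB hqM) (jx M q))
    (Q : Place kB FtM) (hQnc : ∀ e, Q ≠ z₂ (chartDataModular B hB hqM) e)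
    (hQ : Q.adicValuation ((jFullC kB M)⁻¹) < 1) :
    (cuspRing M q).map (WqHom hqM) ≤ (regChartEt B hB hqM H Q hQnc).chart.R := by
  rintro _ ⟨y, hy, rfl⟩
  refine RegChart.mem_of_isIntegral (regChartEt B hB hqM H Q hQnc)
    (isIntegral_map_of_mem (WqHom hqM) ?_ (mem_cuspRing_iff.1 hy))
  intro r hr
  induction hr using Algebra.adjoin_induction with
  | mem s hs =>
    rw [Set.mem_singleton_iff.mp hs]
    have e : (WqHom hqM) ((jq' M q)⁻¹) = (jBar (M * q))⁻¹ := by
      rw [map_inv₀]
      exact congrArg (·⁻¹) (MidBeta.Wq_jq' hqM)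
    rw [e]
    exact inv_jBar_mem_regChartEt B hB hqM H Q hQnc hQ
  | algebraMap c =>
    rw [eq_intCast, map_intCast]
    exact intCast_mem _ c
  | add a b _ _ ha hb =>
    rw [map_add]
    exact Subring.add_mem _ ha hb
  | mul a b _ _ ha hb =>
    rw [map_mul]
    exact Subring.mul_mem _ ha hb

/-! ### The sheet -/

/-- the generator of the sheet of `cZero` at a cusp: `W_{q²} θ∞` -/
def thetaZeroCusp : Fb (M * q * q) := W2 hqM (thetaInf M q)

/-- the minimal polynomial of the generator along `β₂`: `W_q ψ∞` -/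
def psiZeroCusp : (Fb (M * q))[X] := (psiInf M q).map (WqHom hqM)

theorem map_Wq_X_sub_C_one :
    (X - C 1 : (Fb (M * q))[X]).map (WqHom hqM) = X - C 1 := by
  rw [Polynomial.map_sub, Polynomial.map_X, Polynomial.map_C, map_one]

/-- **The sheet of `cZero` over `et` at a cusp along `β₂`**, coefficient ring the mirror of
helper2's `cuspRing`. -/
theorem coverSheet_cZero_cusp (Q : Place kB FtM)
    (hQ : Q.adicValuation ((jFullC kB M)⁻¹) < 1) :
    letI := algebraAlong (beta2 M q)
    haveI := isScalarTower_along (beta2 M q)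
    CoverSheet B (IsLocalRing.residue B) (constRedW2 B hB hqM).O (constRedW2 B hB hqM).res Q
      (constRedCZero B hB hqM).O (constRedCZero B hB hqM).res Q
      ((cuspRing M q).map (WqHom hqM)) (thetaZeroCusp hqM) (psiZeroCusp hqM) (X - C 1)
      ((psiInf M q /ₘ (X - C 1)).map (WqHom hqM)) 1 := by
  letI := algebraAlong (beta2 M q)
  haveI := isScalarTower_along (beta2 M q)
  have H := coverSheet_cZero_of_cInf B hB hqM (coverSheet_cInf_cusp B hB hqM Q hQ)
  rw [map_Wq_X_sub_C_one] at H
  exact H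

/-- the same with the ring of the regular chart of `et` at the cusp as coefficient ring -/
theorem coverSheet_cZero_cusp_chart (H : AtlasHyp (chartDataModular B hB hqM) (jx M q))
    (Q : Place kB FtM) (hQnc : ∀ e, Q ≠ z₂ (chartDataModular B hB hqM) e)
    (hQ : Q.adicValuation ((jFullC kB M)⁻¹) < 1) :
    letI := algebraAlong (beta2 M q)
    haveI := isScalarTower_along (beta2 M q)
    CoverSheet B (IsLocalRing.residue B) (constRedW2 B hB hqM).O (constRedW2 B hB hqM).res Q
      (constRedCZero B hB hqM).O (constRedCZero B hB hqM).res Q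
      (regChartEt B hB hqM H Q hQnc).chart.R (thetaZeroCusp hqM) (psiZeroCusp hqM) (X - C 1)
      ((psiInf M q /ₘ (X - C 1)).map (WqHom hqM)) 1 := by
  letI := algebraAlong (beta2 M q)
  haveI := isScalarTower_along (beta2 M q)
  exact (coverSheet_cZero_cusp B hB hqM Q hQ).mono
    (cuspRing_map_Wq_le_regChartEt B hB hqM H Q hQnc hQ)

/-! ### The chart -/

/-- **The tube of the cusp `Q` of `cZero`** (built along `β₂`): the places over the tube of the
cusp `Q` of `et` at which `W_{q²} θ∞ ≡ 1`. -/
def cZeroTubeCusp (H : AtlasHyp (chartDataModular B hB hqM) (jx M q)) (Q : Place kB FtM) :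
    Set (Place Kb (Fb (M * q * q))) :=
  letI := algebraAlong (beta2 M q)
  haveI := isScalarTower_along (beta2 M q)
  haveI : Module.Finite (Fb (M * q)) (Fb (M * q * q)) :=
    Fermat.Agent.Hecke.finiteAlong_heckeBetaBar (M * q) q
  coverTube B {P | H.r P = ⟨1, Q⟩} (thetaZeroCusp hqM) (1 : B)

/-- **The regular chart of `cZero` at a cusp**, built along `β₂` over the chart of `et` of
`S'`. -/
def cZeroChartCusp (H : AtlasHyp (chartDataModular B hB hqM) (jx M q)) (Q : Place kB FtM)
    (hQ : Q.adicValuation ((jFullC kB M)⁻¹) < 1) :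
    RegChart B (constRedCZero B hB hqM).O (constRedCZero B hB hqM).res Q
      (cZeroTubeCusp B hB hqM H Q) := by
  letI := algebraAlong (beta2 M q)
  haveI := isScalarTower_along (beta2 M q)
  haveI : Module.Finite (Fb (M * q)) (Fb (M * q * q)) :=
    Fermat.Agent.Hecke.finiteAlong_heckeBetaBar (M * q) q
  exact coverRegChartOfConstRed (constRedW2 B hB hqM)
    (regChartEt B hB hqM H Q (Fermat.Agent.BR3.CInfChart.ne_z₂_of_cusp B hB hqM Q hQ))
    (coverSheet_cZero_cusp_chart B hB hqM H Q _ hQ)
    (Fermat.Agent.BR3.VertSheet.arch_of_isRankOne (Fermat.Agent.Val.isRankOne B hB))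

/-- the parameter of the chart of `cZero` at a cusp is the parameter of the chart of `et`, pulled
back by `β₂` -/
theorem cZeroChartCusp_t (H : AtlasHyp (chartDataModular B hB hqM) (jx M q)) (Q : Place kB FtM)
    (hQ : Q.adicValuation ((jFullC kB M)⁻¹) < 1) :
    (cZeroChartCusp B hB hqM H Q hQ).chart.t =
      beta2 M q (regChartEt B hB hqM H Q
        (Fermat.Agent.BR3.CInfChart.ne_z₂_of_cusp B hB hqM Q hQ)).chart.t := rfl

/-- **The smooth chart of `cZero` at a cusp** (the field `smZero` of `SDD.CaseInput` at the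
cusps). -/
def cZeroSmoothCusp (H : AtlasHyp (chartDataModular B hB hqM) (jx M q)) (Q : Place kB FtM)
    (hQ : Q.adicValuation ((jFullC kB M)⁻¹) < 1) :
    SmoothChart B (constRedCZero B hB hqM).O (constRedCZero B hB hqM).res Q
      (cZeroTubeCusp B hB hqM H Q) :=
  (cZeroChartCusp B hB hqM H Q hQ).chart

/-- the places of the tube lie over the tube of the cusp of `et` (along `β₂`) -/
theorem restrictAlong_mem_of_mem_cZeroTubeCusp
    (H : AtlasHyp (chartDataModular B hB hqM) (jx M q)) (Q : Place kB FtM)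
    (hβ : (beta2 M q).toRingHom.IsIntegral) {P : Place Kb (Fb (M * q * q))}
    (hP : P ∈ cZeroTubeCusp B hB hqM H Q) :
    H.r (P.restrictAlong (beta2 M q) hβ) = ⟨1, Q⟩ :=
  hP.1

theorem mem_cZeroTubeCusp_iff (H : AtlasHyp (chartDataModular B hB hqM) (jx M q))
    (Q : Place kB FtM) (hβ : (beta2 M q).toRingHom.IsIntegral)
    {P : Place Kb (Fb (M * q * q))} :
    P ∈ cZeroTubeCusp B hB hqM H Q ↔
      H.r (P.restrictAlong (beta2 M q) hβ) = ⟨1, Q⟩ ∧
        ∃ c : Kb, IsValueAt P (thetaZeroCusp hqM) c ∧ B.valuation (c - ((1 : B) : Kb)) < 1 :=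
  Iff.rfl

end Fermat.Agent.BR3.CZeroChartCusp
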