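import Fermat.Agent.BR3.CoverSheetMirrorMod
import Fermat.Agent.BR3.CoverSheetInf.SheetR0
import Fermat.Agent.BR3.CoverK.Mono

/-!
# Program C, node SC6 (part 2): the sheet `cZero` over the finite ordinary points of `et` along `β₂`

Mirror of helper23's SC1 (`CoverSheetInf.coverSheet_cInf_R0`) through `W_q`, `W_{q²}`
(`CoverSheetMirrorMod.coverSheet_cZero_of_cInf`), in the native terms of the component `et`:

* generator `ThetaZ M q := α₂ T'` with `T' = q^12/T = W_q T` (`W2_Theta : W_{q²} Θ = α₂ T'`);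
* `PsiThetaZ hqM := W_q Ψ_Θ` (monic of degree `q`, root `α₂ T'` along `β₂`), `ψ = X - C (T'^q)`,
  `ψc = X^{q-1}`, sheet constant `u^q` where `ū` is the value of the reduction of `T'` on `et`
  at the point;
* coefficient ring `R0 M q` (integral closure of `ℤ[j, j(s^q)]`, stable under `W_q`:
  `R0_map_Wq_le`), contained in the ring of every chart of `et` on a tube where `j` and `j(s^q)`
  are regular (`R0_le_of_normal_et`).

`coverSheet_cZero_R0`, `coverSheet_cZero` (any `R'` with the `normal` property),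
`coverSheet_cZero_chart` (for a regular chart of `et`).
-/

set_option autoImplicit false
set_option linter.style.haveILetI false
set_option linter.unusedSectionVars false

noncomputable section

/- S36 build-time patch: file-local shortcut instances. They only shorten instance search;
each is the instance that the search finds anyway (reducible, same terms after unfolding). -/
local instance (priority := 100000) Fermat.Agent.BR3.FastInst.instAlgFullC_CZeroSheet
    {k : Type*} [Field k] (N : ℕ) :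
    Algebra k ↥(ModularCurve.modularFunctionFieldFullC k N) := inferInstance
local instance (priority := 100000) Fermat.Agent.BR3.FastInst.instFieldFullC_CZeroSheet
    {k : Type*} [Field k] (N : ℕ) :
    Field ↥(ModularCurve.modularFunctionFieldFullC k N) := inferInstance
local instance (priority := 100000) Fermat.Agent.BR3.FastInst.instAlgLaurent_CZeroSheet
    {k : Type*} [Field k] : Algebra k (LaurentSeries k) := inferInstance


set_option synthInstance.maxHeartbeats 400000

namespace Fermat.Agent.BR3.CZeroSheet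

open ModularCurve AlgebraicCurve Polynomial Fermat.Agent.X0 Fermat.Agent.Val
open Fermat.Agent.Hecke.AL Fermat.Agent.BR.TwoVal Fermat.Agent.BR.ResGen Fermat.Agent.Red
open Fermat.Agent.BR.TwoValInst Fermat.Agent.BR.ModUnit
open Fermat.Agent.BR.ConstRedTwo Fermat.Agent.BR3.FibreProd Fermat.Agent.BR3.ALSq
open Fermat.Agent.BR3.CZero Fermat.Agent.BR3.CInfRes Fermat.Agent.BR3.CZeroRes
open Fermat.Agent.BR3.CoverK Fermat.Agent.BR3.CoverSheetMirrorMod
open Fermat.Agent.BR3.CoverSheetInf

variable {M q : ℕ} [NeZero M] [hq : Fact q.Prime]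
variable (B : ValuationSubring (AlgebraicClosure ℚ)) (hB : B.LiesOverPrime q) (hqM : ¬ q ∣ M)

local notation "kB" => IsLocalRing.ResidueField B
local notation "FtM" => modularFunctionFieldFullC (IsLocalRing.ResidueField B) M
local notation "WqHom" hqM =>
  ((Wq hqM : Fb (M * q) ≃ₐ[Kb] Fb (M * q)) : Fb (M * q) →+* Fb (M * q))

/-! ### The generator and its polynomial -/

variable (M q) in
/-- `Θ_Z = α₂ T'`, `T' = q^12/T = q^12 Δ(s^q)/Δ(s)`: the generator of the sheet `cZero` along
`β₂`. -/
def ThetaZ : Fb (M * q * q) := alpha2 M q (TB' M q)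

/-- `W_{q²} Θ = α₂ T'`. -/
theorem W2_Theta : W2 hqM (Theta M q) = ThetaZ M q := by
  rw [Theta, W2_beta2, Wq_TB]
  rfl

/-- `Ψ_Z = W_q Ψ_Θ`. -/
def PsiThetaZ : (Fb (M * q))[X] := (PsiTheta M q).map (WqHom hqM)

theorem map_Wq_X_sub_C (c : Fb (M * q)) :
    (X - Polynomial.C c : (Fb (M * q))[X]).map (WqHom hqM) = X - Polynomial.C (Wq hqM c) := by
  rw [Polynomial.map_sub, Polynomial.map_X, Polynomial.map_C]
  rfl

theorem map_Wq_X_pow (n : ℕ) :
    (X ^ n : (Fb (M * q))[X]).map (WqHom hqM) = X ^ n := by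
  rw [Polynomial.map_pow, Polynomial.map_X]

theorem Wq_TB_pow : Wq hqM (TB M q ^ q) = TB' M q ^ q := by
  rw [map_pow, Wq_TB]

/-! ### The coefficient ring -/

/-- `W_q j = j(s^q)`. -/
theorem Wq_jBar : Wq hqM (jBar (M * q)) = jq' M q := by
  rw [← MidBeta.Wq_jq' hqM, Wq_Wq]

/-- `R0` is stable under `W_q`. -/
theorem R0_map_Wq_le : (R0 M q).map (WqHom hqM) ≤ R0 M q := by
  refine le_trans (map_intHull_le (WqHom hqM) _) ?_
  have e : (WqHom hqM) '' ({jBar (M * q), jq' M q} : Set (Fb (M * q))) =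
      {jBar (M * q), jq' M q} := by
    rw [Set.image_pair]
    show ({Wq hqM (jBar (M * q)), Wq hqM (jq' M q)} : Set (Fb (M * q))) = _
    rw [Wq_jBar, MidBeta.Wq_jq', Set.pair_comm]
  rw [e]
  exact le_rfl

theorem jBar_mem_O2 : jBar (M * q) ∈ O2 B hB hqM := by
  rw [mem_O2_iff, Wq_jBar]
  exact jq'_mem_O1 B hB

theorem jq'_mem_O2 : jq' M q ∈ O2 B hB hqM := by
  rw [mem_O2_iff, MidBeta.Wq_jq']
  exact jBar_mem_O1 B hB

/-- `R0 ≤ R'` for every subring with the `normal` property of a chart of `et` on a tube on which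
`j` and `j(s^q)` are regular. -/
theorem R0_le_of_normal_et (R' : Subring (Fb (M * q))) (T' : Set (Place Kb (Fb (M * q))))
    (hnormal : ∀ y : Fb (M * q), y ∈ O2 B hB hqM → (∀ P ∈ T', 0 ≤ P.ord y) → y ∈ R')
    (hj : ∀ P ∈ T', 0 ≤ P.ord (jBar (M * q))) (hjq' : ∀ P ∈ T', 0 ≤ P.ord (jq' M q)) :
    R0 M q ≤ R' := by
  intro y hy
  refine hnormal y ?_ fun P hP => ?_
  · refine intHull_le_valuationSubring (O2 B hB hqM) ?_ hy
    rintro z (rfl | rfl)
    · exact jBar_mem_O2 B hB hqM
    · exact jq'_mem_O2 B hB hqM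
  · refine Fermat.Agent.X0.OrdDx.ord_nonneg_of_mem P
      (intHull_le_valuationSubring P.toValuationSubring ?_ hy)
    rintro z (rfl | rfl)
    · by_cases h0 : jBar (M * q) = 0
      · rw [h0]; exact zero_mem _
      · exact Fermat.Agent.X0.OrdDx.mem_of_ord_nonneg P h0 (hj P hP)
    · by_cases h0 : jq' M q = 0
      · rw [h0]; exact zero_mem _
      · exact Fermat.Agent.X0.OrdDx.mem_of_ord_nonneg P h0 (hjq' P hP)

/-! ### The sheet -/

/-- the reduction of `T'` on `et` is the reduction of `T` on `can` -/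
theorem constRedW2_res_TB' :
    (constRedW2 B hB hqM).res ⟨TB' M q, TB'_mem_O2 M q B hB hqM⟩ =
      (constRedW1 B hB hqM).res ⟨TB M q, TB_mem_O1 M q B hB⟩ := by
  have h : Wq hqM (TB' M q) ∈ (constRedW1 B hB hqM).O := by
    rw [Wq_TB']
    exact TB_mem_O1 M q B hB
  rw [constRedW2_res_eq B hB hqM (TB' M q) (TB'_mem_O2 M q B hB hqM) h]
  congr 1
  exact Subtype.ext (Wq_TB' M q hqM)

/-- **The sheet `cZero` over a finite ordinary point of `et` along `β₂`, coefficient ring
`R0 = ` integral closure of `ℤ[j, j(s^q)]`**: generator `α₂ T'`, for every place `Q'` of `F̃_M` at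
which the reduction of `T'` on `et` has a nonzero value. -/
theorem coverSheet_cZero_R0 (Q' : Place kB FtM) (u : B)
    (hu : IsValueAt Q' ((constRedW2 B hB hqM).res ⟨TB' M q, TB'_mem_O2 M q B hB hqM⟩)
      (IsLocalRing.residue B u))
    (hu0 : IsLocalRing.residue B u ≠ 0) :
    letI := algebraAlong (beta2 M q)
    haveI := isScalarTower_along (beta2 M q)
    CoverSheet B (IsLocalRing.residue B) (constRedW2 B hB hqM).O (constRedW2 B hB hqM).res Q'
      (constRedCZero B hB hqM).O (constRedCZero B hB hqM).res Q' (R0 M q) (ThetaZ M q)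
      (PsiThetaZ hqM) (X - Polynomial.C (TB' M q ^ q)) (X ^ (q - 1)) (u ^ q) := by
  letI := algebraAlong (beta2 M q)
  haveI := isScalarTower_along (beta2 M q)
  rw [constRedW2_res_TB'] at hu
  have H := coverSheet_cZero_of_cInf B hB hqM (coverSheet_cInf_R0 B hB hqM Q' u hu hu0)
  rw [W2_Theta, map_Wq_X_sub_C, map_Wq_X_pow, Wq_TB_pow] at H
  exact H.mono (R0_map_Wq_le hqM)

/-- **The sheet `cZero` over a finite ordinary point of `et` along `β₂`**, coefficient ring any
subring `R'` with the `normal` property of a smooth chart of `et` on a tube `T'` on which `j` and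
`j(s^q)` are regular. -/
theorem coverSheet_cZero (Q' : Place kB FtM) (R' : Subring (Fb (M * q)))
    (T' : Set (Place Kb (Fb (M * q))))
    (hnormal : ∀ y : Fb (M * q), y ∈ (constRedW2 B hB hqM).O → (∀ P ∈ T', 0 ≤ P.ord y) → y ∈ R')
    (hj : ∀ P ∈ T', 0 ≤ P.ord (jBar (M * q))) (hjq' : ∀ P ∈ T', 0 ≤ P.ord (jq' M q))
    (u : B)
    (hu : IsValueAt Q' ((constRedW2 B hB hqM).res ⟨TB' M q, TB'_mem_O2 M q B hB hqM⟩)
      (IsLocalRing.residue B u))
    (hu0 : IsLocalRing.residue B u ≠ 0) :
    letI := algebraAlong (beta2 M q)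
    haveI := isScalarTower_along (beta2 M q)
    CoverSheet B (IsLocalRing.residue B) (constRedW2 B hB hqM).O (constRedW2 B hB hqM).res Q'
      (constRedCZero B hB hqM).O (constRedCZero B hB hqM).res Q' R' (ThetaZ M q)
      (PsiThetaZ hqM) (X - Polynomial.C (TB' M q ^ q)) (X ^ (q - 1)) (u ^ q) := by
  letI := algebraAlong (beta2 M q)
  haveI := isScalarTower_along (beta2 M q)
  exact (coverSheet_cZero_R0 B hB hqM Q' u hu hu0).mono
    (R0_le_of_normal_et B hB hqM R' T' hnormal hj hjq')

/-- The same for a regular chart of `et` at the point. -/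
theorem coverSheet_cZero_chart (Q' : Place kB FtM) (T' : Set (Place Kb (Fb (M * q))))
    (C : RegChart B (constRedW2 B hB hqM).O (constRedW2 B hB hqM).res Q' T')
    (hj : ∀ P ∈ T', 0 ≤ P.ord (jBar (M * q))) (hjq' : ∀ P ∈ T', 0 ≤ P.ord (jq' M q))
    (u : B)
    (hu : IsValueAt Q' ((constRedW2 B hB hqM).res ⟨TB' M q, TB'_mem_O2 M q B hB hqM⟩)
      (IsLocalRing.residue B u))
    (hu0 : IsLocalRing.residue B u ≠ 0) :
    letI := algebraAlong (beta2 M q)
    haveI := isScalarTower_along (beta2 M q)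
    CoverSheet B (IsLocalRing.residue B) (constRedW2 B hB hqM).O (constRedW2 B hB hqM).res Q'
      (constRedCZero B hB hqM).O (constRedCZero B hB hqM).res Q' C.chart.R (ThetaZ M q)
      (PsiThetaZ hqM) (X - Polynomial.C (TB' M q ^ q)) (X ^ (q - 1)) (u ^ q) :=
  coverSheet_cZero B hB hqM Q' C.chart.R T' C.chart.normal hj hjq' u hu hu0

end Fermat.Agent.BR3.CZeroSheet
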