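import Mathlib
import Fermat.Agent.BR3.VertCircle

/-!
# Program C (S36), node (I7-ZE-B), generic part: a characterisation of the ring of a circle

`L : AnnulusLevels A T ι` the level data of the tube of a crossing point, `a` a gauge
(`|thick| < |a| < 1`).  Among the valuation subrings `O` of `F` with `O ∩ K = A` which contain the
level rings, the ring of the circle `|u| = |a|` is THE one in which `u / a` is a unit whose residue
is not a constant:

* `Dom L a O` : `O ∩ K = A`, the level rings lie in `O`, `|u/a - c|_O = 1` for all `c ∈ A`;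
* `dom_circleRing` : the circle ring is such a ring;
* `eq_of_dom` : two such rings are equal (`AnnulusLevels.factor_strong`);
  `eq_circleRing_of_dom : O = circleRing L.core a ha1 ha2`;
* `dom_of_coord` : the condition `|u/a - c|_O = 1` may be tested on any function `x` of a level
  without zeros on the tube whose reduction on the circle is `β X`, `β ≠ 0` (a thickness-one
  coordinate), if `O` DOMINATES the level rings (`NodeLevel.n2`).
-/

set_option autoImplicit false
set_option linter.unusedSectionVars false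

noncomputable section

namespace Fermat.Agent.BR3.CircleDom

open AlgebraicCurve IsLocalRing Fermat.Agent.Red Fermat.Agent.BR.Centre Fermat.Agent.BR.Circle
  Fermat.Agent.BR.S0 Fermat.Agent.BR3.VertCircle

variable {K F : Type*} [Field K] [Field F] [Algebra K F]

/-! ### valuation subrings: units -/

section Val

variable (O : ValuationSubring F)

theorem val_eq_one_of_mem {w : F} (hw : w ≠ 0) (h1 : w ∈ O) (h2 : w⁻¹ ∈ O) :
    O.valuation w = 1 := by
  have a1 := (O.valuation_le_one_iff w).mpr h1
  have a2 := (O.valuation_le_one_iff w⁻¹).mpr h2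
  rw [map_inv₀] at a2
  have hpos : 0 < O.valuation w := zero_lt_iff.mpr ((Valuation.ne_zero_iff _).mpr hw)
  exact le_antisymm a1 ((inv_le_one₀ hpos).mp a2)

theorem mem_of_val_eq_one {w : F} (h : O.valuation w = 1) : w ∈ O ∧ w⁻¹ ∈ O := by
  refine ⟨(O.valuation_le_one_iff w).mp h.le, (O.valuation_le_one_iff _).mp ?_⟩
  rw [map_inv₀, h, inv_one]

theorem val_sub_one_of_lt {w : F} (h : O.valuation w < 1) : O.valuation (w - 1) = 1 := by
  have h1 : O.valuation (w - 1) = O.valuation (1 : F) := by
    exact Valuation.map_sub_eq_of_lt_right O.valuation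
      (by rw [map_one]; exact h : O.valuation w < O.valuation (1 : F))
  rw [h1, map_one]

/-- powers of congruent units are congruent -/
theorem val_zpow_sub_zpow_lt {g c : F} (hg : O.valuation g = 1) (hc : O.valuation c = 1)
    (h : O.valuation (g - c) < 1) (m : ℤ) : O.valuation (g ^ m - c ^ m) < 1 := by
  have hg0 : g ≠ 0 := by
    rintro rfl
    rw [map_zero] at hg
    exact zero_ne_one hg
  have hc0 : c ≠ 0 := by
    rintro rfl
    rw [map_zero] at hc
    exact zero_ne_one hc
  have hnat : ∀ n : ℕ, O.valuation (g ^ n - c ^ n) < 1 := by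
    intro n
    induction n with
    | zero => simp
    | succ n ih =>
      have e : g ^ (n + 1) - c ^ (n + 1) = g ^ n * (g - c) + c * (g ^ n - c ^ n) := by ring
      rw [e]
      refine lt_of_le_of_lt (Valuation.map_add _ _ _) (max_lt ?_ ?_)
      · rw [map_mul, map_pow, hg, one_pow, one_mul]
        exact h
      · rw [map_mul, hc, one_mul]
        exact ih
  obtain ⟨n, rfl | rfl⟩ := Int.eq_nat_or_neg m
  · rw [zpow_natCast, zpow_natCast]
    exact hnat n
  · rw [zpow_neg, zpow_neg, zpow_natCast, zpow_natCast]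
    have e : (g ^ n)⁻¹ - (c ^ n)⁻¹ = -((g ^ n - c ^ n) * ((g ^ n)⁻¹ * (c ^ n)⁻¹)) := by
      have h1 : g ^ n ≠ 0 := pow_ne_zero _ hg0
      have h2 : c ^ n ≠ 0 := pow_ne_zero _ hc0
      field_simp
      ring
    rw [e, Valuation.map_neg, map_mul, map_mul, map_inv₀, map_inv₀, map_pow, map_pow, hg, hc,
      one_pow, inv_one, mul_one, mul_one]
    exact hnat n

end Val

/-! ### two valuation subrings over the same valuation ring of constants -/

section BiGen

variable (K) (O O' : ValuationSubring F)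

/-- `y` is a nonzero constant times a common unit of `O` and `O'`. -/
def BiGen (y : F) : Prop :=
  ∃ (d : K) (w : F), d ≠ 0 ∧ O.valuation w = 1 ∧ O'.valuation w = 1 ∧ y = d • w

variable {K O O'}

theorem BiGen.mul {y y' : F} (h : BiGen K O O' y) (h' : BiGen K O O' y') : BiGen K O O' (y * y') := by
  obtain ⟨d, w, hd, h1, h2, rfl⟩ := h
  obtain ⟨d', w', hd', h1', h2', rfl⟩ := h'
  exact ⟨d * d', w * w', mul_ne_zero hd hd', by rw [map_mul, h1, h1', one_mul],
    by rw [map_mul, h2, h2', one_mul], by rw [smul_mul_smul_comm]⟩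

theorem BiGen.inv {y : F} (h : BiGen K O O' y) : BiGen K O O' y⁻¹ := by
  obtain ⟨d, w, hd, h1, h2, rfl⟩ := h
  refine ⟨d⁻¹, w⁻¹, inv_ne_zero hd, by rw [map_inv₀, h1, inv_one], by rw [map_inv₀, h2, inv_one],
    ?_⟩
  rw [Algebra.smul_def, Algebra.smul_def, mul_inv, map_inv₀]

theorem biGen_one : BiGen K O O' (1 : F) :=
  ⟨1, 1, one_ne_zero, map_one _, map_one _, by rw [one_smul]⟩

theorem BiGen.pow {y : F} (h : BiGen K O O' y) (n : ℕ) : BiGen K O O' (y ^ n) := by
  induction n with
  | zero => rw [pow_zero]; exact biGen_one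
  | succ n ih => rw [pow_succ]; exact ih.mul h

theorem BiGen.zpow {y : F} (h : BiGen K O O' y) (n : ℤ) : BiGen K O O' (y ^ n) := by
  obtain ⟨m, rfl | rfl⟩ := Int.eq_nat_or_neg n
  · rw [zpow_natCast]; exact h.pow m
  · rw [zpow_neg, zpow_natCast]; exact (h.pow m).inv

theorem BiGen.prod {κ : Type*} (s : Finset κ) (f : κ → F) (h : ∀ i ∈ s, BiGen K O O' (f i)) :
    BiGen K O O' (∏ i ∈ s, f i) := by
  classical
  induction s using Finset.induction_on with
  | empty => rw [Finset.prod_empty]; exact biGen_one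
  | insert i s hi ih =>
    rw [Finset.prod_insert hi]
    exact (h i (Finset.mem_insert_self i s)).mul
      (ih fun j hj => h j (Finset.mem_insert_of_mem hj))

theorem biGen_const {c : K} (hc : c ≠ 0) : BiGen K O O' (algebraMap K F c) :=
  ⟨c, 1, hc, map_one _, map_one _, by rw [Algebra.smul_def, mul_one]⟩

theorem BiGen.smul {y : F} (h : BiGen K O O' y) {c : K} (hc : c ≠ 0) : BiGen K O O' (c • y) := by
  rw [Algebra.smul_def]
  exact (biGen_const hc).mul h

variable {A : ValuationSubring K}

/-- Two valuation subrings over `A` all of whose nonzero elements are constants times common units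
are equal. -/
theorem eq_of_biGen (hK : ∀ c : K, algebraMap K F c ∈ O ↔ c ∈ A)
    (hK' : ∀ c : K, algebraMap K F c ∈ O' ↔ c ∈ A) (h : ∀ y : F, y ≠ 0 → BiGen K O O' y) :
    O = O' := by
  ext y
  rcases eq_or_ne y 0 with rfl | hy
  · exact ⟨fun _ => O'.zero_mem, fun _ => O.zero_mem⟩
  obtain ⟨d, w, hd, h1, h2, rfl⟩ := h y hy
  have key : ∀ (O'' : ValuationSubring F), (∀ c : K, algebraMap K F c ∈ O'' ↔ c ∈ A) →
      O''.valuation w = 1 → (d • w ∈ O'' ↔ d ∈ A) := by
    intro O'' hK'' hw
    rw [← hK'' d, ← O''.valuation_le_one_iff, ← O''.valuation_le_one_iff, Algebra.smul_def,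
      map_mul, hw, mul_one]
  rw [key O hK h1, key O' hK' h2]

end BiGen

/-! ### the rings of the circle type -/

variable {A : ValuationSubring K} {T : Set (Place K F)} {ι : Type*}

/-- `O` lies over `A`, contains the level rings, and `u / a` is a unit of `O` whose residue is not a
constant. -/
structure Dom (L : AnnulusLevels A T ι) (a : K) (O : ValuationSubring F) : Prop where
  hK : ∀ c : K, algebraMap K F c ∈ O ↔ c ∈ A
  hR : ∀ i, ∀ x ∈ (L.level i).R, x ∈ O
  htr : ∀ c ∈ A, O.valuation (a⁻¹ • L.u - algebraMap K F c) = 1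

section Const

variable {O : ValuationSubring F} (hK : ∀ c : K, algebraMap K F c ∈ O ↔ c ∈ A)

include hK

theorem val_const_le_one_iff (c : K) : O.valuation (algebraMap K F c) ≤ 1 ↔ c ∈ A := by
  rw [O.valuation_le_one_iff, hK]

theorem val_const_lt_one {c : K} (hc : A.valuation c < 1) :
    O.valuation (algebraMap K F c) < 1 := by
  rcases eq_or_ne c 0 with rfl | hc0
  · rw [map_zero, map_zero]; exact zero_lt_one
  by_contra hcon
  have h1 : 1 ≤ O.valuation (algebraMap K F c) := not_lt.mp hcon
  have h2 : O.valuation (algebraMap K F c⁻¹) ≤ 1 := by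
    rw [map_inv₀, map_inv₀]
    exact inv_le_one_of_one_le₀ h1
  have h3 := (val_const_le_one_iff hK c⁻¹).mp h2
  have h4 := (A.valuation_le_one_iff _).mpr h3
  rw [map_inv₀] at h4
  have hpos : 0 < A.valuation c := zero_lt_iff.mpr ((Valuation.ne_zero_iff _).mpr hc0)
  have h5 := (inv_le_one₀ hpos).mp h4
  exact absurd hc (not_lt.mpr h5)

theorem val_const_eq_one {c : K} (hc : A.valuation c = 1) :
    O.valuation (algebraMap K F c) = 1 := by
  have hc0 : c ≠ 0 := by
    rintro rfl
    rw [map_zero] at hc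
    exact zero_ne_one hc
  refine val_eq_one_of_mem O ((map_ne_zero _).mpr hc0) ((hK c).mpr ?_) ?_
  · exact (A.valuation_le_one_iff _).mp hc.le
  · rw [← map_inv₀]
    refine (hK _).mpr ((A.valuation_le_one_iff _).mp ?_)
    rw [map_inv₀, hc, inv_one]

end Const

namespace Dom

variable {L : AnnulusLevels A T ι} {a : K} {O : ValuationSubring F} (hO : Dom L a O)

include hO

theorem val_coord : O.valuation (a⁻¹ • L.u) = 1 := by
  have := hO.htr 0 A.zero_mem
  rwa [map_zero, sub_zero] at this

theorem val_unit (i : ι) {ε : F} (hε : ε ∈ (L.level i).R)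
    (hu : IsUnit (⟨ε, hε⟩ : (L.level i).R)) : O.valuation ε = 1 := by
  have h0 : ε ≠ 0 := by
    rintro rfl
    have : (⟨0, hε⟩ : (L.level i).R) = 0 := rfl
    rw [this] at hu
    have := (L.level i).isLocal
    exact not_isUnit_zero hu
  exact val_eq_one_of_mem O h0 (hO.hR i ε hε) (hO.hR i _ (annulus_inv_mem_of_isUnit hu))

/-- `u - c` is a constant times a unit, the same constant for all rings of the circle type. -/
theorem val_coord_sub (ha : a ≠ 0) (c : K) :
    (A.valuation c ≤ A.valuation a → O.valuation (a⁻¹ • (L.u - algebraMap K F c)) = 1) ∧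
    (A.valuation a < A.valuation c → O.valuation (c⁻¹ • (L.u - algebraMap K F c)) = 1) := by
  constructor
  · intro hle
    have hmem : c / a ∈ A := by
      rw [← A.valuation_le_one_iff, map_div₀,
        div_le_one₀ (zero_lt_iff.mpr ((Valuation.ne_zero_iff _).mpr ha))]
      exact hle
    have e : a⁻¹ • (L.u - algebraMap K F c) = a⁻¹ • L.u - algebraMap K F (c / a) := by
      rw [smul_sub, Algebra.smul_def a⁻¹ (algebraMap K F c), ← map_mul, inv_mul_eq_div]
    rw [e]
    exact hO.htr _ hmem
  · intro hlt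
    have hc0 : c ≠ 0 := by
      rintro rfl
      rw [map_zero] at hlt
      exact not_lt_zero hlt
    have hlt1 : A.valuation (a / c) < 1 := by
      rw [map_div₀, div_lt_one₀ (zero_lt_iff.mpr ((Valuation.ne_zero_iff _).mpr hc0))]
      exact hlt
    have e : c⁻¹ • (L.u - algebraMap K F c) = algebraMap K F (a / c) * (a⁻¹ • L.u) - 1 := by
      rw [smul_sub, Algebra.smul_def c⁻¹ (algebraMap K F c), ← map_mul, inv_mul_cancel₀ hc0,
        map_one, ← Algebra.smul_def, smul_smul, div_mul_eq_mul_div, mul_inv_cancel₀ ha, one_div]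
    rw [e]
    apply val_sub_one_of_lt
    rw [map_mul, hO.val_coord, mul_one]
    exact val_const_lt_one hO.hK hlt1

end Dom

/-! ### the circle ring is of the circle type -/

section Circle

variable [IsAlgClosed (ResidueField A)] (L : AnnulusLevels A T ι) (a : K)
  (ha1 : A.valuation L.core.thick < A.valuation a) (ha2 : A.valuation a < 1)

local notation "k" => ResidueField A

theorem dom_circleRing : Dom L a (circleRing L.core a ha1 ha2) where
  hK := algebraMap_mem_circleRing_iff L.core a ha1 ha2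
  hR := fun i _ hx => mem_circleRing_of_mem_level L a ha1 ha2 i hx
  htr := by
    intro c hc
    have ha : a ≠ 0 := gauge_ne_zero (C := L.core) ha1
    have hred : IsRed L.core a (a⁻¹ • L.core.u - algebraMap K F c)
        (RatFunc.X - RatFunc.C (residue A ⟨c, hc⟩)) := by
      have h := (isRed_coord (C := L.core) ha).add (isRed_const (C := L.core) (a := a) hc).neg
      rwa [← sub_eq_add_neg, ← sub_eq_add_neg, RatFunc.algebraMap_eq_C] at h
    have hne : (RatFunc.X : RatFunc k) - RatFunc.C (residue A ⟨c, hc⟩) ≠ 0 :=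
      ratFunc_X_sub_C_ne_zero _
    have h0 : a⁻¹ • L.core.u - algebraMap K F c ≠ 0 := hred.ne_zero ha1 ha2 hne
    exact val_eq_one_of_mem _ h0 ⟨_, hred⟩ ⟨_, hred.inv hne⟩

end Circle

/-! ### uniqueness -/

section Unique

variable (L : AnnulusLevels A T ι) {a : K} {O O' : ValuationSubring F}

/-- **Every nonzero function is a constant times a common unit** of two rings of the circle type. -/
theorem biGen_of_dom (ha : a ≠ 0) (hO : Dom L a O) (hO' : Dom L a O') {y : F} (hy : y ≠ 0) :
    BiGen K O O' y := by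
  obtain ⟨S, n, b, c, hST, hc, i, hmem, hnu⟩ := L.factor_strong y hy
  set g : F := c • (L.u ^ b * ∏ Q ∈ S, (L.u - algebraMap K F (evalAt Q L.u)) ^ n Q) with hg
  -- the coordinate
  have hu : BiGen K O O' L.u := by
    refine ⟨a, a⁻¹ • L.u, ha, hO.val_coord, hO'.val_coord, ?_⟩
    rw [smul_smul, mul_inv_cancel₀ ha, one_smul]
  -- the linear factors
  have hlin : ∀ d : K, d ≠ 0 → BiGen K O O' (L.u - algebraMap K F d) := by
    intro d hd
    rcases le_or_gt (A.valuation d) (A.valuation a) with hle | hlt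
    · refine ⟨a, a⁻¹ • (L.u - algebraMap K F d), ha, (hO.val_coord_sub ha d).1 hle,
        (hO'.val_coord_sub ha d).1 hle, ?_⟩
      rw [smul_smul, mul_inv_cancel₀ ha, one_smul]
    · refine ⟨d, d⁻¹ • (L.u - algebraMap K F d), hd, (hO.val_coord_sub ha d).2 hlt,
        (hO'.val_coord_sub ha d).2 hlt, ?_⟩
      rw [smul_smul, mul_inv_cancel₀ hd, one_smul]
  have hgen : BiGen K O O' g := by
    refine ((hu.zpow b).mul (BiGen.prod S _ fun Q hQ => (hlin _ ?_).zpow (n Q))).smul hc
    obtain ⟨d, hd, h1, -⟩ := L.val_mem Q (hST Q hQ)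
    rw [evalAt_eq_of_isValueAt hd]
    rintro rfl
    rw [map_zero] at h1
    exact not_lt_zero h1
  -- the unit
  have := (L.level i).isLocal
  have hunit : IsUnit (⟨y * g⁻¹, hmem⟩ : (L.level i).R) := by
    have h1 : (1 : (L.level i).R) - ⟨y * g⁻¹, hmem⟩ ∈ nonunits (L.level i).R := by
      rw [mem_nonunits_iff, ← neg_sub, IsUnit.neg_iff]
      exact hnu
    have h2 := IsLocalRing.isUnit_one_sub_self_of_mem_nonunits _ h1
    rwa [sub_sub_cancel] at h2
  have hε : BiGen K O O' (y * g⁻¹) :=
    ⟨1, y * g⁻¹, one_ne_zero, hO.val_unit i hmem hunit, hO'.val_unit i hmem hunit,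
      by rw [one_smul]⟩
  have hg0 : g ≠ 0 := by
    obtain ⟨d, w, hd, h1, -, e⟩ := hgen
    rw [e]
    refine smul_ne_zero hd ?_
    rintro rfl
    rw [map_zero] at h1
    exact zero_ne_one h1
  have e : y = y * g⁻¹ * g := by rw [mul_assoc, inv_mul_cancel₀ hg0, mul_one]
  rw [e]
  exact hε.mul hgen

/-- **Two rings of the circle type are equal.** -/
theorem eq_of_dom (ha : a ≠ 0) (hO : Dom L a O) (hO' : Dom L a O') : O = O' :=
  eq_of_biGen hO.hK hO'.hK fun _ hy => biGen_of_dom L ha hO hO' hy

/-- **A ring of the circle type is the ring of the circle.** -/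
theorem eq_circleRing_of_dom [IsAlgClosed (ResidueField A)]
    (ha1 : A.valuation L.core.thick < A.valuation a) (ha2 : A.valuation a < 1)
    (hO : Dom L a O) : O = circleRing L.core a ha1 ha2 :=
  eq_of_dom L (gauge_ne_zero (C := L.core) ha1) hO (dom_circleRing L a ha1 ha2)

end Unique

/-! ### testing the circle type on a thickness-one coordinate -/

section Transfer

variable [IsAlgClosed (ResidueField A)] (L : AnnulusLevels A T ι) {a : K} {O : ValuationSubring F}

/-- **The circle type from a thickness-one coordinate.**  `O` lies over `A` and DOMINATES the level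
rings; `x` is a function of a level without zeros on the tube whose reduction on the circle of gauge
`a` is `β X`, `β ≠ 0`.  If `x / a - c` is a unit of `O` for all `c ∈ A`, then `O` is of the circle
type (hence the ring of the circle). -/
theorem dom_of_coord (ha1 : A.valuation L.core.thick < A.valuation a) (ha2 : A.valuation a < 1)
    (hK : ∀ c : K, algebraMap K F c ∈ O ↔ c ∈ A)
    (hR : ∀ i, ∀ x ∈ (L.level i).R, x ∈ O)
    (hm : ∀ i (x : (L.level i).R), ¬ IsUnit x → O.valuation (x : F) < 1)
    {i : ι} {x : F} (hx : x ∈ (L.level i).R) (hord : ∀ P ∈ T, P.ord x = 0)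
    {β : ResidueField A} (hβ : β ≠ 0)
    (hred : IsRed L.core a (a⁻¹ • x) (RatFunc.C β * RatFunc.X))
    (hxtr : ∀ c ∈ A, O.valuation (a⁻¹ • x - algebraMap K F c) = 1) : Dom L a O := by
  have ha : a ≠ 0 := gauge_ne_zero (C := L.core) ha1
  have haF : algebraMap K F a ≠ 0 := (map_ne_zero _).mpr ha
  have hvx : O.valuation (a⁻¹ • x) = 1 := by
    have := hxtr 0 A.zero_mem
    rwa [map_zero, sub_zero] at this
  have hx0 : x ≠ 0 := by
    rintro rfl
    rw [smul_zero, map_zero] at hvx
    exact zero_ne_one hvx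
  have hfrac : ∃ a' b : (L.level i).R, b ≠ 0 ∧ x * (b : F) = (a' : F) :=
    ⟨⟨x, hx⟩, 1, one_ne_zero, by simp⟩
  obtain ⟨d, m, ε, hd, hε, hεinv, hxe⟩ := (L.level i).n2 x hx0 hfrac
    (fun Q hQ hht hπ => (L.level i).unitAt_of_ord_eq_zero hx0 hfrac hord Q hQ hht hπ)
  have hε0 : ε ≠ 0 := by
    rintro rfl
    rw [mul_zero] at hxe
    exact hx0 hxe
  have hεu : IsUnit (⟨ε, hε⟩ : (L.level i).R) := annulus_isUnit_of_inv_mem hε hε0 hεinv
  -- the normal form
  obtain ⟨g, hg⟩ : ∃ g : F, g = a⁻¹ • L.u := ⟨_, rfl⟩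
  obtain ⟨δ, hδ⟩ : ∃ δ : K, δ = a⁻¹ * d * a ^ m := ⟨_, rfl⟩
  have hu : L.u = algebraMap K F a * g := by
    rw [hg, Algebra.smul_def, ← mul_assoc, ← map_mul, mul_inv_cancel₀ ha, map_one, one_mul]
  have hnf : a⁻¹ • x = algebraMap K F δ * g ^ m * ε := by
    rw [Algebra.smul_def, hxe, hu, mul_zpow, hδ, map_mul, map_mul, map_zpow₀]
    ring
  -- `δ` is a unit of `A`
  have hO' := dom_circleRing L a ha1 ha2
  have hδ1 : A.valuation δ = 1 := by
    have hne : (RatFunc.C β * RatFunc.X : RatFunc (ResidueField A)) ≠ 0 :=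
      mul_ne_zero (by rw [ne_eq, map_eq_zero]; exact hβ) RatFunc.X_ne_zero
    have h0 : a⁻¹ • x ≠ 0 := smul_ne_zero (inv_ne_zero ha) hx0
    have h1 : (circleRing L.core a ha1 ha2).valuation (a⁻¹ • x) = 1 :=
      val_eq_one_of_mem _ h0 ⟨_, hred⟩ ⟨_, hred.inv hne⟩
    rw [hnf, map_mul, map_mul, map_zpow₀, hg, hO'.val_coord, one_zpow, mul_one,
      hO'.val_unit i hε hεu, mul_one] at h1
    obtain ⟨h2, h3⟩ := mem_of_val_eq_one _ h1
    rw [← map_inv₀] at h3
    have h4 := (hO'.hK _).mp h2
    have h5 := (hO'.hK _).mp h3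
    have h6 := (A.valuation_le_one_iff _).mpr h4
    have h7 := (A.valuation_le_one_iff _).mpr h5
    have hδ0 : δ ≠ 0 := by
      rintro h
      rw [h, map_zero, map_zero] at h1
      exact zero_ne_one h1
    rw [map_inv₀] at h7
    exact le_antisymm h6
      ((inv_le_one₀ (zero_lt_iff.mpr ((Valuation.ne_zero_iff _).mpr hδ0))).mp h7)
  have hδA : δ ∈ A := (A.valuation_le_one_iff _).mp hδ1.le
  have hvδ : O.valuation (algebraMap K F δ) = 1 := val_const_eq_one hK hδ1
  have hvε : O.valuation ε = 1 :=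
    val_eq_one_of_mem O hε0 (hR i ε hε) (hR i _ hεinv)
  -- the residue of `ε` is a constant
  obtain ⟨e₀, he₀R, he₀⟩ := (L.level i).residue ⟨ε, hε⟩
  have hve : O.valuation (ε - algebraMap K F e₀) < 1 := hm i _ he₀
  -- `u / a` is a unit of `O`
  have hvgm : O.valuation g ^ m = 1 := by
    have h1 := hvx
    rw [hnf, map_mul, map_mul, map_zpow₀, hvδ, one_mul, hvε, mul_one] at h1
    exact h1
  have hm0 : m ≠ 0 := by
    intro hm00
    have h1 : a⁻¹ • x - algebraMap K F (δ * e₀) =
        algebraMap K F δ * (ε - algebraMap K F e₀) := by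
      rw [hnf, hm00, zpow_zero, mul_one, map_mul]
      ring
    have h2 := hxtr (δ * e₀) (A.mul_mem _ _ hδA e₀.2)
    rw [h1, map_mul, hvδ, one_mul] at h2
    rw [h2] at hve
    exact lt_irrefl _ hve
  have hvg : O.valuation g = 1 := by
    by_contra hne
    exact hm0 ((zpow_eq_one_iff_right₀ zero_le hne).mp hvgm)
  refine ⟨hK, hR, fun c hc => ?_⟩
  rw [← hg]
  -- `u / a - c` is a unit of `O`
  have hle : O.valuation (g - algebraMap K F c) ≤ 1 := by
    refine le_trans (Valuation.map_sub _ _ _) (max_le hvg.le ?_)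
    exact (val_const_le_one_iff hK c).mpr hc
  by_contra hne
  have hlt : O.valuation (g - algebraMap K F c) < 1 := lt_of_le_of_ne hle hne
  -- `c` is a unit of `A`
  have hc1 : A.valuation c = 1 := by
    by_contra hc1
    have hclt : A.valuation c < 1 := lt_of_le_of_ne ((A.valuation_le_one_iff _).mpr hc) hc1
    have h1 := val_const_lt_one hK hclt
    have h2 : O.valuation g < 1 := by
      have e : g = (g - algebraMap K F c) + algebraMap K F c := by ring
      rw [e]
      exact lt_of_le_of_lt (Valuation.map_add _ _ _) (max_lt hlt h1)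
    rw [hvg] at h2
    exact lt_irrefl _ h2
  have hvc : O.valuation (algebraMap K F c) = 1 := val_const_eq_one hK hc1
  have hpow := val_zpow_sub_zpow_lt O hvg hvc hlt m
  -- the constant `δ c^m e₀`
  have hcm : c ^ m ∈ A := by
    rw [← A.valuation_le_one_iff, map_zpow₀, hc1, one_zpow]
  have h1 : a⁻¹ • x - algebraMap K F (δ * c ^ m * e₀) =
      algebraMap K F δ * (g ^ m * (ε - algebraMap K F e₀) +
        algebraMap K F e₀ * (g ^ m - algebraMap K F c ^ m)) := by
    rw [hnf, map_mul, map_mul, map_zpow₀]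
    ring
  have h2 := hxtr (δ * c ^ m * e₀) (A.mul_mem _ _ (A.mul_mem _ _ hδA hcm) e₀.2)
  rw [h1, map_mul, hvδ, one_mul] at h2
  have h3 : O.valuation (g ^ m * (ε - algebraMap K F e₀) +
      algebraMap K F e₀ * (g ^ m - algebraMap K F c ^ m)) < 1 := by
    refine lt_of_le_of_lt (Valuation.map_add _ _ _) (max_lt ?_ ?_)
    · rw [map_mul, map_zpow₀, hvg, one_zpow, one_mul]
      exact hve
    · rw [map_mul]
      exact mul_lt_one_of_nonneg_of_lt_one_right
        ((val_const_le_one_iff hK _).mpr e₀.2) zero_le hpow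
  rw [h2] at h3
  exact lt_irrefl _ h3

end Transfer

end Fermat.Agent.BR3.CircleDom
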