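import Mathlib
import Fermat.Agent.BR.S0.SmoothAssembly
import Fermat.Agent.BR.S0.CrossingModel
import Fermat.Agent.BR3.CircleDom

/-!
# Program C (S36), node (I7-ZE-B), generic part 2: the centre of a valuation ring on a model

`C ⊆ F` the global model at a level (`SmoothAssembly.LevelHyp`: two components, reductions onto the
Dedekind chart `Dk`), `φ : C →+* k` a point of the special fibre of the model (a ring homomorphism
which is `π` on the constants).

* `exists_place_of_hom` : `φ` is the evaluation at a place `Q'` of one of the two components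
  (`PointOfHom.exists_place_of_hom_on_model`, for an arbitrary `φ` instead of the evaluation at a
  place of the generic fibre);
* `mem_point_iff_of_values` : if that place is the branch of a crossing (on either component), the
  kernel of `φ` is the point of the crossing (`CrossingModel.point`);
* `dominates_loc` : a valuation subring `O ⊇ C` over `A` whose centre on `C` contains the point of
  the crossing contains the local ring `CrossingModel.loc` and DOMINATES it.
-/

set_option autoImplicit false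
set_option linter.unusedSectionVars false

namespace Fermat.Agent.BR3.CentreHom

open AlgebraicCurve IsLocalRing Fermat.Agent.Red Fermat.Agent.X0 Fermat.Agent.BR.Centre
  Fermat.Agent.BR.SpecialFibre Fermat.Agent.BR.S0 Fermat.Agent.BR.S0.RedModular
  Fermat.Agent.BR.S0.PointDict Fermat.Agent.BR.S0.PointOfHom Fermat.Agent.BR.S0.SmoothAssembly
  Fermat.Agent.BR3.CircleDom

variable {K F k Ft : Type*} [Field K] [Field F] [Algebra K F] [Field k] [Field Ft] [Algebra k Ft]
  {A : ValuationSubring K} {π : A →+* k}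

section Hom

variable {Dk : Type*} [CommRing Dk] [IsDedekindDomain Dk] [Algebra Dk Ft] [IsFractionRing Dk Ft]
  [Algebra k Dk] [IsScalarTower k Dk Ft]
  {D : ChartData A π Ft F} {C : Subring F} {ϖ : K} {P₀ P₁ : Ideal C} {red₀ red₁ : C →+* Dk}

/-- **A point of the special fibre of the model is a place of one of the two components.** -/
theorem exists_place_of_hom (LH : LevelHyp D C ϖ P₀ P₁ red₀ red₁) (hnf : ¬ IsField Dk)
    (hπ0 : ∀ a : A, A.valuation (a : K) < 1 → π a = 0)
    (hres : ∀ v (a : K) (ha : a ∈ A) (h : algebraMap K F a ∈ D.O v),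
      D.res v ⟨algebraMap K F a, h⟩ = algebraMap k Ft (π ⟨a, ha⟩))
    (φ : C →+* k)
    (hφ : ∀ (a : A) (h : algebraMap K F (a : K) ∈ C), φ ⟨algebraMap K F (a : K), h⟩ = π a) :
    ∃ (v : Fin 2) (Q' : Place k Ft),
      ∀ x : C, IsValueAt Q' (D.res v ⟨x, LH.hCO v x.2⟩) (φ x) := by
  have := LH.noeth
  have := LH.intClosed
  have hϖA : ϖ ∈ A := (A.valuation_le_one_iff _).mp LH.unif_lt.le
  have hφϖ : φ ⟨algebraMap K F ϖ, LH.unif_mem⟩ = 0 := by
    rw [hφ ⟨ϖ, hϖA⟩ LH.unif_mem]
    exact hπ0 _ LH.unif_lt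
  have hinf : ∀ x : C, red₀ x = 0 → red₁ x = 0 →
      (⟨algebraMap K F ϖ, LH.unif_mem⟩ : C) ∣ x := by
    intro x h0 h1
    have hmem : x ∈ P₀ ⊓ P₁ := ⟨(LH.mem_P₀ x).mpr h0, (LH.mem_P₁ x).mpr h1⟩
    rw [LH.twoComp.inf_eq] at hmem
    exact Ideal.mem_span_singleton.mp hmem
  have hcases : (∀ x : C, red₀ x = 0 → φ x = 0) ∨ (∀ x : C, red₁ x = 0 → φ x = 0) := by
    by_contra hcon
    rw [not_or] at hcon
    obtain ⟨h0, h1⟩ := hcon
    rw [not_forall] at h0 h1
    obtain ⟨x, hx⟩ := h0
    obtain ⟨y, hy⟩ := h1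
    rw [Classical.not_imp] at hx hy
    obtain ⟨z, hz⟩ := hinf (x * y) (by rw [map_mul, hx.1, zero_mul])
      (by rw [map_mul, hy.1, mul_zero])
    have h2 : φ x * φ y = 0 := by
      rw [← map_mul, hz, map_mul, hφϖ, zero_mul]
    rcases mul_eq_zero.mp h2 with h | h
    · exact hx.2 h
    · exact hy.2 h
  rcases hcases with h | h
  · obtain ⟨Q', hQ'⟩ := exists_place_of_hom_on_model hnf (fun x hx => LH.hCO 0 hx) (hres 0) red₀
      LH.hred₀ LH.surj₀ LH.fullRes φ h hφ
    exact ⟨0, Q', hQ'⟩
  · obtain ⟨Q', hQ'⟩ := exists_place_of_hom_on_model hnf (fun x hx => LH.hCO 1 hx) (hres 1) red₁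
      LH.hred₁ LH.surj₁ LH.fullRes φ h hφ
    exact ⟨1, Q', hQ'⟩

end Hom

section Point

variable {Ft₁ Ft₂ : Type*} [Field Ft₁] [Algebra k Ft₁] [Field Ft₂] [Algebra k Ft₂]
  {O₁ O₂ : ValuationSubring F} {res₁ : O₁ →+* Ft₁} {res₂ : O₂ →+* Ft₂} {Q₁ : Place k Ft₁}
  {Q₂ : Place k Ft₂} {T : Set (Place K F)} {C : Subring F} {ϖ : K}
  (Mod : CrossingModel A π O₁ O₂ res₁ res₂ Q₁ Q₂ T C ϖ)

/-- If `φ` is the evaluation at the first branch of the crossing, its kernel is the point. -/
theorem mem_point_iff_of_values₁ (φ : C →+* k)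
    (h : ∀ x : C, IsValueAt Q₁ (res₁ ⟨x, Mod.le₁ x x.2⟩) (φ x)) (x : C) :
    x ∈ Mod.point ↔ φ x = 0 := by
  rw [Mod.mem_point_iff, ← isValueAt_zero_iff]
  constructor
  · intro h0
    exact (h x).unique h0
  · intro h0
    have := h x
    rwa [h0] at this

/-- If `φ` is the evaluation at the second branch of the crossing, its kernel is the point. -/
theorem mem_point_iff_of_values₂ (φ : C →+* k)
    (h : ∀ x : C, IsValueAt Q₂ (res₂ ⟨x, Mod.le₂ x x.2⟩) (φ x)) (x : C) :
    x ∈ Mod.point ↔ φ x = 0 := by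
  rw [Mod.mem_point_iff₂, ← isValueAt_zero_iff]
  constructor
  · intro h0
    exact (h x).unique h0
  · intro h0
    have := h x
    rwa [h0] at this

/-- **Domination**: a valuation subring `O ⊇ C` over `A` whose centre on the model `C` contains the
point of the crossing contains the local ring of the model at the crossing and dominates it. -/
theorem dominates_loc (O : ValuationSubring F)
    (hK : ∀ c : K, algebraMap K F c ∈ O ↔ c ∈ A) (hC : ∀ x ∈ C, x ∈ O)
    (hp : ∀ x : C, x ∈ Mod.point → O.valuation (x : F) < 1)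
    (hres₁ : ∀ (a : K) (ha : a ∈ A) (h : algebraMap K F a ∈ O₁),
      res₁ ⟨algebraMap K F a, h⟩ = algebraMap k Ft₁ (π ⟨a, ha⟩))
    (hπ : ∀ a : A, π a ≠ 0 → (a : K)⁻¹ ∈ A) :
    (∀ z ∈ Mod.loc, z ∈ O) ∧ ∀ z : Mod.loc, ¬ IsUnit z → O.valuation (z : F) < 1 := by
  -- the functions of the model outside the point are units of `O`
  have hunit : ∀ b : C, b ∉ Mod.point → O.valuation (b : F) = 1 := by
    intro b hb
    obtain ⟨β, hβC, hβ⟩ := Mod.fullRes b
    have hβ0 : π β ≠ 0 := by
      intro h0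
      rw [h0, map_zero, sub_zero] at hβ
      exact hb hβ
    have hβinv : (β : K)⁻¹ ∈ A := hπ β hβ0
    have hβ1 : A.valuation (β : K) = 1 := by
      have h1 := (A.valuation_le_one_iff _).mpr β.2
      have h2 := (A.valuation_le_one_iff _).mpr hβinv
      rw [map_inv₀] at h2
      have hβK : (β : K) ≠ 0 := by
        intro h0
        apply hβ0
        have : β = 0 := Subtype.ext h0
        rw [this, map_zero]
      exact le_antisymm h1
        ((inv_le_one₀ (zero_lt_iff.mpr ((Valuation.ne_zero_iff _).mpr hβK))).mp h2)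
    have hvβ : O.valuation (algebraMap K F (β : K)) = 1 := val_const_eq_one hK hβ1
    have hmem : b - ⟨algebraMap K F (β : K), hβC⟩ ∈ Mod.point := by
      rw [Mod.mem_point_iff]
      have e : res₁ ⟨((b - ⟨algebraMap K F (β : K), hβC⟩ : C) : F),
          Mod.le₁ _ (b - ⟨algebraMap K F (β : K), hβC⟩ : C).2⟩ =
          res₁ ⟨b, Mod.le₁ b b.2⟩ - algebraMap k Ft₁ (π β) := by
        have e3 : (⟨((b - ⟨algebraMap K F (β : K), hβC⟩ : C) : F),
            Mod.le₁ _ (b - ⟨algebraMap K F (β : K), hβC⟩ : C).2⟩ : O₁) =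
            ⟨b, Mod.le₁ b b.2⟩ - ⟨algebraMap K F (β : K), Mod.le₁ _ hβC⟩ := rfl
        rw [e3, map_sub, hres₁ (β : K) β.2]
      rw [e]
      exact hβ
    have hlt := hp _ hmem
    have e : (b : F) = ((b - ⟨algebraMap K F (β : K), hβC⟩ : C) : F) + algebraMap K F (β : K) := by
      show (b : F) = ((b : F) - algebraMap K F (β : K)) + algebraMap K F (β : K)
      ring
    rw [e]
    have h3 : O.valuation (((b - ⟨algebraMap K F (β : K), hβC⟩ : C) : F) +
        algebraMap K F (β : K)) = O.valuation (algebraMap K F (β : K)) :=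
      Valuation.map_add_eq_of_lt_right _ (lt_of_lt_of_eq hlt hvβ.symm)
    rw [h3, hvβ]
  have hquot : ∀ {z : F} {a b : C}, b ∉ Mod.point → z * (b : F) = (a : F) →
      O.valuation z = O.valuation (a : F) := by
    intro z a b hb hab
    have h1 := congrArg O.valuation hab
    rwa [map_mul, hunit b hb, mul_one] at h1
  constructor
  · intro z hz
    obtain ⟨a, b, hb, hab⟩ := Mod.mem_loc_iff.mp hz
    rw [← O.valuation_le_one_iff, hquot hb hab, O.valuation_le_one_iff]
    exact hC a a.2
  · intro z hz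
    obtain ⟨a, b, hb, hab⟩ := Mod.mem_loc_iff.mp z.2
    rw [hquot hb hab]
    exact hp a (Mod.num_mem_point hz hb hab)

end Point

end Fermat.Agent.BR3.CentreHom
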