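import Mathlib
import Fermat.Agent.BR3.InvFiniteUnit

/-!
# Program C (S36), node A2 (INV ⇒ NAT), part 7: the exponents on the annuli form a flow modulo `m`

`S₀` a semistable setup with node contracts `N e` whose annulus coordinates have residues with
SIMPLE zeros at the two branches (`hsrc`, `htgt`); `(D, f)` with `div f = m D`; `b e` the exponent
of `f` on the annulus of `e` (`NodeNF (N e) f (m • D) (b e) (c e)`).

* `ord_T_src`, `ord_T_tgt` : the orders of the normalised coordinates at the branches are `1`, `-1`;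
* `ord_isResidue_src`, `ord_isResidue_tgt`, `ord_isResidue_smooth` : the orders of a residue of `f`
  at the branch `s₁ e` (`= b e + m · tdeg_e D`), at the branch `s₂ e` (`= - b e`) and at a point
  which is not a branch point (`∈ m ℤ`);
* `dvd_ord_sub_beta` : for every point `x` of the normalisation of the special fibre the order of
  a residue of `f` at `x` is congruent modulo `m` to `beta b x` (the sum of the `b e` over the nodes
  with source branch `x` minus the sum over the nodes with target branch `x`);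
* `flow` : the divergence of `b` at every component is divisible by `m` (degree of a principal
  divisor on the component);
* `dvd_mul_ord` : if `m ∣ Δ * b e` for all `e` then `m ∣ Δ * ord_Q G` for every residue `G` of `f`
  and every `Q`.
-/

set_option autoImplicit false
set_option linter.unusedSectionVars false

namespace Fermat.Agent.BR3.InvFiniteFlow

open AlgebraicCurve IsLocalRing Fermat.Agent.Red Fermat.Agent.BR.SS Fermat.Agent.BR.Fact
  Fermat.Agent.BR.Refine Fermat.Agent.BR.InertiaRed Fermat.Agent.BR3.InvFiniteMoment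
  Fermat.Agent.BR3.InvFiniteNode Fermat.Agent.BR3.InvFiniteUnit Fermat.Agent.BR2
  Fermat.Agent.BR2.Filt

variable {K : Type} {F : Type*} [Field K] [Field F] [Algebra K F]
  {A : ValuationSubring K} [IsAlgClosed (ResidueField A)]
  {ι₀ : Type} {Ft₀ : ι₀ → Type} [∀ v, Field (Ft₀ v)] [∀ v, Algebra (ResidueField A) (Ft₀ v)]
  {ν₀ : Type} {S₀ : SemistableSetup (F := F) A (residue A) ι₀ Ft₀ ν₀}

section OneNode

variable {e : ν₀} {u : F} {thick : K} {TU : F → Prop} (N : NodeFact S₀ e u thick TU)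

include N

theorem ord_T_src
    (hsrc : ∀ h : u ∈ S₀.O (S₀.src e), (S₀.s₁ e).ord (S₀.res (S₀.src e) ⟨u, h⟩) = 1) :
    (S₀.s₁ e).ord N.gaugeSrc.T = 1 := by
  obtain ⟨h, -⟩ := N.u_src
  have e1 : N.gaugeSrc.T = S₀.res (S₀.src e) ⟨u, h⟩ := by
    unfold GaugeComp.T
    congr 1
    exact Subtype.ext (show (1 : K)⁻¹ • u = u by rw [inv_one, one_smul])
  rw [e1]
  exact hsrc h

theorem ord_T_tgt
    (htgt : ∀ h : thick • u⁻¹ ∈ S₀.O (S₀.tgt e),
      (S₀.s₂ e).ord (S₀.res (S₀.tgt e) ⟨thick • u⁻¹, h⟩) = 1) :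
    (S₀.s₂ e).ord N.gaugeTgt.T = -1 := by
  obtain ⟨h, hpos⟩ := N.v_tgt
  have h0 : S₀.res (S₀.tgt e) ⟨thick • u⁻¹, h⟩ ≠ 0 := by
    intro h0
    rw [h0, Place.ord_zero] at hpos
    exact lt_irrefl _ hpos
  obtain ⟨h', hr⟩ := inv_mem_of_res_ne_zero (S₀.res_eq_zero_iff _) h h0
  have e1 : N.gaugeTgt.T = (S₀.res (S₀.tgt e) ⟨thick • u⁻¹, h⟩)⁻¹ := by
    rw [← hr]
    unfold GaugeComp.T
    congr 1
    exact Subtype.ext NodeFact.v_inv_eq.symm
  rw [e1, Place.ord_inv, htgt h]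

variable {f : F} {E : Divisor K F} {b : ℤ} {c : K}

/-- The order of a residue of `f` at the source branch of the node. -/
theorem ord_isResidue_src (hnf : NodeNF N f E b c) {G : Ft₀ (S₀.src e)}
    (hG : IsResidue S₀ (S₀.src e) f G) :
    (S₀.s₁ e).ord G = (b + tdeg (tube S₀ e) E) * (S₀.s₁ e).ord N.gaugeSrc.T := by
  obtain ⟨hG0, c', hc', hmem, hr⟩ := hG
  have hres : S₀.resF (S₀.src e) (c' • f) = G := by rw [S₀.resF_of_mem hmem, hr]
  have h1 := (hnf.smul hc').ord_src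
    ((hnf.smul hc').resF_src_ne_zero_iff.mp (by rw [hres]; exact hG0))
  rwa [hres] at h1

/-- The order of a residue of `f` at the target branch of the node. -/
theorem ord_isResidue_tgt (hnf : NodeNF N f E b c) {G : Ft₀ (S₀.tgt e)}
    (hG : IsResidue S₀ (S₀.tgt e) f G) :
    (S₀.s₂ e).ord G = b * (S₀.s₂ e).ord N.gaugeTgt.T := by
  obtain ⟨hG0, c', hc', hmem, hr⟩ := hG
  have hres : S₀.resF (S₀.tgt e) (c' • f) = G := by rw [S₀.resF_of_mem hmem, hr]
  have h1 := (hnf.smul hc').ord_tgt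
    ((hnf.smul hc').resF_tgt_ne_zero_iff.mp (by rw [hres]; exact hG0))
  rwa [hres] at h1

end OneNode

/-- Conservation: the order of a residue of `f` (`div f = m D`) at a point which is not a branch
point. -/
theorem ord_isResidue_smooth {m : ℕ} {D : Divisor K F} {f : F} (hf : ∀ P, (m • D) P = P.ord f)
    {v : ι₀} {G : Ft₀ v} (hG : IsResidue S₀ v f G) {Q : Place (ResidueField A) (Ft₀ v)}
    (hQ : ¬ S₀.IsBranch ⟨v, Q⟩) :
    Q.ord G = (m : ℤ) * Finsupp.mapDomain S₀.r D ⟨v, Q⟩ := by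
  obtain ⟨hG0, c', hc', hmem, hr⟩ := hG
  have hcons := S₀.conservation v ⟨c' • f, hmem⟩ (by rw [hr]; exact hG0) (m • D)
    (fun P => by
      rw [hf P]
      exact (Fermat.Agent.Red.NormalForm.ord_const_smul P hc' f).symm) Q
    (fun e he => hQ ⟨e, Or.inl he⟩) (fun e he => hQ ⟨e, Or.inr he⟩)
  rw [hr] at hcons
  rw [← hcons, Finsupp.mapDomain_smul, Finsupp.smul_apply, nsmul_eq_mul]

section Global

variable [Fintype ν₀] {u : ν₀ → F} {thick : ν₀ → K} {TU : ν₀ → F → Prop}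
  (N : ∀ e, NodeFact S₀ e (u e) (thick e) (TU e))

open Classical in
/-- The expected order at a point of the normalisation of the special fibre: `bs e` at the source
branch of `e`, `- bt e` at the target branch of `e`, `0` elsewhere. -/
noncomputable def beta (S₀ : SemistableSetup (F := F) A (residue A) ι₀ Ft₀ ν₀) (bs bt : ν₀ → ℤ)
    (x : Σ v, Place (ResidueField A) (Ft₀ v)) : ℤ :=
  (∑ e, if x = ⟨S₀.src e, S₀.s₁ e⟩ then bs e else 0) -
    ∑ e, if x = ⟨S₀.tgt e, S₀.s₂ e⟩ then bt e else 0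

omit [IsAlgClosed (ResidueField A)] in
theorem beta_src (bs bt : ν₀ → ℤ) (e : ν₀) : beta S₀ bs bt ⟨S₀.src e, S₀.s₁ e⟩ = bs e := by
  classical
  unfold beta
  have h1 : ∀ e', ((⟨S₀.src e, S₀.s₁ e⟩ : Σ v, Place (ResidueField A) (Ft₀ v)) =
      ⟨S₀.src e', S₀.s₁ e'⟩) ↔ e = e' := by
    intro e'
    constructor
    · intro h
      exact Sum.inl_injective (S₀.branch_injective (a₁ := Sum.inl e) (a₂ := Sum.inl e') h)
    · rintro rfl; rfl
  have h2 : ∀ e', ¬ ((⟨S₀.src e, S₀.s₁ e⟩ : Σ v, Place (ResidueField A) (Ft₀ v)) =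
      ⟨S₀.tgt e', S₀.s₂ e'⟩) := by
    intro e' h
    exact absurd (S₀.branch_injective (a₁ := Sum.inl e) (a₂ := Sum.inr e') h) (by simp)
  simp only [h1, h2, if_false, Finset.sum_const_zero, sub_zero, Finset.sum_ite_eq,
    Finset.mem_univ, if_true]

omit [IsAlgClosed (ResidueField A)] in
theorem beta_tgt (bs bt : ν₀ → ℤ) (e : ν₀) : beta S₀ bs bt ⟨S₀.tgt e, S₀.s₂ e⟩ = -bt e := by
  classical
  unfold beta
  have h1 : ∀ e', ((⟨S₀.tgt e, S₀.s₂ e⟩ : Σ v, Place (ResidueField A) (Ft₀ v)) =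
      ⟨S₀.tgt e', S₀.s₂ e'⟩) ↔ e = e' := by
    intro e'
    constructor
    · intro h
      exact Sum.inr_injective (S₀.branch_injective (a₁ := Sum.inr e) (a₂ := Sum.inr e') h)
    · rintro rfl; rfl
  have h2 : ∀ e', ¬ ((⟨S₀.tgt e, S₀.s₂ e⟩ : Σ v, Place (ResidueField A) (Ft₀ v)) =
      ⟨S₀.src e', S₀.s₁ e'⟩) := by
    intro e' h
    exact absurd (S₀.branch_injective (a₁ := Sum.inr e) (a₂ := Sum.inl e') h) (by simp)
  simp only [h1, h2, if_false, Finset.sum_const_zero, zero_sub, Finset.sum_ite_eq,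
    Finset.mem_univ, if_true]

omit [IsAlgClosed (ResidueField A)] in
theorem beta_of_not_isBranch (bs bt : ν₀ → ℤ) {x : Σ v, Place (ResidueField A) (Ft₀ v)}
    (hx : ¬ S₀.IsBranch x) : beta S₀ bs bt x = 0 := by
  classical
  unfold beta
  have h1 : ∀ e', ¬ (x = ⟨S₀.src e', S₀.s₁ e'⟩) := fun e' h => hx ⟨e', Or.inl h⟩
  have h2 : ∀ e', ¬ (x = ⟨S₀.tgt e', S₀.s₂ e'⟩) := fun e' h => hx ⟨e', Or.inr h⟩
  simp only [h1, h2, if_false, Finset.sum_const_zero, sub_zero]

open Classical in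
omit [IsAlgClosed (ResidueField A)] [Fintype ν₀] in
/-- Summing an indicator of a point of the sigma type over the places of one component. -/
theorem sum_ite_sigma (v : ι₀) (s : Finset (Place (ResidueField A) (Ft₀ v)))
    (y : Σ v, Place (ResidueField A) (Ft₀ v)) (val : ℤ)
    (h0 : y.1 = v → (∀ Q ∈ s, (⟨v, Q⟩ : Σ v, Place (ResidueField A) (Ft₀ v)) ≠ y) → val = 0) :
    (∑ Q ∈ s, if (⟨v, Q⟩ : Σ v, Place (ResidueField A) (Ft₀ v)) = y then val else 0) =
      if y.1 = v then val else 0 := by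
  obtain ⟨w, Q₀⟩ := y
  by_cases hv : w = v
  · subst hv
    rw [if_pos rfl]
    have h1 : ∀ Q, ((⟨w, Q⟩ : Σ v, Place (ResidueField A) (Ft₀ v)) = ⟨w, Q₀⟩) ↔ Q = Q₀ := by
      intro Q
      constructor
      · intro h
        exact eq_of_heq (Sigma.mk.inj_iff.mp h).2
      · rintro rfl; rfl
    simp only [h1, Finset.sum_ite_eq']
    split_ifs with hmem
    · rfl
    · symm
      apply h0 rfl
      intro Q hQ hQeq
      rw [(h1 Q).mp hQeq] at hQ
      exact hmem hQ
  · rw [if_neg hv]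
    refine Finset.sum_eq_zero fun Q _ => ?_
    rw [if_neg]
    intro h
    exact hv (Sigma.mk.inj_iff.mp h).1.symm

open Classical in
omit [IsAlgClosed (ResidueField A)] in
/-- The sum of `beta` over a set of places of the component `v` containing the support. -/
theorem sum_beta (bs bt : ν₀ → ℤ) (v : ι₀) (s : Finset (Place (ResidueField A) (Ft₀ v)))
    (hs : ∀ e, S₀.src e = v →
      (∀ Q ∈ s, (⟨v, Q⟩ : Σ v, Place (ResidueField A) (Ft₀ v)) ≠ ⟨S₀.src e, S₀.s₁ e⟩) → bs e = 0)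
    (ht : ∀ e, S₀.tgt e = v →
      (∀ Q ∈ s, (⟨v, Q⟩ : Σ v, Place (ResidueField A) (Ft₀ v)) ≠ ⟨S₀.tgt e, S₀.s₂ e⟩) → bt e = 0) :
    ∑ Q ∈ s, beta S₀ bs bt ⟨v, Q⟩ =
      (∑ e, if S₀.src e = v then bs e else 0) - ∑ e, if S₀.tgt e = v then bt e else 0 := by
  unfold beta
  rw [Finset.sum_sub_distrib, Finset.sum_comm, Finset.sum_comm (s := s)]
  congr 1
  · refine Finset.sum_congr rfl fun e _ => ?_
    exact sum_ite_sigma v s ⟨S₀.src e, S₀.s₁ e⟩ (bs e) (hs e)
  · refine Finset.sum_congr rfl fun e _ => ?_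
    exact sum_ite_sigma v s ⟨S₀.tgt e, S₀.s₂ e⟩ (bt e) (ht e)

variable (hsrc : ∀ e (h : u e ∈ S₀.O (S₀.src e)),
    (S₀.s₁ e).ord (S₀.res (S₀.src e) ⟨u e, h⟩) = 1)
  (htgt : ∀ e (h : thick e • (u e)⁻¹ ∈ S₀.O (S₀.tgt e)),
    (S₀.s₂ e).ord (S₀.res (S₀.tgt e) ⟨thick e • (u e)⁻¹, h⟩) = 1)
  {m : ℕ} {D : Divisor K F} {f : F} (hf : ∀ P, (m • D) P = P.ord f)
  {b : ν₀ → ℤ} {c : ν₀ → K} (hnf : ∀ e, NodeNF (N e) f (m • D) (b e) (c e))

include N hsrc htgt hf hnf

/-- The order of a residue of `f` at the source branch of `e`. -/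
theorem ord_src_eq (e : ν₀) {G : Ft₀ (S₀.src e)} (hG : IsResidue S₀ (S₀.src e) f G) :
    (S₀.s₁ e).ord G = b e + (m : ℤ) * tdeg (tube S₀ e) D := by
  rw [ord_isResidue_src (N e) (hnf e) hG, ord_T_src (N e) (hsrc e), mul_one, tdeg_nsmul]

/-- The order of a residue of `f` at the target branch of `e`. -/
theorem ord_tgt_eq (e : ν₀) {G : Ft₀ (S₀.tgt e)} (hG : IsResidue S₀ (S₀.tgt e) f G) :
    (S₀.s₂ e).ord G = -b e := by
  rw [ord_isResidue_tgt (N e) (hnf e) hG, ord_T_tgt (N e) (htgt e)]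
  ring

/-- The order of a residue of `f` at any point is congruent modulo `m` to `beta`. -/
theorem dvd_ord_sub_beta (x : Σ v, Place (ResidueField A) (Ft₀ v)) {G : Ft₀ x.1}
    (hG : IsResidue S₀ x.1 f G) :
    (m : ℤ) ∣ x.2.ord G - beta S₀ (fun e => b e + (m : ℤ) * tdeg (tube S₀ e) D) b x := by
  by_cases hx : S₀.IsBranch x
  · obtain ⟨e, rfl | rfl⟩ := hx
    · rw [beta_src, ord_src_eq N hsrc htgt hf hnf e hG, sub_self]
      exact dvd_zero _
    · rw [beta_tgt, ord_tgt_eq N hsrc htgt hf hnf e hG, sub_self]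
      exact dvd_zero _
  · obtain ⟨v, Q⟩ := x
    rw [beta_of_not_isBranch _ _ hx, sub_zero, ord_isResidue_smooth hf hG hx]
    exact dvd_mul_right _ _

/-- If `m ∣ Δ * b e` for all `e`, then `m` divides `Δ` times every order of every residue. -/
theorem dvd_mul_ord {Δ : ℤ} (hΔ : ∀ e, (m : ℤ) ∣ Δ * b e)
    (x : Σ v, Place (ResidueField A) (Ft₀ v)) {G : Ft₀ x.1}
    (hG : IsResidue S₀ x.1 f G) : (m : ℤ) ∣ Δ * x.2.ord G := by
  classical
  have h1 := dvd_ord_sub_beta N hsrc htgt hf hnf x hG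
  have h2 : (m : ℤ) ∣ Δ * beta S₀ (fun e => b e + (m : ℤ) * tdeg (tube S₀ e) D) b x := by
    unfold beta
    rw [mul_sub, Finset.mul_sum, Finset.mul_sum]
    refine dvd_sub (Finset.dvd_sum fun e _ => ?_) (Finset.dvd_sum fun e _ => ?_)
    · split_ifs
      · rw [mul_add]
        exact dvd_add (hΔ e) ⟨Δ * tdeg (tube S₀ e) D, by ring⟩
      · rw [mul_zero]; exact dvd_zero _
    · split_ifs
      · exact hΔ e
      · rw [mul_zero]; exact dvd_zero _
  have h3 : Δ * x.2.ord G = Δ * (x.2.ord G -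
      beta S₀ (fun e => b e + (m : ℤ) * tdeg (tube S₀ e) D) b x) +
      Δ * beta S₀ (fun e => b e + (m : ℤ) * tdeg (tube S₀ e) D) b x := by ring
  rw [h3]
  exact dvd_add (Dvd.dvd.mul_left h1 Δ) h2

open Classical in
/-- **The exponents form a flow modulo `m`.** -/
theorem flow (hFt : ∀ v, RiemannPkg (ResidueField A) (Ft₀ v)) (hf0 : f ≠ 0) (v : ι₀) :
    (m : ℤ) ∣ ∑ e, ((if S₀.tgt e = v then 1 else 0) - (if S₀.src e = v then 1 else 0)) * b e := by
  have := (hFt v).principal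
  obtain ⟨G, hG⟩ := exists_isResidue (S := S₀) v hf0
  set Ediv : Divisor (ResidueField A) (Ft₀ v) := divOf (ResidueField A) G with hEdiv
  have hdeg : Ediv.sum (fun _ n => n) = 0 := by
    rw [← degree_eq_sum (hFt v), hEdiv, degree_divOf]
  rw [Finsupp.sum] at hdeg
  set s := Ediv.support with hs
  set bs : ν₀ → ℤ := fun e => b e + (m : ℤ) * tdeg (tube S₀ e) D with hbs
  -- the orders are congruent to `beta`
  have h1 : (m : ℤ) ∣ ∑ Q ∈ s, (Ediv Q - beta S₀ bs b ⟨v, Q⟩) := by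
    refine Finset.dvd_sum fun Q _ => ?_
    rw [hEdiv, divOf_apply]
    exact dvd_ord_sub_beta N hsrc htgt hf hnf ⟨v, Q⟩ hG
  rw [Finset.sum_sub_distrib, hdeg, zero_sub, dvd_neg] at h1
  -- the sum of `beta` over the places of `v`
  have h2 : ∑ Q ∈ s, beta S₀ bs b ⟨v, Q⟩ =
      (∑ e, if S₀.src e = v then bs e else 0) - ∑ e, if S₀.tgt e = v then b e else 0 := by
    refine sum_beta bs b v s (fun e hv hno => ?_) (fun e hv hno => ?_)
    · subst hv
      have hnot : S₀.s₁ e ∉ s := fun hmem => hno _ hmem rfl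
      have h0 : Ediv (S₀.s₁ e) = 0 := Finsupp.notMem_support_iff.mp hnot
      rw [hEdiv, divOf_apply, ord_src_eq N hsrc htgt hf hnf e hG] at h0
      exact h0
    · subst hv
      have hnot : S₀.s₂ e ∉ s := fun hmem => hno _ hmem rfl
      have h0 : Ediv (S₀.s₂ e) = 0 := Finsupp.notMem_support_iff.mp hnot
      rw [hEdiv, divOf_apply, ord_tgt_eq N hsrc htgt hf hnf e hG] at h0
      exact neg_eq_zero.mp h0
  rw [h2] at h1
  -- rearrange
  have h3 : (∑ e, ((if S₀.tgt e = v then 1 else 0) - (if S₀.src e = v then 1 else 0)) * b e) =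
      -((∑ e, if S₀.src e = v then bs e else 0) - ∑ e, if S₀.tgt e = v then b e else 0) +
        (m : ℤ) * ∑ e, if S₀.src e = v then tdeg (tube S₀ e) D else 0 := by
    rw [← Finset.sum_sub_distrib, Finset.mul_sum, ← Finset.sum_neg_distrib,
      ← Finset.sum_add_distrib]
    refine Finset.sum_congr rfl fun e _ => ?_
    rw [hbs]
    split_ifs <;> ring
  rw [h3]
  exact dvd_add ((dvd_neg).mpr h1) (dvd_mul_right _ _)

end Global

end Fermat.Agent.BR3.InvFiniteFlow
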