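import Mathlib
import Fermat.Agent.BR3.InvFiniteUnit

/-!
# Program C (S36), node A2 (INV ⇒ NAT), part 6: the potential

`S₀` a semistable setup with node contracts `N e`, `g` acting trivially on the model, `(D, f)` with
`div f = m D`, `h` with `div h = g • D - D`.

* `exists_kappa` : `g • f = κ • (f * h ^ m)` for a constant `κ ≠ 0`;
* `valuation_eq_one_of_smul` : a constant `γ` such that `x` and `γ • x` are both units of a
  component is a unit of `A`;
* `exists_potential` : if the thickness of the node `e` has the valuation of `ϖ ^ t e`, `cm ^ m = ϖ`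
  and `ζ = θ_g(cm)` is a primitive `m`-th root of unity, then the exponents `b e` of `f` on the
  annuli (`NodeNF (N e) f (m • D) (b e) (c e)`) satisfy
  `t e * b e ≡ φ (tgt e) - φ (src e)  (mod m)` for a potential `φ : ι₀ → ℤ`.

Proof: Gauss constants `cv v` of `f` (`cv v • f` a unit on `v`), `θ(cv v) · res κ · η_v^m = 1`
(`η_v` the constant residues of `h`, `InvFiniteUnit.exists_unit_norm`), the Newton polygon
`|cv (src e) / cv (tgt e)| = |thick e|^(b e) · |tmom_e D|^m`, `m`-th roots `α v` of the `cv v`,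
`ξ v := θ(α v) η_v` with `ξ_v^m` independent of `v` and `ξ (src e) = ζ^(t e * b e) ξ (tgt e)` by the
moment formula; `φ` is the discrete logarithm of `ξ`.
-/

set_option autoImplicit false
set_option linter.unusedSectionVars false

namespace Fermat.Agent.BR3.InvFiniteGauss

open AlgebraicCurve IsLocalRing Fermat.Agent.Red Fermat.Agent.BR.SS Fermat.Agent.BR.Fact
  Fermat.Agent.BR.Refine Fermat.Agent.BR.InertiaRed Fermat.Agent.BR3.InvFiniteMoment
  Fermat.Agent.BR3.InvFiniteNode Fermat.Agent.BR3.InvFiniteTheta Fermat.Agent.BR3.InvFiniteUnit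
  Fermat.Agent.BR2

variable {K : Type} {F : Type*} [Field K] [Field F] [Algebra K F]
  {A : ValuationSubring K} [IsAlgClosed (ResidueField A)]
  {ι₀ : Type} {Ft₀ : ι₀ → Type} [∀ v, Field (Ft₀ v)] [∀ v, Algebra (ResidueField A) (Ft₀ v)]
  {ν₀ : Type} {S₀ : SemistableSetup (F := F) A (residue A) ι₀ Ft₀ ν₀}

/-- `g • (c • y) = g(c) • (g • y)`. -/
theorem smul_smul_base (g : SemilinearAut K F) (c : K) (y : F) :
    g • (c • y) = SemilinearAut.baseAut g c • (g • y) := by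
  rw [Algebra.smul_def, Algebra.smul_def, smul_mul', SemilinearAut.smul_algebraMap]

/-- The order of `g • f` at `P`. -/
theorem ord_smul' (g : SemilinearAut K F) (P : Place K F) (f : F) :
    P.ord (g • f) = (g⁻¹ • P).ord f := by
  have h := SemilinearAut.ord_smul g (g⁻¹ • P) f
  rwa [smul_inv_smul] at h

/-- `g • f = κ • (f * h ^ m)` when `div f = m D` and `div h = g • D - D`. -/
theorem exists_kappa (hF : RiemannPkg K F) (g : SemilinearAut K F) {m : ℕ} {D : Divisor K F}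
    {f h : F} (hf0 : f ≠ 0) (h0 : h ≠ 0) (hf : ∀ P, (m • D) P = P.ord f)
    (hh : ∀ P, (g • D - D) P = P.ord h) : ∃ κ : K, κ ≠ 0 ∧ g • f = κ • (f * h ^ m) := by
  have hgf0 : g • f ≠ 0 := by rwa [Ne, smul_eq_zero_iff_eq]
  have hfh0 : f * h ^ m ≠ 0 := mul_ne_zero hf0 (pow_ne_zero m h0)
  have hord : ∀ P : Place K F, P.ord (g • f * (f * h ^ m)⁻¹) = 0 := by
    intro P
    rw [Place.ord_mul _ hgf0 (inv_ne_zero hfh0), Place.ord_inv,
      Place.ord_mul _ hf0 (pow_ne_zero m h0), Fermat.Agent.X0.Place.ord_pow, ord_smul', ← hf, ← hf, ← hh,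
      Finsupp.smul_apply, Finsupp.smul_apply, Finsupp.sub_apply, SemilinearAut.divisor_smul_apply,
      nsmul_eq_mul, nsmul_eq_mul]
    ring
  obtain ⟨κ, hκ⟩ := exists_const_of_forall_ord_nonneg hF fun P => (hord P).ge
  have hκ0 : κ ≠ 0 := by
    rintro rfl
    rw [map_zero] at hκ
    exact mul_ne_zero hgf0 (inv_ne_zero hfh0) hκ
  refine ⟨κ, hκ0, ?_⟩
  rw [Algebra.smul_def, ← hκ, mul_assoc, inv_mul_cancel₀ hfh0, mul_one]

/-- A constant `γ` such that `x` and `γ • x` are units of the component `v` is a unit of `A`, and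
the residue of `γ • x` is the residue of `γ` times the residue of `x`. -/
theorem valuation_eq_one_of_smul (v : ι₀) {γ : K} {x : F} (hx : S₀.resF v x ≠ 0)
    (hγx : S₀.resF v (γ • x) ≠ 0) :
    A.valuation γ = 1 ∧
      S₀.resF v (γ • x) = algebraMap (ResidueField A) (Ft₀ v) (resOf A γ) * S₀.resF v x := by
  have hxO := S₀.mem_of_resF_ne_zero hx
  have hγxO := S₀.mem_of_resF_ne_zero hγx
  have hγ0 : γ ≠ 0 := by
    rintro rfl
    rw [zero_smul, S₀.resF_zero] at hγx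
    exact hγx rfl
  have hγi : γ⁻¹ ∈ A := by
    by_contra hn
    have h1 := (S₀.resF_smul_eq_zero_of_not_mem v hn hxO).2
    rw [inv_inv] at h1
    exact hγx h1
  have hγA : γ ∈ A := by
    by_contra hn
    have h1 := (S₀.resF_smul_eq_zero_of_not_mem v hn hγxO).2
    rw [smul_smul, inv_mul_cancel₀ hγ0, one_smul] at h1
    exact hx h1
  have h1 : A.valuation γ ≤ 1 := (A.valuation_le_one_iff _).mpr hγA
  have h2 : A.valuation γ⁻¹ ≤ 1 := (A.valuation_le_one_iff _).mpr hγi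
  rw [map_inv₀] at h2
  have h3 : 1 ≤ A.valuation γ :=
    (inv_le_one₀ (zero_lt_iff.mpr ((Valuation.ne_zero_iff _).mpr hγ0))).mp h2
  refine ⟨le_antisymm h1 h3, ?_⟩
  rw [S₀.resF_smul v hγA hxO, Algebra.smul_def, resOf_of_mem A hγA]

section Main

variable {u : ν₀ → F} {thick : ν₀ → K} {TU : ν₀ → F → Prop}
  (N : ∀ e, NodeFact S₀ e (u e) (thick e) (TU e))
  {g : SemilinearAut K F} (hg : TrivialAction S₀ u g)

include N hg

/-- **The potential.** -/
theorem exists_potential [Finite ι₀] [IsAlgClosed K] (hF : RiemannPkg K F)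
    (hFt : ∀ v, RiemannPkg (ResidueField A) (Ft₀ v))
    (hthick : ∀ e, A.valuation (thick e) < 1)
    {m : ℕ} (hm : m ≠ 0) (D : Divisor K F) {f : F} (hf0 : f ≠ 0)
    (hf : ∀ P, (m • D) P = P.ord f) {h : F} (h0 : h ≠ 0) (hh : ∀ P, (g • D - D) P = P.ord h)
    {b : ν₀ → ℤ} {c : ν₀ → K} (hnf : ∀ e, NodeNF (N e) f (m • D) (b e) (c e))
    {ϖ : K} (hϖ0 : ϖ ≠ 0) (t : ν₀ → ℕ)
    (ht : ∀ e, A.valuation (thick e) = A.valuation ϖ ^ t e)
    {cm : K} (hcm : cm ^ m = ϖ)
    (hprim : IsPrimitiveRoot (theta A (SemilinearAut.baseAut g) cm) m) :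
    ∃ φ : ι₀ → ℤ, ∀ e, (m : ℤ) ∣ (t e : ℤ) * b e - (φ (S₀.tgt e) - φ (S₀.src e)) := by
  classical
  have hs := hg.isInertial
  set σ := SemilinearAut.baseAut g with hσ
  set ζ := theta A σ cm with hζ
  have hcm0 : cm ≠ 0 := by
    rintro rfl
    rw [zero_pow hm] at hcm
    exact hϖ0 hcm.symm
  have : Nonempty ι₀ := by
    obtain ⟨P⟩ := hF.infinite_places.nonempty
    exact ⟨(S₀.r P).1⟩
  -- the unit normalisation of `h`
  obtain ⟨c₀, η, hc₀, hη0, hres, hmom⟩ := exists_unit_norm N hg hF hFt hthick D h0 hh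
  set h' : F := c₀ • h with hh'
  have hh'0 : h' ≠ 0 := smul_ne_zero hc₀ h0
  have hh'D : ∀ P, (g • D - D) P = P.ord h' := fun P => by
    rw [hh', Fermat.Agent.Red.NormalForm.ord_const_smul P hc₀, hh]
  have hresF : ∀ v, S₀.resF v h' = algebraMap (ResidueField A) (Ft₀ v) (η v) := fun v => by
    obtain ⟨hmem, hr⟩ := hres v
    rw [S₀.resF_of_mem hmem, hr]
  have hh'O : ∀ v, h' ∈ S₀.O v := fun v => (hres v).1
  obtain ⟨κ, hκ0, hκ⟩ := exists_kappa hF g hf0 hh'0 hf hh'D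
  -- the Gauss constants of `f`
  choose cv hcv0 hcvmem hcvres using fun v => S₀.exists_smul_mem v hf0
  -- (R1) `θ(cv v) · res κ · η_v ^ m = 1`, `|κ| = 1`
  have hR1 : ∀ v, A.valuation κ = 1 ∧ theta A σ (cv v) * resOf A κ * η v ^ m = 1 := by
    intro v
    set Fv : F := cv v • f with hFv
    have hpowO : h' ^ m ∈ S₀.O v := pow_mem (hh'O v) m
    have hx : S₀.resF v (Fv * h' ^ m) =
        S₀.resF v Fv * algebraMap (ResidueField A) (Ft₀ v) (η v ^ m) := by
      rw [S₀.resF_mul (hcvmem v) hpowO, S₀.resF_pow (hh'O v), hresF v, map_pow]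
    have hx0 : S₀.resF v (Fv * h' ^ m) ≠ 0 := by
      rw [hx]
      exact mul_ne_zero (hcvres v) ((map_ne_zero _).mpr (pow_ne_zero m (hη0 v)))
    have hgF : g • Fv = (σ (cv v) * κ / cv v) • (Fv * h' ^ m) := by
      rw [hFv, smul_smul_base, hκ, smul_smul, smul_mul_assoc, smul_smul]
      congr 1
      rw [div_mul_cancel₀ _ (hcv0 v)]
    have hgFres : S₀.resF v (g • Fv) = S₀.resF v Fv := by
      rw [S₀.resF_of_mem (hg.smul_mem v (hcvmem v)), S₀.resF_of_mem (hcvmem v)]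
      exact hg.res_smul v (hcvmem v)
    have hγx : S₀.resF v ((σ (cv v) * κ / cv v) • (Fv * h' ^ m)) ≠ 0 := by
      rw [← hgF, hgFres]
      exact hcvres v
    obtain ⟨hγ1, hγres⟩ := valuation_eq_one_of_smul v hx0 hγx
    have hθ1 : A.valuation (σ (cv v) / cv v) = 1 := valuation_apply_div hs (hcv0 v)
    have hκ1 : A.valuation κ = 1 := by
      have e : σ (cv v) * κ / cv v = (σ (cv v) / cv v) * κ := by ring
      rw [e, map_mul, hθ1, one_mul] at hγ1
      exact hγ1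
    refine ⟨hκ1, ?_⟩
    rw [← hgF, hgFres, hx, ← mul_assoc, mul_comm _ (S₀.resF v Fv), mul_assoc, ← map_mul] at hγres
    have h1 : algebraMap (ResidueField A) (Ft₀ v)
        (resOf A (σ (cv v) * κ / cv v) * η v ^ m) = 1 := by
      have := mul_left_cancel₀ (hcvres v) (hγres.symm.trans (mul_one _).symm)
      exact this
    have h2 : resOf A (σ (cv v) * κ / cv v) * η v ^ m = 1 := by
      have := (algebraMap (ResidueField A) (Ft₀ v)).injective (h1.trans (map_one _).symm)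
      exact this
    have e : σ (cv v) * κ / cv v = (σ (cv v) / cv v) * κ := by ring
    rw [e, resOf_mul_of_valuation A hθ1 hκ1] at h2
    exact h2
  have hκ1 : A.valuation κ = 1 := (hR1 (Classical.arbitrary ι₀)).1
  have hρ0 : resOf A κ ≠ 0 := resOf_ne_zero A hκ1
  -- the `m`-th roots of the Gauss constants
  choose α hα using fun v => IsAlgClosed.exists_pow_nat_eq (cv v) (Nat.pos_of_ne_zero hm)
  have hα0 : ∀ v, α v ≠ 0 := by
    intro v h
    have := hα v
    rw [h, zero_pow hm] at this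
    exact hcv0 v this.symm
  obtain ⟨ξ, hξ⟩ : ∃ ξ : ι₀ → ResidueField A, ∀ v, ξ v = theta A σ (α v) * η v :=
    ⟨_, fun _ => rfl⟩
  have hξ0 : ∀ v, ξ v ≠ 0 := fun v => by
    rw [hξ]
    exact mul_ne_zero (theta_ne_zero hs (hα0 v)) (hη0 v)
  have hξm : ∀ v, ξ v ^ m = (resOf A κ)⁻¹ := by
    intro v
    have h1 := (hR1 v).2
    rw [hξ, mul_pow, ← theta_pow hs (hα0 v), hα v]
    apply eq_inv_of_mul_eq_one_left
    rw [← h1]
    ring
  -- the relation along an edge
  have hedge : ∀ e, ξ (S₀.src e) = ζ ^ ((t e : ℤ) * b e) * ξ (S₀.tgt e) := by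
    intro e
    set M : K := tmom (tube S₀ e) (u e) D with hM
    have hM0 : M ≠ 0 := tmom_ne_zero (evalAt_ne_zero N e) D
    have htm : tmom (tube S₀ e) (u e) (m • D) = M ^ m := tmom_nsmul (evalAt_ne_zero N e) m D
    have hthick0 : thick e ≠ 0 := (N e).thick_ne
    -- the two Gauss constants
    have hU1 : A.valuation (cv (S₀.src e) * c e) = 1 :=
      ((hnf e).smul (hcv0 _)).resF_src_ne_zero_iff.mp (hcvres _)
    have hU2 : A.valuation (cv (S₀.tgt e) * c e * thick e ^ b e * M ^ m) = 1 := by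
      have := ((hnf e).smul (hcv0 (S₀.tgt e))).resF_tgt_ne_zero_iff.mp (hcvres _)
      rwa [htm] at this
    have hU3 : A.valuation (thick e ^ b e / ϖ ^ ((t e : ℤ) * b e)) = 1 := by
      rw [map_div₀, map_zpow₀, map_zpow₀, ht e, zpow_mul, zpow_natCast]
      exact div_self (zpow_ne_zero _ (pow_ne_zero _ ((Valuation.ne_zero_iff _).mpr hϖ0)))
    set z : K := (α (S₀.src e) / α (S₀.tgt e)) / (cm ^ ((t e : ℤ) * b e) * M) with hz
    have hzm : z ^ m = (cv (S₀.src e) * c e) * (cv (S₀.tgt e) * c e * thick e ^ b e * M ^ m)⁻¹ *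
        (thick e ^ b e / ϖ ^ ((t e : ℤ) * b e)) := by
      have e1 : (cm ^ ((t e : ℤ) * b e)) ^ m = ϖ ^ ((t e : ℤ) * b e) := by
        rw [← zpow_natCast, ← zpow_mul, mul_comm, zpow_mul, zpow_natCast, hcm]
      rw [hz, div_pow, div_pow, mul_pow, hα, hα, e1]
      have h1 : cv (S₀.tgt e) ≠ 0 := hcv0 _
      have h2 : c e ≠ 0 := (hnf e).c_ne
      have h3 : thick e ^ b e ≠ 0 := zpow_ne_zero _ hthick0
      have h4 : ϖ ^ ((t e : ℤ) * b e) ≠ 0 := zpow_ne_zero _ hϖ0
      have h5 : M ^ m ≠ 0 := pow_ne_zero m hM0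
      generalize thick e ^ b e = TB at h3 ⊢
      generalize ϖ ^ ((t e : ℤ) * b e) = WB at h4 ⊢
      generalize M ^ m = Mm at h5 ⊢
      field_simp
    have hz1 : A.valuation z = 1 := by
      apply valuation_eq_one_of_pow hm
      rw [hzm, map_mul, map_mul, map_inv₀, hU1, hU2, hU3]
      simp
    have hθz := theta_of_valuation_eq_one hs hz1
    have hcmz : cm ^ ((t e : ℤ) * b e) ≠ 0 := zpow_ne_zero _ hcm0
    rw [hz, theta_div hs (div_ne_zero (hα0 _) (hα0 _)) (mul_ne_zero hcmz hM0),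
      theta_div hs (hα0 _) (hα0 _), theta_mul hs hcmz hM0, theta_zpow hs hcm0] at hθz
    have hmom' := hmom e
    rw [← hM] at hmom'
    have hθt : theta A σ (α (S₀.tgt e)) ≠ 0 := theta_ne_zero hs (hα0 _)
    have hθM : theta A σ M ≠ 0 := theta_ne_zero hs hM0
    have hζ0 : ζ ^ ((t e : ℤ) * b e) ≠ 0 := zpow_ne_zero _ (theta_ne_zero hs hcm0)
    have h1 : theta A σ (α (S₀.src e)) =
        theta A σ (α (S₀.tgt e)) * (ζ ^ ((t e : ℤ) * b e) * theta A σ M) := by
      have h2 := (div_eq_one_iff_eq (mul_ne_zero hζ0 hθM)).mp hθz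
      rw [div_eq_iff hθt] at h2
      rw [h2]
      ring
    rw [hξ, hξ, h1, hmom']
    ring
  -- the discrete logarithm
  set v₀ : ι₀ := Classical.arbitrary ι₀ with hv₀
  have hlog : ∀ v, ∃ i : ℕ, ζ ^ i = ξ v / ξ v₀ := by
    intro v
    have h1 : (ξ v / ξ v₀) ^ m = 1 := by
      rw [div_pow, hξm v, hξm v₀]
      exact div_self (inv_ne_zero hρ0)
    have : NeZero m := ⟨hm⟩
    obtain ⟨i, -, hi⟩ := hprim.eq_pow_of_pow_eq_one h1
    exact ⟨i, hi⟩
  choose i hi using hlog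
  refine ⟨fun v => -(i v : ℤ), fun e => ?_⟩
  have h1 := hedge e
  have h2 : ξ (S₀.src e) = ζ ^ (i (S₀.src e) : ℤ) * ξ v₀ := by
    rw [zpow_natCast, hi, div_mul_cancel₀ _ (hξ0 v₀)]
  have h3 : ξ (S₀.tgt e) = ζ ^ (i (S₀.tgt e) : ℤ) * ξ v₀ := by
    rw [zpow_natCast, hi, div_mul_cancel₀ _ (hξ0 v₀)]
  have hζne : ζ ≠ 0 := theta_ne_zero hs hcm0
  rw [h2, h3, ← mul_assoc, ← zpow_add₀ hζne] at h1
  have h4 := mul_right_cancel₀ (hξ0 v₀) h1
  have h5 : ζ ^ ((t e : ℤ) * b e + (i (S₀.tgt e) : ℤ) - (i (S₀.src e) : ℤ)) = 1 := by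
    rw [zpow_sub₀ hζne, ← h4]
    exact div_self (zpow_ne_zero _ hζne)
  have h6 := (hprim.zpow_eq_one_iff_dvd _).mp h5
  have e1 : (t e : ℤ) * b e - (-(i (S₀.tgt e) : ℤ) - -(i (S₀.src e) : ℤ)) =
      (t e : ℤ) * b e + (i (S₀.tgt e) : ℤ) - (i (S₀.src e) : ℤ) := by ring
  rw [e1]
  exact h6

end Main

end Fermat.Agent.BR3.InvFiniteGauss
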