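/-
Program C (S36), node A2 (INV ⇒ NAT), the linear-algebra file (helper17, for helper16):
the weighted Laplacian lemma.

`Γ = (ι, ν, src, tgt)` a finite graph with positive integral edge lengths `t e`.  If `b : ν → ℤ` is
a flow modulo `m` (its divergence at every vertex is divisible by `m`) and `t • b` is a potential
difference modulo `m`, then `Δ • b ≡ 0` modulo `m`, for a positive integer `Δ` depending only on the
weighted graph (not on `m`).

Proof: over `ℚ` the energy identity `∑ t_e b_e² = ∑_v φ(v) · (div b)(v)` shows that the kernel of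
`(b, φ) ↦ (div b, t • b - dφ)` lies in `b = 0`; hence every coordinate `b ↦ b e` is a rational
combination of the components of that map (`LinearMap.range_dualMap_eq_dualAnnihilator_ker`), and
`Δ` clears the denominators.
-/
import Mathlib

set_option autoImplicit false

open Finset

namespace Fermat.Agent.BR3.InvFiniteLin

/-! ### Common denominators -/

/-- A finite family of rationals has a common denominator. -/
theorem exists_common_den {α : Type*} [Fintype α] (c : α → ℚ) :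
    ∃ D : ℕ, 0 < D ∧ ∀ a, ∃ z : ℤ, (D : ℚ) * c a = z := by
  classical
  refine ⟨∏ a, (c a).den, Finset.prod_pos fun a _ => (c a).den_pos, fun a => ?_⟩
  refine ⟨((∏ a' ∈ Finset.univ.erase a, (c a').den : ℕ) : ℤ) * (c a).num, ?_⟩
  rw [← Finset.prod_erase_mul _ _ (Finset.mem_univ a)]
  push_cast
  rw [mul_assoc, mul_comm ((c a).den : ℚ) (c a), Rat.mul_den_eq_num]

/-! ### The linear map `(b, φ) ↦ (div b, t • b - dφ)` -/

section Graph

variable {ι ν : Type*} [Fintype ι] [DecidableEq ι] [Fintype ν]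
  (src tgt : ν → ι) (t : ν → ℕ)

/-- the incidence coefficient of the edge `e` at the vertex `v` -/
def inc (e : ν) (v : ι) : ℤ := (if tgt e = v then 1 else 0) - (if src e = v then 1 else 0)

/-- `(b, φ) ↦ (div b, t • b - dφ)` over `ℚ` -/
def lapMap : ((ν → ℚ) × (ι → ℚ)) →ₗ[ℚ] ((ι → ℚ) × (ν → ℚ)) where
  toFun x := (fun v => ∑ e, (inc src tgt e v : ℚ) * x.1 e,
    fun e => (t e : ℚ) * x.1 e - (x.2 (tgt e) - x.2 (src e)))
  map_add' x y := by
    ext
    · simp [mul_add, Finset.sum_add_distrib]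
    · simp; ring
  map_smul' c x := by
    ext
    · simp [Finset.mul_sum, mul_left_comm]
    · simp; ring

omit [Fintype ν] in
theorem sum_inc_mul (φ : ι → ℚ) (e : ν) :
    ∑ v, φ v * (inc src tgt e v : ℚ) = φ (tgt e) - φ (src e) := by
  simp [inc, mul_sub, Finset.sum_sub_distrib]

variable {src tgt t}

/-- **Energy identity**: the kernel of `lapMap` consists of pairs with `b = 0`. -/
theorem fst_eq_zero_of_lapMap_eq_zero (ht : ∀ e, 0 < t e) {x : (ν → ℚ) × (ι → ℚ)}
    (hx : lapMap src tgt t x = 0) : x.1 = 0 := by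
  have h1 : ∀ v, ∑ e, (inc src tgt e v : ℚ) * x.1 e = 0 := fun v => congrFun (congrArg Prod.fst hx) v
  have h2 : ∀ e, (t e : ℚ) * x.1 e = x.2 (tgt e) - x.2 (src e) := fun e => by
    have := congrFun (congrArg Prod.snd hx) e
    exact sub_eq_zero.1 this
  have henergy : ∑ e, (t e : ℚ) * (x.1 e * x.1 e) = 0 := by
    calc ∑ e, (t e : ℚ) * (x.1 e * x.1 e)
        = ∑ e, x.1 e * (x.2 (tgt e) - x.2 (src e)) := by
          refine Finset.sum_congr rfl fun e _ => ?_
          rw [← h2 e]; ring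
      _ = ∑ e, ∑ v, x.2 v * ((inc src tgt e v : ℚ) * x.1 e) := by
          refine Finset.sum_congr rfl fun e _ => ?_
          rw [← sum_inc_mul src tgt x.2 e, Finset.mul_sum]
          refine Finset.sum_congr rfl fun v _ => ?_
          ring
      _ = ∑ v, x.2 v * ∑ e, (inc src tgt e v : ℚ) * x.1 e := by
          rw [Finset.sum_comm]
          refine Finset.sum_congr rfl fun v _ => ?_
          rw [Finset.mul_sum]
      _ = 0 := by simp [h1]
  have hnn : ∀ e ∈ (Finset.univ : Finset ν), 0 ≤ (t e : ℚ) * (x.1 e * x.1 e) := fun e _ =>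
    mul_nonneg (Nat.cast_nonneg _) (mul_self_nonneg _)
  have hz := (Finset.sum_eq_zero_iff_of_nonneg hnn).1 henergy
  funext e
  have := hz e (Finset.mem_univ e)
  have ht' : (t e : ℚ) ≠ 0 := Nat.cast_ne_zero.2 (ht e).ne'
  have h3 : x.1 e * x.1 e = 0 := (mul_eq_zero.1 this).resolve_left ht'
  exact mul_self_eq_zero.1 h3

/-- every coordinate `b e₀` is a rational linear combination of the components of `lapMap` -/
theorem exists_dual (ht : ∀ e, 0 < t e) (e₀ : ν) :
    ∃ g : Module.Dual ℚ ((ι → ℚ) × (ν → ℚ)),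
      ∀ x : (ν → ℚ) × (ι → ℚ), g (lapMap src tgt t x) = x.1 e₀ := by
  classical
  let f : Module.Dual ℚ ((ν → ℚ) × (ι → ℚ)) :=
    (LinearMap.proj e₀).comp (LinearMap.fst ℚ (ν → ℚ) (ι → ℚ))
  have hf : f ∈ (LinearMap.ker (lapMap src tgt t)).dualAnnihilator := by
    rw [Submodule.mem_dualAnnihilator]
    intro x hx
    have := fst_eq_zero_of_lapMap_eq_zero ht (LinearMap.mem_ker.1 hx)
    show x.1 e₀ = 0
    rw [this]; rfl
  rw [← LinearMap.range_dualMap_eq_dualAnnihilator_ker] at hf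
  obtain ⟨g, hg⟩ := hf
  refine ⟨g, fun x => ?_⟩
  have := congrArg (fun h : Module.Dual ℚ ((ν → ℚ) × (ι → ℚ)) => h x) hg
  simpa [f, LinearMap.dualMap_apply] using this

/-- a functional on `(ι → ℚ) × (ν → ℚ)` in coordinates -/
theorem dual_apply_eq_sum [DecidableEq ν] (g : Module.Dual ℚ ((ι → ℚ) × (ν → ℚ)))
    (y : (ι → ℚ) × (ν → ℚ)) :
    g y = ∑ v, y.1 v * g (Pi.single v 1, 0) + ∑ e, y.2 e * g (0, Pi.single e 1) := by
  have h1 : y = (y.1, 0) + (0, y.2) := by simp
  have h2 : g (y.1, 0) = ∑ v, y.1 v * g (Pi.single v 1, 0) := by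
    have := LinearMap.pi_apply_eq_sum_univ (g.comp (LinearMap.inl ℚ (ι → ℚ) (ν → ℚ))) y.1
    simp only [LinearMap.comp_apply, LinearMap.inl_apply, smul_eq_mul] at this
    rw [this]
    refine Finset.sum_congr rfl fun v _ => ?_
    congr 2
    ext w
    · simp [Pi.single_apply, eq_comm]
    · rfl
  have h3 : g (0, y.2) = ∑ e, y.2 e * g (0, Pi.single e 1) := by
    have := LinearMap.pi_apply_eq_sum_univ (g.comp (LinearMap.inr ℚ (ι → ℚ) (ν → ℚ))) y.2
    simp only [LinearMap.comp_apply, LinearMap.inr_apply, smul_eq_mul] at this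
    rw [this]
    refine Finset.sum_congr rfl fun e _ => ?_
    congr 2
    ext w
    · rfl
    · simp [Pi.single_apply, eq_comm]
  conv_lhs => rw [h1, map_add, h2, h3]

/-- the statement for one edge -/
theorem exists_lapDet_edge (ht : ∀ e, 0 < t e) (e₀ : ν) :
    ∃ D : ℕ, 0 < D ∧ ∀ (m : ℕ) (b : ν → ℤ) (φ : ι → ℤ),
      (∀ v, (m : ℤ) ∣ ∑ e, inc src tgt e v * b e) →
      (∀ e, (m : ℤ) ∣ (t e : ℤ) * b e - (φ (tgt e) - φ (src e))) →
      (m : ℤ) ∣ (D : ℤ) * b e₀ := by
  classical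
  obtain ⟨g, hg⟩ := exists_dual (src := src) (tgt := tgt) ht e₀
  -- the coefficients of `g` and their common denominator
  let c : ι ⊕ ν → ℚ := Sum.elim (fun v => g (Pi.single v 1, 0)) (fun e => g (0, Pi.single e 1))
  obtain ⟨D, hD, hDc⟩ := exists_common_den c
  choose z hz using hDc
  refine ⟨D, hD, fun m b φ h1 h2 => ?_⟩
  -- the integral identity
  have key : (D : ℤ) * b e₀ = ∑ v, (∑ e, inc src tgt e v * b e) * z (Sum.inl v) +
      ∑ e, ((t e : ℤ) * b e - (φ (tgt e) - φ (src e))) * z (Sum.inr e) := by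
    have hq := hg (fun e => (b e : ℚ), fun v => (φ v : ℚ))
    rw [dual_apply_eq_sum] at hq
    have hq' : (D : ℚ) * (b e₀ : ℚ) =
        ∑ v, (∑ e, (inc src tgt e v : ℚ) * (b e : ℚ)) * ((D : ℚ) * c (Sum.inl v)) +
        ∑ e, ((t e : ℚ) * (b e : ℚ) - ((φ (tgt e) : ℚ) - (φ (src e) : ℚ))) *
          ((D : ℚ) * c (Sum.inr e)) := by
      have : (b e₀ : ℚ) = _ := hq.symm
      rw [this, mul_add, Finset.mul_sum, Finset.mul_sum]
      congr 1
      · refine Finset.sum_congr rfl fun v _ => ?_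
        simp only [lapMap, LinearMap.coe_mk, AddHom.coe_mk, c, Sum.elim_inl]
        ring
      · refine Finset.sum_congr rfl fun e _ => ?_
        simp only [lapMap, LinearMap.coe_mk, AddHom.coe_mk, c, Sum.elim_inr]
        ring
    simp only [hz] at hq'
    exact_mod_cast hq'
  rw [key]
  refine dvd_add (Finset.dvd_sum fun v _ => Dvd.dvd.mul_right (h1 v) _)
    (Finset.dvd_sum fun e _ => Dvd.dvd.mul_right (h2 e) _)

/-- **The weighted Laplacian lemma** (helper16's `exists_lapDet`; the connectedness hypothesis is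
not used). -/
theorem exists_lapDet (src tgt : ν → ι) (t : ν → ℕ) (ht : ∀ e, 0 < t e)
    (_hconn : ∀ T : Set ι, T.Nonempty → (∀ e, src e ∈ T ↔ tgt e ∈ T) → T = Set.univ) :
    ∃ Δ : ℕ, 0 < Δ ∧ ∀ (m : ℕ) (b : ν → ℤ) (φ : ι → ℤ),
      (∀ v, (m : ℤ) ∣ ∑ e, ((if tgt e = v then 1 else 0) - (if src e = v then 1 else 0)) * b e) →
      (∀ e, (m : ℤ) ∣ (t e : ℤ) * b e - (φ (tgt e) - φ (src e))) →
      ∀ e, (m : ℤ) ∣ (Δ : ℤ) * b e := by
  classical
  choose D hD hDm using fun e₀ => exists_lapDet_edge (src := src) (tgt := tgt) ht e₀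
  refine ⟨∏ e, D e, Finset.prod_pos fun e _ => hD e, fun m b φ h1 h2 e => ?_⟩
  have h3 := hDm e m b φ h1 h2
  rw [← Finset.prod_erase_mul _ _ (Finset.mem_univ e)]
  push_cast
  rw [mul_assoc]
  exact Dvd.dvd.mul_left h3 _

end Graph

end Fermat.Agent.BR3.InvFiniteLin
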