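import Mathlib
import Fermat.Agent.BR3.InvFiniteLin
import Fermat.Agent.BR3.InvFiniteGauss
import Fermat.Agent.BR3.InvFiniteFlow

/-!
# Program C (S36), node A2 (INV ⇒ NAT): inertia-invariant torsion lies in the finite part

`S₀` a semistable setup over `(K, A)` (`K` algebraically closed) with node contracts
`N e : Fact.NodeFact S₀ e (u e) (thick e) (TU e)` whose annulus coordinates have residues with
simple zeros at the branches, and thicknesses `|thick e| = |ϖ| ^ t e`.

**Theorem** (`exists_smul_mem_natSub_of_fixed`).  There is `Δ > 0`, depending only on the dual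
graph and the thicknesses `t e`, such that for every `m` prime to the residue characteristic, every
semilinear automorphism `g` acting trivially on the model (`InvFiniteUnit.TrivialAction`) which is
*rich at level `m`* (for an `m`-th root `c` of `ϖ` the residue of `g c / c` is a primitive `m`-th
root of unity) and every `x ∈ Pic⁰(F)[m]` fixed by `g`:

  `Δ • x ∈ Filt.natSub S₀ m`.

Proof: `InvFiniteGauss.exists_potential` (the exponents `b e` of a representative on the annuli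
satisfy `t e * b e ≡ φ (tgt e) - φ (src e)`), `InvFiniteFlow.flow` (`b` is a flow modulo `m`),
`InvFiniteLin.exists_lapDet` (hence `m ∣ Δ * b e`), `InvFiniteFlow.dvd_mul_ord` (hence all orders
of the residues of `f ^ Δ` are divisible by `m`).
-/

set_option autoImplicit false
set_option linter.unusedSectionVars false

namespace Fermat.Agent.BR3.InvFinite

open AlgebraicCurve IsLocalRing Fermat.Agent.Red Fermat.Agent.BR.SS Fermat.Agent.BR.Fact
  Fermat.Agent.BR.Refine Fermat.Agent.BR.InertiaRed Fermat.Agent.BR3.InvFiniteMoment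
  Fermat.Agent.BR3.InvFiniteNode Fermat.Agent.BR3.InvFiniteTheta Fermat.Agent.BR3.InvFiniteUnit
  Fermat.Agent.BR2 Fermat.Agent.BR2.Filt

variable {K : Type} {F : Type*} [Field K] [Field F] [Algebra K F]
  {A : ValuationSubring K} [IsAlgClosed (ResidueField A)]
  {ι₀ : Type} {Ft₀ : ι₀ → Type} [∀ v, Field (Ft₀ v)] [∀ v, Algebra (ResidueField A) (Ft₀ v)]
  {ν₀ : Type} {S₀ : SemistableSetup (F := F) A (residue A) ι₀ Ft₀ ν₀}

omit [IsAlgClosed (ResidueField A)] in
theorem isRep_nsmul {m : ℕ} {x : Pic0 K F} {D : Divisor.degZero (K := K) (F := F)} {f : F}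
    (h : IsRep m x D f) (n : ℕ) : IsRep m (n • x) (n • D) (f ^ n) := by
  induction n with
  | zero =>
    have e1 : (0 : ℕ) • x = 0 := zero_nsmul x
    have e2 : (0 : ℕ) • D = 0 := zero_nsmul D
    rw [e1, e2, pow_zero]
    exact isRep_zero (K := K) (F := F) m
  | succ n ih =>
    rw [succ_nsmul, succ_nsmul, pow_succ]
    exact ih.add h

omit [IsAlgClosed (ResidueField A)] in
theorem isResidue_pow {v : ι₀} {f : F} {G : Ft₀ v} (h : IsResidue S₀ v f G) (n : ℕ) :
    IsResidue S₀ v (f ^ n) (G ^ n) := by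
  induction n with
  | zero =>
    rw [pow_zero, pow_zero]
    exact isResidue_one v
  | succ n ih =>
    rw [pow_succ, pow_succ]
    exact ih.mul h

/-- **A2 (INV ⇒ NAT).** -/
theorem exists_smul_mem_natSub_of_fixed [Fintype ι₀] [Fintype ν₀] [IsAlgClosed K]
    (S₀ : SemistableSetup (F := F) A (residue A) ι₀ Ft₀ ν₀)
    (hF : RiemannPkg K F) (hFt : ∀ v, RiemannPkg (ResidueField A) (Ft₀ v))
    (u : ν₀ → F) (thick : ν₀ → K) (TU : ν₀ → F → Prop)
    (N : ∀ e, NodeFact S₀ e (u e) (thick e) (TU e))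
    (hsrc : ∀ e (h : u e ∈ S₀.O (S₀.src e)),
      (S₀.s₁ e).ord (S₀.res (S₀.src e) ⟨u e, h⟩) = 1)
    (htgt : ∀ e (h : thick e • (u e)⁻¹ ∈ S₀.O (S₀.tgt e)),
      (S₀.s₂ e).ord (S₀.res (S₀.tgt e) ⟨thick e • (u e)⁻¹, h⟩) = 1)
    (ϖ : K) (hϖ0 : ϖ ≠ 0) (hϖ : A.valuation ϖ < 1) (t : ν₀ → ℕ) (ht0 : ∀ e, 0 < t e)
    (ht : ∀ e, A.valuation (thick e) = A.valuation ϖ ^ t e) :
    ∃ Δ : ℕ, 0 < Δ ∧ ∀ m : ℕ, (m : ResidueField A) ≠ 0 →
      ∀ g : SemilinearAut K F, TrivialAction S₀ u g →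
      ∀ c : K, c ^ m = ϖ → IsPrimitiveRoot (resOf A (SemilinearAut.baseAut g c / c)) m →
      ∀ x : Pic0 K F, m • x = 0 → g • x = x → Δ • x ∈ natSub S₀ m := by
  classical
  obtain ⟨Δ, hΔ0, hΔ⟩ := InvFiniteLin.exists_lapDet S₀.src S₀.tgt t ht0 S₀.connected
  refine ⟨Δ, hΔ0, fun m hm g hg c hc hprim x hx hgx => ?_⟩
  have hm0 : m ≠ 0 := by
    rintro rfl
    exact hm (by simp)
  have hthick : ∀ e, A.valuation (thick e) < 1 := fun e => by
    rw [ht e]
    exact pow_lt_one₀ zero_le hϖ (ht0 e).ne'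
  -- a representative
  obtain ⟨D, f, hR⟩ := exists_isRep (K := K) (F := F) hx
  obtain ⟨hDx, hf0, hf⟩ := hR
  -- `g • x = x` gives `h`
  have h1 : Pic0.mk (SemilinearAut.degZeroSMulHom g D - D) = 0 := by
    have h2 : Pic0.mk (SemilinearAut.degZeroSMulHom g D - D) =
        Pic0.mk (SemilinearAut.degZeroSMulHom g D) - Pic0.mk D := rfl
    rw [h2, ← SemilinearAut.pic0_smul_mk, hDx, hgx, sub_self]
  have h2 := (QuotientAddGroup.eq_zero_iff _).mp h1
  rw [AddSubgroup.mem_addSubgroupOf] at h2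
  obtain ⟨h, h0, hh⟩ := h2
  have hh' : ∀ P, (g • (D : Divisor K F) - (D : Divisor K F)) P = P.ord h := fun P => hh P
  -- the normal forms of `f` at the nodes
  choose b cc hnf using fun e => exists_nodeNF (N e) hf0 hf
  -- the potential and the flow
  obtain ⟨φ, hφ⟩ := InvFiniteGauss.exists_potential N hg hF hFt hthick hm0 (D : Divisor K F) hf0 hf
    h0 hh' hnf hϖ0 t ht hc hprim
  have hflow := fun v => InvFiniteFlow.flow N hsrc htgt hf hnf hFt hf0 v
  have hdvd : ∀ e, (m : ℤ) ∣ (Δ : ℤ) * b e := hΔ m b φ hflow hφ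
  -- conclusion
  refine ⟨Δ • D, f ^ Δ, isRep_nsmul ⟨hDx, hf0, hf⟩ Δ, fun v => ?_⟩
  obtain ⟨G, hG⟩ := exists_isResidue (S := S₀) v hf0
  have := (hFt v).principal
  refine ⟨G ^ Δ, isResidue_pow hG Δ,
    (divOf (ResidueField A) (G ^ Δ)).mapRange (fun n => n / (m : ℤ)) (Int.zero_ediv _),
    fun Q => ?_⟩
  rw [Finsupp.mapRange_apply, divOf_apply]
  have h3 : (m : ℤ) ∣ Q.ord (G ^ Δ) := by
    rw [Fermat.Agent.X0.Place.ord_pow]
    exact InvFiniteFlow.dvd_mul_ord N hsrc htgt hf hnf hdvd ⟨v, Q⟩ hG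
  exact (Int.mul_ediv_cancel' h3).symm

end Fermat.Agent.BR3.InvFinite
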