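import Mathlib
import Fermat.Agent.BR.SS.Main
import Fermat.Agent.BR3.InvFiniteFlow
import Fermat.Agent.BR3.TorPZDef

/-!
# Program C (S36), node (C-ML) moving lemma, part (ML-c): prescribed tube zeros

`S` a semistable setup with annulus coordinates `u e`, thickness elements `thick e` and local
parameters `T₁ e` (order `1` at the branch `s₁ e` of `src e`), `T₂ e` (order `-1` at the branch
`s₂ e` of `tgt e`) at its nodes.

* `NodePrescribed S e u thick T₁ T₂` : the node lemma with prescribed tube zeros (the shape of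
  `BR3/TorNode`): for `y` integral on both components through `e` with `div y ≥ Z` on the tube and
  `|tmom Z| = |thick| ^ k₂`, the functions `res_src y / T₁ ^ (tdeg Z - k₂)` and `res_tgt y · T₂ ^ k₂`
  are regular at the branches, their values differ by the constant `res (thick ^ (-k₂) · tmom Z)`,
  and a nonzero value forces `div y = Z` on the tube.
* `TupleExists S T₁ T₂` : families of functions on the components with prescribed orders and
  leading coefficients at the branches (the shape of `BR3/TorTuple`).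
* `pz_of` : **prescribed tube zeros** `TorPZDef.PZ S u thick` from these two inputs, the lattice
  layer `S.finrank_resSpaceAll`, the nodal Riemann count `S.finrank_gluedRR_of_genus` and Riemann's
  theorem on the generic fibre.
-/

set_option autoImplicit false

namespace Fermat.Agent.BR3.TorPZ

open AlgebraicCurve IsLocalRing Fermat.Agent.Red Fermat.Agent.BR.SS Fermat.Agent.BR.GlueG
  Fermat.Agent.BR.Refine Fermat.Agent.BR.InertiaRed Fermat.Agent.BR3.InvFiniteMoment
  Fermat.Agent.BR3.InvFiniteFlow Fermat.Agent.BR3.TorPZDef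

variable {K : Type} {F : Type*} [Field K] [Field F] [Algebra K F]
  {A : ValuationSubring K} [IsAlgClosed (ResidueField A)]
  {ι : Type} {Ft : ι → Type} [∀ v, Field (Ft v)] [∀ v, Algebra (ResidueField A) (Ft v)]
  {ν : Type} (S : SemistableSetup (F := F) A (residue A) ι Ft ν)

/-- The node lemma with prescribed tube zeros (shape of `BR3/TorNode.node_prescribed`). -/
def NodePrescribed (e : ν) (u : F) (thick : K) (T₁ : Ft (S.src e)) (T₂ : Ft (S.tgt e)) : Prop :=
  ∀ y : F, y ≠ 0 → ∀ E : Divisor K F, (∀ P, E P = P.ord y) → y ∈ S.O (S.src e) →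
    y ∈ S.O (S.tgt e) → ∀ Z : Divisor K F, 0 ≤ Z → (∀ P ∈ tube S e, Z P ≤ E P) →
    ∀ k₂ : ℤ, A.valuation (tmom (tube S e) u Z) = A.valuation thick ^ k₂ →
    ∃ l : ResidueField A,
      IsValueAt (S.s₁ e) (S.resF (S.src e) y / T₁ ^ (tdeg (tube S e) Z - k₂)) l ∧
      IsValueAt (S.s₂ e) (S.resF (S.tgt e) y * T₂ ^ k₂)
        (resOf A (thick ^ (-k₂) * tmom (tube S e) u Z) * l) ∧
      (l ≠ 0 → ∀ P ∈ tube S e, E P = Z P)

/-- Families with prescribed orders and leading coefficients at the branches (shape of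
`BR3/TorTuple.exists_tuple`). -/
def TupleExists (T₁ : ∀ e, Ft (S.src e)) (T₂ : ∀ e, Ft (S.tgt e)) : Prop :=
  ∀ (k₁ k₂ : ν → ℤ) (γ : ν → ResidueField A), (∀ e, γ e ≠ 0) →
    ∃ p : ∀ v, Ft v, (∀ v, p v ≠ 0) ∧ ∀ e,
      IsValueAt (S.s₁ e) (p (S.src e) / T₁ e ^ k₁ e) 1 ∧
      IsValueAt (S.s₂ e) (p (S.tgt e) * T₂ e ^ k₂ e) (γ e)

variable {S}

/-! ### Bookkeeping -/

/-- The tube degrees of a divisor supported in the tubes add up to its degree. -/
theorem sum_tdeg [Fintype ν] (hF : RiemannPkg K F) {Z : Divisor K F}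
    (hZ : ∀ P ∈ Z.support, ∃ e, P ∈ tube S e) :
    ∑ e, tdeg (tube S e) Z = Divisor.degree Z := by
  classical
  rw [degree_eq_sum hF]
  unfold tdeg
  simp only [Finsupp.sum]
  rw [Finset.sum_comm]
  refine Finset.sum_congr rfl fun P hP => ?_
  obtain ⟨e₀, he₀⟩ := hZ P hP
  rw [Finset.sum_eq_single e₀]
  · rw [if_pos he₀]
  · intro e _ hne
    rw [if_neg]
    intro h
    exact hne (tube_unique S h he₀)
  · intro h
    exact absurd (Finset.mem_univ _) h

/-- multiplication by a family of nonzero functions, as a linear equivalence -/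
noncomputable def mulEquiv (p : ∀ v, Ft v) (hp : ∀ v, p v ≠ 0) :
    (∀ v, Ft v) ≃ₗ[ResidueField A] (∀ v, Ft v) where
  toFun t := p * t
  invFun t := p⁻¹ * t
  map_add' := mul_add p
  map_smul' c t := by
    funext v
    simp only [Pi.mul_apply, Pi.smul_apply, RingHom.id_apply]
    rw [mul_smul_comm]
  left_inv t := by
    funext v
    simp only [Pi.mul_apply, Pi.inv_apply]
    rw [← mul_assoc, inv_mul_cancel₀ (hp v), one_mul]
  right_inv t := by
    funext v
    simp only [Pi.mul_apply, Pi.inv_apply]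
    rw [← mul_assoc, mul_inv_cancel₀ (hp v), one_mul]

omit [IsAlgClosed (ResidueField A)] in
@[simp] theorem mulEquiv_apply (p : ∀ v, Ft v) (hp : ∀ v, p v ≠ 0) (t : ∀ v, Ft v) :
    mulEquiv (A := A) p hp t = p * t := rfl

open Classical in
/-- The degree of the divisor of `p v` off the branch points, when `p` has the orders `k₁ e`,
`k₂ e` at the branches of the nodes. -/
theorem degree_filter [Fintype ν] (hFt : ∀ v, RiemannPkg (ResidueField A) (Ft v))
    [∀ v, HasPrincipalDivisors (ResidueField A) (Ft v)] (p : ∀ v, Ft v) (k₁ k₂ : ν → ℤ)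
    (hp1 : ∀ e, (S.s₁ e).ord (p (S.src e)) = k₁ e)
    (hp2 : ∀ e, (S.s₂ e).ord (p (S.tgt e)) = k₂ e) (v : ι) :
    Divisor.degree ((divOf (ResidueField A) (p v)).filter fun Q => ¬ S.IsBranch ⟨v, Q⟩) =
      -((∑ e, if S.src e = v then k₁ e else 0) + ∑ e, if S.tgt e = v then k₂ e else 0) := by
  set Dv : Divisor (ResidueField A) (Ft v) := divOf (ResidueField A) (p v) with hDv
  set s := Dv.support with hs
  have h0 : ∑ Q ∈ s, Dv Q = 0 := by
    have := degree_divOf (K := ResidueField A) (p v)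
    rw [degree_eq_sum (hFt v)] at this
    exact this
  have h1 : Divisor.degree (Dv.filter fun Q => ¬ S.IsBranch ⟨v, Q⟩) =
      ∑ Q ∈ s, if S.IsBranch ⟨v, Q⟩ then 0 else Dv Q := by
    rw [degree_eq_sum (hFt v), Finsupp.sum, Finsupp.support_filter, Finset.sum_filter]
    refine Finset.sum_congr rfl fun Q _ => ?_
    split_ifs with hb
    · rfl
    · exact Finsupp.filter_apply_pos (fun Q => ¬ S.IsBranch ⟨v, Q⟩) Dv hb
  have h2 : ∀ Q ∈ s, (if S.IsBranch ⟨v, Q⟩ then 0 else Dv Q) =
      Dv Q - beta S k₁ (fun e => -k₂ e) ⟨v, Q⟩ := by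
    intro Q _
    split_ifs with hb
    · obtain ⟨e, he | he⟩ := hb
      · have hv : v = S.src e := congrArg Sigma.fst he
        subst hv
        have hQe : Q = S.s₁ e := eq_of_heq (Sigma.mk.inj he).2
        subst hQe
        rw [beta_src, hDv, divOf_apply, hp1, sub_self]
      · have hv : v = S.tgt e := congrArg Sigma.fst he
        subst hv
        have hQe : Q = S.s₂ e := eq_of_heq (Sigma.mk.inj he).2
        subst hQe
        rw [beta_tgt, hDv, divOf_apply, hp2]
        ring
    · rw [beta_of_not_isBranch _ _ hb, sub_zero]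
  have h3 : ∑ Q ∈ s, beta S k₁ (fun e => -k₂ e) ⟨v, Q⟩ =
      (∑ e, if S.src e = v then k₁ e else 0) - ∑ e, if S.tgt e = v then -k₂ e else 0 := by
    refine sum_beta k₁ (fun e => -k₂ e) v s (fun e hv hno => ?_) (fun e hv hno => ?_)
    · subst hv
      have hnot : S.s₁ e ∉ s := fun hmem => hno _ hmem rfl
      have h0 : Dv (S.s₁ e) = 0 := Finsupp.notMem_support_iff.mp hnot
      rw [hDv, divOf_apply, hp1] at h0
      exact h0
    · subst hv
      have hnot : S.s₂ e ∉ s := fun hmem => hno _ hmem rfl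
      have h0 : Dv (S.s₂ e) = 0 := Finsupp.notMem_support_iff.mp hnot
      rw [hDv, divOf_apply, hp2] at h0
      rw [h0, neg_zero]
  rw [h1, Finset.sum_congr rfl h2, Finset.sum_sub_distrib, h0, h3, zero_sub]
  have h4 : (∑ e, if S.tgt e = v then -k₂ e else 0) = -∑ e, if S.tgt e = v then k₂ e else 0 := by
    rw [← Finset.sum_neg_distrib]
    refine Finset.sum_congr rfl fun e _ => ?_
    split_ifs <;> simp
  rw [h4]
  ring

omit [IsAlgClosed (ResidueField A)] in
/-- sum over the components of the indicator sums of the sources -/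
theorem sum_sum_ite [Fintype ι] [Fintype ν] [DecidableEq ι] (f : ν → ι) (c : ν → ℤ) :
    ∑ v, ∑ e, (if f e = v then c e else 0) = ∑ e, c e := by
  rw [Finset.sum_comm]
  refine Finset.sum_congr rfl fun e _ => ?_
  rw [Finset.sum_ite_eq]
  simp

/-- A function with a nonzero value at a place is nonzero of order zero there. -/
theorem ord_eq_zero_of_value {L : Type*} [Field L] [Algebra (ResidueField A) L]
    {Q : Place (ResidueField A) L} {g : L} {c : ResidueField A} (h : IsValueAt Q g c)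
    (hc : c ≠ 0) : g ≠ 0 ∧ Q.ord g = 0 :=
  ⟨ne_zero_of_isValueAt_ne_zero h hc, h.ord_eq_zero hc⟩

/-- **Prescribed tube zeros**, from the node lemma and the tuple lemma. -/
theorem pz_of [Fintype ι] [Fintype ν] (hF : RiemannPkg K F)
    (hFt : ∀ v, RiemannPkg (ResidueField A) (Ft v))
    (hg : (genusFF K F : ℤ) =
      ∑ v, (genusFF (ResidueField A) (Ft v) : ℤ) + Fintype.card ν - Fintype.card ι + 1)
    (u : ν → F) (thick : ν → K) (hthick : ∀ e, thick e ≠ 0)
    (T₁ : ∀ e, Ft (S.src e)) (T₂ : ∀ e, Ft (S.tgt e))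
    (hT₁ : ∀ e, (S.s₁ e).ord (T₁ e) = 1) (hT₂ : ∀ e, (S.s₂ e).ord (T₂ e) = -1)
    (hnode : ∀ e, NodePrescribed S e (u e) (thick e) (T₁ e) (T₂ e))
    (htuple : TupleExists S T₁ T₂) : PZ S u thick := by
  classical
  intro Z hZ0 hZsupp hmom
  have hprinc := hF.principal
  have hdeg : ∀ v (Q : Place (ResidueField A) (Ft v)), Q.deg = 1 := fun v Q => (hFt v).deg_one Q
  obtain ⟨Pa⟩ := hF.infinite_places.nonempty
  have hne : Nonempty ι := ⟨(S.r Pa).1⟩
  have hπ : Function.Surjective (residue A) := residue_surjective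
  have hT₁0 : ∀ e, T₁ e ≠ 0 := fun e h => by
    have := hT₁ e
    rw [h, Place.ord_zero] at this
    exact zero_ne_one this
  have hT₂0 : ∀ e, T₂ e ≠ 0 := fun e h => by
    have := hT₂ e
    rw [h, Place.ord_zero] at this
    omega
  -- the exponents and the constants
  choose k₂ hk₂ using hmom
  obtain ⟨k₁, hk₁⟩ : ∃ k₁ : ν → ℤ, ∀ e, k₁ e = tdeg (tube S e) Z - k₂ e := ⟨_, fun _ => rfl⟩
  obtain ⟨η, hη⟩ : ∃ η : ν → K, ∀ e, η e = thick e ^ (-k₂ e) * tmom (tube S e) (u e) Z :=
    ⟨_, fun _ => rfl⟩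
  have hη1 : ∀ e, A.valuation (η e) = 1 := by
    intro e
    have hv0 : A.valuation (thick e) ≠ 0 := (Valuation.ne_zero_iff _).mpr (hthick e)
    rw [hη, map_mul, map_zpow₀, hk₂ e, ← zpow_add₀ hv0, neg_add_cancel, zpow_zero]
  have hγ : ∀ e, resOf A (η e) ≠ 0 := fun e => resOf_ne_zero A (hη1 e)
  obtain ⟨p, hp0, hp⟩ := htuple k₁ k₂ (fun e => resOf A (η e)) hγ
  -- the orders of `p` at the branches
  have hp1 : ∀ e, (S.s₁ e).ord (p (S.src e)) = k₁ e := by
    intro e
    obtain ⟨h0, hord⟩ := ord_eq_zero_of_value (hp e).1 one_ne_zero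
    rw [div_eq_mul_inv, Place.ord_mul _ (hp0 _) (inv_ne_zero (zpow_ne_zero _ (hT₁0 e))),
      Place.ord_inv, Place.ord_zpow, hT₁ e] at hord
    linarith
  have hp2 : ∀ e, (S.s₂ e).ord (p (S.tgt e)) = k₂ e := by
    intro e
    obtain ⟨h0, hord⟩ := ord_eq_zero_of_value (hp e).2 (hγ e)
    rw [Place.ord_mul _ (hp0 _) (zpow_ne_zero _ (hT₂0 e)), Place.ord_zpow, hT₂ e] at hord
    linarith
  -- the shifted divisors
  have hprv : ∀ v, HasPrincipalDivisors (ResidueField A) (Ft v) := fun v => (hFt v).principal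
  obtain ⟨D0, hD0⟩ : ∃ D0 : ∀ v, Divisor (ResidueField A) (Ft v), ∀ v, D0 v =
      (divOf (ResidueField A) (p v)).filter fun Q => ¬ S.IsBranch ⟨v, Q⟩ := ⟨_, fun _ => rfl⟩
  have hD0br : ∀ v Q, S.IsBranch ⟨v, Q⟩ → D0 v Q = 0 := fun v Q hb => by
    rw [hD0]
    exact Finsupp.filter_apply_neg (fun Q => ¬ S.IsBranch ⟨v, Q⟩) _ (not_not.mpr hb)
  have hD0sm : ∀ v Q, ¬ S.IsBranch ⟨v, Q⟩ → D0 v Q = Q.ord (p v) := fun v Q hb => by
    rw [hD0, Finsupp.filter_apply_pos (fun Q => ¬ S.IsBranch ⟨v, Q⟩) _ hb, divOf_apply]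
  have hD0deg : ∑ v, Divisor.degree (D0 v) = -Divisor.degree Z := by
    have h1 : ∀ v, Divisor.degree (D0 v) = -((∑ e, if S.src e = v then k₁ e else 0) +
        ∑ e, if S.tgt e = v then k₂ e else 0) := fun v => by
      rw [hD0]
      exact degree_filter hFt p k₁ k₂ hp1 hp2 v
    rw [Finset.sum_congr rfl fun v _ => h1 v, Finset.sum_neg_distrib, Finset.sum_add_distrib,
      sum_sum_ite, sum_sum_ite, ← Finset.sum_add_distrib, ← sum_tdeg hF hZsupp]
    congr 1
    refine Finset.sum_congr rfl fun e _ => ?_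
    rw [hk₁]
    ring
  -- the constants and the auxiliary divisor `E`
  obtain ⟨c₁, hc₁⟩ := S.finrank_gluedRR_of_genus hFt hg
  obtain ⟨cF, hcF⟩ := hF.riemann_eq
  choose c₀ hc₀ using fun v => exists_bound_evalFinset_surjective (hFt v)
  obtain ⟨n, hn⟩ : ∃ n : ι → ℕ, ∀ v, n v = (max (max (c₁ v - Divisor.degree (D0 v))
      (c₀ v + ((branchesOn (S.graphNodes hdeg) v).card + 1) - Divisor.degree (D0 v)))
      (|cF| + |Divisor.degree Z|)).toNat := ⟨_, fun _ => rfl⟩
  have hn1 : ∀ v, c₁ v ≤ n v + Divisor.degree (D0 v) := fun v => by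
    have h1 := Int.self_le_toNat (max (max (c₁ v - Divisor.degree (D0 v))
      (c₀ v + ((branchesOn (S.graphNodes hdeg) v).card + 1) - Divisor.degree (D0 v)))
      (|cF| + |Divisor.degree Z|))
    rw [← hn v] at h1
    have h2 := le_max_left (max (c₁ v - Divisor.degree (D0 v))
      (c₀ v + ((branchesOn (S.graphNodes hdeg) v).card + 1) - Divisor.degree (D0 v)))
      (|cF| + |Divisor.degree Z|)
    have h3 := le_max_left (c₁ v - Divisor.degree (D0 v))
      (c₀ v + ((branchesOn (S.graphNodes hdeg) v).card + 1) - Divisor.degree (D0 v))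
    linarith
  have hn2 : ∀ v, c₀ v + ((branchesOn (S.graphNodes hdeg) v).card + 1) ≤
      n v + Divisor.degree (D0 v) := fun v => by
    have h1 := Int.self_le_toNat (max (max (c₁ v - Divisor.degree (D0 v))
      (c₀ v + ((branchesOn (S.graphNodes hdeg) v).card + 1) - Divisor.degree (D0 v)))
      (|cF| + |Divisor.degree Z|))
    rw [← hn v] at h1
    have h2 := le_max_left (max (c₁ v - Divisor.degree (D0 v))
      (c₀ v + ((branchesOn (S.graphNodes hdeg) v).card + 1) - Divisor.degree (D0 v)))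
      (|cF| + |Divisor.degree Z|)
    have h3 := le_max_right (c₁ v - Divisor.degree (D0 v))
      (c₀ v + ((branchesOn (S.graphNodes hdeg) v).card + 1) - Divisor.degree (D0 v))
    linarith
  have hn3 : ∀ v, |cF| + |Divisor.degree Z| ≤ n v := fun v => by
    have h1 := Int.self_le_toNat (max (max (c₁ v - Divisor.degree (D0 v))
      (c₀ v + ((branchesOn (S.graphNodes hdeg) v).card + 1) - Divisor.degree (D0 v)))
      (|cF| + |Divisor.degree Z|))
    rw [← hn v] at h1
    have h2 := le_max_right (max (c₁ v - Divisor.degree (D0 v))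
      (c₀ v + ((branchesOn (S.graphNodes hdeg) v).card + 1) - Divisor.degree (D0 v)))
      (|cF| + |Divisor.degree Z|)
    linarith
  obtain ⟨P₀, E, -, hP₀s, -, -, hEsupp', hE0, hEdeg⟩ :=
    S.exists_effective_smooth hFt n ∅ Set.finite_empty
  have hEs : ∀ P ∈ E.support, S.IsSmoothPlace P := fun P hP => by
    obtain ⟨v, rfl⟩ := hEsupp' P hP
    exact hP₀s v
  have hEtube : ∀ e, ∀ P ∈ tube S e, E P = 0 := fun e P hP => by
    by_contra h
    exact S.not_isSmoothPlace_of_r_eq hP (hEs P (Finsupp.mem_support_iff.mpr h))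
  have hEdegsum : Divisor.degree E = ∑ v, (n v : ℤ) := by
    rw [← S.sum_degree_push hF hFt E]
    exact Finset.sum_congr rfl fun v _ => hEdeg v
  -- the two spaces
  obtain ⟨DD, hDD⟩ : ∃ DD : ∀ v, Divisor (ResidueField A) (Ft v), ∀ v, DD v = S.push E v + D0 v :=
    ⟨_, fun _ => rfl⟩
  have hoff : ∀ e, DD (S.src e) (S.s₁ e) = 0 ∧ DD (S.tgt e) (S.s₂ e) = 0 := fun e => by
    rw [hDD, hDD, Finsupp.add_apply, Finsupp.add_apply, S.push_apply_src hEs, S.push_apply_tgt hEs,
      hD0br _ _ (S.isBranch_src e), hD0br _ _ (S.isBranch_tgt e)]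
    exact ⟨rfl, rfl⟩
  have hDDdeg : ∀ v, Divisor.degree (DD v) = n v + Divisor.degree (D0 v) := fun v => by
    rw [hDD, map_add, hEdeg]
  have hfinV : Module.Finite K (riemannRochSpace (E - Z)) := hF.finite_L _
  have hdimV : (Module.finrank K (riemannRochSpace (E - Z)) : ℤ) =
      Divisor.degree (E - Z) + 1 - (genusFF K F : ℤ) := by
    apply hcF
    rw [map_sub, hEdegsum]
    obtain ⟨v₀⟩ := hne
    have h1 : (n v₀ : ℤ) ≤ ∑ v, (n v : ℤ) :=
      Finset.single_le_sum (f := fun v => (n v : ℤ)) (fun v _ => Int.natCast_nonneg _)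
        (Finset.mem_univ v₀)
    have h2 := hn3 v₀
    have h3 := le_abs_self cF
    have h4 := le_abs_self (Divisor.degree Z)
    linarith
  have hdimG : (Module.finrank (ResidueField A)
      (gluedRR (S.graphNodes fun v Q => (hFt v).deg_one Q) DD) : ℤ) =
      (∑ v, Divisor.degree (DD v)) + 1 - (genusFF K F : ℤ) :=
    hc₁ DD hoff fun v => by rw [hDDdeg]; exact hn1 v
  have hdimeq : Module.finrank (ResidueField A) (S.resSpaceAll hπ (riemannRochSpace (E - Z))) =
      Module.finrank (ResidueField A)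
        (gluedRR (S.graphNodes fun v Q => (hFt v).deg_one Q) DD) := by
    have h1 : (Module.finrank (ResidueField A)
        (S.resSpaceAll hπ (riemannRochSpace (E - Z))) : ℤ) = (Module.finrank (ResidueField A)
        (gluedRR (S.graphNodes fun v Q => (hFt v).deg_one Q) DD) : ℤ) := by
      rw [S.finrank_resSpaceAll hπ, hdimV, hdimG, map_sub, hEdegsum,
        Finset.sum_congr rfl fun v _ => hDDdeg v, Finset.sum_add_distrib, hD0deg]
      ring
    exact_mod_cast h1
  have hfinG : Module.Finite (ResidueField A)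
      (gluedRR (S.graphNodes fun v Q => (hFt v).deg_one Q) DD) := finite_gluedRR hFt _ _ hoff
  -- the upper half: residues of `L(E - Z) ∩ Oall`, divided by `p`, lie in the glued space
  have hle : S.resSpaceAll hπ (riemannRochSpace (E - Z)) ≤
      (gluedRR (S.graphNodes fun v Q => (hFt v).deg_one Q) DD).map
        (mulEquiv (A := A) p hp0).toLinearMap := by
    intro t ht
    obtain ⟨y, hyV, hyO, rfl⟩ := (S.mem_resSpaceAll hπ).mp ht
    refine ⟨p⁻¹ * S.resAll y, ?_, (mulEquiv (A := A) p hp0).apply_symm_apply _⟩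
    by_cases hy0 : y = 0
    · rw [hy0, S.resAll_zero, mul_zero]
      exact zero_mem _
    have hyE : y ∈ riemannRochSpace E := riemannRochSpace_mono (sub_le_self _ hZ0) hyV
    have hy' : y ∈ regularOutside (∅ : Set (Place K F)) E := by rwa [regularOutside_empty]
    -- the values at the nodes
    have hnodeval : ∀ e, ∃ l : ResidueField A,
        IsValueAt (S.s₁ e) ((p (S.src e))⁻¹ * S.resF (S.src e) y) l ∧
        IsValueAt (S.s₂ e) ((p (S.tgt e))⁻¹ * S.resF (S.tgt e) y) l := by
      intro e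
      have hZE : ∀ P ∈ tube S e, Z P ≤ (divOf K y) P := by
        intro P hP
        rw [divOf_apply]
        have := ((mem_riemannRochSpace_iff.mp hyV) P).resolve_left hy0
        rw [Finsupp.sub_apply, hEtube e P hP] at this
        linarith
      obtain ⟨l, hl1, hl2, -⟩ := hnode e y hy0 (divOf K y) (fun P => divOf_apply y P)
        (S.mem_O_of_mem_Oall hyO _) (S.mem_O_of_mem_Oall hyO _) Z hZ0 hZE (k₂ e) (hk₂ e)
      refine ⟨l, ?_, ?_⟩
      · have h1 := hl1.mul (isValueAt_inv (hp e).1 one_ne_zero)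
        rw [inv_one, mul_one, ← hk₁ e] at h1
        have e1 : (p (S.src e))⁻¹ * S.resF (S.src e) y =
            S.resF (S.src e) y / T₁ e ^ k₁ e * (p (S.src e) / T₁ e ^ k₁ e)⁻¹ := by
          have h2 := zpow_ne_zero (k₁ e) (hT₁0 e)
          have h3 := hp0 (S.src e)
          field_simp
        rw [e1]
        exact h1
      · have h1 := hl2.mul (isValueAt_inv (hp e).2 (hγ e))
        rw [← hη e] at h1
        have e2 : resOf A (η e) * l * (resOf A (η e))⁻¹ = l := by
          have := hγ e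
          field_simp
        rw [e2] at h1
        have e1 : (p (S.tgt e))⁻¹ * S.resF (S.tgt e) y =
            S.resF (S.tgt e) y * T₂ e ^ k₂ e * (p (S.tgt e) * T₂ e ^ k₂ e)⁻¹ := by
          have h2 := zpow_ne_zero (k₂ e) (hT₂0 e)
          have h3 := hp0 (S.tgt e)
          field_simp
        rw [e1]
        exact h1
    refine S.mem_gluedRR_of_forall_isValueAt _ (fun v => ?_) hnodeval
    rw [mem_riemannRochSpace_iff]
    intro Q
    have hφ : (p⁻¹ * S.resAll y) v = (p v)⁻¹ * S.resF v y := rfl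
    rw [hφ]
    by_cases h0 : S.resF v y = 0
    · left
      rw [h0, mul_zero]
    right
    by_cases hb : S.IsBranch ⟨v, Q⟩
    · rw [hDD, Finsupp.add_apply, S.push_apply_of_isBranch hEs hb, hD0br v Q hb, add_zero,
        neg_zero]
      have hne0 : (p v)⁻¹ * S.resF v y ≠ 0 := mul_ne_zero (inv_ne_zero (hp0 v)) h0
      obtain ⟨e, he | he⟩ := hb
      · have hv : v = S.src e := congrArg Sigma.fst he
        subst hv
        have hQe : Q = S.s₁ e := eq_of_heq (Sigma.mk.inj he).2
        subst hQe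
        obtain ⟨l, hl, -⟩ := hnodeval e
        exact ((S.s₁ e).adicValuation_le_one_iff.mp hl.adicValuation_le_one).resolve_left hne0
      · have hv : v = S.tgt e := congrArg Sigma.fst he
        subst hv
        have hQe : Q = S.s₂ e := eq_of_heq (Sigma.mk.inj he).2
        subst hQe
        obtain ⟨l, -, hl⟩ := hnodeval e
        exact ((S.s₂ e).adicValuation_le_one_iff.mp hl.adicValuation_le_one).resolve_left hne0
    · rw [hDD, Finsupp.add_apply, hD0sm v Q hb, Place.ord_mul _ (inv_ne_zero (hp0 v)) h0,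
        Place.ord_inv]
      have := S.neg_push_le_ord_resF hF hy' h0 hb (by simp)
      linarith
  have heq : S.resSpaceAll hπ (riemannRochSpace (E - Z)) =
      (gluedRR (S.graphNodes fun v Q => (hFt v).deg_one Q) DD).map
        (mulEquiv (A := A) p hp0).toLinearMap :=
    Submodule.eq_of_le_of_finrank_eq hle (by
      rw [hdimeq]
      exact (LinearEquiv.finrank_map_eq _ _).symm)
  -- a family with value one at all branches
  have hex : ∀ v, ∃ f : Ft v, f ∈ riemannRochSpace (DD v) ∧ f ≠ 0 ∧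
      ∀ Q ∈ branchesOn (S.graphNodes hdeg) v, evalAt Q f = 1 := by
    intro v
    have hinf := (hFt v).infinite_places
    obtain ⟨Q₀, hQ₀⟩ := Infinite.exists_notMem_finset
      (branchesOn (S.graphNodes hdeg) v ∪ (DD v).support)
    rw [Finset.mem_union, not_or, Finsupp.notMem_support_iff] at hQ₀
    have hQs : ∀ P ∈ insert Q₀ (branchesOn (S.graphNodes hdeg) v), DD v P = 0 := by
      intro P hP
      rcases Finset.mem_insert.mp hP with rfl | hP
      · exact hQ₀.2
      · have hb : S.IsBranch ⟨v, P⟩ := (S.isBranch_iff_mem_branchesOn hdeg v P).mpr hP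
        rw [hDD, Finsupp.add_apply, S.push_apply_of_isBranch hEs hb, hD0br v P hb, add_zero]
    have hcard : c₀ v + ((insert Q₀ (branchesOn (S.graphNodes hdeg) v)).card : ℤ) ≤
        Divisor.degree (DD v) := by
      rw [hDDdeg, Finset.card_insert_of_notMem hQ₀.1]
      have := hn2 v
      push_cast
      linarith
    obtain ⟨f, hf⟩ := hc₀ v _ (DD v) hQs hcard (fun _ => 1)
    refine ⟨f.1, f.2, ?_, ?_⟩
    · intro h0
      have := congrFun hf ⟨Q₀, Finset.mem_insert_self _ _⟩
      rw [evalFinset_apply] at this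
      simp only at this
      rw [h0, evalAt_eq_of_isValueAt (isValueAt_zero _)] at this
      exact zero_ne_one this
    · intro Q hQ
      have := congrFun hf ⟨Q, Finset.mem_insert_of_mem hQ⟩
      rwa [evalFinset_apply] at this
  choose φ hφL hφ0 hφ1 using hex
  have hφs : ∀ e, IsValueAt (S.s₁ e) (φ (S.src e)) 1 := fun e => by
    have h1 := isValueAt_evalAt (S.s₁ e) (hdeg _ _)
      (mem_toValuationSubring_of_mem_riemannRochSpace (hφL (S.src e)) (hoff e).1)
    rwa [hφ1 (S.src e) (S.s₁ e) (b_mem_branchesOn (S.graphNodes hdeg) e)] at h1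
  have hφt : ∀ e, IsValueAt (S.s₂ e) (φ (S.tgt e)) 1 := fun e => by
    have h1 := isValueAt_evalAt (S.s₂ e) (hdeg _ _)
      (mem_toValuationSubring_of_mem_riemannRochSpace (hφL (S.tgt e)) (hoff e).2)
    rwa [hφ1 (S.tgt e) (S.s₂ e) (b'_mem_branchesOn (S.graphNodes hdeg) e)] at h1
  have hφG : φ ∈ gluedRR (S.graphNodes fun v Q => (hFt v).deg_one Q) DD :=
    S.mem_gluedRR_of_forall_isValueAt _ hφL fun e => ⟨1, hφs e, hφt e⟩
  -- the lift
  have hmem : p * φ ∈ S.resSpaceAll hπ (riemannRochSpace (E - Z)) := by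
    rw [heq]
    exact ⟨φ, hφG, rfl⟩
  obtain ⟨T, hTV, hTO, hTres⟩ := (S.mem_resSpaceAll hπ).mp hmem
  have hTresv : ∀ v, S.resF v T = p v * φ v := fun v => congrFun hTres v
  have hTunit : ∀ v, S.resF v T ≠ 0 := fun v => by
    rw [hTresv]
    exact mul_ne_zero (hp0 v) (hφ0 v)
  have hT0 : T ≠ 0 := S.ne_zero_of_resF_ne_zero (hTunit (S.r Pa).1)
  refine ⟨T, hTunit, fun e P hP => ?_⟩
  have hZE : ∀ P ∈ tube S e, Z P ≤ (divOf K T) P := by
    intro P hP
    rw [divOf_apply]
    have := ((mem_riemannRochSpace_iff.mp hTV) P).resolve_left hT0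
    rw [Finsupp.sub_apply, hEtube e P hP] at this
    linarith
  obtain ⟨l, hl1, -, hexact⟩ := hnode e T hT0 (divOf K T) (fun P => divOf_apply T P)
    (S.mem_O_of_mem_Oall hTO _) (S.mem_O_of_mem_Oall hTO _) Z hZ0 hZE (k₂ e) (hk₂ e)
  have hl : l = 1 := by
    have h1 := (hp e).1.mul (hφs e)
    rw [mul_one] at h1
    have e1 : S.resF (S.src e) T / T₁ e ^ (tdeg (tube S e) Z - k₂ e) =
        p (S.src e) / T₁ e ^ k₁ e * φ (S.src e) := by
      rw [hTresv, hk₁ e]
      ring
    rw [e1] at hl1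
    exact hl1.unique h1
  have := hexact (by rw [hl]; exact one_ne_zero) P hP
  rw [divOf_apply] at this
  exact this

end Fermat.Agent.BR3.TorPZ
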