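import Mathlib
import Fermat.Agent.BR.SS.Setup
import Fermat.Agent.BR.SS.UnitNorm
import Fermat.Agent.BR.GluedRR
import Fermat.Agent.Red.FFLemmas
import Fermat.Agent.BR3.TorGlue

/-!
# Program C (S36), node (C-ML), piece (ML-b): the tuple `p`

Special fibre only.  For a function field `L / k` (Riemann package, `k` infinite), finitely many
distinct places `Q i` and nonzero functions `θ i`, there is a nonzero function `p` such that
`p * θ i` is regular at `Q i` with any prescribed nonzero value `a i`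
(`exists_mul_isValueAt`: prescribed order and leading coefficient at finitely many points).

For a semistable setup `S` with finitely many nodes: for any nonzero functions `ubar e` on the
source components, `Tbar e` on the target components, exponents `n e : ℤ` and constants `γ e ≠ 0`
there is a tuple `p : ∀ v, Ft v` of nonzero functions with
`(p (src e) * ubar e ^ (-n e)) (s₁ e) = 1` and `(p (tgt e) * Tbar e ^ (-n e)) (s₂ e) = γ e`
(`exists_twist_tuple`); if `ord_{s₁ e} (ubar e) = 1` and `ord_{s₂ e} (Tbar e) = -1` then `p` has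
order exactly `n e` at `s₁ e` and `-n e` at `s₂ e` (`exists_twist_tuple_ord`).
-/

set_option autoImplicit false
set_option linter.unusedVariables false
set_option linter.unusedSectionVars false
set_option linter.style.haveILetI false

namespace Fermat.Agent.BR3.TwistTuple

open AlgebraicCurve Fermat.Agent.Red Fermat.Agent.BR.SS Fermat.Agent.BR.GlueG Fermat.Agent.X0

section Single

variable {k L : Type*} [Field k] [Field L] [Algebra k L]

/-- **Prescribed order and leading coefficient at finitely many places.** -/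
theorem exists_mul_isValueAt (hL : RiemannPkg k L) [Infinite k] {I : Type*} [Finite I]
    (Q : I → Place k L) (hQ : Function.Injective Q) (θ : I → L) (hθ : ∀ i, θ i ≠ 0)
    (a : I → k) (ha : ∀ i, a i ≠ 0) :
    ∃ p : L, p ≠ 0 ∧ ∀ i, IsValueAt (Q i) (p * θ i) (a i) := by
  classical
  haveI : Fintype I := Fintype.ofFinite I
  haveI := hL.principal
  obtain ⟨T, hT⟩ : ∃ T : Finset (Place k L), T = Finset.univ.image Q := ⟨_, rfl⟩
  have hmem : ∀ i, Q i ∈ T := fun i => by
    rw [hT]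
    exact Finset.mem_image_of_mem Q (Finset.mem_univ i)
  -- the orders
  obtain ⟨nfun, hn⟩ : ∃ nfun : Place k L → ℤ, ∀ i, nfun (Q i) = -(Q i).ord (θ i) := by
    refine ⟨fun P => if h : ∃ i, Q i = P then -(P.ord (θ h.choose)) else 0, fun i => ?_⟩
    have h : ∃ j, Q j = Q i := ⟨i, rfl⟩
    show (if h : ∃ j, Q j = Q i then -((Q i).ord (θ h.choose)) else 0) = _
    rw [dif_pos h, hQ h.choose_spec]
  obtain ⟨ρ, hρ0, hρ⟩ := exists_ord_eq_on_finset hL T nfun
  have hρi : ∀ i, (Q i).ord (ρ * θ i) = 0 := fun i => by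
    rw [(Q i).ord_mul hρ0 (hθ i), hρ (Q i) (hmem i), hn i]
    ring
  choose b hb0 hb using fun i => Fermat.Agent.BR3.TorGlue.exists_value_of_ord_eq_zero
    (hL.deg_one (Q i)) (mul_ne_zero hρ0 (hθ i)) (hρi i)
  -- a function with prescribed values
  obtain ⟨c, hc⟩ := exists_bound_evalFinset_surjective hL
  obtain ⟨Pinf, hPinf⟩ := exists_place_notMem hL T
  obtain ⟨D, hD⟩ : ∃ D : Divisor k L, D = Finsupp.single Pinf (c + T.card) := ⟨_, rfl⟩
  have hDT : ∀ P ∈ T, D P = 0 := fun P hP => by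
    rw [hD, Finsupp.single_apply, if_neg]
    rintro rfl
    exact hPinf hP
  have hdeg : c + T.card ≤ Divisor.degree D := by
    rw [hD, degree_single_of_pkg hL]
  have hsurj := hc T D hDT hdeg
  obtain ⟨tgt, htgt⟩ : ∃ tgt : ↥T → k, ∀ i, tgt ⟨Q i, hmem i⟩ = a i / b i := by
    refine ⟨fun P => if h : ∃ i, Q i = (P : Place k L) then a h.choose / b h.choose else 0,
      fun i => ?_⟩
    have h : ∃ j, Q j = Q i := ⟨i, rfl⟩
    show (if h : ∃ j, Q j = Q i then a h.choose / b h.choose else 0) = _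
    rw [dif_pos h, hQ h.choose_spec]
  obtain ⟨φ, hφ⟩ := hsurj tgt
  have hφi : ∀ i, IsValueAt (Q i) (φ : L) (a i / b i) := fun i => by
    have h1 := congrFun hφ ⟨Q i, hmem i⟩
    rw [evalFinset_apply, htgt i] at h1
    have hreg := mem_toValuationSubring_of_mem_riemannRochSpace φ.2 (hDT (Q i) (hmem i))
    have h2 := isValueAt_evalAt (Q i) (hL.deg_one (Q i)) hreg
    rwa [h1] at h2
  by_cases hI : Nonempty I
  · obtain ⟨i₀⟩ := hI
    have hφ0 : (φ : L) ≠ 0 := by
      intro h0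
      have h1 := hφi i₀
      rw [h0] at h1
      exact div_ne_zero (ha i₀) (hb0 i₀) (Fermat.Agent.BR3.TorGlue.value_zero_eq h1)
    refine ⟨ρ * φ, mul_ne_zero hρ0 hφ0, fun i => ?_⟩
    have h1 := (hφi i).mul (hb i)
    rw [div_mul_cancel₀ _ (hb0 i)] at h1
    have e : ρ * (φ : L) * θ i = (φ : L) * (ρ * θ i) := by ring
    rwa [e]
  · exact ⟨1, one_ne_zero, fun i => (hI ⟨i⟩).elim⟩

end Single

variable {K F k : Type*} [Field K] [Field F] [Algebra K F] [Field k]
  {A : ValuationSubring K} {π : A →+* k} {ι : Type*} {Ft : ι → Type*}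
  [∀ v, Field (Ft v)] [∀ v, Algebra k (Ft v)] {ν : Type*}

/-- **(ML-b) the tuple `p`.** -/
theorem exists_twist_tuple [Finite ν] [Infinite k] (S : SemistableSetup (F := F) A π ι Ft ν)
    (hFt : ∀ v, RiemannPkg k (Ft v)) (ubar : ∀ e, Ft (S.src e)) (Tbar : ∀ e, Ft (S.tgt e))
    (hu : ∀ e, ubar e ≠ 0) (hT : ∀ e, Tbar e ≠ 0) (n : ν → ℤ) (γ : ν → k) (hγ : ∀ e, γ e ≠ 0) :
    ∃ p : ∀ v, Ft v, (∀ v, p v ≠ 0) ∧
      ∀ e, IsValueAt (S.s₁ e) (p (S.src e) * ubar e ^ (-n e)) 1 ∧
        IsValueAt (S.s₂ e) (p (S.tgt e) * Tbar e ^ (-n e)) (γ e) := by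
  classical
  -- the branch points on the component `v`
  have key : ∀ v : ι, ∃ pv : Ft v, pv ≠ 0 ∧
      (∀ (e : ν) (h : S.src e = v), IsValueAt (h ▸ S.s₁ e) (pv * (h ▸ (ubar e ^ (-n e)))) 1) ∧
      (∀ (e : ν) (h : S.tgt e = v), IsValueAt (h ▸ S.s₂ e) (pv * (h ▸ (Tbar e ^ (-n e)))) (γ e)) := by
    intro v
    let Iv := {e : ν // S.src e = v} ⊕ {e : ν // S.tgt e = v}
    let Qv : Iv → Place k (Ft v) := fun i =>
      match i with
      | Sum.inl x => x.2 ▸ S.s₁ x.1
      | Sum.inr x => x.2 ▸ S.s₂ x.1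
    let θv : Iv → Ft v := fun i =>
      match i with
      | Sum.inl x => x.2 ▸ (ubar x.1 ^ (-n x.1))
      | Sum.inr x => x.2 ▸ (Tbar x.1 ^ (-n x.1))
    let av : Iv → k := fun i =>
      match i with
      | Sum.inl _ => 1
      | Sum.inr x => γ x.1
    let lift : Iv → ν ⊕ ν := fun i =>
      match i with
      | Sum.inl x => Sum.inl x.1
      | Sum.inr x => Sum.inr x.1
    have hlift : Function.Injective lift := by
      rintro (⟨e, h⟩ | ⟨e, h⟩) (⟨e', h'⟩ | ⟨e', h'⟩) hh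
      · have : e = e' := Sum.inl.inj hh
        subst this
        rfl
      · exact (Sum.inl_ne_inr hh).elim
      · exact (Sum.inr_ne_inl hh).elim
      · have : e = e' := Sum.inr.inj hh
        subst this
        rfl
    have hbr : ∀ i : Iv, (Sum.elim (fun e => (⟨S.src e, S.s₁ e⟩ : Σ v, Place k (Ft v)))
        (fun e => ⟨S.tgt e, S.s₂ e⟩)) (lift i) = ⟨v, Qv i⟩ := by
      rintro (⟨e, h⟩ | ⟨e, h⟩)
      · subst h
        rfl
      · subst h
        rfl
    have hQv : Function.Injective Qv := by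
      intro i j hij
      apply hlift
      apply S.branch_injective
      rw [hbr i, hbr j, hij]
    have hθv : ∀ i, θv i ≠ 0 := by
      rintro (⟨e, h⟩ | ⟨e, h⟩)
      · subst h
        exact zpow_ne_zero _ (hu e)
      · subst h
        exact zpow_ne_zero _ (hT e)
    have hav : ∀ i, av i ≠ 0 := by
      rintro (⟨e, h⟩ | ⟨e, h⟩)
      · exact one_ne_zero
      · exact hγ e
    obtain ⟨pv, hpv0, hpv⟩ := exists_mul_isValueAt (hFt v) Qv hQv θv hθv av hav
    exact ⟨pv, hpv0, fun e h => hpv (Sum.inl ⟨e, h⟩), fun e h => hpv (Sum.inr ⟨e, h⟩)⟩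
  choose p hp0 hp1 hp2 using key
  exact ⟨p, hp0, fun e => ⟨hp1 (S.src e) e rfl, hp2 (S.tgt e) e rfl⟩⟩

/-- the same in the shape of the twisted node lemma (ML-a), with the orders of `p` at the
branch points -/
theorem exists_twist_tuple_ord [Finite ν] [Infinite k] (S : SemistableSetup (F := F) A π ι Ft ν)
    (hFt : ∀ v, RiemannPkg k (Ft v)) (ubar : ∀ e, Ft (S.src e)) (Tbar : ∀ e, Ft (S.tgt e))
    (h1 : ∀ e, (S.s₁ e).ord (ubar e) = 1) (h2 : ∀ e, (S.s₂ e).ord (Tbar e) = -1)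
    (n : ν → ℤ) (γ : ν → k) (hγ : ∀ e, γ e ≠ 0) :
    ∃ p : ∀ v, Ft v, (∀ v, p v ≠ 0) ∧ ∃ α : ν → k, ∀ e, α e ≠ 0 ∧
      IsValueAt (S.s₁ e) (p (S.src e) * ubar e ^ (-n e)) (α e) ∧
      IsValueAt (S.s₂ e) (p (S.tgt e) * Tbar e ^ (-n e)) (γ e * α e) ∧
      (S.s₁ e).ord (p (S.src e)) = n e ∧ (S.s₂ e).ord (p (S.tgt e)) = -n e := by
  have hu : ∀ e, ubar e ≠ 0 := fun e h0 => by
    have := h1 e
    rw [h0, Place.ord_zero] at this
    exact zero_ne_one this
  have hT : ∀ e, Tbar e ≠ 0 := fun e h0 => by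
    have := h2 e
    rw [h0, Place.ord_zero] at this
    omega
  obtain ⟨p, hp0, hp⟩ := exists_twist_tuple S hFt ubar Tbar hu hT n γ hγ
  refine ⟨p, hp0, fun _ => 1, fun e => ⟨one_ne_zero, (hp e).1, ?_, ?_, ?_⟩⟩
  · rw [mul_one]
    exact (hp e).2
  · have h3 := (hp e).1.ord_eq_zero one_ne_zero
    rw [(S.s₁ e).ord_mul (hp0 _) (zpow_ne_zero _ (hu e)), Place.ord_zpow, h1 e] at h3
    linarith
  · have h3 := (hp e).2.ord_eq_zero (hγ e)
    rw [(S.s₂ e).ord_mul (hp0 _) (zpow_ne_zero _ (hT e)), Place.ord_zpow, h2 e] at h3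
    linarith

end Fermat.Agent.BR3.TwistTuple
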