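import Mathlib
import Fermat.Agent.BR3.TwistTuple

/-!
# Program C (S36), node (C-ML), piece (ML-b′): the tuple `p`, general form

* `exists_tuple_isValueAt` : for ARBITRARY nonzero functions `θ₁ e` on the source components and
  `θ₂ e` on the target components and nonzero constants `a₁ e`, `a₂ e` there is a tuple `p` of
  nonzero functions on the components with `(p (src e) * θ₁ e) (s₁ e) = a₁ e` and
  `(p (tgt e) * θ₂ e) (s₂ e) = a₂ e`;
* `exists_twist_tuple_two` : the case `θ₁ e = ubar e ^ (-n₁ e)`, `θ₂ e = Tbar e ^ (-n₂ e)` with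
  two independent exponent functions (prescribed tube divisor `D°`: `n₁ e = n e + tdeg_e D°`,
  `n₂ e = n e`), with the exact orders `n₁ e · ord ubar`, `n₂ e · ord Tbar` of `p` at the branch
  points.
-/

set_option autoImplicit false
set_option linter.unusedVariables false
set_option linter.unusedSectionVars false
set_option linter.style.haveILetI false

namespace Fermat.Agent.BR3.TwistTuple

open AlgebraicCurve Fermat.Agent.Red Fermat.Agent.BR.SS Fermat.Agent.BR.GlueG Fermat.Agent.X0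

variable {K F k : Type*} [Field K] [Field F] [Algebra K F] [Field k]
  {A : ValuationSubring K} {π : A →+* k} {ι : Type*} {Ft : ι → Type*}
  [∀ v, Field (Ft v)] [∀ v, Algebra k (Ft v)] {ν : Type*}

/-- **The tuple `p`, general form**: arbitrary normalising functions at the two branches of every
node, arbitrary nonzero values. -/
theorem exists_tuple_isValueAt [Finite ν] [Infinite k] (S : SemistableSetup (F := F) A π ι Ft ν)
    (hFt : ∀ v, RiemannPkg k (Ft v)) (θ₁ : ∀ e, Ft (S.src e)) (θ₂ : ∀ e, Ft (S.tgt e))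
    (hθ₁ : ∀ e, θ₁ e ≠ 0) (hθ₂ : ∀ e, θ₂ e ≠ 0) (a₁ a₂ : ν → k) (ha₁ : ∀ e, a₁ e ≠ 0)
    (ha₂ : ∀ e, a₂ e ≠ 0) :
    ∃ p : ∀ v, Ft v, (∀ v, p v ≠ 0) ∧
      ∀ e, IsValueAt (S.s₁ e) (p (S.src e) * θ₁ e) (a₁ e) ∧
        IsValueAt (S.s₂ e) (p (S.tgt e) * θ₂ e) (a₂ e) := by
  classical
  have key : ∀ v : ι, ∃ pv : Ft v, pv ≠ 0 ∧
      (∀ (e : ν) (h : S.src e = v), IsValueAt (h ▸ S.s₁ e) (pv * (h ▸ θ₁ e)) (a₁ e)) ∧
      (∀ (e : ν) (h : S.tgt e = v), IsValueAt (h ▸ S.s₂ e) (pv * (h ▸ θ₂ e)) (a₂ e)) := by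
    intro v
    let Iv := {e : ν // S.src e = v} ⊕ {e : ν // S.tgt e = v}
    let Qv : Iv → Place k (Ft v) := fun i =>
      match i with
      | Sum.inl x => x.2 ▸ S.s₁ x.1
      | Sum.inr x => x.2 ▸ S.s₂ x.1
    let θv : Iv → Ft v := fun i =>
      match i with
      | Sum.inl x => x.2 ▸ θ₁ x.1
      | Sum.inr x => x.2 ▸ θ₂ x.1
    let av : Iv → k := fun i =>
      match i with
      | Sum.inl x => a₁ x.1
      | Sum.inr x => a₂ x.1
    let lift : Iv → ν ⊕ ν := fun i =>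
      match i with
      | Sum.inl x => Sum.inl x.1
      | Sum.inr x => Sum.inr x.1
    have hlift : Function.Injective lift := by
      rintro (⟨e, h⟩ | ⟨e, h⟩) (⟨e', h'⟩ | ⟨e', h'⟩) hh
      · have : e = e' := Sum.inl.inj hh
        subst this
        rfl
      · exact (Sum.inl_ne_inr hh).elim
      · exact (Sum.inr_ne_inl hh).elim
      · have : e = e' := Sum.inr.inj hh
        subst this
        rfl
    have hbr : ∀ i : Iv, (Sum.elim (fun e => (⟨S.src e, S.s₁ e⟩ : Σ v, Place k (Ft v)))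
        (fun e => ⟨S.tgt e, S.s₂ e⟩)) (lift i) = ⟨v, Qv i⟩ := by
      rintro (⟨e, h⟩ | ⟨e, h⟩)
      · subst h
        rfl
      · subst h
        rfl
    have hQv : Function.Injective Qv := by
      intro i j hij
      apply hlift
      apply S.branch_injective
      rw [hbr i, hbr j, hij]
    have hθv : ∀ i, θv i ≠ 0 := by
      rintro (⟨e, h⟩ | ⟨e, h⟩)
      · subst h
        exact hθ₁ e
      · subst h
        exact hθ₂ e
    have hav : ∀ i, av i ≠ 0 := by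
      rintro (⟨e, h⟩ | ⟨e, h⟩)
      · exact ha₁ e
      · exact ha₂ e
    obtain ⟨pv, hpv0, hpv⟩ := exists_mul_isValueAt (hFt v) Qv hQv θv hθv av hav
    exact ⟨pv, hpv0, fun e h => hpv (Sum.inl ⟨e, h⟩), fun e h => hpv (Sum.inr ⟨e, h⟩)⟩
  choose p hp0 hp1 hp2 using key
  exact ⟨p, hp0, fun e => ⟨hp1 (S.src e) e rfl, hp2 (S.tgt e) e rfl⟩⟩

/-- **(ML-b′)**: two independent exponent functions at the two ends of the nodes, matched leading
coefficients (`γ e`), and the exact orders of `p` at the branch points. -/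
theorem exists_twist_tuple_two [Finite ν] [Infinite k] (S : SemistableSetup (F := F) A π ι Ft ν)
    (hFt : ∀ v, RiemannPkg k (Ft v)) (ubar : ∀ e, Ft (S.src e)) (Tbar : ∀ e, Ft (S.tgt e))
    (hu : ∀ e, ubar e ≠ 0) (hT : ∀ e, Tbar e ≠ 0) (n₁ n₂ : ν → ℤ) (γ : ν → k)
    (hγ : ∀ e, γ e ≠ 0) :
    ∃ p : ∀ v, Ft v, (∀ v, p v ≠ 0) ∧ ∃ α : ν → k, ∀ e, α e ≠ 0 ∧
      IsValueAt (S.s₁ e) (p (S.src e) * ubar e ^ (-n₁ e)) (α e) ∧
      IsValueAt (S.s₂ e) (p (S.tgt e) * Tbar e ^ (-n₂ e)) (γ e * α e) ∧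
      (S.s₁ e).ord (p (S.src e)) = n₁ e * (S.s₁ e).ord (ubar e) ∧
      (S.s₂ e).ord (p (S.tgt e)) = n₂ e * (S.s₂ e).ord (Tbar e) := by
  obtain ⟨p, hp0, hp⟩ := exists_tuple_isValueAt S hFt (fun e => ubar e ^ (-n₁ e))
    (fun e => Tbar e ^ (-n₂ e)) (fun e => zpow_ne_zero _ (hu e)) (fun e => zpow_ne_zero _ (hT e))
    (fun _ => 1) γ (fun _ => one_ne_zero) hγ
  refine ⟨p, hp0, fun _ => 1, fun e => ⟨one_ne_zero, (hp e).1, ?_, ?_, ?_⟩⟩
  · rw [mul_one]
    exact (hp e).2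
  · have h3 := (hp e).1.ord_eq_zero one_ne_zero
    rw [(S.s₁ e).ord_mul (hp0 _) (zpow_ne_zero _ (hu e)), Place.ord_zpow] at h3
    linarith
  · have h3 := (hp e).2.ord_eq_zero (hγ e)
    rw [(S.s₂ e).ord_mul (hp0 _) (zpow_ne_zero _ (hT e)), Place.ord_zpow] at h3
    linarith

end Fermat.Agent.BR3.TwistTuple
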