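import Mathlib
import Fermat.Agent.BR3.TwistTupleGen

/-!
# Program C (S36), node (C-ML), piece (ML-b): the tuple `p` in the shape of the interface #1023

`exists_tuple` : local parameters `t₁ e` (order `1` at `s₁ e`), `t₂ e` (order `-1` at `s₂ e`),
INDEPENDENT integers `k₁ k₂ : ν → ℤ`, nonzero constants `γ e`: there is a tuple `p` of nonzero
functions on the components of the special fibre with `(p (src e) / t₁ e ^ k₁ e) (s₁ e) = 1` and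
`(p (tgt e) * t₂ e ^ k₂ e) (s₂ e) = γ e`; with the exact orders of `p` at the branch points.

Special fibre only. Thin wrapper of `TwistTuple.exists_tuple_isValueAt`.
-/

set_option autoImplicit false
set_option linter.unusedVariables false
set_option linter.unusedSectionVars false

namespace Fermat.Agent.BR3.TorTuple

open AlgebraicCurve Fermat.Agent.Red Fermat.Agent.BR.SS Fermat.Agent.BR.GlueG Fermat.Agent.X0

variable {K F k : Type*} [Field K] [Field F] [Algebra K F] [Field k]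
  {A : ValuationSubring K} {π : A →+* k} {ι : Type*} {Ft : ι → Type*}
  [∀ v, Field (Ft v)] [∀ v, Algebra k (Ft v)] {ν : Type*}

/-- **(ML-b)**, general normalising functions `t₁ e ≠ 0`, `t₂ e ≠ 0` (no hypothesis on their
orders). -/
theorem exists_tuple_of_ne_zero [Finite ν] [Infinite k]
    (S : SemistableSetup (F := F) A π ι Ft ν)
    (hFt : ∀ v, RiemannPkg k (Ft v)) (t₁ : ∀ e, Ft (S.src e)) (t₂ : ∀ e, Ft (S.tgt e))
    (ht₁ : ∀ e, t₁ e ≠ 0) (ht₂ : ∀ e, t₂ e ≠ 0) (k₁ k₂ : ν → ℤ) (γ : ν → k)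
    (hγ : ∀ e, γ e ≠ 0) :
    ∃ p : ∀ v, Ft v, (∀ v, p v ≠ 0) ∧
      ∀ e, IsValueAt (S.s₁ e) (p (S.src e) / t₁ e ^ k₁ e) 1 ∧
        IsValueAt (S.s₂ e) (p (S.tgt e) * t₂ e ^ k₂ e) (γ e) := by
  obtain ⟨p, hp0, hp⟩ := TwistTuple.exists_tuple_isValueAt S hFt (fun e => (t₁ e ^ k₁ e)⁻¹)
    (fun e => t₂ e ^ k₂ e) (fun e => inv_ne_zero (zpow_ne_zero _ (ht₁ e)))
    (fun e => zpow_ne_zero _ (ht₂ e))
    (fun _ => 1) γ (fun _ => one_ne_zero) hγ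
  refine ⟨p, hp0, fun e => ⟨?_, (hp e).2⟩⟩
  rw [div_eq_mul_inv]
  exact (hp e).1

/-- **(ML-b)** in the shape of #1023, with the exact orders of `p` at the branch points. -/
theorem exists_tuple_ord [Finite ν] [Infinite k] (S : SemistableSetup (F := F) A π ι Ft ν)
    (hFt : ∀ v, RiemannPkg k (Ft v)) (t₁ : ∀ e, Ft (S.src e)) (t₂ : ∀ e, Ft (S.tgt e))
    (ht₁ : ∀ e, (S.s₁ e).ord (t₁ e) = 1) (ht₂ : ∀ e, (S.s₂ e).ord (t₂ e) = -1)
    (k₁ k₂ : ν → ℤ) (γ : ν → k) (hγ : ∀ e, γ e ≠ 0) :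
    ∃ p : ∀ v, Ft v, (∀ v, p v ≠ 0) ∧
      ∀ e, IsValueAt (S.s₁ e) (p (S.src e) / t₁ e ^ k₁ e) 1 ∧
        IsValueAt (S.s₂ e) (p (S.tgt e) * t₂ e ^ k₂ e) (γ e) ∧
        (S.s₁ e).ord (p (S.src e)) = k₁ e ∧ (S.s₂ e).ord (p (S.tgt e)) = k₂ e := by
  have h1 : ∀ e, t₁ e ≠ 0 := by
    intro e h
    have := ht₁ e
    rw [h, Place.ord_zero] at this
    exact zero_ne_one this
  have h2 : ∀ e, t₂ e ≠ 0 := by
    intro e h
    have := ht₂ e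
    rw [h, Place.ord_zero] at this
    omega
  obtain ⟨p, hp0, hp⟩ := exists_tuple_of_ne_zero S hFt t₁ t₂ h1 h2 k₁ k₂ γ hγ
  refine ⟨p, hp0, fun e => ⟨(hp e).1, (hp e).2, ?_, ?_⟩⟩
  · have h3 := (hp e).1.ord_eq_zero one_ne_zero
    rw [div_eq_mul_inv, (S.s₁ e).ord_mul (hp0 _) (inv_ne_zero (zpow_ne_zero _ (h1 e))),
      Place.ord_inv, Place.ord_zpow, ht₁ e] at h3
    linarith
  · have h3 := (hp e).2.ord_eq_zero (hγ e)
    rw [(S.s₂ e).ord_mul (hp0 _) (zpow_ne_zero _ (h2 e)), Place.ord_zpow, ht₂ e] at h3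
    linarith

/-- **(ML-b)**, EXACTLY the statement of the interface #1023. -/
theorem exists_tuple [Finite ν] [Infinite k] (S : SemistableSetup (F := F) A π ι Ft ν)
    (hFt : ∀ v, RiemannPkg k (Ft v)) (t₁ : ∀ e, Ft (S.src e)) (t₂ : ∀ e, Ft (S.tgt e))
    (ht₁ : ∀ e, (S.s₁ e).ord (t₁ e) = 1) (ht₂ : ∀ e, (S.s₂ e).ord (t₂ e) = -1)
    (k₁ k₂ : ν → ℤ) (γ : ν → k) (hγ : ∀ e, γ e ≠ 0) :
    ∃ p : ∀ v, Ft v, (∀ v, p v ≠ 0) ∧
      ∀ e, IsValueAt (S.s₁ e) (p (S.src e) / t₁ e ^ k₁ e) 1 ∧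
        IsValueAt (S.s₂ e) (p (S.tgt e) * t₂ e ^ k₂ e) (γ e) := by
  obtain ⟨p, hp0, hp⟩ := exists_tuple_ord S hFt t₁ t₂ ht₁ ht₂ k₁ k₂ γ hγ
  exact ⟨p, hp0, fun e => ⟨(hp e).1, (hp e).2.1⟩⟩

end Fermat.Agent.BR3.TorTuple
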