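import Mathlib
import Fermat.Agent.BR3.InvFiniteNode

/-!
# Program C (S36), moving lemma (C-ML), node (ML-a): the twisted node lemma

`N : Fact.NodeFact S₀ e u thick TU` the contract at a node `e` of a semistable setup, `y` a
function without poles in the tube of `e`, twisted integral at the two components of the node:
`c₁ • y ∈ O (src e)`, `c₂ • y ∈ O (tgt e)` with `c₂ = c₁ * thick ^ (-n) * κ`, `κ` a unit of `A`.

Normalising parameters: `ū := N.gaugeSrc.T = res_src u` (order `1` at `s₁ e`),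
`T̄ := N.gaugeTgt.T = res_tgt (thick⁻¹ • u)` (order `-1` at `s₂ e`).

* `twisted_node` : there is `l` with `(res_src (c₁ • y) * ū ^ (-n)) (s₁ e) = l`,
  `(res_tgt (c₂ • y) * T̄ ^ (-n)) (s₂ e) = res κ * l`, and `l ≠ 0` only if `y` has no zero in the
  tube;
* `twisted_node_ord_src`, `twisted_node_ord_tgt` : the orders of the two residues are at least
  `n`, `-n`;
* `twisted_node_div` : the divided form: for `p₁`, `p₂` with exact orders `n`, `-n` and matched
  leading coefficients, `res_src (c₁ • y) / p₁` and `res_tgt (c₂ • y) / p₂` are regular at the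
  branches with equal values.
-/

set_option autoImplicit false

namespace Fermat.Agent.BR3.TwistedNode

open AlgebraicCurve IsLocalRing Fermat.Agent.Red Fermat.Agent.BR.SS Fermat.Agent.BR.Fact
  Fermat.Agent.BR.Refine Fermat.Agent.BR3.InvFiniteMoment Fermat.Agent.BR3.InvFiniteNode

/-! ### powers in a linearly ordered group with zero -/

section Pow

variable {Γ₀ : Type*} [LinearOrderedCommGroupWithZero Γ₀]

theorem zpow_lt_one_of_pos {x : Γ₀} (hx0 : 0 < x) (hx1 : x < 1) {j : ℤ} (hj : 0 < j) :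
    x ^ j < 1 := by
  obtain ⟨m, rfl⟩ := Int.eq_ofNat_of_zero_le hj.le
  rw [zpow_natCast]
  have hm : m ≠ 0 := by
    rintro rfl
    exact lt_irrefl _ hj
  exact pow_lt_one₀ hx0.le hx1 hm

theorem one_lt_zpow_of_neg {x : Γ₀} (hx0 : 0 < x) (hx1 : x < 1) {j : ℤ} (hj : j < 0) :
    1 < x ^ j := by
  have h1 : x ^ (-j) < 1 := zpow_lt_one_of_pos hx0 hx1 (by omega)
  rw [zpow_neg] at h1
  have h2 : 0 < x ^ j := zpow_pos hx0 j
  by_contra hcon
  rw [not_lt] at hcon
  have h3 : 1 ≤ (x ^ j)⁻¹ := (one_le_inv₀ h2).2 hcon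
  exact absurd h1 (not_lt.2 h3)

theorem zpow_lt_zpow_base {t x : Γ₀} (ht0 : 0 < t) (htx : t < x) {j : ℤ} (hj : 0 < j) :
    t ^ j < x ^ j := by
  obtain ⟨m, rfl⟩ := Int.eq_ofNat_of_zero_le hj.le
  rw [zpow_natCast, zpow_natCast]
  have hm : m ≠ 0 := by
    rintro rfl
    exact lt_irrefl _ hj
  exact pow_lt_pow_left₀ htx ht0.le hm

/-- bounds for a product of positive powers of elements of the open annulus `t < x < 1` -/
theorem prod_bounds {α : Type*} (S : Finset α) (n : α → ℤ) (x : α → Γ₀) {t : Γ₀} (ht0 : 0 < t)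
    (hn : ∀ a ∈ S, 0 ≤ n a) (hx : ∀ a ∈ S, t < x a ∧ x a < 1) :
    (t ^ (∑ a ∈ S, n a) ≤ ∏ a ∈ S, x a ^ n a ∧ ∏ a ∈ S, x a ^ n a ≤ 1) ∧
      (0 < ∑ a ∈ S, n a → t ^ (∑ a ∈ S, n a) < ∏ a ∈ S, x a ^ n a ∧
        ∏ a ∈ S, x a ^ n a < 1) := by
  classical
  induction S using Finset.induction_on with
  | empty => simp
  | insert a S ha ih =>
    have hn' : ∀ b ∈ S, 0 ≤ n b := fun b hb => hn b (Finset.mem_insert_of_mem hb)
    have hx' : ∀ b ∈ S, t < x b ∧ x b < 1 := fun b hb => hx b (Finset.mem_insert_of_mem hb)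
    obtain ⟨⟨ih1, ih2⟩, ih3⟩ := ih hn' hx'
    have hna := hn a (Finset.mem_insert_self a S)
    obtain ⟨hxa1, hxa2⟩ := hx a (Finset.mem_insert_self a S)
    have hxa0 : 0 < x a := lt_trans ht0 hxa1
    have ht1 : t < 1 := lt_trans hxa1 hxa2
    have hS0 : 0 ≤ ∑ b ∈ S, n b := Finset.sum_nonneg hn'
    have hP0 : 0 < ∏ b ∈ S, x b ^ n b :=
      Finset.prod_pos fun b hb => zpow_pos (lt_trans ht0 (hx' b hb).1) _
    rw [Finset.sum_insert ha, Finset.prod_insert ha, zpow_add₀ ht0.ne']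
    rcases hna.lt_or_eq with hpos | hzero
    · have h1 : t ^ n a < x a ^ n a := zpow_lt_zpow_base ht0 hxa1 hpos
      have h2 : x a ^ n a < 1 := zpow_lt_one_of_pos hxa0 hxa2 hpos
      have h3 : t ^ n a * t ^ (∑ b ∈ S, n b) < x a ^ n a * ∏ b ∈ S, x b ^ n b :=
        mul_lt_mul h1 ih1 (zpow_pos ht0 _) (zpow_pos hxa0 _).le
      have h4 : x a ^ n a * ∏ b ∈ S, x b ^ n b < 1 := by
        calc x a ^ n a * ∏ b ∈ S, x b ^ n b ≤ x a ^ n a * 1 := by
              exact mul_le_mul_right ih2 _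
          _ = x a ^ n a := mul_one _
          _ < 1 := h2
      exact ⟨⟨h3.le, h4.le⟩, fun _ => ⟨h3, h4⟩⟩
    · rw [← hzero, zpow_zero, zpow_zero, one_mul, one_mul, zero_add]
      exact ⟨⟨ih1, ih2⟩, ih3⟩

theorem zpow_le_one_imp_nonneg {τ : Γ₀} (h0 : 0 < τ) (h1 : τ < 1) {j : ℤ} (h : τ ^ j ≤ 1) :
    0 ≤ j := by
  by_contra hj
  rw [not_le] at hj
  exact absurd h (not_le.2 (one_lt_zpow_of_neg h0 h1 hj))

theorem one_lt_zpow_imp_neg {τ : Γ₀} (h0 : 0 < τ) (h1 : τ < 1) {j : ℤ} (h : 1 < τ ^ j) :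
    j < 0 := by
  by_contra hj
  rw [not_lt] at hj
  rcases hj.lt_or_eq with hpos | hz
  · exact absurd (zpow_lt_one_of_pos h0 h1 hpos) (not_lt.2 h.le)
  · rw [← hz, zpow_zero] at h
    exact lt_irrefl _ h

theorem mul3_lt_one_left {a b c : Γ₀} (ha : a < 1) (hb : b ≤ 1) (hc : c ≤ 1) :
    a * b * c < 1 :=
  calc a * b * c ≤ a * 1 * 1 := mul_le_mul' (mul_le_mul' le_rfl hb) hc
    _ = a := by rw [mul_one, mul_one]
    _ < 1 := ha

theorem mul3_lt_one_right {a b c : Γ₀} (ha : a ≤ 1) (hb : b ≤ 1) (hc : c < 1) :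
    a * b * c < 1 :=
  calc a * b * c ≤ 1 * 1 * c := mul_le_mul' (mul_le_mul' ha hb) le_rfl
    _ = c := by rw [one_mul, one_mul]
    _ < 1 := hc

end Pow

/-! ### values read off from a normal form -/

section Gauge

variable {K : Type*} [Field K] {A : ValuationSubring K} {F : Type*} [Field F] [Algebra K F]
  {L : Type*} [Field L] [Algebra (ResidueField A) L] {u : F} {a : K}
  {O : ValuationSubring F} {res : O →+* L} {G : GaugeComp A u a O res}
  {Q : Place (ResidueField A) L} {y : F} {κ : K} {m : ℤ}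

/-- the coefficient of `T ^ n` when the exponent of the normal form is `n` -/
theorem nf_value_eq (h : IsNF G Q y κ m) (hT : G.T ≠ 0) (hκ : κ ∈ A) (hy : y ∈ O) {n : ℤ}
    (hmn : m = n) : IsValueAt Q (res ⟨y, hy⟩ * G.T ^ (-n)) (residue A ⟨κ, hκ⟩) := by
  obtain ⟨ε₁, hε, hr⟩ := h.res_eq hT hκ hy
  have e : res ⟨y, hy⟩ * G.T ^ (-n) =
      algebraMap (ResidueField A) L (residue A ⟨κ, hκ⟩) * res ⟨ε₁, hε.mem⟩ := by
    have h1 : G.T ^ n * G.T ^ (-n) = 1 := by
      rw [← zpow_add₀ hT, add_neg_cancel, zpow_zero]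
    rw [hr, hmn]
    calc algebraMap (ResidueField A) L (residue A ⟨κ, hκ⟩) * G.T ^ n * res ⟨ε₁, hε.mem⟩ *
          G.T ^ (-n)
        = algebraMap (ResidueField A) L (residue A ⟨κ, hκ⟩) * res ⟨ε₁, hε.mem⟩ *
          (G.T ^ n * G.T ^ (-n)) := by ring
      _ = _ := by rw [h1, mul_one]
  rw [e]
  have := (isValueAt_algebraMap Q (residue A ⟨κ, hκ⟩)).mul hε.2
  rwa [mul_one] at this

/-- the coefficient of `T ^ n` vanishes when the normal form has higher order -/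
theorem nf_value_zero_of_pos (h : IsNF G Q y κ m) (hT : G.T ≠ 0) (hκ : κ ∈ A) (hy : y ∈ O)
    {n : ℤ} (hpos : 0 < (m - n) * Q.ord G.T) : IsValueAt Q (res ⟨y, hy⟩ * G.T ^ (-n)) 0 := by
  obtain ⟨ε₁, hε, hr⟩ := h.res_eq hT hκ hy
  have e : res ⟨y, hy⟩ * G.T ^ (-n) =
      algebraMap (ResidueField A) L (residue A ⟨κ, hκ⟩) * G.T ^ (m - n) * res ⟨ε₁, hε.mem⟩ := by
    rw [hr, sub_eq_add_neg, zpow_add₀ hT]
    ring
  rw [e]
  have h0 : IsValueAt Q (G.T ^ (m - n)) 0 := by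
    apply isValueAt_zero_of_ord_pos
    rw [Place.ord_zpow]
    exact hpos
  have := ((isValueAt_algebraMap Q (residue A ⟨κ, hκ⟩)).mul h0).mul hε.2
  rwa [mul_zero, zero_mul] at this

/-- the residue vanishes when the constant of the normal form is small -/
theorem nf_value_zero_of_lt (h : IsNF G Q y κ m) (hT : G.T ≠ 0) (hκ : A.valuation κ < 1)
    (hy : y ∈ O) (n : ℤ) : IsValueAt Q (res ⟨y, hy⟩ * G.T ^ (-n)) 0 := by
  rw [h.res_eq_zero hT hκ hy, zero_mul]
  exact isValueAt_zero Q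

end Gauge

/-! ### the tube degree and the tube moment of a function without poles in the tube -/

section Node

variable {K : Type} {F : Type*} [Field K] [Field F] [Algebra K F]
  {A : ValuationSubring K} [IsAlgClosed (ResidueField A)]
  {ι₀ : Type} {Ft₀ : ι₀ → Type} [∀ v, Field (Ft₀ v)] [∀ v, Algebra (ResidueField A) (Ft₀ v)]
  {ν₀ : Type} {S₀ : SemistableSetup (F := F) A (residue A) ι₀ Ft₀ ν₀} {e : ν₀} {u : F}
  {thick : K} {TU : F → Prop}

/-- the tube degree and the tube moment of a divisor which is effective on the tube -/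
theorem tube_estimates (N : NodeFact S₀ e u thick TU) (X : Divisor K F)
    (hX : ∀ P ∈ tube S₀ e, 0 ≤ X P) :
    0 ≤ tdeg (tube S₀ e) X ∧
      (tdeg (tube S₀ e) X = 0 → tmom (tube S₀ e) u X = 1 ∧ ∀ P ∈ tube S₀ e, X P = 0) ∧
      (0 < tdeg (tube S₀ e) X →
        A.valuation thick ^ tdeg (tube S₀ e) X < A.valuation (tmom (tube S₀ e) u X) ∧
        A.valuation (tmom (tube S₀ e) u X) < 1) := by
  classical
  set S : Finset (Place K F) := X.support.filter (fun P => P ∈ tube S₀ e) with hSdef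
  have hS : ∀ P ∈ S, P ∈ tube S₀ e := fun P hP => (Finset.mem_filter.mp hP).2
  have hsum : tdeg (tube S₀ e) X = ∑ P ∈ S, X P := by
    unfold tdeg
    rw [Finsupp.sum, hSdef, Finset.sum_filter]
  have hprod : tmom (tube S₀ e) u X = ∏ P ∈ S, (-evalAt P u) ^ X P := by
    unfold tmom
    rw [Finsupp.prod, hSdef, Finset.prod_filter]
  have hnn : ∀ P ∈ S, 0 ≤ X P := fun P hP => hX P (hS P hP)
  have hval : A.valuation (tmom (tube S₀ e) u X) =
      ∏ P ∈ S, A.valuation (evalAt P u) ^ X P := by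
    rw [hprod, map_prod]
    exact Finset.prod_congr rfl fun P _ => by rw [map_zpow₀, Valuation.map_neg]
  have ht0 : 0 < A.valuation thick := by
    rw [pos_iff_ne_zero, ne_eq, map_eq_zero]
    exact N.thick_ne
  obtain ⟨-, hb2⟩ := prod_bounds S (fun P => X P) (fun P => A.valuation (evalAt P u)) ht0 hnn
    (fun P hP => ⟨N.thick_lt P (hS P hP), N.lt_one P (hS P hP)⟩)
  rw [← hsum, ← hval] at hb2
  refine ⟨?_, ?_, hb2⟩
  · rw [hsum]
    exact Finset.sum_nonneg hnn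
  · intro hd
    rw [hsum] at hd
    have hz : ∀ P ∈ S, X P = 0 := (Finset.sum_eq_zero_iff_of_nonneg hnn).1 hd
    refine ⟨?_, fun P hP => ?_⟩
    · rw [hprod]
      exact Finset.prod_eq_one fun P hP => by rw [hz P hP, zpow_zero]
    · by_cases hPS : P ∈ X.support
      · exact hz P (Finset.mem_filter.mpr ⟨hPS, hP⟩)
      · exact Finsupp.notMem_support_iff.mp hPS

/-- **(ML-a′), the twisted node lemma.** `y` a function with `div y ≥ D₀` on the tube of the node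
`e`, twisted integral at the two components: `c₁ • y ∈ O (src e)`, `c₂ • y ∈ O (tgt e)` with
`c₂ = c₁ * κ * thick ^ (-n) * (tmom D₀)⁻¹`, `|κ| = 1`.  Then the coefficient `l` of
`T_src ^ (n + tdeg D₀)` in `res_src (c₁ • y)` at `s₁ e` and the coefficient of `T_tgt ^ n` in
`res_tgt (c₂ • y)` at `s₂ e` exist, the second is `res κ * l`, and `l ≠ 0` only if `div y = D₀` on
the tube. -/
theorem twisted_node (N : NodeFact S₀ e u thick TU) (hthick : A.valuation thick < 1)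
    {y : F} (hy : y ≠ 0) {E : Divisor K F} (hE : ∀ P, E P = P.ord y) (D₀ : Divisor K F)
    (hD : ∀ P ∈ tube S₀ e, D₀ P ≤ P.ord y) (n : ℤ) {c₁ c₂ κ : K} (hc₁ : c₁ ≠ 0)
    (hκ : A.valuation κ = 1)
    (hc₂ : c₂ = c₁ * κ * thick ^ (-n) * (tmom (tube S₀ e) u D₀)⁻¹)
    (hm₁ : c₁ • y ∈ S₀.O (S₀.src e)) (hm₂ : c₂ • y ∈ S₀.O (S₀.tgt e)) :
    ∃ l : ResidueField A,
      IsValueAt (S₀.s₁ e) (S₀.resF (S₀.src e) (c₁ • y) *
        N.gaugeSrc.T ^ (-(n + tdeg (tube S₀ e) D₀))) l ∧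
      IsValueAt (S₀.s₂ e) (S₀.resF (S₀.tgt e) (c₂ • y) * N.gaugeTgt.T ^ (-n))
        (residue A ⟨κ, (A.valuation_le_one_iff κ).mp hκ.le⟩ * l) ∧
      (l ≠ 0 → ∀ P ∈ tube S₀ e, P.ord y = D₀ P) := by
  classical
  have hu : ∀ P ∈ tube S₀ e, evalAt P u ≠ 0 := fun P hP => N.tubeFact.val_ne P hP
  obtain ⟨b, c, hNF⟩ := exists_nodeNF N hy hE
  -- the effective part of `div y - D₀` on the tube
  have hX : ∀ P ∈ tube S₀ e, 0 ≤ (E - D₀) P := fun P hP => by
    rw [Finsupp.coe_sub, Pi.sub_apply, hE]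
    linarith [hD P hP]
  obtain ⟨hx0, hxzero, hxpos⟩ := tube_estimates N (E - D₀) hX
  have hEsum : E = D₀ + (E - D₀) := by abel
  have hd : tdeg (tube S₀ e) E = tdeg (tube S₀ e) D₀ + tdeg (tube S₀ e) (E - D₀) := by
    conv_lhs => rw [hEsum]
    exact tdeg_add _ _
  have hM : tmom (tube S₀ e) u E = tmom (tube S₀ e) u D₀ * tmom (tube S₀ e) u (E - D₀) := by
    conv_lhs => rw [hEsum]
    exact tmom_add hu _ _
  have hM₀ : tmom (tube S₀ e) u D₀ ≠ 0 := tmom_ne_zero hu D₀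
  have hκ0 : κ ≠ 0 := by
    intro h0
    rw [h0, map_zero] at hκ
    exact zero_ne_one hκ
  have hthick0 : thick ≠ 0 := N.thick_ne
  have hc₂0 : c₂ ≠ 0 := by
    rw [hc₂]
    exact mul_ne_zero (mul_ne_zero (mul_ne_zero hc₁ hκ0) (zpow_ne_zero _ hthick0))
      (inv_ne_zero hM₀)
  have NF1 := hNF.smul hc₁
  have NF2 := hNF.smul hc₂0
  have hκ₁A : c₁ * c ∈ A := NF1.mem_src_iff.mp hm₁
  have hκ₂A : c₂ * c * thick ^ b * tmom (tube S₀ e) u E ∈ A := NF2.mem_tgt_iff.mp hm₂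
  have hrel : c₂ * c * thick ^ b * tmom (tube S₀ e) u E =
      κ * (c₁ * c) * thick ^ (b - n) * tmom (tube S₀ e) u (E - D₀) := by
    have hz : thick ^ (b - n) = thick ^ b * thick ^ (-n) := by
      rw [sub_eq_add_neg, zpow_add₀ hthick0]
    rw [hc₂, hM, hz]
    field_simp
  have hτ0 : 0 < A.valuation thick := by
    rw [pos_iff_ne_zero, ne_eq, map_eq_zero]
    exact hthick0
  have hvrel : A.valuation (c₂ * c * thick ^ b * tmom (tube S₀ e) u E) =
      A.valuation (c₁ * c) * A.valuation thick ^ (b - n) *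
        A.valuation (tmom (tube S₀ e) u (E - D₀)) := by
    rw [hrel, map_mul, map_mul, map_mul, hκ, one_mul, map_zpow₀]
  have hv1 : A.valuation (c₁ * c) ≤ 1 := (A.valuation_le_one_iff _).mpr hκ₁A
  have hv2 : A.valuation (c₂ * c * thick ^ b * tmom (tube S₀ e) u E) ≤ 1 :=
    (A.valuation_le_one_iff _).mpr hκ₂A
  have hTs := T_src_ne_zero N
  have hTt := T_tgt_ne_zero N
  have hos : 0 < (S₀.s₁ e).ord N.gaugeSrc.T := N.inner_src
  have hot : (S₀.s₂ e).ord N.gaugeTgt.T < 0 := N.outer_tgt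
  rw [S₀.resF_of_mem hm₁, S₀.resF_of_mem hm₂]
  have hm1 : b + tdeg (tube S₀ e) E - (n + tdeg (tube S₀ e) D₀) =
      b - n + tdeg (tube S₀ e) (E - D₀) := by
    rw [hd]
    ring
  have hMX1 : A.valuation (tmom (tube S₀ e) u (E - D₀)) ≤ 1 := by
    rcases hx0.lt_or_eq with hpos | hz
    · exact (hxpos hpos).2.le
    · rw [(hxzero hz.symm).1, map_one]
  -- the target side vanishes as soon as one of the two factors is small
  have tgt_zero : (A.valuation (c₁ * c) < 1 ∨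
      A.valuation (tmom (tube S₀ e) u (E - D₀)) < 1) →
      IsValueAt (S₀.s₂ e) (S₀.res (S₀.tgt e) ⟨c₂ • y, hm₂⟩ * N.gaugeTgt.T ^ (-n)) 0 := by
    intro hlt
    rcases hv2.lt_or_eq with h2lt | h2eq
    · exact nf_value_zero_of_lt NF2.tgt hTt h2lt hm₂ n
    · have hgt : 1 < A.valuation thick ^ (b - n) := by
        by_contra hcon
        rw [not_lt] at hcon
        have h3 : A.valuation (c₂ * c * thick ^ b * tmom (tube S₀ e) u E) < 1 := by
          rw [hvrel]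
          rcases hlt with h | h
          · exact mul3_lt_one_left h hcon hMX1
          · exact mul3_lt_one_right hv1 hcon h
        exact absurd h2eq h3.ne
      have hbn : b - n < 0 := one_lt_zpow_imp_neg hτ0 hthick hgt
      exact nf_value_zero_of_pos NF2.tgt hTt hκ₂A hm₂ (mul_pos_of_neg_of_neg hbn hot)
  rcases hv1.lt_or_eq with h1lt | h1eq
  · -- the constant at the source is small
    refine ⟨0, nf_value_zero_of_lt NF1.src hTs h1lt hm₁ _, ?_, fun h => absurd rfl h⟩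
    rw [mul_zero]
    exact tgt_zero (Or.inl h1lt)
  · rcases hx0.lt_or_eq with hxpos' | hxz
    · -- extra zeros in the tube
      obtain ⟨hlow, hup⟩ := hxpos hxpos'
      have hpos : 0 < b - n + tdeg (tube S₀ e) (E - D₀) := by
        by_contra hcon
        rw [not_lt] at hcon
        have h3 : 1 ≤ A.valuation thick ^ (b - n + tdeg (tube S₀ e) (E - D₀)) := by
          rcases hcon.lt_or_eq with h | h
          · exact (one_lt_zpow_of_neg hτ0 hthick h).le
          · rw [h, zpow_zero]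
        have h4 : 1 < A.valuation (c₂ * c * thick ^ b * tmom (tube S₀ e) u E) := by
          rw [hvrel, h1eq, one_mul]
          calc 1 ≤ A.valuation thick ^ (b - n + tdeg (tube S₀ e) (E - D₀)) := h3
            _ = A.valuation thick ^ (b - n) *
                A.valuation thick ^ tdeg (tube S₀ e) (E - D₀) := zpow_add₀ hτ0.ne' _ _
            _ < A.valuation thick ^ (b - n) *
                A.valuation (tmom (tube S₀ e) u (E - D₀)) :=
              mul_lt_mul_of_pos_left hlow (zpow_pos hτ0 _)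
        exact absurd hv2 (not_le.2 h4)
      refine ⟨0, ?_, ?_, fun h => absurd rfl h⟩
      · refine nf_value_zero_of_pos NF1.src hTs hκ₁A hm₁ ?_
        rw [hm1]
        exact mul_pos hpos hos
      · rw [mul_zero]
        exact tgt_zero (Or.inr hup)
    · -- `div y = D₀` on the tube
      obtain ⟨hMX, hXz⟩ := hxzero hxz.symm
      have hv2' : A.valuation (c₂ * c * thick ^ b * tmom (tube S₀ e) u E) =
          A.valuation thick ^ (b - n) := by
        rw [hvrel, h1eq, hMX, map_one, one_mul, mul_one]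
      have hbn : 0 ≤ b - n := zpow_le_one_imp_nonneg hτ0 hthick (hv2' ▸ hv2)
      rcases hbn.lt_or_eq with hgt | heq
      · refine ⟨0, ?_, ?_, fun h => absurd rfl h⟩
        · refine nf_value_zero_of_pos NF1.src hTs hκ₁A hm₁ ?_
          rw [hm1, ← hxz, add_zero]
          exact mul_pos hgt hos
        · rw [mul_zero]
          refine nf_value_zero_of_lt NF2.tgt hTt ?_ hm₂ n
          rw [hv2']
          exact zpow_lt_one_of_pos hτ0 hthick hgt
      · have hbn' : b = n := by omega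
        refine ⟨residue A ⟨c₁ * c, hκ₁A⟩, ?_, ?_, fun _ P hP => ?_⟩
        · exact nf_value_eq NF1.src hTs hκ₁A hm₁ (by rw [hd, ← hxz]; omega)
        · have hκ₂eq : c₂ * c * thick ^ b * tmom (tube S₀ e) u E = κ * (c₁ * c) := by
            rw [hrel, ← heq, zpow_zero, hMX, mul_one, mul_one]
          have e' : residue A ⟨κ, (A.valuation_le_one_iff κ).mp hκ.le⟩ *
              residue A ⟨c₁ * c, hκ₁A⟩ =
              residue A ⟨c₂ * c * thick ^ b * tmom (tube S₀ e) u E, hκ₂A⟩ := by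
            rw [← map_mul]
            congr 1
            exact Subtype.ext hκ₂eq.symm
          rw [e']
          exact nf_value_eq NF2.tgt hTt hκ₂A hm₂ hbn'
        · have h0 := hXz P hP
          rw [Finsupp.coe_sub, Pi.sub_apply, hE, sub_eq_zero] at h0
          exact h0


/-- a function regular at `Q` after division by `T ^ n'` has order at least `n' * ord T` -/
theorem le_ord_of_isValueAt {k L : Type*} [Field k] [Field L] [Algebra k L] {Q : Place k L}
    {h T : L} (hT : T ≠ 0) {n' : ℤ} {l : k} (hv : IsValueAt Q (h * T ^ (-n')) l) :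
    h = 0 ∨ n' * Q.ord T ≤ Q.ord h := by
  by_cases h0 : h = 0
  · exact Or.inl h0
  right
  have hT' : T ^ (-n') ≠ 0 := zpow_ne_zero _ hT
  have h1 := ((Q.adicValuation_le_one_iff).mp hv.adicValuation_le_one).resolve_left
    (mul_ne_zero h0 hT')
  rw [Place.ord_mul _ h0 hT', Place.ord_zpow] at h1
  linarith

theorem residue_ne_zero_of_valuation_eq_one {κ : K} (hκ : A.valuation κ = 1) :
    residue A ⟨κ, (A.valuation_le_one_iff κ).mp hκ.le⟩ ≠ 0 := by
  intro h0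
  rw [residue_eq_zero_iff] at h0
  have := (A.valuation_lt_one_iff _).mp h0
  rw [hκ] at this
  exact lt_irrefl _ this

/-- the order at `s₁ e` of the residue at the source -/
theorem twisted_node_ord_src (N : NodeFact S₀ e u thick TU) (hthick : A.valuation thick < 1)
    {y : F} (hy : y ≠ 0) {E : Divisor K F} (hE : ∀ P, E P = P.ord y) (D₀ : Divisor K F)
    (hD : ∀ P ∈ tube S₀ e, D₀ P ≤ P.ord y) (n : ℤ) {c₁ c₂ κ : K} (hc₁ : c₁ ≠ 0)
    (hκ : A.valuation κ = 1)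
    (hc₂ : c₂ = c₁ * κ * thick ^ (-n) * (tmom (tube S₀ e) u D₀)⁻¹)
    (hm₁ : c₁ • y ∈ S₀.O (S₀.src e)) (hm₂ : c₂ • y ∈ S₀.O (S₀.tgt e)) :
    S₀.resF (S₀.src e) (c₁ • y) = 0 ∨
      (n + tdeg (tube S₀ e) D₀) * (S₀.s₁ e).ord N.gaugeSrc.T ≤
        (S₀.s₁ e).ord (S₀.resF (S₀.src e) (c₁ • y)) := by
  obtain ⟨l, hl, -, -⟩ := twisted_node N hthick hy hE D₀ hD n hc₁ hκ hc₂ hm₁ hm₂
  exact le_ord_of_isValueAt (T_src_ne_zero N) hl

/-- the order at `s₂ e` of the residue at the target -/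
theorem twisted_node_ord_tgt (N : NodeFact S₀ e u thick TU) (hthick : A.valuation thick < 1)
    {y : F} (hy : y ≠ 0) {E : Divisor K F} (hE : ∀ P, E P = P.ord y) (D₀ : Divisor K F)
    (hD : ∀ P ∈ tube S₀ e, D₀ P ≤ P.ord y) (n : ℤ) {c₁ c₂ κ : K} (hc₁ : c₁ ≠ 0)
    (hκ : A.valuation κ = 1)
    (hc₂ : c₂ = c₁ * κ * thick ^ (-n) * (tmom (tube S₀ e) u D₀)⁻¹)
    (hm₁ : c₁ • y ∈ S₀.O (S₀.src e)) (hm₂ : c₂ • y ∈ S₀.O (S₀.tgt e)) :
    S₀.resF (S₀.tgt e) (c₂ • y) = 0 ∨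
      n * (S₀.s₂ e).ord N.gaugeTgt.T ≤ (S₀.s₂ e).ord (S₀.resF (S₀.tgt e) (c₂ • y)) := by
  obtain ⟨l, -, hl, -⟩ := twisted_node N hthick hy hE D₀ hD n hc₁ hκ hc₂ hm₁ hm₂
  exact le_ord_of_isValueAt (T_tgt_ne_zero N) hl

/-- **(ML-a′), divided form**: for `p₁`, `p₂` with exact orders and matched leading
coefficients at the two branches, the quotients of the twisted residues by `p₁`, `p₂` are
regular at the branches with EQUAL values (the `Match` clause of `gluedRR`); the common value is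
nonzero only if `div y = D₀` on the tube. -/
theorem twisted_node_div (N : NodeFact S₀ e u thick TU) (hthick : A.valuation thick < 1)
    {y : F} (hy : y ≠ 0) {E : Divisor K F} (hE : ∀ P, E P = P.ord y) (D₀ : Divisor K F)
    (hD : ∀ P ∈ tube S₀ e, D₀ P ≤ P.ord y) (n : ℤ) {c₁ c₂ κ : K} (hc₁ : c₁ ≠ 0)
    (hκ : A.valuation κ = 1)
    (hc₂ : c₂ = c₁ * κ * thick ^ (-n) * (tmom (tube S₀ e) u D₀)⁻¹)
    (hm₁ : c₁ • y ∈ S₀.O (S₀.src e)) (hm₂ : c₂ • y ∈ S₀.O (S₀.tgt e))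
    {p₁ : Ft₀ (S₀.src e)} {p₂ : Ft₀ (S₀.tgt e)} {α : ResidueField A} (hα : α ≠ 0)
    (hp₁ : IsValueAt (S₀.s₁ e) (p₁ * N.gaugeSrc.T ^ (-(n + tdeg (tube S₀ e) D₀))) α)
    (hp₂ : IsValueAt (S₀.s₂ e) (p₂ * N.gaugeTgt.T ^ (-n))
      (residue A ⟨κ, (A.valuation_le_one_iff κ).mp hκ.le⟩ * α)) :
    ∃ c : ResidueField A,
      IsValueAt (S₀.s₁ e) (S₀.resF (S₀.src e) (c₁ • y) / p₁) c ∧
      IsValueAt (S₀.s₂ e) (S₀.resF (S₀.tgt e) (c₂ • y) / p₂) c ∧
      (c ≠ 0 → ∀ P ∈ tube S₀ e, P.ord y = D₀ P) := by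
  obtain ⟨l, hl₁, hl₂, hl₃⟩ := twisted_node N hthick hy hE D₀ hD n hc₁ hκ hc₂ hm₁ hm₂
  have hρ := residue_ne_zero_of_valuation_eq_one (A := A) hκ
  have hTs : N.gaugeSrc.T ^ (-(n + tdeg (tube S₀ e) D₀)) ≠ 0 := zpow_ne_zero _ (T_src_ne_zero N)
  have hTt : N.gaugeTgt.T ^ (-n) ≠ 0 := zpow_ne_zero _ (T_tgt_ne_zero N)
  have hp₁0 : p₁ ≠ 0 := by
    rintro rfl
    rw [zero_mul] at hp₁
    exact hα ((isValueAt_zero _).unique hp₁).symm
  have hp₂0 : p₂ ≠ 0 := by
    rintro rfl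
    rw [zero_mul] at hp₂
    exact (mul_ne_zero hρ hα) ((isValueAt_zero _).unique hp₂).symm
  refine ⟨l * α⁻¹, ?_, ?_, fun hc => hl₃ fun h0 => hc (by rw [h0, zero_mul])⟩
  · have e1 : S₀.resF (S₀.src e) (c₁ • y) / p₁ =
        (S₀.resF (S₀.src e) (c₁ • y) * N.gaugeSrc.T ^ (-(n + tdeg (tube S₀ e) D₀))) *
          (p₁ * N.gaugeSrc.T ^ (-(n + tdeg (tube S₀ e) D₀)))⁻¹ := by
      field_simp
    rw [e1]
    exact hl₁.mul (isValueAt_inv_of_ne hp₁ hα)
  · have e2 : S₀.resF (S₀.tgt e) (c₂ • y) / p₂ =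
        (S₀.resF (S₀.tgt e) (c₂ • y) * N.gaugeTgt.T ^ (-n)) *
          (p₂ * N.gaugeTgt.T ^ (-n))⁻¹ := by
      field_simp
    have e3 : l * α⁻¹ = (residue A ⟨κ, (A.valuation_le_one_iff κ).mp hκ.le⟩ * l) *
        (residue A ⟨κ, (A.valuation_le_one_iff κ).mp hκ.le⟩ * α)⁻¹ := by
      field_simp
    rw [e2, e3]
    exact hl₂.mul (isValueAt_inv_of_ne hp₂ (mul_ne_zero hρ hα))


end Node

end Fermat.Agent.BR3.TwistedNode
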