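import Mathlib
import Fermat.Agent.BR3.TorPZ
import Fermat.Agent.BR3.TorTuple
import Fermat.Agent.BR3.TwistedNode

/-!
# Program C (S36), node (C-ML) moving lemma: prescribed tube zeros from the node contracts

`S` a semistable setup with node contracts `N e : Fact.NodeFact S e (u e) (thick e) (TU e)` whose
annulus coordinates have residues with simple zeros at the two branches, `|thick e| < 1`.

* `nodePrescribed` : the node lemma with prescribed tube zeros (`TorPZ.NodePrescribed`) for the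
  parameters `N.gaugeSrc.T`, `N.gaugeTgt.T`, from `TwistedNode.twisted_node` with trivial twist;
* `pz` : **prescribed tube zeros** `TorPZDef.PZ S u thick` (`TorPZ.pz_of` with
  `TorTuple.exists_tuple`).
-/

set_option autoImplicit false

namespace Fermat.Agent.BR3.TorPZFinal

open AlgebraicCurve IsLocalRing Fermat.Agent.Red Fermat.Agent.BR.SS Fermat.Agent.BR.Fact
  Fermat.Agent.BR.Refine Fermat.Agent.BR.InertiaRed Fermat.Agent.BR3.InvFiniteMoment
  Fermat.Agent.BR3.InvFiniteNode Fermat.Agent.BR3.InvFiniteFlow Fermat.Agent.BR3.TorPZDef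
  Fermat.Agent.BR3.TorPZ

variable {K : Type} {F : Type*} [Field K] [Field F] [Algebra K F]
  {A : ValuationSubring K} [IsAlgClosed (ResidueField A)]
  {ι : Type} {Ft : ι → Type} [∀ v, Field (Ft v)] [∀ v, Algebra (ResidueField A) (Ft v)]
  {ν : Type} {S : SemistableSetup (F := F) A (residue A) ι Ft ν}

/-- The node lemma with prescribed tube zeros, from the twisted node lemma with trivial twist. -/
theorem nodePrescribed {e : ν} {u : F} {thick : K} {TU : F → Prop}
    (N : NodeFact S e u thick TU) (hthick : A.valuation thick < 1) :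
    NodePrescribed S e u thick N.gaugeSrc.T N.gaugeTgt.T := by
  intro y hy E hE h₁ h₂ Z _ hZE k₂ hk₂
  have hu : ∀ P ∈ tube S e, evalAt P u ≠ 0 := fun P hP => N.tubeFact.val_ne P hP
  have hM0 : tmom (tube S e) u Z ≠ 0 := tmom_ne_zero hu Z
  have ht0 : thick ≠ 0 := N.thick_ne
  have hv0 : A.valuation thick ≠ 0 := (Valuation.ne_zero_iff _).mpr ht0
  have hκ : A.valuation (thick ^ (-k₂) * tmom (tube S e) u Z) = 1 := by
    rw [map_mul, map_zpow₀, hk₂, ← zpow_add₀ hv0, neg_add_cancel, zpow_zero]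
  have hc₂ : (1 : K) = 1 * (thick ^ (-k₂) * tmom (tube S e) u Z) * thick ^ (-(-k₂)) *
      (tmom (tube S e) u Z)⁻¹ := by
    rw [neg_neg, one_mul, mul_assoc, mul_assoc, mul_comm (tmom (tube S e) u Z),
      mul_assoc, inv_mul_cancel₀ hM0, mul_one, ← zpow_add₀ ht0, neg_add_cancel, zpow_zero]
  have hm₁ : (1 : K) • y ∈ S.O (S.src e) := by rwa [one_smul]
  have hm₂ : (1 : K) • y ∈ S.O (S.tgt e) := by rwa [one_smul]
  obtain ⟨l, hl1, hl2, hl3⟩ := TwistedNode.twisted_node N hthick hy hE Z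
    (fun P hP => by rw [← hE]; exact hZE P hP) (-k₂) one_ne_zero hκ hc₂ hm₁ hm₂
  rw [one_smul] at hl1 hl2
  refine ⟨l, ?_, ?_, fun hl P hP => ?_⟩
  · have e1 : S.resF (S.src e) y / N.gaugeSrc.T ^ (tdeg (tube S e) Z - k₂) =
        S.resF (S.src e) y * N.gaugeSrc.T ^ (-(-k₂ + tdeg (tube S e) Z)) := by
      rw [div_eq_mul_inv, ← zpow_neg]
      congr 2
      ring
    rw [e1]
    exact hl1
  · rw [neg_neg] at hl2
    rw [resOf_of_mem A ((A.valuation_le_one_iff _).mp hκ.le)]
    exact hl2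
  · rw [hE]
    exact hl3 hl P hP

/-- **Prescribed tube zeros.** -/
theorem pz [Fintype ι] [Fintype ν] (hF : RiemannPkg K F)
    (hFt : ∀ v, RiemannPkg (ResidueField A) (Ft v))
    (hg : (genusFF K F : ℤ) =
      ∑ v, (genusFF (ResidueField A) (Ft v) : ℤ) + Fintype.card ν - Fintype.card ι + 1)
    (u : ν → F) (thick : ν → K) (TU : ν → F → Prop)
    (N : ∀ e, NodeFact S e (u e) (thick e) (TU e))
    (hsrc : ∀ e (h : u e ∈ S.O (S.src e)),
      (S.s₁ e).ord (S.res (S.src e) ⟨u e, h⟩) = 1)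
    (htgt : ∀ e (h : thick e • (u e)⁻¹ ∈ S.O (S.tgt e)),
      (S.s₂ e).ord (S.res (S.tgt e) ⟨thick e • (u e)⁻¹, h⟩) = 1)
    (hthick : ∀ e, A.valuation (thick e) < 1) : PZ S u thick :=
  pz_of hF hFt hg u thick (fun e => (N e).thick_ne) (fun e => (N e).gaugeSrc.T)
    (fun e => (N e).gaugeTgt.T) (fun e => ord_T_src (N e) (hsrc e))
    (fun e => ord_T_tgt (N e) (htgt e)) (fun e => nodePrescribed (N e) (hthick e))
    (fun k₁ k₂ γ hγ => TorTuple.exists_tuple S hFt _ _ (fun e => ord_T_src (N e) (hsrc e))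
      (fun e => ord_T_tgt (N e) (htgt e)) k₁ k₂ γ hγ)

end Fermat.Agent.BR3.TorPZFinal
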