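import Mathlib
import Fermat.Agent.BR3.CircleN.Chart
import Fermat.Agent.BR3.InvFinite
import Fermat.Agent.BR3.TorPZFinal
import Fermat.Agent.BR3.BalOfPZ
import Fermat.Agent.BR3.TorGoodOfBal

/-!
# Program C (S36), node (I7-FACT): from annulus charts to the analytic hypotheses of (A′)

`S` a semistable setup with an annulus chart `ch e : CircleN.AnnulusChartN S e` at every node.

* `nodeFact`, `hsrc`, `htgt`, `hthick` : the node contracts `Fact.NodeFact` and the hypotheses
  "simple zeros at the two branches", "`|thick| < 1`" in the shapes of `BR3/InvFinite`,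
  `BR3/TorPZFinal`, `BR3/BalOfPZ`;
* `radiusAttained` : `TorPZDef.RadiusAttained` (from the bijection of the chart);
* `pz_of_charts` : prescribed tube zeros `TorPZDef.PZ`;
* `exists_smul_mem_natSub_of_charts` : **A2 (INV ⇒ NAT)** from the charts;
* `torGood_of_charts_of_gauss` : **the moving lemma** `TorGlue.TorGood S m` from the charts and
  prescribed Gauss norms.
-/

set_option autoImplicit false

namespace Fermat.Agent.BR3.ChartFacts

open AlgebraicCurve IsLocalRing Fermat.Agent.Red Fermat.Agent.BR.SS Fermat.Agent.BR.Fact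
  Fermat.Agent.BR.Refine Fermat.Agent.BR.Circle Fermat.Agent.BR.InertiaRed
  Fermat.Agent.BR3.CircleN Fermat.Agent.BR3.TorPZDef Fermat.Agent.BR3.InvFiniteUnit
  Fermat.Agent.BR2.Filt

variable {K : Type} {F : Type*} [Field K] [Field F] [Algebra K F]
  {A : ValuationSubring K} [IsAlgClosed (ResidueField A)]
  {ι : Type} {Ft : ι → Type} [∀ v, Field (Ft v)] [∀ v, Algebra (ResidueField A) (Ft v)]
  {ν : Type} {S : SemistableSetup (F := F) A (residue A) ι Ft ν}
  (ch : ∀ e, AnnulusChartN S e)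

/-- the node contracts of the charts -/
theorem nodeFact (e : ν) : NodeFact S e (ch e).u (ch e).thick (NodeUnit S e) := (ch e).nodeFact

theorem hsrc (e : ν) (h : (ch e).u ∈ S.O (S.src e)) :
    (S.s₁ e).ord (S.res (S.src e) ⟨(ch e).u, h⟩) = 1 := (ch e).ord_src

theorem htgt (e : ν) (h : (ch e).thick • ((ch e).u)⁻¹ ∈ S.O (S.tgt e)) :
    (S.s₂ e).ord (S.res (S.tgt e) ⟨(ch e).thick • ((ch e).u)⁻¹, h⟩) = 1 := (ch e).ord_tgt

omit [IsAlgClosed (ResidueField A)] in
theorem hthick (e : ν) : A.valuation (ch e).thick < 1 := (ch e).thick_lt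

omit [IsAlgClosed (ResidueField A)] in
/-- every radius of the annulus is attained -/
theorem radiusAttained :
    RadiusAttained S (fun e => (ch e).u) (fun e => (ch e).thick) := by
  intro e c h1 h2
  obtain ⟨P, ⟨hP, hval⟩, -⟩ := (ch e).bij c h1 h2
  exact ⟨P, hP, evalAt_eq_of_isValueAt hval⟩

/-- **Prescribed tube zeros** from the charts. -/
theorem pz_of_charts [Fintype ι] [Fintype ν] (hF : RiemannPkg K F)
    (hFt : ∀ v, RiemannPkg (ResidueField A) (Ft v))
    (hg : (genusFF K F : ℤ) =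
      ∑ v, (genusFF (ResidueField A) (Ft v) : ℤ) + Fintype.card ν - Fintype.card ι + 1) :
    PZ S (fun e => (ch e).u) (fun e => (ch e).thick) :=
  TorPZFinal.pz hF hFt hg _ _ _ (nodeFact ch) (hsrc ch) (htgt ch) (hthick ch)

/-- **A2 (INV ⇒ NAT)** from the charts. -/
theorem exists_smul_mem_natSub_of_charts [Fintype ι] [Fintype ν] [IsAlgClosed K]
    (hF : RiemannPkg K F) (hFt : ∀ v, RiemannPkg (ResidueField A) (Ft v))
    (ϖ : K) (hϖ0 : ϖ ≠ 0) (hϖ : A.valuation ϖ < 1) (t : ν → ℕ) (ht0 : ∀ e, 0 < t e)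
    (ht : ∀ e, A.valuation (ch e).thick = A.valuation ϖ ^ t e) :
    ∃ Δ : ℕ, 0 < Δ ∧ ∀ m : ℕ, (m : ResidueField A) ≠ 0 →
      ∀ g : SemilinearAut K F, TrivialAction S (fun e => (ch e).u) g →
      ∀ c : K, c ^ m = ϖ → IsPrimitiveRoot (resOf A (SemilinearAut.baseAut g c / c)) m →
      ∀ x : Pic0 K F, m • x = 0 → g • x = x → Δ • x ∈ natSub S m :=
  InvFinite.exists_smul_mem_natSub_of_fixed S hF hFt _ _ _ (nodeFact ch) (hsrc ch) (htgt ch)
    ϖ hϖ0 hϖ t ht0 ht

include ch in
/-- **The moving lemma** from the charts and prescribed Gauss norms. -/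
theorem torGood_of_charts_of_gauss [Fintype ι] [Fintype ν] [IsAlgClosed K]
    (hA : IsRankOne A) (hF : RiemannPkg K F) (hFt : ∀ v, RiemannPkg (ResidueField A) (Ft v))
    (hg : (genusFF K F : ℤ) =
      ∑ v, (genusFF (ResidueField A) (Ft v) : ℤ) + Fintype.card ν - Fintype.card ι + 1)
    (hgauss : ∀ c : ι → K, (∀ v, c v ≠ 0) → ∃ G : F, G ≠ 0 ∧ ∀ v, S.resF v (c v • G) ≠ 0)
    {m : ℕ} (hm : m ≠ 0) : TorGlue.TorGood S m :=
  TorGoodOfBal.torGood_of_balTube (nodeFact ch) hF
    (BalOfPZ.balTube_of_pz (nodeFact ch) hA hF (hthick ch) hgauss (pz_of_charts ch hF hFt hg)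
      (radiusAttained ch)) hm
    (fun x => IsAlgClosed.exists_pow_nat_eq x (Nat.pos_of_ne_zero hm)) (hthick ch)
    (fun e => InvFiniteFlow.ord_T_src (nodeFact ch e) (hsrc ch e))

end Fermat.Agent.BR3.ChartFacts
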