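import Mathlib
import Fermat.Agent.BR.SS.WeakApprox
import Fermat.Agent.Red.Setup

/-!
# Program C (S36), node (C-ML), piece (ML-c'): prescribed Gauss norms

`S` a semistable setup with finitely many components over a rank one valuation ring `A` of `K`.
For nonzero constants `c v : K` there is a function `G ≠ 0` such that `c v • G` is a unit of the
valuation ring of every component `v` (Artin–Whaples: the "Gauss norms" `|G|_v = |c v|⁻¹` can be
prescribed independently).

* `valuation_algebraMap_lt_one_iff` : on constants the valuation of a component is the valuation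
  of `A`;
* `exists_pow_bound` : rank one: `r * a ^ n` is a non-unit of `A` for `n` large (`|a| < 1`);
* `exists_smul_pow_lt` : for a non-unit `x` of `O v`, `r • x ^ n` is a non-unit for `n` large;
* `exists_gauss` : the statement.
-/

set_option autoImplicit false

namespace Fermat.Agent.BR3.TorGauss

open AlgebraicCurve Fermat.Agent.Red Fermat.Agent.BR.SS

variable {K F k : Type*} [Field K] [Field F] [Algebra K F] [Field k]
  {A : ValuationSubring K} {π : A →+* k} {ι : Type*} {Ft : ι → Type*}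
  [∀ v, Field (Ft v)] [∀ v, Algebra k (Ft v)] {ν : Type*}
  (S : SemistableSetup (F := F) A π ι Ft ν)

/-- On constants the valuation of the component `v` is the valuation of `A`. -/
theorem valuation_algebraMap_lt_one_iff (v : ι) (t : K) :
    (S.O v).valuation (algebraMap K F t) < 1 ↔ A.valuation t < 1 := by
  rcases eq_or_ne t 0 with rfl | ht
  · simp
  have ht' : algebraMap K F t ≠ 0 := (map_ne_zero (algebraMap K F)).mpr ht
  have h1 : (S.O v).valuation (algebraMap K F t) ≠ 0 := ((S.O v).valuation.ne_zero_iff).mpr ht'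
  have h2 : A.valuation t ≠ 0 := (A.valuation.ne_zero_iff).mpr ht
  rw [← not_le, ← not_le, ← inv_le_one₀ (zero_lt_iff.mpr h1), ← inv_le_one₀ (zero_lt_iff.mpr h2),
    ← map_inv₀, ← map_inv₀, ← map_inv₀, (S.O v).valuation_le_one_iff, A.valuation_le_one_iff,
    S.algebraMap_mem_iff v]

/-- Rank one: `r * a ^ n` is a non-unit of `A` for `n` large. -/
theorem exists_pow_bound (hA : IsRankOne A) {r a : K} (hr : r ≠ 0)
    (ha : A.valuation a < 1) : ∃ n₀ : ℕ, ∀ n, n₀ ≤ n → A.valuation (r * a ^ n) < 1 := by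
  have haA : a ∈ A := (A.valuation_le_one_iff a).mp ha.le
  -- a bound `n₁` with `|r a ^ n₁| ≤ 1`
  obtain ⟨n₁, hn₁⟩ : ∃ n₁ : ℕ, A.valuation (r * a ^ n₁) ≤ 1 := by
    by_cases hrA : r ∈ A
    · exact ⟨0, by rw [pow_zero, mul_one]; exact (A.valuation_le_one_iff r).mpr hrA⟩
    · have hri : r⁻¹ ∈ A := (A.mem_or_inv_mem r).resolve_left hrA
      have hnu : ¬ IsUnit (⟨a, haA⟩ : A) := by
        intro hu
        have := (A.valuation_eq_one_iff ⟨a, haA⟩).mp hu
        exact ha.ne this
      have hb0 : (⟨r⁻¹, hri⟩ : A) ≠ 0 := by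
        intro h
        have := congrArg Subtype.val h
        exact inv_ne_zero hr this
      obtain ⟨n, t, ht⟩ := hA ⟨a, haA⟩ hnu ⟨r⁻¹, hri⟩ hb0
      refine ⟨n, ?_⟩
      have ht' : a ^ n = r⁻¹ * (t : K) := by
        have := congrArg Subtype.val ht
        simpa using this
      rw [ht', ← mul_assoc, mul_inv_cancel₀ hr, one_mul]
      exact (A.valuation_le_one_iff _).mpr t.2
  refine ⟨n₁ + 1, fun n hn => ?_⟩
  obtain ⟨m, rfl⟩ : ∃ m, n = n₁ + (m + 1) := ⟨n - n₁ - 1, by omega⟩
  rw [pow_add, ← mul_assoc, map_mul]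
  have h1 : A.valuation (a ^ (m + 1)) < 1 := by
    rw [map_pow]
    exact pow_lt_one₀ zero_le ha (Nat.succ_ne_zero m)
  calc A.valuation (r * a ^ n₁) * A.valuation (a ^ (m + 1))
      ≤ 1 * A.valuation (a ^ (m + 1)) := by gcongr
    _ = A.valuation (a ^ (m + 1)) := one_mul _
    _ < 1 := h1

/-- For a nonzero non-unit `x` of the component `v` and a nonzero constant `r`, the function
`r • x ^ n` is a non-unit of the component for `n` large. -/
theorem exists_smul_pow_lt (hA : IsRankOne A) (v : ι) {x : F} (hx0 : x ≠ 0)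
    (hx : (S.O v).valuation x < 1) {r : K} (hr : r ≠ 0) :
    ∃ n₀ : ℕ, ∀ n, n₀ ≤ n → (S.O v).valuation (r • x ^ n) < 1 := by
  obtain ⟨d, hd0, hdx, hres⟩ := S.exists_smul_mem v hx0
  -- `w := d • x` is a unit of `O v`
  have hw1 : (S.O v).valuation (d • x) = 1 := by
    have hinv := S.inv_mem_of_resF_ne_zero hres
    have h1 : (S.O v).valuation (d • x) ≤ 1 := ((S.O v).valuation_le_one_iff _).mpr hdx
    have h2 : (S.O v).valuation (d • x)⁻¹ ≤ 1 := ((S.O v).valuation_le_one_iff _).mpr hinv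
    rw [map_inv₀] at h2
    have h0 : (S.O v).valuation (d • x) ≠ 0 :=
      ((S.O v).valuation.ne_zero_iff).mpr (S.ne_zero_of_resF_ne_zero hres)
    have h3 : 1 ≤ (S.O v).valuation (d • x) := (inv_le_one₀ (zero_lt_iff.mpr h0)).mp h2
    exact le_antisymm h1 h3
  -- `x = d⁻¹ • w`, so `|d⁻¹| < 1`
  have hxw : x = d⁻¹ • (d • x) := by rw [smul_smul, inv_mul_cancel₀ hd0, one_smul]
  have hdv : (S.O v).valuation (algebraMap K F d⁻¹) < 1 := by
    have h := hx
    rw [hxw, Algebra.smul_def d⁻¹, map_mul, hw1, mul_one] at h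
    exact h
  have hdA : A.valuation d⁻¹ < 1 := (valuation_algebraMap_lt_one_iff S v d⁻¹).mp hdv
  obtain ⟨n₀, hn₀⟩ := exists_pow_bound hA hr hdA
  refine ⟨n₀, fun n hn => ?_⟩
  have e : r • x ^ n = (r * d⁻¹ ^ n) • (d • x) ^ n := by
    conv_lhs => rw [hxw]
    rw [smul_pow, smul_smul]
  rw [e, Algebra.smul_def, map_mul, map_pow, hw1, one_pow, mul_one]
  exact (valuation_algebraMap_lt_one_iff S v _).mpr (hn₀ n hn)

/-- **(ML-c') Prescribed Gauss norms.** -/
theorem exists_gauss [Finite ι] (hA : IsRankOne A) (c : ι → K) (hc : ∀ v, c v ≠ 0) :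
    ∃ G : F, G ≠ 0 ∧ ∀ v, S.resF v (c v • G) ≠ 0 := by
  classical
  have := Fintype.ofFinite ι
  rcases isEmpty_or_nonempty ι with hι | hι
  · exact ⟨1, one_ne_zero, fun v => isEmptyElim v⟩
  -- the approximate idempotents
  choose e he_mem he_one he_lt using fun i =>
    WeakApprox.exists_unit_nonunits S.O (fun _ _ h => S.not_le_of_ne h) i
  have he0 : ∀ i, e i ≠ 0 := by
    intro i h
    have := he_one i
    rw [h, map_zero] at this
    exact zero_ne_one this
  -- the exponents
  have hex : ∀ v i, ∃ n₀ : ℕ, i ≠ v → ∀ n, n₀ ≤ n →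
      (S.O v).valuation ((c v * (c i)⁻¹) • e i ^ n) < 1 := by
    intro v i
    by_cases hiv : i = v
    · exact ⟨0, fun h => absurd hiv h⟩
    · obtain ⟨n₀, hn₀⟩ := exists_smul_pow_lt S hA v (he0 i) (he_lt i v (Ne.symm hiv))
        (mul_ne_zero (hc v) (inv_ne_zero (hc i)))
      exact ⟨n₀, fun _ => hn₀⟩
  choose n₀ hn₀ using hex
  set n : ℕ := ∑ v, ∑ i, n₀ v i with hn
  have hle : ∀ v i, n₀ v i ≤ n := by
    intro v i
    calc n₀ v i ≤ ∑ i, n₀ v i := Finset.single_le_sum (fun _ _ => Nat.zero_le _) (Finset.mem_univ i)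
      _ ≤ n := Finset.single_le_sum (f := fun v => ∑ i, n₀ v i) (fun _ _ => Nat.zero_le _)
          (Finset.mem_univ v)
  set G : F := ∑ i, (c i)⁻¹ • e i ^ n with hG
  -- `c v • G` is a unit of `O v`
  have hval : ∀ v, (S.O v).valuation (c v • G) = 1 := by
    intro v
    have e1 : c v • G = e v ^ n + ∑ i ∈ Finset.univ.erase v, (c v * (c i)⁻¹) • e i ^ n := by
      rw [hG, Finset.smul_sum, ← Finset.add_sum_erase Finset.univ _ (Finset.mem_univ v)]
      congr 1
      · rw [smul_smul, mul_inv_cancel₀ (hc v), one_smul]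
      · exact Finset.sum_congr rfl fun i _ => by rw [smul_smul]
    have h1 : (S.O v).valuation (e v ^ n) = 1 := by rw [map_pow, he_one v, one_pow]
    have h2 : (S.O v).valuation (∑ i ∈ Finset.univ.erase v, (c v * (c i)⁻¹) • e i ^ n) < 1 := by
      refine Valuation.map_sum_lt _ one_ne_zero fun i hi => ?_
      exact hn₀ v i (Finset.ne_of_mem_erase hi) n (hle v i)
    rw [e1, Valuation.map_add_eq_of_lt_left _ (by rw [h1]; exact h2), h1]
  obtain ⟨v₀⟩ := hι
  refine ⟨G, ?_, fun v => ?_⟩
  · intro h0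
    have := hval v₀
    rw [h0, smul_zero, map_zero] at this
    exact zero_ne_one this
  · have hmem : c v • G ∈ S.O v := ((S.O v).valuation_le_one_iff _).mp (hval v).le
    intro h0
    have h1 := (S.resF_eq_zero_iff hmem).mp h0
    have h2 : (S.O v).valuation (c v • G) < 1 := (S.O v).mem_nonunits_iff.mp h1
    exact h2.ne (hval v)

end Fermat.Agent.BR3.TorGauss
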