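import Mathlib
import Fermat.Agent.BR3.ChartFacts
import Fermat.Agent.BR3.TorGauss

/-!
# Program C (S36), node (C-ML) / (I7-FACT): the moving lemma from annulus charts

`S` a semistable setup over `(K, A)` (`K` algebraically closed, `A` of rank one) with an annulus
chart `ch e : CircleN.AnnulusChartN S e` at every node, Riemann's theorem on the generic fibre and
on the components, and the genus equality `g(F) = Σ_v g(Ft v) + |ν| - |ι| + 1`.

* `torGood_of_charts` : **`TorGlue.TorGood S m` for every `m ≠ 0`** — every class of the toric
  part `Filt.torSub S m` has a good representative (smooth support, residues `c · u_v ^ m` with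
  `div u_v` the reduction of the divisor).  No named hypothesis is left.
-/

set_option autoImplicit false

namespace Fermat.Agent.BR3.ChartTorGood

open AlgebraicCurve IsLocalRing Fermat.Agent.Red Fermat.Agent.BR.SS Fermat.Agent.BR3.CircleN

variable {K : Type} {F : Type*} [Field K] [Field F] [Algebra K F]
  {A : ValuationSubring K} [IsAlgClosed (ResidueField A)]
  {ι : Type} {Ft : ι → Type} [∀ v, Field (Ft v)] [∀ v, Algebra (ResidueField A) (Ft v)]
  {ν : Type} {S : SemistableSetup (F := F) A (residue A) ι Ft ν}

/-- **The moving lemma.** -/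
theorem torGood_of_charts [Fintype ι] [Fintype ν] [IsAlgClosed K] (ch : ∀ e, AnnulusChartN S e)
    (hA : IsRankOne A) (hF : RiemannPkg K F) (hFt : ∀ v, RiemannPkg (ResidueField A) (Ft v))
    (hg : (genusFF K F : ℤ) =
      ∑ v, (genusFF (ResidueField A) (Ft v) : ℤ) + Fintype.card ν - Fintype.card ι + 1)
    {m : ℕ} (hm : m ≠ 0) : TorGlue.TorGood S m :=
  ChartFacts.torGood_of_charts_of_gauss ch hA hF hFt hg
    (fun c hc => TorGauss.exists_gauss S hA c hc) hm

end Fermat.Agent.BR3.ChartTorGood
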