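import Mathlib
import Fermat.Agent.BR.S0.CrossingModel

/-!
# Program C, node (I7-ZE-B) part (ii), abstract half: a valuation ring centred at the point of a
crossing model dominates the local ring of the point

`Mod : CrossingModel A π O₁ O₂ res₁ res₂ Q₁ Q₂ T C ϖ` the normal model `C ⊆ F` at a level, with
its point `Mod.point` and local ring `Mod.loc` (= the level ring of `AnnulusLevels` /
`levelsOfExists`).  A valuation subring `O` of `F` containing `A` and `C` whose maximal ideal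
contains the point of the model

* contains the local ring of the point (`CrossingModel.loc_le_of_point`), and
* dominates it (`CrossingModel.loc_nonunit_of_point`):

these are the fields `le`, `nonunit` of `CircleChar.CircleHyp` for the level rings
`(L.level i).R = (M i).loc`.  Only ONE inclusion `point ⊆ 𝔪_O` is needed: the residue field of the
point is the residue field of `A` (`fullRes`).
-/

set_option autoImplicit false

namespace Fermat.Agent.BR3.CircleCentre

open AlgebraicCurve IsLocalRing Fermat.Agent.Red Fermat.Agent.BR.S0 Fermat.Agent.BR.Centre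

variable {K F k : Type*} [Field K] [Field F] [Algebra K F] [Field k]
  {Ft₁ Ft₂ : Type*} [Field Ft₁] [Algebra k Ft₁] [Field Ft₂] [Algebra k Ft₂]
  {A : ValuationSubring K} {π : A →+* k} {O₁ O₂ : ValuationSubring F}
  {res₁ : O₁ →+* Ft₁} {res₂ : O₂ →+* Ft₂} {Q₁ : Place k Ft₁} {Q₂ : Place k Ft₂}
  {T : Set (Place K F)} {C : Subring F} {ϖ : K}

/-- A function of the model outside the point is a unit of every valuation ring containing `A` and
the model whose maximal ideal contains the point. -/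
theorem inv_mem_of_notMem_point (Mod : CrossingModel A π O₁ O₂ res₁ res₂ Q₁ Q₂ T C ϖ)
    (O : ValuationSubring F) (hconst : ∀ c : K, c ∈ A → algebraMap K F c ∈ O)
    (hres₁ : ∀ (a : K) (ha : a ∈ A) (h : algebraMap K F a ∈ O₁),
      res₁ ⟨algebraMap K F a, h⟩ = algebraMap k Ft₁ (π ⟨a, ha⟩))
    (hπ : ∀ a : A, π a ≠ 0 → (a : K)⁻¹ ∈ A)
    (hpt : ∀ x : C, x ∈ Mod.point → (x : F) ∈ O.nonunits) {b : C} (hb : b ∉ Mod.point) :
    ((b : F))⁻¹ ∈ O := by
  obtain ⟨a, haC, ha⟩ := Mod.fullRes b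
  -- `b - a` lies in the point
  have hsub : b - ⟨algebraMap K F a, haC⟩ ∈ Mod.point := by
    rw [Mod.mem_point_iff]
    have e : (⟨((b - ⟨algebraMap K F a, haC⟩ : C) : F), Mod.le₁ _
        (b - ⟨algebraMap K F a, haC⟩ : C).2⟩ : O₁) =
        ⟨b, Mod.le₁ b b.2⟩ - ⟨algebraMap K F a, Mod.le₁ _ haC⟩ := rfl
    rw [e, map_sub, hres₁ a a.2]
    exact ha
  -- the constant is a unit of `A`
  have hπa : π a ≠ 0 := by
    intro h0
    apply hb
    rw [Mod.mem_point_iff]
    rw [h0, map_zero, sub_zero] at ha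
    exact ha
  have hainv : (a : K)⁻¹ ∈ A := hπ a hπa
  have ha0 : (a : K) ≠ 0 := by
    intro h0
    apply hπa
    have : a = 0 := Subtype.ext h0
    rw [this, map_zero]
  have hva : O.valuation (algebraMap K F a) = 1 := by
    have h1 : O.valuation (algebraMap K F a) ≤ 1 :=
      (O.valuation_le_one_iff _).mpr (hconst _ a.2)
    have h2 : O.valuation (algebraMap K F (a : K)⁻¹) ≤ 1 :=
      (O.valuation_le_one_iff _).mpr (hconst _ hainv)
    have h3 : O.valuation (algebraMap K F a) ≠ 0 :=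
      (Valuation.ne_zero_iff _).mpr ((_root_.map_ne_zero _).mpr ha0)
    rw [map_inv₀, map_inv₀, inv_le_one₀ (zero_lt_iff.mpr h3)] at h2
    exact le_antisymm h1 h2
  have hvs : O.valuation ((b : F) - algebraMap K F a) < 1 :=
    (ValuationSubring.mem_nonunits_iff _).mp (hpt _ hsub)
  have hvb : O.valuation (b : F) = 1 := by
    have e : (b : F) = algebraMap K F a + ((b : F) - algebraMap K F a) := by ring
    rw [e, Valuation.map_add_eq_of_lt_left _ (by rw [hva]; exact hvs), hva]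
  rw [← O.valuation_le_one_iff, map_inv₀, hvb, inv_one]

/-- **`le`**: the local ring of the point lies in `O`. -/
theorem loc_le_of_point (Mod : CrossingModel A π O₁ O₂ res₁ res₂ Q₁ Q₂ T C ϖ)
    (O : ValuationSubring F) (hconst : ∀ c : K, c ∈ A → algebraMap K F c ∈ O)
    (hres₁ : ∀ (a : K) (ha : a ∈ A) (h : algebraMap K F a ∈ O₁),
      res₁ ⟨algebraMap K F a, h⟩ = algebraMap k Ft₁ (π ⟨a, ha⟩))
    (hπ : ∀ a : A, π a ≠ 0 → (a : K)⁻¹ ∈ A) (hC : ∀ x ∈ C, x ∈ O)
    (hpt : ∀ x : C, x ∈ Mod.point → (x : F) ∈ O.nonunits) : ∀ y ∈ Mod.loc, y ∈ O := by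
  intro y hy
  obtain ⟨a, b, hb, hab⟩ := Mod.mem_loc_iff.mp hy
  have hb0 : (b : F) ≠ 0 := Mod.coe_ne_zero_of_notMem hb
  have e : y = (a : F) * ((b : F))⁻¹ := by
    rw [← hab, mul_assoc, mul_inv_cancel₀ hb0, mul_one]
  rw [e]
  exact O.mul_mem _ _ (hC _ a.2) (inv_mem_of_notMem_point Mod O hconst hres₁ hπ hpt hb)

/-- **`nonunit`**: `O` dominates the local ring of the point. -/
theorem loc_nonunit_of_point (Mod : CrossingModel A π O₁ O₂ res₁ res₂ Q₁ Q₂ T C ϖ)
    (O : ValuationSubring F) (hconst : ∀ c : K, c ∈ A → algebraMap K F c ∈ O)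
    (hres₁ : ∀ (a : K) (ha : a ∈ A) (h : algebraMap K F a ∈ O₁),
      res₁ ⟨algebraMap K F a, h⟩ = algebraMap k Ft₁ (π ⟨a, ha⟩))
    (hπ : ∀ a : A, π a ≠ 0 → (a : K)⁻¹ ∈ A)
    (hpt : ∀ x : C, x ∈ Mod.point → (x : F) ∈ O.nonunits) :
    ∀ y : Mod.loc, ¬ IsUnit y → (y : F) ∈ O.nonunits := by
  intro y hy
  obtain ⟨a, b, hb, hab⟩ := Mod.mem_loc_iff.mp y.2
  have ha : a ∈ Mod.point := Mod.num_mem_point hy hb hab
  have hb0 : (b : F) ≠ 0 := Mod.coe_ne_zero_of_notMem hb
  have e : (y : F) = (a : F) * ((b : F))⁻¹ := by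
    rw [← hab, mul_assoc, mul_inv_cancel₀ hb0, mul_one]
  rw [e, ValuationSubring.mem_nonunits_iff, map_mul]
  exact mul_lt_one_of_nonneg_of_lt_one_left zero_le
    ((ValuationSubring.mem_nonunits_iff _).mp (hpt a ha))
    ((O.valuation_le_one_iff _).mpr (inv_mem_of_notMem_point Mod O hconst hres₁ hπ hpt hb))

end Fermat.Agent.BR3.CircleCentre
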