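import Mathlib
import Fermat.Agent.BR.S0.AnnulusDescent
import Fermat.Agent.BR.Circle.Basic

/-!
# Program C, node (I7-ZE-B) part (i): a characterisation of the circle ring of an annulus

`L : AnnulusLevels A T ι` the levels of the tube `T` of a crossing point, `a` a gauge
(`|thick| < |a| < 1`).  A valuation subring `O` of `F` such that

* `O ∩ K = A`,
* `O` contains every level ring of `L` and dominates it,
* `u / a ∈ O` and `u / a - c` is a unit of `O` for every `c ∈ A` (the residue of `u / a` is not a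
  constant; the residue field of `A` being algebraically closed, it is transcendental),

IS the valuation ring `circleRing L.core a` of the circle of gauge `a`
(`CircleHyp.eq_circleRing`), and every residue map of `O` factors through the residue map
`circleRes` onto `k(X)` (`CircleHyp.exists_resHom`).

Proof: every `y ≠ 0` is `γ • z` with `γ ∈ Kˣ` and `z` a unit of BOTH rings (`IsGenO`): this is
`Circle.isGen_of_ne_zero` with the units of `O` tracked along the factorisation
`y = c · u ^ b · ∏ (u - u(Q)) ^ n_Q · ε` of `AnnulusLevels.factor_strong`.  Hence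
`y ∈ O ↔ γ ∈ A ↔ y ∈ circleRing`.
-/

set_option autoImplicit false

noncomputable section

namespace Fermat.Agent.BR3.CircleChar

open AlgebraicCurve IsLocalRing Fermat.Agent.Red Fermat.Agent.BR.Circle Fermat.Agent.BR.S0
  Fermat.Agent.BR.Centre Fermat.Agent.BR.P1

variable {K F : Type*} [Field K] [Field F] [Algebra K F]
  {A : ValuationSubring K} [IsAlgClosed (ResidueField A)] {T : Set (Place K F)} {ι : Type*}

local notation "k" => ResidueField A

/-- The hypotheses characterising the circle ring of gauge `a`. -/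
structure CircleHyp (L : AnnulusLevels A T ι) (a : K) (O : ValuationSubring F) : Prop where
  /-- `O ∩ K = A` -/
  const : ∀ c : K, algebraMap K F c ∈ O ↔ c ∈ A
  /-- `O` contains every level ring -/
  le : ∀ i, ∀ x ∈ (L.level i).R, x ∈ O
  /-- `O` dominates every level ring -/
  nonunit : ∀ i, ∀ x : (L.level i).R, ¬ IsUnit x → (x : F) ∈ O.nonunits
  /-- `u / a` is integral -/
  coord_mem : a⁻¹ • L.u ∈ O
  /-- `u / a - c` is a unit for every integral constant `c` -/
  coord_unit : ∀ c ∈ A, (a⁻¹ • L.u - algebraMap K F c)⁻¹ ∈ O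

/-- `y` is a nonzero constant times a function which has a nonzero reduction on the circle of
gauge `a` AND is a unit of `O`. -/
def IsGenO (C : AnnulusCore A T) (a : K) (O : ValuationSubring F) (y : F) : Prop :=
  ∃ (γ : K) (z : F) (zb : RatFunc k), γ ≠ 0 ∧ zb ≠ 0 ∧ IsRed C a z zb ∧ z ∈ O ∧ z⁻¹ ∈ O ∧
    y = γ • z

namespace IsGenO

variable {C : AnnulusCore A T} {a : K} {O : ValuationSubring F}

theorem mul {y y' : F} (h : IsGenO C a O y) (h' : IsGenO C a O y') : IsGenO C a O (y * y') := by
  obtain ⟨γ, z, zb, hγ, hzb, hz, hzO, hzO', rfl⟩ := h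
  obtain ⟨γ', z', zb', hγ', hzb', hz', hzO₂, hzO₂', rfl⟩ := h'
  refine ⟨γ * γ', z * z', zb * zb', mul_ne_zero hγ hγ', mul_ne_zero hzb hzb', hz.mul hz',
    O.mul_mem _ _ hzO hzO₂, ?_, by rw [smul_mul_smul_comm]⟩
  rw [mul_inv]
  exact O.mul_mem _ _ hzO' hzO₂'

theorem inv {y : F} (h : IsGenO C a O y) : IsGenO C a O y⁻¹ := by
  obtain ⟨γ, z, zb, hγ, hzb, hz, hzO, hzO', rfl⟩ := h
  refine ⟨γ⁻¹, z⁻¹, zb⁻¹, inv_ne_zero hγ, inv_ne_zero hzb, hz.inv hzb, hzO', ?_, ?_⟩
  · rw [inv_inv]
    exact hzO
  · rw [Algebra.smul_def, Algebra.smul_def, mul_inv, map_inv₀]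

theorem one : IsGenO C a O (1 : F) :=
  ⟨1, 1, 1, one_ne_zero, one_ne_zero, isRed_one, O.one_mem, by rw [inv_one]; exact O.one_mem,
    by rw [one_smul]⟩

theorem pow {y : F} (h : IsGenO C a O y) (n : ℕ) : IsGenO C a O (y ^ n) := by
  induction n with
  | zero => rw [pow_zero]; exact one
  | succ n ih => rw [pow_succ]; exact ih.mul h

theorem zpow {y : F} (h : IsGenO C a O y) (n : ℤ) : IsGenO C a O (y ^ n) := by
  cases n with
  | ofNat n => rw [Int.ofNat_eq_natCast, zpow_natCast]; exact h.pow n
  | negSucc n => rw [zpow_negSucc]; exact (h.pow (n + 1)).inv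

theorem prod {κ : Type*} (s : Finset κ) (f : κ → F) (h : ∀ i ∈ s, IsGenO C a O (f i)) :
    IsGenO C a O (∏ i ∈ s, f i) := by
  classical
  induction s using Finset.induction_on with
  | empty => rw [Finset.prod_empty]; exact one
  | insert i s hi ih =>
    rw [Finset.prod_insert hi]
    exact (h i (Finset.mem_insert_self i s)).mul
      (ih fun j hj => h j (Finset.mem_insert_of_mem hj))

theorem const {c : K} (hc : c ≠ 0) : IsGenO C a O (algebraMap K F c) :=
  ⟨c, 1, 1, hc, one_ne_zero, isRed_one, O.one_mem, by rw [inv_one]; exact O.one_mem,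
    by rw [Algebra.smul_def, mul_one]⟩

theorem smul {y : F} (h : IsGenO C a O y) {c : K} (hc : c ≠ 0) : IsGenO C a O (c • y) := by
  rw [Algebra.smul_def]
  exact (const hc).mul h

end IsGenO

namespace CircleHyp

variable {L : AnnulusLevels A T ι} {a : K} {O : ValuationSubring F}

/-- A constant of absolute value `< 1` lies in the maximal ideal of `O`. -/
theorem algebraMap_mem_nonunits (H : CircleHyp L a O) {c : K} (hc : A.valuation c < 1) :
    algebraMap K F c ∈ O.nonunits := by
  rw [ValuationSubring.mem_nonunits_iff]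
  rcases eq_or_ne c 0 with rfl | hc0
  · rw [map_zero, map_zero]
    exact zero_lt_one
  have h1 : c⁻¹ ∉ A := by
    intro h
    have h2 := (A.valuation_le_one_iff _).mpr h
    rw [map_inv₀, inv_le_one₀ (zero_lt_iff.mpr ((Valuation.ne_zero_iff _).mpr hc0))] at h2
    exact absurd hc (not_lt.mpr h2)
  have h2 : algebraMap K F c⁻¹ ∉ O := fun h => h1 ((H.const _).mp h)
  rw [← O.valuation_le_one_iff, not_le, map_inv₀, map_inv₀] at h2
  have hcF : O.valuation (algebraMap K F c) ≠ 0 :=
    (Valuation.ne_zero_iff _).mpr ((_root_.map_ne_zero _).mpr hc0)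
  by_contra hge
  rw [not_lt] at hge
  exact absurd h2 (not_lt.mpr (inv_le_one_of_one_le₀ hge))

/-- `1 - m` is a unit of `O` for `m` in the maximal ideal. -/
theorem inv_one_sub_mem {m : F} (hm : m ∈ O.nonunits) : (1 - m)⁻¹ ∈ O := by
  rw [ValuationSubring.mem_nonunits_iff] at hm
  rw [← O.valuation_le_one_iff, map_inv₀, Valuation.map_one_sub_of_lt _ hm, inv_one]

/-- The coordinate is a constant times a unit of both rings. -/
theorem isGenO_coord (H : CircleHyp L a O) (ha : a ≠ 0) : IsGenO L.core a O L.u := by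
  refine ⟨a, a⁻¹ • L.u, RatFunc.X, ha, RatFunc.X_ne_zero, isRed_coord (C := L.core) ha,
    H.coord_mem, ?_, by rw [smul_smul, mul_inv_cancel₀ ha, one_smul]⟩
  have := H.coord_unit 0 A.zero_mem
  rwa [map_zero, sub_zero] at this

/-- `u - c` is a constant times a unit of both rings, for every constant `c`. -/
theorem isGenO_coord_sub (H : CircleHyp L a O) (ha : a ≠ 0) (c : K) :
    IsGenO L.core a O (L.u - algebraMap K F c) := by
  rcases le_or_gt (A.valuation c) (A.valuation a) with hle | hgt
  · have hca : c / a ∈ A := by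
      rw [← A.valuation_le_one_iff, map_div₀]
      exact div_le_one_of_le₀ hle zero_le
    refine ⟨a, a⁻¹ • L.u - algebraMap K F (c / a),
      RatFunc.X - RatFunc.C (residue A ⟨c / a, hca⟩), ha, ratFunc_X_sub_C_ne_zero _, ?_,
      O.sub_mem H.coord_mem ((H.const _).mpr hca), H.coord_unit _ hca, ?_⟩
    · have h := (isRed_coord (C := L.core) ha).add (isRed_const (C := L.core) (a := a) hca).neg
      rwa [← sub_eq_add_neg, ← sub_eq_add_neg, RatFunc.algebraMap_eq_C] at h
    · rw [smul_sub, smul_smul, mul_inv_cancel₀ ha, one_smul, Algebra.smul_def, ← map_mul,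
        mul_div_cancel₀ _ ha]
  · have hc0 : c ≠ 0 := by
      rintro rfl
      rw [map_zero] at hgt
      exact not_lt_zero hgt
    have hac : A.valuation (a / c) < 1 := by
      rw [map_div₀]
      exact (div_lt_one₀ (lt_of_le_of_lt zero_le hgt)).mpr hgt
    have hac' : a / c ∈ A := (A.valuation_le_one_iff _).mp hac.le
    have hres : residue A ⟨a / c, hac'⟩ = 0 := by
      rw [residue_eq_zero_iff]
      exact (A.valuation_lt_one_iff _).mpr hac
    have hm : algebraMap K F (a / c) * (a⁻¹ • L.u) ∈ O.nonunits := by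
      have h1 := H.algebraMap_mem_nonunits hac
      rw [ValuationSubring.mem_nonunits_iff] at h1 ⊢
      rw [map_mul]
      exact mul_lt_one_of_nonneg_of_lt_one_left zero_le h1
        ((O.valuation_le_one_iff _).mpr H.coord_mem)
    refine ⟨-c, 1 - algebraMap K F (a / c) * (a⁻¹ • L.u), 1, neg_ne_zero.mpr hc0, one_ne_zero,
      ?_, O.sub_mem O.one_mem (O.nonunits_le hm), inv_one_sub_mem hm, ?_⟩
    · have h := (isRed_one (C := L.core) (a := a)).add
        ((isRed_const (C := L.core) (a := a) hac').mul (isRed_coord (C := L.core) ha)).neg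
      rw [hres, map_zero, zero_mul, neg_zero, add_zero, ← sub_eq_add_neg] at h
      exact h
    · rw [Algebra.smul_def, Algebra.smul_def, ← mul_assoc (algebraMap K F (a / c)), ← map_mul,
        div_mul_eq_mul_div, mul_inv_cancel₀ ha, map_neg, one_div]
      have hcF : algebraMap K F c ≠ 0 := (_root_.map_ne_zero _).mpr hc0
      rw [map_inv₀]
      field_simp
      ring

/-- A function of a level ring congruent to `1` modulo the maximal ideal is a unit of both
rings. -/
theorem isGenO_level_unit (H : CircleHyp L a O) {i : ι} {ε : F} (hε : ε ∈ (L.level i).R)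
    (hnu : ¬ IsUnit ((⟨ε, hε⟩ : (L.level i).R) - 1)) : IsGenO L.core a O ε := by
  have htube : TubeUnit A T ε := by
    intro P hP
    refine ⟨evalAt P ε, (L.level i).isValueAt_evalAt hP hε, ?_⟩
    have h1 := (L.level i).valuation_evalAt_lt_one hP hnu
    have h2 := (L.level i).evalAt_sub hP hε (one_mem _)
    rw [evalAt_eq_of_isValueAt (isValueAt_one P)] at h2
    rw [← h2]
    exact h1
  have hm : ε - 1 ∈ O.nonunits := H.nonunit i _ hnu
  have hm' : 1 - ε ∈ O.nonunits := by
    rw [ValuationSubring.mem_nonunits_iff] at hm ⊢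
    rwa [← Valuation.map_neg, neg_sub]
  refine ⟨1, ε, 1, one_ne_zero, one_ne_zero, isRed_tubeUnit htube, H.le i ε hε, ?_,
    by rw [one_smul]⟩
  have h3 := inv_one_sub_mem hm'
  rwa [sub_sub_cancel] at h3

/-- **Key lemma**: every nonzero function is a nonzero constant times a unit of both rings. -/
theorem isGenO_of_ne_zero (H : CircleHyp L a O) (ha : a ≠ 0) {y : F} (hy : y ≠ 0) :
    IsGenO L.core a O y := by
  obtain ⟨S, n, b, c, -, hc, i, h, hnu⟩ := L.factor_strong y hy
  set g : F := c • (L.u ^ b * ∏ Q ∈ S, (L.u - algebraMap K F (evalAt Q L.u)) ^ n Q) with hg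
  have hgen : IsGenO L.core a O g :=
    (((H.isGenO_coord ha).zpow b).mul
      (IsGenO.prod S _ fun Q _ => (H.isGenO_coord_sub ha _).zpow (n Q))).smul hc
  have hg0 : g ≠ 0 := by
    obtain ⟨γ, z, zb, hγ, -, -, -, hzinv, hgz⟩ := hgen
    rw [hgz]
    refine smul_ne_zero hγ ?_
    rintro rfl
    apply hnu
    have h0 : (⟨y * g⁻¹, h⟩ : (L.level i).R) = 0 := by
      apply Subtype.ext
      show y * g⁻¹ = 0
      rw [hgz, smul_zero, inv_zero, mul_zero]
    rw [h0, zero_sub]
    exact isUnit_one.neg
  have hy' : y = (y * g⁻¹) * g := by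
    rw [mul_assoc, inv_mul_cancel₀ hg0, mul_one]
  rw [hy']
  exact (H.isGenO_level_unit h hnu).mul hgen

variable (ha1 : A.valuation L.core.thick < A.valuation a) (ha2 : A.valuation a < 1)

include ha1 ha2 in
/-- **The characterisation of the circle ring.** -/
theorem eq_circleRing (H : CircleHyp L a O) : O = circleRing L.core a ha1 ha2 := by
  have ha : a ≠ 0 := gauge_ne_zero ha1
  ext y
  rcases eq_or_ne y 0 with rfl | hy
  · exact ⟨fun _ => (circleRing L.core a ha1 ha2).zero_mem, fun _ => O.zero_mem⟩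
  obtain ⟨γ, z, zb, hγ, hzb, hz, hzO, hzO', rfl⟩ := H.isGenO_of_ne_zero ha hy
  have hz0 : z ≠ 0 := by
    rintro rfl
    rw [smul_zero] at hy
    exact hy rfl
  have hzC : z ∈ circleRing L.core a ha1 ha2 := ⟨zb, hz⟩
  have hzC' : z⁻¹ ∈ circleRing L.core a ha1 ha2 := ⟨zb⁻¹, hz.inv hzb⟩
  have hγz : algebraMap K F γ = γ • z * z⁻¹ := by
    rw [Algebra.smul_def, mul_assoc, mul_inv_cancel₀ hz0, mul_one]
  constructor
  · intro hyO
    have h1 : algebraMap K F γ ∈ O := by
      rw [hγz]
      exact O.mul_mem _ _ hyO hzO'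
    have h2 : γ ∈ A := (H.const γ).mp h1
    rw [Algebra.smul_def]
    exact (circleRing L.core a ha1 ha2).mul_mem _ _
      ((algebraMap_mem_circleRing_iff L.core a ha1 ha2 γ).mpr h2) hzC
  · intro hyC
    have h1 : algebraMap K F γ ∈ circleRing L.core a ha1 ha2 := by
      rw [hγz]
      exact (circleRing L.core a ha1 ha2).mul_mem _ _ hyC hzC'
    have h2 : γ ∈ A := (algebraMap_mem_circleRing_iff L.core a ha1 ha2 γ).mp h1
    rw [Algebra.smul_def]
    exact O.mul_mem _ _ ((H.const γ).mpr h2) hzO

include ha1 ha2 in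
/-- **Every residue map of `O` factors through the residue map of the circle onto `k(X)`.** -/
theorem exists_resHom (H : CircleHyp L a O) {κ : Type*} [Field κ] (res : O →+* κ)
    (hres : ∀ x : O, res x = 0 ↔ (x : F) ∈ O.nonunits) :
    ∃ φ : RatFunc k →+* κ, ∀ (y : F) (hy : y ∈ O) (hy' : y ∈ circleRing L.core a ha1 ha2),
      res ⟨y, hy⟩ = φ (circleRes L.core a ha1 ha2 ⟨y, hy'⟩) := by
  have hO := H.eq_circleRing ha1 ha2
  subst hO
  have hker : RingHom.ker (circleRes L.core a ha1 ha2) ≤ RingHom.ker res := by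
    intro x hx
    rw [RingHom.mem_ker] at hx ⊢
    rw [circleRes_eq_zero_iff] at hx
    rw [hres]
    by_contra hnn
    apply hx
    rw [ValuationSubring.mem_nonunits_iff, not_lt] at hnn
    have h1 : (circleRing L.core a ha1 ha2).valuation (x : F) = 1 :=
      le_antisymm ((ValuationSubring.valuation_le_one_iff _ _).mpr x.2) hnn
    exact (ValuationSubring.valuation_eq_one_iff _ x).mpr h1
  refine ⟨RingHom.liftOfSurjective (circleRes L.core a ha1 ha2)
    (circleRes_surjective L.core a ha1 ha2) ⟨res, hker⟩, fun y hy hy' => ?_⟩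
  exact (RingHom.liftOfRightInverse_comp_apply _ _ _ ⟨res, hker⟩ ⟨y, hy'⟩).symm

end CircleHyp

end Fermat.Agent.BR3.CircleChar
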