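import Mathlib
import Fermat.Agent.BR3.ArchExt
import Fermat.Agent.BR3.ApproxFull

/-!
# Program C (S36), node (I7-CR): the constant reduction of a unique unramified extension with
residue field `AdjoinRoot P`

`S₀ : Val.ConstRed A π` a constant reduction of `F / K` with residue field `Ft`, `E / F` a finite
extension, `Z` a valuation subring of `E` over `S₀.O` with a residue map
`resZ : Z →+* AdjoinRoot P`, `P ∈ Ft[X]` monic of degree `[E : F]`, compatible with `S₀.res`, and
`θ ∈ Z` with `resZ θ = root P` (the conclusion shape of `VertMain.exists_vertComponent_main'`: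
`F = Fb (M q)`, `E = Fb (M q²)` along `α₂`, `S₀.O` the circle ring at the critical radius,
`P = vertBar q β ρ`, `θ = U / α₂ a₀`).

* `resIndep_pow` : the powers `1, θ, …, θ ^ (deg P - 1)` are residually independent over `S₀.O`;
* `constRedOfAdjoinRoot` : `Val.ConstRed (F := E) (Ft := AdjoinRoot P) A π` with `.O = Z`,
  `.res = resZ` (`rfl`): best approximations upstairs come from `ApproxFull.constRedOfSingle`,
  the rank-one property of `Z` from `ArchExt.arch_of_comap`.
-/

set_option autoImplicit false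
set_option linter.unusedSectionVars false

namespace Fermat.Agent.BR3.ConstRedAdjoin

open Polynomial Module Fermat.Agent.Val Fermat.Agent.BR.TwoVal Fermat.Agent.BR3.MultiVal
  Fermat.Agent.BR3.ApproxFull

variable {K F E k Ft : Type*} [Field K] [Field F] [Field E] [Algebra K F] [Algebra K E]
  [Algebra F E] [IsScalarTower K F E] [Field k] [Field Ft] [Algebra k Ft]
variable {A : ValuationSubring K} {π : A →+* k}

/-- the powers of the root are linearly independent in `AdjoinRoot P` -/
theorem coeff_eq_zero_of_sum_eq_zero {P : Ft[X]} (hPm : P.Monic) (a : Fin P.natDegree → Ft)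
    (h : ∑ i, AdjoinRoot.of P (a i) * AdjoinRoot.root P ^ (i : ℕ) = 0) : ∀ i, a i = 0 := by
  have hli := (AdjoinRoot.powerBasis' hPm).basis.linearIndependent
  have h2 : ∑ i : Fin (AdjoinRoot.powerBasis' hPm).dim,
      a i • (AdjoinRoot.powerBasis' hPm).basis i = 0 := by
    rw [← h]
    refine Finset.sum_congr rfl fun i _ => ?_
    rw [PowerBasis.basis_eq_pow, AdjoinRoot.powerBasis'_gen, Algebra.smul_def,
      AdjoinRoot.algebraMap_eq]
  exact Fintype.linearIndependent_iff.1 hli a h2

section Main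

variable (S₀ : ConstRed (F := F) (Ft := Ft) A π) {Z : ValuationSubring E}
  (hlies : Z.comap (algebraMap F E) = S₀.O) {P : Ft[X]} (hPm : P.Monic)
  (resZ : Z →+* AdjoinRoot P)
  (hker : ∀ x : Z, resZ x = 0 ↔ (x : E) ∈ Z.nonunits)
  (hcompat : ∀ (c : S₀.O) (h : algebraMap F E (c : F) ∈ Z),
    resZ ⟨algebraMap F E (c : F), h⟩ = AdjoinRoot.of P (S₀.res c))
  {θ : E} (hθ : θ ∈ Z) (hroot : resZ ⟨θ, hθ⟩ = AdjoinRoot.root P)

include hlies hPm hker hcompat hroot in
/-- **The powers of `θ` are residually independent over `S₀.O`.** -/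
theorem resIndep_pow : ResIndep S₀.O Z (fun i : Fin P.natDegree => θ ^ (i : ℕ)) := by
  refine ⟨fun i => pow_mem hθ _, fun c hc hsum i => ?_⟩
  have hcZ : ∀ i, algebraMap F E (c i) ∈ Z := fun i => by
    rw [← ValuationSubring.mem_comap, hlies]
    exact hc i
  -- the sum as an element of `Z`
  set z : Z := ∑ i, (⟨algebraMap F E (c i), hcZ i⟩ : Z) * (⟨θ, hθ⟩ : Z) ^ (i : ℕ) with hz
  have hzval : (z : E) = ∑ i, c i • θ ^ (i : ℕ) := by
    rw [hz]
    simp only [AddSubmonoidClass.coe_finsetSum, MulMemClass.coe_mul, SubmonoidClass.coe_pow]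
    exact Finset.sum_congr rfl fun i _ => by rw [Algebra.smul_def]
  have hz0 : resZ z = 0 := by
    rw [hker, hzval]
    exact hsum
  have hres : resZ z = ∑ i, AdjoinRoot.of P (S₀.res ⟨c i, hc i⟩) * AdjoinRoot.root P ^ (i : ℕ) := by
    rw [hz, map_sum]
    refine Finset.sum_congr rfl fun i _ => ?_
    rw [map_mul, map_pow, hroot, hcompat ⟨c i, hc i⟩ (hcZ i)]
  rw [hres] at hz0
  have h0 := coeff_eq_zero_of_sum_eq_zero hPm (fun i => S₀.res ⟨c i, hc i⟩) hz0 i
  have h1 : ¬ IsUnit (⟨c i, hc i⟩ : S₀.O) := (S₀.res_eq_zero_iff _).1 h0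
  exact (mem_nonunits_iff_not_isUnit' S₀.O ⟨c i, hc i⟩).2 h1

variable [FiniteDimensional F E] [hP : Fact (Irreducible P)]

include hcompat in
/-- the compatibility with the constants -/
theorem resK_of_compat (a : K) (ha : a ∈ A) (h : algebraMap K E a ∈ Z) :
    resZ ⟨algebraMap K E a, h⟩ = algebraMap k (AdjoinRoot P) (π ⟨a, ha⟩) :=
  res_algebraMap_of_compat S₀ resZ
    (fun c h => by rw [hcompat c h, AdjoinRoot.algebraMap_eq]) a ha h

/-- **The constant reduction of the unique extension `Z` with residue field `AdjoinRoot P`.** -/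
noncomputable def constRedOfAdjoinRoot (hπ : Function.Surjective π)
    (hp : ∃ p : K, p ≠ 0 ∧ p ∈ A.nonunits) (harch : Arch S₀.O)
    (hdeg : P.natDegree = finrank F E) (hsurj : Function.Surjective resZ) :
    ConstRed (F := E) (Ft := AdjoinRoot P) A π :=
  haveI : Algebra.IsAlgebraic F E := Algebra.IsAlgebraic.of_finite F E
  constRedOfSingle S₀ hπ hp hlies
    (ArchExt.arch_of_comap (F := F) Z (by rw [hlies]; exact harch))
    (fun i : Fin P.natDegree => θ ^ (i : ℕ))
    (resIndep_pow S₀ hlies hPm resZ hker hcompat hθ hroot)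
    (by rw [Fintype.card_fin, hdeg]) resZ hsurj hker
    (resK_of_compat S₀ resZ hcompat)

@[simp] theorem constRedOfAdjoinRoot_O (hπ : Function.Surjective π)
    (hp : ∃ p : K, p ≠ 0 ∧ p ∈ A.nonunits) (harch : Arch S₀.O)
    (hdeg : P.natDegree = finrank F E) (hsurj : Function.Surjective resZ) :
    (constRedOfAdjoinRoot S₀ hlies hPm resZ hker hcompat hθ hroot hπ hp harch hdeg hsurj).O =
      Z := rfl

@[simp] theorem constRedOfAdjoinRoot_res (hπ : Function.Surjective π)
    (hp : ∃ p : K, p ≠ 0 ∧ p ∈ A.nonunits) (harch : Arch S₀.O)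
    (hdeg : P.natDegree = finrank F E) (hsurj : Function.Surjective resZ) :
    (constRedOfAdjoinRoot S₀ hlies hPm resZ hker hcompat hθ hroot hπ hp harch hdeg hsurj).res =
      resZ := rfl

/-- the kernel hypothesis in the form `¬ IsUnit` -/
theorem hker_of_not_isUnit {Ft' : Type*} [Field Ft'] {Z : ValuationSubring E} (resZ : Z →+* Ft')
    (h : ∀ z : Z, resZ z = 0 ↔ ¬ IsUnit z) (x : Z) : resZ x = 0 ↔ (x : E) ∈ Z.nonunits := by
  rw [h, mem_nonunits_iff_not_isUnit']

/-- **The constant reduction of the unique extension `Z` with residue field `AdjoinRoot P`**,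
kernel hypothesis in the form `¬ IsUnit` (the literal conclusion shape of
`VertMain.exists_vertComponent_main'`). -/
noncomputable def constRedOfAdjoinRoot' (hker' : ∀ z : Z, resZ z = 0 ↔ ¬ IsUnit z)
    (hπ : Function.Surjective π)
    (hp : ∃ p : K, p ≠ 0 ∧ p ∈ A.nonunits) (harch : Arch S₀.O)
    (hdeg : P.natDegree = finrank F E) (hsurj : Function.Surjective resZ) :
    ConstRed (F := E) (Ft := AdjoinRoot P) A π :=
  constRedOfAdjoinRoot S₀ hlies hPm resZ (hker_of_not_isUnit resZ hker') hcompat hθ hroot hπ hp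
    harch hdeg hsurj

@[simp] theorem constRedOfAdjoinRoot'_O (hker' : ∀ z : Z, resZ z = 0 ↔ ¬ IsUnit z)
    (hπ : Function.Surjective π)
    (hp : ∃ p : K, p ≠ 0 ∧ p ∈ A.nonunits) (harch : Arch S₀.O)
    (hdeg : P.natDegree = finrank F E) (hsurj : Function.Surjective resZ) :
    (constRedOfAdjoinRoot' S₀ hlies hPm resZ hcompat hθ hroot hker' hπ hp harch hdeg hsurj).O =
      Z := rfl

@[simp] theorem constRedOfAdjoinRoot'_res (hker' : ∀ z : Z, resZ z = 0 ↔ ¬ IsUnit z)
    (hπ : Function.Surjective π)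
    (hp : ∃ p : K, p ≠ 0 ∧ p ∈ A.nonunits) (harch : Arch S₀.O)
    (hdeg : P.natDegree = finrank F E) (hsurj : Function.Surjective resZ) :
    (constRedOfAdjoinRoot' S₀ hlies hPm resZ hcompat hθ hroot hker' hπ hp harch hdeg hsurj).res =
      resZ := rfl

end Main

end Fermat.Agent.BR3.ConstRedAdjoin
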