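import Mathlib
import Fermat.Agent.BR3.ConstRedAdjoin
import Fermat.Agent.BR3.VertResidue
import Fermat.Agent.BR3.ApproxCover
import Fermat.Agent.BR.Circle.Assembly

/-!
# Program C (S36), node (I7-CR), part 2: the constant reductions of a circle and of the vertical
component over it

* `exists_pow_valuation_le` : rank one in the form `|x| < 1 → ∃ n, |x| ^ n ≤ |y|`;
* `arch_of_constRed` : the valuation ring of a constant reduction over a rank-one base has rank
  one (`TwoVal.Arch`, element form);
* `circleConstRed C a ha1 ha2 happ : Val.ConstRed A (residue A)` with `.O = circleRing C a`,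
  `.res = circleRes C a` (`rfl`), residue field `RatFunc k`;
* `constRedVert` : **the constant reduction of the vertical component** `Z` over the circle
  `circleRing C a₀`, residue field `AdjoinRoot (vertBar q β ρ)`, from the literal clauses of the
  conclusion of `VertMain.exists_vertComponent_main'` (`.O = Z`, `.res = resZ` by `rfl`).
-/

set_option autoImplicit false
set_option linter.unusedSectionVars false

noncomputable section

namespace Fermat.Agent.BR3.CircleConstRed

open Polynomial Module AlgebraicCurve IsLocalRing Fermat.Agent.Red Fermat.Agent.Val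
  Fermat.Agent.BR.TwoVal Fermat.Agent.BR.Circle Fermat.Agent.BR3.ApproxCover
  Fermat.Agent.BR3.ConstRedAdjoin Fermat.Agent.BR3.VertResidue

/-! ### rank one -/

section Arch

variable {K F k Ft : Type*} [Field K] [Field F] [Algebra K F] [Field k] [Field Ft] [Algebra k Ft]
  {A : ValuationSubring K} {π : A →+* k}

/-- Rank one: the powers of an element of absolute value `< 1` tend to zero. -/
theorem exists_pow_valuation_le (hA : IsRankOne A) {x : K} (hx : A.valuation x < 1) {y : K}
    (hy : y ≠ 0) : ∃ n : ℕ, A.valuation x ^ n ≤ A.valuation y := by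
  have hxA : x ∈ A := (A.valuation_le_one_iff _).mp hx.le
  by_cases hyA : y ∈ A
  · have hnu : ¬ IsUnit (⟨x, hxA⟩ : A) := by
      intro hu
      have := (A.valuation_eq_one_iff ⟨x, hxA⟩).mp hu
      exact absurd hx (by rw [this]; exact lt_irrefl _)
    have hy0 : (⟨y, hyA⟩ : A) ≠ 0 := fun h0 => hy (congrArg Subtype.val h0)
    obtain ⟨n, w, hw⟩ := hA ⟨x, hxA⟩ hnu ⟨y, hyA⟩ hy0
    have hw' : x ^ n = y * (w : K) := by
      have := congrArg Subtype.val hw
      simpa using this
    refine ⟨n, ?_⟩
    rw [← map_pow, hw', map_mul]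
    exact mul_le_of_le_one_right' ((A.valuation_le_one_iff _).mpr w.2)
  · refine ⟨0, ?_⟩
    rw [pow_zero]
    exact (not_le.mp (fun h => hyA ((A.valuation_le_one_iff _).mp h))).le

/-- **The valuation ring of a constant reduction over a rank-one base has rank one.** -/
theorem arch_of_constRed (C : ConstRed (F := F) (Ft := Ft) A π) (hA : IsRankOne A) :
    Arch C.O := by
  intro x u hu hu0
  rcases eq_or_ne x 0 with rfl | hx0
  · exact ⟨0, by rw [zero_mul]; exact zero_mem _⟩
  obtain ⟨c, hc0, hcu, hcu'⟩ := exists_smul_unit C hu0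
  obtain ⟨d, hd0, hdx, -⟩ := exists_smul_unit C hx0
  -- `|c⁻¹| < 1`
  have hc : A.valuation c⁻¹ < 1 := by
    by_contra h
    have h1 : A.valuation c ≤ 1 := by
      have h2 : 1 ≤ A.valuation c⁻¹ := not_lt.mp h
      rw [map_inv₀] at h2
      have hpos : 0 < A.valuation c := zero_lt_iff.mpr ((Valuation.ne_zero_iff _).mpr hc0)
      exact (one_le_inv₀ hpos).mp h2
    have hcA : c ∈ A := (A.valuation_le_one_iff _).mp h1
    apply hcu'
    rw [Algebra.smul_def]
    exact Fermat.Agent.Val.mul_mem_nonunits_of_mem (B := C.O) ((C.algebraMap_mem_iff c).mpr hcA) hu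
  obtain ⟨n, hn⟩ := exists_pow_valuation_le hA hc hd0
  refine ⟨n, ?_⟩
  have hmem : d⁻¹ * (c⁻¹) ^ n ∈ A := by
    rw [← A.valuation_le_one_iff, map_mul, map_pow, map_inv₀]
    have hpos : 0 < A.valuation d := zero_lt_iff.mpr ((Valuation.ne_zero_iff _).mpr hd0)
    rw [inv_mul_le_iff₀ hpos, mul_one]
    exact hn
  have hkey : x * u ^ n = algebraMap K F (d⁻¹ * (c⁻¹) ^ n) * ((d • x) * (c • u) ^ n) := by
    have hd' : algebraMap K F d ≠ 0 := (_root_.map_ne_zero _).mpr hd0
    have hc' : algebraMap K F c ≠ 0 := (_root_.map_ne_zero _).mpr hc0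
    have h1 : (algebraMap K F c)⁻¹ ^ n * (algebraMap K F c) ^ n = 1 := by
      rw [← mul_pow, inv_mul_cancel₀ hc', one_pow]
    have h2 : (algebraMap K F d)⁻¹ * algebraMap K F d = 1 := inv_mul_cancel₀ hd'
    rw [Algebra.smul_def, Algebra.smul_def, map_mul, map_pow, map_inv₀, map_inv₀, mul_pow]
    calc x * u ^ n = ((algebraMap K F d)⁻¹ * algebraMap K F d) * x *
          (((algebraMap K F c)⁻¹ ^ n * (algebraMap K F c) ^ n) * u ^ n) := by
          rw [h1, h2, one_mul, one_mul]
      _ = _ := by ring
  rw [hkey]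
  exact mul_mem ((C.algebraMap_mem_iff _).mpr hmem) (mul_mem hdx (pow_mem hcu n))

end Arch

/-! ### the constant reduction of a circle -/

section Circle

variable {K : Type} {F : Type*} [Field K] [Field F] [Algebra K F]
  {A : ValuationSubring K} [IsAlgClosed (ResidueField A)]
  {T : Set (Place K F)} (C : AnnulusCore A T) (a : K)
  (ha1 : A.valuation C.thick < A.valuation a) (ha2 : A.valuation a < 1)

/-- **The constant reduction of the circle `|u| = |a|`**: valuation ring `circleRing C a`, residue
map `circleRes C a` onto `k(X)`, `X = res (u / a)`. -/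
def circleConstRed (happ : ApproxAt C a ha1 ha2) :
    ConstRed (F := F) (Ft := RatFunc (ResidueField A)) A (residue A) where
  O := circleRing C a ha1 ha2
  res := circleRes C a ha1 ha2
  res_surjective := circleRes_surjective C a ha1 ha2
  res_eq_zero_iff := fun y => circleRes_eq_zero_iff C a ha1 ha2 y
  algebraMap_mem_iff := fun c => algebraMap_mem_circleRing_iff C a ha1 ha2 c
  res_algebraMap := fun c hc hc' => circleRes_algebraMap C a ha1 ha2 c hc hc'
  approx := happ

@[simp] theorem circleConstRed_O (happ : ApproxAt C a ha1 ha2) :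
    (circleConstRed C a ha1 ha2 happ).O = circleRing C a ha1 ha2 := rfl

@[simp] theorem circleConstRed_res (happ : ApproxAt C a ha1 ha2) :
    (circleConstRed C a ha1 ha2 happ).res = circleRes C a ha1 ha2 := rfl

/-- The ring of a circle has rank one. -/
theorem arch_circleRing (hA : IsRankOne A) (happ : ApproxAt C a ha1 ha2) :
    Arch (circleRing C a ha1 ha2) :=
  arch_of_constRed (circleConstRed C a ha1 ha2 happ) hA

include C ha1 ha2 in
/-- A gauge is a nonzero nonunit of `A`. -/
theorem exists_nonunit_of_gauge : ∃ p : K, p ≠ 0 ∧ p ∈ A.nonunits :=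
  ⟨a, gauge_ne_zero (C := C) ha1, (A.mem_nonunits_iff).mpr ha2⟩

end Circle

/-! ### the constant reduction of the vertical component -/

section Vert

variable {K : Type} {F' F'' : Type*} [Field K] [Field F'] [Field F''] [Algebra K F']
  [Algebra K F''] [Algebra F' F''] [IsScalarTower K F' F''] [FiniteDimensional F' F'']
  {A : ValuationSubring K} [IsAlgClosed (ResidueField A)] {T' : Set (Place K F')}
  {q : ℕ} {β ρ : ResidueField A} [hP : Fact (Irreducible (vertBar q β ρ))]
  (C : AnnulusCore A T') (a₀ : K) (ha1 : A.valuation C.thick < A.valuation a₀)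
  (ha2 : A.valuation a₀ < 1) {Z : ValuationSubring F''}
  (resZ : Z →+* AdjoinRoot (vertBar q β ρ))

/-- **The constant reduction of the vertical component** `Z` over the circle `circleRing C a₀`:
residue field `AdjoinRoot (vertBar q β ρ)`; the hypotheses are the clauses of the conclusion of
`VertMain.exists_vertComponent_main'`. -/
def constRedVert (hA : IsRankOne A) (happ : ApproxAt C a₀ ha1 ha2) (hq : 2 ≤ q)
    (hdeg : finrank F' F'' = q)
    (hlies : Z.comap (algebraMap F' F'') = circleRing C a₀ ha1 ha2)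
    (hsurj : Function.Surjective resZ) (hker : ∀ z : Z, resZ z = 0 ↔ ¬ IsUnit z)
    (hcompat : ∀ (y : circleRing C a₀ ha1 ha2) (h : algebraMap F' F'' (y : F') ∈ Z),
      resZ ⟨algebraMap F' F'' (y : F'), h⟩ =
        AdjoinRoot.of (vertBar q β ρ) (circleRes C a₀ ha1 ha2 y))
    {θ : F''} (hθ : θ ∈ Z) (hroot : resZ ⟨θ, hθ⟩ = AdjoinRoot.root (vertBar q β ρ)) :
    ConstRed (F := F'') (Ft := AdjoinRoot (vertBar q β ρ)) A (residue A) :=
  constRedOfAdjoinRoot' (circleConstRed C a₀ ha1 ha2 happ) hlies (vertBar_monic hq) resZ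
    hcompat hθ hroot hker IsLocalRing.residue_surjective (exists_nonunit_of_gauge C a₀ ha1 ha2)
    (arch_circleRing C a₀ ha1 ha2 hA happ) (by rw [vertBar_natDegree hq, hdeg]) hsurj

section

variable (hA : IsRankOne A) (happ : ApproxAt C a₀ ha1 ha2) (hq : 2 ≤ q)
  (hdeg : finrank F' F'' = q)
  (hlies : Z.comap (algebraMap F' F'') = circleRing C a₀ ha1 ha2)
  (hsurj : Function.Surjective resZ) (hker : ∀ z : Z, resZ z = 0 ↔ ¬ IsUnit z)
  (hcompat : ∀ (y : circleRing C a₀ ha1 ha2) (h : algebraMap F' F'' (y : F') ∈ Z),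
    resZ ⟨algebraMap F' F'' (y : F'), h⟩ =
      AdjoinRoot.of (vertBar q β ρ) (circleRes C a₀ ha1 ha2 y))
  {θ : F''} (hθ : θ ∈ Z) (hroot : resZ ⟨θ, hθ⟩ = AdjoinRoot.root (vertBar q β ρ))

@[simp] theorem constRedVert_O :
    (constRedVert C a₀ ha1 ha2 resZ hA happ hq hdeg hlies hsurj hker hcompat hθ hroot).O = Z :=
  rfl

@[simp] theorem constRedVert_res :
    (constRedVert C a₀ ha1 ha2 resZ hA happ hq hdeg hlies hsurj hker hcompat hθ hroot).res =
      resZ := rfl

end

end Vert

end Fermat.Agent.BR3.CircleConstRed
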