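import Mathlib
import Fermat.Agent.BR.Circle.Basic
import Fermat.Agent.BR.AnnulusRot
import Fermat.Agent.BR3.InvFiniteTheta

/-!
# Program C (S36), node (I9-ze), part (i): an inertial automorphism rotates the circles of an annulus

`F / K` a function field, `A` a valuation subring of `K` with algebraically closed residue field
`k`, `C : Circle.AnnulusCore A T` the `K`-level contract of the tube `T` of a node (coordinate
`C.u`), `a` a gauge.  `g : SemilinearAut K F` with

* `hg : IsInertial A (baseAut g)` : the base automorphism preserves the valuation of `A` and acts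
  trivially on the residues;
* `hu : g • C.u = C.u` : the annulus coordinate is fixed;
* `hT : ∀ P, g • P ∈ T ↔ P ∈ T` : the tube is stable.

With the tame character `θ := theta A (baseAut g) a = residue of (g a / a)`:

* `ubar_smul_of_isInertial` : `ubar (g • P) = θ * ubar P` on the circle of gauge `a`;
* **`isRed_smul`** : `IsRed C a y ȳ → IsRed C a (g • y) (rotAut θ⁻¹ • ȳ)` : the reduction of `g • y`
  on the circle is `ȳ(θ⁻¹ X)`;
* `smul_mem_circleRing_iff` : `g • y ∈ circleRing C a ↔ y ∈ circleRing C a`;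
* `circleRes_smul'` : `circleRes ⟨g • y, _⟩ = rotAut θ⁻¹ • circleRes y`;
* `rotAut_smul_C_mul_X` : `rotAut z • (C β * X) = C z * (C β * X)`.
-/

set_option autoImplicit false
set_option linter.unusedSectionVars false

noncomputable section

namespace Fermat.Agent.BR3.CircleEquiv

open AlgebraicCurve IsLocalRing Fermat.Agent.Red Fermat.Agent.BR.InertiaRed
  Fermat.Agent.BR.AnnulusRed Fermat.Agent.BR.P1 Fermat.Agent.BR.Circle
  Fermat.Agent.BR3.InvFiniteTheta

variable {K F : Type*} [Field K] [Field F] [Algebra K F]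
  {A : ValuationSubring K} [IsAlgClosed (ResidueField A)] {T : Set (Place K F)}
  (C : AnnulusCore A T)

local notation "k" => ResidueField A

/-- The inverse of an inertial automorphism is inertial. -/
theorem isInertial_inv {s : K ≃+* K} (hs : IsInertial A s) : IsInertial A s⁻¹ := by
  have key : ∀ x : K, s (s⁻¹ x) = x := fun x => s.apply_symm_apply x
  refine ⟨fun x => ?_, fun x hx => ?_⟩
  · have := hs.val (s⁻¹ x)
    rw [key] at this
    exact this.symm
  · have hx' : s⁻¹ x ∈ A := by
      rw [← A.valuation_le_one_iff, ← hs.val, key, A.valuation_le_one_iff]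
      exact hx
    have := hs.res _ hx'
    rw [key] at this
    exact this.symm

omit [IsAlgClosed (ResidueField A)] in
/-- **Rotation of the reductions of the points of a circle** by an inertial automorphism fixing
the coordinate. -/
theorem ubar_smul_of_isInertial (g : SemilinearAut K F)
    (hg : IsInertial A (SemilinearAut.baseAut g)) {u : F} (hu : g • u = u) {a : K} (ha : a ≠ 0)
    {P : Place K F} (hv : A.valuation (evalAt P u) = A.valuation a) :
    ubar A u a (g • P) = theta A (SemilinearAut.baseAut g) a * ubar A u a P := by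
  unfold ubar angRes theta
  rw [evalAt_smul_of_fixed g P hu]
  set s := SemilinearAut.baseAut g with hs
  set c := evalAt P u with hc
  have h1 : A.valuation (c / a) = 1 := valuation_div_eq_one A ha hv
  have h1A : c / a ∈ A := mem_of_valuation_eq_one A h1
  have h2 : s (c / a) ∈ A := mem_of_valuation_eq_one A (by rw [hg.val, h1])
  have h3 : s a / a ∈ A := mem_of_valuation_eq_one A (valuation_apply_div hg ha)
  have hsa : s a ≠ 0 := by rwa [Ne, map_eq_zero_iff _ s.injective]
  have e : s c / a = (s a / a) * s (c / a) := by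
    rw [map_div₀]; field_simp
  rw [e, resOf_mul A h3 h2, hg.res _ h1A]

variable {C}

/-- **An inertial automorphism fixing the annulus coordinate rotates the reductions on a circle**:
the reduction of `g • y` is `ȳ(θ⁻¹ X)`, `θ` the residue of `g a / a`. -/
theorem isRed_smul (g : SemilinearAut K F) (hg : IsInertial A (SemilinearAut.baseAut g))
    (hu : g • C.u = C.u) (hT : ∀ P : Place K F, g • P ∈ T ↔ P ∈ T) {a : K} (ha : a ≠ 0)
    {y : F} {yb : RatFunc k} (h : IsRed C a y yb) :
    IsRed C a (g • y)
      (rotAut (theta A (SemilinearAut.baseAut g) a)⁻¹ (inv_ne_zero (theta_ne_zero hg ha)) • yb) := by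
  classical
  obtain ⟨E, hE⟩ := h
  set θ := theta A (SemilinearAut.baseAut g) a with hθ
  have hθ0 : θ ≠ 0 := theta_ne_zero hg ha
  refine ⟨E.image (fun c => θ * c), fun P hP hv hn => ?_⟩
  -- `P = g • P'`
  set P' := g⁻¹ • P with hP'
  have hgP' : g • P' = P := smul_inv_smul g P
  have hP'T : P' ∈ T := by rw [← hT, hgP']; exact hP
  have hv' : A.valuation (evalAt P' C.u) = A.valuation a := by
    rw [← hv, ← hgP', evalAt_smul_of_fixed g P' hu, hg.val]
  have hub : ubar A C.u a P = θ * ubar A C.u a P' := by
    rw [← hgP']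
    exact ubar_smul_of_isInertial g hg hu ha hv'
  have hn' : ubar A C.u a P' ∉ E := by
    intro hmem
    apply hn
    rw [hub]
    exact Finset.mem_image_of_mem _ hmem
  obtain ⟨d, hd, h1, h2⟩ := hE P' hP'T hv' hn'
  have hsd : SemilinearAut.baseAut g d ∈ A := by
    rw [← A.valuation_le_one_iff, hg.val, A.valuation_le_one_iff]
    exact hd
  refine ⟨SemilinearAut.baseAut g d, hsd, ?_, ?_⟩
  · have := isValueAt_smul g h1
    rwa [hgP'] at this
  · have hres : residue A ⟨SemilinearAut.baseAut g d, hsd⟩ = residue A ⟨d, hd⟩ := by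
      have := hg.res d hd
      rwa [resOf_of_mem A hsd, resOf_of_mem A hd] at this
    rw [hres, hub]
    have h3 := isValueAt_smul (rotAut θ⁻¹ (inv_ne_zero hθ0)) h2
    rw [rot_smul_placeAt, inv_inv] at h3
    have hb : SemilinearAut.baseAut (rotAut θ⁻¹ (inv_ne_zero hθ0)) (residue A ⟨d, hd⟩) =
        residue A ⟨d, hd⟩ := rfl
    rwa [hb] at h3

/-- The hypotheses pass to `g⁻¹`. -/
theorem inv_hyp (g : SemilinearAut K F) (hg : IsInertial A (SemilinearAut.baseAut g))
    (hu : g • C.u = C.u) (hT : ∀ P : Place K F, g • P ∈ T ↔ P ∈ T) :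
    IsInertial A (SemilinearAut.baseAut g⁻¹) ∧ g⁻¹ • C.u = C.u ∧
      ∀ P : Place K F, g⁻¹ • P ∈ T ↔ P ∈ T := by
  refine ⟨?_, ?_, fun P => ?_⟩
  · rw [SemilinearAut.baseAut_inv]
    exact isInertial_inv hg
  · conv_lhs => rw [← hu]
    exact inv_smul_smul g C.u
  · rw [← hT (g⁻¹ • P), smul_inv_smul]

section Ring

variable (g : SemilinearAut K F) (hg : IsInertial A (SemilinearAut.baseAut g))
  (hu : g • C.u = C.u) (hT : ∀ P : Place K F, g • P ∈ T ↔ P ∈ T) (a : K)
  (ha1 : A.valuation C.thick < A.valuation a) (ha2 : A.valuation a < 1)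

include hg hu hT ha1 in
/-- **The valuation ring of a circle is stable** under an inertial automorphism fixing the annulus
coordinate. -/
theorem smul_mem_circleRing_iff (y : F) :
    g • y ∈ circleRing C a ha1 ha2 ↔ y ∈ circleRing C a ha1 ha2 := by
  have ha : a ≠ 0 := by
    rintro rfl
    rw [map_zero] at ha1
    exact not_lt_zero ha1
  constructor
  · rintro ⟨yb, h⟩
    obtain ⟨hg', hu', hT'⟩ := inv_hyp g hg hu hT
    have := isRed_smul g⁻¹ hg' hu' hT' ha h
    rw [inv_smul_smul] at this
    exact ⟨_, this⟩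
  · rintro ⟨yb, h⟩
    exact ⟨_, isRed_smul g hg hu hT ha h⟩

include hg in
theorem gauge_theta_ne_zero (ha : a ≠ 0) : theta A (SemilinearAut.baseAut g) a ≠ 0 :=
  theta_ne_zero hg ha

include hg hu hT in
/-- **The residue map of a circle intertwines `g` with the rotation `X ↦ θ⁻¹ X`**, `θ` the
residue of `g a / a`. -/
theorem circleRes_smul' (ha : a ≠ 0) (y : circleRing C a ha1 ha2)
    (h : g • (y : F) ∈ circleRing C a ha1 ha2) :
    circleRes C a ha1 ha2 ⟨g • (y : F), h⟩ =
      rotAut (theta A (SemilinearAut.baseAut g) a)⁻¹ (inv_ne_zero (theta_ne_zero hg ha)) •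
        circleRes C a ha1 ha2 y :=
  circleRes_eq C a ha1 ha2 (y := ⟨g • (y : F), h⟩)
    (isRed_smul g hg hu hT ha (isRed_circleRes C a ha1 ha2 y))

end Ring

/-- The rotation `X ↦ z X` on a linear monomial. -/
theorem rotAut_smul_C_mul_X (z : k) (hz : z ≠ 0) (β : k) :
    rotAut z hz • (RatFunc.C β * RatFunc.X : RatFunc k) =
      RatFunc.C z * (RatFunc.C β * RatFunc.X) := by
  rw [smul_mul', rotAut_smul_X, ← RatFunc.algebraMap_eq_C, rotAut_smul_algebraMap,
    RatFunc.algebraMap_eq_C]
  ring

end Fermat.Agent.BR3.CircleEquiv
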