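import Mathlib
import Fermat.Agent.BR.SS.Setup
import Fermat.Agent.Val.ConstRed
import Fermat.Agent.BR.S0.SmoothFields
import Fermat.Agent.BR.S0.NodeFields
import Fermat.Agent.BR.S0.OfCharts
import Fermat.Prelude.Def_AlgebraicCurve_BaseChangeGalois

/-!
# Program C (S36), node A9, part 1: the semistable setup of a model with ANY finite family of
components, from its charts

`n`-component generalisation of `S0.TwoCompInput` / `TwoCompInput.ofAllCharts`
(`BR/S0/TwoCompInput`, `BR/S0/SmoothFields`, `BR/S0/OfCharts`).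

`MultiInput A π ι Ft ν` : the data of a model of `F / K` over the valuation ring `A` whose special
fibre has the components `v : ι` (residue function fields `Ft v / k`) and the nodes `e : ν`,
the node `e` joining the branch `s₁ e` of the component `src e` and the branch `s₂ e` of the
component `tgt e`:

* `C v : Val.ConstRed A π` : the constant reductions (valuation ring, residue map, constants, best
  approximation);
* `tube x` : the set of the places of `F / K` which specialise to the point `x` of the
  normalisation of the special fibre; the tubes form a PARTITION of the places (`cover`,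
  `disjoint`); the annular places of a node are attached to its source branch (`tube_tgt`);
* `smooth` : a `S0.SmoothChart` at every non-branch point, for its tube;
* `node_match`, `node_unit` : the node fields, for the tube of the source branch
  (`MultiInput.ofNodeCharts` : from a `S0.NodeChart` at every node).

`MultiInput.toSetup : SS.SemistableSetup A π ι Ft ν`, with `r P = x ↔ P ∈ tube x` (`r_eq_iff`),
`tube_toSetup`, and the transport of the reduction map by a semilinear automorphism which permutes
the tubes (`r_smul_of_tube`).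
-/

set_option autoImplicit false

namespace Fermat.Agent.BR3

open AlgebraicCurve Fermat.Agent.Red Fermat.Agent.Val Fermat.Agent.BR.SS Fermat.Agent.BR.S0

/-- The inputs of the semistable setup of a model with components `ι` and nodes `ν`. -/
structure MultiInput {K F k : Type*} [Field K] [Field F] [Algebra K F] [Field k]
    (A : ValuationSubring K) (π : A →+* k) (ι : Type*) (Ft : ι → Type*)
    [∀ v, Field (Ft v)] [∀ v, Algebra k (Ft v)] (ν : Type*) where
  /-- the constant reductions of the components -/
  C : ∀ v, ConstRed (F := F) (Ft := Ft v) A π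
  /-- distinct components have distinct valuation rings -/
  O_injective : Function.Injective fun v => (C v).O
  /-- the two components through a node -/
  src : ν → ι
  tgt : ν → ι
  /-- the branch of the node on the component `src e` -/
  s₁ : ∀ e, Place k (Ft (src e))
  /-- the branch of the node on the component `tgt e` -/
  s₂ : ∀ e, Place k (Ft (tgt e))
  branch_injective : Function.Injective
    (Sum.elim (fun e => (⟨src e, s₁ e⟩ : Σ v, Place k (Ft v))) (fun e => ⟨tgt e, s₂ e⟩))
  connected : ∀ T : Set ι, T.Nonempty → (∀ e, src e ∈ T ↔ tgt e ∈ T) → T = Set.univ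
  /-- the tube of a point of the normalisation of the special fibre -/
  tube : (Σ v, Place k (Ft v)) → Set (Place K F)
  /-- annular places are attached to the source branch -/
  tube_tgt : ∀ e, tube ⟨tgt e, s₂ e⟩ = ∅
  cover : ∀ P, ∃ x, P ∈ tube x
  disjoint : ∀ P x x', P ∈ tube x → P ∈ tube x' → x = x'
  /-- a smooth chart at every non-branch point -/
  smooth : ∀ v (Q : Place k (Ft v)),
    (∀ e, (⟨v, Q⟩ : Σ v, Place k (Ft v)) ≠ ⟨src e, s₁ e⟩) →
    (∀ e, (⟨v, Q⟩ : Σ v, Place k (Ft v)) ≠ ⟨tgt e, s₂ e⟩) →
    SmoothChart A (C v).O (C v).res Q (tube ⟨v, Q⟩)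
  /-- matching at a node -/
  node_match : ∀ (e : ν) (y : F) (h₁ : y ∈ (C (src e)).O) (h₂ : y ∈ (C (tgt e)).O),
    (∀ P ∈ tube ⟨src e, s₁ e⟩, 0 ≤ P.ord y) →
    ∃ c : k, IsValueAt (s₁ e) ((C (src e)).res ⟨y, h₁⟩) c ∧
      IsValueAt (s₂ e) ((C (tgt e)).res ⟨y, h₂⟩) c
  /-- a nonzero value at a node excludes zeros in its tube -/
  node_unit : ∀ (e : ν) (y : F) (h₁ : y ∈ (C (src e)).O) (_h₂ : y ∈ (C (tgt e)).O),
    (∀ P ∈ tube ⟨src e, s₁ e⟩, 0 ≤ P.ord y) →
    (∃ c : k, c ≠ 0 ∧ IsValueAt (s₁ e) ((C (src e)).res ⟨y, h₁⟩) c) →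
    ∀ P ∈ tube ⟨src e, s₁ e⟩, P.ord y = 0

namespace MultiInput

variable {K F k : Type*} [Field K] [Field F] [Algebra K F] [Field k]
  {A : ValuationSubring K} {π : A →+* k} {ι : Type*} {Ft : ι → Type*}
  [∀ v, Field (Ft v)] [∀ v, Algebra k (Ft v)] {ν : Type*}

/-- The inputs with the node fields supplied by a `NodeChart` at every node. -/
def ofNodeCharts (C : ∀ v, ConstRed (F := F) (Ft := Ft v) A π)
    (O_injective : Function.Injective fun v => (C v).O) (src tgt : ν → ι)
    (s₁ : ∀ e, Place k (Ft (src e))) (s₂ : ∀ e, Place k (Ft (tgt e)))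
    (branch_injective : Function.Injective
      (Sum.elim (fun e => (⟨src e, s₁ e⟩ : Σ v, Place k (Ft v))) (fun e => ⟨tgt e, s₂ e⟩)))
    (connected : ∀ T : Set ι, T.Nonempty → (∀ e, src e ∈ T ↔ tgt e ∈ T) → T = Set.univ)
    (tube : (Σ v, Place k (Ft v)) → Set (Place K F))
    (tube_tgt : ∀ e, tube ⟨tgt e, s₂ e⟩ = ∅) (cover : ∀ P, ∃ x, P ∈ tube x)
    (disjoint : ∀ P x x', P ∈ tube x → P ∈ tube x' → x = x')
    (smooth : ∀ v (Q : Place k (Ft v)),
      (∀ e, (⟨v, Q⟩ : Σ v, Place k (Ft v)) ≠ ⟨src e, s₁ e⟩) →
      (∀ e, (⟨v, Q⟩ : Σ v, Place k (Ft v)) ≠ ⟨tgt e, s₂ e⟩) →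
      SmoothChart A (C v).O (C v).res Q (tube ⟨v, Q⟩))
    (chart : ∀ e, NodeChart A (C (src e)).O (C (tgt e)).O (C (src e)).res (C (tgt e)).res
      (s₁ e) (s₂ e) (tube ⟨src e, s₁ e⟩)) :
    MultiInput (F := F) A π ι Ft ν where
  C := C
  O_injective := O_injective
  src := src
  tgt := tgt
  s₁ := s₁
  s₂ := s₂
  branch_injective := branch_injective
  connected := connected
  tube := tube
  tube_tgt := tube_tgt
  cover := cover
  disjoint := disjoint
  smooth := smooth
  node_match e y h₁ h₂ hT :=
    (chart e).node_match (C (src e)).res_algebraMap (C (tgt e)).res_algebraMap y h₁ h₂ hT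
  node_unit e y h₁ h₂ hT hc :=
    (chart e).node_unit (C (src e)).res_algebraMap (C (tgt e)).res_algebraMap
      (ConstRed_inv_mem_of_pi_ne_zero (C (src e))) y h₁ h₂ hT hc

variable (I : MultiInput (F := F) A π ι Ft ν)

/-- **The reduction map of places**: the point whose tube contains the place. -/
noncomputable def r (P : Place K F) : Σ v, Place k (Ft v) := (I.cover P).choose

theorem mem_tube_r (P : Place K F) : P ∈ I.tube (I.r P) := (I.cover P).choose_spec

theorem r_eq_iff {P : Place K F} {x : Σ v, Place k (Ft v)} : I.r P = x ↔ P ∈ I.tube x :=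
  ⟨fun h => h ▸ I.mem_tube_r P, fun h => I.disjoint P _ _ (I.mem_tube_r P) h⟩

theorem setOf_r_eq (x : Σ v, Place k (Ft v)) : {P | I.r P = x} = I.tube x := by
  ext P
  exact I.r_eq_iff

theorem r_ne_tgt (P : Place K F) (e : ν) : I.r P ≠ ⟨I.tgt e, I.s₂ e⟩ := by
  intro h
  have h1 := I.r_eq_iff.mp h
  rw [I.tube_tgt e] at h1
  exact h1

/-- **The semistable setup** of a model with components `ι` and nodes `ν`. -/
noncomputable def toSetup : SemistableSetup (F := F) A π ι Ft ν where
  O v := (I.C v).O
  res v := (I.C v).res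
  res_surjective v := (I.C v).res_surjective
  res_eq_zero_iff v := (I.C v).res_eq_zero_iff
  algebraMap_mem_iff v := (I.C v).algebraMap_mem_iff
  res_algebraMap v := (I.C v).res_algebraMap
  approx v := (I.C v).approx
  O_injective := I.O_injective
  src := I.src
  tgt := I.tgt
  s₁ := I.s₁
  s₂ := I.s₂
  branch_injective := I.branch_injective
  connected := I.connected
  r := I.r
  r_ne_tgt := I.r_ne_tgt
  conservation := by
    intro v y hy D hD Q hs ht
    have hch : SmoothChart A (I.C v).O (I.C v).res Q {P | I.r P = ⟨v, Q⟩} := by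
      rw [I.setOf_r_eq]
      exact I.smooth v Q hs ht
    exact conservation_of_smoothChart (I.C v) I.r ⟨v, Q⟩ Q hch y hy D hD
  node_match := by
    intro e y h₁ h₂ hT
    exact I.node_match e y h₁ h₂ fun P hP => hT P (I.r_eq_iff.mpr hP)
  node_unit := by
    intro e y h₁ h₂ hT hc P hP
    exact I.node_unit e y h₁ h₂ (fun P hP => hT P (I.r_eq_iff.mpr hP)) hc P (I.r_eq_iff.mp hP)

@[simp] theorem toSetup_O (v : ι) : I.toSetup.O v = (I.C v).O := rfl

@[simp] theorem toSetup_res (v : ι) : I.toSetup.res v = (I.C v).res := rfl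

@[simp] theorem toSetup_r : I.toSetup.r = I.r := rfl

@[simp] theorem toSetup_src (e : ν) : I.toSetup.src e = I.src e := rfl

@[simp] theorem toSetup_tgt (e : ν) : I.toSetup.tgt e = I.tgt e := rfl

@[simp] theorem toSetup_s₁ (e : ν) : I.toSetup.s₁ e = I.s₁ e := rfl

@[simp] theorem toSetup_s₂ (e : ν) : I.toSetup.s₂ e = I.s₂ e := rfl

/-- The places which reduce to a point are the places of its tube. -/
theorem toSetup_r_eq_iff {P : Place K F} {x : Σ v, Place k (Ft v)} :
    I.toSetup.r P = x ↔ P ∈ I.tube x := I.r_eq_iff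

/-- A place is smooth iff it lies in the tube of no source branch. -/
theorem isSmoothPlace_iff (P : Place K F) :
    I.toSetup.IsSmoothPlace P ↔ ∀ e, P ∉ I.tube ⟨I.src e, I.s₁ e⟩ := by
  unfold SemistableSetup.IsSmoothPlace SemistableSetup.IsBranch
  constructor
  · intro h e he
    exact h ⟨e, Or.inl (I.r_eq_iff.mpr he)⟩
  · rintro h ⟨e, he | he⟩
    · exact h e (I.r_eq_iff.mp he)
    · exact I.r_ne_tgt P e he

/-- **Transport of the reduction map**: if `P ↦ g P` maps the tube of every point `x` into the
tube of `σ x`, then `r (g P) = σ (r P)` (e.g. `g` a semilinear automorphism inducing the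
permutation `σ` of the points of the special fibre; `σ = id` for inertia acting trivially). -/
theorem r_map_of_tube (g : Place K F → Place K F)
    (σ : (Σ v, Place k (Ft v)) → Σ v, Place k (Ft v))
    (h : ∀ x, ∀ P ∈ I.tube x, g P ∈ I.tube (σ x)) (P : Place K F) : I.r (g P) = σ (I.r P) :=
  I.r_eq_iff.mpr (h _ P (I.mem_tube_r P))

end MultiInput

end Fermat.Agent.BR3
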