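/-
Program C (S36), nodes A7/A8 (helper8): THE COMPOSITE OF A VALUATION RING WITH A VALUATION OF ITS
RESIDUE FIELD ("the closed point of a branch").

`O` a valuation ring of `F`, `res : O →+* κ` a ring homomorphism to a field with kernel `𝔪_O`
(e.g. `S₀.res w : S₀.O w →+* Ft₀ w`), `w : Valuation κ Γ` (e.g. `(S₀.s₁ e).adicValuation`).

* `compVal O res hres w : ValuationSubring F` : `{x ∈ O | w (res x) ≤ 1}`;
* `mem_compVal_iff`, `compVal_le : compVal O res hres w ≤ O`;
* `mem_nonunits_compVal_iff : x ∈ (compVal O res hres w).nonunits ↔ ∃ h : x ∈ O, w (res x) < 1`;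
* `mem_nonunits_compVal_of_mem_nonunits : 𝔪_O ⊆ 𝔪_{compVal}`.

USE: a local subring `D ⊆ F` is contained in `compVal` iff its elements are regular at the branch,
and it is DOMINATED by `compVal` iff moreover its non-units vanish at the branch — these are the
fields `le₁`, `branch₁` of `CircleN.BranchDataN` and the hypotheses on `𝒪` of `BR3/KummerEnd`.
-/
import Mathlib

set_option autoImplicit false

namespace Fermat.Agent.BR3.CompVal

variable {F : Type*} [Field F] (O : ValuationSubring F) {κ : Type*} [Field κ] (res : O →+* κ)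
  (hres : ∀ x : O, res x = 0 ↔ (x : F) ∈ O.nonunits)
  {Γ : Type*} [LinearOrderedCommGroupWithZero Γ] (w : Valuation κ Γ)

/-- an element of `O` outside the maximal ideal has an inverse in `O`, and the residues are inverse
to each other -/
theorem res_mul_res_inv {x : F} (hx : x ∈ O) (hxn : x ∉ O.nonunits) :
    ∃ h : x⁻¹ ∈ O, res ⟨x, hx⟩ * res ⟨x⁻¹, h⟩ = 1 := by
  have hx0 : x ≠ 0 := by
    rintro rfl
    apply hxn
    rw [O.mem_nonunits_iff, map_zero]
    exact zero_lt_one
  have hv : O.valuation x = 1 := by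
    rw [O.mem_nonunits_iff, not_lt] at hxn
    exact le_antisymm ((O.valuation_le_one_iff _).mpr hx) hxn
  have hinv : x⁻¹ ∈ O := by
    rw [← O.valuation_le_one_iff, map_inv₀, hv, inv_one]
  refine ⟨hinv, ?_⟩
  rw [← map_mul]
  have : (⟨x, hx⟩ : O) * ⟨x⁻¹, hinv⟩ = 1 := Subtype.ext (mul_inv_cancel₀ hx0)
  rw [this, map_one]

/-- **The composite valuation ring** `{x ∈ O | w (res x) ≤ 1}`. -/
def compVal : ValuationSubring F where
  carrier := {x | ∃ h : x ∈ O, w (res ⟨x, h⟩) ≤ 1}
  mul_mem' := by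
    rintro x y ⟨hx, hwx⟩ ⟨hy, hwy⟩
    refine ⟨O.mul_mem _ _ hx hy, ?_⟩
    have : (⟨x * y, O.mul_mem _ _ hx hy⟩ : O) = ⟨x, hx⟩ * ⟨y, hy⟩ := rfl
    rw [this, map_mul, map_mul]
    exact mul_le_one' hwx hwy
  one_mem' := by
    refine ⟨O.one_mem, ?_⟩
    have : (⟨1, O.one_mem⟩ : O) = 1 := rfl
    rw [this, map_one, map_one]
  add_mem' := by
    rintro x y ⟨hx, hwx⟩ ⟨hy, hwy⟩
    refine ⟨O.add_mem _ _ hx hy, ?_⟩
    have : (⟨x + y, O.add_mem _ _ hx hy⟩ : O) = ⟨x, hx⟩ + ⟨y, hy⟩ := rfl
    rw [this, map_add]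
    exact (w.map_add _ _).trans (max_le hwx hwy)
  zero_mem' := by
    refine ⟨O.zero_mem, ?_⟩
    have : (⟨0, O.zero_mem⟩ : O) = 0 := rfl
    rw [this, map_zero, map_zero]
    exact zero_le_one
  neg_mem' := by
    rintro x ⟨hx, hwx⟩
    refine ⟨O.neg_mem _ hx, ?_⟩
    have : (⟨-x, O.neg_mem _ hx⟩ : O) = -⟨x, hx⟩ := rfl
    rw [this, map_neg, Valuation.map_neg]
    exact hwx
  mem_or_inv_mem' := by
    intro x
    by_cases hx : x ∈ O
    · by_cases hxn : x ∈ O.nonunits
      · left
        refine ⟨hx, ?_⟩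
        rw [(hres ⟨x, hx⟩).mpr hxn, map_zero]
        exact zero_le_one
      · obtain ⟨hinv, hmul⟩ := res_mul_res_inv O res hx hxn
        rcases le_total (w (res ⟨x, hx⟩)) 1 with h | h
        · exact Or.inl ⟨hx, h⟩
        · right
          refine ⟨hinv, ?_⟩
          have h1 := congrArg w hmul
          rw [map_mul, map_one] at h1
          by_contra hcon
          push Not at hcon
          have h2 : (1 : Γ) < w (res ⟨x, hx⟩) * w (res ⟨x⁻¹, hinv⟩) :=
            calc (1 : Γ) = 1 * 1 := (one_mul 1).symm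
              _ < w (res ⟨x, hx⟩) * w (res ⟨x⁻¹, hinv⟩) :=
                mul_lt_mul_of_le_of_lt_of_nonneg_of_pos h hcon zero_le_one
                  (lt_of_lt_of_le zero_lt_one h)
          rw [h1] at h2
          exact lt_irrefl _ h2
    · right
      have hinv : x⁻¹ ∈ O := (O.mem_or_inv_mem x).resolve_left hx
      refine ⟨hinv, ?_⟩
      have hn : x⁻¹ ∈ O.nonunits := by
        rw [O.mem_nonunits_iff, map_inv₀]
        have h1 : 1 < O.valuation x := by
          rw [← not_le, O.valuation_le_one_iff]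
          exact hx
        exact inv_lt_one_of_one_lt₀ h1
      rw [(hres ⟨x⁻¹, hinv⟩).mpr hn, map_zero]
      exact zero_le_one

theorem mem_compVal_iff {x : F} :
    x ∈ compVal O res hres w ↔ ∃ h : x ∈ O, w (res ⟨x, h⟩) ≤ 1 := Iff.rfl

theorem compVal_le : compVal O res hres w ≤ O := fun _ hx => hx.1

/-- **The maximal ideal of the composite**: the elements of `O` whose residue has valuation `< 1`. -/
theorem mem_nonunits_compVal_iff {x : F} :
    x ∈ (compVal O res hres w).nonunits ↔ ∃ h : x ∈ O, w (res ⟨x, h⟩) < 1 := by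
  rw [ValuationSubring.mem_nonunits_iff_or]
  constructor
  · rintro (rfl | hinv)
    · refine ⟨O.zero_mem, ?_⟩
      have : (⟨0, O.zero_mem⟩ : O) = 0 := rfl
      rw [this, map_zero, map_zero]
      exact zero_lt_one
    · have hx : x ∈ compVal O res hres w :=
        ((compVal O res hres w).mem_or_inv_mem x).resolve_right hinv
      obtain ⟨hxO, hwx⟩ := hx
      refine ⟨hxO, lt_of_le_of_ne hwx ?_⟩
      intro h1
      apply hinv
      have hxn : x ∉ O.nonunits := by
        intro hn
        rw [(hres ⟨x, hxO⟩).mpr hn, map_zero] at h1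
        exact zero_ne_one h1
      obtain ⟨hinvO, hmul⟩ := res_mul_res_inv O res hxO hxn
      refine ⟨hinvO, ?_⟩
      have h2 := congrArg w hmul
      rw [map_mul, map_one, h1, one_mul] at h2
      exact h2.le
  · rintro ⟨hxO, hwx⟩
    by_cases hx0 : x = 0
    · exact Or.inl hx0
    · right
      rintro ⟨hinvO, hwinv⟩
      have h1 : (⟨x, hxO⟩ : O) * ⟨x⁻¹, hinvO⟩ = 1 := Subtype.ext (mul_inv_cancel₀ hx0)
      have h2 := congrArg (fun z => w (res z)) h1
      simp only [map_mul, map_one] at h2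
      have h3 : w (res ⟨x, hxO⟩) * w (res ⟨x⁻¹, hinvO⟩) < 1 :=
        calc w (res ⟨x, hxO⟩) * w (res ⟨x⁻¹, hinvO⟩) ≤ w (res ⟨x, hxO⟩) * 1 :=
              mul_le_mul_right hwinv _
          _ = w (res ⟨x, hxO⟩) := mul_one _
          _ < 1 := hwx
      rw [h2] at h3
      exact lt_irrefl _ h3

/-- The maximal ideal of `O` lies in the maximal ideal of the composite. -/
theorem mem_nonunits_compVal_of_mem_nonunits {x : F} (hx : x ∈ O.nonunits) :
    x ∈ (compVal O res hres w).nonunits :=
  (ValuationSubring.nonunits_le_nonunits.mpr (compVal_le O res hres w)) hx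

end Fermat.Agent.BR3.CompVal
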