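import Fermat.Agent.BR3.MultiVal

/-!
# Program C, node (C-NR4), complement: integral closure and exhaustion for a full family

`D : MultiVal.Full O₀ O ι` (finitely many rank one valuation subrings `O v` of `E` over `O₀`,
pairwise separated, `∑ f_v = [E : F]`).

* `Full.isIntegralElem_iff` : **(T3)** `⋂ O v` is the integral closure of `O₀` in `E`;
* `Full.le_of_nonunits` : if the non-units of `O₃` in `⋂ O v` are non-units of `O v`, then
  `O v ≤ O₃`;
* `Full.exists_eq_of_comap_eq` : **(T4) EXHAUSTION**: every valuation subring of `E` over `O₀`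
  is one of the `O v`.
-/

set_option autoImplicit false

namespace Fermat.Agent.BR3.MultiVal

open Fermat.Agent.Val Fermat.Agent.BR.TwoVal

variable {F E : Type*} [Field F] [Field E] [Algebra F E]

namespace Full

variable {O₀ : ValuationSubring F} {V : Type*} [Fintype V] {O : V → ValuationSubring E}
variable {ι : V → Type*} [∀ v, Fintype (ι v)]

theorem nonempty_index [FiniteDimensional F E] (D : Full O₀ O ι) : Nonempty V := by
  by_contra h
  rw [not_nonempty_iff] at h
  have h1 := D.card_eq
  rw [Finset.univ_eq_empty, Finset.sum_empty] at h1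
  exact (Module.finrank_pos (R := F) (M := E)).ne h1

/-- **(T3)** `⋂ O v` is the integral closure of `O₀` in `E`. -/
theorem isIntegralElem_iff [FiniteDimensional F E] (D : Full O₀ O ι) (w : E) :
    ((algebraMap F E).comp O₀.subtype).IsIntegralElem w ↔ ∀ v, w ∈ O v := by
  classical
  have S := D.setup
  constructor
  · intro h v
    exact mem_of_isIntegralElem (S.lies v) h
  · intro hw
    obtain ⟨x', b, -, -, hb, -⟩ := D.exists_basis
    let _ : Algebra O₀ E := ((algebraMap F E).comp O₀.subtype).toAlgebra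
    have hsmul : ∀ (a : O₀) (z : E), a • z = (a : F) • z := fun a z => by
      rw [Algebra.smul_def, Algebra.smul_def]
      rfl
    let N : Submodule O₀ E := Submodule.span O₀ (Set.range b)
    have hbt : ∀ t v, b t ∈ O v := fun t => by
      rw [hb]
      intro t'
      rw [b.repr_self, Finsupp.single_apply]
      split_ifs
      · exact O₀.one_mem
      · exact O₀.zero_mem
    have hN : ∀ z : E, z ∈ N ↔ ∀ v, z ∈ O v := by
      intro z
      constructor
      · intro hz
        induction hz using Submodule.span_induction with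
        | mem z hz =>
          obtain ⟨t, rfl⟩ := hz
          exact hbt t
        | zero => exact fun v => (O v).zero_mem
        | add z z' _ _ hz hz' => exact fun v => (O v).add_mem _ _ (hz v) (hz' v)
        | smul a z _ hz =>
          rw [hsmul]
          exact fun v => S.smul_mem v a.2 (hz v)
      · intro hz
        have hz' := (hb z).1 hz
        rw [← b.sum_repr z]
        refine sum_mem fun t _ => ?_
        have h1 : b.repr z t • b t = (⟨b.repr z t, hz' t⟩ : O₀) • b t :=
          (hsmul ⟨b.repr z t, hz' t⟩ (b t)).symm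
        rw [h1]
        exact Submodule.smul_mem _ _ (Submodule.subset_span ⟨t, rfl⟩)
    have hNbot : N ≠ ⊥ := by
      intro h
      have h1 : (1 : E) ∈ N := (hN 1).2 fun v => (O v).one_mem
      rw [h, Submodule.mem_bot] at h1
      exact one_ne_zero h1
    have hNfg : N.FG := Submodule.fg_span (Set.finite_range b)
    have hint : IsIntegral O₀ w := by
      refine isIntegral_of_smul_mem_submodule N hNbot hNfg w fun n hn => ?_
      rw [hN] at hn ⊢
      rw [smul_eq_mul]
      exact fun v => (O v).mul_mem _ _ (hw v) (hn v)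
    exact hint

/-- If the non-units of `O₃` in `⋂ O w` are non-units of `O v`, then `O v ≤ O₃`. -/
theorem le_of_nonunits (S : Setup O₀ O) {O₃ : ValuationSubring E}
    (hS₃ : ∀ w, (∀ u, w ∈ O u) → w ∈ O₃) (v : V)
    (h : ∀ w, (∀ u, w ∈ O u) → w ∈ O₃.nonunits → w ∈ (O v).nonunits) : O v ≤ O₃ := by
  classical
  intro x hx
  obtain ⟨ε, hε, hεw⟩ := S.exists_idem_univ v (fun _ : Unit => x)
  have hεv : ε ∈ O v := mem_of_sub_one_mem_nonunits (O v) hε
  have hεR : ∀ u, ε ∈ O u := fun u => by
    by_cases hu : u = v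
    · rw [hu]
      exact hεv
    · exact mem_of_mem_nonunits (O u) (hεw u hu).1
  have hxεR : ∀ u, x * ε ∈ O u := fun u => by
    by_cases hu : u = v
    · rw [hu]
      exact (O v).mul_mem _ _ hx hεv
    · exact mem_of_mem_nonunits (O u) ((hεw u hu).2 ())
  have hεn : ε ∉ (O v).nonunits := notMem_nonunits_of_sub_one_mem (O v) hε
  have hεn₃ : ε ∉ O₃.nonunits := fun h3 => hεn (h ε hεR h3)
  have hinv : ε⁻¹ ∈ O₃ := inv_mem_of_notMem_nonunits O₃ hεn₃
  have hε0 : ε ≠ 0 := fun h0 => hεn (h0 ▸ zero_mem_nonunits (O v))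
  have hx' : x = (x * ε) * ε⁻¹ := by
    rw [mul_assoc, mul_inv_cancel₀ hε0, mul_one]
  rw [hx']
  exact O₃.mul_mem _ _ (hS₃ _ hxεR) hinv

/-- **(T4)** EXHAUSTION: the `O v` are the only valuation subrings of `E` over `O₀`. -/
theorem exists_eq_of_comap_eq [FiniteDimensional F E] (D : Full O₀ O ι)
    (O₃ : ValuationSubring E) (h₃ : O₃.comap (algebraMap F E) = O₀) : ∃ v, O₃ = O v := by
  classical
  have S := D.setup
  have hS₃ : ∀ w, (∀ u, w ∈ O u) → w ∈ O₃ := fun w h =>
    mem_of_isIntegralElem h₃ ((D.isIntegralElem_iff w).2 h)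
  by_cases htop : ∃ y : E, y ∉ O₃
  · by_contra hne
    push Not at hne
    -- for every `v` an element of `⋂ O u`, non-unit of `O₃`, unit of `O v`
    have hex : ∀ v, ∃ x : E, (∀ u, x ∈ O u) ∧ x ∈ O₃.nonunits ∧ x ∉ (O v).nonunits := by
      intro v
      by_contra hcon
      push Not at hcon
      exact hne v (Arch.eq_of_le (S.arch v) (le_of_nonunits S hS₃ v hcon) htop)
    choose x hxR hx₃ hxv using hex
    have hidem : ∀ v, ∃ ε : E, ε - 1 ∈ (O v).nonunits ∧ ∀ w, w ≠ v → ε ∈ (O w).nonunits := by
      intro v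
      obtain ⟨ε, hε, hεw⟩ := S.exists_idem_univ v (fun t : Empty => t.elim)
      exact ⟨ε, hε, fun w hw => (hεw w hw).1⟩
    choose ε hε hεw using hidem
    have hεR : ∀ v u, ε v ∈ O u := fun v u => by
      by_cases hu : u = v
      · rw [hu]
        exact mem_of_sub_one_mem_nonunits (O v) (hε v)
      · exact mem_of_mem_nonunits (O u) (hεw v u hu)
    set z : E := ∑ v, x v * ε v with hz
    have hz₃ : z ∈ O₃.nonunits :=
      sum_mem_nonunits O₃ _ _ fun v _ => mul_mem_nonunits_right O₃ (hx₃ v) (hS₃ _ (hεR v))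
    have hzw : ∀ w, z - x w ∈ (O w).nonunits := by
      intro w
      have h1 : z - x w = x w * (ε w - 1) + ∑ v ∈ Finset.univ.erase w, x v * ε v := by
        rw [hz, ← Finset.add_sum_erase _ _ (Finset.mem_univ w)]
        ring
      rw [h1]
      refine add_mem_nonunits (O w) (mul_mem_nonunits_of_mem (O w) (hxR w w) (hε w))
        (sum_mem_nonunits (O w) _ _ fun v hv => ?_)
      exact mul_mem_nonunits_of_mem (O w) (hxR v w) (hεw v w (Finset.ne_of_mem_erase hv).symm)
    have hzR : ∀ w, z ∈ O w := fun w => by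
      have h1 : z = (z - x w) + x w := by ring
      rw [h1]
      exact (O w).add_mem _ _ (mem_of_mem_nonunits (O w) (hzw w)) (hxR w w)
    have hzn : ∀ w, z ∉ (O w).nonunits := fun w h => by
      apply hxv w
      have h1 : x w = z - (z - x w) := by ring
      rw [h1]
      exact sub_mem_nonunits (O w) h (hzw w)
    obtain ⟨v₀⟩ := D.nonempty_index
    have hz0 : z ≠ 0 := fun h0 => hzn v₀ (h0 ▸ zero_mem_nonunits (O v₀))
    have hzinv : z⁻¹ ∈ O₃ := hS₃ _ fun w => inv_mem_of_notMem_nonunits (O w) (hzn w)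
    apply one_notMem_nonunits O₃
    rw [← inv_mul_cancel₀ hz0]
    exact mul_mem_nonunits_of_mem O₃ hzinv hz₃
  · -- the degenerate case `O₃ = ⊤`
    push Not at htop
    have hO₀ : ∀ c : F, c ∈ O₀ := fun c => by
      rw [← h₃, ValuationSubring.mem_comap]
      exact htop _
    obtain ⟨x', b, -, -, hb, -⟩ := D.exists_basis
    obtain ⟨v₀⟩ := D.nonempty_index
    refine ⟨v₀, ?_⟩
    ext y
    exact ⟨fun _ => (hb y).2 (fun t => hO₀ _) v₀, fun _ => htop y⟩

end Full

end Fermat.Agent.BR3.MultiVal
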