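import Fermat.Agent.BR3.FibreProdMidNorm
import Fermat.Agent.BR3.MultiValExhaust
import Fermat.Agent.BR.Separate

/-!
# Program C, node I3 (MID), part 4: the full situation over `can` along `α₂`

`F₁ = F̄_{Mq}`, `F₂ = F̄_{Mq²}`, `α₂ : F₁ → F₂` the inclusion (degree `q`), `O1` the Gauss valuation
subring of `F₁` at `∞` (the component `can`), `κ = res₁(O1) ⊆ k((s))` its residue field.

* `arch_w2`, `exists_notMem_w2`, `exists_notMem_w1` : the middle valuations have rank one and are
  proper;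
* `kappaCan`, `isIntegral_thetaL`, `fMid = [κ(θ j̃) : κ]`, `fMid_pos`;
* `resIndep_w1` (`{1}`), `resIndep_w2` (`1, Ũ, …, Ũ^{fMid-1}`, `Ũ = U/(ζ^{b+1} - 1)`) :
  residue-independent families over `O1`;
* `resw2_algebraMap` (constants), `resw2_Utilde_of_pow` : `res_{w₂ b'}(Ũ_b) = m · θ j̃` when
  `ζ^{b'+1} = (ζ^{b+1})^m`;
* `aeval_resw2_eq_zero_of_eq` : two indices with the same valuation ring satisfy the same residue
  equations over `κ`; `card_class_le`, `card_class_eq` : exactly `fMid` indices `b'` give the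
  valuation ring `w₂ b`;
* `Mid` : the middle valuations without repetition (`midOf`, `Mid.ring`, `Mid.rep`);
  `OAll : Option Mid → ValuationSubring F₂` (`none ↦ w₁`), `fAll`, `xAll`;
* `setupAll : MultiVal.Setup O1 OAll`, `card_mid_mul : |Mid| · fMid = q - 1`, `fMid_dvd`;
* `fullAll : MultiVal.Full O1 OAll (fun v => Fin (fAll v))` : **`∑ f_v = q = [F₂ : α₂ F₁]`**
  (`e = 1` everywhere, `f = 1` at `w₁`, `f = fMid` at each middle valuation);
* `eq_w1_or_exists_eq_w2` : **EXHAUSTION**: a valuation subring of `F₂` over `O1` along `α₂` is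
  `w₁` or some `w₂ b`.
-/

set_option autoImplicit false
set_option linter.style.haveILetI false
set_option linter.unusedSectionVars false

noncomputable section

set_option synthInstance.maxHeartbeats 400000

namespace Fermat.Agent.BR3.FibreProd

open ModularCurve AlgebraicCurve HahnSeries Polynomial Fermat.Agent.X0 Fermat.Agent.Val
open Fermat.Agent.Hecke.AL Fermat.Agent.Igusa Fermat.Agent.BR.Kron Fermat.Agent.BR3.IgSq
open Fermat.Agent.BR.TwoVal Fermat.Agent.BR.ResGen Fermat.Agent.Jac Fermat.Agent.Jac.ALF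
open Fermat.Agent.BR.TwoValInst

variable {M q : ℕ} [NeZero M] [hq : Fact q.Prime]

/-! ### Rank one, separation -/

section ArchSep

variable (B : ValuationSubring (AlgebraicClosure ℚ)) (hB : B.LiesOverPrime q)
variable (hqM : ¬ q ∣ M) {ζ : Kbˣ} (hζ : IsPrimitiveRoot ζ q) {b : ℕ} (hb : b < q - 1)

local notation "kB" => IsLocalRing.ResidueField B

/-- nonunits of `w₂ b` in terms of `σ_b` and the Gauss ring -/
theorem mem_nonunits_w2_iff_inv {u : Fb (M * q * q)} (hu0 : u ≠ 0) :
    u ∈ (w2 B hB hqM hζ hb).nonunits ↔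
      (sigmaB hqM hζ hb u)⁻¹ ∉ gaussRingA B (IsLocalRing.residue B) := by
  rw [mem_nonunits_iff_inv_notMem _ hu0, mem_w2_iff, map_inv₀]

/-- **`w₂ b` has rank one.** -/
theorem arch_w2 : Arch (w2 B hB hqM hζ hb) := by
  let E : Subfield (LaurentSeries Kb) := (sigmaB hqM hζ hb).fieldRange
  have hE : ∀ x ∈ E, x ≠ 0 → ∃ c, HasContent B (IsLocalRing.residue B) x c := by
    rintro x ⟨y, rfl⟩ hx0
    exact hasContent_sigmaB B hB hqM hζ hb (fun h => hx0 (by rw [h, map_zero]))
  have harch := arch_gaussValSubring B (IsLocalRing.residue B) E hE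
    (residue_eq_zero_of_mem_maximalIdeal B) (isRankOne B hB)
  intro x u hu hu0
  let x' : E := ⟨sigmaB hqM hζ hb x, ⟨x, rfl⟩⟩
  let u' : E := ⟨sigmaB hqM hζ hb u, ⟨u, rfl⟩⟩
  have hu0' : u' ≠ 0 := fun h => hu0 ((map_eq_zero (sigmaB hqM hζ hb)).1 (congrArg Subtype.val h))
  have hu' : u' ∈ (gaussValSubring B (IsLocalRing.residue B) E hE).nonunits := by
    rw [mem_nonunits_iff_inv_notMem _ hu0']
    exact (mem_nonunits_w2_iff_inv B hB hqM hζ hb hu0).1 hu
  obtain ⟨n, hn⟩ := harch x' u' hu' hu0'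
  refine ⟨n, ?_⟩
  rw [mem_w2_iff, map_mul, map_pow]
  exact hn

/-- a non-member of `w₂ b` -/
theorem exists_notMem_w2 : ∃ y : Fb (M * q * q), y ∉ w2 B hB hqM hζ hb :=
  ⟨(U M q)⁻¹, (mem_nonunits_iff_inv_notMem _ (U_ne_zero hqM)).1
    (U_mem_nonunits_w2 B hB hqM hζ hb)⟩

end ArchSep

/-! ### The residue field of `can` and the degree of `θ j̃` -/

section Kappa

variable (B : ValuationSubring (AlgebraicClosure ℚ)) (hB : B.LiesOverPrime q)

local notation "kB" => IsLocalRing.ResidueField B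

variable (M) in
/-- `κ = res₁(O1) ⊆ k((s))`: the residue field of `can`. -/
def kappaCan : Subfield (LaurentSeries kB) :=
  haveI := algebraIsAlgebraic_rat_algebraicClosure
  gaussResBarRange B (IsLocalRing.residue B) (M * q) hq.out.ne_zero hB

theorem mem_kappaCan_iff {z : LaurentSeries kB} :
    z ∈ kappaCan M B hB ↔ ∃ x : O1 M B hB, res1 M B hB x = z := Iff.rfl

theorem res1_mem_kappaCan (x : O1 M B hB) : res1 M B hB x ∈ kappaCan M B hB := ⟨x, rfl⟩

variable (hqM : ¬ q ∣ M)

include hqM in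
/-- `θ j̃` is integral over `κ`: `(θ j̃)^{q-1} ∈ κ`. -/
theorem isIntegral_thetaL : IsIntegral (kappaCan M B hB) (thetaL kB (jqModC kB)) := by
  obtain ⟨ζ, hζ⟩ := HasEnoughRootsOfUnity.exists_primitiveRoot Kb q
  have hζu : IsPrimitiveRoot (hζ.isUnit (NeZero.ne q)).unit q := by
    rw [← IsPrimitiveRoot.coe_units_iff]
    exact hζ
  obtain ⟨g, hg, hres⟩ := exists_res1_eq_thetaL_pow B hB hqM hζu
  have hq1 : q - 1 ≠ 0 := by have := hq.out.two_le; omega
  refine ⟨X ^ (q - 1) - Polynomial.C (⟨_, res1_mem_kappaCan B hB ⟨g, hg⟩⟩ : kappaCan M B hB),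
    Polynomial.monic_X_pow_sub_C _ hq1, ?_⟩
  rw [Polynomial.eval₂_sub, Polynomial.eval₂_pow, Polynomial.eval₂_X, Polynomial.eval₂_C]
  show thetaL kB (jqModC kB) ^ (q - 1) - res1 M B hB ⟨g, hg⟩ = 0
  rw [hres, sub_self]

variable (M) in
/-- `f = [κ(θ j̃) : κ]`, the common residue degree of the middle valuations. -/
def fMid : ℕ := (minpoly (kappaCan M B hB) (thetaL kB (jqModC kB))).natDegree

include hqM in
theorem fMid_pos : 0 < fMid M B hB := minpoly.natDegree_pos (isIntegral_thetaL B hB hqM)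

end Kappa

/-! ### Residue-independent families -/

section ResIndepFam

variable (B : ValuationSubring (AlgebraicClosure ℚ)) (hB : B.LiesOverPrime q)
variable (hqM : ¬ q ∣ M) {ζ : Kbˣ} (hζ : IsPrimitiveRoot ζ q) {b : ℕ} (hb : b < q - 1)

local notation "kB" => IsLocalRing.ResidueField B

theorem smul_along_def (c : Fb (M * q)) (x : Fb (M * q * q)) :
    letI := algebraAlong (alpha2 M q)
    c • x = alpha2 M q c * x := rfl

/-- residue of a polynomial expression with coefficients from `O1` -/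
theorem resw2_sum_smul_pow {n : ℕ} (c : Fin n → Fb (M * q)) (hc : ∀ i, c i ∈ O1 M B hB)
    {v : Fb (M * q * q)} (hv : v ∈ w2 B hB hqM hζ hb) :
    letI := algebraAlong (alpha2 M q)
    ∃ h : ∑ i, c i • v ^ (i : ℕ) ∈ w2 B hB hqM hζ hb,
      resw2 B hB hqM hζ hb ⟨_, h⟩ =
        ∑ i, res1 M B hB ⟨c i, hc i⟩ * resw2 B hB hqM hζ hb ⟨v, hv⟩ ^ (i : ℕ) := by
  letI := algebraAlong (alpha2 M q)
  let y : w2 B hB hqM hζ hb := ∑ i : Fin n,
    (⟨alpha2 M q (c i), (alpha2_mem_w2_iff B hB hqM hζ hb _).2 (hc i)⟩ : w2 B hB hqM hζ hb) *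
      ⟨v, hv⟩ ^ (i : ℕ)
  have hy : (y : Fb (M * q * q)) = ∑ i, c i • v ^ (i : ℕ) := by
    show ((w2 B hB hqM hζ hb).subtype y) = _
    rw [map_sum]
    rfl
  refine ⟨hy ▸ y.2, ?_⟩
  have h2 : (⟨∑ i, c i • v ^ (i : ℕ), hy ▸ y.2⟩ : w2 B hB hqM hζ hb) = y := Subtype.ext hy.symm
  rw [h2, map_sum]
  refine Finset.sum_congr rfl fun i _ => ?_
  rw [map_mul, map_pow, resw2_alpha2]

/-- `{1}` is residue-independent for `w₁` over `O1`. -/
theorem resIndep_w1 {ι : Type*} [Fintype ι] [Unique ι] :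
    letI := algebraAlong (alpha2 M q)
    ResIndep (O1 M B hB) (w1 M B hB) (fun _ : ι => (1 : Fb (M * q * q))) := by
  letI := algebraAlong (alpha2 M q)
  refine ⟨fun _ => (w1 M B hB).one_mem, fun c hc h i => ?_⟩
  rw [Fintype.sum_unique, smul_along_def, mul_one] at h
  have hmem : alpha2 M q (c default) ∈ w1 M B hB := (alpha2_mem_w1_iff B hB _).2 (hc default)
  have h1 := (mem_nonunits_O1_iff (M := M * q) B hB hmem).1 h
  rw [show res1 (M * q) B hB ⟨alpha2 M q (c default), hmem⟩ =
    resw1 M B hB ⟨alpha2 M q (c default), hmem⟩ from rfl, resw1_alpha2 B hB _ (hc default)] at h1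
  rw [Unique.eq_default i]
  exact (mem_nonunits_O1_iff B hB (hc default)).2 h1

include hB in
/-- `1, Ũ, …, Ũ^{f-1}` is residue-independent for `w₂ b` over `O1`. -/
theorem resIndep_w2 :
    letI := algebraAlong (alpha2 M q)
    ResIndep (O1 M B hB) (w2 B hB hqM hζ hb)
      (fun i : Fin (fMid M B hB) => Utilde M q ((ζ ^ (b + 1) : Kbˣ) : Kb) ^ (i : ℕ)) := by
  letI := algebraAlong (alpha2 M q)
  have hV := Utilde_mem_w2 B hB hqM hζ hb
  refine ⟨fun i => pow_mem hV _, fun c hc h i => ?_⟩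
  obtain ⟨hmem, hres⟩ := resw2_sum_smul_pow B hB hqM hζ hb c hc hV
  have h0 := (mem_nonunits_w2_iff B hB hqM hζ hb hmem).1 h
  rw [hres, resw2_Utilde] at h0
  have hli := linearIndependent_pow (K := kappaCan M B hB) (thetaL kB (jqModC kB))
  have h1 := Fintype.linearIndependent_iff.1 hli
    (fun i => (⟨res1 M B hB ⟨c i, hc i⟩, res1_mem_kappaCan B hB _⟩ : kappaCan M B hB)) h0 i
  have h2 : res1 M B hB ⟨c i, hc i⟩ = 0 := congrArg Subtype.val h1
  exact (mem_nonunits_O1_iff B hB (hc i)).2 h2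

end ResIndepFam

/-! ### Constants, and the residue of `Ũ_b` at `w₂ b'` -/

section ClassBound

variable (B : ValuationSubring (AlgebraicClosure ℚ)) (hB : B.LiesOverPrime q)
variable (hqM : ¬ q ∣ M) {ζ : Kbˣ} (hζ : IsPrimitiveRoot ζ q) {b : ℕ} (hb : b < q - 1)

local notation "kB" => IsLocalRing.ResidueField B

/-- constants of `B` lie in `w₂ b` -/
theorem algebraMap_mem_w2 {c : Kb} (hc : c ∈ B) :
    algebraMap Kb (Fb (M * q * q)) c ∈ w2 B hB hqM hζ hb := by
  rw [mem_w2_iff, sigmaB_algebraMap]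
  have := aIota_mem_gaussRingA B (IsLocalRing.residue B) (HahnSeries.C (⟨c, hc⟩ : B))
  rwa [aIota_C] at this

/-- the residue of a constant of `B` -/
theorem resw2_algebraMap {c : Kb} (hc : c ∈ B) :
    resw2 B hB hqM hζ hb ⟨_, algebraMap_mem_w2 B hB hqM hζ hb hc⟩ =
      HahnSeries.C (IsLocalRing.residue B ⟨c, hc⟩) := by
  rw [resw2_apply, ← aRed_C, ← gaussResA_aIota B (IsLocalRing.residue B)]
  refine Fermat.Agent.BR.ResGen.gaussResA_congr B _ _ ?_
  rw [aIota_C]
  exact sigmaB_algebraMap hqM hζ hb c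

variable (M q) in
/-- `Ũ_z = Ũ_{z^m} · (1 + z + ⋯ + z^{m-1})` -/
theorem Utilde_eq_mul_geom {z : Kb} (m : ℕ) (hm : z ^ m - 1 ≠ 0) :
    Utilde M q z =
      Utilde M q (z ^ m) * algebraMap Kb (Fb (M * q * q)) (∑ i ∈ Finset.range m, z ^ i) := by
  have hz : z - 1 ≠ 0 := by
    intro h
    apply hm
    rw [sub_eq_zero] at h
    rw [h, one_pow, sub_self]
  unfold Utilde
  rw [mul_assoc (U M q), ← map_mul]
  congr 2
  have h := geom_sum_mul z m
  rw [eq_comm, inv_mul_eq_iff_eq_mul₀ hm, ← h]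
  field_simp

include hB in
/-- **the residue of `Ũ_b` at `w₂ b'`**: if `ζ^{b'+1} = (ζ^{b+1})^m` then `Ũ_b ∈ w₂ b'` and its
residue is `m · θ j̃`. -/
theorem resw2_Utilde_of_pow {b' : ℕ} (hb' : b' < q - 1) (m : ℕ)
    (hm : ζ ^ (b' + 1) = (ζ ^ (b + 1)) ^ m) :
    ∃ h : Utilde M q ((ζ ^ (b + 1) : Kbˣ) : Kb) ∈ w2 B hB hqM hζ hb',
      resw2 B hB hqM hζ hb' ⟨_, h⟩ =
        thetaL kB (jqModC kB) * HahnSeries.C ((m : ℕ) : kB) := by
  haveI := charP_kB B hB
  obtain ⟨zB, hzB, hzBq⟩ := exists_unitB B hq.out.ne_zero (zeta_pow_pow hζ (b := b))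
  have hres : IsLocalRing.residue B (zB : B) = 1 := by
    apply residue_eq_one_of_pow_eq_one q
    have := congrArg (fun u : Bˣ => IsLocalRing.residue B (u : B)) hzBq
    simpa using this
  set z : Kb := ((ζ ^ (b + 1) : Kbˣ) : Kb) with hz
  have hzm : z ^ m = ((ζ ^ (b' + 1) : Kbˣ) : Kb) := by
    rw [hm, Units.val_pow_eq_pow_val]
  have hne : z ^ m - 1 ≠ 0 := by
    rw [hzm]
    intro h
    apply zeta_pow_ne_one hζ hb'
    exact Units.ext (by rw [Units.val_one]; exact sub_eq_zero.1 h)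
  have hg : (∑ i ∈ Finset.range m, z ^ i) = ((∑ i ∈ Finset.range m, (zB : B) ^ i : B) : Kb) := by
    rw [← hzB]
    push_cast
    rfl
  have hgmem : (∑ i ∈ Finset.range m, z ^ i) ∈ B := by
    rw [hg]
    exact Subtype.property _
  have hgres : IsLocalRing.residue B ⟨_, hgmem⟩ = ((m : ℕ) : kB) := by
    have : (⟨_, hgmem⟩ : B) = ∑ i ∈ Finset.range m, (zB : B) ^ i := Subtype.ext hg
    rw [this, map_sum]
    simp [hres]
  have h1 := Utilde_mem_w2 B hB hqM hζ hb'
  have h2 := algebraMap_mem_w2 (M := M) B hB hqM hζ hb' hgmem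
  have heq := Utilde_eq_mul_geom M q m hne
  rw [hzm] at heq
  have hmem : Utilde M q z ∈ w2 B hB hqM hζ hb' := by
    rw [heq]
    exact (w2 B hB hqM hζ hb').mul_mem _ _ h1 h2
  refine ⟨hmem, ?_⟩
  have h3 : (⟨Utilde M q z, hmem⟩ : w2 B hB hqM hζ hb') =
      ⟨_, h1⟩ * ⟨_, h2⟩ := Subtype.ext heq
  rw [h3, map_mul, resw2_Utilde, resw2_algebraMap B hB hqM hζ hb' hgmem, hgres]

include hB in
/-- **transfer of residue equations** between two indices with the same valuation ring: an
algebraic equation over `κ` satisfied by the residue at `w₂ b` is satisfied by the residue at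
`w₂ b'`. -/
theorem aeval_resw2_eq_zero_of_eq {b' : ℕ} (hb' : b' < q - 1)
    (heq : w2 B hB hqM hζ hb' = w2 B hB hqM hζ hb) (P : (kappaCan M B hB)[X])
    {v : Fb (M * q * q)} (hv : v ∈ w2 B hB hqM hζ hb) (hv' : v ∈ w2 B hB hqM hζ hb')
    (h0 : Polynomial.aeval (resw2 B hB hqM hζ hb ⟨v, hv⟩) P = 0) :
    Polynomial.aeval (resw2 B hB hqM hζ hb' ⟨v, hv'⟩) P = 0 := by
  letI := algebraAlong (alpha2 M q)
  have hlift : ∀ i : Fin (P.natDegree + 1), ∃ c : Fb (M * q), ∃ hc : c ∈ O1 M B hB,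
      res1 M B hB ⟨c, hc⟩ = (P.coeff i : LaurentSeries kB) := by
    intro i
    obtain ⟨x, hx⟩ := (P.coeff i).2
    exact ⟨x.1, x.2, hx⟩
  choose c hc hres using hlift
  obtain ⟨hmem, hr⟩ := resw2_sum_smul_pow B hB hqM hζ hb c hc hv
  obtain ⟨hmem', hr'⟩ := resw2_sum_smul_pow B hB hqM hζ hb' c hc hv'
  have key : ∀ x : LaurentSeries kB, Polynomial.aeval x P =
      ∑ i : Fin (P.natDegree + 1), res1 M B hB ⟨c i, hc i⟩ * x ^ (i : ℕ) := by
    intro x
    rw [Polynomial.aeval_eq_sum_range, Finset.sum_range]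
    refine Finset.sum_congr rfl fun i _ => ?_
    rw [hres i, Algebra.smul_def]
    rfl
  rw [key, ← hr] at h0
  have h1 := (mem_nonunits_w2_iff B hB hqM hζ hb hmem).2 h0
  rw [← heq] at h1
  have h2 := (mem_nonunits_w2_iff B hB hqM hζ hb' hmem').1 h1
  rw [key, ← hr']
  exact h2

open Classical in
include hB in
/-- **the class bound**: at most `fMid` indices `b'` give the valuation ring `w₂ b`. -/
theorem card_class_le :
    (Finset.univ.filter fun b' : Fin (q - 1) =>
      w2 B hB hqM hζ b'.2 = w2 B hB hqM hζ hb).card ≤ fMid M B hB := by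
  classical
  haveI := charP_kB B hB
  haveI : NeZero q := ⟨hq.out.ne_zero⟩
  have hcop : Nat.Coprime (b + 1) q := by
    rw [Nat.coprime_comm]
    refine (Nat.Prime.coprime_iff_not_dvd hq.out).2 fun h => ?_
    have := Nat.le_of_dvd (Nat.succ_pos b) h
    omega
  have hprim : IsPrimitiveRoot (ζ ^ (b + 1)) q := hζ.pow_of_coprime (b + 1) hcop
  have hex : ∀ b' : Fin (q - 1), ∃ m : ℕ, ζ ^ ((b' : ℕ) + 1) = (ζ ^ (b + 1)) ^ m := by
    intro b'
    obtain ⟨i, -, hi⟩ := hprim.eq_pow_of_mem_rootsOfUnity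
      ((mem_rootsOfUnity q _).mpr (zeta_pow_pow hζ (b := b')))
    exact ⟨i, hi.symm⟩
  choose m hm using hex
  set P := minpoly (kappaCan M B hB) (thetaL kB (jqModC kB)) with hP
  have hP0 : P ≠ 0 := minpoly.ne_zero (isIntegral_thetaL B hB hqM)
  let f : Fin (q - 1) → LaurentSeries kB := fun b' =>
    thetaL kB (jqModC kB) * HahnSeries.C ((m b' : ℕ) : kB)
  have hroot : ∀ b' ∈ Finset.univ.filter (fun b' : Fin (q - 1) =>
      w2 B hB hqM hζ b'.2 = w2 B hB hqM hζ hb),
      f b' ∈ (P.aroots (LaurentSeries kB)).toFinset := by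
    intro b' hb'
    rw [Finset.mem_filter] at hb'
    rw [Multiset.mem_toFinset, Polynomial.mem_aroots]
    refine ⟨hP0, ?_⟩
    obtain ⟨hmem, hr⟩ := resw2_Utilde_of_pow B hB hqM hζ (b := b) b'.2 (m b') (hm b')
    have := aeval_resw2_eq_zero_of_eq B hB hqM hζ hb b'.2 hb'.2 P
      (Utilde_mem_w2 B hB hqM hζ hb) hmem (by rw [resw2_Utilde]; exact minpoly.aeval _ _)
    rwa [hr] at this
  have hinj : Set.InjOn f (Finset.univ.filter (fun b' : Fin (q - 1) =>
      w2 B hB hqM hζ b'.2 = w2 B hB hqM hζ hb) : Set (Fin (q - 1))) := by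
    intro b' _ b'' _ h
    have h1 : HahnSeries.C ((m b' : ℕ) : kB) = HahnSeries.C ((m b'' : ℕ) : kB) :=
      mul_left_cancel₀ (thetaL_jqModC_ne_zero B) h
    have h2 : ((m b' : ℕ) : kB) = ((m b'' : ℕ) : kB) := HahnSeries.C_injective h1
    have h3 : m b' ≡ m b'' [MOD q] := (CharP.natCast_eq_natCast kB q).1 h2
    have h4 : (ζ ^ (b + 1)) ^ m b' = (ζ ^ (b + 1)) ^ m b'' := by
      rw [pow_eq_pow_iff_modEq, ← hprim.eq_orderOf]
      exact h3
    rw [← hm, ← hm] at h4
    have h5 := hζ.pow_inj (by have := b'.2; omega) (by have := b''.2; omega) h4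
    exact Fin.ext (by omega)
  calc _ ≤ (P.aroots (LaurentSeries kB)).toFinset.card :=
        Finset.card_le_card_of_injOn f hroot hinj
    _ ≤ Multiset.card (P.aroots (LaurentSeries kB)) := Multiset.toFinset_card_le _
    _ ≤ (P.map (algebraMap _ _)).natDegree := Polynomial.card_roots' _
    _ = fMid M B hB := Polynomial.natDegree_map _

end ClassBound

/-! ### All valuations over `can` along `α₂`; the full situation -/

section FullSec

variable (B : ValuationSubring (AlgebraicClosure ℚ)) (hB : B.LiesOverPrime q)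
variable (hqM : ¬ q ∣ M) {ζ : Kbˣ} (hζ : IsPrimitiveRoot ζ q)

local notation "kB" => IsLocalRing.ResidueField B

/-- a non-member of `w₁` -/
theorem exists_notMem_w1 : ∃ y : Fb (M * q * q), y ∉ w1 M B hB := by
  have h := (Fermat.Agent.BR.Separate.algebraMap_mem_nonunits_O1_iff (M := M * q) B hB
    (q : Kb)).mpr hB
  have h0 : algebraMap Kb (Fb (M * q * q)) (q : Kb) ≠ 0 := by
    rw [Ne, map_eq_zero]
    exact_mod_cast hq.out.ne_zero
  exact ⟨_, (mem_nonunits_iff_inv_notMem _ h0).1 h⟩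

/-- the set of middle valuation subrings of `F₂` -/
def midSet : Set (ValuationSubring (Fb (M * q * q))) :=
  Set.range fun b : Fin (q - 1) => w2 B hB hqM hζ b.2

/-- **the middle valuations** (the valuation subrings `w₂ b`, without repetition) -/
def Mid : Type := ↥(midSet B hB hqM hζ)

instance : Finite (Mid B hB hqM hζ) := (Set.finite_range _).to_subtype

instance : Fintype (Mid B hB hqM hζ) := Fintype.ofFinite _

/-- the valuation subring of a middle valuation -/
def Mid.ring (i : Mid B hB hqM hζ) : ValuationSubring (Fb (M * q * q)) := Subtype.val i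

theorem Mid.ring_injective : Function.Injective (Mid.ring B hB hqM hζ) := Subtype.val_injective

/-- the middle valuation with index `b` -/
def midOf (b : Fin (q - 1)) : Mid B hB hqM hζ := ⟨w2 B hB hqM hζ b.2, ⟨b, rfl⟩⟩

@[simp] theorem midOf_ring (b : Fin (q - 1)) :
    (midOf B hB hqM hζ b).ring = w2 B hB hqM hζ b.2 := rfl

theorem midOf_surjective : Function.Surjective (midOf B hB hqM hζ) := by
  rintro ⟨_, ⟨b, rfl⟩⟩
  exact ⟨b, rfl⟩

/-- a representative index of a middle valuation -/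
def Mid.rep (i : Mid B hB hqM hζ) : Fin (q - 1) := Classical.choose (Subtype.property i)

theorem Mid.w2_rep (i : Mid B hB hqM hζ) :
    w2 B hB hqM hζ (i.rep B hB hqM hζ).2 = i.ring B hB hqM hζ :=
  Classical.choose_spec (Subtype.property i)

/-- **all valuations of `F₂` over `can` along `α₂`**: `w₁` and the middle ones -/
def OAll : Option (Mid B hB hqM hζ) → ValuationSubring (Fb (M * q * q))
  | none => w1 M B hB
  | some i => i.ring B hB hqM hζ

/-- the residue degrees: `1` at `w₁`, `fMid` at the middle valuations -/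
def fAll : Option (Mid B hB hqM hζ) → ℕ
  | none => 1
  | some _ => fMid M B hB

/-- the residue-independent families -/
def xAll : ∀ v : Option (Mid B hB hqM hζ), Fin (fAll B hB hqM hζ v) → Fb (M * q * q)
  | none => fun _ => 1
  | some i => fun k =>
      Utilde M q ((ζ ^ (((i.rep B hB hqM hζ : Fin (q - 1)) : ℕ) + 1) : Kbˣ) : Kb) ^ (k : ℕ)

theorem OAll_injective : Function.Injective (OAll B hB hqM hζ) := by
  rintro (_ | i) (_ | j) h
  · rfl
  · exfalso
    have h1 : w1 M B hB = j.ring B hB hqM hζ := h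
    rw [← j.w2_rep] at h1
    exact w2_ne_w1 B hB hqM hζ _ h1.symm
  · exfalso
    have h1 : i.ring B hB hqM hζ = w1 M B hB := h
    rw [← i.w2_rep] at h1
    exact w2_ne_w1 B hB hqM hζ _ h1
  · exact congrArg some (Mid.ring_injective B hB hqM hζ h)

theorem arch_OAll (v : Option (Mid B hB hqM hζ)) : Arch (OAll B hB hqM hζ v) := by
  rcases v with _ | i
  · exact arch_O1 (M := M * q) B hB
  · show Arch (i.ring B hB hqM hζ)
    rw [← i.w2_rep]
    exact arch_w2 B hB hqM hζ _

theorem exists_notMem_OAll (v : Option (Mid B hB hqM hζ)) :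
    ∃ y : Fb (M * q * q), y ∉ OAll B hB hqM hζ v := by
  rcases v with _ | i
  · exact exists_notMem_w1 B hB
  · show ∃ y, y ∉ i.ring B hB hqM hζ
    rw [← i.w2_rep]
    exact exists_notMem_w2 B hB hqM hζ _

/-- **the setup**: `w₁` and the middle valuations are pairwise separated rank one valuation
subrings of `F₂` over `can = O1` along `α₂`. -/
theorem setupAll :
    letI := algebraAlong (alpha2 M q)
    MultiVal.Setup (O1 M B hB) (OAll B hB hqM hζ) := by
  letI := algebraAlong (alpha2 M q)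
  refine ⟨?_, arch_OAll B hB hqM hζ, fun v w hvw => ?_⟩
  · rintro (_ | i)
    · exact comap_alpha2_w1 B hB
    · show (i.ring B hB hqM hζ).comap _ = _
      rw [← i.w2_rep]
      exact comap_alpha2_w2 B hB hqM hζ _
  · have hne : OAll B hB hqM hζ v ≠ OAll B hB hqM hζ w := fun h =>
      hvw (OAll_injective B hB hqM hζ h)
    exact exists_sep_of_not_le
      (fun hle => hne ((arch_OAll B hB hqM hζ v).eq_of_le hle
        (exists_notMem_OAll B hB hqM hζ w)).symm)
      (fun hle => hne ((arch_OAll B hB hqM hζ w).eq_of_le hle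
        (exists_notMem_OAll B hB hqM hζ v)))

include hB in
theorem resIndep_xAll (v : Option (Mid B hB hqM hζ)) :
    letI := algebraAlong (alpha2 M q)
    ResIndep (O1 M B hB) (OAll B hB hqM hζ v) (xAll B hB hqM hζ v) := by
  letI := algebraAlong (alpha2 M q)
  rcases v with _ | i
  · exact resIndep_w1 (ι := Fin 1) B hB
  · show ResIndep (O1 M B hB) (i.ring B hB hqM hζ) _
    rw [← i.w2_rep]
    exact resIndep_w2 B hB hqM hζ _

theorem finiteDimensional_alpha2 :
    letI := algebraAlong (alpha2 M q)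
    FiniteDimensional (Fb (M * q)) (Fb (M * q * q)) := by
  letI := algebraAlong (alpha2 M q)
  apply Module.finite_of_finrank_pos
  rw [show Module.finrank (Fb (M * q)) (Fb (M * q * q)) = q from finrankAlong_alpha2]
  exact hq.out.pos

theorem sum_fAll :
    ∑ v, Fintype.card (Fin (fAll B hB hqM hζ v)) =
      1 + Fintype.card (Mid B hB hqM hζ) * fMid M B hB := by
  rw [Fintype.sum_option]
  show Fintype.card (Fin 1) + ∑ _x : Mid B hB hqM hζ, Fintype.card (Fin (fMid M B hB)) = _
  rw [Fintype.card_fin, Finset.sum_const, Fintype.card_fin, Finset.card_univ, smul_eq_mul]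

include hB in
/-- **the count**: `|Mid| · fMid = q - 1`, i.e. `∑_v f_v = q = [F₂ : α₂ F₁]`. -/
theorem card_mid_mul : Fintype.card (Mid B hB hqM hζ) * fMid M B hB = q - 1 := by
  classical
  letI := algebraAlong (alpha2 M q)
  haveI := finiteDimensional_alpha2 (M := M) (q := q)
  have h1 := (setupAll B hB hqM hζ).sum_card_le (resIndep_xAll B hB hqM hζ)
  rw [sum_fAll, show Module.finrank (Fb (M * q)) (Fb (M * q * q)) = q from finrankAlong_alpha2]
    at h1
  have h2 : q - 1 ≤ Fintype.card (Mid B hB hqM hζ) * fMid M B hB := by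
    calc q - 1 = (Finset.univ : Finset (Fin (q - 1))).card := by simp
      _ = ∑ i : Mid B hB hqM hζ,
            (Finset.univ.filter fun b : Fin (q - 1) => midOf B hB hqM hζ b = i).card :=
          Finset.card_eq_sum_card_fiberwise (fun _ _ => Finset.mem_univ _)
      _ ≤ ∑ _i : Mid B hB hqM hζ, fMid M B hB := by
          refine Finset.sum_le_sum fun i _ => ?_
          obtain ⟨b₀, rfl⟩ := midOf_surjective B hB hqM hζ i
          have hc := card_class_le B hB hqM hζ b₀.2
          refine le_trans (le_of_eq ?_) hc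
          congr 1
          refine Finset.filter_congr fun b _ => ?_
          exact ⟨fun h => congrArg (Mid.ring B hB hqM hζ) h,
            fun h => Mid.ring_injective B hB hqM hζ h⟩
      _ = Fintype.card (Mid B hB hqM hζ) * fMid M B hB := by
          rw [Finset.sum_const, Finset.card_univ, smul_eq_mul]
  omega

include hB hqM hζ in
theorem fMid_dvd : fMid M B hB ∣ q - 1 :=
  ⟨Fintype.card (Mid B hB hqM hζ), by rw [mul_comm, card_mid_mul B hB hqM hζ]⟩

open Classical in
include hB in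
/-- **every class has exactly `fMid` elements**: `fMid` indices `b'` give the valuation ring
`w₂ b`. -/
theorem card_class_eq {b : ℕ} (hb : b < q - 1) :
    (Finset.univ.filter fun b' : Fin (q - 1) =>
      w2 B hB hqM hζ b'.2 = w2 B hB hqM hζ hb).card = fMid M B hB := by
  have hle : ∀ i ∈ (Finset.univ : Finset (Mid B hB hqM hζ)),
      (Finset.univ.filter fun b : Fin (q - 1) => midOf B hB hqM hζ b = i).card ≤
        fMid M B hB := by
    intro i _
    obtain ⟨b₀, rfl⟩ := midOf_surjective B hB hqM hζ i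
    have hc := card_class_le B hB hqM hζ b₀.2
    refine le_trans (le_of_eq ?_) hc
    congr 1
    refine Finset.filter_congr fun b _ => ?_
    exact ⟨fun h => congrArg (Mid.ring B hB hqM hζ) h,
      fun h => Mid.ring_injective B hB hqM hζ h⟩
  have hsum : ∑ i : Mid B hB hqM hζ,
      (Finset.univ.filter fun b : Fin (q - 1) => midOf B hB hqM hζ b = i).card =
        ∑ _i : Mid B hB hqM hζ, fMid M B hB := by
    have hfib := Finset.card_eq_sum_card_fiberwise (f := midOf B hB hqM hζ)
      (s := (Finset.univ : Finset (Fin (q - 1))))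
      (t := (Finset.univ : Finset (Mid B hB hqM hζ))) (fun _ _ => Finset.mem_univ _)
    rw [← hfib, Finset.sum_const, smul_eq_mul, Finset.card_univ, Finset.card_univ,
      card_mid_mul B hB hqM hζ, Fintype.card_fin]
  have h := (Finset.sum_eq_sum_iff_of_le hle).1 hsum (midOf B hB hqM hζ ⟨b, hb⟩)
    (Finset.mem_univ _)
  rw [← h]
  congr 1
  refine Finset.filter_congr fun b' _ => ?_
  exact ⟨fun h => Mid.ring_injective B hB hqM hζ h,
    fun h => congrArg (Mid.ring B hB hqM hζ) h⟩

/-- **the full situation** over `can` along `α₂`: `w₁` (`f = 1`) and the middle valuations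
(`f = fMid` each) exhaust the degree `q`. -/
def fullAll :
    letI := algebraAlong (alpha2 M q)
    MultiVal.Full (O1 M B hB) (OAll B hB hqM hζ) (fun v => Fin (fAll B hB hqM hζ v)) :=
  letI := algebraAlong (alpha2 M q)
  { setup := setupAll B hB hqM hζ
    x := xAll B hB hqM hζ
    hx := resIndep_xAll B hB hqM hζ
    card_eq := by
      rw [sum_fAll, card_mid_mul B hB hqM hζ,
        show Module.finrank (Fb (M * q)) (Fb (M * q * q)) = q from finrankAlong_alpha2]
      have := hq.out.two_le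
      omega }

include hB in
/-- **EXHAUSTION over `can` along `α₂`**: a valuation subring of `F₂` whose restriction along `α₂`
is `O1` is `w₁` or one of the middle valuations `w₂ b`. -/
theorem eq_w1_or_exists_eq_w2 (O'' : ValuationSubring (Fb (M * q * q)))
    (h : O''.comap (alpha2 M q : Fb (M * q) →+* Fb (M * q * q)) = O1 M B hB) :
    O'' = w1 M B hB ∨ ∃ (b : ℕ) (hb : b < q - 1), O'' = w2 B hB hqM hζ hb := by
  letI := algebraAlong (alpha2 M q)
  haveI := finiteDimensional_alpha2 (M := M) (q := q)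
  obtain ⟨v, hv⟩ := (fullAll B hB hqM hζ).exists_eq_of_comap_eq O'' h
  rcases v with _ | i
  · exact Or.inl hv
  · exact Or.inr ⟨_, (i.rep B hB hqM hζ).2, hv.trans (i.w2_rep B hB hqM hζ).symm⟩

end FullSec

end Fermat.Agent.BR3.FibreProd
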