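/-
Program C (S36), node I2 (C-VERT), second file (helper9): the coordinate of a thickness-one tube.

`S₀` a semistable setup, `e` a node with an annulus chart `ch` (coordinate `u`), `x : F` a function
* without zeros and poles on the tube of `e` (`hord`; for `x = x1 := jBar − jq'^q` this follows from
  `x1 · y1 = q · R` with `R` a unit on the tube — `ord_eq_zero_of_mul_eq` — the hypothesis `hR` of
  the glue),
* which is a unit on the component `src e` (`hres`).

Then `x = c₀ · u ^ b · ε` with `|c₀| = 1`, `ε` a node unit and `b` the order of the reduction of `x`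
on `src e` at the branch `s₁ e` (`exists_eq_const_mul_zpow_mul_nodeUnit`).  For `b = 1` (the
reduction `j̃ − j̃^(q²)` of `x1` on 'can' has a simple zero at a non-elliptic supersingular point):
`x = c₀ • u * ε` (`exists_eq_smul_coord_mul_nodeUnit`), hence on EVERY circle of gauge `a` of the
tube the function `a⁻¹ • x` lies in the circle ring and reduces to `β · X`, `β = residue c₀ ≠ 0`
(`isRed_inv_smul`, `circleRes_inv_smul`): this is the input `res (x1 / c) = β · T` of the vertical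
glue (`GaussExt.hcoeff` through `VertReduce.res_coeff_vertScaled`).
-/
import Mathlib
import Fermat.Agent.BR3.CircleN.Chart

set_option autoImplicit false

noncomputable section

namespace Fermat.Agent.BR3.VertCoord

open AlgebraicCurve IsLocalRing Fermat.Agent.Red Fermat.Agent.BR.InertiaRed
  Fermat.Agent.BR.AnnulusRed Fermat.Agent.BR.P1 Fermat.Agent.BR.Centre Fermat.Agent.BR.SS
  Fermat.Agent.BR.Refine Fermat.Agent.BR.Fact Fermat.Agent.BR.Circle Fermat.Agent.BR3.CircleN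

/-! ### step (1): no zero and no pole on the tube -/

section Ord

variable {K F : Type*} [Field K] [Field F] [Algebra K F]

/-- If `x * y = z`, `x` and `y` have no pole at `P` and `z` has neither zero nor pole at `P`,
then `x` has neither zero nor pole at `P`. -/
theorem ord_eq_zero_of_mul_eq (P : Place K F) {x y z : F} (hx : 0 ≤ P.ord x) (hy : 0 ≤ P.ord y)
    (hxy : x * y = z) (hz0 : z ≠ 0) (hz : P.ord z = 0) : P.ord x = 0 := by
  have hx0 : x ≠ 0 := by
    rintro rfl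
    rw [zero_mul] at hxy
    exact hz0 hxy.symm
  have hy0 : y ≠ 0 := by
    rintro rfl
    rw [mul_zero] at hxy
    exact hz0 hxy.symm
  rw [← hxy, P.ord_mul hx0 hy0] at hz
  omega

/-- The same with values: `x`, `y` regular at `P`, `x * y = z` with `z(P) ≠ 0`. -/
theorem ord_eq_zero_of_mul_eq_of_isValueAt (P : Place K F) {x y z : F} {cx cy cz : K}
    (hx : IsValueAt P x cx) (hy : IsValueAt P y cy) (hxy : x * y = z) (hz : IsValueAt P z cz)
    (hcz : cz ≠ 0) : P.ord x = 0 := by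
  have h1 : IsValueAt P z (cx * cy) := hxy ▸ hx.mul hy
  have h2 : cx * cy = cz := h1.unique hz
  have hcx : cx ≠ 0 := by
    rintro rfl
    rw [zero_mul] at h2
    exact hcz h2.symm
  exact hx.ord_eq_zero hcx

end Ord

/-! ### a unit of a valuation ring: integral powers -/

section ZPow

variable {F : Type*} [Field F] {L : Type*} [Field L]

/-- Integral powers of a unit `u` of a valuation ring `O` lie in `O`, and the residue map sends
`u ^ b` to the `b`-th power of the residue of `u`. -/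
theorem zpow_mem_and_res {O : ValuationSubring F} (res : O →+* L) {u : F} (hu : u ∈ O)
    (hunit : IsUnit (⟨u, hu⟩ : O)) (b : ℤ) :
    ∃ h : u ^ b ∈ O, res ⟨u ^ b, h⟩ = res ⟨u, hu⟩ ^ b := by
  obtain ⟨w, hw⟩ := hunit.exists_right_inv
  have h1 : u * (w : F) = 1 := congrArg Subtype.val hw
  have hu0 : u ≠ 0 := left_ne_zero_of_mul_eq_one h1
  have hinv : u⁻¹ = (w : F) := (eq_inv_of_mul_eq_one_right h1).symm
  have hui : u⁻¹ ∈ O := hinv ▸ w.2
  have hres1 : res ⟨u, hu⟩ * res ⟨u⁻¹, hui⟩ = 1 := by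
    rw [← map_mul]
    have : (⟨u, hu⟩ : O) * ⟨u⁻¹, hui⟩ = 1 := Subtype.ext (mul_inv_cancel₀ hu0)
    rw [this, map_one]
  have hresinv : res ⟨u⁻¹, hui⟩ = (res ⟨u, hu⟩)⁻¹ := eq_inv_of_mul_eq_one_right hres1
  obtain ⟨n, rfl | rfl⟩ := b.eq_nat_or_neg
  · refine ⟨by rw [zpow_natCast]; exact pow_mem hu n, ?_⟩
    have : (⟨u ^ (n : ℤ), by rw [zpow_natCast]; exact pow_mem hu n⟩ : O) = ⟨u, hu⟩ ^ n :=
      Subtype.ext (by
        show u ^ (n : ℤ) = ((⟨u, hu⟩ ^ n : O) : F)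
        rw [zpow_natCast, SubmonoidClass.coe_pow])
    rw [this, map_pow, zpow_natCast]
  · refine ⟨by rw [zpow_neg, zpow_natCast, ← inv_pow]; exact pow_mem hui n, ?_⟩
    have : (⟨u ^ (-(n : ℤ)), by rw [zpow_neg, zpow_natCast, ← inv_pow]; exact pow_mem hui n⟩ : O)
        = ⟨u⁻¹, hui⟩ ^ n :=
      Subtype.ext (by
        show u ^ (-(n : ℤ)) = ((⟨u⁻¹, hui⟩ ^ n : O) : F)
        rw [zpow_neg, zpow_natCast, ← inv_pow, SubmonoidClass.coe_pow])
    rw [this, map_pow, hresinv, zpow_neg, zpow_natCast, inv_pow]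

end ZPow

/-! ### steps (2), (3): the factorisation `x = c₀ · u ^ b · ε` -/

variable {K : Type} {F : Type*} [Field K] [Field F] [Algebra K F]
  {A : ValuationSubring K}

section Comp

variable {L : Type*} [Field L] [Algebra (ResidueField A) L]

/-- **One component.** `O` a component ring with residue map `res`, `Q` a point, `w` a unit of `O`,
`ε` with value `1` at `Q`; if `x = c · w ^ m · ε` is a unit of `O` then `|c| = 1` and the order of
the reduction of `x` at `Q` is `m` times the order of the reduction of `w`. -/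
theorem valuation_eq_one_and_ord_eq {O : ValuationSubring F} (res : O →+* L)
    (hres0 : ∀ x : O, res x = 0 ↔ ¬ IsUnit x)
    (hmem : ∀ a : K, algebraMap K F a ∈ O ↔ a ∈ A)
    (hresc : ∀ (a : K) (ha : a ∈ A) (ha' : algebraMap K F a ∈ O),
      res ⟨algebraMap K F a, ha'⟩ = algebraMap (ResidueField A) L (residue A ⟨a, ha⟩))
    (Q : Place (ResidueField A) L) {w : F} (hw : w ∈ O) (hwunit : IsUnit (⟨w, hw⟩ : O))
    {ε : F} (hε : ∃ h : ε ∈ O, IsValueAt Q (res ⟨ε, h⟩) 1)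
    {x : F} (hx : x ∈ O) (hxres : res ⟨x, hx⟩ ≠ 0) {c : K} (hc : c ≠ 0) (m : ℤ)
    (hxeq : x = algebraMap K F c * w ^ m * ε) :
    A.valuation c = 1 ∧ Q.ord (res ⟨x, hx⟩) = m * Q.ord (res ⟨w, hw⟩) := by
  obtain ⟨hεmem, hεval⟩ := hε
  have hεres : res ⟨ε, hεmem⟩ ≠ 0 := ne_zero_of_isValueAt_ne hεval one_ne_zero
  have hεord : Q.ord (res ⟨ε, hεmem⟩) = 0 := hεval.ord_eq_zero one_ne_zero
  obtain ⟨hεinv, -⟩ := inv_mem_of_res_ne_zero hres0 hεmem hεres
  obtain ⟨hwm, hwmres⟩ := zpow_mem_and_res res hw hwunit m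
  obtain ⟨hwmn, -⟩ := zpow_mem_and_res res hw hwunit (-m)
  obtain ⟨hxinv, -⟩ := inv_mem_of_res_ne_zero hres0 hx hxres
  have hw0 : w ≠ 0 := by
    rintro rfl
    have h0 : (⟨0, hw⟩ : O) = 0 := rfl
    rw [h0] at hwunit
    exact not_isUnit_zero hwunit
  have hε0 : ε ≠ 0 := by
    rintro rfl
    apply hεres
    have : (⟨0, hεmem⟩ : O) = 0 := rfl
    rw [this, map_zero]
  have hwm0 : w ^ m ≠ 0 := zpow_ne_zero _ hw0
  have hcF : algebraMap K F c ≠ 0 := (map_ne_zero _).mpr hc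
  -- `c` is a unit of `A`
  have hcA : c ∈ A := by
    rw [← hmem]
    have h1 : algebraMap K F c = x * w ^ (-m) * ε⁻¹ := by
      rw [hxeq, zpow_neg]
      field_simp
    rw [h1]
    exact O.mul_mem _ _ (O.mul_mem _ _ hx hwmn) hεinv
  have hcinvA : c⁻¹ ∈ A := by
    rw [← hmem]
    have h1 : algebraMap K F c⁻¹ = x⁻¹ * w ^ m * ε := by
      rw [map_inv₀, hxeq]
      field_simp
    rw [h1]
    exact O.mul_mem _ _ (O.mul_mem _ _ hxinv hwm) hεmem
  have hcval : A.valuation c = 1 := by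
    have h1 : A.valuation c ≤ 1 := (A.valuation_le_one_iff c).mpr hcA
    have h2 : A.valuation c⁻¹ ≤ 1 := (A.valuation_le_one_iff c⁻¹).mpr hcinvA
    rw [map_inv₀] at h2
    have hpos : 0 < A.valuation c :=
      lt_of_le_of_ne zero_le ((Valuation.ne_zero_iff _).mpr hc).symm
    exact le_antisymm h1 ((inv_le_one₀ hpos).mp h2)
  refine ⟨hcval, ?_⟩
  -- the residue of `x`
  have hcO : algebraMap K F c ∈ O := (hmem c).mpr hcA
  have hxprod : (⟨x, hx⟩ : O) = ⟨algebraMap K F c, hcO⟩ * ⟨w ^ m, hwm⟩ * ⟨ε, hεmem⟩ :=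
    Subtype.ext hxeq
  have hcres : res ⟨algebraMap K F c, hcO⟩ =
      algebraMap (ResidueField A) L (residue A ⟨c, hcA⟩) := hresc c hcA hcO
  have hcres0 : residue A ⟨c, hcA⟩ ≠ 0 := by
    intro h0
    rw [residue_eq_zero_iff] at h0
    have := (A.valuation_lt_one_iff _).mp h0
    rw [hcval] at this
    exact lt_irrefl _ this
  have hcord : Q.ord (res ⟨algebraMap K F c, hcO⟩) = 0 := by
    rw [hcres]
    exact (isValueAt_algebraMap Q _).ord_eq_zero hcres0
  have hcresne : res ⟨algebraMap K F c, hcO⟩ ≠ 0 := by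
    rw [hcres]
    exact (map_ne_zero _).mpr hcres0
  have hwres : res ⟨w, hw⟩ ≠ 0 := fun h0 => ((hres0 _).mp h0) hwunit
  rw [hxprod, map_mul, map_mul, hwmres,
    Q.ord_mul (mul_ne_zero hcresne (zpow_ne_zero _ hwres)) hεres,
    Q.ord_mul hcresne (zpow_ne_zero _ hwres), hcord, hεord, Place.ord_zpow]
  ring

end Comp

variable {ι₀ : Type} {Ft₀ : ι₀ → Type} [∀ v, Field (Ft₀ v)] [∀ v, Algebra (ResidueField A) (Ft₀ v)]
  {ν₀ : Type}
  {S₀ : SemistableSetup (F := F) A (residue A) ι₀ Ft₀ ν₀} {e : ν₀}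

/-- A function without zeros and poles on the tube is `c · u ^ b · ε`, `ε` a node unit. -/
theorem exists_eq_const_mul_zpow_mul_nodeUnit_aux (ch : AnnulusChartN S₀ e) {x : F} (hx0 : x ≠ 0)
    (hord : ∀ P ∈ tube S₀ e, P.ord x = 0) :
    ∃ (b : ℤ) (c : K) (ε : F), c ≠ 0 ∧ NodeUnit S₀ e ε ∧
      x = algebraMap K F c * ch.u ^ b * ε := by
  classical
  have hu0 : ch.u ≠ 0 := by
    intro h0
    apply ch.res_u_src_ne_zero
    have : (⟨ch.u, ch.u_src⟩ : S₀.O (S₀.src e)) = 0 := Subtype.ext h0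
    rw [this, map_zero]
  obtain ⟨S, n, b, c, ε, hS, hc, hε, hyeq, hordS, -⟩ := ch.tubeFact.exists_factor hu0 hx0
  have hprod : ∏ Q ∈ S, (ch.u - algebraMap K F (evalAt Q ch.u)) ^ n Q = 1 := by
    apply Finset.prod_eq_one
    intro Q hQ
    have hnQ : n Q = 0 := by rw [← hordS Q hQ]; exact hord Q (hS Q hQ)
    rw [hnQ, zpow_zero]
  rw [hprod, mul_one] at hyeq
  exact ⟨b, c, ε, hc, hε, hyeq⟩

/-- **The coordinate form of a function without zeros and poles on the tube, seen from `src e`.**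
A function `x` which is a unit on the component `src e` and has neither zeros nor poles on the
tube of the node `e` is `c₀ · u ^ b · ε` with `|c₀| = 1`, `ε` a node unit, and `b` the order of the
reduction of `x` on `src e` at the branch of the node. -/
theorem exists_eq_const_mul_zpow_mul_nodeUnit (ch : AnnulusChartN S₀ e) {x : F}
    (hx : x ∈ S₀.O (S₀.src e)) (hres : S₀.res (S₀.src e) ⟨x, hx⟩ ≠ 0)
    (hord : ∀ P ∈ tube S₀ e, P.ord x = 0) :
    ∃ (c₀ : K) (ε : F), A.valuation c₀ = 1 ∧ NodeUnit S₀ e ε ∧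
      x = algebraMap K F c₀ * ch.u ^ ((S₀.s₁ e).ord (S₀.res (S₀.src e) ⟨x, hx⟩)) * ε := by
  have hx0 : x ≠ 0 := by
    rintro rfl
    apply hres
    have : (⟨0, hx⟩ : S₀.O (S₀.src e)) = 0 := rfl
    rw [this, map_zero]
  obtain ⟨b, c, ε, hc, hε, hyeq⟩ := exists_eq_const_mul_zpow_mul_nodeUnit_aux ch hx0 hord
  obtain ⟨hcval, hb⟩ := valuation_eq_one_and_ord_eq (S₀.res (S₀.src e))
    (S₀.res_eq_zero_iff (S₀.src e)) (S₀.algebraMap_mem_iff (S₀.src e))
    (S₀.res_algebraMap (S₀.src e)) (S₀.s₁ e) ch.u_src ch.isUnit_u_src hε.2.1 hx hres hc b hyeq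
  rw [ch.ord_src, mul_one] at hb
  exact ⟨c, ε, hcval, hε, by rw [hb]; exact hyeq⟩

/-- **The coordinate form of a function without zeros and poles on the tube, seen from `tgt e`.**
A function `y` which is a unit on the component `tgt e` and has neither zeros nor poles on the
tube of the node `e` is `c₁ · (thick / u) ^ b · ε` with `|c₁| = 1`, `ε` a node unit, and `b` the
order of the reduction of `y` on `tgt e` at the branch of the node. -/
theorem exists_eq_const_mul_zpow_mul_nodeUnit_tgt (ch : AnnulusChartN S₀ e) {y : F}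
    (hy : y ∈ S₀.O (S₀.tgt e)) (hres : S₀.res (S₀.tgt e) ⟨y, hy⟩ ≠ 0)
    (hord : ∀ P ∈ tube S₀ e, P.ord y = 0) :
    ∃ (c₁ : K) (ε : F), A.valuation c₁ = 1 ∧ NodeUnit S₀ e ε ∧
      y = algebraMap K F c₁ *
        (ch.thick • ch.u⁻¹) ^ ((S₀.s₂ e).ord (S₀.res (S₀.tgt e) ⟨y, hy⟩)) * ε := by
  have hy0 : y ≠ 0 := by
    rintro rfl
    apply hres
    have : (⟨0, hy⟩ : S₀.O (S₀.tgt e)) = 0 := rfl
    rw [this, map_zero]
  have hu0 : ch.u ≠ 0 := by
    intro h0
    apply ch.res_u_src_ne_zero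
    have : (⟨ch.u, ch.u_src⟩ : S₀.O (S₀.src e)) = 0 := Subtype.ext h0
    rw [this, map_zero]
  obtain ⟨b, c, ε, hc, hε, hyeq⟩ := exists_eq_const_mul_zpow_mul_nodeUnit_aux ch hy0 hord
  have htF : algebraMap K F ch.thick ≠ 0 := (map_ne_zero _).mpr ch.thick_ne
  have hyeq' : y = algebraMap K F (c * ch.thick ^ b) * (ch.thick • ch.u⁻¹) ^ (-b) * ε := by
    rw [hyeq, Algebra.smul_def, mul_zpow, inv_zpow, zpow_neg, zpow_neg, inv_inv, map_mul,
      map_zpow₀]
    have h1 : algebraMap K F ch.thick ^ b ≠ 0 := zpow_ne_zero _ htF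
    field_simp
  obtain ⟨hcval, hb⟩ := valuation_eq_one_and_ord_eq (S₀.res (S₀.tgt e))
    (S₀.res_eq_zero_iff (S₀.tgt e)) (S₀.algebraMap_mem_iff (S₀.tgt e))
    (S₀.res_algebraMap (S₀.tgt e)) (S₀.s₂ e) ch.v_tgt ch.isUnit_v_tgt hε.2.2 hy hres
    (mul_ne_zero hc (zpow_ne_zero _ ch.thick_ne)) (-b) hyeq'
  rw [ch.ord_tgt, mul_one] at hb
  exact ⟨c * ch.thick ^ b, ε, hcval, hε, by rw [hb]; exact hyeq'⟩

/-- **Thickness-one coordinate**: if moreover the reduction of `x` on `src e` has a SIMPLE zero at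
the branch of the node, then `x = c₀ • u * ε` with `|c₀| = 1` and `ε` a node unit. -/
theorem exists_eq_smul_coord_mul_nodeUnit (ch : AnnulusChartN S₀ e) {x : F}
    (hx : x ∈ S₀.O (S₀.src e))
    (hord1 : (S₀.s₁ e).ord (S₀.res (S₀.src e) ⟨x, hx⟩) = 1)
    (hord : ∀ P ∈ tube S₀ e, P.ord x = 0) :
    ∃ (c₀ : K) (ε : F), A.valuation c₀ = 1 ∧ NodeUnit S₀ e ε ∧ x = c₀ • ch.u * ε := by
  have hres : S₀.res (S₀.src e) ⟨x, hx⟩ ≠ 0 := by
    intro h0
    rw [h0, Place.ord_zero] at hord1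
    exact zero_ne_one hord1
  obtain ⟨c₀, ε, h1, h2, h3⟩ := exists_eq_const_mul_zpow_mul_nodeUnit ch hx hres hord
  refine ⟨c₀, ε, h1, h2, ?_⟩
  rw [h3, hord1, zpow_one, Algebra.smul_def]

/-- **Thickness-one coordinate, mirror**: if the reduction of `y` on `tgt e` has a SIMPLE zero at
the branch of the node, then `y = c₁ • (thick • u⁻¹) * ε` with `|c₁| = 1` and `ε` a node unit. -/
theorem exists_eq_smul_cocoord_mul_nodeUnit (ch : AnnulusChartN S₀ e) {y : F}
    (hy : y ∈ S₀.O (S₀.tgt e))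
    (hord1 : (S₀.s₂ e).ord (S₀.res (S₀.tgt e) ⟨y, hy⟩) = 1)
    (hord : ∀ P ∈ tube S₀ e, P.ord y = 0) :
    ∃ (c₁ : K) (ε : F), A.valuation c₁ = 1 ∧ NodeUnit S₀ e ε ∧
      y = c₁ • (ch.thick • ch.u⁻¹) * ε := by
  have hres : S₀.res (S₀.tgt e) ⟨y, hy⟩ ≠ 0 := by
    intro h0
    rw [h0, Place.ord_zero] at hord1
    exact zero_ne_one hord1
  obtain ⟨c₁, ε, h1, h2, h3⟩ := exists_eq_const_mul_zpow_mul_nodeUnit_tgt ch hy hres hord
  refine ⟨c₁, ε, h1, h2, ?_⟩
  rw [h3, hord1, zpow_one, Algebra.smul_def (R := K) c₁]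

/-- **A unit of the tube**: if the reduction of `z` on `src e` has neither zero nor pole at the
branch of the node (and `z` has neither zeros nor poles on the tube), then `z = c • ε` with
`|c| = 1` and `ε` a node unit. -/
theorem exists_eq_smul_nodeUnit (ch : AnnulusChartN S₀ e) {z : F}
    (hz : z ∈ S₀.O (S₀.src e)) (hres : S₀.res (S₀.src e) ⟨z, hz⟩ ≠ 0)
    (hord0 : (S₀.s₁ e).ord (S₀.res (S₀.src e) ⟨z, hz⟩) = 0)
    (hord : ∀ P ∈ tube S₀ e, P.ord z = 0) :
    ∃ (c : K) (ε : F), A.valuation c = 1 ∧ NodeUnit S₀ e ε ∧ z = c • ε := by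
  obtain ⟨c, ε, h1, h2, h3⟩ := exists_eq_const_mul_zpow_mul_nodeUnit ch hz hres hord
  refine ⟨c, ε, h1, h2, ?_⟩
  rw [h3, hord0, zpow_zero, mul_one, Algebra.smul_def]

/-! ### step (4): the reduction on a circle -/

section Circle

variable [IsAlgClosed (ResidueField A)] {T : Set (Place K F)}

/-- `x = c₀ • u * ε` with `c₀ ∈ A` and `ε` a tube unit reduces, after division by the gauge, to
`residue c₀ · X` on the circle of gauge `a`. -/
theorem isRed_inv_smul_of_eq (C : AnnulusCore A T) {a c₀ : K} (ha : a ≠ 0) (hc₀ : c₀ ∈ A)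
    {ε x : F} (hε : TubeUnit A T ε) (hx : x = c₀ • C.u * ε) :
    IsRed C a (a⁻¹ • x) (RatFunc.C (residue A ⟨c₀, hc₀⟩) * RatFunc.X) := by
  have h1 : a⁻¹ • x = algebraMap K F c₀ * (a⁻¹ • C.u) * ε := by
    rw [hx, Algebra.smul_def, Algebra.smul_def, Algebra.smul_def]
    ring
  rw [h1]
  have h2 := ((isRed_const (C := C) (a := a) hc₀).mul (isRed_coord (C := C) ha)).mul
    (isRed_tubeUnit (C := C) (a := a) hε)
  rwa [mul_one, RatFunc.algebraMap_eq_C] at h2

/-- `y = c₁ • (thick • u⁻¹) * ε` with `c₁ ∈ A` and `ε` a tube unit reduces, after multiplication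
by `a / thick`, to `residue c₁ · X⁻¹` on the circle of gauge `a`. -/
theorem isRed_div_smul_of_eq (C : AnnulusCore A T) {a c₁ : K} (ha : a ≠ 0) (hc₁ : c₁ ∈ A)
    {ε y : F} (hε : TubeUnit A T ε) (hy : y = c₁ • (C.thick • C.u⁻¹) * ε) :
    IsRed C a ((a / C.thick) • y) (RatFunc.C (residue A ⟨c₁, hc₁⟩) * RatFunc.X⁻¹) := by
  have htF : algebraMap K F C.thick ≠ 0 := (map_ne_zero _).mpr C.thick_ne
  have h1 : (a / C.thick) • y = algebraMap K F c₁ * (a⁻¹ • C.u)⁻¹ * ε := by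
    rw [hy, Algebra.smul_def, Algebra.smul_def, Algebra.smul_def, Algebra.smul_def, mul_inv,
      map_inv₀, inv_inv, map_div₀]
    field_simp
  rw [h1]
  have h2 := ((isRed_const (C := C) (a := a) hc₁).mul
    ((isRed_coord (C := C) ha).inv RatFunc.X_ne_zero)).mul (isRed_tubeUnit (C := C) (a := a) hε)
  rwa [mul_one, RatFunc.algebraMap_eq_C] at h2

/-- `z = c • ε` with `c ∈ A` and `ε` a tube unit reduces to the constant `residue c` on every
circle. -/
theorem isRed_of_eq_smul_tubeUnit (C : AnnulusCore A T) {a c : K} (hc : c ∈ A)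
    {ε z : F} (hε : TubeUnit A T ε) (hz : z = c • ε) :
    IsRed C a z (RatFunc.C (residue A ⟨c, hc⟩)) := by
  rw [hz, Algebra.smul_def]
  have h2 := (isRed_const (C := C) (a := a) hc).mul (isRed_tubeUnit (C := C) (a := a) hε)
  rwa [mul_one, RatFunc.algebraMap_eq_C] at h2

variable (ch : AnnulusChartN S₀ e) (a : K)
  (ha1 : A.valuation ch.toCore.thick < A.valuation a) (ha2 : A.valuation a < 1)

include ha1 in
/-- **The reduction of a thickness-one coordinate on a circle**: for `x` as in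
`exists_eq_smul_coord_mul_nodeUnit`, `a⁻¹ • x` reduces to `β · X` on the circle of gauge `a`,
with `β ≠ 0` independent of the gauge. -/
theorem exists_isRed_inv_smul {x : F} (hx : x ∈ S₀.O (S₀.src e))
    (hord1 : (S₀.s₁ e).ord (S₀.res (S₀.src e) ⟨x, hx⟩) = 1)
    (hord : ∀ P ∈ tube S₀ e, P.ord x = 0) :
    ∃ β : ResidueField A, β ≠ 0 ∧ IsRed ch.toCore a (a⁻¹ • x) (RatFunc.C β * RatFunc.X) := by
  obtain ⟨c₀, ε, h1, h2, h3⟩ := exists_eq_smul_coord_mul_nodeUnit ch hx hord1 hord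
  have hc₀ : c₀ ∈ A := (A.valuation_le_one_iff c₀).mp h1.le
  refine ⟨residue A ⟨c₀, hc₀⟩, ?_, ?_⟩
  · intro h0
    rw [residue_eq_zero_iff] at h0
    have := (A.valuation_lt_one_iff _).mp h0
    rw [h1] at this
    exact lt_irrefl _ this
  · exact isRed_inv_smul_of_eq ch.toCore (gauge_ne_zero (C := ch.toCore) ha1) hc₀ h2.1 h3

/-- **The residue of a thickness-one coordinate in the residue field of a circle**: `a⁻¹ • x`
lies in the ring of the circle of gauge `a` and its residue is `β · X`, `β ≠ 0`. -/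
theorem exists_circleRes_inv_smul {x : F} (hx : x ∈ S₀.O (S₀.src e))
    (hord1 : (S₀.s₁ e).ord (S₀.res (S₀.src e) ⟨x, hx⟩) = 1)
    (hord : ∀ P ∈ tube S₀ e, P.ord x = 0) :
    ∃ β : ResidueField A, β ≠ 0 ∧ ∃ h : a⁻¹ • x ∈ circleRing ch.toCore a ha1 ha2,
      circleRes ch.toCore a ha1 ha2 ⟨a⁻¹ • x, h⟩ = RatFunc.C β * RatFunc.X := by
  obtain ⟨β, hβ, hred⟩ := exists_isRed_inv_smul ch a ha1 hx hord1 hord
  exact ⟨β, hβ, ⟨_, hred⟩, circleRes_mk ch.toCore a ha1 ha2 hred⟩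

include ha1 in
/-- **Mirror**: for `y` as in `exists_eq_smul_cocoord_mul_nodeUnit`, `(a / thick) • y` reduces to
`β' · X⁻¹` on the circle of gauge `a`, with `β' ≠ 0` independent of the gauge. -/
theorem exists_isRed_div_smul {y : F} (hy : y ∈ S₀.O (S₀.tgt e))
    (hord1 : (S₀.s₂ e).ord (S₀.res (S₀.tgt e) ⟨y, hy⟩) = 1)
    (hord : ∀ P ∈ tube S₀ e, P.ord y = 0) :
    ∃ β : ResidueField A, β ≠ 0 ∧
      IsRed ch.toCore a ((a / ch.thick) • y) (RatFunc.C β * RatFunc.X⁻¹) := by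
  obtain ⟨c₁, ε, h1, h2, h3⟩ := exists_eq_smul_cocoord_mul_nodeUnit ch hy hord1 hord
  have hc₁ : c₁ ∈ A := (A.valuation_le_one_iff c₁).mp h1.le
  refine ⟨residue A ⟨c₁, hc₁⟩, ?_, ?_⟩
  · intro h0
    rw [residue_eq_zero_iff] at h0
    have := (A.valuation_lt_one_iff _).mp h0
    rw [h1] at this
    exact lt_irrefl _ this
  · exact isRed_div_smul_of_eq ch.toCore (gauge_ne_zero (C := ch.toCore) ha1) hc₁ h2.1 h3

/-- **Mirror, residue form**: `(a / thick) • y` lies in the ring of the circle of gauge `a` and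
its residue is `β' · X⁻¹`, `β' ≠ 0`. -/
theorem exists_circleRes_div_smul {y : F} (hy : y ∈ S₀.O (S₀.tgt e))
    (hord1 : (S₀.s₂ e).ord (S₀.res (S₀.tgt e) ⟨y, hy⟩) = 1)
    (hord : ∀ P ∈ tube S₀ e, P.ord y = 0) :
    ∃ β : ResidueField A, β ≠ 0 ∧ ∃ h : (a / ch.thick) • y ∈ circleRing ch.toCore a ha1 ha2,
      circleRes ch.toCore a ha1 ha2 ⟨(a / ch.thick) • y, h⟩ = RatFunc.C β * RatFunc.X⁻¹ := by
  obtain ⟨β, hβ, hred⟩ := exists_isRed_div_smul ch a ha1 hy hord1 hord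
  exact ⟨β, hβ, ⟨_, hred⟩, circleRes_mk ch.toCore a ha1 ha2 hred⟩

/-- **A unit of the tube reduces to a nonzero constant on every circle.** -/
theorem exists_circleRes_unit {z : F} (hz : z ∈ S₀.O (S₀.src e))
    (hres : S₀.res (S₀.src e) ⟨z, hz⟩ ≠ 0)
    (hord0 : (S₀.s₁ e).ord (S₀.res (S₀.src e) ⟨z, hz⟩) = 0)
    (hord : ∀ P ∈ tube S₀ e, P.ord z = 0) :
    ∃ β : ResidueField A, β ≠ 0 ∧ ∃ h : z ∈ circleRing ch.toCore a ha1 ha2,
      circleRes ch.toCore a ha1 ha2 ⟨z, h⟩ = RatFunc.C β := by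
  obtain ⟨c, ε, h1, h2, h3⟩ := exists_eq_smul_nodeUnit ch hz hres hord0 hord
  have hc : c ∈ A := (A.valuation_le_one_iff c).mp h1.le
  have hred := isRed_of_eq_smul_tubeUnit ch.toCore (a := a) hc h2.1 h3
  refine ⟨residue A ⟨c, hc⟩, ?_, ⟨_, hred⟩, circleRes_mk ch.toCore a ha1 ha2 hred⟩
  intro h0
  rw [residue_eq_zero_iff] at h0
  have := (A.valuation_lt_one_iff _).mp h0
  rw [h1] at this
  exact lt_irrefl _ this

include ha1 ha2 in
/-- **Thickness one is forced**: if `x` has a simple zero on `src e`, `y` a simple zero on `tgt e`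
at the node, `z` is a unit at the node on `src e`, none of them has zeros or poles on the tube and
`x * y = κ • z` for a constant `κ`, then `|κ| = |thick|`. -/
theorem valuation_eq_thick_of_mul_eq {x y z : F} {κ : K}
    (hx : x ∈ S₀.O (S₀.src e)) (hxord1 : (S₀.s₁ e).ord (S₀.res (S₀.src e) ⟨x, hx⟩) = 1)
    (hxord : ∀ P ∈ tube S₀ e, P.ord x = 0)
    (hy : y ∈ S₀.O (S₀.tgt e)) (hyord1 : (S₀.s₂ e).ord (S₀.res (S₀.tgt e) ⟨y, hy⟩) = 1)
    (hyord : ∀ P ∈ tube S₀ e, P.ord y = 0)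
    (hz : z ∈ S₀.O (S₀.src e)) (hzres : S₀.res (S₀.src e) ⟨z, hz⟩ ≠ 0)
    (hzord0 : (S₀.s₁ e).ord (S₀.res (S₀.src e) ⟨z, hz⟩) = 0)
    (hzord : ∀ P ∈ tube S₀ e, P.ord z = 0) (hxyz : x * y = κ • z) :
    A.valuation κ = A.valuation ch.thick := by
  obtain ⟨c₀, ε₀, h1, h2, h3⟩ := exists_eq_smul_coord_mul_nodeUnit ch hx hxord1 hxord
  obtain ⟨c₁, ε₁, h1', h2', h3'⟩ := exists_eq_smul_cocoord_mul_nodeUnit ch hy hyord1 hyord
  obtain ⟨c, ε, h1'', h2'', h3''⟩ := exists_eq_smul_nodeUnit ch hz hzres hzord0 hzord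
  -- evaluate at a point of the tube
  obtain ⟨P, hP, -, -⟩ := exists_generic_point ch.toCore a ha1 ha2 ∅
  obtain ⟨hPu, hPu1, hPu2⟩ := isValueAt_evalAt_u ch.toCore hP
  change IsValueAt P ch.u (evalAt P ch.u) at hPu
  change A.valuation ch.thick < A.valuation (evalAt P ch.u) at hPu1
  have hu0 : evalAt P ch.u ≠ 0 := by
    intro h0
    rw [h0, map_zero] at hPu1
    exact not_lt_zero hPu1
  obtain ⟨d₀, hd₀, hd₀'⟩ := h2.1 P hP
  obtain ⟨d₁, hd₁, hd₁'⟩ := h2'.1 P hP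
  obtain ⟨d, hd, hd'⟩ := h2''.1 P hP
  have hval1 : ∀ {t : K}, A.valuation (t - 1) < 1 → A.valuation t = 1 := by
    intro t ht
    have : t = 1 + (t - 1) := by ring
    rw [this]
    exact Valuation.map_one_add_of_lt _ ht
  -- values of both sides at `P`
  have hL : IsValueAt P (x * y)
      ((c₀ * evalAt P ch.u * d₀) * (c₁ * (ch.thick * (evalAt P ch.u)⁻¹) * d₁)) := by
    rw [h3, h3']
    exact (((hPu.smul c₀)).mul hd₀).mul ((((IsValueAt.inv hPu hu0).smul ch.thick).smul c₁).mul hd₁)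
  have hR : IsValueAt P (κ • z) (κ * (c * d)) := by
    rw [h3'']
    exact (hd.smul c).smul κ
  rw [hxyz] at hL
  have heq := hL.unique hR
  have hv := congrArg A.valuation heq
  simp only [map_mul, map_inv₀, h1, h1', h1'', hval1 hd₀', hval1 hd₁', hval1 hd', one_mul,
    mul_one] at hv
  have hupos : A.valuation (evalAt P ch.u) ≠ 0 := (Valuation.ne_zero_iff _).mpr hu0
  rw [mul_comm (A.valuation ch.thick), ← mul_assoc, mul_inv_cancel₀ hupos, one_mul] at hv
  exact hv.symm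

/-! ### the two-component charts of Program B (`Circle.AnnulusChart`) -/

/-- `exists_circleRes_inv_smul` for a two-component annulus chart (`S′` of Program B). -/
theorem exists_circleRes_inv_smul_of_chart (ch' : AnnulusChart S₀ e) (a : K)
    (ha1 : A.valuation ch'.toCore.thick < A.valuation a) (ha2 : A.valuation a < 1) {x : F}
    (hx : x ∈ S₀.O (S₀.src e))
    (hord1 : (S₀.s₁ e).ord (S₀.res (S₀.src e) ⟨x, hx⟩) = 1)
    (hord : ∀ P ∈ tube S₀ e, P.ord x = 0) :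
    ∃ β : ResidueField A, β ≠ 0 ∧ ∃ h : a⁻¹ • x ∈ circleRing ch'.toCore a ha1 ha2,
      circleRes ch'.toCore a ha1 ha2 ⟨a⁻¹ • x, h⟩ = RatFunc.C β * RatFunc.X :=
  exists_circleRes_inv_smul (AnnulusChartN.ofChart ch') a ha1 ha2 hx hord1 hord

/-- `exists_circleRes_div_smul` for a two-component annulus chart (`S′` of Program B). -/
theorem exists_circleRes_div_smul_of_chart (ch' : AnnulusChart S₀ e) (a : K)
    (ha1 : A.valuation ch'.toCore.thick < A.valuation a) (ha2 : A.valuation a < 1) {y : F}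
    (hy : y ∈ S₀.O (S₀.tgt e))
    (hord1 : (S₀.s₂ e).ord (S₀.res (S₀.tgt e) ⟨y, hy⟩) = 1)
    (hord : ∀ P ∈ tube S₀ e, P.ord y = 0) :
    ∃ β : ResidueField A, β ≠ 0 ∧ ∃ h : (a / ch'.thick) • y ∈ circleRing ch'.toCore a ha1 ha2,
      circleRes ch'.toCore a ha1 ha2 ⟨(a / ch'.thick) • y, h⟩ = RatFunc.C β * RatFunc.X⁻¹ :=
  exists_circleRes_div_smul (AnnulusChartN.ofChart ch') a ha1 ha2 hy hord1 hord

end Circle

end Fermat.Agent.BR3.VertCoord
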