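import Mathlib
import Fermat.Agent.BR.S0.AnnulusChartOfLevels
import Fermat.Agent.BR3.VertCoord

/-!
# Program C (S36), spike (C-VERT) / node I2: thickness-one coordinates on the tube of a node, from the
level data (generic form)

`S₀` a semistable setup, `e` a node, `L : AnnulusLevels A (tube S₀ e) ι` level data of the tube with
branch data `X : BranchData S₀ e L`, `x y z` functions of a level `i` with `x * y = κ • z`, `κ ≠ 0`,
`z` a UNIT of the level.

* `evalAt_ne_zero_of_isUnit`, `ord_eq_zero_of_mul_eq_smul` : `x` has neither zero nor pole on the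
  tube;
* `unit_src` : `z` is integral on `src e`, its reduction is a unit at the branch `s₁ e`;
* `exists_isRed_inv_smul_of_levels` : if the reduction of `x` on `src e` has a simple zero at `s₁ e`
  then on every circle of gauge `a`, `a⁻¹ • x` reduces to `β X`, `β ≠ 0` (helper9's `VertCoord`
  for the chart `X.annulusChartOfLevels`, whose core is `L.core`);
* `valuation_thick_eq_of_mul_eq` : if moreover the reduction of `y` on `tgt e` has a simple zero at
  `s₂ e` then `|L.thick| = |κ|` (thickness is forced).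
-/

set_option autoImplicit false
set_option linter.unusedSectionVars false

noncomputable section

/- S36 build-time patch: file-local shortcut instances. They only shorten instance search;
each is the instance that the search finds anyway (reducible, same terms after unfolding). -/
local instance (priority := 100000) Fermat.Agent.BR3.FastInst.instAlgFullC_VertTube
    {k : Type*} [Field k] (N : ℕ) :
    Algebra k ↥(ModularCurve.modularFunctionFieldFullC k N) := inferInstance
local instance (priority := 100000) Fermat.Agent.BR3.FastInst.instFieldFullC_VertTube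
    {k : Type*} [Field k] (N : ℕ) :
    Field ↥(ModularCurve.modularFunctionFieldFullC k N) := inferInstance
local instance (priority := 100000) Fermat.Agent.BR3.FastInst.instAlgLaurent_VertTube
    {k : Type*} [Field k] : Algebra k (LaurentSeries k) := inferInstance


namespace Fermat.Agent.BR3.VertTube

open AlgebraicCurve IsLocalRing Fermat.Agent.Red Fermat.Agent.BR.Centre Fermat.Agent.BR.SS
  Fermat.Agent.BR.Refine Fermat.Agent.BR.Circle Fermat.Agent.BR.S0
  Fermat.Agent.BR.S0.AnnulusChartOfLevels Fermat.Agent.BR3.CircleN Fermat.Agent.BR3.VertCoord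

variable {K : Type} {F : Type*} [Field K] [Field F] [Algebra K F]
  {A : ValuationSubring K} [IsAlgClosed (ResidueField A)]
  {ι₀ : Type} {Ft₀ : ι₀ → Type} [∀ v, Field (Ft₀ v)] [∀ v, Algebra (ResidueField A) (Ft₀ v)]
  {ν₀ : Type}
  {S₀ : SemistableSetup (F := F) A (residue A) ι₀ Ft₀ ν₀} {e : ν₀} {ι : Type*}
  {L : AnnulusLevels A (tube S₀ e) ι} (X : BranchData S₀ e L)

omit [IsAlgClosed (ResidueField A)] in
/-- A unit of a level does not vanish on the tube. -/
theorem evalAt_ne_zero_of_isUnit (L : AnnulusLevels A (tube S₀ e) ι) (i : ι) {z : F}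
    (hz : z ∈ (L.level i).R) (hu : IsUnit (⟨z, hz⟩ : (L.level i).R)) {P : Place K F}
    (hP : P ∈ tube S₀ e) : evalAt P z ≠ 0 := by
  obtain ⟨w, hw⟩ := hu.exists_right_inv
  have h1 : z * (w : F) = 1 := by
    have := congrArg (fun t : (L.level i).R => (t : F)) hw
    simpa using this
  have h2 := (L.level i).evalAt_mul hP hz w.2
  rw [h1, evalAt_eq_of_isValueAt (isValueAt_one P)] at h2
  intro h0
  rw [h0, zero_mul] at h2
  exact one_ne_zero h2

omit [IsAlgClosed (ResidueField A)] in
/-- `x * y = κ • z` with `z` a unit of the level: `x` has neither zero nor pole on the tube. -/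
theorem ord_eq_zero_of_mul_eq_smul (L : AnnulusLevels A (tube S₀ e) ι) (i : ι) {x y z : F}
    (hx : x ∈ (L.level i).R) (hy : y ∈ (L.level i).R) (hz : z ∈ (L.level i).R)
    (hu : IsUnit (⟨z, hz⟩ : (L.level i).R)) {κ : K} (hκ : κ ≠ 0) (hxy : x * y = κ • z) :
    ∀ P ∈ tube S₀ e, P.ord x = 0 := fun P hP =>
  ord_eq_zero_of_mul_eq_of_isValueAt P ((L.level i).isValueAt_evalAt hP hx)
    ((L.level i).isValueAt_evalAt hP hy) hxy (((L.level i).isValueAt_evalAt hP hz).smul κ)
    (mul_ne_zero hκ (evalAt_ne_zero_of_isUnit L i hz hu hP))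

omit [IsAlgClosed (ResidueField A)] in
/-- A unit of a level has neither zero nor pole on the tube. -/
theorem ord_eq_zero_of_isUnit (L : AnnulusLevels A (tube S₀ e) ι) (i : ι) {z : F}
    (hz : z ∈ (L.level i).R) (hu : IsUnit (⟨z, hz⟩ : (L.level i).R)) :
    ∀ P ∈ tube S₀ e, P.ord z = 0 := fun _ hP =>
  ((L.level i).isValueAt_evalAt hP hz).ord_eq_zero (evalAt_ne_zero_of_isUnit L i hz hu hP)

/-- A unit of a level is integral on `src e` and its reduction is a unit at the branch `s₁ e`. -/
theorem unit_src (i : ι) {z : F} (hz : z ∈ (L.level i).R)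
    (hu : IsUnit (⟨z, hz⟩ : (L.level i).R)) :
    S₀.res (S₀.src e) ⟨z, X.le₁ i z hz⟩ ≠ 0 ∧
      (S₀.s₁ e).ord (S₀.res (S₀.src e) ⟨z, X.le₁ i z hz⟩) = 0 := by
  constructor
  · have h1 : IsUnit (X.red₁ i ⟨z, hz⟩) := hu.map (X.red₁ i)
    exact h1.ne_zero
  · exact ord_res_unit_eq_zero (X.red₁ i) _ (X.adicValuation_red₁_le_one i) hu

/-- **The reduction of a thickness-one coordinate on a circle, from the level data.** -/
theorem exists_isRed_inv_smul_of_levels (a : K)
    (ha1 : A.valuation L.core.thick < A.valuation a) (i : ι) {x y z : F}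
    (hx : x ∈ (L.level i).R) (hy : y ∈ (L.level i).R) (hz : z ∈ (L.level i).R)
    (hu : IsUnit (⟨z, hz⟩ : (L.level i).R)) {κ : K} (hκ : κ ≠ 0) (hxy : x * y = κ • z)
    (hsx : (S₀.s₁ e).ord (S₀.res (S₀.src e) ⟨x, X.le₁ i x hx⟩) = 1) :
    ∃ β : ResidueField A, β ≠ 0 ∧ IsRed L.core a (a⁻¹ • x) (RatFunc.C β * RatFunc.X) :=
  exists_isRed_inv_smul (AnnulusChartN.ofChart X.annulusChartOfLevels) a ha1 (X.le₁ i x hx) hsx
    (ord_eq_zero_of_mul_eq_smul L i hx hy hz hu hκ hxy)

/-- **Thickness is forced**: `|L.thick| = |κ|`. -/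
theorem valuation_thick_eq_of_mul_eq (a : K)
    (ha1 : A.valuation L.core.thick < A.valuation a) (ha2 : A.valuation a < 1) (i : ι)
    {x y z : F} (hx : x ∈ (L.level i).R) (hy : y ∈ (L.level i).R) (hz : z ∈ (L.level i).R)
    (hu : IsUnit (⟨z, hz⟩ : (L.level i).R)) {κ : K} (hκ : κ ≠ 0) (hxy : x * y = κ • z)
    (hsx : (S₀.s₁ e).ord (S₀.res (S₀.src e) ⟨x, X.le₁ i x hx⟩) = 1)
    (hsy : (S₀.s₂ e).ord (S₀.res (S₀.tgt e) ⟨y, X.le₂ i y hy⟩) = 1) :
    A.valuation L.thick = A.valuation κ := by
  have h := valuation_eq_thick_of_mul_eq (AnnulusChartN.ofChart X.annulusChartOfLevels) a ha1 ha2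
    (X.le₁ i x hx) hsx (ord_eq_zero_of_mul_eq_smul L i hx hy hz hu hκ hxy)
    (X.le₂ i y hy) hsy
    (ord_eq_zero_of_mul_eq_smul L i hy hx hz hu hκ ((mul_comm _ _).trans hxy))
    (X.le₁ i z hz) (unit_src X i hz hu).1 (unit_src X i hz hu).2
    (ord_eq_zero_of_isUnit L i hz hu) hxy
  exact h.symm

end Fermat.Agent.BR3.VertTube
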