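import Mathlib
import Fermat.Agent.BR3.VertFinal
import Fermat.Agent.BR3.VertCoord
import Fermat.Agent.BR3.VertTube

/-!
# Program C (S36), spike (C-VERT) / node I2, MAIN THEOREM: the vertical component `z e` over the
`a`-critical circle at a crossing `e` of main's two-component model `S′` of `X₀(M q)`

`S′ := Final.setupFinal B hB hqM hne`, `L := annulusLevels_modular_final B hB hqM hne e`,
`x₁ := j(s) - j(s^q)^q`, `y₁ := j(s^q) - j(s)^q`, `x₁ y₁ = q Ψ_q(j(s^q), j(s))`.

Named hypotheses (all three hold at a non-elliptic supersingular point of thickness one):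
* `hR`  : `Ψ_q(j(s^q), j(s))` is a unit of the level `S` of `L` (node (C-THICK1));
* `hsx` : the reduction of `x₁` on `src e = 'can'` has a simple zero at the branch `s₁ e`;
* `hsy` : the reduction of `y₁` on `tgt e = 'et'` has a simple zero at the branch `s₂ e`.

Conclusions:
* `valuation_thick_eq` : `|L.thick| = |q|` (helper9's `valuation_eq_thick_of_mul_eq`);
* `exists_vertComponent_main` : for every gauge `a₀` of the critical circle, `hR` and `hsx` give THE
  extension `Z` of `circleRing L.core a₀` to `Fb (M q q)` along `α₂`, residue field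
  `k(T)[Ũ]/(Ũ^q + β T Ũ^(q-1) - ρ/(β T))`, `β ρ ≠ 0`;
* `exists_vertComponent_main'` : the same with the gauge produced from `hR`, `hsx`, `hsy`.
-/

set_option autoImplicit false
set_option linter.unusedSectionVars false
set_option linter.style.haveILetI false
set_option synthInstance.maxHeartbeats 400000

noncomputable section

/- S36 build-time patch: file-local shortcut instances. They only shorten instance search;
each is the instance that the search finds anyway (reducible, same terms after unfolding). -/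
local instance (priority := 100000) Fermat.Agent.BR3.FastInst.instAlgFullC_VertMain
    {k : Type*} [Field k] (N : ℕ) :
    Algebra k ↥(ModularCurve.modularFunctionFieldFullC k N) := inferInstance
local instance (priority := 100000) Fermat.Agent.BR3.FastInst.instFieldFullC_VertMain
    {k : Type*} [Field k] (N : ℕ) :
    Field ↥(ModularCurve.modularFunctionFieldFullC k N) := inferInstance
local instance (priority := 100000) Fermat.Agent.BR3.FastInst.instAlgLaurent_VertMain
    {k : Type*} [Field k] : Algebra k (LaurentSeries k) := inferInstance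


namespace Fermat.Agent.BR3.VertMain

open Polynomial ModularCurve AlgebraicCurve IsLocalRing
open Fermat.Agent.X0 Fermat.Agent.Val Fermat.Agent.Red Fermat.Agent.BR.Kron
open Fermat.Agent.BR.SS Fermat.Agent.BR.Refine
open Fermat.Agent.BR.Circle Fermat.Agent.BR.S0 Fermat.Agent.BR.S0.RedModular
open Fermat.Agent.BR.S0.PointDict Fermat.Agent.BR.S0.AnnulusChartOfLevels
open Fermat.Agent.BR.Inst.AnnulusInstFinal Fermat.Agent.BR.Final
open Fermat.Agent.BR3.FibreProd Fermat.Agent.BR3.VertResidue
open Fermat.Agent.BR3.VertCircleMod Fermat.Agent.BR3.VertLevelMem Fermat.Agent.BR3.VertFinal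
open Fermat.Agent.BR3.VertCoord Fermat.Agent.BR3.VertTube

variable {M q : ℕ} [NeZero M] [hq : Fact q.Prime]
variable (B : ValuationSubring Kb) (hB : B.LiesOverPrime q) (hqM : ¬ q ∣ M)
  [IsAlgClosed (ResidueField B)]
  (hne : Nonempty (Crossing (chartDataModular B hB hqM)))
  (e : Crossing (chartDataModular B hB hqM))

local notation "kB" => ResidueField B

variable (M q) in
/-- `x₁ = j(s) - j(s^q)^q`: vanishes on `'et'`, simple zero at the crossings on `'can'`. -/
def x1 : Fb (M * q) := jBar (M * q) - jq' M q ^ q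

variable (M q) in
/-- `y₁ = j(s^q) - j(s)^q`: vanishes on `'can'`, simple zero at the crossings on `'et'`. -/
def y1 : Fb (M * q) := jq' M q - jBar (M * q) ^ q

/-- `x₁ y₁ = q Ψ_q(j(s^q), j(s))` (Kronecker at the root). -/
theorem x1_mul_y1 :
    x1 M q * y1 M q = (q : Kb) • (psiK q (Fb (M * q))).evalEval (jq' M q) (jBar (M * q)) := by
  have h := phiK_evalEval_outer (q := q) (jBar (M * q)) (jq' M q)
  rw [phiK_evalEval_mid_j] at h
  rw [x1, y1, Algebra.smul_def, map_natCast]
  linear_combination h

theorem x1_mem_level (S : Finset Kb) :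
    x1 M q ∈ ((annulusLevels_modular_final B hB hqM hne e).level S).R :=
  sub_mem (jBar_mem_level B hB hqM hne e S) (pow_mem (jq'_mem_level B hB hqM hne e S) q)

theorem y1_mem_level (S : Finset Kb) :
    y1 M q ∈ ((annulusLevels_modular_final B hB hqM hne e).level S).R :=
  sub_mem (jq'_mem_level B hB hqM hne e S) (pow_mem (jBar_mem_level B hB hqM hne e S) q)

theorem x1_mem_src : x1 M q ∈ (setupFinal B hB hqM hne).O ((setupFinal B hB hqM hne).src e) :=
  (branchData_modular_final B hB hqM hne e).le₁ ∅ _ (x1_mem_level B hB hqM hne e ∅)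

theorem y1_mem_tgt : y1 M q ∈ (setupFinal B hB hqM hne).O ((setupFinal B hB hqM hne).tgt e) :=
  (branchData_modular_final B hB hqM hne e).le₂ ∅ _ (y1_mem_level B hB hqM hne e ∅)

section Unit

variable (S : Finset Kb)
  (hR : IsUnit (⟨_, psiK_mem_level B hB hqM hne e S⟩ :
    ((annulusLevels_modular_final B hB hqM hne e).level S).R))

theorem natCast_ne_zero_Kb : ((q : ℕ) : Kb) ≠ 0 := Nat.cast_ne_zero.mpr hq.out.ne_zero

include hR in
set_option maxHeartbeats 1600000 in
/-- **MAIN THEOREM of the spike (C-VERT)**: the vertical component `z e` over the `a`-critical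
circle of the crossing `e` of main's model `S′` of `X₀(M q)`, for a given gauge `a₀`. -/
theorem exists_vertComponent_main (a₀ : Kb)
    (ha1 : B.valuation (annulusLevels_modular_final B hB hqM hne e).core.thick < B.valuation a₀)
    (ha2 : B.valuation a₀ < 1) (ha₀ : B.valuation a₀ ^ (q + 1) = B.valuation (q : Kb))
    (hsx : ((setupFinal B hB hqM hne).s₁ e).ord
      ((setupFinal B hB hqM hne).res ((setupFinal B hB hqM hne).src e)
        ⟨x1 M q, x1_mem_src B hB hqM hne e⟩) = 1) :
    ∃ β : kB, β ≠ 0 ∧ ∃ ρ : kB, ρ ≠ 0 ∧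
      ∃ (Z : ValuationSubring (Fb (M * q * q))) (resZ : Z →+* AdjoinRoot (vertBar q β ρ)),
        Z.comap (alpha2 M q : Fb (M * q) →+* Fb (M * q * q)) =
          circleRing (annulusLevels_modular_final B hB hqM hne e).core a₀ ha1 ha2 ∧
        (∀ Z' : ValuationSubring (Fb (M * q * q)),
          Z'.comap (alpha2 M q : Fb (M * q) →+* Fb (M * q * q)) =
            circleRing (annulusLevels_modular_final B hB hqM hne e).core a₀ ha1 ha2 → Z' = Z) ∧
        Function.Surjective resZ ∧ (∀ z : Z, resZ z = 0 ↔ ¬ IsUnit z) ∧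
        (∀ (y : circleRing (annulusLevels_modular_final B hB hqM hne e).core a₀ ha1 ha2)
          (h : alpha2 M q (y : Fb (M * q)) ∈ Z),
          resZ ⟨alpha2 M q (y : Fb (M * q)), h⟩ =
            AdjoinRoot.of (vertBar q β ρ)
              (circleRes (annulusLevels_modular_final B hB hqM hne e).core a₀ ha1 ha2 y)) ∧
        ∃ hθ : U M q / alpha2 M q (algebraMap Kb (Fb (M * q)) a₀) ∈ Z,
          resZ ⟨U M q / alpha2 M q (algebraMap Kb (Fb (M * q)) a₀), hθ⟩ =
            AdjoinRoot.root (vertBar q β ρ) := by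
  obtain ⟨β, hβ, hred⟩ := exists_isRed_inv_smul_of_levels
    (branchData_modular_final B hB hqM hne e) a₀ ha1 S (x1_mem_level B hB hqM hne e S)
    (y1_mem_level B hB hqM hne e S) (psiK_mem_level B hB hqM hne e S) hR
    natCast_ne_zero_Kb x1_mul_y1 hsx
  exact ⟨β, hβ, exists_vertComponent_final B hB hqM hne e a₀ ha1 ha2 ha₀ S hR hβ hred⟩

include hR in
set_option maxHeartbeats 1600000 in
/-- **Thickness one is forced** by `hR` and the two simple zeros (helper9's
`valuation_eq_thick_of_mul_eq`): `|L.thick| = |q|`. -/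
theorem valuation_thick_eq
    (hsx : ((setupFinal B hB hqM hne).s₁ e).ord
      ((setupFinal B hB hqM hne).res ((setupFinal B hB hqM hne).src e)
        ⟨x1 M q, x1_mem_src B hB hqM hne e⟩) = 1)
    (hsy : ((setupFinal B hB hqM hne).s₂ e).ord
      ((setupFinal B hB hqM hne).res ((setupFinal B hB hqM hne).tgt e)
        ⟨y1 M q, y1_mem_tgt B hB hqM hne e⟩) = 1) :
    B.valuation (annulusLevels_modular_final B hB hqM hne e).thick = B.valuation (q : Kb) := by
  -- a gauge: a square root of the thickness
  have key : ∀ t : Kb, t ≠ 0 → B.valuation t < 1 →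
      ∃ a : Kb, B.valuation t < B.valuation a ∧ B.valuation a < 1 := by
    intro t ht0 ht1
    obtain ⟨a, ha⟩ := IsAlgClosed.exists_pow_nat_eq t (n := 2) (by norm_num)
    have hva : B.valuation a ^ 2 = B.valuation t := by rw [← map_pow, ha]
    have htpos : 0 < B.valuation t := by
      rw [zero_lt_iff, ne_eq, map_eq_zero]; exact ht0
    have hapos : 0 < B.valuation a := by
      rw [zero_lt_iff]
      intro h0
      rw [h0] at hva
      rw [← hva] at htpos
      simp at htpos
    have ha2 : B.valuation a < 1 := by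
      by_contra h
      have h1 : 1 ≤ B.valuation a := not_lt.mp h
      have h2 : 1 ≤ B.valuation a ^ 2 := one_le_pow₀ h1
      rw [hva] at h2
      exact absurd ht1 (not_lt.mpr h2)
    refine ⟨a, ?_, ha2⟩
    rw [← hva, pow_two]
    calc B.valuation a * B.valuation a < 1 * B.valuation a :=
          mul_lt_mul_of_pos_right ha2 hapos
      _ = B.valuation a := one_mul _
  obtain ⟨a, ha1, ha2⟩ := key _ (annulusLevels_modular_final B hB hqM hne e).thick_ne
    (annulusLevels_modular_final B hB hqM hne e).thick_lt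
  exact valuation_thick_eq_of_mul_eq (branchData_modular_final B hB hqM hne e) a ha1 ha2 S
    (x1_mem_level B hB hqM hne e S) (y1_mem_level B hB hqM hne e S)
    (psiK_mem_level B hB hqM hne e S) hR natCast_ne_zero_Kb x1_mul_y1 hsx hsy

include hR in
set_option maxHeartbeats 1600000 in
/-- **MAIN THEOREM of the spike (C-VERT), gauge-free form**: at a crossing `e` of main's model `S′`
of `X₀(M q)` where `Ψ_q(j(s^q), j(s))` is a unit and `x₁`, `y₁` have simple zeros on the two
branches, there is a gauge `a₀` of the `a`-critical circle (`|a₀|^(q+1) = |q| = |thick e|`) and the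
circle valuation `circleRing L.core a₀` of `Fb (M q)` has exactly ONE extension `Z` to `Fb (M q q)`
along `α₂`; its residue field is `k(T)[Ũ]/(Ũ^q + β T Ũ^(q-1) - ρ/(β T))`, `β ρ ≠ 0`
(`e = 1`, `f = q`, genus `(q-1)/2` by `BR3/VertResField`). -/
theorem exists_vertComponent_main'
    (hsx : ((setupFinal B hB hqM hne).s₁ e).ord
      ((setupFinal B hB hqM hne).res ((setupFinal B hB hqM hne).src e)
        ⟨x1 M q, x1_mem_src B hB hqM hne e⟩) = 1)
    (hsy : ((setupFinal B hB hqM hne).s₂ e).ord
      ((setupFinal B hB hqM hne).res ((setupFinal B hB hqM hne).tgt e)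
        ⟨y1 M q, y1_mem_tgt B hB hqM hne e⟩) = 1) :
    ∃ (a₀ : Kb)
      (ha1 : B.valuation (annulusLevels_modular_final B hB hqM hne e).core.thick <
        B.valuation a₀) (ha2 : B.valuation a₀ < 1),
      B.valuation a₀ ^ (q + 1) = B.valuation (q : Kb) ∧
      ∃ β : kB, β ≠ 0 ∧ ∃ ρ : kB, ρ ≠ 0 ∧
      ∃ (Z : ValuationSubring (Fb (M * q * q))) (resZ : Z →+* AdjoinRoot (vertBar q β ρ)),
        Z.comap (alpha2 M q : Fb (M * q) →+* Fb (M * q * q)) =
          circleRing (annulusLevels_modular_final B hB hqM hne e).core a₀ ha1 ha2 ∧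
        (∀ Z' : ValuationSubring (Fb (M * q * q)),
          Z'.comap (alpha2 M q : Fb (M * q) →+* Fb (M * q * q)) =
            circleRing (annulusLevels_modular_final B hB hqM hne e).core a₀ ha1 ha2 → Z' = Z) ∧
        Function.Surjective resZ ∧ (∀ z : Z, resZ z = 0 ↔ ¬ IsUnit z) ∧
        (∀ (y : circleRing (annulusLevels_modular_final B hB hqM hne e).core a₀ ha1 ha2)
          (h : alpha2 M q (y : Fb (M * q)) ∈ Z),
          resZ ⟨alpha2 M q (y : Fb (M * q)), h⟩ =
            AdjoinRoot.of (vertBar q β ρ)
              (circleRes (annulusLevels_modular_final B hB hqM hne e).core a₀ ha1 ha2 y)) ∧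
        ∃ hθ : U M q / alpha2 M q (algebraMap Kb (Fb (M * q)) a₀) ∈ Z,
          resZ ⟨U M q / alpha2 M q (algebraMap Kb (Fb (M * q)) a₀), hθ⟩ =
            AdjoinRoot.root (vertBar q β ρ) := by
  obtain ⟨a₀, ha1, ha2, ha₀⟩ := exists_gauge B hB
    (valuation_thick_eq B hB hqM hne e S hR hsx hsy)
  exact ⟨a₀, ha1, ha2, ha₀,
    exists_vertComponent_main B hB hqM hne e S hR a₀ ha1 ha2 ha₀ hsx⟩

end Unit

end Fermat.Agent.BR3.VertMain
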