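import Mathlib
import Fermat.Agent.BR3.CircleConstRed
import Fermat.Agent.BR3.VertMain
import Fermat.Agent.BR3.VertSheet.Sheet
import Fermat.Agent.BR3.FibreProdMidFull
import Fermat.Agent.BR.S0.AnnulusDense

/-!
# Program C (S36), node (I7-CR), part 3: the constant reduction of the vertical component `z e`
of `X₀(M q²)` — `CZ e` of `SDD.constRedOf`

`F' = Fb (M q)`, `F'' = Fb (M q²)` along `α₂`; `C : AnnulusCore B T` any K-level contract of the
tube of a crossing of the two-component model of `X₀(M q)` (e.g.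
`(annulusLevels_modular_final B hB hqM hne e).core`, or `SRef.Modular.core Dt e`).

* `structure ZeData B C a₀ ha1 ha2 Ugen : Type` : the conclusion of
  `VertMain.exists_vertComponent_main` (`Ugen := U M q`) resp. of the `f`-version
  (`Ugen := Ug M q g`) at the gauge `a₀`, as DATA, so that one choice `(β, ρ, Z, resZ)` is shared
  by all the owners of the pieces of `S''` at `z e`;
* `nonempty_zeData_of_exists`, `exists_zeData_of_exists`, `nonempty_zeData_main`;
* `D.theta`, `D.instFact`, `D.constRed hB happ : ConstRed (F := Fb (M q²))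
  (Ft := AdjoinRoot (vertBar q D.β D.ρ)) B (residue B)` with `.O = D.Z`, `.res = D.resZ` (`rfl`),
  `D.constRedOfLevels`, `D.vertComp` (helper16's `VertSheet.VertComp`), `D.arch`.
-/

set_option autoImplicit false
set_option linter.unusedSectionVars false
set_option linter.style.haveILetI false
set_option synthInstance.maxHeartbeats 400000

noncomputable section

namespace Fermat.Agent.BR3.ConstRedZe

open Polynomial ModularCurve AlgebraicCurve IsLocalRing
open Fermat.Agent.X0 Fermat.Agent.Val Fermat.Agent.Red Fermat.Agent.BR.TwoVal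
open Fermat.Agent.BR.Kron Fermat.Agent.BR.SS Fermat.Agent.BR.Refine
open Fermat.Agent.BR.Circle Fermat.Agent.BR.S0 Fermat.Agent.BR.S0.RedModular
open Fermat.Agent.BR.S0.PointDict Fermat.Agent.BR.S0.AnnulusChartOfLevels
open Fermat.Agent.BR.Inst.AnnulusInstFinal Fermat.Agent.BR.Final
open Fermat.Agent.BR3.FibreProd Fermat.Agent.BR3.VertResidue Fermat.Agent.BR3.VertMain
open Fermat.Agent.BR3.VertCircleMod Fermat.Agent.BR3.VertLevelMem Fermat.Agent.BR3.VertFinal
open Fermat.Agent.BR3.VertCoord Fermat.Agent.BR3.VertTube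
open Fermat.Agent.BR3.VertSheet Fermat.Agent.BR3.CircleConstRed

variable {M q : ℕ} [NeZero M] [hq : Fact q.Prime]
variable (B : ValuationSubring Kb) [IsAlgClosed (ResidueField B)]
  {T : Set (Place Kb (Fb (M * q)))} (C : AnnulusCore B T)

local notation "kB" => ResidueField B

/-- **The vertical component over the critical circle `|u| = |a₀|` of a crossing, as data**: the
constants `β ρ ≠ 0` of the residue curve `Ũ^q + β T Ũ^(q-1) = ρ/(β T)`, THE extension `Z` of
`circleRing C a₀` to `Fb (M q²)` along `α₂` and its residue map; the residue of `Ugen / α₂ a₀` is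
the root `Ũ`. -/
structure ZeData (a₀ : Kb) (ha1 : B.valuation C.thick < B.valuation a₀)
    (ha2 : B.valuation a₀ < 1) (Ugen : Fb (M * q * q)) : Type where
  /-- the constants of the residue curve -/
  β : kB
  /-- the constants of the residue curve -/
  ρ : kB
  hβ : β ≠ 0
  hρ : ρ ≠ 0
  /-- the valuation ring of the vertical component -/
  Z : ValuationSubring (Fb (M * q * q))
  /-- its residue map -/
  resZ : Z →+* AdjoinRoot (vertBar q β ρ)
  comap_eq : Z.comap (alpha2 M q : Fb (M * q) →+* Fb (M * q * q)) = circleRing C a₀ ha1 ha2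
  unique : ∀ Z' : ValuationSubring (Fb (M * q * q)),
    Z'.comap (alpha2 M q : Fb (M * q) →+* Fb (M * q * q)) = circleRing C a₀ ha1 ha2 → Z' = Z
  surj : Function.Surjective resZ
  ker : ∀ z : Z, resZ z = 0 ↔ ¬ IsUnit z
  compat : ∀ (y : circleRing C a₀ ha1 ha2) (h : alpha2 M q (y : Fb (M * q)) ∈ Z),
    resZ ⟨alpha2 M q (y : Fb (M * q)), h⟩ =
      AdjoinRoot.of (vertBar q β ρ) (circleRes C a₀ ha1 ha2 y)
  θ_mem : Ugen / alpha2 M q (algebraMap Kb (Fb (M * q)) a₀) ∈ Z
  res_θ : resZ ⟨Ugen / alpha2 M q (algebraMap Kb (Fb (M * q)) a₀), θ_mem⟩ =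
    AdjoinRoot.root (vertBar q β ρ)

variable {B C}

/-- The data from the literal conclusion of `VertMain.exists_vertComponent_main` (gauge given). -/
theorem nonempty_zeData_of_exists {a₀ : Kb} {ha1 : B.valuation C.thick < B.valuation a₀}
    {ha2 : B.valuation a₀ < 1} {Ugen : Fb (M * q * q)}
    (h : ∃ β : kB, β ≠ 0 ∧ ∃ ρ : kB, ρ ≠ 0 ∧
      ∃ (Z : ValuationSubring (Fb (M * q * q))) (resZ : Z →+* AdjoinRoot (vertBar q β ρ)),
        Z.comap (alpha2 M q : Fb (M * q) →+* Fb (M * q * q)) = circleRing C a₀ ha1 ha2 ∧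
        (∀ Z' : ValuationSubring (Fb (M * q * q)),
          Z'.comap (alpha2 M q : Fb (M * q) →+* Fb (M * q * q)) = circleRing C a₀ ha1 ha2 →
            Z' = Z) ∧
        Function.Surjective resZ ∧ (∀ z : Z, resZ z = 0 ↔ ¬ IsUnit z) ∧
        (∀ (y : circleRing C a₀ ha1 ha2) (h : alpha2 M q (y : Fb (M * q)) ∈ Z),
          resZ ⟨alpha2 M q (y : Fb (M * q)), h⟩ =
            AdjoinRoot.of (vertBar q β ρ) (circleRes C a₀ ha1 ha2 y)) ∧
        ∃ hθ : Ugen / alpha2 M q (algebraMap Kb (Fb (M * q)) a₀) ∈ Z,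
          resZ ⟨Ugen / alpha2 M q (algebraMap Kb (Fb (M * q)) a₀), hθ⟩ =
            AdjoinRoot.root (vertBar q β ρ)) :
    Nonempty (ZeData B C a₀ ha1 ha2 Ugen) := by
  obtain ⟨β, hβ, ρ, hρ, Z, resZ, h1, h2, h3, h4, h5, hθ, h6⟩ := h
  exact ⟨⟨β, ρ, hβ, hρ, Z, resZ, h1, h2, h3, h4, h5, hθ, h6⟩⟩

/-- The data from the conclusion of `VertMain.exists_vertComponent_main'` (gauge produced). -/
theorem exists_zeData_of_exists {Ugen : Fb (M * q * q)}
    (h : ∃ (a₀ : Kb) (ha1 : B.valuation C.thick < B.valuation a₀) (ha2 : B.valuation a₀ < 1),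
      B.valuation a₀ ^ (q + 1) = B.valuation (q : Kb) ∧
      ∃ β : kB, β ≠ 0 ∧ ∃ ρ : kB, ρ ≠ 0 ∧
      ∃ (Z : ValuationSubring (Fb (M * q * q))) (resZ : Z →+* AdjoinRoot (vertBar q β ρ)),
        Z.comap (alpha2 M q : Fb (M * q) →+* Fb (M * q * q)) = circleRing C a₀ ha1 ha2 ∧
        (∀ Z' : ValuationSubring (Fb (M * q * q)),
          Z'.comap (alpha2 M q : Fb (M * q) →+* Fb (M * q * q)) = circleRing C a₀ ha1 ha2 →
            Z' = Z) ∧
        Function.Surjective resZ ∧ (∀ z : Z, resZ z = 0 ↔ ¬ IsUnit z) ∧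
        (∀ (y : circleRing C a₀ ha1 ha2) (h : alpha2 M q (y : Fb (M * q)) ∈ Z),
          resZ ⟨alpha2 M q (y : Fb (M * q)), h⟩ =
            AdjoinRoot.of (vertBar q β ρ) (circleRes C a₀ ha1 ha2 y)) ∧
        ∃ hθ : Ugen / alpha2 M q (algebraMap Kb (Fb (M * q)) a₀) ∈ Z,
          resZ ⟨Ugen / alpha2 M q (algebraMap Kb (Fb (M * q)) a₀), hθ⟩ =
            AdjoinRoot.root (vertBar q β ρ)) :
    ∃ (a₀ : Kb) (ha1 : B.valuation C.thick < B.valuation a₀) (ha2 : B.valuation a₀ < 1),
      B.valuation a₀ ^ (q + 1) = B.valuation (q : Kb) ∧ Nonempty (ZeData B C a₀ ha1 ha2 Ugen) := by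
  obtain ⟨a₀, ha1, ha2, hg, h'⟩ := h
  exact ⟨a₀, ha1, ha2, hg, nonempty_zeData_of_exists h'⟩

/-- **The data of `z e` at a crossing `e` of main's model `S′` of `X₀(M q)`, at a given gauge**,
from the two named hypotheses of `VertMain.exists_vertComponent_main`. -/
theorem nonempty_zeData_main (hB : B.LiesOverPrime q) (hqM : ¬ q ∣ M)
    (hne : Nonempty (Crossing (chartDataModular B hB hqM)))
    (e : Crossing (chartDataModular B hB hqM)) (S : Finset Kb)
    (hR : IsUnit (⟨_, psiK_mem_level B hB hqM hne e S⟩ :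
      ((annulusLevels_modular_final B hB hqM hne e).level S).R))
    (a₀ : Kb)
    (ha1 : B.valuation (annulusLevels_modular_final B hB hqM hne e).core.thick < B.valuation a₀)
    (ha2 : B.valuation a₀ < 1) (ha₀ : B.valuation a₀ ^ (q + 1) = B.valuation (q : Kb))
    (hsx : ((setupFinal B hB hqM hne).s₁ e).ord
      ((setupFinal B hB hqM hne).res ((setupFinal B hB hqM hne).src e)
        ⟨x1 M q, x1_mem_src B hB hqM hne e⟩) = 1) :
    Nonempty (ZeData B (annulusLevels_modular_final B hB hqM hne e).core a₀ ha1 ha2 (U M q)) :=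
  nonempty_zeData_of_exists
    (exists_vertComponent_main B hB hqM hne e S hR a₀ ha1 ha2 ha₀ hsx)

namespace ZeData

variable {a₀ : Kb} {ha1 : B.valuation C.thick < B.valuation a₀} {ha2 : B.valuation a₀ < 1}
  {Ugen : Fb (M * q * q)} (D : ZeData B C a₀ ha1 ha2 Ugen)

/-- the generator of `z e`: `θ = Ugen / α₂ a₀`, of residue the root `Ũ` -/
def theta (_D : ZeData B C a₀ ha1 ha2 Ugen) : Fb (M * q * q) :=
  Ugen / alpha2 M q (algebraMap Kb (Fb (M * q)) a₀)

theorem theta_def : D.theta = Ugen / alpha2 M q (algebraMap Kb (Fb (M * q)) a₀) := rfl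

theorem theta_mem : D.theta ∈ D.Z := D.θ_mem

theorem resZ_theta : D.resZ ⟨D.theta, D.theta_mem⟩ = AdjoinRoot.root (vertBar q D.β D.ρ) :=
  D.res_θ

/-- the residue polynomial is irreducible: the residue field of `z e` is a field -/
instance instFact : Fact (Irreducible (vertBar q D.β D.ρ)) :=
  ⟨vertBar_irreducible hq.out.two_le D.hβ D.hρ⟩

include D in
theorem a₀_ne_zero : a₀ ≠ 0 := gauge_ne_zero (C := C) ha1

/-- **The constant reduction of `z e`** (`CZ e` of `SDD.constRedOf`). -/
def constRed (hB : B.LiesOverPrime q) (happ : ApproxAt C a₀ ha1 ha2) :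
    ConstRed (F := Fb (M * q * q)) (Ft := AdjoinRoot (vertBar q D.β D.ρ)) B (residue B) :=
  letI := algebraAlong (alpha2 M q)
  haveI := isScalarTower_along (alpha2 M q)
  haveI := finiteDimensional_alpha2 (M := M) (q := q)
  constRedVert C a₀ ha1 ha2 D.resZ (Val.isRankOne B hB) happ hq.out.two_le
    finrankAlong_alpha2 D.comap_eq D.surj D.ker D.compat D.θ_mem D.res_θ

@[simp] theorem constRed_O (hB : B.LiesOverPrime q) (happ : ApproxAt C a₀ ha1 ha2) :
    (D.constRed hB happ).O = D.Z := rfl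

@[simp] theorem constRed_res (hB : B.LiesOverPrime q) (happ : ApproxAt C a₀ ha1 ha2) :
    (D.constRed hB happ).res = D.resZ := rfl

/-- `z e` has rank one. -/
theorem arch (hB : B.LiesOverPrime q) (happ : ApproxAt C a₀ ha1 ha2) : Arch D.Z :=
  arch_of_constRed (D.constRed hB happ) (Val.isRankOne B hB)

/-- helper16's interface (`BR3/VertSheet/Sheet`). -/
theorem vertComp :
    letI := algebraAlong (alpha2 M q)
    haveI := isScalarTower_along (alpha2 M q)
    VertComp C a₀ ha1 ha2 D.Z D.resZ D.theta := by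
  letI := algebraAlong (alpha2 M q)
  haveI := isScalarTower_along (alpha2 M q)
  exact ⟨D.comap_eq, D.ker, D.compat, D.θ_mem, D.res_θ⟩

/-- `α₂` maps the circle ring into `Z`. -/
theorem alpha2_mem_iff {y : Fb (M * q)} :
    alpha2 M q y ∈ D.Z ↔ y ∈ circleRing C a₀ ha1 ha2 := by
  rw [← D.comap_eq, ValuationSubring.mem_comap, RingHom.coe_coe]

theorem alpha2_mem {y : Fb (M * q)} (hy : y ∈ circleRing C a₀ ha1 ha2) :
    alpha2 M q y ∈ D.Z := D.alpha2_mem_iff.mpr hy

end ZeData

/-! ### the case of a contract coming from level data -/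

section Levels

variable {ι : Type*} (L : AnnulusLevels B T ι) {a₀ : Kb}
  {ha1 : B.valuation L.core.thick < B.valuation a₀} {ha2 : B.valuation a₀ < 1}
  {Ugen : Fb (M * q * q)} (D : ZeData B L.core a₀ ha1 ha2 Ugen)

/-- (C6) for the critical circle from the level data. -/
theorem approxAt_of_levels (hB : B.LiesOverPrime q) (a₀ : Kb)
    (ha1 : B.valuation L.core.thick < B.valuation a₀) (ha2 : B.valuation a₀ < 1) :
    ApproxAt L.core a₀ ha1 ha2 :=
  AnnulusDense.approxAt_of_annulusLevels (Val.isRankOne B hB) L L.core rfl rfl a₀ ha1 ha2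

/-- **The constant reduction of `z e`** when the contract is the core of level data. -/
def constRedOfLevels (hB : B.LiesOverPrime q) :
    ConstRed (F := Fb (M * q * q)) (Ft := AdjoinRoot (vertBar q D.β D.ρ)) B (residue B) :=
  D.constRed hB (approxAt_of_levels L hB a₀ ha1 ha2)

@[simp] theorem constRedOfLevels_O (hB : B.LiesOverPrime q) :
    (constRedOfLevels L D hB).O = D.Z := rfl

@[simp] theorem constRedOfLevels_res (hB : B.LiesOverPrime q) :
    (constRedOfLevels L D hB).res = D.resZ := rfl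

end Levels

end Fermat.Agent.BR3.ConstRedZe
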