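import Mathlib

/-!
# Program C (S36), node A4 (GRAPH), general node indexing (BOARD v1.2, ruling (R-a))

Same statement as `BR3/GraphKill`, but the nodes over `(E_e, et)` are indexed by the *Kummer places*
`s : KP` (the places of the Kummer algebra over the branch point of `et` at `e`), each belonging
to a middle component `comp e s : Mid`; a middle component may meet `z e` several times.
The tame generator acts on `KP` through `p e` (transitively) and on `Mid` through `P`, with
`comp e (p e s) = P (comp e s)`.  A coboundary is `ξ (e, s) = κ (comp e s) - κ' e`.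

* `sum_eq_sum_range_pow` : the sum over a cyclic orbit;
* `card_smul_eq_zero_of_sum_eq_zero` : the chain version, local at `e`:
  invariant + norm-zero `⇒ |KP| • c = 0`;
* `exists_coboundary_of_push_eq_zero_gen` / `exists_coboundary_of_push_eq_one_gen` :
  both push-forwards coboundaries + class invariant `⇒ (q (q+1) (q-1)) • ξ` is a coboundary.
-/

set_option autoImplicit false

namespace Fermat.Agent.BR3.GraphKillGen

variable {SS Mid KP G : Type*} [Fintype KP]

theorem isCycleOn_univ_of_transitive (p : Equiv.Perm KP)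
    (hp : ∀ s s', ∃ n : ℕ, (p ^ n) s = s') :
    p.IsCycleOn ((Finset.univ : Finset KP) : Set KP) := by
  refine ⟨?_, fun x _ y _ => ?_⟩
  · rw [Finset.coe_univ]
    exact p.bijective.bijOn_univ
  · obtain ⟨n, hn⟩ := hp x y
    exact ⟨(n : ℤ), by rw [zpow_natCast]; exact hn⟩

/-- the sum over a finite set with a transitive permutation is the sum over the orbit of any
point -/
theorem sum_eq_sum_range_pow [AddCommMonoid G] (p : Equiv.Perm KP)
    (hp : ∀ s s', ∃ n : ℕ, (p ^ n) s = s') (f : KP → G) (s : KP) :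
    ∑ s', f s' = ∑ j ∈ Finset.range (Fintype.card KP), f ((p ^ j) s) := by
  have hc := isCycleOn_univ_of_transitive p hp
  symm
  refine Finset.sum_nbij (fun j => (p ^ j) s) (fun _ _ => Finset.mem_univ _) ?_ ?_
    (fun _ _ => rfl)
  · intro m hm n hn hmn
    have hm' : m < Fintype.card KP := Finset.mem_range.mp hm
    have hn' : n < Fintype.card KP := Finset.mem_range.mp hn
    have h := (hc.pow_apply_eq_pow_apply (Finset.mem_univ s)).mp hmn
    rw [Finset.card_univ] at h
    exact Nat.ModEq.eq_of_lt_of_lt h hm' hn'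
  · intro s' _
    obtain ⟨n, hn, hns⟩ := hc.exists_pow_eq (Finset.mem_univ s) (Finset.mem_univ s')
    rw [Finset.card_univ] at hn
    exact ⟨n, Finset.mem_coe.mpr (Finset.mem_range.mpr hn), hns⟩

section Additive

variable [AddCommGroup G]

/-- **the chain version**, local at one supersingular point: a function on the Kummer places
which is invariant under a transitive permutation and has sum zero is killed by `|KP|`. -/
theorem card_smul_eq_zero_of_sum_eq_zero (p : Equiv.Perm KP)
    (hp : ∀ s s', ∃ n : ℕ, (p ^ n) s = s') (c : KP → G) (hinv : ∀ s, c (p s) = c s)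
    (hsum : ∑ s, c s = 0) (s : KP) : Fintype.card KP • c s = 0 := by
  have hpow : ∀ (n : ℕ) (s : KP), c ((p ^ n) s) = c s := by
    intro n
    induction n with
    | zero => intro s; rfl
    | succ n ih =>
      intro s
      rw [pow_succ', Equiv.Perm.mul_apply, hinv, ih]
  rw [sum_eq_sum_range_pow p hp c s, Finset.sum_congr rfl (fun j _ => hpow j s),
    Finset.sum_const, Finset.card_range] at hsum
  exact hsum

/-- the defect of additivity along the orbit -/
def orbitDefect (P : Equiv.Perm Mid) (τ : Mid → G) (n : ℕ) (i : Mid) : G :=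
  ∑ j ∈ Finset.range n, ∑ l ∈ Finset.range j, τ ((P ^ l) i)

theorem sum_eq_card_smul_add_orbitDefect (P : Equiv.Perm Mid) (p : Equiv.Perm KP)
    (comp : KP → Mid) (hp : ∀ s s', ∃ n : ℕ, (p ^ n) s = s')
    (hcomp : ∀ s, comp (p s) = P (comp s)) (τ : Mid → G) (f : KP → G)
    (hf : ∀ s, f (p s) = f s + τ (comp s)) (s : KP) :
    ∑ s', f s' = Fintype.card KP • f s + orbitDefect P τ (Fintype.card KP) (comp s) := by
  have hcomp' : ∀ (j : ℕ) (s : KP), comp ((p ^ j) s) = (P ^ j) (comp s) := by
    intro j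
    induction j with
    | zero => intro s; rfl
    | succ j ih =>
      intro s
      rw [pow_succ', Equiv.Perm.mul_apply, hcomp, ih, pow_succ', Equiv.Perm.mul_apply]
  have hpow : ∀ (j : ℕ), f ((p ^ j) s) = f s + ∑ l ∈ Finset.range j, τ ((P ^ l) (comp s)) := by
    intro j
    induction j with
    | zero => simp
    | succ j ih =>
      rw [pow_succ', Equiv.Perm.mul_apply, hf, ih, hcomp', Finset.sum_range_succ, add_assoc]
  rw [sum_eq_sum_range_pow p hp f s, Finset.sum_congr rfl (fun j _ => hpow j),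
    Finset.sum_add_distrib, Finset.sum_const, Finset.card_range]
  rfl

/-- **the gluing-cochain lemma**, additive form, nodes indexed by the Kummer places. -/
theorem exists_coboundary_of_push_eq_zero_gen (q d : ℕ) (hd : d * Fintype.card KP + 1 = q)
    (φ : SS → SS) (P : Equiv.Perm Mid) (p : SS → Equiv.Perm KP) (comp : SS → KP → Mid)
    (hp : ∀ e s s', ∃ n : ℕ, ((p e) ^ n) s = s')
    (hcomp : ∀ e s, comp e (p e s) = P (comp e s))
    (ξ1 ξ3 : SS → G) (ξk : SS → KP → G)
    (A1 A2 : G) (α : SS → G) (ha1 : ∀ e, q • ξ1 e = A1 - α e)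
    (ha2 : ∀ e, ξ3 e + d • ∑ s, ξk e s = A2 - α e)
    (B1 B2 : G) (β : SS → G) (hb1 : ∀ e, q • ξ3 e = B1 - β (φ e))
    (hb2 : ∀ e, ξ1 e + d • ∑ s, ξk e s = B2 - β (φ e))
    (r1 : G) (ρm : Mid → G) (ρ' : SS → G) (hinv1 : ∀ e, ξ1 e = ξ1 e + r1 - ρ' e)
    (hinvk : ∀ e s, ξk e (p e s) = ξk e s + ρm (comp e s) - ρ' e) :
    ∃ (κ1 κ3 : G) (κm : Mid → G) (κ' : SS → G), ∀ e,
      (q * (q + 1) * (d * Fintype.card KP)) • ξ1 e = κ1 - κ' e ∧
      (q * (q + 1) * (d * Fintype.card KP)) • ξ3 e = κ3 - κ' e ∧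
      ∀ s, (q * (q + 1) * (d * Fintype.card KP)) • ξk e s = κm (comp e s) - κ' e := by
  subst hd
  set n : ℕ := Fintype.card KP with hn
  -- `ρ'` is constant
  have hρ : ∀ e, ρ' e = r1 := by
    intro e
    have := hinv1 e
    have h0 : r1 - ρ' e = 0 := by
      have h' : ξ1 e + (r1 - ρ' e) = ξ1 e := by rw [← add_sub_assoc]; exact this.symm
      exact add_eq_left.mp h'
    exact (sub_eq_zero.mp h0).symm
  -- the two consequences of the push-forward conditions
  have hstar : ∀ e, ((d * n + 1) * d) • ∑ s, ξk e s =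
      (d * n + 1) • A2 - (d * n + 1) • α e - B1 + β (φ e) := by
    intro e
    linear_combination (norm := module) ((d * n + 1 : ℕ) : ℤ) • ha2 e - hb1 e
  have hstar2 : ∀ e, ((d * n + 1) * d) • ∑ s, ξk e s =
      (d * n + 1) • B2 - (d * n + 1) • β (φ e) - A1 + α e := by
    intro e
    linear_combination (norm := module) ((d * n + 1 : ℕ) : ℤ) • hb2 e - ha1 e
  set c₀ : G := (d * n + 1) • B2 - A1 - (d * n + 1) • A2 + B1 with hc₀
  have hβα : ∀ e, (d * n + 1 + 1) • (β (φ e) - α e) = c₀ := by
    intro e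
    rw [hc₀]
    linear_combination (norm := module) hstar2 e - hstar e
  -- the sum over the Kummer places
  set τ : Mid → G := fun i => ρm i - r1 with hτ
  have hsum : ∀ e s, ∑ s', ξk e s' = n • ξk e s + orbitDefect P τ n (comp e s) := by
    intro e s
    refine sum_eq_card_smul_add_orbitDefect P (p e) (comp e) (hp e) (hcomp e) τ (ξk e)
      (fun s => ?_) s
    rw [hinvk e s, hρ e, hτ]
    exact add_sub_assoc _ _ _
  set c₁ : G := (d * n + 1 + 1) • ((d * n + 1) • A2 - B1) + c₀ with hc₁
  refine ⟨((d * n + 1 + 1) * (d * n)) • A1,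
    ((d * n + 1 + 1) * (d * n)) • B1 - (d * n) • c₀,
    fun i => c₁ - ((d * n + 1) * (d * n + 1 + 1) * d) • orbitDefect P τ n i,
    fun e => ((d * n + 1 + 1) * (d * n)) • α e, fun e => ⟨?_, ?_, fun s => ?_⟩⟩
  · linear_combination (norm := module) (((d * n + 1 + 1) * (d * n) : ℕ) : ℤ) • ha1 e
  · linear_combination (norm := module) (((d * n + 1 + 1) * (d * n) : ℕ) : ℤ) • hb1 e -
      ((d * n : ℕ) : ℤ) • hβα e
  · have h1 := hstar e
    rw [hsum e s] at h1
    rw [hc₁]
    linear_combination (norm := module) ((d * n + 1 + 1 : ℕ) : ℤ) • h1 + hβα e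

end Additive

section Multiplicative

variable [CommGroup G]

/-- **the gluing-cochain lemma**, multiplicative form, nodes indexed by the Kummer places. -/
theorem exists_coboundary_of_push_eq_one_gen (q d : ℕ) (hd : d * Fintype.card KP + 1 = q)
    (φ : SS → SS) (P : Equiv.Perm Mid) (p : SS → Equiv.Perm KP) (comp : SS → KP → Mid)
    (hp : ∀ e s s', ∃ n : ℕ, ((p e) ^ n) s = s')
    (hcomp : ∀ e s, comp e (p e s) = P (comp e s))
    (ξ1 ξ3 : SS → G) (ξk : SS → KP → G)
    (A1 A2 : G) (α : SS → G) (ha1 : ∀ e, ξ1 e ^ q = A1 / α e)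
    (ha2 : ∀ e, ξ3 e * (∏ s, ξk e s) ^ d = A2 / α e)
    (B1 B2 : G) (β : SS → G) (hb1 : ∀ e, ξ3 e ^ q = B1 / β (φ e))
    (hb2 : ∀ e, ξ1 e * (∏ s, ξk e s) ^ d = B2 / β (φ e))
    (r1 : G) (ρm : Mid → G) (ρ' : SS → G) (hinv1 : ∀ e, ξ1 e = ξ1 e * r1 / ρ' e)
    (hinvk : ∀ e s, ξk e (p e s) = ξk e s * ρm (comp e s) / ρ' e) :
    ∃ (κ1 κ3 : G) (κm : Mid → G) (κ' : SS → G), ∀ e,
      ξ1 e ^ (q * (q + 1) * (d * Fintype.card KP)) = κ1 / κ' e ∧
      ξ3 e ^ (q * (q + 1) * (d * Fintype.card KP)) = κ3 / κ' e ∧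
      ∀ s, ξk e s ^ (q * (q + 1) * (d * Fintype.card KP)) = κm (comp e s) / κ' e := by
  obtain ⟨κ1, κ3, κm, κ', h⟩ := exists_coboundary_of_push_eq_zero_gen (G := Additive G) q d hd φ P
    p comp hp hcomp
    (fun e => Additive.ofMul (ξ1 e)) (fun e => Additive.ofMul (ξ3 e))
    (fun e s => Additive.ofMul (ξk e s))
    (Additive.ofMul A1) (Additive.ofMul A2) (fun e => Additive.ofMul (α e))
    (fun e => congrArg Additive.ofMul (ha1 e))
    (fun e => by
      have := congrArg Additive.ofMul (ha2 e)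
      rw [ofMul_mul, ofMul_pow, ofMul_prod, ofMul_div] at this
      exact this)
    (Additive.ofMul B1) (Additive.ofMul B2) (fun e => Additive.ofMul (β e))
    (fun e => congrArg Additive.ofMul (hb1 e))
    (fun e => by
      have := congrArg Additive.ofMul (hb2 e)
      rw [ofMul_mul, ofMul_pow, ofMul_prod, ofMul_div] at this
      exact this)
    (Additive.ofMul r1) (fun i => Additive.ofMul (ρm i)) (fun e => Additive.ofMul (ρ' e))
    (fun e => congrArg Additive.ofMul (hinv1 e))
    (fun e s => congrArg Additive.ofMul (hinvk e s))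
  exact ⟨Additive.toMul κ1, Additive.toMul κ3, fun i => Additive.toMul (κm i),
    fun e => Additive.toMul (κ' e), fun e =>
      ⟨congrArg Additive.toMul (h e).1, congrArg Additive.toMul (h e).2.1,
        fun s => congrArg Additive.toMul ((h e).2.2 s)⟩⟩

end Multiplicative

end Fermat.Agent.BR3.GraphKillGen
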