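import Mathlib
import Fermat.Agent.BR3.TorGlue
import Fermat.Agent.BR3.GraphKillGen

/-!
# Program C (S36), node A5b, step (H3): the toric third of contract (A'), graph part

`S : SS.SemistableSetup A π ι Ft ν` the stable model at level `M q²`.  Its dual graph has the
components `eι (inl (inl true))` (`= cZero`, the horizontal component whose node with `z e` is wild
along `a`), `eι (inl (inl false))` (`= cInf`), the middle components `eι (inl (inr i))`, `i : Mid`,
and the vertical components `eι (inr e)`, `e : SSp`; every node joins a horizontal or middle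
component `H` with a vertical component `V`, and is one of `nW e` (on `cZero`), `nT e` (on `cInf`),
`nk e s` (on the middle component `comp e s`), `s : KP`.  The flag `hor e''` says that the source
of the node `e''` is its horizontal end.

For a good representative `(D, f, u)` of a class `z` (`TorGlue.IsGood`) with values `av`, `bv` at
the two branches of the nodes, the *value cochain* is
`xi e'' = (value on the horizontal end) / (value on the vertical end) : kˣ`.

* `nsmul_eq_zero_of_units_coboundary` : if `xi ^ C` is a coboundary `κ H / κ V` then `C • z = 0`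
  (orientation-free form of `TorGlue.nsmul_eq_zero_of_coboundary`);
* `xi_perm_eq` : the shape of the invariance `TorGlue.IsGood.exists_coboundary_of_fixed` for `xi`;
* **`nsmul_eq_zero_of_graph`** : the six hypotheses of `GraphKillGen` (push-forwards along `a`, `b`
  are coboundaries, invariance under the tame generator) `⟹ (q (q+1) (d |KP|)) • z = 0`.
-/

set_option autoImplicit false
set_option linter.unusedVariables false
set_option linter.unusedSectionVars false

namespace Fermat.Agent.BR3.GeoTor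

open AlgebraicCurve Fermat.Agent.Red Fermat.Agent.BR.SS Fermat.Agent.BR2.Filt
  Fermat.Agent.BR3.TorGlue Fermat.Agent.X0

variable {K F k : Type*} [Field K] [Field F] [Algebra K F] [Field k]
  {A : ValuationSubring K} {π : A →+* k} {ι : Type*} {Ft : ι → Type*}
  [∀ v, Field (Ft v)] [∀ v, Algebra k (Ft v)] {ν : Type*}
  {S : SemistableSetup (F := F) A π ι Ft ν}

/-- the horizontal end of a node -/
def horEnd (S : SemistableSetup (F := F) A π ι Ft ν) (hor : ν → Bool) (e : ν) : ι :=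
  if hor e then S.src e else S.tgt e

/-- the vertical end of a node -/
def verEnd (S : SemistableSetup (F := F) A π ι Ft ν) (hor : ν → Bool) (e : ν) : ι :=
  if hor e then S.tgt e else S.src e

/-- the value cochain: (value on the horizontal end) / (value on the vertical end) -/
noncomputable def xi (hor : ν → Bool) (av bv : ν → k) (ha : ∀ e, av e ≠ 0) (hb : ∀ e, bv e ≠ 0)
    (e : ν) : kˣ :=
  if hor e then Units.mk0 (av e) (ha e) / Units.mk0 (bv e) (hb e)
  else Units.mk0 (bv e) (hb e) / Units.mk0 (av e) (ha e)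

/-- **Orientation-free kill**: if the `C`-th power of the value cochain is the coboundary of `κ`
then `C` kills the class. -/
theorem nsmul_eq_zero_of_units_coboundary (hS : NoTorsionInKernel S) {m : ℕ} (hm : (m : k) ≠ 0)
    {z : Pic0 K F} {D : Divisor.degZero (K := K) (F := F)} {f : F} {u : ∀ v, Ft v}
    (h : IsGood S m z D f u) (C : ℕ) (hor : ν → Bool) (av bv : ν → k)
    (ha0 : ∀ e, av e ≠ 0) (hb0 : ∀ e, bv e ≠ 0)
    (ha : ∀ e, IsValueAt (S.s₁ e) (u (S.src e)) (av e))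
    (hb : ∀ e, IsValueAt (S.s₂ e) (u (S.tgt e)) (bv e))
    (κ : ι → kˣ)
    (hcob : ∀ e, xi hor av bv ha0 hb0 e ^ C = κ (horEnd S hor e) / κ (verEnd S hor e)) :
    C • z = 0 := by
  refine nsmul_eq_zero_of_coboundary hS hm h C av bv ha hb (fun v => (κ v : k))
    (fun v => (κ v).ne_zero) fun e => ?_
  have h1 := hcob e
  unfold xi horEnd verEnd at h1
  by_cases hh : hor e
  · simp only [hh, if_true] at h1
    rw [div_pow, div_eq_div_iff_mul_eq_mul] at h1
    have h2 := congrArg (fun x : kˣ => (x : k)) h1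
    simp only [Units.val_mul, Units.val_pow_eq_pow_val, Units.val_mk0] at h2
    linear_combination -h2
  · simp only [hh, if_false, Bool.false_eq_true] at h1
    rw [div_pow, div_eq_div_iff_mul_eq_mul] at h1
    have h2 := congrArg (fun x : kˣ => (x : k)) h1
    simp only [Units.val_mul, Units.val_pow_eq_pow_val, Units.val_mk0] at h2
    linear_combination h2

/-- **The shape of the invariance for `xi`**: the relation of
`TorGlue.IsGood.exists_coboundary_of_fixed` at a node `e` mapped to `pν e` with the same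
orientation flag. -/
theorem xi_perm_eq (hor : ν → Bool) (av bv : ν → k) (ha0 : ∀ e, av e ≠ 0) (hb0 : ∀ e, bv e ≠ 0)
    (pν : ν → ν) (hpor : ∀ e, hor (pν e) = hor e) (κ : ι → k) (hκ : ∀ v, κ v ≠ 0) (e : ν)
    (hrel : bv e * av (pν e) * κ (S.src (pν e)) = av e * bv (pν e) * κ (S.tgt (pν e))) :
    xi hor av bv ha0 hb0 (pν e) = xi hor av bv ha0 hb0 e *
      Units.mk0 _ (hκ (verEnd S hor (pν e))) / Units.mk0 _ (hκ (horEnd S hor (pν e))) := by
  unfold xi horEnd verEnd
  rw [hpor e]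
  by_cases hh : hor e
  · simp only [hh, if_true]
    rw [div_mul_eq_mul_div, div_div, div_eq_div_iff_mul_eq_mul]
    apply Units.ext
    simp only [Units.val_mul, Units.val_mk0]
    linear_combination hrel
  · simp only [hh, if_false, Bool.false_eq_true]
    rw [div_mul_eq_mul_div, div_div, div_eq_div_iff_mul_eq_mul]
    apply Units.ext
    simp only [Units.val_mul, Units.val_mk0]
    linear_combination -hrel

/-- the potential on the components assembled from the four families of `GraphKillGen` -/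
def potential {SSp Mid G : Type*} (eι : (Bool ⊕ Mid) ⊕ SSp ≃ ι) (κ1 κ3 : G) (κm : Mid → G)
    (κ' : SSp → G) (v : ι) : G :=
  Sum.elim (Sum.elim (fun b : Bool => if b then κ1 else κ3) κm) κ' (eι.symm v)

/-- **(H3), graph part.**  The components are `cZero = eι (inl (inl true))`,
`cInf = eι (inl (inl false))`, `mid i = eι (inl (inr i))`, `z e = eι (inr e)`; the nodes are
`nW e` (on `cZero`, wild along `a`), `nT e` (on `cInf`, wild along `b`) and `nk e s`
(on `mid (comp e s)`).  If the value cochain `xi` of a good representative of `z` satisfies the six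
hypotheses of `GraphKillGen.exists_coboundary_of_push_eq_one_gen` (`ha1`, `ha2` : the push-forward
along `a` is a coboundary; `hb1`, `hb2` : the push-forward along `b` is a coboundary over `φ e`;
`hinv1`, `hinvk` : invariance under the tame generator), then `q (q+1) (d |KP|)` kills `z`. -/
theorem nsmul_eq_zero_of_graph {SSp Mid KP : Type*} [Fintype KP]
    (hS : NoTorsionInKernel S) {m : ℕ} (hm : (m : k) ≠ 0)
    {z : Pic0 K F} {D : Divisor.degZero (K := K) (F := F)} {f : F} {u : ∀ v, Ft v}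
    (h : IsGood S m z D f u) (hor : ν → Bool) (av bv : ν → k)
    (ha0 : ∀ e, av e ≠ 0) (hb0 : ∀ e, bv e ≠ 0)
    (ha : ∀ e, IsValueAt (S.s₁ e) (u (S.src e)) (av e))
    (hb : ∀ e, IsValueAt (S.s₂ e) (u (S.tgt e)) (bv e))
    (eι : (Bool ⊕ Mid) ⊕ SSp ≃ ι) (nW nT : SSp → ν) (nk : SSp → KP → ν) (comp : SSp → KP → Mid)
    (hnodes : ∀ e'' : ν, (∃ e, nW e = e'') ∨ (∃ e, nT e = e'') ∨ ∃ e s, nk e s = e'')
    (hW : ∀ e, horEnd S hor (nW e) = eι (Sum.inl (Sum.inl true)) ∧
      verEnd S hor (nW e) = eι (Sum.inr e))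
    (hT : ∀ e, horEnd S hor (nT e) = eι (Sum.inl (Sum.inl false)) ∧
      verEnd S hor (nT e) = eι (Sum.inr e))
    (hK : ∀ e s, horEnd S hor (nk e s) = eι (Sum.inl (Sum.inr (comp e s))) ∧
      verEnd S hor (nk e s) = eι (Sum.inr e))
    (q d : ℕ) (hd : d * Fintype.card KP + 1 = q) (φ : SSp → SSp) (P : Equiv.Perm Mid)
    (p : SSp → Equiv.Perm KP) (hp : ∀ e s s', ∃ n : ℕ, ((p e) ^ n) s = s')
    (hcomp : ∀ e s, comp e (p e s) = P (comp e s))
    (A1 A2 : kˣ) (α : SSp → kˣ)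
    (ha1 : ∀ e, xi hor av bv ha0 hb0 (nW e) ^ q = A1 / α e)
    (ha2 : ∀ e, xi hor av bv ha0 hb0 (nT e) * (∏ s, xi hor av bv ha0 hb0 (nk e s)) ^ d =
      A2 / α e)
    (B1 B2 : kˣ) (β : SSp → kˣ)
    (hb1 : ∀ e, xi hor av bv ha0 hb0 (nT e) ^ q = B1 / β (φ e))
    (hb2 : ∀ e, xi hor av bv ha0 hb0 (nW e) * (∏ s, xi hor av bv ha0 hb0 (nk e s)) ^ d =
      B2 / β (φ e))
    (r1 : kˣ) (ρm : Mid → kˣ) (ρ' : SSp → kˣ)
    (hinv1 : ∀ e, xi hor av bv ha0 hb0 (nW e) = xi hor av bv ha0 hb0 (nW e) * r1 / ρ' e)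
    (hinvk : ∀ e s, xi hor av bv ha0 hb0 (nk e (p e s)) =
      xi hor av bv ha0 hb0 (nk e s) * ρm (comp e s) / ρ' e) :
    (q * (q + 1) * (d * Fintype.card KP)) • z = 0 := by
  obtain ⟨κ1, κ3, κm, κ', hκ⟩ := GraphKillGen.exists_coboundary_of_push_eq_one_gen q d hd φ P p
    comp hp hcomp (fun e => xi hor av bv ha0 hb0 (nW e)) (fun e => xi hor av bv ha0 hb0 (nT e))
    (fun e s => xi hor av bv ha0 hb0 (nk e s)) A1 A2 α ha1 ha2 B1 B2 β hb1 hb2 r1 ρm ρ' hinv1
    hinvk
  refine nsmul_eq_zero_of_units_coboundary hS hm h _ hor av bv ha0 hb0 ha hb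
    (potential eι κ1 κ3 κm κ') fun e'' => ?_
  rcases hnodes e'' with ⟨e, rfl⟩ | ⟨e, rfl⟩ | ⟨e, s, rfl⟩
  · rw [(hW e).1, (hW e).2]
    unfold potential
    rw [Equiv.symm_apply_apply, Equiv.symm_apply_apply]
    exact (hκ e).1
  · rw [(hT e).1, (hT e).2]
    unfold potential
    rw [Equiv.symm_apply_apply, Equiv.symm_apply_apply]
    exact (hκ e).2.1
  · rw [(hK e s).1, (hK e s).2]
    unfold potential
    rw [Equiv.symm_apply_apply, Equiv.symm_apply_apply]
    exact (hκ e).2.2 s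

/-- **(H3) in the shape of `GeoC.newInvBounded_of_steps`**: `tor m := torSub S (lam ^ m)`.
Inputs: the moving lemma `TorGood S (lam ^ m)` (node (C-BAL)) and the cochain relations
(`hcoch`: for every good representative of an invariant new class, with any choice of the values at
the branches, the six hypotheses of the graph lemma hold; supplied by `BR3/ValPush` along `a`, `b`
and by `TorGlue.IsGood.exists_coboundary_of_fixed` + `xi_perm_eq` for the tame generator). -/
theorem h3_of_graph {SSp Mid KP : Type*} [Fintype KP]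
    (hS : NoTorsionInKernel S) (hFt : ∀ v, RiemannPkg k (Ft v)) (lam : ℕ) (hlam : (lam : k) ≠ 0)
    (hTG : ∀ m : ℕ, TorGood S (lam ^ m))
    (Inv : Pic0 K F → Prop) {X₀ : Type*} [AddCommGroup X₀] (a b : Pic0 K F →+ X₀)
    (hor : ν → Bool)
    (eι : (Bool ⊕ Mid) ⊕ SSp ≃ ι) (nW nT : SSp → ν) (nk : SSp → KP → ν) (comp : SSp → KP → Mid)
    (hnodes : ∀ e'' : ν, (∃ e, nW e = e'') ∨ (∃ e, nT e = e'') ∨ ∃ e s, nk e s = e'')
    (hW : ∀ e, horEnd S hor (nW e) = eι (Sum.inl (Sum.inl true)) ∧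
      verEnd S hor (nW e) = eι (Sum.inr e))
    (hT : ∀ e, horEnd S hor (nT e) = eι (Sum.inl (Sum.inl false)) ∧
      verEnd S hor (nT e) = eι (Sum.inr e))
    (hK : ∀ e s, horEnd S hor (nk e s) = eι (Sum.inl (Sum.inr (comp e s))) ∧
      verEnd S hor (nk e s) = eι (Sum.inr e))
    (q d : ℕ) (hd : d * Fintype.card KP + 1 = q) (φ : SSp → SSp) (P : Equiv.Perm Mid)
    (p : SSp → Equiv.Perm KP) (hp : ∀ e s s', ∃ n : ℕ, ((p e) ^ n) s = s')
    (hcomp : ∀ e s, comp e (p e s) = P (comp e s))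
    (hcoch : ∀ (m : ℕ) (z : Pic0 K F) (D : Divisor.degZero (K := K) (F := F)) (f : F)
      (u : ∀ v, Ft v), IsGood S (lam ^ m) z D f u → Inv z → a z = 0 → b z = 0 →
      ∀ (av bv : ν → k) (ha0 : ∀ e, av e ≠ 0) (hb0 : ∀ e, bv e ≠ 0),
      (∀ e, IsValueAt (S.s₁ e) (u (S.src e)) (av e)) →
      (∀ e, IsValueAt (S.s₂ e) (u (S.tgt e)) (bv e)) →
      ∃ (A1 A2 : kˣ) (α : SSp → kˣ) (B1 B2 : kˣ) (β : SSp → kˣ) (r1 : kˣ) (ρm : Mid → kˣ)
        (ρ' : SSp → kˣ),
        (∀ e, xi hor av bv ha0 hb0 (nW e) ^ q = A1 / α e) ∧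
        (∀ e, xi hor av bv ha0 hb0 (nT e) * (∏ s, xi hor av bv ha0 hb0 (nk e s)) ^ d =
          A2 / α e) ∧
        (∀ e, xi hor av bv ha0 hb0 (nT e) ^ q = B1 / β (φ e)) ∧
        (∀ e, xi hor av bv ha0 hb0 (nW e) * (∏ s, xi hor av bv ha0 hb0 (nk e s)) ^ d =
          B2 / β (φ e)) ∧
        (∀ e, xi hor av bv ha0 hb0 (nW e) = xi hor av bv ha0 hb0 (nW e) * r1 / ρ' e) ∧
        ∀ e s, xi hor av bv ha0 hb0 (nk e (p e s)) =
          xi hor av bv ha0 hb0 (nk e s) * ρm (comp e s) / ρ' e) :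
    ∀ (m : ℕ) (z : Pic0 K F), z ∈ torSub S (lam ^ m) → lam ^ m • z = 0 → Inv z → a z = 0 →
      b z = 0 → (q * (q + 1) * (d * Fintype.card KP)) • z = 0 := by
  intro m z hz _ hinv haz hbz
  obtain ⟨D, f, u, hG⟩ := hTG m z hz
  obtain ⟨av, bv, hav, hbv⟩ := hG.exists_values hFt
  have hm : ((lam ^ m : ℕ) : k) ≠ 0 := by
    rw [Nat.cast_pow]
    exact pow_ne_zero m hlam
  obtain ⟨A1, A2, α, B1, B2, β, r1, ρm, ρ', h1, h2, h3, h4, h5, h6⟩ :=
    hcoch m z D f u hG hinv haz hbz av bv (fun e => (hav e).1) (fun e => (hbv e).1)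
      (fun e => (hav e).2) (fun e => (hbv e).2)
  exact nsmul_eq_zero_of_graph hS hm hG hor av bv (fun e => (hav e).1) (fun e => (hbv e).1)
    (fun e => (hav e).2) (fun e => (hbv e).2) eι nW nT nk comp hnodes hW hT hK q d hd φ P p hp
    hcomp A1 A2 α h1 h2 B1 B2 β h3 h4 r1 ρm ρ' h5 h6

/-- **The invariance hypotheses `hinv1`, `hinvk` of the graph lemma** from
`TorGlue.IsGood.exists_coboundary_of_fixed`: `g` acts on the setup (`ActsOn S g pι a'`), fixes the
class `z`, maps the node `e''` to `pν e''` (same orientation flag), fixes the nodes `nW e` and maps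
`nk e s` to `nk e (p e s)`. -/
theorem exists_inv_shapes {SSp Mid KP : Type*}
    (hF : RiemannPkg K F) (hFt : ∀ v, RiemannPkg k (Ft v)) (v₀ : ι) {m : ℕ} (hm : m ≠ 0)
    {g : SemilinearAut K F} {pι : Equiv.Perm ι} {a' : ∀ v, Ft v ≃ₐ[k] Ft (pι v)}
    (hA : ActsOn S g pι a') {z : Pic0 K F} {D : Divisor.degZero (K := K) (F := F)} {f : F}
    {u : ∀ v, Ft v} (h : IsGood S m z D f u) (hz : g • z = z) (pν : ν → ν)
    (hs₁ : ∀ e, (⟨S.src (pν e), S.s₁ (pν e)⟩ : Σ v, Place k (Ft v)) =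
      sigmaMap pι a' ⟨S.src e, S.s₁ e⟩)
    (hs₂ : ∀ e, (⟨S.tgt (pν e), S.s₂ (pν e)⟩ : Σ v, Place k (Ft v)) =
      sigmaMap pι a' ⟨S.tgt e, S.s₂ e⟩)
    (hor : ν → Bool) (hpor : ∀ e, hor (pν e) = hor e)
    (av bv : ν → k) (ha0 : ∀ e, av e ≠ 0) (hb0 : ∀ e, bv e ≠ 0)
    (ha : ∀ e, IsValueAt (S.s₁ e) (u (S.src e)) (av e))
    (hb : ∀ e, IsValueAt (S.s₂ e) (u (S.tgt e)) (bv e))
    (eι : (Bool ⊕ Mid) ⊕ SSp ≃ ι) (nW : SSp → ν) (nk : SSp → KP → ν) (comp : SSp → KP → Mid)
    (hW : ∀ e, horEnd S hor (nW e) = eι (Sum.inl (Sum.inl true)) ∧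
      verEnd S hor (nW e) = eι (Sum.inr e))
    (hK : ∀ e s, horEnd S hor (nk e s) = eι (Sum.inl (Sum.inr (comp e s))) ∧
      verEnd S hor (nk e s) = eι (Sum.inr e))
    (P : Equiv.Perm Mid) (p : SSp → Equiv.Perm KP)
    (hcomp : ∀ e s, comp e (p e s) = P (comp e s))
    (hpW : ∀ e, pν (nW e) = nW e) (hpk : ∀ e s, pν (nk e s) = nk e (p e s)) :
    ∃ (r1 : kˣ) (ρm : Mid → kˣ) (ρ' : SSp → kˣ),
      (∀ e, xi hor av bv ha0 hb0 (nW e) = xi hor av bv ha0 hb0 (nW e) * r1 / ρ' e) ∧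
      ∀ e s, xi hor av bv ha0 hb0 (nk e (p e s)) =
        xi hor av bv ha0 hb0 (nk e s) * ρm (comp e s) / ρ' e := by
  obtain ⟨κ, hκ, hrel⟩ := h.exists_coboundary_of_fixed hF hFt v₀ hm hA hz pν hs₁ hs₂ av bv ha hb
  have key := fun e => xi_perm_eq (S := S) hor av bv ha0 hb0 pν hpor κ hκ e (hrel e)
  refine ⟨(Units.mk0 _ (hκ (eι (Sum.inl (Sum.inl true)))))⁻¹,
    fun i => (Units.mk0 _ (hκ (eι (Sum.inl (Sum.inr (P i))))))⁻¹,
    fun e => (Units.mk0 _ (hκ (eι (Sum.inr e))))⁻¹, fun e => ?_, fun e s => ?_⟩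
  · have h1 := key (nW e)
    rw [hpW e] at h1
    have e1 : Units.mk0 _ (hκ (verEnd S hor (nW e))) = Units.mk0 _ (hκ (eι (Sum.inr e))) := by
      apply Units.ext
      simp only [Units.val_mk0]
      rw [(hW e).2]
    have e2 : Units.mk0 _ (hκ (horEnd S hor (nW e))) =
        Units.mk0 _ (hκ (eι (Sum.inl (Sum.inl true)))) := by
      apply Units.ext
      simp only [Units.val_mk0]
      rw [(hW e).1]
    rw [e1, e2] at h1
    rw [div_inv_eq_mul, mul_assoc, mul_comm _ (Units.mk0 _ (hκ (eι (Sum.inr e)))), ← mul_assoc,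
      ← div_eq_mul_inv]
    exact h1
  · have h1 := key (nk e s)
    rw [hpk e s] at h1
    have e1 : Units.mk0 _ (hκ (verEnd S hor (nk e (p e s)))) =
        Units.mk0 _ (hκ (eι (Sum.inr e))) := by
      apply Units.ext
      simp only [Units.val_mk0]
      rw [(hK e (p e s)).2]
    have e2 : Units.mk0 _ (hκ (horEnd S hor (nk e (p e s)))) =
        Units.mk0 _ (hκ (eι (Sum.inl (Sum.inr (P (comp e s)))))) := by
      apply Units.ext
      simp only [Units.val_mk0]
      rw [(hK e (p e s)).1, hcomp e s]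
    rw [e1, e2] at h1
    rw [div_inv_eq_mul, mul_assoc,
      mul_comm _ (Units.mk0 _ (hκ (eι (Sum.inr e)))), ← mul_assoc, ← div_eq_mul_inv]
    exact h1

end Fermat.Agent.BR3.GeoTor
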