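import Fermat.Agent.BR3.CZero
import Fermat.Agent.BR3.FibreProdMid
import Fermat.Agent.BR.TwoValInst

/-!
# Program C, node (I3-b): the middle valuations `w₂ b` of `F̄_{Mq²}` along `β₂`

* `adjoin_jq'_eq_top` : `F̄_{Mq} = α₁(F̄_M)(j(s^q))` (fundamental inequality for the two valuations
  `O1`, `O2` restricted to the subfield);
* `sigmaB_beta2` : **`σ_b ∘ β₂ = (s ↦ ζ^{b+1} s) ∘ (expansion at ∞) ∘ W_q`** on `F̄_{Mq}`;
* `scale_mem_gaussRingA_iff`, `gaussResA_scale` : the Gauss ring of `ℚ̄((s))` is stable under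
  `s ↦ z s`, `z` a unit of `B`;
* `beta2_mem_w2_iff`, `comap_beta2_w2` (`= O2`, the component `et`), `resw2_beta2` (`= res₂`):
  the literal mirror of `FibreProd.alpha2_mem_w2_iff`, `comap_alpha2_w2`, `resw2_alpha2`;
* the `W_{q²}`-action on the middle valuations: `(w₂ b) ∘ W_{q²}` lies over `can` along `α₂`,
  over `et` along `β₂`, differs from `w₁` and `cZero`; under the exhaustion along `α₂` it is
  again a middle valuation, and the exhaustion along `β₂` follows.
-/

set_option autoImplicit false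
set_option linter.style.haveILetI false
set_option linter.unusedSectionVars false

noncomputable section

set_option synthInstance.maxHeartbeats 400000

namespace Fermat.Agent.BR3.MidBeta

open ModularCurve AlgebraicCurve HahnSeries Fermat.Agent.X0 Fermat.Agent.Val
open Fermat.Agent.Hecke.AL Fermat.Agent.Igusa Fermat.Agent.BR.TwoVal Fermat.Agent.BR.ResGen
open Fermat.Agent.BR.TwoValInst Fermat.Agent.BR3.FibreProd Fermat.Agent.BR3.ALSq
open Fermat.Agent.BR3.CZero

/-! ### Generic: restriction of a valuation subring to a subfield -/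

section Generic

variable {F E₁ E : Type*} [Field F] [Field E₁] [Field E] [Algebra F E₁] [Algebra E₁ E]
  [Algebra F E] [IsScalarTower F E₁ E]

theorem mem_nonunits_comap_algebraMap_iff (O : ValuationSubring E) (u : E₁) :
    u ∈ (O.comap (algebraMap E₁ E)).nonunits ↔ algebraMap E₁ E u ∈ O.nonunits := by
  rw [ValuationSubring.mem_nonunits_iff_or, ValuationSubring.mem_nonunits_iff_or,
    ValuationSubring.mem_comap, map_inv₀, map_eq_zero]

theorem arch_comap_algebraMap {O : ValuationSubring E} (hO : Arch O) :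
    Arch (O.comap (algebraMap E₁ E)) := by
  intro x u hu hu0
  obtain ⟨n, hn⟩ := hO (algebraMap E₁ E x) (algebraMap E₁ E u)
    ((mem_nonunits_comap_algebraMap_iff O u).1 hu) (by rwa [Ne, map_eq_zero])
  refine ⟨n, ?_⟩
  rw [ValuationSubring.mem_comap, map_mul, map_pow]
  exact hn

theorem algebraMap_smul_tower (c : F) (y : E₁) :
    algebraMap E₁ E (c • y) = c • algebraMap E₁ E y := by
  rw [Algebra.smul_def, Algebra.smul_def, map_mul, ← IsScalarTower.algebraMap_apply]

theorem resIndep_comap_algebraMap {O₀ : ValuationSubring F} {O : ValuationSubring E}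
    {ι : Type*} [Fintype ι] {x : ι → E₁}
    (h : ResIndep O₀ O (fun i => algebraMap E₁ E (x i))) :
    ResIndep O₀ (O.comap (algebraMap E₁ E)) x := by
  refine ⟨fun i => h.1 i, fun c hc hsum i => h.2 c hc ?_ i⟩
  have h1 := (mem_nonunits_comap_algebraMap_iff O _).1 hsum
  rw [map_sum] at h1
  simpa only [algebraMap_smul_tower] using h1

end Generic

variable {M q : ℕ} [NeZero M] [hq : Fact q.Prime]
variable (B : ValuationSubring (AlgebraicClosure ℚ)) (hB : B.LiesOverPrime q) (hqM : ¬ q ∣ M)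

local notation "kB" => IsLocalRing.ResidueField B

/-! ### `F̄_{Mq} = α₁(F̄_M)(j(s^q))` -/

section Simple

omit [NeZero M] in
theorem jQ_eq_jq' : jQ M q = jq' M q := jBarD_congr _ (one_mul q) _ _

theorem jOne_eq_alpha :
    jOne M q = heckeAlphaBar Kb M q (jBarD M 1 (one_dvd M)) :=
  (heckeAlphaBar_jBarD M q 1 (one_dvd M)).symm

include B hB hqM in
/-- **`F̄_{Mq}` is generated over `α₁ F̄_M` by `j(s^q)`.** -/
theorem adjoin_jq'_eq_top :
    letI := algebraAlong (heckeAlphaBar Kb M q)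
    IntermediateField.adjoin (Fb M) {jq' M q} = ⊤ := by
  letI := algebraAlong (heckeAlphaBar Kb M q)
  haveI : FiniteDimensional (Fb M) (Fb (M * q)) :=
    Fermat.Agent.Hecke.finiteAlong_heckeAlphaBar M q
  have : NeZero q := ⟨hq.out.ne_zero⟩
  set E₁ : IntermediateField (Fb M) (Fb (M * q)) :=
    IntermediateField.adjoin (Fb M) {jq' M q} with hE₁
  have hjq : jq' M q ∈ E₁ := IntermediateField.subset_adjoin _ _ (Set.mem_singleton _)
  have hjOne : jOne M q ∈ E₁ := by
    rw [jOne_eq_alpha]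
    exact E₁.algebraMap_mem _
  have htK : tKron M q ∈ E₁ := by
    unfold tKron
    rw [jQ_eq_jq']
    exact sub_mem hjq (pow_mem hjOne _)
  have hsK : sKron M q ∈ E₁ := by
    unfold sKron
    rw [jQ_eq_jq']
    exact sub_mem hjOne (pow_mem hjq _)
  set P₁ : ValuationSubring E₁ := (O1 M B hB).comap (algebraMap E₁ (Fb (M * q))) with hP₁
  set P₂ : ValuationSubring E₁ := (O2 B hB hqM).comap (algebraMap E₁ (Fb (M * q))) with hP₂
  have h12 : ¬ P₁ ≤ P₂ := by
    intro hle
    have h1 : (⟨sKron M q, hsK⟩ : E₁)⁻¹ ∈ P₁ := by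
      rw [hP₁, ValuationSubring.mem_comap, map_inv₀]
      exact inv_mem_of_notMem_nonunits _ (sKron_notMem_nonunits_O1 B hB hqM)
    have h2 := hle h1
    rw [hP₂, ValuationSubring.mem_comap, map_inv₀] at h2
    exact (mem_nonunits_iff_inv_notMem _ (sKron_ne_zero B hB hqM)).1
      (sKron_mem_nonunits_O2 B hB hqM) h2
  have h21 : ¬ P₂ ≤ P₁ := by
    intro hle
    have h1 : (⟨tKron M q, htK⟩ : E₁)⁻¹ ∈ P₂ := by
      rw [hP₂, ValuationSubring.mem_comap, map_inv₀]
      exact inv_mem_of_notMem_nonunits _ (tKron_notMem_nonunits_O2 B hB hqM)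
    have h2 := hle h1
    rw [hP₁, ValuationSubring.mem_comap, map_inv₀] at h2
    exact (mem_nonunits_iff_inv_notMem _ (tKron_ne_zero B hB hqM)).1
      (tKron_mem_nonunits_O1 B hB) h2
  have hS : Setup (OM M B hB) P₁ P₂ :=
    { lies₁ := by
        rw [hP₁, ValuationSubring.comap_comap, ← IsScalarTower.algebraMap_eq]
        exact comap_algebraMap_O1 B hB
      lies₂ := by
        rw [hP₂, ValuationSubring.comap_comap, ← IsScalarTower.algebraMap_eq]
        exact comap_algebraMap_O2 B hB hqM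
      arch₁ := arch_comap_algebraMap (arch_O1 B hB)
      arch₂ := arch_comap_algebraMap (arch_O2 B hB hqM)
      sep := exists_sep_of_not_le h12 h21 }
  have hx : ResIndep (OM M B hB) P₁ (fun _ : Unit => (1 : E₁)) :=
    resIndep_comap_algebraMap (by
      simpa only [map_one] using resIndep_one B hB (M := M))
  have hy : ResIndep (OM M B hB) P₂ (fun i : Fin q => (⟨jq' M q, hjq⟩ : E₁) ^ (i : ℕ)) :=
    resIndep_comap_algebraMap (by
      have h := resIndep_jQ_pow B hB hqM
      rw [jQ_eq_jq'] at h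
      have hfun : (fun i : Fin q => algebraMap E₁ (Fb (M * q))
          ((⟨jq' M q, hjq⟩ : E₁) ^ (i : ℕ))) = fun i : Fin q => jq' M q ^ (i : ℕ) :=
        funext fun i => by rw [map_pow]; rfl
      rw [hfun]
      exact h)
  have hcard := hS.card_add_card_le hx hy
  rw [Fintype.card_unit, Fintype.card_fin] at hcard
  have hdeg : Module.finrank (Fb M) (Fb (M * q)) = q + 1 :=
    Fermat.Agent.Hecke.Deg.finrankAlong_heckeAlphaBar M q hq.out hqM
  have hle : Module.finrank (Fb M) E₁ ≤ Module.finrank (Fb M) (Fb (M * q)) :=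
    Submodule.finrank_le E₁.toSubalgebra.toSubmodule
  refine IntermediateField.eq_of_le_of_finrank_eq le_top ?_
  rw [IntermediateField.finrank_top', hdeg]
  omega

end Simple

/-! ### `σ_b ∘ β₂` -/

section Sigma

variable {ζ : Kbˣ} (hζ : IsPrimitiveRoot ζ q) {b : ℕ} (hb : b < q - 1)

/-- `W_q j(s^q) = j(s)`. -/
theorem Wq_jq' : Wq hqM (jq' M q) = jBar (M * q) := by
  rw [← jQ_eq_jq', Wq_jQ, jBar_eq_jBarD_one]
  rfl

include B hB in
/-- **`σ_b ∘ β₂ = (s ↦ ζ^{b+1} s) ∘ W_q`** (as maps `F̄_{Mq} → ℚ̄((s))`). -/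
theorem sigmaB_beta2 (x : Fb (M * q)) :
    sigmaB hqM hζ hb (beta2 M q x) =
      scale (ζ ^ (b + 1)) ((Wq hqM x : Fb (M * q)) : LaurentSeries Kb) := by
  letI := algebraAlong (heckeAlphaBar Kb M q)
  have : NeZero q := ⟨hq.out.ne_zero⟩
  have hz : (ζ ^ (b + 1)) ^ q = 1 := zeta_pow_pow hζ
  let φ₁ : Fb (M * q) →+* LaurentSeries Kb :=
    (sigmaB hqM hζ hb).comp (beta2 M q : Fb (M * q) →+* Fb (M * q * q))
  let φ₂ : Fb (M * q) →+* LaurentSeries Kb :=
    (scale (ζ ^ (b + 1))).comp ((coeB (M * q)).comp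
      ((Wq hqM : Fb (M * q) ≃ₐ[Kb] Fb (M * q)) : Fb (M * q) →+* Fb (M * q)))
  have key : ∀ y : Fb (M * q), φ₁ y = φ₂ y := by
    intro y
    have hy : y ∈ IntermediateField.adjoin (Fb M) {jq' M q} := by
      rw [adjoin_jq'_eq_top B hB hqM]
      exact IntermediateField.mem_top
    induction hy using IntermediateField.adjoin_induction with
    | mem y hy =>
      rw [Set.mem_singleton_iff] at hy
      subst hy
      show sigmaB hqM hζ hb (beta2 M q (jq' M q)) =
        scale (ζ ^ (b + 1)) ((Wq hqM (jq' M q) : Fb (M * q)) : LaurentSeries Kb)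
      rw [beta2_jq', sigmaB_jqq, Wq_jq', FibreProd.coe_jBar]
    | algebraMap c =>
      show sigmaB hqM hζ hb (beta2 M q (heckeAlphaBar Kb M q c)) =
        scale (ζ ^ (b + 1)) ((Wq hqM (heckeAlphaBar Kb M q c) : Fb (M * q)) : LaurentSeries Kb)
      rw [← alpha2_beta1, sigmaB_alpha2, Wq_alpha, coe_heckeBetaBar, scale_qExpand, hz,
        scale_one_apply]
    | add y z _ _ hy hz' => rw [map_add, map_add, hy, hz']
    | inv y _ hy => rw [map_inv₀, map_inv₀, hy]
    | mul y z _ _ hy hz' => rw [map_mul, map_mul, hy, hz']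
  exact key x

end Sigma

/-! ### The Gauss ring is stable under `s ↦ z s` -/

section Scale

variable {L : Type*} [Field L] (A : ValuationSubring L) {k : Type*} [Field k] (π : A →+* k)

theorem aIota_scale (zA : Aˣ) (y : LaurentSeries A) :
    aIota A (scale zA y) = scale (Units.map (A.subtype : A →* L) zA) (aIota A y) := by
  rw [aIota, coeffMap_scale]

theorem aRed_scale (zA : Aˣ) (y : LaurentSeries A) :
    aRed π (scale zA y) = scale (Units.map (π : A →* k) zA) (aRed π y) := by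
  rw [aRed, coeffMap_scale]

theorem scale_mem_gaussRingA (zA : Aˣ) {x : LaurentSeries L} (hx : x ∈ gaussRingA A π) :
    scale (Units.map (A.subtype : A →* L) zA) x ∈ gaussRingA A π := by
  obtain ⟨a, c, hc, hac⟩ := hx
  refine ⟨scale zA a, scale zA c, ?_, ?_⟩
  · rw [aRed_scale]
    exact fun h => hc (scale_injective _ (h.trans (map_zero _).symm))
  · rw [aIota_scale, aIota_scale, ← map_mul, hac]

theorem scale_mem_gaussRingA_iff (zA : Aˣ) {x : LaurentSeries L} :
    scale (Units.map (A.subtype : A →* L) zA) x ∈ gaussRingA A π ↔ x ∈ gaussRingA A π := by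
  refine ⟨fun h => ?_, scale_mem_gaussRingA A π zA⟩
  have h1 := scale_mem_gaussRingA A π zA⁻¹ h
  rwa [scale_scale, ← map_mul, inv_mul_cancel, map_one, scale_one_apply] at h1

theorem gaussResA_scale (zA : Aˣ) {x : LaurentSeries L} (hx : x ∈ gaussRingA A π) :
    gaussResA A π ⟨scale (Units.map (A.subtype : A →* L) zA) x,
        scale_mem_gaussRingA A π zA hx⟩ =
      scale (Units.map (π : A →* k) zA) (gaussResA A π ⟨x, hx⟩) := by
  obtain ⟨a, c, hc, hac⟩ := (mem_gaussRingA_iff A π).1 hx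
  have hc' : aRed π (scale zA c) ≠ 0 := by
    rw [aRed_scale]
    exact fun h => hc (scale_injective _ (h.trans (map_zero _).symm))
  have e1 := gaussResA_eq A π
    ⟨scale (Units.map (A.subtype : A →* L) zA) x, scale_mem_gaussRingA A π zA hx⟩
    (a := scale zA a) (b := scale zA c) hc'
    (by show scale _ x * _ = _; rw [aIota_scale, aIota_scale, ← map_mul, hac])
  have e2 := gaussResA_eq A π ⟨x, hx⟩ (a := a) (b := c) hc hac
  rw [e1, e2, aRed_scale, aRed_scale, map_div₀]

end Scale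

/-! ### The middle valuations along `β₂` -/

section Beta

variable {ζ : Kbˣ} (hζ : IsPrimitiveRoot ζ q) {b : ℕ} (hb : b < q - 1)

include hζ in
/-- the unit of `B` lifting `ζ^{b+1}`, with trivial residue -/
theorem exists_unitB_zeta :
    ∃ zB : Bˣ, Units.map (B.subtype : B →* Kb) zB = ζ ^ (b + 1) ∧
      (B.LiesOverPrime q → Units.map (IsLocalRing.residue B : B →* kB) zB = 1) := by
  obtain ⟨zB, hzB, hzBq⟩ := exists_unitB B hq.out.ne_zero (zeta_pow_pow hζ (b := b))
  refine ⟨zB, Units.ext (by rw [Units.coe_map]; exact hzB), fun hB => ?_⟩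
  haveI := charP_kB B hB
  apply Units.ext
  rw [Units.coe_map, Units.val_one]
  apply residue_eq_one_of_pow_eq_one q
  have := congrArg (fun u : Bˣ => IsLocalRing.residue B (u : B)) hzBq
  simpa using this

/-- `β₂ x ∈ w₂ b ↔ x ∈ O2`. -/
theorem beta2_mem_w2_iff (x : Fb (M * q)) :
    beta2 M q x ∈ w2 B hB hqM hζ hb ↔ x ∈ O2 B hB hqM := by
  obtain ⟨zB, hzB, -⟩ := exists_unitB_zeta B hζ (b := b)
  rw [mem_w2_iff, sigmaB_beta2 B hB hqM hζ hb, ← hzB, scale_mem_gaussRingA_iff, mem_O2_iff]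
  exact Iff.rfl

/-- **`w₂ b ∘ β₂ = O2`** (the component `et`). -/
theorem comap_beta2_w2 :
    (w2 B hB hqM hζ hb).comap (beta2 M q : Fb (M * q) →+* Fb (M * q * q)) = O2 B hB hqM := by
  ext x
  rw [ValuationSubring.mem_comap, RingHom.coe_coe]
  exact beta2_mem_w2_iff B hB hqM hζ hb x

/-- **`res_{w₂ b} ∘ β₂ = res₂`.** -/
theorem resw2_beta2 (x : Fb (M * q)) (hx : x ∈ O2 B hB hqM) :
    resw2 B hB hqM hζ hb ⟨beta2 M q x, (beta2_mem_w2_iff B hB hqM hζ hb x).2 hx⟩ =
      res2 B hB hqM ⟨x, hx⟩ := by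
  obtain ⟨zB, hzB, hres⟩ := exists_unitB_zeta B hζ (b := b)
  have hx1 : ((Wq hqM x : Fb (M * q)) : LaurentSeries Kb) ∈
      gaussRingA B (IsLocalRing.residue B) := (mem_O2_iff B hB hqM).1 hx
  have h1 := gaussResA_scale B (IsLocalRing.residue B) zB hx1
  rw [hres hB, scale_one_apply] at h1
  rw [resw2_apply]
  refine (Fermat.Agent.BR.ResGen.gaussResA_congr B _
    (scale_mem_gaussRingA B (IsLocalRing.residue B) zB hx1) ?_).trans (h1.trans ?_)
  · show sigmaB hqM hζ hb (beta2 M q x) = _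
    rw [sigmaB_beta2 B hB hqM hζ hb, ← hzB]
  · rfl

end Beta

/-! ### The `W_{q²}`-action on the middle valuations -/

section WAction

variable {ζ : Kbˣ} (hζ : IsPrimitiveRoot ζ q) {b : ℕ} (hb : b < q - 1)

/-- `(w₂ b) ∘ W_{q²}`. -/
def w2W : ValuationSubring (Fb (M * q * q)) :=
  (w2 B hB hqM hζ hb).comap
    ((W2 hqM : Fb (M * q * q) ≃ₐ[Kb] Fb (M * q * q)) : Fb (M * q * q) →+* Fb (M * q * q))

theorem mem_w2W_iff {x : Fb (M * q * q)} :
    x ∈ w2W B hB hqM hζ hb ↔ W2 hqM x ∈ w2 B hB hqM hζ hb := Iff.rfl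

/-- `(w₂ b) ∘ W_{q²}` lies over `can` along `α₂`. -/
theorem comap_alpha2_w2W :
    (w2W B hB hqM hζ hb).comap (alpha2 M q : Fb (M * q) →+* Fb (M * q * q)) = O1 M B hB := by
  ext x
  rw [ValuationSubring.mem_comap, RingHom.coe_coe, mem_w2W_iff, W2_alpha2,
    beta2_mem_w2_iff B hB hqM hζ hb, Wq_mem_O2_iff]

/-- `(w₂ b) ∘ W_{q²}` lies over `et` along `β₂`. -/
theorem comap_beta2_w2W :
    (w2W B hB hqM hζ hb).comap (beta2 M q : Fb (M * q) →+* Fb (M * q * q)) = O2 B hB hqM := by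
  ext x
  rw [ValuationSubring.mem_comap, RingHom.coe_coe, mem_w2W_iff, W2_beta2,
    alpha2_mem_w2_iff B hB hqM hζ hb, Wq_mem_O1_iff]

theorem comap_W2_injective {O O' : ValuationSubring (Fb (M * q * q))}
    (h : O.comap ((W2 hqM : Fb (M * q * q) ≃ₐ[Kb] Fb (M * q * q)) :
        Fb (M * q * q) →+* Fb (M * q * q)) =
      O'.comap ((W2 hqM : Fb (M * q * q) ≃ₐ[Kb] Fb (M * q * q)) :
        Fb (M * q * q) →+* Fb (M * q * q))) : O = O' := by
  ext x
  have h1 : W2 hqM x ∈ O.comap ((W2 hqM : Fb (M * q * q) ≃ₐ[Kb] Fb (M * q * q)) :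
        Fb (M * q * q) →+* Fb (M * q * q)) ↔
      W2 hqM x ∈ O'.comap ((W2 hqM : Fb (M * q * q) ≃ₐ[Kb] Fb (M * q * q)) :
        Fb (M * q * q) →+* Fb (M * q * q)) := by rw [h]
  simpa only [ValuationSubring.mem_comap, RingHom.coe_coe, W2_W2] using h1

theorem w2W_ne_w1 : w2W B hB hqM hζ hb ≠ w1 M B hB := by
  intro h
  have h1 : w2 B hB hqM hζ hb = cZero B hB hqM := by
    apply comap_W2_injective hqM
    rw [← w2W, h]
    ext x
    rw [ValuationSubring.mem_comap, RingHom.coe_coe, W2_mem_cZero_iff]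
  exact w2_ne_cZero B hB hqM hζ hb h1

theorem w2W_ne_cZero : w2W B hB hqM hζ hb ≠ cZero B hB hqM := by
  intro h
  exact w2_ne_w1 B hB hqM hζ hb (comap_W2_injective hqM h)

/-- **`W_{q²}` permutes the middle valuations**, given the exhaustion along `α₂`. -/
theorem exists_w2_eq_w2W
    (hexh : ∀ O'' : ValuationSubring (Fb (M * q * q)),
      O''.comap (alpha2 M q : Fb (M * q) →+* Fb (M * q * q)) = O1 M B hB →
        O'' = w1 M B hB ∨ ∃ (b' : ℕ) (hb' : b' < q - 1), O'' = w2 B hB hqM hζ hb') :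
    ∃ (b' : ℕ) (hb' : b' < q - 1), w2W B hB hqM hζ hb = w2 B hB hqM hζ hb' := by
  rcases hexh _ (comap_alpha2_w2W B hB hqM hζ hb) with h | h
  · exact absurd h (w2W_ne_w1 B hB hqM hζ hb)
  · exact h

/-- **Exhaustion along `β₂`** from the exhaustion along `α₂`: the valuation subrings of
`F̄_{Mq²}` over `et = O2` along `β₂` are `cZero` and the middle ones. -/
theorem eq_cZero_or_eq_w2_of_comap_beta2
    (hexh : ∀ O'' : ValuationSubring (Fb (M * q * q)),
      O''.comap (alpha2 M q : Fb (M * q) →+* Fb (M * q * q)) = O1 M B hB →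
        O'' = w1 M B hB ∨ ∃ (b' : ℕ) (hb' : b' < q - 1), O'' = w2 B hB hqM hζ hb')
    (O'' : ValuationSubring (Fb (M * q * q)))
    (h : O''.comap (beta2 M q : Fb (M * q) →+* Fb (M * q * q)) = O2 B hB hqM) :
    O'' = cZero B hB hqM ∨ ∃ (b' : ℕ) (hb' : b' < q - 1), O'' = w2 B hB hqM hζ hb' := by
  set P : ValuationSubring (Fb (M * q * q)) := O''.comap
    ((W2 hqM : Fb (M * q * q) ≃ₐ[Kb] Fb (M * q * q)) : Fb (M * q * q) →+* Fb (M * q * q))
    with hP
  have hPa : P.comap (alpha2 M q : Fb (M * q) →+* Fb (M * q * q)) = O1 M B hB := by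
    ext x
    rw [ValuationSubring.mem_comap, RingHom.coe_coe, hP, ValuationSubring.mem_comap,
      RingHom.coe_coe, W2_alpha2]
    have h1 : beta2 M q (Wq hqM x) ∈ O'' ↔ Wq hqM x ∈ O2 B hB hqM := by
      rw [← h, ValuationSubring.mem_comap, RingHom.coe_coe]
    rw [h1, Wq_mem_O2_iff]
  rcases hexh P hPa with h1 | ⟨b', hb', h1⟩
  · left
    apply comap_W2_injective hqM
    rw [← hP, h1]
    ext x
    rw [ValuationSubring.mem_comap, RingHom.coe_coe, W2_mem_cZero_iff]
  · right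
    obtain ⟨b'', hb'', h2⟩ := exists_w2_eq_w2W B hB hqM hζ hb' hexh
    refine ⟨b'', hb'', ?_⟩
    apply comap_W2_injective hqM
    rw [← hP, h1, ← h2]
    ext x
    rw [ValuationSubring.mem_comap, RingHom.coe_coe, mem_w2W_iff, W2_W2]

end WAction

end Fermat.Agent.BR3.MidBeta
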