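import Fermat.Agent.BR3.FibreProdMidGH
import Fermat.Agent.BR3.CoverSheetInf.Sheet
import Fermat.Agent.BR3.CoverK.OfMinpoly

/-!
# Program C, node (SC3): the middle sheets over the points of `can` along `α₂`

`F' = Fb (M * q)` with the component `can = constRedW1` (residue field `F̃_M`),
`F'' = Fb (M * q * q)` (algebra along `α₂`) with a middle component `constRedMid b` (valuation
ring `w₂ b`, residue field `FMid M B = F̃_M(θ j̃)`, `BR3/FibreProdMidRes.lean`).

* `resAll`, `gaussPoly_map_resAll` : the reduction of `∏_o (X - σ_o x)` is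
  `(X - res_{w₁} x) ∏_b (X - res_{w₂ b} x)` (helper23's `gaussPoly`, no smallness hypothesis);
* `PsiOf M q θ` : the minimal polynomial of `θ` over `α₂ F'`;
* `rootMid`, `polyMid`, `algebraMap_res_coeff` : for `θ` small on `cInf` with residues
  `ϑ · c_{b'}` on the `w₂ b'`, the reduction of `Ψ_θ` is `X ∏_{b'} (X - ϑ c_{b'})` over
  `F̃_M(θ j̃)`; `ord_res_coeff_nonneg` (`hreg`), `isValueAt_eval_derivative_polyMid`,
  `prod_diffVal_ne_zero` (`simple`);
* `exists_coverSheet_mid_of_residues` : **the `CoverK.CoverSheet` of a middle component at a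
  place `Q''` of `F̃_M(θ j̃)`** from the residues of a generator (through helper4's
  `CoverK.OfMinpoly.exists_coverSheet_of_minpoly`: `ψ̄ = minpoly_{F̃_M} ϑ`, lifted by `hlift`);
* `exists_pow_index` : the exponents `m_{b'}` with `ζ^{b'+1} = (ζ^{b+1})^{m_{b'}}`;
* `exists_coverSheet_mid_thetaGen` : the sheet for the repaired generator
  `thetaGen r x h = β₂ r · U_x / ((ζ^{b+1} - 1) · α₂ h)` (`BR3/FibreProdMidGH.lean`), residue
  `ϑ = res₂ r · θ x̃ · res₁ h⁻¹`, hypothesis `ϑ(Q'') = ū ≠ 0`;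
* `exists_coverSheet_mid_TB'` : **(SC3)** the case `r = T' = q^12 / T`, `h = 1` of the finite
  ordinary points: `ϑ = T̄ · θ x̃`.

The coefficient ring `R' ≤ O1` is a parameter: it must contain the coefficients of `Ψ_θ` (`hΨR`;
they lie in `O1` by `PsiOf_coeff_mem_O1` and are regular wherever `θ` is integral) and the
functions of `F̃_M` regular at `Q'` must lift to it (`hlift`).
-/

set_option autoImplicit false
set_option linter.style.haveILetI false
set_option linter.unusedSectionVars false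

noncomputable section

/- S36 build-time patch: file-local shortcut instances. They only shorten instance search;
each is the instance that the search finds anyway (reducible, same terms after unfolding). -/
local instance (priority := 100000) Fermat.Agent.BR3.FastInst.instAlgFullC_CoverSheetMid
    {k : Type*} [Field k] (N : ℕ) :
    Algebra k ↥(ModularCurve.modularFunctionFieldFullC k N) := inferInstance
local instance (priority := 100000) Fermat.Agent.BR3.FastInst.instFieldFullC_CoverSheetMid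
    {k : Type*} [Field k] (N : ℕ) :
    Field ↥(ModularCurve.modularFunctionFieldFullC k N) := inferInstance
local instance (priority := 100000) Fermat.Agent.BR3.FastInst.instAlgLaurent_CoverSheetMid
    {k : Type*} [Field k] : Algebra k (LaurentSeries k) := inferInstance


set_option synthInstance.maxHeartbeats 400000

namespace Fermat.Agent.BR3.CoverSheetMid

open ModularCurve AlgebraicCurve HahnSeries Polynomial Fermat.Agent.X0 Fermat.Agent.Val
open Fermat.Agent.Hecke.AL Fermat.Agent.BR.TwoVal Fermat.Agent.BR.ResGen Fermat.Agent.Red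
open Fermat.Agent.BR.TwoValInst Fermat.Agent.BR3.FibreProd Fermat.Agent.BR.ModUnit
open Fermat.Agent.BR.ConstRedTwo Fermat.Agent.BR3.CoverK Fermat.Agent.BR3.CoverSheetInf
open Fermat.Agent.BR3.IgSq Fermat.Agent.BR3.CoverK.OfMinpoly Fermat.Agent.BR3.GaussContractSub

variable {M q : ℕ} [NeZero M] [hq : Fact q.Prime]
variable (B : ValuationSubring (AlgebraicClosure ℚ)) (hB : B.LiesOverPrime q) (hqM : ¬ q ∣ M)
variable {ζ : Kbˣ} (hζ : IsPrimitiveRoot ζ q)

local notation "kB" => IsLocalRing.ResidueField B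
local notation "FtM" => modularFunctionFieldFullC (IsLocalRing.ResidueField B) M
local notation "GA" => gaussRingA B (IsLocalRing.residue B)

/-- shortcut instance (found slowly by unification otherwise) -/
local instance instAlgebraResidueFullC :
    Algebra (IsLocalRing.ResidueField B)
      (modularFunctionFieldFullC (IsLocalRing.ResidueField B) M) :=
  SubalgebraClass.toAlgebra (modularFunctionFieldFullC (IsLocalRing.ResidueField B) M)

/-- shortcut instance (found slowly by unification otherwise) -/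
local instance instAlgebraResidueFMid : Algebra (IsLocalRing.ResidueField B) (FMid M B) :=
  (FMid M B).algebra'

/-! ### The reduction of the minimal polynomial, without smallness -/

section Reduction

variable {x : Fb (M * q * q)} (h1 : x ∈ w1 M B hB)
  (h2 : ∀ b : Fin (q - 1), x ∈ w2 B hB hqM hζ b.2)

/-- the residues of `x` on the `q` valuations over `can` -/
def resAll : Option (Fin (q - 1)) → LaurentSeries kB
  | none => resw1 M B hB ⟨x, h1⟩
  | some b => resw2 B hB hqM hζ b.2 ⟨x, h2 b⟩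

theorem gaussPoly_map_resAll :
    (gaussPoly B hB hqM hζ h1 h2).map (gaussResA B (IsLocalRing.residue B)) =
      ∏ o, (X - Polynomial.C (resAll B hB hqM hζ h1 h2 o)) := by
  rw [gaussPoly, Polynomial.map_prod]
  refine Finset.prod_congr rfl fun o _ => ?_
  rw [Polynomial.map_sub, Polynomial.map_X, Polynomial.map_C]
  cases o <;> rfl

end Reduction

/-! ### The minimal polynomial along `α₂` -/

variable (M q) in
/-- `Ψ_θ`: the minimal polynomial of `θ ∈ F₂` over `α₂ F₁`. -/
def PsiOf (θ : Fb (M * q * q)) : (Fb (M * q))[X] :=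
  letI := algebraAlong (alpha2 M q)
  minpoly (Fb (M * q)) θ

/-! ### The sheet from the residues -/

section Core

variable {b : ℕ} (hb : b < q - 1)

/-- the `q` roots of the reduced minimal polynomial, in `F̃_M(θ j̃)` -/
def rootMid (ϑ : FMid M B) (c : Fin (q - 1) → kB) : Option (Fin (q - 1)) → FMid M B
  | none => 0
  | some b' => ϑ * algebraMap kB (FMid M B) (c b')

theorem coe_algebraMap_FMid (a : kB) :
    ((algebraMap kB (FMid M B) a : FMid M B) : LaurentSeries kB) = HahnSeries.C a := by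
  show algebraMap kB (LaurentSeries kB) a = _
  rw [algebraMap_laurentSeries_eq_single, ← HahnSeries.C_apply]

variable {θ : Fb (M * q * q)} (h1m : θ ∈ w1 M B hB) (h1 : θ ∈ (w1 M B hB).nonunits)
  (h2 : ∀ b' : Fin (q - 1), θ ∈ w2 B hB hqM hζ b'.2)
  (ϑ : FMid M B) (c : Fin (q - 1) → IsLocalRing.ResidueField B)
  (hres : ∀ b' : Fin (q - 1), resw2 B hB hqM hζ b'.2 ⟨θ, h2 b'⟩ =
    (ϑ : LaurentSeries (IsLocalRing.ResidueField B)) * HahnSeries.C (c b'))

include hres h1 in
theorem coe_rootMid (o : Option (Fin (q - 1))) :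
    ((rootMid B ϑ c o : FMid M B) : LaurentSeries kB) =
      resAll B hB hqM hζ h1m h2 o := by
  cases o with
  | none =>
    show ((0 : FMid M B) : LaurentSeries kB) = resw1 M B hB ⟨θ, h1m⟩
    rw [(Fermat.Agent.BR.TwoValInst.mem_nonunits_O1_iff (M := M * q) B hB h1m).1 h1]
    rfl
  | some b' =>
    show ((ϑ * algebraMap kB (FMid M B) (c b') : FMid M B) : LaurentSeries kB) =
      resw2 B hB hqM hζ b'.2 ⟨θ, h2 b'⟩
    rw [hres b', MulMemClass.coe_mul, coe_algebraMap_FMid]

/-- the reduced minimal polynomial over `F̃_M(θ j̃)` -/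
def polyMid (ϑ : FMid M B) (c : Fin (q - 1) → kB) : (FMid M B)[X] :=
  ∏ o, (X - Polynomial.C (rootMid B ϑ c o))

variable (hx : θ ∉ Set.range (alpha2 M q))

include hx h1m h2 in
theorem PsiOf_coeff_mem_O1 (n : ℕ) : (PsiOf M q θ).coeff n ∈ O1 M B hB :=
  minpoly_coeff_mem_O1 B hB hqM hζ hx h1m h2 n

include hres h1 in
/-- **The reduction of `Ψ_θ`**, coefficient by coefficient, inside `F̃_M(θ j̃)`. -/
theorem algebraMap_res_coeff (n : ℕ) :
    algebraMap FtM (FMid M B) ((constRedW1 B hB hqM).res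
        ⟨(PsiOf M q θ).coeff n, PsiOf_coeff_mem_O1 B hB hqM hζ h1m h2 hx n⟩) =
      (polyMid B ϑ c).coeff n := by
  apply Subtype.ext
  rw [IntermediateField.coe_algebraMap_apply, IntermediateField.algebraMap_apply,
    coe_constRedW1_res]
  have e1 := res1_minpoly_coeff B hB hqM hζ hx h1m h2 n
  rw [gaussPoly_map_resAll] at e1
  refine e1.trans ?_
  have e2 : ((polyMid B ϑ c).map (algebraMap (FMid M B) (LaurentSeries kB))) =
      ∏ o, (X - Polynomial.C (resAll B hB hqM hζ h1m h2 o)) := by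
    rw [polyMid, Polynomial.map_prod]
    refine Finset.prod_congr rfl fun o _ => ?_
    rw [Polynomial.map_sub, Polynomial.map_X, Polynomial.map_C]
    congr 2
    exact coe_rootMid B hB hqM hζ h1m h1 h2 ϑ c hres o
  rw [← e2, Polynomial.coeff_map]
  rfl

/-! #### Regularity of the reduction and the derivative at the root -/

section AtPlace

variable (Q' : Place (IsLocalRing.ResidueField B)
    (modularFunctionFieldFullC (IsLocalRing.ResidueField B) M))
  (Q'' : Place (IsLocalRing.ResidueField B) (FMid M B))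
  (ord_map : ∀ f : modularFunctionFieldFullC (IsLocalRing.ResidueField B) M,
    Q''.ord (algebraMap (modularFunctionFieldFullC (IsLocalRing.ResidueField B) M)
      (FMid M B) f) = Q'.ord f)
  {ub : IsLocalRing.ResidueField B} (hu : IsValueAt Q'' ϑ ub)

include hu in
theorem rootMid_mem (o : Option (Fin (q - 1))) :
    rootMid B ϑ c o ∈ Q''.toValuationSubring := by
  cases o with
  | none => exact zero_mem _
  | some b' => exact mul_mem hu.mem (isValueAt_algebraMap Q'' (c b')).mem

include hu in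
theorem polyMid_coeff_mem (n : ℕ) : (polyMid B ϑ c).coeff n ∈ Q''.toValuationSubring := by
  have e : polyMid B ϑ c =
      (∏ o, (X - Polynomial.C (⟨rootMid B ϑ c o, rootMid_mem B ϑ c Q'' hu o⟩ :
        Q''.toValuationSubring.toSubring))).map Q''.toValuationSubring.toSubring.subtype := by
    rw [polyMid, Polynomial.map_prod]
    refine Finset.prod_congr rfl fun o _ => ?_
    rw [Polynomial.map_sub, Polynomial.map_X, Polynomial.map_C]
    rfl
  rw [e, Polynomial.coeff_map]
  exact Subtype.property _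

include hres h1 hu ord_map in
/-- `hreg` : the coefficients of the reduction of `Ψ_θ` are regular at `Q'`. -/
theorem ord_res_coeff_nonneg (n : ℕ) :
    0 ≤ Q'.ord ((constRedW1 B hB hqM).res
      ⟨(PsiOf M q θ).coeff n, PsiOf_coeff_mem_O1 B hB hqM hζ h1m h2 hx n⟩) := by
  rw [← ord_map, algebraMap_res_coeff B hB hqM hζ h1m h1 h2 ϑ c hres hx n]
  exact (Place.mem_iff_ord_nonneg Q'').1 (polyMid_coeff_mem B ϑ c Q'' hu n)

/-- values of finite products -/
theorem isValueAt_prod {K F : Type*} [Field K] [Field F] [Algebra K F] (P : Place K F)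
    {ι : Type*} (s : Finset ι) (f : ι → F) (v : ι → K) (h : ∀ i ∈ s, IsValueAt P (f i) (v i)) :
    IsValueAt P (∏ i ∈ s, f i) (∏ i ∈ s, v i) := by
  classical
  induction s using Finset.induction_on with
  | empty => simpa using isValueAt_one P
  | insert i s hi ih =>
    rw [Finset.prod_insert hi, Finset.prod_insert hi]
    exact (h i (Finset.mem_insert_self i s)).mul
      (ih fun j hj => h j (Finset.mem_insert_of_mem hj))

/-- the values of the differences of the roots -/
def diffVal (ub : IsLocalRing.ResidueField B) (c : Fin (q - 1) → IsLocalRing.ResidueField B) :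
    Option (Fin (q - 1)) → IsLocalRing.ResidueField B
  | none => ub
  | some b' => ub - ub * c b'

variable (hcb : c ⟨b, hb⟩ = 1)

include hu hcb in
/-- **The derivative of the reduced polynomial at the root `ϑ`** has the value
`∏_{o ≠ b} (ū - ρ_o(Q''))`. -/
theorem isValueAt_eval_derivative_polyMid :
    IsValueAt Q'' ((derivative (polyMid B ϑ c)).eval ϑ)
      (∏ o ∈ Finset.univ.erase (some (⟨b, hb⟩ : Fin (q - 1))), diffVal B ub c o) := by
  have hroot : rootMid B ϑ c (some ⟨b, hb⟩) = ϑ := by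
    show ϑ * algebraMap kB (FMid M B) (c ⟨b, hb⟩) = ϑ
    rw [hcb, map_one, mul_one]
  have h := eval_derivative_prod_X_sub_C' (rootMid B ϑ c) (some (⟨b, hb⟩ : Fin (q - 1)))
  rw [hroot] at h
  rw [polyMid, h]
  refine isValueAt_prod Q'' _ _ _ fun o _ => ?_
  cases o with
  | none =>
    show IsValueAt Q'' (ϑ - 0) ub
    rw [sub_zero]
    exact hu
  | some b' =>
    show IsValueAt Q'' (ϑ - ϑ * algebraMap kB (FMid M B) (c b')) (ub - ub * c b')
    exact hu.sub (hu.mul (isValueAt_algebraMap Q'' (c b')))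

include hcb in
theorem prod_diffVal_ne_zero (hu0 : ub ≠ 0)
    (hc1 : ∀ b' : Fin (q - 1), b' ≠ ⟨b, hb⟩ → c b' ≠ 1) :
    (∏ o ∈ Finset.univ.erase (some (⟨b, hb⟩ : Fin (q - 1))), diffVal B ub c o) ≠ 0 := by
  rw [Finset.prod_ne_zero_iff]
  intro o ho
  rw [Finset.mem_erase] at ho
  cases o with
  | none => exact hu0
  | some b' =>
    show ub - ub * c b' ≠ 0
    have hne : b' ≠ ⟨b, hb⟩ := fun h => ho.1 (by rw [h])
    have h1c : (1 : kB) - c b' ≠ 0 := sub_ne_zero.2 (Ne.symm (hc1 b' hne))
    have e : ub - ub * c b' = ub * (1 - c b') := by ring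
    rw [e]
    exact mul_ne_zero hu0 h1c

end AtPlace

/-! #### The sheet -/

section Sheet

set_option maxHeartbeats 2000000 in
include h1 h2 hres in
/-- **A middle sheet from the residues of a generator.**  `θ ∈ F₂` small on `cInf`, with residues
`ϑ · c_{b'}` on the middle valuations `w₂ b'` (`c_b = 1`, `c_{b'} ≠ 1` for `b' ≠ b`), `ϑ` with a
nonzero value `ū` at the place `Q''` of `F̃_M(θ j̃)`, unramified over `Q'`; `R' ≤ O1` a coefficient
ring containing the coefficients of `Ψ_θ` and to which the functions regular at `Q'` lift.  Then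
the cover `F₂ / α₂ F₁` is standard étale at the point `Q''` of the middle component `w₂ b`. -/
theorem exists_coverSheet_mid_of_residues
    (Q' : Place (IsLocalRing.ResidueField B)
      (modularFunctionFieldFullC (IsLocalRing.ResidueField B) M))
    (Q'' : Place (IsLocalRing.ResidueField B) (FMid M B))
    (ord_map : ∀ f : modularFunctionFieldFullC (IsLocalRing.ResidueField B) M,
      Q''.ord (algebraMap (modularFunctionFieldFullC (IsLocalRing.ResidueField B) M)
        (FMid M B) f) = Q'.ord f)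
    (u : B) (hu : IsValueAt Q'' ϑ (IsLocalRing.residue B u))
    (hu0 : IsLocalRing.residue B u ≠ 0)
    (hcb : c ⟨b, hb⟩ = 1) (hc1 : ∀ b' : Fin (q - 1), b' ≠ ⟨b, hb⟩ → c b' ≠ 1)
    (R' : Subring (Fb (M * q))) (hR' : ∀ y ∈ R', y ∈ (constRedW1 B hB hqM).O)
    (hΨR : ∀ n, (PsiOf M q θ).coeff n ∈ R')
    (hlift : ∀ f : modularFunctionFieldFullC (IsLocalRing.ResidueField B) M, 0 ≤ Q'.ord f →
      ∃ y ∈ R', ∃ hy : y ∈ (constRedW1 B hB hqM).O, (constRedW1 B hB hqM).res ⟨y, hy⟩ = f) :
    letI := algebraAlong (alpha2 M q)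
    haveI := isScalarTower_along (alpha2 M q)
    ∃ ψ ψc : (Fb (M * q))[X],
      CoverSheet B (IsLocalRing.residue B) (constRedW1 B hB hqM).O (constRedW1 B hB hqM).res Q'
        (constRedMid B hB hqM hζ hb).O (constRedMid B hB hqM hζ hb).res Q'' R' θ
        (PsiOf M q θ) ψ ψc u ∧
      ψ.natDegree = (minpoly (modularFunctionFieldFullC (IsLocalRing.ResidueField B) M)
        ϑ).natDegree := by
  letI := algebraAlong (alpha2 M q)
  haveI := isScalarTower_along (alpha2 M q)
  haveI : Module.Finite (Fb (M * q)) (Fb (M * q * q)) :=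
    Fermat.Agent.Hecke.finiteAlong_heckeAlphaBar (M * q) q
  have h1m : θ ∈ w1 M B hB := mem_of_mem_nonunits _ h1
  have hint : IsIntegral (Fb (M * q)) θ := Algebra.IsIntegral.isIntegral _
  -- the residue of `θ` on the sheet
  have hθres : resMid B hB hqM hζ hb ⟨θ, h2 ⟨b, hb⟩⟩ = ϑ := by
    apply Subtype.ext
    rw [coe_resMid, hres ⟨b, hb⟩, hcb, map_one, mul_one]
  have hϑ0 : ϑ ≠ 0 := by
    rintro rfl
    exact hu0 ((hu.unique (isValueAt_zero Q'')))
  have hunit : θ ∉ (w2 B hB hqM hζ hb).nonunits := by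
    intro hn
    have := (resMid_eq_zero_iff_mem_nonunits B hB hqM hζ hb ⟨θ, h2 ⟨b, hb⟩⟩).2 hn
    rw [hθres] at this
    exact hϑ0 this
  have hx : θ ∉ Set.range (alpha2 M q) :=
    notMem_range_alpha2_of_w1_w2 hqM B hB hζ hb h1 hunit
  have comap_eq : (w2 B hB hqM hζ hb).comap (algebraMap (Fb (M * q)) (Fb (M * q * q))) =
      O1 M B hB := comap_alpha2_w2 B hB hqM hζ hb
  have res_map : ∀ (y : Fb (M * q)) (hy : y ∈ O1 M B hB)
      (hy' : algebraMap (Fb (M * q)) (Fb (M * q * q)) y ∈ w2 B hB hqM hζ hb),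
      resMid B hB hqM hζ hb ⟨algebraMap (Fb (M * q)) (Fb (M * q * q)) y, hy'⟩ =
        algebraMap FtM (FMid M B) ((constRedW1 B hB hqM).res ⟨y, hy⟩) :=
    fun y hy _ => resMid_alpha2 B hB hqM hζ hb y hy
  have hval : IsValueAt Q'' (resMid B hB hqM hζ hb ⟨θ, h2 ⟨b, hb⟩⟩)
      (IsLocalRing.residue B u) := by
    rw [hθres]
    exact hu
  have hθres' : (constRedMid B hB hqM hζ hb).res ⟨θ, h2 ⟨b, hb⟩⟩ = ϑ := hθres
  rw [← hθres']
  refine exists_coverSheet_of_minpoly (A := B) (π := IsLocalRing.residue B)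
    (O' := (constRedW1 B hB hqM).O) (res' := (constRedW1 B hB hqM).res)
    (O'' := (constRedMid B hB hqM hζ hb).O) (res'' := (constRedMid B hB hqM hζ hb).res)
    (Ψ := PsiOf M q θ) comap_eq res_map
    (resMid_eq_zero_iff_mem_nonunits B hB hqM hζ hb) ord_map (h2 ⟨b, hb⟩) (minpoly.monic hint)
    (minpoly.irreducible hint) hΨR (minpoly.aeval _ _) (exists_aeval_eq_of_notMem_range hx)
    hval ?_ hR' hlift ?_
  · -- simple
    intro h
    obtain ⟨ΨR, hΨR'⟩ : ∃ ΨR : R'[X], ΨR.map R'.subtype = PsiOf M q θ :=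
      ⟨(PsiOf M q θ).toSubring R' (IsSubPoly.coeffs_subset hΨR), Polynomial.map_toSubring _ _ _⟩
    have hder : (derivative ΨR).map R'.subtype = derivative (PsiOf M q θ) := by
      rw [← Polynomial.derivative_map, hΨR']
    have hmem' : aeval θ ((derivative ΨR).map R'.subtype) ∈ w2 B hB hqM hζ hb := by
      rw [hder]
      exact h
    have e1 := res_aeval_map (res' := (constRedW1 B hB hqM).res)
      (res'' := resMid B hB hqM hζ hb) comap_eq res_map hR' (h2 ⟨b, hb⟩) (derivative ΨR) hmem'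
    have e2 : (⟨aeval θ (derivative (PsiOf M q θ)), h⟩ : w2 B hB hqM hζ hb) =
        ⟨aeval θ ((derivative ΨR).map R'.subtype), hmem'⟩ :=
      Subtype.ext (congrArg (aeval θ) hder.symm)
    have e3 : aeval ϑ ((derivative ΨR).map (redR (constRedW1 B hB hqM).res hR')) =
        (derivative (polyMid B ϑ c)).eval ϑ := by
      rw [Polynomial.aeval_def, Polynomial.eval₂_eq_eval_map, ← Polynomial.derivative_map,
        ← Polynomial.derivative_map]
      congr 2
      refine Polynomial.ext fun n => ?_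
      rw [Polynomial.coeff_map, Polynomial.coeff_map, redR_apply,
        ← algebraMap_res_coeff B hB hqM hζ h1m h1 h2 ϑ c hres hx n]
      have hcoe : ((ΨR.coeff n : R') : Fb (M * q)) = (PsiOf M q θ).coeff n := by
        rw [← hΨR', Polynomial.coeff_map]
        rfl
      have hsub : (⟨((ΨR.coeff n : R') : Fb (M * q)), hR' _ (ΨR.coeff n).2⟩ :
          (constRedW1 B hB hqM).O) =
          ⟨(PsiOf M q θ).coeff n, PsiOf_coeff_mem_O1 B hB hqM hζ h1m h2 hx n⟩ :=
        Subtype.ext hcoe
      exact congrArg (fun z => algebraMap FtM (FMid M B) ((constRedW1 B hB hqM).res z)) hsub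
    show ¬ Q''.adicValuation (resMid B hB hqM hζ hb
      ⟨aeval θ (derivative (PsiOf M q θ)), h⟩) < 1
    rw [e2, e1, hθres, e3,
      (isValueAt_eval_derivative_polyMid B hb ϑ c Q'' hu hcb).adicValuation_eq_one
        (prod_diffVal_ne_zero B hb c hcb hu0 hc1)]
    exact lt_irrefl _
  · -- hreg
    intro n
    exact ord_res_coeff_nonneg B hB hqM hζ h1m h1 h2 ϑ c hres hx Q' Q'' ord_map hu n

end Sheet

end Core

/-! ### The sheet of the repaired generator `thetaGen` -/

section Gen

variable {b : ℕ} (hb : b < q - 1)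

include hB hζ in
/-- the exponent `m` with `ζ^{b'+1} = (ζ^{b+1})^m`; its residue is `1` exactly for `b' = b` -/
theorem exists_pow_index (b' : Fin (q - 1)) :
    ∃ m : ℕ, ζ ^ ((b' : ℕ) + 1) = (ζ ^ (b + 1)) ^ m ∧
      (((m : ℕ) : kB) = 1 ↔ b' = ⟨b, hb⟩) := by
  haveI := charP_kB B hB
  haveI : NeZero q := ⟨hq.out.ne_zero⟩
  have hcop : Nat.Coprime (b + 1) q := by
    rw [Nat.coprime_comm]
    refine (Nat.Prime.coprime_iff_not_dvd hq.out).2 fun h => ?_
    have := Nat.le_of_dvd (Nat.succ_pos b) h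
    omega
  have hprim : IsPrimitiveRoot (ζ ^ (b + 1)) q := hζ.pow_of_coprime (b + 1) hcop
  obtain ⟨m, -, hm⟩ := hprim.eq_pow_of_mem_rootsOfUnity
    ((mem_rootsOfUnity q _).mpr (zeta_pow_pow hζ (b := b')))
  refine ⟨m, hm.symm, ?_⟩
  have hone : ((m : ℕ) : kB) = 1 ↔ m ≡ 1 [MOD q] := by
    rw [← Nat.cast_one (R := kB), CharP.natCast_eq_natCast kB q]
  have hpow : (ζ ^ (b + 1)) ^ m = (ζ ^ (b + 1)) ^ 1 ↔ m ≡ 1 [MOD q] := by
    rw [pow_eq_pow_iff_modEq, ← hprim.eq_orderOf]
  rw [hone, ← hpow, hm, pow_one]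
  constructor
  · intro h
    apply Fin.ext
    have := hζ.pow_inj (by have := b'.2; omega) (by omega) h
    show (b' : ℕ) = b
    omega
  · intro h
    rw [h]

set_option maxHeartbeats 2000000 in
include hB in
/-- **The middle sheets of the repaired generator** `θ = β₂ r · U_x / ((ζ^{b+1} - 1) · α₂ h)`
(`r` small enough on `can` and integral on `et`, `x` integral on both components, `h` a unit of
`can`): for every place `Q''` of `F̃_M(θ j̃)`, unramified over `Q'`, at which
`ϑ = res₂ r · θ x̃ · res₁ h⁻¹` has a nonzero value `ū`, the cover `F₂ / α₂ F₁` is standard étale at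
the point `Q''` of the middle component `w₂ b`, sheet constant `u`. -/
theorem exists_coverSheet_mid_thetaGen {r x h : Fb (M * q)} (hr2 : r ∈ O2 B hB hqM)
    (hr1 : r * algebraMap Kb (Fb (M * q)) ((((ζ ^ (b + 1) : Kbˣ) : Kb)) - 1)⁻¹ ∈
      (O1 M B hB).nonunits)
    (hx1 : x ∈ O1 M B hB) (hx2 : x ∈ O2 B hB hqM) (hh : h⁻¹ ∈ O1 M B hB)
    (ϑ : FMid M B)
    (hϑ : (ϑ : LaurentSeries (IsLocalRing.ResidueField B)) =
      res2 B hB hqM ⟨r, hr2⟩ * thetaL (IsLocalRing.ResidueField B) (res1 M B hB ⟨x, hx1⟩) *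
        res1 M B hB ⟨h⁻¹, hh⟩)
    (Q' : Place (IsLocalRing.ResidueField B)
      (modularFunctionFieldFullC (IsLocalRing.ResidueField B) M))
    (Q'' : Place (IsLocalRing.ResidueField B) (FMid M B))
    (ord_map : ∀ f : modularFunctionFieldFullC (IsLocalRing.ResidueField B) M,
      Q''.ord (algebraMap (modularFunctionFieldFullC (IsLocalRing.ResidueField B) M)
        (FMid M B) f) = Q'.ord f)
    (u : B) (hu : IsValueAt Q'' ϑ (IsLocalRing.residue B u))
    (hu0 : IsLocalRing.residue B u ≠ 0)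
    (R' : Subring (Fb (M * q))) (hR' : ∀ y ∈ R', y ∈ (constRedW1 B hB hqM).O)
    (hΨR : ∀ n, (PsiOf M q (thetaGen hqM r x h ((ζ ^ (b + 1) : Kbˣ) : Kb))).coeff n ∈ R')
    (hlift : ∀ f : modularFunctionFieldFullC (IsLocalRing.ResidueField B) M, 0 ≤ Q'.ord f →
      ∃ y ∈ R', ∃ hy : y ∈ (constRedW1 B hB hqM).O, (constRedW1 B hB hqM).res ⟨y, hy⟩ = f) :
    letI := algebraAlong (alpha2 M q)
    haveI := isScalarTower_along (alpha2 M q)
    ∃ ψ ψc : (Fb (M * q))[X],
      CoverSheet B (IsLocalRing.residue B) (constRedW1 B hB hqM).O (constRedW1 B hB hqM).res Q'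
        (constRedMid B hB hqM hζ hb).O (constRedMid B hB hqM hζ hb).res Q'' R'
        (thetaGen hqM r x h ((ζ ^ (b + 1) : Kbˣ) : Kb))
        (PsiOf M q (thetaGen hqM r x h ((ζ ^ (b + 1) : Kbˣ) : Kb))) ψ ψc u ∧
      ψ.natDegree = (minpoly (modularFunctionFieldFullC (IsLocalRing.ResidueField B) M)
        ϑ).natDegree := by
  choose m hm hm1 using exists_pow_index B hB hζ hb
  have hex := fun b' : Fin (q - 1) =>
    exists_resw2_thetaGen hqM B hB hζ (b := b) hr2 hx1 hh b'.2 (m b') (hm b')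
  choose h2 hres using hex
  have h1 := thetaGen_mem_nonunits_w1 hqM B hB (z := ((ζ ^ (b + 1) : Kbˣ) : Kb)) hr1 hx1 hx2 hh
  refine exists_coverSheet_mid_of_residues B hB hqM hζ hb h1 h2 ϑ
    (fun b' => ((m b' : ℕ) : kB)) (fun b' => ?_) Q' Q'' ord_map u hu hu0
    ((hm1 ⟨b, hb⟩).2 rfl) (fun b' hne h => hne ((hm1 b').1 h)) R' hR' hΨR hlift
  rw [hres b', hϑ]
  ring

set_option maxHeartbeats 2000000 in
include hB in
/-- **(SC3) The middle sheets over the finite ordinary points of `can` along `α₂`**: generator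
`θ = β₂ T' · U_x / (ζ^{b+1} - 1)` (`T' = q^12 / T` the repair factor, `res₂ T' = T̄`), for `x`
integral on both components of `F₁` with `(T̄ · θ x̃)(Q'') = ū ≠ 0` (e.g. `x = α g`, `g` a local
parameter at `Q'`). -/
theorem exists_coverSheet_mid_TB' {x : Fb (M * q)}
    (hx1 : x ∈ O1 M B hB) (hx2 : x ∈ O2 B hB hqM)
    (ϑ : FMid M B)
    (hϑ : (ϑ : LaurentSeries (IsLocalRing.ResidueField B)) =
      TK (IsLocalRing.ResidueField B) q *
        thetaL (IsLocalRing.ResidueField B) (res1 M B hB ⟨x, hx1⟩))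
    (Q' : Place (IsLocalRing.ResidueField B)
      (modularFunctionFieldFullC (IsLocalRing.ResidueField B) M))
    (Q'' : Place (IsLocalRing.ResidueField B) (FMid M B))
    (ord_map : ∀ f : modularFunctionFieldFullC (IsLocalRing.ResidueField B) M,
      Q''.ord (algebraMap (modularFunctionFieldFullC (IsLocalRing.ResidueField B) M)
        (FMid M B) f) = Q'.ord f)
    (u : B) (hu : IsValueAt Q'' ϑ (IsLocalRing.residue B u))
    (hu0 : IsLocalRing.residue B u ≠ 0)
    (R' : Subring (Fb (M * q))) (hR' : ∀ y ∈ R', y ∈ (constRedW1 B hB hqM).O)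
    (hΨR : ∀ n,
      (PsiOf M q (thetaGen hqM (TB' M q) x 1 ((ζ ^ (b + 1) : Kbˣ) : Kb))).coeff n ∈ R')
    (hlift : ∀ f : modularFunctionFieldFullC (IsLocalRing.ResidueField B) M, 0 ≤ Q'.ord f →
      ∃ y ∈ R', ∃ hy : y ∈ (constRedW1 B hB hqM).O, (constRedW1 B hB hqM).res ⟨y, hy⟩ = f) :
    letI := algebraAlong (alpha2 M q)
    haveI := isScalarTower_along (alpha2 M q)
    ∃ ψ ψc : (Fb (M * q))[X],
      CoverSheet B (IsLocalRing.residue B) (constRedW1 B hB hqM).O (constRedW1 B hB hqM).res Q'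
        (constRedMid B hB hqM hζ hb).O (constRedMid B hB hqM hζ hb).res Q'' R'
        (thetaGen hqM (TB' M q) x 1 ((ζ ^ (b + 1) : Kbˣ) : Kb))
        (PsiOf M q (thetaGen hqM (TB' M q) x 1 ((ζ ^ (b + 1) : Kbˣ) : Kb))) ψ ψc u ∧
      ψ.natDegree = (minpoly (modularFunctionFieldFullC (IsLocalRing.ResidueField B) M)
        ϑ).natDegree := by
  have hh : (1 : Fb (M * q))⁻¹ ∈ O1 M B hB := by
    rw [inv_one]
    exact (O1 M B hB).one_mem
  have h1 : (⟨(1 : Fb (M * q))⁻¹, hh⟩ : O1 M B hB) = 1 := Subtype.ext inv_one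
  refine exists_coverSheet_mid_thetaGen B hB hqM hζ hb (TB'_mem_O2 M q B hB hqM)
    (TB'_mul_mem_nonunits_O1 B hB hζ hb) hx1 hx2 hh ϑ ?_ Q' Q'' ord_map u hu hu0 R' hR'
    hΨR hlift
  rw [hϑ, res2_TB', h1, map_one, mul_one]

end Gen

end Fermat.Agent.BR3.CoverSheetMid


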