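import Fermat.Agent.BR3.RegAtlas
import Fermat.Agent.BR3.CZeroSheet
import Fermat.Agent.BR.Inst.CkPointModular

/-!
# Program C, node (I7-REGBASE): regularity of `j`, `j(s^q)` on the tubes of the finite points

`H : AtlasHyp (chartDataModular B hB hqM) (jx M q)` (the atlas of `S'`), `Q` a place of `F̃_M` at
which `j̃` is regular (a FINITE point of either component).

* `jq'_mem_of_jBar_mem`, `jBar_mem_of_jq'_mem` : `j(s^q)` is integral over `ℤ[j]` and conversely
  (`Φ_q` is monic in both variables), for any valuation subring of `F̄_{Mq}`;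
* `integralAt_chartFin_zero`, `integralAt_chartFin_one` : the places of the tube of a finite point
  are integral on the finite chart;
* `ord_nonneg_of_mem_chartFin_zero/_one` : every function of the finite chart is regular on the
  tube;
* `ord_jBar_nonneg_zero/_one`, `ord_jq'_nonneg_zero/_one` : the hypotheses `hj`, `hjq'` of
  `CoverSheetInf.coverSheet_cInf` (component `0`) and `CZeroSheet.coverSheet_cZero`
  (component `1`).
-/

set_option autoImplicit false
set_option linter.unusedSectionVars false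
set_option linter.style.haveILetI false

noncomputable section

/- S36 build-time patch: file-local shortcut instances. They only shorten instance search;
each is the instance that the search finds anyway (reducible, same terms after unfolding). -/
local instance (priority := 100000) Fermat.Agent.BR3.FastInst.instAlgFullC_RegAtlasTube
    {k : Type*} [Field k] (N : ℕ) :
    Algebra k ↥(ModularCurve.modularFunctionFieldFullC k N) := inferInstance
local instance (priority := 100000) Fermat.Agent.BR3.FastInst.instFieldFullC_RegAtlasTube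
    {k : Type*} [Field k] (N : ℕ) :
    Field ↥(ModularCurve.modularFunctionFieldFullC k N) := inferInstance
local instance (priority := 100000) Fermat.Agent.BR3.FastInst.instAlgLaurent_RegAtlasTube
    {k : Type*} [Field k] : Algebra k (LaurentSeries k) := inferInstance


namespace Fermat.Agent.BR3.RegAtlas

open ModularCurve AlgebraicCurve IsLocalRing Polynomial
open Fermat.Agent.X0 Fermat.Agent.Val Fermat.Agent.Red Fermat.Agent.BR.Centre
open Fermat.Agent.Hecke.AL Fermat.Agent.BR.TwoVal Fermat.Agent.BR.TwoValInst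
open Fermat.Agent.BR.ConstRedTwo Fermat.Agent.BR.ResGen
open Fermat.Agent.BR.S0 Fermat.Agent.BR.Kron
open Fermat.Agent.BR.S0.RedModular Fermat.Agent.BR.S0.RedHyp Fermat.Agent.BR.S0.PointDict
open Fermat.Agent.BR.Inst.SmoothModularAll Fermat.Agent.BR.Inst.CkPointModular
open Fermat.Agent.BR3.CoverK Fermat.Agent.BR3.FibreProd Fermat.Agent.BR3.CZeroSheet

set_option synthInstance.maxHeartbeats 400000

variable {M q : ℕ} [NeZero M] [hqF : Fact q.Prime]

/-! ### `j(s^q)` is integral over `ℤ[j]` -/

/-- `Φ_q(j(s^q), j) = 0` (inner variable `j(s^q)`, outer variable `j`). -/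
theorem evalEval_phiK_jq'_jBar :
    (phiK q (Fb (M * q))).evalEval (jq' M q) (jBar (M * q)) = 0 := by
  have h := PhiAt_eval_jBar (M := M) (q := q)
  rw [PhiAt, Polynomial.map_evalRingHom_eval] at h
  exact h

/-- `Φ_q(j, j(s^q)) = 0` (inner variable `j`, outer variable `j(s^q)`). -/
theorem evalEval_phiK_jBar_jq' (hqM : ¬ q ∣ M) :
    (phiK q (Fb (M * q))).evalEval (jBar (M * q)) (jq' M q) = 0 := by
  have h := congrArg (Wq hqM) (evalEval_phiK_jq'_jBar (M := M) (q := q))
  rw [map_zero] at h
  have h2 := map_phiK_evalEval q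
    ((Wq hqM : Fb (M * q) ≃ₐ[Kb] Fb (M * q)) : Fb (M * q) →+* Fb (M * q))
    (jq' M q) (jBar (M * q))
  have h3 : ((Wq hqM : Fb (M * q) ≃ₐ[Kb] Fb (M * q)) : Fb (M * q) →+* Fb (M * q)) (jq' M q) =
      jBar (M * q) := MidBeta.Wq_jq' hqM
  have h4 : ((Wq hqM : Fb (M * q) ≃ₐ[Kb] Fb (M * q)) : Fb (M * q) →+* Fb (M * q))
      (jBar (M * q)) = jq' M q := Wq_jBar hqM
  rw [h3, h4] at h2
  rw [← h2]
  exact h

/-- A root `y` of `Φ_q(x, ·)` is integral over every subring containing `x`. -/
theorem isIntegral_of_evalEval_phiK {F : Type*} [Field F] (V : ValuationSubring F) {x y : F}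
    (hx : x ∈ V) (h : (phiK q F).evalEval x y = 0) : y ∈ V := by
  have hmon : ((phiK q V).map (Polynomial.evalRingHom (⟨x, hx⟩ : V))).Monic :=
    (phiK_monic q hqF.out V).map _
  have hint : IsIntegral V y := by
    refine ⟨_, hmon, ?_⟩
    rw [Polynomial.eval₂_eq_eval_map, ← h, ← Polynomial.map_evalRingHom_eval]
    congr 1
    rw [phiK, phiK, Polynomial.map_map, Polynomial.map_map, Polynomial.map_map]
    congr 1
    apply Polynomial.ringHom_ext
    · intro n
      simp
    · simp
  obtain ⟨z, hz⟩ := IsIntegrallyClosed.isIntegral_iff.mp hint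
  rw [← hz]
  exact z.2

/-- `j(s^q)` lies in every valuation subring containing `j`. -/
theorem jq'_mem_of_jBar_mem (hqM : ¬ q ∣ M) (V : ValuationSubring (Fb (M * q)))
    (hj : jBar (M * q) ∈ V) : jq' M q ∈ V :=
  isIntegral_of_evalEval_phiK V hj (evalEval_phiK_jBar_jq' hqM)

/-- `j` lies in every valuation subring containing `j(s^q)`. -/
theorem jBar_mem_of_jq'_mem (V : ValuationSubring (Fb (M * q)))
    (hj : jq' M q ∈ V) : jBar (M * q) ∈ V :=
  isIntegral_of_evalEval_phiK V hj evalEval_phiK_jq'_jBar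

/-! ### Generic: the tube of a finite point is read on the finite chart -/

section Generic

variable {K F k : Type*} [Field K] [Field F] [Algebra K F] [Field k]
  {Ft : Type*} [Field Ft] [Algebra k Ft] {A : ValuationSubring K} {π : A →+* k}
  {D : ChartData A π Ft F} {x : F}

theorem integralAt_Rfin_of_r_eq_zero (H : AtlasHyp D x) {Q : Place k Ft} {c : k}
    (hc : IsValueAt Q (D.res 0 ⟨x, D.hfin 0 H.x_mem⟩) c) {P : Place K F}
    (hP : H.r P = ⟨0, Q⟩) : IntegralAt A D.Rfin P :=
  ((H.red_iff_fin hc).mp (H.r_eq_zero_iff.mp hP)).integralAt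

theorem integralAt_Rfin_of_r_eq_one (H : AtlasHyp D x) {Q : Place k Ft} {c : k}
    (hc : IsValueAt Q (D.res 1 ⟨x, D.hfin 1 H.x_mem⟩) c) {P : Place K F}
    (hP : H.r P = ⟨1, Q⟩) : IntegralAt A D.Rfin P :=
  ((H.red_iff_fin hc).mp (H.r_eq_one_iff.mp hP).1).integralAt

end Generic

/-! ### The tubes of the finite points -/

variable (B : ValuationSubring Kb) (hB : B.LiesOverPrime q) (hqM : ¬ q ∣ M)

local notation "kB" => IsLocalRing.ResidueField B
local notation "FtM" => modularFunctionFieldFullC (IsLocalRing.ResidueField B) M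

/-- a function of a ring on which the place is integral is regular at the place -/
theorem ord_nonneg_of_integralAt {R : Subring (Fb (M * q))} {P : Place Kb (Fb (M * q))}
    (h : IntegralAt B R P) {y : Fb (M * q)} (hy : y ∈ R) : 0 ≤ P.ord y := by
  obtain ⟨c, -, hc⟩ := h y hy
  exact Fermat.Agent.X0.OrdDx.ord_nonneg_of_mem P hc.mem

/-- the residue of `j` on the component `0` has a value at a finite point -/
theorem exists_isValueAt_res_zero_jx (H : AtlasHyp (chartDataModular B hB hqM) (jx M q))
    {Q : Place kB FtM} (hj : jFullC kB M ∈ Q.toValuationSubring) :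
    ∃ c : kB, IsValueAt Q ((chartDataModular B hB hqM).res 0
      ⟨jx M q, (chartDataModular B hB hqM).hfin 0 H.x_mem⟩) c := by
  refine exists_isValueAt Q (place_deg_eq_one_Ft B hB hqM Q) ?_
  have e : (chartDataModular B hB hqM).res 0
      ⟨jx M q, (chartDataModular B hB hqM).hfin 0 H.x_mem⟩ = jFullC kB M :=
    res_zero_jx B hB hqM _
  rw [e]
  exact hj

/-- the residue of `j` on the component `1` has a value at a finite point -/
theorem exists_isValueAt_res_one_jx (H : AtlasHyp (chartDataModular B hB hqM) (jx M q))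
    {Q : Place kB FtM} (hj : jFullC kB M ∈ Q.toValuationSubring) :
    ∃ c : kB, IsValueAt Q ((chartDataModular B hB hqM).res 1
      ⟨jx M q, (chartDataModular B hB hqM).hfin 1 H.x_mem⟩) c := by
  refine exists_isValueAt Q (place_deg_eq_one_Ft B hB hqM Q) ?_
  have e : (chartDataModular B hB hqM).res 1
      ⟨jx M q, (chartDataModular B hB hqM).hfin 1 H.x_mem⟩ = jFullC kB M ^ q :=
    res_one_jx B hB hqM _
  rw [e]
  exact pow_mem hj q

/-- the places of the tube of a finite point of the component `0` are integral on the finite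
chart -/
theorem integralAt_chartFin_zero (H : AtlasHyp (chartDataModular B hB hqM) (jx M q))
    {Q : Place kB FtM} (hj : jFullC kB M ∈ Q.toValuationSubring)
    {P : Place Kb (Fb (M * q))} (hP : H.r P = ⟨0, Q⟩) :
    IntegralAt B (chartFin (M := M) (q := q)) P := by
  obtain ⟨c, hc⟩ := exists_isValueAt_res_zero_jx B hB hqM H hj
  exact integralAt_Rfin_of_r_eq_zero H hc hP

/-- the places of the tube of a finite point of the component `1` are integral on the finite
chart -/
theorem integralAt_chartFin_one (H : AtlasHyp (chartDataModular B hB hqM) (jx M q))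
    {Q : Place kB FtM} (hj : jFullC kB M ∈ Q.toValuationSubring)
    {P : Place Kb (Fb (M * q))} (hP : H.r P = ⟨1, Q⟩) :
    IntegralAt B (chartFin (M := M) (q := q)) P := by
  obtain ⟨c, hc⟩ := exists_isValueAt_res_one_jx B hB hqM H hj
  exact integralAt_Rfin_of_r_eq_one H hc hP

theorem ord_nonneg_of_mem_chartFin_zero (H : AtlasHyp (chartDataModular B hB hqM) (jx M q))
    {Q : Place kB FtM} (hj : jFullC kB M ∈ Q.toValuationSubring)
    {P : Place Kb (Fb (M * q))} (hP : H.r P = ⟨0, Q⟩) {y : Fb (M * q)}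
    (hy : y ∈ chartFin (M := M) (q := q)) : 0 ≤ P.ord y :=
  ord_nonneg_of_integralAt B (integralAt_chartFin_zero B hB hqM H hj hP) hy

theorem ord_nonneg_of_mem_chartFin_one (H : AtlasHyp (chartDataModular B hB hqM) (jx M q))
    {Q : Place kB FtM} (hj : jFullC kB M ∈ Q.toValuationSubring)
    {P : Place Kb (Fb (M * q))} (hP : H.r P = ⟨1, Q⟩) {y : Fb (M * q)}
    (hy : y ∈ chartFin (M := M) (q := q)) : 0 ≤ P.ord y :=
  ord_nonneg_of_integralAt B (integralAt_chartFin_one B hB hqM H hj hP) hy

theorem jx_eq_jBar : jx M q = jBar (M * q) :=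
  jx_eq_jOne.trans (Fermat.Agent.BR.Inst.TwoCompGlue.jOne_eq)

/-- **`hj` on the tube of a finite point of `can`.** -/
theorem ord_jBar_nonneg_zero (H : AtlasHyp (chartDataModular B hB hqM) (jx M q))
    {Q : Place kB FtM} (hj : jFullC kB M ∈ Q.toValuationSubring) :
    ∀ P ∈ {P | H.r P = ⟨0, Q⟩}, 0 ≤ P.ord (jBar (M * q)) := fun P hP => by
  rw [← jx_eq_jBar]
  exact ord_nonneg_of_mem_chartFin_zero B hB hqM H hj hP H.x_mem

/-- **`hj` on the tube of a finite point of `et`.** -/
theorem ord_jBar_nonneg_one (H : AtlasHyp (chartDataModular B hB hqM) (jx M q))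
    {Q : Place kB FtM} (hj : jFullC kB M ∈ Q.toValuationSubring) :
    ∀ P ∈ {P | H.r P = ⟨1, Q⟩}, 0 ≤ P.ord (jBar (M * q)) := fun P hP => by
  rw [← jx_eq_jBar]
  exact ord_nonneg_of_mem_chartFin_one B hB hqM H hj hP H.x_mem

/-- regularity of `j(s^q)` from regularity of `j` -/
theorem ord_jq'_nonneg_of_ord_jBar_nonneg (hqM : ¬ q ∣ M) {P : Place Kb (Fb (M * q))}
    (h : 0 ≤ P.ord (jBar (M * q))) : 0 ≤ P.ord (jq' M q) := by
  refine Fermat.Agent.X0.OrdDx.ord_nonneg_of_mem P (jq'_mem_of_jBar_mem hqM _ ?_)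
  by_cases h0 : jBar (M * q) = 0
  · rw [h0]; exact zero_mem _
  · exact Fermat.Agent.X0.OrdDx.mem_of_ord_nonneg P h0 h

/-- **`hjq'` on the tube of a finite point of `can`.** -/
theorem ord_jq'_nonneg_zero (H : AtlasHyp (chartDataModular B hB hqM) (jx M q))
    {Q : Place kB FtM} (hj : jFullC kB M ∈ Q.toValuationSubring) :
    ∀ P ∈ {P | H.r P = ⟨0, Q⟩}, 0 ≤ P.ord (jq' M q) := fun P hP =>
  ord_jq'_nonneg_of_ord_jBar_nonneg hqM (ord_jBar_nonneg_zero B hB hqM H hj P hP)

/-- **`hjq'` on the tube of a finite point of `et`.** -/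
theorem ord_jq'_nonneg_one (H : AtlasHyp (chartDataModular B hB hqM) (jx M q))
    {Q : Place kB FtM} (hj : jFullC kB M ∈ Q.toValuationSubring) :
    ∀ P ∈ {P | H.r P = ⟨1, Q⟩}, 0 ≤ P.ord (jq' M q) := fun P hP =>
  ord_jq'_nonneg_of_ord_jBar_nonneg hqM (ord_jBar_nonneg_one B hB hqM H hj P hP)

end Fermat.Agent.BR3.RegAtlas
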