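import Fermat.Agent.BR3.CuspSheet.MidCusp
import Fermat.Agent.BR3.CoverSheetMid
import Fermat.Agent.BR3.RegAtlasTube
import Fermat.Agent.BR3.CoverSheetInf.Deriv

/-!
# Program C, node (SC3) (iii): `hΨR` at the finite points of `can`

helper6's generator of the middle sheets at the finite points (`BR3/CoverSheetMid`):
`θ = thetaGen hqM T' x 1 z = β₂ T' · (β₂ (W_q x) - α₂ x) / (z - 1)` (`T' = TB' M q = q^12 / T`).

* `isIntegral_jqq`, `isIntegral_beta2_TB'` : `j(s^{q²})` and `β₂ T'` are integral over every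
  valuation subring `V` of `F₁` containing `j(s^q)` (modular equation, `ev2Z_TB'`);
* `isIntegral_thetaGen_TB'` : `θ` is integral over every `V` containing the constants, `j(s^q)`,
  `x`, as soon as `β₂ (W_q x)` is integral over `V`; `isIntegral_thetaGen_TB'_jBar` : `x = j`;
* `hΨR_thetaGen_of_tube` : `hΨR` of `CoverSheetMid.exists_coverSheet_mid_TB'` for any smooth chart
  of `can` (through `CuspSheet.minpoly_coeff_mem_chart`);
* **`hΨR_thetaGen_fin`** : `hΨR` for `x = j` and the ring of `RegAtlas.regChartCan` at every finite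
  non-crossing point of `can`;
* **`exists_coverSheet_mid_TB'_jBar_chart`** : `exists_coverSheet_mid_TB'` with `hΨR`, `hlift`
  (helper4's `hlift_regChartCan`) discharged.
-/

set_option autoImplicit false
set_option linter.style.haveILetI false
set_option linter.unusedSectionVars false

noncomputable section

/- S36 build-time patch: file-local shortcut instances. They only shorten instance search;
each is the instance that the search finds anyway (reducible, same terms after unfolding). -/
local instance (priority := 100000) Fermat.Agent.BR3.FastInst.instAlgFullC_CoverSheetMidReg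
    {k : Type*} [Field k] (N : ℕ) :
    Algebra k ↥(ModularCurve.modularFunctionFieldFullC k N) := inferInstance
local instance (priority := 100000) Fermat.Agent.BR3.FastInst.instFieldFullC_CoverSheetMidReg
    {k : Type*} [Field k] (N : ℕ) :
    Field ↥(ModularCurve.modularFunctionFieldFullC k N) := inferInstance
local instance (priority := 100000) Fermat.Agent.BR3.FastInst.instAlgLaurent_CoverSheetMidReg
    {k : Type*} [Field k] : Algebra k (LaurentSeries k) := inferInstance


set_option synthInstance.maxHeartbeats 400000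

namespace Fermat.Agent.BR3.CoverSheetMidReg

open ModularCurve AlgebraicCurve IsLocalRing Polynomial
open Fermat.Agent.X0 Fermat.Agent.Val Fermat.Agent.Red Fermat.Agent.BR.Centre
open Fermat.Agent.Hecke.AL Fermat.Agent.BR.TwoVal Fermat.Agent.BR.TwoValInst
open Fermat.Agent.BR.ConstRedTwo Fermat.Agent.BR.ResGen Fermat.Agent.BR.S0
open Fermat.Agent.BR3.CoverK Fermat.Agent.BR3.FibreProd Fermat.Agent.BR3.CInfRes
open Fermat.Agent.BR.Kron Fermat.Agent.BR.ModUnit Fermat.Agent.BR3.CuspSheet
open Fermat.Agent.BR3.CoverSheetMid Fermat.Agent.BR3.CoverSheetInf Fermat.Agent.BR3.IgSq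

variable {M q : ℕ} [NeZero M] [hq : Fact q.Prime]

/-! ### Integrality over a valuation subring of `F₁` containing `j(s^q)` -/

section Integral

variable (hqM : ¬ q ∣ M)

/-- the value at an element of a valuation subring of an integral polynomial -/
theorem aeval_int_mem {F : Type*} [Field F] (V : ValuationSubring F) {x : F} (hx : x ∈ V)
    (p : ℤ[X]) : aeval x p ∈ V := by
  rw [aeval_eq_sum_range]
  refine sum_mem fun i _ => ?_
  rw [zsmul_eq_mul]
  exact V.mul_mem _ _ (intCast_mem V _) (pow_mem hx i)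

/-- `j(s^{q²})` is integral over every valuation subring of `F₁` containing `j(s^q)` -/
theorem isIntegral_jqq (V : ValuationSubring (Fb (M * q))) (hjq' : jq' M q ∈ V) :
    letI := algebraAlong (alpha2 M q)
    letI : Algebra V (Fb (M * q * q)) :=
      ((algebraMap (Fb (M * q)) (Fb (M * q * q))).comp V.subtype).toAlgebra
    IsIntegral V (jqq M q) := by
  letI := algebraAlong (alpha2 M q)
  refine isIntegral_of_aeval_eq_zero V PhiAt_monic (fun n => ?_) ?_
  · rw [PhiAt_coeff]
    exact aeval_int_mem V hjq' _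
  · rw [Polynomial.aeval_def, Polynomial.eval₂_eq_eval_map]
    exact PhiAt_map_alpha2_eval_jqq

/-- `β₂ T'` is integral over every valuation subring of `F₁` containing `j(s^q)` -/
theorem isIntegral_beta2_TB' (V : ValuationSubring (Fb (M * q))) (hjq' : jq' M q ∈ V) :
    letI := algebraAlong (alpha2 M q)
    letI : Algebra V (Fb (M * q * q)) :=
      ((algebraMap (Fb (M * q)) (Fb (M * q * q))).comp V.subtype).toAlgebra
    IsIntegral V (beta2 M q (TB' M q)) := by
  letI := algebraAlong (alpha2 M q)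
  letI : Algebra V (Fb (M * q * q)) :=
    ((algebraMap (Fb (M * q)) (Fb (M * q * q))).comp V.subtype).toAlgebra
  refine isIntegral_of_ev2Z_algebraMap (j := (⟨jq' M q, hjq'⟩ : V)) (TKinvPoly_monic q) ?_
  have h := congrArg (beta2 M q : Fb (M * q) →+* Fb (M * q * q)) (ev2Z_TB' M q)
  rw [map_zero, map_ev2Z (beta2 M q : Fb (M * q) →+* Fb (M * q * q)), jF, ← jBar_eq_jBarD_one]
    at h
  have e : (beta2 M q : Fb (M * q) →+* Fb (M * q * q)) (jBar (M * q)) =
      alpha2 M q (jq' M q) := beta2_jBar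
  rw [e] at h
  exact h

/-- **helper6's generator of the middle sheets at the finite points is integral over every
valuation subring `V` of `F₁` containing the constants, `j(s^q)` and `x`, as soon as
`β₂ (W_q x)` is integral over `V`** -/
theorem isIntegral_thetaGen_TB' (V : ValuationSubring (Fb (M * q)))
    (hK : ∀ c : Kb, algebraMap Kb (Fb (M * q)) c ∈ V) (hjq' : jq' M q ∈ V)
    {x : Fb (M * q)} (hx : x ∈ V)
    (hβx : letI := algebraAlong (alpha2 M q)
      letI : Algebra V (Fb (M * q * q)) :=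
        ((algebraMap (Fb (M * q)) (Fb (M * q * q))).comp V.subtype).toAlgebra
      IsIntegral V (beta2 M q (Wq hqM x))) (z : Kb) :
    letI := algebraAlong (alpha2 M q)
    letI : Algebra V (Fb (M * q * q)) :=
      ((algebraMap (Fb (M * q)) (Fb (M * q * q))).comp V.subtype).toAlgebra
    IsIntegral V (thetaGen hqM (TB' M q) x 1 z) := by
  letI := algebraAlong (alpha2 M q)
  letI : Algebra V (Fb (M * q * q)) :=
    ((algebraMap (Fb (M * q)) (Fb (M * q * q))).comp V.subtype).toAlgebra
  have hα : ∀ y ∈ V, IsIntegral V (alpha2 M q y) := fun y hy =>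
    isIntegral_algebraMap (R := V) (A := Fb (M * q * q)) (x := ⟨y, hy⟩)
  unfold thetaGen UxTilde Ux
  refine ((isIntegral_beta2_TB' V hjq').mul ((hβx.sub (hα _ hx)).mul ?_)).mul ?_
  · have e : algebraMap Kb (Fb (M * q * q)) (z - 1)⁻¹ =
        alpha2 M q (algebraMap Kb (Fb (M * q)) (z - 1)⁻¹) := ((alpha2 M q).commutes _).symm
    rw [e]
    exact hα _ (hK _)
  · rw [inv_one, map_one]
    exact isIntegral_one

/-- the case `x = j` -/
theorem isIntegral_thetaGen_TB'_jBar (V : ValuationSubring (Fb (M * q)))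
    (hK : ∀ c : Kb, algebraMap Kb (Fb (M * q)) c ∈ V) (hj : jBar (M * q) ∈ V)
    (hjq' : jq' M q ∈ V) (z : Kb) :
    letI := algebraAlong (alpha2 M q)
    letI : Algebra V (Fb (M * q * q)) :=
      ((algebraMap (Fb (M * q)) (Fb (M * q * q))).comp V.subtype).toAlgebra
    IsIntegral V (thetaGen hqM (TB' M q) (jBar (M * q)) 1 z) := by
  letI := algebraAlong (alpha2 M q)
  refine isIntegral_thetaGen_TB' hqM V hK hjq' hj ?_ z
  rw [Wq_jBar', beta2_jq']
  exact isIntegral_jqq V hjq'

end Integral


/-! ### `hΨR` at the finite points of `can` -/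

section Chart

variable (B : ValuationSubring (AlgebraicClosure ℚ)) (hB : B.LiesOverPrime q) (hqM : ¬ q ∣ M)
variable {ζ : Kbˣ} (hζ : IsPrimitiveRoot ζ q) {b : ℕ} (hb : b < q - 1)

local notation "kB" => IsLocalRing.ResidueField B
local notation "FtM" => modularFunctionFieldFullC (IsLocalRing.ResidueField B) M

open Fermat.Agent.BR3.RegAtlas Fermat.Agent.BR.S0.RedHyp Fermat.Agent.BR.S0.RedModular
  Fermat.Agent.BR.S0.PointDict Fermat.Agent.BR.Inst.SmoothModularAll
  Fermat.Agent.BR.Inst.CkPointModular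

include hζ hb in
set_option maxHeartbeats 1600000 in
/-- **`hΨR` for a smooth chart of `can`, generic `x`**: the coefficients of `Ψ_θ`,
`θ = thetaGen hqM T' x 1 z`, lie in the chart ring as soon as `j(s^q)`, `x` are regular on the tube
and `β₂ (W_q x)` is integral over the valuation ring of every place of the tube. -/
theorem hΨR_thetaGen_of_tube {Q' : Place kB FtM} {T' : Set (Place Kb (Fb (M * q)))}
    (C : SmoothChart B (constRedW1 B hB hqM).O (constRedW1 B hB hqM).res Q' T')
    {x : Fb (M * q)} (hx1 : x ∈ O1 M B hB) (hx2 : x ∈ O2 B hB hqM)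
    (hjq' : ∀ P ∈ T', jq' M q ∈ P.toValuationSubring)
    (hxT : ∀ P ∈ T', x ∈ P.toValuationSubring)
    (hβx : ∀ P ∈ T',
      letI := algebraAlong (alpha2 M q)
      letI : Algebra P.toValuationSubring (Fb (M * q * q)) :=
        ((algebraMap (Fb (M * q)) (Fb (M * q * q))).comp P.toValuationSubring.subtype).toAlgebra
      IsIntegral P.toValuationSubring (beta2 M q (Wq hqM x))) (n : ℕ) :
    (PsiOf M q (thetaGen hqM (TB' M q) x 1 ((ζ ^ (b + 1) : Kbˣ) : Kb))).coeff n ∈ C.R := by
  letI := algebraAlong (alpha2 M q)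
  have hh : (1 : Fb (M * q))⁻¹ ∈ O1 M B hB := by
    rw [inv_one]
    exact (O1 M B hB).one_mem
  have hr2 := TB'_mem_O2 M q B hB hqM
  have hr1 := TB'_mul_mem_nonunits_O1 (M := M) B hB hζ hb
  have h1 : thetaGen hqM (TB' M q) x 1 ((ζ ^ (b + 1) : Kbˣ) : Kb) ∈ w1 M B hB :=
    Fermat.Agent.Val.mem_of_mem_nonunits _
      (thetaGen_mem_nonunits_w1 hqM B hB hr1 hx1 hx2 hh)
  have h2 : ∀ b' : Fin (q - 1), thetaGen hqM (TB' M q) x 1 ((ζ ^ (b + 1) : Kbˣ) : Kb) ∈
      w2 B hB hqM hζ b'.2 := by
    intro b'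
    obtain ⟨m, hm⟩ := exists_zeta_pow_eq hζ hb b'.2
    exact (exists_resw2_thetaGen hqM B hB hζ (b := b) hr2 hx1 hh b'.2 m hm).1
  show (minpoly (Fb (M * q)) (thetaGen hqM (TB' M q) x 1 ((ζ ^ (b + 1) : Kbˣ) : Kb))).coeff n ∈ C.R
  exact minpoly_coeff_mem_chart B hB hqM hζ C h1 h2
    (fun P hP => isIntegral_thetaGen_TB' hqM P.toValuationSubring P.algebraMap_mem'
      (hjq' P hP) (hxT P hP) (hβx P hP) _) n

include hζ hb in
set_option maxHeartbeats 1600000 in
/-- **(SC3 (iii)) `hΨR` at the finite points of `can`, `x = j`**: the coefficients of the minimal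
polynomial of helper6's generator `thetaGen hqM T' j 1 (ζ^{b+1})` lie in the ring of the regular
chart `regChartCan` at every finite non-crossing point `Q'` of `can`. -/
theorem hΨR_thetaGen_fin (H : AtlasHyp (chartDataModular B hB hqM) (jx M q))
    (Q' : Place kB FtM) (hQnc : ∀ e, Q' ≠ z₁ (chartDataModular B hB hqM) e)
    (hfin : jFullC kB M ∈ Q'.toValuationSubring) (n : ℕ) :
    (PsiOf M q (thetaGen hqM (TB' M q) (jBar (M * q)) 1 ((ζ ^ (b + 1) : Kbˣ) : Kb))).coeff n ∈
      (regChartCan B hB hqM H Q' hQnc).chart.R := by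
  letI := algebraAlong (alpha2 M q)
  have hjT : ∀ P ∈ {P | H.r P = ⟨0, Q'⟩}, jBar (M * q) ∈ P.toValuationSubring := fun P hP =>
    (Place.mem_iff_ord_nonneg P).2 (ord_jBar_nonneg_zero B hB hqM H hfin P hP)
  have hjq'T : ∀ P ∈ {P | H.r P = ⟨0, Q'⟩}, jq' M q ∈ P.toValuationSubring := fun P hP =>
    (Place.mem_iff_ord_nonneg P).2 (ord_jq'_nonneg_zero B hB hqM H hfin P hP)
  refine hΨR_thetaGen_of_tube B hB hqM hζ hb (regChartCan B hB hqM H Q' hQnc).chart
    (jBar_mem_O1 B hB) (Fermat.Agent.BR3.CZeroSheet.jBar_mem_O2 B hB hqM) hjq'T hjT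
    (fun P hP => ?_) n
  rw [Wq_jBar', beta2_jq']
  exact isIntegral_jqq P.toValuationSubring (hjq'T P hP)

include hB in
set_option maxHeartbeats 2000000 in
/-- **(SC3) the middle sheets over the finite points of `can`, `x = j`, for the ring of the regular
chart `regChartCan`**: helper6's `exists_coverSheet_mid_TB'` with `hΨR` (`hΨR_thetaGen_fin`) and
`hlift` (helper4's `hlift_regChartCan`) discharged; what remains is the special-fibre input
(`ϑ = T̄ · θ j̃` has the nonzero value `ū` at `Q''`, `Q''` unramified over `Q'`). -/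
theorem exists_coverSheet_mid_TB'_jBar_chart
    (H : AtlasHyp (chartDataModular B hB hqM) (jx M q))
    (Q' : Place kB FtM) (hQnc : ∀ e, Q' ≠ z₁ (chartDataModular B hB hqM) e)
    (hfin : jFullC kB M ∈ Q'.toValuationSubring)
    (ϑ : FMid M B)
    (hϑ : (ϑ : LaurentSeries kB) =
      TK kB q * thetaL kB (res1 M B hB ⟨jBar (M * q), jBar_mem_O1 B hB⟩))
    (Q'' : Place kB (FMid M B))
    (ord_map : ∀ f : FtM, Q''.ord (algebraMap FtM (FMid M B) f) = Q'.ord f)
    (u : B) (hu : IsValueAt Q'' ϑ (IsLocalRing.residue B u))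
    (hu0 : IsLocalRing.residue B u ≠ 0) :
    letI := algebraAlong (alpha2 M q)
    haveI := isScalarTower_along (alpha2 M q)
    ∃ ψ ψc : (Fb (M * q))[X],
      CoverSheet B (IsLocalRing.residue B) (constRedW1 B hB hqM).O (constRedW1 B hB hqM).res Q'
        (constRedMid B hB hqM hζ hb).O (constRedMid B hB hqM hζ hb).res Q''
        (regChartCan B hB hqM H Q' hQnc).chart.R
        (thetaGen hqM (TB' M q) (jBar (M * q)) 1 ((ζ ^ (b + 1) : Kbˣ) : Kb))
        (PsiOf M q (thetaGen hqM (TB' M q) (jBar (M * q)) 1 ((ζ ^ (b + 1) : Kbˣ) : Kb)))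
        ψ ψc u ∧
      ψ.natDegree = (minpoly FtM ϑ).natDegree :=
  exists_coverSheet_mid_TB' B hB hqM hζ hb (jBar_mem_O1 B hB)
    (Fermat.Agent.BR3.CZeroSheet.jBar_mem_O2 B hB hqM) ϑ hϑ Q' Q'' ord_map u hu hu0
    (regChartCan B hB hqM H Q' hQnc).chart.R (regChartCan B hB hqM H Q' hQnc).chart.le
    (hΨR_thetaGen_fin B hB hqM hζ hb H Q' hQnc hfin)
    (Fermat.Agent.BR3.RegBase.hlift_regChartCan B hB hqM H Q' hQnc)

end Chart

end Fermat.Agent.BR3.CoverSheetMidReg
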