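import Mathlib
import Fermat.Agent.BR3.CoverK.Defs
import Fermat.Prelude.Def_AlgebraicCurve_Correspondence

/-!
# Program C, node SC6 (MIRROR): transporting the hypotheses of a cover sheet through a pair of
involutions

`φa φb : F' → F''` two embeddings, `σ₁` an involution of `F'`, `σ₂` an involution of `F''` with
`σ₂ ∘ φa = φb ∘ σ₁` (modular case: `φa = α₂`, `φb = β₂`, `σ₁ = W_q`, `σ₂ = W_{q²}`).  A
`CoverK.CoverSheet` along `φa` for `(O'a, res'a, Q', O''a, res''a, Q'', R', θ, Ψ, ψ, ψc, u)` gives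
the `CoverSheet` along `φb` for `(O'b, res'b, Q', O''b, res''b, Q'', σ₁ R', σ₂ θ, σ₁ Ψ, σ₁ ψ,
σ₁ ψc, u)` as soon as `O'b = σ₁⁻¹ O'a`, `res'b = res'a ∘ σ₁`, `O''b = σ₂⁻¹ O''a`,
`res''b = res''a ∘ σ₂` (element form).  Only the *hypothesis structure* is transported; the
abstract lifting theorem is then re-run along `φb`.
-/

set_option autoImplicit false
set_option linter.style.haveILetI false
set_option linter.unusedSectionVars false

noncomputable section

namespace Fermat.Agent.BR3.CoverSheetMirror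

open AlgebraicCurve Polynomial Fermat.Agent.BR3.CoverK

variable {K k : Type*} [Field K] [Field k]
  {F' : Type*} [Field F'] [Algebra K F'] {Ft' : Type*} [Field Ft'] [Algebra k Ft']
  {F'' : Type*} [Field F''] [Algebra K F'']
  {Ft'' : Type*} [Field Ft''] [Algebra k Ft''] [Algebra Ft' Ft''] [IsScalarTower k Ft' Ft'']

/-! ### generic transport lemmas -/

section Transport

variable {E : Type*} [Field E]

/-- nonunits of `Ob = σ⁻¹(Oa)` -/
theorem mem_nonunits_iff_of_map {Oa Ob : ValuationSubring E} (σ : E →+* E)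
    (hO : ∀ x, x ∈ Ob ↔ σ x ∈ Oa) (x : E) : x ∈ Ob.nonunits ↔ σ x ∈ Oa.nonunits := by
  rw [ValuationSubring.mem_nonunits_iff_or, ValuationSubring.mem_nonunits_iff_or, hO, map_inv₀,
    map_eq_zero]

end Transport

/-- `aeval` for the algebra structure along `φ` -/
theorem aeval_along (φ : F' →ₐ[K] F'') (θ : F'') (p : F'[X]) :
    letI := algebraAlong φ
    aeval θ p = p.eval₂ (φ : F' →+* F'') θ := by
  letI := algebraAlong φ
  rw [aeval_def]
  rfl

/-- the key identity: `(σ₁ p)(σ₂ θ)` along `φb` is `σ₂ (p(θ))` along `φa` -/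
theorem eval₂_map_mirror (φa φb : F' →ₐ[K] F'') (σ₁ : F' ≃ₐ[K] F') (σ₂ : F'' ≃ₐ[K] F'')
    (hσ : ∀ x, σ₂ (φa x) = φb (σ₁ x)) (θ : F'') (p : F'[X]) :
    (p.map (σ₁ : F' →+* F')).eval₂ (φb : F' →+* F'') (σ₂ θ) =
      σ₂ (p.eval₂ (φa : F' →+* F'') θ) := by
  have h1 : σ₂ (p.eval₂ (φa : F' →+* F'') θ) =
      p.eval₂ ((σ₂ : F'' →+* F'').comp (φa : F' →+* F'')) (σ₂ θ) :=
    Polynomial.hom_eval₂ p (φa : F' →+* F'') (σ₂ : F'' →+* F'') θ
  rw [Polynomial.eval₂_map, h1]
  congr 1
  ext x
  exact (hσ x).symm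

/-- **The mirror of a cover sheet.** -/
theorem coverSheet_mirror
    (φa φb : F' →ₐ[K] F'') (σ₁ : F' ≃ₐ[K] F') (σ₂ : F'' ≃ₐ[K] F'')
    (h₁ : ∀ x, σ₁ (σ₁ x) = x) (h₂ : ∀ x, σ₂ (σ₂ x) = x)
    (hσ : ∀ x, σ₂ (φa x) = φb (σ₁ x))
    {A : ValuationSubring K} {π : A →+* k}
    {O'a O'b : ValuationSubring F'} {res'a : O'a →+* Ft'} {res'b : O'b →+* Ft'}
    (hO' : ∀ x, x ∈ O'b ↔ σ₁ x ∈ O'a)
    (hres' : ∀ (x : F') (hx : x ∈ O'b) (hx' : σ₁ x ∈ O'a), res'b ⟨x, hx⟩ = res'a ⟨σ₁ x, hx'⟩)
    {Q' : Place k Ft'}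
    {O''a O''b : ValuationSubring F''} {res''a : O''a →+* Ft''} {res''b : O''b →+* Ft''}
    (hO'' : ∀ x, x ∈ O''b ↔ σ₂ x ∈ O''a)
    (hres'' : ∀ (x : F'') (hx : x ∈ O''b) (hx' : σ₂ x ∈ O''a),
      res''b ⟨x, hx⟩ = res''a ⟨σ₂ x, hx'⟩)
    {Q'' : Place k Ft''} {R' : Subring F'} {θ : F''} {Ψ ψ ψc : F'[X]} {u : A}
    (H : letI := algebraAlong φa; haveI := isScalarTower_along φa
      CoverSheet A π O'a res'a Q' O''a res''a Q'' R' θ Ψ ψ ψc u) :
    letI := algebraAlong φb; haveI := isScalarTower_along φb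
    CoverSheet A π O'b res'b Q' O''b res''b Q'' (R'.map (σ₁ : F' →+* F')) (σ₂ θ)
      (Ψ.map (σ₁ : F' →+* F')) (ψ.map (σ₁ : F' →+* F')) (ψc.map (σ₁ : F' →+* F')) u := by
  -- the identity in the other direction
  have hσ' : ∀ x, σ₂ (φb x) = φa (σ₁ x) := by
    intro x
    have := hσ (σ₁ x)
    rw [h₁] at this
    rw [← this, h₂]
  have hθb : σ₂ θ ∈ O''b := by
    letI := algebraAlong φa
    haveI := isScalarTower_along φa
    rw [hO'', h₂]
    exact H.θ_mem
  -- evaluation along `φb` of a mirrored polynomial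
  have hev : ∀ p : F'[X],
      (letI := algebraAlong φb; aeval (σ₂ θ) (p.map (σ₁ : F' →+* F'))) =
        σ₂ (letI := algebraAlong φa; aeval θ p) := by
    intro p
    rw [aeval_along φb, aeval_along φa]
    exact eval₂_map_mirror φa φb σ₁ σ₂ hσ θ p
  -- residues of mirrored evaluations
  have hresev : ∀ (p : F'[X])
      (h : (letI := algebraAlong φb; aeval (σ₂ θ) (p.map (σ₁ : F' →+* F'))) ∈ O''b)
      (h' : (letI := algebraAlong φa; aeval θ p) ∈ O''a),
      res''b ⟨(letI := algebraAlong φb; aeval (σ₂ θ) (p.map (σ₁ : F' →+* F'))), h⟩ =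
        res''a ⟨(letI := algebraAlong φa; aeval θ p), h'⟩ := by
    intro p h h'
    have h2 : σ₂ (letI := algebraAlong φb; aeval (σ₂ θ) (p.map (σ₁ : F' →+* F'))) ∈ O''a := by
      rw [hev p, h₂]
      exact h'
    rw [hres'' _ h h2]
    congr 1
    apply Subtype.ext
    show σ₂ _ = _
    rw [hev p, h₂]
  have hmemev : ∀ p : F'[X],
      (letI := algebraAlong φb; aeval (σ₂ θ) (p.map (σ₁ : F' →+* F'))) ∈ O''b ↔
        (letI := algebraAlong φa; aeval θ p) ∈ O''a := by
    intro p
    rw [hO'', hev p, h₂]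
  have hresθ : res''b ⟨σ₂ θ, hθb⟩ =
      res''a ⟨θ, (letI := algebraAlong φa; haveI := isScalarTower_along φa; H.θ_mem)⟩ := by
    have h2 : σ₂ (σ₂ θ) ∈ O''a := by
      rw [h₂]
      letI := algebraAlong φa
      haveI := isScalarTower_along φa
      exact H.θ_mem
    rw [hres'' _ hθb h2]
    congr 1
    exact Subtype.ext (h₂ θ)
  have hinj : Function.Injective (σ₁ : F' →+* F') := σ₁.injective
  letI instB := algebraAlong φb
  haveI := isScalarTower_along φb
  refine
    { comap_eq := ?_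
      res_map := ?_
      res_eq_zero_iff := ?_
      ord_map := ?_
      θ_mem := hθb
      monic := ?_
      irreducible := ?_
      coeff_mem := ?_
      root := ?_
      gen := ?_
      value := ?_
      simple := ?_
      ψ_monic := ?_
      ψc_monic := ?_
      ψ_coeff_mem := ?_
      ψc_coeff_mem := ?_
      factor := ?_
      ψc_unit := ?_
      indep := ?_ }
  · -- comap_eq
    ext x
    rw [ValuationSubring.mem_comap, hO', hO'']
    show σ₂ (φb x) ∈ O''a ↔ _
    rw [hσ']
    have hc := (letI := algebraAlong φa; haveI := isScalarTower_along φa; H.comap_eq)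
    rw [← hc, ValuationSubring.mem_comap]
    rfl
  · -- res_map
    intro y hy hy'
    have hy1 : σ₁ y ∈ O'a := (hO' y).1 hy
    have hy2 : σ₂ (φb y) ∈ O''a := (hO'' _).1 hy'
    have hy3 : φa (σ₁ y) ∈ O''a := by rw [← hσ']; exact hy2
    have hr := (letI := algebraAlong φa; haveI := isScalarTower_along φa;
      H.res_map (σ₁ y) hy1 hy3)
    rw [hres' y hy hy1, ← hr]
    refine (hres'' _ hy' hy2).trans ?_
    congr 1
    exact Subtype.ext (hσ' y)
  · -- res_eq_zero_iff
    intro x
    have hx : σ₂ (x : F'') ∈ O''a := (hO'' _).1 x.2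
    have hr := (letI := algebraAlong φa; haveI := isScalarTower_along φa;
      H.res_eq_zero_iff ⟨σ₂ (x : F''), hx⟩)
    rw [mem_nonunits_iff_of_map (σ₂ : F'' →+* F'') hO'']
    have : res''b x = res''a ⟨σ₂ (x : F''), hx⟩ := hres'' _ x.2 hx
    rw [this]
    exact hr
  · -- ord_map
    exact (letI := algebraAlong φa; haveI := isScalarTower_along φa; H.ord_map)
  · -- monic
    exact (letI := algebraAlong φa; haveI := isScalarTower_along φa; H.monic).map _
  · -- irreducible
    have hirr := (letI := algebraAlong φa; haveI := isScalarTower_along φa; H.irreducible)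
    have := (MulEquiv.irreducible_iff (Polynomial.mapEquiv (σ₁ : F' ≃+* F'))).2 hirr
    exact this
  · -- coeff_mem
    intro n
    rw [Polynomial.coeff_map]
    exact Subring.mem_map.2 ⟨_, (letI := algebraAlong φa; haveI := isScalarTower_along φa;
      H.coeff_mem n), rfl⟩
  · -- root
    have hroot := (letI := algebraAlong φa; haveI := isScalarTower_along φa; H.root)
    rw [hev Ψ, hroot, map_zero]
  · -- gen
    intro y
    obtain ⟨p, hp⟩ := (letI := algebraAlong φa; haveI := isScalarTower_along φa; H.gen (σ₂ y))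
    refine ⟨p.map (σ₁ : F' →+* F'), ?_⟩
    rw [hev p, hp, h₂]
  · -- value
    rw [hresθ]
    exact (letI := algebraAlong φa; haveI := isScalarTower_along φa; H.value)
  · -- simple
    rw [Polynomial.derivative_map]
    intro h
    have h' := (hmemev (derivative Ψ)).1 h
    rw [hresev (derivative Ψ) h h']
    exact (letI := algebraAlong φa; haveI := isScalarTower_along φa; H.simple h')
  · exact (letI := algebraAlong φa; haveI := isScalarTower_along φa; H.ψ_monic).map _
  · exact (letI := algebraAlong φa; haveI := isScalarTower_along φa; H.ψc_monic).map _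
  · intro n
    rw [Polynomial.coeff_map]
    exact Subring.mem_map.2 ⟨_, (letI := algebraAlong φa; haveI := isScalarTower_along φa;
      H.ψ_coeff_mem n), rfl⟩
  · intro n
    rw [Polynomial.coeff_map]
    exact Subring.mem_map.2 ⟨_, (letI := algebraAlong φa; haveI := isScalarTower_along φa;
      H.ψc_coeff_mem n), rfl⟩
  · -- factor
    intro n
    rw [← Polynomial.map_mul, ← Polynomial.map_sub, Polynomial.coeff_map,
      mem_nonunits_iff_of_map (σ₁ : F' →+* F') hO']
    show σ₁ (σ₁ _) ∈ _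
    rw [h₁]
    exact (letI := algebraAlong φa; haveI := isScalarTower_along φa; H.factor n)
  · -- ψc_unit
    intro h
    have h' := (hmemev ψc).1 h
    rw [hresev ψc h h']
    exact (letI := algebraAlong φa; haveI := isScalarTower_along φa; H.ψc_unit h')
  · -- indep
    intro c hc
    have hdeg : (ψ.map (σ₁ : F' →+* F')).natDegree = ψ.natDegree :=
      Polynomial.natDegree_map_eq_of_injective hinj ψ
    have hI := (letI := algebraAlong φa; haveI := isScalarTower_along φa; H.indep)
      (fun l => c (Fin.cast hdeg.symm l)) (by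
        rw [← hresθ, ← hc]
        exact Fintype.sum_equiv (finCongr hdeg.symm) _ _ (fun l => rfl))
    funext l
    have := congrFun hI (Fin.cast hdeg l)
    simpa using this

end Fermat.Agent.BR3.CoverSheetMirror
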