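import Mathlib
import Fermat.Agent.BR3.CoverK.Defs

/-!
# Program C, node SC6 (MIRROR): a cover sheet is monotone in the coefficient ring

`CoverK.CoverSheet … R' …` uses the subring `R'` only through the membership of the coefficients of
`Ψ, ψ, ψc`; hence it can be proved once for a small explicit ring `R₀` (stable under the
Atkin–Lehner involution) and then enlarged to the chart ring of any regular chart containing `R₀`.
-/

set_option autoImplicit false

namespace Fermat.Agent.BR3.CoverSheetMono

open AlgebraicCurve Polynomial Fermat.Agent.BR3.CoverK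

variable {K k : Type*} [Field K] [Field k]
  {F' : Type*} [Field F'] [Algebra K F'] {Ft' : Type*} [Field Ft'] [Algebra k Ft']
  {F'' : Type*} [Field F''] [Algebra K F''] [Algebra F' F''] [IsScalarTower K F' F'']
  {Ft'' : Type*} [Field Ft''] [Algebra k Ft''] [Algebra Ft' Ft''] [IsScalarTower k Ft' Ft'']

/-- **A cover sheet is monotone in the coefficient ring.** -/
theorem coverSheet_mono {A : ValuationSubring K} {π : A →+* k} {O' : ValuationSubring F'}
    {res' : O' →+* Ft'} {Q' : Place k Ft'} {O'' : ValuationSubring F''} {res'' : O'' →+* Ft''}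
    {Q'' : Place k Ft''} {R₀ R' : Subring F'} (hR : R₀ ≤ R') {θ : F''} {Ψ ψ ψc : F'[X]} {u : A}
    (H : CoverSheet A π O' res' Q' O'' res'' Q'' R₀ θ Ψ ψ ψc u) :
    CoverSheet A π O' res' Q' O'' res'' Q'' R' θ Ψ ψ ψc u where
  comap_eq := H.comap_eq
  res_map := H.res_map
  res_eq_zero_iff := H.res_eq_zero_iff
  ord_map := H.ord_map
  θ_mem := H.θ_mem
  monic := H.monic
  irreducible := H.irreducible
  coeff_mem := fun n => hR (H.coeff_mem n)
  root := H.root
  gen := H.gen
  value := H.value
  simple := H.simple
  ψ_monic := H.ψ_monic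
  ψc_monic := H.ψc_monic
  ψ_coeff_mem := fun n => hR (H.ψ_coeff_mem n)
  ψc_coeff_mem := fun n => hR (H.ψc_coeff_mem n)
  factor := H.factor
  ψc_unit := H.ψc_unit
  indep := H.indep

end Fermat.Agent.BR3.CoverSheetMono
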