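import Mathlib
import Fermat.Agent.BR3.CoverSmooth.Vert
import Fermat.Agent.BR3.CoverSmooth.Tube

/-!
# Program C, node A6 (COVER-SMOOTH), part A6-MODEL: lifting a smooth model along a cover

`smoothModel_cover` : let `C' ⊆ F'` be a global normal model with a smooth point `(O', res', Q)`,
tube `T'`, parameter `t` and uniformiser `ϖ` (`M' : SmoothModel A π O' res' Q T' t C' ϖ`), and let
`H : CoverPoint A π O' res' Q O'' res'' Q'' C' C'' U Ψ c₀` be the data of a cover at a point over
it: `C'' ⊆ F''` noetherian and integrally closed inside the component `O''` over `O'`, a generator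
`U ∈ C''`, root of a monic `Ψ ∈ C'[X]` with `Ψ'(U) · C'' ⊆ C'[U]`, whose reduction takes at the
point `Q''` over `Q` the rational value `π c₀`, a simple root (`Ψ'(U)` does not vanish at `Q''`).
Then `C''` is a global normal model with the smooth point `(O'', res'', Q'')`, the **same**
parameter `t` and uniformiser `ϖ`, and tube
`coverTube A T' U c₀ = {P'' | P''|_{F'} ∈ T', U(P'') ≡ c₀}`.

The local ring `SmoothModel.loc` of the result is then a `SmoothLevel` by `SmoothModel.level`
(`BR/S0/SmoothModel`), and the family of such levels gives the `SmoothChart` of the cover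
(`BR/S0/SmoothModelFamily`).
-/

set_option autoImplicit false
set_option linter.unusedSectionVars false

namespace Fermat.Agent.BR3.CoverSmooth

open AlgebraicCurve IsLocalRing Polynomial Fermat.Agent.Red Fermat.Agent.X0 Fermat.Agent.BR
  Fermat.Agent.BR.Centre Fermat.Agent.BR.S0

variable {K F' F'' k : Type*} [Field K] [Field F'] [Field F''] [Algebra K F'] [Algebra K F'']
  [Algebra F' F''] [IsScalarTower K F' F''] [Algebra.IsIntegral F' F''] [Field k]
  {Ft' Ft'' : Type*} [Field Ft'] [Field Ft''] [Algebra k Ft'] [Algebra k Ft'']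
  [Algebra Ft' Ft''] [IsScalarTower k Ft' Ft'']
  {A : ValuationSubring K} {π : A →+* k}
  {O' : ValuationSubring F'} {res' : O' →+* Ft'} {Q : Place k Ft'} {T' : Set (Place K F')}
  {t : F'} {C' : Subring F'} {ϖ : K}
  {O'' : ValuationSubring F''} {res'' : O'' →+* Ft''} {Q'' : Place k Ft''}
  {C'' : Subring F''} {U : F''} {Ψ : Polynomial C'} {c₀ : A}

/-- **A6-MODEL: a smooth model lifts along a cover at a point where the generator of the cover
reduces to a rational simple root.** -/
theorem smoothModel_cover (M' : SmoothModel A π O' res' Q T' t C' ϖ)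
    (H : CoverPoint A π O' res' Q O'' res'' Q'' C' C'' U Ψ c₀)
    (hres : ∀ (a : K) (ha : a ∈ A) (h : algebraMap K F' a ∈ O'),
      res' ⟨algebraMap K F' a, h⟩ = algebraMap k Ft' (π ⟨a, ha⟩))
    (hres0 : ∀ x : O', res' x = 0 ↔ (x : F') ∈ O'.nonunits)
    (hres0'' : ∀ x : O'', (x : F'') ∈ O''.nonunits → res'' x = 0)
    (hπ : ∀ a : A, π a ≠ 0 → (a : K)⁻¹ ∈ A)
    (hπ0 : ∀ a : A, A.valuation (a : K) < 1 → π a = 0) :
    SmoothModel A π O'' res'' Q'' (coverTube A T' U c₀) (algebraMap F' F'' t) C'' ϖ := by
  have hunif : algebraMap K F'' ϖ ∈ C'' := by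
    rw [IsScalarTower.algebraMap_apply K F' F'']
    exact H.map_mem_C _ M'.unif_mem
  have hunif' : (⟨algebraMap K F'' ϖ, hunif⟩ : C'') = H.incC (unifC M') :=
    Subtype.ext (IsScalarTower.algebraMap_apply K F' F'' ϖ)
  refine
    { noeth := H.noeth
      intClosed := H.intClosed
      le := H.le
      regular := fun x => H.regular M' x
      unif_ne := M'.unif_ne
      unif_lt := M'.unif_lt
      unif_mem := hunif
      t_mem := H.map_mem_C t M'.t_mem
      t_van := ?_
      vert := ?_
      transversal := ?_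
      fullRes := ?_
      tube_centred := ?_
      tube_of_centred := ?_ }
  · show Q''.adicValuation (H.red (H.incC ⟨t, M'.t_mem⟩)) < 1
    rw [H.red_incC M', H.lies_lt]
    exact M'.t_van
  · intro x hx
    have hx0 : H.red x = 0 := hres0'' _ hx
    obtain ⟨y, hy, hdvd⟩ := H.vert_cover M' hres0 hres hπ0 x hx0
    refine ⟨y, ?_, ?_⟩
    · intro hlt
      have hlt' : Q''.adicValuation (H.red y) < 1 := hlt
      rw [hy] at hlt'
      exact lt_irrefl _ hlt'
    · rw [hunif']
      exact hdvd
  · intro x hx
    obtain ⟨s, c, hs, hsc⟩ := H.transversal_cover M' hres x hx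
    refine ⟨s, c, ?_, hsc⟩
    intro hlt
    have hlt' : Q''.adicValuation (H.red s) < 1 := hlt
    rw [hs] at hlt'
    exact lt_irrefl _ hlt'
  · intro x
    obtain ⟨β, hβ, hv⟩ := H.fullRes_cover M' hπ x
    refine ⟨β, ?_, hv⟩
    rw [IsScalarTower.algebraMap_apply K F' F'']
    exact H.map_mem_C _ hβ
  · intro P'' hP''
    exact H.tube_centred_cover M' hres hπ hπ0 hP''
  · rintro P'' ⟨h, hcen⟩
    exact H.tube_of_centred_cover M' hres h hcen

end Fermat.Agent.BR3.CoverSmooth
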