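/-
Program C (S36), node (I7-REGBASE) part (ii) (helper4): `hlift` for the smooth charts of the models.

* `exists_quot_of_dedekind` : in a Dedekind chart `D ⊆ Ft` on which the point `Q` is finite, every
  function regular at `Q` is a quotient `a / b`, `a b ∈ D`, `b (Q) ≠ 0` (elementary form of
  `O_Q = D_𝔪`; induction on the order of the denominator with helper22's local generator);
* `hlift_of_model` : a smooth chart `C` whose local ring contains a model `C₀` reducing ONTO a
  Dedekind chart of the component has the lifting property `hlift` of `CoverK/OfMinpoly`: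
  every function of the residue field regular at the point is the residue of a function of `C.R`;
* `hlift_of_levelHyp_zero`, `hlift_of_levelHyp_one` : the same from a `SmoothAssembly.LevelHyp`.
-/
import Mathlib
import Fermat.Agent.BR3.CoverK.OfMinpolyChart
import Fermat.Agent.BR.Inst.SmoothInstGen
import Fermat.Agent.BR.S0.SmoothAssembly

set_option autoImplicit false
set_option linter.unusedSectionVars false

namespace Fermat.Agent.BR3.RegBase

open AlgebraicCurve Fermat.Agent.Red Fermat.Agent.X0 Fermat.Agent.BR.Centre Fermat.Agent.BR.S0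
  Fermat.Agent.BR.S0.RedModular Fermat.Agent.BR.Inst.SmoothModelOf
  Fermat.Agent.BR.Inst.SmoothInstGen

section Dedekind

variable {k Ft : Type*} [Field k] [Field Ft] [Algebra k Ft]
  {D : Type*} [CommRing D] [IsDedekindDomain D] (ι : D →+* Ft) (Q : Place k Ft)

/-- **In a Dedekind chart on which `Q` is finite, every function regular at `Q` is a quotient with
denominator not vanishing at `Q`** (the valuation ring of `Q` is the localisation of the chart at
the point), in elementary form. -/
theorem exists_quot_of_dedekind (hinj : Function.Injective ι)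
    (hfrac : ∀ y : Ft, ∃ a b : D, b ≠ 0 ∧ y * ι b = ι a)
    (hQD : ∀ d : D, Q.adicValuation (ι d) ≤ 1) (f : Ft) (hf : 0 ≤ Q.ord f) :
    ∃ a b : D, ι b ≠ 0 ∧ Q.ord (ι b) = 0 ∧ f * ι b = ι a := by
  have hι0 : ∀ {d : D}, d ≠ 0 → ι d ≠ 0 := fun {d} hd h => hd (hinj (by rw [h, map_zero]))
  have hord0 : ∀ d : D, 0 ≤ Q.ord (ι d) := fun d => by
    rcases (Q.adicValuation_le_one_iff).mp (hQD d) with h0 | h0
    · rw [h0, Place.ord_zero]
    · exact h0
  by_cases hf0 : f = 0
  · exact ⟨0, 1, by rw [map_one]; exact one_ne_zero, by rw [map_one, Place.ord_one],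
      by rw [hf0, zero_mul, map_zero]⟩
  obtain ⟨τ, hτ⟩ := exists_ord_eq_one_of_dedekind ι Q hinj hfrac hQD
  have hτ0 : ι τ ≠ 0 := by
    intro h
    rw [h, Place.ord_zero] at hτ
    exact zero_ne_one hτ
  have hmem : ∀ d : D, d ≠ 0 → (d ∈ pointIdeal ι Q hQD ↔ 0 < Q.ord (ι d)) := fun d hd => by
    rw [mem_pointIdeal_iff, adicValuation_lt_one_iff, or_iff_right (hι0 hd)]
  -- induction on the order of the denominator
  have key : ∀ n : ℕ, ∀ a b : D, b ≠ 0 → f * ι b = ι a → Q.ord (ι b) = n →
      ∃ a' b' : D, ι b' ≠ 0 ∧ Q.ord (ι b') = 0 ∧ f * ι b' = ι a' := by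
    intro n
    induction n with
    | zero =>
      intro a b hb hab hn
      exact ⟨a, b, hι0 hb, by simpa using hn, hab⟩
    | succ n ih =>
      intro a b hb hab hn
      have ha0 : a ≠ 0 := by
        rintro rfl
        rw [map_zero] at hab
        exact mul_ne_zero hf0 (hι0 hb) hab
      have hbm : b ∈ pointIdeal ι Q hQD := by
        rw [hmem b hb, hn]
        positivity
      have hordA : Q.ord (ι a) = Q.ord f + Q.ord (ι b) := by
        rw [← hab, Q.ord_mul hf0 (hι0 hb)]
      have ham : a ∈ pointIdeal ι Q hQD := by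
        rw [hmem a ha0, hordA, hn]
        push_cast
        omega
      obtain ⟨s, hs, b', hb'⟩ := exists_local_gen hτ b hbm
      obtain ⟨s', hs', a', ha'⟩ := exists_local_gen hτ a ham
      have hs0 : s ≠ 0 := by
        rintro rfl
        exact hs (Ideal.zero_mem _)
      have hs'0 : s' ≠ 0 := by
        rintro rfl
        exact hs' (Ideal.zero_mem _)
      have hords : Q.ord (ι s) = 0 := by
        have h1 := (hmem s hs0).not.mp hs
        have h2 := hord0 s
        omega
      have hords' : Q.ord (ι s') = 0 := by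
        have h1 := (hmem s' hs'0).not.mp hs'
        have h2 := hord0 s'
        omega
      have hb'0 : b' ≠ 0 := by
        rintro rfl
        rw [mul_zero] at hb'
        exact mul_ne_zero hs0 hb hb'
      refine ih (a' * s) (b' * s') (mul_ne_zero hb'0 hs'0) ?_ ?_
      · apply mul_left_cancel₀ hτ0
        have e1 : ι τ * ι b' = ι s * ι b := by rw [← map_mul, ← map_mul, hb']
        have e2 : ι τ * ι a' = ι s' * ι a := by rw [← map_mul, ← map_mul, ha']
        rw [map_mul, map_mul]
        calc ι τ * (f * (ι b' * ι s')) = f * (ι τ * ι b') * ι s' := by ring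
          _ = f * (ι s * ι b) * ι s' := by rw [e1]
          _ = ι s * ι s' * (f * ι b) := by ring
          _ = ι s * ι s' * ι a := by rw [hab]
          _ = ι s * (ι s' * ι a) := by ring
          _ = ι s * (ι τ * ι a') := by rw [e2]
          _ = ι τ * (ι a' * ι s) := by ring
      · have e1 : ι τ * ι b' = ι s * ι b := by rw [← map_mul, ← map_mul, hb']
        have h1 : Q.ord (ι τ) + Q.ord (ι b') = Q.ord (ι s) + Q.ord (ι b) := by
          rw [← Q.ord_mul hτ0 (hι0 hb'0), ← Q.ord_mul (hι0 hs0) (hι0 hb), e1]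
        rw [map_mul, Q.ord_mul (hι0 hb'0) (hι0 hs'0), hords']
        rw [hτ, hords, hn] at h1
        push_cast at h1 ⊢
        omega
  obtain ⟨a, b, hb, hab⟩ := hfrac f
  have hn : Q.ord (ι b) = ((Q.ord (ι b)).toNat : ℤ) := (Int.toNat_of_nonneg (hord0 b)).symm
  exact key _ a b hb hab hn

end Dedekind

section Lift

variable {K F k Ft : Type*} [Field K] [Field F] [Algebra K F] [Field k] [Field Ft] [Algebra k Ft]
  {A : ValuationSubring K} {π : A →+* k}
  {Dk : Type*} [CommRing Dk] [IsDedekindDomain Dk] [Algebra Dk Ft] [IsFractionRing Dk Ft]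
  {O : ValuationSubring F} {res : O →+* Ft} {Q : Place k Ft} {T : Set (Place K F)}

/-- every function of `Ft` is a quotient of functions of the Dedekind chart -/
theorem exists_frac_of_isFractionRing (y : Ft) :
    ∃ a b : Dk, b ≠ 0 ∧ y * algebraMap Dk Ft b = algebraMap Dk Ft a := by
  obtain ⟨a, b, hb, hab⟩ := IsFractionRing.div_surjective (A := Dk) y
  have hb0 : b ≠ 0 := nonZeroDivisors.ne_zero hb
  have hbF : algebraMap Dk Ft b ≠ 0 := fun h =>
    hb0 (IsFractionRing.injective Dk Ft (by rw [h, map_zero]))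
  exact ⟨a, b, hb0, by rw [← hab, div_mul_cancel₀ _ hbF]⟩

/-- **(ii) `hlift` for a smooth chart containing a model which reduces ONTO a Dedekind chart of the
component**: every function of the residue field regular at the point lifts to the local ring of the
chart. -/
theorem hlift_of_model (C : SmoothChart A O res Q T) (C₀ : Subring F) (hC₀ : C₀ ≤ C.R)
    (red : C₀ →+* Dk) (hsurj : Function.Surjective red)
    (hred : ∀ x : C₀, algebraMap Dk Ft (red x) = res ⟨x, C.le _ (hC₀ x.2)⟩)
    (hQD : ∀ d : Dk, Q.adicValuation (algebraMap Dk Ft d) ≤ 1) (f : Ft) (hf : 0 ≤ Q.ord f) :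
    ∃ y ∈ C.R, ∃ hy : y ∈ O, res ⟨y, hy⟩ = f := by
  refine Fermat.Agent.BR3.CoverK.OfMinpoly.lift_of_quotients C
    (Set.range (algebraMap Dk Ft)) ?_ ?_ f hf
  · rintro _ ⟨d, rfl⟩
    obtain ⟨x, rfl⟩ := hsurj d
    exact ⟨x, hC₀ x.2, C.le _ (hC₀ x.2), (hred x).symm⟩
  · intro g hg
    obtain ⟨a, b, hb0, hbQ, hab⟩ := exists_quot_of_dedekind (algebraMap Dk Ft) Q
      (IsFractionRing.injective Dk Ft) exists_frac_of_isFractionRing hQD g hg
    exact ⟨_, ⟨a, rfl⟩, _, ⟨b, rfl⟩, hb0, hbQ, hab⟩

variable [Algebra k Dk] [IsScalarTower k Dk Ft]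
  {D : ChartData A π Ft F} {C₀ : Subring F} {ϖ : K} {P₀ P₁ : Ideal C₀} {red₀ red₁ : C₀ →+* Dk}

open Fermat.Agent.BR.S0.SmoothAssembly in
/-- `hlift` on the component `0` from a level of the tower. -/
theorem hlift_of_levelHyp_zero (L : LevelHyp D C₀ ϖ P₀ P₁ red₀ red₁)
    (C : SmoothChart A (D.O 0) (D.res 0) Q T) (hC₀ : C₀ ≤ C.R)
    (hQD : ∀ d : Dk, Q.adicValuation (algebraMap Dk Ft d) ≤ 1) (f : Ft) (hf : 0 ≤ Q.ord f) :
    ∃ y ∈ C.R, ∃ hy : y ∈ D.O 0, D.res 0 ⟨y, hy⟩ = f :=
  hlift_of_model C C₀ hC₀ red₀ L.surj₀ (fun x => L.hred₀ x) hQD f hf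

open Fermat.Agent.BR.S0.SmoothAssembly in
/-- `hlift` on the component `1` from a level of the tower. -/
theorem hlift_of_levelHyp_one (L : LevelHyp D C₀ ϖ P₀ P₁ red₀ red₁)
    (C : SmoothChart A (D.O 1) (D.res 1) Q T) (hC₀ : C₀ ≤ C.R)
    (hQD : ∀ d : Dk, Q.adicValuation (algebraMap Dk Ft d) ≤ 1) (f : Ft) (hf : 0 ≤ Q.ord f) :
    ∃ y ∈ C.R, ∃ hy : y ∈ D.O 1, D.res 1 ⟨y, hy⟩ = f :=
  hlift_of_model C C₀ hC₀ red₁ L.surj₁ (fun x => L.hred₁ x) hQD f hf

end Lift

end Fermat.Agent.BR3.RegBase
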