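import Fermat.Agent.BR3.RegAtlas
import Fermat.Agent.BR3.RegBaseLift

/-!
# Program C, node (I7-REGBASE), part (ii), modular plug: `hlift` for the charts of `S'`

For the smooth charts of the two-component model `S'` of `X₀(qM)` at `q` on main
(`smooth_zero_atlas`, `smooth_one_atlas`, hence for helper1's regular charts `regChartZero`,
`regChartOne`, `regChartCan`, `regChartEt` of `BR3/RegAtlas`):

* `CS_le_zero_atlas_fin`, `CS_le_zero_atlas_inf`, `CS_le_one_atlas_fin`, `CS_le_one_atlas_inf` :
  the chart ring contains EVERY level `CS … S` of the tower of the finite chart (at a point where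
  `j̃` is regular, `Q.adicValuation j̃ ≤ 1`) resp. of the chart at infinity (at a cusp,
  `Q.adicValuation j̃⁻¹ < 1`, the convention of `CuspSheet.Chart`, `CZeroChartCusp`); in particular
  `chartFin_le_zero_atlas`, `chartInf_le_zero_atlas`, `chartFin_le_one_atlas`,
  `chartInf_le_one_atlas` (the explicit small coefficient rings `ℤ_(q)[j]~`, `ℤ_(q)[1/j]~`);
* `hlift_zero_atlas`, `hlift_one_atlas` : every function of the residue field `F̃_M` of the
  component which is regular at the point `Q` is the residue of a function of the local ring of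
  the chart.  This is the hypothesis `hlift` of
  `CoverK.OfMinpoly.exists_coverSheet_of_minpoly_chart`;
* the same for `regChartZero`, `regChartOne`, `regChartCan`, `regChartEt`.

The chart ring is `⨆ S, (M S).loc ⊇ CS … S`, and the level `CS … ∅` reduces ONTO the Dedekind
chart `C_k` (finite points) resp. `C_k^∞` (cusps) of the component, which is regular at `Q`
(`hQDf_*`, `hQDi_*`); the rest is `RegBase.hlift_of_levelHyp_zero / _one`.
-/

set_option autoImplicit false
set_option linter.unusedSectionVars false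
set_option linter.style.haveILetI false

noncomputable section

/- S36 build-time patch: file-local shortcut instances. They only shorten instance search;
each is the instance that the search finds anyway (reducible, same terms after unfolding). -/
local instance (priority := 100000) Fermat.Agent.BR3.FastInst.instAlgFullC_RegBaseModular
    {k : Type*} [Field k] (N : ℕ) :
    Algebra k ↥(ModularCurve.modularFunctionFieldFullC k N) := inferInstance
local instance (priority := 100000) Fermat.Agent.BR3.FastInst.instFieldFullC_RegBaseModular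
    {k : Type*} [Field k] (N : ℕ) :
    Field ↥(ModularCurve.modularFunctionFieldFullC k N) := inferInstance
local instance (priority := 100000) Fermat.Agent.BR3.FastInst.instAlgLaurent_RegBaseModular
    {k : Type*} [Field k] : Algebra k (LaurentSeries k) := inferInstance


namespace Fermat.Agent.BR3.RegBase

open ModularCurve AlgebraicCurve IsLocalRing
open Fermat.Agent.X0 Fermat.Agent.Val Fermat.Agent.Red Fermat.Agent.BR.Centre
open Fermat.Agent.BR.TwoVal Fermat.Agent.BR.TwoValInst Fermat.Agent.BR.ConstRedTwo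
open Fermat.Agent.BR.S0
open Fermat.Agent.BR.S0.RedModular Fermat.Agent.BR.S0.RedHyp Fermat.Agent.BR.S0.PointDict
open Fermat.Agent.BR.Inst.SmoothModularAll Fermat.Agent.BR3.CoverK
open Fermat.Agent.BR.Inst.CkPointModular Fermat.Agent.BR.S0.GeomModular
open Fermat.Agent.BR.Inst.Inf.SmoothInstInf Fermat.Agent.BR.Inst.LevelsInst
open Fermat.Agent.BR.Inst.SpecIso Fermat.Agent.BR.Inst.SpecIsoInf
open Fermat.Agent.BR.Inst.Levels Fermat.Agent.BR.Inst.ChartInLevels
open Fermat.Agent.BR.S0.SmoothLevelsGlue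
open Fermat.Agent.BR3.RegAtlas

set_option synthInstance.maxHeartbeats 400000

variable {M q : ℕ} [NeZero M] [hqF : Fact q.Prime]
variable (B : ValuationSubring Kb) (hB : B.LiesOverPrime q) (hqM : ¬ q ∣ M)

local notation "kB" => IsLocalRing.ResidueField B
local notation "FtM" => modularFunctionFieldFullC (IsLocalRing.ResidueField B) M

/-- the levels of the tower of the finite chart -/
local notation "CSfin" => CS (M * q) q
  (fun T => Fermat.Agent.BR.Inst.NormalModel.modelBase (M * q) (WS B q T))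

/-- the levels of the tower of the chart at infinity -/
local notation "CSinf" => CS (M * q) q
  (fun T => Fermat.Agent.BR.Inst.Inf.modelBaseInf (M * q) (WS B q T))

/-! ### finite points and cusps, in the vocabulary of `j̃` -/

/-- the residue of `j` on the component `0` is regular at `Q` iff `j̃` is -/
theorem res_zero_jx_mem_iff (Q : Place kB FtM) (h : jx M q ∈ (compW B hB hqM 0).O) :
    (compW B hB hqM 0).res ⟨jx M q, h⟩ ∈ Q.toValuationSubring ↔
      Q.adicValuation (jFullC kB M) ≤ 1 := by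
  rw [res_zero_jx B hB hqM h, mem_iff_adicValuation_le_one]

/-- the residue of `j` on the component `1` is regular at `Q` iff `j̃` is -/
theorem res_one_jx_mem_iff (Q : Place kB FtM) (h : jx M q ∈ (compW B hB hqM 1).O) :
    (compW B hB hqM 1).res ⟨jx M q, h⟩ ∈ Q.toValuationSubring ↔
      Q.adicValuation (jFullC kB M) ≤ 1 := by
  rw [res_one_jx B hB hqM h, mem_iff_adicValuation_le_one, map_pow]
  exact pow_le_one_iff hqF.out.ne_zero

/-- where `j̃` is not regular, `1/j̃` vanishes (a cusp) -/
theorem adicValuation_inv_lt_one_of_not_le (Q : Place kB FtM)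
    (hinf : ¬ Q.adicValuation (jFullC kB M) ≤ 1) : Q.adicValuation (jFullC kB M)⁻¹ < 1 := by
  rw [not_le] at hinf
  rw [map_inv₀]
  exact inv_lt_one_of_one_lt₀ hinf

/-- at a cusp (`1/j̃` vanishes) `j̃` is not regular -/
theorem not_le_one_of_inv_lt_one (Q : Place kB FtM)
    (hinf : Q.adicValuation (jFullC kB M)⁻¹ < 1) : ¬ Q.adicValuation (jFullC kB M) ≤ 1 := by
  intro h
  have h1 : Q.adicValuation (jFullC kB M) * Q.adicValuation (jFullC kB M)⁻¹ = 1 := by
    rw [← map_mul, mul_inv_cancel₀ (jFullC_ne_zero B), map_one]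
  have h2 : Q.adicValuation (jFullC kB M) * Q.adicValuation (jFullC kB M)⁻¹ < 1 :=
    lt_of_le_of_lt (mul_le_mul' h le_rfl) (by rw [one_mul]; exact hinf)
  rw [h1] at h2
  exact lt_irrefl _ h2

/-! ### the levels of the tower lie in the chart ring -/

set_option maxHeartbeats 3200000 in
/-- **every level of the finite chart lies in the ring of the chart of the component `0` at a
finite point.** -/
theorem CS_le_zero_atlas_fin (H : AtlasHyp (chartDataModular B hB hqM) (jx M q))
    (Q : Place kB FtM) (hQ : ∀ e, Q ≠ z₁ (chartDataModular B hB hqM) e)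
    (hfin : Q.adicValuation (jFullC kB M) ≤ 1) (S : Finset Kb) :
    CSfin S ≤
      (smooth_zero_atlas B hB hqM H Q hQ).R := by
  have h := (res_zero_jx_mem_iff B hB hqM Q (chartFin_le B hB hqM 0 H.x_mem)).mpr hfin
  unfold smooth_zero_atlas Fermat.Agent.BR.S0.SmoothLevelsGlue.smooth_zero_levels
  rw [dif_pos h]
  unfold Fermat.Agent.BR.S0.SmoothLevelsGlue.smoothChart_zero_fin_levels
    Fermat.Agent.BR.S0.SmoothAssembly.smoothChartOf_zero_fin
    Fermat.Agent.BR.S0.SmoothAssembly.smoothChart_zero_fin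
    Fermat.Agent.BR.S0.smoothChartOfModels
  exact le_iSup_of_le S (SmoothModel.le_loc _)

set_option maxHeartbeats 3200000 in
/-- **every level of the chart at infinity lies in the ring of the chart of the component `0` at a
cusp.** -/
theorem CS_le_zero_atlas_inf (H : AtlasHyp (chartDataModular B hB hqM) (jx M q))
    (Q : Place kB FtM) (hQ : ∀ e, Q ≠ z₁ (chartDataModular B hB hqM) e)
    (hinf : Q.adicValuation (jFullC kB M)⁻¹ < 1) (S : Finset Kb) :
    CSinf S ≤
      (smooth_zero_atlas B hB hqM H Q hQ).R := by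
  have h := (res_zero_jx_mem_iff B hB hqM Q (chartFin_le B hB hqM 0 H.x_mem)).not.mpr
    (not_le_one_of_inv_lt_one B Q hinf)
  unfold smooth_zero_atlas Fermat.Agent.BR.S0.SmoothLevelsGlue.smooth_zero_levels
  rw [dif_neg h]
  unfold Fermat.Agent.BR.S0.SmoothLevelsGlue.smoothChart_zero_inf_levels
    Fermat.Agent.BR.S0.SmoothAssembly.smoothChartOf_zero_inf
    Fermat.Agent.BR.S0.SmoothAssembly.smoothChart_zero_inf
    Fermat.Agent.BR.S0.smoothChartOfModels
  exact le_iSup_of_le S (SmoothModel.le_loc _)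

set_option maxHeartbeats 3200000 in
/-- **every level of the finite chart lies in the ring of the chart of the component `1` at a
finite point.** -/
theorem CS_le_one_atlas_fin (H : AtlasHyp (chartDataModular B hB hqM) (jx M q))
    (Q : Place kB FtM) (hQ : ∀ e, Q ≠ z₂ (chartDataModular B hB hqM) e)
    (hfin : Q.adicValuation (jFullC kB M) ≤ 1) (S : Finset Kb) :
    CSfin S ≤
      (smooth_one_atlas B hB hqM H Q hQ).R := by
  have h := (res_one_jx_mem_iff B hB hqM Q (chartFin_le B hB hqM 1 H.x_mem)).mpr hfin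
  unfold smooth_one_atlas Fermat.Agent.BR.S0.SmoothLevelsGlue.smooth_one_levels
  rw [dif_pos h]
  unfold Fermat.Agent.BR.S0.SmoothLevelsGlue.smoothChart_one_fin_levels
    Fermat.Agent.BR.S0.SmoothAssembly.smoothChartOf_one_fin
    Fermat.Agent.BR.S0.SmoothAssembly.smoothChart_one_fin
    Fermat.Agent.BR.S0.smoothChartOfModels
  exact le_iSup_of_le S (SmoothModel.le_loc _)

set_option maxHeartbeats 3200000 in
/-- **every level of the chart at infinity lies in the ring of the chart of the component `1` at a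
cusp.** -/
theorem CS_le_one_atlas_inf (H : AtlasHyp (chartDataModular B hB hqM) (jx M q))
    (Q : Place kB FtM) (hQ : ∀ e, Q ≠ z₂ (chartDataModular B hB hqM) e)
    (hinf : Q.adicValuation (jFullC kB M)⁻¹ < 1) (S : Finset Kb) :
    CSinf S ≤
      (smooth_one_atlas B hB hqM H Q hQ).R := by
  have h := (res_one_jx_mem_iff B hB hqM Q (chartFin_le B hB hqM 1 H.x_mem)).not.mpr
    (not_le_one_of_inv_lt_one B Q hinf)
  unfold smooth_one_atlas Fermat.Agent.BR.S0.SmoothLevelsGlue.smooth_one_levels
  rw [dif_neg h]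
  unfold Fermat.Agent.BR.S0.SmoothLevelsGlue.smoothChart_one_inf_levels
    Fermat.Agent.BR.S0.SmoothAssembly.smoothChartOf_one_inf
    Fermat.Agent.BR.S0.SmoothAssembly.smoothChart_one_inf
    Fermat.Agent.BR.S0.smoothChartOfModels
  exact le_iSup_of_le S (SmoothModel.le_loc _)

/-- the finite chart `ℤ_(q)[j]~` lies in the ring of the chart of the component `0` at a finite
point -/
theorem chartFin_le_zero_atlas (H : AtlasHyp (chartDataModular B hB hqM) (jx M q))
    (Q : Place kB FtM) (hQ : ∀ e, Q ≠ z₁ (chartDataModular B hB hqM) e)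
    (hfin : Q.adicValuation (jFullC kB M) ≤ 1) :
    chartFin (M := M) (q := q) ≤ (smooth_zero_atlas B hB hqM H Q hQ).R :=
  (chartFin_le_CS B hB ∅).trans (CS_le_zero_atlas_fin B hB hqM H Q hQ hfin ∅)

/-- the chart at infinity `ℤ_(q)[1/j]~` lies in the ring of the chart of the component `0` at a
cusp -/
theorem chartInf_le_zero_atlas (H : AtlasHyp (chartDataModular B hB hqM) (jx M q))
    (Q : Place kB FtM) (hQ : ∀ e, Q ≠ z₁ (chartDataModular B hB hqM) e)
    (hinf : Q.adicValuation (jFullC kB M)⁻¹ < 1) :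
    chartInf (M := M) (q := q) ≤ (smooth_zero_atlas B hB hqM H Q hQ).R :=
  (chartInf_le_CS_inf B hB ∅).trans (CS_le_zero_atlas_inf B hB hqM H Q hQ hinf ∅)

/-- the finite chart lies in the ring of the chart of the component `1` at a finite point -/
theorem chartFin_le_one_atlas (H : AtlasHyp (chartDataModular B hB hqM) (jx M q))
    (Q : Place kB FtM) (hQ : ∀ e, Q ≠ z₂ (chartDataModular B hB hqM) e)
    (hfin : Q.adicValuation (jFullC kB M) ≤ 1) :
    chartFin (M := M) (q := q) ≤ (smooth_one_atlas B hB hqM H Q hQ).R :=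
  (chartFin_le_CS B hB ∅).trans (CS_le_one_atlas_fin B hB hqM H Q hQ hfin ∅)

/-- the chart at infinity lies in the ring of the chart of the component `1` at a cusp -/
theorem chartInf_le_one_atlas (H : AtlasHyp (chartDataModular B hB hqM) (jx M q))
    (Q : Place kB FtM) (hQ : ∀ e, Q ≠ z₂ (chartDataModular B hB hqM) e)
    (hinf : Q.adicValuation (jFullC kB M)⁻¹ < 1) :
    chartInf (M := M) (q := q) ≤ (smooth_one_atlas B hB hqM H Q hQ).R :=
  (chartInf_le_CS_inf B hB ∅).trans (CS_le_one_atlas_inf B hB hqM H Q hQ hinf ∅)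

/-! ### `hlift` -/

/-- **`hlift` for the smooth chart of `S'` at a non-crossing point of the component `0`.** -/
theorem hlift_zero_atlas (H : AtlasHyp (chartDataModular B hB hqM) (jx M q))
    (Q : Place kB FtM) (hQ : ∀ e, Q ≠ z₁ (chartDataModular B hB hqM) e)
    (f : FtM) (hf : 0 ≤ Q.ord f) :
    ∃ y ∈ (smooth_zero_atlas B hB hqM H Q hQ).R, ∃ hy : y ∈ (compW B hB hqM 0).O,
      (compW B hB hqM 0).res ⟨y, hy⟩ = f := by
  have := isDedekindDomain_Ck B hB hqM
  have := isFractionRing_Ck B hB hqM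
  have := isDedekindDomain_CkInf B hB hqM
  have := isFractionRing_CkInf B hB hqM
  by_cases hfin : Q.adicValuation (jFullC kB M) ≤ 1
  · exact hlift_of_levelHyp_zero (levelHyp_fin (levelHyp_tower B hB hqM ∅))
      (smooth_zero_atlas B hB hqM H Q hQ) (CS_le_zero_atlas_fin B hB hqM H Q hQ hfin ∅)
      (fun d => adicValuation_le_one_Ck B Q hfin d) f hf
  · exact hlift_of_levelHyp_zero (levelHyp_modular_inf_tower B hB hqM ∅)
      (smooth_zero_atlas B hB hqM H Q hQ) (CS_le_zero_atlas_inf B hB hqM H Q hQ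
        (adicValuation_inv_lt_one_of_not_le B Q hfin) ∅)
      (fun d => adicValuation_le_one_CkInf B Q
        (adicValuation_inv_lt_one_of_not_le B Q hfin).le d) f hf

/-- **`hlift` for the smooth chart of `S'` at a non-crossing point of the component `1`.** -/
theorem hlift_one_atlas (H : AtlasHyp (chartDataModular B hB hqM) (jx M q))
    (Q : Place kB FtM) (hQ : ∀ e, Q ≠ z₂ (chartDataModular B hB hqM) e)
    (f : FtM) (hf : 0 ≤ Q.ord f) :
    ∃ y ∈ (smooth_one_atlas B hB hqM H Q hQ).R, ∃ hy : y ∈ (compW B hB hqM 1).O,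
      (compW B hB hqM 1).res ⟨y, hy⟩ = f := by
  have := isDedekindDomain_Ck B hB hqM
  have := isFractionRing_Ck B hB hqM
  have := isDedekindDomain_CkInf B hB hqM
  have := isFractionRing_CkInf B hB hqM
  by_cases hfin : Q.adicValuation (jFullC kB M) ≤ 1
  · exact hlift_of_levelHyp_one (levelHyp_fin (levelHyp_tower B hB hqM ∅))
      (smooth_one_atlas B hB hqM H Q hQ) (CS_le_one_atlas_fin B hB hqM H Q hQ hfin ∅)
      (fun d => adicValuation_le_one_Ck B Q hfin d) f hf
  · exact hlift_of_levelHyp_one (levelHyp_modular_inf_tower B hB hqM ∅)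
      (smooth_one_atlas B hB hqM H Q hQ) (CS_le_one_atlas_inf B hB hqM H Q hQ
        (adicValuation_inv_lt_one_of_not_le B Q hfin) ∅)
      (fun d => adicValuation_le_one_CkInf B Q
        (adicValuation_inv_lt_one_of_not_le B Q hfin).le d) f hf

/-! ### the same for the regular charts of `BR3/RegAtlas` -/

theorem CS_le_regChartZero_fin (H : AtlasHyp (chartDataModular B hB hqM) (jx M q))
    (Q : Place kB FtM) (hQ : ∀ e, Q ≠ z₁ (chartDataModular B hB hqM) e)
    (hfin : Q.adicValuation (jFullC kB M) ≤ 1) (S : Finset Kb) :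
    CSfin S ≤ (regChartZero B hB hqM H Q hQ).chart.R := by
  rw [regChartZero_chart]
  exact CS_le_zero_atlas_fin B hB hqM H Q hQ hfin S

theorem CS_le_regChartZero_inf (H : AtlasHyp (chartDataModular B hB hqM) (jx M q))
    (Q : Place kB FtM) (hQ : ∀ e, Q ≠ z₁ (chartDataModular B hB hqM) e)
    (hinf : Q.adicValuation (jFullC kB M)⁻¹ < 1) (S : Finset Kb) :
    CSinf S ≤ (regChartZero B hB hqM H Q hQ).chart.R := by
  rw [regChartZero_chart]
  exact CS_le_zero_atlas_inf B hB hqM H Q hQ hinf S

theorem CS_le_regChartOne_fin (H : AtlasHyp (chartDataModular B hB hqM) (jx M q))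
    (Q : Place kB FtM) (hQ : ∀ e, Q ≠ z₂ (chartDataModular B hB hqM) e)
    (hfin : Q.adicValuation (jFullC kB M) ≤ 1) (S : Finset Kb) :
    CSfin S ≤ (regChartOne B hB hqM H Q hQ).chart.R := by
  rw [regChartOne_chart]
  exact CS_le_one_atlas_fin B hB hqM H Q hQ hfin S

theorem CS_le_regChartOne_inf (H : AtlasHyp (chartDataModular B hB hqM) (jx M q))
    (Q : Place kB FtM) (hQ : ∀ e, Q ≠ z₂ (chartDataModular B hB hqM) e)
    (hinf : Q.adicValuation (jFullC kB M)⁻¹ < 1) (S : Finset Kb) :
    CSinf S ≤ (regChartOne B hB hqM H Q hQ).chart.R := by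
  rw [regChartOne_chart]
  exact CS_le_one_atlas_inf B hB hqM H Q hQ hinf S

/-- the finite chart `ℤ_(q)[j]~` lies in the ring of `regChartZero` at a finite point -/
theorem chartFin_le_regChartZero (H : AtlasHyp (chartDataModular B hB hqM) (jx M q))
    (Q : Place kB FtM) (hQ : ∀ e, Q ≠ z₁ (chartDataModular B hB hqM) e)
    (hfin : Q.adicValuation (jFullC kB M) ≤ 1) :
    chartFin (M := M) (q := q) ≤ (regChartZero B hB hqM H Q hQ).chart.R :=
  (chartFin_le_CS B hB ∅).trans (CS_le_regChartZero_fin B hB hqM H Q hQ hfin ∅)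

/-- the chart at infinity `ℤ_(q)[1/j]~` lies in the ring of `regChartZero` at a cusp -/
theorem chartInf_le_regChartZero (H : AtlasHyp (chartDataModular B hB hqM) (jx M q))
    (Q : Place kB FtM) (hQ : ∀ e, Q ≠ z₁ (chartDataModular B hB hqM) e)
    (hinf : Q.adicValuation (jFullC kB M)⁻¹ < 1) :
    chartInf (M := M) (q := q) ≤ (regChartZero B hB hqM H Q hQ).chart.R :=
  (chartInf_le_CS_inf B hB ∅).trans (CS_le_regChartZero_inf B hB hqM H Q hQ hinf ∅)

/-- the finite chart lies in the ring of `regChartOne` at a finite point -/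
theorem chartFin_le_regChartOne (H : AtlasHyp (chartDataModular B hB hqM) (jx M q))
    (Q : Place kB FtM) (hQ : ∀ e, Q ≠ z₂ (chartDataModular B hB hqM) e)
    (hfin : Q.adicValuation (jFullC kB M) ≤ 1) :
    chartFin (M := M) (q := q) ≤ (regChartOne B hB hqM H Q hQ).chart.R :=
  (chartFin_le_CS B hB ∅).trans (CS_le_regChartOne_fin B hB hqM H Q hQ hfin ∅)

/-- the chart at infinity lies in the ring of `regChartOne` at a cusp -/
theorem chartInf_le_regChartOne (H : AtlasHyp (chartDataModular B hB hqM) (jx M q))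
    (Q : Place kB FtM) (hQ : ∀ e, Q ≠ z₂ (chartDataModular B hB hqM) e)
    (hinf : Q.adicValuation (jFullC kB M)⁻¹ < 1) :
    chartInf (M := M) (q := q) ≤ (regChartOne B hB hqM H Q hQ).chart.R :=
  (chartInf_le_CS_inf B hB ∅).trans (CS_le_regChartOne_inf B hB hqM H Q hQ hinf ∅)

/-- **`hlift` for `regChartZero`.** -/
theorem hlift_regChartZero (H : AtlasHyp (chartDataModular B hB hqM) (jx M q))
    (Q : Place kB FtM) (hQ : ∀ e, Q ≠ z₁ (chartDataModular B hB hqM) e)
    (f : FtM) (hf : 0 ≤ Q.ord f) :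
    ∃ y ∈ (regChartZero B hB hqM H Q hQ).chart.R, ∃ hy : y ∈ (compW B hB hqM 0).O,
      (compW B hB hqM 0).res ⟨y, hy⟩ = f := by
  rw [regChartZero_chart]
  exact hlift_zero_atlas B hB hqM H Q hQ f hf

/-- **`hlift` for `regChartOne`.** -/
theorem hlift_regChartOne (H : AtlasHyp (chartDataModular B hB hqM) (jx M q))
    (Q : Place kB FtM) (hQ : ∀ e, Q ≠ z₂ (chartDataModular B hB hqM) e)
    (f : FtM) (hf : 0 ≤ Q.ord f) :
    ∃ y ∈ (regChartOne B hB hqM H Q hQ).chart.R, ∃ hy : y ∈ (compW B hB hqM 1).O,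
      (compW B hB hqM 1).res ⟨y, hy⟩ = f := by
  rw [regChartOne_chart]
  exact hlift_one_atlas B hB hqM H Q hQ f hf

/-! ### the shapes `regChartCan` (component `constRedW1`) and `regChartEt` (`constRedW2`) -/

/-- **`hlift` for `regChartCan`**, in the shape of
`CoverK.OfMinpoly.exists_coverSheet_of_minpoly_chart`. -/
theorem hlift_regChartCan (H : AtlasHyp (chartDataModular B hB hqM) (jx M q))
    (Q : Place kB FtM) (hQ : ∀ e, Q ≠ z₁ (chartDataModular B hB hqM) e) :
    ∀ f : FtM, 0 ≤ Q.ord f → ∃ y ∈ (regChartCan B hB hqM H Q hQ).chart.R,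
      ∃ hy : y ∈ (constRedW1 B hB hqM).O, (constRedW1 B hB hqM).res ⟨y, hy⟩ = f :=
  fun f hf => hlift_regChartZero B hB hqM H Q hQ f hf

/-- **`hlift` for `regChartEt`**, in the shape of
`CoverK.OfMinpoly.exists_coverSheet_of_minpoly_chart`. -/
theorem hlift_regChartEt (H : AtlasHyp (chartDataModular B hB hqM) (jx M q))
    (Q : Place kB FtM) (hQ : ∀ e, Q ≠ z₂ (chartDataModular B hB hqM) e) :
    ∀ f : FtM, 0 ≤ Q.ord f → ∃ y ∈ (regChartEt B hB hqM H Q hQ).chart.R,
      ∃ hy : y ∈ (constRedW2 B hB hqM).O, (constRedW2 B hB hqM).res ⟨y, hy⟩ = f :=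
  fun f hf => hlift_regChartOne B hB hqM H Q hQ f hf

theorem CS_le_regChartCan_fin (H : AtlasHyp (chartDataModular B hB hqM) (jx M q))
    (Q : Place kB FtM) (hQ : ∀ e, Q ≠ z₁ (chartDataModular B hB hqM) e)
    (hfin : Q.adicValuation (jFullC kB M) ≤ 1) (S : Finset Kb) :
    CSfin S ≤ (regChartCan B hB hqM H Q hQ).chart.R :=
  CS_le_regChartZero_fin B hB hqM H Q hQ hfin S

theorem CS_le_regChartCan_inf (H : AtlasHyp (chartDataModular B hB hqM) (jx M q))
    (Q : Place kB FtM) (hQ : ∀ e, Q ≠ z₁ (chartDataModular B hB hqM) e)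
    (hinf : Q.adicValuation (jFullC kB M)⁻¹ < 1) (S : Finset Kb) :
    CSinf S ≤ (regChartCan B hB hqM H Q hQ).chart.R :=
  CS_le_regChartZero_inf B hB hqM H Q hQ hinf S

theorem CS_le_regChartEt_fin (H : AtlasHyp (chartDataModular B hB hqM) (jx M q))
    (Q : Place kB FtM) (hQ : ∀ e, Q ≠ z₂ (chartDataModular B hB hqM) e)
    (hfin : Q.adicValuation (jFullC kB M) ≤ 1) (S : Finset Kb) :
    CSfin S ≤ (regChartEt B hB hqM H Q hQ).chart.R :=
  CS_le_regChartOne_fin B hB hqM H Q hQ hfin S

theorem CS_le_regChartEt_inf (H : AtlasHyp (chartDataModular B hB hqM) (jx M q))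
    (Q : Place kB FtM) (hQ : ∀ e, Q ≠ z₂ (chartDataModular B hB hqM) e)
    (hinf : Q.adicValuation (jFullC kB M)⁻¹ < 1) (S : Finset Kb) :
    CSinf S ≤ (regChartEt B hB hqM H Q hQ).chart.R :=
  CS_le_regChartOne_inf B hB hqM H Q hQ hinf S

theorem chartFin_le_regChartCan (H : AtlasHyp (chartDataModular B hB hqM) (jx M q))
    (Q : Place kB FtM) (hQ : ∀ e, Q ≠ z₁ (chartDataModular B hB hqM) e)
    (hfin : Q.adicValuation (jFullC kB M) ≤ 1) :
    chartFin (M := M) (q := q) ≤ (regChartCan B hB hqM H Q hQ).chart.R :=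
  chartFin_le_regChartZero B hB hqM H Q hQ hfin

theorem chartFin_le_regChartEt (H : AtlasHyp (chartDataModular B hB hqM) (jx M q))
    (Q : Place kB FtM) (hQ : ∀ e, Q ≠ z₂ (chartDataModular B hB hqM) e)
    (hfin : Q.adicValuation (jFullC kB M) ≤ 1) :
    chartFin (M := M) (q := q) ≤ (regChartEt B hB hqM H Q hQ).chart.R :=
  chartFin_le_regChartOne B hB hqM H Q hQ hfin

end Fermat.Agent.BR3.RegBase
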