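import Fermat.Agent.BR3.FibreProdMidNorm
import Fermat.Agent.BR3.VertTaylor
import Fermat.Agent.BR.NodeKron

/-!
# Program C, node I3 (MID), part 3: the Kummer element `γ = (θ j̃)^{q-1}` in closed form

* `PsiU_eq_vertPoly`, `PsiU_eq` : the minimal polynomial `Ψ_U` of `U = j(s^{q²}) - α₂ j` over `α₂ F₁` is
  the vertical polynomial of `BR3/VertTaylor` at `x := j(s^q)`, `y := j`, i.e. EXACTLY
  `X^q + (j - j(s^q)^q) X^{q-1} + (j^q - j(s^q)) + q · Hk` with `Hk = vertH (psiK q F₁) q j(s^q) j`;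
* `kron_AB` : `(j^q - j(s^q)) (j - j(s^q)^q) = - q · Rk`, `Rk = Ψ_q(j(s^q), j)`;
* `norm_U` : `N(U) = (-1)^q Ψ_U(0)`; `normUq_mul_tCan` : `(N(U)/q) · t = (-1)^q (Rk + t · Hk(0))`,
  `t = j(s^q)^q - j`;
* `Rk_mem`, `Hk_coeff_mem` : `Rk` and the coefficients of `Hk` lie in every valuation subring of `F₁`
  containing `j` and `j(s^q)` (hence in every normal chart ring containing them);
* `res1_Rk : res₁ Rk = Ψ̃_q(j̃^q, j̃)`;
* `thetaL_pow_mul_sq` : `(θ j̃)^{q-1} (j̃^{q²} - j̃)² = -(Ψ̃_q(j̃^q, j̃) + (j̃^{q²} - j̃) h̃)`: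
  the Kummer element `γ` has a double pole at the supersingular values `j̃^{q²} = j̃` where
  `Ψ̃_q(j̃^q, j̃) ≠ 0` (thickness one), `ord_e γ = -2`.
-/

set_option autoImplicit false
set_option linter.style.haveILetI false
set_option linter.unusedSectionVars false

noncomputable section

set_option synthInstance.maxHeartbeats 400000

namespace Fermat.Agent.BR3.FibreProd

open ModularCurve AlgebraicCurve HahnSeries Polynomial Fermat.Agent.X0 Fermat.Agent.Val
open Fermat.Agent.Hecke.AL Fermat.Agent.Igusa Fermat.Agent.BR.Kron Fermat.Agent.BR3.IgSq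
open Fermat.Agent.BR.TwoVal Fermat.Agent.BR.ResGen Fermat.Agent.Jac Fermat.Agent.Jac.ALF
open Fermat.Agent.BR3.VertTaylor Fermat.Agent.BR.NodeNewton Fermat.Agent.BR.NodeKron

variable {M q : ℕ} [NeZero M] [hq : Fact q.Prime]

/-! ### `Ψ_U` in the exact Kronecker form -/

section Exact

/-- `Ψ_U` is the vertical polynomial of `BR3/VertTaylor` at `x := j(s^q)` (inner), `y := j`. -/
theorem PsiU_eq_vertPoly :
    PsiU M q = vertPoly (phiK q (Fb (M * q))) (jq' M q) (jBar (M * q)) := by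
  have h := vertPoly_mul_X_add (phiK q (Fb (M * q))) (jq' M q) (jBar (M * q))
  rw [phiK_evalEval_mid_j, map_zero, add_zero] at h
  have h2 : outerAt (phiK q (Fb (M * q))) (jq' M q) = PhiAt M q := rfl
  rw [h2, ← X_mul_PsiU, mul_comm X (PsiU M q)] at h
  exact (mul_right_cancel₀ Polynomial.X_ne_zero h).symm

variable (M q) in
/-- the Kronecker remainder `R = Ψ_q(j(s^q), j)`: `(j^q - j(s^q)) (j - j(s^q)^q) = - q R`. -/
def Rk : Fb (M * q) := (psiK q (Fb (M * q))).evalEval (jq' M q) (jBar (M * q))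

variable (M q) in
/-- the error polynomial of `Ψ_U`. -/
def Hk : (Fb (M * q))[X] := vertH (psiK q (Fb (M * q))) q (jq' M q) (jBar (M * q))

/-- **The exact form of `Ψ_U`.** -/
theorem PsiU_eq :
    PsiU M q = X ^ q + Polynomial.C (jBar (M * q) - jq' M q ^ q) * X ^ (q - 1) +
      Polynomial.C (jBar (M * q) ^ q - jq' M q) + Polynomial.C (q : Fb (M * q)) * Hk M q := by
  rw [PsiU_eq_vertPoly, Hk]
  exact vertPoly_eq hq.out (phiK_eq q hq.out (Fb (M * q))) _ _

/-- Kronecker: `(j^q - j(s^q)) (j - j(s^q)^q) = - q R`. -/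
theorem kron_AB :
    (jBar (M * q) ^ q - jq' M q) * (jBar (M * q) - jq' M q ^ q) = -((q : Fb (M * q)) * Rk M q) := by
  have h := phiK_evalEval_outer (q := q) (jBar (M * q)) (jq' M q)
  rw [phiK_evalEval_mid_j] at h
  rw [Rk]
  linear_combination -h

theorem PsiU_coeff_zero :
    (PsiU M q).coeff 0 = (jBar (M * q) ^ q - jq' M q) + (q : Fb (M * q)) * (Hk M q).coeff 0 := by
  have hq1 : q - 1 ≠ 0 := by have := hq.out.two_le; omega
  rw [PsiU_eq, Polynomial.coeff_add, Polynomial.coeff_add, Polynomial.coeff_add,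
    Polynomial.coeff_X_pow, Polynomial.coeff_C_mul, Polynomial.coeff_X_pow,
    Polynomial.coeff_C_zero, Polynomial.coeff_C_mul, if_neg (Ne.symm hq.out.ne_zero),
    if_neg (Ne.symm hq1)]
  ring

variable (hqM : ¬ q ∣ M)

include hqM in
/-- `N_{F₂/α₂F₁}(U) = (-1)^q Ψ_U(0)`. -/
theorem norm_U :
    letI := algebraAlong (alpha2 M q)
    Algebra.norm (Fb (M * q)) (U M q) = (-1) ^ q * (PsiU M q).coeff 0 := by
  letI := algebraAlong (alpha2 M q)
  haveI : Module.Finite (Fb (M * q)) (Fb (M * q * q)) :=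
    Fermat.Agent.Hecke.finiteAlong_heckeAlphaBar (M * q) q
  have hint : IsIntegral (Fb (M * q)) (U M q) := Algebra.IsIntegral.isIntegral _
  let pb : PowerBasis (Fb (M * q)) (Fb (M * q * q)) :=
    (IntermediateField.adjoin.powerBasis hint).map
      ((IntermediateField.equivOfEq (adjoin_U_eq_top hqM)).trans IntermediateField.topEquiv)
  have hgen : pb.gen = U M q := by simp [pb]
  have hdim : pb.dim = q := by
    have : pb.dim = (minpoly (Fb (M * q)) (U M q)).natDegree := by simp [pb]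
    rw [this, minpoly_U hqM, PsiU_natDegree]
  have h := Algebra.PowerBasis.norm_gen_eq_coeff_zero_minpoly pb
  rw [hgen, hdim, minpoly_U hqM] at h
  exact h

include hqM in
/-- **The Kronecker form of the norm of `U`**: `(N(U)/q) · t = (-1)^q (R + t · H(0))`,
`t = j(s^q)^q - j`. -/
theorem normUq_mul_tCan :
    normUq M q * tCan M q = (-1) ^ q * (Rk M q + tCan M q * (Hk M q).coeff 0) := by
  have hq0 : (q : Fb (M * q)) ≠ 0 := Nat.cast_ne_zero.2 hq.out.ne_zero
  have hqalg : algebraMap Kb (Fb (M * q)) ((q : Kb))⁻¹ = ((q : Fb (M * q)))⁻¹ := by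
    rw [map_inv₀, map_natCast]
  have hk := kron_AB (M := M) (q := q)
  have ht : tCan M q = -(jBar (M * q) - jq' M q ^ q) := by rw [tCan]; ring
  have h1 : (PsiU M q).coeff 0 * tCan M q =
      (q : Fb (M * q)) * (Rk M q + tCan M q * (Hk M q).coeff 0) := by
    rw [PsiU_coeff_zero, ht]
    linear_combination (-1 : Fb (M * q)) * hk
  have h2 : normUq M q * tCan M q =
      (-1) ^ q * (((q : Fb (M * q)))⁻¹ * ((PsiU M q).coeff 0 * tCan M q)) := by
    rw [normUq, norm_U hqM, hqalg]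
    ring
  rw [h2, h1, ← mul_assoc ((q : Fb (M * q)))⁻¹, inv_mul_cancel₀ hq0, one_mul]

end Exact

/-! ### Integrality and residues of the Kronecker data -/

section KronRes

/-- `R` and `H(0)` lie in every valuation subring of `F₁` containing `j` and `j(s^q)`. -/
theorem Rk_mem (O : ValuationSubring (Fb (M * q))) (h1 : jBar (M * q) ∈ O)
    (h2 : jq' M q ∈ O) : Rk M q ∈ O := by
  have h := map_psiK_evalEval q O.subtype (⟨jq' M q, h2⟩ : O) ⟨jBar (M * q), h1⟩
  rw [Rk]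
  have h' : (psiK q (Fb (M * q))).evalEval (jq' M q) (jBar (M * q)) =
      (((psiK q O).evalEval ⟨jq' M q, h2⟩ ⟨jBar (M * q), h1⟩ : O) : Fb (M * q)) := h.symm
  rw [h']
  exact SetLike.coe_mem _

theorem Hk_coeff_mem (O : ValuationSubring (Fb (M * q))) (h1 : jBar (M * q) ∈ O)
    (h2 : jq' M q ∈ O) (n : ℕ) : (Hk M q).coeff n ∈ O := by
  rw [← O.valuation_le_one_iff]
  exact intCoeff_vertH (v := O.valuation) (intCoeff₂_map_int (PsiZ q)) q
    ((O.valuation_le_one_iff _).2 h2) ((O.valuation_le_one_iff _).2 h1) n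

variable (B : ValuationSubring (AlgebraicClosure ℚ)) (hB : B.LiesOverPrime q)
variable (hqM : ¬ q ∣ M) {ζ : Kbˣ} (hζ : IsPrimitiveRoot ζ q)

local notation "kB" => IsLocalRing.ResidueField B

theorem Rk_mem_O1 : Rk M q ∈ O1 M B hB := Rk_mem _ (jBar_mem_O1 B hB) (jq'_mem_O1 B hB)

/-- `res₁ R = Ψ̃_q(j̃^q, j̃)`. -/
theorem res1_Rk :
    res1 M B hB ⟨Rk M q, Rk_mem_O1 B hB⟩ =
      (psiK q (LaurentSeries kB)).evalEval (jqModC kB ^ q) (jqModC kB) := by
  have h := map_psiK_evalEval q (res1 M B hB) (⟨jq' M q, jq'_mem_O1 B hB⟩ : O1 M B hB)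
    ⟨jBar (M * q), jBar_mem_O1 B hB⟩
  rw [res1_jq', res1_jBar] at h
  rw [← h]
  congr 1
  apply Subtype.ext
  have h' := map_psiK_evalEval q (O1 M B hB).subtype (⟨jq' M q, jq'_mem_O1 B hB⟩ : O1 M B hB)
    ⟨jBar (M * q), jBar_mem_O1 B hB⟩
  exact h'.symm

theorem Hk_coeff_zero_mem_O1 : (Hk M q).coeff 0 ∈ O1 M B hB :=
  Hk_coeff_mem _ (jBar_mem_O1 B hB) (jq'_mem_O1 B hB) 0

include hqM hζ in
/-- **The Kummer element in closed form**:
`(θ j̃)^{q-1} (j̃^{q²} - j̃)² = -(Ψ̃_q(j̃^q, j̃) + (j̃^{q²} - j̃) h̃)`, with `h̃ = res₁ H(0)`.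
In particular `γ = (θ j̃)^{q-1}` has a double pole exactly where `j̃^{q²} = j̃` and
`Ψ̃_q(j̃^q, j̃) ≠ 0` (thickness one). -/
theorem thetaL_pow_mul_sq :
    thetaL kB (jqModC kB) ^ (q - 1) * (jqModC kB ^ (q * q) - jqModC kB) ^ 2 =
      -((psiK q (LaurentSeries kB)).evalEval (jqModC kB ^ q) (jqModC kB) +
        (jqModC kB ^ (q * q) - jqModC kB) *
          res1 M B hB ⟨(Hk M q).coeff 0, Hk_coeff_zero_mem_O1 B hB⟩) := by
  have h := normUq_mul_tCan (M := M) (q := q) hqM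
  have h1 : (⟨normUq M q, normUq_mem_O1 B hB hqM hζ⟩ : O1 M B hB) * ⟨tCan M q, tCan_mem_O1 B hB⟩ =
      (-1) ^ q * (⟨Rk M q, Rk_mem_O1 B hB⟩ + ⟨tCan M q, tCan_mem_O1 B hB⟩ *
        ⟨(Hk M q).coeff 0, Hk_coeff_zero_mem_O1 B hB⟩) := Subtype.ext h
  have h2 := congrArg (res1 M B hB) h1
  rw [map_mul, map_mul, map_pow, map_neg, map_one, map_add, map_mul, res1_normUq B hB hqM hζ,
    res1_tCan, res1_Rk] at h2
  obtain ⟨n, hn⟩ : ∃ n, q = n + 1 := ⟨q - 1, (Nat.succ_pred_eq_of_pos hq.out.pos).symm⟩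
  have hq1 : q - 1 = n := by omega
  rw [hq1] at h2 ⊢
  have hsq : ((-1 : LaurentSeries kB) ^ n) * (-1) ^ n = 1 := by
    rw [← mul_pow, neg_one_mul, neg_neg, one_pow]
  have hpow : ((-1 : LaurentSeries kB)) ^ q = -(-1) ^ n := by
    conv_lhs => rw [hn, pow_succ]
    ring
  rw [hpow] at h2
  linear_combination ((-1 : LaurentSeries kB) ^ n) * h2 +
    (- thetaL kB (jqModC kB) ^ n * (jqModC kB ^ (q * q) - jqModC kB) ^ 2 -
      ((psiK q (LaurentSeries kB)).evalEval (jqModC kB ^ q) (jqModC kB) +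
        (jqModC kB ^ (q * q) - jqModC kB) *
          res1 M B hB ⟨(Hk M q).coeff 0, Hk_coeff_zero_mem_O1 B hB⟩)) * hsq

end KronRes

end Fermat.Agent.BR3.FibreProd
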