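import Mathlib
import Fermat.Agent.BR.S0.Sandwich
import Fermat.Agent.BR.S0.ThickFinal
import Fermat.Agent.BR.S0.InstCircle
import Fermat.Agent.BR.Final.Partial

/-!
# Program C (S36), node (C-THICK1), part 1: the equality case of the SANDWICH

For `M` without elliptic points (`nuTwo M = nuThree M = 0`) and `q ∤ M`, on the two-component model
of `X₀(qM)` at `q` (`Final.setupFinal`):

* all zeros of `T̄₁ = H(j̃)` (`deg H = q - 1`, `deg (j̃)_∞ = ψ(M)`) on the component `0` are
  crossings (`ThickFinal.hzero_modular`), of order at most `12` (`ThickFinal.hord_modular`);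
* the number of crossings is `nodeCount q M = (q - 1) ψ(M) / 12` (`S0.sandwich_card_eq_nodeCount`);

hence `ord_z T̄₁ = 12` at EVERY crossing (`thickness_one`) and the crossings are pairwise distinct
points of the component `0` (`z₁_injective`).

* `ord_eq_of_card_le`, `injective_of_card_le` : the abstract equality case of
  `S0.natDegree_mul_degree_le` (zero count of `BR/ZeroCount.lean`).
-/

set_option autoImplicit false
set_option linter.unusedSectionVars false
set_option linter.style.haveILetI false
set_option synthInstance.maxHeartbeats 400000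
set_option maxHeartbeats 1600000


/- S36 build-time patch: file-local shortcut instances. They only shorten instance search;
each is the instance that the search finds anyway (reducible, same terms after unfolding). -/
noncomputable local instance (priority := 100000) Fermat.Agent.BR3.FastInst.instAlgFullC_ThickOneCount
    {k : Type*} [Field k] (N : ℕ) :
    Algebra k ↥(ModularCurve.modularFunctionFieldFullC k N) := inferInstance
noncomputable local instance (priority := 100000) Fermat.Agent.BR3.FastInst.instFieldFullC_ThickOneCount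
    {k : Type*} [Field k] (N : ℕ) :
    Field ↥(ModularCurve.modularFunctionFieldFullC k N) := inferInstance
noncomputable local instance (priority := 100000) Fermat.Agent.BR3.FastInst.instAlgLaurent_ThickOneCount
    {k : Type*} [Field k] : Algebra k (LaurentSeries k) := inferInstance

namespace Fermat.Agent.BR3.ThickOneCount

open AlgebraicCurve ModularCurve IsLocalRing Polynomial
open Fermat.Agent.Red Fermat.Agent.X0 Fermat.Agent.Val Fermat.Agent.BR.SS
open Fermat.Agent.BR.GenusCount Fermat.Agent.BR.ModUnit
open Fermat.Agent.BR.S0 Fermat.Agent.BR.S0.RedModular Fermat.Agent.BR.S0.PointDict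
open Fermat.Agent.BR.S0.Modular Fermat.Agent.BR.S0.RedHyp

section Abstract

variable {k Ft : Type*} [Field k] [Field Ft] [Algebra k Ft]

/-- The sum of the orders of the zeros of `G(x)` over the image of a family of points containing
all zeros. -/
theorem sum_image_eq (hFt : RiemannPkg k Ft) (x : Ft) {G : k[X]}
    (hy : aeval x G ≠ 0) {P : Divisor k Ft} (hP : ∀ v, P v = max 0 (-(v.ord x)))
    {ν : Type*} [Fintype ν] [DecidableEq (Place k Ft)] (z : ν → Place k Ft)
    (hzero : ∀ Q : Place k Ft, 0 < Q.ord (aeval x G) → ∃ e, Q = z e) :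
    ∑ v ∈ Finset.univ.image z, max (v.ord (aeval x G)) 0 =
      (G.natDegree : ℤ) * Divisor.degree P := by
  have := hFt.principal
  obtain ⟨P', hP', hsum⟩ := Fermat.Agent.BR.ZeroCount.sum_zeros_aeval hFt.deg_one x hy (Finset.univ.image z) (by
    intro v hv
    obtain ⟨e, rfl⟩ := hzero v hv
    exact Finset.mem_image_of_mem z (Finset.mem_univ e))
  have hPP' : P' = P := by
    ext v
    rw [hP' v, hP v, max_comm]
  rw [hPP'] at hsum
  exact hsum

/-- **Equality case of the zero count.**  If all zeros of `G(x)` are among the points `z e`, of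
order at most `m`, and `m * card ν ≤ deg G * deg (x)_∞`, then `ord_{z e} G(x) = m` for all `e`. -/
theorem ord_eq_of_card_le (hFt : RiemannPkg k Ft) (x : Ft) {G : k[X]}
    (hy : aeval x G ≠ 0) {P : Divisor k Ft} (hP : ∀ v, P v = max 0 (-(v.ord x)))
    {ν : Type*} [Fintype ν] (z : ν → Place k Ft)
    (hzero : ∀ Q : Place k Ft, 0 < Q.ord (aeval x G) → ∃ e, Q = z e)
    {m : ℕ} (hord : ∀ e, (z e).ord (aeval x G) ≤ m)
    (hcard : (m : ℤ) * (Fintype.card ν : ℤ) ≤ (G.natDegree : ℤ) * Divisor.degree P) :
    ∀ e, (z e).ord (aeval x G) = m := by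
  classical
  intro e₀
  by_contra hne
  have hlt : (z e₀).ord (aeval x G) < m := lt_of_le_of_ne (hord e₀) hne
  have hsum := sum_image_eq hFt x hy hP z hzero
  set S : Finset (Place k Ft) := Finset.univ.image z with hS
  have hm : (0 : ℤ) ≤ (m : ℤ) := Int.natCast_nonneg m
  have hmpos : (0 : ℤ) < (m : ℤ) ∨ (m : ℤ) = 0 := by omega
  have h1 : ∑ v ∈ S, max (v.ord (aeval x G)) 0 < ∑ _v ∈ S, (m : ℤ) ∨
      (∑ v ∈ S, max (v.ord (aeval x G)) 0 ≤ ∑ _v ∈ S, (m : ℤ) ∧ (m : ℤ) = 0) := by
    rcases hmpos with hmp | hm0
    · left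
      refine Finset.sum_lt_sum (fun v hv => ?_) ⟨z e₀, Finset.mem_image_of_mem z (Finset.mem_univ e₀), ?_⟩
      · obtain ⟨e, -, rfl⟩ := Finset.mem_image.mp hv
        exact max_le (hord e) hm
      · exact max_lt hlt hmp
    · right
      refine ⟨Finset.sum_le_sum fun v hv => ?_, hm0⟩
      obtain ⟨e, -, rfl⟩ := Finset.mem_image.mp hv
      exact max_le (hord e) hm
  have h2 : (S.card : ℤ) ≤ (Fintype.card ν : ℤ) := by
    exact_mod_cast Finset.card_image_le.trans (le_of_eq Finset.card_univ)
  rw [Finset.sum_const, nsmul_eq_mul, hsum] at h1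
  rcases h1 with h1 | ⟨h1, hm0⟩
  · nlinarith
  · -- `m = 0`: then `ord < 0` at `z e₀`, but the sum of non-negative terms is `0`
    rw [hm0] at hcard h1
    have h3 : (z e₀).ord (aeval x G) < 0 := by rw [hm0] at hlt; exact hlt
    -- nothing to contradict from the count: use `hord`/`hlt` directly
    have h4 : (G.natDegree : ℤ) * Divisor.degree P = 0 := by
      have h5 : 0 ≤ ∑ v ∈ S, max (v.ord (aeval x G)) 0 :=
        Finset.sum_nonneg fun v _ => le_max_right _ _
      rw [hsum] at h5
      nlinarith
    -- `G(x)` has a pole at `z e₀`, so `x` has a pole there, so `deg (x)_∞ > 0` and `deg G > 0`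
    have hG : G ≠ 0 := by
      rintro rfl
      simp at hy
    have hxneg : (z e₀).ord x < 0 := by
      by_contra hx
      push Not at hx
      exact absurd (Fermat.Agent.BR.ZeroCount.ord_aeval_nonneg (z e₀) hx G) (not_le.mpr h3)
    have hdegG : G.natDegree ≠ 0 := by
      intro h0
      rw [Fermat.Agent.BR.ZeroCount.ord_aeval_eq_mul (z e₀) hxneg hG, h0] at h3
      simp at h3
    have hPpos : 0 < Divisor.degree P := by
      have hPnn : ∀ v, 0 ≤ P v := fun v => by rw [hP v]; exact le_max_left _ _
      have hPe : 0 < P (z e₀) := by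
        rw [hP (z e₀)]
        exact lt_max_of_lt_right (by omega)
      unfold Divisor.degree
      rw [Finsupp.liftAddHom_apply, Finsupp.sum]
      refine Finset.sum_pos' (fun v _ => ?_) ⟨z e₀, ?_, ?_⟩
      · rw [AddMonoidHom.mulRight_apply, hFt.deg_one v]
        simpa using hPnn v
      · rw [Finsupp.mem_support_iff]
        exact ne_of_gt hPe
      · rw [AddMonoidHom.mulRight_apply, hFt.deg_one (z e₀)]
        simpa using hPe
    have hGpos : (0 : ℤ) < (G.natDegree : ℤ) := by
      exact_mod_cast Nat.pos_of_ne_zero hdegG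
    have := mul_pos hGpos hPpos
    omega

/-- **Equality case of the zero count, distinctness.**  Under the same hypotheses with `0 < m`, the
points `z e` are pairwise distinct. -/
theorem injective_of_card_le (hFt : RiemannPkg k Ft) (x : Ft) {G : k[X]}
    (hy : aeval x G ≠ 0) {P : Divisor k Ft} (hP : ∀ v, P v = max 0 (-(v.ord x)))
    {ν : Type*} [Fintype ν] (z : ν → Place k Ft)
    (hzero : ∀ Q : Place k Ft, 0 < Q.ord (aeval x G) → ∃ e, Q = z e)
    {m : ℕ} (hm : 0 < m) (hord : ∀ e, (z e).ord (aeval x G) ≤ m)
    (hcard : (m : ℤ) * (Fintype.card ν : ℤ) ≤ (G.natDegree : ℤ) * Divisor.degree P) :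
    Function.Injective z := by
  classical
  have hsum := sum_image_eq hFt x hy hP z hzero
  set S : Finset (Place k Ft) := Finset.univ.image z with hS
  have hm0 : (0 : ℤ) < (m : ℤ) := by exact_mod_cast hm
  have h1 : ∑ v ∈ S, max (v.ord (aeval x G)) 0 ≤ ∑ _v ∈ S, (m : ℤ) := by
    refine Finset.sum_le_sum fun v hv => ?_
    obtain ⟨e, -, rfl⟩ := Finset.mem_image.mp hv
    exact max_le (hord e) hm0.le
  rw [Finset.sum_const, nsmul_eq_mul, hsum] at h1
  have h2 : (Fintype.card ν : ℤ) ≤ (S.card : ℤ) := by
    have : (m : ℤ) * (Fintype.card ν : ℤ) ≤ (m : ℤ) * (S.card : ℤ) := by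
      rw [mul_comm (m : ℤ) (S.card : ℤ)]
      exact hcard.trans h1
    exact le_of_mul_le_mul_left this hm0
  have h3 : (Finset.univ : Finset ν).card ≤ (Finset.univ.image z).card := by
    rw [Finset.card_univ]
    exact_mod_cast h2
  have h4 : (Finset.univ.image z).card = (Finset.univ : Finset ν).card :=
    le_antisymm Finset.card_image_le h3
  have h5 := Finset.card_image_iff.mp h4
  intro a b hab
  exact h5 (Finset.mem_coe.mpr (Finset.mem_univ a)) (Finset.mem_coe.mpr (Finset.mem_univ b)) hab

end Abstract

section Modular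

variable {M q : ℕ} [NeZero M] [hq : Fact q.Prime]
variable (B : ValuationSubring (AlgebraicClosure ℚ)) (hB : B.LiesOverPrime q) (hqM : ¬ q ∣ M)

local notation "kB" => IsLocalRing.ResidueField B
local notation "FtM" => modularFunctionFieldFullC (IsLocalRing.ResidueField B) M
local notation "Kb" => AlgebraicClosure ℚ

/-- The crossings of the two-component model form a finite set. -/
theorem finite_crossing : Finite (Crossing (chartDataModular B hB hqM)) :=
  Modular.finite_crossing
    (atlasHyp_modular B hB hqM (Fermat.Agent.BR.S0.GeomFinal.geomInputs_modular_final B hB hqM))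
    (TB_mem_chartFin M q)

/-- The number of crossings of the two-component model of `X₀(qM)` at `q`, `M` without elliptic
points: `12 card ν = (q - 1) ψ(M)`. -/
theorem twelve_mul_card (h2 : nuTwo M = 0) (h3 : nuThree M = 0)
    [Fintype (Crossing (chartDataModular B hB hqM))] :
    12 * (Fintype.card (Crossing (chartDataModular B hB hqM)) : ℚ) =
      ((q : ℚ) - 1) * (dedekindPsi M : ℚ) := by
  haveI := charP_res q B hB
  haveI : IsAlgClosed (ResidueField B) := Fermat.Agent.Val.residueField_isAlgClosed B
  have hzero := ThickFinal.hzero_modular B hB hqM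
  have hord := ThickFinal.hord_modular B hB hqM
  have hlow := Modular.lower_bound (hB := hB) (hqM := hqM) hzero hord
  have hne := Modular.nonempty_crossing hlow
  have hcard := card_eq_nodeCount_of_le M q B hB hqM
    (Fermat.Agent.BR.Final.setupFinal B hB hqM hne) h2 h3 hlow
  rw [hcard, nodeCount_of_no_elliptic q h2 h3]
  ring

/-- **Thickness exactly one, order form.**  On the two-component model of `X₀(qM)` at `q`, `M`
without elliptic points, `T̄₁ = H(j̃)` vanishes to order exactly `12` at every crossing. -/
theorem thickness_one (h2 : nuTwo M = 0) (h3 : nuThree M = 0) :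
    haveI := charP_res q B hB
    ∀ e : Crossing (chartDataModular B hB hqM),
      (z₁ (chartDataModular B hB hqM) e).ord (aeval (jFullC kB M) (TbarPolyK kB q)) = 12 := by
  haveI := charP_res q B hB
  haveI : Finite (Crossing (chartDataModular B hB hqM)) := finite_crossing B hB hqM
  letI : Fintype (Crossing (chartDataModular B hB hqM)) := Fintype.ofFinite _
  have hzero := ThickFinal.hzero_modular B hB hqM
  have hord := ThickFinal.hord_modular B hB hqM
  have hcard := twelve_mul_card B hB hqM h2 h3
  have hH0 := aeval_jFullC_ne_zero M q B hB hqM (TbarPolyK kB q) (TbarPolyK_natDegree kB q)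
  have hFt := Fermat.Agent.Val.riemannPkg_modL_residueField M hqM B hB
  have := hFt.principal
  have : IsAlgClosed (ResidueField B) := Fermat.Agent.Val.residueField_isAlgClosed B
  have hdeg := Fermat.Agent.Good.degree_poleDiv_of_isSepVarS
    (Fermat.Agent.Val.isSepVarS_jFullC_residueField M hqM B hB)
  have hq1 : 1 ≤ q := hq.out.one_le
  have key := ord_eq_of_card_le hFt (jFullC kB M) hH0
    (P := Fermat.Agent.Good.GenusCharts.poleDiv kB (jFullC kB M))
    (fun v => Fermat.Agent.Good.GenusCharts.poleDiv_apply _ v) (z₁ (chartDataModular B hB hqM))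
    (fun Q hQ => by
      obtain ⟨Q₂, h⟩ := hzero Q hQ
      exact ⟨⟨(Q, Q₂), h⟩, rfl⟩) (m := 12) (by exact_mod_cast hord) (by
      rw [hdeg, TbarPolyK_natDegree kB q]
      have h' : (((12 : ℕ) : ℤ) : ℚ) *
          (((Fintype.card (Crossing (chartDataModular B hB hqM)) : ℕ) : ℤ) : ℚ) ≤
          (((q - 1 : ℕ) : ℤ) : ℚ) * (((dedekindPsi M : ℕ) : ℤ) : ℚ) := by
        push_cast [Nat.cast_sub hq1]
        exact le_of_eq hcard
      exact_mod_cast h')
  intro e
  exact_mod_cast key e

/-- The crossings are pairwise distinct points of the component `0`. -/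
theorem z₁_injective (h2 : nuTwo M = 0) (h3 : nuThree M = 0) :
    Function.Injective (z₁ (chartDataModular B hB hqM)) := by
  haveI := charP_res q B hB
  haveI : Finite (Crossing (chartDataModular B hB hqM)) := finite_crossing B hB hqM
  letI : Fintype (Crossing (chartDataModular B hB hqM)) := Fintype.ofFinite _
  have hzero := ThickFinal.hzero_modular B hB hqM
  have hord := ThickFinal.hord_modular B hB hqM
  have hcard := twelve_mul_card B hB hqM h2 h3
  have hH0 := aeval_jFullC_ne_zero M q B hB hqM (TbarPolyK kB q) (TbarPolyK_natDegree kB q)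
  have hFt := Fermat.Agent.Val.riemannPkg_modL_residueField M hqM B hB
  have := hFt.principal
  have : IsAlgClosed (ResidueField B) := Fermat.Agent.Val.residueField_isAlgClosed B
  have hdeg := Fermat.Agent.Good.degree_poleDiv_of_isSepVarS
    (Fermat.Agent.Val.isSepVarS_jFullC_residueField M hqM B hB)
  have hq1 : 1 ≤ q := hq.out.one_le
  exact injective_of_card_le hFt (jFullC kB M) hH0
    (P := Fermat.Agent.Good.GenusCharts.poleDiv kB (jFullC kB M))
    (fun v => Fermat.Agent.Good.GenusCharts.poleDiv_apply _ v) (z₁ (chartDataModular B hB hqM))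
    (fun Q hQ => by
      obtain ⟨Q₂, h⟩ := hzero Q hQ
      exact ⟨⟨(Q, Q₂), h⟩, rfl⟩) (m := 12) (by norm_num) (by exact_mod_cast hord) (by
      rw [hdeg, TbarPolyK_natDegree kB q]
      have h' : (((12 : ℕ) : ℤ) : ℚ) *
          (((Fintype.card (Crossing (chartDataModular B hB hqM)) : ℕ) : ℤ) : ℚ) ≤
          (((q - 1 : ℕ) : ℤ) : ℚ) * (((dedekindPsi M : ℕ) : ℤ) : ℚ) := by
        push_cast [Nat.cast_sub hq1]
        exact le_of_eq hcard
      exact_mod_cast h')

end Modular

end Fermat.Agent.BR3.ThickOneCount
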