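import Mathlib
import Fermat.Agent.BR.S0.Thick
import Fermat.Agent.BR.S0.CrossingModelLevel
import Fermat.Agent.BR.S0.AnnulusLevels

/-!
# Program C (S36), node (C-THICK1), part 2: the thickness of a node is intrinsic (abstract)

* `val_pow_eq_of_nodeData`, `mul_eq_of_nodeData` : the statement of `Thick.exists_thickness` /
  `Thick.exists_ord_eq` for a GIVEN `NodeLemma.NodeData` in ANY localization `O` of the normal
  model at the crossing point: if `u' v' = q ^ e ε` with `ε` a unit and `ord_z T̄₁ = j`, then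
  `e * j = m` (`T T' = q ^ m`). In particular the exponent `e` does not depend on the node
  coordinates;
* `CrossingModel.nodeData_of_base` : the converse of `CrossingModel.base_of_nodeData`: the
  coordinates of a `CrossingFamily` (fields `u_nonunit₁`, `v_nonunit₂`, `max1`, `max2`) give
  `NodeLemma.NodeData` in the local ring `M.loc`;
* `NodeLevel.exists_thick_eq` : at a level of the tube of a crossing over a valuation ring of rank
  one, `thick = ϖ ^ n * c` with `c` a unit constant of the level (`A ∩ K'` is a discrete valuation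
  ring with uniformizer `ϖ`: field `unif_max`).
-/

set_option autoImplicit false
set_option linter.unusedSectionVars false
set_option linter.style.haveILetI false

namespace Fermat.Agent.BR3.ThickOneLocal

open IsLocalRing WithZero IsDedekindDomain AlgebraicCurve Fermat.Agent.X0 Fermat.Agent.Red
  Fermat.Agent.BR.NodeLemma Fermat.Agent.BR.NodeThickness Fermat.Agent.BR.SpecialFibre
  Fermat.Agent.BR.S0 Fermat.Agent.BR.S0.Thick Fermat.Agent.BR.Centre

section Global

variable {B : Type*} [CommRing B] {q : B} {p1 p2 : Ideal B}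
  {D : Type*} [CommRing D] [IsDedekindDomain D] {Ft : Type*} [Field Ft] [Algebra D Ft]
  [IsFractionRing D Ft]
variable [IsDomain B] [IsNoetherianRing B] [IsIntegrallyClosed B]

set_option maxHeartbeats 800000 in
/-- **The thickness is intrinsic, valuation form.**  For ANY node coordinates `u' v' = q ^ e ε` in
ANY localization `O` of the model at the crossing point `n` under `w`:
`w (T̄₁) ^ e = exp (-m)`. -/
theorem val_pow_eq_of_nodeData (h : TwoComponents q p1 p2) {ρ : B →+* D}
    (hρ : Function.Surjective ρ) (hker : RingHom.ker ρ = p1) (w : HeightOneSpectrum D)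
    (n : Ideal B) [n.IsPrime] (hn : n = pointOf ρ w) (hp2 : p2 ≤ n)
    {T T' : B} {m : ℕ} (hm : m ≠ 0) (hTT' : T * T' = q ^ m) (hT1 : T ∉ p1) (hT2 : T' ∉ p2)
    (O : Type*) [CommRing O] [Algebra B O] [IsLocalization.AtPrime O n] [IsLocalRing O]
    {u' v' ε : O} {e : ℕ}
    (hN : NodeData (algebraMap B O q) u' v' (p1.map (algebraMap B O)) (p2.map (algebraMap B O)))
    (hε : IsUnit ε) (huv : u' * v' = algebraMap B O q ^ e * ε) :
    w.valuation Ft (algebraMap D Ft (ρ T)) ^ e = exp (-(m : ℤ)) := by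
  classical
  subst hn
  set n : Ideal B := pointOf ρ w with hn
  have hp1 : p1 ≤ n := le_pointOf hker w
  have hp1n : p1 ≠ n := ne_pointOf hρ hker w
  have hT'1 : T' ∈ p1 := by
    have hTT'' : T' * T = q ^ m := by rw [mul_comm]; exact hTT'
    exact h.symm.mem_p2_of_mul_eq hm hTT'' hT1
  have hp2n : p2 ≠ n := by
    intro heq
    exact hT2 (heq ▸ hp1 hT'1)
  have hDom : IsDomain O :=
    IsLocalization.isDomain_of_le_nonZeroDivisors O n.primeCompl_le_nonZeroDivisors
  have hD := h.unitData n O hp1 hp2 hp1n hp2n hTT' hT1 hT2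
  -- the reduction `O → Ft`
  set g : B →+* Ft := (algebraMap D Ft).comp ρ with hg
  have hgval_le : ∀ b : B, w.valuation Ft (g b) ≤ 1 := fun b => w.valuation_le_one (ρ b)
  have hgval_lt : ∀ b : B, w.valuation Ft (g b) < 1 ↔ b ∈ n := fun b =>
    w.valuation_lt_one_iff_mem (ρ b)
  have hgval_one : ∀ b : B, b ∉ n → w.valuation Ft (g b) = 1 := fun b hb =>
    le_antisymm (hgval_le b) (not_lt.mp fun hlt => hb ((hgval_lt b).mp hlt))
  have hgunit : ∀ y : n.primeCompl, IsUnit (g y) := by
    intro y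
    have h1 : w.valuation Ft (g y) = 1 := hgval_one y y.2
    have h0 : g y ≠ 0 := by
      intro h0
      rw [h0, map_zero] at h1
      exact zero_ne_one h1
    exact isUnit_iff_ne_zero.mpr h0
  set ψ : O →+* Ft := IsLocalization.lift (M := n.primeCompl) (S := O) hgunit with hψ
  have hψι : ∀ b : B, ψ (algebraMap B O b) = g b := fun b => IsLocalization.lift_eq hgunit b
  have hψmk : ∀ (b : B) (s : n.primeCompl), w.valuation Ft (ψ (IsLocalization.mk' O b s)) =
      w.valuation Ft (g b) := by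
    intro b s
    have h1 : ψ (IsLocalization.mk' O b s) * g s = g b := by
      rw [← hψι s, ← map_mul, IsLocalization.mk'_spec]
      exact hψι b
    have h2 := congrArg (w.valuation Ft) h1
    rw [map_mul, hgval_one s s.2, mul_one] at h2
    exact h2
  have hle : ∀ o : O, w.valuation Ft (ψ o) ≤ 1 := by
    intro o
    obtain ⟨b, s, rfl⟩ := IsLocalization.exists_mk'_eq n.primeCompl o
    rw [hψmk]
    exact hgval_le b
  have hlt : ∀ o ∈ maximalIdeal O, w.valuation Ft (ψ o) < 1 := by
    intro o ho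
    obtain ⟨b, s, rfl⟩ := IsLocalization.exists_mk'_eq n.primeCompl o
    rw [hψmk, hgval_lt]
    exact (IsLocalization.AtPrime.mk'_mem_maximal_iff O n b s).mp ho
  have hunif : ∃ x ∈ maximalIdeal O, w.valuation Ft (ψ x) = exp (-1 : ℤ) := by
    obtain ⟨π, hπ⟩ := w.intValuation_exists_uniformizer
    obtain ⟨b, rfl⟩ := hρ π
    have hval : w.valuation Ft (g b) = exp (-1 : ℤ) := by
      rw [hg, RingHom.comp_apply, HeightOneSpectrum.valuation_of_algebraMap, hπ]
    have hbn : b ∈ n := by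
      rw [← hgval_lt, hval, ← exp_zero, exp_lt_exp]
      norm_num
    refine ⟨algebraMap B O b, ?_, by rw [hψι, hval]⟩
    exact (IsLocalization.AtPrime.to_map_mem_maximal_iff O n b).mpr hbn
  have hkerψ : ∀ p ∈ p1.map (algebraMap B O), ψ p = 0 := by
    have hle' : p1.map (algebraMap B O) ≤ RingHom.ker ψ := by
      rw [Ideal.map_le_iff_le_comap]
      intro b hb
      rw [Ideal.mem_comap, RingHom.mem_ker, hψι, hg, RingHom.comp_apply]
      rw [← hker, RingHom.mem_ker] at hb
      rw [hb, map_zero]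
    exact fun p hp => RingHom.mem_ker.mp (hle' hp)
  have hkey := val_pow_eq hD hN hε huv ψ (w.valuation Ft) hle hlt hunif hkerψ
  rw [hψι] at hkey
  exact hkey

variable {k : Type*} [Field k] [Algebra k D] [Algebra k Ft] [IsScalarTower k D Ft]

/-- **The thickness is intrinsic, place form.**  For ANY node coordinates `u' v' = q ^ e ε` in ANY
localization `O` of the model at the crossing point under `w`, if `ord_w T̄₁ = j` then
`e * j = m`. -/
theorem mul_eq_of_nodeData (h : TwoComponents q p1 p2) {ρ : B →+* D}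
    (hρ : Function.Surjective ρ) (hker : RingHom.ker ρ = p1) (w : HeightOneSpectrum D)
    (n : Ideal B) [n.IsPrime] (hn : n = pointOf ρ w) (hp2 : p2 ≤ n)
    {T T' : B} {m : ℕ} (hm : m ≠ 0) (hTT' : T * T' = q ^ m) (hT1 : T ∉ p1) (hT2 : T' ∉ p2)
    (O : Type*) [CommRing O] [Algebra B O] [IsLocalization.AtPrime O n] [IsLocalRing O]
    {u' v' ε : O} {e : ℕ}
    (hN : NodeData (algebraMap B O q) u' v' (p1.map (algebraMap B O)) (p2.map (algebraMap B O)))
    (hε : IsUnit ε) (huv : u' * v' = algebraMap B O q ^ e * ε) {j : ℤ}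
    (hj : (Place.ofHeightOneSpectrum (K := k) (F := Ft) w).ord (algebraMap D Ft (ρ T)) = j) :
    (e : ℤ) * j = (m : ℤ) := by
  have hkey := val_pow_eq_of_nodeData (Ft := Ft) h hρ hker w n hn hp2 hm hTT' hT1 hT2 O hN hε huv
  rw [Place.ord_ofHeightOneSpectrum] at hj
  set y : ℤᵐ⁰ := w.valuation Ft (algebraMap D Ft (ρ T)) with hy
  have hy0 : y ≠ 0 := by
    intro h0
    rcases Nat.eq_zero_or_pos e with he | he
    · rw [he, pow_zero] at hkey
      have h1 : (1 : ℤᵐ⁰) = exp (0 : ℤ) := exp_zero.symm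
      rw [h1] at hkey
      have h2 := exp_injective hkey
      omega
    · rw [h0, zero_pow (by omega)] at hkey
      exact exp_ne_zero hkey.symm
  have h1 : exp ((e : ℕ) • log y) = exp (-(m : ℤ)) := by
    rw [exp_nsmul, exp_log hy0]
    exact hkey
  have h2 := exp_injective h1
  rw [nsmul_eq_mul] at h2
  rw [← hj]
  linarith

end Global

/-! ### From the coordinates of a crossing family to `NodeData` -/

section Model

variable {K F k : Type*} [Field K] [Field F] [Algebra K F] [Field k]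
  {Ft₁ Ft₂ : Type*} [Field Ft₁] [Algebra k Ft₁] [Field Ft₂] [Algebra k Ft₂]
  {A : ValuationSubring K} {π : A →+* k} {O₁ O₂ : ValuationSubring F}
  {res₁ : O₁ →+* Ft₁} {res₂ : O₂ →+* Ft₂} {Q₁ : Place k Ft₁} {Q₂ : Place k Ft₂}
  {T : Set (Place K F)} {C : Subring F} {ϖ : K}

/-- **`NodeLemma.NodeData` in the local ring `M.loc` from the base-level coordinates of a
`CrossingFamily`** (converse of `CrossingModel.base_of_nodeData`). -/
theorem nodeData_of_base (M : CrossingModel A π O₁ O₂ res₁ res₂ Q₁ Q₂ T C ϖ) [IsLocalRing M.loc]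
    (hres0₁ : ∀ x : O₁, (x : F) ∈ O₁.nonunits → res₁ x = 0)
    (hres0₂ : ∀ x : O₂, (x : F) ∈ O₂.nonunits → res₂ x = 0) {P1 P2 : Ideal C}
    (hP1 : ∀ x : C, x ∈ P1 ↔ (x : F) ∈ O₁.nonunits)
    (hP2 : ∀ x : C, x ∈ P2 ↔ (x : F) ∈ O₂.nonunits) {q : M.loc}
    (hinter : P1.map (algebraMap C M.loc) ⊓ P2.map (algebraMap C M.loc) = Ideal.span {q})
    {u v : F} (hu : u ∈ M.loc) (hv : v ∈ M.loc)
    (hu₁ : u ∈ O₁.nonunits) (hv₂ : v ∈ O₂.nonunits)
    (max1 : ∀ x : M.loc, ¬ IsUnit x → ∃ c : M.loc, (x : F) - (c : F) * v ∈ O₁.nonunits)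
    (max2 : ∀ x : M.loc, ¬ IsUnit x → ∃ c : M.loc, (x : F) - (c : F) * u ∈ O₂.nonunits) :
    NodeData q (⟨u, hu⟩ : M.loc) (⟨v, hv⟩ : M.loc) (P1.map (algebraMap C M.loc))
      (P2.map (algebraMap C M.loc)) := by
  have e1 := M.map_eq_p₁ hres0₁ hP1
  have e2 := M.map_eq_p₂ hres0₂ hP2
  rw [e1, e2] at hinter ⊢
  -- the vertical primes lie in the maximal ideal
  have hp1m : M.p₁ hres0₁ ≤ maximalIdeal M.loc := by
    have := M.p₁_isPrime hres0₁
    exact IsLocalRing.le_maximalIdeal this.ne_top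
  have hp2m : M.p₂ hres0₂ ≤ maximalIdeal M.loc := by
    have := M.p₂_isPrime hres0₂
    exact IsLocalRing.le_maximalIdeal this.ne_top
  have hu' : (⟨u, hu⟩ : M.loc) ∈ M.p₁ hres0₁ := hu₁
  have hv' : (⟨v, hv⟩ : M.loc) ∈ M.p₂ hres0₂ := hv₂
  refine ⟨hinter, hu', hv', ?_, ?_⟩
  · apply le_antisymm
    · intro x hx
      have hxu : ¬ IsUnit x := (mem_maximalIdeal x).mp hx
      obtain ⟨c, hc⟩ := max1 x hxu
      have hy : x - c * ⟨v, hv⟩ ∈ M.p₁ hres0₁ := hc
      have : x = (x - c * ⟨v, hv⟩) + c * ⟨v, hv⟩ := by ring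
      rw [this]
      exact Submodule.add_mem_sup hy (Ideal.mem_span_singleton'.mpr ⟨c, rfl⟩)
    · refine sup_le hp1m ?_
      rw [Ideal.span_singleton_le_iff_mem]
      exact hp2m hv'
  · apply le_antisymm
    · intro x hx
      have hxu : ¬ IsUnit x := (mem_maximalIdeal x).mp hx
      obtain ⟨c, hc⟩ := max2 x hxu
      have hy : x - c * ⟨u, hu⟩ ∈ M.p₂ hres0₂ := hc
      have : x = (x - c * ⟨u, hu⟩) + c * ⟨u, hu⟩ := by ring
      rw [this]
      exact Submodule.add_mem_sup hy (Ideal.mem_span_singleton'.mpr ⟨c, rfl⟩)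
    · refine sup_le hp2m ?_
      rw [Ideal.span_singleton_le_iff_mem]
      exact hp1m hu'

end Model

/-! ### The thickness element is a power of the uniformizer times a unit constant -/

section Level

variable {K F : Type*} [Field K] [Field F] [Algebra K F]
  {A : ValuationSubring K} {T : Set (Place K F)} {u v ε₀ : F} {thick : K}

/-- **`thick = ϖ ^ n * c`, `c` a unit constant of the level.**  At a level of the tube of a
crossing point over a valuation ring of rank one, the constants `A ∩ K'` of the level form a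
discrete valuation ring with uniformizer `ϖ` (field `unif_max`). -/
theorem exists_thick_eq (N : NodeLevel A T u v ε₀ thick) (hA : IsRankOne A) (hne : thick ≠ 0)
    (hlt : A.valuation thick < 1) :
    ∃ (n : ℕ) (c : K), 1 ≤ n ∧ c ∈ N.K' ∧ A.valuation c = 1 ∧ thick = N.ϖ ^ n * c := by
  classical
  have hϖA : N.ϖ ∈ A := (A.valuation_le_one_iff _).mp N.unif_lt.le
  have htA : thick ∈ A := (A.valuation_le_one_iff _).mp hlt.le
  have hϖnu : ¬ IsUnit (⟨N.ϖ, hϖA⟩ : A) := by
    intro hu
    have := (A.valuation_eq_one_iff ⟨N.ϖ, hϖA⟩).mp hu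
    exact absurd this (ne_of_lt N.unif_lt)
  have htne : (⟨thick, htA⟩ : A) ≠ 0 := fun h => hne (congrArg Subtype.val h)
  obtain ⟨n₀, hn₀⟩ := hA ⟨N.ϖ, hϖA⟩ hϖnu ⟨thick, htA⟩ htne
  -- `v(ϖ)^n₀ ≤ v(thick)`
  have hex : ∃ n : ℕ, A.valuation N.ϖ ^ n ≤ A.valuation thick := by
    refine ⟨n₀, ?_⟩
    obtain ⟨c, hc⟩ := hn₀
    have h1 : (N.ϖ : K) ^ n₀ = thick * (c : K) := by
      have := congrArg Subtype.val hc
      simpa using this
    rw [← map_pow, h1, map_mul]
    calc A.valuation thick * A.valuation (c : K) ≤ A.valuation thick * 1 :=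
          mul_le_mul' le_rfl ((A.valuation_le_one_iff _).mpr c.2)
      _ = A.valuation thick := mul_one _
  set n₁ := Nat.find hex with hn₁
  have hn₁le : A.valuation N.ϖ ^ n₁ ≤ A.valuation thick := Nat.find_spec hex
  have hn₁pos : 1 ≤ n₁ := by
    by_contra h0
    have h0' : n₁ = 0 := by omega
    rw [h0', pow_zero] at hn₁le
    exact absurd hlt (not_lt.mpr hn₁le)
  have hmin : A.valuation thick < A.valuation N.ϖ ^ (n₁ - 1) := by
    have := Nat.find_min hex (m := n₁ - 1) (by omega)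
    exact not_le.mp this
  have hϖ0 : A.valuation N.ϖ ≠ 0 := (Valuation.ne_zero_iff _).mpr N.unif_ne
  have hϖpos : 0 < A.valuation N.ϖ := zero_lt_iff.mpr hϖ0
  -- `c₁ = thick / ϖ^(n₁-1)` is a constant of the level of valuation `< 1`
  have hc₁K : thick / N.ϖ ^ (n₁ - 1) ∈ N.K' :=
    N.K'.div_mem N.thick_mem (N.K'.pow_mem N.unif_mem _)
  have hc₁lt : A.valuation (thick / N.ϖ ^ (n₁ - 1)) < 1 := by
    rw [map_div₀, map_pow]
    exact (div_lt_one₀ (pow_pos hϖpos _)).mpr hmin
  have hc₁le := N.unif_max _ hc₁K hc₁lt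
  rw [map_div₀, map_pow, div_le_iff₀ (pow_pos hϖpos _), ← pow_succ',
    show n₁ - 1 + 1 = n₁ by omega] at hc₁le
  have hval : A.valuation thick = A.valuation N.ϖ ^ n₁ := le_antisymm hc₁le hn₁le
  refine ⟨n₁, thick / N.ϖ ^ n₁, hn₁pos, N.K'.div_mem N.thick_mem (N.K'.pow_mem N.unif_mem _), ?_, ?_⟩
  · rw [map_div₀, map_pow, hval, div_self (pow_ne_zero _ hϖ0)]
  · rw [mul_div_cancel₀ _ (pow_ne_zero _ N.unif_ne)]

end Level

end Fermat.Agent.BR3.ThickOneLocal
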