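import Mathlib
import Fermat.Agent.BR3.ThickOneCount
import Fermat.Agent.BR3.ThickOneLocal
import Fermat.Agent.BR.Inst.AnnulusInstFinal

/-!
# Program C (S36), node (C-THICK1), part 3: ANY node coordinates at a crossing of `X₀(qM)` have
`u v = q · unit`

* `exponent_eq_of_levelHyp` : at one level `(K', W, π')` of the tower of normal models
  (`LevelsInst.LevelHyp`, `q = π'^e₀ ε`), at a crossing point `Q₁` of the component `0` with
  `ord_{Q₁} T̄₁ = 12`: for ANY transversal coordinates `u`, `v` of the local ring `Mo.loc` of a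
  crossing model (`u ∈ 𝔪_{O₁}`, `v ∈ 𝔪_{O₂}`, `max1`, `max2`) with `u v = π'^n η`, `η` a unit of the
  local ring, the exponent is `n = e₀`;
* `valuation_thick_of_crossingFamily` : for ANY `S0.CrossingFamily` over the tower of levels at a
  crossing `e` of the two-component model of `X₀(qM)` at `q` (`M` without elliptic points):
  `|thick| = |q|`.
-/

set_option autoImplicit false
set_option linter.unusedSectionVars false
set_option linter.style.haveILetI false
set_option synthInstance.maxHeartbeats 400000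
set_option maxHeartbeats 1600000


/- S36 build-time patch: file-local shortcut instances. They only shorten instance search;
each is the instance that the search finds anyway (reducible, same terms after unfolding). -/
noncomputable local instance (priority := 100000) Fermat.Agent.BR3.FastInst.instAlgFullC_ThickOneFamily
    {k : Type*} [Field k] (N : ℕ) :
    Algebra k ↥(ModularCurve.modularFunctionFieldFullC k N) := inferInstance
noncomputable local instance (priority := 100000) Fermat.Agent.BR3.FastInst.instFieldFullC_ThickOneFamily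
    {k : Type*} [Field k] (N : ℕ) :
    Field ↥(ModularCurve.modularFunctionFieldFullC k N) := inferInstance
noncomputable local instance (priority := 100000) Fermat.Agent.BR3.FastInst.instAlgLaurent_ThickOneFamily
    {k : Type*} [Field k] : Algebra k (LaurentSeries k) := inferInstance

namespace Fermat.Agent.BR3.ThickOneFamily

open AlgebraicCurve ModularCurve IsLocalRing Polynomial IsDedekindDomain
open Fermat.Agent.Red Fermat.Agent.Val Fermat.Agent.X0 Fermat.Agent.BR.SS Fermat.Agent.BR.Refine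
open Fermat.Agent.BR.Centre Fermat.Agent.BR.ConstRedTwo Fermat.Agent.BR.ModUnit
open Fermat.Agent.BR.S0 Fermat.Agent.BR.S0.RedModular Fermat.Agent.BR.S0.PointDict
open Fermat.Agent.BR.S0.Modular Fermat.Agent.BR.S0.RedHyp
open Fermat.Agent.BR.S0.AnnulusChartOfLevels Fermat.Agent.BR.S0.SmoothAssembly
open Fermat.Agent.BR.UnramCycloTower Fermat.Agent.BR.Inst.Levels
open Fermat.Agent.BR.Inst.NormalModel Fermat.Agent.BR.Inst.LevelsInst
open Fermat.Agent.BR.Inst.ModUnitNode Fermat.Agent.BR.Inst.AnnulusBaseNode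
open Fermat.Agent.BR.TwoVal Fermat.Agent.BR.TwoValInst
open Fermat.Agent.BR.Inst.SpecIso Fermat.Agent.BR.Inst.AnnulusInst
open Fermat.Agent.BR.SpecialFibre Fermat.Agent.BR.NodeLemma
open Fermat.Agent.BR.S0.Thick Fermat.Agent.BR.S0.ThickInst
open Fermat.Agent.BR3.ThickOneLocal Fermat.Agent.BR3.ThickOneCount

variable {M q : ℕ} [NeZero M] [hq : Fact q.Prime]
variable {B : ValuationSubring Kb} {hB : B.LiesOverPrime q} {hqM : ¬ q ∣ M}

local notation "kB" => IsLocalRing.ResidueField B
local notation "FtM" => modularFunctionFieldFullC (IsLocalRing.ResidueField B) M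

section Level

variable {K' : Subfield Kb} {W : Subring Kb} {π' : Kb}
  {Q₁ Q₂ : Place (IsLocalRing.ResidueField B)
    (modularFunctionFieldFullC (IsLocalRing.ResidueField B) M)}
  {T : Set (Place Kb (Fb (M * q)))}

/-- the point of a crossing model is the point of the model under the height-one prime of the
coordinate ring `Ck M B` of the place `Q₁` -/
theorem point_eq_pointOf (Hl : LevelHyp B hB hqM K' W π')
    (Mo : CrossingModel B (residue B) (compW B hB hqM 0).O (compW B hB hqM 1).O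
      (compW B hB hqM 0).res (compW B hB hqM 1).res Q₁ Q₂ T (CQ M q W K') π')
    (w : haveI := isDedekindDomain_Ck B hB hqM; HeightOneSpectrum ↥(Ck M B))
    (hw : haveI := isDedekindDomain_Ck B hB hqM
      haveI := ThickInst.isFractionRing_Ck B hB hqM
      haveI := isScalarTower_Ck M B
      Place.ofHeightOneSpectrum (K := kB) (F := FtM) w = Q₁) :
    haveI := isDedekindDomain_Ck B hB hqM
    Mo.point = pointOf (red₁ Hl.modelHyp) w := by
  haveI := isDedekindDomain_Ck B hB hqM
  haveI := ThickInst.isFractionRing_Ck B hB hqM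
  haveI := isScalarTower_Ck M B
  subst hw
  ext x
  rw [Mo.mem_point_iff, adicValuation_lt_one_iff, Place.ord_ofHeightOneSpectrum]
  show _ ↔ red₁ Hl.modelHyp x ∈ w.asIdeal
  rw [← w.valuation_lt_one_iff_mem (K := FtM)]
  change _ ↔ w.valuation FtM ((compW B hB hqM 0).res ⟨x, Mo.le₁ x x.2⟩) < 1
  generalize (compW B hB hqM 0).res ⟨x, Mo.le₁ x x.2⟩ = y
  constructor
  · rintro (h0 | hpos)
    · rw [h0, map_zero]
      exact zero_lt_one
    · by_cases hy0 : y = 0
      · rw [hy0, map_zero]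
        exact zero_lt_one
      · have hv0 : w.valuation FtM y ≠ 0 := (Valuation.ne_zero_iff _).mpr hy0
        rw [← WithZero.exp_log hv0, ← WithZero.exp_zero, WithZero.exp_lt_exp]
        omega
  · intro hlt
    by_cases hy0 : y = 0
    · left
      exact hy0
    · right
      have hv0 : w.valuation FtM y ≠ 0 := (Valuation.ne_zero_iff _).mpr hy0
      rw [← WithZero.exp_log hv0, ← WithZero.exp_zero, WithZero.exp_lt_exp] at hlt
      omega

set_option maxSynthPendingDepth 3 in
/-- **The exponent of ANY node coordinates is the ramification index `e₀` of the level.** -/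
theorem exponent_eq_of_levelHyp (Hl : LevelHyp B hB hqM K' W π') {e₀ : ℕ} {ε : Kb}
    (hu : QUnif W π' q e₀ ε) (he₀ : e₀ ≠ 0)
    (Mo : CrossingModel B (residue B) (compW B hB hqM 0).O (compW B hB hqM 1).O
      (compW B hB hqM 0).res (compW B hB hqM 1).res Q₁ Q₂ T (CQ M q W K') π')
    (hord : haveI := charP_res q B hB
      Q₁.ord (aeval (jFullC kB M) (TbarPolyK kB q)) = 12)
    {u v η : Fb (M * q)} {n : ℕ} (hul : u ∈ Mo.loc) (hvl : v ∈ Mo.loc) (hη : η ∈ Mo.loc)
    (hη' : η⁻¹ ∈ Mo.loc) (huv : u * v = algebraMap Kb (Fb (M * q)) π' ^ n * η)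
    (hu₁ : u ∈ (compW B hB hqM 0).O.nonunits) (hv₂ : v ∈ (compW B hB hqM 1).O.nonunits)
    (max1 : ∀ x : Mo.loc, ¬ IsUnit x →
      ∃ c : Mo.loc, (x : Fb (M * q)) - (c : Fb (M * q)) * v ∈ (compW B hB hqM 0).O.nonunits)
    (max2 : ∀ x : Mo.loc, ¬ IsUnit x →
      ∃ c : Mo.loc, (x : Fb (M * q)) - (c : Fb (M * q)) * u ∈ (compW B hB hqM 1).O.nonunits) :
    n = e₀ := by
  haveI := charP_res q B hB
  haveI := isDedekindDomain_Ck B hB hqM
  haveI := ThickInst.isFractionRing_Ck B hB hqM
  haveI := isScalarTower_Ck M B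
  haveI := Mo.isLocalRing_loc
  have hval := Hl.hdvr
  have hFull : ∀ a ∈ B, ∃ a' ∈ (W : Set Kb), a - a' ∈ B.nonunits := Hl.full
  set Hm := Hl.modelHyp with hHm
  haveI := Hm.isNoetherianRing hval
  haveI := Hm.isIntegrallyClosed hval
  have hres0₁ : ∀ x : (compW B hB hqM 0).O, (x : Fb (M * q)) ∈ (compW B hB hqM 0).O.nonunits →
      (compW B hB hqM 0).res x = 0 :=
    fun y hy => (constRed_res_eq_zero_iff (compW B hB hqM 0) y).mpr hy
  have hres0₂ : ∀ x : (compW B hB hqM 1).O, (x : Fb (M * q)) ∈ (compW B hB hqM 1).O.nonunits →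
      (compW B hB hqM 1).res x = 0 :=
    fun y hy => (constRed_res_eq_zero_iff (compW B hB hqM 1) y).mpr hy
  have hpos : 0 < Q₁.ord (aeval (jFullC kB M) (TbarPolyK kB q)) := by
    rw [hord]
    norm_num
  obtain ⟨w, hwQ, hcross⟩ := exists_crossing_of_zero hFull hval Hm hu Q₁ hpos
  have hn : Mo.point = pointOf (red₁ Hm) w := point_eq_pointOf Hl Mo w hwQ
  have hp2 : Hm.P2 ≤ Mo.point := fun x hx =>
    Mo.mem_point_of_nonunits₂ hres0₂ x hx
  have hN := nodeData_of_base Mo hres0₁ hres0₂ (P1 := Hm.P1) (P2 := Hm.P2) (fun _ => Iff.rfl)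
    (fun _ => Iff.rfl) (Hm.twoComponents.map_inf_eq Mo.point Mo.loc) hul hvl hu₁ hv₂ max1 max2
  have hηu : IsUnit (⟨η, hη⟩ : Mo.loc) := by
    have hη0 : η ≠ 0 := by
      rintro rfl
      rw [mul_zero] at huv
      rcases mul_eq_zero.mp huv with rfl | rfl
      · have h1 := max2
        -- `u = 0`: then every non-unit lies in `𝔪_{O₂}`, in particular `v`... use `hN` instead
        have h2 := hN.max2
        have h3 : (⟨(0 : Fb (M * q)), hul⟩ : Mo.loc) = 0 := rfl
        rw [h3, Ideal.span_singleton_eq_bot.mpr rfl, sup_bot_eq] at h2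
        exact map_ne_maximalIdeal_of_ne Mo.point Mo.loc Hm.twoComponents.prime2 hp2
          (fun he => by
            have h21 : ¬ Hm.P2 ≤ Hm.P1 := Hl.crossingInput.not_P2_le_P1 Hl.sKron_mem
            have h12 : ¬ Hm.P1 ≤ Hm.P2 := Hl.crossingInput.not_P1_le_P2 Hl.tKron_mem
            have hp1 : Hm.P1 ≤ Mo.point := fun x hx => Mo.mem_point_of_nonunits₁ hres0₁ x hx
            exact h12 (he ▸ hp1)) h2.symm
      · have h2 := hN.max1
        have h3 : (⟨(0 : Fb (M * q)), hvl⟩ : Mo.loc) = 0 := rfl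
        have hp1 : Hm.P1 ≤ Mo.point := fun x hx => Mo.mem_point_of_nonunits₁ hres0₁ x hx
        rw [h3, Ideal.span_singleton_eq_bot.mpr rfl, sup_bot_eq] at h2
        exact map_ne_maximalIdeal_of_ne Mo.point Mo.loc Hm.twoComponents.prime1 hp1
          (fun he => by
            have h21 : ¬ Hm.P2 ≤ Hm.P1 := Hl.crossingInput.not_P2_le_P1 Hl.sKron_mem
            exact h21 (he ▸ hp2)) h2.symm
    exact IsUnit.of_mul_eq_one (⟨η⁻¹, hη'⟩ : Mo.loc) (Subtype.ext (mul_inv_cancel₀ hη0))
  have huv' : (⟨u, hul⟩ : Mo.loc) * ⟨v, hvl⟩ =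
      algebraMap ↥(CQ M q W K') Mo.loc Hm.piC ^ n * ⟨η, hη⟩ := Subtype.ext huv
  have hj : (Place.ofHeightOneSpectrum (K := kB) (F := FtM) w).ord
      (algebraMap ↥(Ck M B) FtM (red₁ Hm (TC Hm))) = 12 := by
    rw [algebraMap_red₁_TC Hm, hwQ]
    exact hord
  have key := mul_eq_of_nodeData (k := kB) (Ft := FtM) Hm.twoComponents
    (red₁_surjective hFull Hm) (ker_red₁ Hm) w Mo.point hn hp2
    (Nat.mul_ne_zero (by norm_num) he₀) (TC_mul_TC'' Hm hu) (TC_notMem_P1 Hm)
    (TC''_notMem_P2 Hm hu) Mo.loc hN hηu huv' hj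
  push_cast at key
  omega

/-- **Thickness exactly one at one level, valuation form.**  For ANY node coordinates
`(u, v, ε₀, thick)` (a `NodeLevel` on the local ring of a crossing model of the level, with the
transversality facts `max1`, `max2` of a `CrossingFamily`) at a crossing point `Q₁` with
`ord_{Q₁} T̄₁ = 12`: `|thick| = |q|`. -/
theorem valuation_thick_of_nodeLevel (Hl : LevelHyp B hB hqM K' W π') {e₀ : ℕ} {ε : Kb}
    (hu : QUnif W π' q e₀ ε) (he₀ : e₀ ≠ 0)
    (Mo : CrossingModel B (residue B) (compW B hB hqM 0).O (compW B hB hqM 1).O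
      (compW B hB hqM 0).res (compW B hB hqM 1).res Q₁ Q₂ T (CQ M q W K') π')
    (hord : haveI := charP_res q B hB
      Q₁.ord (aeval (jFullC kB M) (TbarPolyK kB q)) = 12)
    {u v ε₀ : Fb (M * q)} {thick : Kb} {T' : Set (Place Kb (Fb (M * q)))}
    (N : NodeLevel B T' v u ε₀ thick) (hR : N.R = Mo.loc) (hϖ : N.ϖ = π')
    (thick_ne : thick ≠ 0) (thick_lt : B.valuation thick < 1) (uv : u * v = thick • ε₀)
    (hul : u ∈ Mo.loc) (hvl : v ∈ Mo.loc) (hε₀ : ε₀ ∈ Mo.loc) (hε₀' : ε₀⁻¹ ∈ Mo.loc)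
    (hu₁ : u ∈ (compW B hB hqM 0).O.nonunits) (hv₂ : v ∈ (compW B hB hqM 1).O.nonunits)
    (max1 : ∀ x : Mo.loc, ¬ IsUnit x →
      ∃ c : Mo.loc, (x : Fb (M * q)) - (c : Fb (M * q)) * v ∈ (compW B hB hqM 0).O.nonunits)
    (max2 : ∀ x : Mo.loc, ¬ IsUnit x →
      ∃ c : Mo.loc, (x : Fb (M * q)) - (c : Fb (M * q)) * u ∈ (compW B hB hqM 1).O.nonunits) :
    B.valuation thick = B.valuation (q : Kb) := by
  haveI := charP_res q B hB
  obtain ⟨n, c, -, hcK, hc1, hthick⟩ :=
    exists_thick_eq N (Val.isRankOne B hB) thick_ne thick_lt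
  have hc0 : c ≠ 0 := by
    rintro rfl
    rw [map_zero] at hc1
    exact zero_ne_one hc1
  have hcB : c ∈ B := (B.valuation_le_one_iff c).mp hc1.le
  have hcinvB : c⁻¹ ∈ B := by
    rw [← B.valuation_le_one_iff, map_inv₀, hc1, inv_one]
  have hcR : algebraMap Kb (Fb (M * q)) c ∈ Mo.loc := hR ▸ N.const_mem c hcK hcB
  have hcinvR : algebraMap Kb (Fb (M * q)) c⁻¹ ∈ Mo.loc :=
    hR ▸ N.const_mem c⁻¹ (N.K'.inv_mem hcK) hcinvB
  have hn : n = e₀ := by
    refine exponent_eq_of_levelHyp (η := algebraMap Kb (Fb (M * q)) c * ε₀) Hl hu he₀ Mo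
      hord hul hvl (Mo.loc.mul_mem hcR hε₀) ?_ ?_ hu₁ hv₂ max1 max2
    · rw [mul_inv, ← map_inv₀]
      exact Mo.loc.mul_mem hcinvR hε₀'
    · rw [uv, hthick, Algebra.smul_def, map_mul, map_pow, hϖ, mul_assoc]
  have hεB : B.valuation ε = 1 := by
    have h1 : B.valuation ε ≤ 1 := (B.valuation_le_one_iff _).mpr (Hl.hWA _ hu.mem)
    have h2 : B.valuation ε⁻¹ ≤ 1 := (B.valuation_le_one_iff _).mpr (Hl.hWA _ hu.inv_mem)
    rw [map_inv₀] at h2
    have hε0 : B.valuation ε ≠ 0 := by
      rw [Valuation.ne_zero_iff]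
      rintro rfl
      have := hu.eq
      rw [mul_zero] at this
      exact (Nat.cast_ne_zero.mpr hq.out.ne_zero) this
    apply le_antisymm h1
    rwa [inv_le_one₀ (zero_lt_iff.mpr hε0)] at h2
  rw [hthick, map_mul, map_pow, hc1, mul_one, hϖ, hu.eq, map_mul, map_pow, hεB, mul_one, hn]

end Level

section Tower

variable (B hB hqM)
variable {x : Fb (M * q)} (H : AtlasHyp (chartDataModular B hB hqM) x)

set_option maxHeartbeats 4000000 in
include H in
/-- **Thickness exactly one, valuation form.**  For ANY node coordinates `(u, v, ε₀, thick)` of the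
base level of the tower at a crossing `e` of the two-component model of `X₀(qM)` at `q`
(`M` without elliptic points): `|thick| = |q|`. -/
theorem valuation_thick_of_crossingFamily (h2 : nuTwo M = 0) (h3 : nuThree M = 0)
    (e : Crossing (chartDataModular B hB hqM)) {u v ε₀ : Fb (M * q)} {thick : Kb}
    (hF : CrossingFamily B (residue B) (compW B hB hqM 0).O (compW B hB hqM 1).O
      (compW B hB hqM 0).res (compW B hB hqM 1).res (z₁ (chartDataModular B hB hqM) e)
      (z₂ (chartDataModular B hB hqM) e)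
      {P | H.r P = ⟨0, z₁ (chartDataModular B hB hqM) e⟩}
      (CS (M * q) q (baseFin M q B)) (fun S => unif B hq.out hB S) ∅ u v ε₀ thick) :
    B.valuation thick = B.valuation (q : Kb) := by
  obtain ⟨e₀, ε, he₀, hu⟩ := exists_qUnif_tower B hB hqM ∅
  exact valuation_thick_of_nodeLevel (levelHyp_tower B hB hqM ∅) hu he₀ (hF.model ∅)
    (thickness_one B hB hqM h2 h3 e) (hF.annulusLevelsSwap.level ∅) rfl rfl hF.thick_ne
    hF.thick_lt hF.uv hF.u_mem hF.v_mem hF.ε₀_mem hF.ε₀_inv_mem hF.u_nonunit₁ hF.v_nonunit₂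
    hF.max1 hF.max2

end Tower

end Fermat.Agent.BR3.ThickOneFamily
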