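import Mathlib
import Fermat.Agent.BR3.ThickOneFamily

/-!
# Program C (S36), node (C-THICK1), part 4: the annuli of `modularData_final` have thickness `|q|`

`L := (AnnulusInstFinal.modularData_final B hB hqM).L hne e` (`= annulusLevels_modular_final`): the
level data of the tube of the crossing `e` of the two-component model of `X₀(qM)` at `q`
(`M` without elliptic points, `q ∤ M`).

* `crossingFamily_modular`, `crossingFamily_all`, `crossingFamily_final` : the node coordinates
  picked by `AnnulusInst.annulusLevels_modular` (`Classical.choose`) satisfy `S0.CrossingFamily`;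
* `valuation_thick_final` : `|L.thick| = |q|`  (**thickness exactly one**);
* `exists_unit_thick_final` : `L.thick = q * c`, `|c| = 1`;
* `exists_unit_of_valuation_thick` (abstract), `u_mul_v_final` : `L.u * L.v = q • η` with `η` a unit
  of the local ring `(L.level ∅).R` of the base level;
* `valuation_thick_chart`, `valuation_thick_circleInputs` : the same for the annulus charts
  `BranchData.annulusChartOfLevels`, `Final.circleInputsOfLevels` built from `L`.
-/

set_option autoImplicit false
set_option linter.unusedSectionVars false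
set_option linter.style.haveILetI false
set_option synthInstance.maxHeartbeats 400000
set_option maxHeartbeats 1600000


/- S36 build-time patch: file-local shortcut instances. They only shorten instance search;
each is the instance that the search finds anyway (reducible, same terms after unfolding). -/
noncomputable local instance (priority := 100000) Fermat.Agent.BR3.FastInst.instAlgFullC_ThickOneFinal
    {k : Type*} [Field k] (N : ℕ) :
    Algebra k ↥(ModularCurve.modularFunctionFieldFullC k N) := inferInstance
noncomputable local instance (priority := 100000) Fermat.Agent.BR3.FastInst.instFieldFullC_ThickOneFinal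
    {k : Type*} [Field k] (N : ℕ) :
    Field ↥(ModularCurve.modularFunctionFieldFullC k N) := inferInstance
noncomputable local instance (priority := 100000) Fermat.Agent.BR3.FastInst.instAlgLaurent_ThickOneFinal
    {k : Type*} [Field k] : Algebra k (LaurentSeries k) := inferInstance

namespace Fermat.Agent.BR3.ThickOneFinal

open AlgebraicCurve ModularCurve IsLocalRing Polynomial
open Fermat.Agent.Red Fermat.Agent.Val Fermat.Agent.X0 Fermat.Agent.BR.SS Fermat.Agent.BR.Refine
open Fermat.Agent.BR.Centre Fermat.Agent.BR.ConstRedTwo Fermat.Agent.BR.ModUnit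
open Fermat.Agent.BR.S0 Fermat.Agent.BR.S0.RedModular Fermat.Agent.BR.S0.PointDict
open Fermat.Agent.BR.S0.Modular Fermat.Agent.BR.S0.RedHyp
open Fermat.Agent.BR.S0.AnnulusChartOfLevels Fermat.Agent.BR.S0.SmoothAssembly
open Fermat.Agent.BR.S0.CrossingFamilyAssembly
open Fermat.Agent.BR.UnramCycloTower Fermat.Agent.BR.Inst.Levels
open Fermat.Agent.BR.Inst.NormalModel Fermat.Agent.BR.Inst.LevelsInst
open Fermat.Agent.BR.Inst.SpecIso Fermat.Agent.BR.Inst.AnnulusInst
open Fermat.Agent.BR.Inst.AnnulusInstFinal Fermat.Agent.BR.Inst.NodeInstFinal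
open Fermat.Agent.BR3.ThickOneFamily

/-! ### Abstract: `u v = q • unit` from `|thick| = |q|` -/

section Abstract

variable {K F : Type*} [Field K] [Field F] [Algebra K F]
  {A : ValuationSubring K} {T : Set (Place K F)} {ι : Type*}

/-- If the thickness element of the level data of an annulus has the valuation of a constant `c₀`
of the level `i`, then `u * v = c₀ • η` with `η` a unit of the local ring of the level `i`. -/
theorem exists_unit_of_valuation_thick (L : AnnulusLevels A T ι) (i : ι) {c₀ : K}
    (hc₀ : c₀ ∈ (L.level i).K') (h : A.valuation L.thick = A.valuation c₀) :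
    ∃ η : F, η ∈ (L.level i).R ∧ η⁻¹ ∈ (L.level i).R ∧ L.u * L.v = c₀ • η := by
  have hc₀0 : c₀ ≠ 0 := by
    rintro rfl
    rw [map_zero] at h
    exact L.thick_ne ((map_eq_zero _).mp h)
  set c : K := L.thick / c₀ with hc
  have hcK : c ∈ (L.level i).K' := (L.level i).K'.div_mem (L.level i).thick_mem hc₀
  have hc1 : A.valuation c = 1 := by
    rw [hc, map_div₀, h]
    exact div_self ((_root_.map_ne_zero _).mpr hc₀0)
  have hcA : c ∈ A := (A.valuation_le_one_iff c).mp hc1.le
  have hcinvA : c⁻¹ ∈ A := by
    rw [← A.valuation_le_one_iff, map_inv₀, hc1, inv_one]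
  have hcR : algebraMap K F c ∈ (L.level i).R := (L.level i).const_mem c hcK hcA
  have hcinvR : algebraMap K F c⁻¹ ∈ (L.level i).R :=
    (L.level i).const_mem c⁻¹ ((L.level i).K'.inv_mem hcK) hcinvA
  refine ⟨algebraMap K F c * L.ε₀, (L.level i).R.mul_mem hcR (L.level i).ε₀_mem, ?_, ?_⟩
  · rw [mul_inv, ← map_inv₀]
    exact (L.level i).R.mul_mem hcinvR (L.level i).ε₀_inv_mem
  · rw [L.uv, Algebra.smul_def, Algebra.smul_def, ← mul_assoc, ← map_mul, hc,
      mul_div_cancel₀ _ hc₀0]

end Abstract

section Modular

variable {M q : ℕ} [NeZero M] [hq : Fact q.Prime]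
variable (B : ValuationSubring Kb) (hB : B.LiesOverPrime q) (hqM : ¬ q ∣ M)

local notation "kB" => IsLocalRing.ResidueField B
local notation "FtM" => modularFunctionFieldFullC (IsLocalRing.ResidueField B) M

section Generic

variable {B hB hqM}
variable {x : Fb (M * q)} (H : AtlasHyp (chartDataModular B hB hqM) x)
  {Dk : Type*} [CommRing Dk] [IsDedekindDomain Dk]
  [Algebra Dk (modularFunctionFieldFullC (IsLocalRing.ResidueField B) M)]
  [IsFractionRing Dk (modularFunctionFieldFullC (IsLocalRing.ResidueField B) M)]
  [Algebra (IsLocalRing.ResidueField B) Dk]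
  [IsScalarTower (IsLocalRing.ResidueField B) Dk
    (modularFunctionFieldFullC (IsLocalRing.ResidueField B) M)]
  {P₀ P₁ : ∀ S, Ideal (CS (M * q) q (baseFin M q B) S)}
  {red₀ red₁ : ∀ S, CS (M * q) q (baseFin M q B) S →+* Dk}

set_option maxHeartbeats 4000000 in
/-- The node coordinates picked by `AnnulusInst.annulusLevels_modular` satisfy
`S0.CrossingFamily` (annulus parameter `u` = the coordinate which is a unit on the component
`0`). -/
theorem crossingFamily_modular [IsAlgClosed (ResidueField B)]
    (Mod : ∀ (e : Crossing (chartDataModular B hB hqM)) (S : Finset Kb),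
      CrossingModel B (residue B) (compW B hB hqM 0).O (compW B hB hqM 1).O
        (compW B hB hqM 0).res (compW B hB hqM 1).res (z₁ (chartDataModular B hB hqM) e)
        (z₂ (chartDataModular B hB hqM) e)
        {P | H.r P = ⟨0, z₁ (chartDataModular B hB hqM) e⟩}
        (CS (M * q) q (baseFin M q B) S) (unif B hq.out hB S))
    (L : ∀ S : Finset Kb, LevelHyp (chartDataModular B hB hqM) (CS (M * q) q (baseFin M q B) S)
      (unif B hq.out hB S) (P₀ S) (P₁ S) (red₀ S) (red₁ S))
    (hnode : ∀ e, BaseNode (Mod e ∅) (P₀ ∅) (P₁ ∅))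
    (hne : Nonempty (Crossing (chartDataModular B hB hqM)))
    (smooth₀ : ∀ Q : Place kB FtM, (∀ e, Q ≠ z₁ (chartDataModular B hB hqM) e) →
      SmoothChart B (compW B hB hqM 0).O (compW B hB hqM 0).res Q {P | H.r P = ⟨0, Q⟩})
    (smooth₁ : ∀ Q : Place kB FtM, (∀ e, Q ≠ z₂ (chartDataModular B hB hqM) e) →
      SmoothChart B (compW B hB hqM 1).O (compW B hB hqM 1).res Q {P | H.r P = ⟨1, Q⟩})
    (chart : ∀ e, NodeChart B (compW B hB hqM 0).O (compW B hB hqM 1).O (compW B hB hqM 0).res
      (compW B hB hqM 1).res (z₁ (chartDataModular B hB hqM) e)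
      (z₂ (chartDataModular B hB hqM) e)
      {P | H.r P = ⟨0, z₁ (chartDataModular B hB hqM) e⟩})
    (e : Crossing (chartDataModular B hB hqM)) :
    CrossingFamily B (residue B) (compW B hB hqM 0).O (compW B hB hqM 1).O
      (compW B hB hqM 0).res (compW B hB hqM 1).res (z₁ (chartDataModular B hB hqM) e)
      (z₂ (chartDataModular B hB hqM) e)
      {P | H.r P = ⟨0, z₁ (chartDataModular B hB hqM) e⟩}
      (CS (M * q) q (baseFin M q B)) (fun S => unif B hq.out hB S) ∅
      (annulusLevels_modular H Mod L hnode hne smooth₀ smooth₁ chart e).v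
      (annulusLevels_modular H Mod L hnode hne smooth₀ smooth₁ chart e).u
      (annulusLevels_modular H Mod L hnode hne smooth₀ smooth₁ chart e).ε₀
      (annulusLevels_modular H Mod L hnode hne smooth₀ smooth₁ chart e).thick :=
  Classical.choose_spec (Classical.choose_spec (Classical.choose_spec (Classical.choose_spec
    (exists_crossingFamily_modular H e (Mod e) L (hnode e)))))

end Generic

variable {x : Fb (M * q)} (H : AtlasHyp (chartDataModular B hB hqM) x)

set_option maxHeartbeats 4000000 in
/-- The node coordinates of `AnnulusInstFinal.annulusLevels_modular_all` satisfy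
`S0.CrossingFamily`. -/
theorem crossingFamily_all [IsAlgClosed (ResidueField B)]
    (hne : Nonempty (Crossing (chartDataModular B hB hqM)))
    (smooth₀ : ∀ Q : Place kB FtM, (∀ e, Q ≠ z₁ (chartDataModular B hB hqM) e) →
      SmoothChart B (compW B hB hqM 0).O (compW B hB hqM 0).res Q {P | H.r P = ⟨0, Q⟩})
    (smooth₁ : ∀ Q : Place kB FtM, (∀ e, Q ≠ z₂ (chartDataModular B hB hqM) e) →
      SmoothChart B (compW B hB hqM 1).O (compW B hB hqM 1).res Q {P | H.r P = ⟨1, Q⟩})
    (chart : ∀ e, NodeChart B (compW B hB hqM 0).O (compW B hB hqM 1).O (compW B hB hqM 0).res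
      (compW B hB hqM 1).res (z₁ (chartDataModular B hB hqM) e)
      (z₂ (chartDataModular B hB hqM) e)
      {P | H.r P = ⟨0, z₁ (chartDataModular B hB hqM) e⟩})
    (e : Crossing (chartDataModular B hB hqM)) :
    CrossingFamily B (residue B) (compW B hB hqM 0).O (compW B hB hqM 1).O
      (compW B hB hqM 0).res (compW B hB hqM 1).res (z₁ (chartDataModular B hB hqM) e)
      (z₂ (chartDataModular B hB hqM) e)
      {P | H.r P = ⟨0, z₁ (chartDataModular B hB hqM) e⟩}
      (CS (M * q) q (baseFin M q B)) (fun S => unif B hq.out hB S) ∅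
      (annulusLevels_modular_all B hB hqM H hne smooth₀ smooth₁ chart e).v
      (annulusLevels_modular_all B hB hqM H hne smooth₀ smooth₁ chart e).u
      (annulusLevels_modular_all B hB hqM H hne smooth₀ smooth₁ chart e).ε₀
      (annulusLevels_modular_all B hB hqM H hne smooth₀ smooth₁ chart e).thick :=
  haveI := isDedekindDomain_Ck B hB hqM
  haveI := isFractionRing_Ck B hB hqM
  haveI : IsScalarTower kB ↥(Ck M B) FtM := IsScalarTower.of_algebraMap_eq (fun _ => rfl)
  crossingFamily_modular (Dk := ↥(Ck M B)) H
    (fun e S => crossingModel_modular_final B hB hqM H S e)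
    (fun S => GeomModular.levelHyp_fin (levelHyp_tower B hB hqM S))
    (fun e => baseNode_modular B hB hqM H e) hne smooth₀ smooth₁ chart e

set_option maxHeartbeats 4000000 in
/-- **Thickness exactly one** for the level data of any atlas hypotheses and charts. -/
theorem valuation_thick_all [IsAlgClosed (ResidueField B)] (h2 : nuTwo M = 0)
    (h3 : nuThree M = 0)
    (hne : Nonempty (Crossing (chartDataModular B hB hqM)))
    (smooth₀ : ∀ Q : Place kB FtM, (∀ e, Q ≠ z₁ (chartDataModular B hB hqM) e) →
      SmoothChart B (compW B hB hqM 0).O (compW B hB hqM 0).res Q {P | H.r P = ⟨0, Q⟩})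
    (smooth₁ : ∀ Q : Place kB FtM, (∀ e, Q ≠ z₂ (chartDataModular B hB hqM) e) →
      SmoothChart B (compW B hB hqM 1).O (compW B hB hqM 1).res Q {P | H.r P = ⟨1, Q⟩})
    (chart : ∀ e, NodeChart B (compW B hB hqM 0).O (compW B hB hqM 1).O (compW B hB hqM 0).res
      (compW B hB hqM 1).res (z₁ (chartDataModular B hB hqM) e)
      (z₂ (chartDataModular B hB hqM) e)
      {P | H.r P = ⟨0, z₁ (chartDataModular B hB hqM) e⟩})
    (e : Crossing (chartDataModular B hB hqM)) :
    B.valuation (annulusLevels_modular_all B hB hqM H hne smooth₀ smooth₁ chart e).thick =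
      B.valuation (q : Kb) :=
  valuation_thick_of_crossingFamily B hB hqM H h2 h3 e
    (crossingFamily_all B hB hqM H hne smooth₀ smooth₁ chart e)

/-! ### The final data -/

set_option maxHeartbeats 4000000 in
/-- **Thickness exactly one**: the annulus of the crossing `e` of `modularData_final` has
thickness `|q|`. -/
theorem valuation_thick_final [IsAlgClosed (ResidueField B)] (h2 : nuTwo M = 0)
    (h3 : nuThree M = 0) (hne : Nonempty (Crossing (chartDataModular B hB hqM)))
    (e : Crossing (chartDataModular B hB hqM)) :
    B.valuation ((modularData_final B hB hqM).L hne e).thick = B.valuation (q : Kb) :=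
  valuation_thick_all B hB hqM _ h2 h3 hne _ _ _ e

/-- `thick e = q * c` with `c` a unit of `B`. -/
theorem exists_unit_thick_final [IsAlgClosed (ResidueField B)] (h2 : nuTwo M = 0)
    (h3 : nuThree M = 0) (hne : Nonempty (Crossing (chartDataModular B hB hqM)))
    (e : Crossing (chartDataModular B hB hqM)) :
    ∃ c : Kb, B.valuation c = 1 ∧ ((modularData_final B hB hqM).L hne e).thick = (q : Kb) * c := by
  have hq0 : (q : Kb) ≠ 0 := Nat.cast_ne_zero.mpr hq.out.ne_zero
  refine ⟨((modularData_final B hB hqM).L hne e).thick / (q : Kb), ?_, ?_⟩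
  · rw [map_div₀, valuation_thick_final B hB hqM h2 h3 hne e]
    exact div_self ((_root_.map_ne_zero _).mpr hq0)
  · rw [mul_div_cancel₀ _ hq0]

/-- the field `L` of `modularData_final` is `annulusLevels_modular_final` -/
theorem modularData_final_L [IsAlgClosed (ResidueField B)]
    (hne : Nonempty (Crossing (chartDataModular B hB hqM)))
    (e : Crossing (chartDataModular B hB hqM)) :
    (modularData_final B hB hqM).L hne e = annulusLevels_modular_final B hB hqM hne e := rfl

set_option maxHeartbeats 4000000 in
/-- **Thickness exactly one** for `annulusLevels_modular_final`. -/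
theorem valuation_thick_levels_final [IsAlgClosed (ResidueField B)] (h2 : nuTwo M = 0)
    (h3 : nuThree M = 0) (hne : Nonempty (Crossing (chartDataModular B hB hqM)))
    (e : Crossing (chartDataModular B hB hqM)) :
    B.valuation (annulusLevels_modular_final B hB hqM hne e).thick = B.valuation (q : Kb) :=
  valuation_thick_all B hB hqM _ h2 h3 hne _ _ _ e

set_option maxHeartbeats 4000000 in
/-- **`u e * v e = q • unit`**: the two coordinates of the annulus of the crossing `e` multiply to
`q` times a unit of the local ring of the base level. -/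
theorem u_mul_v_final [IsAlgClosed (ResidueField B)] (h2 : nuTwo M = 0)
    (h3 : nuThree M = 0) (hne : Nonempty (Crossing (chartDataModular B hB hqM)))
    (e : Crossing (chartDataModular B hB hqM)) :
    ∃ η : Fb (M * q),
      η ∈ ((annulusLevels_modular_final B hB hqM hne e).level (∅ : Finset Kb)).R ∧
      η⁻¹ ∈ ((annulusLevels_modular_final B hB hqM hne e).level (∅ : Finset Kb)).R ∧
      (annulusLevels_modular_final B hB hqM hne e).u *
        (annulusLevels_modular_final B hB hqM hne e).v = (q : Kb) • η :=
  exists_unit_of_valuation_thick (annulusLevels_modular_final B hB hqM hne e) (∅ : Finset Kb)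
    (natCast_mem _ q) (valuation_thick_levels_final B hB hqM h2 h3 hne e)

/-- The same for the annulus chart built from the level data. -/
theorem valuation_thick_chart [IsAlgClosed (ResidueField B)] (h2 : nuTwo M = 0)
    (h3 : nuThree M = 0) (hne : Nonempty (Crossing (chartDataModular B hB hqM)))
    (e : Crossing (chartDataModular B hB hqM)) :
    B.valuation (((modularData_final B hB hqM).X hne e).annulusChartOfLevels).thick =
      B.valuation (q : Kb) :=
  valuation_thick_final B hB hqM h2 h3 hne e

end Modular

end Fermat.Agent.BR3.ThickOneFinal
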