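import Mathlib
import Fermat.Agent.BR3.ThickOneFinal
import Fermat.Agent.BR3.VertLevelMem
import Fermat.Agent.BR3.FibreProdMidKummer
import Fermat.Agent.BR.Inst.TwoCompGlue

/-!
# Program C (S36), node (C-THICK1), part 5: `x y / q` is a unit of the base level for EVERY
transversal pair `(x, y)` — the hypothesis `hR` of the vertical component

At a crossing `e` of the two-component model of `X₀(qM)` at `q` (`M` without elliptic points), in the
local ring `R := (L.level ∅).R` of the base level of `L := annulusLevels_modular_final B hB hqM hne e`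
(the base level `K₀ = ℚ(μ_{prime to q})` is UNRAMIFIED at `q`, so `R` is regular with parameters the
node coordinates `(L.v, L.u)`, `L.u * L.v = q • unit` by thickness one):

* `isUnit_of_transversal` (abstract, any `CrossingModel`): if `u v = ϖ η` (`η` a unit of `M.loc`) for
  transversal coordinates `(u, v)`, then for EVERY pair `x ∈ 𝔪_{O₂} ∩ M.loc`, `y ∈ 𝔪_{O₁} ∩ M.loc` whose
  reductions have SIMPLE zeros at the two branches, `x y = ϖ z` with `z` a unit of `M.loc`
  (`x = c v + ϖ r'`, `y = c' u + ϖ r`, `c c'` a unit);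
* `valuation_unif_empty` : the uniformizer of the base level `S = ∅` of the tower has the valuation
  of `q`;
* `isUnit_of_simple_zeros_final` : the same for `L`, `x y = q • z`: this is the `f`-VERSION of
  thickness one (`x`, `y` := the transversal coordinates attached to ANY local parameter `f`);
* `isUnit_psiK_final` : **`hR`** in the shape of `VertFinal.exists_vertComponent_final`:
  `Ψ_q(j(s^q), j(s))` is a unit of the base level as soon as the reductions of
  `s = j - j(s^q)^q` on `'can'` and of `t = j(s^q) - j^q` on `'et'` have simple zeros at the two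
  branches (`e` non-elliptic: `j̃ - j̃(z)` is a local parameter at `z₁ e`, `z₂ e`).
-/

set_option autoImplicit false
set_option linter.unusedSectionVars false
set_option linter.style.haveILetI false
set_option synthInstance.maxHeartbeats 400000
set_option maxHeartbeats 1600000


/- S36 build-time patch: file-local shortcut instances. They only shorten instance search;
each is the instance that the search finds anyway (reducible, same terms after unfolding). -/
noncomputable local instance (priority := 100000) Fermat.Agent.BR3.FastInst.instAlgFullC_ThickOneUnit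
    {k : Type*} [Field k] (N : ℕ) :
    Algebra k ↥(ModularCurve.modularFunctionFieldFullC k N) := inferInstance
noncomputable local instance (priority := 100000) Fermat.Agent.BR3.FastInst.instFieldFullC_ThickOneUnit
    {k : Type*} [Field k] (N : ℕ) :
    Field ↥(ModularCurve.modularFunctionFieldFullC k N) := inferInstance
noncomputable local instance (priority := 100000) Fermat.Agent.BR3.FastInst.instAlgLaurent_ThickOneUnit
    {k : Type*} [Field k] : Algebra k (LaurentSeries k) := inferInstance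

namespace Fermat.Agent.BR3.ThickOneUnit

open AlgebraicCurve ModularCurve IsLocalRing Polynomial
open Fermat.Agent.Red Fermat.Agent.Val Fermat.Agent.X0 Fermat.Agent.BR.SS Fermat.Agent.BR.Refine
open Fermat.Agent.BR.Centre Fermat.Agent.BR.ConstRedTwo Fermat.Agent.BR.ModUnit
open Fermat.Agent.BR.S0 Fermat.Agent.BR.S0.RedModular Fermat.Agent.BR.S0.PointDict
open Fermat.Agent.BR.S0.Modular Fermat.Agent.BR.S0.RedHyp
open Fermat.Agent.BR.S0.AnnulusChartOfLevels Fermat.Agent.BR.S0.SmoothAssembly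
open Fermat.Agent.BR.S0.CrossingFamilyAssembly
open Fermat.Agent.BR.UnramCycloTower Fermat.Agent.BR.UnramCyclo Fermat.Agent.BR.Inst.Levels
open Fermat.Agent.BR.Inst.NormalModel Fermat.Agent.BR.Inst.LevelsInst
open Fermat.Agent.BR.Inst.SpecIso Fermat.Agent.BR.Inst.AnnulusInst
open Fermat.Agent.BR.Inst.AnnulusInstFinal Fermat.Agent.BR.Inst.NodeInstFinal
open Fermat.Agent.BR.TwoVal Fermat.Agent.BR.TwoValInst Fermat.Agent.BR.Kron
open Fermat.Agent.BR3.ThickOneFamily Fermat.Agent.BR3.ThickOneFinal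
open Fermat.Agent.BR3.FibreProd Fermat.Agent.BR3.VertLevelMem

/-! ### Abstract: every transversal pair with simple zeros multiplies to `ϖ · unit` -/

section Abstract

variable {K F k : Type*} [Field K] [Field F] [Algebra K F] [Field k]
  {Ft₁ Ft₂ : Type*} [Field Ft₁] [Algebra k Ft₁] [Field Ft₂] [Algebra k Ft₂]
  {A : ValuationSubring K} {π : A →+* k} {O₁ O₂ : ValuationSubring F}
  {res₁ : O₁ →+* Ft₁} {res₂ : O₂ →+* Ft₂} {Q₁ : Place k Ft₁} {Q₂ : Place k Ft₂}
  {T : Set (Place K F)} {C : Subring F} {ϖ : K}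

/-- the reductions of the functions of the local ring are regular at the first branch -/
theorem adicValuation_res₁_le_one (M : CrossingModel A π O₁ O₂ res₁ res₂ Q₁ Q₂ T C ϖ) {z : F}
    (hz : z ∈ M.loc) (h : z ∈ O₁) : Q₁.adicValuation (res₁ ⟨z, h⟩) ≤ 1 := by
  obtain ⟨a, b, hb, hab⟩ := M.mem_loc_iff.mp hz
  have h1 := M.res₁_mul_red₁ h hab
  have h2 := congrArg Q₁.adicValuation h1
  rw [map_mul, M.adicValuation₁_eq_one_of_notMem hb, mul_one] at h2
  rw [h2]
  exact M.regular₁ a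

/-- the reductions of the functions of the local ring are regular at the second branch -/
theorem adicValuation_res₂_le_one (M : CrossingModel A π O₁ O₂ res₁ res₂ Q₁ Q₂ T C ϖ) {z : F}
    (hz : z ∈ M.loc) (h : z ∈ O₂) : Q₂.adicValuation (res₂ ⟨z, h⟩) ≤ 1 := by
  obtain ⟨a, b, hb, hab⟩ := M.mem_loc_iff.mp hz
  have h1 := M.res₂_mul_red₂ h hab
  have h2 := congrArg Q₂.adicValuation h1
  rw [map_mul, M.adicValuation₂_eq_one_of_notMem hb, mul_one] at h2
  rw [h2]
  exact M.regular₂ a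

/-- **One half of the comparison of transversal coordinates**: if `𝔪 = p₁ + (v)` and the
reduction of `x ∈ p₂` on the first component has a simple zero at the branch, then
`x = c v + ϖ r` with `c` a unit of the local ring. -/
theorem exists_eq_unit_mul_add (M : CrossingModel A π O₁ O₂ res₁ res₂ Q₁ Q₂ T C ϖ)
    (hres0₁ : ∀ x : O₁, (x : F) ∈ O₁.nonunits → res₁ x = 0)
    (hres0₂ : ∀ x : O₂, (x : F) ∈ O₂.nonunits → res₂ x = 0)
    (inter : ∀ z : C, (z : F) ∈ O₁.nonunits → (z : F) ∈ O₂.nonunits →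
      ∃ c : C, (z : F) = algebraMap K F ϖ * (c : F))
    {v : F} (hvl : v ∈ M.loc) (hv₂ : v ∈ O₂.nonunits)
    (max1 : ∀ x : M.loc, ¬ IsUnit x → ∃ c : M.loc, (x : F) - (c : F) * v ∈ O₁.nonunits)
    {x : F} (hx : x ∈ M.loc) (hx₂ : x ∈ O₂.nonunits) (hxO : x ∈ O₁)
    (hxord : Q₁.ord (res₁ ⟨x, hxO⟩) = 1) :
    ∃ c r : M.loc, IsUnit c ∧ x = (c : F) * v + algebraMap K F ϖ * (r : F) := by
  haveI := M.isLocalRing_loc
  have hle₁ := M.loc_le₁ hres0₁
  have hle₂ := M.loc_le₂ hres0₂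
  have hxnu : ¬ IsUnit (⟨x, hx⟩ : M.loc) := not_isUnit_of_mem_nonunits O₂ hle₂ hx₂
  have hvnu : ¬ IsUnit (⟨v, hvl⟩ : M.loc) := not_isUnit_of_mem_nonunits O₂ hle₂ hv₂
  obtain ⟨c, hc⟩ := max1 ⟨x, hx⟩ hxnu
  have hcO : (c : F) ∈ O₁ := hle₁ _ c.2
  have hvO : v ∈ O₁ := hle₁ _ hvl
  have hpO : x - (c : F) * v ∈ O₁ := ValuationSubring.nonunits_subset hc
  -- `res₁ x = res₁ c * res₁ v`
  have hres : res₁ ⟨x, hxO⟩ = res₁ ⟨(c : F), hcO⟩ * res₁ ⟨v, hvO⟩ := by
    have e : (⟨x, hxO⟩ : O₁) = ⟨x - (c : F) * v, hpO⟩ + ⟨(c : F), hcO⟩ * ⟨v, hvO⟩ := by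
      apply Subtype.ext
      show x = x - (c : F) * v + (c : F) * v
      ring
    rw [e, map_add, map_mul, hres0₁ _ hc, zero_add]
  have hx0 : res₁ ⟨x, hxO⟩ ≠ 0 := by
    intro h0
    rw [h0, Place.ord_zero] at hxord
    exact zero_ne_one hxord
  have hc0 : res₁ ⟨(c : F), hcO⟩ ≠ 0 := fun h0 => hx0 (by rw [hres, h0, zero_mul])
  have hv0 : res₁ ⟨v, hvO⟩ ≠ 0 := fun h0 => hx0 (by rw [hres, h0, mul_zero])
  have hordmul : Q₁.ord (res₁ ⟨(c : F), hcO⟩) + Q₁.ord (res₁ ⟨v, hvO⟩) = 1 := by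
    rw [← Place.ord_mul Q₁ hc0 hv0, ← hres]
    exact hxord
  have hvpos : 0 < Q₁.ord (res₁ ⟨v, hvO⟩) :=
    ((adicValuation_lt_one_iff Q₁).mp (M.loc_branch₁ ⟨v, hvl⟩ hvnu hvO)).resolve_left hv0
  have hcnn : 0 ≤ Q₁.ord (res₁ ⟨(c : F), hcO⟩) := by
    have h1 := adicValuation_res₁_le_one M c.2 hcO
    have h2 : Q₁.adicValuation (res₁ ⟨(c : F), hcO⟩) ≠ 0 :=
      (Valuation.ne_zero_iff _).mpr hc0
    unfold Place.ord
    rw [← WithZero.exp_log h2, ← WithZero.exp_zero, WithZero.exp_le_exp] at h1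
    omega
  have hc_ord : Q₁.ord (res₁ ⟨(c : F), hcO⟩) = 0 := by omega
  have hcu : IsUnit c := by
    by_contra hcn
    have h1 := M.loc_branch₁ c hcn hcO
    rcases (adicValuation_lt_one_iff Q₁).mp h1 with h | h
    · exact hc0 h
    · omega
  -- `x - c v ∈ p₁ ∩ p₂ = (ϖ)`
  have hp₂ : x - (c : F) * v ∈ O₂.nonunits :=
    nonunits_sub_mem O₂ hx₂ (nonunits_mul_mem O₂ (hle₂ _ c.2) hv₂)
  obtain ⟨r, hr⟩ := M.loc_inter inter (⟨x, hx⟩ - c * ⟨v, hvl⟩ : M.loc) hc hp₂
  refine ⟨c, r, hcu, ?_⟩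
  have hr' : x - (c : F) * v = algebraMap K F ϖ * (r : F) := hr
  rw [← hr']
  ring

/-- The mirror statement on the second component. -/
theorem exists_eq_unit_mul_add' (M : CrossingModel A π O₁ O₂ res₁ res₂ Q₁ Q₂ T C ϖ)
    (hres0₁ : ∀ x : O₁, (x : F) ∈ O₁.nonunits → res₁ x = 0)
    (hres0₂ : ∀ x : O₂, (x : F) ∈ O₂.nonunits → res₂ x = 0)
    (inter : ∀ z : C, (z : F) ∈ O₁.nonunits → (z : F) ∈ O₂.nonunits →
      ∃ c : C, (z : F) = algebraMap K F ϖ * (c : F))
    {u : F} (hul : u ∈ M.loc) (hu₁ : u ∈ O₁.nonunits)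
    (max2 : ∀ x : M.loc, ¬ IsUnit x → ∃ c : M.loc, (x : F) - (c : F) * u ∈ O₂.nonunits)
    {y : F} (hy : y ∈ M.loc) (hy₁ : y ∈ O₁.nonunits) (hyO : y ∈ O₂)
    (hyord : Q₂.ord (res₂ ⟨y, hyO⟩) = 1) :
    ∃ c r : M.loc, IsUnit c ∧ y = (c : F) * u + algebraMap K F ϖ * (r : F) := by
  haveI := M.isLocalRing_loc
  have hle₁ := M.loc_le₁ hres0₁
  have hle₂ := M.loc_le₂ hres0₂
  have hynu : ¬ IsUnit (⟨y, hy⟩ : M.loc) := not_isUnit_of_mem_nonunits O₁ hle₁ hy₁
  have hunu : ¬ IsUnit (⟨u, hul⟩ : M.loc) := not_isUnit_of_mem_nonunits O₁ hle₁ hu₁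
  obtain ⟨c, hc⟩ := max2 ⟨y, hy⟩ hynu
  have hcO : (c : F) ∈ O₂ := hle₂ _ c.2
  have huO : u ∈ O₂ := hle₂ _ hul
  have hpO : y - (c : F) * u ∈ O₂ := ValuationSubring.nonunits_subset hc
  have hres : res₂ ⟨y, hyO⟩ = res₂ ⟨(c : F), hcO⟩ * res₂ ⟨u, huO⟩ := by
    have e : (⟨y, hyO⟩ : O₂) = ⟨y - (c : F) * u, hpO⟩ + ⟨(c : F), hcO⟩ * ⟨u, huO⟩ := by
      apply Subtype.ext
      show y = y - (c : F) * u + (c : F) * u
      ring
    rw [e, map_add, map_mul, hres0₂ _ hc, zero_add]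
  have hy0 : res₂ ⟨y, hyO⟩ ≠ 0 := by
    intro h0
    rw [h0, Place.ord_zero] at hyord
    exact zero_ne_one hyord
  have hc0 : res₂ ⟨(c : F), hcO⟩ ≠ 0 := fun h0 => hy0 (by rw [hres, h0, zero_mul])
  have hu0 : res₂ ⟨u, huO⟩ ≠ 0 := fun h0 => hy0 (by rw [hres, h0, mul_zero])
  have hordmul : Q₂.ord (res₂ ⟨(c : F), hcO⟩) + Q₂.ord (res₂ ⟨u, huO⟩) = 1 := by
    rw [← Place.ord_mul Q₂ hc0 hu0, ← hres]
    exact hyord
  have hupos : 0 < Q₂.ord (res₂ ⟨u, huO⟩) :=
    ((adicValuation_lt_one_iff Q₂).mp (M.loc_branch₂ ⟨u, hul⟩ hunu huO)).resolve_left hu0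
  have hcnn : 0 ≤ Q₂.ord (res₂ ⟨(c : F), hcO⟩) := by
    have h1 := adicValuation_res₂_le_one M c.2 hcO
    have h2 : Q₂.adicValuation (res₂ ⟨(c : F), hcO⟩) ≠ 0 :=
      (Valuation.ne_zero_iff _).mpr hc0
    unfold Place.ord
    rw [← WithZero.exp_log h2, ← WithZero.exp_zero, WithZero.exp_le_exp] at h1
    omega
  have hc_ord : Q₂.ord (res₂ ⟨(c : F), hcO⟩) = 0 := by omega
  have hcu : IsUnit c := by
    by_contra hcn
    have h1 := M.loc_branch₂ c hcn hcO
    rcases (adicValuation_lt_one_iff Q₂).mp h1 with h | h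
    · exact hc0 h
    · omega
  have hp₁ : y - (c : F) * u ∈ O₁.nonunits :=
    nonunits_sub_mem O₁ hy₁ (nonunits_mul_mem O₁ (hle₁ _ c.2) hu₁)
  obtain ⟨r, hr⟩ := M.loc_inter inter (⟨y, hy⟩ - c * ⟨u, hul⟩ : M.loc) hp₁ hc
  refine ⟨c, r, hcu, ?_⟩
  have hr' : y - (c : F) * u = algebraMap K F ϖ * (r : F) := hr
  rw [← hr']
  ring

/-- **Every transversal pair with simple zeros multiplies to `ϖ · unit`.** -/
theorem isUnit_of_transversal (M : CrossingModel A π O₁ O₂ res₁ res₂ Q₁ Q₂ T C ϖ)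
    (hres0₁ : ∀ x : O₁, (x : F) ∈ O₁.nonunits → res₁ x = 0)
    (hres0₂ : ∀ x : O₂, (x : F) ∈ O₂.nonunits → res₂ x = 0)
    (inter : ∀ z : C, (z : F) ∈ O₁.nonunits → (z : F) ∈ O₂.nonunits →
      ∃ c : C, (z : F) = algebraMap K F ϖ * (c : F))
    {u v η : F} (hul : u ∈ M.loc) (hvl : v ∈ M.loc) (hη : η ∈ M.loc) (hη' : η⁻¹ ∈ M.loc)
    (hη0 : η ≠ 0) (huv : u * v = algebraMap K F ϖ * η)
    (hu₁ : u ∈ O₁.nonunits) (hv₂ : v ∈ O₂.nonunits)
    (max1 : ∀ x : M.loc, ¬ IsUnit x → ∃ c : M.loc, (x : F) - (c : F) * v ∈ O₁.nonunits)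
    (max2 : ∀ x : M.loc, ¬ IsUnit x → ∃ c : M.loc, (x : F) - (c : F) * u ∈ O₂.nonunits)
    {x y z : F} (hx : x ∈ M.loc) (hy : y ∈ M.loc) (hz : z ∈ M.loc)
    (hx₂ : x ∈ O₂.nonunits) (hy₁ : y ∈ O₁.nonunits) (hxO : x ∈ O₁) (hyO : y ∈ O₂)
    (hxord : Q₁.ord (res₁ ⟨x, hxO⟩) = 1) (hyord : Q₂.ord (res₂ ⟨y, hyO⟩) = 1)
    (hxyz : x * y = algebraMap K F ϖ * z) : IsUnit (⟨z, hz⟩ : M.loc) := by
  haveI := M.isLocalRing_loc
  have hle₁ := M.loc_le₁ hres0₁
  have hle₂ := M.loc_le₂ hres0₂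
  obtain ⟨c, r', hcu, hxeq⟩ := exists_eq_unit_mul_add M hres0₁ hres0₂ inter hvl hv₂ max1 hx hx₂
    hxO hxord
  obtain ⟨c', r, hcu', hyeq⟩ := exists_eq_unit_mul_add' M hres0₁ hres0₂ inter hul hu₁ max2 hy hy₁
    hyO hyord
  have hϖ0 : algebraMap K F ϖ ≠ 0 := (_root_.map_ne_zero _).mpr M.unif_ne
  have hunu : ¬ IsUnit (⟨u, hul⟩ : M.loc) := not_isUnit_of_mem_nonunits O₁ hle₁ hu₁
  have hvnu : ¬ IsUnit (⟨v, hvl⟩ : M.loc) := not_isUnit_of_mem_nonunits O₂ hle₂ hv₂
  have hηu : IsUnit (⟨η, hη⟩ : M.loc) :=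
    IsUnit.of_mul_eq_one (⟨η⁻¹, hη'⟩ : M.loc) (Subtype.ext (mul_inv_cancel₀ hη0))
  -- `z = c c' η + (c v r + c' u r' + ϖ r r')`
  set m : M.loc := c * ⟨v, hvl⟩ * r + c' * ⟨u, hul⟩ * r' +
    ⟨algebraMap K F ϖ, M.le_loc M.unif_mem⟩ * r * r' with hm
  have hzeq : (⟨z, hz⟩ : M.loc) = c * c' * ⟨η, hη⟩ + m := by
    apply Subtype.ext
    apply mul_left_cancel₀ hϖ0
    show algebraMap K F ϖ * z = algebraMap K F ϖ * ((c : F) * (c' : F) * η +
      ((c : F) * v * (r : F) + (c' : F) * u * (r' : F) + algebraMap K F ϖ * (r : F) * (r' : F)))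
    rw [← hxyz, hxeq, hyeq]
    have huv' : v * u = algebraMap K F ϖ * η := by rw [mul_comm]; exact huv
    linear_combination (c : F) * (c' : F) * huv'
  have hϖnu : ¬ IsUnit (⟨algebraMap K F ϖ, M.le_loc M.unif_mem⟩ : M.loc) := by
    intro hu
    obtain ⟨w, hw⟩ := hu.exists_right_inv
    have h1 : algebraMap K F ϖ * (w : F) = 1 := congrArg (fun t : M.loc => (t : F)) hw
    -- `u v = ϖ η` is then a unit multiple of ... contradiction with `u` a non-unit
    have h2 : (⟨u, hul⟩ : M.loc) * (⟨v, hvl⟩ * w * ⟨η⁻¹, hη'⟩) = 1 := by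
      apply Subtype.ext
      show u * (v * (w : F) * η⁻¹) = 1
      calc u * (v * (w : F) * η⁻¹) = (u * v) * (w : F) * η⁻¹ := by ring
        _ = (algebraMap K F ϖ * (w : F)) * (η * η⁻¹) := by rw [huv]; ring
        _ = 1 := by rw [h1, mul_inv_cancel₀ hη0, mul_one]
    exact hunu (IsUnit.of_mul_eq_one _ h2)
  have hmm : m ∈ maximalIdeal M.loc := by
    rw [hm]
    refine Ideal.add_mem _ (Ideal.add_mem _ ?_ ?_) ?_
    · rw [mul_comm c, mul_assoc]
      exact Ideal.mul_mem_right _ _ ((mem_maximalIdeal _).mpr hvnu)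
    · rw [mul_comm c', mul_assoc]
      exact Ideal.mul_mem_right _ _ ((mem_maximalIdeal _).mpr hunu)
    · rw [mul_assoc]
      exact Ideal.mul_mem_right _ _ ((mem_maximalIdeal _).mpr hϖnu)
  rw [hzeq]
  by_contra hnu
  have h1 : c * c' * ⟨η, hη⟩ + m ∈ maximalIdeal M.loc := (mem_maximalIdeal _).mpr hnu
  have h2 : c * c' * ⟨η, hη⟩ ∈ maximalIdeal M.loc := by
    have := Ideal.sub_mem _ h1 hmm
    rwa [add_sub_cancel_right] at this
  exact (mem_maximalIdeal _).mp h2 ((hcu.mul hcu').mul hηu)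

end Abstract

/-! ### The base level of the tower is unramified -/

section Modular

variable {M q : ℕ} [NeZero M] [hq : Fact q.Prime]
variable (B : ValuationSubring Kb) (hB : B.LiesOverPrime q) (hqM : ¬ q ∣ M)

local notation "kB" => IsLocalRing.ResidueField B
local notation "FtM" => modularFunctionFieldFullC (IsLocalRing.ResidueField B) M

/-- The coefficient field of the base level `S = ∅` is `K₀ = ℚ(μ_{prime to q})`. -/
theorem coeffField_empty_eq : coeffField q (∅ : Finset Kb) = cycloField Kb q := by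
  unfold coeffField
  rw [Finset.coe_empty, IntermediateField.adjoin_empty, sup_bot_eq]

/-- **The base level of the tower is unramified**: its uniformizer has the valuation of `q`. -/
theorem valuation_unif_empty :
    B.valuation (unif B hq.out hB ∅) = B.valuation (q : Kb) := by
  have hdvr := isDVRField_cycloField B hq.out hB
  apply le_antisymm
  · -- `unif ∈ K₀`, so `|unif| = |q|^n`, `n ≥ 1`
    have hmem : unif B hq.out hB ∅ ∈ cycloField Kb q := by
      have h := unif_mem_KS B hq.out hB ∅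
      rw [mem_KS_iff, coeffField_empty_eq] at h
      exact h
    obtain ⟨n, hn⟩ := hdvr.2.2 _ hmem (unif_ne_zero B hq.out hB ∅)
    have hq0 : B.valuation (q : Kb) ≠ 0 :=
      (_root_.map_ne_zero _).2 (Nat.cast_ne_zero.mpr hq.out.ne_zero)
    have h1 : B.valuation (q : Kb) ^ n ≤ 1 := by
      rw [← hn]
      exact (unif_lt_one B hq.out hB ∅).le
    have h2 := Fermat.Agent.BR.UnramTower.zpow_nonneg_of_le_one hq0 hdvr.2.1 h1
    obtain ⟨m, rfl⟩ := Int.eq_ofNat_of_zero_le h2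
    rw [zpow_natCast] at hn
    rcases Nat.eq_zero_or_pos m with rfl | hm
    · rw [pow_zero] at hn
      exact absurd (unif_lt_one B hq.out hB ∅) (by rw [hn]; exact lt_irrefl _)
    · rw [hn]
      calc B.valuation (q : Kb) ^ m ≤ B.valuation (q : Kb) ^ 1 :=
            pow_le_pow_of_le_one zero_le hdvr.2.1.le hm
        _ = B.valuation (q : Kb) := pow_one _
  · exact valuation_le_unif B hq.out hB ∅ (natCast_mem _ q) hdvr.2.1

/-! ### The final data -/

variable [IsAlgClosed (ResidueField B)]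
  (hne : Nonempty (Crossing (chartDataModular B hB hqM)))
  (e : Crossing (chartDataModular B hB hqM))

set_option maxHeartbeats 4000000 in
/-- The node coordinates of `annulusLevels_modular_final` satisfy `S0.CrossingFamily`. -/
theorem crossingFamily_final :
    CrossingFamily B (residue B) (compW B hB hqM 0).O (compW B hB hqM 1).O
      (compW B hB hqM 0).res (compW B hB hqM 1).res (z₁ (chartDataModular B hB hqM) e)
      (z₂ (chartDataModular B hB hqM) e)
      {P | (atlasHyp_modular B hB hqM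
        (Fermat.Agent.BR.S0.GeomFinal.geomInputs_modular_final B hB hqM)).r P =
          ⟨0, z₁ (chartDataModular B hB hqM) e⟩}
      (CS (M * q) q (baseFin M q B)) (fun S => unif B hq.out hB S) ∅
      (annulusLevels_modular_final B hB hqM hne e).v
      (annulusLevels_modular_final B hB hqM hne e).u
      (annulusLevels_modular_final B hB hqM hne e).ε₀
      (annulusLevels_modular_final B hB hqM hne e).thick :=
  crossingFamily_all B hB hqM _ hne _ _ _ e

set_option maxHeartbeats 4000000 in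
/-- **Thickness one, `f`-version.**  For EVERY pair `x`, `y` of functions of the base level of the
tube of the crossing `e`, `x ≡ 0` on `'et'`, `y ≡ 0` on `'can'`, whose reductions have SIMPLE zeros
at the branches `z₁ e` resp. `z₂ e`: `x * y = q • z` with `z` a UNIT of the base level. -/
theorem isUnit_of_simple_zeros_final (h2 : nuTwo M = 0) (h3 : nuThree M = 0)
    {x y z : Fb (M * q)}
    (hx : x ∈ ((annulusLevels_modular_final B hB hqM hne e).level (∅ : Finset Kb)).R)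
    (hy : y ∈ ((annulusLevels_modular_final B hB hqM hne e).level (∅ : Finset Kb)).R)
    (hz : z ∈ ((annulusLevels_modular_final B hB hqM hne e).level (∅ : Finset Kb)).R)
    (hx₂ : x ∈ (compW B hB hqM 1).O.nonunits) (hy₁ : y ∈ (compW B hB hqM 0).O.nonunits)
    (hxO : x ∈ (compW B hB hqM 0).O) (hyO : y ∈ (compW B hB hqM 1).O)
    (hxord : (z₁ (chartDataModular B hB hqM) e).ord ((compW B hB hqM 0).res ⟨x, hxO⟩) = 1)
    (hyord : (z₂ (chartDataModular B hB hqM) e).ord ((compW B hB hqM 1).res ⟨y, hyO⟩) = 1)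
    (hxyz : x * y = (q : Kb) • z) :
    IsUnit (⟨z, hz⟩ :
      ((annulusLevels_modular_final B hB hqM hne e).level (∅ : Finset Kb)).R) := by
  have hF := crossingFamily_final B hB hqM hne e
  set L := annulusLevels_modular_final B hB hqM hne e with hL
  set Mo := hF.model ∅ with hMo
  have hres0₁ : ∀ x : (compW B hB hqM 0).O, (x : Fb (M * q)) ∈ (compW B hB hqM 0).O.nonunits →
      (compW B hB hqM 0).res x = 0 :=
    fun y hy => (constRed_res_eq_zero_iff (compW B hB hqM 0) y).mpr hy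
  have hres0₂ : ∀ x : (compW B hB hqM 1).O, (x : Fb (M * q)) ∈ (compW B hB hqM 1).O.nonunits →
      (compW B hB hqM 1).res x = 0 :=
    fun y hy => (constRed_res_eq_zero_iff (compW B hB hqM 1) y).mpr hy
  -- `|thick| = |q| = |ϖ_∅|`
  have hthick : B.valuation L.thick = B.valuation (unif B hq.out hB ∅) := by
    rw [valuation_unif_empty B hB]
    exact valuation_thick_levels_final B hB hqM h2 h3 hne e
  obtain ⟨η, hη, hη', huv⟩ := exists_unit_of_valuation_thick L (∅ : Finset Kb)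
    (c₀ := unif B hq.out hB ∅) (L.level ∅).unif_mem hthick
  have hϖ0 : unif B hq.out hB ∅ ≠ 0 := unif_ne_zero B hq.out hB ∅
  have hη0 : η ≠ 0 := by
    rintro rfl
    rw [smul_zero] at huv
    rcases mul_eq_zero.mp huv with h0 | h0
    · apply hF.v_unit₁
      show L.u ∈ _
      rw [h0, ValuationSubring.mem_nonunits_iff, map_zero]
      exact zero_lt_one
    · apply hF.u_unit₂
      show L.v ∈ _
      rw [h0, ValuationSubring.mem_nonunits_iff, map_zero]
      exact zero_lt_one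
  -- `q = ϖ_∅ · c`, `c` a unit constant of the base level
  set c : Kb := (q : Kb) / unif B hq.out hB ∅ with hc
  have hcK : c ∈ (L.level ∅).K' :=
    (L.level ∅).K'.div_mem (natCast_mem _ q) (L.level ∅).unif_mem
  have hc1 : B.valuation c = 1 := by
    rw [hc, map_div₀, valuation_unif_empty B hB]
    exact div_self ((_root_.map_ne_zero _).mpr (Nat.cast_ne_zero.mpr hq.out.ne_zero))
  have hcB : c ∈ B := (B.valuation_le_one_iff c).mp hc1.le
  have hcinvB : c⁻¹ ∈ B := by
    rw [← B.valuation_le_one_iff, map_inv₀, hc1, inv_one]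
  have hcR : algebraMap Kb (Fb (M * q)) c ∈ (L.level ∅).R := (L.level ∅).const_mem c hcK hcB
  have hcinvR : algebraMap Kb (Fb (M * q)) c⁻¹ ∈ (L.level ∅).R :=
    (L.level ∅).const_mem c⁻¹ ((L.level ∅).K'.inv_mem hcK) hcinvB
  have hc0 : c ≠ 0 := by
    rintro h0
    rw [h0, map_zero] at hc1
    exact zero_ne_one hc1
  have hcz : algebraMap Kb (Fb (M * q)) c * z ∈ Mo.loc := Mo.loc.mul_mem hcR hz
  have key : IsUnit (⟨algebraMap Kb (Fb (M * q)) c * z, hcz⟩ : Mo.loc) := by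
    refine isUnit_of_transversal Mo hres0₁ hres0₂ (hF.inter ∅) (u := L.v) (v := L.u) (η := η)
      hF.u_mem hF.v_mem hη hη' hη0 ?_ hF.u_nonunit₁ hF.v_nonunit₂ hF.max1 hF.max2 hx hy hcz
      hx₂ hy₁ hxO hyO hxord hyord ?_
    · rw [mul_comm L.v L.u, huv, Algebra.smul_def]
    · rw [hxyz, Algebra.smul_def, ← mul_assoc, ← map_mul, hc, mul_div_cancel₀ _ hϖ0]
  -- `z = c⁻¹ (c z)`
  have hzeq : (⟨z, hz⟩ : Mo.loc) =
      ⟨algebraMap Kb (Fb (M * q)) c⁻¹, hcinvR⟩ * ⟨algebraMap Kb (Fb (M * q)) c * z, hcz⟩ := by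
    apply Subtype.ext
    show z = algebraMap Kb (Fb (M * q)) c⁻¹ * (algebraMap Kb (Fb (M * q)) c * z)
    rw [← mul_assoc, ← map_mul, inv_mul_cancel₀ hc0, map_one, one_mul]
  have hcinvu : IsUnit (⟨algebraMap Kb (Fb (M * q)) c⁻¹, hcinvR⟩ : Mo.loc) :=
    IsUnit.of_mul_eq_one (⟨algebraMap Kb (Fb (M * q)) c, hcR⟩ : Mo.loc) (Subtype.ext (by
      show algebraMap Kb (Fb (M * q)) c⁻¹ * algebraMap Kb (Fb (M * q)) c = 1
      rw [← map_mul, inv_mul_cancel₀ hc0, map_one]))
  show IsUnit (⟨z, hz⟩ : Mo.loc)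
  rw [hzeq]
  exact hcinvu.mul key

/-- `s * t = q • Ψ_q(j(s^q), j(s))` for `s = j - j(s^q)^q`, `t = j(s^q) - j^q` (Kronecker). -/
theorem sKron_mul_tKron :
    sKron M q * tKron M q = (q : Kb) • (psiK q (Fb (M * q))).evalEval (jq' M q) (jBar (M * q)) := by
  have h := kron_AB (M := M) (q := q)
  have hQ : jQ M q = jq' M q := Fermat.Agent.BR.Inst.TwoCompGlue.jQ_eq
  have hO : jOne M q = jBar (M * q) := Fermat.Agent.BR.Inst.TwoCompGlue.jOne_eq
  rw [sKron, tKron, hQ, hO, Algebra.smul_def, map_natCast]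
  rw [Rk] at h
  linear_combination -h

set_option maxHeartbeats 4000000 in
/-- **The hypothesis `hR` of the vertical component** (`VertFinal.exists_vertComponent_final`) at a
NON-ELLIPTIC crossing `e`: `Ψ_q(j(s^q), j(s))` is a unit of the base level of the tube of `e`, as
soon as the reductions of `s = j - j(s^q)^q` on `'can'` (`= j̃ - j̃^(q²)`) and of
`t = j(s^q) - j^q` on `'et'` have SIMPLE zeros at the branches `z₁ e`, `z₂ e`. -/
theorem isUnit_psiK_final (h2 : nuTwo M = 0) (h3 : nuThree M = 0)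
    (hsO : sKron M q ∈ (compW B hB hqM 0).O) (htO : tKron M q ∈ (compW B hB hqM 1).O)
    (hsord : (z₁ (chartDataModular B hB hqM) e).ord
      ((compW B hB hqM 0).res ⟨sKron M q, hsO⟩) = 1)
    (htord : (z₂ (chartDataModular B hB hqM) e).ord
      ((compW B hB hqM 1).res ⟨tKron M q, htO⟩) = 1) :
    IsUnit (⟨_, psiK_mem_level B hB hqM hne e ∅⟩ :
      ((annulusLevels_modular_final B hB hqM hne e).level (∅ : Finset Kb)).R) := by
  have hQ : jQ M q = jq' M q := Fermat.Agent.BR.Inst.TwoCompGlue.jQ_eq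
  have hO : jOne M q = jBar (M * q) := Fermat.Agent.BR.Inst.TwoCompGlue.jOne_eq
  have hj := jBar_mem_level B hB hqM hne e ∅
  have hjq := jq'_mem_level B hB hqM hne e ∅
  have hs : sKron M q ∈ ((annulusLevels_modular_final B hB hqM hne e).level (∅ : Finset Kb)).R := by
    rw [sKron, hQ, hO]
    exact sub_mem hj (pow_mem hjq q)
  have ht : tKron M q ∈ ((annulusLevels_modular_final B hB hqM hne e).level (∅ : Finset Kb)).R := by
    rw [tKron, hQ, hO]
    exact sub_mem hjq (pow_mem hj q)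
  exact isUnit_of_simple_zeros_final B hB hqM hne e h2 h3 hs ht
    (psiK_mem_level B hB hqM hne e ∅) (sKron_mem_nonunits_O2 B hB hqM)
    (tKron_mem_nonunits_O1 B hB) hsO htO hsord htord sKron_mul_tKron

end Modular

end Fermat.Agent.BR3.ThickOneUnit
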