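/-
Program C (S36), nodes A7/A7s/A8 → MultiInput (helper8): THE NODE CHART OF A NODE FROM ITS LEVEL
DATA.

`MultiInput.ofNodeCharts` / `MultiInput.ofR` (`BR3/MultiInput`, `BR3/MultiInputOfR`) ask for a
`S0.NodeChart A O₁ O₂ res₁ res₂ Q₁ Q₂ T` at every node.  In Program B these came from GLOBAL models
(`S0.NodeLevels.ofModels`).  For the model `S''` of Program C the nodes are given by EXPLICIT
local rings, i.e. by a family of levels `L : S0.AnnulusLevels A T ι` (`BR3/NodeLevelFrac.FracLevels`,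
helper19's split nodes, helper5's sub-annulus levels).  This file is the adapter:

* `evalAt_eq_zero_iff_mem_nonunits` : for `x` in a ring on which `P` is integral,
  `evalAt P x = 0 ↔ x ∈ 𝔪_P`;
* `nodeLevels_of_annulusLevels : S0.NodeLevels A O₁ O₂ res₁ res₂ Q₁ Q₂ T (fun i => (L.level i).R)`
  from: the levels lie in `O₁ ∩ O₂`, the two vertical primes `p1`, `p2` of every level are the
  traces of `𝔪(O₁)`, `𝔪(O₂)` (in either order), non-units vanish at the two branches
  (`branch₁`, `branch₂`: domination by the composites `BR3/CompVal.compVal`), constants are regular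
  at the first branch;
* `nodeChartOfLevels : S0.NodeChart A O₁ O₂ res₁ res₂ Q₁ Q₂ T`, with `.R = ⨆ i, (L.level i).R`.
-/
import Mathlib
import Fermat.Agent.BR.S0.AnnulusLevels
import Fermat.Agent.BR.S0.NodeDescent
import Fermat.Agent.BR.CentreOrd

set_option autoImplicit false
set_option linter.unusedSectionVars false

namespace Fermat.Agent.BR3.NodeChartOfLevels

open AlgebraicCurve IsLocalRing Fermat.Agent.Red Fermat.Agent.BR.Centre Fermat.Agent.BR.S0

variable {K F k : Type*} [Field K] [Field F] [Algebra K F] [Field k]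
  {Ft₁ Ft₂ : Type*} [Field Ft₁] [Algebra k Ft₁] [Field Ft₂] [Algebra k Ft₂]
  {A : ValuationSubring K} {T : Set (Place K F)} {ι : Type*}

/-- For a function of a ring on which the place `P` is integral: the value at `P` is zero iff the
function lies in the maximal ideal of `P`. -/
theorem evalAt_eq_zero_iff_mem_nonunits {R : Subring F} {P : Place K F} (h : IntegralAt A R P)
    (x : R) : evalAt P (x : F) = 0 ↔ (x : F) ∈ P.toValuationSubring.nonunits := by
  have hv := h.isValueAt_evalAt x.2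
  rw [mem_nonunits_place_iff, ← adicValuation_lt_one_iff, ← isValueAt_zero_iff]
  constructor
  · intro h0
    rwa [h0] at hv
  · intro h0
    exact hv.unique h0

/-- **The node levels (`BR/S0/NodeDescent`) of a family of level data of a node.** -/
theorem nodeLevels_of_annulusLevels (L : AnnulusLevels A T ι)
    (O₁ O₂ : ValuationSubring F) (res₁ : O₁ →+* Ft₁) (res₂ : O₂ →+* Ft₂)
    (Q₁ : Place k Ft₁) (Q₂ : Place k Ft₂)
    (le₁ : ∀ i, ∀ y ∈ (L.level i).R, y ∈ O₁) (le₂ : ∀ i, ∀ y ∈ (L.level i).R, y ∈ O₂)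
    (hvert : ∀ i,
      ((∀ x : (L.level i).R, x ∈ (L.level i).p1 ↔ (x : F) ∈ O₁.nonunits) ∧
        (∀ x : (L.level i).R, x ∈ (L.level i).p2 ↔ (x : F) ∈ O₂.nonunits)) ∨
      ((∀ x : (L.level i).R, x ∈ (L.level i).p1 ↔ (x : F) ∈ O₂.nonunits) ∧
        (∀ x : (L.level i).R, x ∈ (L.level i).p2 ↔ (x : F) ∈ O₁.nonunits)))
    (branch₁ : ∀ i, ∀ y : (L.level i).R, ¬ IsUnit y →
      Q₁.adicValuation (res₁ ⟨y, le₁ i y y.2⟩) < 1)
    (branch₂ : ∀ i, ∀ y : (L.level i).R, ¬ IsUnit y →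
      Q₂.adicValuation (res₂ ⟨y, le₂ i y y.2⟩) < 1)
    (const₁ : ∀ (a : K) (_ : a ∈ A) (h : algebraMap K F a ∈ O₁),
      Q₁.adicValuation (res₁ ⟨algebraMap K F a, h⟩) ≤ 1) :
    NodeLevels A O₁ O₂ res₁ res₂ Q₁ Q₂ T (fun i => (L.level i).R) where
  directed := fun i j => by
    obtain ⟨l, h1, h2, -, -⟩ := L.directed i j
    exact ⟨l, h1, h2⟩
  cover := L.frac
  const := fun a ha => by
    obtain ⟨i, hi⟩ := L.const a
    exact ⟨i, (L.level i).const_mem a hi ha⟩
  noeth := fun i => (L.level i).noeth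
  intClosed := fun i => (L.level i).intClosed
  isLocal := fun i => (L.level i).isLocal
  le₁ := le₁
  le₂ := le₂
  residue := fun i => (L.level i).residue
  branch₁ := branch₁
  branch₂ := branch₂
  const₁ := const₁
  regular := fun i P hP y hy => by
    obtain ⟨h, -⟩ := (L.level i).centred P hP
    exact h.mem_toValuationSubring hy
  primes := fun i p hp hht => by
    by_cases hϖ : (⟨algebraMap K F (L.level i).ϖ, (L.level i).unif_memR⟩ : (L.level i).R) ∈ p
    · rcases (L.level i).vertical p hp hht hϖ with h | h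
      · rcases hvert i with ⟨h1, -⟩ | ⟨h1, -⟩
        · exact Or.inl fun x => by rw [h]; exact h1 x
        · exact Or.inr (Or.inl fun x => by rw [h]; exact h1 x)
      · rcases hvert i with ⟨-, h2⟩ | ⟨-, h2⟩
        · exact Or.inr (Or.inl fun x => by rw [h]; exact h2 x)
        · exact Or.inl fun x => by rw [h]; exact h2 x
    · obtain ⟨P, hP, hx⟩ := (L.level i).horiz p hp hht hϖ
      obtain ⟨h, -⟩ := (L.level i).centred P hP
      exact Or.inr (Or.inr ⟨P, hP, fun x =>
        (hx x).trans (evalAt_eq_zero_iff_mem_nonunits h x)⟩)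

/-- **The node chart over `A` of a node from its level data** (the input `chart e` of
`MultiInput.ofNodeCharts` / `MultiInput.ofR`). -/
noncomputable def nodeChartOfLevels (L : AnnulusLevels A T ι)
    (O₁ O₂ : ValuationSubring F) (res₁ : O₁ →+* Ft₁) (res₂ : O₂ →+* Ft₂)
    (Q₁ : Place k Ft₁) (Q₂ : Place k Ft₂)
    (le₁ : ∀ i, ∀ y ∈ (L.level i).R, y ∈ O₁) (le₂ : ∀ i, ∀ y ∈ (L.level i).R, y ∈ O₂)
    (hvert : ∀ i,
      ((∀ x : (L.level i).R, x ∈ (L.level i).p1 ↔ (x : F) ∈ O₁.nonunits) ∧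
        (∀ x : (L.level i).R, x ∈ (L.level i).p2 ↔ (x : F) ∈ O₂.nonunits)) ∨
      ((∀ x : (L.level i).R, x ∈ (L.level i).p1 ↔ (x : F) ∈ O₂.nonunits) ∧
        (∀ x : (L.level i).R, x ∈ (L.level i).p2 ↔ (x : F) ∈ O₁.nonunits)))
    (branch₁ : ∀ i, ∀ y : (L.level i).R, ¬ IsUnit y →
      Q₁.adicValuation (res₁ ⟨y, le₁ i y y.2⟩) < 1)
    (branch₂ : ∀ i, ∀ y : (L.level i).R, ¬ IsUnit y →
      Q₂.adicValuation (res₂ ⟨y, le₂ i y y.2⟩) < 1)
    (const₁ : ∀ (a : K) (_ : a ∈ A) (h : algebraMap K F a ∈ O₁),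
      Q₁.adicValuation (res₁ ⟨algebraMap K F a, h⟩) ≤ 1) :
    NodeChart A O₁ O₂ res₁ res₂ Q₁ Q₂ T :=
  (nodeLevels_of_annulusLevels L O₁ O₂ res₁ res₂ Q₁ Q₂ le₁ le₂ hvert branch₁ branch₂
    const₁).nodeChart

theorem nodeChartOfLevels_R (L : AnnulusLevels A T ι)
    (O₁ O₂ : ValuationSubring F) (res₁ : O₁ →+* Ft₁) (res₂ : O₂ →+* Ft₂)
    (Q₁ : Place k Ft₁) (Q₂ : Place k Ft₂) le₁ le₂ hvert branch₁ branch₂ const₁ :
    (nodeChartOfLevels L O₁ O₂ res₁ res₂ Q₁ Q₂ le₁ le₂ hvert branch₁ branch₂ const₁).R =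
      ⨆ i, (L.level i).R := rfl

end Fermat.Agent.BR3.NodeChartOfLevels
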