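/-
Program C (S36), node A7 COVER-NODE-SPLIT (helper19), part 1: the local ring of `Spec R[W]` at a
point where the minimal polynomial of `W` has a SIMPLE root modulo the maximal ideal of `R`.

`R` an integrally closed local domain, `L ⊇ R` a field of characteristic zero, `W : L` integral
over `R` with minimal polynomial `Ψ`, `c : R` with `Ψ(c) ∈ 𝔪_R` and `Ψ'(c)` a unit (only THIS root
has to be simple: at a node of the split sheet the other roots are the Kummer sheets).

* `euler_field`, `euler` : Euler's lemma `Ψ'(W) · (integral closure of R in K₀(W)) ⊆ R[W]`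
  (Mathlib `traceForm_dualSubmodule_adjoin`), in intrinsic form (no fraction field in the
  statement);
* `adjSub R W : Subring L` (`= R[W]`), `toAdj`, `genAdj`, `evalAdj`;
* `IsSheetPoint χ c` : `χ : R[W] →+* κ` (a field), `ker (χ ∘ toAdj) = 𝔪_R`, `χ W = χ c`;
  `exists_isSheetPoint` : it exists as soon as `Ψ(c) ∈ 𝔪_R` (presentation `R[W] = R[X]/(Ψ)`);
* `splitRing χ : Subring L` : the localisation of `R[W]` at `ker χ` (`Inst.LocSub.locSub`):
  `isLocalRing_splitRing`, `isNoetherianRing_splitRing`,
  `IsSheetPoint.isIntegrallyClosed_splitRing` (**normal**),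
  `IsSheetPoint.nonunit_mem` (**`𝔪 = 𝔪_R · splitRing`**: `W - c = - Ψ(c) / G(W)`),
  `IsSheetPoint.residue` (**same residue field**), `IsSheetPoint.isUnit_toSplit_iff`;
* `eq_of_le_of_notMem` : in a noetherian local ring with `𝔪 = I + (v)`, a prime `P ⊇ I`, `v ∉ P`,
  is `I` (so the extended vertical primes are prime);
* `comap_toSplit_ne_bot`, `height_comap_toSplit_le` (going down, Mathlib): primes of the local
  ring restrict to primes of `R` of at most the same height;
* `minpoly_eq_of_irreducible`, `isIntegrallyClosed_subring` (element form of normality for a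
  subring of a field).
-/
import Mathlib
import Fermat.Agent.BR.Inst.LocSub

set_option autoImplicit false
set_option linter.unusedSectionVars false
set_option linter.style.haveILetI false

noncomputable section

namespace Fermat.Agent.BR3.EtaleLocal

open Polynomial IsLocalRing Fermat.Agent.BR.Inst.LocSub

section Euler

variable {R : Type*} [CommRing R] [IsDomain R] [IsIntegrallyClosed R]
  {K₀ : Type*} [Field K₀] [Algebra R K₀] [IsFractionRing R K₀]
  {E : Type*} [Field E] [Algebra K₀ E] [Algebra R E] [IsScalarTower R K₀ E]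
  [FiniteDimensional K₀ E] [Algebra.IsSeparable K₀ E]

theorem euler_field {W : E} (hgen : Algebra.adjoin K₀ {W} = ⊤) (hW : IsIntegral R W) {z : E}
    (hz : IsIntegral R z) :
    aeval W (derivative (minpoly K₀ W)) * z ∈ Algebra.adjoin R {W} := by
  have hd : aeval W (derivative (minpoly K₀ W)) ≠ 0 :=
    (Algebra.IsSeparable.isSeparable K₀ W).aeval_derivative_ne_zero (minpoly.aeval _ _)
  have h1 : z ∈ (Algebra.traceForm K₀ E).dualSubmodule
      (Subalgebra.toSubmodule (Algebra.adjoin R {W})) := by
    rw [LinearMap.BilinForm.mem_dualSubmodule]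
    intro y hy
    have hy' : IsIntegral R y := by
      have : y ∈ Algebra.adjoin R {W} := hy
      refine Algebra.adjoin_induction (p := fun y _ => IsIntegral R y) ?_ ?_ ?_ ?_ this
      · rintro x rfl
        exact hW
      · intro r
        exact isIntegral_algebraMap
      · intro x y _ _ hx hy
        exact hx.add hy
      · intro x y _ _ hx hy
        exact hx.mul hy
    have h2 : IsIntegral R (Algebra.trace K₀ E (z * y)) := Algebra.isIntegral_trace (hz.mul hy')
    rw [Algebra.traceForm_apply]
    obtain ⟨r, hr⟩ := IsIntegrallyClosed.isIntegral_iff.mp h2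
    rw [Submodule.mem_one]
    exact ⟨r, hr⟩
  rw [traceForm_dualSubmodule_adjoin R K₀ hgen hW, Submodule.mem_smul_iff_inv_mul_mem
    (inv_ne_zero hd), inv_inv] at h1
  exact h1

end Euler

section IntegralAdjoin

variable {R : Type*} [CommRing R] {L : Type*} [Field L] [Algebra R L]

theorem isIntegral_of_mem_adjoin {W : L} (hW : IsIntegral R W) {y : L}
    (hy : y ∈ Algebra.adjoin R {W}) : IsIntegral R y := by
  refine Algebra.adjoin_induction (p := fun y _ => IsIntegral R y) ?_ ?_ ?_ ?_ hy
  · rintro x rfl
    exact hW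
  · intro r
    exact isIntegral_algebraMap
  · intro x y _ _ hx hy
    exact hx.add hy
  · intro x y _ _ hx hy
    exact hx.mul hy

end IntegralAdjoin

section Euler2

variable {R : Type*} [CommRing R] [IsDomain R] [IsIntegrallyClosed R]
  {L : Type*} [Field L] [CharZero L] [Algebra R L]

/-- **Euler's lemma**, intrinsic form. -/
theorem euler (hinj : Function.Injective (algebraMap R L)) {W z : L} (hW : IsIntegral R W)
    (hz : IsIntegral R z)
    (hzW : ∃ a ∈ Algebra.adjoin R {W}, ∃ b ∈ Algebra.adjoin R {W}, b ≠ 0 ∧ z * b = a) :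
    aeval W (derivative (minpoly R W)) * z ∈ Algebra.adjoin R {W} := by
  classical
  let K₀ := FractionRing R
  letI : Algebra K₀ L := (IsFractionRing.lift (K := K₀) hinj).toAlgebra
  haveI : IsScalarTower R K₀ L := IsScalarTower.of_algebraMap_eq fun x =>
    (IsFractionRing.lift_algebraMap hinj x).symm
  have hWK : IsIntegral K₀ W := hW.tower_top
  let E : IntermediateField K₀ L := IntermediateField.adjoin K₀ {W}
  haveI : FiniteDimensional K₀ E := IntermediateField.adjoin.finiteDimensional hWK
  haveI : CharZero K₀ := (RingHom.charZero_iff (algebraMap K₀ L).injective).mpr inferInstance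
  let We : E := IntermediateField.AdjoinSimple.gen K₀ W
  have hgenE : Algebra.adjoin K₀ {We} = ⊤ := by
    have := (IntermediateField.adjoin.powerBasis hWK).adjoin_gen_eq_top
    rwa [IntermediateField.adjoin.powerBasis_gen] at this
  let f : E →ₐ[R] L := (E.val).restrictScalars R
  have hf : Function.Injective f := E.val.injective
  have hfW : f We = W := rfl
  have hWe : IsIntegral R We := (isIntegral_algHom_iff f hf).mp (by rw [hfW]; exact hW)
  -- `R[W] ⊆ E`
  have hle : ∀ y ∈ Algebra.adjoin R {W}, y ∈ E := by
    intro y hy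
    refine Algebra.adjoin_induction (p := fun y _ => y ∈ E) ?_ ?_ ?_ ?_ hy
    · intro x hx
      rw [Set.mem_singleton_iff] at hx
      rw [hx]
      exact IntermediateField.mem_adjoin_simple_self K₀ W
    · intro r
      rw [IsScalarTower.algebraMap_apply R K₀ L]
      exact E.algebraMap_mem _
    · intro x y _ _ hx hy
      exact E.add_mem hx hy
    · intro x y _ _ hx hy
      exact E.mul_mem hx hy
  obtain ⟨a, ha, b, hb, hb0, hab⟩ := hzW
  have hzE : z ∈ E := by
    have : z = a / b := eq_div_of_mul_eq hb0 hab
    rw [this]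
    exact E.div_mem (hle a ha) (hle b hb)
  let ze : E := ⟨z, hzE⟩
  have hze : IsIntegral R ze := (isIntegral_algHom_iff f hf).mp hz
  have key := euler_field (K₀ := K₀) hgenE hWe hze
  have h1 : f (aeval We (derivative (minpoly K₀ We)) * ze) ∈
      (Algebra.adjoin R {We}).map f := ⟨_, key, rfl⟩
  rw [AlgHom.map_adjoin_singleton, hfW, map_mul] at h1
  have h2 : f (aeval We (derivative (minpoly K₀ We))) =
      aeval W (derivative (minpoly R W)) := by
    have e1 : minpoly K₀ We = minpoly K₀ W := IntermediateField.minpoly_eq We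
    rw [e1, minpoly.isIntegrallyClosed_eq_field_fractions' K₀ hW, derivative_map,
      aeval_map_algebraMap, ← aeval_algHom_apply, hfW]
  rw [h2] at h1
  exact h1

end Euler2

section AdjSub

variable (R : Type*) [CommRing R] {L : Type*} [Field L] [Algebra R L] (W : L)

/-- The subring `R[W]` of `L`. -/
def adjSub : Subring L := (Algebra.adjoin R {W}).toSubring

variable {R W}

theorem mem_adjSub_iff {x : L} : x ∈ adjSub R W ↔ x ∈ Algebra.adjoin R {W} := Iff.rfl

variable (R W)

theorem algebraMap_mem_adjSub (r : R) : algebraMap R L r ∈ adjSub R W :=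
  Subalgebra.algebraMap_mem _ r

theorem gen_mem_adjSub : W ∈ adjSub R W :=
  Algebra.subset_adjoin (Set.mem_singleton W)

theorem aeval_mem_adjSub (p : R[X]) : aeval W p ∈ adjSub R W := by
  rw [mem_adjSub_iff, Algebra.adjoin_singleton_eq_range_aeval]
  exact ⟨p, rfl⟩

variable {R W}

theorem exists_aeval_eq {x : L} (hx : x ∈ adjSub R W) : ∃ p : R[X], aeval W p = x := by
  rw [mem_adjSub_iff, Algebra.adjoin_singleton_eq_range_aeval] at hx
  exact hx

variable (R W)

/-- the structural map `R → R[W]` -/
def toAdj : R →+* adjSub R W :=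
  (algebraMap R L).codRestrict (adjSub R W) (algebraMap_mem_adjSub R W)

/-- the generator, as an element of `R[W]` -/
def genAdj : adjSub R W := ⟨W, gen_mem_adjSub R W⟩

@[simp] theorem coe_toAdj (r : R) : ((toAdj R W r : adjSub R W) : L) = algebraMap R L r := rfl

@[simp] theorem coe_genAdj : ((genAdj R W : adjSub R W) : L) = W := rfl

/-- `p(W)` as an element of `R[W]` -/
def evalAdj (p : R[X]) : adjSub R W := ⟨aeval W p, aeval_mem_adjSub R W p⟩

@[simp] theorem coe_evalAdj (p : R[X]) : ((evalAdj R W p : adjSub R W) : L) = aeval W p := rfl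

theorem evalAdj_eq_eval₂ (p : R[X]) : evalAdj R W p = p.eval₂ (toAdj R W) (genAdj R W) := by
  apply Subtype.ext
  rw [coe_evalAdj]
  have h := Polynomial.hom_eval₂ p (toAdj R W) (adjSub R W).subtype (genAdj R W)
  rw [show ((adjSub R W).subtype (eval₂ (toAdj R W) (genAdj R W) p)) =
    ((eval₂ (toAdj R W) (genAdj R W) p : adjSub R W) : L) from rfl] at h
  rw [h]
  rfl

theorem exists_evalAdj_eq (x : adjSub R W) : ∃ p : R[X], evalAdj R W p = x := by
  obtain ⟨p, hp⟩ := exists_aeval_eq x.2
  exact ⟨p, Subtype.ext hp⟩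

end AdjSub

/-! ### A point of `Spec R[W]` over the closed point of `Spec R`, on the sheet `W ≡ c` -/

section Point

variable {R : Type*} [CommRing R] [IsLocalRing R] {L : Type*} [Field L] [Algebra R L] {W : L}
  {κ : Type*} [Field κ]

/-- A point of `Spec R[W]` over the closed point of `Spec R` on the sheet `W ≡ c`: a ring
homomorphism `χ : R[W] → κ` to a field whose restriction to `R` has kernel `𝔪_R`, with
`χ W = χ c`. -/
structure IsSheetPoint (χ : adjSub R W →+* κ) (c : R) : Prop where
  ker_base : ∀ r : R, χ (toAdj R W r) = 0 ↔ r ∈ maximalIdeal R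
  gen : χ (genAdj R W) = χ (toAdj R W c)

namespace IsSheetPoint

variable {χ : adjSub R W →+* κ} {c : R} (H : IsSheetPoint χ c)

include H in
/-- `χ (p(W)) = χ (p(c))` -/
theorem map_evalAdj (p : R[X]) : χ (evalAdj R W p) = χ (toAdj R W (p.eval c)) := by
  rw [evalAdj_eq_eval₂, Polynomial.hom_eval₂, H.gen, ← Polynomial.hom_eval₂, ← RingHom.comp_apply]
  rw [Polynomial.eval₂_hom]
  rfl

include H in
theorem map_evalAdj_eq_zero_iff (p : R[X]) :
    χ (evalAdj R W p) = 0 ↔ p.eval c ∈ maximalIdeal R := by
  rw [H.map_evalAdj, H.ker_base]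

include H in
theorem map_toAdj_ne_zero {r : R} (hr : IsUnit r) : χ (toAdj R W r) ≠ 0 := by
  intro h0
  exact ((H.ker_base r).mp h0) hr

end IsSheetPoint

end Point

/-! ### Normality of a subring of a field, element form -/

section Criterion

variable {F : Type*} [Field F]

/-- A subring `D` of a field is integrally closed as soon as every quotient `a / b` of elements
of `D` which is integral over `D` lies in `D`. -/
theorem isIntegrallyClosed_subring (D : Subring F)
    (h : ∀ a b : D, b ≠ 0 → IsIntegral D ((a : F) / (b : F)) → (a : F) / (b : F) ∈ D) :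
    IsIntegrallyClosed D := by
  rw [isIntegrallyClosed_iff (FractionRing D)]
  intro x hx
  have hinj : Function.Injective (algebraMap D F) := Subtype.val_injective
  let φ : FractionRing D →ₐ[D] F := IsFractionRing.liftAlgHom (g := Algebra.ofId D F) hinj
  obtain ⟨a, b, hb, rfl⟩ := IsFractionRing.div_surjective (A := D) x
  have hb0 : b ≠ 0 := nonZeroDivisors.ne_zero hb
  have h1 : φ (algebraMap D (FractionRing D) a / algebraMap D (FractionRing D) b) =
      (a : F) / (b : F) := by
    rw [map_div₀, AlgHom.commutes, AlgHom.commutes]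
    rfl
  have h2 : IsIntegral D ((a : F) / (b : F)) := h1 ▸ hx.map φ
  have hmem := h a b hb0 h2
  refine ⟨⟨_, hmem⟩, ?_⟩
  apply (φ : FractionRing D →+* F).injective
  show φ (algebraMap D (FractionRing D) _) = φ _
  rw [AlgHom.commutes, h1]
  rfl

end Criterion

/-! ### The local ring of `Spec R[W]` at a sheet point -/

section Split

attribute [local instance] RingHom.ker_isPrime

variable {R : Type*} [CommRing R] [IsLocalRing R] {L : Type*} [Field L] [Algebra R L] {W : L}
  {κ : Type*} [Field κ] (χ : adjSub R W →+* κ)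

/-- The local ring of `Spec R[W]` at the point `χ`, as a subring of `L`. -/
def splitRing : Subring L := locSub (adjSub R W) (RingHom.ker χ)

theorem mem_splitRing_iff {x : L} :
    x ∈ splitRing χ ↔ ∃ a b : adjSub R W, χ b ≠ 0 ∧ x * (b : L) = (a : L) := by
  unfold splitRing
  rw [mem_locSub_iff]
  simp only [RingHom.mem_ker]

theorem adjSub_le_splitRing : adjSub R W ≤ splitRing χ := le_locSub _ _

/-- the structural map `R[W] → R[W]_χ` -/
def adjToSplit : adjSub R W →+* splitRing χ := Subring.inclusion (adjSub_le_splitRing χ)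

/-- the structural map `R → R[W]_χ` -/
def toSplit : R →+* splitRing χ := (adjToSplit χ).comp (toAdj R W)

@[simp] theorem coe_adjToSplit (a : adjSub R W) : ((adjToSplit χ a : splitRing χ) : L) = a := rfl

@[simp] theorem coe_toSplit (r : R) : ((toSplit χ r : splitRing χ) : L) = algebraMap R L r := rfl

theorem algebraMap_mem_splitRing (r : R) : algebraMap R L r ∈ splitRing χ := (toSplit χ r).2

theorem gen_mem_splitRing : W ∈ splitRing χ := adjSub_le_splitRing χ (gen_mem_adjSub R W)

theorem isLocalRing_splitRing : IsLocalRing (splitRing χ) := isLocalRing_locSub _ _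

theorem isUnit_adjToSplit_iff (a : adjSub R W) : IsUnit (adjToSplit χ a) ↔ χ a ≠ 0 := by
  have := isUnit_coe_iff (C := adjSub R W) (n := RingHom.ker χ) a
  rw [RingHom.mem_ker] at this
  exact this

theorem maximalIdeal_splitRing :
    @maximalIdeal (splitRing χ) _ (isLocalRing_splitRing χ) =
      Ideal.map (adjToSplit χ) (RingHom.ker χ) := by
  letI : IsLocalRing (locSub (adjSub R W) (RingHom.ker χ)) := isLocalRing_splitRing χ
  exact (IsLocalization.AtPrime.map_eq_maximalIdeal (RingHom.ker χ)
    (locSub (adjSub R W) (RingHom.ker χ))).symm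

/-- surjection `R[X] → R[W]` -/
theorem evalAdj_surjective :
    Function.Surjective (Polynomial.eval₂RingHom (toAdj R W) (genAdj R W)) := by
  intro x
  obtain ⟨p, hp⟩ := exists_evalAdj_eq R W x
  refine ⟨p, ?_⟩
  rw [← hp, evalAdj_eq_eval₂]
  rfl

theorem isNoetherianRing_adjSub [IsNoetherianRing R] : IsNoetherianRing (adjSub R W) :=
  isNoetherianRing_of_surjective _ _ _ (evalAdj_surjective (R := R) (W := W))

theorem isNoetherianRing_splitRing [IsNoetherianRing R] : IsNoetherianRing (splitRing χ) := by
  haveI := isNoetherianRing_adjSub (R := R) (W := W)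
  exact isNoetherianRing_locSub _ _

end Split

/-! ### The structure of the local ring at a simple sheet point -/

section Main

attribute [local instance] RingHom.ker_isPrime

variable {R : Type*} [CommRing R]

/-- the Taylor cofactor of a polynomial at `c` -/
theorem exists_cofactor (p : R[X]) (c : R) :
    ∃ g : R[X], p = C (p.eval c) + (X - C c) * g ∧ g.eval c = (derivative p).eval c := by
  have hroot : (p - C (p.eval c)).IsRoot c := by simp [IsRoot]
  have h := (mul_divByMonic_eq_iff_isRoot (p := p - C (p.eval c)) (a := c)).mpr hroot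
  refine ⟨(p - C (p.eval c)) /ₘ (X - C c), ?_, ?_⟩
  · rw [h]
    ring
  · have h2 := congrArg (fun q => (derivative q).eval c) h
    simp only [derivative_mul, derivative_sub, derivative_X, derivative_C, sub_zero, one_mul,
      eval_add, eval_mul, eval_sub, eval_X, eval_C, sub_self, zero_mul, add_zero] at h2
    exact h2

variable [IsLocalRing R] {L : Type*} [Field L] [Algebra R L] {W : L}
  {κ : Type*} [Field κ] {χ : adjSub R W →+* κ} {c : R}

theorem evalAdj_eq_of_cofactor {p g : R[X]} (hg : p = C (p.eval c) + (X - C c) * g) :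
    evalAdj R W p = toAdj R W (p.eval c) + (genAdj R W - toAdj R W c) * evalAdj R W g := by
  apply Subtype.ext
  have h1 : aeval W p = algebraMap R L (p.eval c) + (W - algebraMap R L c) * aeval W g := by
    conv_lhs => rw [hg]
    simp only [map_add, map_mul, map_sub, aeval_C, aeval_X]
  simpa using h1

namespace IsSheetPoint

variable (H : IsSheetPoint χ c)

include H in
/-- `c` is a root of the minimal polynomial modulo the maximal ideal -/
theorem root_mem : (minpoly R W).eval c ∈ maximalIdeal R := by
  rw [← H.map_evalAdj_eq_zero_iff]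
  have : evalAdj R W (minpoly R W) = 0 := Subtype.ext (minpoly.aeval R W)
  rw [this, map_zero]

include H in
theorem deriv_ne_zero (hsimple : IsUnit ((derivative (minpoly R W)).eval c)) :
    χ (evalAdj R W (derivative (minpoly R W))) ≠ 0 := by
  rw [H.map_evalAdj]
  exact H.map_toAdj_ne_zero hsimple

include H in
/-- `(W - c) G = - Ψ(c)` with `G` a unit at the point -/
theorem exists_cofactor_unit (hsimple : IsUnit ((derivative (minpoly R W)).eval c)) :
    ∃ G : adjSub R W, χ G ≠ 0 ∧
      (genAdj R W - toAdj R W c) * G = - toAdj R W ((minpoly R W).eval c) := by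
  obtain ⟨g, hg, hgc⟩ := exists_cofactor (minpoly R W) c
  refine ⟨evalAdj R W g, ?_, ?_⟩
  · rw [H.map_evalAdj, hgc]
    exact H.map_toAdj_ne_zero hsimple
  · have h1 := evalAdj_eq_of_cofactor (W := W) hg
    have h0 : evalAdj R W (minpoly R W) = 0 := Subtype.ext (minpoly.aeval R W)
    rw [h0] at h1
    rw [eq_neg_iff_add_eq_zero, add_comm]
    exact h1.symm

include H in
/-- `W - c ∈ 𝔪_R R[W]_χ` -/
theorem gen_sub_mem (hsimple : IsUnit ((derivative (minpoly R W)).eval c)) :
    adjToSplit χ (genAdj R W - toAdj R W c) ∈ Ideal.map (toSplit χ) (maximalIdeal R) := by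
  obtain ⟨G, hG, hGe⟩ := H.exists_cofactor_unit hsimple
  have hu : IsUnit (adjToSplit χ G) := (isUnit_adjToSplit_iff χ G).mpr hG
  rw [← Ideal.mul_unit_mem_iff_mem _ hu, ← map_mul, hGe, map_neg, Ideal.neg_mem_iff]
  exact Ideal.mem_map_of_mem (toSplit χ) H.root_mem

include H in
/-- elements of `R[W]` in the kernel of the point lie in `𝔪_R R[W]_χ` -/
theorem adjToSplit_mem_of_map_eq_zero (hsimple : IsUnit ((derivative (minpoly R W)).eval c))
    {a : adjSub R W} (ha : χ a = 0) :
    adjToSplit χ a ∈ Ideal.map (toSplit χ) (maximalIdeal R) := by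
  obtain ⟨p, rfl⟩ := exists_evalAdj_eq R W a
  obtain ⟨g, hg, -⟩ := exists_cofactor p c
  rw [evalAdj_eq_of_cofactor (W := W) hg, map_add, map_mul]
  refine Ideal.add_mem _ ?_ (Ideal.mul_mem_right _ _ (H.gen_sub_mem hsimple))
  exact Ideal.mem_map_of_mem (toSplit χ) ((H.map_evalAdj_eq_zero_iff p).mp ha)

include H in
/-- **the maximal ideal of the local ring at a simple sheet point is `𝔪_R R[W]_χ`** -/
theorem nonunit_mem (hsimple : IsUnit ((derivative (minpoly R W)).eval c))
    (x : splitRing χ) (hx : ¬ IsUnit x) : x ∈ Ideal.map (toSplit χ) (maximalIdeal R) := by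
  obtain ⟨a, b, hb, hab⟩ := (mem_splitRing_iff χ).mp x.2
  have hbu : IsUnit (adjToSplit χ b) := (isUnit_adjToSplit_iff χ b).mpr hb
  have hxab : x * adjToSplit χ b = adjToSplit χ a := Subtype.ext hab
  have ha : χ a = 0 := by
    by_contra ha
    have hau : IsUnit (adjToSplit χ a) := (isUnit_adjToSplit_iff χ a).mpr ha
    rw [← hxab] at hau
    exact hx (isUnit_of_mul_isUnit_left hau)
  rw [← Ideal.mul_unit_mem_iff_mem _ hbu, hxab]
  exact H.adjToSplit_mem_of_map_eq_zero hsimple ha

include H in
/-- units of `R` and of the local ring -/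
theorem isUnit_toSplit_iff (r : R) : IsUnit (toSplit χ r) ↔ IsUnit r := by
  show IsUnit (adjToSplit χ (toAdj R W r)) ↔ IsUnit r
  rw [isUnit_adjToSplit_iff, Ne, H.ker_base, mem_maximalIdeal, mem_nonunits_iff, not_not]

include H in
/-- **the residue field does not grow** -/
theorem residue (y : splitRing χ) : ∃ r : R, ¬ IsUnit (y - toSplit χ r) := by
  obtain ⟨a, b, hb, hab⟩ := (mem_splitRing_iff χ).mp y.2
  obtain ⟨p, rfl⟩ := exists_evalAdj_eq R W a
  obtain ⟨s, rfl⟩ := exists_evalAdj_eq R W b
  have hs : IsUnit (s.eval c) := by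
    by_contra hs
    exact hb ((H.map_evalAdj_eq_zero_iff s).mpr ((mem_maximalIdeal _).mpr hs))
  obtain ⟨t, ht⟩ := hs.exists_right_inv
  refine ⟨p.eval c * t, fun hu => ?_⟩
  have hbu : IsUnit (adjToSplit χ (evalAdj R W s)) := (isUnit_adjToSplit_iff χ _).mpr hb
  have h1 : (y - toSplit χ (p.eval c * t)) * adjToSplit χ (evalAdj R W s) =
      adjToSplit χ (evalAdj R W p - toAdj R W (p.eval c * t) * evalAdj R W s) := by
    apply Subtype.ext
    show ((y : L) - algebraMap R L (p.eval c * t)) * aeval W s =
      aeval W p - algebraMap R L (p.eval c * t) * aeval W s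
    have hab' : (y : L) * aeval W s = aeval W p := hab
    rw [sub_mul, hab']
  have h2 : IsUnit (adjToSplit χ (evalAdj R W p - toAdj R W (p.eval c * t) * evalAdj R W s)) := by
    rw [← h1]
    exact hu.mul hbu
  rw [isUnit_adjToSplit_iff, map_sub, map_mul, H.map_evalAdj, H.map_evalAdj s, ← map_mul,
    ← map_mul, ← map_sub, ← map_sub] at h2
  apply h2
  have : p.eval c - p.eval c * t * s.eval c = 0 := by
    rw [mul_assoc, mul_comm t, ht, mul_one, sub_self]
  rw [this, map_zero, map_zero]

end IsSheetPoint

end Main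

section Normal

attribute [local instance] RingHom.ker_isPrime

variable {R : Type*} [CommRing R] [IsDomain R] [IsIntegrallyClosed R] [IsLocalRing R]
  {L : Type*} [Field L] [CharZero L] [Algebra R L] {W : L}
  {κ : Type*} [Field κ] {χ : adjSub R W →+* κ} {c : R}

/-- **The local ring of `Spec R[W]` at a simple sheet point is integrally closed** (Euler's lemma:
`Ψ'(W)` times the integral closure lies in `R[W]`, and `Ψ'(W)` is a unit at the point). -/
theorem IsSheetPoint.isIntegrallyClosed_splitRing (H : IsSheetPoint χ c)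
    (hinj : Function.Injective (algebraMap R L)) (hW : IsIntegral R W)
    (hsimple : IsUnit ((derivative (minpoly R W)).eval c)) :
    IsIntegrallyClosed (splitRing χ) := by
  apply isIntegrallyClosed_subring
  intro a b hb0 hz
  set z : L := (a : L) / (b : L) with hzdef
  have hbL : (b : L) ≠ 0 := fun h => hb0 (Subtype.ext h)
  -- clear the denominator of the integrality equation
  letI : Algebra (adjSub R W) (splitRing χ) := algebraLocSub (adjSub R W) (RingHom.ker χ)
  haveI : IsLocalization.AtPrime (splitRing χ) (RingHom.ker χ) :=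
    isLocalization_locSub (adjSub R W) (RingHom.ker χ)
  haveI : IsScalarTower (adjSub R W) (splitRing χ) L :=
    IsScalarTower.of_algebraMap_eq fun _ => rfl
  obtain ⟨m, hm⟩ := IsIntegral.exists_multiple_integral_of_isLocalization
    (RingHom.ker χ).primeCompl (Rₘ := splitRing χ) z hz
  have hmχ : χ (m : adjSub R W) ≠ 0 := fun h => m.2 (RingHom.mem_ker.mpr h)
  have hmz : m • z = ((m : adjSub R W) : L) * z := rfl
  rw [hmz] at hm
  -- integrality over `R`
  letI : Algebra R (adjSub R W) := (toAdj R W).toAlgebra
  haveI : IsScalarTower R (adjSub R W) L := IsScalarTower.of_algebraMap_eq fun _ => rfl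
  haveI : Algebra.IsIntegral R (adjSub R W) := by
    refine ⟨fun x => ?_⟩
    have h1 : IsIntegral R ((x : adjSub R W) : L) := isIntegral_of_mem_adjoin hW x.2
    exact (isIntegral_algHom_iff (IsScalarTower.toAlgHom R (adjSub R W) L)
      Subtype.val_injective).mp h1
  have hmR : IsIntegral R (((m : adjSub R W) : L) * z) := isIntegral_trans _ hm
  -- `m z` is a quotient of elements of `R[W]`
  obtain ⟨a₁, a₂, ha₂, haa⟩ := (mem_splitRing_iff χ).mp a.2
  obtain ⟨b₁, b₂, hb₂, hbb⟩ := (mem_splitRing_iff χ).mp b.2
  have ha₂L : (a₂ : L) ≠ 0 := fun h => ha₂ (by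
    have : a₂ = 0 := Subtype.ext h
    rw [this, map_zero])
  have hb₂L : (b₂ : L) ≠ 0 := fun h => hb₂ (by
    have : b₂ = 0 := Subtype.ext h
    rw [this, map_zero])
  have hb₁L : (b₁ : L) ≠ 0 := by
    intro h
    rw [h] at hbb
    exact hbL ((mul_eq_zero.mp hbb).resolve_right hb₂L)
  have hquot : ∃ x ∈ Algebra.adjoin R {W}, ∃ y ∈ Algebra.adjoin R {W}, y ≠ 0 ∧
      ((m : adjSub R W) : L) * z * y = x := by
    refine ⟨((m : adjSub R W) : L) * (a₁ : L) * (b₂ : L), ?_, (a₂ : L) * (b₁ : L), ?_,
      mul_ne_zero ha₂L hb₁L, ?_⟩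
    · exact ((m : adjSub R W) * a₁ * b₂).2
    · exact (a₂ * b₁).2
    · rw [hzdef, ← haa, ← hbb]
      field_simp
  have key := euler hinj hW hmR hquot
  -- conclusion
  rw [← mem_adjSub_iff] at key
  rw [mem_splitRing_iff]
  refine ⟨⟨_, key⟩, evalAdj R W (derivative (minpoly R W)) * (m : adjSub R W), ?_, ?_⟩
  · rw [map_mul]
    exact mul_ne_zero (H.deriv_ne_zero hsimple) hmχ
  · show z * (aeval W (derivative (minpoly R W)) * ((m : adjSub R W) : L)) = _
    ring

end Normal

/-! ### Existence of the sheet point, from the presentation `R[W] = R[X] / (Ψ)` -/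

section Exists

variable {R : Type*} [CommRing R] [IsDomain R] [IsIntegrallyClosed R] [IsLocalRing R]
  {L : Type*} [Field L] [Algebra R L] {W : L} {c : R}

/-- the identification of `R[W]` (as a subring) with `R[W]` (as a subalgebra) -/
def adjSubToAdjoin (R : Type*) [CommRing R] {L : Type*} [Field L] [Algebra R L] (W : L) :
    adjSub R W →+* Algebra.adjoin R {W} where
  toFun x := ⟨x.1, x.2⟩
  map_one' := rfl
  map_mul' _ _ := rfl
  map_zero' := rfl
  map_add' _ _ := rfl

/-- **A root of `Ψ` modulo `𝔪_R` is a sheet point of `R[W]`.** -/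
theorem exists_isSheetPoint (hinj : Function.Injective (algebraMap R L)) (hW : IsIntegral R W)
    (hroot : (minpoly R W).eval c ∈ maximalIdeal R) :
    ∃ χ : adjSub R W →+* ResidueField R, IsSheetPoint χ c := by
  haveI : FaithfulSMul R L := (faithfulSMul_iff_algebraMap_injective R L).mpr hinj
  have h0 : (minpoly R W).eval₂ (residue R) (residue R c) = 0 := by
    rw [Polynomial.eval₂_at_apply]
    exact (residue_eq_zero_iff _).mpr hroot
  let e := minpoly.equivAdjoin hW
  let lift := AdjoinRoot.lift (residue R) (residue R c) h0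
  let χ : adjSub R W →+* ResidueField R :=
    (lift.comp (e.symm : Algebra.adjoin R {W} →+* AdjoinRoot (minpoly R W))).comp
      (adjSubToAdjoin R W)
  refine ⟨χ, ⟨fun r => ?_, ?_⟩⟩
  · have h1 : χ (toAdj R W r) = residue R r := by
      show lift (e.symm (algebraMap R (Algebra.adjoin R {W}) r)) = residue R r
      rw [AlgEquiv.commutes, AdjoinRoot.algebraMap_eq, AdjoinRoot.lift_of]
    rw [h1, residue_eq_zero_iff]
  · have h1 : χ (toAdj R W c) = residue R c := by
      show lift (e.symm (algebraMap R (Algebra.adjoin R {W}) c)) = residue R c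
      rw [AlgEquiv.commutes, AdjoinRoot.algebraMap_eq, AdjoinRoot.lift_of]
    have h2 : e (AdjoinRoot.root (minpoly R W)) = adjSubToAdjoin R W (genAdj R W) := by
      show (e : AdjoinRoot (minpoly R W) →ₐ[R] Algebra.adjoin R {W}) _ = _
      rw [minpoly.equivAdjoin_toAlgHom]
      apply Subtype.ext
      exact AdjoinRoot.Minpoly.coe_toAdjoin_mk_X
    have h3 : χ (genAdj R W) = residue R c := by
      show lift (e.symm (adjSubToAdjoin R W (genAdj R W))) = residue R c
      rw [← h2, AlgEquiv.symm_apply_apply, AdjoinRoot.lift_root]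
    rw [h1, h3]

end Exists

/-! ### A prime between `I` and `𝔪 = I + (v)` -/

section Sandwich

variable {D : Type*} [CommRing D] [IsLocalRing D] [IsNoetherianRing D]

/-- In a noetherian local ring with `𝔪 = I + (v)`, a prime `P ⊇ I` which does not contain `v` is
`I` (Nakayama). In particular `I` is prime. -/
theorem eq_of_le_of_notMem {I P : Ideal D} {v : D} (hvm : v ∈ maximalIdeal D)
    (hmax : maximalIdeal D ≤ I ⊔ Ideal.span {v}) (hP : P.IsPrime) (hIP : I ≤ P) (hv : v ∉ P) :
    P = I := by
  apply le_antisymm _ hIP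
  have hfg : (P : Submodule D D).FG := IsNoetherian.noetherian P
  have hjac : (Ideal.span {v} : Ideal D) ≤ Ideal.jacobson ⊥ := by
    rw [IsLocalRing.jacobson_eq_maximalIdeal ⊥ bot_ne_top]
    exact (Ideal.span_singleton_le_iff_mem _).mpr hvm
  refine Submodule.le_of_le_smul_of_le_jacobson_bot hfg hjac ?_
  intro x hx
  have hxm : x ∈ maximalIdeal D := IsLocalRing.le_maximalIdeal hP.ne_top hx
  obtain ⟨a, ha, w, hw, rfl⟩ := Submodule.mem_sup.mp (hmax hxm)
  obtain ⟨d, rfl⟩ := Ideal.mem_span_singleton'.mp hw
  have hdv : d * v ∈ P := by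
    have : d * v = (a + d * v) - a := by ring
    rw [this]
    exact P.sub_mem hx (hIP ha)
  have hd : d ∈ P := (hP.mem_or_mem hdv).resolve_right hv
  refine Submodule.mem_sup.mpr ⟨a, ha, d * v, ?_, rfl⟩
  rw [mul_comm]
  exact Submodule.smul_mem_smul (Ideal.mem_span_singleton_self v) hd

end Sandwich

/-! ### Primes of the local ring and primes of `R` (going down) -/

section Primes

attribute [local instance] RingHom.ker_isPrime

variable {R : Type*} [CommRing R] [IsDomain R] [IsIntegrallyClosed R] [IsLocalRing R]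
  {L : Type*} [Field L] [Algebra R L] {W : L}
  {κ : Type*} [Field κ] (χ : adjSub R W →+* κ)

theorem toAdj_injective (hinj : Function.Injective (algebraMap R L)) :
    Function.Injective (toAdj R W) := by
  intro a b hab
  apply hinj
  exact congrArg (fun x : adjSub R W => (x : L)) hab

theorem toSplit_injective (hinj : Function.Injective (algebraMap R L)) :
    Function.Injective (toSplit χ) := by
  intro a b hab
  apply hinj
  exact congrArg (fun x : splitRing χ => (x : L)) hab

/-- the trace on `R` of a nonzero prime of the local ring is nonzero -/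
theorem comap_toSplit_ne_bot (hW : IsIntegral R W) (Q : Ideal (splitRing χ)) [Q.IsPrime]
    (hQ : Q ≠ ⊥) : Q.comap (toSplit χ) ≠ ⊥ := by
  obtain ⟨x, hxQ, hx0⟩ := Submodule.exists_mem_ne_zero_of_ne_bot hQ
  obtain ⟨a, b, hb, hab⟩ := (mem_splitRing_iff χ).mp x.2
  have hxab : x * adjToSplit χ b = adjToSplit χ a := Subtype.ext hab
  have haQ : adjToSplit χ a ∈ Q := hxab ▸ Q.mul_mem_right _ hxQ
  have hbL : (b : L) ≠ 0 := fun h => hb (by
    have : b = 0 := Subtype.ext h
    rw [this, map_zero])
  have ha0 : a ≠ 0 := by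
    rintro rfl
    have h1 : (x : L) * (b : L) = 0 := hab
    exact hx0 (Subtype.ext ((mul_eq_zero.mp h1).resolve_right hbL))
  letI : Algebra R (adjSub R W) := (toAdj R W).toAlgebra
  have hint : IsIntegral R a := by
    haveI : IsScalarTower R (adjSub R W) L := IsScalarTower.of_algebraMap_eq fun _ => rfl
    have h1 : IsIntegral R ((a : adjSub R W) : L) := isIntegral_of_mem_adjoin hW a.2
    exact (isIntegral_algHom_iff (IsScalarTower.toAlgHom R (adjSub R W) L)
      Subtype.val_injective).mp h1
  have h2 := Ideal.comap_ne_bot_of_integral_mem (I := Q.comap (adjToSplit χ)) ha0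
    (Ideal.mem_comap.mpr haQ) hint
  rw [Ideal.comap_comap] at h2
  exact h2

/-- **going down**: the trace on `R` of a prime of the local ring has at most the same height -/
theorem height_comap_toSplit_le [IsNoetherianRing R] (hinj : Function.Injective (algebraMap R L))
    (hW : IsIntegral R W) (Q : Ideal (splitRing χ)) [Q.IsPrime] :
    (Q.comap (toSplit χ)).height ≤ Q.height := by
  letI : Algebra R (adjSub R W) := (toAdj R W).toAlgebra
  haveI : IsScalarTower R (adjSub R W) L := IsScalarTower.of_algebraMap_eq fun _ => rfl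
  haveI : Algebra.IsIntegral R (adjSub R W) := by
    refine ⟨fun x => ?_⟩
    have h1 : IsIntegral R ((x : adjSub R W) : L) := isIntegral_of_mem_adjoin hW x.2
    exact (isIntegral_algHom_iff (IsScalarTower.toAlgHom R (adjSub R W) L)
      Subtype.val_injective).mp h1
  haveI : FaithfulSMul R (adjSub R W) :=
    (faithfulSMul_iff_algebraMap_injective R (adjSub R W)).mpr (toAdj_injective hinj)
  haveI : IsNoetherianRing (adjSub R W) := isNoetherianRing_adjSub
  letI : Algebra (adjSub R W) (splitRing χ) := algebraLocSub (adjSub R W) (RingHom.ker χ)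
  have h1 : (Q.under (adjSub R W)).height = Q.height :=
    height_under (C := adjSub R W) (n := RingHom.ker χ) Q
  have h2 := Ideal.height_eq_height_add_of_liesOver_of_hasGoingDown
    ((Q.under (adjSub R W)).under R) (Q.under (adjSub R W))
  have h3 : (Q.under (adjSub R W)).under R = Q.comap (toSplit χ) := by
    ext r
    rfl
  rw [← h3, ← h1, h2]
  exact le_self_add

end Primes

/-! ### The minimal polynomial over `R` -/

section Minpoly

variable {R : Type*} [CommRing R] [IsDomain R] [IsIntegrallyClosed R]
  {L : Type*} [Field L] [Algebra R L] {W : L}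

/-- a monic irreducible polynomial over the integrally closed `R` with root `W` is the minimal
polynomial of `W` over `R` -/
theorem minpoly_eq_of_irreducible (hinj : Function.Injective (algebraMap R L)) {Ψ : R[X]}
    (hm : Ψ.Monic) (hirr : Irreducible Ψ) (hroot : aeval W Ψ = 0) : minpoly R W = Ψ := by
  haveI : FaithfulSMul R L := (faithfulSMul_iff_algebraMap_injective R L).mpr hinj
  have hW : IsIntegral R W := ⟨Ψ, hm, by rwa [← aeval_def]⟩
  have hdvd := minpoly.isIntegrallyClosed_dvd hW hroot
  have hnu : ¬ IsUnit (minpoly R W) := minpoly.not_isUnit R W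
  obtain ⟨d, hd⟩ := hdvd
  rcases hirr.isUnit_or_isUnit hd with h | h
  · exact absurd h hnu
  · exact eq_of_monic_of_associated (minpoly.monic hW) hm ⟨h.unit, by rw [hd]; rfl⟩

end Minpoly

end Fermat.Agent.BR3.EtaleLocal
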