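/-
Program C (S36), node A7 COVER-NODE-SPLIT (helper19), part 2: ONE LEVEL of the split sheet.

`F₂ / F` an algebraic extension of function fields over `K`, `NL : S0.NodeLevel A T u v ε₀ thick`
a finite level of the tube `T` of a node of (a model of) `F`, `W : F₂` integral over `NL.R` with
minimal polynomial `Ψ`, `c₀ : A` a constant of `NL.R` which is a SIMPLE root of `Ψ` modulo the
maximal ideal (`EtaleLocal.IsSheetPoint χ c₀`, `hsimple`).  The local ring
`EtaleLocal.splitRing χ = (NL.R[W])_(𝔪, W - c₀) ⊆ F₂` is a level of the tube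
`CoverSmooth.coverTube A T W c₀ = {P₂ | P₂.restrict F ∈ T, |W(P₂) - c₀| < 1}` of the cover, with
the SAME coordinates, constants, uniformizer and thickness:

* abstract: `map_eq_zero_iff_of_isSheetPoint`, `splitRing_eq_of_isSheetPoint` (the ring depends
  only on the sheet), `exists_prime_over` (going down), `eq_map_of_comap_eq`,
  `map_isPrime_and_comap` (the vertical primes extend to primes), `height_comap_eq_one`;
* places: `integralAt_adjSub`, `isSheetPoint_spHom`, `centredAt_splitRing` (`centred`),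
  `mem_coverTube_of_centredAt` (the converse, from the converse downstairs);
* `nodeLevelOfSheetPoint NL H hW hsimple thick_ne thick_lt uv hhoriz :
    NodeLevel A (coverTube A T W c₀) (j u) (j v) (j ε₀) thick` (`j = algebraMap F F₂`), with
  `.R = splitRing χ`, `.K' = NL.K'`, `.ϖ = NL.ϖ` by `rfl`; the only extra input `hhoriz` is the
  K-point existence lemma (`NodeLevel.horiz`) for the new ring.
-/
import Mathlib
import Fermat.Agent.BR3.EtaleLocal
import Fermat.Agent.BR3.CoverSmooth.Basic
import Fermat.Agent.BR.S0.TubeDict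
import Fermat.Agent.BR.S0.AnnulusN2Level
import Fermat.Agent.BR.CentreOrd

set_option autoImplicit false
set_option linter.unusedSectionVars false
set_option linter.style.haveILetI false

noncomputable section

namespace Fermat.Agent.BR3.SplitLevel

open Polynomial IsLocalRing Fermat.Agent.BR.Inst.LocSub Fermat.Agent.BR3.EtaleLocal

/-! ### Abstract part: the local ring depends only on the sheet -/

section SameSheet

variable {R : Type*} [CommRing R] [IsLocalRing R] {L : Type*} [Field L] [Algebra R L] {W : L}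
  {κ : Type*} [Field κ] {χ : adjSub R W →+* κ} {c : R}

/-- two sheet points on the same sheet have the same kernel -/
theorem map_eq_zero_iff_of_isSheetPoint {κ' : Type*} [Field κ'] {χ' : adjSub R W →+* κ'}
    (H : IsSheetPoint χ c) (H' : IsSheetPoint χ' c) (x : adjSub R W) : χ x = 0 ↔ χ' x = 0 := by
  obtain ⟨p, rfl⟩ := exists_evalAdj_eq R W x
  rw [H.map_evalAdj_eq_zero_iff, H'.map_evalAdj_eq_zero_iff]

/-- the local ring depends only on the sheet -/
theorem splitRing_eq_of_isSheetPoint {κ' : Type*} [Field κ'] {χ' : adjSub R W →+* κ'}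
    (H : IsSheetPoint χ c) (H' : IsSheetPoint χ' c) : splitRing χ = splitRing χ' := by
  ext x
  rw [mem_splitRing_iff, mem_splitRing_iff]
  constructor
  · rintro ⟨a, b, hb, hab⟩
    exact ⟨a, b, fun h => hb ((map_eq_zero_iff_of_isSheetPoint H H' b).mpr h), hab⟩
  · rintro ⟨a, b, hb, hab⟩
    exact ⟨a, b, fun h => hb ((map_eq_zero_iff_of_isSheetPoint H H' b).mp h), hab⟩

end SameSheet

/-! ### Abstract part: the extended primes -/

section PrimesUp

attribute [local instance] RingHom.ker_isPrime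

variable {R : Type*} [CommRing R] [IsDomain R] [IsIntegrallyClosed R] [IsLocalRing R]
  [IsNoetherianRing R]
  {L : Type*} [Field L] [Algebra R L] {W : L}
  {κ : Type*} [Field κ] {χ : adjSub R W →+* κ} {c : R}

/-- **going down, existence**: over every prime `p` of `R` there is a prime of the local ring -/
theorem exists_prime_over (H : IsSheetPoint χ c) (hinj : Function.Injective (algebraMap R L))
    (hW : IsIntegral R W) (p : Ideal R) [p.IsPrime] :
    ∃ P : Ideal (splitRing χ), P.IsPrime ∧ P.comap (toSplit χ) = p := by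
  letI : Algebra R (adjSub R W) := (toAdj R W).toAlgebra
  haveI : IsScalarTower R (adjSub R W) L := IsScalarTower.of_algebraMap_eq fun _ => rfl
  haveI : Algebra.IsIntegral R (adjSub R W) := by
    refine ⟨fun x => ?_⟩
    have h1 : IsIntegral R ((x : adjSub R W) : L) := isIntegral_of_mem_adjoin hW x.2
    exact (isIntegral_algHom_iff (IsScalarTower.toAlgHom R (adjSub R W) L)
      Subtype.val_injective).mp h1
  haveI : FaithfulSMul R (adjSub R W) :=
    (faithfulSMul_iff_algebraMap_injective R (adjSub R W)).mpr (toAdj_injective hinj)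
  haveI : (RingHom.ker χ).LiesOver (maximalIdeal R) := by
    refine ⟨?_⟩
    ext r
    rw [Ideal.under_def, Ideal.mem_comap, RingHom.mem_ker]
    exact (H.ker_base r).symm
  obtain ⟨P', hP'le, hP'prime, hP'over⟩ :=
    Ideal.exists_ideal_le_liesOver_of_le (p := p) (q := maximalIdeal R) (RingHom.ker χ)
      (le_maximalIdeal (Ideal.IsPrime.ne_top inferInstance))
  letI : Algebra (adjSub R W) (splitRing χ) := algebraLocSub (adjSub R W) (RingHom.ker χ)
  haveI : IsLocalization.AtPrime (splitRing χ) (RingHom.ker χ) :=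
    isLocalization_locSub (adjSub R W) (RingHom.ker χ)
  have hdisj : Disjoint ((RingHom.ker χ).primeCompl : Set (adjSub R W)) (P' : Set (adjSub R W)) := by
    rw [Set.disjoint_left]
    intro x hx hxP
    exact hx (hP'le hxP)
  refine ⟨Ideal.map (algebraMap (adjSub R W) (splitRing χ)) P',
    IsLocalization.isPrime_of_isPrime_disjoint (RingHom.ker χ).primeCompl _ P' hP'prime hdisj, ?_⟩
  have h1 := IsLocalization.under_map_of_isPrime_disjoint (RingHom.ker χ).primeCompl
    (splitRing χ) hP'prime hdisj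
  have h2 : p = P'.under R := hP'over.over
  rw [h2]
  conv_rhs => rw [← h1]
  rfl

/-- **uniqueness of the prime over `p`** when `𝔪_R = p + (v)`: it is the extended ideal -/
theorem eq_map_of_comap_eq (H : IsSheetPoint χ c)
    (hsimple : IsUnit ((derivative (minpoly R W)).eval c)) {p : Ideal R} {v : R}
    (hvm : v ∈ maximalIdeal R) (hvp : v ∉ p) (hmax : maximalIdeal R ≤ p ⊔ Ideal.span {v})
    (Q : Ideal (splitRing χ)) [hQ : Q.IsPrime] (hQp : Q.comap (toSplit χ) = p) :
    Q = Ideal.map (toSplit χ) p := by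
  haveI := isLocalRing_splitRing χ
  haveI := isNoetherianRing_splitRing χ
  refine eq_of_le_of_notMem (v := toSplit χ v) ?_ ?_ hQ ?_ ?_
  · rw [mem_maximalIdeal, mem_nonunits_iff, H.isUnit_toSplit_iff]
    exact (mem_maximalIdeal v).mp hvm
  · intro x hx
    have h1 := H.nonunit_mem hsimple x ((mem_maximalIdeal x).mp hx)
    have h2 : Ideal.map (toSplit χ) (maximalIdeal R) ≤
        Ideal.map (toSplit χ) p ⊔ Ideal.span {toSplit χ v} := by
      calc Ideal.map (toSplit χ) (maximalIdeal R)
          ≤ Ideal.map (toSplit χ) (p ⊔ Ideal.span {v}) := Ideal.map_mono hmax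
        _ = Ideal.map (toSplit χ) p ⊔ Ideal.span {toSplit χ v} := by
            rw [Ideal.map_sup, Ideal.map_span, Set.image_singleton]
    exact h2 h1
  · rw [Ideal.map_le_iff_le_comap, hQp]
  · intro hv
    apply hvp
    rw [← hQp]
    exact Ideal.mem_comap.mpr hv

/-- **the extended ideal of a prime `p` with `𝔪_R = p + (v)` is prime, and restricts to `p`** -/
theorem map_isPrime_and_comap (H : IsSheetPoint χ c)
    (hsimple : IsUnit ((derivative (minpoly R W)).eval c))
    (hinj : Function.Injective (algebraMap R L)) (hW : IsIntegral R W)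
    {p : Ideal R} [p.IsPrime] {v : R}
    (hvm : v ∈ maximalIdeal R) (hvp : v ∉ p) (hmax : maximalIdeal R ≤ p ⊔ Ideal.span {v}) :
    (Ideal.map (toSplit χ) p).IsPrime ∧ (Ideal.map (toSplit χ) p).comap (toSplit χ) = p := by
  obtain ⟨P, hP, hPp⟩ := exists_prime_over H hinj hW p
  have h1 := eq_map_of_comap_eq H hsimple hvm hvp hmax P hPp
  rw [← h1]
  exact ⟨hP, hPp⟩

/-- a prime of the local ring of height one restricts to a prime of `R` of height one -/
theorem height_comap_eq_one (hinj : Function.Injective (algebraMap R L)) (hW : IsIntegral R W)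
    (Q : Ideal (splitRing χ)) [Q.IsPrime] (hQ : Q.height = 1) :
    (Q.comap (toSplit χ)).height = 1 := by
  have hQ0 : Q ≠ ⊥ := by
    rintro rfl
    rw [Ideal.height_bot] at hQ
    exact zero_ne_one hQ
  have h1 := height_comap_toSplit_le χ hinj hW Q
  rw [hQ] at h1
  have h2 : (Q.comap (toSplit χ)).height ≠ 0 := by
    intro h0
    rw [Ideal.height_eq_zero_iff, IsDomain.minimalPrimes_eq_singleton_bot] at h0
    exact comap_toSplit_ne_bot χ hW Q hQ0 h0
  exact le_antisymm h1 (Order.one_le_iff_ne_zero.mpr h2)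

end PrimesUp

/-! ### The places of the sheet and the local ring -/

section Places

attribute [local instance] RingHom.ker_isPrime

open AlgebraicCurve Fermat.Agent.Red Fermat.Agent.BR.Centre Fermat.Agent.BR.S0
  Fermat.Agent.BR3.CoverSmooth

variable {K F F₂ : Type*} [Field K] [Field F] [Field F₂] [Algebra K F] [Algebra K F₂]
  [Algebra F F₂] [IsScalarTower K F F₂] [Algebra.IsIntegral F F₂]
  {A : ValuationSubring K} {T : Set (Place K F)}
  {R : Subring F} [IsLocalRing R] {W : F₂} {c₀ : A} {hc₀ : algebraMap K F (c₀ : K) ∈ R}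
  {κ : Type*} [Field κ] {χ : adjSub R W →+* κ}

/-- the value at a place of the cover of a function of the base -/
theorem isValueAt_map_of_restrict {P₂ : Place K F₂} {y : F} {c : K}
    (h : IsValueAt (P₂.restrict F) y c) : IsValueAt P₂ (algebraMap F F₂ y) c :=
  (isValueAt_restrict_iff P₂ y c).mp h

/-- a place of the sheet is integral on `R[W]` -/
theorem integralAt_adjSub (hcen : ∀ P ∈ T, CentredAt A R P) {P₂ : Place K F₂}
    (hP₂ : P₂ ∈ coverTube A T W c₀) : IntegralAt A (adjSub R W) P₂ := by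
  obtain ⟨hP, d, hd, hdc⟩ := hP₂
  obtain ⟨hint, -⟩ := hcen _ hP
  have hdA : d ∈ A := by
    rw [← A.valuation_le_one_iff]
    have : d = (d - (c₀ : K)) + (c₀ : K) := by ring
    rw [this]
    exact (A.valuation.map_add _ _).trans
      (max_le hdc.le ((A.valuation_le_one_iff _).mpr c₀.2))
  intro y hy
  rw [mem_adjSub_iff] at hy
  refine Algebra.adjoin_induction (p := fun y _ => ∃ c : K, c ∈ A ∧ IsValueAt P₂ y c)
    ?_ ?_ ?_ ?_ hy
  · intro x hx
    rw [Set.mem_singleton_iff] at hx
    rw [hx]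
    exact ⟨d, hdA, hd⟩
  · intro r
    exact ⟨evalAt (P₂.restrict F) (r : F), hint.evalAt_mem r.2,
      isValueAt_map_of_restrict (hint.isValueAt_evalAt r.2)⟩
  · rintro x y _ _ ⟨c, hcA, hc⟩ ⟨d', hdA', hd'⟩
    exact ⟨c + d', A.add_mem _ _ hcA hdA', hc.add hd'⟩
  · rintro x y _ _ ⟨c, hcA, hc⟩ ⟨d', hdA', hd'⟩
    exact ⟨c * d', A.mul_mem _ _ hcA hdA', hc.mul hd'⟩

/-- the specialisation at a place of the sheet is a sheet point -/
theorem isSheetPoint_spHom (hcen : ∀ P ∈ T, CentredAt A R P) {P₂ : Place K F₂}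
    (hP₂ : P₂ ∈ coverTube A T W c₀) (h : IntegralAt A (adjSub R W) P₂) :
    IsSheetPoint (spHom A (adjSub R W) P₂ h) (⟨algebraMap K F (c₀ : K), hc₀⟩ : R) := by
  obtain ⟨hP, d, hd, hdc⟩ := hP₂
  have hcenP := hcen _ hP
  obtain ⟨hint, hnu⟩ := hcenP
  refine ⟨fun r => ?_, ?_⟩
  · rw [spHom_eq_zero_iff]
    have e : evalAt P₂ ((toAdj R W r : adjSub R W) : F₂) = evalAt (P₂.restrict F) (r : F) :=
      evalAt_eq_of_isValueAt (isValueAt_map_of_restrict (hint.isValueAt_evalAt r.2))
    rw [e, ← mem_centre_iff hint r]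
    constructor
    · intro hr
      rw [mem_maximalIdeal, mem_nonunits_iff]
      intro hu
      exact hint.not_mem_centre_of_isUnit hu hr
    · intro hr
      exact hnu r ((mem_maximalIdeal r).mp hr)
  · rw [← sub_eq_zero, ← map_sub, spHom_eq_zero_iff]
    have hv : IsValueAt P₂ (W - algebraMap F F₂ (algebraMap K F (c₀ : K))) (d - (c₀ : K)) := by
      refine hd.sub ?_
      rw [← IsScalarTower.algebraMap_apply]
      exact isValueAt_algebraMap P₂ _
    have e : evalAt P₂ (((genAdj R W - toAdj R W ⟨algebraMap K F (c₀ : K), hc₀⟩ :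
        adjSub R W) : adjSub R W) : F₂) = d - (c₀ : K) := evalAt_eq_of_isValueAt hv
    rw [e]
    exact hdc

/-- **the places of the sheet are centred at the local ring of the sheet point** -/
theorem centredAt_splitRing (H : IsSheetPoint χ (⟨algebraMap K F (c₀ : K), hc₀⟩ : R))
    (hcen : ∀ P ∈ T, CentredAt A R P) {P₂ : Place K F₂} (hP₂ : P₂ ∈ coverTube A T W c₀) :
    CentredAt A (splitRing χ) P₂ := by
  have h := integralAt_adjSub hcen hP₂
  have Hsp := isSheetPoint_spHom (hc₀ := hc₀) hcen hP₂ h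
  unfold splitRing
  rw [TubeDict.centredAt_locSub_iff]
  refine ⟨h, fun x => ?_⟩
  unfold centre
  rw [RingHom.mem_ker, RingHom.mem_ker]
  exact map_eq_zero_iff_of_isSheetPoint Hsp H x

/-- **the places centred at the local ring of the sheet point are the places of the sheet** -/
theorem mem_coverTube_of_centredAt (H : IsSheetPoint χ (⟨algebraMap K F (c₀ : K), hc₀⟩ : R))
    (hT : ∀ P : Place K F, CentredAt A R P → P ∈ T) {P₂ : Place K F₂}
    (hP₂ : CentredAt A (splitRing χ) P₂) : P₂ ∈ coverTube A T W c₀ := by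
  unfold splitRing at hP₂
  rw [TubeDict.centredAt_locSub_iff] at hP₂
  obtain ⟨h, hc⟩ := hP₂
  have hval : ∀ r : R, IsValueAt (P₂.restrict F) (r : F)
      (evalAt P₂ ((toAdj R W r : adjSub R W) : F₂)) := fun r =>
    (isValueAt_restrict_iff P₂ (r : F) _).mpr (h.isValueAt_evalAt (toAdj R W r).2)
  have hint : IntegralAt A R (P₂.restrict F) := fun y hy =>
    ⟨_, h.evalAt_mem (toAdj R W ⟨y, hy⟩).2, hval ⟨y, hy⟩⟩
  refine ⟨hT _ ⟨hint, fun r hr => ?_⟩, evalAt P₂ W, h.isValueAt_evalAt (gen_mem_adjSub R W), ?_⟩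
  · rw [mem_centre_iff, evalAt_eq_of_isValueAt (hval r), ← mem_centre_iff h (toAdj R W r), hc,
      RingHom.mem_ker, H.ker_base]
    exact (mem_maximalIdeal r).mpr hr
  · have h1 : (genAdj R W - toAdj R W ⟨algebraMap K F (c₀ : K), hc₀⟩ : adjSub R W) ∈
        RingHom.ker χ := by
      rw [RingHom.mem_ker, map_sub, H.gen, sub_self]
    rw [← hc, mem_centre_iff] at h1
    have hv : IsValueAt P₂ (W - algebraMap F F₂ (algebraMap K F (c₀ : K)))
        (evalAt P₂ W - (c₀ : K)) := by
      refine (h.isValueAt_evalAt (gen_mem_adjSub R W)).sub ?_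
      rw [← IsScalarTower.algebraMap_apply]
      exact isValueAt_algebraMap P₂ _
    have e : evalAt P₂ (((genAdj R W - toAdj R W ⟨algebraMap K F (c₀ : K), hc₀⟩ :
        adjSub R W) : adjSub R W) : F₂) = evalAt P₂ W - (c₀ : K) := evalAt_eq_of_isValueAt hv
    rwa [e] at h1

end Places

/-! ### One level -/

section Level

attribute [local instance] RingHom.ker_isPrime

open AlgebraicCurve Fermat.Agent.Red Fermat.Agent.BR.Centre Fermat.Agent.BR.S0
  Fermat.Agent.BR3.CoverSmooth

variable {K F F₂ : Type*} [Field K] [Field F] [Field F₂] [Algebra K F] [Algebra K F₂]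
  [Algebra F F₂] [IsScalarTower K F F₂] [Algebra.IsIntegral F F₂] [CharZero F₂]
  {A : ValuationSubring K} {T : Set (Place K F)} {u v ε₀ : F} {thick : K}
  (NL : NodeLevel A T u v ε₀ thick) [IsLocalRing NL.R]
  {W : F₂} {c₀ : A} {hc₀ : algebraMap K F (c₀ : K) ∈ NL.R}
  {κ : Type*} [Field κ] {χ : adjSub NL.R W →+* κ}

theorem algebraMap_subring_injective (R : Subring F) :
    Function.Injective (algebraMap R F₂) :=
  (algebraMap F F₂).injective.comp Subtype.val_injective

/-- the uniformizer, `u`, `v` as elements of the level ring -/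
abbrev ϖR : NL.R := ⟨algebraMap K F NL.ϖ, NL.unif_memR⟩

abbrev uR : NL.R := ⟨u, NL.u_mem⟩

abbrev vR : NL.R := ⟨v, NL.v_mem⟩

theorem maximalIdeal_le_span : maximalIdeal NL.R ≤ Ideal.span {ϖR NL, uR NL, vR NL} :=
  fun x hx => NL.nonunit_mem x ((mem_maximalIdeal x).mp hx)

theorem vR_mem_maximalIdeal : vR NL ∈ maximalIdeal NL.R := by
  rw [mem_maximalIdeal, mem_nonunits_iff]
  intro hu
  exact NL.prime2.ne_top (Ideal.eq_top_of_isUnit_mem _ NL.v_mem_p2 hu)

theorem uR_mem_maximalIdeal : uR NL ∈ maximalIdeal NL.R := by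
  rw [mem_maximalIdeal, mem_nonunits_iff]
  intro hu
  exact NL.prime1.ne_top (Ideal.eq_top_of_isUnit_mem _ NL.u_mem_p1 hu)

theorem maximalIdeal_le_p1_sup : maximalIdeal NL.R ≤ NL.p1 ⊔ Ideal.span {vR NL} := by
  refine (maximalIdeal_le_span NL).trans ?_
  rw [Ideal.span_le]
  rintro x (rfl | rfl | rfl)
  · exact Ideal.mem_sup_left NL.unif_mem_p1
  · exact Ideal.mem_sup_left NL.u_mem_p1
  · exact Ideal.mem_sup_right (Ideal.mem_span_singleton_self _)

theorem maximalIdeal_le_p2_sup : maximalIdeal NL.R ≤ NL.p2 ⊔ Ideal.span {uR NL} := by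
  refine (maximalIdeal_le_span NL).trans ?_
  rw [Ideal.span_le]
  rintro x (rfl | rfl | rfl)
  · exact Ideal.mem_sup_left NL.unif_mem_p2
  · exact Ideal.mem_sup_right (Ideal.mem_span_singleton_self _)
  · exact Ideal.mem_sup_left NL.v_mem_p2

variable (H : IsSheetPoint χ (⟨algebraMap K F (c₀ : K), hc₀⟩ : NL.R))
  (hW : IsIntegral NL.R W)
  (hsimple : IsUnit ((derivative (minpoly NL.R W)).eval
    (⟨algebraMap K F (c₀ : K), hc₀⟩ : NL.R)))

include H hsimple in
/-- the maximal ideal of the local ring of the sheet point is `(ϖ, u, v)` -/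
theorem nonunit_mem_span (x : splitRing χ) (hx : ¬ IsUnit x) :
    x ∈ Ideal.span {toSplit χ (ϖR NL), toSplit χ (uR NL), toSplit χ (vR NL)} := by
  have h1 := H.nonunit_mem hsimple x hx
  have h2 : Ideal.map (toSplit χ) (maximalIdeal NL.R) ≤
      Ideal.span {toSplit χ (ϖR NL), toSplit χ (uR NL), toSplit χ (vR NL)} := by
    refine (Ideal.map_mono (maximalIdeal_le_span NL)).trans ?_
    rw [Ideal.map_span]
    apply Ideal.span_mono
    rintro _ ⟨y, hy, rfl⟩
    rcases hy with rfl | rfl | rfl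
    · exact Or.inl rfl
    · exact Or.inr (Or.inl rfl)
    · exact Or.inr (Or.inr rfl)
  exact h2 h1

include H in
/-- the residue field of the local ring of the sheet point is the residue field of `A` -/
theorem residue_const (y : splitRing χ) :
    ∃ (a : A) (h : algebraMap K F₂ (a : K) ∈ splitRing χ),
      ¬ IsUnit (y - ⟨algebraMap K F₂ (a : K), h⟩) := by
  haveI := isLocalRing_splitRing χ
  obtain ⟨r, hr⟩ := H.residue y
  obtain ⟨a, ha, hra⟩ := NL.residue r
  have hmem : algebraMap K F₂ (a : K) ∈ splitRing χ := by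
    rw [IsScalarTower.algebraMap_apply K F F₂]
    exact algebraMap_mem_splitRing χ (⟨algebraMap K F (a : K), ha⟩ : NL.R)
  refine ⟨a, hmem, ?_⟩
  have h1 : ¬ IsUnit (toSplit χ (r - ⟨algebraMap K F (a : K), ha⟩)) := by
    rw [H.isUnit_toSplit_iff]
    exact hra
  have h2 : y - ⟨algebraMap K F₂ (a : K), hmem⟩ =
      (y - toSplit χ r) + toSplit χ (r - ⟨algebraMap K F (a : K), ha⟩) := by
    apply Subtype.ext
    show (y : F₂) - algebraMap K F₂ (a : K) = ((y : F₂) - algebraMap F F₂ (r : F)) +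
      algebraMap F F₂ ((r : F) - algebraMap K F (a : K))
    rw [IsScalarTower.algebraMap_apply K F F₂, map_sub]
    ring
  rw [h2]
  exact IsLocalRing.nonunits_add hr h1

include H hW hsimple in
/-- the vertical height-one primes of the local ring of the sheet point -/
theorem vertical_split [IsNoetherianRing NL.R] [IsIntegrallyClosed NL.R]
    (Q : Ideal (splitRing χ)) (hQ : Q.IsPrime) (hht : Q.height = 1)
    (hϖ : toSplit χ (ϖR NL) ∈ Q) :
    Q = Ideal.map (toSplit χ) NL.p1 ∨ Q = Ideal.map (toSplit χ) NL.p2 := by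
  have hinj := algebraMap_subring_injective (F₂ := F₂) NL.R
  have h1 := height_comap_eq_one (χ := χ) hinj hW Q hht
  have h2 : ϖR NL ∈ Q.comap (toSplit χ) := Ideal.mem_comap.mpr hϖ
  rcases NL.vertical _ (Ideal.IsPrime.comap _) h1 h2 with h3 | h3
  · left
    exact eq_map_of_comap_eq H hsimple (vR_mem_maximalIdeal NL) NL.v_notMem_p1
      (maximalIdeal_le_p1_sup NL) Q h3
  · right
    exact eq_map_of_comap_eq H hsimple (uR_mem_maximalIdeal NL) NL.u_notMem_p2
      (maximalIdeal_le_p2_sup NL) Q h3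

/-- **One level of the split sheet**: the local ring of `Spec R[W]` at the sheet point over the
level `NL`, as a level of the tube `coverTube A T W c₀` of the cover. The only extra input is the
K-point existence lemma `hhoriz` for the new ring. -/
def nodeLevelOfSheetPoint [IsNoetherianRing NL.R] [IsIntegrallyClosed NL.R]
    (thick_ne : thick ≠ 0) (thick_lt : A.valuation thick < 1) (uv : u * v = thick • ε₀)
    (hhoriz : ∀ Q : Ideal (splitRing χ), Q.IsPrime → Q.height = 1 → toSplit χ (ϖR NL) ∉ Q →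
      ∃ P ∈ coverTube A T W c₀, ∀ x : splitRing χ, x ∈ Q ↔ evalAt P (x : F₂) = 0) :
    NodeLevel A (coverTube A T W c₀) (algebraMap F F₂ u) (algebraMap F F₂ v)
      (algebraMap F F₂ ε₀) thick :=
  have hinj := algebraMap_subring_injective (F₂ := F₂) NL.R
  have hp1 := @map_isPrime_and_comap _ _ _ _ _ _ _ _ _ _ _ _ _ _ H hsimple hinj hW NL.p1
    NL.prime1 _ (vR_mem_maximalIdeal NL) NL.v_notMem_p1 (maximalIdeal_le_p1_sup NL)
  have hp2 := @map_isPrime_and_comap _ _ _ _ _ _ _ _ _ _ _ _ _ _ H hsimple hinj hW NL.p2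
    NL.prime2 _ (uR_mem_maximalIdeal NL) NL.u_notMem_p2 (maximalIdeal_le_p2_sup NL)
  have hconst : ∀ c : K, algebraMap K F c ∈ NL.R → algebraMap K F₂ c ∈ splitRing χ := by
    intro c hc
    rw [IsScalarTower.algebraMap_apply K F F₂]
    exact algebraMap_mem_splitRing χ (⟨algebraMap K F c, hc⟩ : NL.R)
  have hϖeq : (⟨algebraMap K F₂ NL.ϖ, hconst _ NL.unif_memR⟩ : splitRing χ) =
      toSplit χ (ϖR NL) := Subtype.ext (IsScalarTower.algebraMap_apply K F F₂ NL.ϖ)
  AnnulusN2Level.nodeLevelOfFields A (coverTube A T W c₀) thick_ne thick_lt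
    (by rw [← map_mul, uv, Algebra.smul_def, Algebra.smul_def, map_mul,
      ← IsScalarTower.algebraMap_apply])
    (splitRing χ) NL.K' NL.ϖ (isNoetherianRing_splitRing χ)
    (H.isIntegrallyClosed_splitRing hinj hW hsimple) (isLocalRing_splitRing χ)
    (fun c hc hcA => hconst c (NL.const_mem c hc hcA))
    NL.unif_mem NL.unif_ne NL.unif_lt NL.unif_max NL.thick_mem (hconst _ NL.unif_memR)
    (algebraMap_mem_splitRing χ (uR NL)) (algebraMap_mem_splitRing χ (vR NL))
    (algebraMap_mem_splitRing χ (⟨ε₀, NL.ε₀_mem⟩ : NL.R))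
    (by rw [← map_inv₀]; exact algebraMap_mem_splitRing χ (⟨ε₀⁻¹, NL.ε₀_inv_mem⟩ : NL.R))
    (by
      intro x hx
      rw [hϖeq]
      exact nonunit_mem_span NL H hsimple x hx)
    (Ideal.map (toSplit χ) NL.p1) (Ideal.map (toSplit χ) NL.p2) hp1.1 hp2.1
    (by rw [hϖeq]; exact Ideal.mem_map_of_mem _ NL.unif_mem_p1)
    (by rw [hϖeq]; exact Ideal.mem_map_of_mem _ NL.unif_mem_p2)
    (Ideal.mem_map_of_mem (toSplit χ) NL.u_mem_p1)
    (Ideal.mem_map_of_mem (toSplit χ) NL.v_mem_p2)
    (by
      intro h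
      apply NL.v_notMem_p1
      rw [← hp1.2]
      exact Ideal.mem_comap.mpr h)
    (by
      intro h
      apply NL.u_notMem_p2
      rw [← hp2.2]
      exact Ideal.mem_comap.mpr h)
    (by
      intro Q hQ hht hϖ
      rw [hϖeq] at hϖ
      exact vertical_split NL H hW hsimple Q hQ hht hϖ)
    (residue_const NL H)
    (fun P hP => centredAt_splitRing H NL.centred hP)
    (by
      intro Q hQ hht hϖ
      rw [hϖeq] at hϖ
      exact hhoriz Q hQ hht hϖ)

@[simp] theorem nodeLevelOfSheetPoint_R [IsNoetherianRing NL.R] [IsIntegrallyClosed NL.R]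
    (thick_ne : thick ≠ 0) (thick_lt : A.valuation thick < 1) (uv : u * v = thick • ε₀)
    (hhoriz : ∀ Q : Ideal (splitRing χ), Q.IsPrime → Q.height = 1 → toSplit χ (ϖR NL) ∉ Q →
      ∃ P ∈ coverTube A T W c₀, ∀ x : splitRing χ, x ∈ Q ↔ evalAt P (x : F₂) = 0) :
    (nodeLevelOfSheetPoint NL H hW hsimple thick_ne thick_lt uv hhoriz).R = splitRing χ := rfl

@[simp] theorem nodeLevelOfSheetPoint_K' [IsNoetherianRing NL.R] [IsIntegrallyClosed NL.R]
    (thick_ne : thick ≠ 0) (thick_lt : A.valuation thick < 1) (uv : u * v = thick • ε₀)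
    (hhoriz : ∀ Q : Ideal (splitRing χ), Q.IsPrime → Q.height = 1 → toSplit χ (ϖR NL) ∉ Q →
      ∃ P ∈ coverTube A T W c₀, ∀ x : splitRing χ, x ∈ Q ↔ evalAt P (x : F₂) = 0) :
    (nodeLevelOfSheetPoint NL H hW hsimple thick_ne thick_lt uv hhoriz).K' = NL.K' := rfl

@[simp] theorem nodeLevelOfSheetPoint_ϖ [IsNoetherianRing NL.R] [IsIntegrallyClosed NL.R]
    (thick_ne : thick ≠ 0) (thick_lt : A.valuation thick < 1) (uv : u * v = thick • ε₀)
    (hhoriz : ∀ Q : Ideal (splitRing χ), Q.IsPrime → Q.height = 1 → toSplit χ (ϖR NL) ∉ Q →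
      ∃ P ∈ coverTube A T W c₀, ∀ x : splitRing χ, x ∈ Q ↔ evalAt P (x : F₂) = 0) :
    (nodeLevelOfSheetPoint NL H hW hsimple thick_ne thick_lt uv hhoriz).ϖ = NL.ϖ := rfl

end Level

end Fermat.Agent.BR3.SplitLevel
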