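/-
Program C (S36), node A7 COVER-NODE-SPLIT (helper19), part 3: the LEVEL DATA of the split sheet.

`L : S0.AnnulusLevels A T ι` the level data of the tube `T` of a node of `F` (e.g. a sub-annulus
of a node of `S′`, A7s), `F₂ = F[W]`, `c₀ : A` a constant of every level which is a SIMPLE root of
the minimal polynomial of `W` over every level modulo the maximal ideal.

* `splitRing_mono` : the local ring of the sheet point grows with the base ring;
* `SheetHyp L W c₀` : the hypotheses (`const_mem`, `integral`, `root`, `simple`, `gen`,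
  `finite_div`, and `horiz` = the K-point existence lemma for the new local rings);
  `SheetHyp.of_poly` : from ONE monic polynomial `Ψ` over a ring `R₀` contained in every level,
  irreducible over `F`, with `Ψ(c₀)` a non-unit of every level and `Ψ′(c₀)` a unit of `R₀`;
* `SheetHyp.levels : S0.AnnulusLevels A (coverTube A T W c₀) ι` with `u = j L.u`, `v = j L.v`,
  `ε₀ = j L.ε₀`, `thick = L.thick` (`j = algebraMap F F₂`), `(levels.level i).R = H.ring i`
  `= splitRing (H.point i)`, `.K′`, `.ϖ` unchanged (all `rfl`);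
* `SheetHyp.mem_coverTube_of_centredAt` : the converse of `centred`.

Consumers: `BR3/CircleN/OfLevels` (`BranchDataN.annulusChartNOfLevels`), and the next stage of a
tower (the output has the same shape as the input).
-/
import Mathlib
import Fermat.Agent.BR3.SplitLevel

set_option autoImplicit false
set_option linter.unusedSectionVars false
set_option linter.style.haveILetI false

noncomputable section

namespace Fermat.Agent.BR3.SplitLevels

open Polynomial IsLocalRing AlgebraicCurve Fermat.Agent.Red Fermat.Agent.BR.Centre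
  Fermat.Agent.BR.S0 Fermat.Agent.BR.Inst.LocSub Fermat.Agent.BR3.EtaleLocal
  Fermat.Agent.BR3.SplitLevel Fermat.Agent.BR3.CoverSmooth

/-! ### Monotonicity of the local ring of the sheet point in the base ring -/

section Mono

variable {F F₂ : Type*} [Field F] [Field F₂] [Algebra F F₂]
  {R R' : Subring F} [IsLocalRing R] [IsLocalRing R'] {W : F₂}
  {κ κ' : Type*} [Field κ] [Field κ'] {χ : adjSub R W →+* κ} {χ' : adjSub R' W →+* κ'}

theorem adjSub_mono (hRR : R ≤ R') : adjSub R W ≤ adjSub R' W := by
  intro x hx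
  rw [mem_adjSub_iff] at hx ⊢
  refine Algebra.adjoin_induction (p := fun y _ => y ∈ Algebra.adjoin R' {W}) ?_ ?_ ?_ ?_ hx
  · intro y hy
    exact Algebra.subset_adjoin hy
  · intro r
    exact Subalgebra.algebraMap_mem _ (⟨(r : F), hRR r.2⟩ : R')
  · intro x y _ _ hx hy
    exact Subalgebra.add_mem _ hx hy
  · intro x y _ _ hx hy
    exact Subalgebra.mul_mem _ hx hy

/-- the local ring of the sheet point grows with the base ring -/
theorem splitRing_mono (hRR : R ≤ R') {c : R} (H : IsSheetPoint χ c)
    (H' : IsSheetPoint χ' (⟨(c : F), hRR c.2⟩ : R')) : splitRing χ ≤ splitRing χ' := by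
  intro x hx
  rw [mem_splitRing_iff] at hx ⊢
  obtain ⟨a, b, hb, hab⟩ := hx
  refine ⟨⟨(a : F₂), adjSub_mono hRR a.2⟩, ⟨(b : F₂), adjSub_mono hRR b.2⟩, ?_, hab⟩
  obtain ⟨p, rfl⟩ := exists_evalAdj_eq R W b
  -- `p(c)` is a unit of `R`, hence of `R'`
  have hu : IsUnit (p.eval c) := by
    by_contra hu
    exact hb ((H.map_evalAdj_eq_zero_iff p).mpr ((mem_maximalIdeal _).mpr hu))
  let ι : R →+* R' := Subring.inclusion hRR
  have hu' : IsUnit ((p.map ι).eval (⟨(c : F), hRR c.2⟩ : R')) := by
    have : (p.map ι).eval (⟨(c : F), hRR c.2⟩ : R') = ι (p.eval c) := by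
      rw [show (⟨(c : F), hRR c.2⟩ : R') = ι c from rfl, Polynomial.eval_map,
        Polynomial.eval₂_at_apply]
    rw [this]
    exact hu.map ι
  have e : (⟨((evalAdj R W p : adjSub R W) : F₂), adjSub_mono hRR (evalAdj R W p).2⟩ :
      adjSub R' W) = evalAdj R' W (p.map ι) := by
    apply Subtype.ext
    show aeval W p = aeval W (p.map ι)
    rw [Polynomial.aeval_def, Polynomial.aeval_def, Polynomial.eval₂_map]
    rfl
  rw [e]
  intro h0
  exact ((mem_maximalIdeal _).mp ((H'.map_evalAdj_eq_zero_iff (p.map ι)).mp h0)) hu'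

end Mono

/-! ### The family -/

section Family

attribute [local instance] NodeLevel.isLocal NodeLevel.noeth NodeLevel.intClosed

variable {K F F₂ : Type*} [Field K] [Field F] [Field F₂] [Algebra K F] [Algebra K F₂]
  [Algebra F F₂] [IsScalarTower K F F₂] [Algebra.IsIntegral F F₂] [CharZero F₂]
  {A : ValuationSubring K} {T : Set (Place K F)} {ι : Type*}

/-- The hypotheses of the split sheet `W ≡ c₀` over a family of levels of the tube `T`: `c₀` is a
constant of every level and a SIMPLE root of the minimal polynomial of `W` over every level modulo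
the maximal ideal; `F₂ = F[W]`; and the K-point existence lemma (`horiz`) for the local rings of
the sheet point. -/
structure SheetHyp (L : AnnulusLevels A T ι) (W : F₂) (c₀ : A) : Prop where
  const_mem : ∀ i, algebraMap K F (c₀ : K) ∈ (L.level i).R
  integral : ∀ i, IsIntegral (L.level i).R W
  root : ∀ i, (minpoly (L.level i).R W).eval
    (⟨algebraMap K F (c₀ : K), const_mem i⟩ : (L.level i).R) ∈ maximalIdeal (L.level i).R
  simple : ∀ i, IsUnit ((derivative (minpoly (L.level i).R W)).eval
    (⟨algebraMap K F (c₀ : K), const_mem i⟩ : (L.level i).R))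
  gen : ∀ y : F₂, ∃ p : F[X], aeval W p = y
  finite_div : ∀ y : F₂, y ≠ 0 → {P : Place K F₂ | P.ord y ≠ 0}.Finite
  horiz : ∀ i (χ : adjSub (L.level i).R W →+* ResidueField (L.level i).R),
    IsSheetPoint χ (⟨algebraMap K F (c₀ : K), const_mem i⟩ : (L.level i).R) →
    ∀ Q : Ideal (splitRing χ), Q.IsPrime → Q.height = 1 → toSplit χ (ϖR (L.level i)) ∉ Q →
      ∃ P ∈ coverTube A T W c₀, ∀ x : splitRing χ, x ∈ Q ↔ evalAt P (x : F₂) = 0

namespace SheetHyp

variable {L : AnnulusLevels A T ι} {W : F₂} {c₀ : A} (H : SheetHyp L W c₀)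

/-- the constant `c₀` as an element of the level `i` -/
def cR (i : ι) : (L.level i).R := ⟨algebraMap K F (c₀ : K), H.const_mem i⟩

theorem exists_point (i : ι) :
    ∃ χ : adjSub (L.level i).R W →+* ResidueField (L.level i).R, IsSheetPoint χ (H.cR i) :=
  exists_isSheetPoint (algebraMap_subring_injective (F₂ := F₂) (L.level i).R) (H.integral i)
    (H.root i)

/-- the sheet point of the level `i` -/
def point (i : ι) : adjSub (L.level i).R W →+* ResidueField (L.level i).R :=
  (H.exists_point i).choose

theorem isSheetPoint (i : ι) : IsSheetPoint (H.point i) (H.cR i) := (H.exists_point i).choose_spec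

/-- the local ring of the sheet point at the level `i` -/
def ring (i : ι) : Subring F₂ := splitRing (H.point i)

/-- the level `i` of the split sheet -/
def level (i : ι) : NodeLevel A (coverTube A T W c₀) (algebraMap F F₂ L.u) (algebraMap F F₂ L.v)
    (algebraMap F F₂ L.ε₀) L.thick :=
  nodeLevelOfSheetPoint (L.level i) (H.isSheetPoint i) (H.integral i) (H.simple i)
    L.thick_ne L.thick_lt L.uv (H.horiz i (H.point i) (H.isSheetPoint i))

@[simp] theorem level_R (i : ι) : (H.level i).R = H.ring i := rfl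

@[simp] theorem level_K' (i : ι) : (H.level i).K' = (L.level i).K' := rfl

@[simp] theorem level_ϖ (i : ι) : (H.level i).ϖ = (L.level i).ϖ := rfl

theorem ring_mono {i l : ι} (h : (L.level i).R ≤ (L.level l).R) : H.ring i ≤ H.ring l :=
  splitRing_mono h (H.isSheetPoint i) (H.isSheetPoint l)

theorem map_mem_ring (i : ι) {y : F} (hy : y ∈ (L.level i).R) : algebraMap F F₂ y ∈ H.ring i :=
  algebraMap_mem_splitRing (H.point i) (⟨y, hy⟩ : (L.level i).R)

theorem gen_mem_ring (i : ι) : W ∈ H.ring i := gen_mem_splitRing (H.point i)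

theorem adjSub_le_ring (i : ι) : adjSub (L.level i).R W ≤ H.ring i :=
  adjSub_le_splitRing (H.point i)

/-- denominators: every polynomial in `W` over `F` becomes a polynomial over some level after
multiplication by a nonzero function of that level -/
theorem exists_level_mul_mem (p : F[X]) :
    ∃ i, ∃ b : F, b ∈ (L.level i).R ∧ b ≠ 0 ∧
      aeval W p * algebraMap F F₂ b ∈ adjSub (L.level i).R W := by
  induction p using Polynomial.induction_on' with
  | add p q hp hq =>
    obtain ⟨i₁, b₁, hb₁, hb₁0, h₁⟩ := hp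
    obtain ⟨i₂, b₂, hb₂, hb₂0, h₂⟩ := hq
    obtain ⟨l, h1l, h2l, -, -⟩ := L.directed i₁ i₂
    refine ⟨l, b₁ * b₂, (L.level l).R.mul_mem (h1l hb₁) (h2l hb₂), mul_ne_zero hb₁0 hb₂0, ?_⟩
    have e : aeval W (p + q) * algebraMap F F₂ (b₁ * b₂) =
        (aeval W p * algebraMap F F₂ b₁) * algebraMap F F₂ b₂ +
        (aeval W q * algebraMap F F₂ b₂) * algebraMap F F₂ b₁ := by
      rw [map_add, map_mul]
      ring
    rw [e]
    refine (adjSub (L.level l).R W).add_mem ((adjSub (L.level l).R W).mul_mem
      (adjSub_mono h1l h₁) ?_) ((adjSub (L.level l).R W).mul_mem (adjSub_mono h2l h₂) ?_)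
    · exact algebraMap_mem_adjSub (L.level l).R W (⟨b₂, h2l hb₂⟩ : (L.level l).R)
    · exact algebraMap_mem_adjSub (L.level l).R W (⟨b₁, h1l hb₁⟩ : (L.level l).R)
  | monomial n f =>
    obtain ⟨i, a, b, hb0, hab⟩ := L.frac f
    refine ⟨i, (b : F), b.2, fun h => hb0 (Subtype.ext h), ?_⟩
    have e : aeval W (monomial n f) * algebraMap F F₂ (b : F) =
        algebraMap F F₂ (a : F) * W ^ n := by
      rw [aeval_monomial, ← hab, map_mul]
      ring
    rw [e]
    exact (adjSub (L.level i).R W).mul_mem (algebraMap_mem_adjSub (L.level i).R W a)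
      ((adjSub (L.level i).R W).pow_mem (gen_mem_adjSub (L.level i).R W) n)

include H in
/-- every function of the cover is a quotient of functions of some level -/
theorem frac (y : F₂) : ∃ i, ∃ a b : H.ring i, b ≠ 0 ∧ y * (b : F₂) = (a : F₂) := by
  obtain ⟨p, rfl⟩ := H.gen y
  obtain ⟨i, b, hb, hb0, hmem⟩ := exists_level_mul_mem (L := L) (W := W) p
  refine ⟨i, ⟨_, H.adjSub_le_ring i hmem⟩, ⟨algebraMap F F₂ b, H.map_mem_ring i hb⟩, ?_, rfl⟩
  intro h0
  apply hb0
  have h1 : algebraMap F F₂ b = 0 := congrArg Subtype.val h0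
  exact (map_eq_zero _).mp h1

/-- **The level data of the split sheet.** -/
def levels : AnnulusLevels A (coverTube A T W c₀) ι where
  u := algebraMap F F₂ L.u
  v := algebraMap F F₂ L.v
  ε₀ := algebraMap F F₂ L.ε₀
  thick := L.thick
  thick_ne := L.thick_ne
  thick_lt := L.thick_lt
  uv := by
    rw [← map_mul, L.uv, Algebra.smul_def, Algebra.smul_def, map_mul,
      ← IsScalarTower.algebraMap_apply]
  level := H.level
  directed := fun i j => by
    obtain ⟨l, h1, h2, h3, h4⟩ := L.directed i j
    exact ⟨l, H.ring_mono h1, H.ring_mono h2, h3, h4⟩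
  frac := H.frac
  const := L.const
  finite_div := H.finite_div

@[simp] theorem levels_u : H.levels.u = algebraMap F F₂ L.u := rfl

@[simp] theorem levels_v : H.levels.v = algebraMap F F₂ L.v := rfl

@[simp] theorem levels_ε₀ : H.levels.ε₀ = algebraMap F F₂ L.ε₀ := rfl

@[simp] theorem levels_thick : H.levels.thick = L.thick := rfl

theorem levels_level (i : ι) : H.levels.level i = H.level i := rfl

theorem levels_R (i : ι) : (H.levels.level i).R = H.ring i := rfl

/-- the places centred at a level of the split sheet are the places of the sheet (converse of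
`centred`), from the converse downstairs -/
theorem mem_coverTube_of_centredAt (i : ι)
    (hT : ∀ P : Place K F, CentredAt A (L.level i).R P → P ∈ T) {P₂ : Place K F₂}
    (hP₂ : CentredAt A (H.ring i) P₂) : P₂ ∈ coverTube A T W c₀ :=
  SplitLevel.mem_coverTube_of_centredAt (H.isSheetPoint i) hT hP₂

end SheetHyp

/-- **The hypotheses of the split sheet from ONE polynomial over a base ring.**  `R₀` a subring
of every level, `Ψ ∈ R₀[X]` monic, irreducible over `F`, with root `W`; `c₀` a constant of `R₀`
such that `Ψ(c₀)` is a non-unit of every level and `Ψ'(c₀)` is a unit of `R₀`. -/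
theorem SheetHyp.of_poly (L : AnnulusLevels A T ι) {W : F₂} {c₀ : A} (R₀ : Subring F)
    (hR₀ : ∀ i, R₀ ≤ (L.level i).R) (Ψ : R₀[X]) (hm : Ψ.Monic)
    (hirr : Irreducible (Ψ.map R₀.subtype)) (hroot : aeval W Ψ = 0)
    (hc₀ : algebraMap K F (c₀ : K) ∈ R₀)
    (hval : ∀ i, ¬ IsUnit (⟨((Ψ.eval ⟨algebraMap K F (c₀ : K), hc₀⟩ : R₀) : F),
      hR₀ i (Ψ.eval ⟨algebraMap K F (c₀ : K), hc₀⟩ : R₀).2⟩ : (L.level i).R))
    (hder : IsUnit ((derivative Ψ).eval (⟨algebraMap K F (c₀ : K), hc₀⟩ : R₀)))
    (hgen : ∀ y : F₂, ∃ p : F[X], aeval W p = y)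
    (hfin : ∀ y : F₂, y ≠ 0 → {P : Place K F₂ | P.ord y ≠ 0}.Finite)
    (hhoriz : ∀ i (χ : adjSub (L.level i).R W →+* ResidueField (L.level i).R),
      IsSheetPoint χ (⟨algebraMap K F (c₀ : K), hR₀ i hc₀⟩ : (L.level i).R) →
      ∀ Q : Ideal (splitRing χ), Q.IsPrime → Q.height = 1 → toSplit χ (ϖR (L.level i)) ∉ Q →
        ∃ P ∈ coverTube A T W c₀, ∀ x : splitRing χ, x ∈ Q ↔ evalAt P (x : F₂) = 0) :
    SheetHyp L W c₀ := by
  -- the polynomial over the level `i`
  have key : ∀ i, minpoly (L.level i).R W = Ψ.map (Subring.inclusion (hR₀ i)) := by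
    intro i
    apply minpoly_eq_of_irreducible (algebraMap_subring_injective (F₂ := F₂) (L.level i).R)
      (hm.map _)
    · apply Polynomial.Monic.irreducible_of_irreducible_map (L.level i).R.subtype _ (hm.map _)
      rw [Polynomial.map_map]
      exact hirr
    · rw [Polynomial.aeval_def, Polynomial.eval₂_map]
      rw [Polynomial.aeval_def] at hroot
      exact hroot
  have heval : ∀ i (q : R₀[X]), (q.map (Subring.inclusion (hR₀ i))).eval
      (⟨algebraMap K F (c₀ : K), hR₀ i hc₀⟩ : (L.level i).R) =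
      Subring.inclusion (hR₀ i) (q.eval ⟨algebraMap K F (c₀ : K), hc₀⟩) := by
    intro i q
    rw [show (⟨algebraMap K F (c₀ : K), hR₀ i hc₀⟩ : (L.level i).R) =
      Subring.inclusion (hR₀ i) ⟨algebraMap K F (c₀ : K), hc₀⟩ from rfl, Polynomial.eval_map,
      Polynomial.eval₂_at_apply]
  refine ⟨fun i => hR₀ i hc₀, fun i => ?_, fun i => ?_, fun i => ?_, hgen, hfin, hhoriz⟩
  · refine ⟨Ψ.map (Subring.inclusion (hR₀ i)), hm.map _, ?_⟩
    rw [Polynomial.eval₂_map]
    rw [Polynomial.aeval_def] at hroot
    exact hroot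
  · rw [key i, heval i Ψ, mem_maximalIdeal, mem_nonunits_iff]
    exact hval i
  · rw [key i, Polynomial.derivative_map, heval i (derivative Ψ)]
    exact hder.map _

end Family

end Fermat.Agent.BR3.SplitLevels
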