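/-
Program C (S36), node A7 COVER-NODE-SPLIT, part 5 (helper19): the BRANCH side of the split sheet.

`F₂ / F` a finite extension of function fields over `K`, `A ⊆ K` a valuation ring, `L` a family
of levels of the tube `T` of a node of `F`, `W ∈ F₂` with `H : SheetHyp L W c₀` (the split sheet
`W ≡ c₀`, `BR3/SplitLevels`), so that `H.levels : AnnulusLevels A (coverTube A T W c₀) ι`.

* `BranchComp π O res Q L` : the branch data of a family of levels on ONE component `(O, res)`
  through the node at the branch point `Q` (the levels lie in `O`, their non-units vanish at `Q`,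
  the constants of `A` reduce by `π`); this is one half (`le₁ branch₁` resp. `le₂ branch₂`) of
  `CircleN.BranchDataN` and of `S0.NodeLevels`;
* `CoverComp π O res Q O₂ res₂ Q₂ W c₀` : a component `(O₂, res₂)` of the cover over `(O, res)`
  with a point `Q₂` over `Q` at which `W` reduces to `π c₀`;
* `CoverComp.val_aeval_lt_iff` : the reduction of `p(W)` vanishes at `Q₂` iff `p(c₀)` is a
  non-unit of the level; `val_lt_iff_point` : the centre of `Q₂` on `R[W]` is the sheet point;
* `CoverComp.ring_le`, `ring_branch`, and the output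
  **`CoverComp.branchComp : BranchComp π O₂ res₂ Q₂ H.levels`**;
* transfers: `CoverComp.unif` (a uniformizer at the branch coming from a level, when `Q₂ / Q` is
  unramified), `CoverComp.nonunits_map` (`v ≡ 0` resp. `u ≡ 0` on the component),
  `BranchComp.of_ring_eq` (other tube / index set / coordinates with the same rings),
  `BranchComp.regular`, `BranchComp.eq_one_of_isUnit`, `lies_of_ord_map`.
-/
import Mathlib
import Fermat.Agent.BR3.SplitLevels
import Fermat.Agent.BR.S0.NodeDescent

set_option autoImplicit false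
set_option linter.unusedSectionVars false
set_option linter.style.haveILetI false

noncomputable section

namespace Fermat.Agent.BR3.SplitBranch

open Polynomial IsLocalRing AlgebraicCurve Fermat.Agent.Red Fermat.Agent.BR.Centre
  Fermat.Agent.BR.S0 Fermat.Agent.BR.Inst.LocSub Fermat.Agent.BR3.EtaleLocal
  Fermat.Agent.BR3.SplitLevel Fermat.Agent.BR3.SplitLevels Fermat.Agent.BR3.CoverSmooth

attribute [local instance] NodeLevel.isLocal NodeLevel.noeth NodeLevel.intClosed
  RingHom.ker_isPrime

variable {K F F₂ k : Type*} [Field K] [Field F] [Field F₂] [Field k] [Algebra K F]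
  [Algebra K F₂] [Algebra F F₂] [IsScalarTower K F F₂] [Algebra.IsIntegral F F₂] [CharZero F₂]
  {Ft Ft₂ : Type*} [Field Ft] [Field Ft₂] [Algebra k Ft] [Algebra k Ft₂] [Algebra Ft Ft₂]
  [IsScalarTower k Ft Ft₂]
  {A : ValuationSubring K} {T : Set (Place K F)} {ι : Type*}

/-- The branch data of a family of levels on ONE component `(O, res)` through the node, at the
branch point `Q`: the levels lie in `O`, their non-units vanish at `Q`, and the constants of `A`
reduce by `π`. -/
structure BranchComp (π : A →+* k) (O : ValuationSubring F) (res : O →+* Ft) (Q : Place k Ft)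
    {T : Set (Place K F)} (L : AnnulusLevels A T ι) : Prop where
  le : ∀ i, ∀ y ∈ (L.level i).R, y ∈ O
  branch : ∀ i, ∀ y : (L.level i).R, ¬ IsUnit y → Q.adicValuation (res ⟨y, le i y y.2⟩) < 1
  const_mem : ∀ a : A, algebraMap K F (a : K) ∈ O
  const : ∀ a : A, res ⟨algebraMap K F (a : K), const_mem a⟩ = algebraMap k Ft (π a)

/-- One component `(O₂, res₂)` of the cover over the component `(O, res)` of the base, with a
point `Q₂` over `Q`, on the sheet `W ≡ c₀`. -/
structure CoverComp (π : A →+* k) (O : ValuationSubring F) (res : O →+* Ft) (Q : Place k Ft)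
    (O₂ : ValuationSubring F₂) (res₂ : O₂ →+* Ft₂) (Q₂ : Place k Ft₂) (W : F₂) (c₀ : A) :
    Prop where
  map_mem : ∀ y : F, y ∈ O → algebraMap F F₂ y ∈ O₂
  res_map : ∀ (y : F) (hy : y ∈ O),
    res₂ ⟨algebraMap F F₂ y, map_mem y hy⟩ = algebraMap Ft Ft₂ (res ⟨y, hy⟩)
  res_nonunits : ∀ x : O₂, (x : F₂) ∈ O₂.nonunits → res₂ x = 0
  lies : ∀ g : Ft, algebraMap Ft Ft₂ g ∈ Q₂.toValuationSubring ↔ g ∈ Q.toValuationSubring
  W_mem : W ∈ O₂
  value : Q₂.adicValuation (res₂ ⟨W, W_mem⟩ - algebraMap k Ft₂ (π c₀)) < 1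

/-- a point of the cover lies over the point of the base as soon as the orders agree -/
theorem lies_of_ord_map {Q : Place k Ft} {Q₂ : Place k Ft₂}
    (h : ∀ g : Ft, Q₂.ord (algebraMap Ft Ft₂ g) = Q.ord g) (g : Ft) :
    algebraMap Ft Ft₂ g ∈ Q₂.toValuationSubring ↔ g ∈ Q.toValuationSubring := by
  rw [mem_iff_le_one, mem_iff_le_one, Q₂.adicValuation_le_one_iff, Q.adicValuation_le_one_iff,
    h, map_eq_zero]

namespace BranchComp

variable {π : A →+* k} {O : ValuationSubring F} {res : O →+* Ft} {Q : Place k Ft}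
  {L : AnnulusLevels A T ι} (X : BranchComp π O res Q L)

include X in
/-- the reductions of the functions of a level are regular at the branch -/
theorem regular (i : ι) (y : (L.level i).R) :
    Q.adicValuation (res ⟨y, X.le i y y.2⟩) ≤ 1 := by
  obtain ⟨a, ha, hnu⟩ := (L.level i).residue y
  have h1 := X.branch i _ hnu
  have e : (⟨(y : F), X.le i y y.2⟩ : O) =
      ⟨((y - ⟨algebraMap K F a, ha⟩ : (L.level i).R) : F), X.le i _
        (y - ⟨algebraMap K F a, ha⟩ : (L.level i).R).2⟩ +
      ⟨algebraMap K F a, X.le i _ ha⟩ := by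
    apply Subtype.ext
    show (y : F) = ((y : F) - algebraMap K F a) + algebraMap K F a
    ring
  rw [e, map_add, X.const a]
  exact (Valuation.map_add _ _ _).trans (max_le h1.le (Q.adicValuation_algebraMap_le_one _))

include X in
/-- the reduction of a unit of a level is a unit at the branch -/
theorem eq_one_of_isUnit (i : ι) {y : (L.level i).R} (hy : IsUnit y) :
    Q.adicValuation (res ⟨y, X.le i y y.2⟩) = 1 := by
  obtain ⟨w, hw⟩ := hy.exists_right_inv
  have h1 := X.regular i y
  have h2 := X.regular i w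
  have e : (⟨(y : F), X.le i y y.2⟩ : O) * ⟨(w : F), X.le i w w.2⟩ = 1 := by
    apply Subtype.ext
    have := congrArg (fun z : (L.level i).R => (z : F)) hw
    exact this
  have h3 := congrArg (fun z => Q.adicValuation (res z)) e
  simp only [map_mul, map_one] at h3
  refine le_antisymm h1 ?_
  by_contra hlt
  rw [not_le] at hlt
  have : Q.adicValuation (res ⟨(y : F), X.le i y y.2⟩) *
      Q.adicValuation (res ⟨(w : F), X.le i w w.2⟩) < 1 :=
    calc _ ≤ Q.adicValuation (res ⟨(y : F), X.le i y y.2⟩) * 1 := mul_le_mul' le_rfl h2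
      _ = _ := mul_one _
      _ < 1 := hlt
  rw [h3] at this
  exact lt_irrefl _ this

include X in
/-- transport to another family of levels with the same local rings (another tube, another
index set, other coordinates) -/
theorem of_ring_eq {T' : Set (Place K F)} {ι' : Type*} (L' : AnnulusLevels A T' ι') (e : ι' → ι)
    (h : ∀ i', (L'.level i').R = (L.level (e i')).R) : BranchComp π O res Q L' where
  le i' y hy := X.le (e i') y (by rw [← h i']; exact hy)
  branch i' y hy := by
    have hy' : (y : F) ∈ (L.level (e i')).R := by rw [← h i']; exact y.2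
    have hu : ¬ IsUnit (⟨(y : F), hy'⟩ : (L.level (e i')).R) := by
      intro hu
      apply hy
      rw [isUnit_subring_iff] at hu
      have : IsUnit (⟨(y : F), y.2⟩ : (L'.level i').R) := by
        rw [isUnit_subring_iff]
        have hm : ∀ z : F, z ∈ (L.level (e i')).R → z ∈ (L'.level i').R := fun z hz => by
          rw [h i']
          exact hz
        exact ⟨hu.1, hm _ hu.2⟩
      exact this
    exact X.branch (e i') ⟨y, hy'⟩ hu
  const_mem := X.const_mem
  const := X.const

end BranchComp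

/-! ### The levels of the split sheet on a component of the cover -/

section Cover

variable {π : A →+* k} {O : ValuationSubring F} {res : O →+* Ft} {Q : Place k Ft}
  {O₂ : ValuationSubring F₂} {res₂ : O₂ →+* Ft₂} {Q₂ : Place k Ft₂} {W : F₂} {c₀ : A}
  {L : AnnulusLevels A T ι}

namespace CoverComp

variable (Hc : CoverComp π O res Q O₂ res₂ Q₂ W c₀) (X : BranchComp π O res Q L)

include Hc X in
/-- `R[W] ⊆ O₂` -/
theorem adjSub_le (i : ι) : ∀ x ∈ adjSub (L.level i).R W, x ∈ O₂ := by
  intro x hx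
  rw [mem_adjSub_iff] at hx
  refine Algebra.adjoin_induction (p := fun y _ => y ∈ O₂) ?_ ?_ ?_ ?_ hx
  · intro y hy
    rw [Set.mem_singleton_iff] at hy
    rw [hy]
    exact Hc.W_mem
  · intro r
    exact Hc.map_mem _ (X.le i r r.2)
  · intro x y _ _ hx hy
    exact O₂.add_mem _ _ hx hy
  · intro x y _ _ hx hy
    exact O₂.mul_mem _ _ hx hy

include Hc in
/-- the reduction of `W` is regular at the point -/
theorem val_gen_le : Q₂.adicValuation (res₂ ⟨W, Hc.W_mem⟩) ≤ 1 := by
  have e : res₂ ⟨W, Hc.W_mem⟩ = (res₂ ⟨W, Hc.W_mem⟩ - algebraMap k Ft₂ (π c₀)) +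
      algebraMap k Ft₂ (π c₀) := by ring
  rw [e]
  exact (Valuation.map_add _ _ _).trans
    (max_le Hc.value.le (Q₂.adicValuation_algebraMap_le_one _))

include Hc X in
/-- the reductions of the functions of a level of the base, on the component of the cover -/
theorem val_map_lt_iff (i : ι) (r : (L.level i).R) :
    Q₂.adicValuation (res₂ ⟨algebraMap F F₂ (r : F), Hc.map_mem _ (X.le i r r.2)⟩) < 1 ↔
      Q.adicValuation (res ⟨r, X.le i r r.2⟩) < 1 := by
  rw [Hc.res_map _ (X.le i r r.2)]
  exact lt_one_iff_of_mem_iff (algebraMap Ft Ft₂) Hc.lies _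

include Hc X in
theorem val_map_le (i : ι) (r : (L.level i).R) :
    Q₂.adicValuation (res₂ ⟨algebraMap F F₂ (r : F), Hc.map_mem _ (X.le i r r.2)⟩) ≤ 1 := by
  rw [Hc.res_map _ (X.le i r r.2)]
  exact (le_one_iff_of_mem_iff (algebraMap Ft Ft₂) Hc.lies _).mpr (X.regular i r)

include Hc X in
/-- the reductions of the elements of `R[W]` are regular at the point -/
theorem regular_adjSub (i : ι) (x : F₂) (hx : x ∈ adjSub (L.level i).R W) :
    Q₂.adicValuation (res₂ ⟨x, Hc.adjSub_le X i x hx⟩) ≤ 1 := by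
  have key : ∃ h : x ∈ O₂, Q₂.adicValuation (res₂ ⟨x, h⟩) ≤ 1 := by
    rw [mem_adjSub_iff] at hx
    refine Algebra.adjoin_induction
      (p := fun y _ => ∃ h : y ∈ O₂, Q₂.adicValuation (res₂ ⟨y, h⟩) ≤ 1) ?_ ?_ ?_ ?_ hx
    · intro y hy
      rw [Set.mem_singleton_iff] at hy
      subst hy
      exact ⟨Hc.W_mem, Hc.val_gen_le⟩
    · intro r
      exact ⟨Hc.map_mem _ (X.le i r r.2), Hc.val_map_le X i r⟩
    · rintro x y _ _ ⟨hx, hxv⟩ ⟨hy, hyv⟩
      refine ⟨O₂.add_mem _ _ hx hy, ?_⟩
      have e : (⟨x + y, O₂.add_mem _ _ hx hy⟩ : O₂) = ⟨x, hx⟩ + ⟨y, hy⟩ := rfl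
      rw [e, map_add]
      exact (Valuation.map_add _ _ _).trans (max_le hxv hyv)
    · rintro x y _ _ ⟨hx, hxv⟩ ⟨hy, hyv⟩
      refine ⟨O₂.mul_mem _ _ hx hy, ?_⟩
      have e : (⟨x * y, O₂.mul_mem _ _ hx hy⟩ : O₂) = ⟨x, hx⟩ * ⟨y, hy⟩ := rfl
      rw [e, map_mul, map_mul]
      exact mul_le_one' hxv hyv
  obtain ⟨h, hv⟩ := key
  exact hv


/-- ultrametric: a summand vanishing at the point does not change vanishing at the point -/
theorem lt_one_add_iff {Γ : Type*} [LinearOrderedCommGroupWithZero Γ] {S : Type*} [CommRing S]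
    (v : Valuation S Γ) {y z : S} (hz : v z < 1) : v (y + z) < 1 ↔ v y < 1 := by
  constructor
  · intro h
    have e : y = (y + z) - z := by ring
    rw [e]
    exact lt_of_le_of_lt (Valuation.map_sub _ _ _) (max_lt h hz)
  · intro h
    exact lt_of_le_of_lt (Valuation.map_add _ _ _) (max_lt h hz)

include Hc X in
/-- the reduction of `W - c₀` vanishes at the point -/
theorem val_gen_sub_lt :
    Q₂.adicValuation (res₂ ⟨W - algebraMap F F₂ (algebraMap K F (c₀ : K)),
      sub_mem Hc.W_mem (Hc.map_mem _ (X.const_mem c₀))⟩) < 1 := by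
  have e : (⟨W - algebraMap F F₂ (algebraMap K F (c₀ : K)),
      sub_mem Hc.W_mem (Hc.map_mem _ (X.const_mem c₀))⟩ : O₂) =
      ⟨W, Hc.W_mem⟩ - ⟨algebraMap F F₂ (algebraMap K F (c₀ : K)),
        Hc.map_mem _ (X.const_mem c₀)⟩ := rfl
  rw [e, map_sub, Hc.res_map _ (X.const_mem c₀), X.const c₀,
    ← IsScalarTower.algebraMap_apply k Ft Ft₂]
  exact Hc.value

variable (H : SheetHyp L W c₀)

include Hc X H in
/-- **the reduction of `p(W)` vanishes at the point iff `p(c₀)` is a non-unit of the level** -/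
theorem val_aeval_lt_iff (i : ι) (p : (L.level i).R[X]) :
    Q₂.adicValuation (res₂ ⟨aeval W p,
      Hc.adjSub_le X i _ (aeval_mem_adjSub (L.level i).R W p)⟩) < 1 ↔
      p.eval (H.cR i) ∈ maximalIdeal (L.level i).R := by
  obtain ⟨g, hg, -⟩ := exists_cofactor p (H.cR i)
  have h1 : aeval W p = algebraMap F F₂ ((p.eval (H.cR i) : (L.level i).R) : F) +
      (W - algebraMap F F₂ (algebraMap K F (c₀ : K))) * aeval W g := by
    conv_lhs => rw [hg]
    simp only [map_add, map_mul, map_sub, aeval_C, aeval_X]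
    rfl
  have hG := Hc.regular_adjSub X i _ (aeval_mem_adjSub (L.level i).R W g)
  have ht := Hc.val_gen_sub_lt X
  have e : (⟨aeval W p, Hc.adjSub_le X i _ (aeval_mem_adjSub (L.level i).R W p)⟩ : O₂) =
      ⟨algebraMap F F₂ ((p.eval (H.cR i) : (L.level i).R) : F),
        Hc.map_mem _ (X.le i _ (p.eval (H.cR i)).2)⟩ +
      ⟨W - algebraMap F F₂ (algebraMap K F (c₀ : K)),
        sub_mem Hc.W_mem (Hc.map_mem _ (X.const_mem c₀))⟩ *
      ⟨aeval W g, Hc.adjSub_le X i _ (aeval_mem_adjSub (L.level i).R W g)⟩ :=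
    Subtype.ext h1
  have hz : Q₂.adicValuation (res₂ (⟨W - algebraMap F F₂ (algebraMap K F (c₀ : K)),
        sub_mem Hc.W_mem (Hc.map_mem _ (X.const_mem c₀))⟩ *
      ⟨aeval W g, Hc.adjSub_le X i _ (aeval_mem_adjSub (L.level i).R W g)⟩)) < 1 := by
    rw [map_mul, map_mul]
    calc _ ≤ Q₂.adicValuation (res₂ ⟨W - algebraMap F F₂ (algebraMap K F (c₀ : K)),
        sub_mem Hc.W_mem (Hc.map_mem _ (X.const_mem c₀))⟩) * 1 := mul_le_mul' le_rfl hG
      _ = _ := mul_one _
      _ < 1 := ht
  rw [e, map_add, lt_one_add_iff _ hz, Hc.val_map_lt_iff X i (p.eval (H.cR i)), mem_maximalIdeal,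
    mem_nonunits_iff]
  constructor
  · intro h hu
    rw [X.eq_one_of_isUnit i hu] at h
    exact lt_irrefl _ h
  · intro h
    exact X.branch i _ h

include Hc X H in
/-- **the centre of the point on `R[W]` is the sheet point** -/
theorem val_lt_iff_point (i : ι) (x : adjSub (L.level i).R W) :
    Q₂.adicValuation (res₂ ⟨x, Hc.adjSub_le X i x x.2⟩) < 1 ↔ H.point i x = 0 := by
  obtain ⟨p, rfl⟩ := exists_evalAdj_eq (L.level i).R W x
  rw [(H.isSheetPoint i).map_evalAdj_eq_zero_iff]
  exact Hc.val_aeval_lt_iff X H i p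

include Hc X H in
theorem val_eq_one_of_point_ne (i : ι) (x : adjSub (L.level i).R W) (hx : H.point i x ≠ 0) :
    Q₂.adicValuation (res₂ ⟨x, Hc.adjSub_le X i x x.2⟩) = 1 := by
  refine le_antisymm (Hc.regular_adjSub X i x x.2) ?_
  by_contra h
  rw [not_le] at h
  exact hx ((Hc.val_lt_iff_point X H i x).mp h)

include Hc in
theorem inv_mem_of_res_ne_zero {x : F₂} (hx : x ∈ O₂) (h : res₂ ⟨x, hx⟩ ≠ 0) : x⁻¹ ∈ O₂ := by
  have h1 : x ∉ O₂.nonunits := fun hn => h (Hc.res_nonunits ⟨x, hx⟩ hn)
  rw [ValuationSubring.mem_nonunits_iff, not_lt] at h1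
  have h2 : O₂.valuation x ≤ 1 := (ValuationSubring.valuation_le_one_iff _ _).mpr hx
  have h3 : O₂.valuation x = 1 := le_antisymm h2 h1
  rw [← ValuationSubring.valuation_le_one_iff, map_inv₀, h3, inv_one]

include Hc X H in
/-- **the local rings of the split sheet lie in the valuation ring of the component** -/
theorem ring_le (i : ι) : ∀ y ∈ H.ring i, y ∈ O₂ := by
  intro y hy
  obtain ⟨a, b, hb, hab⟩ := (mem_splitRing_iff (H.point i)).mp hy
  have hb1 := Hc.val_eq_one_of_point_ne X H i b hb
  have hb0 : res₂ ⟨b, Hc.adjSub_le X i b b.2⟩ ≠ 0 := by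
    intro h0
    rw [h0, map_zero] at hb1
    exact zero_ne_one hb1
  have hbinv := Hc.inv_mem_of_res_ne_zero _ hb0
  have hbne : (b : F₂) ≠ 0 := by
    intro h0
    apply hb0
    have : (⟨(b : F₂), Hc.adjSub_le X i b b.2⟩ : O₂) = 0 := Subtype.ext h0
    rw [this, map_zero]
  have e : y = (a : F₂) * (b : F₂)⁻¹ := by
    rw [← hab, mul_assoc, mul_inv_cancel₀ hbne, mul_one]
  rw [e]
  exact O₂.mul_mem _ _ (Hc.adjSub_le X i a a.2) hbinv

include Hc X H in
/-- **the non-units of the local rings of the split sheet vanish at the point** -/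
theorem ring_branch (i : ι) (y : H.ring i) (hy : ¬ IsUnit y) :
    Q₂.adicValuation (res₂ ⟨y, Hc.ring_le X H i y y.2⟩) < 1 := by
  obtain ⟨a, b, hb, hab⟩ := (mem_splitRing_iff (H.point i)).mp y.2
  have hb1 := Hc.val_eq_one_of_point_ne X H i b hb
  have ha : H.point i a = 0 := by
    by_contra ha
    apply hy
    have hau : IsUnit (adjToSplit (H.point i) a) := (isUnit_adjToSplit_iff _ a).mpr ha
    have hyab : (show splitRing (H.point i) from y) * adjToSplit (H.point i) b =
        adjToSplit (H.point i) a := Subtype.ext hab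
    rw [← hyab] at hau
    exact isUnit_of_mul_isUnit_left hau
  have ha1 := (Hc.val_lt_iff_point X H i a).mpr ha
  have e : (⟨(y : F₂), Hc.ring_le X H i y y.2⟩ : O₂) * ⟨b, Hc.adjSub_le X i b b.2⟩ =
      ⟨a, Hc.adjSub_le X i a a.2⟩ := Subtype.ext hab
  have h3 := congrArg (fun z => Q₂.adicValuation (res₂ z)) e
  simp only [map_mul] at h3
  rw [hb1, mul_one] at h3
  rw [h3]
  exact ha1

include Hc X H in
/-- **A7, branch side**: the branch data of the levels of the split sheet on the component
`(O₂, res₂)` of the cover, at the point `Q₂` over `Q`. -/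
theorem branchComp : BranchComp π O₂ res₂ Q₂ H.levels where
  le i := Hc.ring_le X H i
  branch i y hy := Hc.ring_branch X H i y hy
  const_mem a := by
    rw [IsScalarTower.algebraMap_apply K F F₂]
    exact Hc.map_mem _ (X.const_mem a)
  const a := by
    have e : (⟨algebraMap K F₂ (a : K), by
        rw [IsScalarTower.algebraMap_apply K F F₂]
        exact Hc.map_mem _ (X.const_mem a)⟩ : O₂) =
        ⟨algebraMap F F₂ (algebraMap K F (a : K)), Hc.map_mem _ (X.const_mem a)⟩ :=
      Subtype.ext (IsScalarTower.algebraMap_apply K F F₂ _)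
    rw [e, Hc.res_map _ (X.const_mem a), X.const a, ← IsScalarTower.algebraMap_apply k Ft Ft₂]

include Hc X H in
/-- a uniformizer at the branch, from a level of the base, stays a uniformizer at the point of
the cover when the point is unramified -/
theorem unif (hord : ∀ g : Ft, Q₂.ord (algebraMap Ft Ft₂ g) = Q.ord g)
    (h : ∃ i, ∃ t : (L.level i).R, Q.ord (res ⟨t, X.le i t t.2⟩) = 1) :
    ∃ i, ∃ t : (H.levels.level i).R,
      Q₂.ord (res₂ ⟨t, (Hc.branchComp X H).le i t t.2⟩) = 1 := by
  obtain ⟨i, t, ht⟩ := h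
  refine ⟨i, ⟨algebraMap F F₂ (t : F), H.map_mem_ring i t.2⟩, ?_⟩
  have e := Hc.res_map _ (X.le i t t.2)
  show Q₂.ord (res₂ ⟨algebraMap F F₂ (t : F), _⟩) = 1
  rw [e, hord, ht]

include Hc in
/-- a function vanishing identically on the component of the base vanishes identically on the
component of the cover -/
theorem nonunits_map (hres0 : ∀ x : O, (x : F) ∈ O.nonunits → res x = 0) {y : F}
    (hy : y ∈ O.nonunits) : algebraMap F F₂ y ∈ O₂.nonunits := by
  have hyO : y ∈ O := O.nonunits_subset hy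
  have h0 : res₂ ⟨algebraMap F F₂ y, Hc.map_mem y hyO⟩ = 0 := by
    rw [Hc.res_map y hyO, hres0 ⟨y, hyO⟩ hy, map_zero]
  by_contra hn
  have hinv : (algebraMap F F₂ y)⁻¹ ∈ O₂ := by
    rw [ValuationSubring.mem_nonunits_iff, not_lt] at hn
    have h2 : O₂.valuation (algebraMap F F₂ y) ≤ 1 :=
      (ValuationSubring.valuation_le_one_iff _ _).mpr (Hc.map_mem y hyO)
    have h3 : O₂.valuation (algebraMap F F₂ y) = 1 := le_antisymm h2 hn
    rw [← ValuationSubring.valuation_le_one_iff, map_inv₀, h3, inv_one]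
  have hne : algebraMap F F₂ y ≠ 0 := by
    intro h
    apply hn
    rw [h, ValuationSubring.mem_nonunits_iff, map_zero]
    exact zero_lt_one
  have e : (⟨algebraMap F F₂ y, Hc.map_mem y hyO⟩ : O₂) * ⟨(algebraMap F F₂ y)⁻¹, hinv⟩ = 1 :=
    Subtype.ext (mul_inv_cancel₀ hne)
  have h1 := congrArg res₂ e
  rw [map_mul, h0, zero_mul, map_one] at h1
  exact zero_ne_one h1

end CoverComp

end Cover

end Fermat.Agent.BR3.SplitBranch
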