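/-
Program C (S36), node A7 COVER-NODE-SPLIT, part 6 (helper19): the K-level NODE CHART of a node
from a family of levels of its tube and the branch data on the two components.

* `trace X i` : the trace on the level `i` of the maximal ideal of the valuation ring of a
  component; `trace_eq_p2` / `trace_eq_p1` : it is the vertical prime `p2` (resp. `p1`) of the
  level as soon as `u ≢ 0` (resp. `v ≢ 0`) on the component (Krull's principal ideal theorem,
  `NodeLevel.vertical` and the Nakayama sandwich `EtaleLocal.eq_of_le_of_notMem`);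
* `u_notMem_nonunits_of_unif` / `v_notMem_nonunits_of_unif` : `u ≢ 0` from `v ≡ 0` and a
  uniformizer at the branch coming from a level;
* `hvert_of_comps` : the hypothesis `hvert` of helper8's
  `NodeChartOfLevels.nodeLevels_of_annulusLevels`; **`nodeLevelsOfComps`** :
  `S0.NodeLevels A O₁ O₂ res₁ res₂ Q₁ Q₂ T (fun i => (L.level i).R)` and
  **`nodeChartOfComps : S0.NodeChart A O₁ O₂ res₁ res₂ Q₁ Q₂ T`** (the input `chart` of
  `MultiInput.ofNodeCharts`; it IS helper8's `NodeChartOfLevels.nodeChartOfLevels`),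
  `nodeChartOfComps_R`, `mem_nodeChartOfComps_R_iff`;
* **`splitNodeChart`** : the node chart of the split sheet `W ≡ c₀` of a cover over a node
  (`H : SheetHyp L W c₀`, `BR3/SplitLevels`; `CoverComp`, `BR3/SplitBranch`), on the tube
  `coverTube A T W c₀`;
* bridge to helper14's `CircleN.BranchDataN` : `branchComp_src`, `branchComp_tgt`,
  `branchDataN_of_comps`, `nodeChartOfBranchData`.
-/
import Mathlib
import Fermat.Agent.BR3.SplitBranch
import Fermat.Agent.BR3.CircleN.OfLevels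
import Fermat.Agent.BR3.NodeChartOfLevels

set_option autoImplicit false
set_option linter.unusedSectionVars false
set_option linter.style.haveILetI false

noncomputable section

namespace Fermat.Agent.BR3.SplitNodeChart

open IsLocalRing AlgebraicCurve Fermat.Agent.Red Fermat.Agent.BR.Centre
  Fermat.Agent.BR.S0 Fermat.Agent.BR3.EtaleLocal
  Fermat.Agent.BR3.SplitLevel Fermat.Agent.BR3.SplitBranch

attribute [local instance] NodeLevel.isLocal NodeLevel.noeth NodeLevel.intClosed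

section Comp

variable {K F k : Type*} [Field K] [Field F] [Field k] [Algebra K F]
  {Ft : Type*} [Field Ft] [Algebra k Ft]
  {A : ValuationSubring K} {T : Set (Place K F)} {ι : Type*}
  {π : A →+* k} {O : ValuationSubring F} {res : O →+* Ft} {Q : Place k Ft}
  {L : AnnulusLevels A T ι} (X : BranchComp π O res Q L)

/-- the trace on a level of the maximal ideal of the valuation ring of a component -/
def trace (i : ι) : Ideal (L.level i).R :=
  Ideal.comap (Subring.inclusion (fun y hy => X.le i y hy :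
    (L.level i).R ≤ O.toSubring)) (maximalIdeal O)

theorem mem_trace_iff (i : ι) (x : (L.level i).R) : x ∈ trace X i ↔ (x : F) ∈ O.nonunits := by
  unfold trace
  rw [Ideal.mem_comap, ← ValuationSubring.coe_mem_nonunits_iff]
  rfl

instance trace_isPrime (i : ι) : (trace X i).IsPrime := by
  unfold trace
  exact Ideal.IsPrime.comap _

include X in
/-- a function with nonzero reduction is a unit of the valuation ring -/
theorem notMem_nonunits_of_res_ne_zero (hres0 : ∀ x : O, (x : F) ∈ O.nonunits → res x = 0)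
    {y : F} (hy : y ∈ O) (h : res ⟨y, hy⟩ ≠ 0) : y ∉ O.nonunits :=
  fun hn => h (hres0 ⟨y, hy⟩ hn)

include X in
/-- a function with zero reduction is a non-unit of the valuation ring -/
theorem mem_nonunits_of_res_eq_zero {y : F} (hy : y ∈ O) (h : res ⟨y, hy⟩ = 0) :
    y ∈ O.nonunits := by
  by_contra hn
  have hinv : y⁻¹ ∈ O := by
    rw [ValuationSubring.mem_nonunits_iff, not_lt] at hn
    have h2 : O.valuation y ≤ 1 := (ValuationSubring.valuation_le_one_iff _ _).mpr hy
    have h3 : O.valuation y = 1 := le_antisymm h2 hn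
    rw [← ValuationSubring.valuation_le_one_iff, map_inv₀, h3, inv_one]
  have hne : y ≠ 0 := by
    intro h0
    apply hn
    rw [h0, ValuationSubring.mem_nonunits_iff, map_zero]
    exact zero_lt_one
  have e : (⟨y, hy⟩ : O) * ⟨y⁻¹, hinv⟩ = 1 := Subtype.ext (mul_inv_cancel₀ hne)
  have h1 := congrArg res e
  rw [map_mul, h, zero_mul, map_one] at h1
  exact zero_ne_one h1

include X in
/-- the uniformizers of the levels vanish identically on the component -/
theorem unif_mem_nonunits (hπ0 : ∀ a : A, A.valuation (a : K) < 1 → π a = 0) (i : ι) :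
    algebraMap K F (L.level i).ϖ ∈ O.nonunits := by
  have hA : (L.level i).ϖ ∈ A := by
    rw [← ValuationSubring.valuation_le_one_iff]
    exact (L.level i).unif_lt.le
  have h := X.const ⟨(L.level i).ϖ, hA⟩
  rw [hπ0 ⟨(L.level i).ϖ, hA⟩ (L.level i).unif_lt, map_zero] at h
  exact mem_nonunits_of_res_eq_zero X _ h

include X in
/-- **the trace of a component on which `v ≡ 0` and `u ≢ 0` is the vertical prime `p2`** -/
theorem trace_eq_p2 (hπ0 : ∀ a : A, A.valuation (a : K) < 1 → π a = 0)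
    (hu : L.u ∉ O.nonunits) (i : ι) : trace X i = (L.level i).p2 := by
  set NL := L.level i with hNL
  have hϖq : ϖR NL ∈ trace X i := (mem_trace_iff X i _).mpr (unif_mem_nonunits X hπ0 i)
  have huq : uR NL ∉ trace X i := fun h => hu ((mem_trace_iff X i _).mp h)
  -- a minimal prime over `(ϖ)` inside the trace
  have hle : Ideal.span {ϖR NL} ≤ trace X i := by
    rw [Ideal.span_singleton_le_iff_mem]
    exact hϖq
  obtain ⟨m, hm, hmq⟩ := Ideal.exists_minimalPrimes_le hle
  haveI hmp : m.IsPrime := hm.1.1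
  have hϖm : ϖR NL ∈ m := hm.1.2 (Ideal.mem_span_singleton_self _)
  have hht1 : m.height ≤ 1 :=
    Ideal.height_le_one_of_isPrincipal_of_mem_minimalPrimes (Ideal.span {ϖR NL}) m hm
  have hϖ0 : ϖR NL ≠ 0 := by
    intro h0
    have h1 := congrArg (fun z : NL.R => (z : F)) h0
    simp only [ZeroMemClass.coe_zero] at h1
    exact NL.unif_ne ((map_eq_zero _).mp h1)
  have hht0 : m.height ≠ 0 := by
    intro h0
    rw [Ideal.height_eq_zero_iff, IsDomain.minimalPrimes_eq_singleton_bot,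
      Set.mem_singleton_iff] at h0
    rw [h0, Ideal.mem_bot] at hϖm
    exact hϖ0 hϖm
  have hht : m.height = 1 := le_antisymm hht1 (Order.one_le_iff_ne_zero.mpr hht0)
  rcases NL.vertical m hmp hht hϖm with h1 | h2
  · exact absurd (hmq (h1 ▸ NL.u_mem_p1)) huq
  · exact eq_of_le_of_notMem (uR_mem_maximalIdeal NL) (maximalIdeal_le_p2_sup NL)
      (trace_isPrime X i) (h2 ▸ hmq) huq

include X in
/-- **the trace of a component on which `u ≡ 0` and `v ≢ 0` is the vertical prime `p1`** -/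
theorem trace_eq_p1 (hπ0 : ∀ a : A, A.valuation (a : K) < 1 → π a = 0)
    (hv : L.v ∉ O.nonunits) (i : ι) : trace X i = (L.level i).p1 := by
  set NL := L.level i with hNL
  have hϖq : ϖR NL ∈ trace X i := (mem_trace_iff X i _).mpr (unif_mem_nonunits X hπ0 i)
  have hvq : vR NL ∉ trace X i := fun h => hv ((mem_trace_iff X i _).mp h)
  have hle : Ideal.span {ϖR NL} ≤ trace X i := by
    rw [Ideal.span_singleton_le_iff_mem]
    exact hϖq
  obtain ⟨m, hm, hmq⟩ := Ideal.exists_minimalPrimes_le hle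
  haveI hmp : m.IsPrime := hm.1.1
  have hϖm : ϖR NL ∈ m := hm.1.2 (Ideal.mem_span_singleton_self _)
  have hht1 : m.height ≤ 1 :=
    Ideal.height_le_one_of_isPrincipal_of_mem_minimalPrimes (Ideal.span {ϖR NL}) m hm
  have hϖ0 : ϖR NL ≠ 0 := by
    intro h0
    have h1 := congrArg (fun z : NL.R => (z : F)) h0
    simp only [ZeroMemClass.coe_zero] at h1
    exact NL.unif_ne ((map_eq_zero _).mp h1)
  have hht0 : m.height ≠ 0 := by
    intro h0
    rw [Ideal.height_eq_zero_iff, IsDomain.minimalPrimes_eq_singleton_bot,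
      Set.mem_singleton_iff] at h0
    rw [h0, Ideal.mem_bot] at hϖm
    exact hϖ0 hϖm
  have hht : m.height = 1 := le_antisymm hht1 (Order.one_le_iff_ne_zero.mpr hht0)
  rcases NL.vertical m hmp hht hϖm with h1 | h2
  · exact eq_of_le_of_notMem (vR_mem_maximalIdeal NL) (maximalIdeal_le_p1_sup NL)
      (trace_isPrime X i) (h1 ▸ hmq) hvq
  · exact absurd (hmq (h2 ▸ NL.v_mem_p2)) hvq

include X in
/-- a uniformizer at the branch coming from a level excludes that the whole maximal ideal of the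
level vanishes identically on the component: if `v ≡ 0` on the component then `u ≢ 0` -/
theorem u_notMem_nonunits_of_unif (hres0 : ∀ x : O, (x : F) ∈ O.nonunits → res x = 0)
    (hπ0 : ∀ a : A, A.valuation (a : K) < 1 → π a = 0) (hv : L.v ∈ O.nonunits)
    (hunif : ∃ i, ∃ t : (L.level i).R, Q.ord (res ⟨t, X.le i t t.2⟩) = 1) :
    L.u ∉ O.nonunits := by
  intro hu
  obtain ⟨i, t, ht⟩ := hunif
  have hall : ∀ y : (L.level i).R, ¬ IsUnit y → y ∈ trace X i := by
    intro y hy
    have h1 := (L.level i).nonunit_mem y hy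
    have h2 : Ideal.span {ϖR (L.level i), uR (L.level i), vR (L.level i)} ≤ trace X i := by
      rw [Ideal.span_le]
      rintro x (rfl | rfl | rfl)
      · exact (mem_trace_iff X i _).mpr (unif_mem_nonunits X hπ0 i)
      · exact (mem_trace_iff X i _).mpr hu
      · exact (mem_trace_iff X i _).mpr hv
    exact h2 h1
  obtain ⟨a, ha, hnu⟩ := (L.level i).residue t
  have h3 := (mem_trace_iff X i _).mp (hall _ hnu)
  have h4 : res ⟨((t - ⟨algebraMap K F a, ha⟩ : (L.level i).R) : F), X.le i _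
      (t - ⟨algebraMap K F a, ha⟩ : (L.level i).R).2⟩ = 0 := hres0 _ h3
  have e : (⟨(t : F), X.le i t t.2⟩ : O) =
      ⟨((t - ⟨algebraMap K F a, ha⟩ : (L.level i).R) : F), X.le i _
        (t - ⟨algebraMap K F a, ha⟩ : (L.level i).R).2⟩ +
      ⟨algebraMap K F a, X.const_mem a⟩ := by
    apply Subtype.ext
    show (t : F) = ((t : F) - algebraMap K F a) + algebraMap K F a
    ring
  rw [e, map_add, h4, zero_add, X.const a] at ht
  have h5 : algebraMap k Ft (π a) ≠ 0 := by
    intro h0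
    rw [h0, Place.ord_zero] at ht
    exact zero_ne_one ht
  have h6 : π a ≠ 0 := fun h0 => h5 (by rw [h0, map_zero])
  have h7 : Q.adicValuation (algebraMap k Ft (π a)) < 1 := by
    rw [adicValuation_lt_one_iff]
    right
    rw [ht]
    exact zero_lt_one
  rw [adicValuation_algebraMap_of_ne_zero Q h6] at h7
  exact lt_irrefl _ h7

include X in
/-- a uniformizer at the branch coming from a level excludes that the whole maximal ideal of the
level vanishes identically on the component: if `u ≡ 0` on the component then `v ≢ 0` -/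
theorem v_notMem_nonunits_of_unif (hres0 : ∀ x : O, (x : F) ∈ O.nonunits → res x = 0)
    (hπ0 : ∀ a : A, A.valuation (a : K) < 1 → π a = 0) (hu : L.u ∈ O.nonunits)
    (hunif : ∃ i, ∃ t : (L.level i).R, Q.ord (res ⟨t, X.le i t t.2⟩) = 1) :
    L.v ∉ O.nonunits := by
  intro hv
  obtain ⟨i, t, ht⟩ := hunif
  have hall : ∀ y : (L.level i).R, ¬ IsUnit y → y ∈ trace X i := by
    intro y hy
    have h1 := (L.level i).nonunit_mem y hy
    have h2 : Ideal.span {ϖR (L.level i), uR (L.level i), vR (L.level i)} ≤ trace X i := by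
      rw [Ideal.span_le]
      rintro x (rfl | rfl | rfl)
      · exact (mem_trace_iff X i _).mpr (unif_mem_nonunits X hπ0 i)
      · exact (mem_trace_iff X i _).mpr hu
      · exact (mem_trace_iff X i _).mpr hv
    exact h2 h1
  obtain ⟨a, ha, hnu⟩ := (L.level i).residue t
  have h3 := (mem_trace_iff X i _).mp (hall _ hnu)
  have h4 : res ⟨((t - ⟨algebraMap K F a, ha⟩ : (L.level i).R) : F), X.le i _
      (t - ⟨algebraMap K F a, ha⟩ : (L.level i).R).2⟩ = 0 := hres0 _ h3
  have e : (⟨(t : F), X.le i t t.2⟩ : O) =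
      ⟨((t - ⟨algebraMap K F a, ha⟩ : (L.level i).R) : F), X.le i _
        (t - ⟨algebraMap K F a, ha⟩ : (L.level i).R).2⟩ +
      ⟨algebraMap K F a, X.const_mem a⟩ := by
    apply Subtype.ext
    show (t : F) = ((t : F) - algebraMap K F a) + algebraMap K F a
    ring
  rw [e, map_add, h4, zero_add, X.const a] at ht
  have h5 : algebraMap k Ft (π a) ≠ 0 := by
    intro h0
    rw [h0, Place.ord_zero] at ht
    exact zero_ne_one ht
  have h6 : π a ≠ 0 := fun h0 => h5 (by rw [h0, map_zero])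
  have h7 : Q.adicValuation (algebraMap k Ft (π a)) < 1 := by
    rw [adicValuation_lt_one_iff]
    right
    rw [ht]
    exact zero_lt_one
  rw [adicValuation_algebraMap_of_ne_zero Q h6] at h7
  exact lt_irrefl _ h7

end Comp

/-! ### The node chart -/

section Chart

variable {K F k : Type*} [Field K] [Field F] [Field k] [Algebra K F]
  {Ft₁ Ft₂ : Type*} [Field Ft₁] [Algebra k Ft₁] [Field Ft₂] [Algebra k Ft₂]
  {A : ValuationSubring K} {T : Set (Place K F)} {ι : Type*}
  {π : A →+* k} {O₁ O₂ : ValuationSubring F} {res₁ : O₁ →+* Ft₁} {res₂ : O₂ →+* Ft₂}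
  {Q₁ : Place k Ft₁} {Q₂ : Place k Ft₂}
  {L : AnnulusLevels A T ι}

/-- the vertical primes of the levels are the traces of the two components: hypothesis `hvert` of
helper8's `NodeChartOfLevels.nodeLevels_of_annulusLevels` -/
theorem hvert_of_comps (X₁ : BranchComp π O₁ res₁ Q₁ L) (X₂ : BranchComp π O₂ res₂ Q₂ L)
    (hπ0 : ∀ a : A, A.valuation (a : K) < 1 → π a = 0)
    (hu₁ : L.u ∉ O₁.nonunits) (hv₂ : L.v ∉ O₂.nonunits) (i : ι) :
    ((∀ x : (L.level i).R, x ∈ (L.level i).p1 ↔ (x : F) ∈ O₁.nonunits) ∧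
      (∀ x : (L.level i).R, x ∈ (L.level i).p2 ↔ (x : F) ∈ O₂.nonunits)) ∨
    ((∀ x : (L.level i).R, x ∈ (L.level i).p1 ↔ (x : F) ∈ O₂.nonunits) ∧
      (∀ x : (L.level i).R, x ∈ (L.level i).p2 ↔ (x : F) ∈ O₁.nonunits)) := by
  right
  constructor
  · intro x
    rw [← trace_eq_p1 X₂ hπ0 hv₂ i, mem_trace_iff]
  · intro x
    rw [← trace_eq_p2 X₁ hπ0 hu₁ i, mem_trace_iff]

theorem const_le_one (X₁ : BranchComp π O₁ res₁ Q₁ L) (a : K) (ha : a ∈ A)
    (h : algebraMap K F a ∈ O₁) : Q₁.adicValuation (res₁ ⟨algebraMap K F a, h⟩) ≤ 1 := by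
  have := X₁.const ⟨a, ha⟩
  rw [show (⟨algebraMap K F a, h⟩ : O₁) = ⟨algebraMap K F a, X₁.const_mem ⟨a, ha⟩⟩ from rfl,
    this]
  exact Q₁.adicValuation_algebraMap_le_one _

/-- **The finite levels of a node from a family of levels of its tube and the branch data on the
two components**: `v ≡ 0`, `u ≢ 0` on the first component, `u ≡ 0`, `v ≢ 0` on the second. -/
theorem nodeLevelsOfComps (X₁ : BranchComp π O₁ res₁ Q₁ L) (X₂ : BranchComp π O₂ res₂ Q₂ L)
    (hπ0 : ∀ a : A, A.valuation (a : K) < 1 → π a = 0)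
    (hu₁ : L.u ∉ O₁.nonunits) (hv₂ : L.v ∉ O₂.nonunits) :
    NodeLevels A O₁ O₂ res₁ res₂ Q₁ Q₂ T (fun i => (L.level i).R) :=
  NodeChartOfLevels.nodeLevels_of_annulusLevels L O₁ O₂ res₁ res₂ Q₁ Q₂ X₁.le X₂.le
    (hvert_of_comps X₁ X₂ hπ0 hu₁ hv₂) X₁.branch X₂.branch (const_le_one X₁)

/-- **The node chart over `A` of a family of levels with branch data on the two components**
(helper8's `NodeChartOfLevels.nodeChartOfLevels` with `hvert` discharged). -/
def nodeChartOfComps (X₁ : BranchComp π O₁ res₁ Q₁ L) (X₂ : BranchComp π O₂ res₂ Q₂ L)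
    (hπ0 : ∀ a : A, A.valuation (a : K) < 1 → π a = 0)
    (hu₁ : L.u ∉ O₁.nonunits) (hv₂ : L.v ∉ O₂.nonunits) :
    NodeChart A O₁ O₂ res₁ res₂ Q₁ Q₂ T :=
  NodeChartOfLevels.nodeChartOfLevels L O₁ O₂ res₁ res₂ Q₁ Q₂ X₁.le X₂.le
    (hvert_of_comps X₁ X₂ hπ0 hu₁ hv₂) X₁.branch X₂.branch (const_le_one X₁)

theorem nodeChartOfComps_R (X₁ : BranchComp π O₁ res₁ Q₁ L) (X₂ : BranchComp π O₂ res₂ Q₂ L)
    (hπ0 : ∀ a : A, A.valuation (a : K) < 1 → π a = 0)
    (hu₁ : L.u ∉ O₁.nonunits) (hv₂ : L.v ∉ O₂.nonunits) :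
    (nodeChartOfComps X₁ X₂ hπ0 hu₁ hv₂).R = ⨆ i, (L.level i).R := rfl

theorem mem_nodeChartOfComps_R_iff (X₁ : BranchComp π O₁ res₁ Q₁ L)
    (X₂ : BranchComp π O₂ res₂ Q₂ L)
    (hπ0 : ∀ a : A, A.valuation (a : K) < 1 → π a = 0)
    (hu₁ : L.u ∉ O₁.nonunits) (hv₂ : L.v ∉ O₂.nonunits) (y : F) :
    y ∈ (nodeChartOfComps X₁ X₂ hπ0 hu₁ hv₂).R ↔ ∃ i, y ∈ (L.level i).R :=
  (nodeLevelsOfComps X₁ X₂ hπ0 hu₁ hv₂).mem_union

end Chart

/-! ### The node chart of the split sheet -/

section Split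

open Fermat.Agent.BR3.SplitLevels Fermat.Agent.BR3.CoverSmooth

variable {K F F₂ k : Type*} [Field K] [Field F] [Field F₂] [Field k] [Algebra K F]
  [Algebra K F₂] [Algebra F F₂] [IsScalarTower K F F₂] [Algebra.IsIntegral F F₂] [CharZero F₂]
  {Ft₁ Ft₂ Ft₁' Ft₂' : Type*} [Field Ft₁] [Field Ft₂] [Field Ft₁'] [Field Ft₂']
  [Algebra k Ft₁] [Algebra k Ft₂] [Algebra k Ft₁'] [Algebra k Ft₂']
  [Algebra Ft₁ Ft₁'] [Algebra Ft₂ Ft₂'] [IsScalarTower k Ft₁ Ft₁'] [IsScalarTower k Ft₂ Ft₂']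
  {A : ValuationSubring K} {T : Set (Place K F)} {ι : Type*}
  {π : A →+* k} {O₁ O₂ : ValuationSubring F} {res₁ : O₁ →+* Ft₁} {res₂ : O₂ →+* Ft₂}
  {Q₁ : Place k Ft₁} {Q₂ : Place k Ft₂}
  {O₁' O₂' : ValuationSubring F₂} {res₁' : O₁' →+* Ft₁'} {res₂' : O₂' →+* Ft₂'}
  {Q₁' : Place k Ft₁'} {Q₂' : Place k Ft₂'}
  {L : AnnulusLevels A T ι} {W : F₂} {c₀ : A}

/-- **A7, output: the node chart of the split sheet `W ≡ c₀` over a node.** Inputs: the levels
`L` of the node of the base with their branch data `X₁ X₂` on the two components, the sheet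
hypotheses `H`, and for each of the two components a component of the cover over it with an
unramified point over the branch at which `W` reduces to `π c₀`. -/
def splitNodeChart (H : SheetHyp L W c₀)
    (X₁ : BranchComp π O₁ res₁ Q₁ L) (X₂ : BranchComp π O₂ res₂ Q₂ L)
    (Hc₁ : CoverComp π O₁ res₁ Q₁ O₁' res₁' Q₁' W c₀)
    (Hc₂ : CoverComp π O₂ res₂ Q₂ O₂' res₂' Q₂' W c₀)
    (hπ0 : ∀ a : A, A.valuation (a : K) < 1 → π a = 0)
    (hres0₁ : ∀ x : O₁, (x : F) ∈ O₁.nonunits → res₁ x = 0)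
    (hres0₂ : ∀ x : O₂, (x : F) ∈ O₂.nonunits → res₂ x = 0)
    (hv₁ : L.v ∈ O₁.nonunits) (hu₂ : L.u ∈ O₂.nonunits)
    (hord₁ : ∀ g : Ft₁, Q₁'.ord (algebraMap Ft₁ Ft₁' g) = Q₁.ord g)
    (hord₂ : ∀ g : Ft₂, Q₂'.ord (algebraMap Ft₂ Ft₂' g) = Q₂.ord g)
    (unif₁ : ∃ i, ∃ t : (L.level i).R, Q₁.ord (res₁ ⟨t, X₁.le i t t.2⟩) = 1)
    (unif₂ : ∃ i, ∃ t : (L.level i).R, Q₂.ord (res₂ ⟨t, X₂.le i t t.2⟩) = 1) :
    NodeChart A O₁' O₂' res₁' res₂' Q₁' Q₂' (coverTube A T W c₀) :=
  nodeChartOfComps (Hc₁.branchComp X₁ H) (Hc₂.branchComp X₂ H) hπ0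
    (u_notMem_nonunits_of_unif (Hc₁.branchComp X₁ H) Hc₁.res_nonunits hπ0
      (Hc₁.nonunits_map hres0₁ hv₁) (Hc₁.unif X₁ H hord₁ unif₁))
    (v_notMem_nonunits_of_unif (Hc₂.branchComp X₂ H) Hc₂.res_nonunits hπ0
      (Hc₂.nonunits_map hres0₂ hu₂) (Hc₂.unif X₂ H hord₂ unif₂))

end Split

/-! ### Bridge to `CircleN.BranchDataN` -/

section BranchData

open Fermat.Agent.BR.SS Fermat.Agent.BR.Refine Fermat.Agent.BR3.CircleN

variable {K : Type} {F : Type*} [Field K] [Field F] [Algebra K F]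
  {A : ValuationSubring K} [IsAlgClosed (ResidueField A)]
  {ι₀ : Type} {Ft₀ : ι₀ → Type} [∀ v, Field (Ft₀ v)] [∀ v, Algebra (ResidueField A) (Ft₀ v)]
  {ν₀ : Type}
  {S₀ : SemistableSetup (F := F) A (residue A) ι₀ Ft₀ ν₀} {e : ν₀} {ι : Type*}
  {L : AnnulusLevels A (tube S₀ e) ι}

/-- the branch data on the component `src e` -/
theorem branchComp_src (X : BranchDataN S₀ e L) :
    BranchComp (residue A) (S₀.O (S₀.src e)) (S₀.res (S₀.src e)) (S₀.s₁ e) L where
  le := X.le₁
  branch := X.branch₁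
  const_mem a := (S₀.algebraMap_mem_iff _ _).mpr a.2
  const a := S₀.res_algebraMap _ a a.2 _

/-- the branch data on the component `tgt e` -/
theorem branchComp_tgt (X : BranchDataN S₀ e L) :
    BranchComp (residue A) (S₀.O (S₀.tgt e)) (S₀.res (S₀.tgt e)) (S₀.s₂ e) L where
  le := X.le₂
  branch := X.branch₂
  const_mem a := (S₀.algebraMap_mem_iff _ _).mpr a.2
  const a := S₀.res_algebraMap _ a a.2 _

/-- the branch data of a family of levels from the data on the two components -/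
theorem branchDataN_of_comps
    (X₁ : BranchComp (residue A) (S₀.O (S₀.src e)) (S₀.res (S₀.src e)) (S₀.s₁ e) L)
    (X₂ : BranchComp (residue A) (S₀.O (S₀.tgt e)) (S₀.res (S₀.tgt e)) (S₀.s₂ e) L)
    (v_src : L.v ∈ (S₀.O (S₀.src e)).nonunits) (u_tgt : L.u ∈ (S₀.O (S₀.tgt e)).nonunits)
    (unif₁ : ∃ i, ∃ t : (L.level i).R,
      (S₀.s₁ e).ord (S₀.res (S₀.src e) ⟨t, X₁.le i t t.2⟩) = 1)
    (unif₂ : ∃ i, ∃ t : (L.level i).R,
      (S₀.s₂ e).ord (S₀.res (S₀.tgt e) ⟨t, X₂.le i t t.2⟩) = 1)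
    (sep_comp : ∀ w, w ≠ S₀.src e → w ≠ S₀.tgt e → SepComp S₀ e w) : BranchDataN S₀ e L where
  le₁ := X₁.le
  le₂ := X₂.le
  branch₁ := X₁.branch
  branch₂ := X₂.branch
  v_src := v_src
  u_tgt := u_tgt
  unif₁ := unif₁
  unif₂ := unif₂
  sep_comp := sep_comp

theorem residue_eq_zero_of_lt (a : A) (h : A.valuation (a : K) < 1) : residue A a = 0 := by
  rw [residue_eq_zero_iff, ← ValuationSubring.coe_mem_nonunits_iff,
    ValuationSubring.mem_nonunits_iff]
  exact h

theorem res_eq_zero_of_nonunits (v : ι₀) (x : S₀.O v) (hx : (x : F) ∈ (S₀.O v).nonunits) :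
    S₀.res v x = 0 := by
  rw [S₀.res_eq_zero_iff]
  rw [ValuationSubring.coe_mem_nonunits_iff, mem_maximalIdeal, mem_nonunits_iff] at hx
  exact hx

/-- **the node chart of a node of a semistable setup from a family of levels of its tube** -/
def nodeChartOfBranchData (X : BranchDataN S₀ e L) :
    NodeChart A (S₀.O (S₀.src e)) (S₀.O (S₀.tgt e)) (S₀.res (S₀.src e)) (S₀.res (S₀.tgt e))
      (S₀.s₁ e) (S₀.s₂ e) (tube S₀ e) :=
  nodeChartOfComps (branchComp_src X) (branchComp_tgt X) residue_eq_zero_of_lt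
    (u_notMem_nonunits_of_unif (branchComp_src X) (res_eq_zero_of_nonunits _)
      residue_eq_zero_of_lt X.v_src X.unif₁)
    (v_notMem_nonunits_of_unif (branchComp_tgt X) (res_eq_zero_of_nonunits _)
      residue_eq_zero_of_lt X.u_tgt X.unif₂)

end BranchData

end Fermat.Agent.BR3.SplitNodeChart
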