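/-
Program C (S36), node (I7-SEP), abstract layer (helper12): the separation inputs of
`CircleN.AnnulusChartN` (`sep_comp`) and `CircleN.CircleInputsN` (`sep`) for a semistable setup with
ANY family of components, reduced to conditions on the residues.

`S : SS.SemistableSetup A π ι Ft ν`, `e` a node, `tube e = {P | S.r P = ⟨src e, s₁ e⟩}`.

* `NodeFun.exists_value` (**maximum principle on the tube of a node**): for `f` integral on the two
  components through `e` and without poles in the tube, with value `c` at the branch `s₁ e`, every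
  place `P` of degree one of the tube satisfies `f(P) ∈ A` and `π (f(P)) = c`. (Proof: apply
  `node_unit` to `f - f(P)`, resp. to `1 - f(P)⁻¹ f`.)
* `NodeFun.small_on_tube`, `NodeFun.unit_on_tube` : `c = 0 ⇒ |f(P)| < 1`, `c ≠ 0 ⇒ |f(P)| = 1`.
* `NodeFun S e f c` : the bundle of hypotheses on `f` (integral on `src e`, `tgt e`, no poles in the
  tube, value `c` at `s₁ e`).
* `separated_of_nodeFun` : `Circle.Separated S e e'` from ONE function with value `0` at the node `e`
  and a nonzero value at the node `e'`;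
* `sepComp_of_nodeFun` : `CircleN.SepComp S e w` from ONE function with value `0` at the node `e`
  which is a unit of `O w`.
* set level: `SepSets A T₁ T₂` (small on `T₁`, of absolute value one on `T₂`;
  `separated_iff_sepSets : Separated S₀ e e' ↔ SepSets A (tube S₀ e) (tube S₀ e')` by `Iff.rfl`),
  `SepSetVal A T O` (small on `T`, a unit of the valuation ring `O`;
  `sepComp_iff_sepSetVal : SepComp S₀ e w ↔ SepSetVal A (tube S₀ e) (S₀.O w)` by `Iff.rfl`),
  `SepSets.mono`, `SepSetVal.mono`;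
* the two halves of an annulus: `sepSets_outer_inner` (`ρ / (u + ρ)`), `sepSets_inner_outer`
  (`u / (u + ρ)`), `sepSetVal_outer` (`u / ρ` a non-unit of `O`), `sepSetVal_inner` (`ρ / u` a
  non-unit of `O`);
* pull-back along a finite cover: `small_on_of_restrict`, `unit_on_of_restrict`,
  `SepSets.restrict` (instance form `[Algebra F' F'']`, `P''.restrict F'`),
  `isValueAt_restrictAlong_iff`, `SepSets.restrictAlong`, `SepSetVal.restrictAlong`
  (explicit `φ : F' →ₐ[K] F''`, `P''.restrictAlong φ hφ`; two covers `a`, `b` at once);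
* `SepSets.sepSetVal_circle` : a set separated from the tube of an annulus is separated from the
  valuation ring of each of its circles (hence, by pull-back, from the vertical component over the
  critical circle).
-/
import Mathlib
import Fermat.Agent.BR.SS.Basic
import Fermat.Agent.BR.Circle.Chart
import Fermat.Agent.BR3.CircleN.Chart
import Fermat.Agent.BR3.CoverPlaces
import Fermat.Prelude.Def_AlgebraicCurve_Correspondence

set_option autoImplicit false
set_option linter.unusedSectionVars false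
set_option linter.style.haveILetI false

namespace Fermat.Agent.BR3.SepN

open AlgebraicCurve IsLocalRing Fermat.Agent.Red Fermat.Agent.BR.SS Fermat.Agent.BR.Refine
  Fermat.Agent.BR.Circle

section Abstract

variable {K F k : Type*} [Field K] [Field F] [Algebra K F] [Field k]
  {A : ValuationSubring K} {π : A →+* k} {ι : Type*} {Ft : ι → Type*}
  [∀ v, Field (Ft v)] [∀ v, Algebra k (Ft v)] {ν : Type*}
  (S : SemistableSetup (F := F) A π ι Ft ν)

/-- The hypotheses on a function near the node `e`: integral on the two components through `e`,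
without poles in the tube, with value `c` at the branch `s₁ e`. -/
structure NodeFun (e : ν) (f : F) (c : k) : Prop where
  mem_src : f ∈ S.O (S.src e)
  mem_tgt : f ∈ S.O (S.tgt e)
  pole : ∀ P, S.r P = ⟨S.src e, S.s₁ e⟩ → 0 ≤ P.ord f
  value : IsValueAt (S.s₁ e) (S.res (S.src e) ⟨f, mem_src⟩) c

variable {S}

/-- **Maximum principle on the tube of a node**: the value of `f` at a place of the tube reduces to
the value of its residue at the branch. -/
theorem NodeFun.exists_value {e : ν} {f : F} {c : k} (hf : NodeFun S e f c)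
    {P : Place K F} (hdeg : P.deg = 1) (hP : S.r P = ⟨S.src e, S.s₁ e⟩) :
    ∃ (d : K) (hd : d ∈ A), IsValueAt P f d ∧ π ⟨d, hd⟩ = c := by
  have hmemP : f ∈ P.toValuationSubring :=
    (Fermat.Agent.X0.Place.mem_iff_ord_nonneg P).mpr (hf.pole P hP)
  have hval := isValueAt_evalAt P hdeg hmemP
  set d : K := evalAt P f with hd
  -- regularity on the tube is stable under the operations below
  have hreg : ∀ P', S.r P' = ⟨S.src e, S.s₁ e⟩ → f ∈ P'.toValuationSubring := fun P' hP' =>
    (Fermat.Agent.X0.Place.mem_iff_ord_nonneg P').mpr (hf.pole P' hP')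
  by_cases hdA : d ∈ A
  · refine ⟨d, hdA, hval, ?_⟩
    by_contra hne
    have hcm₁ : algebraMap K F d ∈ S.O (S.src e) := (S.algebraMap_mem_iff _ d).mpr hdA
    have hcm₂ : algebraMap K F d ∈ S.O (S.tgt e) := (S.algebraMap_mem_iff _ d).mpr hdA
    have hg₁ : f - algebraMap K F d ∈ S.O (S.src e) := sub_mem hf.mem_src hcm₁
    have hg₂ : f - algebraMap K F d ∈ S.O (S.tgt e) := sub_mem hf.mem_tgt hcm₂
    have hgpole : ∀ P', S.r P' = ⟨S.src e, S.s₁ e⟩ → 0 ≤ P'.ord (f - algebraMap K F d) :=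
      fun P' hP' => (Fermat.Agent.X0.Place.mem_iff_ord_nonneg P').mp
        (sub_mem (hreg P' hP') (P'.algebraMap_mem' d))
    have hres : S.res (S.src e) ⟨f - algebraMap K F d, hg₁⟩ =
        S.res (S.src e) ⟨f, hf.mem_src⟩ - algebraMap k (Ft (S.src e)) (π ⟨d, hdA⟩) := by
      rw [← S.res_algebraMap (S.src e) d hdA hcm₁, ← map_sub]
      rfl
    have hgval : IsValueAt (S.s₁ e) (S.res (S.src e) ⟨f - algebraMap K F d, hg₁⟩)
        (c - π ⟨d, hdA⟩) := by
      rw [hres]
      exact hf.value.sub (isValueAt_algebraMap _ _)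
    have h0 := S.node_unit e _ hg₁ hg₂ hgpole
      ⟨c - π ⟨d, hdA⟩, sub_ne_zero.mpr (Ne.symm hne), hgval⟩ P hP
    rcases isValueAt_iff.mp hval with heq | hpos
    · -- `f` is the constant `d`: its residue is the constant `π d`
      have hres0 : S.res (S.src e) ⟨f - algebraMap K F d, hg₁⟩ = 0 := by
        have : (⟨f - algebraMap K F d, hg₁⟩ : S.O (S.src e)) = 0 :=
          Subtype.ext (sub_eq_zero.mpr heq)
        rw [this, map_zero]
      rw [hres0] at hgval
      have h1 := hgval.unique (isValueAt_zero (S.s₁ e))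
      exact hne (sub_eq_zero.mp h1).symm
    · omega
  · exfalso
    have hd0 : d ≠ 0 := fun h => hdA (h ▸ A.zero_mem)
    have hdi : d⁻¹ ∈ A := (A.mem_or_inv_mem d).resolve_left hdA
    have hπ0 : π ⟨d⁻¹, hdi⟩ = 0 :=
      S.pi_eq_zero_of_inv_not_mem (S.src e) hdi (by simpa using hdA)
    have hcm₁ : algebraMap K F d⁻¹ ∈ S.O (S.src e) := (S.algebraMap_mem_iff _ _).mpr hdi
    have hcm₂ : algebraMap K F d⁻¹ ∈ S.O (S.tgt e) := (S.algebraMap_mem_iff _ _).mpr hdi
    have hg₁ : 1 - algebraMap K F d⁻¹ * f ∈ S.O (S.src e) :=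
      sub_mem (S.O _).one_mem ((S.O _).mul_mem _ _ hcm₁ hf.mem_src)
    have hg₂ : 1 - algebraMap K F d⁻¹ * f ∈ S.O (S.tgt e) :=
      sub_mem (S.O _).one_mem ((S.O _).mul_mem _ _ hcm₂ hf.mem_tgt)
    have hgpole : ∀ P', S.r P' = ⟨S.src e, S.s₁ e⟩ →
        0 ≤ P'.ord (1 - algebraMap K F d⁻¹ * f) :=
      fun P' hP' => (Fermat.Agent.X0.Place.mem_iff_ord_nonneg P').mp
        (sub_mem P'.toValuationSubring.one_mem
          (P'.toValuationSubring.mul_mem _ _ (P'.algebraMap_mem' _) (hreg P' hP')))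
    have hres : S.res (S.src e) ⟨1 - algebraMap K F d⁻¹ * f, hg₁⟩ = 1 := by
      have h1 : (⟨1 - algebraMap K F d⁻¹ * f, hg₁⟩ : S.O (S.src e)) =
          1 - ⟨algebraMap K F d⁻¹, hcm₁⟩ * ⟨f, hf.mem_src⟩ := rfl
      rw [h1, map_sub, map_one, map_mul, S.res_algebraMap (S.src e) _ hdi hcm₁, hπ0, map_zero,
        zero_mul, sub_zero]
    have hgval : IsValueAt (S.s₁ e) (S.res (S.src e) ⟨1 - algebraMap K F d⁻¹ * f, hg₁⟩) 1 := by
      rw [hres]
      exact isValueAt_one _
    have h0 := S.node_unit e _ hg₁ hg₂ hgpole ⟨1, one_ne_zero, hgval⟩ P hP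
    -- but `1 - d⁻¹ f` vanishes at `P`
    have hv : IsValueAt P (1 - algebraMap K F d⁻¹ * f) 0 := by
      have h1 := (isValueAt_one P).sub ((isValueAt_algebraMap P d⁻¹).mul hval)
      rwa [inv_mul_cancel₀ hd0, sub_self] at h1
    rcases isValueAt_iff.mp hv with heq | hpos
    · rw [map_zero] at heq
      have hres0 : S.res (S.src e) ⟨1 - algebraMap K F d⁻¹ * f, hg₁⟩ = 0 := by
        have : (⟨1 - algebraMap K F d⁻¹ * f, hg₁⟩ : S.O (S.src e)) = 0 := Subtype.ext heq
        rw [this, map_zero]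
      rw [hres] at hres0
      exact one_ne_zero hres0
    · rw [map_zero, sub_zero] at hpos
      omega

/-- A function with value `0` at the node is small on its tube. -/
theorem NodeFun.small_on_tube {e : ν} {f : F} (hf : NodeFun S e f 0)
    {P : Place K F} (hdeg : P.deg = 1) (hP : S.r P = ⟨S.src e, S.s₁ e⟩) :
    ∃ d : K, IsValueAt P f d ∧ A.valuation d < 1 := by
  obtain ⟨d, hd, hval, hπ⟩ := hf.exists_value hdeg hP
  refine ⟨d, hval, ?_⟩
  have h1 : (d : K) ∈ A.nonunits := (S.pi_eq_zero_iff (S.src e) ⟨d, hd⟩).mp hπ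
  exact (A.mem_nonunits_iff).mp h1

/-- A function with a nonzero value at the node has absolute value one on its tube. -/
theorem NodeFun.unit_on_tube {e : ν} {f : F} {c : k} (hf : NodeFun S e f c) (hc : c ≠ 0)
    {P : Place K F} (hdeg : P.deg = 1) (hP : S.r P = ⟨S.src e, S.s₁ e⟩) :
    ∃ d : K, IsValueAt P f d ∧ A.valuation d = 1 := by
  obtain ⟨d, hd, hval, hπ⟩ := hf.exists_value hdeg hP
  refine ⟨d, hval, ?_⟩
  have h1 : (d : K) ∉ A.nonunits := fun h =>
    hc (hπ ▸ (S.pi_eq_zero_iff (S.src e) ⟨d, hd⟩).mpr h)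
  have h2 : A.valuation d ≤ 1 := (A.valuation_le_one_iff d).mpr hd
  exact le_antisymm h2 (not_lt.mp fun hlt => h1 ((A.mem_nonunits_iff).mpr hlt))

end Abstract

/-! ### the separation inputs of `CircleN` -/

section Circle

variable {K : Type} {F : Type*} [Field K] [Field F] [Algebra K F]
  {A : ValuationSubring K}
  {ι₀ : Type} {Ft₀ : ι₀ → Type} [∀ v, Field (Ft₀ v)] [∀ v, Algebra (ResidueField A) (Ft₀ v)]
  {ν₀ : Type} {S₀ : SemistableSetup (F := F) A (residue A) ι₀ Ft₀ ν₀}

/-- **`sep` from one function**: value `0` at the node `e`, a nonzero value at the node `e'`. -/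
theorem separated_of_nodeFun (hdeg : ∀ P : Place K F, P.deg = 1) {e e' : ν₀} {f : F}
    {c : ResidueField A} (hf : NodeFun S₀ e f 0) (hf' : NodeFun S₀ e' f c) (hc : c ≠ 0) :
    Separated S₀ e e' :=
  ⟨f, fun P hP => hf.small_on_tube (hdeg P) hP, fun P hP => hf'.unit_on_tube hc (hdeg P) hP⟩

/-- **`sep_comp` from one function**: value `0` at the node `e`, a unit of the component `w`. -/
theorem sepComp_of_nodeFun (hdeg : ∀ P : Place K F, P.deg = 1) {e : ν₀} {w : ι₀} {f : F}
    (hf : NodeFun S₀ e f 0) (hw : f ∈ S₀.O w) (hu : S₀.res w ⟨f, hw⟩ ≠ 0) :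
    CircleN.SepComp S₀ e w :=
  ⟨f, fun P hP => hf.small_on_tube (hdeg P) hP, hw, by
    by_contra hnu
    exact hu ((S₀.res_eq_zero_iff w _).mpr hnu)⟩

end Circle

/-! ### separation of two sets of places, and pull-back along a finite cover -/

section Sets

variable {K : Type*} {F : Type*} [Field K] [Field F] [Algebra K F]

/-- The sets of places `T₁`, `T₂` are separated by a function: small on `T₁`, of absolute value
one on `T₂`. (`Circle.Separated S₀ e e'` is `SepSets A (tube S₀ e) (tube S₀ e')`.) -/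
def SepSets (A : ValuationSubring K) (T₁ T₂ : Set (Place K F)) : Prop :=
  ∃ f : F, (∀ P ∈ T₁, ∃ d : K, IsValueAt P f d ∧ A.valuation d < 1) ∧
    (∀ P ∈ T₂, ∃ d : K, IsValueAt P f d ∧ A.valuation d = 1)

variable {A : ValuationSubring K}

theorem SepSets.mono {T₁ T₂ U₁ U₂ : Set (Place K F)} (h : SepSets A T₁ T₂) (h₁ : U₁ ⊆ T₁)
    (h₂ : U₂ ⊆ T₂) : SepSets A U₁ U₂ := by
  obtain ⟨f, hf₁, hf₂⟩ := h
  exact ⟨f, fun P hP => hf₁ P (h₁ hP), fun P hP => hf₂ P (h₂ hP)⟩

/-- The two halves of an annulus `|ρ| ≠ |u|` are separated: `ρ / (u + ρ)` is small on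
`|ρ| < |u|` and of absolute value one on `|u| < |ρ|`. -/
theorem sepSets_outer_inner {T₁ T₂ : Set (Place K F)} (u : F) (ρ : K) (hρ : ρ ≠ 0)
    (h₁ : ∀ P ∈ T₁, ∃ c : K, IsValueAt P u c ∧ A.valuation ρ < A.valuation c)
    (h₂ : ∀ P ∈ T₂, ∃ c : K, IsValueAt P u c ∧ A.valuation c < A.valuation ρ) :
    SepSets A T₁ T₂ := by
  refine ⟨algebraMap K F ρ * (u + algebraMap K F ρ)⁻¹, fun P hP => ?_, fun P hP => ?_⟩
  · obtain ⟨c, hc, hlt⟩ := h₁ P hP
    have hv : A.valuation (c + ρ) = A.valuation c := by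
      rw [add_comm]
      exact Valuation.map_add_eq_of_lt_right _ hlt
    have hρpos : 0 < A.valuation ρ :=
      lt_of_le_of_ne zero_le ((Valuation.ne_zero_iff _).mpr hρ).symm
    have hcpos : 0 < A.valuation c := lt_trans hρpos hlt
    have hne : c + ρ ≠ 0 := by
      intro h0
      rw [h0, map_zero] at hv
      exact (ne_of_gt hcpos) hv.symm
    refine ⟨ρ * (c + ρ)⁻¹, (isValueAt_algebraMap P ρ).mul
      (Fermat.Agent.BR.Fact.isValueAt_inv_of_ne (hc.add (isValueAt_algebraMap P ρ)) hne), ?_⟩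
    rw [map_mul, map_inv₀, hv, ← div_eq_mul_inv]
    exact (div_lt_one₀ hcpos).mpr hlt
  · obtain ⟨c, hc, hlt⟩ := h₂ P hP
    have hv : A.valuation (c + ρ) = A.valuation ρ :=
      Valuation.map_add_eq_of_lt_right _ hlt
    have hρpos : 0 < A.valuation ρ :=
      lt_of_le_of_ne zero_le ((Valuation.ne_zero_iff _).mpr hρ).symm
    have hne : c + ρ ≠ 0 := by
      intro h0
      rw [h0, map_zero] at hv
      exact (ne_of_gt hρpos) hv.symm
    refine ⟨ρ * (c + ρ)⁻¹, (isValueAt_algebraMap P ρ).mul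
      (Fermat.Agent.BR.Fact.isValueAt_inv_of_ne (hc.add (isValueAt_algebraMap P ρ)) hne), ?_⟩
    rw [map_mul, map_inv₀, hv, mul_inv_cancel₀ (ne_of_gt hρpos)]

/-- The two halves of an annulus, the other way round: `u / (u + ρ)` is small on `|u| < |ρ|` and
of absolute value one on `|ρ| < |u|`. -/
theorem sepSets_inner_outer {T₁ T₂ : Set (Place K F)} (u : F) (ρ : K) (hρ : ρ ≠ 0)
    (h₁ : ∀ P ∈ T₁, ∃ c : K, IsValueAt P u c ∧ A.valuation c < A.valuation ρ)
    (h₂ : ∀ P ∈ T₂, ∃ c : K, IsValueAt P u c ∧ A.valuation ρ < A.valuation c) :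
    SepSets A T₁ T₂ := by
  refine ⟨u * (u + algebraMap K F ρ)⁻¹, fun P hP => ?_, fun P hP => ?_⟩
  · obtain ⟨c, hc, hlt⟩ := h₁ P hP
    have hv : A.valuation (c + ρ) = A.valuation ρ :=
      Valuation.map_add_eq_of_lt_right _ hlt
    have hρpos : 0 < A.valuation ρ :=
      lt_of_le_of_ne zero_le ((Valuation.ne_zero_iff _).mpr hρ).symm
    have hne : c + ρ ≠ 0 := by
      intro h0
      rw [h0, map_zero] at hv
      exact (ne_of_gt hρpos) hv.symm
    refine ⟨c * (c + ρ)⁻¹, hc.mul (Fermat.Agent.BR.Fact.isValueAt_inv_of_ne (hc.add (isValueAt_algebraMap P ρ)) hne), ?_⟩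
    rw [map_mul, map_inv₀, hv, ← div_eq_mul_inv]
    exact (div_lt_one₀ hρpos).mpr hlt
  · obtain ⟨c, hc, hlt⟩ := h₂ P hP
    have hv : A.valuation (c + ρ) = A.valuation c := by
      rw [add_comm]
      exact Valuation.map_add_eq_of_lt_right _ hlt
    have hρpos : 0 < A.valuation ρ :=
      lt_of_le_of_ne zero_le ((Valuation.ne_zero_iff _).mpr hρ).symm
    have hcpos : 0 < A.valuation c := lt_trans hρpos hlt
    have hne : c + ρ ≠ 0 := by
      intro h0
      rw [h0, map_zero] at hv
      exact (ne_of_gt hcpos) hv.symm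
    refine ⟨c * (c + ρ)⁻¹, hc.mul (Fermat.Agent.BR.Fact.isValueAt_inv_of_ne (hc.add (isValueAt_algebraMap P ρ)) hne), ?_⟩
    rw [map_mul, map_inv₀, hv, mul_inv_cancel₀ (ne_of_gt hcpos)]

end Sets

section Pullback

variable {K F' F'' : Type*} [Field K] [Field F'] [Field F''] [Algebra K F'] [Algebra K F'']
  [Algebra F' F''] [IsScalarTower K F' F''] [Algebra.IsIntegral F' F'']
  {A : ValuationSubring K}

/-- A function of `F'` which is small on `T'` is small on every set of places of `F''` lying over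
`T'`. -/
theorem small_on_of_restrict {T' : Set (Place K F')} {T'' : Set (Place K F'')}
    (hT : ∀ P'' ∈ T'', P''.restrict F' ∈ T') {f : F'}
    (hf : ∀ P ∈ T', ∃ d : K, IsValueAt P f d ∧ A.valuation d < 1) :
    ∀ P'' ∈ T'', ∃ d : K, IsValueAt P'' (algebraMap F' F'' f) d ∧ A.valuation d < 1 := by
  intro P'' hP''
  obtain ⟨d, hd, hlt⟩ := hf _ (hT P'' hP'')
  exact ⟨d, (CoverPlaces.isValueAt_restrict_iff P'' f d).mp hd, hlt⟩

/-- A function of `F'` of absolute value one on `T'` is of absolute value one on every set of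
places of `F''` lying over `T'`. -/
theorem unit_on_of_restrict {T' : Set (Place K F')} {T'' : Set (Place K F'')}
    (hT : ∀ P'' ∈ T'', P''.restrict F' ∈ T') {f : F'}
    (hf : ∀ P ∈ T', ∃ d : K, IsValueAt P f d ∧ A.valuation d = 1) :
    ∀ P'' ∈ T'', ∃ d : K, IsValueAt P'' (algebraMap F' F'' f) d ∧ A.valuation d = 1 := by
  intro P'' hP''
  obtain ⟨d, hd, hlt⟩ := hf _ (hT P'' hP'')
  exact ⟨d, (CoverPlaces.isValueAt_restrict_iff P'' f d).mp hd, hlt⟩

/-- **Pull-back of a separation**: sets of places of `F''` lying over separated sets of places of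
`F'` are separated. -/
theorem SepSets.restrict {T₁' T₂' : Set (Place K F')} {T₁'' T₂'' : Set (Place K F'')}
    (h : SepSets A T₁' T₂') (h₁ : ∀ P'' ∈ T₁'', P''.restrict F' ∈ T₁')
    (h₂ : ∀ P'' ∈ T₂'', P''.restrict F' ∈ T₂') : SepSets A T₁'' T₂'' := by
  obtain ⟨f, hf₁, hf₂⟩ := h
  exact ⟨algebraMap F' F'' f, small_on_of_restrict h₁ hf₁, unit_on_of_restrict h₂ hf₂⟩

end Pullback

/-! ### the same along an explicit embedding `φ : F' →ₐ[K] F''` (two covers `a`, `b` at once) -/

section Along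

variable {K F' F'' : Type*} [Field K] [Field F'] [Field F''] [Algebra K F'] [Algebra K F'']
  {A : ValuationSubring K}

/-- The value of `φ y` at `P''` is the value of `y` at the place under `P''` along `φ`. -/
theorem isValueAt_restrictAlong_iff (φ : F' →ₐ[K] F'') (hφ : φ.toRingHom.IsIntegral)
    (P'' : Place K F'') (y : F') (c : K) :
    IsValueAt (P''.restrictAlong φ hφ) y c ↔ IsValueAt P'' (φ y) c := by
  letI := algebraAlong φ
  haveI := isScalarTower_along φ
  haveI := isIntegral_along φ hφ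
  exact CoverPlaces.isValueAt_restrict_iff P'' y c

/-- **Pull-back of a separation along `φ`.** -/
theorem SepSets.restrictAlong (φ : F' →ₐ[K] F'') (hφ : φ.toRingHom.IsIntegral)
    {T₁' T₂' : Set (Place K F')} {T₁'' T₂'' : Set (Place K F'')}
    (h : SepSets A T₁' T₂') (h₁ : ∀ P'' ∈ T₁'', P''.restrictAlong φ hφ ∈ T₁')
    (h₂ : ∀ P'' ∈ T₂'', P''.restrictAlong φ hφ ∈ T₂') : SepSets A T₁'' T₂'' := by
  obtain ⟨f, hf₁, hf₂⟩ := h
  refine ⟨φ f, fun P'' hP'' => ?_, fun P'' hP'' => ?_⟩
  · obtain ⟨d, hd, hlt⟩ := hf₁ _ (h₁ P'' hP'')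
    exact ⟨d, (isValueAt_restrictAlong_iff φ hφ P'' f d).mp hd, hlt⟩
  · obtain ⟨d, hd, hlt⟩ := hf₂ _ (h₂ P'' hP'')
    exact ⟨d, (isValueAt_restrictAlong_iff φ hφ P'' f d).mp hd, hlt⟩

/-- The set of places `T` is separated from the valuation ring `O` (a component) by a function:
small on `T`, a unit of `O`. (`CircleN.SepComp S₀ e w` is `SepSetVal A (tube S₀ e) (S₀.O w)`.) -/
def SepSetVal (A : ValuationSubring K) (T : Set (Place K F'')) (O : ValuationSubring F'') : Prop :=
  ∃ f : F'', (∀ P ∈ T, ∃ d : K, IsValueAt P f d ∧ A.valuation d < 1) ∧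
    ∃ h : f ∈ O, IsUnit (⟨f, h⟩ : O)

theorem SepSetVal.mono {T U : Set (Place K F'')} {O : ValuationSubring F''}
    (h : SepSetVal A T O) (hU : U ⊆ T) : SepSetVal A U O := by
  obtain ⟨f, hf, hu⟩ := h
  exact ⟨f, fun P hP => hf P (hU hP), hu⟩

/-- Units of a valuation subring, elementwise. -/
theorem isUnit_subtype_iff {O : ValuationSubring F''} {f : F''} (h : f ∈ O) :
    IsUnit (⟨f, h⟩ : O) ↔ f ∉ O.nonunits := by
  have h1 := ValuationSubring.mem_nonunits_iff_exists_mem_maximalIdeal (A := O) (a := f)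
  constructor
  · intro hu hn
    obtain ⟨ha, hm⟩ := h1.mp hn
    exact (IsLocalRing.mem_maximalIdeal _).mp hm hu
  · intro hn
    by_contra hu
    exact hn (h1.mpr ⟨h, (IsLocalRing.mem_maximalIdeal _).mpr hu⟩)

/-- **Pull-back of the separation of a set from a component along `φ`**: `O''` lies over `O'`. -/
theorem SepSetVal.restrictAlong (φ : F' →ₐ[K] F'') (hφ : φ.toRingHom.IsIntegral)
    {T' : Set (Place K F')} {T'' : Set (Place K F'')} {O' : ValuationSubring F'}
    {O'' : ValuationSubring F''} (h : SepSetVal A T' O')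
    (hT : ∀ P'' ∈ T'', P''.restrictAlong φ hφ ∈ T') (hO : ∀ y ∈ O', φ y ∈ O'') :
    SepSetVal A T'' O'' := by
  obtain ⟨f, hf, hmem, hu⟩ := h
  refine ⟨φ f, fun P'' hP'' => ?_, hO f hmem, ?_⟩
  · obtain ⟨d, hd, hlt⟩ := hf _ (hT P'' hP'')
    exact ⟨d, (isValueAt_restrictAlong_iff φ hφ P'' f d).mp hd, hlt⟩
  · obtain ⟨⟨g, hg⟩, hfg⟩ := hu.exists_right_inv
    have hfg' : f * g = 1 := congrArg Subtype.val hfg
    refine IsUnit.of_mul_eq_one (⟨φ g, hO g hg⟩ : O'') (Subtype.ext ?_)
    change φ f * φ g = 1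
    rw [← map_mul, hfg', map_one]

/-- A set of places on which `|ρ| < |u|` is separated from every component on which `u / ρ` is a
non-unit (by `ρ / (u + ρ)`). -/
theorem sepSetVal_outer {T : Set (Place K F'')} {O : ValuationSubring F''} (u : F'') (ρ : K)
    (hρ : ρ ≠ 0)
    (hT : ∀ P ∈ T, ∃ c : K, IsValueAt P u c ∧ A.valuation ρ < A.valuation c)
    (hu : u * (algebraMap K F'' ρ)⁻¹ ∈ O.nonunits) : SepSetVal A T O := by
  have hρF : algebraMap K F'' ρ ≠ 0 := (map_ne_zero _).mpr hρ
  refine ⟨algebraMap K F'' ρ * (u + algebraMap K F'' ρ)⁻¹, fun P hP => ?_, ?_⟩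
  · obtain ⟨c, hc, hlt⟩ := hT P hP
    have hv : A.valuation (c + ρ) = A.valuation c := by
      rw [add_comm]
      exact Valuation.map_add_eq_of_lt_right _ hlt
    have hρpos : 0 < A.valuation ρ :=
      lt_of_le_of_ne zero_le ((Valuation.ne_zero_iff _).mpr hρ).symm
    have hcpos : 0 < A.valuation c := lt_trans hρpos hlt
    have hne : c + ρ ≠ 0 := by
      intro h0
      rw [h0, map_zero] at hv
      exact (ne_of_gt hcpos) hv.symm
    refine ⟨ρ * (c + ρ)⁻¹, (isValueAt_algebraMap P ρ).mul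
      (Fermat.Agent.BR.Fact.isValueAt_inv_of_ne (hc.add (isValueAt_algebraMap P ρ)) hne), ?_⟩
    rw [map_mul, map_inv₀, hv, ← div_eq_mul_inv]
    exact (div_lt_one₀ hcpos).mpr hlt
  · -- `(u + ρ) / ρ = 1 + u / ρ` is a unit of `O`
    have h1 : O.valuation (u * (algebraMap K F'' ρ)⁻¹) < 1 := (O.mem_nonunits_iff).mp hu
    have h2 : O.valuation (1 + u * (algebraMap K F'' ρ)⁻¹) = 1 := by
      have := Valuation.map_add_eq_of_lt_right O.valuation (x := u * (algebraMap K F'' ρ)⁻¹)
        (y := 1) (by rwa [map_one])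
      rw [add_comm, this, map_one]
    have h3 : 1 + u * (algebraMap K F'' ρ)⁻¹ = (u + algebraMap K F'' ρ) * (algebraMap K F'' ρ)⁻¹ := by
      field_simp
      ring
    have hne : u + algebraMap K F'' ρ ≠ 0 := by
      intro h0
      rw [h3, h0, zero_mul, map_zero] at h2
      exact zero_ne_one h2
    have h4 : O.valuation (algebraMap K F'' ρ * (u + algebraMap K F'' ρ)⁻¹) = 1 := by
      have : algebraMap K F'' ρ * (u + algebraMap K F'' ρ)⁻¹ =
          (1 + u * (algebraMap K F'' ρ)⁻¹)⁻¹ := by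
        rw [h3, mul_inv, inv_inv, mul_comm]
      rw [this, map_inv₀, h2, inv_one]
    have hmem : algebraMap K F'' ρ * (u + algebraMap K F'' ρ)⁻¹ ∈ O :=
      (O.valuation_le_one_iff _).mp h4.le
    refine ⟨hmem, (isUnit_subtype_iff hmem).mpr fun hn => ?_⟩
    exact (ne_of_lt ((O.mem_nonunits_iff).mp hn)) h4

/-- A set of places on which `|u| < |ρ|` is separated from every component on which `ρ / u` is a
non-unit (by `u / (u + ρ)`). -/
theorem sepSetVal_inner {T : Set (Place K F'')} {O : ValuationSubring F''} (u : F'') (ρ : K)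
    (hρ : ρ ≠ 0)
    (hT : ∀ P ∈ T, ∃ c : K, IsValueAt P u c ∧ A.valuation c < A.valuation ρ)
    (hu0 : u ≠ 0) (hu : algebraMap K F'' ρ * u⁻¹ ∈ O.nonunits) : SepSetVal A T O := by
  refine ⟨u * (u + algebraMap K F'' ρ)⁻¹, fun P hP => ?_, ?_⟩
  · obtain ⟨c, hc, hlt⟩ := hT P hP
    have hv : A.valuation (c + ρ) = A.valuation ρ :=
      Valuation.map_add_eq_of_lt_right _ hlt
    have hρpos : 0 < A.valuation ρ :=
      lt_of_le_of_ne zero_le ((Valuation.ne_zero_iff _).mpr hρ).symm
    have hne : c + ρ ≠ 0 := by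
      intro h0
      rw [h0, map_zero] at hv
      exact (ne_of_gt hρpos) hv.symm
    refine ⟨c * (c + ρ)⁻¹, hc.mul
      (Fermat.Agent.BR.Fact.isValueAt_inv_of_ne (hc.add (isValueAt_algebraMap P ρ)) hne), ?_⟩
    rw [map_mul, map_inv₀, hv, ← div_eq_mul_inv]
    exact (div_lt_one₀ hρpos).mpr hlt
  · have h1 : O.valuation (algebraMap K F'' ρ * u⁻¹) < 1 := (O.mem_nonunits_iff).mp hu
    have h2 : O.valuation (1 + algebraMap K F'' ρ * u⁻¹) = 1 := by
      have := Valuation.map_add_eq_of_lt_right O.valuation (x := algebraMap K F'' ρ * u⁻¹)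
        (y := 1) (by rwa [map_one])
      rw [add_comm, this, map_one]
    have h3 : 1 + algebraMap K F'' ρ * u⁻¹ = (u + algebraMap K F'' ρ) * u⁻¹ := by
      field_simp
    have h4 : O.valuation (u * (u + algebraMap K F'' ρ)⁻¹) = 1 := by
      have : u * (u + algebraMap K F'' ρ)⁻¹ = (1 + algebraMap K F'' ρ * u⁻¹)⁻¹ := by
        rw [h3, mul_inv, inv_inv, mul_comm]
      rw [this, map_inv₀, h2, inv_one]
    have hmem : u * (u + algebraMap K F'' ρ)⁻¹ ∈ O := (O.valuation_le_one_iff _).mp h4.le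
    refine ⟨hmem, (isUnit_subtype_iff hmem).mpr fun hn => ?_⟩
    exact (ne_of_lt ((O.mem_nonunits_iff).mp hn)) h4

end Along

/-! ### a tube separated from another tube is separated from the circles of the latter -/

section CircleVal

variable {K : Type} {F : Type*} [Field K] [Field F] [Algebra K F] {A : ValuationSubring K}
  [IsAlgClosed (ResidueField A)]

/-- If `T` is separated from the tube `T'` of an annulus, then `T` is separated from the valuation
ring of every circle of the annulus (e.g. from the vertical component over the critical circle, by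
pull-back). -/
theorem SepSets.sepSetVal_circle {T T' : Set (Place K F)} (h : SepSets A T T')
    (C' : AnnulusCore A T') (a' : K) (ha1' : A.valuation C'.thick < A.valuation a')
    (ha2' : A.valuation a' < 1) : SepSetVal A T (circleRing C' a' ha1' ha2') := by
  obtain ⟨f, hf, hf'⟩ := h
  exact ⟨f, hf, isUnit_of_unit_values C' a' ha1' ha2' hf'⟩

end CircleVal

/-! ### the dictionary with `Circle.Separated` and `CircleN.SepComp` -/

section Dict

variable {K : Type} {F : Type*} [Field K] [Field F] [Algebra K F]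
  {A : ValuationSubring K}
  {ι₀ : Type} {Ft₀ : ι₀ → Type} [∀ v, Field (Ft₀ v)] [∀ v, Algebra (ResidueField A) (Ft₀ v)]
  {ν₀ : Type} (S₀ : SemistableSetup (F := F) A (residue A) ι₀ Ft₀ ν₀)

theorem separated_iff_sepSets (e e' : ν₀) :
    Separated S₀ e e' ↔ SepSets A (tube S₀ e) (tube S₀ e') := Iff.rfl

theorem sepComp_iff_sepSetVal (e : ν₀) (w : ι₀) :
    CircleN.SepComp S₀ e w ↔ SepSetVal A (tube S₀ e) (S₀.O w) := Iff.rfl

theorem mem_tube_iff (e : ν₀) (P : Place K F) :
    P ∈ tube S₀ e ↔ S₀.r P = ⟨S₀.src e, S₀.s₁ e⟩ := Iff.rfl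

end Dict

end Fermat.Agent.BR3.SepN
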