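import Fermat.Agent.BR3.GaussEmb
import Fermat.Agent.BR3.FibreProdCofactor

/-!
# Program C, node A10 (APPROX), part 2b: the middle valuations of `F̄_{Mq²}`

`σ_b = FibreProd.sigmaB hqM hζ hb : F̄_{Mq²} → ℚ̄((q))` is the embedding over `α₂ F̄_{Mq}` with
`j(q^{q²}) ↦ j(ζ^{b+1} q)` (helper6).  The Gauss valuation of `ℚ̄((q))` at `B` pulled back along
`σ_b` is a valuation subring `midVal` of `F̄_{Mq²}` lying over `O1 M B hB` along `α₂` (a *middle
component* of the special fibre of `X₀(Mq²)`), with residue map `midRes` into `k((q))`, constants,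
and the property **Compare** (`compare_mid`).

* `fracAt A : Subfield (LaurentSeries L)` — the series which are quotients of series over the
  local rings of all sufficiently large number fields;
* `coe_mem_fracAt` — `F̄_N ⊆ fracAt`; `scale_jqModC_mem_fracAt` — `j(ζ q) ∈ fracAt` for a root of
  unity `ζ`;
* `sigmaB_mem_fracAt` — the image of `σ_b` lies in `fracAt`.
-/

set_option autoImplicit false
set_option linter.style.haveILetI false
set_option linter.unusedSectionVars false

noncomputable section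

set_option synthInstance.maxHeartbeats 400000

namespace Fermat.Agent.BR3.MidGauss

open Fermat.Agent.Val ModularCurve AlgebraicCurve Fermat.Agent.X0 Fermat.Agent.Igusa
open Fermat.Agent.BR3.GaussEmb Fermat.Agent.BR3.FibreProd

/-! ### the subfield `fracAt` -/

section FracAt

variable {L : Type*} [Field L] [Algebra ℚ L] (A : ValuationSubring L)
variable [Algebra.IsAlgebraic ℚ L]

theorem isFracAt_of_forall {y : LaurentSeries L}
    (h : ∀ (K : IntermediateField ℚ L) (_ : FiniteDimensional ℚ K),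
      y ∈ fracFieldOver A (locKToA A K)) : IsFracAt A y :=
  ⟨⊥, inferInstance, fun K _ hK => h K hK⟩

variable {A} in
theorem IsFracAt.binary {y z w : LaurentSeries L} (hy : IsFracAt A y) (hz : IsFracAt A z)
    (h : ∀ (K : IntermediateField ℚ L) (_ : FiniteDimensional ℚ K),
      y ∈ fracFieldOver A (locKToA A K) → z ∈ fracFieldOver A (locKToA A K) →
        w ∈ fracFieldOver A (locKToA A K)) : IsFracAt A w := by
  obtain ⟨K₁, hK₁, h₁⟩ := hy
  obtain ⟨K₂, hK₂, h₂⟩ := hz
  haveI := hK₁
  haveI := hK₂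
  exact ⟨K₁ ⊔ K₂, inferInstance, fun K hK hfin =>
    h K hfin (h₁ K (le_sup_left.trans hK) hfin) (h₂ K (le_sup_right.trans hK) hfin)⟩

variable {A} in
theorem IsFracAt.unary {y w : LaurentSeries L} (hy : IsFracAt A y)
    (h : ∀ (K : IntermediateField ℚ L) (_ : FiniteDimensional ℚ K),
      y ∈ fracFieldOver A (locKToA A K) → w ∈ fracFieldOver A (locKToA A K)) : IsFracAt A w :=
  IsFracAt.binary hy hy fun K hK h₁ _ => h K hK h₁

/-- The subfield of `L((q))` of series which are quotients of series over the local rings of all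
sufficiently large number fields. -/
def fracAt : Subfield (LaurentSeries L) where
  carrier := {y | IsFracAt A y}
  mul_mem' := fun hy hz => IsFracAt.binary hy hz fun K _ h₁ h₂ => mul_mem h₁ h₂
  one_mem' := isFracAt_of_forall A fun K _ => one_mem _
  add_mem' := fun hy hz => IsFracAt.binary hy hz fun K _ h₁ h₂ => add_mem h₁ h₂
  zero_mem' := isFracAt_of_forall A fun K _ => zero_mem _
  neg_mem' := fun hy => IsFracAt.unary hy fun K _ h₁ => neg_mem h₁
  inv_mem' := fun _ hy => IsFracAt.unary hy fun K _ h₁ => inv_mem h₁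

theorem mem_fracAt_iff {y : LaurentSeries L} : y ∈ fracAt A ↔ IsFracAt A y := Iff.rfl

/-- constants -/
theorem C_mem_fracAt (c : L) : (HahnSeries.C c : LaurentSeries L) ∈ fracAt A := by
  refine ⟨IntermediateField.adjoin ℚ {c},
    IntermediateField.adjoin.finiteDimensional (Algebra.IsIntegral.isIntegral c), ?_⟩
  intro K hK hfin
  haveI := hfin
  exact C_mem_fracFieldOver_locK A K ⟨c, hK (IntermediateField.mem_adjoin_simple_self ℚ c)⟩

/-- the base change of the full modular function field -/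
theorem mem_fracAt_of_mem_laurentBaseChange (N : ℕ) [NeZero N] {y : LaurentSeries L}
    (hy : y ∈ laurentBaseChange L (modularFunctionFieldFull N)) : y ∈ fracAt A := by
  rw [mem_laurentBaseChange_iff] at hy
  induction hy using Subfield.closure_induction with
  | mem y hy =>
      rcases hy with ⟨c, rfl⟩ | ⟨z, hz, rfl⟩
      · rw [algebraMap_laurentSeries_eq_single]
        exact C_mem_fracAt A c
      · exact isFracAt_of_forall A fun K hK =>
          haveI := hK
          coeffEmb_mem_fracFieldOver A (locKToA A K) N hz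
  | one => exact one_mem _
  | add x y _ _ hx hy => exact add_mem hx hy
  | neg x _ hx => exact neg_mem hx
  | inv x _ hx => exact inv_mem hx
  | mul x y _ _ hx hy => exact mul_mem hx hy

/-- `j(ζ q)` for a root of unity `ζ` -/
theorem scale_jqModC_mem_fracAt {ζ : Lˣ} {n : ℕ} (hn : n ≠ 0) (hζ : ζ ^ n = 1) :
    scale ζ (jqModC L) ∈ fracAt A := by
  refine ⟨IntermediateField.adjoin ℚ {(ζ : L)},
    IntermediateField.adjoin.finiteDimensional (Algebra.IsIntegral.isIntegral (ζ : L)), ?_⟩
  intro K hK hfin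
  haveI := hfin
  have hζK : (ζ : L) ∈ K := hK (IntermediateField.mem_adjoin_simple_self ℚ (ζ : L))
  have hpow : (⟨(ζ : L), hζK⟩ : K) ^ n = 1 := by
    apply Subtype.ext
    show (ζ : L) ^ n = 1
    rw [← Units.val_pow_eq_pow_val, hζ, Units.val_one]
  -- the element of the ring of integers of `K`
  have hint : IsIntegral ℤ (⟨(ζ : L), hζK⟩ : K) :=
    ⟨Polynomial.X ^ n - 1, Polynomial.monic_X_pow_sub_C 1 hn, by simp [hpow]⟩
  let z : integralClosure ℤ K := ⟨⟨(ζ : L), hζK⟩, hint⟩
  have hz : z ^ n = 1 := Subtype.ext hpow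
  obtain ⟨n', rfl⟩ : ∃ n', n = n' + 1 := ⟨n - 1, by omega⟩
  let o : locK A K := algebraMap _ (locK A K) z
  have ho : o * o ^ n' = 1 := by
    rw [← pow_succ', ← map_pow, hz, map_one]
  let u : (locK A K)ˣ := Units.mkOfMulEqOne o (o ^ n') ho
  have hu : Units.map ((A.subtype.comp (locKToA A K) : locK A K →+* L) : locK A K →* L) u = ζ := by
    apply Units.ext
    show ((locKToA A K o : A) : L) = (ζ : L)
    rw [locKToA_algebraMap]
    rfl
  have h1 : oIota A (locKToA A K) (scale u (jqModC (locK A K))) = scale ζ (jqModC L) := by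
    rw [oIota_apply, coeffMap_scale, aIota, coeffMap_scale]
    have h2 : coeffMap A.subtype (coeffMap (locKToA A K) (jqModC (locK A K))) = jqModC L := by
      have := oIota_jqNModC A (locKToA A K) 1
      rwa [jqNModC_one, jqNModC_one, oIota_apply, aIota] at this
    rw [h2]
    have h3 : Units.map ((A.subtype : A →+* L) : A →* L)
        (Units.map ((locKToA A K : locK A K →+* A) : locK A K →* A) u) = ζ := by
      rw [← hu]
      apply Units.ext
      rfl
    rw [h3]
  rw [← h1]
  exact oIota_mem_fracFieldOver A (locKToA A K) _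

end FracAt

/-! ### the middle valuations -/

section Mid

variable {M q : ℕ} [NeZero M] [hq : Fact q.Prime]
variable (hqM : ¬ q ∣ M) {ζ : Kbˣ} (hζ : IsPrimitiveRoot ζ q) {b : ℕ} (hb : b < q - 1)
variable (B : ValuationSubring Kb) (hB : B.LiesOverPrime q)

local notation "kB" => IsLocalRing.ResidueField B

local instance isAlgebraicKb : Algebra.IsAlgebraic ℚ Kb := algebraIsAlgebraic_rat_algebraicClosure

/-- The image of `σ_b` consists of quotients of series over number field local rings. -/
theorem sigmaB_mem_fracAt (x : Fb (M * q * q)) : sigmaB hqM hζ hb x ∈ fracAt B := by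
  letI := algebraAlong (alpha2 M q)
  let P : IntermediateField (Fb (M * q)) (Fb (M * q * q)) :=
    ((fracAt B).comap (sigmaB hqM hζ hb)).toIntermediateField fun y => by
      show sigmaB hqM hζ hb (alpha2 M q y) ∈ fracAt B
      rw [sigmaB_alpha2]
      exact mem_fracAt_of_mem_laurentBaseChange B (M * q) y.2
  have hj : jqq M q ∈ P := by
    show sigmaB hqM hζ hb (jqq M q) ∈ fracAt B
    rw [sigmaB_jqq]
    refine scale_jqModC_mem_fracAt B hq.out.ne_zero ?_
    rw [← pow_mul, mul_comm, pow_mul, hζ.pow_eq_one, one_pow]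
  have hle : IntermediateField.adjoin (Fb (M * q)) {jqq M q} ≤ P :=
    IntermediateField.adjoin_le_iff.2 (Set.singleton_subset_iff.2 hj)
  rw [adjoin_jqq_eq_top hqM] at hle
  exact hle (IntermediateField.mem_top)

theorem sigmaB_algebraMap (c : Kb) :
    sigmaB hqM hζ hb (algebraMap Kb (Fb (M * q * q)) c) = HahnSeries.C c := by
  have h1 : algebraMap Kb (Fb (M * q * q)) c = alpha2 M q (algebraMap Kb (Fb (M * q)) c) :=
    ((alpha2 M q).commutes c).symm
  rw [h1, sigmaB_alpha2]
  show algebraMap Kb (LaurentSeries Kb) c = _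
  rw [algebraMap_laurentSeries_eq_single]
  rfl

include hB in
theorem hasContent_sigmaB (x : Fb (M * q * q)) (hx : x ≠ 0) :
    ∃ c, HasContent B (IsLocalRing.residue B) (sigmaB hqM hζ hb x) c :=
  IsFracAt.exists_hasContent (IsLocalRing.residue B) hq.out.ne_zero hB
    (sigmaB_mem_fracAt hqM hζ hb B x) ((map_ne_zero _).2 hx)

/-- **The middle valuation subring** `mid_b` of `F̄_{Mq²}`: the Gauss valuation along `σ_b`. -/
def midVal : ValuationSubring (Fb (M * q * q)) :=
  embVal B (IsLocalRing.residue B) (sigmaB hqM hζ hb) (hasContent_sigmaB hqM hζ hb B hB)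

/-- The residue map of `mid_b`, with values in `k((q))`. -/
def midRes : midVal hqM hζ hb B hB →+* LaurentSeries kB :=
  embRes B (IsLocalRing.residue B) (sigmaB hqM hζ hb) (hasContent_sigmaB hqM hζ hb B hB)

theorem mem_midVal_iff {x : Fb (M * q * q)} :
    x ∈ midVal hqM hζ hb B hB ↔
      sigmaB hqM hζ hb x ∈ gaussRingA B (IsLocalRing.residue B) := Iff.rfl

theorem midRes_apply (x : midVal hqM hζ hb B hB) :
    midRes hqM hζ hb B hB x =
      gaussResA B (IsLocalRing.residue B) ⟨sigmaB hqM hζ hb (x : Fb (M * q * q)), x.2⟩ := rfl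

theorem midRes_eq_zero_iff (x : midVal hqM hζ hb B hB) :
    midRes hqM hζ hb B hB x = 0 ↔ ¬ IsUnit x :=
  embRes_eq_zero_iff _ _ _ _ x

theorem algebraMap_mem_midVal_iff (c : Kb) :
    algebraMap Kb (Fb (M * q * q)) c ∈ midVal hqM hζ hb B hB ↔ c ∈ B :=
  algebraMap_mem_embVal_iff _ _ _ _ (sigmaB_algebraMap hqM hζ hb)
    (residue_eq_zero_of_mem_maximalIdeal B) c

theorem midRes_algebraMap (c : Kb) (hc : c ∈ B)
    (h : algebraMap Kb (Fb (M * q * q)) c ∈ midVal hqM hζ hb B hB) :
    midRes hqM hζ hb B hB ⟨algebraMap Kb (Fb (M * q * q)) c, h⟩ =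
      HahnSeries.C (IsLocalRing.residue B ⟨c, hc⟩) :=
  embRes_algebraMap _ _ _ _ (sigmaB_algebraMap hqM hζ hb) c hc h

/-- `mid_b` lies over `O1 M B hB` (the component `can`) along `α₂`. -/
theorem alpha2_mem_midVal_iff (x : Fb (M * q)) :
    alpha2 M q x ∈ midVal hqM hζ hb B hB ↔
      (x : LaurentSeries Kb) ∈ gaussRingA B (IsLocalRing.residue B) := by
  rw [mem_midVal_iff, sigmaB_alpha2]

/-- the residue of `mid_b` on `α₂ F̄_{Mq}` is the Gauss residue -/
theorem midRes_alpha2 (x : Fb (M * q)) (h : alpha2 M q x ∈ midVal hqM hζ hb B hB) :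
    midRes hqM hζ hb B hB ⟨alpha2 M q x, h⟩ =
      gaussResA B (IsLocalRing.residue B)
        ⟨(x : LaurentSeries Kb), (alpha2_mem_midVal_iff hqM hζ hb B hB x).1 h⟩ := by
  rw [midRes_apply]
  congr 1
  exact Subtype.ext (sigmaB_alpha2 hqM hζ hb x)

/-- `mid_b ∘ α₂ = O1`: the middle valuations lie over the component `can` along `α₂`. -/
theorem comap_alpha2_midVal :
    (midVal hqM hζ hb B hB).comap (alpha2 M q : Fb (M * q) →+* Fb (M * q * q)) =
      Fermat.Agent.BR.TwoVal.O1 M B hB := by
  ext x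
  rw [ValuationSubring.mem_comap]
  exact alpha2_mem_midVal_iff hqM hζ hb B hB x

theorem alpha2_mem_midVal_iff_mem_O1 (x : Fb (M * q)) :
    alpha2 M q x ∈ midVal hqM hζ hb B hB ↔ x ∈ Fermat.Agent.BR.TwoVal.O1 M B hB :=
  alpha2_mem_midVal_iff hqM hζ hb B hB x

/-- the residue of `mid_b` on `α₂ F̄_{Mq}` is `res1` -/
theorem midRes_alpha2_eq_res1 (x : Fb (M * q)) (hx : x ∈ Fermat.Agent.BR.TwoVal.O1 M B hB) :
    midRes hqM hζ hb B hB
        ⟨alpha2 M q x, (alpha2_mem_midVal_iff_mem_O1 hqM hζ hb B hB x).2 hx⟩ =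
      Fermat.Agent.BR.TwoVal.res1 M B hB ⟨x, hx⟩ :=
  midRes_alpha2 hqM hζ hb B hB x _

/-- the residue of `mid_b` at `j(q^{q²})`: the series `j(ζ^{b+1} q)` is integral, with reduction
`j̃` (as `ζ ≡ 1`): stated as membership; the value is computed in I3 -/
theorem jqq_mem_midVal : jqq M q ∈ midVal hqM hζ hb B hB := by
  rw [mem_midVal_iff, sigmaB_jqq]
  have hz : ∀ n : ℤ, (scale (ζ ^ (b + 1)) (jqModC Kb)).coeff n ∈ B := by
    intro n
    rw [scale_coeff]
    refine B.mul_mem _ _ ?_ ?_
    · have hint : IsIntegral ℤ ((((ζ ^ (b + 1)) ^ n : Kbˣ) : Kb)) := by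
        refine ⟨Polynomial.X ^ q - 1, Polynomial.monic_X_pow_sub_C 1 hq.out.ne_zero, ?_⟩
        have h1 : ((((ζ ^ (b + 1)) ^ n : Kbˣ) : Kb)) ^ q = 1 := by
          rw [← Units.val_pow_eq_pow_val, ← zpow_natCast, ← zpow_mul, mul_comm, zpow_mul,
            zpow_natCast, ← pow_mul, mul_comm, pow_mul, hζ.pow_eq_one, one_pow, one_zpow,
            Units.val_one]
        rw [Polynomial.eval₂_sub, Polynomial.eval₂_pow, Polynomial.eval₂_X, Polynomial.eval₂_one,
          h1, sub_self]
      exact mem_valSubring_of_isIntegral_int B hint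
    · have hint : IsIntegral ℤ ((jqModC Kb).coeff n) := by
        have h2 := oIota_jqNModC (O := ℤ) B (Int.castRingHom B) 1
        rw [jqNModC_one, jqNModC_one] at h2
        rw [← h2, oIota_coeff]
        have : (((Int.castRingHom B) ((jqModC ℤ).coeff n) : B) : Kb) =
            (((jqModC ℤ).coeff n : ℤ) : Kb) := by simp
        rw [this]
        exact isIntegral_algebraMap (R := ℤ) (A := Kb) (x := (jqModC ℤ).coeff n) |> fun h => by
          simpa using h
      exact mem_valSubring_of_isIntegral_int B hint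
  obtain ⟨a, ha⟩ := exists_aIota_eq_of_coeff_mem B hz
  rw [← ha]
  exact aIota_mem_gaussRingA B _ a

/-- **Compare for `mid_b`**: the unit ball of a finite-dimensional `ℚ̄`-subspace of `F̄_{Mq²}` is
bounded in coordinates. -/
theorem compare_mid {m : ℕ} (v : Fin m → Fb (M * q * q)) (hv : LinearIndependent Kb v) :
    ∃ c : Kb, c ≠ 0 ∧ ∀ a : Fin m → Kb,
      ∑ i, a i • v i ∈ midVal hqM hζ hb B hB → ∀ i, c * a i ∈ B :=
  compare_emb B (IsLocalRing.residue B) (sigmaB hqM hζ hb)
    (residue_eq_zero_of_mem_maximalIdeal B) hq.out.ne_zero hB (sigmaB_algebraMap hqM hζ hb)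
    (fun x => sigmaB_mem_fracAt hqM hζ hb B x) v hv

end Mid

end Fermat.Agent.BR3.MidGauss
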