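import Fermat.Agent.BR3.GaussEmbApprox
import Fermat.Agent.BR3.MidGauss
import Fermat.Agent.BR3.FibreProdMid

/-!
# Program C, node A10 (APPROX), part 2d: `Compare` and best approximation for the middle
valuations `w₂ b` of `F̄_{Mq²}`

`w2 B hB hqM hζ hb` (helper6, `BR3/FibreProdMid.lean`) is the Gauss valuation of `ℚ̄((q))` pulled
back along `σ_b`; it is the same valuation subring as `MidGauss.midVal` (`midVal_eq_w2`).

* `compare_w2` — **Compare** for `w₂ b`;
* `midR` — the `ℚ̄`-subalgebra of `F̄_{Mq²}` generated by `α₂(j(q^d))`, `d ∣ Mq`, and `j(q^{q²})`;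
  `sigmaB_mem_intSpan`, `midR_frac`;
* `approx_w2` — **best approximation** for `(w₂ b, resw2)`: verbatim the field `approx` of
  `Val.ConstRed` / `SS.SemistableSetup` (no `MultiVal.Full`, no counting needed).
-/

set_option autoImplicit false
set_option linter.style.haveILetI false
set_option linter.unusedSectionVars false

noncomputable section

set_option synthInstance.maxHeartbeats 400000

namespace Fermat.Agent.BR3.MidApprox

open Fermat.Agent.Val ModularCurve AlgebraicCurve Fermat.Agent.X0 Fermat.Agent.Igusa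
open Fermat.Agent.BR3.GaussEmb Fermat.Agent.BR3.FibreProd

variable {M q : ℕ} [NeZero M] [hq : Fact q.Prime]
variable (B : ValuationSubring (AlgebraicClosure ℚ)) (hB : B.LiesOverPrime q)
variable (hqM : ¬ q ∣ M) {ζ : Kbˣ} (hζ : IsPrimitiveRoot ζ q) {b : ℕ} (hb : b < q - 1)

local notation "kB" => IsLocalRing.ResidueField B

theorem midVal_eq_w2 : MidGauss.midVal hqM hζ hb B hB = w2 B hB hqM hζ hb := by
  ext x
  exact Iff.rfl

/-- **Compare for `w₂ b`.** -/
theorem compare_w2 {m : ℕ} (v : Fin m → Fb (M * q * q)) (hv : LinearIndependent Kb v) :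
    ∃ c : Kb, c ≠ 0 ∧ ∀ a : Fin m → Kb,
      ∑ i, a i • v i ∈ w2 B hB hqM hζ hb → ∀ i, c * a i ∈ B := by
  obtain ⟨c, hc, h⟩ := MidGauss.compare_mid hqM hζ hb B hB v hv
  exact ⟨c, hc, fun a ha => h a ha⟩

/-! ### the subalgebra -/

variable (M q) in
/-- The `ℚ̄`-subalgebra of `F̄_{Mq²}` generated by `α₂(j(q^d))`, `d ∣ Mq`, and `j(q^{q²})`. -/
def midR : Subalgebra Kb (Fb (M * q * q)) :=
  Algebra.adjoin Kb ((alpha2 M q) '' genSetB (M * q) ∪ {jqq M q})

theorem alpha2_mem_midR {x : Fb (M * q)} (hx : x ∈ Rb (M * q)) : alpha2 M q x ∈ midR M q := by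
  have h1 : (Rb (M * q)).map (alpha2 M q) ≤ midR M q := by
    rw [Rb, AlgHom.map_adjoin]
    exact Algebra.adjoin_mono Set.subset_union_left
  exact h1 ⟨x, hx, rfl⟩

theorem jqq_mem_midR : jqq M q ∈ midR M q :=
  Algebra.subset_adjoin (Set.mem_union_right _ rfl)

/-- `F̄_{Mq²}` is the fraction field of `midR`. -/
theorem midR_frac (hqM : ¬ q ∣ M) (y : Fb (M * q * q)) :
    ∃ a b : midR M q, b ≠ 0 ∧ y * (b : Fb (M * q * q)) = (a : Fb (M * q * q)) := by
  classical
  letI := algebraAlong (alpha2 M q)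
  -- the subfield of fractions
  let Q : Subfield (Fb (M * q * q)) :=
    { carrier := {y | ∃ a b : midR M q, b ≠ 0 ∧ y * (b : Fb (M * q * q)) = (a : Fb (M * q * q))}
      mul_mem' := by
        rintro y y' ⟨a, b, hb, h⟩ ⟨a', b', hb', h'⟩
        refine ⟨a * a', b * b', mul_ne_zero hb hb', ?_⟩
        push_cast
        rw [← h, ← h']
        ring
      one_mem' := ⟨1, 1, one_ne_zero, by simp⟩
      add_mem' := by
        rintro y y' ⟨a, b, hb, h⟩ ⟨a', b', hb', h'⟩
        refine ⟨a * b' + a' * b, b * b', mul_ne_zero hb hb', ?_⟩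
        push_cast
        rw [← h, ← h']
        ring
      zero_mem' := ⟨0, 1, one_ne_zero, by simp⟩
      neg_mem' := by
        rintro y ⟨a, b, hb, h⟩
        refine ⟨-a, b, hb, ?_⟩
        push_cast
        rw [← h]
        ring
      inv_mem' := by
        rintro y ⟨a, b, hb, h⟩
        by_cases ha : a = 0
        · have hb0 : (b : Fb (M * q * q)) ≠ 0 := fun h0 => hb (Subtype.ext h0)
          have hy : y = 0 := by
            rw [ha] at h
            exact (mul_eq_zero.1 h).resolve_right hb0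
          exact ⟨0, 1, one_ne_zero, by rw [hy]; simp⟩
        · refine ⟨b, a, ha, ?_⟩
          have ha0 : (a : Fb (M * q * q)) ≠ 0 := fun h0 => ha (Subtype.ext h0)
          have hb0 : (b : Fb (M * q * q)) ≠ 0 := fun h0 => hb (Subtype.ext h0)
          have hy0 : y ≠ 0 := by
            rintro rfl
            rw [zero_mul] at h
            exact ha0 h.symm
          rw [← h]
          field_simp }
  let P : IntermediateField (Fb (M * q)) (Fb (M * q * q)) :=
    Q.toIntermediateField fun x => by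
      show alpha2 M q x ∈ Q
      obtain ⟨a, b, hb, rfl⟩ := IsFractionRing.div_surjective (A := Rb (M * q)) x
      have hb0 : (b : Fb (M * q)) ≠ 0 := fun h0 =>
        nonZeroDivisors.ne_zero hb (Subtype.ext h0)
      refine ⟨⟨alpha2 M q a, alpha2_mem_midR a.2⟩, ⟨alpha2 M q b, alpha2_mem_midR b.2⟩, ?_, ?_⟩
      · intro h0
        apply hb0
        have := congrArg Subtype.val h0
        exact (map_eq_zero (alpha2 M q)).1 this
      · show alpha2 M q (algebraMap _ _ a / algebraMap _ _ b) * alpha2 M q b = alpha2 M q a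
        rw [← map_mul]
        congr 1
        show ((a : Fb (M * q)) / (b : Fb (M * q))) * (b : Fb (M * q)) = (a : Fb (M * q))
        field_simp
  have hj : jqq M q ∈ P := ⟨⟨jqq M q, jqq_mem_midR⟩, 1, one_ne_zero, by simp⟩
  have hle : IntermediateField.adjoin (Fb (M * q)) {jqq M q} ≤ P :=
    IntermediateField.adjoin_le_iff.2 (Set.singleton_subset_iff.2 hj)
  rw [adjoin_jqq_eq_top hqM] at hle
  exact hle (IntermediateField.mem_top)

/-! ### the image of `midR` under `σ_b` -/

/-- `σ_b` as a `ℚ̄`-algebra homomorphism. -/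
def sigmaBAlg : Fb (M * q * q) →ₐ[Kb] LaurentSeries Kb :=
  { sigmaB hqM hζ hb with
    commutes' := fun c => by
      show sigmaB hqM hζ hb (algebraMap Kb (Fb (M * q * q)) c) = _
      rw [sigmaB_algebraMap, algebraMap_laurentSeries_eq_single]
      rfl }

theorem sigmaBAlg_apply (x : Fb (M * q * q)) : sigmaBAlg hqM hζ hb x = sigmaB hqM hζ hb x := rfl

/-- the number field generated by `ζ^(b+1)` -/
abbrev Kz (ζ : Kbˣ) (b : ℕ) : IntermediateField ℚ Kb :=
  IntermediateField.adjoin ℚ {((ζ ^ (b + 1) : Kbˣ) : Kb)}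

theorem finiteDimensional_Kz (ζ : Kbˣ) (b : ℕ) : FiniteDimensional ℚ (Kz ζ b) :=
  haveI := algebraIsAlgebraic_rat_algebraicClosure
  IntermediateField.adjoin.finiteDimensional (Algebra.IsIntegral.isIntegral _)

/-- The image of `midR` under `σ_b` consists of `ℚ̄`-combinations of series over the local ring
of `ℚ(ζ^(b+1))`. -/
theorem sigmaB_mem_intSpan {x : Fb (M * q * q)} (hx : x ∈ midR M q) :
    haveI := finiteDimensional_Kz ζ b
    sigmaB hqM hζ hb x ∈ intSpan B (locKToA B (Kz ζ b)) := by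
  haveI := finiteDimensional_Kz ζ b
  have hle : midR M q ≤ (intSpan B (locKToA B (Kz ζ b))).comap (sigmaBAlg hqM hζ hb) := by
    rw [midR, Algebra.adjoin_le_iff]
    rintro y (⟨x, ⟨d, hd0, hd, rfl⟩, rfl⟩ | rfl)
    · show sigmaB hqM hζ hb (alpha2 M q (jBarD (M * q) d hd)) ∈
        intSpan B (locKToA B (Kz ζ b))
      rw [sigmaB_alpha2, coe_jBarD, coeffEmb_jqN, ← oIota_jqNModC B (locKToA B (Kz ζ b))]
      exact oIota_mem_intSpan B _ _
    · show sigmaB hqM hζ hb (jqq M q) ∈ intSpan B (locKToA B (Kz ζ b))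
      rw [sigmaB_jqq]
      have hz : (ζ ^ (b + 1)) ^ q = 1 := zeta_pow_pow hζ
      obtain ⟨u, hu⟩ := exists_unit_locK B (Kz ζ b) hq.out.ne_zero hz
        (IntermediateField.mem_adjoin_simple_self ℚ _)
      have h1 : oIota B (locKToA B (Kz ζ b)) (scale u (jqModC (locK B (Kz ζ b)))) =
          scale (ζ ^ (b + 1)) (jqModC Kb) := by
        rw [oIota_apply, coeffMap_scale, aIota, coeffMap_scale, ModularCurve.coeffMap_jqModC,
          ModularCurve.coeffMap_jqModC]
        congr 2
        apply Units.ext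
        rw [Units.coe_map, Units.coe_map]
        exact hu
      rw [← h1]
      exact oIota_mem_intSpan B _ _
  exact hle hx

/-! ### best approximation -/

include hB in
/-- **Best approximation for the middle valuation `w₂ b`** (the field `approx` of `Val.ConstRed` /
`SS.SemistableSetup`, verbatim). -/
theorem approx_w2 (V : Submodule Kb (Fb (M * q * q))) (hV : Module.Finite Kb V)
    (y : Fb (M * q * q)) (hy : y ∉ V) :
    ∃ w ∈ V, ∃ c : Kb, c ≠ 0 ∧ ∃ h : c • (y - w) ∈ w2 B hB hqM hζ hb,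
      ∀ z : w2 B hB hqM hζ hb, (z : Fb (M * q * q)) ∈ V →
        resw2 B hB hqM hζ hb z ≠ resw2 B hB hqM hζ hb ⟨c • (y - w), h⟩ := by
  haveI := finiteDimensional_Kz ζ b
  haveI := algebraIsAlgebraic_rat_algebraicClosure
  haveI := locK_isDVR B (Kz ζ b) hq.out.ne_zero hB
  haveI : IsPrincipalIdealRing (locK B (Kz ζ b)) := IsDiscreteValuationRing.toIsPrincipalIdealRing
  haveI : IsNoetherianRing (locK B (Kz ζ b)) := PrincipalIdealRing.isNoetherianRing
  obtain ⟨w, hw, c, hc, h, hne⟩ := approx_emb B (IsLocalRing.residue B) (sigmaB hqM hζ hb)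
    (fun x hx => hasContent_sigmaB B hB hqM hζ hb hx) (locKToA B (Kz ζ b))
    (residue_eq_zero_of_mem_maximalIdeal B) (sigmaB_algebraMap hqM hζ hb) (midR M q)
    (fun x hx => sigmaB_mem_intSpan B hqM hζ hb hx) (midR_frac hqM) V hV y hy
  exact ⟨w, hw, c, hc, h, fun z hz => hne ⟨z, z.2⟩ hz⟩

end Fermat.Agent.BR3.MidApprox
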