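import Fermat.Agent.BR3.MultiVal

/-!
# Program C, node (C-NR4), complement: residues in a full family, element form

`D : MultiVal.Full O₀ O ι`.

* `Full.exists_sum_smul_sub_mem_nonunits` : every element of `O v` is congruent modulo the maximal
  ideal of `O v` to an `O₀`-combination of the residue-independent family `D.x v` (the residues of
  `D.x v` SPAN the residue field of `O v` over that of `O₀`), in element form (no residue field
  types).
-/

set_option autoImplicit false

namespace Fermat.Agent.BR3.MultiVal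

open Fermat.Agent.Val Fermat.Agent.BR.TwoVal

variable {F E : Type*} [Field F] [Field E] [Algebra F E]

namespace Full

variable {O₀ : ValuationSubring F} {V : Type*} [Fintype V] {O : V → ValuationSubring E}
variable {ι : V → Type*} [∀ v, Fintype (ι v)]

/-- **the residues of `D.x v` span the residue field of `O v`** (element form): every `y ∈ O v` is
congruent modulo `𝔪_v` to an `O₀`-combination of the `D.x v i`. -/
theorem exists_sum_smul_sub_mem_nonunits [FiniteDimensional F E] (D : Full O₀ O ι) (v : V)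
    {y : E} (hy : y ∈ O v) :
    ∃ c : ι v → F, (∀ i, c i ∈ O₀) ∧ y - ∑ i, c i • D.x v i ∈ (O v).nonunits := by
  classical
  have S := D.setup
  obtain ⟨x', b, hx', hbz, hchar, -⟩ := D.exists_basis
  obtain ⟨y', hy'⟩ := S.exists_adapted v (ι := Unit) (x := fun _ => y) (fun _ => hy)
    (σ := Empty) (fun t => t.elim)
  obtain ⟨hy'v, hy'd, hy'w⟩ := hy' ()
  have hall : ∀ u, y' () ∈ O u := by
    intro u
    by_cases hu : u = v
    · rw [hu]
      exact hy'v
    · exact mem_of_mem_nonunits (O u) (hy'w u hu).1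
  have hrepr := (hchar (y' ())).mp hall
  have hsum : ∑ t : Σ v, ι v, b.repr (y' ()) t • x' t.1 t.2 = y' () := by
    conv_rhs => rw [← b.sum_repr (y' ())]
    exact Finset.sum_congr rfl fun t _ => by rw [hbz]
  refine ⟨fun i => b.repr (y' ()) ⟨v, i⟩, fun i => hrepr _, ?_⟩
  have h1 : y' () = ∑ i, b.repr (y' ()) ⟨v, i⟩ • x' v i +
      ∑ u ∈ Finset.univ.erase v, ∑ i, b.repr (y' ()) ⟨u, i⟩ • x' u i := by
    conv_lhs => rw [← hsum, Fintype.sum_sigma, ← Finset.add_sum_erase _ _ (Finset.mem_univ v)]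
  have e : y - ∑ i, b.repr (y' ()) ⟨v, i⟩ • D.x v i =
      -(y' () - y) + (∑ i, b.repr (y' ()) ⟨v, i⟩ • (x' v i - D.x v i) +
        ∑ u ∈ Finset.univ.erase v, ∑ i, b.repr (y' ()) ⟨u, i⟩ • x' u i) := by
    have h2 : ∑ i, b.repr (y' ()) ⟨v, i⟩ • (x' v i - D.x v i) =
        ∑ i, b.repr (y' ()) ⟨v, i⟩ • x' v i - ∑ i, b.repr (y' ()) ⟨v, i⟩ • D.x v i := by
      rw [← Finset.sum_sub_distrib]
      exact Finset.sum_congr rfl fun i _ => smul_sub _ _ _
    rw [h2]
    nth_rewrite 2 [h1]
    abel
  rw [e]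
  refine add_mem_nonunits (O v) (neg_mem_nonunits (O v) hy'd)
    (add_mem_nonunits (O v) (sum_mem_nonunits (O v) _ _ fun i _ => ?_)
      (sum_mem_nonunits (O v) _ _ fun u hu => sum_mem_nonunits (O v) _ _ fun i _ => ?_))
  · exact S.smul_mem_nonunits v (hrepr _) (hx' v i).2.1
  · exact S.smul_mem_nonunits v (hrepr _) ((hx' u i).2.2 v (Finset.ne_of_mem_erase hu).symm)

end Full

end Fermat.Agent.BR3.MultiVal
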