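import Fermat.Agent.BR3.FibreProdMidGal
import Fermat.Agent.BR3.MultiValResidue
import Fermat.Agent.BR3.MidApprox
import Fermat.Agent.BR.ConstRedTwoFinal

/-!
# Program C, node I3 (MID) / I7 (M1-mid): the residue field of the middle valuations and the
constant reductions `constRedMid`

`F̃_M = modularFunctionFieldFullC k M ⊆ k((s))` is the residue field of `can` (`constRedW1`), and
`κ = res₁(O1)` of `FibreProdMidFull` is the same subfield (`mem_kappaCan_iff_mem_fullC`).

* `FMid M B : IntermediateField F̃_M k((s))` := `F̃_M(θ j̃)`: **the residue field of every middle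
  valuation** (the same for all `b`): `resw2_mem_FMid` (from `fullAll` and
  `MultiVal.Full.exists_sum_smul_sub_mem_nonunits`), `FMid_le_resRange`;
* `resMid b : w₂ b →+* FMid M B` (`coe_resMid = resw2`, rfl), `resMid_surjective`,
  `resMid_eq_zero_iff`, `resMid_eq_zero_iff_mem_nonunits`, `resMid_alpha2` (compatibility with
  `(constRedW1).res` along `α₂`), `algebraMap_mem_w2_iff`, `resMid_algebraMap`;
* **`constRedMid b : ConstRed (F := F̄_{Mq²}) (Ft := FMid M B) B (residue B)`** with `.O = w₂ b`,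
  `.res = resMid b` (`approx` := helper1's `MidApprox.approx_w2`);
* `natDegree_minpoly_fullC`, `finrank_FMid : [FMid : F̃_M] = fMid`, `finiteDimensional_FMid`,
  `isSeparable_FMid`;
* `thetaMid`, `resMid_Utilde : resMid b (U/(ζ^{b+1} - 1)) = thetaMid`, `adjoin_thetaMid`;
* `resMid_gal_smul_of_mem_inertia` : inertia elements with `σ (ζ^{b'+1}) = ζ^{b+1}` intertwine
  `resMid b'` and `resMid b`.
-/

set_option autoImplicit false
set_option linter.style.haveILetI false
set_option linter.unusedSectionVars false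

noncomputable section

/- S36 build-time patch: file-local shortcut instances. They only shorten instance search;
each is the instance that the search finds anyway (reducible, same terms after unfolding). -/
local instance (priority := 100000) Fermat.Agent.BR3.FastInst.instAlgFullC_FibreProdMidRes
    {k : Type*} [Field k] (N : ℕ) :
    Algebra k ↥(ModularCurve.modularFunctionFieldFullC k N) := inferInstance
local instance (priority := 100000) Fermat.Agent.BR3.FastInst.instFieldFullC_FibreProdMidRes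
    {k : Type*} [Field k] (N : ℕ) :
    Field ↥(ModularCurve.modularFunctionFieldFullC k N) := inferInstance
local instance (priority := 100000) Fermat.Agent.BR3.FastInst.instAlgLaurent_FibreProdMidRes
    {k : Type*} [Field k] : Algebra k (LaurentSeries k) := inferInstance


set_option synthInstance.maxHeartbeats 400000

namespace Fermat.Agent.BR3.FibreProd

open ModularCurve AlgebraicCurve HahnSeries Polynomial Fermat.Agent.X0 Fermat.Agent.Val
open Fermat.Agent.Hecke.AL Fermat.Agent.Igusa Fermat.Agent.BR.Kron Fermat.Agent.BR3.IgSq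
open Fermat.Agent.BR.TwoVal Fermat.Agent.BR.ResGen Fermat.Agent.Jac Fermat.Agent.Jac.ALF
open Fermat.Agent.BR.TwoValInst Fermat.Agent.BR.ValTwo Fermat.Agent.BR.ConstRedTwo

variable {M q : ℕ} [NeZero M] [hq : Fact q.Prime]

section KappaFull

variable (B : ValuationSubring (AlgebraicClosure ℚ)) (hB : B.LiesOverPrime q) (hqM : ¬ q ∣ M)

local notation "kB" => IsLocalRing.ResidueField B
local notation "FtM" => modularFunctionFieldFullC (IsLocalRing.ResidueField B) M

include hqM in
/-- `κ = res₁(O1)` is `F̃_M` (as subsets of `k((s))`) -/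
theorem mem_kappaCan_iff_mem_fullC {z : LaurentSeries kB} :
    z ∈ kappaCan M B hB ↔ z ∈ FtM := by
  constructor
  · intro hz
    obtain ⟨x, hx⟩ := (mem_kappaCan_iff B hB).1 hz
    rw [← hx]
    exact ((constRedW1 B hB hqM).res x).2
  · intro hz
    obtain ⟨x, hx⟩ := (constRedW1 B hB hqM).res_surjective ⟨z, hz⟩
    refine (mem_kappaCan_iff B hB).2 ⟨x, ?_⟩
    exact congrArg Subtype.val hx

end KappaFull

/-! ### The residue field of the middle valuations -/

section MidField

variable (B : ValuationSubring (AlgebraicClosure ℚ)) (hB : B.LiesOverPrime q) (hqM : ¬ q ∣ M)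
variable {ζ : Kbˣ} (hζ : IsPrimitiveRoot ζ q) {b : ℕ} (hb : b < q - 1)

local notation "kB" => IsLocalRing.ResidueField B
local notation "FtM" => modularFunctionFieldFullC (IsLocalRing.ResidueField B) M

variable (M) in
/-- **The residue field of the middle valuations**: `F̃_M(θ j̃) ⊆ k((s))`. -/
def FMid : IntermediateField FtM (LaurentSeries kB) :=
  IntermediateField.adjoin FtM {thetaL kB (jqModC kB)}

theorem thetaL_mem_FMid : thetaL kB (jqModC kB) ∈ FMid M B :=
  IntermediateField.mem_adjoin_simple_self _ _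

theorem fullC_le_FMid {z : LaurentSeries kB} (hz : z ∈ FtM) : z ∈ FMid M B :=
  (FMid M B).algebraMap_mem ⟨z, hz⟩

theorem C_mem_FMid (c : kB) : HahnSeries.C c ∈ FMid M B := by
  apply fullC_le_FMid
  have h := (modularFunctionFieldFullC kB M).algebraMap_mem c
  rwa [algebraMap_laurentSeries_eq_single, ← HahnSeries.C_apply] at h

/-- the range of the residue map of `w₂ b`, as a subfield of `k((s))` -/
def resRange : Subfield (LaurentSeries kB) :=
  { (resw2 B hB hqM hζ hb).range with
    inv_mem' := by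
      rintro x ⟨y, rfl⟩
      by_cases h0 : resw2 B hB hqM hζ hb y = 0
      · rw [h0, inv_zero]
        exact ⟨0, map_zero _⟩
      · obtain ⟨u, rfl⟩ := (isUnit_iff_resw2_ne_zero B hB hqM hζ hb y).2 h0
        refine ⟨((u⁻¹ : (w2 B hB hqM hζ hb)ˣ) : w2 B hB hqM hζ hb), ?_⟩
        apply eq_inv_of_mul_eq_one_left
        rw [← map_mul, ← Units.val_mul, inv_mul_cancel, Units.val_one, map_one] }

theorem mem_resRange_iff {z : LaurentSeries kB} :
    z ∈ resRange B hB hqM hζ hb ↔ ∃ y, resw2 B hB hqM hζ hb y = z := Iff.rfl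

include hB in
/-- `F̃_M(θ j̃)` is contained in the range of the residue map -/
theorem FMid_le_resRange {z : LaurentSeries kB} (hz : z ∈ FMid M B) :
    z ∈ resRange B hB hqM hζ hb := by
  let T : IntermediateField FtM (LaurentSeries kB) :=
    (resRange B hB hqM hζ hb).toIntermediateField fun t => by
      obtain ⟨x, hx⟩ := (mem_kappaCan_iff B hB).1
        ((mem_kappaCan_iff_mem_fullC B hB hqM).2 t.2)
      exact ⟨⟨alpha2 M q (x : Fb (M * q)), (alpha2_mem_w2_iff B hB hqM hζ hb _).2 x.2⟩,
        (resw2_alpha2 B hB hqM hζ hb _ x.2).trans hx⟩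
  have hle : FMid M B ≤ T := by
    rw [FMid, IntermediateField.adjoin_simple_le_iff]
    exact ⟨_, resw2_Utilde B hB hqM hζ hb⟩
  exact hle hz

include hζ hb in
/-- every `ζ^{b'+1}` is a power of `ζ^{b+1}` -/
theorem exists_zeta_pow_eq {b' : ℕ} (hb' : b' < q - 1) :
    ∃ m : ℕ, ζ ^ (b' + 1) = (ζ ^ (b + 1)) ^ m := by
  haveI : NeZero q := ⟨hq.out.ne_zero⟩
  have hcop : Nat.Coprime (b + 1) q := by
    rw [Nat.coprime_comm]
    refine (Nat.Prime.coprime_iff_not_dvd hq.out).2 fun h => ?_
    have := Nat.le_of_dvd (Nat.succ_pos b) h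
    omega
  have hprim : IsPrimitiveRoot (ζ ^ (b + 1)) q := hζ.pow_of_coprime (b + 1) hcop
  obtain ⟨i, -, hi⟩ := hprim.eq_pow_of_mem_rootsOfUnity
    ((mem_rootsOfUnity q _).mpr (zeta_pow_pow hζ (b := b')))
  exact ⟨i, hi.symm⟩

include hB in
/-- **the residues of `w₂ b` lie in `F̃_M(θ j̃)`** -/
theorem resw2_mem_FMid (y : w2 B hB hqM hζ hb) : resw2 B hB hqM hζ hb y ∈ FMid M B := by
  letI := algebraAlong (alpha2 M q)
  haveI := finiteDimensional_alpha2 (M := M) (q := q)
  set i := midOf B hB hqM hζ ⟨b, hb⟩ with hi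
  have hyO : (y : Fb (M * q * q)) ∈ OAll B hB hqM hζ (some i) := y.2
  obtain ⟨c, hc, hd⟩ :=
    (fullAll B hB hqM hζ).exists_sum_smul_sub_mem_nonunits (some i) hyO
  set r := i.rep B hB hqM hζ with hr
  obtain ⟨m, hm⟩ := exists_zeta_pow_eq hζ r.2 hb
  obtain ⟨hUmem, hUres⟩ := resw2_Utilde_of_pow B hB hqM hζ (b := (r : ℕ)) hb m hm
  obtain ⟨hsmem, hsres⟩ := resw2_sum_smul_pow B hB hqM hζ hb c hc hUmem
  have hd' : (y : Fb (M * q * q)) -
      ∑ k, c k • Utilde M q ((ζ ^ ((r : ℕ) + 1) : Kbˣ) : Kb) ^ (k : ℕ) ∈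
        (w2 B hB hqM hζ hb).nonunits := hd
  have hdmem := mem_of_mem_nonunits _ hd'
  have h0 := (mem_nonunits_w2_iff B hB hqM hζ hb hdmem).1 hd'
  have h1 : (⟨_, hdmem⟩ : w2 B hB hqM hζ hb) = y - ⟨_, hsmem⟩ := Subtype.ext rfl
  rw [h1, map_sub, sub_eq_zero] at h0
  rw [h0, hsres]
  refine sum_mem fun k _ => mul_mem ?_ (pow_mem ?_ _)
  · exact fullC_le_FMid B ((mem_kappaCan_iff_mem_fullC B hB hqM).1 (res1_mem_kappaCan B hB _))
  · rw [hUres]
    exact mul_mem (thetaL_mem_FMid B) (C_mem_FMid B _)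

/-- **The residue map of the middle valuation `w₂ b`**, with values in `F̃_M(θ j̃)`. -/
def resMid : w2 B hB hqM hζ hb →+* FMid M B :=
  (resw2 B hB hqM hζ hb).codRestrict (FMid M B) (resw2_mem_FMid B hB hqM hζ hb)

@[simp]
theorem coe_resMid (x : w2 B hB hqM hζ hb) :
    ((resMid B hB hqM hζ hb x : FMid M B) : LaurentSeries kB) = resw2 B hB hqM hζ hb x := rfl

theorem resMid_surjective : Function.Surjective (resMid B hB hqM hζ hb) := by
  intro t
  obtain ⟨y, hy⟩ := FMid_le_resRange B hB hqM hζ hb t.2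
  exact ⟨y, Subtype.ext hy⟩

theorem resMid_eq_zero_iff (x : w2 B hB hqM hζ hb) :
    resMid B hB hqM hζ hb x = 0 ↔ ¬ IsUnit x := by
  rw [isUnit_iff_resw2_ne_zero, not_not]
  constructor
  · intro h
    exact congrArg Subtype.val h
  · intro h
    exact Subtype.ext h

theorem resMid_eq_zero_iff_mem_nonunits (x : w2 B hB hqM hζ hb) :
    resMid B hB hqM hζ hb x = 0 ↔ (x : Fb (M * q * q)) ∈ (w2 B hB hqM hζ hb).nonunits := by
  rw [mem_nonunits_w2_iff B hB hqM hζ hb x.2]
  constructor
  · intro h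
    exact congrArg Subtype.val h
  · intro h
    exact Subtype.ext h

/-- compatibility with the residue map of `can` along `α₂` -/
theorem resMid_alpha2 (x : Fb (M * q)) (hx : x ∈ O1 M B hB) :
    resMid B hB hqM hζ hb ⟨alpha2 M q x, (alpha2_mem_w2_iff B hB hqM hζ hb x).2 hx⟩ =
      algebraMap FtM (FMid M B) ((constRedW1 B hB hqM).res ⟨x, hx⟩) := by
  apply Subtype.ext
  rw [IntermediateField.coe_algebraMap_apply, IntermediateField.algebraMap_apply,
    coe_constRedW1_res]
  exact resw2_alpha2 B hB hqM hζ hb x hx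

theorem algebraMap_mem_w2_iff (c : Kb) :
    algebraMap Kb (Fb (M * q * q)) c ∈ w2 B hB hqM hζ hb ↔ c ∈ B := by
  have h1 : algebraMap Kb (Fb (M * q * q)) c = alpha2 M q (algebraMap Kb (Fb (M * q)) c) :=
    ((alpha2 M q).commutes c).symm
  rw [h1, alpha2_mem_w2_iff]
  exact Fermat.Agent.BR.Separate.algebraMap_mem_O1_iff B hB c

theorem resMid_algebraMap (a : Kb) (ha : a ∈ B)
    (ha' : algebraMap Kb (Fb (M * q * q)) a ∈ w2 B hB hqM hζ hb) :
    resMid B hB hqM hζ hb ⟨algebraMap Kb (Fb (M * q * q)) a, ha'⟩ =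
      algebraMap kB (FMid M B) (IsLocalRing.residue B ⟨a, ha⟩) := by
  apply Subtype.ext
  show resw2 B hB hqM hζ hb _ = algebraMap kB (LaurentSeries kB) _
  rw [algebraMap_laurentSeries_eq_single, ← HahnSeries.C_apply]
  exact resw2_algebraMap B hB hqM hζ hb ha

include hB in
/-- **The constant reduction `mid = w₂ b` of `F̄_{Mq²}`**, with residue field `F̃_M(θ j̃)`. -/
def constRedMid : ConstRed (F := Fb (M * q * q)) (Ft := FMid M B) B (IsLocalRing.residue B) where
  O := w2 B hB hqM hζ hb
  res := resMid B hB hqM hζ hb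
  res_surjective := resMid_surjective B hB hqM hζ hb
  res_eq_zero_iff := resMid_eq_zero_iff B hB hqM hζ hb
  algebraMap_mem_iff := algebraMap_mem_w2_iff B hB hqM hζ hb
  res_algebraMap := resMid_algebraMap B hB hqM hζ hb
  approx := by
    intro V hV y hy
    obtain ⟨w, hw, c, hc0, h, hne⟩ :=
      Fermat.Agent.BR3.MidApprox.approx_w2 B hB hqM hζ hb V hV y hy
    exact ⟨w, hw, c, hc0, h, fun z hz heq => hne z hz (congrArg Subtype.val heq)⟩

@[simp] theorem constRedMid_O : (constRedMid B hB hqM hζ hb).O = w2 B hB hqM hζ hb := rfl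

@[simp] theorem constRedMid_res :
    (constRedMid B hB hqM hζ hb).res = resMid B hB hqM hζ hb := rfl

/-! #### Degree and separability of `F̃_M(θ j̃) / F̃_M` -/

include hB hqM in
/-- `θ j̃` is integral over `F̃_M`, and its minimal polynomial has degree `fMid`. -/
theorem natDegree_minpoly_fullC :
    IsIntegral FtM (thetaL kB (jqModC kB)) ∧
      (minpoly FtM (thetaL kB (jqModC kB))).natDegree = fMid M B hB := by
  set θ := thetaL kB (jqModC kB) with hθ
  let φ : kappaCan M B hB →+* FtM :=
    (kappaCan M B hB).subtype.codRestrict FtM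
      (fun x => (mem_kappaCan_iff_mem_fullC B hB hqM).1 x.2)
  let ψ : FtM →+* kappaCan M B hB :=
    ((algebraMap FtM (LaurentSeries kB)).codRestrict (kappaCan M B hB)
      (fun x => (mem_kappaCan_iff_mem_fullC B hB hqM).2 x.2))
  have hφ : (algebraMap FtM (LaurentSeries kB)).comp φ =
      algebraMap (kappaCan M B hB) (LaurentSeries kB) := RingHom.ext fun _ => rfl
  have hψ : (algebraMap (kappaCan M B hB) (LaurentSeries kB)).comp ψ =
      algebraMap FtM (LaurentSeries kB) := RingHom.ext fun _ => rfl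
  have hint := isIntegral_thetaL B hB hqM
  have h1 : aeval θ ((minpoly (kappaCan M B hB) θ).map φ) = 0 := by
    rw [aeval_def, eval₂_map, hφ, ← aeval_def, minpoly.aeval]
  have hint' : IsIntegral FtM θ := ⟨_, (minpoly.monic hint).map φ, h1⟩
  have h2 : aeval θ ((minpoly FtM θ).map ψ) = 0 := by
    rw [aeval_def, eval₂_map, hψ, ← aeval_def, minpoly.aeval]
  refine ⟨hint', le_antisymm ?_ ?_⟩
  · have := natDegree_le_natDegree (minpoly.min FtM θ ((minpoly.monic hint).map φ) h1)
    rwa [(minpoly.monic hint).natDegree_map] at this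
  · have := natDegree_le_natDegree
      (minpoly.min (kappaCan M B hB) θ ((minpoly.monic hint').map ψ) h2)
    rwa [(minpoly.monic hint').natDegree_map] at this

include hB hqM in
/-- **`[F̃_M(θ j̃) : F̃_M] = fMid`** -/
theorem finrank_FMid : Module.finrank FtM (FMid M B) = fMid M B hB := by
  obtain ⟨hint, hdeg⟩ := natDegree_minpoly_fullC B hB hqM
  rw [FMid, IntermediateField.adjoin.finrank hint, hdeg]

include hB hqM in
theorem finiteDimensional_FMid : FiniteDimensional FtM (FMid M B) :=
  IntermediateField.adjoin.finiteDimensional (natDegree_minpoly_fullC B hB hqM).1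

include hB hqM in
/-- `F̃_M(θ j̃) / F̃_M` is separable (a Kummer extension of degree prime to `q`). -/
theorem isSeparable_FMid : Algebra.IsSeparable FtM (FMid M B) := by
  haveI := charP_kB B hB
  haveI : CharP FtM q := charP_of_injective_algebraMap (algebraMap kB FtM).injective q
  obtain ⟨ζ₀, hζ₀⟩ := HasEnoughRootsOfUnity.exists_primitiveRoot Kb q
  have hζu : IsPrimitiveRoot (hζ₀.isUnit (NeZero.ne q)).unit q := by
    rw [← IsPrimitiveRoot.coe_units_iff]
    exact hζ₀
  obtain ⟨g, hg, hres⟩ := exists_res1_eq_thetaL_pow B hB hqM hζu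
  have hγmem : thetaL kB (jqModC kB) ^ (q - 1) ∈ FtM := by
    rw [← hres]
    exact (mem_kappaCan_iff_mem_fullC B hB hqM).1 (res1_mem_kappaCan B hB _)
  set γ : FtM := ⟨_, hγmem⟩ with hγ
  have hγ0 : γ ≠ 0 := by
    intro h
    have h1 : thetaL kB (jqModC kB) ^ (q - 1) = 0 := congrArg Subtype.val h
    exact thetaL_jqModC_ne_zero B (pow_eq_zero_iff (by have := hq.out.two_le; omega) |>.1 h1)
  have hq1 : ¬ q ∣ q - 1 := fun h => by
    have h1 := Nat.le_of_dvd (by have := hq.out.two_le; omega) h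
    have := hq.out.two_le
    omega
  have hsep : (X ^ (q - 1) - Polynomial.C γ : FtM[X]).Separable :=
    separable_X_pow_sub_C' q (q - 1) γ hq1 hγ0
  have hroot : aeval (thetaL kB (jqModC kB)) (X ^ (q - 1) - Polynomial.C γ : FtM[X]) = 0 := by
    rw [map_sub, map_pow, aeval_X, aeval_C]
    exact sub_self _
  have hsepθ : IsSeparable FtM (thetaL kB (jqModC kB)) :=
    hsep.of_dvd (minpoly.dvd FtM _ hroot)
  exact (IntermediateField.isSeparable_adjoin_simple_iff_isSeparable FtM _).2 hsepθ

/-! #### The Kummer generator and the Galois action in `F̃_M(θ j̃)` -/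

/-- the Kummer generator of `F̃_M(θ j̃)` -/
def thetaMid : FMid M B := ⟨thetaL kB (jqModC kB), thetaL_mem_FMid B⟩

include hB in
theorem resMid_Utilde :
    resMid B hB hqM hζ hb
        ⟨Utilde M q ((ζ ^ (b + 1) : Kbˣ) : Kb), Utilde_mem_w2 B hB hqM hζ hb⟩ = thetaMid B :=
  Subtype.ext (resw2_Utilde B hB hqM hζ hb)

theorem adjoin_thetaMid :
    IntermediateField.adjoin FtM {(thetaMid (M := M) B : FMid M B)} = ⊤ := by
  apply IntermediateField.map_injective (FMid M B).val
  rw [IntermediateField.adjoin_map, Set.image_singleton, ← AlgHom.fieldRange_eq_map,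
    IntermediateField.fieldRange_val]
  rfl

/-- inertia elements with `σ (ζ^{b'+1}) = ζ^{b+1}` are compatible with the residue maps -/
theorem resMid_gal_smul_of_mem_inertia {σ : Kb ≃ₐ[ℚ] Kb} (hσ : σ ∈ B.inertiaSubgroupIn ℚ)
    {b' : ℕ} (hb' : b' < q - 1)
    (h : σ ((ζ ^ (b' + 1) : Kbˣ) : Kb) = ((ζ ^ (b + 1) : Kbˣ) : Kb))
    (y : w2 B hB hqM hζ hb') :
    resMid B hB hqM hζ hb ⟨gal (M * q * q) σ • (y : Fb (M * q * q)),
        (gal_smul_mem_w2_iff B hB hqM hζ (mem_decomposition_of_mem_inertiaIn hσ) hb hb'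
          h).mpr y.2⟩ = resMid B hB hqM hζ hb' y :=
  Subtype.ext (resw2_gal_smul_of_mem_inertia B hB hqM hζ hσ hb hb' h y)

end MidField

end Fermat.Agent.BR3.FibreProd
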