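/-
Program C (S36), node (C-E7q), part 1 (helper15): the two degeneracy correspondences
`E_α = α^* α_*`, `E_β = β^* β_*` of the level `N q` for a prime `q ∣ N` (index `q`), on
`Hom(Γ₀(N q), A)` and on the lattice `Λ(N q) = Hom_par(Γ₀(N q), ℤ)`.  Counterpart of `LR/DegMaps`,
`LR/DegHecke` (`T_B1`), `BR2/DegTransfer` (all for `q ∤ N`).

* `sq N q j = [1, 0; N j, 1]` (`j : ZMod q`), `exists_eq_mul_sq` (covering), `eq_of_sq_eq_mul`;
  `corSysQ`, `corFamQ : CosetFam (embG (N q)) (embG N) (ZMod q)`; `B1q` (corestriction);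
* `T_B1q` : `T_l ∘ B1q = B1q ∘ T_l` for every prime `l ∤ N q`;
* `DalphaQ : CosetReps (embG (N q)) (ZMod q)` with `DalphaQ_transfer : transfer = A1 ∘ B1q`;
* `frickeOp N A` (`φ ↦ φ ∘ w_N`), `heckeTransfer_frickeOp` (`l ∤ N`), `frickeLam`, `frickeLam_TLam`;
* `DbetaQ := DalphaQ.conj (frickeEquiv (N q)) (frickeGL (N q))` (representatives
  `w s_j w⁻¹ = [1, -j/q; 0, 1]`), `DbetaQ_transfer`, `DalphaQ_isRatPos`, `DbetaQ_isRatPos`;
* `B1qLam`, `EalphaLamQ = A1Lam ∘ B1qLam`, `EbetaLamQ = frickeLam ∘ EalphaLamQ ∘ frickeLam`,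
  `coe_EalphaLamQ`, `coe_EbetaLamQ` (transfers of `DalphaQ`, `DbetaQ`);
* `EalphaLamQ_lift_eq_zero`, `EbetaLamQ_lift_eq_zero` : a noncommutative polynomial in the `T_l`
  (`l ∤ N q`) which vanishes on `Λ(N)` is killed at the level `N q` by `E_α` and `E_β`.
-/
import Mathlib
import Fermat.Agent.LR.DegHecke
import Fermat.Agent.LR.DegLam
import Fermat.Agent.Jac.HeckeProd
import Fermat.Agent.BR2.DegTransfer

set_option autoImplicit false
set_option linter.unusedSectionVars false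
set_option linter.unusedSimpArgs false
set_option linter.style.haveILetI false
set_option linter.unusedVariables false

namespace Fermat.Agent.BR3.DegQ

open Matrix.SpecialLinearGroup CongruenceSubgroup ModularForm Fermat.Agent.Jac
open scoped MatrixGroups
open Fermat.Agent.LR Fermat.Agent.LR.Deg Fermat.Agent.LR.DegMat Fermat.Agent.Jac.RepsDecomp
open P2MW.S_ModularForm_heckeT_slash_eq_self_of_mem_Gamma0.ModularForm.HeckeSlashInvariance

/-! ### Elementary lemmas -/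

/-- two elements of `Γ₀(N)` with the same entries are equal -/
theorem gamma0_ext {N : ℕ} {γ γ' : Gamma0 N}
    (h00 : (γ : SL(2, ℤ)) 0 0 = (γ' : SL(2, ℤ)) 0 0)
    (h01 : (γ : SL(2, ℤ)) 0 1 = (γ' : SL(2, ℤ)) 0 1)
    (h10 : (γ : SL(2, ℤ)) 1 0 = (γ' : SL(2, ℤ)) 1 0)
    (h11 : (γ : SL(2, ℤ)) 1 1 = (γ' : SL(2, ℤ)) 1 1) : γ = γ' := by
  apply Subtype.ext
  apply Matrix.SpecialLinearGroup.ext
  intro i j
  fin_cases i <;> fin_cases j
  · exact h00
  · exact h01
  · exact h10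
  · exact h11

theorem sl_mul_apply (A B : SL(2, ℤ)) (i j : Fin 2) :
    (A * B) i j = A i 0 * B 0 j + A i 1 * B 1 j := by
  rw [Matrix.SpecialLinearGroup.coe_mul, Matrix.mul_apply, Fin.sum_univ_two]

/-- solving `c ≡ d j (mod q)` when `q ∤ d` -/
theorem exists_zmod_dvd_sub {q : ℕ} (hq : q.Prime) (c d : ℤ) (hd : ¬ (q : ℤ) ∣ d) :
    ∃ j : ZMod q, (q : ℤ) ∣ c - d * (j.val : ℤ) := by
  haveI : Fact q.Prime := ⟨hq⟩
  have hd' : (d : ZMod q) ≠ 0 := fun h => hd ((ZMod.intCast_zmod_eq_zero_iff_dvd d q).mp h)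
  refine ⟨(c : ZMod q) * (d : ZMod q)⁻¹, ?_⟩
  rw [← ZMod.intCast_zmod_eq_zero_iff_dvd]
  push_cast
  rw [ZMod.natCast_zmod_val, mul_comm (c : ZMod q), ← mul_assoc, mul_inv_cancel₀ hd', one_mul,
    sub_self]

/-- the diagonal entries of an element of `Γ₀(N)` are prime to every prime dividing `N` -/
theorem not_dvd_one_one {N q : ℕ} (hq : q.Prime) (hqN : q ∣ N) (γ : Gamma0 N) :
    ¬ (q : ℤ) ∣ (γ : SL(2, ℤ)) 1 1 := by
  intro h
  have hc : (q : ℤ) ∣ (γ : SL(2, ℤ)) 1 0 :=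
    (Int.natCast_dvd_natCast.mpr hqN).trans (gamma0_dvd N γ)
  have hdet := det_eq (γ : SL(2, ℤ))
  have h1 : (q : ℤ) ∣ 1 := by
    rw [← hdet]
    exact dvd_sub (Dvd.dvd.mul_left h _) (Dvd.dvd.mul_left hc _)
  have hq' : Prime (q : ℤ) := Nat.prime_iff_prime_int.mp hq
  exact hq'.not_isUnit (isUnit_of_dvd_one h1)

/-! ### The coset system of `Γ₀(N q) \ Γ₀(N)` for `q ∣ N` -/

section Cor

variable (N q : ℕ) [NeZero N] [NeZero q]

/-- the representative `[1, 0; N j, 1]` of the coset of `Γ₀(N q) \ Γ₀(N)` attached to `j mod q` -/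
def sq (j : ZMod q) : Gamma0 N :=
  mkGamma0 N 1 0 ((N : ℤ) * (j.val : ℤ)) 1 (by ring) (dvd_mul_right _ _)

@[simp] theorem sq_zero_zero (j : ZMod q) : ((sq N q j : Gamma0 N) : SL(2, ℤ)) 0 0 = 1 := rfl
@[simp] theorem sq_zero_one (j : ZMod q) : ((sq N q j : Gamma0 N) : SL(2, ℤ)) 0 1 = 0 := rfl
@[simp] theorem sq_one_zero (j : ZMod q) :
    ((sq N q j : Gamma0 N) : SL(2, ℤ)) 1 0 = (N : ℤ) * (j.val : ℤ) := rfl
@[simp] theorem sq_one_one (j : ZMod q) : ((sq N q j : Gamma0 N) : SL(2, ℤ)) 1 1 = 1 := rfl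

theorem sq_zero : sq N q (0 : ZMod q) = 1 := by
  refine gamma0_ext ?_ ?_ ?_ ?_
  · simp
  · simp
  · rw [sq_one_zero, ZMod.val_zero]; simp
  · simp

variable {N q}

/-- the decomposition `g = γ' s_j` of an element of `Γ₀(N)` -/
theorem exists_eq_mul_sq (hq : q.Prime) (hqN : q ∣ N) (g : Gamma0 N) :
    ∃ (γ' : Gamma0 (N * q)) (j : ZMod q), g = inclHom N q γ' * sq N q j := by
  obtain ⟨c, hc⟩ := gamma0_dvd N g
  obtain ⟨j, k, hk⟩ := exists_zmod_dvd_sub hq c ((g : SL(2, ℤ)) 1 1) (not_dvd_one_one hq hqN g)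
  have hdet := det_eq (g : SL(2, ℤ))
  have hdet' : ((g : SL(2, ℤ)) 0 0 - (g : SL(2, ℤ)) 0 1 * ((N : ℤ) * (j.val : ℤ))) *
      (g : SL(2, ℤ)) 1 1 - (g : SL(2, ℤ)) 0 1 *
        ((g : SL(2, ℤ)) 1 0 - (g : SL(2, ℤ)) 1 1 * ((N : ℤ) * (j.val : ℤ))) = 1 := by
    linear_combination hdet
  have hdvd : ((N * q : ℕ) : ℤ) ∣
      (g : SL(2, ℤ)) 1 0 - (g : SL(2, ℤ)) 1 1 * ((N : ℤ) * (j.val : ℤ)) := by
    refine ⟨k, ?_⟩
    rw [hc]
    push_cast
    linear_combination (N : ℤ) * hk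
  refine ⟨mkGamma0 (N * q) _ _ _ _ hdet' hdvd, j, ?_⟩
  refine gamma0_ext ?_ ?_ ?_ ?_
  · rw [Subgroup.coe_mul, sl_mul_apply, coe_inclHom]
    show _ = ((g : SL(2, ℤ)) 0 0 - (g : SL(2, ℤ)) 0 1 * ((N : ℤ) * (j.val : ℤ))) * 1 +
      (g : SL(2, ℤ)) 0 1 * ((N : ℤ) * (j.val : ℤ))
    ring
  · rw [Subgroup.coe_mul, sl_mul_apply, coe_inclHom]
    show _ = ((g : SL(2, ℤ)) 0 0 - (g : SL(2, ℤ)) 0 1 * ((N : ℤ) * (j.val : ℤ))) * 0 +
      (g : SL(2, ℤ)) 0 1 * 1
    ring
  · rw [Subgroup.coe_mul, sl_mul_apply, coe_inclHom]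
    show _ = ((g : SL(2, ℤ)) 1 0 - (g : SL(2, ℤ)) 1 1 * ((N : ℤ) * (j.val : ℤ))) * 1 +
      (g : SL(2, ℤ)) 1 1 * ((N : ℤ) * (j.val : ℤ))
    ring
  · rw [Subgroup.coe_mul, sl_mul_apply, coe_inclHom]
    show _ = ((g : SL(2, ℤ)) 1 0 - (g : SL(2, ℤ)) 1 1 * ((N : ℤ) * (j.val : ℤ))) * 0 +
      (g : SL(2, ℤ)) 1 1 * 1
    ring

/-- two representatives in the same coset are equal -/
theorem eq_of_sq_eq_mul {i j : ZMod q} {γ' : Gamma0 (N * q)}
    (h : sq N q i = inclHom N q γ' * sq N q j) : i = j := by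
  have h11 := congrArg (fun g : Gamma0 N => (g : SL(2, ℤ)) 1 1) h
  have h10 := congrArg (fun g : Gamma0 N => (g : SL(2, ℤ)) 1 0) h
  simp only [Subgroup.coe_mul, sl_mul_apply, coe_inclHom, sq_one_one, sq_zero_one, sq_one_zero,
    sq_zero_zero, mul_zero, mul_one, zero_add] at h11 h10
  obtain ⟨c, hc⟩ := gamma0_dvd (N * q) γ'
  rw [hc, ← h11] at h10
  push_cast at h10
  have hN : (N : ℤ) ≠ 0 := by exact_mod_cast NeZero.ne N
  have h2 : ((i.val : ℤ)) - (j.val : ℤ) = (q : ℤ) * c := by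
    have : (N : ℤ) * ((i.val : ℤ) - (j.val : ℤ)) = (N : ℤ) * ((q : ℤ) * c) := by
      linear_combination h10
    exact mul_left_cancel₀ hN this
  have h3 : ((i.val : ℤ) : ZMod q) = ((j.val : ℤ) : ZMod q) := by
    rw [ZMod.intCast_eq_intCast_iff_dvd_sub]
    exact ⟨-c, by linear_combination -h2⟩
  simpa using h3

end Cor

section Sys

variable (N q : ℕ) [NeZero N] [NeZero q] (hq : q.Prime) (hqN : q ∣ N)

/-- **The coset system of `Γ₀(N q) \ Γ₀(N)`** for a prime `q ∣ N`, indexed by `ℤ/q`. -/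
noncomputable def corSysQ : CosetSys (embG (N * q)) (embG N) (ZMod q) where
  rep j := embG N (sq N q j)
  emb_injective := embG_injective (N * q)
  stable γ i := by
    obtain ⟨γ', j, h⟩ := exists_eq_mul_sq hq hqN (sq N q i * γ)
    refine ⟨γ', j, ?_⟩
    rw [← map_mul, h, map_mul, embG_inclHom]
  distinct i j γ' h := by
    refine eq_of_sq_eq_mul (γ' := γ') (embG_injective N ?_)
    rw [map_mul, embG_inclHom]
    exact h

@[simp] theorem corSysQ_rep (j : ZMod q) :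
    (corSysQ N q hq hqN).rep j = embG N (sq N q j) := rfl

/-- the corestriction family -/
noncomputable def corFamQ : CosetFam (embG (N * q)) (embG N) (ZMod q) :=
  (corSysQ N q hq hqN).toFam

@[simp] theorem corFamQ_rep (j : ZMod q) :
    (corFamQ N q hq hqN).rep j = embG N (sq N q j) := rfl

theorem corFamQ_distinct : (corFamQ N q hq hqN).Distinct := (corSysQ N q hq hqN).toFam_distinct

/-- **Corestriction** `Hom(Γ₀(N q), A) → Hom(Γ₀(N), A)` for `q ∣ N`. -/
noncomputable def B1q (A : Type*) [AddCommGroup A] :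
    (Additive (Gamma0 (N * q)) →+ A) →+ (Additive (Gamma0 N) →+ A) :=
  (corFamQ N q hq hqN).transfer

theorem B1q_eq (A : Type*) [AddCommGroup A] :
    B1q N q hq hqN A = (corFamQ N q hq hqN).transfer := rfl

/-- **The coset system of `E_α = res ∘ cores`** at the level `N q`. -/
noncomputable def DalphaQ : CosetReps (embG (N * q)) (ZMod q) where
  rep j := embG N (sq N q j)
  emb_injective := embG_injective (N * q)
  stable γ j := (corSysQ N q hq hqN).stable (inclHom N q γ) j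
  distinct := (corSysQ N q hq hqN).distinct

@[simp] theorem DalphaQ_rep (j : ZMod q) :
    (DalphaQ N q hq hqN).rep j = embG N (sq N q j) := rfl

theorem DalphaQ_isRatPos : (DalphaQ N q hq hqN).IsRatPos :=
  ⟨fun x => det_mapGL_pos _, fun x => mapGL_mem_ratGL _⟩

variable {A : Type*} [AddCommGroup A]

/-- **`DalphaQ` computes `res ∘ cores`.** -/
theorem DalphaQ_transfer (φ : Additive (Gamma0 (N * q)) →+ A) :
    (DalphaQ N q hq hqN).transfer φ = A1 N q A (B1q N q hq hqN A φ) := by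
  refine AddMonoidHom.ext fun γ' => ?_
  obtain ⟨γ, rfl⟩ := Additive.ofMul.surjective γ'
  rw [A1_apply, B1q_eq, CosetFam.transfer_apply]
  exact (DalphaQ N q hq hqN).transfer_apply_of_rel φ γ
    (fun x => (corFamQ N q hq hqN).coc (inclHom N q γ) x)
    (fun x => (corFamQ N q hq hqN).next (inclHom N q γ) x)
    (fun x => (corFamQ N q hq hqN).rel (inclHom N q γ) x)

end Sys

/-! ### Hecke equivariance of the corestriction, `l ∤ N q` -/

section Hecke

/-- If `α_u r = γ' α_u'` with `r ∈ Γ₀(N)`, `γ' ∈ Γ₀(N q)` and `l ∤ N q`, then `N q ∣ r₁₀`. -/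
theorem mul_dvd_of_heckeRep_mul_eq {N q l : ℕ} (hl : l.Prime) (hlNq : ¬ l ∣ N * q)
    (u u' : OnePoint (ZMod l)) (r : Gamma0 N) (γ' : Gamma0 (N * q))
    (h : heckeRep l u * embG N r = embG (N * q) γ' * heckeRep l u') :
    ((N * q : ℕ) : ℤ) ∣ (r : SL(2, ℤ)) 1 0 := by
  obtain ⟨a, b, d, had, hA⟩ := exists_val_heckeRep hl.ne_zero u
  obtain ⟨a', b', d', had', hA'⟩ := exists_val_heckeRep hl.ne_zero u'
  have h1 := one_zero_of_upper_mul_eq (a := a) (b := b) (d := d) (a' := a') (b' := b') (d' := d')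
    (by simpa using hA) (by simpa using hA') (r : SL(2, ℤ)) (γ' : SL(2, ℤ)) h
  have h2 : ((N * q : ℕ) : ℤ) ∣ (d : ℤ) * (r : SL(2, ℤ)) 1 0 := by
    rw [h1]
    exact Dvd.dvd.mul_right (gamma0_dvd (N * q) γ') _
  have hcop : Nat.Coprime (N * q) d := by
    have h3 : Nat.Coprime l (N * q) := (Nat.Prime.coprime_iff_not_dvd hl).mpr hlNq
    exact (Nat.Coprime.coprime_dvd_left (Dvd.intro_left a had) h3).symm
  exact (Nat.isCoprime_iff_coprime.mpr hcop).dvd_of_dvd_mul_left h2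

variable (N q : ℕ) [NeZero N] [NeZero q] [NeZero (N * q)] (hq : q.Prime) (hqN : q ∣ N)
variable {M : Type*} [AddCommGroup M]

/-- two representatives whose quotient lies in `Γ₀(N q)` have the same index -/
theorem eq_of_sq_mul_inv_dvd {x y : ZMod q}
    (h : ((N * q : ℕ) : ℤ) ∣ ((sq N q x * (sq N q y)⁻¹ : Gamma0 N) : SL(2, ℤ)) 1 0) :
    x = y := by
  have hmem : ((sq N q x * (sq N q y)⁻¹ : Gamma0 N) : SL(2, ℤ)) ∈ Gamma0 (N * q) := by
    rw [Gamma0_mem, ZMod.intCast_zmod_eq_zero_iff_dvd]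
    exact h
  refine eq_of_sq_eq_mul (γ' := liftGamma0 N q _ hmem) ?_
  rw [inclHom_liftGamma0, inv_mul_cancel_right]

/-- `T_l ∘ B1q = B1q ∘ T_l`, `l ∤ N q` -/
theorem T_B1q (l : Nat.Primes) (hl : ¬ (l : ℕ) ∣ N * q)
    (ψ : Additive (Gamma0 (N * q)) →+ M) :
    heckeTransfer N l M (B1q N q hq hqN M ψ) = B1q N q hq hqN M (heckeTransfer (N * q) l M ψ) := by
  haveI : NeZero (l : ℕ) := ⟨l.2.ne_zero⟩
  have hlN : ¬ (l : ℕ) ∣ N := DegHecke.not_dvd_left_of_not_dvd_mul N q hl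
  rw [heckeTransfer_of_not_dvd M hl, heckeTransfer_of_not_dvd M hlN,
    ← CosetFam.transfer_ofReps, ← CosetFam.transfer_ofReps, B1q_eq,
    ← CosetFam.transfer_compFam, ← CosetFam.transfer_compFam]
  set TN := TReps N l.2 hlN with hTN
  set TNq := TReps (N * q) l.2 hl with hTNq
  have TN_rep : ∀ u, TN.rep u = heckeRep l u := fun u => rfl
  have TNq_rep : ∀ u, TNq.rep u = heckeRep l u := fun u => rfl
  -- the family of `T_l ∘ B1q` is distinct
  have hD : ((corFamQ N q hq hqN).comp (CosetFam.ofReps TN)).Distinct := by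
    refine ⟨embG_injective (N * q), ?_⟩
    rintro ⟨x, u⟩ ⟨y, v⟩ γ h
    simp only [CosetFam.comp_rep, CosetFam.ofReps_rep, corFamQ_rep, TN_rep] at h
    have huv : u = v := by
      refine TN.distinct u v ((sq N q x)⁻¹ * inclHom N q γ * sq N q y) ?_
      rw [TN_rep, TN_rep, map_mul, map_mul, map_inv, embG_inclHom, mul_assoc, mul_assoc,
        eq_inv_mul_iff_mul_eq]
      exact h
    subst huv
    have hxy : x = y := by
      refine (corSysQ N q hq hqN).distinct x y γ ?_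
      rw [corSysQ_rep, corSysQ_rep]
      rw [← mul_assoc] at h
      exact mul_right_cancel h
    rw [hxy]
  -- the cosets of the family of `B1q ∘ T_l` are distinct
  have hF : ∀ (i j : OnePoint (ZMod l) × ZMod q) (γ : Gamma0 (N * q)),
      ((CosetFam.ofReps TNq).comp (corFamQ N q hq hqN)).rep i =
        embG (N * q) γ * ((CosetFam.ofReps TNq).comp (corFamQ N q hq hqN)).rep j → i = j := by
    rintro ⟨u, x⟩ ⟨v, y⟩ γ h
    simp only [CosetFam.comp_rep, CosetFam.ofReps_rep, corFamQ_rep, TNq_rep] at h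
    have h1 : heckeRep l u * embG N (sq N q x * (sq N q y)⁻¹) =
        embG (N * q) γ * heckeRep l v := by
      rw [map_mul, map_inv, ← mul_assoc, h, mul_assoc, mul_assoc, mul_inv_cancel, mul_one]
    have hxy : x = y :=
      eq_of_sq_mul_inv_dvd N q (mul_dvd_of_heckeRep_mul_eq l.2 hl u v _ γ h1)
    subst hxy
    have huv : u = v := by
      refine TNq.distinct u v γ ?_
      rw [TNq_rep, TNq_rep]
      rw [← mul_assoc] at h
      exact mul_right_cancel h
    rw [huv]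
  -- the matching
  have hmatch : ∀ i : OnePoint (ZMod l) × ZMod q,
      ∃ (k : ZMod q × OnePoint (ZMod l)) (g : Gamma0 (N * q)),
        ((CosetFam.ofReps TNq).comp (corFamQ N q hq hqN)).rep i =
          1 * embG (N * q) g * ((corFamQ N q hq hqN).comp (CosetFam.ofReps TN)).rep k := by
    rintro ⟨u, x⟩
    obtain ⟨γ', x', hγ'⟩ := exists_eq_mul_sq hq hqN (TN.coc (sq N q x) u)
    refine ⟨(x', TN.next (sq N q x) u), γ', ?_⟩
    simp only [CosetFam.comp_rep, CosetFam.ofReps_rep, corFamQ_rep, TNq_rep, TN_rep, one_mul]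
    have hrel := TN.rel (sq N q x) u
    rw [TN_rep, TN_rep] at hrel
    rw [hrel, hγ', map_mul, embG_inclHom, mul_assoc]
  choose e g hg using hmatch
  have key := CosetFam.transfer_eq_of_card (M := M)
    ((CosetFam.ofReps TNq).comp (corFamQ N q hq hqN))
    ((corFamQ N q hq hqN).comp (CosetFam.ofReps TN)) hD hF
    (by rw [Fintype.card_prod, Fintype.card_prod, mul_comm]) 1 (fun γ => by simp) e g hg
  rw [key]

end Hecke

/-! ### The Fricke operator -/

section Fricke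

open ModularCurve.Period

variable (N : ℕ) [NeZero N]

/-- the Fricke operator `φ ↦ φ ∘ w_N` on `Hom(Γ₀(N), A)` -/
noncomputable def frickeOp (A : Type*) [AddCommGroup A] :
    (Additive (Gamma0 N) →+ A) →+ (Additive (Gamma0 N) →+ A) where
  toFun φ := φ.comp (MonoidHom.toAdditive (frickeEquiv N).toMonoidHom)
  map_zero' := rfl
  map_add' φ ψ := rfl

variable {A : Type*} [AddCommGroup A]

theorem frickeOp_eq (φ : Additive (Gamma0 N) →+ A) :
    frickeOp N A φ = φ.comp (MonoidHom.toAdditive (frickeEquiv N).toMonoidHom) := rfl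

@[simp] theorem frickeOp_apply (φ : Additive (Gamma0 N) →+ A) (γ : Gamma0 N) :
    frickeOp N A φ (Additive.ofMul γ) = φ (Additive.ofMul (frickeEquiv N γ)) := rfl

@[simp] theorem frickeOp_frickeOp (φ : Additive (Gamma0 N) →+ A) :
    frickeOp N A (frickeOp N A φ) = φ := by
  refine AddMonoidHom.ext fun γ' => ?_
  obtain ⟨γ, rfl⟩ := Additive.ofMul.surjective γ'
  rw [frickeOp_apply, frickeOp_apply, frickeEquiv_frickeEquiv]

theorem frickeOp_mem_parabolicHoms (R : Type*) [Semiring R] [Module R A]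
    {φ : Additive (Gamma0 N) →+ A} (hφ : φ ∈ parabolicHoms R (Gamma0 N) A) :
    frickeOp N A φ ∈ parabolicHoms R (Gamma0 N) A := by
  rw [mem_parabolicHoms_iff] at hφ ⊢
  intro γ hγ
  rw [frickeOp_apply]
  refine hφ (frickeEquiv N γ) ?_
  rw [trace_frickeEquiv]
  exact hγ

/-- `T_l` commutes with the Fricke operator, `l ∤ N` -/
theorem heckeTransfer_frickeOp (l : Nat.Primes) (hl : ¬ (l : ℕ) ∣ N)
    (φ : Additive (Gamma0 N) →+ A) :
    heckeTransfer N l A (frickeOp N A φ) = frickeOp N A (heckeTransfer N l A φ) := by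
  rw [frickeOp_eq, heckeTransfer_comp_fricke, heckeTransferClassical_of_not_dvd A hl,
    heckeTransfer_of_not_dvd A hl, frickeOp_eq]

/-- the Fricke operator on the lattice -/
noncomputable def frickeLam : Lam N →ₗ[ℤ] Lam N :=
  (frickeOp N ℤ).toIntLinearMap.restrict (fun _ hφ => frickeOp_mem_parabolicHoms N ℤ hφ)

@[simp] theorem coe_frickeLam (x : Lam N) :
    ((frickeLam N x : Lam N) : Additive (Gamma0 N) →+ ℤ) = frickeOp N ℤ x := rfl

@[simp] theorem frickeLam_frickeLam (x : Lam N) : frickeLam N (frickeLam N x) = x := by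
  apply Subtype.ext
  rw [coe_frickeLam, coe_frickeLam, frickeOp_frickeOp]

theorem frickeLam_TLam (l : Nat.Primes) (hl : ¬ (l : ℕ) ∣ N) (x : Lam N) :
    frickeLam N (TLam N l x) = TLam N l (frickeLam N x) := by
  apply Subtype.ext
  rw [coe_frickeLam, coe_TLam_apply, coe_TLam_apply, coe_frickeLam, heckeTransfer_frickeOp N l hl]

end Fricke

/-! ### The coset system of `E_β` and the operators on the lattice -/

section Beta

open ModularCurve.Period

variable (N q : ℕ) [NeZero N] [NeZero q] [NeZero (N * q)] (hq : q.Prime) (hqN : q ∣ N)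

/-- **The coset system of `E_β`**: the conjugate of `DalphaQ` by the Fricke matrix of the level
`N q` (representatives `w s_j w⁻¹ = [1, -j/q; 0, 1]`). -/
noncomputable def DbetaQ : CosetReps (embG (N * q)) (ZMod q) :=
  (DalphaQ N q hq hqN).conj (frickeEquiv (N * q)) (frickeGL (N * q)) (embG_frickeEquiv (N * q))

@[simp] theorem DbetaQ_rep (j : ZMod q) :
    (DbetaQ N q hq hqN).rep j =
      frickeGL (N * q) * embG N (sq N q j) * (frickeGL (N * q))⁻¹ := rfl

variable {A : Type*} [AddCommGroup A]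

/-- **`DbetaQ` computes the Fricke conjugate of `res ∘ cores`.** -/
theorem DbetaQ_transfer (φ : Additive (Gamma0 (N * q)) →+ A) :
    (DbetaQ N q hq hqN).transfer φ =
      frickeOp (N * q) A ((DalphaQ N q hq hqN).transfer (frickeOp (N * q) A φ)) := by
  refine AddMonoidHom.ext fun γ' => ?_
  obtain ⟨γ, rfl⟩ := Additive.ofMul.surjective γ'
  have h1 := (DalphaQ N q hq hqN).transfer_conj (frickeEquiv (N * q)) (frickeGL (N * q))
    (embG_frickeEquiv (N * q)) φ (frickeEquiv (N * q) γ)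
  rw [frickeEquiv_frickeEquiv] at h1
  rw [frickeOp_apply]
  exact h1

/-- the corestriction on the lattices -/
noncomputable def B1qLam : Lam (N * q) →ₗ[ℤ] Lam N :=
  ((B1q N q hq hqN ℤ).toIntLinearMap.domRestrict (Lam (N * q))).codRestrict (Lam N)
    (fun x => transfer_mem_parabolicHoms' _ ℤ int_torsionFree x.2)

@[simp] theorem coe_B1qLam (y : Lam (N * q)) :
    ((B1qLam N q hq hqN y : Lam N) : Additive (Gamma0 N) →+ ℤ) = B1q N q hq hqN ℤ y := rfl

theorem B1qLam_TLam (l : Nat.Primes) (hl : ¬ (l : ℕ) ∣ N * q) (y : Lam (N * q)) :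
    B1qLam N q hq hqN (TLam (N * q) l y) = TLam N l (B1qLam N q hq hqN y) := by
  apply Subtype.ext
  exact (T_B1q N q hq hqN l hl (y : Additive (Gamma0 (N * q)) →+ ℤ)).symm

/-- `E_α = res ∘ cores` on `Λ(N q)`, `q ∣ N` -/
noncomputable def EalphaLamQ : Lam (N * q) →ₗ[ℤ] Lam (N * q) :=
  (A1Lam N q).comp (B1qLam N q hq hqN)

/-- `E_β` on `Λ(N q)`, `q ∣ N`: the Fricke conjugate of `E_α` -/
noncomputable def EbetaLamQ : Lam (N * q) →ₗ[ℤ] Lam (N * q) :=
  (frickeLam (N * q)).comp ((EalphaLamQ N q hq hqN).comp (frickeLam (N * q)))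

theorem EalphaLamQ_apply (x : Lam (N * q)) :
    EalphaLamQ N q hq hqN x = A1Lam N q (B1qLam N q hq hqN x) := rfl

theorem EbetaLamQ_apply (x : Lam (N * q)) :
    EbetaLamQ N q hq hqN x =
      frickeLam (N * q) (EalphaLamQ N q hq hqN (frickeLam (N * q) x)) := rfl

/-- `E_α` on `Λ(N q)` is the transfer of `DalphaQ`. -/
theorem coe_EalphaLamQ (x : Lam (N * q)) :
    ((EalphaLamQ N q hq hqN x : Lam (N * q)) : Additive (Gamma0 (N * q)) →+ ℤ) =
      (DalphaQ N q hq hqN).transfer (x : Additive (Gamma0 (N * q)) →+ ℤ) := by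
  rw [DalphaQ_transfer]
  rfl

/-- `E_β` on `Λ(N q)` is the transfer of `DbetaQ`. -/
theorem coe_EbetaLamQ (x : Lam (N * q)) :
    ((EbetaLamQ N q hq hqN x : Lam (N * q)) : Additive (Gamma0 (N * q)) →+ ℤ) =
      (DbetaQ N q hq hqN).transfer (x : Additive (Gamma0 (N * q)) →+ ℤ) := by
  rw [DbetaQ_transfer, EbetaLamQ_apply, coe_frickeLam, coe_EalphaLamQ, coe_frickeLam]

end Beta

/-! ### Rationality and the vanishing -/

section Vanishing

open Fermat.Agent.BR2.DegTransfer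

variable (N q : ℕ) [NeZero N] [NeZero q] [NeZero (N * q)] (hq : q.Prime) (hqN : q ∣ N)

theorem DbetaQ_isRatPos : (DbetaQ N q hq hqN).IsRatPos := by
  refine ⟨fun x => ?_, fun x => ?_⟩
  · rw [DbetaQ_rep]
    exact det_conj_pos (det_mapGL_pos (sq N q x : SL(2, ℤ)))
  · rw [DbetaQ_rep]
    exact ratGL.mul_mem (ratGL.mul_mem (frickeGL_mem_ratGL (N * q)) (mapGL_mem_ratGL _))
      (ratGL.inv_mem (frickeGL_mem_ratGL (N * q)))

variable {ι : Type*} (pr : ι → Nat.Primes) (hpr : ∀ i, ¬ ((pr i : Nat.Primes) : ℕ) ∣ N * q)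

include hpr in
/-- a noncommutative polynomial `p` in the `T_{pr i}` (`pr i ∤ N q`) which vanishes on `Λ(N)` is
killed, at the level `N q`, by `E_α` -/
theorem EalphaLamQ_lift_eq_zero (p : FreeAlgebra ℤ ι)
    (hp : FreeAlgebra.lift ℤ (fun i : ι => TLam N (pr i)) p = 0) (x : Lam (N * q)) :
    EalphaLamQ N q hq hqN (FreeAlgebra.lift ℤ (fun i : ι => TLam (N * q) (pr i)) p x) = 0 := by
  have h1 : ∀ (i : ι) (v : Lam (N * q)),
      B1qLam N q hq hqN (TLam (N * q) (pr i) v) = TLam N (pr i) (B1qLam N q hq hqN v) :=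
    fun i v => B1qLam_TLam N q hq hqN (pr i) (hpr i) v
  rw [EalphaLamQ_apply]
  have h2 : B1qLam N q hq hqN (FreeAlgebra.lift ℤ (fun i : ι => TLam (N * q) (pr i)) p x) =
      FreeAlgebra.lift ℤ (fun i : ι => TLam N (pr i)) p (B1qLam N q hq hqN x) := by
    generalize B1qLam N q hq hqN = f at h1 ⊢
    exact lift_intertwine f _ _ h1 p x
  rw [h2, hp, LinearMap.zero_apply, map_zero]

include hpr in
/-- the Fricke operator commutes with the noncommutative polynomials in the `T_{pr i}` -/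
theorem frickeLam_lift (p : FreeAlgebra ℤ ι) (x : Lam (N * q)) :
    frickeLam (N * q) (FreeAlgebra.lift ℤ (fun i : ι => TLam (N * q) (pr i)) p x) =
      FreeAlgebra.lift ℤ (fun i : ι => TLam (N * q) (pr i)) p (frickeLam (N * q) x) :=
  lift_intertwine (frickeLam (N * q)) _ _
    (fun i v => frickeLam_TLam (N * q) (pr i) (hpr i) v) p x

include hpr in
/-- ... and by `E_β` -/
theorem EbetaLamQ_lift_eq_zero (p : FreeAlgebra ℤ ι)
    (hp : FreeAlgebra.lift ℤ (fun i : ι => TLam N (pr i)) p = 0) (x : Lam (N * q)) :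
    EbetaLamQ N q hq hqN (FreeAlgebra.lift ℤ (fun i : ι => TLam (N * q) (pr i)) p x) = 0 := by
  rw [EbetaLamQ_apply, frickeLam_lift N q pr hpr,
    EalphaLamQ_lift_eq_zero N q hq hqN pr hpr p hp, map_zero]

end Vanishing

end Fermat.Agent.BR3.DegQ
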