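import Mathlib

/-!
# Program C (S36), piece (F3), part 1: the cofactor of `X - 2` in `D_n - X`

`D_n = Polynomial.dickson 1 1 n ∈ ℤ[X]` is the Dickson polynomial with `D_n (x + x⁻¹) = xⁿ + x⁻ⁿ`.
Since `D_n 2 = 2`, `X - 2` divides `D_n - 2` and `D_n - X`:

* `cof n` : `(X - 2) * cof n = D_n - 2`, `(cof n).eval 2 = n ^ 2`;
* `exists_cofactor n` : there is `F ∈ ℤ[X]` with `(X - 2) * F = D_n - X` and `F.eval 2 = n ^ 2 - 1`.

Use (Grothendieck's monodromy argument as a Hecke identity): if `T = τ + τ⁻¹` and `τ` is conjugate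
to `τ ^ q`, then `D_q T = T`, so `F_q T` is a cofactor of `T - 2`, of "value" `q ^ 2 - 1 ≠ 0`
where `T` is close to `2`.
-/

set_option autoImplicit false

open Polynomial

namespace Fermat.Agent.BR3.Dickson

/-- The cofactor of `D_n - 2` by `X - 2`: `G_0 = 0`, `G_1 = 1`, `G_{n+2} = X G_{n+1} - G_n + 2`. -/
noncomputable def cof : ℕ → ℤ[X]
  | 0 => 0
  | 1 => 1
  | (n + 2) => X * cof (n + 1) - cof n + C 2

@[simp] theorem cof_zero : cof 0 = 0 := by rw [cof]

@[simp] theorem cof_one : cof 1 = 1 := by rw [cof]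

theorem cof_add_two (n : ℕ) : cof (n + 2) = X * cof (n + 1) - cof n + C 2 := by rw [cof]

theorem dickson_one_one_zero : dickson 1 (1 : ℤ) 0 = C 2 := by
  rw [dickson_zero]
  norm_num

/-- `(X - 2) * G_n = D_n - 2`. -/
theorem cof_spec (n : ℕ) : (X - C 2) * cof n = dickson 1 (1 : ℤ) n - C 2 := by
  have key : ∀ n : ℕ, (X - C 2) * cof n = dickson 1 (1 : ℤ) n - C 2 ∧
      (X - C 2) * cof (n + 1) = dickson 1 (1 : ℤ) (n + 1) - C 2 := by
    intro n
    induction n with
    | zero =>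
      refine ⟨?_, ?_⟩
      · rw [cof_zero, mul_zero, dickson_one_one_zero, sub_self]
      · rw [zero_add, cof_one, mul_one, dickson_one]
    | succ n ih =>
      refine ⟨ih.2, ?_⟩
      rw [cof_add_two, dickson_add_two, C_1, one_mul]
      have hC : (C (2 : ℤ) : ℤ[X]) = 2 := by simp
      have h1 := ih.1
      have h2 := ih.2
      rw [hC] at h1 h2 ⊢
      linear_combination X * h2 - h1
  exact (key n).1

/-- `G_n (2) = n²`. -/
theorem cof_eval_two (n : ℕ) : (cof n).eval 2 = (n : ℤ) ^ 2 := by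
  have key : ∀ n : ℕ, (cof n).eval 2 = (n : ℤ) ^ 2 ∧ (cof (n + 1)).eval 2 = ((n : ℤ) + 1) ^ 2 := by
    intro n
    induction n with
    | zero =>
      refine ⟨?_, ?_⟩
      · simp
      · simp
    | succ n ih =>
      refine ⟨by push_cast; exact ih.2, ?_⟩
      rw [cof_add_two, eval_add, eval_sub, eval_mul, eval_X, eval_C, ih.1, ih.2]
      push_cast
      ring
  exact (key n).1

/-- **The cofactor of `X - 2` in `D_n - X`**, with value `n² - 1` at `2`. -/
theorem exists_cofactor (n : ℕ) :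
    ∃ F : ℤ[X], (X - C 2) * F = dickson 1 (1 : ℤ) n - X ∧ F.eval 2 = (n : ℤ) ^ 2 - 1 := by
  refine ⟨cof n - 1, ?_, ?_⟩
  · rw [mul_sub, cof_spec, mul_one]
    ring
  · rw [eval_sub, cof_eval_two, eval_one]

end Fermat.Agent.BR3.Dickson
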