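/-
Program C (S36), node (C-E7q), part 3 (helper15): the Kummer maps and the block (E7'-OUT)
(`S35Final.E7OutProp M q S' χ'`) at a level `M q`, GENERIC in the lattice degeneracy data
`D : LatDeg M q` (the operators `E_α`, `E_β` on `Λ(M q)` with their Kummer compatibility over `ℂ`
and the vanishing on `p(T_l) Λ(M q)` for `p(T_l^{(M)}) = 0`).  Copies of `BR2/KummerMapsE`,
`BR2/KummerMapsEFinal`, `BR2/E7Out`, `BR2/E7Plug` with the hypothesis `q ∤ M` replaced by the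
structure; `SpecDeg.specializationStatementE M q` (helper9) is general in `(M, q)`.

* `LatDeg M q` (fields `Ea Eb kappa_a kappa_b vanish`);
* `exists_kummerHomC D`, `kummerMaps D` (`rho ∘ Ea = SpecDeg.Ealpha M q ∘ rho`, same for `β`);
* `rhoD D K` (by choice), `rhoD_spec`, `rhoD_TLam`;
* `e7OutProp_of_latDeg D S' hMS' χ' p hp hχ : S35Final.E7OutProp M q S' χ'`.
-/
import Mathlib
import Fermat.Agent.BR2.E7Plug
import Fermat.Agent.BR2.S35Final

set_option autoImplicit false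
set_option linter.unusedSectionVars false
set_option linter.style.haveILetI false
set_option linter.unusedVariables false

open AlgebraicCurve ModularCurve CuspForm CongruenceSubgroup

noncomputable section

namespace Fermat.Agent.BR3.E7PlugGen

open Fermat.Agent Fermat.Agent.Jac Fermat.Agent.Hecke Fermat.Agent.BR
open Fermat.Agent.Pseudo Fermat.Agent.Pseudo.GQSys
open Fermat.Agent.BR2 Fermat.Agent.BR2.KappaDeg Fermat.Agent.BR2.KummerMapsE
open Fermat.Agent.BR2.E7Out Fermat.Agent.BR2.E7Plug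

/-- **Lattice degeneracy data at the level `M q`**: two endomorphisms `Ea`, `Eb` of `Λ(M q)` which
the complex Kummer homomorphism intertwines with `α^* α_*`, `β^* β_*`, and which kill
`p(T_l^{(M q)}) x` as soon as the noncommutative polynomial `p` in the `T_l` (`l ∤ M q`) vanishes on
`Λ(M)`. -/
structure LatDeg (M q : ℕ) [NeZero M] [NeZero q] where
  /-- `E_α` on the lattice -/
  Ea : ↥(Lam (M * q)) →ₗ[ℤ] ↥(Lam (M * q))
  /-- `E_β` on the lattice -/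
  Eb : ↥(Lam (M * q)) →ₗ[ℤ] ↥(Lam (M * q))
  kappa_a : ∀ (hD4 : KH.HD4 (M * q)) {m : ℕ} (hm : 0 < m) {ζ : ℂˣ} (hζ : IsPrimitiveRoot ζ m)
    (lam : ↥(Lam (M * q))),
    KC.kappaLamC (M * q) hD4 hm hζ (Ea lam) = EalphaC M q (KC.kappaLamC (M * q) hD4 hm hζ lam)
  kappa_b : ∀ (hD4 : KH.HD4 (M * q)) {m : ℕ} (hm : 0 < m) {ζ : ℂˣ} (hζ : IsPrimitiveRoot ζ m)
    (lam : ↥(Lam (M * q))),
    KC.kappaLamC (M * q) hD4 hm hζ (Eb lam) = EbetaC M q (KC.kappaLamC (M * q) hD4 hm hζ lam)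
  vanish : ∀ {ι : Type} (pr : ι → Nat.Primes), (∀ i, ¬ ((pr i : Nat.Primes) : ℕ) ∣ M * q) →
    ∀ p : FreeAlgebra ℤ ι, FreeAlgebra.lift ℤ (fun i : ι => TLam M (pr i)) p = 0 →
      ∀ x : ↥(Lam (M * q)),
        Ea (FreeAlgebra.lift ℤ (fun i : ι => TLam (M * q) (pr i)) p x) = 0 ∧
          Eb (FreeAlgebra.lift ℤ (fun i : ι => TLam (M * q) (pr i)) p x) = 0

variable {M q : ℕ} [NeZero M] [NeZero q] (D : LatDeg M q)

/-- the complex Kummer homomorphism at the level `M q` with the two extra intertwinings -/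
theorem exists_kummerHomC {m : ℕ} (hm : 0 < m) :
    ∃ κ : ↥(Lam (M * q)) →+ Pic0 ℂ (DictC.Fc (M * q)),
      (∀ lam, κ lam = 0 ↔ ∃ lam' : ↥(Lam (M * q)), lam = m • lam') ∧ (∀ lam, m • κ lam = 0) ∧
      (∀ (l : Nat.Primes) (lam : ↥(Lam (M * q))), κ (TLam (M * q) l lam) =
        (haveI : NeZero (l : ℕ) := ⟨l.2.ne_zero⟩; heckeOperatorAlong ℂ (M * q) l (κ lam))) ∧
      (∀ lam, κ (D.Ea lam) = EalphaC M q (κ lam)) ∧
      (∀ lam, κ (D.Eb lam) = EbetaC M q (κ lam)) := by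
  obtain ⟨ζ, hζ⟩ := KC.exists_primitiveRoot_units hm
  have hD4 : KH.HD4 (M * q) := DictC.kummer_dvd (M * q)
  exact ⟨KC.kappaLamC (M * q) hD4 hm hζ, fun lam => KC.kappaLamC_eq_zero_iff hD4 hm hζ lam,
    fun lam => KC.nsmul_kappaLamC hD4 hm hζ lam,
    fun l lam => HTh.kappaLamC_TLam hD4 l hm hζ lam,
    fun lam => D.kappa_a hD4 hm hζ lam, fun lam => D.kappa_b hD4 hm hζ lam⟩

/-- **The Kummer maps at the level `M q` intertwine `Ea`, `Eb` with `α^* α_*`, `β^* β_*`.** -/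
theorem kummerMaps (m : ℕ) (hm : 0 < m) :
    ∃ rho : ↥(Lam (M * q)) →+ JZero (M * q),
      (∀ lam : ↥(Lam (M * q)), rho lam = 0 ↔ ∃ y : ↥(Lam (M * q)), lam = m • y) ∧
      (∀ (l : Nat.Primes) (lam : ↥(Lam (M * q))),
        rho (TLam (M * q) l lam) = heckeOperatorBar (M * q) l (rho lam)) ∧
      (∀ lam, rho (D.Ea lam) = SpecDeg.Ealpha M q (rho lam)) ∧
      (∀ lam, rho (D.Eb lam) = SpecDeg.Ebeta M q (rho lam)) := by
  obtain ⟨red, hinj, hH, hEa, hEb⟩ := SpecDeg.specializationStatementE M q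
  obtain ⟨κ, hker, htors, hT, hκα, hκβ⟩ := exists_kummerHomC D hm
  refine ⟨red.comp κ, fun lam => ⟨fun h0 => ?_, fun h0 => ?_⟩, fun l lam => ?_, fun lam => ?_,
    fun lam => ?_⟩
  · refine (hker lam).mp (hinj (κ lam) ⟨m, hm.ne', htors lam⟩ ?_)
    simpa using h0
  · rw [AddMonoidHom.comp_apply, (hker lam).mpr h0, map_zero]
  · rw [AddMonoidHom.comp_apply, AddMonoidHom.comp_apply, hT l lam]
    exact hH l (κ lam)
  · rw [AddMonoidHom.comp_apply, AddMonoidHom.comp_apply, hκα]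
    exact hEa (κ lam)
  · rw [AddMonoidHom.comp_apply, AddMonoidHom.comp_apply, hκβ]
    exact hEb (κ lam)

/-- the Kummer maps `Λ(M q) →+ J₀(M q)` with the extra intertwinings, by choice -/
def rhoD (K : ℕ) : ↥(Lam (M * q)) →+ JZero (M * q) :=
  if h : 0 < K then (kummerMaps D K h).choose else 0

theorem rhoD_spec {K : ℕ} (hK : 0 < K) :
    (∀ lam : ↥(Lam (M * q)), rhoD D K lam = 0 ↔ ∃ y : ↥(Lam (M * q)), lam = K • y) ∧
    (∀ (l : Nat.Primes) (lam : ↥(Lam (M * q))),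
      rhoD D K (TLam (M * q) l lam) = heckeOperatorBar (M * q) l (rhoD D K lam)) ∧
    (∀ lam, rhoD D K (D.Ea lam) = SpecDeg.Ealpha M q (rhoD D K lam)) ∧
    (∀ lam, rhoD D K (D.Eb lam) = SpecDeg.Ebeta M q (rhoD D K lam)) := by
  unfold rhoD
  rw [dif_pos hK]
  exact (kummerMaps D K hK).choose_spec

theorem rhoD_TLam {K : ℕ} (hK : 0 < K) (ℓ : Nat.Primes) (x : ↥(Lam (M * q))) :
    letI := heckeModuleBar (M * q)
    rhoD D K (TLam (M * q) ℓ x) = heckeGen ℓ • rhoD D K x := by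
  letI := heckeModuleBar (M * q)
  rw [(rhoD_spec D hK).2.1 ℓ x]
  exact (heckeGen_smul_eq (M * q) ℓ _).symm

include D in
/-- **(E7'-OUT) from lattice degeneracy data**: `S35Final.E7OutProp M q S' χ'` from a
noncommutative polynomial `p` in the `T_ℓ`, `ℓ ∉ S'` (`S'` containing the primes dividing `M q`),
vanishing on `Λ(M)` and with `χ' (Ψ (p(T_ℓ^{(M q)}))) ≠ 0`. -/
theorem e7OutProp_of_latDeg (S' : Finset ℕ)
    (hMS' : ∀ r : ℕ, r.Prime → r ∣ M * q → r ∈ S') {O' : Type} [CommRing O']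
    (χ' : heckeAlgebra (M * q) 2 (↑S' : Set ℕ) →+* O')
    (p : FreeAlgebra ℤ (Idx S'))
    (hp : FreeAlgebra.lift ℤ (fun i : Idx S' => TLam M i.1) p = 0)
    (hχ : χ' (lamPsi (M * q) (↑S' : Set ℕ)
      ⟨Pof M q (prS S') p, Pof_mem_TLamAlg M q S' p⟩) ≠ 0) :
    S35Final.E7OutProp M q S' χ' := by
  letI := heckeModuleBar (M * q)
  have hpr : ∀ i : Idx S', ¬ ((prS S' i : Nat.Primes) : ℕ) ∣ M * q :=
    fun i h => i.2 (hMS' _ i.1.2 h)
  have hint : ∀ K : ℕ, 0 < K →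
      Intertwined (rhoD D K) (Pof M q (prS S') p)
        (heckeEnd (JZero (M * q)) (Qof (prS S') p)) :=
    fun K hK => intertwined_lift M q (prS S') (rhoD D K) (rhoD_TLam D hK) p
  have hvan : ∀ K : ℕ, 0 < K → ∀ x : ↥(Lam (M * q)),
      SpecDeg.Ealpha M q (Qof (prS S') p • rhoD D K x) = 0 ∧
        SpecDeg.Ebeta M q (Qof (prS S') p • rhoD D K x) = 0 := by
    intro K hK x
    have h := hint K hK x
    rw [heckeEnd_apply] at h
    obtain ⟨h1, h2⟩ := D.vanish (prS S') hpr p hp x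
    rw [← h, ← (rhoD_spec D hK).2.2.1, ← (rhoD_spec D hK).2.2.2]
    have e : Pof M q (prS S') p x =
        FreeAlgebra.lift ℤ (fun i : Idx S' => TLam (M * q) (prS S' i)) p x := rfl
    rw [e, h1, h2, map_zero]
    exact ⟨rfl, rfl⟩
  refine ⟨rhoD D, TLamAlg (M * q) (↑S' : Set ℕ),
    fun i => TLam_mem_TLamAlg (M * q) (↑S' : Set ℕ) i.2, lamPsi (M * q) (↑S' : Set ℕ),
    ⟨Pof M q (prS S') p, Pof_mem_TLamAlg M q S' p⟩, Qof (prS S') p,
    fun K hK => (rhoD_spec D hK).1, fun K hK => rhoD_TLam D hK,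
    fun ℓ hℓ hℓM hℓS => lamPsi_TLam_of_not_dvd (M * q) (↑S' : Set ℕ) (l := ⟨ℓ, hℓ⟩) hℓM hℓS,
    ?_, hint, hχ, hvan⟩
  refine Algebra.adjoin_mono ?_ (Qof_mem_adjoin (prS S') p)
  rintro _ ⟨i, rfl⟩
  exact ⟨i.1, i.2, rfl⟩

end Fermat.Agent.BR3.E7PlugGen
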