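/-
Program C (S36), node (C-E7q), part 2 (helper15): the Kummer homomorphism over `ℂ` at the level
`N q` for a prime `q ∣ N` intertwines the lattice operators `E_α = EalphaLamQ`, `E_β = EbetaLamQ`
of `BR3/DegQ.lean` with the correspondences `α^* α_*`, `β^* β_*` on `Pic⁰(X₀(N q)_ℂ)`
(`KappaDeg.EalphaC N q`, `KappaDeg.EbetaC N q`; `α = heckeAlphaBar ℂ N q`, `β = heckeBetaBar ℂ N q`).
Counterpart of `BR2/KappaDeg.lean` (`q ∤ N`).

* `vMat N q = δ w_{N q} = [0, -q; N q, 0]`, `vMat_mul_embG` (`V γ = w_N(γ) V`, `γ ∈ Γ₀(N)`);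
* `famBetaQ` : the two-level family `w s_j V⁻¹`; `famBetaQ_rep_mul : rep j * δ = DbetaQ.rep j`;
* `finrankAlong_alphaC_of_dvd`, `finrankAlong_betaC_of_dvd` (`= q`);
* `hTheta_alphaQ`, `hTheta_betaQ` : `H_θ` for `DalphaQ`, `DbetaQ`
  (`diag_mul_DbetaQ_rep : δ (w s_j w⁻¹) = [1, -j; 0, 1] δ`);
* **`kappaLamC_EalphaLamQ`, `kappaLamC_EbetaLamQ`**.
-/
import Mathlib
import Fermat.Agent.BR3.DegQ
import Fermat.Agent.BR2.KappaDeg
import Fermat.Agent.Jac.TransposeNorm

set_option autoImplicit false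
set_option linter.unusedSectionVars false
set_option linter.unusedSimpArgs false
set_option linter.style.haveILetI false
set_option linter.unusedVariables false

open UpperHalfPlane ModularForm CongruenceSubgroup Matrix.SpecialLinearGroup
open AlgebraicCurve ModularCurve IntermediateField
open scoped MatrixGroups ModularForm Manifold

noncomputable section

namespace Fermat.Agent.BR3.KappaDegQ

open Fermat.Agent.X0 (HolH MerH)
open Fermat.Agent.Jac Fermat.Agent.Red Fermat.Agent.Hecke.Gen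
open Fermat.Agent.LR Fermat.Agent.LR.Deg Fermat.Agent.Jac.RepsDecomp
open Fermat.Agent.BR2.DegTransfer Fermat.Agent.BR2.RelHeckeProd Fermat.Agent.BR2.KappaDeg
open Fermat.Agent.BR3.DegQ
open P2MW.S_ModularForm_heckeT_slash_eq_self_of_mem_Gamma0.ModularForm.HeckeSlashInvariance

/-! ### Matrix identities -/

section Matrices

variable (N q : ℕ) [NeZero N] [NeZero q] [NeZero (N * q)]

/-- the matrix `V = δ w_{N q} = [0, -q; N q, 0]` (`= q w_N`) -/
def vMat : GL (Fin 2) ℝ := heckeDiagMatrix q * frickeGL (N * q)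

theorem val_vMat :
    ((vMat N q : GL (Fin 2) ℝ) : Matrix (Fin 2) (Fin 2) ℝ) =
      !![0, -(q : ℝ); (N : ℝ) * q, 0] := by
  rw [vMat, val_mul_fin_two (val_heckeDiagMatrix (NeZero.ne q)) (val_frickeGL (N * q))]
  push_cast
  ext i j
  fin_cases i <;> fin_cases j <;> simp

/-- `V` conjugates `Γ₀(N)` by the Fricke involution of the level `N` -/
theorem vMat_mul_embG (γ : Gamma0 N) :
    vMat N q * embG N γ = embG N (frickeEquiv N γ) * vMat N q := by
  obtain ⟨c, hc⟩ := gamma0_dvd N γ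
  have hN : (N : ℤ) ≠ 0 := by exact_mod_cast NeZero.ne N
  have hfr : ((embG N (frickeEquiv N γ) : GL (Fin 2) ℝ) : Matrix (Fin 2) (Fin 2) ℝ) =
      !![(((γ : SL(2, ℤ)) 1 1 : ℤ) : ℝ), ((-c : ℤ) : ℝ);
        ((-(N * (γ : SL(2, ℤ)) 0 1) : ℤ) : ℝ), (((γ : SL(2, ℤ)) 0 0 : ℤ) : ℝ)] := by
    rw [embG_apply, val_mapGL, coe_frickeEquiv_apply, frickeSL_zero_zero, frickeSL_zero_one,
      frickeSL_one_zero, frickeSL_one_one, hc, Int.mul_ediv_cancel_left _ hN]
  refine gl_ext_of_val (val_mul_fin_two (val_vMat N q) (val_mapGL (γ : SL(2, ℤ))))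
    (val_mul_fin_two hfr (val_vMat N q)) ?_ ?_ ?_ ?_
  · rw [hc]; push_cast; ring
  · push_cast; ring
  · push_cast; ring
  · push_cast; ring

theorem det_vMat_pos : 0 < (vMat N q).det.val := by
  rw [Matrix.GeneralLinearGroup.val_det_apply, val_vMat, Matrix.det_fin_two_of]
  have h1 : (0 : ℝ) < q := Nat.cast_pos.mpr (NeZero.pos q)
  have h2 : (0 : ℝ) < N := Nat.cast_pos.mpr (NeZero.pos N)
  nlinarith [mul_pos h1 (mul_pos h2 h1)]

theorem vMat_mem_ratGL : vMat N q ∈ ratGL :=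
  ratGL.mul_mem (heckeDiagMatrix_mem_ratGL q) (frickeGL_mem_ratGL (N * q))

end Matrices

/-! ### The two families at the levels `N q → N` -/

section Families

variable (N q : ℕ) [NeZero N] [NeZero q] [NeZero (N * q)] (hq : q.Prime) (hqN : q ∣ N)

theorem corFamQ_isRatPos : IsRatPos (corFamQ N q hq hqN) :=
  ⟨fun x => det_mapGL_pos _, fun x => mapGL_mem_ratGL _⟩

/-- the two-level family `w s_j V⁻¹` (`j : ℤ/q`), `w` the Fricke matrix of the level `N q`,
`V = δ w` -/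
def famBetaQ : CosetFam (embG (N * q)) (embG N) (ZMod q) where
  rep j := frickeGL (N * q) * embG N (sq N q j) * (vMat N q)⁻¹
  coc γ j := frickeEquiv (N * q) ((corFamQ N q hq hqN).coc (frickeEquiv N γ) j)
  next γ j := (corFamQ N q hq hqN).next (frickeEquiv N γ) j
  rel γ j := by
    have h := (corFamQ N q hq hqN).rel (frickeEquiv N γ) j
    rw [corFamQ_rep, corFamQ_rep] at h
    have hV : (vMat N q)⁻¹ * embG N γ = embG N (frickeEquiv N γ) * (vMat N q)⁻¹ := by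
      rw [inv_mul_eq_iff_eq_mul, ← mul_assoc, vMat_mul_embG, frickeEquiv_frickeEquiv,
        mul_assoc, mul_inv_cancel, mul_one]
    rw [mul_assoc, hV, ← mul_assoc, mul_assoc (frickeGL (N * q)), h, embG_frickeEquiv]
    simp only [mul_assoc, inv_mul_cancel_left]
  next_one j := by
    rw [map_one]
    exact (corFamQ N q hq hqN).next_one j
  next_mul γ γ' j := by
    rw [map_mul]
    exact (corFamQ N q hq hqN).next_mul _ _ j
  coc_mul γ γ' j := by
    rw [map_mul, (corFamQ N q hq hqN).coc_mul, map_mul]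

@[simp] theorem famBetaQ_rep (j : ZMod q) :
    (famBetaQ N q hq hqN).rep j =
      frickeGL (N * q) * embG N (sq N q j) * (vMat N q)⁻¹ := rfl

theorem det_frickeGL_pos (M : ℕ) [NeZero M] : 0 < (frickeGL M).det.val := by
  rw [Matrix.GeneralLinearGroup.val_det_apply, val_frickeGL, Matrix.det_fin_two_of]
  have h2 : (0 : ℝ) < M := Nat.cast_pos.mpr (NeZero.pos M)
  linarith

theorem famBetaQ_isRatPos : IsRatPos (famBetaQ N q hq hqN) := by
  refine ⟨fun x => ?_, fun x => ?_⟩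
  · rw [famBetaQ_rep]
    exact det_mul_pos (det_mul_pos (det_frickeGL_pos (N * q)) (det_mapGL_pos _))
      (det_inv_pos (det_vMat_pos N q))
  · rw [famBetaQ_rep]
    exact ratGL.mul_mem (ratGL.mul_mem (frickeGL_mem_ratGL (N * q)) (mapGL_mem_ratGL _))
      (ratGL.inv_mem (vMat_mem_ratGL N q))

/-- `famBetaQ.rep j * δ = DbetaQ.rep j` -/
theorem famBetaQ_rep_mul (j : ZMod q) :
    (famBetaQ N q hq hqN).rep j * heckeDiagMatrix q = (DbetaQ N q hq hqN).rep j := by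
  rw [famBetaQ_rep, DbetaQ_rep, vMat, mul_inv_rev]
  simp only [mul_assoc, inv_mul_cancel, mul_one]

end Families

/-! ### `H_θ` for the two coset systems -/

section HTheta

variable (N q : ℕ) [NeZero N] [NeZero q] [NeZero (N * q)] (hq : q.Prime) (hqN : q ∣ N)

attribute [local instance] KH.hasPrincipalDivisorsFL KH.hasPrincipalDivisorsFc'
  KH.finiteDimensionalFL

include hq hqN in
theorem finrankAlong_alphaC_of_dvd : finrankAlong ℂ (heckeAlphaBar ℂ N q) = q := by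
  rw [Fermat.Agent.Jac.Spec.finrankAlong_heckeAlphaBar_complex N q]
  exact Fermat.Agent.Jac.finrankAlong_heckeAlphaBar_of_dvd N q hq hqN

include hq hqN in
theorem finrankAlong_betaC_of_dvd : finrankAlong ℂ (heckeBetaBar ℂ N q) = q := by
  rw [Fermat.Agent.Jac.Spec.finrankAlong_heckeBetaBar_complex N q]
  exact Fermat.Agent.Jac.finrankAlong_heckeBetaBar_of_dvd N q hq hqN

/-- **`H_θ` for `E_α`**, `q ∣ N`: `∏_j (θ y) ∘ s_j = θ (α (Nm_α y))`. -/
theorem hTheta_alphaQ (y : DictC.Fc (N * q)) :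
    heckeProdMer (DalphaQ N q hq hqN) (thetaMer (N * q) y) =
      thetaMer (N * q) (heckeAlphaBar ℂ N q (normAlong (heckeAlphaBar ℂ N q) y)) := by
  haveI : Nonempty (ZMod q) := ⟨0⟩
  refine heckeProdMer_of_rel (thetaMer (N * q)) (thetaMer_algebraMap (N * q))
    (heckeAlphaBar ℂ N q) (finiteAlong_alphaC N q) (DalphaQ N q hq hqN)
    (by rw [ZMod.card, finrankAlong_alphaC_of_dvd N q hq hqN])
    (fun x c => ?_) (fun w => ?_) y
  · rw [DalphaQ_rep, HTheta.thetaMer_alpha, HTheta.merComp_embG_thetaMer]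
  · obtain ⟨y', hy'⟩ := exists_thetaMer_eq_relProdMer (corFamQ_isRatPos N q hq hqN) w
    refine ⟨y', ?_⟩
    rw [HTheta.thetaMer_alpha, hy']
    rfl

/-- the element `[1, -j; 0, 1]` of `Γ₀(N)` -/
def tq (j : ZMod q) : Gamma0 N :=
  mkGamma0 N 1 (-(j.val : ℤ)) 0 1 (by ring) (dvd_zero _)

/-- `δ · (w s_j w⁻¹) = t_j · δ` -/
theorem diag_mul_DbetaQ_rep (j : ZMod q) :
    heckeDiagMatrix q * (DbetaQ N q hq hqN).rep j = embG N (tq N q j) * heckeDiagMatrix q := by
  rw [DbetaQ_rep, ← mul_assoc, ← mul_assoc, mul_inv_eq_iff_eq_mul]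
  show vMat N q * embG N (sq N q j) = _
  have hs : ((embG N (sq N q j) : GL (Fin 2) ℝ) : Matrix (Fin 2) (Fin 2) ℝ) =
      !![((1 : ℤ) : ℝ), ((0 : ℤ) : ℝ); (((N : ℤ) * (j.val : ℤ) : ℤ) : ℝ), ((1 : ℤ) : ℝ)] :=
    val_embG_mkGamma0 N _ _ _ _ _ _
  have ht : ((embG N (tq N q j) : GL (Fin 2) ℝ) : Matrix (Fin 2) (Fin 2) ℝ) =
      !![((1 : ℤ) : ℝ), ((-(j.val : ℤ) : ℤ) : ℝ); ((0 : ℤ) : ℝ), ((1 : ℤ) : ℝ)] :=
    val_embG_mkGamma0 N _ _ _ _ _ _
  rw [mul_assoc]
  refine gl_ext_of_val (val_mul_fin_two (val_vMat N q) hs)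
    (val_mul_fin_two ht (val_vMat N q)) ?_ ?_ ?_ ?_
  · push_cast; ring
  · push_cast; ring
  · push_cast; ring
  · push_cast; ring

/-- **`H_θ` for `E_β`**, `q ∣ N`: `∏_j (θ y) ∘ (w s_j w⁻¹) = θ (β (Nm_β y))`. -/
theorem hTheta_betaQ (y : DictC.Fc (N * q)) :
    heckeProdMer (DbetaQ N q hq hqN) (thetaMer (N * q) y) =
      thetaMer (N * q) (heckeBetaBar ℂ N q (normAlong (heckeBetaBar ℂ N q) y)) := by
  haveI : Nonempty (ZMod q) := ⟨0⟩
  have hδ := HTheta.det_heckeDiagMatrix_pos q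
  have hγ : ∀ g : ↥(Gamma0 N), 0 < (embG N g).det.val := fun g => det_mapGL_pos _
  refine heckeProdMer_of_rel (thetaMer (N * q)) (thetaMer_algebraMap (N * q))
    (heckeBetaBar ℂ N q) (finiteAlong_betaC N q) (DbetaQ N q hq hqN)
    (by rw [ZMod.card, finrankAlong_betaC_of_dvd N q hq hqN])
    (fun x c => ?_) (fun w => ?_) y
  · have hpos : 0 < ((DbetaQ N q hq hqN).rep x).det.val := (DbetaQ_isRatPos N q hq hqN).pos x
    rw [HTheta.thetaMer_beta, ← merComp_mul_apply hδ hpos, diag_mul_DbetaQ_rep,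
      merComp_mul_apply (hγ _) hδ, HTheta.merComp_embG_thetaMer]
  · obtain ⟨y', hy'⟩ := exists_thetaMer_eq_relProdMer (famBetaQ_isRatPos N q hq hqN) w
    refine ⟨y', ?_⟩
    rw [HTheta.thetaMer_beta, hy', relProdMer_apply, heckeProdMer_apply, map_prod]
    refine Finset.prod_congr rfl fun x _ => ?_
    rw [← famBetaQ_rep_mul, ← merComp_mul_apply ((famBetaQ_isRatPos N q hq hqN).pos x) hδ]

end HTheta

/-! ### The Kummer equivariance at the level `N q`, `q ∣ N` -/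

section Final

variable (N q : ℕ) [NeZero N] [NeZero q] [NeZero (N * q)] (hq : q.Prime) (hqN : q ∣ N)

attribute [local instance] KH.hasPrincipalDivisorsFL KH.hasPrincipalDivisorsFc'
  KH.finiteDimensionalFL

/-- **(C-E7q)(b) for `α`**: the Kummer homomorphism intertwines `E_α` on `Λ(N q)` with
`α^* α_*`, `q ∣ N`. -/
theorem kappaLamC_EalphaLamQ (hD4 : KH.HD4 (N * q)) {m : ℕ} (hm : 0 < m) {ζ : ℂˣ}
    (hζ : IsPrimitiveRoot ζ m) (lam : ↥(Lam (N * q))) :
    KC.kappaLamC (N * q) hD4 hm hζ (EalphaLamQ N q hq hqN lam) =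
      EalphaC N q (KC.kappaLamC (N * q) hD4 hm hζ lam) :=
  kappaLamC_corr hD4 _ _ _ _ _ (DalphaQ_isRatPos N q hq hqN) (hTheta_alphaQ N q hq hqN) hm hζ lam
    (EalphaLamQ N q hq hqN lam) (coe_EalphaLamQ N q hq hqN lam)

/-- **(C-E7q)(b) for `β`**: the Kummer homomorphism intertwines `E_β` on `Λ(N q)` with
`β^* β_*`, `q ∣ N`. -/
theorem kappaLamC_EbetaLamQ (hD4 : KH.HD4 (N * q)) {m : ℕ} (hm : 0 < m) {ζ : ℂˣ}
    (hζ : IsPrimitiveRoot ζ m) (lam : ↥(Lam (N * q))) :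
    KC.kappaLamC (N * q) hD4 hm hζ (EbetaLamQ N q hq hqN lam) =
      EbetaC N q (KC.kappaLamC (N * q) hD4 hm hζ lam) :=
  kappaLamC_corr hD4 _ _ _ _ _ (DbetaQ_isRatPos N q hq hqN) (hTheta_betaQ N q hq hqN) hm hζ lam
    (EbetaLamQ N q hq hqN lam) (coe_EbetaLamQ N q hq hqN lam)

end Final

end Fermat.Agent.BR3.KappaDegQ
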