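/-
Program C (S36), node (C-E7q), final (helper15): the Hecke separator of the `q`-NEW part at a level
`M₀ q` with `q ∣ M₀` (e.g. `M₀ = M' q`, level `M' q²`): the literal Prop
`S35Final.E7OutProp M₀ q S' χ'` of Phase 2 (which is defined for all `M₀`, `q`), now for `q ∣ M₀`.

* `latDegOfDvd M q hq hqM : LatDeg M q` : the lattice degeneracy data of `BR3/DegQ.lean`,
  `BR3/KappaDegQ.lean`;
* `e7OutProp_of_poly_of_dvd` : from the polynomial `p` of the node (E7)(e);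
* `e7OutProp_of_hN5_of_dvd` : from the named hypothesis (N5);
* **`e7OutProp_of_dvd`** : for a newform `g` of level `M₀ q`, nothing named
  (`NewQuotient.exists_poly_newQuotient_idx`, `EigenformOfRingHom.exists_eigenform_of_ringHom_final`,
  `StrongMultOne.not_exists_eigenform_of_isNewform`);
* `alphaDown_eq_zero_of_Ealpha`, `betaDown_eq_zero_of_Ebeta` : on torsion prime to `q`,
  `Ealpha M₀ q x = 0 → alphaDown M₀ q x = 0` (`deg α = q` for `q ∣ M₀`), same for `β`.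
-/
import Mathlib
import Fermat.Agent.BR3.KappaDegQ
import Fermat.Agent.BR3.E7PlugGen
import Fermat.Agent.BR2.NewQuotientIdx
import Fermat.Agent.BR2.EigenformOfRingHomFinal
import Fermat.Agent.BR2.StrongMultOne
import Fermat.Agent.BR2.E7PlugNewform

set_option autoImplicit false
set_option linter.unusedSectionVars false
set_option linter.style.haveILetI false
set_option linter.unusedVariables false

open ModularCurve CuspForm

noncomputable section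

namespace Fermat.Agent.BR3.E7Q

open Fermat.Agent Fermat.Agent.Jac Fermat.Agent.Pseudo Fermat.Agent.Pseudo.GQSys
open Fermat.Agent.BR2 Fermat.Agent.BR2.E7Plug
open Fermat.Agent.BR3.DegQ Fermat.Agent.BR3.KappaDegQ Fermat.Agent.BR3.E7PlugGen

/-- **The lattice degeneracy data at the level `M q`, `q ∣ M` prime.** -/
def latDegOfDvd (M q : ℕ) [NeZero M] [NeZero q] (hq : q.Prime) (hqM : q ∣ M) : LatDeg M q where
  Ea := EalphaLamQ M q hq hqM
  Eb := EbetaLamQ M q hq hqM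
  kappa_a hD4 _ hm _ hζ lam := kappaLamC_EalphaLamQ M q hq hqM hD4 hm hζ lam
  kappa_b hD4 _ hm _ hζ lam := kappaLamC_EbetaLamQ M q hq hqM hD4 hm hζ lam
  vanish pr hpr p hp x :=
    ⟨EalphaLamQ_lift_eq_zero M q hq hqM pr hpr p hp x,
      EbetaLamQ_lift_eq_zero M q hq hqM pr hpr p hp x⟩

/-- **(C-E7q)** from the polynomial `p` of the node (E7)(e). -/
theorem e7OutProp_of_poly_of_dvd (M₀ q : ℕ) [NeZero M₀] [NeZero q] (hq : q.Prime)
    (hqM₀ : q ∣ M₀) (S' : Finset ℕ) (hMS' : ∀ r : ℕ, r.Prime → r ∣ M₀ * q → r ∈ S')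
    {O' : Type} [CommRing O'] (χ' : heckeAlgebra (M₀ * q) 2 (↑S' : Set ℕ) →+* O')
    (p : FreeAlgebra ℤ (Idx S'))
    (hp : FreeAlgebra.lift ℤ (fun i : Idx S' => TLam M₀ i.1) p = 0)
    (hχ : χ' (lamPsi (M₀ * q) (↑S' : Set ℕ)
      ⟨E7Out.Pof M₀ q (prS S') p, Pof_mem_TLamAlg M₀ q S' p⟩) ≠ 0) :
    S35Final.E7OutProp M₀ q S' χ' :=
  e7OutProp_of_latDeg (latDegOfDvd M₀ q hq hqM₀) S' hMS' χ' p hp hχ

/-- **(C-E7q)**, from the named hypothesis (N5). -/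
theorem e7OutProp_of_hN5_of_dvd (M₀ q : ℕ) [NeZero M₀] [NeZero q] (hq : q.Prime)
    (hqM₀ : q ∣ M₀) {g : CuspForm (CongruenceSubgroup.Gamma0 (M₀ * q)) 2}
    (S S' : Finset ℕ) (hSS' : S ⊆ S') (hMS : ∀ r : ℕ, r.Prime → r ∣ M₀ * q → r ∈ S)
    {O' : Type} [CommRing O'] [CharZero O']
    (chig : heckeAlgebra (M₀ * q) 2 (↑S : Set ℕ) →+* ℂ)
    (hchig : ∀ (ℓ : ℕ) (hℓ : ℓ.Prime) (hℓM : ¬ ℓ ∣ M₀ * q) (hℓS : ℓ ∉ (↑S : Set ℕ)),
      chig (heckeAlgebra.T hℓ hℓM hℓS) = ModularFormClass.qCoeff g ℓ)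
    (iota : chig.range →+* O')
    (hN5 : ¬ ∃ f : CuspForm (CongruenceSubgroup.Gamma0 M₀) 2, f.IsNormalizedEigenform ∧
      ∀ r : ℕ, r.Prime → r ∉ S' → ¬ r ∣ M₀ * q →
        ModularFormClass.qCoeff f r = ModularFormClass.qCoeff g r) :
    S35Final.E7OutProp M₀ q S' ((iota.comp chig.rangeRestrict).comp (heckeAlgebraIncl hSS')) := by
  have hMS' : ∀ r : ℕ, r.Prime → r ∣ M₀ * q → r ∈ S' := fun r hr h => hSS' (hMS r hr h)
  obtain ⟨p, hp, hpχ⟩ := NewQuotient.exists_poly_newQuotient_idx (M0 := M₀) (q := q) (g := g)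
    S S' hSS' hMS' chig hchig iota
    (fun ψ => EigenformOfRingHom.exists_eigenform_of_ringHom_final ψ) hN5
  refine e7OutProp_of_poly_of_dvd M₀ q hq hqM₀ S' hMS' _ p hp ?_
  exact hpχ (TLamAlg (M₀ * q) (↑S' : Set ℕ))
    (fun i => TLam_mem_TLamAlg (M₀ * q) (↑S' : Set ℕ) i.2) (lamPsi (M₀ * q) (↑S' : Set ℕ))
    (fun ℓ hℓ hℓM hℓS =>
      lamPsi_TLam_of_not_dvd (M₀ * q) (↑S' : Set ℕ) (l := ⟨ℓ, hℓ⟩) hℓM hℓS)

/-- **(C-E7q)**: the block (E7'-OUT) for a newform `g` of level `M₀ q`, `q ∣ M₀` prime; nothing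
named. -/
theorem e7OutProp_of_dvd (M₀ q : ℕ) [NeZero M₀] [NeZero q] (hq : q.Prime) (hqM₀ : q ∣ M₀)
    {g : CuspForm (CongruenceSubgroup.Gamma0 (M₀ * q)) 2} (hg : g.IsNewform)
    (S S' : Finset ℕ) (hSS' : S ⊆ S') (hMS : ∀ r : ℕ, r.Prime → r ∣ M₀ * q → r ∈ S)
    {O' : Type} [CommRing O'] [CharZero O']
    (chig : heckeAlgebra (M₀ * q) 2 (↑S : Set ℕ) →+* ℂ)
    (hchig : ∀ (ℓ : ℕ) (hℓ : ℓ.Prime) (hℓM : ¬ ℓ ∣ M₀ * q) (hℓS : ℓ ∉ (↑S : Set ℕ)),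
      chig (heckeAlgebra.T hℓ hℓM hℓS) = ModularFormClass.qCoeff g ℓ)
    (iota : chig.range →+* O') :
    S35Final.E7OutProp M₀ q S' ((iota.comp chig.rangeRestrict).comp (heckeAlgebraIncl hSS')) :=
  e7OutProp_of_hN5_of_dvd M₀ q hq hqM₀ S S' hSS' hMS chig hchig iota
    (StrongMultOne.not_exists_eigenform_of_isNewform hg (dvd_mul_right M₀ q)
      (E7PlugNewform.ne_mul_prime M₀ q hq) S')

/-! ### From `E_α`, `E_β` to the push-forwards -/

open Fermat.Agent.BR.LevelTransfer Fermat.Agent.BR2.LevelMaps Fermat.Agent.BR2.LevelSquares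

theorem eq_zero_of_coprime_nsmul {G : Type*} [AddCommGroup G] {m q : ℕ} (h : Nat.Coprime m q)
    {y : G} (h1 : m • y = 0) (h2 : q • y = 0) : y = 0 := by
  have h3 : addOrderOf y ∣ Nat.gcd m q :=
    Nat.dvd_gcd (addOrderOf_dvd_of_nsmul_eq_zero h1) (addOrderOf_dvd_of_nsmul_eq_zero h2)
  rw [h.gcd_eq_one, Nat.dvd_one] at h3
  exact AddMonoid.addOrderOf_eq_one_iff.mp h3

theorem alphaDeg_of_dvd (M₀ q : ℕ) [NeZero M₀] [NeZero q] (hq : q.Prime) (hqM₀ : q ∣ M₀) :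
    alphaDeg M₀ q = q :=
  Fermat.Agent.Jac.finrankAlong_heckeAlphaBar_of_dvd M₀ q hq hqM₀

/-- on torsion prime to `q`: `E_α x = 0 → α_* x = 0` (`q ∣ M₀`) -/
theorem alphaDown_eq_zero_of_Ealpha (M₀ q : ℕ) [NeZero M₀] [NeZero q] (hq : q.Prime)
    (hqM₀ : q ∣ M₀) {m : ℕ} (hm : Nat.Coprime m q) {x : JZero (M₀ * q)} (hx : m • x = 0)
    (h : Ealpha M₀ q x = 0) : alphaDown M₀ q x = 0 := by
  have h1 : q • alphaDown M₀ q x = 0 := by
    have := alphaDeg_smul_alphaDown_eq_zero M₀ q h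
    rwa [alphaDeg_of_dvd M₀ q hq hqM₀] at this
  have h2 : m • alphaDown M₀ q x = 0 := by rw [← map_nsmul, hx, map_zero]
  exact eq_zero_of_coprime_nsmul hm h2 h1

/-- on torsion prime to `q`: `E_β x = 0 → β_* x = 0` (`q ∣ M₀`) -/
theorem betaDown_eq_zero_of_Ebeta (M₀ q : ℕ) [NeZero M₀] [NeZero q] (hq : q.Prime)
    (hqM₀ : q ∣ M₀) {m : ℕ} (hm : Nat.Coprime m q) {x : JZero (M₀ * q)} (hx : m • x = 0)
    (h : Ebeta M₀ q x = 0) : betaDown M₀ q x = 0 := by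
  have h1 : q • betaDown M₀ q x = 0 := by
    have := alphaDeg_smul_betaDown_eq_zero M₀ q h
    rwa [alphaDeg_of_dvd M₀ q hq hqM₀] at this
  have h2 : m • betaDown M₀ q x = 0 := by rw [← map_nsmul, hx, map_zero]
  exact eq_zero_of_coprime_nsmul hm h2 h1

end Fermat.Agent.BR3.E7Q
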