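import Mathlib
import Fermat.Agent.BR3.CoverK.OfMinpolyChart
import Fermat.Agent.BR3.CompVal

/-!
# Program C, team (ELL-PUR), piece (ELL-PUR-BK): from the output of the purity plug to the cover
sheets of the points of the fibre

The purity plug (`PurityPlug.purity_plug`) produces, over the `K`-level local ring `R' = C.R` of a
smooth point `Q'` of the component `(O', res')` downstairs, a generator `u` of `F'' / F'`, root of a
monic irreducible `Ψ ∈ R'[X]`, with `Ψ'(u) · v = 1` and `v ∈ R'[u]` (standard étale).  This file
turns that output into a `CoverK.CoverSheet` at EVERY point `(O'', res'', Q'')` of the fibre over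
`Q'` (any component upstairs over `(O', res')`, any place `Q''` over `Q'` unramified in the residue
extension):

* `EtaleGen R' u v Ψ` : the part of the plug's output which is used;
  `EtaleGen.of_plug` : from the literal conjunction of `purity_plug` / `exists_primitive_klevel`;
* `mem_of_aeval_eq_zero` : a root of a monic polynomial with coefficients in a valuation ring lies
  in the valuation ring;
* `EtaleGen.mem_compVal`, `aeval_mem_compVal` : `u`, `v`, `Ψ'(u)` lie in the composite valuation
  ring of the point `Q''` (`CompVal.compVal`), i.e. are integral on the component upstairs with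
  residues regular at `Q''`;
* `EtaleGen.simple` : `Ψ'(u)` is a unit at `Q''`; `EtaleGen.exists_value` : `u` has a value at
  `Q''`, residue of a constant;
* **`EtaleGen.exists_coverSheet`** : `∃ c ψ ψc, CoverSheet A π O' res' Q' O'' res'' Q'' C.R u Ψ ψ ψc c`
  (`deg ψ` = the degree of the residue of `u` over `Ft'`), by helper4's
  `OfMinpoly.exists_coverSheet_of_minpoly_chart`.
-/

set_option autoImplicit false
set_option linter.unusedSectionVars false

namespace Fermat.Agent.BR3.EllPurityPoints

open AlgebraicCurve Polynomial Fermat.Agent.Red Fermat.Agent.X0 Fermat.Agent.BR.Centre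
  Fermat.Agent.BR.S0 Fermat.Agent.BR3.CoverK Fermat.Agent.BR3.CoverK.OfMinpoly
  Fermat.Agent.BR3.CompVal

/-- A root of a monic polynomial whose coefficients lie in a valuation ring lies in the valuation
ring. -/
theorem mem_of_aeval_eq_zero {F' F'' : Type*} [Field F'] [Field F''] [Algebra F' F'']
    (V : ValuationSubring F'') {x : F''} {p : F'[X]} (hp : p.Monic)
    (hc : ∀ n, algebraMap F' F'' (p.coeff n) ∈ V) (hx : aeval x p = 0) : x ∈ V := by
  have hsub : (↑(p.map (algebraMap F' F'')).coeffs : Set F'') ⊆ V.toSubring := by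
    intro c hc'
    obtain ⟨n, -, rfl⟩ := (Polynomial.mem_coeffs_iff).mp hc'
    rw [coeff_map]
    exact hc n
  have hint : IsIntegral V x := by
    refine ⟨(p.map (algebraMap F' F'')).toSubring V.toSubring hsub, ?_, ?_⟩
    · exact (Polynomial.monic_toSubring _ _ _).mpr (hp.map _)
    · have h1 : eval₂ V.toSubring.subtype x
          ((p.map (algebraMap F' F'')).toSubring V.toSubring hsub) = 0 := by
        rw [eval₂_eq_eval_map, Polynomial.map_toSubring, eval_map_algebraMap]
        exact hx
      exact h1
  obtain ⟨z, hz⟩ := (IsIntegrallyClosed.isIntegral_iff (R := V) (K := F'')).mp hint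
  rw [← hz]
  exact z.2

variable {K k : Type*} [Field K] [Field k]
  {F' : Type*} [Field F'] [Algebra K F'] {Ft' : Type*} [Field Ft'] [Algebra k Ft']
  {F'' : Type*} [Field F''] [Algebra K F''] [Algebra F' F''] [IsScalarTower K F' F'']
  {Ft'' : Type*} [Field Ft''] [Algebra k Ft''] [Algebra Ft' Ft''] [IsScalarTower k Ft' Ft'']
  {A : ValuationSubring K} {π : A →+* k}
  {O' : ValuationSubring F'} {res' : O' →+* Ft'} {Q' : Place k Ft'} {T' : Set (Place K F')}
  {O'' : ValuationSubring F''} {res'' : O'' →+* Ft''} {Q'' : Place k Ft''}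

/-- **The output of the purity plug** which is used downstream: a standard étale generator `u` of
`F'' / F'` over the subring `R' ⊆ F'`. -/
structure EtaleGen (R' : Subring F') (u v : F'') (Ψ : F'[X]) : Prop where
  monic : Ψ.Monic
  coeff_mem : ∀ i, Ψ.coeff i ∈ R'
  root : aeval u Ψ = 0
  irreducible : Irreducible Ψ
  gen : ∀ y : F'', ∃ p : F'[X], aeval u p = y
  deriv_mul : aeval u (derivative Ψ) * v = 1
  v_poly : ∃ p : F'[X], (∀ i, p.coeff i ∈ R') ∧ aeval u p = v

/-- `EtaleGen` from the literal output of `PurityPlug.exists_primitive_klevel` / `purity_plug` (`R`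
the `K`-level local ring as an abstract ring with image `R'` in `F'`, `𝒪` the order `spanAlg`). -/
theorem EtaleGen.of_plug {R : Type*} [CommRing R] [Algebra R F'] [Algebra R F'']
    [IsScalarTower R F' F''] {R' : Subring F'} (hR : ∀ r : R, algebraMap R F' r ∈ R')
    {𝒪 : Set F''} {u v : F''} {Ψ : F'[X]} (hv : v ∈ 𝒪)
    (hmonic : Ψ.Monic) (hcoeff : ∀ i, Ψ.coeff i ∈ Set.range (algebraMap R F'))
    (hroot : aeval u Ψ = 0) (hirr : Irreducible Ψ) (hgen : ∀ y : F'', ∃ p : F'[X], aeval u p = y)
    (hder : aeval u (derivative Ψ) * v = 1) (hpoly : ∀ y ∈ 𝒪, ∃ p : R[X], aeval u p = y) :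
    EtaleGen R' u v Ψ where
  monic := hmonic
  coeff_mem := fun i => by
    obtain ⟨r, hr⟩ := hcoeff i
    rw [← hr]
    exact hR r
  root := hroot
  irreducible := hirr
  gen := hgen
  deriv_mul := hder
  v_poly := by
    obtain ⟨p, hp⟩ := hpoly v hv
    refine ⟨p.map (algebraMap R F'), fun i => ?_, ?_⟩
    · rw [coeff_map]
      exact hR _
    · rw [aeval_map_algebraMap]
      exact hp

section Point

variable (C : SmoothChart A O' res' Q' T')
  (hres : ∀ (a : K) (ha : a ∈ A) (h : algebraMap K F' a ∈ O'),
    res' ⟨algebraMap K F' a, h⟩ = algebraMap k Ft' (π ⟨a, ha⟩))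
  (comap_eq : O''.comap (algebraMap F' F'') = O')
  (res_map : ∀ (y : F') (hy : y ∈ O') (hy' : algebraMap F' F'' y ∈ O''),
    res'' ⟨algebraMap F' F'' y, hy'⟩ = algebraMap Ft' Ft'' (res' ⟨y, hy⟩))
  (res_eq_zero_iff : ∀ x : O'', res'' x = 0 ↔ (x : F'') ∈ O''.nonunits)
  (ord_map : ∀ f : Ft', Q''.ord (algebraMap Ft' Ft'' f) = Q'.ord f)

include hres comap_eq res_map ord_map in
/-- The functions of the local ring of the point downstairs lie in the composite valuation ring of
every point upstairs over it. -/
theorem map_mem_compVal {y : F'} (hy : y ∈ C.R) :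
    algebraMap F' F'' y ∈ compVal O'' res'' res_eq_zero_iff Q''.adicValuation := by
  have hyO : algebraMap F' F'' y ∈ O'' := by
    rw [← ValuationSubring.mem_comap, comap_eq]
    exact C.le y hy
  refine ⟨hyO, ?_⟩
  rw [res_map y (C.le y hy) hyO, Place.adicValuation_le_one_iff]
  right
  rw [ord_map]
  exact ord_res_nonneg C hres hy

include hres comap_eq res_map ord_map in
/-- A polynomial with coefficients in the local ring downstairs, evaluated at an element of the
composite valuation ring of the point upstairs, lies in it. -/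
theorem aeval_mem_compVal {x : F''}
    (hx : x ∈ compVal O'' res'' res_eq_zero_iff Q''.adicValuation) {p : F'[X]}
    (hp : ∀ n, p.coeff n ∈ C.R) :
    aeval x p ∈ compVal O'' res'' res_eq_zero_iff Q''.adicValuation := by
  rw [aeval_eq_sum_range]
  refine (compVal O'' res'' res_eq_zero_iff Q''.adicValuation).toSubring.sum_mem fun i _ => ?_
  rw [Algebra.smul_def]
  exact (compVal O'' res'' res_eq_zero_iff Q''.adicValuation).mul_mem _ _
    (map_mem_compVal C hres comap_eq res_map res_eq_zero_iff ord_map (hp i))
    ((compVal O'' res'' res_eq_zero_iff Q''.adicValuation).toSubring.pow_mem hx i)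

variable {u v : F''} {Ψ : F'[X]} (G : EtaleGen C.R u v Ψ)

include G hres comap_eq res_map ord_map in
/-- The generator lies in the composite valuation ring of every point upstairs. -/
theorem EtaleGen.mem_compVal : u ∈ compVal O'' res'' res_eq_zero_iff Q''.adicValuation :=
  mem_of_aeval_eq_zero _ G.monic
    (fun n => map_mem_compVal C hres comap_eq res_map res_eq_zero_iff ord_map (G.coeff_mem n))
    G.root

include G hres comap_eq res_map res_eq_zero_iff ord_map in
theorem EtaleGen.mem : u ∈ O'' :=
  (G.mem_compVal C hres comap_eq res_map res_eq_zero_iff ord_map).1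

include G hres comap_eq res_map ord_map in
/-- The inverse `v` of `Ψ'(u)` lies in the composite valuation ring of every point upstairs. -/
theorem EtaleGen.v_mem_compVal : v ∈ compVal O'' res'' res_eq_zero_iff Q''.adicValuation := by
  obtain ⟨p, hp, hpv⟩ := G.v_poly
  rw [← hpv]
  exact aeval_mem_compVal C hres comap_eq res_map res_eq_zero_iff ord_map
    (G.mem_compVal C hres comap_eq res_map res_eq_zero_iff ord_map) hp

include G hres comap_eq res_map res_eq_zero_iff ord_map in
/-- **`simple`**: `Ψ'(u)` is a unit at every point upstairs. -/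
theorem EtaleGen.simple (h : aeval u (derivative Ψ) ∈ O'') :
    ¬ Q''.adicValuation (res'' ⟨aeval u (derivative Ψ), h⟩) < 1 := by
  intro hlt
  have h1 : aeval u (derivative Ψ) ∈
      (compVal O'' res'' res_eq_zero_iff Q''.adicValuation).nonunits :=
    (mem_nonunits_compVal_iff O'' res'' res_eq_zero_iff Q''.adicValuation).mpr ⟨h, hlt⟩
  have h2 := G.v_mem_compVal C hres comap_eq res_map res_eq_zero_iff ord_map
  rw [ValuationSubring.mem_nonunits_iff] at h1
  have h3 := ((compVal O'' res'' res_eq_zero_iff Q''.adicValuation).valuation_le_one_iff v).mpr h2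
  have h4 := congrArg (compVal O'' res'' res_eq_zero_iff Q''.adicValuation).valuation G.deriv_mul
  rw [map_mul, map_one] at h4
  have h5 : (compVal O'' res'' res_eq_zero_iff Q''.adicValuation).valuation
      (aeval u (derivative Ψ)) *
      (compVal O'' res'' res_eq_zero_iff Q''.adicValuation).valuation v < 1 :=
    mul_lt_one_of_nonneg_of_lt_one_left zero_le h1 h3
  rw [h4] at h5
  exact lt_irrefl _ h5

include G hres comap_eq res_map ord_map in
/-- **`value`**: the residue of `u` has a value at every point upstairs of degree one. -/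
theorem EtaleGen.exists_value (hdeg : Q''.deg = 1) (hπ : Function.Surjective π) :
    ∃ c : A, IsValueAt Q''
      (res'' ⟨u, G.mem C hres comap_eq res_map res_eq_zero_iff ord_map⟩) (π c) := by
  obtain ⟨hu, hle⟩ := G.mem_compVal C hres comap_eq res_map res_eq_zero_iff ord_map
  have hmem : res'' ⟨u, hu⟩ ∈ Q''.toValuationSubring := by
    rw [Place.mem_iff_ord_nonneg]
    rcases (Q''.adicValuation_le_one_iff).mp hle with h0 | h0
    · rw [h0, Place.ord_zero]
    · exact h0
  obtain ⟨c, hc⟩ := exists_isValueAt Q'' hdeg hmem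
  obtain ⟨a, rfl⟩ := hπ c
  exact ⟨a, hc⟩

include G hres comap_eq res_map ord_map in
/-- **(ELL-PUR-BK) The cover sheet of a point of the fibre from the output of the purity plug.**
`(O'', res'')` a component upstairs over `(O', res')`, `Q''` a place of its residue field over `Q'`,
unramified (`ord_map`), of degree one. -/
theorem EtaleGen.exists_coverSheet (hdeg : Q''.deg = 1) (hπ : Function.Surjective π)
    (hlift : ∀ f : Ft', 0 ≤ Q'.ord f → ∃ y ∈ C.R, ∃ hy : y ∈ O', res' ⟨y, hy⟩ = f) :
    ∃ (c : A) (ψ ψc : F'[X]),
      CoverSheet A π O' res' Q' O'' res'' Q'' C.R u Ψ ψ ψc c ∧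
      ψ.natDegree = (minpoly Ft'
        (res'' ⟨u, G.mem C hres comap_eq res_map res_eq_zero_iff ord_map⟩)).natDegree := by
  obtain ⟨c, hc⟩ := G.exists_value C hres comap_eq res_map res_eq_zero_iff ord_map hdeg hπ
  obtain ⟨ψ, ψc, H, hψ⟩ := exists_coverSheet_of_minpoly_chart (u := c) C hres comap_eq res_map
    res_eq_zero_iff ord_map (G.mem C hres comap_eq res_map res_eq_zero_iff ord_map) G.monic
    G.irreducible G.coeff_mem G.root G.gen hc
    (G.simple C hres comap_eq res_map res_eq_zero_iff ord_map) hlift
  exact ⟨c, ψ, ψc, H, hψ⟩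

end Point

end Fermat.Agent.BR3.EllPurityPoints
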