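/-
Program C (S36), node A6p PURITY, part P2 (helper4): unit discriminant from `n` distinct
characters at every height one prime (Zariski–Nagata purity in the only form needed, by hand).

`S` an `R`-algebra with a finite basis `b` indexed by `ι`. Suppose `φ : R → K'` is a ring map to a
field and `χ : ι → (S → K')` are pairwise distinct ring maps extending `φ` (as many as the rank).
Then `φ (discr b) = det (χ_k (b_j)) ^ 2 ≠ 0`  (Dedekind's independence of characters).
Consequently, if `R` is a noetherian domain, `discr b ≠ 0`, and every height one prime `p` admits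
such a family with `φ` vanishing on `p`, then `discr b` lies in no height one prime, so it is a unit
(Krull's Hauptidealsatz).
-/
import Mathlib

set_option autoImplicit false

namespace Fermat.Agent.BR3.Purity

open Matrix

universe w

section Characters

variable {R S K' : Type*} [CommRing R] [CommRing S] [Algebra R S] [Field K']
  {ι : Type*} [Fintype ι] [DecidableEq ι] (b : Module.Basis ι R S)
  (φ : R →+* K') (χ : ι → S →+* K')

/-- The matrix `(χ_k (b_j))` of values of the characters on the basis. -/
noncomputable def charMatrix : Matrix ι ι K' := Matrix.of fun k j => χ k (b j)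

omit [Fintype ι] [DecidableEq ι] in
theorem charMatrix_apply (k j : ι) : charMatrix b χ k j = χ k (b j) := rfl

omit [DecidableEq ι] in
/-- A character of `S` extending `φ` is determined on `S` by its values on the basis. -/
theorem char_apply_eq_sum (hφ : ∀ i x, χ i (algebraMap R S x) = φ x) (k : ι) (s : S) :
    χ k s = ∑ j, φ (b.repr s j) * χ k (b j) := by
  conv_lhs => rw [← b.sum_repr s]
  rw [map_sum]
  refine Finset.sum_congr rfl fun j _ => ?_
  rw [Algebra.smul_def, map_mul, hφ]

/-- Independence of characters: the matrix `(χ_k (b_j))` is invertible when the `χ_k` are pairwise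
distinct. -/
theorem charMatrix_det_ne_zero (hχ : Function.Injective χ)
    (hφ : ∀ i x, χ i (algebraMap R S x) = φ x) : (charMatrix b χ).det ≠ 0 := by
  intro h
  obtain ⟨v, hv, hv0⟩ := Matrix.exists_vecMul_eq_zero_iff.2 h
  have hli : LinearIndependent K' (fun k : ι => ((χ k : S →* K') : S → K')) :=
    (linearIndependent_monoidHom S K').comp (fun k : ι => (χ k : S →* K'))
      (fun k l hkl => hχ (RingHom.coe_monoidHom_injective hkl))
  have hsum : ∑ k, v k • ((χ k : S →* K') : S → K') = 0 := by
    funext s
    simp only [Finset.sum_apply, Pi.smul_apply, smul_eq_mul, Pi.zero_apply, MonoidHom.coe_coe]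
    have e : ∀ k, v k * χ k s = ∑ j, φ (b.repr s j) * (v k * χ k (b j)) := by
      intro k
      rw [char_apply_eq_sum b φ χ hφ k s, Finset.mul_sum]
      exact Finset.sum_congr rfl fun j _ => by ring
    rw [Finset.sum_congr rfl fun k _ => e k, Finset.sum_comm]
    refine Finset.sum_eq_zero fun j _ => ?_
    rw [← Finset.mul_sum]
    have := congrFun hv0 j
    simp only [Matrix.vecMul, dotProduct, charMatrix_apply, Pi.zero_apply] at this
    rw [this, mul_zero]
  exact hv (funext fun k => Fintype.linearIndependent_iff.1 hli v hsum k)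

/-- The eigenvector identity `diag (χ_k y) · X = X · φ (M_y)`, `M_y` the matrix of multiplication
by `y`. -/
theorem diagonal_mul_charMatrix (hφ : ∀ i x, χ i (algebraMap R S x) = φ x) (y : S) :
    Matrix.diagonal (fun k => χ k y) * charMatrix b χ =
      charMatrix b χ * (Algebra.leftMulMatrix b y).map φ := by
  ext k j
  rw [Matrix.diagonal_mul, Matrix.mul_apply]
  simp only [charMatrix_apply, Matrix.map_apply, Algebra.leftMulMatrix_eq_repr_mul]
  rw [← map_mul, char_apply_eq_sum b φ χ hφ k (y * b j)]
  exact Finset.sum_congr rfl fun i _ => mul_comm _ _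

include b in
/-- `φ (Tr y) = ∑_k χ_k y`. -/
theorem map_trace_eq_sum (hχ : Function.Injective χ)
    (hφ : ∀ i x, χ i (algebraMap R S x) = φ x) (y : S) :
    φ (Algebra.trace R S y) = ∑ k, χ k y := by
  have hdet : IsUnit (charMatrix b χ).det := IsUnit.mk0 _ (charMatrix_det_ne_zero b φ χ hχ hφ)
  rw [Algebra.trace_eq_matrix_trace b]
  have h1 : φ (Matrix.trace (Algebra.leftMulMatrix b y)) =
      Matrix.trace ((Algebra.leftMulMatrix b y).map φ) := by
    simp [Matrix.trace, map_sum]
  rw [h1]
  have h2 := diagonal_mul_charMatrix b φ χ hφ y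
  have h3 : (Algebra.leftMulMatrix b y).map φ =
      (charMatrix b χ)⁻¹ * (Matrix.diagonal (fun k => χ k y) * charMatrix b χ) := by
    rw [h2, ← mul_assoc, Matrix.nonsing_inv_mul _ hdet, one_mul]
  rw [h3, Matrix.trace_mul_comm, mul_assoc, Matrix.mul_nonsing_inv _ hdet, mul_one,
    Matrix.trace_diagonal]

/-- `φ (Tr (b_i b_j)) = (Xᵀ X)_{ij}`. -/
theorem map_traceMatrix_eq (hχ : Function.Injective χ)
    (hφ : ∀ i x, χ i (algebraMap R S x) = φ x) :
    (Algebra.traceMatrix R b).map φ = (charMatrix b χ)ᵀ * charMatrix b χ := by
  ext i j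
  simp only [Matrix.map_apply, Algebra.traceMatrix_apply, Algebra.traceForm_apply,
    Matrix.mul_apply, Matrix.transpose_apply, charMatrix_apply]
  rw [map_trace_eq_sum b φ χ hχ hφ]
  exact Finset.sum_congr rfl fun k _ => map_mul _ _ _

/-- `φ (discr b) = det (χ_k (b_j)) ^ 2`. -/
theorem map_discr_eq (hχ : Function.Injective χ)
    (hφ : ∀ i x, χ i (algebraMap R S x) = φ x) :
    φ (Algebra.discr R b) = (charMatrix b χ).det ^ 2 := by
  rw [Algebra.discr_def, RingHom.map_det, RingHom.mapMatrix_apply,
    map_traceMatrix_eq b φ χ hχ hφ, Matrix.det_mul, Matrix.det_transpose, sq]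

/-- The discriminant does not lie in an ideal killed by `φ`. -/
theorem discr_notMem_of_chars (hχ : Function.Injective χ)
    (hφ : ∀ i x, χ i (algebraMap R S x) = φ x) (p : Ideal R) (hp : ∀ x ∈ p, φ x = 0) :
    Algebra.discr R b ∉ p := by
  intro h
  have := hp _ h
  rw [map_discr_eq b φ χ hχ hφ] at this
  exact charMatrix_det_ne_zero b φ χ hχ hφ ((pow_eq_zero_iff two_ne_zero).1 this)

end Characters

section Hauptidealsatz

/-- In a noetherian domain, a nonzero element lying in no height one prime is a unit. -/
theorem isUnit_of_notMem_height_one {R : Type*} [CommRing R] [IsDomain R] [IsNoetherianRing R]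
    {d : R} (hd : d ≠ 0) (h : ∀ p : Ideal R, p.IsPrime → p.height = 1 → d ∉ p) : IsUnit d := by
  by_contra hu
  obtain ⟨p, hp⟩ := (Ideal.span {d}).nonempty_minimalPrimes
    (by simpa [Ideal.span_singleton_eq_top] using hu)
  have hprime : p.IsPrime := hp.1.1
  have hle : p.height ≤ 1 := Ideal.height_le_one_of_isPrincipal_of_mem_minimalPrimes _ p hp
  have hdp : d ∈ p := hp.1.2 (Ideal.mem_span_singleton_self d)
  have hne : p.height ≠ 0 := by
    rw [Ne, Ideal.height_eq_zero_iff_eq_bot]
    rintro rfl
    exact hd (by simpa using hdp)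
  have h1 : p.height = 1 := le_antisymm hle (Order.one_le_iff_pos.2 (pos_iff_ne_zero.2 hne))
  exact h p hprime h1 hdp

end Hauptidealsatz

section Purity

/-- **(P2) PURITY**: if at every height one prime `p` of the noetherian domain `R` there are
`rank` pairwise distinct characters of `S` into a field, extending one character of `R` that kills
`p`, then the discriminant of a basis of `S` over `R` is a unit (given that it is nonzero). -/
theorem isUnit_discr {R S : Type*} [CommRing R] [IsDomain R] [IsNoetherianRing R] [CommRing S]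
    [Algebra R S] {ι : Type*} [Fintype ι] [DecidableEq ι] (b : Module.Basis ι R S)
    (hne : Algebra.discr R b ≠ 0)
    (hCH : ∀ p : Ideal R, p.IsPrime → p.height = 1 →
      ∃ (K' : Type w) (_ : Field K') (φ : R →+* K') (χ : ι → S →+* K'),
        (∀ x ∈ p, φ x = 0) ∧ Function.Injective χ ∧ ∀ i x, χ i (algebraMap R S x) = φ x) :
    IsUnit (Algebra.discr R b) := by
  refine isUnit_of_notMem_height_one hne fun p hp h1 => ?_
  obtain ⟨K', _, φ, χ, hpφ, hχ, hφ⟩ := hCH p hp h1
  exact discr_notMem_of_chars b φ χ hχ hφ p hpφ

/-- The discriminant of a basis of the integral closure in a finite separable extension is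
nonzero. -/
theorem discr_ne_zero_of_closure {R : Type*} [CommRing R] [IsDomain R]
    (K : Type*) [Field K] [Algebra R K] [IsFractionRing R K]
    (L : Type*) [Field L] [Algebra K L] [Algebra R L] [IsScalarTower R K L]
    [FiniteDimensional K L] [Algebra.IsSeparable K L]
    {S : Type*} [CommRing S] [Algebra R S] [Algebra S L] [IsScalarTower R S L]
    [IsIntegralClosure S R L] {ι : Type*} [Fintype ι] [DecidableEq ι] (b : Module.Basis ι R S) :
    Algebra.discr R b ≠ 0 := by
  have : IsLocalization (Algebra.algebraMapSubmonoid S (nonZeroDivisors R)) L :=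
    IsIntegralClosure.isLocalization R K L S
  intro h
  have h1 := Algebra.discr_localizationLocalization (Rₘ := K) R (nonZeroDivisors R) L b
  rw [h, map_zero] at h1
  exact Algebra.discr_not_zero_of_basis K _ h1

/-- **(P2)** for the integral closure `S` of `R` in a finite separable extension `L` of `Frac R`. -/
theorem isUnit_discr_of_closure {R : Type*} [CommRing R] [IsDomain R] [IsNoetherianRing R]
    (K : Type*) [Field K] [Algebra R K] [IsFractionRing R K]
    (L : Type*) [Field L] [Algebra K L] [Algebra R L] [IsScalarTower R K L]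
    [FiniteDimensional K L] [Algebra.IsSeparable K L]
    {S : Type*} [CommRing S] [Algebra R S] [Algebra S L] [IsScalarTower R S L]
    [IsIntegralClosure S R L] {ι : Type*} [Fintype ι] [DecidableEq ι] (b : Module.Basis ι R S)
    (hCH : ∀ p : Ideal R, p.IsPrime → p.height = 1 →
      ∃ (K' : Type w) (_ : Field K') (φ : R →+* K') (χ : ι → S →+* K'),
        (∀ x ∈ p, φ x = 0) ∧ Function.Injective χ ∧ ∀ i x, χ i (algebraMap R S x) = φ x) :
    IsUnit (Algebra.discr R b) :=
  isUnit_discr b (discr_ne_zero_of_closure K L b) hCH

end Purity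

end Fermat.Agent.BR3.Purity
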