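/-
Program C (S36), node A6p PURITY, part P0 (helper4): the integral closure of an integrally closed
domain inherits "depth two" along a prime element.

`R` an integrally closed domain with fraction field `K`, `L / K` an algebraic field extension.
If `ϖ` is a prime element of `R`, `r ∈ R` is not divisible by `ϖ`, and `ϖ x`, `r x` are both
integral over `R` (`x ∈ L`), then `x` is integral over `R`.

Proof: the minimal polynomial of `s x` over `K` (`s ∈ R`, `s ≠ 0`) is the minimal polynomial of `x`
with roots scaled by `s`, and has coefficients in `R` when `s x` is integral (`R` integrally closed);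
hence the coefficients `a` of `minpoly K x` satisfy `ϖ ^ i a ∈ R` and `r ^ i a ∈ R`, so `a ∈ R`.
This replaces the theory of Krull domains (`S = ⋂ S_P` over the height one primes), which is not
available.
-/
import Mathlib

set_option autoImplicit false

namespace Fermat.Agent.BR3.Purity

open Polynomial

section Field

variable {K L : Type*} [Field K] [Field L] [Algebra K L]

/-- The minimal polynomial of `s x` (`s ≠ 0` a scalar) is the minimal polynomial of `x` with roots
scaled by `s`. -/
theorem minpoly_algebraMap_mul {s : K} (hs : s ≠ 0) {x : L} (hx : IsIntegral K x) :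
    minpoly K (algebraMap K L s * x) = (minpoly K x).scaleRoots s := by
  have hsx : IsIntegral K (algebraMap K L s * x) := isIntegral_algebraMap.mul hx
  refine eq_of_monic_of_associated (minpoly.monic hsx)
    ((monic_scaleRoots_iff s).2 (minpoly.monic hx))
    (associated_of_dvd_dvd
      (minpoly.dvd _ _ (scaleRoots_aeval_eq_zero (minpoly.aeval _ _))) ?_)
  rw [← Polynomial.scaleRoots_dvd_iff _ _ (r := s⁻¹) (IsUnit.mk0 _ (inv_ne_zero hs)),
    ← scaleRoots_mul, mul_inv_cancel₀ hs, scaleRoots_one]
  refine minpoly.dvd _ _ ?_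
  have h := scaleRoots_aeval_eq_zero (r := s⁻¹) (minpoly.aeval K (algebraMap K L s * x))
  have e : algebraMap K L s⁻¹ * (algebraMap K L s * x) = x := by
    rw [← mul_assoc, ← map_mul, inv_mul_cancel₀ hs, map_one, one_mul]
  rwa [e] at h

end Field

section Domain

variable {R : Type*} [CommRing R] [IsDomain R] [IsIntegrallyClosed R]
  {K : Type*} [Field K] [Algebra R K] [IsFractionRing R K]
  {L : Type*} [Field L] [Algebra K L] [Algebra R L] [IsScalarTower R K L]

/-- If `s x` is integral over the integrally closed domain `R` (`s ∈ R`, `s ≠ 0`), then the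
coefficients of the minimal polynomial of `x` over `K`, scaled by the powers of `s`, lie in `R`. -/
theorem exists_coeff_minpoly_mul_pow {s : R} (hs : s ≠ 0) {x : L} (hx : IsIntegral K x)
    (h : IsIntegral R (algebraMap R L s * x)) (i : ℕ) :
    ∃ c : R, algebraMap R K c =
      (minpoly K x).coeff i * algebraMap R K s ^ ((minpoly K x).natDegree - i) := by
  have hs' : algebraMap R K s ≠ 0 := by
    simpa using (IsFractionRing.injective R K).ne hs
  have e1 : algebraMap R L s * x = algebraMap K L (algebraMap R K s) * x := by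
    rw [← IsScalarTower.algebraMap_apply]
  have e2 := minpoly.isIntegrallyClosed_eq_field_fractions' K h
  rw [e1, minpoly_algebraMap_mul hs' hx] at e2
  refine ⟨(minpoly R (algebraMap K L (algebraMap R K s) * x)).coeff i, ?_⟩
  rw [← coeff_scaleRoots, e2, coeff_map]

omit [IsIntegrallyClosed R] in
/-- An element `a` of the fraction field with `a ϖ ^ k ∈ R` and `a r ^ k ∈ R`, for a prime element
`ϖ` which does not divide `r`, lies in `R`. -/
theorem exists_eq_of_mul_pow {ϖ r : R} (hϖ : Prime ϖ) (hr : ¬ ϖ ∣ r) {a : K} (k : ℕ)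
    (h1 : ∃ c : R, algebraMap R K c = a * algebraMap R K ϖ ^ k)
    (h2 : ∃ c : R, algebraMap R K c = a * algebraMap R K r ^ k) :
    ∃ c : R, algebraMap R K c = a := by
  obtain ⟨c1, hc1⟩ := h1
  obtain ⟨c2, hc2⟩ := h2
  have hϖ' : algebraMap R K ϖ ≠ 0 := by
    simpa using (IsFractionRing.injective R K).ne hϖ.ne_zero
  have e : c1 * r ^ k = c2 * ϖ ^ k := by
    apply IsFractionRing.injective R K
    rw [map_mul, map_mul, map_pow, map_pow, hc1, hc2]
    ring
  have hrk : ¬ ϖ ∣ r ^ k := fun h => hr (hϖ.dvd_of_dvd_pow h)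
  have hdvd : ϖ ^ k ∣ c1 := hϖ.pow_dvd_of_dvd_mul_right k hrk ⟨c2, by rw [e]; ring⟩
  obtain ⟨c, rfl⟩ := hdvd
  refine ⟨c, ?_⟩
  rw [map_mul, map_pow, mul_comm] at hc1
  exact mul_right_cancel₀ (pow_ne_zero k hϖ') hc1

/-- **Depth two along a prime element** (P0): if `ϖ x` and `r x` are integral over `R`, `ϖ` a
prime element not dividing `r`, then `x` is integral over `R`. -/
theorem isIntegral_of_mul {ϖ r : R} (hϖ : Prime ϖ) (hr : ¬ ϖ ∣ r) {x : L} (hx : IsIntegral K x)
    (h1 : IsIntegral R (algebraMap R L ϖ * x)) (h2 : IsIntegral R (algebraMap R L r * x)) :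
    IsIntegral R x := by
  have hr0 : r ≠ 0 := fun h => hr (h ▸ dvd_zero ϖ)
  have hcoeff : ∀ i, (minpoly K x).coeff i ∈ Set.range (algebraMap R K) := fun i =>
    exists_eq_of_mul_pow hϖ hr ((minpoly K x).natDegree - i)
      (exists_coeff_minpoly_mul_pow hϖ.ne_zero hx h1 i) (exists_coeff_minpoly_mul_pow hr0 hx h2 i)
  have hl : minpoly K x ∈ lifts (algebraMap R K) := (lifts_iff_coeff_lifts _).2 hcoeff
  obtain ⟨q, hq, -, hqm⟩ := lifts_and_degree_eq_and_monic hl (minpoly.monic hx)
  refine ⟨q, hqm, ?_⟩
  have h3 : aeval x (q.map (algebraMap R K)) = 0 := by rw [hq]; exact minpoly.aeval K x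
  rwa [aeval_map_algebraMap] at h3

end Domain

section Closure

/-- (P0) in terms of the integral closure `S` of `R` in `L`: if `r y ∈ ϖ S` for some `r` not
divisible by the prime element `ϖ`, then `y ∈ ϖ S` (the quotient `S ⧸ ϖ S` is torsion free over
`R ⧸ ϖ R`). -/
theorem dvd_of_dvd_smul {R : Type*} [CommRing R] [IsDomain R] [IsIntegrallyClosed R]
    (K : Type*) [Field K] [Algebra R K] [IsFractionRing R K]
    (L : Type*) [Field L] [Algebra K L] [Algebra R L] [IsScalarTower R K L]
    [Algebra.IsAlgebraic K L]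
    {S : Type*} [CommRing S] [Algebra R S] [Algebra S L] [IsScalarTower R S L]
    [IsIntegralClosure S R L] {ϖ r : R} (hϖ : Prime ϖ) (hr : ¬ ϖ ∣ r) {y : S}
    (h : algebraMap R S ϖ ∣ algebraMap R S r * y) : algebraMap R S ϖ ∣ y := by
  obtain ⟨z, hz⟩ := h
  have hϖL : algebraMap R L ϖ ≠ 0 := by
    rw [IsScalarTower.algebraMap_apply R K L]
    simpa using (IsFractionRing.injective R K).ne hϖ.ne_zero
  -- `x = y / ϖ`
  set x : L := algebraMap S L y / algebraMap R L ϖ with hxdef
  have hxK : IsIntegral K x := Algebra.IsIntegral.isIntegral x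
  have h1 : IsIntegral R (algebraMap R L ϖ * x) := by
    rw [hxdef, mul_div_cancel₀ _ hϖL]
    exact IsIntegralClosure.isIntegral R L y |>.map (IsScalarTower.toAlgHom R S L)
  have h2 : IsIntegral R (algebraMap R L r * x) := by
    have e : algebraMap R L r * x = algebraMap S L z := by
      rw [hxdef, mul_div_assoc']
      rw [div_eq_iff hϖL]
      have := congrArg (algebraMap S L) hz
      rw [map_mul, map_mul, ← IsScalarTower.algebraMap_apply,
        ← IsScalarTower.algebraMap_apply] at this
      rw [this]
      ring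
    rw [e]
    exact IsIntegralClosure.isIntegral R L z |>.map (IsScalarTower.toAlgHom R S L)
  have hx : IsIntegral R x := isIntegral_of_mul (K := K) hϖ hr hxK h1 h2
  obtain ⟨w, hw⟩ := (IsIntegralClosure.isIntegral_iff (A := S)).1 hx
  refine ⟨w, ?_⟩
  apply IsIntegralClosure.algebraMap_injective S R L
  rw [map_mul, hw, ← IsScalarTower.algebraMap_apply, hxdef, mul_div_cancel₀ _ hϖL]

end Closure

end Fermat.Agent.BR3.Purity
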