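/-
Program C (S36), node A6p PURITY, part P1 (helper4): the integral closure of a two-dimensional
regular local ring in a finite separable extension of its fraction field is FREE.

`R` a noetherian local integrally closed domain, `ϖ ∈ 𝔪` a prime element with `R ⧸ ϖ` a principal
ideal ring (e.g. `𝔪 = (ϖ, t)`), `K = Frac R`, `L / K` finite separable, `S` the integral closure of
`R` in `L`. Then `S` is a free `R`-module of rank `[L : K]`.

Proof: `S ⧸ ϖ S` is a finite torsion free module over the principal ideal domain `R ⧸ ϖ` (torsion
freeness is the depth two lemma `dvd_of_dvd_smul` of `PurityS2`), hence free; `ϖ` is `S`-regular and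
lies in the Jacobson radical, so `S` is free (`Module.free_quotSMulTop_iff_free`).
No unramifiedness is used here.
-/
import Mathlib
import Fermat.Agent.BR3.PurityS2

set_option autoImplicit false

namespace Fermat.Agent.BR3.Purity

open scoped Pointwise

section Free

variable {R : Type*} [CommRing R] [IsDomain R] [IsIntegrallyClosed R]
  (K : Type*) [Field K] [Algebra R K] [IsFractionRing R K]
  (L : Type*) [Field L] [Algebra K L] [Algebra R L] [IsScalarTower R K L]
  (S : Type*) [CommRing S] [Algebra R S] [Algebra S L] [IsScalarTower R S L]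
  [IsIntegralClosure S R L]

include K L in
/-- `S ⧸ ϖ S` is torsion free over `R ⧸ ϖ`, for `S` the integral closure of `R` in an algebraic
extension of its fraction field and `ϖ` a prime element of `R`. -/
theorem isTorsionFree_quotSMulTop [Algebra.IsAlgebraic K L] {ϖ : R} (hϖ : Prime ϖ) :
    haveI : (Ideal.span {ϖ}).IsPrime := (Ideal.span_singleton_prime hϖ.ne_zero).2 hϖ
    Module.IsTorsionFree (R ⧸ Ideal.span {ϖ}) (QuotSMulTop ϖ S) := by
  have hP : (Ideal.span {ϖ}).IsPrime := (Ideal.span_singleton_prime hϖ.ne_zero).2 hϖ
  refine Module.IsTorsionFree.of_smul_eq_zero ?_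
  intro r m h
  obtain ⟨r, rfl⟩ := Ideal.Quotient.mk_surjective r
  obtain ⟨y, rfl⟩ := Submodule.Quotient.mk_surjective _ m
  by_cases hr : ϖ ∣ r
  · left
    exact Ideal.Quotient.eq_zero_iff_mem.2 (Ideal.mem_span_singleton.2 hr)
  · right
    have h' : r • y ∈ ϖ • (⊤ : Submodule R S) := (Submodule.Quotient.mk_eq_zero _).1 h
    obtain ⟨z, -, hz⟩ := (Submodule.mem_smul_pointwise_iff_exists _ _ _).1 h'
    have hd : algebraMap R S ϖ ∣ algebraMap R S r * y :=
      ⟨z, by rw [← Algebra.smul_def, ← Algebra.smul_def, hz]⟩
    obtain ⟨w, hw⟩ := dvd_of_dvd_smul K L hϖ hr hd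
    refine (Submodule.Quotient.mk_eq_zero _).2 ?_
    rw [hw, ← Algebra.smul_def]
    exact Submodule.smul_mem_pointwise_smul w ϖ ⊤ trivial

variable [IsLocalRing R] [IsNoetherianRing R] [FiniteDimensional K L] [Algebra.IsSeparable K L]

include K L in
/-- **(P1) FREE**: the integral closure `S` of a noetherian local integrally closed domain `R` in a
finite separable extension of its fraction field is a free `R`-module, as soon as `R` has a prime
element `ϖ ∈ 𝔪` with `R ⧸ ϖ` a principal ideal ring. -/
theorem free_of_prime {ϖ : R} (hϖ : Prime ϖ) (hm : ϖ ∈ IsLocalRing.maximalIdeal R)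
    [IsPrincipalIdealRing (R ⧸ Ideal.span {ϖ})] : Module.Free R S := by
  have hP : (Ideal.span {ϖ}).IsPrime := (Ideal.span_singleton_prime hϖ.ne_zero).2 hϖ
  have hfin : Module.Finite R S := IsIntegralClosure.finite R K L S
  have hfp : Module.FinitePresentation R S := Module.finitePresentation_of_finite R S
  have hjac : ϖ ∈ (⊥ : Ideal R).jacobson := by
    rwa [IsLocalRing.jacobson_eq_maximalIdeal ⊥ bot_ne_top]
  have htfL : Module.IsTorsionFree R L := .trans_faithfulSMul R K L
  have htf : Module.IsTorsionFree R S := IsIntegralClosure.isTorsionFree R L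
  have hreg : IsSMulRegular S ϖ := by
    intro a b hab
    exact smul_right_injective S hϖ.ne_zero hab
  have h1 := isTorsionFree_quotSMulTop K L S hϖ
  have h2 : Module.Finite (R ⧸ Ideal.span {ϖ}) (QuotSMulTop ϖ S) :=
    Module.Finite.of_restrictScalars_finite R _ _
  exact (Module.free_quotSMulTop_iff_free R S hjac hreg).1 inferInstance

include K L in
/-- The rank of the integral closure, when it is free. -/
theorem finrank_eq_of_free [Module.Free R S] : Module.finrank R S = Module.finrank K L := by
  have : Module.Finite R S := IsIntegralClosure.finite R K L S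
  have : IsLocalization (Algebra.algebraMapSubmonoid S (nonZeroDivisors R)) L :=
    IsIntegralClosure.isLocalization R K L S
  let b := Module.Basis.localizationLocalization K (nonZeroDivisors R) L
    (Module.Free.chooseBasis R S)
  rw [Module.finrank_eq_card_chooseBasisIndex, Module.finrank_eq_card_basis b]

include K L in
/-- **(P1)**, basis form: a basis of `S` over `R` indexed by `Fin [L : K]`. -/
theorem exists_basis_of_prime {ϖ : R} (hϖ : Prime ϖ) (hm : ϖ ∈ IsLocalRing.maximalIdeal R)
    [IsPrincipalIdealRing (R ⧸ Ideal.span {ϖ})] :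
    Nonempty (Module.Basis (Fin (Module.finrank K L)) R S) := by
  have hfree : Module.Free R S := free_of_prime K L S hϖ hm
  have : Module.Finite R S := IsIntegralClosure.finite R K L S
  have : Nontrivial R := inferInstance
  exact ⟨(Module.finBasis R S).reindex (finCongr (finrank_eq_of_free K L S))⟩

end Free

end Fermat.Agent.BR3.Purity
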