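/-
Program C (S36), node A6p PURITY, part P3 (helper4): from a unit discriminant to a primitive
element with simple roots (the cover is finite etale over the local ring of the closed point).

`R` a local ring with algebraically closed residue field `k`, `S` a finite free `R`-algebra with a
basis of unit discriminant. Then
* `S ⧸ 𝔪 S` is reduced (nondegenerate trace form), hence has `n = rank` pairwise distinct characters
  into `k`: `exists_chars_of_isUnit_discr` (the `n` points above the closed point);
* for any pairwise distinct `c_k ∈ k` there is `u ∈ S` with `χ_k u = c_k`; `1, u, …, u ^ (n-1)` is an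
  `R`-basis of `S`, `u` is a root of a monic `Ψ ∈ R[X]` of degree `n`, and `Ψ' (u)` is a unit of `S`:
  `exists_primitive_of_chars`, `exists_primitive_of_isUnit_discr`.
The final statements `purity_chars`, `purity` combine P1 (`PurityFree`), P2 (`PurityDiscr`) and P3.
-/
import Mathlib
import Fermat.Agent.BR3.PurityFree
import Fermat.Agent.BR3.PurityDiscr

set_option autoImplicit false

namespace Fermat.Agent.BR3.Purity

open Module Polynomial IsLocalRing

universe w

section Reduced

/-- A finite dimensional algebra over a field whose discriminant (with respect to some basis) is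
nonzero is reduced. -/
theorem isReduced_of_discr_ne_zero {k A : Type*} [Field k] [CommRing A] [Algebra k A]
    {ι : Type*} [Fintype ι] [DecidableEq ι] (b : Basis ι k A) (h : Algebra.discr k b ≠ 0) :
    IsReduced A := by
  have hnd : (Algebra.traceForm k A).Nondegenerate := by
    rw [LinearMap.BilinForm.nondegenerate_iff_det_ne_zero b, ← Algebra.traceMatrix_of_basis]
    exact h
  refine ⟨fun x hx => hnd.1 x fun y => ?_⟩
  rw [Algebra.traceForm_apply]
  exact (Algebra.isNilpotent_trace_of_isNilpotent
    (Commute.isNilpotent_mul_right (Commute.all x y) hx)).eq_zero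

/-- A finite dimensional reduced algebra over an algebraically closed field has at least as many
characters as its dimension. -/
theorem finrank_le_card_algHom {k A : Type*} [Field k] [IsAlgClosed k] [CommRing A] [Algebra k A]
    [Module.Finite k A] [IsReduced A] : Module.finrank k A ≤ Nat.card (A →ₐ[k] k) := by
  have hart : IsArtinianRing A := IsArtinianRing.of_finite k A
  have hfin : Finite (A →ₐ[k] k) := Finite.algHom k A k
  have : Fintype (A →ₐ[k] k) := Fintype.ofFinite _
  let Φ : A →ₗ[k] ((A →ₐ[k] k) → k) := LinearMap.pi fun ψ => ψ.toLinearMap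
  have hΦ : Function.Injective Φ := by
    rw [injective_iff_map_eq_zero]
    intro a ha
    have hJ : a ∈ (⊥ : Ideal A).jacobson := by
      rw [Ideal.jacobson, Ideal.mem_sInf]
      rintro M ⟨-, hM⟩
      have hMmax : M.IsMaximal := hM
      have hbij : Function.Bijective (algebraMap k (A ⧸ M)) :=
        IsAlgClosed.algebraMap_bijective_of_isIntegral
      let e : k ≃ₐ[k] (A ⧸ M) := AlgEquiv.ofBijective (Algebra.ofId k (A ⧸ M)) hbij
      let ψ : A →ₐ[k] k := e.symm.toAlgHom.comp (Ideal.Quotient.mkₐ k M)
      have hψ : ψ a = 0 := congrFun ha ψ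
      have h1 : e.symm (Ideal.Quotient.mk M a) = 0 := hψ
      have h2 : Ideal.Quotient.mk M a = 0 := by
        have := congrArg e h1
        simpa using this
      exact Ideal.Quotient.eq_zero_iff_mem.1 h2
    rw [IsArtinianRing.jacobson_eq_radical] at hJ
    have : IsNilpotent a := by
      rwa [← mem_nilradical, nilradical]
    exact this.eq_zero
  calc Module.finrank k A ≤ Module.finrank k ((A →ₐ[k] k) → k) :=
        LinearMap.finrank_le_finrank_of_injective hΦ
    _ = Nat.card (A →ₐ[k] k) := by
        rw [Module.finrank_fintype_fun_eq_card, Nat.card_eq_fintype_card]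

/-- A family of `dim A` pairwise distinct characters of a finite dimensional reduced algebra over
an algebraically closed field. -/
theorem exists_algHom_family {k A : Type*} [Field k] [IsAlgClosed k] [CommRing A] [Algebra k A]
    [Module.Finite k A] [IsReduced A] {ι : Type*} [Fintype ι]
    (hι : Fintype.card ι = Module.finrank k A) :
    ∃ ψ : ι → A →ₐ[k] k, Function.Injective ψ := by
  have hfin : Finite (A →ₐ[k] k) := Finite.algHom k A k
  have : Fintype (A →ₐ[k] k) := Fintype.ofFinite _
  have hle : Fintype.card ι ≤ Fintype.card (A →ₐ[k] k) := by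
    rw [hι, ← Nat.card_eq_fintype_card]
    exact finrank_le_card_algHom
  obtain ⟨f⟩ := Function.Embedding.nonempty_of_card_le hle
  exact ⟨f, f.injective⟩

end Reduced

section Local

variable {R S : Type*} [CommRing R] [CommRing S] [Algebra R S] [IsLocalRing R]
  {ι : Type*} [Fintype ι] [DecidableEq ι]

attribute [local instance] Ideal.Quotient.field

/-- The discriminant of the reduction of a basis modulo the maximal ideal. -/
theorem discr_basisQuotient [Module.Finite R S] [Module.Free R S] (b : Basis ι R S) :
    Algebra.discr (R ⧸ maximalIdeal R) (basisQuotient b) =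
      Ideal.Quotient.mk (maximalIdeal R) (Algebra.discr R b) := by
  rw [Algebra.discr_def, Algebra.discr_def, RingHom.map_det]
  congr 1
  ext i j
  simp only [Algebra.traceMatrix_apply, Algebra.traceForm_apply, RingHom.mapMatrix_apply,
    Matrix.map_apply, basisQuotient_apply, ← map_mul]
  exact Algebra.trace_quotient_mk _

/-- **Characters at the closed point**: if the discriminant of a basis of `S` over the local ring
`R` is a unit and the residue field `k` of `R` is algebraically closed, then there are `rank`
pairwise distinct ring maps `S → k` extending the residue map. -/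
theorem exists_chars_of_isUnit_discr [IsAlgClosed (ResidueField R)] (b : Basis ι R S)
    (hd : IsUnit (Algebra.discr R b)) :
    ∃ χ : ι → S →+* ResidueField R, Function.Injective χ ∧
      ∀ i x, χ i (algebraMap R S x) = residue R x := by
  have hfin : Module.Finite R S := Module.Finite.of_basis b
  have hfree : Module.Free R S := Module.Free.of_basis b
  have hac : IsAlgClosed (R ⧸ maximalIdeal R) := ‹IsAlgClosed (ResidueField R)›
  have hne : Algebra.discr (R ⧸ maximalIdeal R) (basisQuotient b) ≠ 0 := by
    rw [discr_basisQuotient, Ne, Ideal.Quotient.eq_zero_iff_mem]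
    exact fun h => (mem_maximalIdeal _).1 h hd
  have hred := isReduced_of_discr_ne_zero (basisQuotient b) hne
  have hfin' : Module.Finite (R ⧸ maximalIdeal R)
      (S ⧸ (maximalIdeal R).map (algebraMap R S)) := Module.Finite.of_basis (basisQuotient b)
  obtain ⟨ψ, hψ⟩ := exists_algHom_family (k := R ⧸ maximalIdeal R)
    (A := S ⧸ (maximalIdeal R).map (algebraMap R S)) (ι := ι)
    (Module.finrank_eq_card_basis (basisQuotient b)).symm
  refine ⟨fun i => (ψ i).toRingHom.comp (Ideal.Quotient.mk _), ?_, ?_⟩
  · intro i j hij
    apply hψ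
    apply AlgHom.coe_ringHom_injective
    exact RingHom.cancel_right Ideal.Quotient.mk_surjective |>.1 hij
  · intro i x
    have h1 : Ideal.Quotient.mk ((maximalIdeal R).map (algebraMap R S)) (algebraMap R S x) =
        algebraMap (R ⧸ maximalIdeal R) _ (Ideal.Quotient.mk _ x) := rfl
    change (ψ i) (Ideal.Quotient.mk _ (algebraMap R S x)) = _
    rw [h1]
    exact (ψ i).commutes _

end Local

section Norm

variable {R S K' : Type*} [CommRing R] [CommRing S] [Algebra R S] [Field K']
  {ι : Type*} [Fintype ι] [DecidableEq ι] (b : Basis ι R S)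
  (φ : R →+* K') (χ : ι → S →+* K')

omit [DecidableEq ι] in
/-- `X · φ (T) = (χ_k (v_j))`, for `T` the matrix of the family `v` in the basis `b`. -/
theorem charMatrix_mul_toMatrix (hφ : ∀ i x, χ i (algebraMap R S x) = φ x) (v : ι → S) :
    charMatrix b χ * (b.toMatrix v).map φ = Matrix.of fun k j => χ k (v j) := by
  ext k j
  rw [Matrix.mul_apply]
  simp only [charMatrix_apply, Matrix.map_apply, Basis.toMatrix_apply, Matrix.of_apply]
  rw [char_apply_eq_sum b φ χ hφ k (v j)]
  exact Finset.sum_congr rfl fun i _ => mul_comm _ _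

include b in
/-- `φ (N y) = ∏_k χ_k y`. -/
theorem map_norm_eq_prod (hχ : Function.Injective χ)
    (hφ : ∀ i x, χ i (algebraMap R S x) = φ x) (y : S) :
    φ (Algebra.norm R y) = ∏ k, χ k y := by
  have hdet := charMatrix_det_ne_zero b φ χ hχ hφ
  rw [Algebra.norm_eq_matrix_det b, RingHom.map_det, RingHom.mapMatrix_apply]
  have h2 := congrArg Matrix.det (diagonal_mul_charMatrix b φ χ hφ y)
  rw [Matrix.det_mul, Matrix.det_mul, Matrix.det_diagonal, mul_comm] at h2
  exact (mul_left_cancel₀ hdet h2).symm

include b in
/-- An element of `S` on which no character vanishes is a unit, when `φ` is local. -/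
theorem isUnit_of_chars_ne_zero (hloc : ∀ x, φ x ≠ 0 → IsUnit x) (hχ : Function.Injective χ)
    (hφ : ∀ i x, χ i (algebraMap R S x) = φ x) {y : S} (hy : ∀ k, χ k y ≠ 0) : IsUnit y := by
  have : Module.Finite R S := Module.Finite.of_basis b
  have : Module.Free R S := Module.Free.of_basis b
  have h1 : IsUnit (Algebra.norm R y) := hloc _ (by
    rw [map_norm_eq_prod b φ χ hχ hφ]
    exact Finset.prod_ne_zero_iff.2 fun k _ => hy k)
  rw [Algebra.norm_apply] at h1
  obtain ⟨g, hg⟩ := (LinearMap.isUnit_iff_isUnit_det _).2 h1
  refine IsUnit.of_mul_eq_one ((↑g⁻¹ : Module.End R S) 1) ?_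
  have h3 : (↑g : Module.End R S) ((↑g⁻¹ : Module.End R S) 1) = 1 := by
    rw [← Module.End.mul_apply, Units.mul_inv, Module.End.one_apply]
  rw [hg] at h3
  exact h3

end Norm

section Primitive

variable {R S K' : Type*} [CommRing R] [CommRing S] [Algebra R S] [Field K']

/-- A character of `S` extending `φ` evaluates polynomials. -/
theorem char_aeval (φ : R →+* K') (ψ : S →+* K') (hφ : ∀ x, ψ (algebraMap R S x) = φ x)
    (u : S) (P : R[X]) : ψ (aeval u P) = (P.map φ).eval (ψ u) := by
  rw [aeval_def, hom_eval₂, eval_map]
  congr 1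
  exact RingHom.ext hφ

/-- A monic polynomial of degree `n` over a field with `n` prescribed distinct roots has nonzero
derivative at each of them. -/
theorem eval_derivative_ne_zero_of_roots {n : ℕ} (P : K'[X]) (hP : P.Monic)
    (hdeg : P.natDegree = n) (c : Fin n → K') (hc : Function.Injective c)
    (hroot : ∀ k, P.eval (c k) = 0) (k : Fin n) : (derivative P).eval (c k) ≠ 0 := by
  have hP' : P = Lagrange.nodal Finset.univ c := by
    refine Polynomial.eq_of_degree_sub_lt_of_eval_index_eq (s := Finset.univ) (v := c)
      (fun i _ j _ h => hc h) ?_ ?_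
    · rcases Nat.eq_zero_or_pos n with rfl | hn
      · have h1 : P = 1 := by
          rw [← hP.natDegree_eq_zero]; exact hdeg
        simp [h1]
      · have hdP : P.degree = n := by rw [degree_eq_natDegree hP.ne_zero, hdeg]
        have hdN : (Lagrange.nodal Finset.univ c).degree = n := by
          rw [Lagrange.degree_nodal]; simp
        calc (P - Lagrange.nodal Finset.univ c).degree < P.degree :=
              degree_sub_lt_left (hdP.trans hdN.symm) hP.ne_zero
                (by rw [hP.leadingCoeff, Lagrange.nodal_monic.leadingCoeff])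
          _ = (Finset.univ : Finset (Fin n)).card := by rw [hdP]; simp
    · intro i _
      rw [hroot i, Lagrange.eval_nodal_at_node (Finset.mem_univ i)]
  rw [hP', Lagrange.eval_nodal_derivative_eval_node_eq (Finset.mem_univ k)]
  refine Lagrange.eval_nodal_not_at_node fun i hi h => ?_
  exact (Finset.mem_erase.1 hi).1 (hc h).symm

/-- **(P3) PRIMITIVE ELEMENT**: from `n` pairwise distinct characters at the closed point.
`φ : R → K'` is a surjective local ring map to a field (the residue map), `χ` are `n = rank`
pairwise distinct characters of `S` extending `φ`. For any prescribed pairwise distinct values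
`c_k`, there is `u ∈ S` with `χ_k u = c_k`; the powers `1, u, …, u ^ (n-1)` form a basis of `S`
over `R`, `u` is a root of a monic `Ψ ∈ R[X]` of degree `n`, and `Ψ' (u)` is a unit of `S`. -/
theorem exists_primitive_of_chars {n : ℕ} (b : Basis (Fin n) R S) (φ : R →+* K')
    (χ : Fin n → S →+* K') (hsurj : Function.Surjective φ) (hloc : ∀ x, φ x ≠ 0 → IsUnit x)
    (hχ : Function.Injective χ) (hφ : ∀ i x, χ i (algebraMap R S x) = φ x)
    (c : Fin n → K') (hc : Function.Injective c) :
    ∃ (u : S) (Ψ : R[X]), (∀ k, χ k u = c k) ∧ Ψ.Monic ∧ Ψ.natDegree = n ∧ aeval u Ψ = 0 ∧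
      LinearIndependent R (fun j : Fin n => u ^ (j : ℕ)) ∧
      Submodule.span R (Set.range fun j : Fin n => u ^ (j : ℕ)) = ⊤ ∧
      Algebra.adjoin R {u} = ⊤ ∧ IsUnit (aeval u (derivative Ψ)) := by
  have hntR : Nontrivial R := φ.domain_nontrivial
  have hfin : Module.Finite R S := Module.Finite.of_basis b
  have hfree : Module.Free R S := Module.Free.of_basis b
  have hdet : IsUnit (charMatrix b χ).det := IsUnit.mk0 _ (charMatrix_det_ne_zero b φ χ hχ hφ)
  -- the element `u`
  choose r hr using fun j => hsurj (((charMatrix b χ)⁻¹).mulVec c j)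
  set u : S := ∑ j, r j • b j with hu
  have hχu : ∀ k, χ k u = c k := by
    intro k
    rw [hu, map_sum]
    have e : ∀ j, χ k (r j • b j) = charMatrix b χ k j * ((charMatrix b χ)⁻¹).mulVec c j := by
      intro j
      rw [Algebra.smul_def, map_mul, hφ, hr, charMatrix_apply, mul_comm]
    rw [Finset.sum_congr rfl fun j _ => e j]
    have := congrFun (Matrix.mulVec_mulVec c (charMatrix b χ) (charMatrix b χ)⁻¹) k
    rw [Matrix.mul_nonsing_inv _ hdet, Matrix.one_mulVec] at this
    rw [← this]
    rfl
  -- the powers of `u` form a basis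
  have hV : charMatrix b χ * (b.toMatrix fun j : Fin n => u ^ (j : ℕ)).map φ =
      Matrix.vandermonde c := by
    rw [charMatrix_mul_toMatrix b φ χ hφ]
    ext k j
    simp only [Matrix.of_apply, Matrix.vandermonde_apply, map_pow, hχu]
  have hT : IsUnit (b.det fun j : Fin n => u ^ (j : ℕ)) := by
    apply hloc
    have h1 := congrArg Matrix.det hV
    rw [Matrix.det_mul] at h1
    have h2 : (Matrix.vandermonde c).det ≠ 0 := Matrix.det_vandermonde_ne_zero_iff.2 hc
    rw [← h1] at h2
    have h3 := right_ne_zero_of_mul h2
    rwa [← RingHom.mapMatrix_apply, ← RingHom.map_det, ← Basis.det_apply] at h3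
  obtain ⟨hli, hspan⟩ := (Module.Basis.is_basis_iff_det b).2 hT
  have hadj : Algebra.adjoin R {u} = ⊤ := by
    rw [eq_top_iff]
    intro x _
    have hx : x ∈ Submodule.span R (Set.range fun j : Fin n => u ^ (j : ℕ)) := by
      rw [hspan]; trivial
    have hle : Submodule.span R (Set.range fun j : Fin n => u ^ (j : ℕ)) ≤
        Subalgebra.toSubmodule (Algebra.adjoin R {u}) := by
      rw [Submodule.span_le]
      rintro _ ⟨j, rfl⟩
      exact pow_mem (Algebra.subset_adjoin (Set.mem_singleton u)) _
    exact hle hx
  -- the polynomial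
  set Ψ : R[X] := (Algebra.lmul R S u).charpoly with hΨ
  have hmonic : Ψ.Monic := LinearMap.charpoly_monic _
  have hdeg : Ψ.natDegree = n := by
    rw [hΨ, LinearMap.charpoly_natDegree, Module.finrank_eq_card_basis b, Fintype.card_fin]
  have hroot : aeval u Ψ = 0 := by
    have h1 : aeval (Algebra.lmul R S u) Ψ = 0 := LinearMap.aeval_self_charpoly _
    rw [Polynomial.aeval_algHom_apply] at h1
    have h2 := LinearMap.congr_fun h1 1
    simpa using h2
  refine ⟨u, Ψ, hχu, hmonic, hdeg, hroot, hli, hspan, hadj, ?_⟩
  -- the derivative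
  refine isUnit_of_chars_ne_zero b φ χ hloc hχ hφ fun k => ?_
  rw [char_aeval φ (χ k) (hφ k), hχu, ← derivative_map]
  refine eval_derivative_ne_zero_of_roots (Ψ.map φ) (hmonic.map φ)
    (by rw [hmonic.natDegree_map, hdeg]) c hc (fun i => ?_) k
  rw [← hχu i, ← char_aeval φ (χ i) (hφ i), hroot, map_zero]

end Primitive

section Final

/-- Transfer of algebraic closedness along a ring isomorphism (universe polymorphic). -/
theorem isAlgClosed_of_ringEquiv {k k' : Type*} [Field k] [Field k'] (e : k ≃+* k')
    [IsAlgClosed k] : IsAlgClosed k' := by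
  apply IsAlgClosed.of_exists_root
  intro p hmp hp
  have hpe : degree (p.map e.symm.toRingHom) ≠ 0 := by
    rw [degree_map]
    exact ne_of_gt (degree_pos_of_irreducible hp)
  rcases IsAlgClosed.exists_root (k := k) (p.map e.symm.toRingHom) hpe with ⟨x, hx⟩
  refine ⟨e x, ?_⟩
  rw [IsRoot] at hx
  apply e.symm.injective
  rw [map_zero, ← hx]
  clear hx hpe hp hmp
  induction p using Polynomial.induction_on <;> simp_all

/-- A local ring with a surjection onto an algebraically closed field has algebraically closed
residue field. -/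
theorem isAlgClosed_residueField_of_surjective {R k : Type*} [CommRing R] [IsLocalRing R]
    [Field k] [IsAlgClosed k] (π : R →+* k) (hπ : Function.Surjective π) :
    IsAlgClosed (ResidueField R) := by
  have hmax : (RingHom.ker π).IsMaximal := RingHom.ker_isMaximal_of_surjective π hπ
  have hker : RingHom.ker π = maximalIdeal R := IsLocalRing.eq_maximalIdeal hmax
  let e : k ≃+* ResidueField R :=
    (RingHom.quotientKerEquivOfSurjective hπ).symm.trans (Ideal.quotEquivOfEq hker)
  exact isAlgClosed_of_ringEquiv e

/-- A finite set of `n` characters, as an injective family indexed by `Fin n`. -/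
theorem exists_chars_of_finset {R S K' : Type*} [CommRing R] [CommRing S] [Algebra R S]
    [Field K'] (φ : R →+* K') {n : ℕ} (s : Finset (S →+* K')) (hs : s.card = n)
    (h : ∀ ψ ∈ s, ∀ x, ψ (algebraMap R S x) = φ x) :
    ∃ χ : Fin n → S →+* K', Function.Injective χ ∧ ∀ i x, χ i (algebraMap R S x) = φ x := by
  let e := s.equivFinOfCardEq hs
  refine ⟨fun i => (e.symm i : S →+* K'), fun i j hij => ?_, fun i x => h _ (e.symm i).2 x⟩
  exact e.symm.injective (Subtype.ext hij)

variable {R S : Type*} [CommRing R] [CommRing S] [Algebra R S] [IsLocalRing R]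

/-- **(P3)**: a finite free algebra over a local ring with algebraically closed residue field whose
discriminant is a unit has `n = rank` points above the closed point, and a primitive element `u`
separating them, root of a monic `Ψ` of degree `n` with `Ψ' (u)` a unit. -/
theorem exists_primitive_of_isUnit_discr [IsAlgClosed (ResidueField R)] {n : ℕ}
    (b : Basis (Fin n) R S) (hd : IsUnit (Algebra.discr R b)) :
    ∃ (χ : Fin n → S →+* ResidueField R) (u : S) (Ψ : R[X]),
      Function.Injective χ ∧ (∀ i x, χ i (algebraMap R S x) = residue R x) ∧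
      Function.Injective (fun k => χ k u) ∧
      Ψ.Monic ∧ Ψ.natDegree = n ∧ aeval u Ψ = 0 ∧
      LinearIndependent R (fun j : Fin n => u ^ (j : ℕ)) ∧
      Submodule.span R (Set.range fun j : Fin n => u ^ (j : ℕ)) = ⊤ ∧
      Algebra.adjoin R {u} = ⊤ ∧ IsUnit (aeval u (derivative Ψ)) := by
  obtain ⟨χ, hχ, hφ⟩ := exists_chars_of_isUnit_discr b hd
  let c : Fin n → ResidueField R := fun j => Infinite.natEmbedding (ResidueField R) (j : ℕ)
  have hc : Function.Injective c := fun i j h =>
    Fin.ext ((Infinite.natEmbedding (ResidueField R)).injective h)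
  obtain ⟨u, Ψ, hu, h1, h2, h3, h4, h5, h6, h7⟩ :=
    exists_primitive_of_chars b (residue R) χ residue_surjective
      (fun x hx => (residue_ne_zero_iff_isUnit x).1 hx) hχ hφ c hc
  refine ⟨χ, u, Ψ, hχ, hφ, ?_, h1, h2, h3, h4, h5, h6, h7⟩
  intro i j hij
  apply hc
  rw [← hu i, ← hu j]
  exact hij

/-- **A6p PURITY**, full form. `R` a noetherian local integrally closed domain with algebraically
closed residue field and a prime element `ϖ ∈ 𝔪` with `R ⧸ ϖ` principal (`𝔪 = (ϖ, t)`), `L` a finite
separable extension of `K = Frac R` of degree `n`, `S` the integral closure of `R` in `L`.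
Hypothesis (CH): at every height one prime `p` of `R` there are `n` pairwise distinct characters of
`S` into a field, extending one character of `R` which kills `p`.
Conclusion: `S` is free of rank `n` over `R`; there are `n` pairwise distinct characters `χ_k` of `S`
into the residue field of `R` extending the residue map (the `n` points over the closed point);
there is a primitive element `u` separating them whose powers `1, …, u ^ (n-1)` are an `R`-basis of
`S`, root of a monic `Ψ ∈ R[X]` of degree `n` with `Ψ' (u) ∈ Sˣ`. -/
theorem purity_chars [IsDomain R] [IsIntegrallyClosed R] [IsNoetherianRing R]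
    [IsAlgClosed (ResidueField R)]
    (K : Type*) [Field K] [Algebra R K] [IsFractionRing R K]
    (L : Type*) [Field L] [Algebra K L] [Algebra R L] [IsScalarTower R K L]
    [FiniteDimensional K L] [Algebra.IsSeparable K L]
    [Algebra S L] [IsScalarTower R S L] [IsIntegralClosure S R L]
    {ϖ : R} (hϖ : Prime ϖ) (hm : ϖ ∈ maximalIdeal R) [IsPrincipalIdealRing (R ⧸ Ideal.span {ϖ})]
    (hCH : ∀ p : Ideal R, p.IsPrime → p.height = 1 →
      ∃ (K' : Type w) (_ : Field K') (φ : R →+* K') (χ : Fin (finrank K L) → S →+* K'),
        (∀ x ∈ p, φ x = 0) ∧ Function.Injective χ ∧ ∀ i x, χ i (algebraMap R S x) = φ x) :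
    Module.Free R S ∧ Module.finrank R S = finrank K L ∧
    ∃ (χ : Fin (finrank K L) → S →+* ResidueField R) (u : S) (Ψ : R[X]),
      Function.Injective χ ∧ (∀ i x, χ i (algebraMap R S x) = residue R x) ∧
      Function.Injective (fun k => χ k u) ∧
      Ψ.Monic ∧ Ψ.natDegree = finrank K L ∧ aeval u Ψ = 0 ∧
      LinearIndependent R (fun j : Fin (finrank K L) => u ^ (j : ℕ)) ∧
      Submodule.span R (Set.range fun j : Fin (finrank K L) => u ^ (j : ℕ)) = ⊤ ∧
      Algebra.adjoin R {u} = ⊤ ∧ IsUnit (aeval u (derivative Ψ)) := by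
  have hfree : Module.Free R S := free_of_prime K L S hϖ hm
  obtain ⟨b⟩ := exists_basis_of_prime K L S hϖ hm
  have hd : IsUnit (Algebra.discr R b) := isUnit_discr_of_closure K L b hCH
  exact ⟨hfree, finrank_eq_of_free K L S, exists_primitive_of_isUnit_discr b hd⟩

/-- **A6p PURITY**, short form (see `purity_chars`): `S` is free of rank `n = [L : K]` and
`S = R[u]` with `u` a root of a monic `Ψ ∈ R[X]` of degree `n` such that `Ψ' (u) ∈ Sˣ`. -/
theorem purity [IsDomain R] [IsIntegrallyClosed R] [IsNoetherianRing R]
    [IsAlgClosed (ResidueField R)]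
    (K : Type*) [Field K] [Algebra R K] [IsFractionRing R K]
    (L : Type*) [Field L] [Algebra K L] [Algebra R L] [IsScalarTower R K L]
    [FiniteDimensional K L] [Algebra.IsSeparable K L]
    [Algebra S L] [IsScalarTower R S L] [IsIntegralClosure S R L]
    {ϖ : R} (hϖ : Prime ϖ) (hm : ϖ ∈ maximalIdeal R) [IsPrincipalIdealRing (R ⧸ Ideal.span {ϖ})]
    (hCH : ∀ p : Ideal R, p.IsPrime → p.height = 1 →
      ∃ (K' : Type w) (_ : Field K') (φ : R →+* K') (χ : Fin (finrank K L) → S →+* K'),
        (∀ x ∈ p, φ x = 0) ∧ Function.Injective χ ∧ ∀ i x, χ i (algebraMap R S x) = φ x) :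
    Module.Free R S ∧ Module.finrank R S = finrank K L ∧
    ∃ (u : S) (Ψ : R[X]), Ψ.Monic ∧ Ψ.natDegree = finrank K L ∧ aeval u Ψ = 0 ∧
      Algebra.adjoin R {u} = ⊤ ∧ IsUnit (aeval u (derivative Ψ)) := by
  obtain ⟨h1, h2, -, u, Ψ, -, -, -, h3, h4, h5, -, -, h6, h7⟩ := purity_chars K L hϖ hm hCH
  exact ⟨h1, h2, u, Ψ, h3, h4, h5, h6, h7⟩

end Final

end Fermat.Agent.BR3.Purity
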