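/-
Program C (S36), node (I7-PUR) plug of purity at the modular levels, part PUR-H (helper4):
the HORIZONTAL height one primes.

`R` a noetherian integrally closed domain, `S` its integral closure in a field `L`, free with basis
`b`; `p` a height one prime of `R` with residue characteristic zero. If `L` embeds in a field `F`
such that every valuation subring `W` of `F`, regular on `S` and with centre `p` on `R`, has its
maximal ideal generated by an element of `p` ("`F / Frac R` is unramified along `p`": in the
application `F` is the function field of the cover over the algebraically closed constants, and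
the statement says that the places above the generic point of `p` are unramified and that `p` has a
simple zero there), then `discr b ∉ p` (`discr_notMem_of_valuationSubring`).

Route (no Dedekind different): `R_p` is a DVR with uniformiser `π` (`exists_local_generator`); if
`x ^ 2 ∈ p S` then, after multiplying by some `r ∉ p`, `x ^ 2 = π x'`, and `x / π` lies in every
valuation subring of `L` over `R_p` (`isIntegral_mul_inv_of_valuationSubring`, Chevalley
`exists_comap_eq` to pass from `L` to `F`), so it is integral over `R_p` and `x ∈ p S`: `p S` is a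
radical ideal. Hence `Frac (R / p) ⊗ S` is reduced (`isReduced_baseChange`), so in characteristic
zero it has `rank` many characters into an algebraic closure
(`finrank_le_card_algHom_charZero`), and `discr b ∉ p` by independence of characters
(`Purity.discr_notMem_of_chars`).
-/
import Mathlib
import Fermat.Agent.BR3.PurityPrim

set_option autoImplicit false

namespace Fermat.Agent.BR3.PurityPlug

open Module Polynomial IsLocalRing TensorProduct

section CharZeroCount

attribute [local instance] Ideal.Quotient.field

/-- A finite dimensional reduced algebra over a field of characteristic zero has at least as many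
characters into an algebraically closed extension `Ω` as its dimension. -/
theorem finrank_le_card_algHom_charZero {κ A Ω : Type*} [Field κ] [CharZero κ] [CommRing A]
    [Algebra κ A] [Module.Finite κ A] [IsReduced A] [Field Ω] [IsAlgClosed Ω] [Algebra κ Ω] :
    Module.finrank κ A ≤ Nat.card (A →ₐ[κ] Ω) := by
  have hart : IsArtinianRing A := IsArtinianRing.of_finite κ A
  have hfinM : Finite (MaximalSpectrum A) := inferInstance
  have : Fintype (MaximalSpectrum A) := Fintype.ofFinite _
  have hfin : Finite (A →ₐ[κ] Ω) := Finite.algHom κ A Ω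
  -- the decomposition into fields
  let e : A ≃ₗ[κ] (∀ I : MaximalSpectrum A, A ⧸ I.asIdeal) :=
    ((IsArtinianRing.equivPi A).restrictScalars κ).toLinearEquiv
  have h1 : Module.finrank κ A = ∑ I : MaximalSpectrum A, Module.finrank κ (A ⧸ I.asIdeal) := by
    rw [e.finrank_eq, Module.finrank_pi_fintype]
  have h2 : ∀ I : MaximalSpectrum A,
      Nat.card ((A ⧸ I.asIdeal) →ₐ[κ] Ω) = Module.finrank κ (A ⧸ I.asIdeal) := by
    intro I
    have : I.asIdeal.IsMaximal := I.isMaximal
    exact AlgHom.natCard_of_splits κ (A ⧸ I.asIdeal) Ω fun _ => IsAlgClosed.splits _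
  have hfinI : ∀ I : MaximalSpectrum A, Finite ((A ⧸ I.asIdeal) →ₐ[κ] Ω) := fun I =>
    Finite.algHom κ _ Ω
  let Ψ : (Σ I : MaximalSpectrum A, (A ⧸ I.asIdeal) →ₐ[κ] Ω) → (A →ₐ[κ] Ω) :=
    fun x => x.2.comp (Ideal.Quotient.mkₐ κ x.1.asIdeal)
  have hΨ : Function.Injective Ψ := by
    rintro ⟨I, σ⟩ ⟨J, τ⟩ h
    have hker : ∀ (I : MaximalSpectrum A) (σ : (A ⧸ I.asIdeal) →ₐ[κ] Ω) (a : A),
        Ψ ⟨I, σ⟩ a = 0 ↔ a ∈ I.asIdeal := by
      intro I σ a
      have : I.asIdeal.IsMaximal := I.isMaximal
      show σ (Ideal.Quotient.mk _ a) = 0 ↔ _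
      rw [map_eq_zero_iff σ σ.toRingHom.injective, Ideal.Quotient.eq_zero_iff_mem]
    have hIJ : I = J := by
      ext a
      rw [← hker I σ a, ← hker J τ a, h]
    subst hIJ
    congr 1
    apply AlgHom.ext
    intro x
    obtain ⟨a, rfl⟩ := Ideal.Quotient.mk_surjective x
    exact DFunLike.congr_fun h a
  calc Module.finrank κ A = ∑ I : MaximalSpectrum A, Nat.card ((A ⧸ I.asIdeal) →ₐ[κ] Ω) := by
        rw [h1]; exact Finset.sum_congr rfl fun I _ => (h2 I).symm
    _ = Nat.card (Σ I : MaximalSpectrum A, (A ⧸ I.asIdeal) →ₐ[κ] Ω) := by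
        rw [Nat.card_sigma]
    _ ≤ Nat.card (A →ₐ[κ] Ω) := Nat.card_le_card_of_injective Ψ hΨ

end CharZeroCount


section BaseChange

variable {R S κ : Type*} [CommRing R] [CommRing S] [Algebra R S] [Field κ] [Algebra R κ]
  {ι : Type*} [Fintype ι] [DecidableEq ι] (b : Basis ι R S) (p : Ideal R) [p.IsPrime]

omit [Fintype ι] [DecidableEq ι] [p.IsPrime] in
/-- `1 ⊗ x` vanishes in `κ ⊗ S` iff all coordinates of `x` lie in the kernel of `R → κ`. -/
theorem one_tmul_eq_zero_iff (hker : ∀ r : R, algebraMap R κ r = 0 ↔ r ∈ p) (x : S) :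
    (1 : κ) ⊗ₜ[R] x = 0 ↔ ∀ i, b.repr x i ∈ p := by
  rw [← (b.baseChange κ).repr.map_eq_zero_iff]
  constructor
  · intro h i
    have := DFunLike.congr_fun h i
    rw [Basis.baseChange_repr_tmul, Finsupp.zero_apply, Algebra.smul_def, mul_one] at this
    exact (hker _).1 this
  · intro h
    ext i
    rw [Basis.baseChange_repr_tmul, Finsupp.zero_apply, Algebra.smul_def, mul_one]
    exact (hker _).2 (h i)

omit [DecidableEq ι] in
include b in
/-- Clearing denominators in `κ ⊗ S`. -/
theorem exists_smul_eq_one_tmul
    (hfrac : ∀ c : κ, ∃ d : R, d ∉ p ∧ ∃ a : R, algebraMap R κ d * c = algebraMap R κ a)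
    (z : κ ⊗[R] S) : ∃ d : R, d ∉ p ∧ ∃ x : S, algebraMap R κ d • z = (1 : κ) ⊗ₜ[R] x := by
  classical
  choose d hd a ha using hfrac
  let c : ι → κ := fun i => (b.baseChange κ).repr z i
  refine ⟨∏ i, d (c i), ?_, ∑ i, ((∏ j ∈ Finset.univ.erase i, d (c j)) * a (c i)) • b i, ?_⟩
  · intro h
    obtain ⟨i, -, hi⟩ := (Ideal.IsPrime.prod_mem_iff).1 h
    exact hd _ hi
  · conv_lhs => rw [← (b.baseChange κ).sum_repr z]
    rw [Finset.smul_sum, TensorProduct.tmul_sum]
    refine Finset.sum_congr rfl fun i _ => ?_
    rw [Basis.baseChange_apply, TensorProduct.smul_tmul', TensorProduct.smul_tmul',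
      TensorProduct.tmul_smul, TensorProduct.smul_tmul']
    congr 1
    rw [smul_eq_mul, smul_eq_mul, mul_one, Algebra.smul_def, mul_one,
      ← Finset.mul_prod_erase Finset.univ (fun j => d (c j)) (Finset.mem_univ i), map_mul,
      map_mul, ← ha (c i)]
    ring

omit [DecidableEq ι] in
/-- If `p S` is a radical ideal of `S` (in coordinates), `κ ⊗ S` is reduced. -/
theorem isReduced_baseChange (hker : ∀ r : R, algebraMap R κ r = 0 ↔ r ∈ p)
    (hfrac : ∀ c : κ, ∃ d : R, d ∉ p ∧ ∃ a : R, algebraMap R κ d * c = algebraMap R κ a)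
    (hrad : ∀ x : S, (∀ i, b.repr (x * x) i ∈ p) → ∀ i, b.repr x i ∈ p) :
    IsReduced (κ ⊗[R] S) := by
  rw [isReduced_iff_pow_one_lt 2 one_lt_two]
  intro z hz
  obtain ⟨d, hd, x, hx⟩ := exists_smul_eq_one_tmul b p hfrac z
  have hd0 : algebraMap R κ d ≠ 0 := fun h => hd ((hker d).1 h)
  have h1 : (1 : κ) ⊗ₜ[R] (x * x) = 0 := by
    have : (1 : κ) ⊗ₜ[R] (x * x) = ((1 : κ) ⊗ₜ[R] x) * ((1 : κ) ⊗ₜ[R] x) := by
      rw [Algebra.TensorProduct.tmul_mul_tmul, mul_one]
    rw [this, ← hx, smul_mul_smul_comm, ← sq z, hz, smul_zero]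
  have h2 := hrad x ((one_tmul_eq_zero_iff b p hker _).1 h1)
  have h3 : (1 : κ) ⊗ₜ[R] x = 0 := (one_tmul_eq_zero_iff b p hker _).2 h2
  rw [h3] at hx
  exact (smul_eq_zero.1 hx).resolve_left hd0


omit [p.IsPrime] in
/-- If `κ ⊗ S` is reduced (`κ` of characteristic zero, `p = ker (R → κ)`), the discriminant of `b`
does not lie in `p`: there are `rank` many characters of `S` over `R → κ → Ω`. -/
theorem discr_notMem_of_isReduced_baseChange [CharZero κ]
    (hker : ∀ r : R, algebraMap R κ r = 0 ↔ r ∈ p) (hred : IsReduced (κ ⊗[R] S)) :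
    Algebra.discr R b ∉ p := by
  have hfinT : Module.Finite κ (κ ⊗[R] S) := Module.Finite.of_basis (b.baseChange κ)
  have hrank : Module.finrank κ (κ ⊗[R] S) = Fintype.card ι :=
    Module.finrank_eq_card_basis (b.baseChange κ)
  have hfin : Finite ((κ ⊗[R] S) →ₐ[κ] AlgebraicClosure κ) := Finite.algHom κ _ _
  have : Fintype ((κ ⊗[R] S) →ₐ[κ] AlgebraicClosure κ) := Fintype.ofFinite _
  have hle : Fintype.card ι ≤ Fintype.card ((κ ⊗[R] S) →ₐ[κ] AlgebraicClosure κ) := by
    rw [← hrank, ← Nat.card_eq_fintype_card]
    exact finrank_le_card_algHom_charZero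
  obtain ⟨ψ⟩ := Function.Embedding.nonempty_of_card_le hle
  let inc : S →+* κ ⊗[R] S := (Algebra.TensorProduct.includeRight : S →ₐ[R] κ ⊗[R] S).toRingHom
  let χ : ι → S →+* AlgebraicClosure κ := fun i => (ψ i).toRingHom.comp inc
  let φ : R →+* AlgebraicClosure κ := (algebraMap κ (AlgebraicClosure κ)).comp (algebraMap R κ)
  have hφ : ∀ i x, χ i (algebraMap R S x) = φ x := by
    intro i x
    show ψ i ((1 : κ) ⊗ₜ[R] (algebraMap R S x)) = _
    have : (1 : κ) ⊗ₜ[R] (algebraMap R S x) = algebraMap κ (κ ⊗[R] S) (algebraMap R κ x) := by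
      rw [Algebra.TensorProduct.algebraMap_apply, Algebra.algebraMap_eq_smul_one,
        Algebra.algebraMap_eq_smul_one (R := R) (A := κ), TensorProduct.tmul_smul,
        TensorProduct.smul_tmul']
      simp
    rw [this, AlgHom.commutes]
    rfl
  have hχ : Function.Injective χ := by
    intro i j hij
    apply ψ.injective
    apply Algebra.TensorProduct.ext
    · ext
    · ext s
      exact DFunLike.congr_fun hij s
  exact Purity.discr_notMem_of_chars b φ χ hχ hφ p fun x hx => by
    show algebraMap κ (AlgebraicClosure κ) (algebraMap R κ x) = 0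
    rw [(hker x).2 hx, map_zero]

end BaseChange


section Valuations

variable {L F : Type*} [Field L] [Field F]

/-- Chevalley: every valuation subring of `L` is the restriction of a valuation subring of a field
extension (copy of `BR.TwoValQ.exists_comap_eq`, kept here to stay Mathlib-only). -/
theorem exists_comap_eq (f : L →+* F) (O : ValuationSubring L) :
    ∃ W : ValuationSubring F, W.comap f = O := by
  obtain ⟨W, h, hloc⟩ := IsLocalRing.exists_factor_valuationRing (f.comp O.subtype)
  refine ⟨W, ?_⟩
  ext x
  constructor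
  · intro hx
    by_contra hxO
    have hxinv : x⁻¹ ∈ O := (O.mem_or_inv_mem x).resolve_left hxO
    have hx0 : x ≠ 0 := fun h0 => hxO (h0 ▸ O.zero_mem)
    have hu : IsUnit ((f.comp O.subtype).codRestrict W.toSubring h ⟨x⁻¹, hxinv⟩) := by
      rw [isUnit_iff_exists_inv]
      refine ⟨⟨f x, hx⟩, Subtype.ext ?_⟩
      show f x⁻¹ * f x = 1
      rw [← map_mul, inv_mul_cancel₀ hx0, map_one]
    have hu' : IsUnit (⟨x⁻¹, hxinv⟩ : O) := hloc.map_nonunit _ hu
    obtain ⟨y, hy⟩ := isUnit_iff_exists_inv.mp hu'
    have hy' : x⁻¹ * (y : L) = 1 := congrArg Subtype.val hy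
    have : (y : L) = x := by
      have := congrArg (fun z => x * z) hy'
      simp only [← mul_assoc, mul_inv_cancel₀ hx0, one_mul, mul_one] at this
      exact this
    exact hxO (this ▸ y.2)
  · intro hx
    exact h ⟨x, hx⟩

/-- Non-units of a restricted valuation subring. -/
theorem mem_nonunits_comap (f : L →+* F) (W : ValuationSubring F) (x : L) :
    x ∈ (W.comap f).nonunits ↔ f x ∈ W.nonunits := by
  rw [ValuationSubring.mem_nonunits_iff_or, ValuationSubring.mem_nonunits_iff_or,
    ValuationSubring.mem_comap, map_inv₀, map_eq_zero]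

/-- The non-units of a valuation subring absorb multiplication. -/
theorem mul_mem_nonunits (V : ValuationSubring L) {a c : L} (ha : a ∈ V.nonunits) (hc : c ∈ V) :
    a * c ∈ V.nonunits := by
  obtain ⟨ha', hm⟩ := V.mem_nonunits_iff_exists_mem_maximalIdeal.1 ha
  exact V.mem_nonunits_iff_exists_mem_maximalIdeal.2
    ⟨V.mul_mem _ _ ha' hc, Ideal.mul_mem_right ⟨c, hc⟩ _ hm⟩

/-- The non-units of a valuation subring form a prime ideal. -/
theorem mem_nonunits_of_mul_self (V : ValuationSubring L) {a : L} (ha : a ∈ V)
    (h : a * a ∈ V.nonunits) : a ∈ V.nonunits := by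
  obtain ⟨_, hm⟩ := V.mem_nonunits_iff_exists_mem_maximalIdeal.1 h
  have hm' : (⟨a, ha⟩ : V) * ⟨a, ha⟩ ∈ IsLocalRing.maximalIdeal V := hm
  exact V.mem_nonunits_iff_exists_mem_maximalIdeal.2
    ⟨ha, ((IsLocalRing.maximalIdeal.isMaximal V).isPrime.mem_or_mem hm').elim id id⟩

end Valuations

section Criterion

variable {A L : Type*} [CommRing A] [Field L] [Algebra A L]

/-- **Valuative criterion for `x / π` to be integral.** If `x ^ 2 = π x'` with `x, x'` integral
over `A`, and `π` generates the maximal ideal of every valuation subring of `L` over `A` in which it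
is not a unit, then `x / π` is integral over `A`. -/
theorem isIntegral_mul_inv_of_valuationSubring (π : A) (x x' : L) (hx : IsIntegral A x)
    (hx' : IsIntegral A x') (hxx : x * x = algebraMap A L π * x')
    (hV : ∀ V : ValuationSubring L, (∀ a : A, algebraMap A L a ∈ V) →
      algebraMap A L π ∈ V.nonunits → ∀ y ∈ V.nonunits, ∃ w ∈ V, y = algebraMap A L π * w) :
    IsIntegral A (x * (algebraMap A L π)⁻¹) := by
  by_contra hni
  have hnot : x * (algebraMap A L π)⁻¹ ∉ (integralClosure A L).toSubring := hni
  obtain ⟨V, hle, hxV⟩ := Subring.exists_le_valuationSubring_of_isIntegrallyClosedIn hnot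
  have hint : ∀ y : L, IsIntegral A y → y ∈ V := fun y hy => hle hy
  have hA : ∀ a : A, algebraMap A L a ∈ V := fun a => hint _ isIntegral_algebraMap
  by_cases hπ : algebraMap A L π ∈ V.nonunits
  · have hxn : x ∈ V.nonunits := by
      apply mem_nonunits_of_mul_self V (hint _ hx)
      rw [hxx]
      exact mul_mem_nonunits V hπ (hint _ hx')
    obtain ⟨w, hw, hxw⟩ := hV V hA hπ x hxn
    apply hxV
    by_cases hπ0 : algebraMap A L π = 0
    · rw [hπ0, inv_zero, mul_zero]
      exact V.zero_mem
    · rw [hxw, mul_comm, ← mul_assoc, inv_mul_cancel₀ hπ0, one_mul]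
      exact hw
  · apply hxV
    have : (algebraMap A L π)⁻¹ ∈ V := by
      rw [ValuationSubring.mem_nonunits_iff_or, not_or, not_not] at hπ
      exact hπ.2
    exact V.mul_mem _ _ (hint _ hx) this

end Criterion


section LocalGenerator

variable {R : Type*} [CommRing R] [IsDomain R] [IsNoetherianRing R] [IsIntegrallyClosed R]

/-- In a noetherian integrally closed domain a height one prime is locally principal (its
localisation is a discrete valuation ring), in elementary form. -/
theorem exists_local_generator (p : Ideal R) [hp : p.IsPrime] (h1 : p.height = 1) :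
    ∃ π ∈ p, π ≠ 0 ∧ ∀ y ∈ p, ∃ r : R, r ∉ p ∧ ∃ a : R, r * y = π * a := by
  have hIC : IsIntegrallyClosed (Localization.AtPrime p) :=
    isIntegrallyClosed_of_isLocalization (Localization.AtPrime p) p.primeCompl
      p.primeCompl_le_nonZeroDivisors
  have hN : IsNoetherianRing (Localization.AtPrime p) :=
    IsLocalization.isNoetherianRing p.primeCompl _ inferInstance
  have hdom : IsDomain (Localization.AtPrime p) :=
    IsLocalization.isDomain_localization p.primeCompl_le_nonZeroDivisors
  have hht : (maximalIdeal (Localization.AtPrime p)).height = 1 := by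
    have e1 := IsLocalization.AtPrime.ringKrullDim_eq_height p (Localization.AtPrime p)
    have e2 := IsLocalRing.maximalIdeal_height_eq_ringKrullDim (R := Localization.AtPrime p)
    rw [e1, h1] at e2
    exact_mod_cast e2
  have hprinc : (maximalIdeal (Localization.AtPrime p)).IsPrincipal := by
    have h34 := (tfae_of_isNoetherianRing_of_isLocalRing_of_isDomain
      (Localization.AtPrime p)).out 3 4
    refine h34.1 ⟨hIC, fun P hP0 hP => ?_⟩
    by_contra hne
    have hlt : P < maximalIdeal (Localization.AtPrime p) :=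
      lt_of_le_of_ne (IsLocalRing.le_maximalIdeal hP.ne_top) hne
    have hfh : (maximalIdeal (Localization.AtPrime p)).FiniteHeight :=
      (Ideal.finiteHeight_iff _).mpr (Or.inr (by rw [hht]; exact ENat.one_ne_top))
    have h2 : P.height < (maximalIdeal (Localization.AtPrime p)).height :=
      Ideal.height_strict_mono_of_isPrime_of_isPrime hlt
    have h3 : P.height ≠ 0 := by
      rw [Ne, Ideal.height_eq_zero_iff_eq_bot]
      exact hP0
    rw [hht] at h2
    exact h3 (by
      have := Order.lt_one_iff_nonpos.1 h2
      simpa using this)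
  obtain ⟨g, hg⟩ := hprinc
  obtain ⟨π₁, s, rfl⟩ := IsLocalization.exists_mk'_eq p.primeCompl g
  have hgm : IsLocalization.mk' (Localization.AtPrime p) π₁ s ∈
      maximalIdeal (Localization.AtPrime p) := by
    rw [hg]
    exact Submodule.mem_span_singleton_self _
  have hπ₁ : π₁ ∈ p := (IsLocalization.AtPrime.mk'_mem_maximal_iff _ p π₁ s).1 hgm
  have hπ0 : π₁ ≠ 0 := by
    rintro rfl
    rw [IsLocalization.mk'_zero, Ideal.submodule_span_eq, Ideal.span_singleton_eq_bot.2 rfl] at hg
    have h0 : (maximalIdeal (Localization.AtPrime p)).height = 0 := by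
      rw [hg]
      exact Ideal.height_bot
    rw [hht] at h0
    exact one_ne_zero h0
  refine ⟨π₁, hπ₁, hπ0, fun y hy => ?_⟩
  have hym : algebraMap R (Localization.AtPrime p) y ∈ maximalIdeal (Localization.AtPrime p) :=
    (IsLocalization.AtPrime.to_map_mem_maximal_iff _ p y).2 hy
  rw [hg] at hym
  obtain ⟨c, hc⟩ := Submodule.mem_span_singleton.1 hym
  obtain ⟨a, t, rfl⟩ := IsLocalization.exists_mk'_eq p.primeCompl c
  refine ⟨(t * s : p.primeCompl), (t * s).2, a, ?_⟩
  apply IsLocalization.injective (Localization.AtPrime p) p.primeCompl_le_nonZeroDivisors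
  rw [smul_eq_mul, ← IsLocalization.mk'_mul] at hc
  have := (IsLocalization.eq_mk'_iff_mul_eq.1 hc.symm)
  rw [map_mul, mul_comm (algebraMap R _ ((t * s : p.primeCompl) : R)), this, mul_comm a π₁]

end LocalGenerator

section Horizontal

/-- Elements integral over a subring of a valuation subring lie in it (copy of
`Good.RamDesc.mem_valuationSubring_of_isIntegral`, kept here to stay Mathlib-only). -/
theorem mem_valuationSubring_of_isIntegral {A L : Type*} [CommRing A] [Field L] [Algebra A L]
    (V : ValuationSubring L) (hA : ∀ a : A, algebraMap A L a ∈ V) {r : L} (hr : IsIntegral A r) :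
    r ∈ V := by
  let φ : A →+* V := (algebraMap A L).codRestrict V.toSubring hA
  have h1 : IsIntegral V ((RingHom.id L) r) :=
    IsIntegral.map_of_comp_eq φ (RingHom.id L) (by ext a; rfl) hr
  obtain ⟨y, hy⟩ := IsIntegrallyClosed.isIntegral_iff.mp h1
  rw [RingHom.id_apply] at hy
  rw [← hy]
  exact y.2

variable {R : Type*} [CommRing R] [IsDomain R] [IsNoetherianRing R] [IsIntegrallyClosed R]
  {L : Type*} [Field L] [Algebra R L]
  {S : Type*} [CommRing S] [Algebra R S] [Algebra S L] [IsScalarTower R S L]
  [IsIntegralClosure S R L]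
  {ι : Type*} [Fintype ι] (b : Basis ι R S)
  {F : Type*} [Field F] (j : L →+* F)

/-- **`p S` is radical along an unramified height one prime** (coordinates with respect to a basis
`b` of `S` over `R`). -/
theorem repr_mem_of_repr_mul_self_mem (hinj : Function.Injective (algebraMap R L))
    (p : Ideal R) [hp : p.IsPrime] (h1 : p.height = 1)
    (hW : ∀ W : ValuationSubring F, (∀ x : S, j (algebraMap S L x) ∈ W) →
      (∀ r : R, j (algebraMap R L r) ∈ W.nonunits ↔ r ∈ p) →
      ∃ π' ∈ p, ∀ y ∈ W.nonunits, ∃ w ∈ W, y = j (algebraMap R L π') * w)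
    (x : S) (hx : ∀ i, b.repr (x * x) i ∈ p) : ∀ i, b.repr x i ∈ p := by
  classical
  obtain ⟨π, hπp, hπ0, hgen⟩ := exists_local_generator p h1
  -- step 1: `r • x ^ 2 = π • x'`
  choose d hd a ha using fun i => hgen _ (hx i)
  let r : R := ∏ i, d i
  have hr : r ∉ p := by
    intro h
    obtain ⟨i, -, hi⟩ := (Ideal.IsPrime.prod_mem_iff).1 h
    exact hd i hi
  let x' : S := ∑ i, ((∏ k ∈ Finset.univ.erase i, d k) * a i) • b i
  have hxx' : r • (x * x) = π • x' := by
    conv_lhs => rw [← b.sum_repr (x * x)]
    rw [Finset.smul_sum, Finset.smul_sum]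
    refine Finset.sum_congr rfl fun i _ => ?_
    rw [smul_smul, smul_smul]
    congr 1
    have hrd : r = d i * ∏ k ∈ Finset.univ.erase i, d k :=
      (Finset.mul_prod_erase Finset.univ d (Finset.mem_univ i)).symm
    have := ha i
    rw [hrd]
    linear_combination (∏ k ∈ Finset.univ.erase i, d k) * this
  have hXX : (r • x) * (r • x) = π • (r • x') := by
    rw [smul_mul_smul_comm, ← smul_smul, hxx', smul_comm]
  -- step 2: the localisation `R_p` acts on `L`
  have hu : ∀ y : p.primeCompl, IsUnit (algebraMap R L y) := fun y =>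
    IsUnit.mk0 _ fun h0 => y.2 (by
      have : (y : R) = 0 := hinj (by rw [h0, map_zero])
      rw [this]
      exact p.zero_mem)
  let _ : Algebra (Localization.AtPrime p) L := (IsLocalization.lift hu).toAlgebra
  have htower : IsScalarTower R (Localization.AtPrime p) L :=
    IsScalarTower.of_algebraMap_eq fun y => (IsLocalization.lift_eq hu y).symm
  have hintR : ∀ z : S, IsIntegral R (algebraMap S L z) := fun z =>
    (IsIntegralClosure.isIntegral_iff (A := S)).2 ⟨z, rfl⟩
  have hintS : ∀ z : S, IsIntegral (Localization.AtPrime p) (algebraMap S L z) := fun z =>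
    (hintR z).tower_top
  have hmap : ∀ y : R, algebraMap (Localization.AtPrime p) L (algebraMap R _ y) = algebraMap R L y :=
    fun y => (IsScalarTower.algebraMap_apply R (Localization.AtPrime p) L y).symm
  have hπL : algebraMap R L π ≠ 0 := fun h0 => hπ0 (hinj (by rw [h0, map_zero]))
  -- step 3: the valuative criterion
  have key : IsIntegral (Localization.AtPrime p)
      (algebraMap S L (r • x) * (algebraMap (Localization.AtPrime p) L (algebraMap R _ π))⁻¹) := by
    refine isIntegral_mul_inv_of_valuationSubring (algebraMap R _ π) _ (algebraMap S L (r • x'))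
      (hintS _) (hintS _) ?_ ?_
    · rw [← map_mul, hXX, hmap, Algebra.smul_def, map_mul, ← IsScalarTower.algebraMap_apply]
    · intro V hA hπV y hy
      rw [hmap] at hπV
      have hRV : ∀ y : R, algebraMap R L y ∈ V := fun y => by
        rw [← hmap]
        exact hA _
      -- elements outside `p` are units of `V`
      have hunit : ∀ y : R, y ∉ p → (algebraMap R L y)⁻¹ ∈ V := by
        intro y hy
        have h1 : algebraMap (Localization.AtPrime p) L
            (IsLocalization.mk' (Localization.AtPrime p) 1 (⟨y, hy⟩ : p.primeCompl)) *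
            algebraMap R L y = 1 := by
          rw [← hmap y, ← map_mul, IsLocalization.mk'_spec, map_one, map_one]
        rw [← eq_inv_of_mul_eq_one_left h1]
        exact hA _
      -- elements of `p` are non-units of `V`
      have hnon : ∀ y : R, y ∈ p → algebraMap R L y ∈ V.nonunits := by
        intro y hy
        obtain ⟨r', hr', a', ha'⟩ := hgen y hy
        have hr'0 : algebraMap R L r' ≠ 0 := fun h0 => hr' (by
          have : r' = 0 := hinj (by rw [h0, map_zero])
          rw [this]
          exact p.zero_mem)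
        have e : algebraMap R L y =
            algebraMap R L π * (algebraMap R L a' * (algebraMap R L r')⁻¹) := by
          have := congrArg (algebraMap R L) ha'
          rw [map_mul, map_mul] at this
          field_simp
          linear_combination this
        rw [e]
        exact mul_mem_nonunits V hπV (V.mul_mem _ _ (hRV _) (hunit _ hr'))
      obtain ⟨W, hWV⟩ := exists_comap_eq j V
      have hmemW : ∀ z : L, j z ∈ W ↔ z ∈ V := fun z => by
        rw [← hWV, ValuationSubring.mem_comap]
      have hnonW : ∀ z : L, j z ∈ W.nonunits ↔ z ∈ V.nonunits := fun z => by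
        rw [← hWV, mem_nonunits_comap]
      obtain ⟨π', hπ'p, hπ'⟩ := hW W
        (fun z => (hmemW _).2 (mem_valuationSubring_of_isIntegral V hRV (hintR z)))
        (fun y => by
          rw [hnonW]
          refine ⟨fun h => ?_, hnon y⟩
          by_contra hyp
          have h2 := hunit y hyp
          rw [ValuationSubring.mem_nonunits_iff_or] at h
          rcases h with h | h
          · exact hyp (by
              have : y = 0 := hinj (by rw [h, map_zero])
              rw [this]
              exact p.zero_mem)
          · exact h h2)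
      obtain ⟨w, hw, hyw⟩ := hπ' (j y) ((hnonW y).2 hy)
      obtain ⟨r', hr', a', ha'⟩ := hgen π' hπ'p
      have hr'0 : algebraMap R L r' ≠ 0 := fun h0 => hr' (by
        have : r' = 0 := hinj (by rw [h0, map_zero])
        rw [this]
        exact p.zero_mem)
      refine ⟨y * (algebraMap R L π)⁻¹, ?_, ?_⟩
      · rw [← hmemW, map_mul, map_inv₀, hyw]
        have e : j (algebraMap R L π') * w * (j (algebraMap R L π))⁻¹ =
            j (algebraMap R L a') * (j (algebraMap R L r'))⁻¹ * w := by
          have := congrArg (fun z => j (algebraMap R L z)) ha'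
          simp only [map_mul] at this
          have h1 : j (algebraMap R L r') ≠ 0 := (map_ne_zero j).2 hr'0
          have h2 : j (algebraMap R L π) ≠ 0 := (map_ne_zero j).2 hπL
          field_simp
          linear_combination w * this
        rw [e]
        refine W.mul_mem _ _ (W.mul_mem _ _ ((hmemW _).2 (hRV _)) ?_) hw
        rw [← map_inv₀, hmemW]
        exact hunit _ hr'
      · rw [hmap]
        field_simp
  -- step 4: back to `S`
  obtain ⟨m, hm⟩ := IsIntegral.exists_multiple_integral_of_isLocalization p.primeCompl _ key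
  obtain ⟨z, hz⟩ := IsIntegralClosure.isIntegral_iff (A := S) |>.1 hm
  have hzS : π • z = ((m : R) * r) • x := by
    apply IsIntegralClosure.algebraMap_injective S R L
    rw [Algebra.smul_def, map_mul, hz, ← IsScalarTower.algebraMap_apply, Submonoid.smul_def,
      Algebra.smul_def (m : R), hmap, mul_smul, Algebra.smul_def (m : R) (r • x), map_mul,
      ← IsScalarTower.algebraMap_apply]
    field_simp
  intro i
  have h2 : π * b.repr z i = ((m : R) * r) * b.repr x i := by
    have := congrArg (fun y => b.repr y i) hzS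
    simpa [smul_eq_mul] using this
  have h3 : ((m : R) * r) * b.repr x i ∈ p := by
    rw [← h2]
    exact p.mul_mem_right _ hπp
  rcases hp.mem_or_mem h3 with h | h
  · rcases hp.mem_or_mem h with h | h
    · exact absurd h m.2
    · exact absurd h hr
  · exact h

/-- **(PUR-H) The discriminant avoids an unramified height one prime of residue characteristic
zero.** `R` noetherian integrally closed domain, `S` its integral closure in `L`, free with basis
`b`; `j : L → F` a field embedding; every valuation subring `W` of `F` regular on `S` with centre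
`p` on `R` has maximal ideal generated by an element of `p`. Then `discr b ∉ p`. -/
theorem discr_notMem_of_valuationSubring [DecidableEq ι]
    (hinj : Function.Injective (algebraMap R L))
    (p : Ideal R) [hp : p.IsPrime] (h1 : p.height = 1)
    (hchar : ∀ m : ℕ, m ≠ 0 → (m : R) ∉ p)
    (hW : ∀ W : ValuationSubring F, (∀ x : S, j (algebraMap S L x) ∈ W) →
      (∀ r : R, j (algebraMap R L r) ∈ W.nonunits ↔ r ∈ p) →
      ∃ π' ∈ p, ∀ y ∈ W.nonunits, ∃ w ∈ W, y = j (algebraMap R L π') * w) :
    Algebra.discr R b ∉ p := by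
  have hmapκ : ∀ r : R, algebraMap R (FractionRing (R ⧸ p)) r =
      algebraMap (R ⧸ p) (FractionRing (R ⧸ p)) (Ideal.Quotient.mk p r) := fun r => by
    rw [IsScalarTower.algebraMap_apply R (R ⧸ p) (FractionRing (R ⧸ p))]
    rfl
  have hker : ∀ r : R, algebraMap R (FractionRing (R ⧸ p)) r = 0 ↔ r ∈ p := fun r => by
    rw [hmapκ, map_eq_zero_iff _ (IsFractionRing.injective (R ⧸ p) (FractionRing (R ⧸ p))),
      Ideal.Quotient.eq_zero_iff_mem]
  have hfrac : ∀ c : FractionRing (R ⧸ p), ∃ d : R, d ∉ p ∧ ∃ a : R,
      algebraMap R (FractionRing (R ⧸ p)) d * c = algebraMap R (FractionRing (R ⧸ p)) a := by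
    intro c
    obtain ⟨a, d, rfl⟩ := IsLocalization.exists_mk'_eq (nonZeroDivisors (R ⧸ p)) c
    obtain ⟨a, rfl⟩ := Ideal.Quotient.mk_surjective a
    obtain ⟨d, hd⟩ := d
    obtain ⟨d, rfl⟩ := Ideal.Quotient.mk_surjective d
    refine ⟨d, fun hdp => ?_, a, ?_⟩
    · have : Ideal.Quotient.mk p d = 0 := Ideal.Quotient.eq_zero_iff_mem.2 hdp
      rw [this] at hd
      exact zero_notMem_nonZeroDivisors hd
    · rw [hmapκ, hmapκ, mul_comm]
      exact IsLocalization.mk'_spec _ _ _
  have hcz : CharZero (FractionRing (R ⧸ p)) := by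
    refine charZero_of_inj_zero fun m hm => ?_
    by_contra hm0
    apply hchar m hm0
    rw [← hker, map_natCast]
    exact hm
  have hred : IsReduced (FractionRing (R ⧸ p) ⊗[R] S) :=
    isReduced_baseChange b p hker hfrac
      (repr_mem_of_repr_mul_self_mem b j hinj p h1 hW)
  exact discr_notMem_of_isReduced_baseChange b p hker hred

end Horizontal


end Fermat.Agent.BR3.PurityPlug
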