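/-
Program C (S36), node (I7-PUR) = plug of A6p PURITY at the modular levels, part PUR-R (helper4):
the ring-theoretic hypotheses of `Purity.free_of_prime` / `Purity.purity_chars` for the local ring
`M.loc` of a finite-level smooth model `M : SmoothModel A π O res Q T t C ϖ` (`BR/S0/SmoothModel`).

* `M.loc` is a noetherian local integrally closed domain;
* the uniformiser `unifLoc M = ϖ ∈ M.loc` of the base is a PRIME element, in the maximal ideal:
  `span {ϖ}` is the kernel of the reduction `M.loc → redRing` (helper21's `CoverSmooth.redRing`);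
* `M.loc ⧸ span {ϖ} ≃+* redRing` is a principal ideal ring (its maximal ideal is generated by the
  reduction of `t`).
Consequently the integral closure of `M.loc` in ANY finite separable extension of its fraction
field is a free `M.loc`-module (`free_closure`, `exists_basis_closure`): no hypothesis on the cover.
Also: a height one prime of `M.loc` containing `ϖ` is `span {ϖ}` (`eq_span_of_height_one`), so the
hypothesis (CH) of `Purity.isUnit_discr` splits into ONE vertical prime and the horizontal ones.
-/
import Mathlib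
import Fermat.Agent.BR.S0.SmoothModel
import Fermat.Agent.BR3.CoverSmooth.RedRing
import Fermat.Agent.BR3.PurityPrim

set_option autoImplicit false
set_option linter.unusedSectionVars false

namespace Fermat.Agent.BR3.PurityPlug

open AlgebraicCurve IsLocalRing Fermat.Agent.Red Fermat.Agent.X0 Fermat.Agent.BR
  Fermat.Agent.BR.Centre Fermat.Agent.BR.S0 Fermat.Agent.BR3.CoverSmooth Fermat.Agent.BR3.Purity

variable {K F k : Type*} [Field K] [Field F] [Algebra K F] [Field k]
  {Ft : Type*} [Field Ft] [Algebra k Ft]
  {A : ValuationSubring K} {π : A →+* k} {O : ValuationSubring F} {res : O →+* Ft}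
  {Q : Place k Ft} {T : Set (Place K F)} {t : F} {C : Subring F} {ϖ : K}

variable (M : SmoothModel A π O res Q T t C ϖ)
  (hres0 : ∀ x : O, res x = 0 ↔ (x : F) ∈ O.nonunits)

/-- The uniformiser of the base, as an element of the local ring of the model at the point. -/
def unifLoc : M.loc := ⟨algebraMap K F ϖ, M.le_loc M.unif_mem⟩

theorem coe_unifLoc : ((unifLoc M : M.loc) : F) = algebraMap K F ϖ := rfl

theorem unifLoc_ne_zero : unifLoc M ≠ 0 := by
  intro h
  have h1 : algebraMap K F ϖ = 0 := congrArg (fun z : M.loc => (z : F)) h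
  exact M.unif_ne ((map_eq_zero (algebraMap K F)).1 h1)

/-- The local ring of the model at the point is integrally closed. -/
theorem loc_isIntegrallyClosed : IsIntegrallyClosed M.loc :=
  have := M.intClosed
  isIntegrallyClosed_of_isLocalization M.loc M.point.primeCompl
    M.point.primeCompl_le_nonZeroDivisors

include hres0 in
/-- **The vertical prime**: the kernel of the reduction on the local ring is generated by the
uniformiser of the base. -/
theorem ker_toRedRing
    (hres : ∀ (a : K) (ha : a ∈ A) (h : algebraMap K F a ∈ O),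
      res ⟨algebraMap K F a, h⟩ = algebraMap k Ft (π ⟨a, ha⟩))
    (hπ0 : ∀ a : A, A.valuation (a : K) < 1 → π a = 0) :
    RingHom.ker (toRedRing M hres0) = Ideal.span {unifLoc M} := by
  apply le_antisymm
  · intro z hz
    rw [RingHom.mem_ker] at hz
    have h1 : redLoc M hres0 z = 0 := congrArg (fun d : redRing M hres0 => (d : Ft)) hz
    rw [redLoc_apply] at h1
    have h2 : (z : F) ∈ O.nonunits := (hres0 _).1 h1
    exact Ideal.mem_span_singleton.2 (M.loc_vert z h2)
  · rw [Ideal.span_singleton_le_iff_mem, RingHom.mem_ker]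
    exact Subtype.ext (redLoc_unif M hres0 hres hπ0)

include hres0 in
/-- The uniformiser of the base is a prime element of the local ring of the model. -/
theorem prime_unifLoc
    (hres : ∀ (a : K) (ha : a ∈ A) (h : algebraMap K F a ∈ O),
      res ⟨algebraMap K F a, h⟩ = algebraMap k Ft (π ⟨a, ha⟩))
    (hπ0 : ∀ a : A, A.valuation (a : K) < 1 → π a = 0) : Prime (unifLoc M) := by
  rw [← Ideal.span_singleton_prime (unifLoc_ne_zero M), ← ker_toRedRing M hres0 hres hπ0]
  exact RingHom.ker_isPrime _

include hres0 in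
/-- The uniformiser of the base lies in the maximal ideal of the local ring of the model. -/
theorem unifLoc_mem_maximalIdeal
    (hres : ∀ (a : K) (ha : a ∈ A) (h : algebraMap K F a ∈ O),
      res ⟨algebraMap K F a, h⟩ = algebraMap k Ft (π ⟨a, ha⟩))
    (hπ0 : ∀ a : A, A.valuation (a : K) < 1 → π a = 0) :
    unifLoc M ∈ maximalIdeal M.loc := by
  rw [mem_maximalIdeal, mem_nonunits_iff]
  exact (prime_unifLoc M hres0 hres hπ0).not_isUnit

/-- The quotient of the local ring of the model by the uniformiser of the base is the local ring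
of the reduction. -/
noncomputable def quotEquivRedRing
    (hres : ∀ (a : K) (ha : a ∈ A) (h : algebraMap K F a ∈ O),
      res ⟨algebraMap K F a, h⟩ = algebraMap k Ft (π ⟨a, ha⟩))
    (hπ0 : ∀ a : A, A.valuation (a : K) < 1 → π a = 0) :
    (M.loc ⧸ Ideal.span {unifLoc M}) ≃+* redRing M hres0 :=
  (Ideal.quotEquivOfEq (ker_toRedRing M hres0 hres hπ0).symm).trans
    (RingHom.quotientKerEquivOfSurjective (toRedRing_surjective M hres0))

include hres0 in
/-- The local ring of the reduction at the point is a principal ideal ring. -/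
theorem redRing_isPrincipalIdealRing
    (hres : ∀ (a : K) (ha : a ∈ A) (h : algebraMap K F a ∈ O),
      res ⟨algebraMap K F a, h⟩ = algebraMap k Ft (π ⟨a, ha⟩))
    (hπ0 : ∀ a : A, A.valuation (a : K) < 1 → π a = 0) :
    IsPrincipalIdealRing (redRing M hres0) := by
  have := redRing_isNoetherianRing M hres0
  have hp : (maximalIdeal (redRing M hres0)).IsPrincipal :=
    ⟨⟨tRed M hres0, maximalIdeal_redRing M hres0 hres hπ0⟩⟩
  exact ((tfae_of_isNoetherianRing_of_isLocalRing_of_isDomain (redRing M hres0)).out 4 0).mp hp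

include hres0 in
/-- **`M.loc ⧸ ϖ` is a principal ideal ring.** -/
theorem quot_isPrincipalIdealRing
    (hres : ∀ (a : K) (ha : a ∈ A) (h : algebraMap K F a ∈ O),
      res ⟨algebraMap K F a, h⟩ = algebraMap k Ft (π ⟨a, ha⟩))
    (hπ0 : ∀ a : A, A.valuation (a : K) < 1 → π a = 0) :
    IsPrincipalIdealRing (M.loc ⧸ Ideal.span {unifLoc M}) := by
  have := redRing_isPrincipalIdealRing M hres0 hres hπ0
  exact IsPrincipalIdealRing.of_surjective
    (quotEquivRedRing M hres0 hres hπ0).symm.toRingHom
    (quotEquivRedRing M hres0 hres hπ0).symm.surjective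

include hres0 in
/-- A height one prime of the local ring of the model which contains the uniformiser of the base
is the vertical prime. -/
theorem eq_span_of_height_one
    (hres : ∀ (a : K) (ha : a ∈ A) (h : algebraMap K F a ∈ O),
      res ⟨algebraMap K F a, h⟩ = algebraMap k Ft (π ⟨a, ha⟩))
    (hπ0 : ∀ a : A, A.valuation (a : K) < 1 → π a = 0)
    (p : Ideal M.loc) [hp : p.IsPrime] (h1 : p.height = 1) (hϖ : unifLoc M ∈ p) :
    p = Ideal.span {unifLoc M} := by
  have hP : (Ideal.span {unifLoc M}).IsPrime :=
    (Ideal.span_singleton_prime (unifLoc_ne_zero M)).2 (prime_unifLoc M hres0 hres hπ0)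
  have hle : Ideal.span {unifLoc M} ≤ p := (Ideal.span_singleton_le_iff_mem _).2 hϖ
  by_contra hne
  have hlt : Ideal.span {unifLoc M} < p := lt_of_le_of_ne hle (Ne.symm hne)
  have hbot : (⊥ : Ideal M.loc) < Ideal.span {unifLoc M} := by
    rw [bot_lt_iff_ne_bot, Ne, Ideal.span_singleton_eq_bot]
    exact unifLoc_ne_zero M
  have hfh : p.FiniteHeight := p.finiteHeight_iff.mpr (Or.inr (by rw [h1]; exact ENat.one_ne_top))
  have h2 : (Ideal.span {unifLoc M}).height < p.height :=
    Ideal.height_strict_mono_of_isPrime_of_isPrime hlt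
  have h3 : (Ideal.span {unifLoc M}).height ≠ 0 := by
    rw [Ne, Ideal.height_eq_zero_iff_eq_bot]
    exact hbot.ne'
  rw [h1] at h2
  exact h3 (by
    have := Order.lt_one_iff_nonpos.1 h2
    simpa using this)

section Closure

variable (K₀ : Type*) [Field K₀] [Algebra M.loc K₀] [IsFractionRing M.loc K₀]
  (L : Type*) [Field L] [Algebra K₀ L] [Algebra M.loc L] [IsScalarTower M.loc K₀ L]
  [FiniteDimensional K₀ L] [Algebra.IsSeparable K₀ L]
  (S : Type*) [CommRing S] [Algebra M.loc S] [Algebra S L] [IsScalarTower M.loc S L]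
  [IsIntegralClosure S M.loc L]

include hres0 K₀ L in
/-- **(PUR-R)**: the integral closure of the local ring of a smooth model in a finite separable
extension of its fraction field is free; no hypothesis on the cover. -/
theorem free_closure
    (hres : ∀ (a : K) (ha : a ∈ A) (h : algebraMap K F a ∈ O),
      res ⟨algebraMap K F a, h⟩ = algebraMap k Ft (π ⟨a, ha⟩))
    (hπ0 : ∀ a : A, A.valuation (a : K) < 1 → π a = 0) : Module.Free M.loc S := by
  have := loc_isIntegrallyClosed M
  have := loc_isNoetherianRing M
  have := quot_isPrincipalIdealRing M hres0 hres hπ0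
  exact free_of_prime K₀ L S (prime_unifLoc M hres0 hres hπ0)
    (unifLoc_mem_maximalIdeal M hres0 hres hπ0)

include hres0 K₀ L in
/-- **(PUR-R)**, basis form. -/
theorem exists_basis_closure
    (hres : ∀ (a : K) (ha : a ∈ A) (h : algebraMap K F a ∈ O),
      res ⟨algebraMap K F a, h⟩ = algebraMap k Ft (π ⟨a, ha⟩))
    (hπ0 : ∀ a : A, A.valuation (a : K) < 1 → π a = 0) :
    Nonempty (Module.Basis (Fin (Module.finrank K₀ L)) M.loc S) := by
  have := loc_isIntegrallyClosed M
  have := loc_isNoetherianRing M
  have := quot_isPrincipalIdealRing M hres0 hres hπ0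
  exact exists_basis_of_prime K₀ L S (prime_unifLoc M hres0 hres hπ0)
    (unifLoc_mem_maximalIdeal M hres0 hres hπ0)

universe w

include hres0 K₀ L in
/-- **(PUR-R) + P2**: the discriminant of a basis of the integral closure is a unit, given
characters at the vertical prime (V) and at every horizontal height one prime (H). -/
theorem isUnit_discr_closure
    (hres : ∀ (a : K) (ha : a ∈ A) (h : algebraMap K F a ∈ O),
      res ⟨algebraMap K F a, h⟩ = algebraMap k Ft (π ⟨a, ha⟩))
    (hπ0 : ∀ a : A, A.valuation (a : K) < 1 → π a = 0)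
    {ι : Type*} [Fintype ι] [DecidableEq ι] (b : Module.Basis ι M.loc S)
    (hV : ∃ (Ω : Type w) (_ : Field Ω) (φ : M.loc →+* Ω) (χ : ι → S →+* Ω),
      φ (unifLoc M) = 0 ∧ Function.Injective χ ∧ ∀ i x, χ i (algebraMap M.loc S x) = φ x)
    (hH : ∀ p : Ideal M.loc, p.IsPrime → p.height = 1 → unifLoc M ∉ p →
      ∃ (Ω : Type w) (_ : Field Ω) (φ : M.loc →+* Ω) (χ : ι → S →+* Ω),
        (∀ x ∈ p, φ x = 0) ∧ Function.Injective χ ∧ ∀ i x, χ i (algebraMap M.loc S x) = φ x) :
    IsUnit (Algebra.discr M.loc b) := by
  have := loc_isNoetherianRing M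
  refine isUnit_discr_of_closure K₀ L b fun p hp h1 => ?_
  by_cases hϖ : unifLoc M ∈ p
  · obtain ⟨Ω, _, φ, χ, h0, hχ, hφ⟩ := hV
    refine ⟨Ω, _, φ, χ, fun x hx => ?_, hχ, hφ⟩
    rw [eq_span_of_height_one M hres0 hres hπ0 p h1 hϖ, Ideal.mem_span_singleton] at hx
    obtain ⟨y, rfl⟩ := hx
    rw [map_mul, h0, zero_mul]
  · exact hH p hp h1 hϖ

end Closure

end Fermat.Agent.BR3.PurityPlug
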