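/-
Program C (S36), node (I7-PUR) plug of purity at the modular levels, part PUR-G (helper4):
the GLUE between the finite level (PUR-R `PurityLoc`, PUR-H `PurityHoriz`) and the `K`-level
(PUR-K `PurityKLevel`), and the discharge of the valuative hypothesis of PUR-H by places.

* `Glue`: `b₀` a basis of the finite-level algebra `S₀ / R₀`, mapped by `g : S₀ → F''` (over
  `f : R₀ → R ⊆ F'`) to a basis `b` of `F'' / F'`. Then `1, b_i b_j ∈ Σ R b_i`
  (`one_mem_span_of_map`, `mul_mem_span_of_map`), traces and discriminants are compatible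
  (`trace_map_eq`, `discr_map_eq`), and a unit discriminant downstairs gives the hypothesis `hd` of
  `exists_primitive_klevel` (`exists_unit_discr_of_map`). `basisOfMap` builds `b` from
  `finrank F' F'' = n` and `F'' = Σ F' g (b₀ i)`.
* `exists_generator_of_place`: for a function field `F / K` whose valuation subrings over `K` are
  discrete (`hplace`), a valuation subring `W ⊇ K` with centre `p ≠ 0` on `R₀` at which some
  element of `p` has a simple zero has its maximal ideal generated by that element (the hypothesis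
  `hW` of `discr_notMem_of_valuationSubring`).
* `isUnit_discr_closure_of_notMem`, `isUnit_discr_closure_of_valuationSubring`: (PUR-R) + (PUR-H) for
  the local ring `M.loc` of a `SmoothModel`: the discriminant of a basis of the integral closure is
  a unit, given the vertical characters (V) and the valuative condition at the horizontal primes.
* `purity_plug`: the full plug = unit discriminant + glue + `exists_primitive_klevel`.
-/
import Mathlib
import Fermat.Agent.BR3.PurityLoc
import Fermat.Agent.BR3.PurityKLevel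
import Fermat.Agent.BR3.PurityHoriz

set_option autoImplicit false
set_option linter.unusedSectionVars false

namespace Fermat.Agent.BR3.PurityPlug

open Module Polynomial IsLocalRing AlgebraicCurve Fermat.Agent.X0 Fermat.Agent.BR.S0
  Fermat.Agent.BR3.CoverSmooth Fermat.Agent.BR3.Purity

section Glue

variable {R₀ S₀ : Type*} [CommRing R₀] [CommRing S₀] [Algebra R₀ S₀]
  {R F' F'' : Type*} [CommRing R] [Field F'] [Field F''] [Algebra R F'] [Algebra F' F'']
  [Algebra R F''] [IsScalarTower R F' F'']
  {n : ℕ} (b₀ : Basis (Fin n) R₀ S₀) (b : Basis (Fin n) F' F'')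
  (f : R₀ →+* R) (g : S₀ →+* F'')
  (hfg : ∀ r, g (algebraMap R₀ S₀ r) = algebraMap R F'' (f r))
  (hb : ∀ i, b i = g (b₀ i))

include hfg hb in
/-- The image of `s` in the basis `b`. -/
theorem map_eq_sum (s : S₀) :
    g s = ∑ i, algebraMap R F' (f (b₀.repr s i)) • b i := by
  conv_lhs => rw [← b₀.sum_repr s]
  rw [map_sum]
  refine Finset.sum_congr rfl fun i _ => ?_
  rw [Algebra.smul_def, map_mul, hfg, hb, Algebra.smul_def,
    ← IsScalarTower.algebraMap_apply R F' F'']

include hfg hb in
theorem repr_map_eq (s : S₀) (i : Fin n) :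
    b.repr (g s) i = algebraMap R F' (f (b₀.repr s i)) := by
  rw [map_eq_sum b₀ b f g hfg hb s, b.repr_sum_self]

include hfg hb in
theorem map_mem_span (s : S₀) : g s ∈ Submodule.span R (Set.range b) := by
  rw [map_eq_sum b₀ b f g hfg hb s]
  refine Submodule.sum_mem _ fun i _ => ?_
  rw [algebraMap_smul]
  exact Submodule.smul_mem _ _ (Submodule.subset_span ⟨i, rfl⟩)

include hfg hb in
theorem one_mem_span_of_map : (1 : F'') ∈ Submodule.span R (Set.range b) := by
  rw [← map_one g]
  exact map_mem_span b₀ b f g hfg hb 1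

include hfg hb in
theorem mul_mem_span_of_map (i j : Fin n) : b i * b j ∈ Submodule.span R (Set.range b) := by
  rw [hb, hb, ← map_mul]
  exact map_mem_span b₀ b f g hfg hb _

include hfg hb in
/-- Traces are compatible with the glue. -/
theorem trace_map_eq (s : S₀) :
    Algebra.trace F' F'' (g s) = algebraMap R F' (f (Algebra.trace R₀ S₀ s)) := by
  rw [Algebra.trace_eq_matrix_trace b, Algebra.trace_eq_matrix_trace b₀, Matrix.trace,
    Matrix.trace, map_sum, map_sum]
  refine Finset.sum_congr rfl fun i _ => ?_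
  rw [Matrix.diag_apply, Matrix.diag_apply, Algebra.leftMulMatrix_eq_repr_mul,
    Algebra.leftMulMatrix_eq_repr_mul, hb, ← map_mul, repr_map_eq b₀ b f g hfg hb]

include hfg hb in
/-- Discriminants are compatible with the glue. -/
theorem discr_map_eq :
    Algebra.discr F' b = algebraMap R F' (f (Algebra.discr R₀ b₀)) := by
  rw [Algebra.discr_def, Algebra.discr_def, ← RingHom.comp_apply, RingHom.map_det]
  congr 1
  ext i j
  rw [RingHom.mapMatrix_apply, Matrix.map_apply, Algebra.traceMatrix_apply,
    Algebra.traceMatrix_apply, Algebra.traceForm_apply, Algebra.traceForm_apply, hb, hb,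
    ← map_mul, trace_map_eq b₀ b f g hfg hb]
  rfl

include hfg hb in
/-- A unit discriminant at the finite level gives the hypothesis `hd` of
`exists_primitive_klevel`. -/
theorem exists_unit_discr_of_map (h : IsUnit (Algebra.discr R₀ b₀)) :
    ∃ d : R, IsUnit d ∧ algebraMap R F' d = Algebra.discr F' b :=
  ⟨f (Algebra.discr R₀ b₀), h.map f, (discr_map_eq b₀ b f g hfg hb).symm⟩

/-- The basis of `F'' / F'` obtained from a finite-level basis when the degrees agree and the
images span. -/
noncomputable def basisOfMap (hn : Module.finrank F' F'' = n)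
    (hspan : ⊤ ≤ Submodule.span F' (Set.range fun i => g (b₀ i))) : Basis (Fin n) F' F'' :=
  basisOfTopLeSpanOfCardEqFinrank (fun i => g (b₀ i)) hspan (by rw [Fintype.card_fin, hn])

theorem basisOfMap_apply (hn : Module.finrank F' F'' = n)
    (hspan : ⊤ ≤ Submodule.span F' (Set.range fun i => g (b₀ i))) (i : Fin n) :
    basisOfMap b₀ g hn hspan i = g (b₀ i) := by
  rw [basisOfMap, coe_basisOfTopLeSpanOfCardEqFinrank]

end Glue

section PlaceForm

variable {K F : Type*} [Field K] [Field F] [Algebra K F]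

/-- **Discharge of the valuative hypothesis by places.** `F / K` a function field whose valuation
subrings over `K` are discrete (`hplace`); `W ⊇ K` a valuation subring with centre `p` on `R₀`
(`p` not killed by `ι`); if at the place `W` some element of `p` has a simple zero, it generates
the maximal ideal of `W`. -/
theorem exists_generator_of_place
    (hplace : ∀ V : ValuationSubring F, (∀ a : K, algebraMap K F a ∈ V) → V ≠ ⊤ →
      IsPrincipalIdealRing V)
    {R₀ : Type*} [CommRing R₀] (ι : R₀ →+* F) (p : Ideal R₀)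
    (W : ValuationSubring F) (hK : ∀ a : K, algebraMap K F a ∈ W)
    (hcentre : ∀ r : R₀, ι r ∈ W.nonunits ↔ r ∈ p)
    (hp0 : ∃ y ∈ p, ι y ≠ 0)
    (hord : ∀ P : Place K F, P.toValuationSubring = W → ∃ π' ∈ p, P.ord (ι π') = 1) :
    ∃ π' ∈ p, ∀ y ∈ W.nonunits, ∃ w ∈ W, y = ι π' * w := by
  have hne : W ≠ ⊤ := by
    rintro rfl
    obtain ⟨y, hy, hy0⟩ := hp0
    have h := (hcentre y).2 hy
    rw [ValuationSubring.mem_nonunits_iff_or] at h
    rcases h with h | h
    · exact hy0 h
    · exact h (ValuationSubring.mem_top _)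
  obtain ⟨π', hπ'p, hπ'⟩ := hord ⟨W, hK, hne, hplace W hK hne⟩ rfl
  refine ⟨π', hπ'p, fun y hy => ?_⟩
  by_cases hy0 : y = 0
  · exact ⟨0, W.zero_mem, by rw [hy0, mul_zero]⟩
  have hπ0 : ι π' ≠ 0 := by
    intro h
    rw [h, Place.ord_zero] at hπ'
    exact zero_ne_one hπ'
  refine ⟨y * (ι π')⁻¹, ?_, by field_simp⟩
  set P : Place K F := ⟨W, hK, hne, hplace W hK hne⟩ with hP
  have h1 : 0 < P.ord y := by
    rw [ValuationSubring.mem_nonunits_iff_or] at hy
    have h2 : y⁻¹ ∉ P.toValuationSubring := hy.resolve_left hy0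
    rw [Place.mem_iff_ord_nonneg, Place.ord_inv] at h2
    omega
  show y * (ι π')⁻¹ ∈ P.toValuationSubring
  rw [Place.mem_iff_ord_nonneg, P.ord_mul hy0 (inv_ne_zero hπ0), P.ord_inv, hπ']
  omega

end PlaceForm

section Model

variable {K F k : Type*} [Field K] [Field F] [Algebra K F] [Field k]
  {Ft : Type*} [Field Ft] [Algebra k Ft]
  {A : ValuationSubring K} {π : A →+* k} {O : ValuationSubring F} {res : O →+* Ft}
  {Q : Place k Ft} {T : Set (Place K F)} {t : F} {C : Subring F} {ϖ : K}

variable (M : SmoothModel A π O res Q T t C ϖ)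
  (hres0 : ∀ x : O, res x = 0 ↔ (x : F) ∈ O.nonunits)

variable (K₀ : Type*) [Field K₀] [Algebra M.loc K₀] [IsFractionRing M.loc K₀]
  (L : Type*) [Field L] [Algebra K₀ L] [Algebra M.loc L] [IsScalarTower M.loc K₀ L]
  [FiniteDimensional K₀ L] [Algebra.IsSeparable K₀ L]
  (S : Type*) [CommRing S] [Algebra M.loc S] [Algebra S L] [IsScalarTower M.loc S L]
  [IsIntegralClosure S M.loc L]

universe w

include hres0 K₀ L in
/-- **(PUR-R) + P2, second form**: the discriminant of a basis of the integral closure is a unit,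
given characters at the vertical prime (V) and `discr b ∉ p` at every horizontal height one prime. -/
theorem isUnit_discr_closure_of_notMem
    (hres : ∀ (a : K) (ha : a ∈ A) (h : algebraMap K F a ∈ O),
      res ⟨algebraMap K F a, h⟩ = algebraMap k Ft (π ⟨a, ha⟩))
    (hπ0 : ∀ a : A, A.valuation (a : K) < 1 → π a = 0)
    {ι : Type*} [Fintype ι] [DecidableEq ι] (b : Module.Basis ι M.loc S)
    (hV : ∃ (Ω : Type w) (_ : Field Ω) (φ : M.loc →+* Ω) (χ : ι → S →+* Ω),
      φ (unifLoc M) = 0 ∧ Function.Injective χ ∧ ∀ i x, χ i (algebraMap M.loc S x) = φ x)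
    (hH : ∀ p : Ideal M.loc, p.IsPrime → p.height = 1 → unifLoc M ∉ p →
      Algebra.discr M.loc b ∉ p) :
    IsUnit (Algebra.discr M.loc b) := by
  have := loc_isNoetherianRing M
  refine isUnit_of_notMem_height_one (discr_ne_zero_of_closure K₀ L b) fun p hp h1 => ?_
  by_cases hϖ : unifLoc M ∈ p
  · obtain ⟨Ω, _, φ, χ, h0, hχ, hφ⟩ := hV
    refine discr_notMem_of_chars b φ χ hχ hφ p fun x hx => ?_
    rw [eq_span_of_height_one M hres0 hres hπ0 p h1 hϖ, Ideal.mem_span_singleton] at hx
    obtain ⟨y, rfl⟩ := hx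
    rw [map_mul, h0, zero_mul]
  · exact hH p hp h1 hϖ

include hres0 K₀ L in
/-- **(PUR-R) + (PUR-H)**: the discriminant of a basis of the integral closure of the local ring of
a smooth model is a unit, given (V) the vertical characters and (H) the valuative condition at the
horizontal height one primes, seen in a field `F''` containing `L`. -/
theorem isUnit_discr_closure_of_valuationSubring
    (hres : ∀ (a : K) (ha : a ∈ A) (h : algebraMap K F a ∈ O),
      res ⟨algebraMap K F a, h⟩ = algebraMap k Ft (π ⟨a, ha⟩))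
    (hπ0 : ∀ a : A, A.valuation (a : K) < 1 → π a = 0)
    {ι : Type*} [Fintype ι] [DecidableEq ι] (b : Module.Basis ι M.loc S)
    (hV : ∃ (Ω : Type w) (_ : Field Ω) (φ : M.loc →+* Ω) (χ : ι → S →+* Ω),
      φ (unifLoc M) = 0 ∧ Function.Injective χ ∧ ∀ i x, χ i (algebraMap M.loc S x) = φ x)
    {F'' : Type*} [Field F''] (j : L →+* F'')
    (hchar : ∀ p : Ideal M.loc, p.IsPrime → unifLoc M ∉ p → ∀ m : ℕ, m ≠ 0 → (m : M.loc) ∉ p)
    (hW : ∀ p : Ideal M.loc, p.IsPrime → p.height = 1 → unifLoc M ∉ p →
      ∀ W : ValuationSubring F'', (∀ x : S, j (algebraMap S L x) ∈ W) →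
      (∀ r : M.loc, j (algebraMap M.loc L r) ∈ W.nonunits ↔ r ∈ p) →
      ∃ π' ∈ p, ∀ y ∈ W.nonunits, ∃ w ∈ W, y = j (algebraMap M.loc L π') * w) :
    IsUnit (Algebra.discr M.loc b) := by
  have hN := loc_isNoetherianRing M
  have hIC := loc_isIntegrallyClosed M
  have hinj : Function.Injective (algebraMap M.loc L) := by
    rw [IsScalarTower.algebraMap_eq M.loc K₀ L]
    exact (algebraMap K₀ L).injective.comp (IsFractionRing.injective M.loc K₀)
  refine isUnit_discr_closure_of_notMem M hres0 K₀ L S hres hπ0 b hV fun p hp h1 hϖ => ?_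
  exact discr_notMem_of_valuationSubring b j hinj p h1 (hchar p hp hϖ) (hW p hp h1 hϖ)

variable {R : Type*} [CommRing R] [IsLocalRing R] [IsAlgClosed (ResidueField R)]
  {F' F'' : Type*} [Field F'] [Field F''] [Algebra F' F''] [Algebra R F'] [Algebra R F'']
  [IsScalarTower R F' F'']

include hres0 K₀ L in
/-- **(I7-PUR) THE PLUG.** `M.loc` the local ring of a smooth model at a finite level, `S` its
integral closure in the finite-level field `L ⊆ F''` of the cover, with basis `b₀`; `R ⊆ F'` the
`K`-level local ring of the point (algebraically closed residue field), `f : M.loc → R`. Given (V)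
the vertical characters, (H) the valuative condition at the horizontal primes, and
`[F'' : F'] = n`, `F'' = Σ F' b₀ i`: the images of the `b₀ i` form a basis `b` of `F'' / F'`, the
order `Σ R b_i` contains the image of `S`, has `n` points over the closed point, and is generated
over `R` by a primitive element `u` of `F'' / F'`, root of a monic irreducible `Ψ` of degree `n`
with coefficients in `R`, such that `Ψ' (u)` is a unit of the order. -/
theorem purity_plug
    (hres : ∀ (a : K) (ha : a ∈ A) (h : algebraMap K F a ∈ O),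
      res ⟨algebraMap K F a, h⟩ = algebraMap k Ft (π ⟨a, ha⟩))
    (hπ0 : ∀ a : A, A.valuation (a : K) < 1 → π a = 0)
    {n : ℕ} (b₀ : Module.Basis (Fin n) M.loc S)
    (hV : ∃ (Ω : Type w) (_ : Field Ω) (φ : M.loc →+* Ω) (χ : Fin n → S →+* Ω),
      φ (unifLoc M) = 0 ∧ Function.Injective χ ∧ ∀ i x, χ i (algebraMap M.loc S x) = φ x)
    (j : L →+* F'')
    (hchar : ∀ p : Ideal M.loc, p.IsPrime → unifLoc M ∉ p → ∀ m : ℕ, m ≠ 0 → (m : M.loc) ∉ p)
    (hW : ∀ p : Ideal M.loc, p.IsPrime → p.height = 1 → unifLoc M ∉ p →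
      ∀ W : ValuationSubring F'', (∀ x : S, j (algebraMap S L x) ∈ W) →
      (∀ r : M.loc, j (algebraMap M.loc L r) ∈ W.nonunits ↔ r ∈ p) →
      ∃ π' ∈ p, ∀ y ∈ W.nonunits, ∃ w ∈ W, y = j (algebraMap M.loc L π') * w)
    (hinj : Function.Injective (algebraMap R F'))
    (f : M.loc →+* R)
    (hfj : ∀ r : M.loc, j (algebraMap M.loc L r) = algebraMap R F'' (f r))
    (hn : Module.finrank F' F'' = n)
    (hspan : ⊤ ≤ Submodule.span F' (Set.range fun i => j (algebraMap S L (b₀ i)))) :
    ∃ (b : Module.Basis (Fin n) F' F'') (_ : ∀ i, b i = j (algebraMap S L (b₀ i)))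
      (h1 : (1 : F'') ∈ Submodule.span R (Set.range b))
      (hmul : ∀ i j, b i * b j ∈ Submodule.span R (Set.range b)),
      (∀ s : S, j (algebraMap S L s) ∈ spanAlg b h1 hmul) ∧
      ∃ (χ : Fin n → spanAlg b h1 hmul →+* ResidueField R) (u v : F'') (Ψ : F'[X])
        (hu : u ∈ spanAlg b h1 hmul),
        Function.Injective χ ∧ (∀ i x, χ i (algebraMap R _ x) = residue R x) ∧
        Function.Injective (fun k => χ k ⟨u, hu⟩) ∧
        v ∈ spanAlg b h1 hmul ∧
        Ψ.Monic ∧ Ψ.natDegree = n ∧ (∀ i, Ψ.coeff i ∈ Set.range (algebraMap R F')) ∧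
        aeval u Ψ = 0 ∧ Irreducible Ψ ∧ (∀ y : F'', ∃ p : F'[X], aeval u p = y) ∧
        aeval u (derivative Ψ) * v = 1 ∧
        ∀ y ∈ spanAlg b h1 hmul, ∃ p : R[X], aeval u p = y := by
  have hdisc : IsUnit (Algebra.discr M.loc b₀) :=
    isUnit_discr_closure_of_valuationSubring M hres0 K₀ L S hres hπ0 b₀ hV j hchar hW
  obtain ⟨g, hg⟩ : ∃ g : S →+* F'', ∀ s, g s = j (algebraMap S L s) :=
    ⟨j.comp (algebraMap S L), fun _ => rfl⟩
  have hfg : ∀ r, g (algebraMap M.loc S r) = algebraMap R F'' (f r) := by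
    intro r
    rw [hg, ← IsScalarTower.algebraMap_apply M.loc S L, hfj]
  have hspan' : ⊤ ≤ Submodule.span F' (Set.range fun i => g (b₀ i)) := by
    have e : (fun i => g (b₀ i)) = fun i => j (algebraMap S L (b₀ i)) := funext fun i => hg _
    rw [e]
    exact hspan
  obtain ⟨b, hb⟩ : ∃ b : Module.Basis (Fin n) F' F'', ∀ i, b i = g (b₀ i) :=
    ⟨basisOfMap b₀ g hn hspan', basisOfMap_apply b₀ g hn hspan'⟩
  have h1 : (1 : F'') ∈ Submodule.span R (Set.range b) :=
    one_mem_span_of_map b₀ b f g hfg hb
  have hmul : ∀ i j, b i * b j ∈ Submodule.span R (Set.range b) :=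
    mul_mem_span_of_map b₀ b f g hfg hb
  have hd : ∃ d : R, IsUnit d ∧ algebraMap R F' d = Algebra.discr F' b :=
    exists_unit_discr_of_map b₀ b f g hfg hb hdisc
  have hmem : ∀ s : S, j (algebraMap S L s) ∈ spanAlg b h1 hmul := fun s => by
    rw [← hg]
    exact map_mem_span b₀ b f g hfg hb s
  have hb' : ∀ i, b i = j (algebraMap S L (b₀ i)) := fun i => by rw [hb, hg]
  exact ⟨b, hb', h1, hmul, hmem, exists_primitive_klevel b hinj h1 hmul hd⟩

end Model

end Fermat.Agent.BR3.PurityPlug
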