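/-
Program C (S36), node (ELL-PUR-H) (helper15): the HORIZONTAL hypothesis `hW` of helper4's purity
plug (`PurityPlug.purity_plug`, `PurityPlug.isUnit_discr_closure_of_valuationSubring`,
`BR3/PurityGlue.lean`) in the concrete frame `Ω = ℚ̄`, `F' = F̄_N`, from

* `hsimple` : the zero of `t - t(P)` at every place `P` of the tube is simple
  (`SmoothChart.simple` / `SmoothFamily.simple`), and
* `hram` : the cover `φ : F̄_N → F''` is unramified at every place of `F''` regular on the local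
  ring `M.loc` of the smooth model.

Contents.
* `exists_pow_mul_coeff_mem`, `aeval_mem_of_coeff_mem` : polynomials with coefficients in the
  level field `K'`.
* `exists_poly_ord_eq_one` : a place `P` at which `t - c` has a simple zero (`c = t(P) ∈ ℚ̄`) is a
  simple zero of `ϖ ^ n · minpoly_{K'}(c)(t)`, a polynomial in `t` with coefficients in `A ∩ K'`.
* `exists_ord_eq_one` : for a place `P''` of `F''` regular on `φ (M.loc)` at which `φ` is
  unramified, some element of `M.loc` has a simple zero at `P''` (Galois conjugation of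
  `P'' ∘ φ` into the tube, `PlaceLift.exists_smul_centredAt`).
* `algebraMap_mem_of_unif_unit` : a valuation subring of `F''` containing `φ (M.loc)` in which
  `ϖ` is a unit contains the constants `ℚ̄`.
* `exists_generator_of_unramified` and `hW_of_unramified` : the hypothesis `hW`, the second one
  literally in the shape of the binder of `purity_plug`.
-/
import Mathlib
import Fermat.Agent.BR3.PurityGlue
import Fermat.Agent.BR.S0.HorizModels
import Fermat.Agent.BR.PlaceLift
import Fermat.Agent.BR.AnnulusPlace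
import Fermat.Prelude.Def_AlgebraicCurve_Correspondence

set_option autoImplicit false
set_option linter.unusedSectionVars false
set_option linter.style.haveILetI false

open Polynomial IsLocalRing AlgebraicCurve ModularCurve

namespace Fermat.Agent.BR3.EllPurityHoriz

open Fermat.Agent.Red Fermat.Agent.X0 Fermat.Agent.BR Fermat.Agent.BR.Centre Fermat.Agent.BR.S0
  Fermat.Agent.BR.S0.HorizProvider Fermat.Agent.BR.S0.HorizModels Fermat.Agent.BR.PlaceLift
  Fermat.Agent.BR.Inst.FKCover Fermat.Agent.BR3.PurityPlug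

/-! ### polynomials in `t` with coefficients in the level field -/

section Poly

variable (A : ValuationSubring Kb) (K' : IntermediateField ℚ Kb)

/-- A polynomial with coefficients in `K'` becomes integral after multiplication by a power of the
uniformizer. -/
theorem exists_pow_mul_coeff_mem {ϖ : Kb} (hϖ0 : ϖ ≠ 0) (hϖ1 : A.valuation ϖ < 1)
    (hdvr : ∀ x ∈ K', x ≠ 0 → ∃ n : ℤ, A.valuation x = A.valuation ϖ ^ n)
    (f : Kb[X]) (hf : ∀ i, f.coeff i ∈ K') : ∃ n : ℕ, ∀ i, ϖ ^ n * f.coeff i ∈ A := by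
  have hϖA : ϖ ∈ A := (A.valuation_le_one_iff ϖ).mp hϖ1.le
  choose m hm using fun i => exists_pow_mul_mem A K' hϖ0 hϖ1 hdvr (hf i)
  refine ⟨∑ i ∈ Finset.range (f.natDegree + 1), m i, fun i => ?_⟩
  by_cases hi : i < f.natDegree + 1
  · have hle : m i ≤ ∑ i ∈ Finset.range (f.natDegree + 1), m i :=
      Finset.single_le_sum (f := m) (fun _ _ => Nat.zero_le _) (Finset.mem_range.mpr hi)
    obtain ⟨d, hd⟩ := Nat.exists_eq_add_of_le hle
    rw [hd, pow_add, mul_comm (ϖ ^ m i), mul_assoc]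
    exact A.mul_mem _ _ (pow_mem hϖA d) (hm i)
  · rw [coeff_eq_zero_of_natDegree_lt (by omega), mul_zero]
    exact A.zero_mem

variable {F : Type*} [Field F] [Algebra Kb F]

/-- The value at `t ∈ R` of a polynomial with coefficients in `A ∩ K'` lies in `R`. -/
theorem aeval_mem_of_coeff_mem (R : Subring F)
    (hconst : ∀ c ∈ K', c ∈ A → algebraMap Kb F c ∈ R) {t : F} (ht : t ∈ R)
    (f : Kb[X]) (hfK : ∀ i, f.coeff i ∈ K') (hfA : ∀ i, f.coeff i ∈ A) : aeval t f ∈ R := by
  rw [aeval_eq_sum_range]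
  refine Subring.sum_mem _ fun i _ => ?_
  rw [Algebra.smul_def]
  exact R.mul_mem (hconst _ (hfK i) (hfA i)) (R.pow_mem ht i)

/-- **A simple zero of a function with coefficients in the level field.**  If `t - c` has a simple
zero at `P` (`c = t(P)`), then `ϖ ^ n · m(t)`, `m` the minimal polynomial of `c` over `K'`, has a
simple zero at `P`, and its coefficients lie in `A ∩ K'`. -/
theorem exists_poly_ord_eq_one {ϖ : Kb} (hϖK : ϖ ∈ K') (hϖ0 : ϖ ≠ 0) (hϖ1 : A.valuation ϖ < 1)
    (hdvr : ∀ x ∈ K', x ≠ 0 → ∃ n : ℤ, A.valuation x = A.valuation ϖ ^ n)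
    {t : F} (P : Place Kb F) {c : Kb} (hc : IsValueAt P t c)
    (hord : P.ord (t - algebraMap Kb F c) = 1) :
    ∃ f : Kb[X], (∀ i, f.coeff i ∈ K') ∧ (∀ i, f.coeff i ∈ A) ∧ P.ord (aeval t f) = 1 := by
  haveI : IsGalois ℚ Kb := Fermat.Agent.S54.FrobExists.isGalois_rat_algebraicClosure
  haveI : Algebra.IsAlgebraic K' Kb := Algebra.IsAlgebraic.tower_top (K := ℚ) K'
  haveI : Algebra.IsIntegral K' Kb := Algebra.IsAlgebraic.isIntegral
  haveI : CharZero K' := charZero_of_injective_algebraMap (algebraMap ℚ K').injective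
  have hint : IsIntegral K' c := Algebra.IsIntegral.isIntegral c
  have msep : (minpoly K' c).Separable := (minpoly.irreducible hint).separable
  set g : Kb[X] := (minpoly K' c).map (algebraMap K' Kb) with hg
  have hgK : ∀ i, g.coeff i ∈ K' := by
    intro i
    rw [hg, coeff_map]
    exact ((minpoly K' c).coeff i).2
  have hroot : g.IsRoot c := by
    rw [IsRoot.def, hg, eval_map_algebraMap, minpoly.aeval]
  have gsep : g.Separable := msep.map
  set h : Kb[X] := g /ₘ (X - C c) with hh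
  have hgh : (X - C c) * h = g := mul_divByMonic_eq_iff_isRoot.mpr hroot
  have hhc : h.eval c ≠ 0 := by
    have h1 : (derivative g).eval c ≠ 0 := by
      have := gsep.eval₂_derivative_ne_zero (RingHom.id Kb) (x := c)
        (by rw [eval₂_id]; exact hroot)
      rwa [eval₂_id] at this
    rw [← hgh, derivative_mul, derivative_sub, derivative_X, derivative_C, sub_zero, one_mul,
      eval_add, eval_mul, eval_sub, eval_X, eval_C, sub_self, zero_mul, add_zero] at h1
    exact h1
  obtain ⟨n, hn⟩ := exists_pow_mul_coeff_mem A K' hϖ0 hϖ1 hdvr g hgK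
  refine ⟨C (ϖ ^ n) * g, fun i => ?_, fun i => ?_, ?_⟩
  · rw [coeff_C_mul]
    exact mul_mem (pow_mem hϖK n) (hgK i)
  · rw [coeff_C_mul]
    exact hn i
  · have hval : IsValueAt P (aeval t h) (h.eval c) :=
      Fermat.Agent.BR.AnnulusRed.isValueAt_aeval hc h
    have hd0 : P.ord (aeval t h) = 0 := hval.ord_eq_zero hhc
    have hdne : aeval t h ≠ 0 := by
      intro h0
      rw [h0] at hval
      exact hhc (hval.unique (isValueAt_zero P))
    have hbne : t - algebraMap Kb F c ≠ 0 := by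
      intro h0
      rw [h0, Place.ord_zero] at hord
      exact zero_ne_one hord
    have hane : algebraMap Kb F (ϖ ^ n) ≠ 0 :=
      (map_ne_zero (algebraMap Kb F)).mpr (pow_ne_zero n hϖ0)
    have e : aeval t (C (ϖ ^ n) * g) =
        algebraMap Kb F (ϖ ^ n) * ((t - algebraMap Kb F c) * aeval t h) := by
      rw [map_mul, aeval_C, ← hgh, map_mul, map_sub, aeval_X, aeval_C]
    rw [e, P.ord_mul hane (mul_ne_zero hbne hdne), P.ord_mul hbne hdne, hord, hd0,
      (isValueAt_algebraMap P (ϖ ^ n)).ord_eq_zero (pow_ne_zero n hϖ0)]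
    norm_num

end Poly

/-! ### places along an embedding -/

section Along

variable {K F' F'' : Type*} [Field K] [Field F'] [Field F''] [Algebra K F'] [Algebra K F'']

/-- The valuation ring of the place under `P''` along `φ`. -/
theorem mem_restrictAlong_iff (φ : F' →ₐ[K] F'') (hφ : φ.toRingHom.IsIntegral)
    (P'' : Place K F'') (y : F') :
    y ∈ (P''.restrictAlong φ hφ).toValuationSubring ↔ φ y ∈ P''.toValuationSubring :=
  Iff.rfl

end Along

/-! ### the concrete frame -/

section Frame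

variable {N : ℕ} [NeZero N] {k : Type*} [Field k] {Ft : Type*} [Field Ft] [Algebra k Ft]
  {A : ValuationSubring Kb} {K' : IntermediateField ℚ Kb} {C : Subring (Fb N)} {ϖ : Kb}
  {π : A →+* k} {O : ValuationSubring (Fb N)} {res : O →+* Ft} {Q : Place k Ft}
  {T : Set (Place Kb (Fb N))} {t : Fb N}
  {F'' : Type*} [Field F''] [Algebra Kb F'']

/-- The local ring of a model at the level `K'` lies in the function field of the level. -/
theorem loc_le_FK (M : SmoothModel A π O res Q T t C ϖ) (H : FrameHyp A K' C ϖ) :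
    ∀ y ∈ M.loc, y ∈ FK K' N := by
  intro y hy
  obtain ⟨a, b, hb, hab⟩ := M.mem_loc_iff.mp hy
  exact H.mem_FK_of_mul_eq (M.coe_ne_zero_of_notMem hb) hab

/-- The local ring of a model at the level `K'` contains the constants `A ∩ K'`. -/
theorem const_mem_loc (M : SmoothModel A π O res Q T t C ϖ) (H : FrameHyp A K' C ϖ) :
    ∀ c ∈ K', c ∈ A → algebraMap Kb (Fb N) c ∈ M.loc :=
  fun c hc hcA => M.le_loc (H.const_mem c hc hcA)

/-- **A function of the local ring with a simple zero at an unramified place.**  `P''` a place of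
`F''` regular on `φ (M.loc)` at which `φ` is unramified; the zeros of `t - t(P)` on the tube being
simple, some element of `M.loc` has a simple zero at `P''`. -/
theorem exists_ord_eq_one (M : SmoothModel A π O res Q T t C ϖ) (H : FrameHyp A K' C ϖ)
    (hres0 : ∀ x : O, res x = 0 ↔ (x : Fb N) ∈ O.nonunits)
    (hres : ∀ (a : Kb) (ha : a ∈ A) (h : algebraMap Kb (Fb N) a ∈ O),
      res ⟨algebraMap Kb (Fb N) a, h⟩ = algebraMap k Ft (π ⟨a, ha⟩))
    (hπ0 : ∀ a : A, A.valuation (a : Kb) < 1 → π a = 0)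
    (hsimple : ∀ P ∈ T, ∀ c : Kb, IsValueAt P t c → P.ord (t - algebraMap Kb (Fb N) c) = 1)
    (φ : Fb N →ₐ[Kb] F'') (hφ : φ.toRingHom.IsIntegral) (P'' : Place Kb F'')
    (hreg : ∀ r ∈ M.loc, φ r ∈ P''.toValuationSubring)
    (hram : Place.ramificationIndexAlong φ P'' = 1) :
    ∃ π' ∈ M.loc, P''.ord (φ π') = 1 := by
  haveI : IsGalois ℚ Kb := Fermat.Agent.S54.FrobExists.isGalois_rat_algebraicClosure
  set P' : Place Kb (Fb N) := P''.restrictAlong φ hφ with hP'
  have hP'reg : ∀ y ∈ M.loc, y ∈ P'.toValuationSubring := fun y hy => hreg y hy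
  have hRFK := loc_le_FK M H
  have hconst := const_mem_loc M H
  have hnu : ¬ IsUnit (unifLoc M) := (prime_unifLoc M hres0 hres hπ0).not_isUnit
  have hE : ∀ e : K', algebraMap K' Kb e ∈ A →
      algebraMap Kb (Fb N) (algebraMap K' Kb e) ∈ M.loc := fun e he => hconst _ e.2 he
  have hfix : ∀ (g : Kb ≃ₐ[K'] Kb), ∀ y ∈ M.loc,
      arithmeticGalois (modularFunctionFieldFull N) (g.restrictScalars ℚ) • y = y := by
    intro g y hy
    refine gal_smul_eq_of_mem_FK (K' := K') (σ := g.restrictScalars ℚ) ?_ (hRFK y hy)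
    intro c hc
    exact g.commutes ⟨c, hc⟩
  have hEloc : ∀ (e : K') (he : algebraMap K' Kb e ∈ A), A.valuation (algebraMap K' Kb e) < 1 →
      ¬ IsUnit (⟨algebraMap Kb (Fb N) (algebraMap K' Kb e), hE e he⟩ : M.loc) := by
    intro e he hlt hu
    obtain ⟨y, hyK, hyA, hxy⟩ :=
      exists_eq_mul_of_lt_one A K' H.unif_mem M.unif_ne M.unif_lt H.dvr e.2 hlt
    apply hnu
    have h1 : (⟨algebraMap Kb (Fb N) (algebraMap K' Kb e), hE e he⟩ : M.loc) =
        unifLoc M * ⟨algebraMap Kb (Fb N) y, hconst y hyK hyA⟩ := by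
      apply Subtype.ext
      show algebraMap Kb (Fb N) (algebraMap K' Kb e) =
        algebraMap Kb (Fb N) ϖ * algebraMap Kb (Fb N) y
      rw [← map_mul]
      exact congrArg _ hxy
    rw [h1] at hu
    exact isUnit_of_mul_isUnit_left hu
  obtain ⟨g, hcen, -⟩ := exists_smul_centredAt (E := K') A
    (fun g => arithmeticGalois (modularFunctionFieldFull N) (g.restrictScalars ℚ))
    (fun g c => rfl) M.loc hfix hE hEloc P' (Place.alg_deg_eq_one (jBar_isSepVar N) P') hP'reg
  set σ : SemilinearAut Kb (Fb N) :=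
    arithmeticGalois (modularFunctionFieldFull N) (g.restrictScalars ℚ) with hσ
  have hP₁T : σ • P' ∈ T := M.mem_tube_of_centredAt hcen
  have hc : IsValueAt (σ • P') t (evalAt (σ • P') t) :=
    hcen.choose.isValueAt_evalAt (M.le_loc M.t_mem)
  have hs := hsimple _ hP₁T _ hc
  obtain ⟨f, hfK, hfA, hford⟩ :=
    exists_poly_ord_eq_one A K' H.unif_mem M.unif_ne M.unif_lt H.dvr (σ • P') hc hs
  have hmem : aeval t f ∈ M.loc :=
    aeval_mem_of_coeff_mem A K' M.loc hconst (M.le_loc M.t_mem) f hfK hfA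
  refine ⟨aeval t f, hmem, ?_⟩
  have h1 : (σ • P').ord (σ • aeval t f) = P'.ord (aeval t f) :=
    SemilinearAut.ord_smul σ P' (aeval t f)
  rw [hfix g _ hmem, hford] at h1
  rw [Place.ord_restrictAlong φ hφ P'' (aeval t f), hram, ← hP', ← h1]
  norm_num

/-- **The constants.**  A valuation subring of `F''` containing `φ (M.loc)` in which the
uniformizer `ϖ` of the level is a unit contains the constants `ℚ̄`: it contains
`K' = (A ∩ K')[1/ϖ]`, over which `ℚ̄` is integral. -/
theorem algebraMap_mem_of_unif_unit (M : SmoothModel A π O res Q T t C ϖ)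
    (H : FrameHyp A K' C ϖ) (φ : Fb N →ₐ[Kb] F'') (W : ValuationSubring F'')
    (hW : ∀ r ∈ M.loc, φ r ∈ W) (hu : (algebraMap Kb F'' ϖ)⁻¹ ∈ W) :
    ∀ a : Kb, algebraMap Kb F'' a ∈ W := by
  haveI : IsGalois ℚ Kb := Fermat.Agent.S54.FrobExists.isGalois_rat_algebraicClosure
  haveI : Algebra.IsAlgebraic K' Kb := Algebra.IsAlgebraic.tower_top (K := ℚ) K'
  haveI : Algebra.IsIntegral K' Kb := Algebra.IsAlgebraic.isIntegral
  have hϖF : algebraMap Kb F'' ϖ ≠ 0 := (map_ne_zero (algebraMap Kb F'')).mpr M.unif_ne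
  have h1 : ∀ e ∈ K', algebraMap Kb F'' e ∈ W := by
    intro e he
    obtain ⟨m, hm⟩ := exists_pow_mul_mem A K' M.unif_ne M.unif_lt H.dvr he
    have h2 : algebraMap Kb (Fb N) (ϖ ^ m * e) ∈ M.loc :=
      const_mem_loc M H _ (mul_mem (pow_mem H.unif_mem m) he) hm
    have h3 := hW _ h2
    rw [φ.commutes, map_mul, map_pow] at h3
    have e1 : algebraMap Kb F'' e =
        ((algebraMap Kb F'' ϖ)⁻¹) ^ m * (algebraMap Kb F'' ϖ ^ m * algebraMap Kb F'' e) := by
      rw [← mul_assoc, ← mul_pow, inv_mul_cancel₀ hϖF, one_pow, one_mul]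
    rw [e1]
    exact W.mul_mem _ _ (pow_mem hu m) h3
  intro a
  have h4 : a ∈ W.comap (algebraMap Kb F'') :=
    Fermat.Agent.Good.RamDesc.mem_valuationSubring_of_isIntegral (B0 := K') (F := Kb)
      (W.comap (algebraMap Kb F'')) (fun b => h1 b b.2) (Algebra.IsIntegral.isIntegral a)
  exact h4

/-- **The horizontal hypothesis of purity, core form.**  `p` a nonzero prime of `M.loc` not
containing the uniformizer, `W` a valuation subring of `F''` containing `φ (M.loc)` with centre
`p`; if `φ` is unramified at the places of `F''` regular on `φ (M.loc)` and the zeros of the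
`t - t(P)` on the tube are simple, the maximal ideal of `W` is generated by an element of `p`. -/
theorem exists_generator_of_unramified (M : SmoothModel A π O res Q T t C ϖ)
    (H : FrameHyp A K' C ϖ)
    (hres0 : ∀ x : O, res x = 0 ↔ (x : Fb N) ∈ O.nonunits)
    (hres : ∀ (a : Kb) (ha : a ∈ A) (h : algebraMap Kb (Fb N) a ∈ O),
      res ⟨algebraMap Kb (Fb N) a, h⟩ = algebraMap k Ft (π ⟨a, ha⟩))
    (hπ0 : ∀ a : A, A.valuation (a : Kb) < 1 → π a = 0)
    (hsimple : ∀ P ∈ T, ∀ c : Kb, IsValueAt P t c → P.ord (t - algebraMap Kb (Fb N) c) = 1)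
    (hplace : ∀ V : ValuationSubring F'', (∀ a : Kb, algebraMap Kb F'' a ∈ V) → V ≠ ⊤ →
      IsPrincipalIdealRing V)
    (φ : Fb N →ₐ[Kb] F'') (hφ : φ.toRingHom.IsIntegral)
    (hram : ∀ P'' : Place Kb F'', (∀ r ∈ M.loc, φ r ∈ P''.toValuationSubring) →
      Place.ramificationIndexAlong φ P'' = 1)
    (p : Ideal M.loc) (hp0 : p ≠ ⊥) (hϖp : unifLoc M ∉ p)
    (W : ValuationSubring F'') (hW : ∀ r : M.loc, φ (r : Fb N) ∈ W)
    (hcentre : ∀ r : M.loc, φ (r : Fb N) ∈ W.nonunits ↔ r ∈ p) :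
    ∃ π' ∈ p, ∀ y ∈ W.nonunits, ∃ w ∈ W, y = φ ((π' : M.loc) : Fb N) * w := by
  -- the uniformizer is a unit of `W`
  have hu : (algebraMap Kb F'' ϖ)⁻¹ ∈ W := by
    have h1 : φ ((unifLoc M : M.loc) : Fb N) ∉ W.nonunits := fun h => hϖp ((hcentre _).mp h)
    rw [coe_unifLoc, φ.commutes, ValuationSubring.mem_nonunits_iff_or, not_or, not_not] at h1
    exact h1.2
  have hK : ∀ a : Kb, algebraMap Kb F'' a ∈ W :=
    algebraMap_mem_of_unif_unit M H φ W (fun r hr => hW ⟨r, hr⟩) hu
  let ι : M.loc →+* F'' := φ.toRingHom.comp M.loc.subtype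
  have hι : ∀ r : M.loc, ι r = φ (r : Fb N) := fun _ => rfl
  obtain ⟨y, hy, hy0⟩ := Submodule.exists_mem_ne_zero_of_ne_bot hp0
  have hp0' : ∃ y ∈ p, ι y ≠ 0 := by
    refine ⟨y, hy, ?_⟩
    rw [hι]
    intro h0
    apply hy0
    apply Subtype.ext
    exact (map_eq_zero φ).mp h0
  refine exists_generator_of_place (K := Kb) hplace ι p W hK hcentre hp0' ?_
  intro P hPW
  have hreg : ∀ r ∈ M.loc, φ r ∈ P.toValuationSubring := fun r hr => by
    rw [hPW]
    exact hW ⟨r, hr⟩
  obtain ⟨x, hx, hxord⟩ := exists_ord_eq_one M H hres0 hres hπ0 hsimple φ hφ P hreg (hram P hreg)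
  refine ⟨⟨x, hx⟩, ?_, hxord⟩
  rw [← hcentre, ← hPW, ValuationSubring.mem_nonunits_iff_or]
  right
  rw [Place.mem_iff_ord_nonneg, Place.ord_inv]
  show ¬ 0 ≤ -P.ord (φ x)
  rw [hxord]
  norm_num

/-- **(ELL-PUR-H) The hypothesis `hW` of `PurityPlug.purity_plug` /
`PurityPlug.isUnit_discr_closure_of_valuationSubring`, verbatim.**  `L`, `S`, `j` as in the plug,
`j` restricted to `M.loc` being the embedding `φ : F̄_N → F''` of the cover (`hj`). -/
theorem hW_of_unramified (M : SmoothModel A π O res Q T t C ϖ)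
    (H : FrameHyp A K' C ϖ)
    (hres0 : ∀ x : O, res x = 0 ↔ (x : Fb N) ∈ O.nonunits)
    (hres : ∀ (a : Kb) (ha : a ∈ A) (h : algebraMap Kb (Fb N) a ∈ O),
      res ⟨algebraMap Kb (Fb N) a, h⟩ = algebraMap k Ft (π ⟨a, ha⟩))
    (hπ0 : ∀ a : A, A.valuation (a : Kb) < 1 → π a = 0)
    (hsimple : ∀ P ∈ T, ∀ c : Kb, IsValueAt P t c → P.ord (t - algebraMap Kb (Fb N) c) = 1)
    (hplace : ∀ V : ValuationSubring F'', (∀ a : Kb, algebraMap Kb F'' a ∈ V) → V ≠ ⊤ →
      IsPrincipalIdealRing V)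
    (φ : Fb N →ₐ[Kb] F'') (hφ : φ.toRingHom.IsIntegral)
    (hram : ∀ P'' : Place Kb F'', (∀ r ∈ M.loc, φ r ∈ P''.toValuationSubring) →
      Place.ramificationIndexAlong φ P'' = 1)
    (L : Type*) [Field L] [Algebra M.loc L]
    (S : Type*) [CommRing S] [Algebra M.loc S] [Algebra S L] [IsScalarTower M.loc S L]
    (j : L →+* F'') (hj : ∀ r : M.loc, j (algebraMap M.loc L r) = φ (r : Fb N)) :
    ∀ p : Ideal M.loc, p.IsPrime → p.height = 1 → unifLoc M ∉ p →
      ∀ W : ValuationSubring F'', (∀ x : S, j (algebraMap S L x) ∈ W) →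
      (∀ r : M.loc, j (algebraMap M.loc L r) ∈ W.nonunits ↔ r ∈ p) →
      ∃ π' ∈ p, ∀ y ∈ W.nonunits, ∃ w ∈ W, y = j (algebraMap M.loc L π') * w := by
  intro p _ hht hϖp W hS hcentre
  have hW : ∀ r : M.loc, φ (r : Fb N) ∈ W := by
    intro r
    rw [← hj, IsScalarTower.algebraMap_apply M.loc S L]
    exact hS _
  have hcentre' : ∀ r : M.loc, φ (r : Fb N) ∈ W.nonunits ↔ r ∈ p := by
    intro r
    rw [← hj]
    exact hcentre r
  obtain ⟨π', hπ'p, hπ'⟩ := exists_generator_of_unramified M H hres0 hres hπ0 hsimple hplace φ hφ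
    hram p (ne_bot_of_height_eq_one hht) hϖp W hW hcentre'
  refine ⟨π', hπ'p, fun y hy => ?_⟩
  obtain ⟨w, hw, hyw⟩ := hπ' y hy
  exact ⟨w, hw, by rw [hj]; exact hyw⟩

end Frame

end Fermat.Agent.BR3.EllPurityHoriz
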