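import Mathlib
import Fermat.Agent.BR2.Filtration
import Fermat.Agent.BR2.G5
import Fermat.Agent.BR.PicFunct
import Fermat.Agent.BR3.FiltMaps

/-!
# Program C (S36), node (C-G5M): the multi-valuation twin of `BR2/G5`

`S₀` a semistable setup on `F₀ / K` (components `ι₀`, residue function fields `Ft₀ v / k`), `S` a
semistable setup on `F / K` (components `ι`, residue function fields `Ft w / k`), `φ : F₀ →ₐ[K] F`
a finite map, `φ_* := PicFunct.pic0Push φ`.

For a FIXED component `v` of `S₀` the components of `S` over `v` are listed by `w : J → ι`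
(`J` a fintype) with the residue extensions `ψ j : Ft₀ v →ₐ[k] Ft (w j)`; the norm–residue formula
at `v` is the named hypothesis

* `NormRes S₀ S φ v w ψ` : if `g j` is a residue of `f` on `w j` for every `j` then
  `∏ j, N_{ψ j} (g j)` is a residue of `N_φ f` on `v`
  (output of `BR3/NormResidueMulti.norm_residue_multi_gen`).

Results:

* `IsRep.push` : `(D, f)` represents `x` ⟹ `(φ_* D, N_φ f)` represents `φ_* x`;
* `exists_residue_eq_const_mul_pow_ss` : `m D = div f`, `φ_* [D] = 0`, `G` a residue of `N_φ f` on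
  `v` ⟹ `G = a · u ^ m`; `exists_prod_norm_eq_const_mul_pow` : the same for
  `G = ∏ j, N_{ψ j} (g j)` under `NormRes`;
* **`isAbRes_push`** : for `y ∈ natSub S m` the abelian part of `φ_* y` on `v` is
  `∑ j, (ψ j)_* (abRes (w j) y)`; `abRes_push` (the same for `abRes`), `push_mem_natSub`;
* **`sum_push_abRes_eq_zero`** : `y ∈ natSub S m`, `φ_* y = 0` ⟹
  `∑ j, (ψ j)_* (abRes (w j) y) = 0` in `Pic0 k (Ft₀ v)`;
* **`abRes_eq_zero_of_pow`** : a single component `w` over `v` on which the norm is a `d`-th power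
  map (`ψ G = g ^ d`, purely inseparable residue extension), `d` prime to `m` ⟹ `abRes w y = 0`;
  `abRes_eq_zero_of_normRes_insep` : the same from `NormRes` with `J = Unit`;
* `mem_torSub_of_forall_pow` : if every component of `S` is of this kind, `y ∈ torSub S m`.
-/

set_option autoImplicit false
set_option linter.unusedVariables false
set_option linter.unusedSectionVars false

noncomputable section

namespace Fermat.Agent.BR3.G5Multi

open AlgebraicCurve Fermat.Agent.Red Fermat.Agent.BR.SS Fermat.Agent.Jac Fermat.Agent.BR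
  Fermat.Agent.BR2.Filt Fermat.Agent.BR2.G5 Fermat.Agent.BR3.FiltMaps Fermat.Agent.X0

variable {K k : Type*} [Field K] [Field k] {A : ValuationSubring K} {π : A →+* k}
  {F₀ F : Type*} [Field F₀] [Algebra K F₀] [Field F] [Algebra K F]
  {ι₀ : Type*} {Ft₀ : ι₀ → Type*} [∀ v, Field (Ft₀ v)] [∀ v, Algebra k (Ft₀ v)] {ν₀ : Type*}
  {ι : Type*} {Ft : ι → Type*} [∀ w, Field (Ft w)] [∀ w, Algebra k (Ft w)] {ν : Type*}

/-- **(NR) at the component `v` of `S₀`**: the components of `S` over `v` are the `w j`, with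
residue extensions `ψ j`; the product of the norms of residues of `f` on the `w j` is a residue of
`N_φ f` on `v`. -/
def NormRes (S₀ : SemistableSetup (F := F₀) A π ι₀ Ft₀ ν₀)
    (S : SemistableSetup (F := F) A π ι Ft ν) (φ : F₀ →ₐ[K] F) (v : ι₀)
    {J : Type*} [Fintype J] (w : J → ι) (ψ : ∀ j, Ft₀ v →ₐ[k] Ft (w j)) : Prop :=
  ∀ (f : F) (g : ∀ j, Ft (w j)), (∀ j, IsResidue S (w j) f (g j)) →
    IsResidue S₀ v (normAlong φ f) (∏ j, normAlong (ψ j) (g j))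

variable {S₀ : SemistableSetup (F := F₀) A π ι₀ Ft₀ ν₀} {S : SemistableSetup (F := F) A π ι Ft ν}
  [HasPrincipalDivisors K F₀] [HasPrincipalDivisors K F]

/-- `(D, f)` represents `x` ⟹ `(φ_* D, N_φ f)` represents `φ_* x`. -/
theorem isRep_push (φ : F₀ →ₐ[K] F)
    (hφ : φ.toRingHom.IsIntegral) (hfin : FiniteAlong K φ) (hN : NormFormulaAlong K φ hfin)
    {m : ℕ} {x : Pic0 K F} {D : Divisor.degZero (K := K) (F := F)} {f : F}
    (hR : IsRep m x D f) :
    IsRep m (PicFunct.pic0Push φ hφ hfin hN x) (PicFunct.degZeroPush φ hφ D) (normAlong φ f) := by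
  obtain ⟨rfl, hf, hD⟩ := hR
  refine ⟨(PicFunct.pic0Push_mk φ hφ hfin hN D).symm, normAlong_ne_zero φ hfin hf, fun P => ?_⟩
  have h1 : divOf K f = m • (D : Divisor K F) := divOf_eq_of_forall hD
  have h2 : m • (PicFunct.degZeroPush φ hφ D : Divisor K F₀) = divOf K (normAlong φ f) := by
    rw [PicFunct.coe_degZeroPush, ← map_nsmul, ← h1, pushforwardAlong_divOf φ hφ hfin hN hf]
  rw [h2, divOf_apply]

/-- `m D = div f`, `φ_* [D] = 0` ⟹ every residue of `N_φ f` on a component of `S₀` is a constant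
times an `m`-th power. -/
theorem exists_residue_eq_const_mul_pow_ss (hF₀ : RiemannPkg K F₀) (φ : F₀ →ₐ[K] F)
    (hφ : φ.toRingHom.IsIntegral) (hfin : FiniteAlong K φ) (hN : NormFormulaAlong K φ hfin)
    {m : ℕ} {D : Divisor.degZero (K := K) (F := F)} {f : F} (hf : f ≠ 0)
    (hD : ∀ P : Place K F, (m • (D : Divisor K F)) P = P.ord f)
    (h0 : PicFunct.pic0Push φ hφ hfin hN (Pic0.mk D) = 0)
    {v : ι₀} {G : Ft₀ v} (hG : IsResidue S₀ v (normAlong φ f) G) :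
    ∃ (u : Ft₀ v) (a : k), u ≠ 0 ∧ a ≠ 0 ∧ G = algebraMap k (Ft₀ v) a * u ^ m := by
  obtain ⟨h, c, hh, hc, hNf⟩ := exists_norm_eq_const_mul_pow hF₀ φ hφ hfin hN hf hD h0
  obtain ⟨u, hu⟩ := exists_isResidue (S := S₀) v hh
  have h1 : IsResidue S₀ v (normAlong φ f) (u ^ m) := by
    rw [hNf]
    exact isResidue_const_mul (isResidue_pow hu m) hc
  obtain ⟨a, ha, hGa⟩ := isResidue_unique h1 hG
  exact ⟨u, a, hu.ne_zero, ha, hGa⟩

/-- the product of the norms of the residues over `v` is a constant times an `m`-th power -/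
theorem exists_prod_norm_eq_const_mul_pow (hF₀ : RiemannPkg K F₀) (φ : F₀ →ₐ[K] F)
    (hφ : φ.toRingHom.IsIntegral) (hfin : FiniteAlong K φ) (hN : NormFormulaAlong K φ hfin)
    {v : ι₀} {J : Type*} [Fintype J] {w : J → ι} {ψ : ∀ j, Ft₀ v →ₐ[k] Ft (w j)}
    (hNR : NormRes S₀ S φ v w ψ)
    {m : ℕ} {x : Pic0 K F} {D : Divisor.degZero (K := K) (F := F)} {f : F}
    (hR : IsRep m x D f) (h0 : PicFunct.pic0Push φ hφ hfin hN x = 0)
    {g : ∀ j, Ft (w j)} (hg : ∀ j, IsResidue S (w j) f (g j)) :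
    ∃ (u : Ft₀ v) (a : k), u ≠ 0 ∧ a ≠ 0 ∧
      ∏ j, normAlong (ψ j) (g j) = algebraMap k (Ft₀ v) a * u ^ m := by
  obtain ⟨rfl, hf, hD⟩ := id hR
  exact exists_residue_eq_const_mul_pow_ss hF₀ φ hφ hfin hN hf hD h0 (hNR f g hg)

/-- the divisor of a finite product of nonzero functions -/
theorem divOf_prod {L : Type*} [Field L] [Algebra k L] [HasPrincipalDivisors k L]
    {J : Type*} (s : Finset J) (x : J → L) (hx : ∀ j ∈ s, x j ≠ 0) :
    divOf k (∏ j ∈ s, x j) = ∑ j ∈ s, divOf k (x j) := by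
  classical
  induction s using Finset.induction_on with
  | empty => simp [divOf_one]
  | insert a s ha ih =>
    rw [Finset.prod_insert ha, Finset.sum_insert ha,
      divOf_mul (hx a (Finset.mem_insert_self a s))
        (Finset.prod_ne_zero_iff.mpr fun j hj => hx j (Finset.mem_insert_of_mem hj)),
      ih fun j hj => hx j (Finset.mem_insert_of_mem hj)]

/-- `Pic0.mk` of a finite sum -/
theorem mk_sum {L : Type*} [Field L] [Algebra k L] {J : Type*} (s : Finset J)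
    (E : J → Divisor.degZero (K := k) (F := L)) :
    Pic0.mk (∑ j ∈ s, E j) = ∑ j ∈ s, Pic0.mk (E j) :=
  map_sum (QuotientAddGroup.mk' ((Divisor.principal (K := k) (F := L)).addSubgroupOf
    (Divisor.degZero (K := k) (F := L)))) E s

section ClassLevel

variable [∀ v, HasPrincipalDivisors k (Ft₀ v)] [∀ w, HasPrincipalDivisors k (Ft w)]

/-- the divisor of the product of the norms of functions `g j` with `div (g j) = m E j` -/
theorem ord_prod_norm_eq {v : ι₀} {J : Type*} [Fintype J] {w : J → ι}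
    {ψ : ∀ j, Ft₀ v →ₐ[k] Ft (w j)}
    (hψ : ∀ j, (ψ j).toRingHom.IsIntegral) (hfinψ : ∀ j, FiniteAlong k (ψ j))
    (hNψ : ∀ j, NormFormulaAlong k (ψ j) (hfinψ j)) {m : ℕ}
    {g : ∀ j, Ft (w j)} (hg : ∀ j, g j ≠ 0) {E : ∀ j, Divisor k (Ft (w j))}
    (hE : ∀ j (Q : Place k (Ft (w j))), Q.ord (g j) = (m : ℤ) * E j Q) (Q : Place k (Ft₀ v)) :
    Q.ord (∏ j, normAlong (ψ j) (g j)) =
      (m : ℤ) * (∑ j, Divisor.pushforwardAlong (ψ j) (hψ j) (E j)) Q := by
  have hne : ∀ j, normAlong (ψ j) (g j) ≠ 0 :=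
    fun j => normAlong_ne_zero (ψ j) (hfinψ j) (hg j)
  have h1 : ∀ j, divOf k (normAlong (ψ j) (g j)) =
      m • Divisor.pushforwardAlong (ψ j) (hψ j) (E j) := by
    intro j
    have h2 : divOf k (g j) = m • E j := by
      ext Q'
      rw [divOf_apply, hE j Q', Finsupp.smul_apply, nsmul_eq_mul]
    rw [← pushforwardAlong_divOf (ψ j) (hψ j) (hfinψ j) (hNψ j) (hg j), h2, map_nsmul]
  rw [← divOf_apply, divOf_prod Finset.univ _ (fun j _ => hne j),
    Finset.sum_congr rfl (fun j _ => h1 j), ← Finset.smul_sum, Finsupp.smul_apply, nsmul_eq_mul]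

/-- **(C-G5M), the abelian part commutes with push-forward.** For a class `y` of the finite part
of `S` the abelian part of `φ_* y` on the component `v` of `S₀` is the sum of the push-forwards of
the abelian parts of `y` on the components over `v`. -/
theorem isAbRes_push
    (hF : RiemannPkg K F) (hFt : ∀ w, RiemannPkg k (Ft w))
    (φ : F₀ →ₐ[K] F) (hφ : φ.toRingHom.IsIntegral) (hfin : FiniteAlong K φ)
    (hN : NormFormulaAlong K φ hfin)
    {v : ι₀} {J : Type*} [Fintype J] {w : J → ι} {ψ : ∀ j, Ft₀ v →ₐ[k] Ft (w j)}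
    (hNR : NormRes S₀ S φ v w ψ)
    (hψ : ∀ j, (ψ j).toRingHom.IsIntegral) (hfinψ : ∀ j, FiniteAlong k (ψ j))
    (hNψ : ∀ j, NormFormulaAlong k (ψ j) (hfinψ j))
    {m : ℕ} (hm : m ≠ 0) (y : natSub S m) :
    IsAbRes S₀ m v (PicFunct.pic0Push φ hφ hfin hN (y : Pic0 K F))
      (∑ j, PicFunct.pic0Push (ψ j) (hψ j) (hfinψ j) (hNψ j) (abRes hF hFt hm (w j) y)) := by
  obtain ⟨D, f, hR, hres⟩ := y.2
  choose g hg E hE using fun j => hres (w j)
  have hdeg : ∀ j, Divisor.degree (E j) = 0 := fun j => degree_eq_zero_of_ord_eq hm (hE j)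
  have hab : ∀ j, abRes hF hFt hm (w j) y =
      Pic0.mk (⟨E j, hdeg j⟩ : Divisor.degZero (K := k) (F := Ft (w j))) :=
    fun j => abRes_eq hF hFt hm hR (hg j) (E := ⟨E j, hdeg j⟩) (hE j)
  refine ⟨PicFunct.degZeroPush φ hφ D, normAlong φ f, ∏ j, normAlong (ψ j) (g j),
    ∑ j, PicFunct.degZeroPush (ψ j) (hψ j) ⟨E j, hdeg j⟩, isRep_push φ hφ hfin hN hR,
    hNR f g hg, fun Q => ?_, ?_⟩
  · rw [ord_prod_norm_eq hψ hfinψ hNψ (fun j => (hg j).ne_zero) hE Q, AddSubgroup.val_finsetSum]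
    rfl
  · rw [mk_sum]
    exact Finset.sum_congr rfl fun j _ => by rw [hab j, PicFunct.pic0Push_mk]

/-- the same for `abRes` -/
theorem abRes_push
    (hF₀ : RiemannPkg K F₀) (hFt₀ : ∀ v, RiemannPkg k (Ft₀ v))
    (hF : RiemannPkg K F) (hFt : ∀ w, RiemannPkg k (Ft w))
    (φ : F₀ →ₐ[K] F) (hφ : φ.toRingHom.IsIntegral) (hfin : FiniteAlong K φ)
    (hN : NormFormulaAlong K φ hfin)
    {v : ι₀} {J : Type*} [Fintype J] {w : J → ι} {ψ : ∀ j, Ft₀ v →ₐ[k] Ft (w j)}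
    (hNR : NormRes S₀ S φ v w ψ)
    (hψ : ∀ j, (ψ j).toRingHom.IsIntegral) (hfinψ : ∀ j, FiniteAlong k (ψ j))
    (hNψ : ∀ j, NormFormulaAlong k (ψ j) (hfinψ j))
    {m : ℕ} (hm : m ≠ 0) (y : natSub S m)
    (hy : PicFunct.pic0Push φ hφ hfin hN (y : Pic0 K F) ∈ natSub S₀ m) :
    abRes hF₀ hFt₀ hm v ⟨_, hy⟩ =
      ∑ j, PicFunct.pic0Push (ψ j) (hψ j) (hfinψ j) (hNψ j) (abRes hF hFt hm (w j) y) :=
  abRes_eq_of_isAbRes hF₀ hFt₀ hm (y := ⟨_, hy⟩)
    (isAbRes_push hF hFt φ hφ hfin hN hNR hψ hfinψ hNψ hm y)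

/-- `φ_*` maps the finite part of `S` into the finite part of `S₀` (the components over every `v`
listed by `w v : J v → ι`) -/
theorem push_mem_natSub
    (hF : RiemannPkg K F) (hFt : ∀ w, RiemannPkg k (Ft w))
    (φ : F₀ →ₐ[K] F) (hφ : φ.toRingHom.IsIntegral) (hfin : FiniteAlong K φ)
    (hN : NormFormulaAlong K φ hfin)
    {J : ι₀ → Type*} [∀ v, Fintype (J v)] {w : ∀ v, J v → ι}
    {ψ : ∀ v (j : J v), Ft₀ v →ₐ[k] Ft (w v j)}
    (hNR : ∀ v, NormRes S₀ S φ v (w v) (ψ v))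
    (hψ : ∀ v j, (ψ v j).toRingHom.IsIntegral) (hfinψ : ∀ v j, FiniteAlong k (ψ v j))
    (hNψ : ∀ v j, NormFormulaAlong k (ψ v j) (hfinψ v j))
    {m : ℕ} (hm : m ≠ 0) {y : Pic0 K F} (hy : y ∈ natSub S m) :
    PicFunct.pic0Push φ hφ hfin hN y ∈ natSub S₀ m := by
  obtain ⟨D, f, hR, hres⟩ := hy
  refine ⟨PicFunct.degZeroPush φ hφ D, normAlong φ f, isRep_push φ hφ hfin hN hR, fun v => ?_⟩
  choose g hg E hE using fun j => hres (w v j)
  exact ⟨∏ j, normAlong (ψ v j) (g j), hNR v f g hg,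
    ∑ j, Divisor.pushforwardAlong (ψ v j) (hψ v j) (E j),
    ord_prod_norm_eq (hψ v) (hfinψ v) (hNψ v) (fun j => (hg j).ne_zero) hE⟩

/-- **(C-G5M), class level.** For a class `y` of the finite part of `S` with `φ_* y = 0` the
push-forwards to `v` of the abelian parts of `y` on the components over `v` add up to zero. -/
theorem sum_push_abRes_eq_zero
    (hF₀ : RiemannPkg K F₀) (hF : RiemannPkg K F) (hFt : ∀ w, RiemannPkg k (Ft w))
    (φ : F₀ →ₐ[K] F) (hφ : φ.toRingHom.IsIntegral) (hfin : FiniteAlong K φ)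
    (hN : NormFormulaAlong K φ hfin)
    {v : ι₀} {J : Type*} [Fintype J] {w : J → ι} {ψ : ∀ j, Ft₀ v →ₐ[k] Ft (w j)}
    (hNR : NormRes S₀ S φ v w ψ)
    (hψ : ∀ j, (ψ j).toRingHom.IsIntegral) (hfinψ : ∀ j, FiniteAlong k (ψ j))
    (hNψ : ∀ j, NormFormulaAlong k (ψ j) (hfinψ j))
    {m : ℕ} (hm : m ≠ 0) (y : natSub S m)
    (h0 : PicFunct.pic0Push φ hφ hfin hN (y : Pic0 K F) = 0) :
    ∑ j, PicFunct.pic0Push (ψ j) (hψ j) (hfinψ j) (hNψ j) (abRes hF hFt hm (w j) y) = 0 := by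
  have h1 := isAbRes_push hF hFt φ hφ hfin hN hNR hψ hfinψ hNψ hm y
  rw [h0] at h1
  exact IsAbRes.unique hF₀ hm h1 (isAbRes_zero m v)

end ClassLevel

/-- **(C-G5M), a component on which the norm is a power map** (purely inseparable residue
extension of degree `d` prime to `m`): the abelian part vanishes. -/
theorem abRes_eq_zero_of_pow
    (hF₀ : RiemannPkg K F₀) (hF : RiemannPkg K F) (hFt : ∀ w, RiemannPkg k (Ft w))
    (φ : F₀ →ₐ[K] F) (hφ : φ.toRingHom.IsIntegral) (hfin : FiniteAlong K φ)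
    (hN : NormFormulaAlong K φ hfin)
    {v : ι₀} {w : ι} (ψ : Ft₀ v →ₐ[k] Ft w) {d : ℕ}
    (hNR : ∀ (f : F) (g : Ft w), IsResidue S w f g →
      ∃ G : Ft₀ v, IsResidue S₀ v (normAlong φ f) G ∧ ψ G = g ^ d)
    {m : ℕ} (hm : m ≠ 0) (hd : Nat.Coprime d m) (y : natSub S m)
    (h0 : PicFunct.pic0Push φ hφ hfin hN (y : Pic0 K F) = 0) :
    abRes hF hFt hm w y = 0 := by
  obtain ⟨D, f, hR, hres⟩ := y.2
  obtain ⟨g, hg, E, hE⟩ := hres w
  obtain ⟨hDx, hf, hD⟩ := id hR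
  obtain ⟨G, hG, hψG⟩ := hNR f g hg
  have h0' : PicFunct.pic0Push φ hφ hfin hN (Pic0.mk D) = 0 := by rw [hDx]; exact h0
  obtain ⟨u, a, hu, ha, hGa⟩ :=
    exists_residue_eq_const_mul_pow_ss hF₀ φ hφ hfin hN hf hD h0' hG
  have := (hFt w).principal
  have hg0 : g ≠ 0 := hg.ne_zero
  have hψu : ψ u ≠ 0 := (map_ne_zero ψ).mpr hu
  have h1 : g ^ d = algebraMap k (Ft w) a * (ψ u) ^ m := by
    rw [← hψG, hGa, map_mul, map_pow, AlgHom.commutes]
  -- Bezout
  have hb : (1 : ℤ) = (d : ℤ) * Nat.gcdA d m + (m : ℤ) * Nat.gcdB d m := by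
    have h2 := Nat.gcd_eq_gcd_ab d m
    rwa [Nat.Coprime.gcd_eq_one hd, Nat.cast_one] at h2
  set s : ℤ := Nat.gcdA d m
  set t : ℤ := Nat.gcdB d m
  have h3 : g = algebraMap k (Ft w) (a ^ s) * ((ψ u) ^ s * g ^ t) ^ m := by
    have e1 : g = g ^ ((d : ℤ) * s) * g ^ ((m : ℤ) * t) := by
      rw [← zpow_add₀ hg0, ← hb, zpow_one]
    have e2 : g ^ ((d : ℤ) * s) = algebraMap k (Ft w) (a ^ s) * ((ψ u) ^ s) ^ m := by
      rw [zpow_mul, zpow_natCast, h1, mul_zpow, map_zpow₀, ← zpow_natCast (ψ u) m, ← zpow_mul,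
        mul_comm (m : ℤ) s, zpow_mul, zpow_natCast]
    have e3 : g ^ ((m : ℤ) * t) = (g ^ t) ^ m := by
      rw [zpow_mul', zpow_natCast]
    rw [mul_pow, ← mul_assoc, ← e2, ← e3]
    exact e1
  have has : a ^ s ≠ 0 := zpow_ne_zero s ha
  have hu' : (ψ u) ^ s * g ^ t ≠ 0 := mul_ne_zero (zpow_ne_zero s hψu) (zpow_ne_zero t hg0)
  have hE' : ∀ Q : Place k (Ft w), Q.ord g = (m : ℤ) * (divOf k ((ψ u) ^ s * g ^ t)) Q := by
    intro Q
    conv_lhs => rw [h3]
    rw [Q.ord_mul ((map_ne_zero _).mpr has) (pow_ne_zero m hu'), Place.ord_algebraMap Q, zero_add,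
      Place.ord_pow Q, divOf_apply]
  rw [abRes_eq hF hFt hm hR hg (E := ⟨divOf k ((ψ u) ^ s * g ^ t), degree_divOf _⟩) hE',
    mk_eq_zero_iff]
  exact divOf_mem_principal hu'

/-- the same from `NormRes` with a single component over `v` -/
theorem abRes_eq_zero_of_normRes_insep
    (hF₀ : RiemannPkg K F₀) (hF : RiemannPkg K F) (hFt : ∀ w, RiemannPkg k (Ft w))
    (φ : F₀ →ₐ[K] F) (hφ : φ.toRingHom.IsIntegral) (hfin : FiniteAlong K φ)
    (hN : NormFormulaAlong K φ hfin)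
    {v : ι₀} {w : Unit → ι} {ψ : ∀ j, Ft₀ v →ₐ[k] Ft (w j)}
    (hNR : NormRes S₀ S φ v w ψ) {d : ℕ}
    (hins : ∀ g : Ft (w ()), ψ () (normAlong (ψ ()) g) = g ^ d)
    {m : ℕ} (hm : m ≠ 0) (hd : Nat.Coprime d m) (y : natSub S m)
    (h0 : PicFunct.pic0Push φ hφ hfin hN (y : Pic0 K F) = 0) :
    abRes hF hFt hm (w ()) y = 0 := by
  refine abRes_eq_zero_of_pow (S₀ := S₀) hF₀ hF hFt φ hφ hfin hN (ψ ()) (d := d)
    (fun f g hg => ?_) hm hd y h0
  refine ⟨normAlong (ψ ()) g, ?_, hins g⟩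
  have h1 := hNR f (fun _ => g) (fun _ => hg)
  rwa [Finset.univ_unique, Finset.prod_singleton] at h1

/-- if every component of `S` is a power component over some component of `S₀`, a class of the
finite part killed by `φ_*` is toric -/
theorem mem_torSub_of_forall_pow
    (hF₀ : RiemannPkg K F₀) (hF : RiemannPkg K F) (hFt : ∀ w, RiemannPkg k (Ft w))
    (φ : F₀ →ₐ[K] F) (hφ : φ.toRingHom.IsIntegral) (hfin : FiniteAlong K φ)
    (hN : NormFormulaAlong K φ hfin) {m : ℕ} (hm : m ≠ 0)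
    (hNR : ∀ w : ι, ∃ (v : ι₀) (ψ : Ft₀ v →ₐ[k] Ft w) (d : ℕ), Nat.Coprime d m ∧
      ∀ (f : F) (g : Ft w), IsResidue S w f g →
        ∃ G : Ft₀ v, IsResidue S₀ v (normAlong φ f) G ∧ ψ G = g ^ d)
    (y : natSub S m) (h0 : PicFunct.pic0Push φ hφ hfin hN (y : Pic0 K F) = 0) :
    (y : Pic0 K F) ∈ torSub S m := by
  refine (abRes_eq_zero_iff hF hFt hm y).mp fun w => ?_
  obtain ⟨v, ψ, d, hd, h⟩ := hNR w
  exact abRes_eq_zero_of_pow hF₀ hF hFt φ hφ hfin hN ψ h hm hd y h0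

end Fermat.Agent.BR3.G5Multi
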