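import Mathlib
import Fermat.Agent.BR3.G5Multi

/-!
# Program C (S36), node (C-G5M), file 4: the toric part and push-forward

Setting of `BR3/G5Multi` (`S₀` on `F₀ / K`, `S` on `F / K`, `φ : F₀ →ₐ[K] F` finite, `NormRes` at a
component `v` of `S₀` with the components `w j` of `S` over `v` and residue extensions `ψ j`).

A class `z` of the toric part `torSub S m` has a representative `(D, f)` whose residues are
`g_w = c_w · u_w ^ m`.

* `normAlong_algebraMap_const` : `N_ψ c = c ^ [L : L₀]` for a constant `c`;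
* `isResidue_push_of_tor` : `(∏ j, c_j ^ [ψ j]) · (∏ j, N_{ψ j} (u j)) ^ m` is a residue of `N_φ f`
  on `v`: the `m`-th root of the residue of the push-forward is `U_v := ∏ j, N_{ψ j} (u j)`;
* `push_mem_torSub` : `φ_*` maps `torSub S m` into `torSub S₀ m`;
* `exists_fun_of_push_eq_zero` : `φ_* [D] = 0` ⟹ `N_φ f = κ · h ^ m` with `div h = φ_* D`;
* `prod_norm_eq_const_mul_residue` : then `U_v = c' · t` for every residue `t` of `h` on `v`
  (the residues of the single function `h` compute the `U_v` up to constants: input of the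
  push-compatibility of the gluing cochains, with the value-of-a-norm formula).
-/

set_option autoImplicit false
set_option linter.unusedVariables false
set_option linter.unusedSectionVars false
set_option linter.style.haveILetI false

noncomputable section

namespace Fermat.Agent.BR3.G5MultiTor

open AlgebraicCurve Fermat.Agent.Red Fermat.Agent.BR.SS Fermat.Agent.Jac Fermat.Agent.BR
  Fermat.Agent.BR2.Filt Fermat.Agent.BR2.G5 Fermat.Agent.BR3.FiltMaps Fermat.Agent.X0
  Fermat.Agent.BR3.G5Multi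

section Const

variable {k L₀ L : Type*} [Field k] [Field L₀] [Field L] [Algebra k L₀] [Algebra k L]

/-- the norm of a constant -/
theorem normAlong_algebraMap_const (ψ : L₀ →ₐ[k] L) (c : k) :
    normAlong ψ (algebraMap k L c) = algebraMap k L₀ (c ^ finrankAlong k ψ) := by
  letI := algebraAlong ψ
  haveI := isScalarTower_along ψ
  show Algebra.norm L₀ (algebraMap k L c) = algebraMap k L₀ (c ^ Module.finrank L₀ L)
  rw [IsScalarTower.algebraMap_apply k L₀ L, Algebra.norm_algebraMap, map_pow]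

theorem normAlong_pow (ψ : L₀ →ₐ[k] L) (x : L) (n : ℕ) :
    normAlong ψ (x ^ n) = normAlong ψ x ^ n := by
  letI := algebraAlong ψ
  exact map_pow (Algebra.norm L₀) x n

end Const

variable {K k : Type*} [Field K] [Field k] {A : ValuationSubring K} {π : A →+* k}
  {F₀ F : Type*} [Field F₀] [Algebra K F₀] [Field F] [Algebra K F]
  {ι₀ : Type*} {Ft₀ : ι₀ → Type*} [∀ v, Field (Ft₀ v)] [∀ v, Algebra k (Ft₀ v)] {ν₀ : Type*}
  {ι : Type*} {Ft : ι → Type*} [∀ w, Field (Ft w)] [∀ w, Algebra k (Ft w)] {ν : Type*}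
  {S₀ : SemistableSetup (F := F₀) A π ι₀ Ft₀ ν₀} {S : SemistableSetup (F := F) A π ι Ft ν}

/-- the residue on `v` of the norm of a function with toric residues `c j · u j ^ m` on the
components over `v` -/
theorem isResidue_push_of_tor (φ : F₀ →ₐ[K] F)
    {v : ι₀} {J : Type*} [Fintype J] {w : J → ι} {ψ : ∀ j, Ft₀ v →ₐ[k] Ft (w j)}
    (hNR : NormRes S₀ S φ v w ψ) {m : ℕ} {f : F} {g u : ∀ j, Ft (w j)} {c : J → k}
    (hg : ∀ j, IsResidue S (w j) f (g j))
    (hu : ∀ j, g j = algebraMap k (Ft (w j)) (c j) * u j ^ m) :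
    IsResidue S₀ v (normAlong φ f)
      (algebraMap k (Ft₀ v) (∏ j, c j ^ finrankAlong k (ψ j)) *
        (∏ j, normAlong (ψ j) (u j)) ^ m) := by
  have h1 := hNR f g hg
  have h2 : ∏ j, normAlong (ψ j) (g j) =
      algebraMap k (Ft₀ v) (∏ j, c j ^ finrankAlong k (ψ j)) *
        (∏ j, normAlong (ψ j) (u j)) ^ m := by
    rw [map_prod, ← Finset.prod_pow, ← Finset.prod_mul_distrib]
    refine Finset.prod_congr rfl fun j _ => ?_
    rw [hu j, normAlong_mul, normAlong_algebraMap_const, normAlong_pow]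
  rwa [h2] at h1

variable [HasPrincipalDivisors K F₀] [HasPrincipalDivisors K F]

/-- `φ_*` maps the toric part of `S` into the toric part of `S₀`. -/
theorem push_mem_torSub
    (φ : F₀ →ₐ[K] F) (hφ : φ.toRingHom.IsIntegral) (hfin : FiniteAlong K φ)
    (hN : NormFormulaAlong K φ hfin)
    {J : ι₀ → Type*} [∀ v, Fintype (J v)] {w : ∀ v, J v → ι}
    {ψ : ∀ v (j : J v), Ft₀ v →ₐ[k] Ft (w v j)}
    (hNR : ∀ v, NormRes S₀ S φ v (w v) (ψ v))
    {m : ℕ} {z : Pic0 K F} (hz : z ∈ torSub S m) :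
    PicFunct.pic0Push φ hφ hfin hN z ∈ torSub S₀ m := by
  obtain ⟨D, f, hR, hres⟩ := hz
  refine ⟨PicFunct.degZeroPush φ hφ D, normAlong φ f, isRep_push φ hφ hfin hN hR, fun v => ?_⟩
  choose g hg u c hu using fun j => hres (w v j)
  exact ⟨_, isResidue_push_of_tor φ (hNR v) hg hu, ∏ j, normAlong (ψ v j) (u j),
    ∏ j, c j ^ finrankAlong k (ψ v j), rfl⟩

/-- `m D = div f`, `φ_* [D] = 0` ⟹ `N_φ f = κ · h ^ m` with `div h = φ_* D`. -/
theorem exists_fun_of_push_eq_zero (hF₀ : RiemannPkg K F₀)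
    (φ : F₀ →ₐ[K] F) (hφ : φ.toRingHom.IsIntegral) (hfin : FiniteAlong K φ)
    (hN : NormFormulaAlong K φ hfin) {m : ℕ} (hm : m ≠ 0) {z : Pic0 K F}
    {D : Divisor.degZero (K := K) (F := F)} {f : F} (hR : IsRep m z D f)
    (h0 : PicFunct.pic0Push φ hφ hfin hN z = 0) :
    ∃ (h : F₀) (κ : K), h ≠ 0 ∧ κ ≠ 0 ∧ normAlong φ f = algebraMap K F₀ κ * h ^ m ∧
      ∀ P : Place K F₀, (PicFunct.degZeroPush φ hφ D : Divisor K F₀) P = P.ord h := by
  obtain ⟨hDz, hf, hD⟩ := id hR
  have h0' : PicFunct.pic0Push φ hφ hfin hN (Pic0.mk D) = 0 := by rw [hDz]; exact h0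
  obtain ⟨h, κ, hh, hκ, hNf⟩ := exists_norm_eq_const_mul_pow hF₀ φ hφ hfin hN hf hD h0'
  refine ⟨h, κ, hh, hκ, hNf, fun P => ?_⟩
  have h1 := (isRep_push φ hφ hfin hN hR).2.2 P
  rw [hNf, P.ord_mul ((map_ne_zero _).mpr hκ) (pow_ne_zero m hh), Place.ord_algebraMap P,
    zero_add, Place.ord_pow P, Finsupp.smul_apply, nsmul_eq_mul] at h1
  exact mul_left_cancel₀ (Nat.cast_ne_zero.mpr hm) h1

/-- If `N_φ f = κ · h ^ m` and the residues of `f` over `v` are `c j · u j ^ m`, then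
`∏ j, N_{ψ j} (u j)` is a constant times any residue of `h` on `v`. -/
theorem prod_norm_eq_const_mul_residue (φ : F₀ →ₐ[K] F)
    {v : ι₀} (hFt₀ : RiemannPkg k (Ft₀ v))
    {J : Type*} [Fintype J] {w : J → ι} {ψ : ∀ j, Ft₀ v →ₐ[k] Ft (w j)}
    (hNR : NormRes S₀ S φ v w ψ)
    {m : ℕ} (hm : m ≠ 0) {f : F} {g u : ∀ j, Ft (w j)} {c : J → k}
    (hg : ∀ j, IsResidue S (w j) f (g j))
    (hu : ∀ j, g j = algebraMap k (Ft (w j)) (c j) * u j ^ m)
    {h : F₀} {κ : K} (hκ : κ ≠ 0) (hh : normAlong φ f = algebraMap K F₀ κ * h ^ m)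
    {t : Ft₀ v} (ht : IsResidue S₀ v h t) :
    ∃ c' : k, c' ≠ 0 ∧ ∏ j, normAlong (ψ j) (u j) = algebraMap k (Ft₀ v) c' * t := by
  have := hFt₀.principal
  have h1 := isResidue_push_of_tor φ hNR hg hu
  have h2 : IsResidue S₀ v (normAlong φ f) (t ^ m) := by
    rw [hh]
    exact isResidue_const_mul (isResidue_pow ht m) hκ
  obtain ⟨b, hb, hbe⟩ := isResidue_unique h2 h1
  have ht0 : t ≠ 0 := ht.ne_zero
  have haU := h1.ne_zero
  have ha0 : (∏ j, c j ^ finrankAlong k (ψ j)) ≠ 0 := by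
    intro h
    apply haU
    rw [h, map_zero, zero_mul]
  have hU0 : (∏ j, normAlong (ψ j) (u j)) ≠ 0 := by
    intro h
    apply haU
    rw [h, zero_pow hm, mul_zero]
  obtain ⟨c', hc'⟩ := exists_const_of_forall_ord_nonneg hFt₀
    (f := (∏ j, normAlong (ψ j) (u j)) / t) (fun Q => by
      have h3 := congrArg Q.ord hbe
      rw [Q.ord_mul ((map_ne_zero _).mpr ha0) (pow_ne_zero m hU0), Place.ord_algebraMap Q,
        zero_add, Place.ord_pow Q, Q.ord_mul ((map_ne_zero _).mpr hb) (pow_ne_zero m ht0),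
        Place.ord_algebraMap Q, zero_add, Place.ord_pow Q] at h3
      have h4 : Q.ord (∏ j, normAlong (ψ j) (u j)) = Q.ord t :=
        mul_left_cancel₀ (Nat.cast_ne_zero.mpr hm) h3
      rw [div_eq_mul_inv, Q.ord_mul hU0 (inv_ne_zero ht0), Q.ord_inv, h4]
      simp)
  refine ⟨c', ?_, by rw [← hc', div_mul_cancel₀ _ ht0]⟩
  rintro rfl
  rw [map_zero] at hc'
  exact div_ne_zero hU0 ht0 hc'

end Fermat.Agent.BR3.G5MultiTor
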