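import Mathlib
import Fermat.Agent.BR3.MultiVal

/-!
# Program C (S36), node (VALUE-NORM), abstract part: the ramified norm-residue formula
(residue degree one)

`E/F` finite, `O₀` a discrete valuation subring of `F` with uniformizer `t`, `O v` (`v : V`
finite) rank one valuation subrings of `E` over `O₀`, pairwise separated, with uniformizers `π v`,
`t ∈ π_v^{e_v} O_v`, residue degree one, and `∑ e_v = [E : F]`.  Then for `g ∈ ⋂ O v` with
`g ≡ a_v mod 𝔪_v` (`a_v ∈ O₀`): `N(g) ∈ O₀` and `N(g) ≡ ∏ a_v ^ e_v mod 𝔪₀`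
(`norm_sub_prod_mem_nonunits`).

Proof: `y_(v,i) = π_v^i ε_v` (`i < e_v`, `ε_v` approximate idempotents) is an `O₀`-basis of `⋂ O v`
(`π`-adic digits + count), and the matrix of `g` in this basis is triangular modulo `𝔪₀` with
diagonal entries `a_v`.
-/

set_option autoImplicit false
set_option linter.unusedSectionVars false
set_option linter.unusedVariables false
set_option linter.style.haveILetI false

namespace Fermat.Agent.BR3.RamNormResidue

open Fermat.Agent.Val Fermat.Agent.BR.TwoVal Fermat.Agent.BR3.MultiVal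

/-! ### a determinant lemma -/

/-- A matrix whose off-diagonal entries `M r c` vanish whenever `b r ≤ b c` (for a level function
`b`) has determinant the product of its diagonal entries. -/
theorem det_eq_prod_diag_of_level {m R : Type*} [Fintype m] [DecidableEq m] [CommRing R]
    (M : Matrix m m R) (b : m → ℕ) (h : ∀ r c, r ≠ c → b r ≤ b c → M r c = 0) :
    M.det = ∏ r, M r r := by
  classical
  let f : m → ℕ ×ₗ ℕ := fun r => toLex (b r, (Fintype.equivFin m r : ℕ))
  have hf : Function.Injective f := by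
    intro r c hrc
    have h2 : (Fintype.equivFin m r : ℕ) = (Fintype.equivFin m c : ℕ) :=
      congrArg (fun p : ℕ ×ₗ ℕ => (ofLex p).2) hrc
    exact (Fintype.equivFin m).injective (Fin.ext h2)
  letI : LinearOrder m := LinearOrder.lift' f hf
  refine Matrix.det_of_isLowerTriangular M ?_
  intro r c hrc
  have hlt : f r < f c := hrc
  have hne : r ≠ c := fun h => (lt_irrefl _ (h ▸ hlt))
  refine h r c hne ?_
  rcases Prod.Lex.lt_iff.mp hlt with h1 | ⟨h1, -⟩
  · exact le_of_lt h1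
  · exact le_of_eq h1

/-! ### one valuation: divisibility by powers of the uniformizer -/

section Single

variable {F E : Type*} [Field F] [Field E] [Algebra F E]
variable (O : ValuationSubring E) (π : E)

/-- `x ∈ π ^ m • O` -/
def DivPow (m : ℕ) (x : E) : Prop := x / π ^ m ∈ O

variable {O π}

theorem DivPow.add {m : ℕ} {x y : E} (hx : DivPow O π m x) (hy : DivPow O π m y) :
    DivPow O π m (x + y) := by
  unfold DivPow at *
  rw [add_div]
  exact O.add_mem _ _ hx hy

theorem DivPow.neg {m : ℕ} {x : E} (hx : DivPow O π m x) : DivPow O π m (-x) := by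
  unfold DivPow at *
  rw [neg_div]
  exact O.neg_mem _ hx

theorem DivPow.sub {m : ℕ} {x y : E} (hx : DivPow O π m x) (hy : DivPow O π m y) :
    DivPow O π m (x - y) := by
  rw [sub_eq_add_neg]
  exact hx.add hy.neg

theorem DivPow.sum {m : ℕ} {J : Type*} (s : Finset J) (x : J → E)
    (h : ∀ j ∈ s, DivPow O π m (x j)) : DivPow O π m (∑ j ∈ s, x j) := by
  unfold DivPow at *
  rw [Finset.sum_div]
  exact sum_mem h

theorem DivPow.mul_left {m : ℕ} {x r : E} (hx : DivPow O π m x) (hr : r ∈ O) :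
    DivPow O π m (r * x) := by
  unfold DivPow at *
  rw [mul_div_assoc]
  exact O.mul_mem _ _ hr hx

theorem DivPow.mono (hπ : π ∈ O) (hπ0 : π ≠ 0) {m m' : ℕ} (hmm : m ≤ m') {x : E}
    (hx : DivPow O π m' x) : DivPow O π m x := by
  unfold DivPow at *
  obtain ⟨k, rfl⟩ := Nat.exists_eq_add_of_le hmm
  have e : x / π ^ m = π ^ k * (x / π ^ (m + k)) := by
    rw [pow_add]
    field_simp
  rw [e]
  exact O.mul_mem _ _ (O.pow_mem hπ k) hx

theorem divPow_pow_mul (hπ : π ∈ O) (hπ0 : π ≠ 0) {m m' : ℕ} (hmm : m ≤ m') {z : E}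
    (hz : z ∈ O) : DivPow O π m (π ^ m' * z) := by
  unfold DivPow
  obtain ⟨k, rfl⟩ := Nat.exists_eq_add_of_le hmm
  have e : π ^ (m + k) * z / π ^ m = π ^ k * z := by
    rw [pow_add]
    field_simp
  rw [e]
  exact O.mul_mem _ _ (O.pow_mem hπ k) hz

/-- `π ^ m * x ∈ π ^ (m+1) O` implies `x ∈ 𝔪`. -/
theorem mem_nonunits_of_divPow_succ (hπ : π ∈ O.nonunits) (hπ0 : π ≠ 0) {m : ℕ} {x : E}
    (h : DivPow O π (m + 1) (π ^ m * x)) : x ∈ O.nonunits := by
  unfold DivPow at h
  have e : π ^ m * x / π ^ (m + 1) = x / π := by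
    rw [pow_succ]
    field_simp
  rw [e] at h
  have e2 : x = π * (x / π) := by field_simp
  rw [e2]
  exact mul_mem_nonunits_right O hπ h

end Single

/-! ### lying over -/

section Lies

variable {F E : Type*} [Field F] [Field E] [Algebra F E]
variable {O₀ : ValuationSubring F} {O : ValuationSubring E}

theorem mem_nonunits_of_algebraMap_mem_nonunits (hlies : O.comap (algebraMap F E) = O₀) {x : F}
    (hx : x ∈ O₀) (h : algebraMap F E x ∈ O.nonunits) : x ∈ O₀.nonunits := by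
  by_contra hn
  have hinv : x⁻¹ ∈ O₀ := inv_mem_of_notMem_nonunits O₀ hn
  have h0 : x ≠ 0 := fun h0 => hn (h0 ▸ zero_mem_nonunits O₀)
  have h1 : algebraMap F E x⁻¹ ∈ O := by
    rw [← hlies] at hinv
    exact hinv
  rw [map_inv₀] at h1
  have h2 : algebraMap F E x ≠ 0 := (map_ne_zero _).mpr h0
  exact ((mem_nonunits_iff_inv_notMem O h2).mp h) h1

theorem algebraMap_mem_of_mem (hlies : O.comap (algebraMap F E) = O₀) {x : F} (hx : x ∈ O₀) :
    algebraMap F E x ∈ O := by
  rw [← hlies] at hx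
  exact hx

end Lies

/-! ### `π`-adic digits -/

section Digits

variable {F E : Type*} [Field F] [Field E] [Algebra F E]
variable {O₀ : ValuationSubring F} {O : ValuationSubring E}
  (hlies : O.comap (algebraMap F E) = O₀)
  {t : F} (ht0 : t ≠ 0) (hdiv₀ : ∀ x ∈ O₀.nonunits, x / t ∈ O₀)
  {π : E} (hπ : π ∈ O.nonunits) (hπ0 : π ≠ 0) {e : ℕ}
  (hte : algebraMap F E t / π ^ e ∈ O)

include ht0 hte in
/-- `x ∈ t O` implies `x ∈ π ^ e O`. -/
theorem divPow_of_div_mem {x : E} (h : x / algebraMap F E t ∈ O) : DivPow O π e x := by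
  unfold DivPow
  have ht' : algebraMap F E t ≠ 0 := (map_ne_zero _).mpr ht0
  have e1 : x / π ^ e = (x / algebraMap F E t) * (algebraMap F E t / π ^ e) := by
    field_simp
  rw [e1]
  exact O.mul_mem _ _ h hte

include hlies ht0 hdiv₀ hte in
/-- a coefficient in `𝔪₀` times anything integral lies in `π ^ e O` -/
theorem divPow_smul_of_mem_nonunits {a : F} (ha : a ∈ O₀.nonunits) {x : E} (hx : x ∈ O) :
    DivPow O π e (a • x) := by
  refine divPow_of_div_mem ht0 hte ?_
  have ht' : algebraMap F E t ≠ 0 := (map_ne_zero _).mpr ht0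
  have e1 : a • x / algebraMap F E t = algebraMap F E (a / t) * x := by
    rw [Algebra.smul_def, map_div₀]
    field_simp
  rw [e1]
  exact O.mul_mem _ _ (algebraMap_mem_of_mem hlies (hdiv₀ a ha)) hx

include hlies ht0 hdiv₀ hπ hπ0 hte in
/-- **`π`-adic digits.** If `∑_{j<e} a_j π^j ≡ π^i z` modulo `t O` (`a_j ∈ O₀`, `z ∈ O`), then the
digits `a_j`, `j < i`, lie in `𝔪₀`, and the digit `a_i` is congruent to `z`. -/
theorem digits (a : Fin e → F) (ha : ∀ j, a j ∈ O₀) {i : ℕ} (hi : i ≤ e) {z : E} (hz : z ∈ O)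
    (h : (∑ j : Fin e, a j • π ^ (j : ℕ) - π ^ i * z) / algebraMap F E t ∈ O) :
    (∀ j : Fin e, (j : ℕ) < i → a j ∈ O₀.nonunits) ∧
      (∀ j : Fin e, (j : ℕ) = i → ∀ b ∈ O₀, z - algebraMap F E b ∈ O.nonunits →
        a j - b ∈ O₀.nonunits) := by
  classical
  have hπO : π ∈ O := mem_of_mem_nonunits O hπ
  have hX : DivPow O π e (∑ j : Fin e, a j • π ^ (j : ℕ) - π ^ i * z) :=
    divPow_of_div_mem ht0 hte h
  -- the other terms
  have hrest : ∀ (m : ℕ) (j : Fin e), m + 1 ≤ e →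
      (∀ l : Fin e, (l : ℕ) < m → a l ∈ O₀.nonunits) → (j : ℕ) = m →
      DivPow O π (m + 1) (∑ l ∈ Finset.univ.erase j, a l • π ^ (l : ℕ)) := by
    intro m j hm hlow hj
    refine DivPow.sum _ _ fun l hl => ?_
    have hlj : l ≠ j := Finset.ne_of_mem_erase hl
    rcases lt_or_gt_of_ne (fun h => hlj (Fin.ext (h.trans hj.symm)) : (l : ℕ) ≠ m) with hlt | hgt
    · exact DivPow.mono hπO hπ0 hm
        (divPow_smul_of_mem_nonunits hlies ht0 hdiv₀ hte (hlow l hlt) (O.pow_mem hπO _))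
    · have e1 : a l • π ^ (l : ℕ) = π ^ (l : ℕ) * algebraMap F E (a l) := by
        rw [Algebra.smul_def, mul_comm]
      rw [e1]
      exact divPow_pow_mul hπO hπ0 hgt (algebraMap_mem_of_mem hlies (ha l))
  have key : ∀ m, m ≤ i → ∀ j : Fin e, (j : ℕ) < m → a j ∈ O₀.nonunits := by
    intro m
    induction m with
    | zero => intro _ j hj; exact absurd hj (Nat.not_lt_zero _)
    | succ m ih =>
      intro hm j hj
      have ihm := ih (Nat.le_of_succ_le hm)
      rcases Nat.lt_succ_iff_lt_or_eq.mp hj with hlt | heq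
      · exact ihm j hlt
      · -- `(j : ℕ) = m`
        by_contra hn
        have hme : m + 1 ≤ e := le_trans hm hi
        have h1 := hrest m j hme ihm heq
        have h2 : DivPow O π (m + 1) (π ^ i * z) := divPow_pow_mul hπO hπ0 hm hz
        have h3 : DivPow O π (m + 1) (∑ l : Fin e, a l • π ^ (l : ℕ) - π ^ i * z) :=
          DivPow.mono hπO hπ0 hme hX
        have h4 : a j • π ^ (j : ℕ) =
            (∑ l : Fin e, a l • π ^ (l : ℕ) - π ^ i * z) + π ^ i * z -
              ∑ l ∈ Finset.univ.erase j, a l • π ^ (l : ℕ) := by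
          rw [← Finset.add_sum_erase Finset.univ _ (Finset.mem_univ j)]
          ring
        have h5 : DivPow O π (m + 1) (a j • π ^ (j : ℕ)) := by
          rw [h4]
          exact (h3.add h2).sub h1
        have e1 : a j • π ^ (j : ℕ) = π ^ m * algebraMap F E (a j) := by
          rw [heq, Algebra.smul_def, mul_comm]
        rw [e1] at h5
        have h6 := mem_nonunits_of_divPow_succ hπ hπ0 h5
        exact hn (mem_nonunits_of_algebraMap_mem_nonunits hlies (ha j) h6)
  refine ⟨key i le_rfl, fun j hj b hb hzb => ?_⟩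
  have hie : i + 1 ≤ e := by
    have := j.2
    omega
  have h1 := hrest i j hie (key i le_rfl) hj
  have h3 : DivPow O π (i + 1) (∑ l : Fin e, a l • π ^ (l : ℕ) - π ^ i * z) :=
    DivPow.mono hπO hπ0 hie hX
  have h4 : π ^ i * (algebraMap F E (a j) - z) =
      (∑ l : Fin e, a l • π ^ (l : ℕ) - π ^ i * z) -
        ∑ l ∈ Finset.univ.erase j, a l • π ^ (l : ℕ) := by
    rw [← Finset.add_sum_erase Finset.univ _ (Finset.mem_univ j), hj, Algebra.smul_def]
    ring
  have h5 : DivPow O π (i + 1) (π ^ i * (algebraMap F E (a j) - z)) := by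
    rw [h4]
    exact h3.sub h1
  have h6 := mem_nonunits_of_divPow_succ hπ hπ0 h5
  have h7 : algebraMap F E (a j - b) ∈ O.nonunits := by
    have e2 : algebraMap F E (a j - b) = (algebraMap F E (a j) - z) + (z - algebraMap F E b) := by
      rw [map_sub]
      ring
    rw [e2]
    exact add_mem_nonunits O h6 hzb
  exact mem_nonunits_of_algebraMap_mem_nonunits hlies (sub_mem (ha j) hb) h7

end Digits

/-! ### the ramified situation -/

section Ram

variable {F E : Type*} [Field F] [Field E] [Algebra F E]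

/-- The ramified situation: uniformizer `t` of `O₀`, nonunits `π v` of `O v` with
`t ∈ π_v ^ e_v O_v`, and `∑ e_v = [E : F]` (which forces residue degree one, `π v` a uniformizer
and `e v` the ramification index). -/
structure RamData (O₀ : ValuationSubring F) {V : Type*} [Fintype V]
    (O : V → ValuationSubring E) where
  setup : Setup O₀ O
  t : F
  t_ne : t ≠ 0
  t_mem : t ∈ O₀.nonunits
  div_t : ∀ x ∈ O₀.nonunits, x / t ∈ O₀
  π : V → E
  π_ne : ∀ v, π v ≠ 0
  π_mem : ∀ v, π v ∈ (O v).nonunits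
  e : V → ℕ
  t_div : ∀ v, algebraMap F E t / π v ^ e v ∈ O v
  sum_e : ∑ v, e v = Module.finrank F E

variable {O₀ : ValuationSubring F} {V : Type*} [Fintype V] {O : V → ValuationSubring E}
  (D : RamData O₀ O)

/-- the index type of the integral basis -/
abbrev RamData.Idx : Type _ := Σ v, Fin (D.e v)

/-- the family `π_v ^ i * ε_v` -/
def RamData.y (ε : V → E) (r : D.Idx) : E := D.π r.1 ^ (r.2 : ℕ) * ε r.1

variable (ε : V → E) (hε1 : ∀ v, ε v - 1 ∈ (O v).nonunits)
  (hε2 : ∀ v w, w ≠ v → ∀ i : Fin (D.e v),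
    D.π v ^ (i : ℕ) / algebraMap F E D.t * ε v ∈ (O w).nonunits)

theorem RamData.exists_eps [DecidableEq V] : ∃ ε : V → E, (∀ v, ε v - 1 ∈ (O v).nonunits) ∧
    ∀ v w, w ≠ v → ∀ i : Fin (D.e v),
      D.π v ^ (i : ℕ) / algebraMap F E D.t * ε v ∈ (O w).nonunits := by
  choose ε h1 h2 using fun v => D.setup.exists_idem_univ v
    (fun i : Fin (D.e v) => D.π v ^ (i : ℕ) / algebraMap F E D.t)
  exact ⟨ε, h1, fun v w hw i => (h2 v w hw).2 i⟩

theorem RamData.t_ne' : algebraMap F E D.t ≠ 0 := (map_ne_zero _).mpr D.t_ne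

theorem RamData.t_mem' (v : V) : algebraMap F E D.t ∈ O v :=
  algebraMap_mem_of_mem (D.setup.lies v) (mem_of_mem_nonunits O₀ D.t_mem)

include hε2 in
/-- `y r / t` is integral at the other valuations -/
theorem RamData.y_div_mem {r : D.Idx} {w : V} (hw : w ≠ r.1) :
    D.y ε r / algebraMap F E D.t ∈ O w := by
  have h := mem_of_mem_nonunits (O w) (hε2 r.1 w hw r.2)
  have e1 : D.y ε r / algebraMap F E D.t =
      D.π r.1 ^ (r.2 : ℕ) / algebraMap F E D.t * ε r.1 := by
    unfold RamData.y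
    ring
  rw [e1]
  exact h

include hε1 hε2 in
/-- the `y r` are integral everywhere -/
theorem RamData.y_mem (r : D.Idx) (w : V) : D.y ε r ∈ O w := by
  by_cases hw : w = r.1
  · subst hw
    exact (O r.1).mul_mem _ _ ((O r.1).pow_mem (mem_of_mem_nonunits _ (D.π_mem r.1)) _)
      (mem_of_sub_one_mem_nonunits (O r.1) (hε1 r.1))
  · have h := D.y_div_mem ε hε2 (r := r) hw
    have e1 : D.y ε r = algebraMap F E D.t * (D.y ε r / algebraMap F E D.t) := by
      have := D.t_ne'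
      field_simp
    rw [e1]
    exact (O w).mul_mem _ _ (D.t_mem' w) h

include hε1 hε2 in
/-- **local expansion** at `w`: modulo `t O_w`, `(∑ d_r y_r) / ε_w ≡ ∑_j d_(w,j) π_w^j`. -/
theorem RamData.local_expansion [DecidableEq V] (w : V) (d : D.Idx → F) (hd : ∀ r, d r ∈ O₀) :
    ((∑ r, d r • D.y ε r) / ε w - ∑ j : Fin (D.e w), d ⟨w, j⟩ • D.π w ^ (j : ℕ)) /
      algebraMap F E D.t ∈ O w := by
  have hεw : ε w ≠ 0 := MultiVal.ne_zero_of_sub_one_mem (O w) (hε1 w)
  have ht := D.t_ne'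
  rw [Fintype.sum_sigma, ← Finset.add_sum_erase Finset.univ _ (Finset.mem_univ w)]
  have e1 : (∑ j : Fin (D.e w), d ⟨w, j⟩ • D.y ε ⟨w, j⟩) / ε w =
      ∑ j : Fin (D.e w), d ⟨w, j⟩ • D.π w ^ (j : ℕ) := by
    rw [Finset.sum_div]
    refine Finset.sum_congr rfl fun j _ => ?_
    unfold RamData.y
    rw [Algebra.smul_def, Algebra.smul_def]
    field_simp
  rw [add_div, e1, add_sub_cancel_left, Finset.sum_div, Finset.sum_div]
  refine sum_mem fun v hv => ?_
  have hvw : w ≠ v := (Finset.ne_of_mem_erase hv).symm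
  rw [Finset.sum_div, Finset.sum_div]
  refine sum_mem fun i _ => ?_
  have e2 : d ⟨v, i⟩ • D.y ε ⟨v, i⟩ / ε w / algebraMap F E D.t =
      algebraMap F E (d ⟨v, i⟩) * (D.y ε ⟨v, i⟩ / algebraMap F E D.t) * (ε w)⁻¹ := by
    rw [Algebra.smul_def]
    field_simp
  rw [e2]
  exact (O w).mul_mem _ _ ((O w).mul_mem _ _
    (algebraMap_mem_of_mem (D.setup.lies w) (hd _)) (D.y_div_mem ε hε2 (r := ⟨v, i⟩) hvw))
    (MultiVal.inv_mem_of_sub_one_mem (O w) (hε1 w))

include hε1 hε2 in
/-- **local digits** of a combination of the `y r` -/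
theorem RamData.local_digits [DecidableEq V] (w : V) (d : D.Idx → F) (hd : ∀ r, d r ∈ O₀)
    {i : ℕ} (hi : i ≤ D.e w) {z : E} (hz : z ∈ O w)
    (h : ((∑ r, d r • D.y ε r) / ε w - D.π w ^ i * z) / algebraMap F E D.t ∈ O w) :
    (∀ j : Fin (D.e w), (j : ℕ) < i → d ⟨w, j⟩ ∈ O₀.nonunits) ∧
      (∀ j : Fin (D.e w), (j : ℕ) = i → ∀ b ∈ O₀, z - algebraMap F E b ∈ (O w).nonunits →
        d ⟨w, j⟩ - b ∈ O₀.nonunits) := by
  refine digits (D.setup.lies w) D.t_ne D.div_t (D.π_mem w) (D.π_ne w) (D.t_div w)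
    (fun j => d ⟨w, j⟩) (fun j => hd _) hi hz ?_
  have h1 := D.local_expansion ε hε1 hε2 w d hd
  have e1 : (∑ j : Fin (D.e w), d ⟨w, j⟩ • D.π w ^ (j : ℕ) - D.π w ^ i * z) /
        algebraMap F E D.t =
      ((∑ r, d r • D.y ε r) / ε w - D.π w ^ i * z) / algebraMap F E D.t -
        ((∑ r, d r • D.y ε r) / ε w - ∑ j : Fin (D.e w), d ⟨w, j⟩ • D.π w ^ (j : ℕ)) /
          algebraMap F E D.t := by
    ring
  rw [e1]
  exact sub_mem h h1

include hε1 hε2 in
/-- **core**: a combination with coefficients in `O₀` lying in `t • ⋂ O v` has all its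
coefficients in `𝔪₀`. -/
theorem RamData.coeff_mem_nonunits [DecidableEq V] (d : D.Idx → F) (hd : ∀ r, d r ∈ O₀)
    (h : ∀ w, (∑ r, d r • D.y ε r) / algebraMap F E D.t ∈ O w) : ∀ r, d r ∈ O₀.nonunits := by
  rintro ⟨w, j⟩
  refine (D.local_digits ε hε1 hε2 w d hd (i := D.e w) le_rfl (z := 0) (O w).zero_mem ?_).1 j j.2
  rw [mul_zero, sub_zero]
  have e1 : (∑ r, d r • D.y ε r) / ε w / algebraMap F E D.t =
      (∑ r, d r • D.y ε r) / algebraMap F E D.t * (ε w)⁻¹ := by
    ring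
  rw [e1]
  exact (O w).mul_mem _ _ (h w) (MultiVal.inv_mem_of_sub_one_mem (O w) (hε1 w))

include hε1 hε2 in
theorem RamData.linearIndependent_y [DecidableEq V] : LinearIndependent F (D.y ε) := by
  rw [Fintype.linearIndependent_iff]
  intro g hg
  by_contra hne
  push Not at hne
  obtain ⟨r₀, hr₀, hpiv⟩ := exists_pivot O₀ g hne
  have hsum : ∑ r, (g r / g r₀) • D.y ε r = 0 := by
    have h1 : ∑ r, (g r / g r₀) • D.y ε r = (g r₀)⁻¹ • ∑ r, g r • D.y ε r := by
      rw [Finset.smul_sum]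
      refine Finset.sum_congr rfl fun r _ => ?_
      rw [smul_smul, div_eq_inv_mul]
    rw [h1, hg, smul_zero]
  have h := D.coeff_mem_nonunits ε hε1 hε2 (fun r => g r / g r₀) hpiv
    (fun w => by rw [hsum, zero_div]; exact (O w).zero_mem) r₀
  rw [div_self hr₀] at h
  exact one_notMem_nonunits O₀ h

include hε1 hε2 in
/-- **the integral basis** `π_v ^ i ε_v`: an `O₀`-basis of `⋂ O v`. -/
theorem RamData.exists_basis [DecidableEq V] [FiniteDimensional F E] :
    ∃ b : Module.Basis D.Idx F E, (∀ r, b r = D.y ε r) ∧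
      ∀ x : E, (∀ v, x ∈ O v) → ∀ r, b.repr x r ∈ O₀ := by
  classical
  have hli := D.linearIndependent_y ε hε1 hε2
  have hcard : Fintype.card D.Idx = Module.finrank F E := by
    rw [Fintype.card_sigma]
    simp only [Fintype.card_fin]
    exact D.sum_e
  have : Nonempty D.Idx := Fintype.card_pos_iff.1 (hcard ▸ Module.finrank_pos)
  set b := basisOfLinearIndependentOfCardEqFinrank hli hcard with hb
  have hby : ∀ r, b r = D.y ε r := fun r => by
    rw [hb, coe_basisOfLinearIndependentOfCardEqFinrank]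
  have hrepr : ∀ x : E, ∑ r, b.repr x r • D.y ε r = x := by
    intro x
    conv_rhs => rw [← b.sum_repr x]
    exact Finset.sum_congr rfl fun r _ => by rw [hby]
  refine ⟨b, hby, fun x hx => ?_⟩
  by_contra hne
  push Not at hne
  obtain ⟨r₁, hr₁⟩ := hne
  have hex : ∃ r, b.repr x r ≠ 0 := ⟨r₁, fun h => hr₁ (h ▸ O₀.zero_mem)⟩
  obtain ⟨r₀, hr₀, hpiv⟩ := exists_pivot O₀ (fun r => b.repr x r) hex
  have hr₀' : b.repr x r₀ ∉ O₀ := by
    intro h
    apply hr₁
    have h1 : b.repr x r₁ = (b.repr x r₁ / b.repr x r₀) * b.repr x r₀ := by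
      rw [div_mul_cancel₀ _ hr₀]
    rw [h1]
    exact O₀.mul_mem _ _ (hpiv r₁) h
  have hinv : (b.repr x r₀)⁻¹ ∈ O₀.nonunits := by
    rw [mem_nonunits_iff_inv_notMem O₀ (inv_ne_zero hr₀), inv_inv]
    exact hr₀'
  have hsum : ∑ r, (b.repr x r / b.repr x r₀) • D.y ε r = (b.repr x r₀)⁻¹ • x := by
    have h1 : ∑ r, (b.repr x r / b.repr x r₀) • D.y ε r =
        (b.repr x r₀)⁻¹ • ∑ r, b.repr x r • D.y ε r := by
      rw [Finset.smul_sum]
      refine Finset.sum_congr rfl fun r _ => ?_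
      rw [smul_smul, div_eq_inv_mul]
    rw [h1, hrepr]
  have h := D.coeff_mem_nonunits ε hε1 hε2 (fun r => b.repr x r / b.repr x r₀) hpiv
    (fun w => by
      rw [hsum]
      have ht := D.t_ne'
      have e1 : (b.repr x r₀)⁻¹ • x / algebraMap F E D.t =
          algebraMap F E ((b.repr x r₀)⁻¹ / D.t) * x := by
        rw [Algebra.smul_def, map_div₀]
        field_simp
      rw [e1]
      exact (O w).mul_mem _ _
        (algebraMap_mem_of_mem (D.setup.lies w) (D.div_t _ hinv)) (hx w)) r₀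
  rw [div_self hr₀] at h
  exact one_notMem_nonunits O₀ h

include hε1 hε2 in
/-- **the matrix of `g` is triangular modulo `𝔪₀`** with diagonal entries `a_v`. -/
theorem RamData.matrix_entry [DecidableEq V] (b : Module.Basis D.Idx F E)
    (hb : ∀ r, b r = D.y ε r) (hint : ∀ x : E, (∀ v, x ∈ O v) → ∀ r, b.repr x r ∈ O₀)
    {g : E} (hg : ∀ v, g ∈ O v) (a : V → F) (ha : ∀ v, a v ∈ O₀)
    (hga : ∀ v, g - algebraMap F E (a v) ∈ (O v).nonunits) (r c : D.Idx) :
    (r ≠ c → (r.2 : ℕ) ≤ (c.2 : ℕ) → b.repr (g * b c) r ∈ O₀.nonunits) ∧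
      (b.repr (g * b c) c - a c.1 ∈ O₀.nonunits) := by
  classical
  have hxmem : ∀ v, g * b c ∈ O v := fun v => by
    rw [hb]
    exact (O v).mul_mem _ _ (hg v) (D.y_mem ε hε1 hε2 c v)
  have hd := hint _ hxmem
  have hsum : ∑ r, b.repr (g * b c) r • D.y ε r = g * b c := by
    conv_rhs => rw [← b.sum_repr (g * b c)]
    exact Finset.sum_congr rfl fun r _ => by rw [hb r]
  have ht := D.t_ne'
  -- the column `c`, at the place `c.1`
  have hsame := D.local_digits ε hε1 hε2 c.1 (fun r => b.repr (g * b c) r) hd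
    (i := (c.2 : ℕ)) (le_of_lt c.2.2) (z := g) (hg c.1) (by
      rw [hsum, hb]
      have hεc : ε c.1 ≠ 0 := MultiVal.ne_zero_of_sub_one_mem (O c.1) (hε1 c.1)
      have e1 : g * D.y ε c / ε c.1 - D.π c.1 ^ (c.2 : ℕ) * g = 0 := by
        unfold RamData.y
        field_simp
        ring
      rw [e1, zero_div]
      exact (O c.1).zero_mem)
  -- at another place `w`
  have hother : ∀ w, w ≠ c.1 → ∀ j : Fin (D.e w), b.repr (g * b c) ⟨w, j⟩ ∈ O₀.nonunits := by
    intro w hw j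
    refine (D.local_digits ε hε1 hε2 w (fun r => b.repr (g * b c) r) hd (i := D.e w) le_rfl
      (z := 0) (O w).zero_mem ?_).1 j j.2
    rw [hsum, hb, mul_zero, sub_zero]
    have e1 : g * D.y ε c / ε w / algebraMap F E D.t =
        g * (D.y ε c / algebraMap F E D.t) * (ε w)⁻¹ := by
      ring
    rw [e1]
    exact (O w).mul_mem _ _ ((O w).mul_mem _ _ (hg w) (D.y_div_mem ε hε2 (r := c) hw))
      (MultiVal.inv_mem_of_sub_one_mem (O w) (hε1 w))
  refine ⟨fun hrc hle => ?_, ?_⟩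
  · obtain ⟨w, j⟩ := r
    obtain ⟨v, i⟩ := c
    by_cases hwv : w = v
    · subst hwv
      have hji : (j : ℕ) ≠ (i : ℕ) := fun h => hrc (by rw [Fin.ext h])
      exact hsame.1 j (lt_of_le_of_ne hle hji)
    · exact hother w hwv j
  · exact hsame.2 c.2 rfl (a c.1) (ha c.1) (hga c.1)

/-- **The ramified norm-residue formula** (residue degree one): for `g ∈ ⋂ O v` with
`g ≡ a_v mod 𝔪_v`, `a_v ∈ O₀`: `N(g) ∈ O₀` and `N(g) ≡ ∏ a_v ^ e_v mod 𝔪₀`. -/
theorem RamData.norm_sub_prod_mem_nonunits [FiniteDimensional F E]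
    {g : E} (hg : ∀ v, g ∈ O v) (a : V → F) (ha : ∀ v, a v ∈ O₀)
    (hga : ∀ v, g - algebraMap F E (a v) ∈ (O v).nonunits) :
    Algebra.norm F g ∈ O₀ ∧ Algebra.norm F g - ∏ v, a v ^ D.e v ∈ O₀.nonunits := by
  classical
  obtain ⟨ε, hε1, hε2⟩ := D.exists_eps
  obtain ⟨b, hb, hint⟩ := D.exists_basis ε hε1 hε2
  have hent := D.matrix_entry ε hε1 hε2 b hb hint hg a ha hga
  have hxmem : ∀ c v, g * b c ∈ O v := fun c v => by
    rw [hb]
    exact (O v).mul_mem _ _ (hg v) (D.y_mem ε hε1 hε2 c v)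
  -- the matrix over `O₀`
  let M₀ : Matrix D.Idx D.Idx O₀ := fun r c => ⟨b.repr (g * b c) r, hint _ (hxmem c) r⟩
  have hM : Algebra.leftMulMatrix b g = O₀.subtype.mapMatrix M₀ := by
    ext r c
    rw [Algebra.leftMulMatrix_eq_repr_mul]
    rfl
  have hnorm : Algebra.norm F g = ((M₀.det : O₀) : F) := by
    rw [Algebra.norm_eq_matrix_det b g, hM, ← RingHom.map_det]
    rfl
  refine ⟨hnorm ▸ (M₀.det).2, ?_⟩
  -- reduction modulo the maximal ideal
  let I := IsLocalRing.maximalIdeal O₀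
  let ρ : O₀ →+* O₀ ⧸ I := Ideal.Quotient.mk I
  have hρ : ∀ x : O₀, ρ x = 0 ↔ (x : F) ∈ O₀.nonunits := fun x => by
    rw [Ideal.Quotient.eq_zero_iff_mem, ValuationSubring.coe_mem_nonunits_iff]
  have hdet : ρ M₀.det = ∏ c : D.Idx, ρ ⟨a c.1, ha c.1⟩ := by
    rw [RingHom.map_det]
    rw [det_eq_prod_diag_of_level (ρ.mapMatrix M₀) (fun r => (r.2 : ℕ)) (fun r c hrc hle => by
      show ρ (M₀ r c) = 0
      rw [hρ]
      exact (hent r c).1 hrc hle)]
    refine Finset.prod_congr rfl fun c _ => ?_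
    show ρ (M₀ c c) = ρ ⟨a c.1, ha c.1⟩
    rw [← sub_eq_zero, ← map_sub, hρ]
    exact (hent c c).2
  have hprod : ∏ c : D.Idx, ρ ⟨a c.1, ha c.1⟩ = ρ (∏ v, (⟨a v, ha v⟩ : O₀) ^ D.e v) := by
    rw [Fintype.prod_sigma, map_prod]
    refine Finset.prod_congr rfl fun v _ => ?_
    show ∏ _y : Fin (D.e v), ρ ⟨a v, ha v⟩ = _
    rw [Finset.prod_const, Finset.card_univ, Fintype.card_fin, map_pow]
  have hfinal : ρ (M₀.det - ∏ v, (⟨a v, ha v⟩ : O₀) ^ D.e v) = 0 := by
    rw [map_sub, hdet, hprod, sub_self]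
  rw [hρ] at hfinal
  rw [hnorm]
  have e1 : ((M₀.det - ∏ v, (⟨a v, ha v⟩ : O₀) ^ D.e v : O₀) : F) =
      (M₀.det : F) - ∏ v, a v ^ D.e v := by
    push_cast
    rfl
  rw [← e1]
  exact hfinal

end Ram

end Fermat.Agent.BR3.RamNormResidue
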