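import Mathlib
import Fermat.Agent.BR3.RamNormResidue
import Fermat.Agent.Red.Values
import Fermat.Agent.X0.Alg.PlaceBasic
import Fermat.Agent.Jac.CorrComm
import Fermat.Prelude.Def_AlgebraicCurve_Correspondence

/-!
# Program C (S36), node (VALUE-NORM): the value of a norm at a place

`F'/F` a finite extension of function fields over `K` with the fundamental identity, `v` a place of
`F` of degree one all of whose extensions `w` have degree one.  If `g ∈ F'` has the value `c w` at
every `w | v`, then `N_{F'/F} g` has the value `∏_{w | v} c w ^ e(w | v)` at `v`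
(`isValueAt_norm`; `isValueAt_normAlong` for a `K`-algebra map `ψ : L₀ →ₐ[K] L`).

Only the fundamental identity is used (no separability, no norm formula for orders).
-/

set_option autoImplicit false
set_option linter.unusedSectionVars false
set_option linter.unusedVariables false
set_option linter.style.haveILetI false

namespace Fermat.Agent.BR3.ValueNorm

open AlgebraicCurve Fermat.Agent.Val Fermat.Agent.BR.TwoVal Fermat.Agent.BR3.MultiVal
  Fermat.Agent.BR3.RamNormResidue Fermat.Agent.Red Fermat.Agent.X0

/-! ### places as rank one valuation subrings -/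

section Place

variable {K F : Type*} [Field K] [Field F] [Algebra K F] (v : Place K F)

theorem mem_nonunits_iff_ord {x : F} :
    x ∈ v.toValuationSubring.nonunits ↔ x = 0 ∨ 0 < v.ord x := by
  rcases eq_or_ne x 0 with rfl | hx
  · simp
  · rw [mem_nonunits_iff_inv_notMem _ hx, Place.mem_iff_ord_nonneg, Place.ord_inv]
    constructor
    · intro h
      right
      omega
    · rintro (h | h)
      · exact absurd h hx
      · omega

theorem isValueAt_iff_mem_nonunits {g : F} {c : K} :
    IsValueAt v g c ↔ g - algebraMap K F c ∈ v.toValuationSubring.nonunits := by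
  rw [isValueAt_iff_adicValuation, adicValuation_lt_one_iff, mem_nonunits_iff_ord]

theorem exists_ord_eq_one : ∃ t : F, v.ord t = 1 := by
  obtain ⟨π, hπ⟩ := IsDiscreteValuationRing.exists_irreducible v.toValuationSubring
  exact ⟨(π : F), v.ord_coe_irreducible hπ⟩

theorem ord_div {x y : F} (hx : x ≠ 0) (hy : y ≠ 0) : v.ord (x / y) = v.ord x - v.ord y := by
  rw [div_eq_mul_inv, v.ord_mul hx (inv_ne_zero hy), v.ord_inv]
  ring

theorem arch_place : Arch v.toValuationSubring := by
  intro x u hu hu0
  rcases eq_or_ne x 0 with rfl | hx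
  · exact ⟨0, by simp⟩
  have hupos : 0 < v.ord u := ((mem_nonunits_iff_ord v).mp hu).resolve_left hu0
  refine ⟨(-v.ord x).toNat, ?_⟩
  rw [Place.mem_iff_ord_nonneg, v.ord_mul hx (pow_ne_zero _ hu0), Place.ord_pow]
  have h1 : -v.ord x ≤ ((-v.ord x).toNat : ℤ) := Int.self_le_toNat _
  have h2 : (0 : ℤ) ≤ ((-v.ord x).toNat : ℤ) := Int.natCast_nonneg _
  nlinarith

variable {v} in
theorem place_sep {w : Place K F} (h : v ≠ w) :
    ∃ e : F, e ∈ v.toValuationSubring.nonunits ∧ 1 - e ∈ w.toValuationSubring.nonunits := by
  have hne : ∀ P : Place K F, ∃ y : F, y ∉ P.toValuationSubring := fun P => by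
    by_contra hcon
    push Not at hcon
    exact P.ne_top' (SetLike.ext fun y => ⟨fun _ => ValuationSubring.mem_top y, fun _ => hcon y⟩)
  refine exists_sep_of_not_le (fun hle => h ?_) (fun hle => h ?_)
  · exact Place.ext ((arch_place v).eq_of_le hle (hne w)).symm
  · exact Place.ext ((arch_place w).eq_of_le hle (hne v))

end Place

/-! ### the ramified situation over a place of degree one -/

section Ext

variable {K F F' : Type*} [Field K] [Field F] [Field F']
  [Algebra K F] [Algebra K F'] [Algebra F F'] [IsScalarTower K F F']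
  [Algebra.IsIntegral F F'] [HasPrincipalDivisors K F']

/-- The extensions of a place `v` of degree one, all of degree one, with the fundamental identity,
form a ramified situation with `e w = w.ramificationIndex F`. -/
theorem exists_ramData [FiniteDimensional F F'] [FundamentalIdentity K F F'] (v : Place K F)
    (hv : v.deg = 1) (hw : ∀ w ∈ v.fiber F', w.deg = 1) :
    ∃ D : RamData v.toValuationSubring
        (fun w : {w // w ∈ v.fiber F'} => w.1.toValuationSubring),
      ∀ w, D.e w = w.1.ramificationIndex F := by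
  classical
  obtain ⟨t, ht⟩ := exists_ord_eq_one v
  have ht0 : t ≠ 0 := by
    rintro rfl
    rw [Place.ord_zero] at ht
    exact absurd ht (by norm_num)
  choose π hπ using fun w : {w // w ∈ v.fiber F'} => exists_ord_eq_one w.1
  have hπ0 : ∀ w, π w ≠ 0 := fun w => by
    intro h
    have := hπ w
    rw [h, Place.ord_zero] at this
    exact absurd this (by norm_num)
  have hrestr : ∀ w : {w // w ∈ v.fiber F'}, w.1.restrict F = v := fun w =>
    Place.mem_fiber.mp w.2
  refine ⟨{
    setup := {
      lies := fun w => congrArg Place.toValuationSubring (hrestr w)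
      arch := fun w => arch_place w.1
      sep := fun w w' hww' => place_sep (fun h => hww' (Subtype.ext h)) }
    t := t
    t_ne := ht0
    t_mem := (mem_nonunits_iff_ord v).mpr (Or.inr (by omega))
    div_t := fun x hx => by
      rcases eq_or_ne x 0 with rfl | hx0
      · rw [zero_div]
        exact v.toValuationSubring.zero_mem
      · have hpos := ((mem_nonunits_iff_ord v).mp hx).resolve_left hx0
        rw [Place.mem_iff_ord_nonneg, ord_div v hx0 ht0]
        omega
    π := π
    π_ne := hπ0
    π_mem := fun w => (mem_nonunits_iff_ord w.1).mpr (Or.inr (by have := hπ w; omega))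
    e := fun w => w.1.ramificationIndex F
    t_div := fun w => by
      have ht' : algebraMap F F' t ≠ 0 := (map_ne_zero _).mpr ht0
      have h1 : w.1.ord (algebraMap F F' t) = w.1.ramificationIndex F := by
        rw [w.1.ord_restrict t, hrestr w, ht, mul_one]
      rw [Place.mem_iff_ord_nonneg, ord_div w.1 ht' (pow_ne_zero _ (hπ0 w)), h1, Place.ord_pow,
        hπ w]
      simp
    sum_e := by
      have h := FundamentalIdentity.sum_ramificationIndex_mul_deg (K := K) (F := F) (F' := F') v
      rw [hv] at h
      have h2 : ∑ w ∈ v.fiber F', ((w.ramificationIndex F : ℕ) : ℤ) * (w.deg : ℤ) =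
          ∑ w ∈ v.fiber F', ((w.ramificationIndex F : ℕ) : ℤ) :=
        Finset.sum_congr rfl fun w hw' => by rw [hw w hw']; simp
      rw [h2] at h
      have h3 : ((∑ w ∈ v.fiber F', w.ramificationIndex F : ℕ) : ℤ) =
          (Module.finrank F F' : ℤ) := by
        push_cast
        rw [h]
        simp
      have h4 : ∑ w ∈ v.fiber F', w.ramificationIndex F = Module.finrank F F' := by
        exact_mod_cast h3
      rw [← h4]
      exact Finset.sum_coe_sort (v.fiber F') (fun w => w.ramificationIndex F) }, fun w => rfl⟩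

/-- **The value of a norm** at a place of degree one: `N g (v) = ∏_{w | v} g(w) ^ e(w | v)`. -/
theorem isValueAt_norm [FiniteDimensional F F'] [FundamentalIdentity K F F'] (v : Place K F)
    (hv : v.deg = 1) (hw : ∀ w ∈ v.fiber F', w.deg = 1) (g : F') (c : Place K F' → K)
    (hc : ∀ w ∈ v.fiber F', IsValueAt w g (c w)) :
    IsValueAt v (Algebra.norm F g) (∏ w ∈ v.fiber F', c w ^ w.ramificationIndex F) := by
  classical
  obtain ⟨D, hD⟩ := exists_ramData v hv hw
  have hgmem : ∀ w : {w // w ∈ v.fiber F'}, g ∈ w.1.toValuationSubring := fun w =>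
    (hc w.1 w.2).mem
  have h := D.norm_sub_prod_mem_nonunits hgmem (fun w => algebraMap K F (c w.1))
    (fun w => v.algebraMap_mem' _) (fun w => by
      rw [← IsScalarTower.algebraMap_apply]
      exact (isValueAt_iff_mem_nonunits w.1).mp (hc w.1 w.2))
  rw [isValueAt_iff_mem_nonunits]
  have e1 : algebraMap K F (∏ w ∈ v.fiber F', c w ^ w.ramificationIndex F) =
      ∏ w : {w // w ∈ v.fiber F'}, algebraMap K F (c w.1) ^ D.e w := by
    rw [map_prod, ← Finset.prod_coe_sort (v.fiber F')]
    refine Finset.prod_congr rfl fun w _ => ?_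
    rw [map_pow, hD]
  rw [e1]
  exact h.2

end Ext

/-! ### the `Along` form -/

section Along

open Fermat.Agent.Jac

variable {k L₀ L : Type*} [Field k] [Field L₀] [Field L] [Algebra k L₀] [Algebra k L]
  [HasPrincipalDivisors k L]

/-- **The value of a norm along `ψ : L₀ →ₐ[k] L`** at a place `Q'` of degree one, `T` the (finite)
set of places of `L` over `Q'`, all of degree one:
`N_ψ g (Q') = ∏_{Q ∈ T} g(Q) ^ e(Q | Q')`. -/
theorem isValueAt_normAlong (ψ : L₀ →ₐ[k] L) (hψ : ψ.toRingHom.IsIntegral)
    (hfin : FiniteAlong k ψ) (hFI : FundamentalIdentityAlong k ψ hψ)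
    (Q' : Place k L₀) (hQ' : Q'.deg = 1) (T : Finset (Place k L))
    (hT : ∀ Q : Place k L, Q ∈ T ↔ Q.restrictAlong ψ hψ = Q') (hdeg : ∀ Q ∈ T, Q.deg = 1)
    (g : L) (c : Place k L → k) (hc : ∀ Q ∈ T, IsValueAt Q g (c Q)) :
    IsValueAt Q' (normAlong ψ g) (∏ Q ∈ T, c Q ^ Q.ramificationIndexAlong ψ) := by
  letI := algebraAlong ψ
  haveI := isScalarTower_along ψ
  haveI := isIntegral_along ψ hψ
  haveI : FiniteDimensional L₀ L := hfin
  haveI : FundamentalIdentity k L₀ L := hFI
  have hTf : T = Q'.fiber L := by
    ext Q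
    rw [hT, Place.mem_fiber]
    rfl
  subst hTf
  exact isValueAt_norm Q' hQ' hdeg g c hc

/-- unit form: if all the values are nonzero, so is the value of the norm -/
theorem isValueAt_normAlong_ne_zero (ψ : L₀ →ₐ[k] L) (T : Finset (Place k L))
    (c : Place k L → k) (hc0 : ∀ Q ∈ T, c Q ≠ 0) :
    ∏ Q ∈ T, c Q ^ Q.ramificationIndexAlong ψ ≠ 0 :=
  Finset.prod_ne_zero_iff.mpr fun Q hQ => pow_ne_zero _ (hc0 Q hQ)

end Along

end Fermat.Agent.BR3.ValueNorm
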