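import Mathlib
import Fermat.Agent.BR3.TorGlue
import Fermat.Agent.BR3.G5MultiTor
import Fermat.Agent.BR3.ValueNorm

/-!
# Program C (S36), node (C-VALPUSH): push-compatibility of the gluing (value) cochains

Setting of `BR3/G5MultiTor`: `S₀` a semistable setup on `F₀ / K`, `S` one on `F / K`,
`φ : F₀ →ₐ[K] F` finite, the components of `S` over the component `v` of `S₀` listed by
`w v : J v → ι` with residue extensions `ψ v j`, `NormRes` at every `v`.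

`(D, f, u)` a good representative (`TorGlue.IsGood`) of a class `z` with `φ_* z = 0`. Then the
weighted products of the values of `u` at the places over the two branches of a node `e'` of `S₀`

  `V₁ e' = ∏ j, ∏ Q | s₁ e', u(Q) ^ e(Q | s₁ e')`,  `V₂ e' = ∏ j, ∏ Q | s₂ e', u(Q) ^ e(Q | s₂ e')`

differ by a coboundary on the graph of `S₀` : `V₂ e' * κ₀ (src e') = V₁ e' * κ₀ (tgt e')`.
-/

set_option autoImplicit false
set_option linter.unusedVariables false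
set_option linter.unusedSectionVars false
set_option linter.style.haveILetI false

noncomputable section

namespace Fermat.Agent.BR3.ValPush

open AlgebraicCurve Fermat.Agent.Red Fermat.Agent.BR.SS Fermat.Agent.Jac Fermat.Agent.BR
  Fermat.Agent.BR2.Filt Fermat.Agent.BR2.G5 Fermat.Agent.BR3.FiltMaps Fermat.Agent.X0
  Fermat.Agent.BR3.G5Multi Fermat.Agent.BR3.G5MultiTor Fermat.Agent.BR3.TorGlue
  Fermat.Agent.BR3.ValueNorm

variable {K k : Type*} [Field K] [Field k] {A : ValuationSubring K} {π : A →+* k}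
  {F₀ F : Type*} [Field F₀] [Algebra K F₀] [Field F] [Algebra K F]
  {ι₀ : Type*} {Ft₀ : ι₀ → Type*} [∀ v, Field (Ft₀ v)] [∀ v, Algebra k (Ft₀ v)] {ν₀ : Type*}
  {ι : Type*} {Ft : ι → Type*} [∀ w, Field (Ft w)] [∀ w, Algebra k (Ft w)] {ν : Type*}
  {S₀ : SemistableSetup (F := F₀) A π ι₀ Ft₀ ν₀} {S : SemistableSetup (F := F) A π ι Ft ν}
  [HasPrincipalDivisors K F₀] [HasPrincipalDivisors K F]

/-- the push-forward of a divisor with smooth support has no support at the annular places, if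
`φ` maps places with smooth reduction to places with smooth reduction -/
theorem push_apply_eq_zero_of_not_smooth (φ : F₀ →ₐ[K] F) (hφ : φ.toRingHom.IsIntegral)
    (hsm : ∀ P : Place K F, S.IsSmoothPlace P → S₀.IsSmoothPlace (P.restrictAlong φ hφ))
    {D : Divisor K F} (hD : ∀ P ∈ D.support, S.IsSmoothPlace P)
    (P' : Place K F₀) (hP' : ¬ S₀.IsSmoothPlace P') :
    Divisor.pushforwardAlong φ hφ D P' = 0 := by
  classical
  letI := algebraAlong φ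
  haveI := isScalarTower_along φ
  haveI := isIntegral_along φ hφ
  show Divisor.pushforward F₀ D P' = 0
  rw [Divisor.pushforward_apply]
  refine Finset.sum_eq_zero fun P hP => ?_
  rw [if_neg]
  intro h
  exact hP' (h ▸ hsm P (hD P hP))

/-- the value of a finite product -/
theorem isValueAt_prod {L : Type*} [Field L] [Algebra k L] (Q : Place k L) {J : Type*}
    (s : Finset J) (g : J → L) (c : J → k) (h : ∀ j ∈ s, IsValueAt Q (g j) (c j)) :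
    IsValueAt Q (∏ j ∈ s, g j) (∏ j ∈ s, c j) := by
  classical
  induction s using Finset.induction_on with
  | empty => simpa using isValueAt_one Q
  | insert a s ha ih =>
    rw [Finset.prod_insert ha, Finset.prod_insert ha]
    exact (h a (Finset.mem_insert_self a s)).mul (ih fun j hj => h j (Finset.mem_insert_of_mem hj))

/-- **(C-VALPUSH), core.** -/
theorem exists_coboundary_core
    (hF₀ : RiemannPkg K F₀) (hFt₀ : ∀ v, RiemannPkg k (Ft₀ v))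
    (φ : F₀ →ₐ[K] F) (hφ : φ.toRingHom.IsIntegral) (hfin : FiniteAlong K φ)
    (hN : NormFormulaAlong K φ hfin)
    {J : ι₀ → Type*} [∀ v, Fintype (J v)] {w : ∀ v, J v → ι}
    {ψ : ∀ v (j : J v), Ft₀ v →ₐ[k] Ft (w v j)}
    (hNR : ∀ v, NormRes S₀ S φ v (w v) (ψ v)) (v₀ : ι₀)
    {m : ℕ} (hm : m ≠ 0) {z : Pic0 K F} {D : Divisor.degZero (K := K) (F := F)} {f : F}
    {u : ∀ w, Ft w} (hG : IsGood S m z D f u)
    (h0 : PicFunct.pic0Push φ hφ hfin hN z = 0)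
    (hsm : ∀ P : Place K F₀, ¬ S₀.IsSmoothPlace P →
      (PicFunct.degZeroPush φ hφ D : Divisor K F₀) P = 0)
    (V₁ V₂ : ν₀ → k) (hV₁0 : ∀ e', V₁ e' ≠ 0) (hV₂0 : ∀ e', V₂ e' ≠ 0)
    (hV₁ : ∀ e', IsValueAt (S₀.s₁ e')
      (∏ j, normAlong (ψ (S₀.src e') j) (u (w (S₀.src e') j))) (V₁ e'))
    (hV₂ : ∀ e', IsValueAt (S₀.s₂ e')
      (∏ j, normAlong (ψ (S₀.tgt e') j) (u (w (S₀.tgt e') j))) (V₂ e')) :
    ∃ κ₀ : ι₀ → k, (∀ v, κ₀ v ≠ 0) ∧
      ∀ e', V₂ e' * κ₀ (S₀.src e') = V₁ e' * κ₀ (S₀.tgt e') := by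
  classical
  obtain ⟨h, κ, hh, hκ, hNf, hdiv⟩ :=
    exists_fun_of_push_eq_zero hF₀ φ hφ hfin hN hm hG.isRep h0
  -- `h` has no zeros or poles at the annular places
  have hann : ∀ P, ¬ S₀.IsSmoothPlace P → P.ord h = 0 := fun P hP => by
    rw [← hdiv P, hsm P hP]
  -- residues of `h`
  choose τ hτ using fun v => exists_isResidue (S := S₀) v hh
  have hτ0 : ∀ v, τ v ≠ 0 := fun v => (hτ v).ne_zero
  -- `U_v = c'_v τ_v`
  have hU : ∀ v, ∃ c' : k, c' ≠ 0 ∧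
      ∏ j, normAlong (ψ v j) (u (w v j)) = algebraMap k (Ft₀ v) c' * τ v := by
    intro v
    choose c hc hres using fun j => hG.res (w v j)
    exact prod_norm_eq_const_mul_residue φ (hFt₀ v) (hNR v) hm
      (g := fun j => algebraMap k (Ft (w v j)) (c j) * u (w v j) ^ m) (u := fun j => u (w v j))
      (c := c) hres (fun j => rfl) hκ hNf (hτ v)
  choose c' hc'0 hc' using hU
  -- orders of `τ` at the branches
  have hord : ∀ v (Q : Place k (Ft₀ v)) (V : k), V ≠ 0 →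
      IsValueAt Q (∏ j, normAlong (ψ v j) (u (w v j))) V → Q.ord (τ v) = 0 := by
    intro v Q V hV0 hV
    have h1 := hV.ord_eq_zero hV0
    rw [hc' v, Q.ord_mul ((map_ne_zero _).mpr (hc'0 v)) (hτ0 v), Place.ord_algebraMap Q,
      zero_add] at h1
    exact h1
  have h1 : ∀ e, (S₀.s₁ e).ord (τ (S₀.src e)) = 0 := fun e => hord _ _ _ (hV₁0 e) (hV₁ e)
  have h2 : ∀ e, (S₀.s₂ e).ord (τ (S₀.tgt e)) = 0 := fun e => hord _ _ _ (hV₂0 e) (hV₂ e)
  obtain ⟨c₀, hc₀, hmem, hσ, hmatch⟩ := exists_unit_const_of_smooth hFt₀ v₀ hann τ hτ h1 h2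
  choose α hα0 hα using hσ
  refine ⟨fun v => c' v / α v, fun v => div_ne_zero (hc'0 v) (hα0 v), fun e' => ?_⟩
  obtain ⟨s, hs1, hs2⟩ := hmatch e'
  have hUσ : ∀ v, ∏ j, normAlong (ψ v j) (u (w v j)) =
      algebraMap k (Ft₀ v) (c' v / α v) * S₀.resF v (c₀ • h) := by
    intro v
    rw [hc' v, hα v, map_div₀]
    have : algebraMap k (Ft₀ v) (α v) ≠ 0 := (map_ne_zero _).mpr (hα0 v)
    field_simp
  have e1 : V₁ e' = c' (S₀.src e') / α (S₀.src e') * s := by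
    refine (hV₁ e').unique ?_
    rw [hUσ]
    exact (isValueAt_algebraMap _ _).mul hs1
  have e2 : V₂ e' = c' (S₀.tgt e') / α (S₀.tgt e') * s := by
    refine (hV₂ e').unique ?_
    rw [hUσ]
    exact (isValueAt_algebraMap _ _).mul hs2
  show V₂ e' * (c' (S₀.src e') / α (S₀.src e')) = V₁ e' * (c' (S₀.tgt e') / α (S₀.tgt e'))
  rw [e1, e2]
  ring

section Fibre

variable [∀ w, HasPrincipalDivisors k (Ft w)]

/-- the value of `∏ j, N_{ψ j} (g j)` at a place `Q'` of the component `v` of `S₀`, for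
functions `g j` regular at the places over `Q'` -/
theorem isValueAt_prod_norm_fiber {v : ι₀} (hFt₀v : RiemannPkg k (Ft₀ v))
    (hFt : ∀ w, RiemannPkg k (Ft w))
    {J : Type*} [Fintype J] {w : J → ι} {ψ : ∀ j, Ft₀ v →ₐ[k] Ft (w j)}
    (hψ : ∀ j, (ψ j).toRingHom.IsIntegral) (hfinψ : ∀ j, FiniteAlong k (ψ j))
    (hFIψ : ∀ j, FundamentalIdentityAlong k (ψ j) (hψ j))
    (Q' : Place k (Ft₀ v)) (g : ∀ j, Ft (w j))
    (hg : ∀ j, ∀ Q ∈ Place.fiberAlong (ψ j) (hψ j) Q', g j ∈ Q.toValuationSubring) :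
    IsValueAt Q' (∏ j, normAlong (ψ j) (g j))
      (∏ j, ∏ Q ∈ Place.fiberAlong (ψ j) (hψ j) Q',
        evalAt Q (g j) ^ Q.ramificationIndexAlong (ψ j)) := by
  refine isValueAt_prod Q' Finset.univ _ _ fun j _ => ?_
  exact isValueAt_normAlong (ψ j) (hψ j) (hfinψ j) (hFIψ j) Q' (hFt₀v.deg_one Q') _
    (fun Q => Place.mem_fiberAlong) (fun Q _ => (hFt _).deg_one Q) (g j)
    (fun Q => evalAt Q (g j))
    (fun Q hQ => isValueAt_evalAt Q ((hFt _).deg_one Q) (hg j Q hQ))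

/-- **(C-VALPUSH), fibre form.** -/
theorem exists_coboundary_of_push_eq_zero
    (hF₀ : RiemannPkg K F₀) (hFt₀ : ∀ v, RiemannPkg k (Ft₀ v)) (hFt : ∀ w, RiemannPkg k (Ft w))
    (φ : F₀ →ₐ[K] F) (hφ : φ.toRingHom.IsIntegral) (hfin : FiniteAlong K φ)
    (hN : NormFormulaAlong K φ hfin)
    {J : ι₀ → Type*} [∀ v, Fintype (J v)] {w : ∀ v, J v → ι}
    {ψ : ∀ v (j : J v), Ft₀ v →ₐ[k] Ft (w v j)}
    (hNR : ∀ v, NormRes S₀ S φ v (w v) (ψ v))
    (hψ : ∀ v j, (ψ v j).toRingHom.IsIntegral) (hfinψ : ∀ v j, FiniteAlong k (ψ v j))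
    (hFIψ : ∀ v j, FundamentalIdentityAlong k (ψ v j) (hψ v j)) (v₀ : ι₀)
    {m : ℕ} (hm : m ≠ 0) {z : Pic0 K F} {D : Divisor.degZero (K := K) (F := F)} {f : F}
    {u : ∀ w, Ft w} (hG : IsGood S m z D f u)
    (h0 : PicFunct.pic0Push φ hφ hfin hN z = 0)
    (hsm : ∀ P : Place K F, S.IsSmoothPlace P → S₀.IsSmoothPlace (P.restrictAlong φ hφ))
    (hbr : ∀ (v : ι₀) (Q' : Place k (Ft₀ v)), S₀.IsBranch ⟨v, Q'⟩ →
      ∀ (j : J v) (Q : Place k (Ft (w v j))), Q.restrictAlong (ψ v j) (hψ v j) = Q' →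
        S.IsBranch ⟨w v j, Q⟩) :
    ∃ κ₀ : ι₀ → k, (∀ v, κ₀ v ≠ 0) ∧ ∀ e' : ν₀,
      (∏ j, ∏ Q ∈ Place.fiberAlong (ψ (S₀.tgt e') j) (hψ (S₀.tgt e') j) (S₀.s₂ e'),
          evalAt Q (u (w (S₀.tgt e') j)) ^ Q.ramificationIndexAlong (ψ (S₀.tgt e') j)) *
        κ₀ (S₀.src e') =
      (∏ j, ∏ Q ∈ Place.fiberAlong (ψ (S₀.src e') j) (hψ (S₀.src e') j) (S₀.s₁ e'),
          evalAt Q (u (w (S₀.src e') j)) ^ Q.ramificationIndexAlong (ψ (S₀.src e') j)) *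
        κ₀ (S₀.tgt e') := by
  classical
  -- at the places over a branch point `u` is a unit
  have hval : ∀ (v : ι₀) (Q' : Place k (Ft₀ v)), S₀.IsBranch ⟨v, Q'⟩ → ∀ (j : J v),
      ∀ Q ∈ Place.fiberAlong (ψ v j) (hψ v j) Q',
        u (w v j) ∈ Q.toValuationSubring ∧ evalAt Q (u (w v j)) ≠ 0 := by
    intro v Q' hQ' j Q hQ
    have hb : S.IsBranch ⟨w v j, Q⟩ := hbr v Q' hQ' j Q (Place.mem_fiberAlong.mp hQ)
    have h0 : Q.ord (u (w v j)) = 0 := by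
      rw [hG.ord_u, S.push_apply_of_isBranch hG.smooth hb]
    have hmem : u (w v j) ∈ Q.toValuationSubring := Place.mem_of_ord_nonneg Q (le_of_eq h0.symm)
    exact ⟨hmem, value_ne_zero_of_ord_eq_zero (isValueAt_evalAt Q ((hFt _).deg_one Q) hmem)
      (hG.u_ne _) h0⟩
  refine exists_coboundary_core hF₀ hFt₀ φ hφ hfin hN hNR v₀ hm hG h0
    (fun P hP => push_apply_eq_zero_of_not_smooth φ hφ hsm hG.smooth P hP) _ _
    (fun e' => ?_) (fun e' => ?_) (fun e' => ?_) (fun e' => ?_)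
  · exact Finset.prod_ne_zero_iff.mpr fun j _ => Finset.prod_ne_zero_iff.mpr fun Q hQ =>
      pow_ne_zero _ (hval _ _ ⟨e', Or.inl rfl⟩ j Q hQ).2
  · exact Finset.prod_ne_zero_iff.mpr fun j _ => Finset.prod_ne_zero_iff.mpr fun Q hQ =>
      pow_ne_zero _ (hval _ _ ⟨e', Or.inr rfl⟩ j Q hQ).2
  · exact isValueAt_prod_norm_fiber (hFt₀ _) hFt (hψ _) (hfinψ _) (hFIψ _) (S₀.s₁ e')
      (fun j => u (w (S₀.src e') j)) (fun j Q hQ => (hval _ _ ⟨e', Or.inl rfl⟩ j Q hQ).1)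
  · exact isValueAt_prod_norm_fiber (hFt₀ _) hFt (hψ _) (hfinψ _) (hFIψ _) (S₀.s₂ e')
      (fun j => u (w (S₀.tgt e') j)) (fun j Q hQ => (hval _ _ ⟨e', Or.inr rfl⟩ j Q hQ).1)

/-- re-indexing of the product over the fibres by an enumeration of the points over `Q'` -/
theorem prod_fiber_eq_prod_enum {v : ι₀} {J : Type*} [Fintype J] {w : J → ι}
    {ψ : ∀ j, Ft₀ v →ₐ[k] Ft (w j)} (hψ : ∀ j, (ψ j).toRingHom.IsIntegral)
    (Q' : Place k (Ft₀ v)) {N : Type*} [Fintype N] (pt : N → Σ j, Place k (Ft (w j)))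
    (hinj : Function.Injective pt)
    (hpt : ∀ x : Σ j, Place k (Ft (w j)),
      x.2.restrictAlong (ψ x.1) (hψ x.1) = Q' ↔ ∃ n, pt n = x)
    (g : (Σ j, Place k (Ft (w j))) → k) :
    ∏ j, ∏ Q ∈ Place.fiberAlong (ψ j) (hψ j) Q', g ⟨j, Q⟩ = ∏ n, g (pt n) := by
  classical
  rw [← Finset.prod_sigma Finset.univ (fun j => Place.fiberAlong (ψ j) (hψ j) Q') (fun x => g x)]
  have himg : Finset.univ.sigma (fun j => Place.fiberAlong (ψ j) (hψ j) Q') =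
      Finset.univ.image pt := by
    ext x
    rw [Finset.mem_sigma, Finset.mem_image]
    constructor
    · rintro ⟨_, hx⟩
      obtain ⟨n, hn⟩ := (hpt x).mp (Place.mem_fiberAlong.mp hx)
      exact ⟨n, Finset.mem_univ _, hn⟩
    · rintro ⟨n, _, rfl⟩
      exact ⟨Finset.mem_univ _, Place.mem_fiberAlong.mpr ((hpt _).mpr ⟨n, rfl⟩)⟩
  rw [himg, Finset.prod_image (fun a _ b _ h => hinj h)]

/-- the value of `∏ j, N_{ψ j} (g j)` at `Q'`, the points over `Q'` enumerated by `pt` with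
ramification indices `wt` and values `c` -/
theorem isValueAt_prod_norm_enum {v : ι₀} (hFt₀v : RiemannPkg k (Ft₀ v))
    (hFt : ∀ w, RiemannPkg k (Ft w))
    {J : Type*} [Fintype J] {w : J → ι} {ψ : ∀ j, Ft₀ v →ₐ[k] Ft (w j)}
    (hψ : ∀ j, (ψ j).toRingHom.IsIntegral) (hfinψ : ∀ j, FiniteAlong k (ψ j))
    (hFIψ : ∀ j, FundamentalIdentityAlong k (ψ j) (hψ j))
    (Q' : Place k (Ft₀ v)) (g : ∀ j, Ft (w j))
    {N : Type*} [Fintype N] (pt : N → Σ j, Place k (Ft (w j)))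
    (hinj : Function.Injective pt)
    (hpt : ∀ x : Σ j, Place k (Ft (w j)),
      x.2.restrictAlong (ψ x.1) (hψ x.1) = Q' ↔ ∃ n, pt n = x)
    (wt : N → ℕ) (hwt : ∀ n, (pt n).2.ramificationIndexAlong (ψ (pt n).1) = wt n)
    (c : N → k) (hc : ∀ n, IsValueAt (pt n).2 (g (pt n).1) (c n)) :
    IsValueAt Q' (∏ j, normAlong (ψ j) (g j)) (∏ n, c n ^ wt n) := by
  have h1 := isValueAt_prod_norm_fiber hFt₀v hFt hψ hfinψ hFIψ Q' g (fun j Q hQ => by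
    obtain ⟨n, hn⟩ := (hpt ⟨j, Q⟩).mp (Place.mem_fiberAlong.mp hQ)
    have h2 := (hc n).mem
    rw [hn] at h2
    exact h2)
  have h2 : ∏ n, evalAt (pt n).2 (g (pt n).1) ^ (pt n).2.ramificationIndexAlong (ψ (pt n).1) =
      ∏ n, c n ^ wt n :=
    Finset.prod_congr rfl fun n _ => by rw [evalAt_eq_of_isValueAt (hc n), hwt n]
  have h3 : ∏ j, ∏ Q ∈ Place.fiberAlong (ψ j) (hψ j) Q',
      evalAt Q (g j) ^ Q.ramificationIndexAlong (ψ j) = ∏ n, c n ^ wt n := by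
    rw [← h2]
    exact prod_fiber_eq_prod_enum hψ Q' pt hinj hpt
      (fun x => evalAt x.2 (g x.1) ^ x.2.ramificationIndexAlong (ψ x.1))
  rwa [h3] at h1

/-- **(C-VALPUSH), enumerated form.** -/
theorem exists_coboundary_of_push_eq_zero_enum
    (hF₀ : RiemannPkg K F₀) (hFt₀ : ∀ v, RiemannPkg k (Ft₀ v)) (hFt : ∀ w, RiemannPkg k (Ft w))
    (φ : F₀ →ₐ[K] F) (hφ : φ.toRingHom.IsIntegral) (hfin : FiniteAlong K φ)
    (hN : NormFormulaAlong K φ hfin)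
    {J : ι₀ → Type*} [∀ v, Fintype (J v)] {w : ∀ v, J v → ι}
    {ψ : ∀ v (j : J v), Ft₀ v →ₐ[k] Ft (w v j)}
    (hNR : ∀ v, NormRes S₀ S φ v (w v) (ψ v))
    (hψ : ∀ v j, (ψ v j).toRingHom.IsIntegral) (hfinψ : ∀ v j, FiniteAlong k (ψ v j))
    (hFIψ : ∀ v j, FundamentalIdentityAlong k (ψ v j) (hψ v j)) (v₀ : ι₀)
    {m : ℕ} (hm : m ≠ 0) {z : Pic0 K F} {D : Divisor.degZero (K := K) (F := F)} {f : F}
    {u : ∀ w, Ft w} (hG : IsGood S m z D f u)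
    (h0 : PicFunct.pic0Push φ hφ hfin hN z = 0)
    (hsm : ∀ P : Place K F, S.IsSmoothPlace P → S₀.IsSmoothPlace (P.restrictAlong φ hφ))
    {N₁ N₂ : ν₀ → Type*} [∀ e', Fintype (N₁ e')] [∀ e', Fintype (N₂ e')]
    (pt₁ : ∀ e', N₁ e' → Σ j : J (S₀.src e'), Place k (Ft (w (S₀.src e') j)))
    (pt₂ : ∀ e', N₂ e' → Σ j : J (S₀.tgt e'), Place k (Ft (w (S₀.tgt e') j)))
    (hinj₁ : ∀ e', Function.Injective (pt₁ e')) (hinj₂ : ∀ e', Function.Injective (pt₂ e'))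
    (hpt₁ : ∀ e' (x : Σ j : J (S₀.src e'), Place k (Ft (w (S₀.src e') j))),
      x.2.restrictAlong (ψ _ x.1) (hψ _ x.1) = S₀.s₁ e' ↔ ∃ n, pt₁ e' n = x)
    (hpt₂ : ∀ e' (x : Σ j : J (S₀.tgt e'), Place k (Ft (w (S₀.tgt e') j))),
      x.2.restrictAlong (ψ _ x.1) (hψ _ x.1) = S₀.s₂ e' ↔ ∃ n, pt₂ e' n = x)
    (wt₁ : ∀ e', N₁ e' → ℕ) (wt₂ : ∀ e', N₂ e' → ℕ)
    (hwt₁ : ∀ e' n, (pt₁ e' n).2.ramificationIndexAlong (ψ _ (pt₁ e' n).1) = wt₁ e' n)
    (hwt₂ : ∀ e' n, (pt₂ e' n).2.ramificationIndexAlong (ψ _ (pt₂ e' n).1) = wt₂ e' n)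
    (c₁ : ∀ e', N₁ e' → k) (c₂ : ∀ e', N₂ e' → k)
    (hc₁0 : ∀ e' n, c₁ e' n ≠ 0) (hc₂0 : ∀ e' n, c₂ e' n ≠ 0)
    (hc₁ : ∀ e' n, IsValueAt (pt₁ e' n).2 (u (w _ (pt₁ e' n).1)) (c₁ e' n))
    (hc₂ : ∀ e' n, IsValueAt (pt₂ e' n).2 (u (w _ (pt₂ e' n).1)) (c₂ e' n)) :
    ∃ κ₀ : ι₀ → k, (∀ v, κ₀ v ≠ 0) ∧ ∀ e' : ν₀,
      (∏ n, c₂ e' n ^ wt₂ e' n) * κ₀ (S₀.src e') =
        (∏ n, c₁ e' n ^ wt₁ e' n) * κ₀ (S₀.tgt e') := by
  refine exists_coboundary_core hF₀ hFt₀ φ hφ hfin hN hNR v₀ hm hG h0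
    (fun P hP => push_apply_eq_zero_of_not_smooth φ hφ hsm hG.smooth P hP) _ _
    (fun e' => ?_) (fun e' => ?_) (fun e' => ?_) (fun e' => ?_)
  · exact Finset.prod_ne_zero_iff.mpr fun n _ => pow_ne_zero _ (hc₁0 e' n)
  · exact Finset.prod_ne_zero_iff.mpr fun n _ => pow_ne_zero _ (hc₂0 e' n)
  · exact isValueAt_prod_norm_enum (hFt₀ _) hFt (hψ _) (hfinψ _) (hFIψ _) (S₀.s₁ e')
      (fun j => u (w (S₀.src e') j)) (pt₁ e') (hinj₁ e') (hpt₁ e') (wt₁ e') (hwt₁ e') (c₁ e')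
      (hc₁ e')
  · exact isValueAt_prod_norm_enum (hFt₀ _) hFt (hψ _) (hfinψ _) (hFIψ _) (S₀.s₂ e')
      (fun j => u (w (S₀.tgt e') j)) (pt₂ e') (hinj₂ e') (hpt₂ e') (wt₂ e') (hwt₂ e') (c₂ e')
      (hc₂ e')

end Fibre

/-! ### the shapes of `GraphKillGen` -/

section Shapes

variable {N : Type*} [Fintype N]

/-- from `k` to `kˣ`: the weighted product of the ratios is the ratio of the constants -/
theorem units_prod_pow_eq_div (cH cV : N → k) (hH : ∀ n, cH n ≠ 0) (hV : ∀ n, cV n ≠ 0)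
    (wt : N → ℕ) {κH κV : k} (hκH : κH ≠ 0) (hκV : κV ≠ 0)
    (h : (∏ n, cH n ^ wt n) * κV = (∏ n, cV n ^ wt n) * κH) :
    ∏ n, (Units.mk0 (cH n) (hH n) / Units.mk0 (cV n) (hV n)) ^ wt n =
      Units.mk0 κH hκH / Units.mk0 κV hκV := by
  have hPV : (∏ n, cV n ^ wt n) ≠ 0 :=
    Finset.prod_ne_zero_iff.mpr fun n _ => pow_ne_zero _ (hV n)
  apply Units.ext
  rw [Units.val_div_eq_div_val, Units.val_mk0, Units.val_mk0, Units.coe_prod]
  have h1 : ∀ n, ((Units.mk0 (cH n) (hH n) / Units.mk0 (cV n) (hV n)) ^ wt n : kˣ).val =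
      cH n ^ wt n / cV n ^ wt n := fun n => by
    rw [Units.val_pow_eq_pow_val, Units.val_div_eq_div_val, Units.val_mk0, Units.val_mk0, div_pow]
  rw [Finset.prod_congr rfl fun n _ => h1 n, Finset.prod_div_distrib, div_eq_div_iff hPV hκV,
    mul_comm κH]
  exact h

/-- shape (ha1)/(hb1) : one node above, weight `q` -/
theorem units_pow_eq_div {cH cV : k} (hH : cH ≠ 0) (hV : cV ≠ 0) (q : ℕ)
    {κH κV : k} (hκH : κH ≠ 0) (hκV : κV ≠ 0) (h : cH ^ q * κV = cV ^ q * κH) :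
    (Units.mk0 cH hH / Units.mk0 cV hV) ^ q = Units.mk0 κH hκH / Units.mk0 κV hκV := by
  have h1 := units_prod_pow_eq_div (N := Unit) (fun _ => cH) (fun _ => cV) (fun _ => hH)
    (fun _ => hV) (fun _ => q) hκH hκV (by simpa using h)
  simpa using h1

/-- shape (ha2)/(hb2) : one node of weight `1` and the nodes `s : N` of weight `d` above -/
theorem units_mul_prod_pow_eq_div {c3H c3V : k} (h3H : c3H ≠ 0) (h3V : c3V ≠ 0)
    (cH cV : N → k) (hH : ∀ n, cH n ≠ 0) (hV : ∀ n, cV n ≠ 0) (d : ℕ)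
    {κH κV : k} (hκH : κH ≠ 0) (hκV : κV ≠ 0)
    (h : (c3H * ∏ n, cH n ^ d) * κV = (c3V * ∏ n, cV n ^ d) * κH) :
    Units.mk0 c3H h3H / Units.mk0 c3V h3V *
        (∏ n, Units.mk0 (cH n) (hH n) / Units.mk0 (cV n) (hV n)) ^ d =
      Units.mk0 κH hκH / Units.mk0 κV hκV := by
  have h1 := units_prod_pow_eq_div (N := Option N) (fun o => o.elim c3H cH)
    (fun o => o.elim c3V cV) (fun o => by cases o <;> simp [h3H, hH])
    (fun o => by cases o <;> simp [h3V, hV]) (fun o => o.elim 1 fun _ => d) hκH hκV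
    (by simpa [Fintype.prod_option] using h)
  rw [Fintype.prod_option] at h1
  simpa [Finset.prod_pow] using h1

end Shapes

end Fermat.Agent.BR3.ValPush
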