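import Mathlib
import Fermat.Agent.BR3.GeoTor
import Fermat.Agent.BR3.ValPush

/-!
# Program C (S36), node A5b, step (H3): the push-forward shapes of the graph lemma

Complement of `BR3/GeoTor`.  For a node `e''` of the upper setup `S` with orientation flag `hor`:

* `horBranch S hor e''`, `verBranch S hor e''` : the branch points of the node on its horizontal
  resp. vertical end, as points `Σ v, Place k (Ft v)` of the special fibre;
* `valH hor av bv e''`, `valV hor av bv e''` : the values of a good representative there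
  (`isValueAt_horBranch`, `isValueAt_verBranch`), `xi = valH / valV` (`xi_eq`);
* `isValueAt_of_sigma_eq` : transport of a value along an equality of points of the special fibre
  (to feed `ValPush.exists_coboundary_of_push_eq_zero_enum` with `c₁`, `c₂` := `valH`, `valV`);
* `push_shapes` : the two relations in `k` produced by `ValPush` at the two lower nodes over a
  crossing `e` (`rW` : the wild node, one node above of weight `q`; `rT` : the tame node, one node of
  weight `1` and the nodes `nk e s` of weight `d` above) give `(ha1)`, `(ha2)` of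
  `GeoTor.nsmul_eq_zero_of_graph` (and, with the roles of `nW`, `nT` exchanged and `vE ∘ φ`,
  `(hb1)`, `(hb2)`);
* `hcoch_of_parts` : assembly of the existential `hcoch` of `GeoTor.h3_of_graph`.
-/

set_option autoImplicit false
set_option linter.unusedVariables false
set_option linter.unusedSectionVars false

namespace Fermat.Agent.BR3.GeoTorPush

open AlgebraicCurve Fermat.Agent.Red Fermat.Agent.BR.SS Fermat.Agent.BR2.Filt
  Fermat.Agent.BR3.TorGlue Fermat.Agent.X0 Fermat.Agent.BR3.GeoTor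

variable {K F k : Type*} [Field K] [Field F] [Algebra K F] [Field k]
  {A : ValuationSubring K} {π : A →+* k} {ι : Type*} {Ft : ι → Type*}
  [∀ v, Field (Ft v)] [∀ v, Algebra k (Ft v)] {ν : Type*}
  {S : SemistableSetup (F := F) A π ι Ft ν}

/-- the branch point of a node on its horizontal end -/
def horBranch (S : SemistableSetup (F := F) A π ι Ft ν) (hor : ν → Bool) (e : ν) :
    Σ v, Place k (Ft v) :=
  if hor e then ⟨S.src e, S.s₁ e⟩ else ⟨S.tgt e, S.s₂ e⟩

/-- the branch point of a node on its vertical end -/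
def verBranch (S : SemistableSetup (F := F) A π ι Ft ν) (hor : ν → Bool) (e : ν) :
    Σ v, Place k (Ft v) :=
  if hor e then ⟨S.tgt e, S.s₂ e⟩ else ⟨S.src e, S.s₁ e⟩

theorem horBranch_fst (hor : ν → Bool) (e : ν) : (horBranch S hor e).1 = horEnd S hor e := by
  unfold horBranch horEnd
  split_ifs <;> rfl

theorem verBranch_fst (hor : ν → Bool) (e : ν) : (verBranch S hor e).1 = verEnd S hor e := by
  unfold verBranch verEnd
  split_ifs <;> rfl

/-- the value on the horizontal end -/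
def valH (hor : ν → Bool) (av bv : ν → k) (e : ν) : k := if hor e then av e else bv e

/-- the value on the vertical end -/
def valV (hor : ν → Bool) (av bv : ν → k) (e : ν) : k := if hor e then bv e else av e

theorem valH_ne_zero (hor : ν → Bool) {av bv : ν → k} (ha0 : ∀ e, av e ≠ 0) (hb0 : ∀ e, bv e ≠ 0)
    (e : ν) : valH hor av bv e ≠ 0 := by
  unfold valH
  split_ifs
  · exact ha0 e
  · exact hb0 e

theorem valV_ne_zero (hor : ν → Bool) {av bv : ν → k} (ha0 : ∀ e, av e ≠ 0) (hb0 : ∀ e, bv e ≠ 0)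
    (e : ν) : valV hor av bv e ≠ 0 := by
  unfold valV
  split_ifs
  · exact hb0 e
  · exact ha0 e

/-- transport of a value along an equality of points of the special fibre -/
theorem isValueAt_of_sigma_eq {u : ∀ v, Ft v} {x y : Σ v, Place k (Ft v)} (hxy : x = y) {c : k}
    (hc : IsValueAt x.2 (u x.1) c) : IsValueAt y.2 (u y.1) c := by
  subst hxy
  exact hc

theorem horBranch_of_hor {hor : ν → Bool} {e : ν} (h : hor e = true) :
    horBranch S hor e = ⟨S.src e, S.s₁ e⟩ := by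
  unfold horBranch
  rw [if_pos h]

theorem horBranch_of_not {hor : ν → Bool} {e : ν} (h : ¬ hor e = true) :
    horBranch S hor e = ⟨S.tgt e, S.s₂ e⟩ := by
  unfold horBranch
  rw [if_neg h]

theorem verBranch_of_hor {hor : ν → Bool} {e : ν} (h : hor e = true) :
    verBranch S hor e = ⟨S.tgt e, S.s₂ e⟩ := by
  unfold verBranch
  rw [if_pos h]

theorem verBranch_of_not {hor : ν → Bool} {e : ν} (h : ¬ hor e = true) :
    verBranch S hor e = ⟨S.src e, S.s₁ e⟩ := by
  unfold verBranch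
  rw [if_neg h]

theorem isValueAt_horBranch (hor : ν → Bool) {av bv : ν → k} {u : ∀ v, Ft v}
    (ha : ∀ e, IsValueAt (S.s₁ e) (u (S.src e)) (av e))
    (hb : ∀ e, IsValueAt (S.s₂ e) (u (S.tgt e)) (bv e)) (e : ν) :
    IsValueAt (horBranch S hor e).2 (u (horBranch S hor e).1) (valH hor av bv e) := by
  by_cases hh : hor e = true
  · refine isValueAt_of_sigma_eq (x := ⟨S.src e, S.s₁ e⟩) (horBranch_of_hor hh).symm ?_
    show IsValueAt (S.s₁ e) (u (S.src e)) (valH hor av bv e)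
    rw [valH, if_pos hh]
    exact ha e
  · refine isValueAt_of_sigma_eq (x := ⟨S.tgt e, S.s₂ e⟩) (horBranch_of_not hh).symm ?_
    show IsValueAt (S.s₂ e) (u (S.tgt e)) (valH hor av bv e)
    rw [valH, if_neg hh]
    exact hb e

theorem isValueAt_verBranch (hor : ν → Bool) {av bv : ν → k} {u : ∀ v, Ft v}
    (ha : ∀ e, IsValueAt (S.s₁ e) (u (S.src e)) (av e))
    (hb : ∀ e, IsValueAt (S.s₂ e) (u (S.tgt e)) (bv e)) (e : ν) :
    IsValueAt (verBranch S hor e).2 (u (verBranch S hor e).1) (valV hor av bv e) := by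
  by_cases hh : hor e = true
  · refine isValueAt_of_sigma_eq (x := ⟨S.tgt e, S.s₂ e⟩) (verBranch_of_hor hh).symm ?_
    show IsValueAt (S.s₂ e) (u (S.tgt e)) (valV hor av bv e)
    rw [valV, if_pos hh]
    exact hb e
  · refine isValueAt_of_sigma_eq (x := ⟨S.src e, S.s₁ e⟩) (verBranch_of_not hh).symm ?_
    show IsValueAt (S.s₁ e) (u (S.src e)) (valV hor av bv e)
    rw [valV, if_neg hh]
    exact ha e

theorem xi_eq (hor : ν → Bool) (av bv : ν → k) (ha0 : ∀ e, av e ≠ 0) (hb0 : ∀ e, bv e ≠ 0)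
    (e : ν) :
    xi hor av bv ha0 hb0 e = Units.mk0 (valH hor av bv e) (valH_ne_zero hor ha0 hb0 e) /
      Units.mk0 (valV hor av bv e) (valV_ne_zero hor ha0 hb0 e) := by
  unfold xi
  by_cases hh : hor e
  · simp only [hh, if_true]
    congr 1 <;> (apply Units.ext; simp [valH, valV, hh])
  · simp only [hh, if_false, Bool.false_eq_true]
    congr 1 <;> (apply Units.ext; simp [valH, valV, hh])

/-- **The push-forward shapes.**  `κ₀` the potential on the lower graph produced by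
`ValPush.exists_coboundary_of_push_eq_zero_enum`, `vW`, `vT` the lower horizontal components under
the horizontal ends of `nW e`, `nT e` (and `nk e s`), `vE e` the lower chain component under the
vertical component. -/
theorem push_shapes {SSp KP : Type*} [Fintype KP] (hor : ν → Bool) (av bv : ν → k)
    (ha0 : ∀ e, av e ≠ 0) (hb0 : ∀ e, bv e ≠ 0) (nW nT : SSp → ν) (nk : SSp → KP → ν) (q d : ℕ)
    {ι₀ : Type*} (κ₀ : ι₀ → k) (hκ₀ : ∀ v, κ₀ v ≠ 0) (vW vT : ι₀) (vE : SSp → ι₀)
    (rW : ∀ e, valH hor av bv (nW e) ^ q * κ₀ (vE e) = valV hor av bv (nW e) ^ q * κ₀ vW)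
    (rT : ∀ e, (valH hor av bv (nT e) * ∏ s, valH hor av bv (nk e s) ^ d) * κ₀ (vE e) =
      (valV hor av bv (nT e) * ∏ s, valV hor av bv (nk e s) ^ d) * κ₀ vT) :
    (∀ e, xi hor av bv ha0 hb0 (nW e) ^ q =
      Units.mk0 _ (hκ₀ vW) / Units.mk0 _ (hκ₀ (vE e))) ∧
    ∀ e, xi hor av bv ha0 hb0 (nT e) * (∏ s, xi hor av bv ha0 hb0 (nk e s)) ^ d =
      Units.mk0 _ (hκ₀ vT) / Units.mk0 _ (hκ₀ (vE e)) := by
  refine ⟨fun e => ?_, fun e => ?_⟩
  · rw [xi_eq]
    exact ValPush.units_pow_eq_div _ _ q (hκ₀ vW) (hκ₀ (vE e)) (rW e)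
  · rw [xi_eq, Finset.prod_congr rfl fun s _ => xi_eq hor av bv ha0 hb0 (nk e s)]
    exact ValPush.units_mul_prod_pow_eq_div _ _ _ _
      (fun s => valH_ne_zero hor ha0 hb0 (nk e s)) (fun s => valV_ne_zero hor ha0 hb0 (nk e s)) d
      (hκ₀ vT) (hκ₀ (vE e)) (rT e)

/-- **Assembly of `hcoch`** of `GeoTor.h3_of_graph` from the relations along `a` (potential `κa`
on the graph of `S'ref_a`), along `b` (potential `κb` on the graph of `S'ref_b`, the chain
component under `z e` is `vEb (φ e)`) and the invariance shapes. -/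
theorem hcoch_of_parts {SSp Mid KP : Type*} [Fintype KP] (hor : ν → Bool) (av bv : ν → k)
    (ha0 : ∀ e, av e ≠ 0) (hb0 : ∀ e, bv e ≠ 0) (nW nT : SSp → ν) (nk : SSp → KP → ν)
    (comp : SSp → KP → Mid) (p : SSp → Equiv.Perm KP) (q d : ℕ) (φ : SSp → SSp)
    {ιa : Type*} (κa : ιa → k) (hκa : ∀ v, κa v ≠ 0) (vWa vTa : ιa) (vEa : SSp → ιa)
    (rWa : ∀ e, valH hor av bv (nW e) ^ q * κa (vEa e) = valV hor av bv (nW e) ^ q * κa vWa)
    (rTa : ∀ e, (valH hor av bv (nT e) * ∏ s, valH hor av bv (nk e s) ^ d) * κa (vEa e) =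
      (valV hor av bv (nT e) * ∏ s, valV hor av bv (nk e s) ^ d) * κa vTa)
    {ιb : Type*} (κb : ιb → k) (hκb : ∀ v, κb v ≠ 0) (vWb vTb : ιb) (vEb : SSp → ιb)
    (rWb : ∀ e, valH hor av bv (nT e) ^ q * κb (vEb (φ e)) =
      valV hor av bv (nT e) ^ q * κb vWb)
    (rTb : ∀ e, (valH hor av bv (nW e) * ∏ s, valH hor av bv (nk e s) ^ d) * κb (vEb (φ e)) =
      (valV hor av bv (nW e) * ∏ s, valV hor av bv (nk e s) ^ d) * κb vTb)
    (hinv : ∃ (r1 : kˣ) (ρm : Mid → kˣ) (ρ' : SSp → kˣ),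
      (∀ e, xi hor av bv ha0 hb0 (nW e) = xi hor av bv ha0 hb0 (nW e) * r1 / ρ' e) ∧
      ∀ e s, xi hor av bv ha0 hb0 (nk e (p e s)) =
        xi hor av bv ha0 hb0 (nk e s) * ρm (comp e s) / ρ' e) :
    ∃ (A1 A2 : kˣ) (α : SSp → kˣ) (B1 B2 : kˣ) (β : SSp → kˣ) (r1 : kˣ) (ρm : Mid → kˣ)
      (ρ' : SSp → kˣ),
      (∀ e, xi hor av bv ha0 hb0 (nW e) ^ q = A1 / α e) ∧
      (∀ e, xi hor av bv ha0 hb0 (nT e) * (∏ s, xi hor av bv ha0 hb0 (nk e s)) ^ d =
        A2 / α e) ∧
      (∀ e, xi hor av bv ha0 hb0 (nT e) ^ q = B1 / β (φ e)) ∧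
      (∀ e, xi hor av bv ha0 hb0 (nW e) * (∏ s, xi hor av bv ha0 hb0 (nk e s)) ^ d =
        B2 / β (φ e)) ∧
      (∀ e, xi hor av bv ha0 hb0 (nW e) = xi hor av bv ha0 hb0 (nW e) * r1 / ρ' e) ∧
      ∀ e s, xi hor av bv ha0 hb0 (nk e (p e s)) =
        xi hor av bv ha0 hb0 (nk e s) * ρm (comp e s) / ρ' e := by
  obtain ⟨r1, ρm, ρ', h5, h6⟩ := hinv
  obtain ⟨h1, h2⟩ := push_shapes hor av bv ha0 hb0 nW nT nk q d κa hκa vWa vTa vEa rWa rTa
  obtain ⟨h3, h4⟩ := push_shapes hor av bv ha0 hb0 nT nW nk q d κb hκb vWb vTb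
    (fun e => vEb (φ e)) rWb rTb
  exact ⟨Units.mk0 _ (hκa vWa), Units.mk0 _ (hκa vTa), fun e => Units.mk0 _ (hκa (vEa e)),
    Units.mk0 _ (hκb vWb), Units.mk0 _ (hκb vTb), fun e => Units.mk0 _ (hκb (vEb e)),
    r1, ρm, ρ', h1, h2, h3, h4, h5, h6⟩

end Fermat.Agent.BR3.GeoTorPush
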