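import Mathlib
import Fermat.Agent.BR3.G5Multi
import Fermat.Agent.BR3.NormResidueMulti

/-!
# Program C (S36), node (C-G5M), file 3: `NormRes` from the multi-valuation norm–residue formula

Adapter from `BR3/NormResidueMulti.norm_residue_multi_gen` (valuation rings `O₀`, `O j`, abstract
residue maps) to the named hypothesis `G5Multi.NormRes` (components of semistable setups).

`S₀` a semistable setup on `F₀ / K`, `S` a semistable setup on `F / K`, `φ : F₀ →ₐ[K] F` finite,
`v` a component of `S₀`, `w : J → ι` the components of `S` over `v` with residue extensions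
`ψ j : Ft₀ v →ₐ[k] Ft (w j)` compatible with `φ` (`hcompat`).  If the valuation rings `S.O (w j)`
are *all* the extensions of `S₀.O v` to `F` (`D : MultiVal.Full`, `e = 1`, `∑ f_j = [F : F₀]`), then
`NormRes S₀ S φ v w ψ` holds (`normRes_of_full`); `normRes_of_single` : the case of a single
valuation; `abRes_eq_zero_of_single_insep` : a single valuation with purely inseparable residue
extension of degree prime to `m` ⟹ the abelian part on that component of a class of the finite
part killed by `φ_*` vanishes.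
-/

set_option autoImplicit false
set_option linter.unusedVariables false
set_option linter.unusedSectionVars false
set_option linter.style.haveILetI false

noncomputable section

namespace Fermat.Agent.BR3.G5MultiNR

open AlgebraicCurve Fermat.Agent.Red Fermat.Agent.BR.SS Fermat.Agent.Jac Fermat.Agent.BR
  Fermat.Agent.BR2.Filt Fermat.Agent.BR2.G5 Fermat.Agent.BR3.FiltMaps Fermat.Agent.X0
  Fermat.Agent.BR3.G5Multi Fermat.Agent.BR3.MultiVal Fermat.Agent.BR2.NormResidue

variable {K k : Type*} [Field K] [Field k] {A : ValuationSubring K} {π : A →+* k}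
  {F₀ F : Type*} [Field F₀] [Algebra K F₀] [Field F] [Algebra K F]
  {ι₀ : Type*} {Ft₀ : ι₀ → Type*} [∀ v, Field (Ft₀ v)] [∀ v, Algebra k (Ft₀ v)] {ν₀ : Type*}
  {ι : Type*} {Ft : ι → Type*} [∀ w, Field (Ft w)] [∀ w, Algebra k (Ft w)] {ν : Type*}

/-- **`NormRes` from the norm–residue formula for finitely many valuations.** -/
theorem normRes_of_full (S₀ : SemistableSetup (F := F₀) A π ι₀ Ft₀ ν₀)
    (S : SemistableSetup (F := F) A π ι Ft ν) (φ : F₀ →ₐ[K] F) (hfin : FiniteAlong K φ)
    (v : ι₀) {J : Type*} [Fintype J] (w : J → ι) (ψ : ∀ j, Ft₀ v →ₐ[k] Ft (w j))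
    {κ : J → Type*} [∀ j, Fintype (κ j)]
    (D : letI := algebraAlong φ
      MultiVal.Full (S₀.O v) (fun j => S.O (w j)) κ)
    (hcompat : ∀ j (c : S₀.O v) (h : φ (c : F₀) ∈ S.O (w j)),
      S.res (w j) ⟨φ (c : F₀), h⟩ = ψ j (S₀.res v c)) :
    NormRes S₀ S φ v w ψ := by
  letI := algebraAlong φ
  haveI := isScalarTower_along φ
  haveI : FiniteDimensional F₀ F := hfin
  letI : ∀ j, Algebra (Ft₀ v) (Ft (w j)) := fun j => (ψ j).toRingHom.toAlgebra
  have H₀ : ResBase (S₀.res v) := ⟨S₀.res_surjective v, fun c => by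
    rw [S₀.res_eq_zero_iff v c, ValuationSubring.coe_mem_nonunits_iff,
      IsLocalRing.mem_maximalIdeal, mem_nonunits_iff]⟩
  have H : ∀ j, ResOver (S₀.res v) (S.res (w j)) := fun j =>
    ⟨S.res_surjective (w j), fun z => by
      rw [S.res_eq_zero_iff (w j) z, ValuationSubring.coe_mem_nonunits_iff,
        IsLocalRing.mem_maximalIdeal, mem_nonunits_iff], fun c h => hcompat j c h⟩
  intro f g hg
  have hg' : ∀ j, g j ≠ 0 ∧ ∃ c : K, c ≠ 0 ∧ ∃ h : c • f ∈ S.O (w j),
      S.res (w j) ⟨c • f, h⟩ = g j := hg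
  choose hg0 c hc hmem hres using hg'
  have hsm : ∀ j, (algebraMap K F₀ (c j)) • f = c j • f := fun j => algebraMap_smul F₀ (c j) f
  have hf' : ∀ j, (algebraMap K F₀ (c j)) • f ∈ S.O (w j) := fun j => by
    rw [hsm]
    exact hmem j
  obtain ⟨h, hr⟩ := norm_residue_multi_gen (res₀ := S₀.res v) (res := fun j => S.res (w j))
    D H₀ H (c := fun j => algebraMap K F₀ (c j)) (fun j => (map_ne_zero _).mpr (hc j))
    (f := f) hf'
  have hrj : ∀ j, S.res (w j) ⟨(algebraMap K F₀ (c j)) • f, hf' j⟩ = g j := fun j => by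
    rw [← hres j]
    exact congrArg (S.res (w j)) (Subtype.ext (hsm j))
  have hC : (∏ j, c j ^ Fintype.card (κ j)) • normAlong φ f =
      Algebra.norm F₀ f * ∏ j, algebraMap K F₀ (c j) ^ Fintype.card (κ j) := by
    rw [Algebra.smul_def, map_prod, mul_comm]
    congr 1
    exact Finset.prod_congr rfl fun j _ => map_pow _ _ _
  have hmemC : (∏ j, c j ^ Fintype.card (κ j)) • normAlong φ f ∈ S₀.O v := by
    rw [hC]
    exact h
  refine ⟨?_, ∏ j, c j ^ Fintype.card (κ j), ?_, hmemC, ?_⟩
  · rw [Finset.prod_ne_zero_iff]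
    intro j _
    haveI := finite_residue D H₀ H j
    exact Algebra.norm_ne_zero_iff.mpr (hg0 j)
  · rw [Finset.prod_ne_zero_iff]
    exact fun j _ => pow_ne_zero _ (hc j)
  · have e : (⟨(∏ j, c j ^ Fintype.card (κ j)) • normAlong φ f, hmemC⟩ : S₀.O v) =
        ⟨Algebra.norm F₀ f * ∏ j, algebraMap K F₀ (c j) ^ Fintype.card (κ j), h⟩ :=
      Subtype.ext hC
    rw [e, hr]
    exact Finset.prod_congr rfl fun j _ => by rw [hrj j]; rfl

/-- `NormRes` for a single valuation over `S₀.O v` with `f = [F : F₀]`. -/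
theorem normRes_of_single (S₀ : SemistableSetup (F := F₀) A π ι₀ Ft₀ ν₀)
    (S : SemistableSetup (F := F) A π ι Ft ν) (φ : F₀ →ₐ[K] F) (hfin : FiniteAlong K φ)
    (v : ι₀) (w : ι) (ψ : Ft₀ v →ₐ[k] Ft w) {κ : Type*} [Fintype κ]
    (hlies : letI := algebraAlong φ
      (S.O w).comap (algebraMap F₀ F) = S₀.O v)
    (harch : Fermat.Agent.BR.TwoVal.Arch (S.O w)) (x : κ → F)
    (hx : letI := algebraAlong φ
      Fermat.Agent.BR.TwoVal.ResIndep (S₀.O v) (S.O w) x)
    (hcard : letI := algebraAlong φ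
      Fintype.card κ = Module.finrank F₀ F)
    (hcompat : ∀ (c : S₀.O v) (h : φ (c : F₀) ∈ S.O w),
      S.res w ⟨φ (c : F₀), h⟩ = ψ (S₀.res v c)) :
    NormRes S₀ S φ v (fun _ : Unit => w) (fun _ => ψ) := by
  letI := algebraAlong φ
  exact normRes_of_full S₀ S φ hfin v (fun _ : Unit => w) (fun _ => ψ) (κ := fun _ => κ)
    (Full.single hlies harch x hx hcard) (fun _ => hcompat)

/-- **A purely inseparable component**: `S.O w` the only valuation ring of `F` over `S₀.O v`, with
`f = [F : F₀]` prime to `m` and purely inseparable residue extension `ψ`; then the abelian part on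
`w` of a class of the finite part killed by `φ_*` vanishes (items (i), (ii) of the abelian third of
`(A')`). -/
theorem abRes_eq_zero_of_single_insep [HasPrincipalDivisors K F₀] [HasPrincipalDivisors K F]
    {S₀ : SemistableSetup (F := F₀) A π ι₀ Ft₀ ν₀} {S : SemistableSetup (F := F) A π ι Ft ν}
    (hF₀ : RiemannPkg K F₀) (hF : RiemannPkg K F) (hFt : ∀ w, RiemannPkg k (Ft w))
    (φ : F₀ →ₐ[K] F) (hφ : φ.toRingHom.IsIntegral) (hfin : FiniteAlong K φ)
    (hN : NormFormulaAlong K φ hfin)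
    (v : ι₀) (w : ι) (ψ : Ft₀ v →ₐ[k] Ft w) {κ : Type*} [Fintype κ]
    (hlies : letI := algebraAlong φ
      (S.O w).comap (algebraMap F₀ F) = S₀.O v)
    (harch : Fermat.Agent.BR.TwoVal.Arch (S.O w)) (x : κ → F)
    (hx : letI := algebraAlong φ
      Fermat.Agent.BR.TwoVal.ResIndep (S₀.O v) (S.O w) x)
    (hcard : letI := algebraAlong φ
      Fintype.card κ = Module.finrank F₀ F)
    (hcompat : ∀ (c : S₀.O v) (h : φ (c : F₀) ∈ S.O w),
      S.res w ⟨φ (c : F₀), h⟩ = ψ (S₀.res v c))
    (p : ℕ) [ExpChar (Ft₀ v) p] (a : ℕ) (hpi : ∀ y : Ft w, y ^ p ^ a ∈ ψ.toRingHom.range)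
    {m : ℕ} (hm : m ≠ 0) (hd : Nat.Coprime (Fintype.card κ) m) (y : natSub S m)
    (h0 : PicFunct.pic0Push φ hφ hfin hN (y : Pic0 K F) = 0) :
    abRes hF hFt hm w y = 0 := by
  letI := algebraAlong φ
  haveI := isScalarTower_along φ
  haveI : FiniteDimensional F₀ F := hfin
  letI : Algebra (Ft₀ v) (Ft w) := ψ.toRingHom.toAlgebra
  have hNR := normRes_of_single S₀ S φ hfin v w ψ hlies harch x hx hcard hcompat
  have H₀ : ResBase (S₀.res v) := ⟨S₀.res_surjective v, fun c => by
    rw [S₀.res_eq_zero_iff v c, ValuationSubring.coe_mem_nonunits_iff,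
      IsLocalRing.mem_maximalIdeal, mem_nonunits_iff]⟩
  have H : ∀ _ : Unit, ResOver (S₀.res v) (S.res w) := fun _ =>
    ⟨S.res_surjective w, fun z => by
      rw [S.res_eq_zero_iff w z, ValuationSubring.coe_mem_nonunits_iff,
        IsLocalRing.mem_maximalIdeal, mem_nonunits_iff], fun c h => hcompat c h⟩
  have hins : ∀ g : Ft w, ψ (normAlong ψ g) = g ^ Fintype.card κ := fun g =>
    algebraMap_norm_residue_of_insep (k := fun _ : Unit => Ft w) (res := fun _ : Unit => S.res w)
      (Full.single hlies harch x hx hcard) H₀ H () p a g (hpi g)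
  exact abRes_eq_zero_of_normRes_insep (w := fun _ : Unit => w) (ψ := fun _ => ψ)
    hF₀ hF hFt φ hφ hfin hN hNR hins hm hd y h0

end Fermat.Agent.BR3.G5MultiNR
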