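import Mathlib
import Fermat.Agent.BR3.G5MultiNR
import Fermat.Agent.BR3.ValPush
import Fermat.Agent.BR3.CoverPlaces
import Fermat.Agent.Hecke.HeckeInputs

/-!
# Program C (S36), node (I7-PUSH), part 1: generic glue for the push-forward data

`S₀` a semistable setup on `F₀ / K`, `S` one on `F / K`, `φ : F₀ →ₐ[K] F`.

* `LiesOverAlong S₀ S φ v w` : the component `w` of `S` lies over the component `v` of `S₀`;
* `resHom` : the residue extension `Ft₀ v →ₐ[k] Ft w`, CONSTRUCTED from the lying-over relation;
  `resHom_res` is verbatim the hypothesis `hcompat` of `G5MultiNR.normRes_of_full`;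
  `resHom_unique`;
* `normRes_of_full_resHom`, `finiteAlong_resHom`, `isIntegral_resHom`, `finrankAlong_resHom` :
  everything `G5Multi` needs from a `MultiVal.Full` datum alone;
* `resIndep_of_linearIndependent` : `TwoVal.ResIndep` from linearly independent residues;
* `isSeparable_of_coprime_finrank`, `fundamentalIdentityAlong_of_coprime`,
  `normFormulaAlong_of_coprime` : the `Along`-hypotheses of a residue extension of degree prime to
  the characteristic exponent;
* `isValueAt_normAlong_of_pow`, `isValueAt_prod_norm_unique_pow` : the value of a norm for a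
  purely inseparable residue extension (`ψ (N g) = g ^ d`), no fundamental identity;
* `isSmoothPlace_restrict_of_under`, `isBranch_of_under` : the hypotheses `hsm`, `hbr` of
  `BR3/ValPush` from the map `under` of the place dictionary (`BR3/CoverDict`).
-/

set_option autoImplicit false
set_option linter.unusedVariables false
set_option linter.unusedSectionVars false
set_option linter.style.haveILetI false

noncomputable section

namespace Fermat.Agent.BR3.PushGlue

open AlgebraicCurve Fermat.Agent.Red Fermat.Agent.BR.SS Fermat.Agent.Jac Fermat.Agent.BR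
  Fermat.Agent.BR2.Filt Fermat.Agent.BR2.G5 Fermat.Agent.BR3.FiltMaps Fermat.Agent.X0
  Fermat.Agent.BR3.G5Multi Fermat.Agent.BR3.MultiVal Fermat.Agent.BR2.NormResidue
  Fermat.Agent.BR.TwoVal

variable {K k : Type*} [Field K] [Field k] {A : ValuationSubring K} {π : A →+* k}
  {F₀ F : Type*} [Field F₀] [Algebra K F₀] [Field F] [Algebra K F]
  {ι₀ : Type*} {Ft₀ : ι₀ → Type*} [∀ v, Field (Ft₀ v)] [∀ v, Algebra k (Ft₀ v)] {ν₀ : Type*}
  {ι : Type*} {Ft : ι → Type*} [∀ w, Field (Ft w)] [∀ w, Algebra k (Ft w)] {ν : Type*}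

/-! ### lying over -/

/-- the component `w` of `S` lies over the component `v` of `S₀` along `φ` -/
def LiesOverAlong (S₀ : SemistableSetup (F := F₀) A π ι₀ Ft₀ ν₀)
    (S : SemistableSetup (F := F) A π ι Ft ν) (φ : F₀ →ₐ[K] F) (v : ι₀) (w : ι) : Prop :=
  ∀ c : F₀, φ c ∈ S.O w ↔ c ∈ S₀.O v

variable {S₀ : SemistableSetup (F := F₀) A π ι₀ Ft₀ ν₀} {S : SemistableSetup (F := F) A π ι Ft ν}
  {φ : F₀ →ₐ[K] F} {v : ι₀} {w : ι}

theorem liesOverAlong_iff_comap :
    LiesOverAlong S₀ S φ v w ↔
      (letI := algebraAlong φ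
       (S.O w).comap (algebraMap F₀ F) = S₀.O v) := by
  letI := algebraAlong φ
  constructor
  · intro h
    ext c
    exact h c
  · intro h c
    rw [← h]
    rfl

/-- the lying-over relations contained in a `MultiVal.Full` datum -/
theorem liesOverAlong_of_full {J : Type*} [Fintype J] {w : J → ι} {κ : J → Type*}
    [∀ j, Fintype (κ j)]
    (D : letI := algebraAlong φ
      MultiVal.Full (S₀.O v) (fun j => S.O (w j)) κ) (j : J) :
    LiesOverAlong S₀ S φ v (w j) := by
  letI := algebraAlong φ
  exact liesOverAlong_iff_comap.mpr (D.setup.lies j)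

/-! ### the residue extension -/

/-- the inclusion of the valuation rings -/
def liftO (hl : LiesOverAlong S₀ S φ v w) : S₀.O v →+* S.O w where
  toFun c := ⟨φ c, (hl c).mpr c.2⟩
  map_one' := Subtype.ext (map_one φ)
  map_mul' a b := Subtype.ext (map_mul φ (a : F₀) (b : F₀))
  map_zero' := Subtype.ext (map_zero φ)
  map_add' a b := Subtype.ext (map_add φ (a : F₀) (b : F₀))

@[simp] theorem coe_liftO (hl : LiesOverAlong S₀ S φ v w) (c : S₀.O v) :
    ((liftO hl c : S.O w) : F) = φ c := rfl

theorem isUnit_liftO_iff (hl : LiesOverAlong S₀ S φ v w) (c : S₀.O v) :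
    IsUnit (liftO hl c) ↔ IsUnit c := by
  rw [Fermat.Agent.Red.NormalForm.isUnit_iff_inv_mem, Fermat.Agent.Red.NormalForm.isUnit_iff_inv_mem,
    coe_liftO, ← map_inv₀, hl, map_ne_zero]

theorem ker_res_le (hl : LiesOverAlong S₀ S φ v w) :
    RingHom.ker (S₀.res v) ≤ RingHom.ker ((S.res w).comp (liftO hl)) := by
  intro c hc
  rw [RingHom.mem_ker] at hc ⊢
  rw [RingHom.comp_apply, S.res_eq_zero_iff, isUnit_liftO_iff, ← S₀.res_eq_zero_iff]
  exact hc

/-- the residue extension as a ring homomorphism -/
def resRingHom (hl : LiesOverAlong S₀ S φ v w) : Ft₀ v →+* Ft w :=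
  (S₀.res v).liftOfSurjective (S₀.res_surjective v) ⟨(S.res w).comp (liftO hl), ker_res_le hl⟩

theorem resRingHom_res (hl : LiesOverAlong S₀ S φ v w) (c : S₀.O v) :
    resRingHom hl (S₀.res v c) = S.res w (liftO hl c) :=
  (S₀.res v).liftOfRightInverse_comp_apply _ _ ⟨(S.res w).comp (liftO hl), ker_res_le hl⟩ c

/-- **The residue extension** `Ft₀ v →ₐ[k] Ft w` of a component `w` of `S` over a component `v`
of `S₀`. -/
def resHom (hπ : Function.Surjective π) (hl : LiesOverAlong S₀ S φ v w) : Ft₀ v →ₐ[k] Ft w :=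
  { resRingHom hl with
    commutes' := fun a => by
      obtain ⟨α, rfl⟩ := hπ a
      have hα₀ : algebraMap K F₀ (α : K) ∈ S₀.O v := (S₀.algebraMap_mem_iff v _).mpr α.2
      have hα : algebraMap K F (α : K) ∈ S.O w := (S.algebraMap_mem_iff w _).mpr α.2
      have h1 := S₀.res_algebraMap v (α : K) α.2 hα₀
      have h2 := S.res_algebraMap w (α : K) α.2 hα
      show resRingHom hl (algebraMap k (Ft₀ v) (π α)) = algebraMap k (Ft w) (π α)
      rw [← h1, resRingHom_res, ← h2]
      exact congrArg (S.res w) (Subtype.ext (φ.commutes _)) }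

/-- **`hcompat`** of `G5MultiNR.normRes_of_full`, by construction. -/
theorem resHom_res (hπ : Function.Surjective π) (hl : LiesOverAlong S₀ S φ v w) (c : S₀.O v)
    (h : φ (c : F₀) ∈ S.O w) :
    S.res w ⟨φ (c : F₀), h⟩ = resHom hπ hl (S₀.res v c) :=
  (resRingHom_res hl c).symm

/-- the residue extension is determined by the compatibility -/
theorem resHom_unique (hπ : Function.Surjective π) (hl : LiesOverAlong S₀ S φ v w)
    (ψ' : Ft₀ v →+* Ft w)
    (h' : ∀ (c : S₀.O v) (h : φ (c : F₀) ∈ S.O w), S.res w ⟨φ (c : F₀), h⟩ = ψ' (S₀.res v c))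
    (y : Ft₀ v) : ψ' y = resHom hπ hl y := by
  obtain ⟨c, rfl⟩ := S₀.res_surjective v y
  rw [← h' c ((hl c).mpr c.2), ← resHom_res hπ hl c ((hl c).mpr c.2)]

/-! ### everything from a `MultiVal.Full` datum -/

section Full

variable (S₀ S φ)

/-- **`NormRes` from a `MultiVal.Full` datum alone** (the residue extensions are the `resHom`). -/
theorem normRes_of_full_resHom (hfin : FiniteAlong K φ) (hπ : Function.Surjective π) (v : ι₀)
    {J : Type*} [Fintype J] (w : J → ι) {κ : J → Type*} [∀ j, Fintype (κ j)]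
    (D : letI := algebraAlong φ
      MultiVal.Full (S₀.O v) (fun j => S.O (w j)) κ) :
    NormRes S₀ S φ v w (fun j => resHom hπ (liesOverAlong_of_full D j)) :=
  Fermat.Agent.BR3.G5MultiNR.normRes_of_full S₀ S φ hfin v w _ D
    (fun j c h => resHom_res hπ (liesOverAlong_of_full D j) c h)

variable {S₀ S φ}

theorem resBase_res (v : ι₀) : ResBase (S₀.res v) :=
  ⟨S₀.res_surjective v, fun c => by
    rw [S₀.res_eq_zero_iff v c, ValuationSubring.coe_mem_nonunits_iff,
      IsLocalRing.mem_maximalIdeal, mem_nonunits_iff]⟩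

/-- the residue extensions of a `MultiVal.Full` datum are finite -/
theorem finiteAlong_resHom (hfin : FiniteAlong K φ) (hπ : Function.Surjective π) {v : ι₀}
    {J : Type*} [Fintype J] {w : J → ι} {κ : J → Type*} [∀ j, Fintype (κ j)]
    (D : letI := algebraAlong φ
      MultiVal.Full (S₀.O v) (fun j => S.O (w j)) κ) (j : J) :
    FiniteAlong k (resHom hπ (liesOverAlong_of_full D j)) := by
  letI := algebraAlong φ
  haveI := isScalarTower_along φ
  haveI : FiniteDimensional F₀ F := hfin
  letI : ∀ j, Algebra (Ft₀ v) (Ft (w j)) := fun j =>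
    (resHom hπ (liesOverAlong_of_full D j)).toRingHom.toAlgebra
  have H : ∀ j, ResOver (S₀.res v) (S.res (w j)) := fun j =>
    ⟨S.res_surjective (w j), fun z => by
      rw [S.res_eq_zero_iff (w j) z, ValuationSubring.coe_mem_nonunits_iff,
        IsLocalRing.mem_maximalIdeal, mem_nonunits_iff],
      fun c h => resHom_res hπ (liesOverAlong_of_full D j) c h⟩
  exact finite_residue D (resBase_res v) H j

theorem isIntegral_resHom (hfin : FiniteAlong K φ) (hπ : Function.Surjective π) {v : ι₀}
    {J : Type*} [Fintype J] {w : J → ι} {κ : J → Type*} [∀ j, Fintype (κ j)]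
    (D : letI := algebraAlong φ
      MultiVal.Full (S₀.O v) (fun j => S.O (w j)) κ) (j : J) :
    (resHom hπ (liesOverAlong_of_full D j)).toRingHom.IsIntegral :=
  Fermat.Agent.Hecke.isIntegral_of_finiteAlong _ (finiteAlong_resHom hfin hπ D j)

/-- the degree of the residue extension is the residue degree of the `Full` datum -/
theorem finrankAlong_resHom (hfin : FiniteAlong K φ) (hπ : Function.Surjective π) {v : ι₀}
    {J : Type*} [Fintype J] {w : J → ι} {κ : J → Type*} [∀ j, Fintype (κ j)]
    (D : letI := algebraAlong φ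
      MultiVal.Full (S₀.O v) (fun j => S.O (w j)) κ) (j : J) :
    finrankAlong k (resHom hπ (liesOverAlong_of_full D j)) = Fintype.card (κ j) := by
  letI := algebraAlong φ
  haveI := isScalarTower_along φ
  haveI : FiniteDimensional F₀ F := hfin
  letI : ∀ j, Algebra (Ft₀ v) (Ft (w j)) := fun j =>
    (resHom hπ (liesOverAlong_of_full D j)).toRingHom.toAlgebra
  have H : ∀ j, ResOver (S₀.res v) (S.res (w j)) := fun j =>
    ⟨S.res_surjective (w j), fun z => by
      rw [S.res_eq_zero_iff (w j) z, ValuationSubring.coe_mem_nonunits_iff,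
        IsLocalRing.mem_maximalIdeal, mem_nonunits_iff],
      fun c h => resHom_res hπ (liesOverAlong_of_full D j) c h⟩
  exact finrank_residue D (resBase_res v) H j

/-- **the power property** `ψ (N_ψ g) = g ^ f` of a purely inseparable residue extension of a
`MultiVal.Full` datum (input `hpow` of `isValueAt_normAlong_of_pow`, `hins` of
`G5Multi.abRes_eq_zero_of_normRes_insep`) -/
theorem resHom_norm_of_insep (hfin : FiniteAlong K φ) (hπ : Function.Surjective π) {v : ι₀}
    {J : Type*} [Fintype J] {w : J → ι} {κ : J → Type*} [∀ j, Fintype (κ j)]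
    (D : letI := algebraAlong φ
      MultiVal.Full (S₀.O v) (fun j => S.O (w j)) κ) (j : J)
    (p : ℕ) [ExpChar (Ft₀ v) p] (a : ℕ) (g : Ft (w j))
    (hg : g ^ p ^ a ∈ (resHom hπ (liesOverAlong_of_full D j)).toRingHom.range) :
    resHom hπ (liesOverAlong_of_full D j)
      (normAlong (resHom hπ (liesOverAlong_of_full D j)) g) = g ^ Fintype.card (κ j) := by
  letI := algebraAlong φ
  haveI := isScalarTower_along φ
  haveI : FiniteDimensional F₀ F := hfin
  letI : ∀ j, Algebra (Ft₀ v) (Ft (w j)) := fun j =>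
    (resHom hπ (liesOverAlong_of_full D j)).toRingHom.toAlgebra
  have H : ∀ j, ResOver (S₀.res v) (S.res (w j)) := fun j =>
    ⟨S.res_surjective (w j), fun z => by
      rw [S.res_eq_zero_iff (w j) z, ValuationSubring.coe_mem_nonunits_iff,
        IsLocalRing.mem_maximalIdeal, mem_nonunits_iff],
      fun c h => resHom_res hπ (liesOverAlong_of_full D j) c h⟩
  exact algebraMap_norm_residue_of_insep (k := fun j => Ft (w j)) (res := fun j => S.res (w j))
    D (resBase_res v) H j p a g hg

end Full

/-! ### `ResIndep` from linearly independent residues -/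

section ResIndep

variable {E₀ E : Type*} [Field E₀] [Field E] [Algebra E₀ E] {O₀ : ValuationSubring E₀}
  {O : ValuationSubring E} {k₀ k₁ : Type*} [Field k₀] [Field k₁] [Algebra k₀ k₁]
  {res₀ : O₀ →+* k₀} {res : O →+* k₁}

/-- a family of elements of `O` whose residues are linearly independent over the residue field of
`O₀` is residually independent -/
theorem resIndep_of_linearIndependent (hlies : O.comap (algebraMap E₀ E) = O₀)
    (H₀ : ResBase res₀) (H : ResOver res₀ res)
    {σ : Type*} [Fintype σ] (x : σ → E) (hx : ∀ i, x i ∈ O)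
    (hli : LinearIndependent k₀ fun i => res ⟨x i, hx i⟩) : ResIndep O₀ O x := by
  classical
  refine ⟨hx, fun c hc hsum i => ?_⟩
  have hcO : ∀ i, algebraMap E₀ E (c i) ∈ O := fun i => by
    have : c i ∈ O.comap (algebraMap E₀ E) := by rw [hlies]; exact hc i
    exact this
  have hmem : ∀ i, c i • x i ∈ O := fun i => by
    rw [Algebra.smul_def]
    exact O.mul_mem _ _ (hcO i) (hx i)
  have hsumO : ∑ i, c i • x i ∈ O := sum_mem fun i _ => hmem i
  have h0 : res ⟨∑ i, c i • x i, hsumO⟩ = 0 := (H.ker _).mpr hsum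
  have h1 : (⟨∑ i, c i • x i, hsumO⟩ : O) = ∑ i, (⟨c i • x i, hmem i⟩ : O) := by
    apply Subtype.ext
    rw [AddSubmonoidClass.coe_finsetSum]
  rw [h1, map_sum] at h0
  have h2 : ∀ i, res ⟨c i • x i, hmem i⟩ = res₀ ⟨c i, hc i⟩ • res ⟨x i, hx i⟩ := fun i =>
    H.res_smul (hc i) (hx i) (hcO i) (hmem i)
  rw [Finset.sum_congr rfl fun i _ => h2 i] at h0
  have h3 := (Fintype.linearIndependent_iff.mp hli) (fun i => res₀ ⟨c i, hc i⟩) h0 i
  exact (H₀.ker ⟨c i, hc i⟩).mp h3

end ResIndep

/-! ### separable residue extensions -/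

section Separable

variable {L₀ L : Type*} [Field L₀] [Field L]

/-- a finite extension of degree prime to the characteristic exponent is separable -/
theorem isSeparable_of_coprime_finrank [Algebra L₀ L] [FiniteDimensional L₀ L] (p : ℕ)
    [ExpChar L₀ p] (h : (Module.finrank L₀ L).Coprime p) : Algebra.IsSeparable L₀ L := by
  rw [isSeparable_iff_finInsepDegree_eq_one]
  obtain ⟨n, hn⟩ := finInsepDegree_eq_pow L₀ L p
  have hdvd : Field.finInsepDegree L₀ L ∣ Module.finrank L₀ L :=
    ⟨Field.finSepDegree L₀ L, by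
      rw [mul_comm]; exact (Field.finSepDegree_mul_finInsepDegree L₀ L).symm⟩
  rw [hn] at hdvd ⊢
  rcases Nat.eq_zero_or_pos n with rfl | hpos
  · rw [pow_zero]
  · have hp : p ∣ Module.finrank L₀ L := dvd_trans (dvd_pow_self p hpos.ne') hdvd
    have h1 : p ∣ Nat.gcd (Module.finrank L₀ L) p := Nat.dvd_gcd hp dvd_rfl
    rw [h] at h1
    rw [Nat.dvd_one.mp h1, one_pow]

variable {k : Type*} [Field k] [Algebra k L₀] [Algebra k L]

/-- `FundamentalIdentityAlong` for a finite map of function fields of degree prime to the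
characteristic exponent -/
theorem fundamentalIdentityAlong_of_coprime [HasPrincipalDivisors k L] (ψ : L₀ →ₐ[k] L)
    (hfin : FiniteAlong k ψ) (p : ℕ) [ExpChar L₀ p] (h : (finrankAlong k ψ).Coprime p)
    (hψ : ψ.toRingHom.IsIntegral) : FundamentalIdentityAlong k ψ hψ := by
  refine Fermat.Agent.Hecke.fundamentalIdentityAlong_of_finite ψ hfin ?_ hψ
  letI := algebraAlong ψ
  haveI : FiniteDimensional L₀ L := hfin
  exact isSeparable_of_coprime_finrank p h

/-- `NormFormulaAlong` for a finite map of function fields of degree prime to the characteristic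
exponent -/
theorem normFormulaAlong_of_coprime (ψ : L₀ →ₐ[k] L)
    (hfin : FiniteAlong k ψ) (p : ℕ) [ExpChar L₀ p] (h : (finrankAlong k ψ).Coprime p) :
    NormFormulaAlong k ψ hfin := by
  refine Fermat.Agent.Hecke.normFormulaAlong_of_finite ψ hfin ?_
  letI := algebraAlong ψ
  haveI : FiniteDimensional L₀ L := hfin
  exact isSeparable_of_coprime_finrank p h

end Separable

/-! ### the value of a norm along a purely inseparable residue extension -/

section PowMap

variable {k L₀ L : Type*} [Field k] [Field L₀] [Field L] [Algebra k L₀] [Algebra k L]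

/-- the value of a function of `L₀` at `Q` is its value at the place under `Q` -/
theorem isValueAt_restrictAlong_iff (ψ : L₀ →ₐ[k] L) (hψ : ψ.toRingHom.IsIntegral)
    (Q : Place k L) (y : L₀) (c : k) :
    IsValueAt (Q.restrictAlong ψ hψ) y c ↔ IsValueAt Q (ψ y) c := by
  letI := algebraAlong ψ
  haveI := isScalarTower_along ψ
  haveI := isIntegral_along ψ hψ
  exact Fermat.Agent.BR3.CoverPlaces.isValueAt_restrict_iff Q y c

/-- **The value of a norm along a power map** (`ψ (N g) = g ^ d`: purely inseparable residue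
extension of degree `d`): `N g (Q') = g (Q) ^ d` for ANY place `Q` over `Q'`.  No fundamental
identity is needed. -/
theorem isValueAt_normAlong_of_pow (ψ : L₀ →ₐ[k] L) (hψ : ψ.toRingHom.IsIntegral) {d : ℕ}
    (hpow : ∀ g : L, ψ (normAlong ψ g) = g ^ d) (Q : Place k L) {g : L} {c : k}
    (hc : IsValueAt Q g c) : IsValueAt (Q.restrictAlong ψ hψ) (normAlong ψ g) (c ^ d) := by
  rw [isValueAt_restrictAlong_iff, hpow]
  exact hc.pow d

/-- the same in the shape of the inputs `hV₁`, `hV₂` of `ValPush.exists_coboundary_core`, for a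
base component with a single component above it -/
theorem isValueAt_prod_norm_unique_pow {J : Type*} [Fintype J] [Unique J] {Lj : J → Type*}
    [∀ j, Field (Lj j)] [∀ j, Algebra k (Lj j)] (ψ : ∀ j, L₀ →ₐ[k] Lj j)
    (hψ : ∀ j, (ψ j).toRingHom.IsIntegral) {d : ℕ}
    (hpow : ∀ g : Lj default, ψ default (normAlong (ψ default) g) = g ^ d)
    (u : ∀ j, Lj j) (Q : Place k (Lj default)) {c : k} (hc : IsValueAt Q (u default) c)
    {Q' : Place k L₀} (hQ : Q.restrictAlong (ψ default) (hψ default) = Q') :
    IsValueAt Q' (∏ j, normAlong (ψ j) (u j)) (c ^ d) := by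
  rw [Fintype.prod_unique, ← hQ]
  exact isValueAt_normAlong_of_pow (ψ default) (hψ default) hpow Q hc

end PowMap

/-! ### `hsm` and `hbr` from the map `under` of the place dictionary -/

section Under

variable {S₀ : SemistableSetup (F := F₀) A π ι₀ Ft₀ ν₀} {S : SemistableSetup (F := F) A π ι Ft ν}

/-- **`hsm` of `BR3/ValPush`**: places with smooth reduction map to places with smooth reduction,
if the reduction maps are compatible with `under` and the points over branch points are branch
points. -/
theorem isSmoothPlace_restrict_of_under (φ : F₀ →ₐ[K] F) (hφ : φ.toRingHom.IsIntegral)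
    (under : (Σ w, Place k (Ft w)) → Σ v, Place k (Ft₀ v))
    (hr : ∀ P : Place K F, S₀.r (P.restrictAlong φ hφ) = under (S.r P))
    (hub : ∀ x, S₀.IsBranch (under x) → S.IsBranch x)
    (P : Place K F) (hP : S.IsSmoothPlace P) : S₀.IsSmoothPlace (P.restrictAlong φ hφ) := by
  unfold SemistableSetup.IsSmoothPlace at hP ⊢
  rw [hr]
  exact fun h => hP (hub _ h)

/-- **`hbr` of `BR3/ValPush`** from `under`, when `under` is given on the components over `v` by
the restriction of places along the residue extensions. -/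
theorem isBranch_of_under {J : ι₀ → Type*} {w : ∀ v, J v → ι}
    {ψ : ∀ v (j : J v), Ft₀ v →ₐ[k] Ft (w v j)} (hψ : ∀ v j, (ψ v j).toRingHom.IsIntegral)
    (under : (Σ w, Place k (Ft w)) → Σ v, Place k (Ft₀ v))
    (hu : ∀ v (j : J v) (Q : Place k (Ft (w v j))),
      under ⟨w v j, Q⟩ = ⟨v, Q.restrictAlong (ψ v j) (hψ v j)⟩)
    (hub : ∀ x, S₀.IsBranch (under x) → S.IsBranch x)
    (v : ι₀) (Q' : Place k (Ft₀ v)) (hQ' : S₀.IsBranch ⟨v, Q'⟩) (j : J v)
    (Q : Place k (Ft (w v j))) (hQ : Q.restrictAlong (ψ v j) (hψ v j) = Q') :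
    S.IsBranch ⟨w v j, Q⟩ := by
  apply hub
  rw [hu, hQ]
  exact hQ'

end Under

end Fermat.Agent.BR3.PushGlue
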