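import Mathlib
import Fermat.Agent.BR3.GeoTorPush
import Fermat.Agent.BR3.PushGlue

/-!
# Program C (S36), node (I7-PUSH), part 2: the push-forward relations `(rW)`, `(rT)` of `GeoTorPush`

Setting of `BR3/ValPush` (`S₀` the lower setup, `S` the upper one, `φ`, `NormRes` everywhere), with
orientation flags `hor₀` on the nodes of `S₀` and `hor` on the nodes of `S` (`GeoTor`), and for every
node `e'` of `S₀` the finite set `T e'` of the nodes of `S` over it, with weights `wt`.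

* `Uprod ψ w u v = ∏ j, N_{ψ v j} (u (w v j))`;
* `NormFibre w ψ x T br wt` : **the weighted product formula** at the point `x` of the special fibre
  of `S₀`: if `c n` is a value of `u` at the point `br n` for every `n ∈ T`, then
  `∏ n ∈ T, c n ^ wt n` is a value of `Uprod ψ w u` at `x`;
* `normFibre_of_enum` : from the fundamental identity (VALUE-NORM), when the `br n` enumerate the
  points over `x` and `wt n` are the ramification indices;
* `normFibre_of_pow` : for a base component with ONE component above it and a power map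
  `ψ (N g) = g ^ d` (purely inseparable residue extension), no fundamental identity;
* `exists_coboundary_core_hor` : the orientation-normalised core of `BR3/ValPush`;
* **`exists_potential_of_normFibre`** : ONE potential `κ₀` on the graph of `S₀` with
  `(∏ n ∈ T e', valH n ^ wt n) * κ₀ (verEnd e') = (∏ n ∈ T e', valV n ^ wt n) * κ₀ (horEnd e')`;
* **`push_relations`** : the relations `(rW)`, `(rT)` of `GeoTorPush.hcoch_of_parts`, verbatim.
-/

set_option autoImplicit false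
set_option linter.unusedVariables false
set_option linter.unusedSectionVars false
set_option linter.style.haveILetI false

noncomputable section

namespace Fermat.Agent.BR3.PushShapes

open AlgebraicCurve Fermat.Agent.Red Fermat.Agent.BR.SS Fermat.Agent.Jac Fermat.Agent.BR
  Fermat.Agent.BR2.Filt Fermat.Agent.BR2.G5 Fermat.Agent.BR3.FiltMaps Fermat.Agent.X0
  Fermat.Agent.BR3.G5Multi Fermat.Agent.BR3.G5MultiTor Fermat.Agent.BR3.TorGlue
  Fermat.Agent.BR3.ValueNorm Fermat.Agent.BR3.GeoTor Fermat.Agent.BR3.GeoTorPush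
  Fermat.Agent.BR3.PushGlue

variable {K k : Type*} [Field K] [Field k] {A : ValuationSubring K} {π : A →+* k}
  {F₀ F : Type*} [Field F₀] [Algebra K F₀] [Field F] [Algebra K F]
  {ι₀ : Type*} {Ft₀ : ι₀ → Type*} [∀ v, Field (Ft₀ v)] [∀ v, Algebra k (Ft₀ v)] {ν₀ : Type*}
  {ι : Type*} {Ft : ι → Type*} [∀ w, Field (Ft w)] [∀ w, Algebra k (Ft w)] {ν : Type*}
  {S₀ : SemistableSetup (F := F₀) A π ι₀ Ft₀ ν₀} {S : SemistableSetup (F := F) A π ι Ft ν}
  {J : ι₀ → Type*} [∀ v, Fintype (J v)]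

/-- the `m`-th root of the residue of the push-forward on the component `v` of `S₀` -/
def Uprod (w : ∀ v, J v → ι) (ψ : ∀ v (j : J v), Ft₀ v →ₐ[k] Ft (w v j)) (u : ∀ w', Ft w')
    (v : ι₀) : Ft₀ v :=
  ∏ j, normAlong (ψ v j) (u (w v j))

/-- **The weighted product formula** at the point `x` of the special fibre of `S₀`. -/
def NormFibre (w : ∀ v, J v → ι) (ψ : ∀ v (j : J v), Ft₀ v →ₐ[k] Ft (w v j))
    (x : Σ v, Place k (Ft₀ v)) {N : Type*} (T : Finset N) (br : N → Σ w', Place k (Ft w'))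
    (wt : N → ℕ) : Prop :=
  ∀ (u : ∀ w', Ft w') (c : N → k), (∀ n ∈ T, IsValueAt (br n).2 (u (br n).1) (c n)) →
    IsValueAt x.2 (Uprod w ψ u x.1) (∏ n ∈ T, c n ^ wt n)

variable {w : ∀ v, J v → ι} {ψ : ∀ v (j : J v), Ft₀ v →ₐ[k] Ft (w v j)}

/-! ### the two producers of `NormFibre` -/

/-- **`NormFibre` from the fundamental identity**: the `br n`, `n ∈ T`, enumerate the points over
`x`, with ramification indices `wt n`. -/
theorem normFibre_of_enum [∀ w', HasPrincipalDivisors k (Ft w')]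
    (hFt₀ : ∀ v, RiemannPkg k (Ft₀ v)) (hFt : ∀ w', RiemannPkg k (Ft w'))
    (hψ : ∀ v j, (ψ v j).toRingHom.IsIntegral) (hfinψ : ∀ v j, FiniteAlong k (ψ v j))
    (x : Σ v, Place k (Ft₀ v))
    (hFIψ : ∀ j, FundamentalIdentityAlong k (ψ x.1 j) (hψ x.1 j))
    (hwinj : Function.Injective (w x.1))
    {N : Type*} (T : Finset N) (br : N → Σ w', Place k (Ft w')) (wt : N → ℕ)
    (hinj : Set.InjOn br T)
    (hmem : ∀ n ∈ T, ∃ (j : J x.1) (Q : Place k (Ft (w x.1 j))), br n = ⟨w x.1 j, Q⟩ ∧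
      Q.restrictAlong (ψ x.1 j) (hψ x.1 j) = x.2 ∧ Q.ramificationIndexAlong (ψ x.1 j) = wt n)
    (hexh : ∀ (j : J x.1) (Q : Place k (Ft (w x.1 j))),
      Q.restrictAlong (ψ x.1 j) (hψ x.1 j) = x.2 → ∃ n ∈ T, br n = ⟨w x.1 j, Q⟩) :
    NormFibre w ψ x T br wt := by
  obtain ⟨v, Q'⟩ := x
  intro u c hc
  choose j Q hbr hres hram using fun n : T => hmem n.1 n.2
  have h1 := ValPush.isValueAt_prod_norm_enum (hFt₀ v) hFt (hψ v) (hfinψ v) hFIψ Q'
    (fun j => u (w v j)) (fun n : T => (⟨j n, Q n⟩ : Σ j, Place k (Ft (w v j))))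
    (fun n n' h => by
      have h2 := congrArg (fun y : Σ j, Place k (Ft (w v j)) =>
        (⟨w v y.1, y.2⟩ : Σ w', Place k (Ft w'))) h
      simp only at h2
      rw [← hbr n, ← hbr n'] at h2
      exact Subtype.ext (hinj n.2 n'.2 h2))
    (fun y => by
      constructor
      · intro h
        obtain ⟨n, hn, hbrn⟩ := hexh y.1 y.2 h
        refine ⟨⟨n, hn⟩, ?_⟩
        have h2 : (⟨w v (j ⟨n, hn⟩), Q ⟨n, hn⟩⟩ : Σ w', Place k (Ft w')) = ⟨w v y.1, y.2⟩ :=
          (hbr ⟨n, hn⟩).symm.trans hbrn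
        obtain ⟨h3, h4⟩ := Sigma.mk.inj_iff.mp h2
        exact Sigma.ext (hwinj h3) h4
      · rintro ⟨n, rfl⟩
        exact hres n)
    (fun n => wt n.1) hram (fun n => c n.1)
    (fun n => isValueAt_of_sigma_eq (hbr n) (hc n.1 n.2))
  have h2 : ∏ n : T, c n.1 ^ wt n.1 = ∏ n ∈ T, c n ^ wt n :=
    Finset.prod_coe_sort T (fun n => c n ^ wt n)
  rw [h2] at h1
  exact h1

/-- **`NormFibre` from a power map**: ONE component `w x.1 j₀` over the component `x.1`, with
`ψ (N g) = g ^ d` (purely inseparable residue extension of degree `d = wt n₀`); `br n₀` ANY point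
over `x`.  No fundamental identity. -/
theorem normFibre_of_pow (hψ : ∀ v j, (ψ v j).toRingHom.IsIntegral)
    (x : Σ v, Place k (Ft₀ v)) (j₀ : J x.1) (hsub : ∀ j : J x.1, j = j₀)
    {N : Type*} (n₀ : N) (br : N → Σ w', Place k (Ft w')) (wt : N → ℕ)
    (Q : Place k (Ft (w x.1 j₀))) (hbr : br n₀ = ⟨w x.1 j₀, Q⟩)
    (hQ : Q.restrictAlong (ψ x.1 j₀) (hψ x.1 j₀) = x.2)
    (hpow : ∀ g : Ft (w x.1 j₀), ψ x.1 j₀ (normAlong (ψ x.1 j₀) g) = g ^ wt n₀) :
    NormFibre w ψ x {n₀} br wt := by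
  obtain ⟨v, Q'⟩ := x
  intro u c hc
  rw [Finset.prod_singleton]
  have h1 : Uprod w ψ u v = normAlong (ψ v j₀) (u (w v j₀)) :=
    Fintype.prod_eq_single j₀ fun j hj => absurd (hsub j) hj
  show IsValueAt Q' (Uprod w ψ u v) (c n₀ ^ wt n₀)
  rw [h1, ← show Q.restrictAlong (ψ v j₀) (hψ v j₀) = Q' from hQ]
  exact isValueAt_normAlong_of_pow (ψ v j₀) (hψ v j₀) hpow Q
    (isValueAt_of_sigma_eq hbr (hc n₀ (Finset.mem_singleton_self n₀)))

/-! ### the orientation-normalised core -/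

variable [HasPrincipalDivisors K F₀] [HasPrincipalDivisors K F]

/-- **The core of `BR3/ValPush`, orientation-normalised**: `VH e'`, `VV e'` nonzero values of
`Uprod` at the horizontal resp. vertical branch of the node `e'` of `S₀`. -/
theorem exists_coboundary_core_hor
    (hF₀ : RiemannPkg K F₀) (hFt₀ : ∀ v, RiemannPkg k (Ft₀ v))
    (φ : F₀ →ₐ[K] F) (hφ : φ.toRingHom.IsIntegral) (hfin : FiniteAlong K φ)
    (hN : NormFormulaAlong K φ hfin)
    (hNR : ∀ v, NormRes S₀ S φ v (w v) (ψ v)) (v₀ : ι₀)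
    {m : ℕ} (hm : m ≠ 0) {z : Pic0 K F} {D : Divisor.degZero (K := K) (F := F)} {f : F}
    {u : ∀ w', Ft w'} (hG : IsGood S m z D f u)
    (h0 : PicFunct.pic0Push φ hφ hfin hN z = 0)
    (hsm : ∀ P : Place K F₀, ¬ S₀.IsSmoothPlace P →
      (PicFunct.degZeroPush φ hφ D : Divisor K F₀) P = 0)
    (hor₀ : ν₀ → Bool) (VH VV : ν₀ → k) (hVH0 : ∀ e', VH e' ≠ 0) (hVV0 : ∀ e', VV e' ≠ 0)
    (hVH : ∀ e', IsValueAt (horBranch S₀ hor₀ e').2 (Uprod w ψ u (horBranch S₀ hor₀ e').1)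
      (VH e'))
    (hVV : ∀ e', IsValueAt (verBranch S₀ hor₀ e').2 (Uprod w ψ u (verBranch S₀ hor₀ e').1)
      (VV e')) :
    ∃ κ₀ : ι₀ → k, (∀ v, κ₀ v ≠ 0) ∧
      ∀ e', VH e' * κ₀ (verEnd S₀ hor₀ e') = VV e' * κ₀ (horEnd S₀ hor₀ e') := by
  obtain ⟨κ₀, hκ₀, hcob⟩ := ValPush.exists_coboundary_core hF₀ hFt₀ φ hφ hfin hN hNR v₀ hm hG h0
    hsm (fun e' => if hor₀ e' then VH e' else VV e') (fun e' => if hor₀ e' then VV e' else VH e')
    (fun e' => by split_ifs <;> [exact hVH0 e'; exact hVV0 e'])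
    (fun e' => by split_ifs <;> [exact hVV0 e'; exact hVH0 e'])
    (fun e' => by
      by_cases hh : hor₀ e' = true
      · rw [if_pos hh]
        exact isValueAt_of_sigma_eq (u := Uprod w ψ u) (horBranch_of_hor hh) (hVH e')
      · rw [if_neg hh]
        exact isValueAt_of_sigma_eq (u := Uprod w ψ u) (verBranch_of_not hh) (hVV e'))
    (fun e' => by
      by_cases hh : hor₀ e' = true
      · rw [if_pos hh]
        exact isValueAt_of_sigma_eq (u := Uprod w ψ u) (verBranch_of_hor hh) (hVV e')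
      · rw [if_neg hh]
        exact isValueAt_of_sigma_eq (u := Uprod w ψ u) (horBranch_of_not hh) (hVH e'))
  refine ⟨κ₀, hκ₀, fun e' => ?_⟩
  have h1 := hcob e'
  unfold horEnd verEnd
  by_cases hh : hor₀ e' = true
  · simp only [hh, if_true] at h1 ⊢
    exact h1.symm
  · simp only [hh, if_false, Bool.false_eq_true] at h1 ⊢
    exact h1

/-- **(I7-PUSH), the potential.**  For every node `e'` of `S₀`, `T e'` the nodes of `S` over it
with weights `wt`; the weighted product formula at the two branches of `e'` (`NormFibre`) for the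
horizontal resp. vertical branches of the nodes of `T e'`.  Then there is ONE potential `κ₀` on the
graph of `S₀` relating the weighted products of the values of a good representative. -/
theorem exists_potential_of_normFibre
    (hF₀ : RiemannPkg K F₀) (hFt₀ : ∀ v, RiemannPkg k (Ft₀ v))
    (φ : F₀ →ₐ[K] F) (hφ : φ.toRingHom.IsIntegral) (hfin : FiniteAlong K φ)
    (hN : NormFormulaAlong K φ hfin)
    (hNR : ∀ v, NormRes S₀ S φ v (w v) (ψ v)) (v₀ : ι₀)
    {m : ℕ} (hm : m ≠ 0) {z : Pic0 K F} {D : Divisor.degZero (K := K) (F := F)} {f : F}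
    {u : ∀ w', Ft w'} (hG : IsGood S m z D f u)
    (h0 : PicFunct.pic0Push φ hφ hfin hN z = 0)
    (hsm : ∀ P : Place K F, S.IsSmoothPlace P → S₀.IsSmoothPlace (P.restrictAlong φ hφ))
    (hor₀ : ν₀ → Bool) (hor : ν → Bool) (T : ν₀ → Finset ν) (wt : ν → ℕ)
    (hH : ∀ e', NormFibre w ψ (horBranch S₀ hor₀ e') (T e') (horBranch S hor) wt)
    (hV : ∀ e', NormFibre w ψ (verBranch S₀ hor₀ e') (T e') (verBranch S hor) wt)
    (av bv : ν → k) (ha0 : ∀ e, av e ≠ 0) (hb0 : ∀ e, bv e ≠ 0)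
    (ha : ∀ e, IsValueAt (S.s₁ e) (u (S.src e)) (av e))
    (hb : ∀ e, IsValueAt (S.s₂ e) (u (S.tgt e)) (bv e)) :
    ∃ κ₀ : ι₀ → k, (∀ v, κ₀ v ≠ 0) ∧ ∀ e',
      (∏ n ∈ T e', valH hor av bv n ^ wt n) * κ₀ (verEnd S₀ hor₀ e') =
        (∏ n ∈ T e', valV hor av bv n ^ wt n) * κ₀ (horEnd S₀ hor₀ e') :=
  exists_coboundary_core_hor hF₀ hFt₀ φ hφ hfin hN hNR v₀ hm hG h0
    (fun P hP => ValPush.push_apply_eq_zero_of_not_smooth φ hφ hsm hG.smooth P hP) hor₀ _ _
    (fun e' => Finset.prod_ne_zero_iff.mpr fun n _ => pow_ne_zero _ (valH_ne_zero hor ha0 hb0 n))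
    (fun e' => Finset.prod_ne_zero_iff.mpr fun n _ => pow_ne_zero _ (valV_ne_zero hor ha0 hb0 n))
    (fun e' => hH e' u (valH hor av bv) fun n _ => isValueAt_horBranch hor ha hb n)
    (fun e' => hV e' u (valV hor av bv) fun n _ => isValueAt_verBranch hor ha hb n)

/-- **(I7-PUSH), the relations `(rW)`, `(rT)` of `GeoTorPush.hcoch_of_parts`.**  The nodes of `S₀`
over the crossing `e` are `mW e` (one node `nW e` above, weight `q`) and `mT e` (the node `nT e` of
weight `1` and the nodes `nk e s` of weight `d` above); their horizontal ends are the components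
`vW`, `vT`, their vertical end the chain component `vE e`. -/
theorem push_relations
    (hF₀ : RiemannPkg K F₀) (hFt₀ : ∀ v, RiemannPkg k (Ft₀ v))
    (φ : F₀ →ₐ[K] F) (hφ : φ.toRingHom.IsIntegral) (hfin : FiniteAlong K φ)
    (hN : NormFormulaAlong K φ hfin)
    (hNR : ∀ v, NormRes S₀ S φ v (w v) (ψ v)) (v₀ : ι₀)
    {m : ℕ} (hm : m ≠ 0) {z : Pic0 K F} {D : Divisor.degZero (K := K) (F := F)} {f : F}
    {u : ∀ w', Ft w'} (hG : IsGood S m z D f u)
    (h0 : PicFunct.pic0Push φ hφ hfin hN z = 0)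
    (hsm : ∀ P : Place K F, S.IsSmoothPlace P → S₀.IsSmoothPlace (P.restrictAlong φ hφ))
    (hor₀ : ν₀ → Bool) (hor : ν → Bool) (T : ν₀ → Finset ν) (wt : ν → ℕ)
    (hH : ∀ e', NormFibre w ψ (horBranch S₀ hor₀ e') (T e') (horBranch S hor) wt)
    (hV : ∀ e', NormFibre w ψ (verBranch S₀ hor₀ e') (T e') (verBranch S hor) wt)
    (av bv : ν → k) (ha0 : ∀ e, av e ≠ 0) (hb0 : ∀ e, bv e ≠ 0)
    (ha : ∀ e, IsValueAt (S.s₁ e) (u (S.src e)) (av e))
    (hb : ∀ e, IsValueAt (S.s₂ e) (u (S.tgt e)) (bv e))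
    {SSp KP : Type*} [Fintype KP] (nW nT : SSp → ν) (nk : SSp → KP → ν) (q d : ℕ)
    (mW mT : SSp → ν₀) (vW vT : ι₀) (vE : SSp → ι₀)
    (hTW : ∀ e n, n ∈ T (mW e) ↔ n = nW e)
    (hTT : ∀ e n, n ∈ T (mT e) ↔ n = nT e ∨ ∃ s, n = nk e s)
    (hnk : ∀ e, Function.Injective (nk e)) (hnT : ∀ e s, nT e ≠ nk e s)
    (hwtW : ∀ e, wt (nW e) = q) (hwtT : ∀ e, wt (nT e) = 1) (hwtk : ∀ e s, wt (nk e s) = d)
    (hWh : ∀ e, horEnd S₀ hor₀ (mW e) = vW) (hWv : ∀ e, verEnd S₀ hor₀ (mW e) = vE e)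
    (hTh : ∀ e, horEnd S₀ hor₀ (mT e) = vT) (hTv : ∀ e, verEnd S₀ hor₀ (mT e) = vE e) :
    ∃ κ₀ : ι₀ → k, (∀ v, κ₀ v ≠ 0) ∧
      (∀ e, valH hor av bv (nW e) ^ q * κ₀ (vE e) = valV hor av bv (nW e) ^ q * κ₀ vW) ∧
      ∀ e, (valH hor av bv (nT e) * ∏ s, valH hor av bv (nk e s) ^ d) * κ₀ (vE e) =
        (valV hor av bv (nT e) * ∏ s, valV hor av bv (nk e s) ^ d) * κ₀ vT := by
  classical
  obtain ⟨κ₀, hκ₀, hrel⟩ := exists_potential_of_normFibre hF₀ hFt₀ φ hφ hfin hN hNR v₀ hm hG h0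
    hsm hor₀ hor T wt hH hV av bv ha0 hb0 ha hb
  have hTW' : ∀ e, T (mW e) = {nW e} := fun e => by
    ext n
    rw [hTW, Finset.mem_singleton]
  have hTT' : ∀ e, T (mT e) = insert (nT e) (Finset.univ.image (nk e)) := fun e => by
    ext n
    rw [hTT, Finset.mem_insert, Finset.mem_image]
    constructor
    · rintro (h | ⟨s, hs⟩)
      · exact Or.inl h
      · exact Or.inr ⟨s, Finset.mem_univ s, hs.symm⟩
    · rintro (h | ⟨s, -, hs⟩)
      · exact Or.inl h
      · exact Or.inr ⟨s, hs.symm⟩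
  have hnot : ∀ e, nT e ∉ Finset.univ.image (nk e) := fun e h => by
    obtain ⟨s, -, hs⟩ := Finset.mem_image.mp h
    exact hnT e s hs.symm
  have hprod : ∀ (g : ν → k) (e : SSp), ∏ n ∈ T (mT e), g n ^ wt n =
      g (nT e) * ∏ s, g (nk e s) ^ d := fun g e => by
    rw [hTT' e, Finset.prod_insert (hnot e), hwtT e, pow_one,
      Finset.prod_image fun s _ s' _ h => hnk e h]
    congr 1
    exact Finset.prod_congr rfl fun s _ => by rw [hwtk e s]
  refine ⟨κ₀, hκ₀, fun e => ?_, fun e => ?_⟩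
  · have h1 := hrel (mW e)
    rw [hTW' e, Finset.prod_singleton, Finset.prod_singleton, hwtW e, hWh e, hWv e] at h1
    exact h1
  · have h1 := hrel (mT e)
    rw [hprod, hprod, hTh e, hTv e] at h1
    exact h1

end Fermat.Agent.BR3.PushShapes
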