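import Mathlib
import Fermat.Agent.BR3.PushShapes

/-!
# Program C (S36), node (I7-PUSH), part 3: ramification indices of the residue extensions at the
branch points

Adapters producing the hypothesis `Q.ramificationIndexAlong ψ = wt n` of
`PushShapes.normFibre_of_enum` / `ValPush.exists_coboundary_of_push_eq_zero_enum`.

`ψ : L₀ →ₐ[k] L` a finite map of function fields over `k`, `Q` a place of `L`,
`Q' = Q.restrictAlong ψ hψ`.

* `ramificationIndexAlong_pos`;
* `ramificationIndexAlong_of_ord_eq_one` : `ord_{Q'} t = 1 ⟹ e (Q | Q') = ord_Q (ψ t)`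
  (e.g. `t = T` at `T = 0` on the exceptional line, orders from `BR3/VertPts`);
  `ramificationIndexAlong_of_ord_eq_neg_one` : `ord_{Q'} t = -1 ⟹ e (Q | Q') = - ord_Q (ψ t)`
  (`T = ∞`);
* `sum_ramificationIndexAlong` : the fundamental identity at a place of degree one with all places
  above of degree one: `∑_{Q | Q'} e (Q | Q') = [L : L₀]`;
* `ramificationIndexAlong_eq_finrankAlong_of_unique` : the only place over `Q'` has `e = [L : L₀]`
  (totally ramified points: the Kummer point of a middle component, the point of `z e` over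
  `T = 0`);
* `ramificationIndexAlong_eq_one_of_finrankAlong_eq_one` : `[L : L₀] = 1 ⟹ e = 1` (`cInf` along
  `a`, `cZero` along `b`);
* `ramificationIndexAlong_eq_of_le_of_sum` : lower bounds `wt Q ≤ e (Q | Q')` adding up to the
  degree are equalities.
-/

set_option autoImplicit false
set_option linter.unusedVariables false
set_option linter.unusedSectionVars false
set_option linter.style.haveILetI false

noncomputable section

namespace Fermat.Agent.BR3.PushRam

open AlgebraicCurve Fermat.Agent.Red Fermat.Agent.Jac Fermat.Agent.X0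

variable {k L₀ L : Type*} [Field k] [Field L₀] [Field L] [Algebra k L₀] [Algebra k L]

theorem ramificationIndexAlong_pos (ψ : L₀ →ₐ[k] L) (hψ : ψ.toRingHom.IsIntegral)
    (Q : Place k L) : 0 < Q.ramificationIndexAlong ψ := by
  letI := algebraAlong ψ
  haveI := isScalarTower_along ψ
  haveI := isIntegral_along ψ hψ
  exact Q.ramificationIndex_pos (F := L₀)

/-- `ord_{Q'} t = 1 ⟹ e (Q | Q') = ord_Q (ψ t)` -/
theorem ramificationIndexAlong_of_ord_eq_one (ψ : L₀ →ₐ[k] L) (hψ : ψ.toRingHom.IsIntegral)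
    (Q : Place k L) {t : L₀} (ht : (Q.restrictAlong ψ hψ).ord t = 1) :
    (Q.ramificationIndexAlong ψ : ℤ) = Q.ord (ψ t) := by
  rw [Place.ord_restrictAlong ψ hψ Q t, ht, mul_one]

/-- `ord_{Q'} t = -1 ⟹ e (Q | Q') = - ord_Q (ψ t)` -/
theorem ramificationIndexAlong_of_ord_eq_neg_one (ψ : L₀ →ₐ[k] L) (hψ : ψ.toRingHom.IsIntegral)
    (Q : Place k L) {t : L₀} (ht : (Q.restrictAlong ψ hψ).ord t = -1) :
    (Q.ramificationIndexAlong ψ : ℤ) = - Q.ord (ψ t) := by
  rw [Place.ord_restrictAlong ψ hψ Q t, ht]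
  ring

/-- natural-number forms -/
theorem ramificationIndexAlong_eq_of_ord_eq_one (ψ : L₀ →ₐ[k] L) (hψ : ψ.toRingHom.IsIntegral)
    (Q : Place k L) {t : L₀} (ht : (Q.restrictAlong ψ hψ).ord t = 1) {n : ℕ}
    (hn : Q.ord (ψ t) = n) : Q.ramificationIndexAlong ψ = n := by
  have h := ramificationIndexAlong_of_ord_eq_one ψ hψ Q ht
  rw [hn] at h
  exact_mod_cast h

theorem ramificationIndexAlong_eq_of_ord_eq_neg_one (ψ : L₀ →ₐ[k] L)
    (hψ : ψ.toRingHom.IsIntegral) (Q : Place k L) {t : L₀}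
    (ht : (Q.restrictAlong ψ hψ).ord t = -1) {n : ℕ} (hn : Q.ord (ψ t) = -(n : ℤ)) :
    Q.ramificationIndexAlong ψ = n := by
  have h := ramificationIndexAlong_of_ord_eq_neg_one ψ hψ Q ht
  rw [hn, neg_neg] at h
  exact_mod_cast h

section FI

variable [HasPrincipalDivisors k L]

/-- **The fundamental identity at a place of degree one** all of whose extensions have degree
one: `∑_{Q | Q'} e (Q | Q') = [L : L₀]`. -/
theorem sum_ramificationIndexAlong (ψ : L₀ →ₐ[k] L) (hψ : ψ.toRingHom.IsIntegral)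
    (hFI : FundamentalIdentityAlong k ψ hψ) (Q' : Place k L₀) (hQ' : Q'.deg = 1)
    (hdeg : ∀ Q ∈ Place.fiberAlong ψ hψ Q', Q.deg = 1) :
    ∑ Q ∈ Place.fiberAlong ψ hψ Q', Q.ramificationIndexAlong ψ = finrankAlong k ψ := by
  letI := algebraAlong ψ
  haveI := isScalarTower_along ψ
  haveI := isIntegral_along ψ hψ
  haveI : FundamentalIdentity k L₀ L := hFI
  have h := FundamentalIdentity.sum_ramificationIndex_mul_deg (K := k) (F := L₀) (F' := L) Q'
  rw [hQ'] at h
  have h2 : ∑ Q ∈ Q'.fiber L, ((Q.ramificationIndex L₀ : ℕ) : ℤ) * (Q.deg : ℤ) =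
      ∑ Q ∈ Q'.fiber L, ((Q.ramificationIndex L₀ : ℕ) : ℤ) :=
    Finset.sum_congr rfl fun Q hQ => by
      have : Q.deg = 1 := hdeg Q hQ
      rw [this]
      simp
  rw [h2] at h
  have h3 : ((∑ Q ∈ Q'.fiber L, Q.ramificationIndex L₀ : ℕ) : ℤ) =
      (Module.finrank L₀ L : ℤ) := by
    push_cast
    rw [h]
    simp
  have h4 : ∑ Q ∈ Q'.fiber L, Q.ramificationIndex L₀ = Module.finrank L₀ L := by
    exact_mod_cast h3
  exact h4

/-- **A totally ramified point**: the only place over `Q'` has ramification index `[L : L₀]`. -/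
theorem ramificationIndexAlong_eq_finrankAlong_of_unique (ψ : L₀ →ₐ[k] L)
    (hψ : ψ.toRingHom.IsIntegral) (hFI : FundamentalIdentityAlong k ψ hψ) (Q : Place k L)
    (hQ' : (Q.restrictAlong ψ hψ).deg = 1) (hQ : Q.deg = 1)
    (huniq : ∀ Q₁ : Place k L, Q₁.restrictAlong ψ hψ = Q.restrictAlong ψ hψ → Q₁ = Q) :
    Q.ramificationIndexAlong ψ = finrankAlong k ψ := by
  have hfib : Place.fiberAlong ψ hψ (Q.restrictAlong ψ hψ) = {Q} := by
    ext Q₁
    rw [Place.mem_fiberAlong, Finset.mem_singleton]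
    exact ⟨huniq Q₁, fun h => by rw [h]⟩
  have h := sum_ramificationIndexAlong ψ hψ hFI (Q.restrictAlong ψ hψ) hQ' (fun Q₁ hQ₁ => by
    rw [hfib, Finset.mem_singleton] at hQ₁
    rw [hQ₁]
    exact hQ)
  rwa [hfib, Finset.sum_singleton] at h

/-- **Degree one**: `[L : L₀] = 1 ⟹ e (Q | Q') = 1`. -/
theorem ramificationIndexAlong_eq_one_of_finrankAlong_eq_one (ψ : L₀ →ₐ[k] L)
    (hψ : ψ.toRingHom.IsIntegral) (hFI : FundamentalIdentityAlong k ψ hψ)
    (h1 : finrankAlong k ψ = 1) (Q : Place k L) (hQ' : (Q.restrictAlong ψ hψ).deg = 1)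
    (hdeg : ∀ Q₁ : Place k L, Q₁.deg = 1) : Q.ramificationIndexAlong ψ = 1 := by
  have h := sum_ramificationIndexAlong ψ hψ hFI (Q.restrictAlong ψ hψ) hQ'
    (fun Q₁ _ => hdeg Q₁)
  rw [h1] at h
  have hmem : Q ∈ Place.fiberAlong ψ hψ (Q.restrictAlong ψ hψ) := Place.mem_fiberAlong.mpr rfl
  have hle : Q.ramificationIndexAlong ψ ≤
      ∑ Q₁ ∈ Place.fiberAlong ψ hψ (Q.restrictAlong ψ hψ), Q₁.ramificationIndexAlong ψ :=
    Finset.single_le_sum (f := fun Q₁ : Place k L => Q₁.ramificationIndexAlong ψ)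
      (fun _ _ => Nat.zero_le _) hmem
  have hpos := ramificationIndexAlong_pos ψ hψ Q
  omega

/-- **Lower bounds adding up to the degree are equalities**: if `wt Q ≤ e (Q | Q')` for all `Q`
over `Q'` and `∑ wt Q = [L : L₀]`, then `e (Q | Q') = wt Q` (e.g. `(1, d, d)` on `z e` over
`T = ∞`). -/
theorem ramificationIndexAlong_eq_of_le_of_sum (ψ : L₀ →ₐ[k] L) (hψ : ψ.toRingHom.IsIntegral)
    (hFI : FundamentalIdentityAlong k ψ hψ) (Q' : Place k L₀) (hQ' : Q'.deg = 1)
    (hdeg : ∀ Q ∈ Place.fiberAlong ψ hψ Q', Q.deg = 1) (wt : Place k L → ℕ)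
    (hle : ∀ Q ∈ Place.fiberAlong ψ hψ Q', wt Q ≤ Q.ramificationIndexAlong ψ)
    (hsum : ∑ Q ∈ Place.fiberAlong ψ hψ Q', wt Q = finrankAlong k ψ) :
    ∀ Q ∈ Place.fiberAlong ψ hψ Q', Q.ramificationIndexAlong ψ = wt Q := by
  have h := sum_ramificationIndexAlong ψ hψ hFI Q' hQ' hdeg
  have h2 := (Finset.sum_eq_sum_iff_of_le hle).mp (hsum.trans h.symm)
  exact fun Q hQ => (h2 Q hQ).symm

end FI

end Fermat.Agent.BR3.PushRam
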