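import Mathlib
import Fermat.Agent.Good.RamDataBar
import Fermat.Agent.X0.Alg.AffineModel
import Fermat.Agent.BR2.LevelGen
import Fermat.Agent.Hecke.HeckeDegrees
import Fermat.Agent.BR3.PushRam
import Fermat.Agent.BR3.FibreProd
import Fermat.Agent.BR.GenusNodeCount

/-!
# Program C, team (ELL-PUR), piece (ELL-PUR-H)(a): the degeneracy map `α` is unramified at every
non-cuspidal place when the lower level has no elliptic points

* `ord_jBar_eq_three N (h3 : nuThree N = 0)` : every zero of `j` on `X₀(N)` has order exactly `3`;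
* `ord_jBar_sub_1728_eq_two N (h2 : nuTwo N = 0)` : every zero of `j - 1728` has order exactly `2`;
* **`ramificationIndexAlong_alpha_eq_one N ℓ h2 h3 w (hw : 0 ≤ w.ord (jBar (N ℓ)))`** :
  `e (w / w ∘ α) = 1` for `α = heckeAlphaBar Kb N ℓ : Fb N → Fb (N ℓ)` at every place `w` of
  `Fb (N ℓ)` which is not a pole of `j` (only the LOWER level needs "no elliptic points");
* `nuTwo_mul_prime`, `nuThree_mul_prime` : `X₀(M q)` has no elliptic points when `X₀(M)` has none;
* **`ramificationIndexAlong_alpha2_eq_one`** : the instance `α₂ : Fb (M q) → Fb (M q q)`.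

Counting argument: the `ψ(N)/3` places over `j = 0` have orders dividing `3` with sum `ψ(N)`, hence
all equal to `3`; upstairs the order of `j - c` at `w` is `e` times the order downstairs and divides
`3` (resp. `2`, resp. is `≤ 1`).
-/

set_option autoImplicit false
set_option linter.unusedSectionVars false

namespace Fermat.Agent.BR3.EllPurityUnram

open AlgebraicCurve ModularCurve Fermat.Agent.X0 Fermat.Agent.Red

/-- A finite family of positive divisors of `p` (prime) whose sum is `p` times the cardinality is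
constant equal to `p`. -/
theorem eq_of_sum_eq_card_mul {ι : Type*} (s : Finset ι) (f : ι → ℤ) (p : ℕ)
    (hle : ∀ i ∈ s, f i ≤ p) (hsum : ∑ i ∈ s, f i = p * s.card) : ∀ i ∈ s, f i = p := by
  have h0 : ∑ i ∈ s, ((p : ℤ) - f i) = 0 := by
    rw [Finset.sum_sub_distrib, hsum, Finset.sum_const, nsmul_eq_mul]
    ring
  have h1 := (Finset.sum_eq_zero_iff_of_nonneg fun i hi => sub_nonneg.mpr (hle i hi)).mp h0
  intro i hi
  have := h1 i hi
  omega

variable (N : ℕ) [NeZero N]

/-- the number of places over `a` as the cardinality of the finset of `sum_ord_placesOver` -/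
theorem card_toFinset_placesOver (a : Kb) :
    (finite_placesOver (jBar_isSepVar N) a).toFinset.card = Nat.card (placesOver (jBar N) a) := by
  rw [Nat.card_coe_set_eq, Set.ncard_eq_toFinset_card _ (finite_placesOver (jBar_isSepVar N) a)]

/-- **No elliptic points of order three: every zero of `j` has order exactly `3`.** -/
theorem ord_jBar_eq_three (h3 : nuThree N = 0) (v : Place Kb (Fb N)) (hv : 0 < v.ord (jBar N)) :
    v.ord (jBar N) = 3 := by
  have hsum := sum_ord_placesOver (jBar_isSepVar N) (0 : Kb)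
  have hcard : (finite_placesOver (jBar_isSepVar N) (0 : Kb)).toFinset.card =
      orbitCount N (ModularGroup.S * ModularGroup.T) :=
    (card_toFinset_placesOver N 0).trans (card_placesOver_zero N)
  have h3' := three_mul_orbitCount_ST N
  rw [h3, mul_zero, add_zero] at h3'
  have hmem : ∀ w : Place Kb (Fb N), w ∈ (finite_placesOver (jBar_isSepVar N) (0 : Kb)).toFinset ↔
      0 < w.ord (jBar N) := by
    intro w
    rw [Set.Finite.mem_toFinset, mem_placesOver, map_zero, sub_zero]
  have key := eq_of_sum_eq_card_mul (finite_placesOver (jBar_isSepVar N) (0 : Kb)).toFinset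
    (fun w => w.ord (jBar N - algebraMap Kb (Fb N) 0)) 3 ?_ ?_ v ((hmem v).mpr hv)
  · simpa using key
  · intro w hw
    have hpos := (hmem w).mp hw
    have hdvd := Fermat.Agent.Good.RamBar.ord_jBar_dvd_three N w hpos
    simp only [map_zero, sub_zero]
    exact Int.le_of_dvd (by norm_num) hdvd
  · rw [hsum, hcard]
    push_cast
    exact_mod_cast h3'.symm

/-- **No elliptic points of order two: every zero of `j - 1728` has order exactly `2`.** -/
theorem ord_jBar_sub_1728_eq_two (h2 : nuTwo N = 0) (v : Place Kb (Fb N))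
    (hv : 0 < v.ord (jBar N - algebraMap Kb (Fb N) 1728)) :
    v.ord (jBar N - algebraMap Kb (Fb N) 1728) = 2 := by
  have hsum := sum_ord_placesOver (jBar_isSepVar N) (1728 : Kb)
  have hcard : (finite_placesOver (jBar_isSepVar N) (1728 : Kb)).toFinset.card =
      orbitCount N ModularGroup.S :=
    (card_toFinset_placesOver N 1728).trans (card_placesOver_1728 N)
  have h2' := two_mul_orbitCount_S N
  rw [h2, add_zero] at h2'
  have hmem : ∀ w : Place Kb (Fb N),
      w ∈ (finite_placesOver (jBar_isSepVar N) (1728 : Kb)).toFinset ↔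
      0 < w.ord (jBar N - algebraMap Kb (Fb N) 1728) := by
    intro w
    rw [Set.Finite.mem_toFinset, mem_placesOver]
  refine eq_of_sum_eq_card_mul (finite_placesOver (jBar_isSepVar N) (1728 : Kb)).toFinset
    (fun w => w.ord (jBar N - algebraMap Kb (Fb N) 1728)) 2 ?_ ?_ v ((hmem v).mpr hv)
  · intro w hw
    have hpos := (hmem w).mp hw
    have hdvd := Fermat.Agent.Good.RamBar.ord_jBar_sub_1728_dvd_two N w hpos
    exact Int.le_of_dvd (by norm_num) hdvd
  · rw [hsum, hcard]
    push_cast
    exact_mod_cast h2'.symm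

variable (ℓ : ℕ) [NeZero ℓ]

local instance : NeZero (N * ℓ) := ⟨Nat.mul_ne_zero (NeZero.ne N) (NeZero.ne ℓ)⟩

/-- **`α : Fb N → Fb (N ℓ)` is unramified at every non-cuspidal place when the level `N` has no
elliptic points.** -/
theorem ramificationIndexAlong_alpha_eq_one (h2 : nuTwo N = 0) (h3 : nuThree N = 0)
    (w : Place Kb (Fb (N * ℓ))) (hw : 0 ≤ w.ord (jBar (N * ℓ))) :
    Place.ramificationIndexAlong (heckeAlphaBar Kb N ℓ) w = 1 := by
  have hφ : (heckeAlphaBar Kb N ℓ).toRingHom.IsIntegral :=
    Fermat.Agent.BR2.LevelGen.isIntegral_fb (heckeAlphaBar Kb N ℓ)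
  have he := Fermat.Agent.BR3.PushRam.ramificationIndexAlong_pos (heckeAlphaBar Kb N ℓ) hφ w
  set e := Place.ramificationIndexAlong (heckeAlphaBar Kb N ℓ) w with he_def
  set w' := w.restrictAlong (heckeAlphaBar Kb N ℓ) hφ with hw'
  have hj := Fermat.Agent.Hecke.Deg.heckeAlphaBar_jBar N ℓ
  -- `ord_w (j - c) = e · ord_{w'} (j - c)`
  have hord : ∀ c : Kb, w.ord (jBar (N * ℓ) - algebraMap Kb (Fb (N * ℓ)) c) =
      e * w'.ord (jBar N - algebraMap Kb (Fb N) c) := by
    intro c
    rw [← Place.ord_restrictAlong (heckeAlphaBar Kb N ℓ) hφ w, map_sub, hj, AlgHom.commutes]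
  have hord0 : w.ord (jBar (N * ℓ)) = e * w'.ord (jBar N) := by
    have := hord 0
    simpa using this
  have hepos : (0 : ℤ) < e := by exact_mod_cast he
  -- `j` is regular at `w'`
  have hreg : 0 ≤ w'.ord (jBar N) := by
    rw [hord0] at hw
    exact nonneg_of_mul_nonneg_right hw hepos
  have hmem : jBar N ∈ w'.toValuationSubring := (Place.mem_iff_ord_nonneg w').mpr hreg
  obtain ⟨c, hc⟩ := exists_isValueAt w' (Place.alg_deg_eq_one (jBar_isSepVar N) w') hmem
  have hne : jBar N - algebraMap Kb (Fb N) c ≠ 0 := by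
    intro h0
    have h1 : jBar N = algebraMap Kb (Fb N) c := sub_eq_zero.mp h0
    exact (jBar_transcendental N) (h1 ▸ isAlgebraic_algebraMap c)
  have hpos : 0 < w'.ord (jBar N - algebraMap Kb (Fb N) c) := by
    rcases isValueAt_iff.mp hc with h | h
    · exact absurd (sub_eq_zero.mpr h) hne
    · exact h
  -- the three cases
  have hfinal : (e : ℤ) = 1 := by
    by_cases hc0 : c = 0
    · subst hc0
      have h1 : w'.ord (jBar N) = 3 := by
        apply ord_jBar_eq_three N h3
        simpa using hpos
      have h2' : 0 < w.ord (jBar (N * ℓ)) := by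
        rw [hord0, h1]
        positivity
      have h3' := Fermat.Agent.Good.RamBar.ord_jBar_dvd_three (N * ℓ) w h2'
      rw [hord0, h1] at h3'
      have h4 := Int.le_of_dvd (by norm_num) h3'
      omega
    · by_cases hc1 : c = 1728
      · subst hc1
        have h1 := ord_jBar_sub_1728_eq_two N h2 w' hpos
        have h2' : 0 < w.ord (jBar (N * ℓ) - algebraMap Kb (Fb (N * ℓ)) 1728) := by
          rw [hord, h1]
          positivity
        have h3' := Fermat.Agent.Good.RamBar.ord_jBar_sub_1728_dvd_two (N * ℓ) w h2'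
        rw [hord, h1] at h3'
        have h4 := Int.le_of_dvd (by norm_num) h3'
        omega
      · have h1 := Fermat.Agent.Good.RamBar.ord_jBar_sub_le_one' (N * ℓ) w c hc0 hc1
        rw [hord] at h1
        nlinarith
  exact_mod_cast hfinal

section Alpha2

open Fermat.Agent.BR3.FibreProd

variable {M q : ℕ} [NeZero M] [hq : Fact q.Prime]

theorem nuTwo_mul_prime (hqM : ¬ q ∣ M) (h2 : nuTwo M = 0) : nuTwo (M * q) = 0 := by
  have hcop : M.Coprime q := ((Nat.Prime.coprime_iff_not_dvd hq.out).mpr hqM).symm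
  rw [Fermat.Agent.BR.GenusCount.nuTwo_mul_of_coprime hcop, h2, zero_mul]

theorem nuThree_mul_prime (hqM : ¬ q ∣ M) (h3 : nuThree M = 0) : nuThree (M * q) = 0 := by
  have hcop : M.Coprime q := ((Nat.Prime.coprime_iff_not_dvd hq.out).mpr hqM).symm
  rw [Fermat.Agent.BR.GenusCount.nuThree_mul_of_coprime hcop, h3, zero_mul]

/-- **`α₂ : Fb (M q) → Fb (M q q)` is unramified at every non-cuspidal place** (`M` prime to `q`,
without elliptic points). -/
theorem ramificationIndexAlong_alpha2_eq_one (hqM : ¬ q ∣ M) (h2 : nuTwo M = 0)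
    (h3 : nuThree M = 0) (w : Place Kb (Fb (M * q * q))) (hw : 0 ≤ w.ord (jBar (M * q * q))) :
    Place.ramificationIndexAlong (alpha2 M q) w = 1 := by
  have : NeZero q := ⟨hq.out.ne_zero⟩
  exact ramificationIndexAlong_alpha_eq_one (M * q) q (nuTwo_mul_prime hqM h2)
    (nuThree_mul_prime hqM h3) w hw

end Alpha2

end Fermat.Agent.BR3.EllPurityUnram
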