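import Fermat.Agent.BR3.CoverSheetMid
import Fermat.Agent.BR3.KummerGenus.MidInst
import Fermat.Agent.BR3.CuspMid.Unram
import Fermat.Agent.BR3.CoverSheetInf.Value
import Fermat.Agent.BR.Inst.Inf.TwoCompInf

/-!
# Program C, node (SC3), inputs (i) + (value) + (ii) at the NON-ELLIPTIC finite ordinary points

Level one, any field `k`: **`(θ j̃)⁶ = j̃⁴ (j̃ - 1728)³ Δ̃`** (`thetaL_jqModC_pow_six`, from the three
identities of `IgSq/Laurent`); in characteristic `q`, with `T̄ = TK k q = Δ̃^(1-q)`: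
`((θ j̃)^(q-1))⁶ · T̄ = (j̃⁴ (j̃ - 1728)³)^(q-1)` (`thetaL_pow_six_mul_TK`).

In `F̃_M = modularFunctionFieldFullC k_B M` (`γ = gammaMid`, `δ = deltaMid`, helper5's `MidInst`):

* `TbarM` (`= (constRedW1).res T`), `gammaMid_pow_six_mul : γ⁶ · T̄ = (j̃⁴ (j̃ - 1728)³)^(q-1)`;
* `six_mul_ord_gammaMid` : at a finite non-crossing point `Q'` of `can`
  (`ord_TbarM_eq_zero`, from `exists_value_TB_of_not_crossing`):
  `6 ord γ = (q-1) (4 ord j̃ + 3 ord (j̃ - 1728))`; `div_mul_ord_deltaMid`;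
* **`ord_algebraMap_mid`** : (ii) the field `ord_map` of the middle sheets from
  `fMid ∣ ord_{Q'} δ` (helper21's `Unram.ord_algebraMap_of_dvd` for helper5's `midDatum`);
  `ord_algebraMap_mid_of_dvd` : from `3 ∣ ord j̃`, `2 ∣ ord (j̃ - 1728)`;
* `varthetaJ = T̄ · θ j̃ ∈ FMid M B`, **`exists_value_varthetaJ`** : at a finite non-crossing `Q'`
  with `ord j̃ = ord (j̃ - 1728) = 0` every `Q''` over `Q'` is unramified and `T̄ · θ j̃` has a
  nonzero finite value at `Q''`;
* **`exists_coverSheet_mid_jBar`** : (SC3) the sheet of the middle component `w₂ b` at such a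
  `Q''`, generator `θ = β₂ T' · U / (ζ^{b+1} - 1)` (`x = j` in
  `CoverSheetMid.exists_coverSheet_mid_TB'`; NO local parameter is needed), remaining hypotheses
  `hΨR` (coefficient ring) and `hlift` only.

The elliptic ordinary points (`j̃(Q') ∈ {0, 1728}`, `q ≡ 1 mod 3` resp. `mod 4`) need
`ord_{Q'} j̃ = 3` resp. `ord_{Q'} (j̃ - 1728) = 2` in characteristic `q` (finding #1231).
-/

set_option autoImplicit false
set_option linter.style.haveILetI false
set_option linter.unusedSectionVars false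

noncomputable section

/- S36 build-time patch: file-local shortcut instances. They only shorten instance search;
each is the instance that the search finds anyway (reducible, same terms after unfolding). -/
local instance (priority := 100000) Fermat.Agent.BR3.FastInst.instAlgFullC_MidUnitOrd
    {k : Type*} [Field k] (N : ℕ) :
    Algebra k ↥(ModularCurve.modularFunctionFieldFullC k N) := inferInstance
local instance (priority := 100000) Fermat.Agent.BR3.FastInst.instFieldFullC_MidUnitOrd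
    {k : Type*} [Field k] (N : ℕ) :
    Field ↥(ModularCurve.modularFunctionFieldFullC k N) := inferInstance
local instance (priority := 100000) Fermat.Agent.BR3.FastInst.instAlgLaurent_MidUnitOrd
    {k : Type*} [Field k] : Algebra k (LaurentSeries k) := inferInstance


set_option synthInstance.maxHeartbeats 400000

namespace Fermat.Agent.BR3.MidUnitOrd

open ModularCurve AlgebraicCurve HahnSeries Polynomial Fermat.Agent.X0 Fermat.Agent.Val
open Fermat.Agent.Hecke.AL Fermat.Agent.BR.TwoVal Fermat.Agent.BR.ResGen Fermat.Agent.Red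
open Fermat.Agent.BR.TwoValInst Fermat.Agent.BR3.FibreProd Fermat.Agent.BR.ModUnit
open Fermat.Agent.BR.ConstRedTwo Fermat.Agent.BR3.CoverK Fermat.Agent.BR3.CoverSheetInf
open Fermat.Agent.BR3.IgSq Fermat.Agent.BR3.KummerGenus Fermat.Agent.BR3.KummerGenus.MidInst
open Fermat.Agent.BR.S0 Fermat.Agent.BR.S0.RedModular Fermat.Agent.BR.S0.PointDict
open Fermat.Agent.Eis.QExp Fermat.Agent.Igusa

section Laurent

variable (k : Type*) [Field k]

/-- **`(θ j̃)⁶ = j̃⁴ (j̃ - 1728)³ Δ̃`** (level one, any characteristic). -/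
theorem thetaL_jqModC_pow_six :
    thetaL k (jqModC k) ^ 6 = jqModC k ^ 4 * (jqModC k - 1728) ^ 3 * deltaL k := by
  have h1 := jqModC_mul_deltaL k
  have h2 := jqModC_sub_mul_deltaL k
  have h3 := thetaL_jqModC_mul_deltaL k
  have hD : deltaL k ^ 6 ≠ 0 := pow_ne_zero _ deltaL_ne_zero
  apply mul_right_cancel₀ hD
  calc thetaL k (jqModC k) ^ 6 * deltaL k ^ 6
      = (thetaL k (jqModC k) * deltaL k) ^ 6 := by ring
    _ = (psL k (eisZ 240 3) ^ 3) ^ 4 * (psL k (eisZ (-504) 5) ^ 2) ^ 3 := by rw [h3]; ring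
    _ = (jqModC k * deltaL k) ^ 4 * ((jqModC k - 1728) * deltaL k) ^ 3 := by rw [h1, h2]
    _ = jqModC k ^ 4 * (jqModC k - 1728) ^ 3 * deltaL k * deltaL k ^ 6 := by ring

theorem deltaL_eq_DeltaC : deltaL k = DeltaC k := by
  rw [deltaL_eq, DeltaC]
  rfl

variable (q : ℕ) [hq : Fact q.Prime] [CharP k q]

/-- in characteristic `q`: `((θ j̃)^(q-1))⁶ · T̄ = (j̃⁴ (j̃ - 1728)³)^(q-1)`, `T̄ = Δ̃^(1-q)` -/
theorem thetaL_pow_six_mul_TK :
    (thetaL k (jqModC k) ^ (q - 1)) ^ 6 * TK k q =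
      (jqModC k ^ 4 * (jqModC k - 1728) ^ 3) ^ (q - 1) := by
  have h := TK_mul_DeltaC_pow k q
  rw [← deltaL_eq_DeltaC] at h
  calc (thetaL k (jqModC k) ^ (q - 1)) ^ 6 * TK k q
      = (thetaL k (jqModC k) ^ 6) ^ (q - 1) * TK k q := by
        rw [← pow_mul, ← pow_mul, mul_comm (q - 1) 6]
    _ = (jqModC k ^ 4 * (jqModC k - 1728) ^ 3) ^ (q - 1) * (TK k q * deltaL k ^ (q - 1)) := by
        rw [thetaL_jqModC_pow_six, mul_pow (jqModC k ^ 4 * (jqModC k - 1728) ^ 3)]; ring
    _ = (jqModC k ^ 4 * (jqModC k - 1728) ^ 3) ^ (q - 1) := by rw [h, mul_one]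

end Laurent

variable {M q : ℕ} [NeZero M] [hq : Fact q.Prime]
variable (B : ValuationSubring (AlgebraicClosure ℚ)) (hB : B.LiesOverPrime q) (hqM : ¬ q ∣ M)

local notation "kB" => IsLocalRing.ResidueField B
local notation "FtM" => modularFunctionFieldFullC (IsLocalRing.ResidueField B) M

/-- (shortcut instances: the search through the generic instances costs seconds per declaration) -/
local instance (priority := 100000) instAlgKFt : Algebra kB FtM := inferInstance
local instance (priority := 100000) instAlgKFMid : Algebra kB (FMid M B) := inferInstance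
local instance (priority := 100000) instAlgFtFMid : Algebra FtM (FMid M B) := inferInstance
local instance (priority := 100000) instTowerMid : IsScalarTower kB FtM (FMid M B) :=
  inferInstance

/-- the reduction `T̄` of the modular unit on `can`, as an element of `F̃_M` -/
def TbarM : FtM := (constRedW1 B hB hqM).res ⟨TB M q, TB_mem_O1 M q B hB⟩

theorem coe_TbarM : ((TbarM B hB hqM : FtM) : LaurentSeries kB) = TK kB q :=
  res1_TB M q B hB

include hB in
/-- **`γ⁶ · T̄ = (j̃⁴ (j̃ - 1728)³)^(q-1)` in `F̃_M`**, `γ = (θ j̃)^(q-1)`. -/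
theorem gammaMid_pow_six_mul :
    gammaMid B hB hqM ^ 6 * TbarM B hB hqM =
      (jFullC kB M ^ 4 * (jFullC kB M - 1728) ^ 3) ^ (q - 1) := by
  haveI := charP_kB B hB
  apply Subtype.ext
  have h := thetaL_pow_six_mul_TK kB q
  have h1728 : (((1728 : FtM) : FtM) : LaurentSeries kB) = 1728 :=
    map_ofNat (algebraMap FtM (LaurentSeries kB)) 1728
  simpa [coe_TbarM, gammaMid, jFullC, h1728] using h

theorem gammaMid_ne_zero : gammaMid B hB hqM ≠ 0 := by
  intro h
  have h1 := congrArg (Subtype.val : FtM → LaurentSeries kB) h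
  exact pow_ne_zero (q - 1) (thetaL_jqModC_ne_zero B) h1

theorem jFullC_ne_zero : jFullC kB M ≠ 0 := fun h =>
  jqModC_ne_zero_of_nontrivial kB (congrArg (Subtype.val : FtM → LaurentSeries kB) h)

theorem jFullC_sub_ne_zero : jFullC kB M - 1728 ≠ 0 := by
  intro h
  have h1 := congrArg (Subtype.val : FtM → LaurentSeries kB) h
  have h1728 : (((1728 : FtM) : FtM) : LaurentSeries kB) = HahnSeries.C (1728 : kB) := by
    rw [map_ofNat HahnSeries.C 1728]
    exact map_ofNat (algebraMap FtM (LaurentSeries kB)) 1728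
  have h2 := congrArg (fun f : LaurentSeries kB => f.coeff (-1)) h1
  simp only [AddSubgroupClass.coe_sub, h1728, HahnSeries.coeff_sub, jFullC, coeff_jqModC_neg_one,
    HahnSeries.C_apply, ZeroMemClass.coe_zero, HahnSeries.coeff_zero] at h2
  rw [HahnSeries.coeff_single_of_ne (by norm_num), sub_zero] at h2
  exact one_ne_zero h2

include hB in
/-- `T̄` is a unit at the finite non-crossing points of `can` -/
theorem ord_TbarM_eq_zero (Q' : Place kB FtM)
    (hnc : ∀ e : Crossing (chartDataModular B hB hqM), Q' ≠ z₁ (chartDataModular B hB hqM) e)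
    (hj : jFullC kB M ∈ Q'.toValuationSubring) : Q'.ord (TbarM B hB hqM) = 0 := by
  obtain ⟨u, hu, hu0⟩ := exists_value_TB_of_not_crossing B hB hqM Q'
    ((riemannPkg_FtM B hB hqM).deg_one Q') hnc hj
  exact hu.ord_eq_zero hu0

theorem TbarM_ne_zero : TbarM B hB hqM ≠ 0 := by
  intro h
  have h1 := congrArg (Subtype.val : FtM → LaurentSeries kB) h
  rw [coe_TbarM] at h1
  exact TK_ne_zero kB q h1

include hB in
/-- **the order of `γ = (θ j̃)^(q-1)` at a finite non-crossing point**: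
`6 ord γ = (q-1) (4 ord j̃ + 3 ord (j̃ - 1728))` -/
theorem six_mul_ord_gammaMid (Q' : Place kB FtM)
    (hnc : ∀ e : Crossing (chartDataModular B hB hqM), Q' ≠ z₁ (chartDataModular B hB hqM) e)
    (hj : jFullC kB M ∈ Q'.toValuationSubring) :
    6 * Q'.ord (gammaMid B hB hqM) =
      ((q - 1 : ℕ) : ℤ) * (4 * Q'.ord (jFullC kB M) + 3 * Q'.ord (jFullC kB M - 1728)) := by
  have h := congrArg Q'.ord (gammaMid_pow_six_mul B hB hqM)
  rw [Q'.ord_mul (pow_ne_zero _ (gammaMid_ne_zero B hB hqM)) (TbarM_ne_zero B hB hqM),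
    ord_TbarM_eq_zero B hB hqM Q' hnc hj, add_zero, Place.ord_pow, Place.ord_pow,
    Q'.ord_mul (pow_ne_zero _ (jFullC_ne_zero B)) (pow_ne_zero _ (jFullC_sub_ne_zero B)),
    Place.ord_pow, Place.ord_pow] at h
  push_cast at h ⊢
  linarith

/-- `((q-1)/fMid) · ord δ = ord γ` -/
theorem div_mul_ord_deltaMid (Q' : Place kB FtM) :
    (((q - 1) / fMid M B hB : ℕ) : ℤ) * Q'.ord (deltaMid B hB hqM) =
      Q'.ord (gammaMid B hB hqM) := by
  rw [← deltaMid_pow, Place.ord_pow]

include hB in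
/-- **(ii) the field `ord_map` of the middle sheets**: a place `Q''` of `F̃_M(θ j̃)` over a point
`Q'` of `F̃_M` with `fMid ∣ ord_{Q'} δ` is unramified (helper21's `Unram.ord_algebraMap_of_dvd`
for helper5's `midDatum`). -/
theorem ord_algebraMap_mid [FiniteDimensional FtM (FMid M B)] (Q' : Place kB FtM)
    (hdvd : (fMid M B hB : ℤ) ∣ Q'.ord (deltaMid B hB hqM))
    {Q'' : Place kB (FMid M B)} (hQ : Q''.restrict FtM = Q') (f : FtM) :
    Q''.ord (algebraMap FtM (FMid M B) f) = Q'.ord f := by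
  haveI := (riemannPkg_FtM B hB hqM).principal
  haveI := (riemannPkg_FMid B hB hqM).principal
  haveI : FundamentalIdentity kB FtM (FMid M B) :=
    fundamentalIdentity_of_kummer (midDatum B hB hqM) (riemannPkg_FMid B hB hqM)
      (fMid_natCast_ne_zero B hB hqM)
  exact CuspMid.ord_algebraMap_of_dvd (midDatum B hB hqM) (finrank_FMid B hB hqM)
    (fMid_pos B hB hqM) (riemannPkg_FtM B hB hqM).deg_one (riemannPkg_FMid B hB hqM).deg_one Q'
    (by rw [midDatum_δ]; exact hdvd) hQ f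

include hB in
/-- `fMid · ord_{Q''} (θ j̃) = ord_{Q''} δ` -/
theorem fMid_mul_ord_thetaMid (Q'' : Place kB (FMid M B)) :
    ((fMid M B hB : ℕ) : ℤ) * Q''.ord (thetaMid B : FMid M B) =
      Q''.ord (algebraMap FtM (FMid M B) (deltaMid B hB hqM)) := by
  rw [← thetaMid_pow_fMid, Place.ord_pow]

/-- the reduction `ϑ_j = T̄ · θ j̃` of the generator `thetaGen T' j 1` on the middle components -/
def varthetaJ : FMid M B := algebraMap FtM (FMid M B) (TbarM B hB hqM) * thetaMid B

theorem coe_varthetaJ :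
    ((varthetaJ B hB hqM : FMid M B) : LaurentSeries kB) =
      TK kB q * thetaL kB (jqModC kB) := by
  rw [← coe_TbarM B hB hqM]
  rfl

include hB in
/-- **(i) + (value) + (ii) at the non-elliptic finite ordinary points**: at a finite non-crossing
point `Q'` of `can` with `j̃(Q') ≠ 0, 1728`, every place `Q''` of `F̃_M(θ j̃)` over `Q'` is
unramified and `T̄ · θ j̃` has a nonzero finite value at `Q''` (so `x = j` works in
`CoverSheetMid.exists_coverSheet_mid_TB'`; no local parameter is needed). -/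
theorem exists_value_varthetaJ [FiniteDimensional FtM (FMid M B)] (Q' : Place kB FtM)
    (hnc : ∀ e : Crossing (chartDataModular B hB hqM), Q' ≠ z₁ (chartDataModular B hB hqM) e)
    (hj : jFullC kB M ∈ Q'.toValuationSubring)
    (h0 : Q'.ord (jFullC kB M) = 0) (h1 : Q'.ord (jFullC kB M - 1728) = 0)
    {Q'' : Place kB (FMid M B)} (hQ : Q''.restrict FtM = Q') :
    (∀ f : FtM, Q''.ord (algebraMap FtM (FMid M B) f) = Q'.ord f) ∧
      ∃ u : B, IsValueAt Q'' (varthetaJ B hB hqM) (IsLocalRing.residue B u) ∧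
        IsLocalRing.residue B u ≠ 0 := by
  -- `ord γ = 0`
  have hγ : Q'.ord (gammaMid B hB hqM) = 0 := by
    have h := six_mul_ord_gammaMid B hB hqM Q' hnc hj
    rw [h0, h1] at h
    omega
  -- `ord δ = 0`
  have hpos : 0 < (q - 1) / fMid M B hB :=
    Nat.div_pos (Nat.le_of_dvd (by have := hq.out.two_le; omega) (fMid_dvd' B hB hqM))
      (fMid_pos B hB hqM)
  have hδ : Q'.ord (deltaMid B hB hqM) = 0 := by
    have h := div_mul_ord_deltaMid B hB hqM Q'
    rw [hγ] at h
    rcases mul_eq_zero.1 h with h | h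
    · exact absurd (by exact_mod_cast h) hpos.ne'
    · exact h
  have hmap := ord_algebraMap_mid B hB hqM Q' (by rw [hδ]; exact dvd_zero _) hQ
  refine ⟨hmap, ?_⟩
  -- `ord_{Q''} θ j̃ = 0`
  have hθ : Q''.ord (thetaMid B : FMid M B) = 0 := by
    have h := fMid_mul_ord_thetaMid B hB hqM Q''
    rw [hmap, hδ] at h
    rcases mul_eq_zero.1 h with h | h
    · exact absurd (by exact_mod_cast h) (fMid_pos B hB hqM).ne'
    · exact h
  have hT0 : algebraMap FtM (FMid M B) (TbarM B hB hqM) ≠ 0 :=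
    (_root_.map_ne_zero _).2 (TbarM_ne_zero B hB hqM)
  have hϑ0 : varthetaJ B hB hqM ≠ 0 := mul_ne_zero hT0 (thetaMid_ne_zero B)
  have hϑ : Q''.ord (varthetaJ B hB hqM) = 0 := by
    rw [varthetaJ, Q''.ord_mul hT0 (thetaMid_ne_zero B), hmap,
      ord_TbarM_eq_zero B hB hqM Q' hnc hj, hθ, add_zero]
  have hmem : varthetaJ B hB hqM ∈ Q''.toValuationSubring :=
    Place.mem_of_ord_nonneg Q'' hϑ.ge
  obtain ⟨c, hc⟩ := exists_isValueAt Q'' ((riemannPkg_FMid B hB hqM).deg_one Q'') hmem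
  obtain ⟨u, rfl⟩ := IsLocalRing.residue_surjective (R := B) c
  refine ⟨u, hc, fun hu0 => ?_⟩
  rw [hu0, isValueAt_iff, map_zero, sub_zero] at hc
  rcases hc with hc | hc
  · exact hϑ0 hc
  · omega

include hB in
/-- **(ii) in general**: a finite non-crossing point `Q'` of `can` with `3 ∣ ord j̃` and
`2 ∣ ord (j̃ - 1728)` (no elliptic point of `X₀(M)_k` at `Q'`) is unramified in `F̃_M(θ j̃)`. -/
theorem ord_algebraMap_mid_of_dvd [FiniteDimensional FtM (FMid M B)] (Q' : Place kB FtM)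
    (hnc : ∀ e : Crossing (chartDataModular B hB hqM), Q' ≠ z₁ (chartDataModular B hB hqM) e)
    (hj : jFullC kB M ∈ Q'.toValuationSubring)
    (h3 : (3 : ℤ) ∣ Q'.ord (jFullC kB M)) (h2 : (2 : ℤ) ∣ Q'.ord (jFullC kB M - 1728))
    {Q'' : Place kB (FMid M B)} (hQ : Q''.restrict FtM = Q') (f : FtM) :
    Q''.ord (algebraMap FtM (FMid M B) f) = Q'.ord f := by
  obtain ⟨a, ha⟩ := h3
  obtain ⟨c, hc⟩ := h2
  have hγ : Q'.ord (gammaMid B hB hqM) = ((q - 1 : ℕ) : ℤ) * (2 * a + c) := by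
    have h := six_mul_ord_gammaMid B hB hqM Q' hnc hj
    rw [ha, hc] at h
    have h' : 6 * Q'.ord (gammaMid B hB hqM) = 6 * (((q - 1 : ℕ) : ℤ) * (2 * a + c)) := by
      rw [h]; ring
    exact mul_left_cancel₀ (by norm_num) h'
  have hpos : 0 < (q - 1) / fMid M B hB :=
    Nat.div_pos (Nat.le_of_dvd (by have := hq.out.two_le; omega) (fMid_dvd' B hB hqM))
      (fMid_pos B hB hqM)
  have hδ : Q'.ord (deltaMid B hB hqM) = ((fMid M B hB : ℕ) : ℤ) * (2 * a + c) := by
    have h := div_mul_ord_deltaMid B hB hqM Q'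
    rw [hγ] at h
    have hq1 : ((q - 1 : ℕ) : ℤ) =
        (((q - 1) / fMid M B hB : ℕ) : ℤ) * ((fMid M B hB : ℕ) : ℤ) := by
      rw [← Nat.cast_mul, Nat.div_mul_cancel (fMid_dvd' B hB hqM)]
    rw [hq1, mul_assoc] at h
    exact mul_left_cancel₀ (by exact_mod_cast hpos.ne') h
  exact ord_algebraMap_mid B hB hqM Q' (by rw [hδ]; exact dvd_mul_right _ _) hQ f

/-! ### The sheet -/

section Sheet

variable {ζ : Kbˣ} (hζ : IsPrimitiveRoot ζ q) {b : ℕ} (hb : b < q - 1)

theorem res1_jBar :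
    res1 M B hB ⟨jBar (M * q), Fermat.Agent.BR.Inst.Inf.jBar_mem_O1 B hB⟩ = jqModC kB := by
  have e : jBar (M * q) = jOne M q := by
    rw [← Fermat.Agent.BR.Inst.Cusp.jA_eq_jBar, Fermat.Agent.BR.Inst.Cusp.jA_eq_jOne]
  rw [← res1_jOne (M := M) (q := q) B hB]
  exact congrArg (res1 M B hB) (Subtype.ext e)

set_option maxHeartbeats 2000000 in
include hB in
/-- **(SC3) at the non-elliptic finite ordinary points, hypothesis-free in `x`, `ϑ`, `u`,
`ord_map`**: generator `θ = β₂ T' · U / (ζ^{b+1} - 1)` (`x = j`). -/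
theorem exists_coverSheet_mid_jBar [FiniteDimensional FtM (FMid M B)] (Q' : Place kB FtM)
    (hnc : ∀ e : Crossing (chartDataModular B hB hqM), Q' ≠ z₁ (chartDataModular B hB hqM) e)
    (hj : jFullC kB M ∈ Q'.toValuationSubring)
    (h0 : Q'.ord (jFullC kB M) = 0) (h1 : Q'.ord (jFullC kB M - 1728) = 0)
    {Q'' : Place kB (FMid M B)} (hQ : Q''.restrict FtM = Q')
    (R' : Subring (Fb (M * q))) (hR' : ∀ y ∈ R', y ∈ (constRedW1 B hB hqM).O)
    (hΨR : ∀ n, (CoverSheetMid.PsiOf M q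
      (thetaGen hqM (TB' M q) (jBar (M * q)) 1 ((ζ ^ (b + 1) : Kbˣ) : Kb))).coeff n ∈ R')
    (hlift : ∀ f : FtM, 0 ≤ Q'.ord f →
      ∃ y ∈ R', ∃ hy : y ∈ (constRedW1 B hB hqM).O, (constRedW1 B hB hqM).res ⟨y, hy⟩ = f) :
    letI := algebraAlong (alpha2 M q)
    haveI := isScalarTower_along (alpha2 M q)
    ∃ (u : B) (ψ ψc : (Fb (M * q))[X]),
      CoverSheet B (IsLocalRing.residue B) (constRedW1 B hB hqM).O (constRedW1 B hB hqM).res Q'
        (constRedMid B hB hqM hζ hb).O (constRedMid B hB hqM hζ hb).res Q'' R'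
        (thetaGen hqM (TB' M q) (jBar (M * q)) 1 ((ζ ^ (b + 1) : Kbˣ) : Kb))
        (CoverSheetMid.PsiOf M q
          (thetaGen hqM (TB' M q) (jBar (M * q)) 1 ((ζ ^ (b + 1) : Kbˣ) : Kb))) ψ ψc u ∧
      IsLocalRing.residue B u ≠ 0 ∧
      ψ.natDegree = (minpoly FtM (varthetaJ B hB hqM)).natDegree := by
  obtain ⟨hmap, u, hu, hu0⟩ := exists_value_varthetaJ B hB hqM Q' hnc hj h0 h1 hQ
  obtain ⟨ψ, ψc, hS, hdeg⟩ := CoverSheetMid.exists_coverSheet_mid_TB' B hB hqM hζ hb
    (Fermat.Agent.BR.Inst.Inf.jBar_mem_O1 B hB) (Fermat.Agent.BR.Inst.Inf.jBar_mem_O2 B hB hqM)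
    (varthetaJ B hB hqM) (by rw [coe_varthetaJ, res1_jBar]) Q' Q'' hmap u hu hu0 R' hR' hΨR hlift
  exact ⟨u, ψ, ψc, hS, hu0, hdeg⟩

end Sheet

end Fermat.Agent.BR3.MidUnitOrd
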