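import Mathlib
import Fermat.Agent.BR3.TorGlue
import Fermat.Agent.BR3.MultiInput

/-!
# Program C (S36), node (I9-σ0), abstract assembly: `TorGlue.ActsOn` for the setup of a `MultiInput`

`I : MultiInput A π ι Ft ν`, `g` a semilinear automorphism of `F / K`, `p` a permutation of the
components and `a v : Ft v ≃ₐ[k] Ft (p v)`.

* `actsOn_multiInput` : `TorGlue.ActsOn I.toSetup g p a` from
  (maps) `MapsComp` on every component,
  (tube) `g` maps the tube of every point `x` of the special fibre into the tube of `sigmaMap p a x`,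
  (nodes) a surjective map `pν` of the nodes with the branches of `pν e` the images of the branches
  of `e` (the hypotheses `hs₁`, `hs₂` of `GeoTor.exists_inv_shapes` / `GeoTorData.h3_of_data`).
* `isBranch_sigmaMap_iff` : the branch clause alone.
-/

set_option autoImplicit false
set_option linter.unusedVariables false
set_option linter.unusedSectionVars false

namespace Fermat.Agent.BR3.EquivActs

open AlgebraicCurve Fermat.Agent.Red Fermat.Agent.BR.SS Fermat.Agent.BR2.Filt
  Fermat.Agent.BR3.PlaceIso Fermat.Agent.BR3.FiltPerm Fermat.Agent.BR3.FiltMaps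
  Fermat.Agent.BR3.TorGlue Fermat.Agent.X0

variable {K F k : Type*} [Field K] [Field F] [Algebra K F] [Field k]
  {A : ValuationSubring K} {π : A →+* k} {ι : Type*} {Ft : ι → Type*}
  [∀ v, Field (Ft v)] [∀ v, Algebra k (Ft v)] {ν : Type*}

/-- **The branch clause of `ActsOn`** from a surjective map of the nodes compatible with the
branches. -/
theorem isBranch_sigmaMap_iff (S : SemistableSetup (F := F) A π ι Ft ν)
    (p : Equiv.Perm ι) (a : ∀ v, Ft v ≃ₐ[k] Ft (p v)) (pν : ν → ν)
    (hsurj : Function.Surjective pν)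
    (hs₁ : ∀ e, (⟨S.src (pν e), S.s₁ (pν e)⟩ : Σ v, Place k (Ft v)) =
      sigmaMap p a ⟨S.src e, S.s₁ e⟩)
    (hs₂ : ∀ e, (⟨S.tgt (pν e), S.s₂ (pν e)⟩ : Σ v, Place k (Ft v)) =
      sigmaMap p a ⟨S.tgt e, S.s₂ e⟩)
    (x : Σ v, Place k (Ft v)) : S.IsBranch x ↔ S.IsBranch (sigmaMap p a x) := by
  constructor
  · rintro ⟨e, h | h⟩
    · exact ⟨pν e, Or.inl (by rw [h, hs₁ e])⟩
    · exact ⟨pν e, Or.inr (by rw [h, hs₂ e])⟩
  · rintro ⟨e', h⟩
    obtain ⟨e, rfl⟩ := hsurj e'
    rcases h with h | h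
    · rw [hs₁ e] at h
      exact ⟨e, Or.inl (sigmaMap_injective p a h)⟩
    · rw [hs₂ e] at h
      exact ⟨e, Or.inr (sigmaMap_injective p a h)⟩

/-- **(I9-σ0), abstract assembly**: `ActsOn` for the setup of a `MultiInput` from `MapsComp` on the
components, equivariance of the tubes and a compatible surjection of the nodes. -/
theorem actsOn_multiInput (I : MultiInput (F := F) A π ι Ft ν) (g : SemilinearAut K F)
    (p : Equiv.Perm ι) (a : ∀ v, Ft v ≃ₐ[k] Ft (p v))
    (hmaps : ∀ v, MapsComp I.toSetup g v (p v) (a v))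
    (htube : ∀ x, ∀ P ∈ I.tube x, g • P ∈ I.tube (sigmaMap p a x))
    (pν : ν → ν) (hsurj : Function.Surjective pν)
    (hs₁ : ∀ e, (⟨I.src (pν e), I.s₁ (pν e)⟩ : Σ v, Place k (Ft v)) =
      sigmaMap p a ⟨I.src e, I.s₁ e⟩)
    (hs₂ : ∀ e, (⟨I.tgt (pν e), I.s₂ (pν e)⟩ : Σ v, Place k (Ft v)) =
      sigmaMap p a ⟨I.tgt e, I.s₂ e⟩) :
    ActsOn I.toSetup g p a where
  maps := hmaps
  r_smul := fun P => I.r_map_of_tube (fun P => g • P) (sigmaMap p a) htube P
  branch := fun v Q => isBranch_sigmaMap_iff I.toSetup p a pν hsurj hs₁ hs₂ ⟨v, Q⟩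

end Fermat.Agent.BR3.EquivActs
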