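import Fermat.Agent.BR3.SDD.Tame
import Fermat.Agent.BR3.SDD.Cases

/-!
# Program C (S36), node (I9-σ0): the tame generator on `S'' = X.toInput.setup`, kind by kind

`X : SDD.CaseInput A Mid SSp KP Ft` the inputs of the stable model kind by kind.  The binders
`a'`, `hmaps`, `htube`, `hs₁`, `hs₂` of `SDD.tameProp_of_cases` for `I := X.toInput` are produced
from data per kind of component and per kind of node:

* `a' := aOf P aZero aInf aMid aZe`;
* `htube_of_kinds` : the tube equivariance from the four families of tubes `X.TH true`,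
  `X.TH false`, `X.TM`, `X.TZ`;
* `hs₁_of_kinds`, `hs₂_of_kinds` : the node identities from the six special-point identities
  (`zW e`, `pInf e`, `pZero e`, `zT e` fixed, `zK e s ↦ zK e (p e s)`, and the identity of the
  Kummer places `pMid e s ↦ pMid e (p e s)` in the total space of the components);
* `mapsComp_of_kinds` : `MapsComp` from the four kinds;
* `tameProp_of_kinds` : `S36Plug.TameProp M q lam B X.toInput` = the argument `ht` of
  `SDD.Modular.modelAt_of_cases`.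
-/

set_option autoImplicit false
set_option linter.style.haveILetI false
set_option linter.unusedSectionVars false
set_option linter.unusedVariables false

open ModularCurve AlgebraicCurve

noncomputable section

namespace Fermat.Agent.BR3.EquivActsCases

open IsLocalRing Fermat.Agent.Jac Fermat.Agent.X0 Fermat.Agent.Red Fermat.Agent.BR.SS
  Fermat.Agent.BR Fermat.Agent.BR.PicFunct
  Fermat.Agent.BR2.Filt Fermat.Agent.BR3.FiltMaps Fermat.Agent.BR3.FiltPerm
  Fermat.Agent.BR3.PlaceIso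
  Fermat.Agent.BR.LevelTransfer Fermat.Agent.BR2.LevelMaps Fermat.Agent.BR3.G5Multi
  Fermat.Agent.BR3.TorGlue Fermat.Agent.BR3.GeoTor Fermat.Agent.BR3.GeoTorPush
  Fermat.Agent.BR3.GeoFinal Fermat.Agent.BR3.EquivActsSDD Fermat.Agent.BR3.SDD

/-! ### the general part -/

section General

variable {K : Type} {F : Type*} [Field K] [Field F] [Algebra K F]
  {A : ValuationSubring K} {Mid SSp KP : Type} {Ft : Comp Mid SSp → Type}
  [∀ v, Field (Ft v)] [∀ v, Algebra (ResidueField A) (Ft v)]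
  (X : CaseInput (F := F) A Mid SSp KP Ft)

/-- the tube equivariance from the four families of tubes -/
theorem htube_of_kinds (g : SemilinearAut K F) (P : Equiv.Perm Mid)
    (aZero : Ft cZero ≃ₐ[ResidueField A] Ft cZero) (aInf : Ft cInf ≃ₐ[ResidueField A] Ft cInf)
    (aMid : ∀ i, Ft (mid i) ≃ₐ[ResidueField A] Ft (mid (P i)))
    (aZe : ∀ e, Ft (ze e) ≃ₐ[ResidueField A] Ft (ze e))
    (hTZero : ∀ Q, ∀ Pl ∈ X.TH true Q, g • Pl ∈ X.TH true (placeMap aZero Q))
    (hTInf : ∀ Q, ∀ Pl ∈ X.TH false Q, g • Pl ∈ X.TH false (placeMap aInf Q))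
    (hTM : ∀ i Q, ∀ Pl ∈ X.TM i Q, g • Pl ∈ X.TM (P i) (placeMap (aMid i) Q))
    (hTZ : ∀ e Q, ∀ Pl ∈ X.TZ e Q, g • Pl ∈ X.TZ e (placeMap (aZe e) Q)) :
    ∀ y, ∀ Pl ∈ X.toInput.tube y,
      g • Pl ∈ X.toInput.tube (sigmaMap (compPerm P) (aOf P aZero aInf aMid aZe) y) := by
  rintro ⟨((_ | _) | i) | e, Q⟩ Pl hPl
  · exact hTInf Q Pl hPl
  · exact hTZero Q Pl hPl
  · exact hTM i Q Pl hPl
  · exact hTZ e Q Pl hPl

/-- `hs₁` from the identities at the special points `zW e`, `pInf e`, `pMid e s` -/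
theorem hs₁_of_kinds (P : Equiv.Perm Mid)
    (aZero : Ft cZero ≃ₐ[ResidueField A] Ft cZero) (aInf : Ft cInf ≃ₐ[ResidueField A] Ft cInf)
    (aMid : ∀ i, Ft (mid i) ≃ₐ[ResidueField A] Ft (mid (P i)))
    (aZe : ∀ e, Ft (ze e) ≃ₐ[ResidueField A] Ft (ze e)) (p : SSp → Equiv.Perm KP)
    (hzW : ∀ e, placeMap (aZe e) (X.zW e) = X.zW e)
    (hpInf : ∀ e, placeMap aInf (X.pInf e) = X.pInf e)
    (hpMid : ∀ e s, (⟨mid (X.comp e (p e s)), X.pMid e (p e s)⟩ :
      Σ v, Place (ResidueField A) (Ft v)) =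
        ⟨mid (P (X.comp e s)), placeMap (aMid (X.comp e s)) (X.pMid e s)⟩)
    (x : Node SSp KP) :
    (⟨X.toInput.setup.src (nodeMap p x), X.toInput.setup.s₁ (nodeMap p x)⟩ :
      Σ v, Place (ResidueField A) (Ft v)) =
        sigmaMap (compPerm P) (aOf P aZero aInf aMid aZe)
          ⟨X.toInput.setup.src x, X.toInput.setup.s₁ x⟩ := by
  refine hs₁_of_cases X.toInput (compPerm P) (aOf P aZero aInf aMid aZe) p ?_ ?_ ?_ x
  · intro e
    change (⟨ze e, X.zW e⟩ : Σ v, Place (ResidueField A) (Ft v)) =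
      ⟨ze e, placeMap (aZe e) (X.zW e)⟩
    rw [hzW e]
  · intro e
    change (⟨cInf, X.pInf e⟩ : Σ v, Place (ResidueField A) (Ft v)) =
      ⟨cInf, placeMap aInf (X.pInf e)⟩
    rw [hpInf e]
  · intro e s
    exact hpMid e s

/-- `hs₂` from the identities at the special points `pZero e`, `zT e`, `zK e s` -/
theorem hs₂_of_kinds (P : Equiv.Perm Mid)
    (aZero : Ft cZero ≃ₐ[ResidueField A] Ft cZero) (aInf : Ft cInf ≃ₐ[ResidueField A] Ft cInf)
    (aMid : ∀ i, Ft (mid i) ≃ₐ[ResidueField A] Ft (mid (P i)))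
    (aZe : ∀ e, Ft (ze e) ≃ₐ[ResidueField A] Ft (ze e)) (p : SSp → Equiv.Perm KP)
    (hpZero : ∀ e, placeMap aZero (X.pZero e) = X.pZero e)
    (hzT : ∀ e, placeMap (aZe e) (X.zT e) = X.zT e)
    (hzK : ∀ e s, placeMap (aZe e) (X.zK e s) = X.zK e (p e s))
    (x : Node SSp KP) :
    (⟨X.toInput.setup.tgt (nodeMap p x), X.toInput.setup.s₂ (nodeMap p x)⟩ :
      Σ v, Place (ResidueField A) (Ft v)) =
        sigmaMap (compPerm P) (aOf P aZero aInf aMid aZe)
          ⟨X.toInput.setup.tgt x, X.toInput.setup.s₂ x⟩ := by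
  refine hs₂_of_cases X.toInput (compPerm P) (aOf P aZero aInf aMid aZe) p ?_ ?_ ?_ x
  · intro e
    change (⟨cZero, X.pZero e⟩ : Σ v, Place (ResidueField A) (Ft v)) =
      ⟨cZero, placeMap aZero (X.pZero e)⟩
    rw [hpZero e]
  · intro e
    change (⟨ze e, X.zT e⟩ : Σ v, Place (ResidueField A) (Ft v)) =
      ⟨ze e, placeMap (aZe e) (X.zT e)⟩
    rw [hzT e]
  · intro e s
    change (⟨ze e, X.zK e (p e s)⟩ : Σ v, Place (ResidueField A) (Ft v)) =
      ⟨ze e, placeMap (aZe e) (X.zK e s)⟩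
    rw [hzK e s]

/-- `MapsComp` on every component of `S''` from the four kinds, for the family `aOf` -/
theorem mapsComp_of_kinds (g : SemilinearAut K F) (P : Equiv.Perm Mid)
    (aZero : Ft cZero ≃ₐ[ResidueField A] Ft cZero) (aInf : Ft cInf ≃ₐ[ResidueField A] Ft cInf)
    (aMid : ∀ i, Ft (mid i) ≃ₐ[ResidueField A] Ft (mid (P i)))
    (aZe : ∀ e, Ft (ze e) ≃ₐ[ResidueField A] Ft (ze e))
    (hZero : MapsComp X.toInput.setup g cZero cZero aZero)
    (hInf : MapsComp X.toInput.setup g cInf cInf aInf)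
    (hMid : ∀ i, MapsComp X.toInput.setup g (mid i) (mid (P i)) (aMid i))
    (hZe : ∀ e, MapsComp X.toInput.setup g (ze e) (ze e) (aZe e)) :
    ∀ v, MapsComp X.toInput.setup g v (compPerm P v) (aOf P aZero aInf aMid aZe v) :=
  mapsComp_of_cases X.toInput g (compPerm P) (aOf P aZero aInf aMid aZe) hZero hInf hMid hZe

end General

/-! ### `TameProp` for the modular inputs -/

section Modular

local notation "Qb" => AlgebraicClosure ℚ

variable {M q lam : ℕ} [NeZero M] [NeZero q] {B : ValuationSubring Qb}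
  [IsAlgClosed (ResidueField B)] {Mid SSp KP : Type} [Fintype Mid] [Fintype SSp] [Fintype KP]
  {Ft : Comp Mid SSp → Type} [∀ v, Field (Ft v)] [∀ v, Algebra (ResidueField B) (Ft v)]
  (X : CaseInput (F := Fb (M * q * q)) B Mid SSp KP Ft)

/-- **(G6) `S36Plug.TameProp` for `X.toInput`, kind by kind**: the push-forward relations along
`α`, `β` in relation form, and the action of the tame generator `σ0` on `S''` given per kind of
component (`MapsComp`, tubes) and per kind of special point. -/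
theorem tameProp_of_kinds (hFt : ∀ v, RiemannPkg (ResidueField B) (Ft v)) (hlam0 : lam ≠ 0)
    (d : ℕ) (hd : d * Fintype.card KP + 1 = q) (φ : SSp → SSp) (P : Equiv.Perm Mid)
    (p : SSp → Equiv.Perm KP) (hp : ∀ e s s', ∃ n : ℕ, ((p e) ^ n) s = s')
    {ιa : Type*} (vWa vTa : ιa) (vEa : SSp → ιa)
    (hpa : ∀ (m : ℕ) (z : JZero (M * q * q))
      (D : Divisor.degZero (K := Qb) (F := Fb (M * q * q)))
      (f : Fb (M * q * q)) (u : ∀ v, Ft v), IsGood X.toInput.setup (lam ^ m) z D f u →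
      alphaDown (M * q) q z = 0 →
      ∀ (av bv : Node SSp KP → ResidueField B) (ha0 : ∀ e, av e ≠ 0) (hb0 : ∀ e, bv e ≠ 0),
      (∀ e, IsValueAt (X.toInput.setup.s₁ e) (u (X.toInput.setup.src e)) (av e)) →
      (∀ e, IsValueAt (X.toInput.setup.s₂ e) (u (X.toInput.setup.tgt e)) (bv e)) →
      ∃ κ₀ : ιa → ResidueField B, (∀ v, κ₀ v ≠ 0) ∧
        (∀ e, valH hor av bv (nW e) ^ q * κ₀ (vEa e) = valV hor av bv (nW e) ^ q * κ₀ vWa) ∧
        ∀ e, (valH hor av bv (nT e) * ∏ s, valH hor av bv (nk e s) ^ d) * κ₀ (vEa e) =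
          (valV hor av bv (nT e) * ∏ s, valV hor av bv (nk e s) ^ d) * κ₀ vTa)
    {ιb : Type*} (vWb vTb : ιb) (vEb : SSp → ιb)
    (hpb : ∀ (m : ℕ) (z : JZero (M * q * q))
      (D : Divisor.degZero (K := Qb) (F := Fb (M * q * q)))
      (f : Fb (M * q * q)) (u : ∀ v, Ft v), IsGood X.toInput.setup (lam ^ m) z D f u →
      betaDown (M * q) q z = 0 →
      ∀ (av bv : Node SSp KP → ResidueField B) (ha0 : ∀ e, av e ≠ 0) (hb0 : ∀ e, bv e ≠ 0),
      (∀ e, IsValueAt (X.toInput.setup.s₁ e) (u (X.toInput.setup.src e)) (av e)) →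
      (∀ e, IsValueAt (X.toInput.setup.s₂ e) (u (X.toInput.setup.tgt e)) (bv e)) →
      ∃ κ₀ : ιb → ResidueField B, (∀ v, κ₀ v ≠ 0) ∧
        (∀ e, valH hor av bv (nT e) ^ q * κ₀ (vEb (φ e)) =
          valV hor av bv (nT e) ^ q * κ₀ vWb) ∧
        ∀ e, (valH hor av bv (nW e) * ∏ s, valH hor av bv (nk e s) ^ d) * κ₀ (vEb (φ e)) =
          (valV hor av bv (nW e) * ∏ s, valV hor av bv (nk e s) ^ d) * κ₀ vTb)
    -- the tame generator
    (σ0 : GQ) (hσ0 : σ0 ∈ B.inertiaSubgroupIn ℚ)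
    (aZero : Ft cZero ≃ₐ[ResidueField B] Ft cZero) (aInf : Ft cInf ≃ₐ[ResidueField B] Ft cInf)
    (aMid : ∀ i, Ft (mid i) ≃ₐ[ResidueField B] Ft (mid (P i)))
    (aZe : ∀ e, Ft (ze e) ≃ₐ[ResidueField B] Ft (ze e))
    -- the components
    (hZero : MapsComp X.toInput.setup (galAut (M * q * q) σ0) cZero cZero aZero)
    (hInf : MapsComp X.toInput.setup (galAut (M * q * q) σ0) cInf cInf aInf)
    (hMid : ∀ i, MapsComp X.toInput.setup (galAut (M * q * q) σ0) (mid i) (mid (P i)) (aMid i))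
    (hZe : ∀ e, MapsComp X.toInput.setup (galAut (M * q * q) σ0) (ze e) (ze e) (aZe e))
    -- the tubes
    (hTZero : ∀ Q, ∀ Pl ∈ X.TH true Q,
      galAut (M * q * q) σ0 • Pl ∈ X.TH true (placeMap aZero Q))
    (hTInf : ∀ Q, ∀ Pl ∈ X.TH false Q,
      galAut (M * q * q) σ0 • Pl ∈ X.TH false (placeMap aInf Q))
    (hTM : ∀ i Q, ∀ Pl ∈ X.TM i Q,
      galAut (M * q * q) σ0 • Pl ∈ X.TM (P i) (placeMap (aMid i) Q))
    (hTZ : ∀ e Q, ∀ Pl ∈ X.TZ e Q,
      galAut (M * q * q) σ0 • Pl ∈ X.TZ e (placeMap (aZe e) Q))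
    -- the special points
    (hzW : ∀ e, placeMap (aZe e) (X.zW e) = X.zW e)
    (hpInf : ∀ e, placeMap aInf (X.pInf e) = X.pInf e)
    (hpMid : ∀ e s, (⟨mid (X.comp e (p e s)), X.pMid e (p e s)⟩ :
      Σ v, Place (ResidueField B) (Ft v)) =
        ⟨mid (P (X.comp e s)), placeMap (aMid (X.comp e s)) (X.pMid e s)⟩)
    (hpZero : ∀ e, placeMap aZero (X.pZero e) = X.pZero e)
    (hzT : ∀ e, placeMap (aZe e) (X.zT e) = X.zT e)
    (hzK : ∀ e s, placeMap (aZe e) (X.zK e s) = X.zK e (p e s)) :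
    S36Plug.TameProp M q lam B X.toInput :=
  tameProp_of_cases X.toInput hFt hlam0 d hd φ P p hp vWa vTa vEa hpa vWb vTb vEb hpb σ0 hσ0
    (aOf P aZero aInf aMid aZe)
    (mapsComp_of_kinds X (galAut (M * q * q) σ0) P aZero aInf aMid aZe hZero hInf hMid hZe)
    (htube_of_kinds X (galAut (M * q * q) σ0) P aZero aInf aMid aZe hTZero hTInf hTM hTZ)
    (hs₁_of_kinds X P aZero aInf aMid aZe p hzW hpInf hpMid)
    (hs₂_of_kinds X P aZero aInf aMid aZe p hpZero hzT hzK)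

end Modular

end Fermat.Agent.BR3.EquivActsCases
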