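import Mathlib
import Fermat.Agent.BR3.EquivActs
import Fermat.Agent.BR3.SDD.Skeleton

/-!
# Program C (S36), node (I9-σ0): `TorGlue.ActsOn` for the stable model `S'' = I.setup`, by cases

`I : SDD.Input A Mid SSp KP Ft`.  The tame generator permutes the middle components by `P` and the
Kummer nodes over `e` by `p e`, and fixes `cZero`, `cInf`, the vertical components and the nodes
`nW e`, `nT e`.

* `nodeMap p` : the map of the nodes (`nW e ↦ nW e`, `nT e ↦ nT e`, `nk e s ↦ nk e (p e s)`), with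
  `nodeMap_surjective`, `hor_nodeMap` (= the hypotheses `hpW`, `hpk`, `hpor` of
  `GeoTorData.h3_of_data` by `rfl`);
* `compPerm P` : the permutation of the components, `aOf` : the family of isomorphisms by cases;
* `hs₁_of_cases`, `hs₂_of_cases` : the hypotheses `hs₁`, `hs₂` from the three kinds of nodes;
* `mapsComp_of_cases` : `MapsComp` on every component from the four kinds;
* `htube_of_cases` : the tube equivariance from the smooth points and the three kinds of nodes;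
* `actsOn_input` : `ActsOn I.setup g pι a'`.
-/

set_option autoImplicit false
set_option linter.unusedVariables false
set_option linter.unusedSectionVars false

noncomputable section

namespace Fermat.Agent.BR3.EquivActsSDD

open AlgebraicCurve IsLocalRing Fermat.Agent.Red Fermat.Agent.BR.SS Fermat.Agent.BR2.Filt
  Fermat.Agent.BR3.PlaceIso Fermat.Agent.BR3.FiltPerm Fermat.Agent.BR3.FiltMaps
  Fermat.Agent.BR3.TorGlue Fermat.Agent.X0 Fermat.Agent.BR3.SDD

/-! ### the maps of the graph -/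

section Graph

variable {Mid SSp KP : Type}

/-- the map of the nodes: the Kummer nodes over `e` are permuted by `p e` -/
def nodeMap (p : SSp → Equiv.Perm KP) : Node SSp KP → Node SSp KP
  | (e, Sum.inl b) => (e, Sum.inl b)
  | (e, Sum.inr s) => (e, Sum.inr (p e s))

@[simp] theorem nodeMap_nW (p : SSp → Equiv.Perm KP) (e : SSp) : nodeMap p (nW e) = nW e := rfl

@[simp] theorem nodeMap_nT (p : SSp → Equiv.Perm KP) (e : SSp) : nodeMap p (nT e) = nT e := rfl

@[simp] theorem nodeMap_nk (p : SSp → Equiv.Perm KP) (e : SSp) (s : KP) :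
    nodeMap p (nk e s) = nk e (p e s) := rfl

theorem nodeMap_surjective (p : SSp → Equiv.Perm KP) : Function.Surjective (nodeMap p) := by
  rintro ⟨e, b | s⟩
  · exact ⟨(e, Sum.inl b), rfl⟩
  · exact ⟨(e, Sum.inr ((p e).symm s)), by simp [nodeMap]⟩

theorem hor_nodeMap (p : SSp → Equiv.Perm KP) (x : Node SSp KP) :
    hor (nodeMap p x) = hor x := by
  obtain ⟨e, (_ | _) | s⟩ := x <;> rfl

/-- the permutation of the components: the middle components are permuted by `P` -/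
def compPerm (P : Equiv.Perm Mid) : Equiv.Perm (Comp Mid SSp) :=
  Equiv.sumCongr (Equiv.sumCongr (Equiv.refl Bool) P) (Equiv.refl SSp)

@[simp] theorem compPerm_cZero (P : Equiv.Perm Mid) :
    compPerm (SSp := SSp) P cZero = cZero := rfl

@[simp] theorem compPerm_cInf (P : Equiv.Perm Mid) : compPerm (SSp := SSp) P cInf = cInf := rfl

@[simp] theorem compPerm_mid (P : Equiv.Perm Mid) (i : Mid) :
    compPerm (SSp := SSp) P (mid i) = mid (P i) := rfl

@[simp] theorem compPerm_ze (P : Equiv.Perm Mid) (e : SSp) :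
    compPerm (Mid := Mid) P (ze e) = ze e := rfl

variable {k : Type*} [Field k] {Ft : Comp Mid SSp → Type} [∀ v, Field (Ft v)]
  [∀ v, Algebra k (Ft v)]

/-- the family of isomorphisms of the residue fields, by cases -/
def aOf (P : Equiv.Perm Mid) (aZero : Ft cZero ≃ₐ[k] Ft cZero) (aInf : Ft cInf ≃ₐ[k] Ft cInf)
    (aMid : ∀ i, Ft (mid i) ≃ₐ[k] Ft (mid (P i))) (aZe : ∀ e, Ft (ze e) ≃ₐ[k] Ft (ze e)) :
    ∀ v, Ft v ≃ₐ[k] Ft (compPerm P v)
  | Sum.inl (Sum.inl true) => aZero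
  | Sum.inl (Sum.inl false) => aInf
  | Sum.inl (Sum.inr i) => aMid i
  | Sum.inr e => aZe e

end Graph

/-! ### `ActsOn` for `I.setup` -/

section Acts

variable {K : Type} {F : Type*} [Field K] [Field F] [Algebra K F]
  {A : ValuationSubring K} {Mid SSp KP : Type} {Ft : Comp Mid SSp → Type}
  [∀ v, Field (Ft v)] [∀ v, Algebra (ResidueField A) (Ft v)]
  (I : Input (F := F) A Mid SSp KP Ft)

/-- `hs₁` from the three kinds of nodes -/
theorem hs₁_of_cases (pι : Equiv.Perm (Comp Mid SSp)) (a' : ∀ v, Ft v ≃ₐ[ResidueField A] Ft (pι v))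
    (p : SSp → Equiv.Perm KP)
    (hW : ∀ e, (⟨ze e, I.s₁ (nW e)⟩ : Σ v, Place (ResidueField A) (Ft v)) =
      sigmaMap pι a' ⟨ze e, I.s₁ (nW e)⟩)
    (hT : ∀ e, (⟨cInf, I.s₁ (nT e)⟩ : Σ v, Place (ResidueField A) (Ft v)) =
      sigmaMap pι a' ⟨cInf, I.s₁ (nT e)⟩)
    (hK : ∀ e s, (⟨mid (I.comp e (p e s)), I.s₁ (nk e (p e s))⟩ :
      Σ v, Place (ResidueField A) (Ft v)) = sigmaMap pι a' ⟨mid (I.comp e s), I.s₁ (nk e s)⟩)
    (x : Node SSp KP) :
    (⟨I.setup.src (nodeMap p x), I.setup.s₁ (nodeMap p x)⟩ :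
      Σ v, Place (ResidueField A) (Ft v)) = sigmaMap pι a' ⟨I.setup.src x, I.setup.s₁ x⟩ := by
  obtain ⟨e, (_ | _) | s⟩ := x
  · exact hT e
  · exact hW e
  · exact hK e s

/-- `hs₂` from the three kinds of nodes -/
theorem hs₂_of_cases (pι : Equiv.Perm (Comp Mid SSp)) (a' : ∀ v, Ft v ≃ₐ[ResidueField A] Ft (pι v))
    (p : SSp → Equiv.Perm KP)
    (hW : ∀ e, (⟨cZero, I.s₂ (nW e)⟩ : Σ v, Place (ResidueField A) (Ft v)) =
      sigmaMap pι a' ⟨cZero, I.s₂ (nW e)⟩)
    (hT : ∀ e, (⟨ze e, I.s₂ (nT e)⟩ : Σ v, Place (ResidueField A) (Ft v)) =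
      sigmaMap pι a' ⟨ze e, I.s₂ (nT e)⟩)
    (hK : ∀ e s, (⟨ze e, I.s₂ (nk e (p e s))⟩ : Σ v, Place (ResidueField A) (Ft v)) =
      sigmaMap pι a' ⟨ze e, I.s₂ (nk e s)⟩)
    (x : Node SSp KP) :
    (⟨I.setup.tgt (nodeMap p x), I.setup.s₂ (nodeMap p x)⟩ :
      Σ v, Place (ResidueField A) (Ft v)) = sigmaMap pι a' ⟨I.setup.tgt x, I.setup.s₂ x⟩ := by
  obtain ⟨e, (_ | _) | s⟩ := x
  · exact hT e
  · exact hW e
  · exact hK e s

/-- `MapsComp` on every component from the four kinds -/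
theorem mapsComp_of_cases (g : SemilinearAut K F) (pι : Equiv.Perm (Comp Mid SSp))
    (a' : ∀ v, Ft v ≃ₐ[ResidueField A] Ft (pι v))
    (hZero : MapsComp I.setup g cZero (pι cZero) (a' cZero))
    (hInf : MapsComp I.setup g cInf (pι cInf) (a' cInf))
    (hMid : ∀ i, MapsComp I.setup g (mid i) (pι (mid i)) (a' (mid i)))
    (hZe : ∀ e, MapsComp I.setup g (ze e) (pι (ze e)) (a' (ze e))) :
    ∀ v, MapsComp I.setup g v (pι v) (a' v)
  | Sum.inl (Sum.inl true) => hZero
  | Sum.inl (Sum.inl false) => hInf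
  | Sum.inl (Sum.inr i) => hMid i
  | Sum.inr e => hZe e

/-- the tube equivariance from the smooth points and the nodes: the tubes of the target branches are
empty, the tube of the source branch of `x` goes to the tube of the source branch of
`nodeMap p x` -/
theorem htube_of_cases (g : SemilinearAut K F) (pι : Equiv.Perm (Comp Mid SSp))
    (a' : ∀ v, Ft v ≃ₐ[ResidueField A] Ft (pι v)) (p : SSp → Equiv.Perm KP)
    (hs₁ : ∀ x, (⟨I.setup.src (nodeMap p x), I.setup.s₁ (nodeMap p x)⟩ :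
      Σ v, Place (ResidueField A) (Ft v)) = sigmaMap pι a' ⟨I.setup.src x, I.setup.s₁ x⟩)
    (hsmooth : ∀ y : Σ v, Place (ResidueField A) (Ft v), ¬ I.setup.IsBranch y →
      ∀ P ∈ I.tube y, g • P ∈ I.tube (sigmaMap pι a' y))
    (hnode : ∀ x, ∀ P ∈ I.tube ⟨src I.comp x, I.s₁ x⟩,
      g • P ∈ I.tube ⟨src I.comp (nodeMap p x), I.s₁ (nodeMap p x)⟩) :
    ∀ y, ∀ P ∈ I.tube y, g • P ∈ I.tube (sigmaMap pι a' y) := by
  intro y P hP
  by_cases hy : I.setup.IsBranch y
  · obtain ⟨x, rfl | rfl⟩ := hy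
    · have h1 := hnode x P hP
      have h2 := hs₁ x
      simp only [Input.setup_src, Input.setup_s₁] at h2
      rw [h2] at h1
      exact h1
    · exfalso
      have h1 : I.tube ⟨tgt x, I.s₂ x⟩ = ∅ := I.tube_tgt x
      simp only [Input.setup_tgt, Input.setup_s₂] at hP
      rw [h1] at hP
      exact hP
  · exact hsmooth y hy P hP

/-- **(I9-σ0) for `S''`**: `ActsOn I.setup g pι a'` with the node map `nodeMap p`. -/
theorem actsOn_input (g : SemilinearAut K F) (pι : Equiv.Perm (Comp Mid SSp))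
    (a' : ∀ v, Ft v ≃ₐ[ResidueField A] Ft (pι v))
    (hmaps : ∀ v, MapsComp I.setup g v (pι v) (a' v))
    (htube : ∀ y, ∀ P ∈ I.tube y, g • P ∈ I.tube (sigmaMap pι a' y))
    (p : SSp → Equiv.Perm KP)
    (hs₁ : ∀ x, (⟨I.setup.src (nodeMap p x), I.setup.s₁ (nodeMap p x)⟩ :
      Σ v, Place (ResidueField A) (Ft v)) = sigmaMap pι a' ⟨I.setup.src x, I.setup.s₁ x⟩)
    (hs₂ : ∀ x, (⟨I.setup.tgt (nodeMap p x), I.setup.s₂ (nodeMap p x)⟩ :
      Σ v, Place (ResidueField A) (Ft v)) = sigmaMap pι a' ⟨I.setup.tgt x, I.setup.s₂ x⟩) :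
    ActsOn I.setup g pι a' :=
  Fermat.Agent.BR3.EquivActs.actsOn_multiInput I.toMultiInput g pι a' hmaps htube (nodeMap p)
    (nodeMap_surjective p) hs₁ hs₂

end Acts

end Fermat.Agent.BR3.EquivActsSDD
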