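import Mathlib
import Fermat.Agent.BR3.EquivActsSDD

/-!
# Program C (S36), node (I9-σ0): `hcomp` is contained in `hs₁`

For `I : SDD.Input`, `pι = compPerm P` and the node map `nodeMap p`: the hypothesis
`hcomp : comp e (p e s) = P (comp e s)` of `GeoTor.h3_of_graph` / `GeoTorData.h3_of_data` is the
first component of the identity `hs₁` at the Kummer node `nk e s`.

* `hcomp_of_hs₁`, `hcomp_of_hs₁'` : `hcomp` from `hs₁`.
-/

set_option autoImplicit false
set_option linter.unusedVariables false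
set_option linter.unusedSectionVars false

namespace Fermat.Agent.BR3.EquivActsComp

open AlgebraicCurve IsLocalRing Fermat.Agent.Red Fermat.Agent.BR.SS
  Fermat.Agent.BR3.TorGlue Fermat.Agent.BR3.SDD Fermat.Agent.BR3.EquivActsSDD

variable {K : Type} {F : Type*} [Field K] [Field F] [Algebra K F]
  {A : ValuationSubring K} {Mid SSp KP : Type} {Ft : Comp Mid SSp → Type}
  [∀ v, Field (Ft v)] [∀ v, Algebra (ResidueField A) (Ft v)]
  (I : Input (F := F) A Mid SSp KP Ft)

/-- **`hcomp` from `hs₁`** (with `pι = compPerm P`). -/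
theorem hcomp_of_hs₁ (P : Equiv.Perm Mid)
    (a' : ∀ v, Ft v ≃ₐ[ResidueField A] Ft (compPerm P v)) (p : SSp → Equiv.Perm KP)
    (hs₁ : ∀ x, (⟨I.setup.src (nodeMap p x), I.setup.s₁ (nodeMap p x)⟩ :
      Σ v, Place (ResidueField A) (Ft v)) =
        sigmaMap (compPerm P) a' ⟨I.setup.src x, I.setup.s₁ x⟩)
    (e : SSp) (s : KP) : I.comp e (p e s) = P (I.comp e s) := by
  have h1 := congrArg Sigma.fst (hs₁ (nk e s))
  have h2 : (mid (I.comp e (p e s)) : Comp Mid SSp) = mid (P (I.comp e s)) := h1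
  exact Sum.inr.inj (Sum.inl.inj h2)

/-- the same for an arbitrary permutation `pι` of the components which maps `mid i` to
`mid (P i)` -/
theorem hcomp_of_hs₁' (pι : Equiv.Perm (Comp Mid SSp)) (P : Equiv.Perm Mid)
    (hP : ∀ i, pι (mid i) = mid (P i))
    (a' : ∀ v, Ft v ≃ₐ[ResidueField A] Ft (pι v)) (p : SSp → Equiv.Perm KP)
    (hs₁ : ∀ x, (⟨I.setup.src (nodeMap p x), I.setup.s₁ (nodeMap p x)⟩ :
      Σ v, Place (ResidueField A) (Ft v)) = sigmaMap pι a' ⟨I.setup.src x, I.setup.s₁ x⟩)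
    (e : SSp) (s : KP) : I.comp e (p e s) = P (I.comp e s) := by
  have h1 := congrArg Sigma.fst (hs₁ (nk e s))
  have h2 : (mid (I.comp e (p e s)) : Comp Mid SSp) = pι (mid (I.comp e s)) := h1
  rw [hP] at h2
  exact Sum.inr.inj (Sum.inl.inj h2)

end Fermat.Agent.BR3.EquivActsComp
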