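import Fermat.Agent.BR3.SDD.Cases
import Fermat.Agent.BR3.SDD.Fields
import Fermat.Agent.BR3.PlaceIso
import Fermat.Agent.BR3.EquivActsSDD

/-!
# Program C (S36), node (I9-σ0): the identity of the Kummer places under the tame generator

`X : SDD.CaseInput A Mid SSp KP Ft`.  The hypothesis `hpMid` of
`EquivActsCases.tameProp_of_kinds`

  `⟨mid (X.comp e (p e s)), X.pMid e (p e s)⟩ = ⟨mid (P (X.comp e s)), placeMap (aMid _) (X.pMid e s)⟩`

follows from

* (U1) uniqueness: on every middle component there is at most one place over the supersingular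
  point `z e` of the base field `E₀` (along `φ i : E₀ →ₐ[k] Ft (mid i)`), and `X.pMid e s` lies over
  `z e`;
* linearity: the isomorphisms `aMid i` commute with the `φ i` (`MidGal.mapsComp_phi`);
* (U2) `X.comp e (p e s) = P (X.comp e s)`.

* `comap_placeMap_of_comm` : the place `placeMap a Q` lies over the same place as `Q`;
* `hpMid_of_over` : the general statement;
* `hpMid_of_restrict` : the same for a constant family `Ft (mid i) = E` (`Ft = FtOf FH (fun _ => E)
  FZ`) with `Algebra E₀ E`, in terms of `Place.restrict` (the shape of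
  `KummerGenus.MidFamily.pMid_restrict`, `eq_pMid`).
-/

set_option autoImplicit false
set_option linter.unusedVariables false
set_option linter.unusedSectionVars false

noncomputable section

namespace Fermat.Agent.BR3.EquivActsKummer

open AlgebraicCurve IsLocalRing Fermat.Agent.Red Fermat.Agent.BR.SS
  Fermat.Agent.BR3.PlaceIso Fermat.Agent.BR3.SDD

section Gen

variable {k E₀ L L' : Type*} [Field k] [Field E₀] [Field L] [Field L'] [Algebra k E₀]
  [Algebra k L] [Algebra k L']

/-- the place `placeMap a Q` lies over the same valuation ring of `E₀` as `Q` when `a` commutes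
with the embeddings of `E₀` -/
theorem comap_placeMap_of_comm (φ : E₀ →ₐ[k] L) (φ' : E₀ →ₐ[k] L') (a : L ≃ₐ[k] L')
    (ha : ∀ c, a (φ c) = φ' c) (Q : Place k L) :
    (placeMap a Q).toValuationSubring.comap (φ' : E₀ →+* L') =
      Q.toValuationSubring.comap (φ : E₀ →+* L) := by
  ext x
  rw [ValuationSubring.mem_comap, ValuationSubring.mem_comap, placeMap_toValuationSubring]
  change φ' x ∈ mapVS a Q.toValuationSubring ↔ φ x ∈ Q.toValuationSubring
  rw [← ha x, apply_mem_mapVS]

end Gen

section Cases

variable {K : Type} {F : Type*} [Field K] [Field F] [Algebra K F]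
  {A : ValuationSubring K} {Mid SSp KP : Type} {Ft : Comp Mid SSp → Type}
  [∀ v, Field (Ft v)] [∀ v, Algebra (ResidueField A) (Ft v)]
  (X : CaseInput (F := F) A Mid SSp KP Ft)

/-- **The identity of the Kummer places** from uniqueness of the place over `z e` (U1), linearity
of the `aMid i` over the base field and `comp e (p e s) = P (comp e s)` (U2). -/
theorem hpMid_of_over {E₀ : Type*} [Field E₀] [Algebra (ResidueField A) E₀]
    (φ : ∀ i, E₀ →ₐ[ResidueField A] Ft (mid i)) (z : SSp → ValuationSubring E₀)
    (huniq : ∀ e i (Q Q' : Place (ResidueField A) (Ft (mid i))),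
      Q.toValuationSubring.comap (φ i : E₀ →+* Ft (mid i)) = z e →
      Q'.toValuationSubring.comap (φ i : E₀ →+* Ft (mid i)) = z e → Q = Q')
    (hover : ∀ e s, (X.pMid e s).toValuationSubring.comap
      (φ (X.comp e s) : E₀ →+* Ft (mid (X.comp e s))) = z e)
    (P : Equiv.Perm Mid) (aMid : ∀ i, Ft (mid i) ≃ₐ[ResidueField A] Ft (mid (P i)))
    (haφ : ∀ i c, aMid i (φ i c) = φ (P i) c)
    (p : SSp → Equiv.Perm KP) (hcomp : ∀ e s, X.comp e (p e s) = P (X.comp e s))
    (e : SSp) (s : KP) :
    (⟨mid (X.comp e (p e s)), X.pMid e (p e s)⟩ : Σ v, Place (ResidueField A) (Ft v)) =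
      ⟨mid (P (X.comp e s)), placeMap (aMid (X.comp e s)) (X.pMid e s)⟩ := by
  have h1 : (placeMap (aMid (X.comp e s)) (X.pMid e s)).toValuationSubring.comap
      (φ (P (X.comp e s)) : E₀ →+* Ft (mid (P (X.comp e s)))) = z e := by
    rw [comap_placeMap_of_comm (φ (X.comp e s)) (φ (P (X.comp e s))) (aMid (X.comp e s))
      (haφ (X.comp e s)) (X.pMid e s)]
    exact hover e s
  have key : ∀ (j : Mid) (hj : j = P (X.comp e s)) (Q : Place (ResidueField A) (Ft (mid j))),
      Q.toValuationSubring.comap (φ j : E₀ →+* Ft (mid j)) = z e →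
      (⟨mid j, Q⟩ : Σ v, Place (ResidueField A) (Ft v)) =
        ⟨mid (P (X.comp e s)), placeMap (aMid (X.comp e s)) (X.pMid e s)⟩ := by
    intro j hj Q hQ
    subst hj
    rw [huniq e _ Q _ hQ h1]
  exact key _ (hcomp e s) _ (hover e (p e s))

end Cases

section Const

variable {K : Type} {F : Type*} [Field K] [Field F] [Algebra K F]
  {A : ValuationSubring K} {Mid SSp KP : Type}
  {FH : Bool → Type} {E : Type} {FZ : SSp → Type} [∀ b, Field (FH b)] [Field E]
  [∀ e, Field (FZ e)] [∀ b, Algebra (ResidueField A) (FH b)] [Algebra (ResidueField A) E]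
  [∀ e, Algebra (ResidueField A) (FZ e)]
  (X : CaseInput (F := F) A Mid SSp KP (FtOf FH (fun _ : Mid => E) FZ))

/-- a place of a middle component of a constant family, as a place of `E` (the identity map; it
only changes the type, so that the instances of `E` are found) -/
def toConst (i : Mid) (Q : Place (ResidueField A) (FtOf FH (fun _ : Mid => E) FZ (mid i))) :
    Place (ResidueField A) E := Q

/-- a place of `E` as a place of the middle component `mid i` of a constant family -/
def ofConst (i : Mid) (Q : Place (ResidueField A) E) :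
    Place (ResidueField A) (FtOf FH (fun _ : Mid => E) FZ (mid i)) := Q

@[simp] theorem ofConst_toConst (i : Mid)
    (Q : Place (ResidueField A) (FtOf FH (fun _ : Mid => E) FZ (mid i))) :
    ofConst (FH := FH) (FZ := FZ) i (toConst i Q) = Q := rfl

/-- an isomorphism of `E` as an isomorphism between the middle components `mid i`, `mid j` of a
constant family -/
def algEquivConst (i j : Mid) (a : E ≃ₐ[ResidueField A] E) :
    FtOf FH (fun _ : Mid => E) FZ (mid i) ≃ₐ[ResidueField A]
      FtOf FH (fun _ : Mid => E) FZ (mid j) := a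

/-- **The identity of the Kummer places for a constant family** `Ft (mid i) = E` over a base field
`E₀` (`E₀ = F̃_M`, `E = FMid M B`): (U1) in the shape of `MidFamily.eq_pMid`,
`MidFamily.pMid_restrict`, the `aMid i` linear over `E₀`, and (U2). -/
theorem hpMid_of_restrict {E₀ : Type*} [Field E₀] [Algebra (ResidueField A) E₀] [Algebra E₀ E]
    [IsScalarTower (ResidueField A) E₀ E] [Algebra.IsIntegral E₀ E]
    (z : SSp → Place (ResidueField A) E₀)
    (huniq : ∀ e (w w' : Place (ResidueField A) E), w.restrict E₀ = z e → w'.restrict E₀ = z e →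
      w = w')
    (hover : ∀ e s, (toConst (X.comp e s) (X.pMid e s)).restrict E₀ = z e)
    (P : Equiv.Perm Mid)
    (aMid : ∀ i, FtOf FH (fun _ : Mid => E) FZ (mid i) ≃ₐ[ResidueField A]
      FtOf FH (fun _ : Mid => E) FZ (mid (P i)))
    (haφ : ∀ i (c : E₀), aMid i (algebraMap E₀ E c : E) = (algebraMap E₀ E c : E))
    (p : SSp → Equiv.Perm KP) (hcomp : ∀ e s, X.comp e (p e s) = P (X.comp e s))
    (e : SSp) (s : KP) :
    (⟨mid (X.comp e (p e s)), X.pMid e (p e s)⟩ :
        Σ v, Place (ResidueField A) (FtOf FH (fun _ : Mid => E) FZ v)) =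
      ⟨mid (P (X.comp e s)), placeMap (aMid (X.comp e s)) (X.pMid e s)⟩ := by
  refine hpMid_of_over X (E₀ := E₀)
    (fun _ => (IsScalarTower.toAlgHom (ResidueField A) E₀ E : E₀ →ₐ[ResidueField A] E))
    (fun e => (z e).toValuationSubring) ?_ ?_ P aMid ?_ p hcomp e s
  · intro e i Q Q' hQ hQ'
    exact huniq e (toConst i Q) (toConst i Q') (Place.ext hQ) (Place.ext hQ')
  · intro e s
    exact congrArg Place.toValuationSubring (hover e s)
  · intro i c
    exact haφ i c

end Const

end Fermat.Agent.BR3.EquivActsKummer
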