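/-
Program C (S36), node I7, piece (c): the bookkeeping of the map `comp : SSp → KP → Mid` of
`SDD.Input` / `SDD.CaseInput` (helper12).

`Mid` = the middle components, `KP` = the Kummer points of a vertical component, `SSp` = the
supersingular points.  Every middle component meets every vertical component `z e` in exactly one
point; `val e j : KP` is that point (the value of the Kummer function of `z e` at THE place of
`mid j` over `e`: the architect's (U2)).  Once `card Mid = card KP` (`MidDegEq.card_mid_eq_midCard`)
the value map is bijective as soon as it is surjective (or injective), and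

* `compOf val hval : SSp → KP → Mid` := the inverse of the value map, with
  `compOf_eq_iff : compOf val hval e s = j ↔ val e j = s` (U2), `compOf_bijective`,
  `compOf_hall : ∀ e i, ∃ s, compOf val hval e s = i`, `compOf_surj` (the field `comp_surj`),
  `compOf_hcomp` (the hypothesis `hcomp` of (G6) from the equivariance of `val`);
* `surjective_of_equivariant` : the value map is surjective when it intertwines a permutation of
  `Mid` with a transitive permutation of `KP` (the swap `c ↦ -c`);
* for ANY `comp` : `comp_surj_of_hall`, `card_fiber_eq_one`, `card_eq_of_bijective`;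
* for `Ft = FtOf FH (fun _ => FM) FZ` (ONE residue field `FM` for all middle components) and
  `pMid e s := pK e` : `sigma_mid_eq_iff`, `pMid_injective_of` (the field `pMid_injective` of
  `SDD.CaseInput`), `ne_pK_of_forall_ne` (the hypothesis of the field `smMid` says that `Q` lies
  over no supersingular point).
-/
import Mathlib
import Fermat.Agent.BR3.SDD.Fields

set_option autoImplicit false
set_option linter.unusedSectionVars false

namespace Fermat.Agent.BR3.SepNComp

open AlgebraicCurve Fermat.Agent.BR3.SDD

/-! ### Bijectivity from the cardinalities -/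

section Card

variable {Mid KP : Type} [Fintype Mid] [Fintype KP]

theorem bijective_of_surjective_of_card {f : Mid → KP} (hf : Function.Surjective f)
    (hcard : Fintype.card Mid = Fintype.card KP) : Function.Bijective f :=
  (Fintype.bijective_iff_surjective_and_card f).2 ⟨hf, hcard⟩

theorem bijective_of_injective_of_card {f : Mid → KP} (hf : Function.Injective f)
    (hcard : Fintype.card Mid = Fintype.card KP) : Function.Bijective f :=
  (Fintype.bijective_iff_injective_and_card f).2 ⟨hf, hcard⟩

end Card

section Equivariant

variable {Mid KP : Type}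

/-- the value map intertwines the powers of the permutations -/
theorem val_pow_apply (val : Mid → KP) (P : Equiv.Perm Mid) (p : Equiv.Perm KP)
    (heq : ∀ j, val (P j) = p (val j)) (n : ℕ) (j : Mid) :
    val ((P ^ n) j) = (p ^ n) (val j) := by
  induction n generalizing j with
  | zero => simp
  | succ n ih =>
    rw [pow_succ', Equiv.Perm.mul_apply, heq, ih, pow_succ', Equiv.Perm.mul_apply]

/-- The value map is surjective when it intertwines a permutation of `Mid` with a transitive
permutation of `KP`. -/
theorem surjective_of_equivariant [Nonempty Mid] (val : Mid → KP) (P : Equiv.Perm Mid)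
    (p : Equiv.Perm KP) (hp : ∀ s s', ∃ n : ℕ, (p ^ n) s = s')
    (heq : ∀ j, val (P j) = p (val j)) : Function.Surjective val := by
  intro s'
  obtain ⟨j⟩ := ‹Nonempty Mid›
  obtain ⟨n, hn⟩ := hp (val j) s'
  exact ⟨(P ^ n) j, by rw [val_pow_apply val P p heq, hn]⟩

end Equivariant

/-! ### The component through a Kummer point -/

section CompOf

variable {Mid SSp KP : Type} (val : SSp → Mid → KP) (hval : ∀ e, Function.Bijective (val e))

/-- **The middle component through the Kummer point `s` of `z e`**: the inverse of the value
map. -/
noncomputable def compOf : SSp → KP → Mid :=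
  fun e => (Equiv.ofBijective (val e) (hval e)).symm

theorem val_compOf (e : SSp) (s : KP) : val e (compOf val hval e s) = s :=
  (Equiv.ofBijective (val e) (hval e)).apply_symm_apply s

@[simp] theorem compOf_val (e : SSp) (j : Mid) : compOf val hval e (val e j) = j :=
  (Equiv.ofBijective (val e) (hval e)).symm_apply_apply j

/-- **(U2)** : `comp e s` is characterised by its value. -/
theorem compOf_eq_iff {e : SSp} {s : KP} {j : Mid} : compOf val hval e s = j ↔ val e j = s := by
  constructor
  · rintro rfl
    exact val_compOf val hval e s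
  · rintro rfl
    exact compOf_val val hval e j

theorem eq_compOf_iff {e : SSp} {s : KP} {j : Mid} : j = compOf val hval e s ↔ val e j = s := by
  rw [eq_comm, compOf_eq_iff]

theorem compOf_bijective (e : SSp) : Function.Bijective (compOf val hval e) :=
  (Equiv.ofBijective (val e) (hval e)).symm.bijective

theorem compOf_injective (e : SSp) : Function.Injective (compOf val hval e) :=
  (compOf_bijective val hval e).1

/-- every middle component passes through a Kummer point of every vertical component -/
theorem compOf_hall (e : SSp) (i : Mid) : ∃ s, compOf val hval e s = i :=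
  (compOf_bijective val hval e).2 i

/-- the field `comp_surj` of `SDD.Input` -/
theorem compOf_surj [Nonempty SSp] (i : Mid) : ∃ e s, compOf val hval e s = i := by
  obtain ⟨e⟩ := ‹Nonempty SSp›
  exact ⟨e, compOf_hall val hval e i⟩

/-- the hypothesis `hcomp` of (G6) from the equivariance of the value map -/
theorem compOf_hcomp (P : Equiv.Perm Mid) (p : SSp → Equiv.Perm KP)
    (heq : ∀ e j, val e (P j) = p e (val e j)) (e : SSp) (s : KP) :
    compOf val hval e (p e s) = P (compOf val hval e s) := by
  rw [compOf_eq_iff, heq, val_compOf val hval]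

end CompOf

/-! ### Any `comp` -/

section AnyComp

variable {Mid SSp KP : Type} (comp : SSp → KP → Mid)

theorem comp_surj_of_hall [Nonempty SSp] (hall : ∀ e i, ∃ s, comp e s = i) (i : Mid) :
    ∃ e s, comp e s = i := by
  obtain ⟨e⟩ := ‹Nonempty SSp›
  exact ⟨e, hall e i⟩

theorem hall_of_bijective (hbij : ∀ e, Function.Bijective (comp e)) (e : SSp) (i : Mid) :
    ∃ s, comp e s = i :=
  (hbij e).2 i

/-- a middle component meets a vertical component in exactly one point -/
theorem card_fiber_eq_one [Fintype KP] [DecidableEq Mid]
    (hbij : ∀ e, Function.Bijective (comp e)) (e : SSp) (i : Mid) :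
    Fintype.card {s : KP // comp e s = i} = 1 := by
  rw [Fintype.card_eq_one_iff]
  obtain ⟨s, hs⟩ := (hbij e).2 i
  exact ⟨⟨s, hs⟩, fun t => Subtype.ext ((hbij e).1 (t.2.trans hs.symm))⟩

theorem card_eq_of_bijective [Fintype Mid] [Fintype KP] (e : SSp)
    (hbij : Function.Bijective (comp e)) : Fintype.card KP = Fintype.card Mid :=
  Fintype.card_of_bijective hbij

end AnyComp

/-! ### The points of the middle components in the Sigma type of `S''` -/

section Sigma

variable {Mid SSp KP : Type} {k : Type*} [Field k] {FH : Bool → Type} {FM : Type}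
  {FZ : SSp → Type} [∀ b, Field (FH b)] [Field FM] [∀ e, Field (FZ e)]
  [∀ b, Algebra k (FH b)] [Algebra k FM] [∀ e, Algebra k (FZ e)]

/-- equality of points of middle components (ONE residue field `FM` for all of them) -/
theorem sigma_mid_eq_iff {i i' : Mid} {Q Q' : Place k FM} :
    (⟨mid i, Q⟩ : Σ v, Place k (FtOf FH (fun _ : Mid => FM) FZ v)) = ⟨mid i', Q'⟩ ↔
      i = i' ∧ Q = Q' := by
  constructor
  · intro h
    have h1 : (mid i : Comp Mid SSp) = mid i' := congrArg Sigma.fst h
    have hi : i = i' := Sum.inr.inj (Sum.inl.inj h1)
    subst hi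
    exact ⟨rfl, eq_of_heq (Sigma.mk.inj h).2⟩
  · rintro ⟨rfl, rfl⟩
    rfl

/-- **The field `pMid_injective` of `SDD.CaseInput`** when `pMid e s := pK e` is THE place of the
common residue field `FM` over `e`. -/
theorem pMid_injective_of (comp : SSp → KP → Mid) (hinj : ∀ e, Function.Injective (comp e))
    (pK : SSp → Place k FM) (hpK : Function.Injective pK) (e : SSp) (s : KP) (e' : SSp) (s' : KP)
    (h : (⟨mid (comp e s), pK e⟩ : Σ v, Place k (FtOf FH (fun _ : Mid => FM) FZ v)) =
      ⟨mid (comp e' s'), pK e'⟩) : e = e' ∧ s = s' := by
  obtain ⟨h1, h2⟩ := sigma_mid_eq_iff.mp h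
  have he : e = e' := hpK h2
  subst he
  exact ⟨rfl, hinj e h1⟩

/-- The hypothesis of the field `smMid` of `SDD.CaseInput` says that `Q` lies over no
supersingular point. -/
theorem ne_pK_of_forall_ne (comp : SSp → KP → Mid) (hall : ∀ e i, ∃ s, comp e s = i)
    (pK : SSp → Place k FM) (i : Mid) (Q : Place k FM)
    (h : ∀ e s, (⟨mid i, Q⟩ : Σ v, Place k (FtOf FH (fun _ : Mid => FM) FZ v)) ≠
      ⟨mid (comp e s), pK e⟩) (e : SSp) : Q ≠ pK e := by
  obtain ⟨s, hs⟩ := hall e i
  intro hQ
  exact h e s (sigma_mid_eq_iff.mpr ⟨hs.symm, hQ⟩)

/-- conversely -/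
theorem forall_ne_of_ne_pK (comp : SSp → KP → Mid) (pK : SSp → Place k FM) (i : Mid)
    (Q : Place k FM) (h : ∀ e, Q ≠ pK e) (e : SSp) (s : KP) :
    (⟨mid i, Q⟩ : Σ v, Place k (FtOf FH (fun _ : Mid => FM) FZ v)) ≠
      ⟨mid (comp e s), pK e⟩ := fun h' => h e (sigma_mid_eq_iff.mp h').2

end Sigma

end Fermat.Agent.BR3.SepNComp
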