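/-
Program C (S36), node I7, piece (c), part 2: `comp` from the RELATION "the Kummer function of `z e`
has the value `c e s` at THE place of `mid j` over `e`" (helper12).

The fourth residue fact `hθ₂` of helper8's `KummerComps.VertAlg.kummerHyp_frame` at the Kummer node
`nk e s` reads `∃ h : θ - algebraMap K F₂ (c₀ : K) ∈ O₂, Q₂.adicValuation (res₂ ⟨_, h⟩) < 1` with
`(O₂, res₂)` the middle component through the node and `Q₂` its place over `e`.  Here:

* `HasValue C Q θ c` : that statement for a constant reduction `C` (`O₂ = C.O`, `res₂ = C.res`);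
  `residue_eq_of_hasValue` : the constant is unique modulo the maximal ideal;
* for ANY relation `H : SSp → Mid → KP → Prop` which is a function of `(e, j)` (`hex`, `huniq`):
  `valOf H hex : SSp → Mid → KP`, `valOf_spec`, `valOf_eq_iff`, `valOf_equivariant` (from
  `hP : H e j s → H e (P j) (p e s)`), `bijective_valOf` (from `card Mid = card KP`, `hp`
  transitive, `hP`), and for `comp := SepNComp.compOf (valOf H hex) hval` :
  `rel_compOf : H e (comp e s) s` (= `hθ₂` at the node `nk e s`),
  `compOf_eq_iff_rel : comp e s = j ↔ H e j s` (= the architect's (U2) `comp_eq_iff`);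
* `KummerRel CM pK θ c e j s := HasValue (CM j) (pK e) (θ e) (c e s)` and `kummerRel_unique` (from
  the injectivity of `s ↦ c e s` modulo the maximal ideal).
-/
import Mathlib
import Fermat.Agent.BR3.SepNComp
import Fermat.Agent.Val.ConstRed
import Fermat.Agent.Red.Values

set_option autoImplicit false
set_option linter.unusedSectionVars false

namespace Fermat.Agent.BR3.SepNCompRel

open AlgebraicCurve IsLocalRing Fermat.Agent.Val Fermat.Agent.Red Fermat.Agent.BR3.SepNComp

/-! ### A relation which is a function -/

section Rel

variable {Mid SSp KP : Type} (H : SSp → Mid → KP → Prop) (hex : ∀ e j, ∃ s, H e j s)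
  (huniq : ∀ e j s s', H e j s → H e j s' → s = s')

/-- the value map of a relation which is a function of `(e, j)` -/
noncomputable def valOf : SSp → Mid → KP := fun e j => Classical.choose (hex e j)

theorem valOf_spec (e : SSp) (j : Mid) : H e j (valOf H hex e j) :=
  Classical.choose_spec (hex e j)

include huniq in
theorem valOf_eq_iff {e : SSp} {j : Mid} {s : KP} : valOf H hex e j = s ↔ H e j s :=
  ⟨fun h => h ▸ valOf_spec H hex e j, fun h => huniq e j _ _ (valOf_spec H hex e j) h⟩

include huniq in
/-- the value map is equivariant as soon as the relation is -/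
theorem valOf_equivariant (P : Equiv.Perm Mid) (p : SSp → Equiv.Perm KP)
    (hP : ∀ e j s, H e j s → H e (P j) (p e s)) (e : SSp) (j : Mid) :
    valOf H hex e (P j) = p e (valOf H hex e j) :=
  (valOf_eq_iff H hex huniq).mpr (hP e j _ (valOf_spec H hex e j))

include huniq in
/-- **The value map is bijective**: `card Mid = card KP`, the permutations `p e` of `KP` are
transitive and the relation is equivariant. -/
theorem bijective_valOf [Fintype Mid] [Fintype KP] [Nonempty Mid]
    (hcard : Fintype.card Mid = Fintype.card KP) (P : Equiv.Perm Mid) (p : SSp → Equiv.Perm KP)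
    (hp : ∀ e s s', ∃ n : ℕ, ((p e) ^ n) s = s')
    (hP : ∀ e j s, H e j s → H e (P j) (p e s)) (e : SSp) :
    Function.Bijective (valOf H hex e) :=
  bijective_of_surjective_of_card
    (surjective_of_equivariant _ P (p e) (hp e) (valOf_equivariant H hex huniq P p hP e)) hcard

variable (hval : ∀ e, Function.Bijective (valOf H hex e))

/-- **`hθ₂` at the node `nk e s`**: the relation holds on the component `comp e s`. -/
theorem rel_compOf (e : SSp) (s : KP) : H e (compOf (valOf H hex) hval e s) s := by
  have h := valOf_spec H hex e (compOf (valOf H hex) hval e s)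
  rwa [val_compOf (valOf H hex) hval] at h

include huniq in
/-- **(U2)** : `comp e s = j ↔` the relation holds at `(e, j, s)`. -/
theorem compOf_eq_iff_rel {e : SSp} {s : KP} {j : Mid} :
    compOf (valOf H hex) hval e s = j ↔ H e j s := by
  rw [compOf_eq_iff, valOf_eq_iff H hex huniq]

include huniq in
theorem eq_compOf_iff_rel {e : SSp} {s : KP} {j : Mid} :
    j = compOf (valOf H hex) hval e s ↔ H e j s := by
  rw [eq_comm, compOf_eq_iff_rel H hex huniq hval]

end Rel

/-! ### The relation "`θ` has the value `c` at `Q` on the component `C`" -/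

section Values

variable {K : Type} {F : Type*} [Field K] [Field F] [Algebra K F] {A : ValuationSubring K}
  {Ft : Type*} [Field Ft] [Algebra (ResidueField A) Ft]

/-- `θ - c` lies in the valuation ring of the component `C` and its residue vanishes at `Q`
(the shape of the residue facts `hθ₁`, `hθ₂` of `KummerComps.VertAlg.kummerHyp_frame`). -/
def HasValue (C : ConstRed (F := F) (Ft := Ft) A (residue A)) (Q : Place (ResidueField A) Ft)
    (θ : F) (c : A) : Prop :=
  ∃ h : θ - algebraMap K F (c : K) ∈ C.O, Q.adicValuation (C.res ⟨_, h⟩) < 1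

theorem hasValue_iff {C : ConstRed (F := F) (Ft := Ft) A (residue A)}
    {Q : Place (ResidueField A) Ft} {θ : F} {c : A} :
    HasValue C Q θ c ↔
      ∃ h : θ - algebraMap K F (c : K) ∈ C.O, Q.adicValuation (C.res ⟨_, h⟩) < 1 := Iff.rfl

/-- the constant is unique modulo the maximal ideal -/
theorem residue_eq_of_hasValue {C : ConstRed (F := F) (Ft := Ft) A (residue A)}
    {Q : Place (ResidueField A) Ft} {θ : F} {c c' : A} (h : HasValue C Q θ c)
    (h' : HasValue C Q θ c') : residue A c = residue A c' := by
  obtain ⟨hm, hlt⟩ := h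
  obtain ⟨hm', hlt'⟩ := h'
  have hd : algebraMap K F ((c - c' : A) : K) ∈ C.O := (C.algebraMap_mem_iff _).mpr (c - c').2
  have hsplit : algebraMap K F ((c - c' : A) : K) =
      (θ - algebraMap K F (c' : K)) - (θ - algebraMap K F (c : K)) := by
    rw [show ((c - c' : A) : K) = (c : K) - (c' : K) from rfl, map_sub]
    ring
  have hres : C.res ⟨algebraMap K F ((c - c' : A) : K), hd⟩ =
      C.res ⟨θ - algebraMap K F (c' : K), hm'⟩ - C.res ⟨θ - algebraMap K F (c : K), hm⟩ := by
    rw [← map_sub]
    congr 1
    exact Subtype.ext hsplit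
  have hconst := C.res_algebraMap ((c - c' : A) : K) (c - c').2 hd
  have hv : IsValueAt Q (C.res ⟨algebraMap K F ((c - c' : A) : K), hd⟩) 0 := by
    rw [hres]
    simpa using (isValueAt_zero_iff.mpr hlt').sub (isValueAt_zero_iff.mpr hlt)
  rw [hconst] at hv
  have h0 : residue A ⟨((c - c' : A) : K), (c - c').2⟩ = 0 :=
    (isValueAt_algebraMap Q _).unique hv
  have h1 : residue A (c - c') = 0 := h0
  rw [map_sub, sub_eq_zero] at h1
  exact h1

/-- the relation of the Kummer nodes: the Kummer function `θ e` of `z e` has the value `c e s` at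
THE place `pK e` of the middle component `j` over `e` -/
def KummerRel {Mid SSp KP : Type} (CM : Mid → ConstRed (F := F) (Ft := Ft) A (residue A))
    (pK : SSp → Place (ResidueField A) Ft) (θ : SSp → F) (c : SSp → KP → A) :
    SSp → Mid → KP → Prop :=
  fun e j s => HasValue (CM j) (pK e) (θ e) (c e s)

theorem kummerRel_unique {Mid SSp KP : Type}
    (CM : Mid → ConstRed (F := F) (Ft := Ft) A (residue A))
    (pK : SSp → Place (ResidueField A) Ft) (θ : SSp → F) (c : SSp → KP → A)
    (hc : ∀ e s s', residue A (c e s) = residue A (c e s') → s = s') (e : SSp) (j : Mid)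
    (s s' : KP) (h : KummerRel CM pK θ c e j s) (h' : KummerRel CM pK θ c e j s') : s = s' :=
  hc e s s' (residue_eq_of_hasValue h h')

end Values

end Fermat.Agent.BR3.SepNCompRel
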