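import Mathlib
import Fermat.Agent.BR3.SepNCompRel
import Fermat.Agent.BR3.PlaceIso
import Fermat.Prelude.Def_AlgebraicCurve_Repartitions

/-!
# Program C (S36), node (I9-σ0): equivariance of the Kummer relation under the tame generator

`SepNCompRel.HasValue C Q θ c` : "`θ` has the value `c` at the place `Q` of the component `C`".

* `hasValue_smul` : a semilinear automorphism `g` which maps the component `C` to `C'` inducing
  `a : Ft ≃ Ft'`, with `g • θ = ε θ` (`ε` a unit of `A`) and `g c ≡ ε c'` modulo the maximal ideal,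
  maps `HasValue C Q θ c` to `HasValue C' (placeMap a Q) θ c'`;
* `kummerRel_equivariant` : the hypothesis (I3) `hP : ∀ e j s, H e j s → H e (P j) (p e s)` of
  `SepNCompRel.bijective_valOf`, `valOf_equivariant` for `H := KummerRel CM pK θ c`, for a constant
  family of residue fields on the middle components with `placeMap (aMid j) (pK e) = pK e`;
* `comp_equivariant` : `comp e (p e s) = P (comp e s)` for
  `comp := SepNComp.compOf (valOf H hex) hval` — the hypothesis (U2) `hcomp` of
  `EquivActsKummer.hpMid_of_restrict`.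
-/

set_option autoImplicit false
set_option linter.unusedVariables false
set_option linter.unusedSectionVars false

noncomputable section

namespace Fermat.Agent.BR3.EquivActsKummerRel

open AlgebraicCurve IsLocalRing Fermat.Agent.Val Fermat.Agent.Red Fermat.Agent.BR3.PlaceIso
  Fermat.Agent.BR3.SepNComp Fermat.Agent.BR3.SepNCompRel

variable {K : Type} {F : Type*} [Field K] [Field F] [Algebra K F] {A : ValuationSubring K}

section One

variable {Ft Ft' : Type*} [Field Ft] [Field Ft'] [Algebra (ResidueField A) Ft]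
  [Algebra (ResidueField A) Ft']

/-- **The relation "`θ` has the value `c` at `Q` on `C`" under a semilinear automorphism** mapping
`C` to `C'`, with `g • θ = ε θ`, `ε` a unit, and `g c ≡ ε c'` modulo the maximal ideal. -/
theorem hasValue_smul (C : ConstRed (F := F) (Ft := Ft) A (residue A))
    (C' : ConstRed (F := F) (Ft := Ft') A (residue A)) (g : SemilinearAut K F)
    (a : Ft ≃ₐ[ResidueField A] Ft') (hmem : ∀ y : F, y ∈ C.O → g • y ∈ C'.O)
    (hres : ∀ (y : F) (hy : y ∈ C.O) (hy' : g • y ∈ C'.O), C'.res ⟨g • y, hy'⟩ = a (C.res ⟨y, hy⟩))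
    {Q : Place (ResidueField A) Ft} {θ : F} {c c' ε : A} (hε : IsUnit ε)
    (hθ : g • θ = algebraMap K F (ε : K) * θ)
    (hc : SemilinearAut.baseAut g (c : K) - (ε : K) * (c' : K) ∈ A.nonunits)
    (h : HasValue C Q θ c) : HasValue C' (placeMap a Q) θ c' := by
  obtain ⟨hm, hlt⟩ := h
  set y : F := θ - algebraMap K F (c : K) with hy
  set m : K := SemilinearAut.baseAut g (c : K) - (ε : K) * (c' : K) with hmdef
  have hmA : m ∈ A := A.nonunits_le hc
  have hgy : g • y ∈ C'.O := hmem y hm
  -- the constants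
  obtain ⟨εu, hεu⟩ := hε
  have hε0 : (ε : K) ≠ 0 := by
    intro h0
    have : ε = 0 := Subtype.ext h0
    rw [← hεu] at this
    exact εu.ne_zero this
  set εi : A := ((εu⁻¹ : Aˣ) : A) with hεi
  have hεmul : (εi : K) * (ε : K) = 1 := by
    have h1 : εi * ε = 1 := by rw [hεi, ← hεu]; exact εu.inv_mul
    exact congrArg Subtype.val h1
  have hεiO : algebraMap K F (εi : K) ∈ C'.O := (C'.algebraMap_mem_iff _).mpr εi.2
  have hmO : algebraMap K F m ∈ C'.O := (C'.algebraMap_mem_iff _).mpr hmA
  -- the identity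
  have hgy' : g • y = algebraMap K F (ε : K) * (θ - algebraMap K F (c' : K)) -
      algebraMap K F m := by
    rw [hy, smul_sub, hθ, SemilinearAut.smul_def, SemilinearAut.commutes, hmdef, map_sub, map_mul]
    ring
  have hkey : θ - algebraMap K F (c' : K) =
      algebraMap K F (εi : K) * (g • y + algebraMap K F m) := by
    rw [hgy', sub_add_cancel, ← mul_assoc, ← map_mul, hεmul, map_one, one_mul]
  have hmem' : θ - algebraMap K F (c' : K) ∈ C'.O := by
    rw [hkey]
    exact C'.O.mul_mem _ _ hεiO (C'.O.add_mem _ _ hgy hmO)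
  refine ⟨hmem', ?_⟩
  have hsplit : (⟨θ - algebraMap K F (c' : K), hmem'⟩ : C'.O) =
      ⟨algebraMap K F (εi : K), hεiO⟩ * (⟨g • y, hgy⟩ + ⟨algebraMap K F m, hmO⟩) :=
    Subtype.ext hkey
  have hm0 : C'.res ⟨algebraMap K F m, hmO⟩ = 0 := by
    rw [C'.res_algebraMap m hmA hmO]
    have : residue A ⟨m, hmA⟩ = 0 := by
      rw [residue_eq_zero_iff]
      exact (A.coe_mem_nonunits_iff (a := ⟨m, hmA⟩)).mp hc
    rw [this, map_zero]
  rw [hsplit, map_mul, map_add, hm0, add_zero, hres y hm hgy,
    C'.res_algebraMap (εi : K) εi.2 hεiO, map_mul]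
  have h1 : (placeMap a Q).adicValuation (algebraMap (ResidueField A) Ft' (residue A ⟨εi, εi.2⟩)) ≤
      1 := (placeMap a Q).adicValuation_algebraMap_le_one _
  have h2 : (placeMap a Q).adicValuation (a (C.res ⟨y, hm⟩)) < 1 :=
    (adicValuation_placeMap_lt_one_iff a Q _).mpr hlt
  calc (placeMap a Q).adicValuation (algebraMap (ResidueField A) Ft' (residue A ⟨εi, εi.2⟩)) *
        (placeMap a Q).adicValuation (a (C.res ⟨y, hm⟩))
      ≤ 1 * (placeMap a Q).adicValuation (a (C.res ⟨y, hm⟩)) := mul_le_mul_left h1 _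
    _ < 1 := by rw [one_mul]; exact h2

end One

section Family

variable {E : Type*} [Field E] [Algebra (ResidueField A) E] {Mid SSp KP : Type}
  (CM : Mid → ConstRed (F := F) (Ft := E) A (residue A))
  (pK : SSp → Place (ResidueField A) E) (θ : SSp → F) (c : SSp → KP → A)

/-- **(I3) equivariance of the Kummer relation**: the hypothesis `hP` of
`SepNCompRel.bijective_valOf` / `valOf_equivariant` for `H := KummerRel CM pK θ c`. -/
theorem kummerRel_equivariant (g : SemilinearAut K F) (P : Equiv.Perm Mid)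
    (aMid : Mid → (E ≃ₐ[ResidueField A] E))
    (hmem : ∀ (j : Mid) (y : F), y ∈ (CM j).O → g • y ∈ (CM (P j)).O)
    (hres : ∀ (j : Mid) (y : F) (hy : y ∈ (CM j).O) (hy' : g • y ∈ (CM (P j)).O),
      (CM (P j)).res ⟨g • y, hy'⟩ = aMid j ((CM j).res ⟨y, hy⟩))
    (hpK : ∀ e j, placeMap (aMid j) (pK e) = pK e)
    {ε : A} (hε : IsUnit ε) (hθ : ∀ e, g • θ e = algebraMap K F (ε : K) * θ e)
    (p : SSp → Equiv.Perm KP)
    (hc : ∀ e s, SemilinearAut.baseAut g (c e s : K) - (ε : K) * (c e (p e s) : K) ∈ A.nonunits)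
    (e : SSp) (j : Mid) (s : KP) (h : KummerRel CM pK θ c e j s) :
    KummerRel CM pK θ c e (P j) (p e s) := by
  have h1 := hasValue_smul (CM j) (CM (P j)) g (aMid j) (hmem j) (hres j) hε (hθ e) (hc e s) h
  rw [hpK e j] at h1
  exact h1

/-- **(U2) `comp e (p e s) = P (comp e s)`** for `comp := compOf (valOf H hex) hval`,
`H := KummerRel CM pK θ c`. -/
theorem comp_equivariant (hex : ∀ e j, ∃ s, KummerRel CM pK θ c e j s)
    (hcinj : ∀ e s s', residue A (c e s) = residue A (c e s') → s = s')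
    (hval : ∀ e, Function.Bijective (valOf (KummerRel CM pK θ c) hex e))
    (g : SemilinearAut K F) (P : Equiv.Perm Mid)
    (aMid : Mid → (E ≃ₐ[ResidueField A] E))
    (hmem : ∀ (j : Mid) (y : F), y ∈ (CM j).O → g • y ∈ (CM (P j)).O)
    (hres : ∀ (j : Mid) (y : F) (hy : y ∈ (CM j).O) (hy' : g • y ∈ (CM (P j)).O),
      (CM (P j)).res ⟨g • y, hy'⟩ = aMid j ((CM j).res ⟨y, hy⟩))
    (hpK : ∀ e j, placeMap (aMid j) (pK e) = pK e)
    {ε : A} (hε : IsUnit ε) (hθ : ∀ e, g • θ e = algebraMap K F (ε : K) * θ e)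
    (p : SSp → Equiv.Perm KP)
    (hc : ∀ e s, SemilinearAut.baseAut g (c e s : K) - (ε : K) * (c e (p e s) : K) ∈ A.nonunits)
    (e : SSp) (s : KP) :
    compOf (valOf (KummerRel CM pK θ c) hex) hval e (p e s) =
      P (compOf (valOf (KummerRel CM pK θ c) hex) hval e s) := by
  rw [compOf_eq_iff_rel (KummerRel CM pK θ c) hex (kummerRel_unique CM pK θ c hcinj) hval]
  exact kummerRel_equivariant CM pK θ c g P aMid hmem hres hpK hε hθ p hc e _ s
    (rel_compOf (KummerRel CM pK θ c) hex hval e s)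

end Family

end Fermat.Agent.BR3.EquivActsKummerRel
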