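import Fermat.Agent.BR3.EquivHoriz
import Fermat.Agent.BR3.CoverK.Defs
import Fermat.Agent.BR.Inst.InertiaBase
import Fermat.Agent.Jac.HeckeGalois

/-!
# Program C (S36), node (I9-GLUE), part C: functions fixed by the coefficientwise Galois action, and
the stability of the sheets cut out by fixed generators

`σ ∈ Gal(ℚ̄/ℚ)`, `gal N σ = galAut N σ` the coefficientwise action on `F̄_N`.

* `galFixed N σ : Subfield (Fb N)` : the functions fixed by `gal N σ`; it contains the constants
  fixed by `σ` (`algebraMap_mem_galFixed`), the functions with rational coefficients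
  (`barEmb_mem_galFixed`, `jBarD_mem_galFixed`), `NormalModel.modelField N E` for every subfield
  `E` of constants fixed pointwise by `σ` (`modelField_le_galFixed`), and is stable under the level
  maps `heckeAlphaBar`, `heckeBetaBar` (`alpha2`, `beta2`) and the Atkin–Lehner involutions
  (`atkinLehnerGen_mem_galFixed`, `W2_mem_galFixed`);
* `heckeAlphaBar_comm`, `heckeBetaBar_comm` : the compatibility `hcomm` of
  `EquivTrivial.restrict_smul` / `smul_mem_coverTube_iff_of_fixed` for `[Algebra F' F'']` given by a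
  level map;
* `smul_mem_coverTubeK_iff_of_fixed` : `EquivTrivial.smul_mem_coverTube_iff_of_fixed` for the tube
  `CoverK.coverTube` of node A6-K (same body as `CoverSmooth.coverTube`).
-/

set_option autoImplicit false
set_option linter.style.haveILetI false
set_option linter.unusedSectionVars false

noncomputable section

namespace Fermat.Agent.BR3.EquivFixed

open ModularCurve AlgebraicCurve HahnSeries Fermat.Agent.X0 Fermat.Agent.Val Fermat.Agent.Hecke
open Fermat.Agent.BR.ValTwo Fermat.Agent.BR.Inst.NormalModel Fermat.Agent.Good.Bridge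
open Fermat.Agent.BR3.ALSq Fermat.Agent.BR3.InvFiniteTheta

/-! ## The fixed subfield -/

section Fixed

variable (N : ℕ) [NeZero N] (σ : Kb ≃ₐ[ℚ] Kb)

/-- The subfield of `F̄_N` fixed by the coefficientwise action of `σ`. -/
def galFixed : Subfield (Fb N) where
  carrier := {y | gal N σ • y = y}
  mul_mem' {x y} hx hy := by
    show gal N σ • (x * y) = x * y
    rw [smul_mul', hx, hy]
  one_mem' := smul_one _
  add_mem' {x y} hx hy := by
    show gal N σ • (x + y) = x + y
    rw [smul_add, hx, hy]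
  zero_mem' := smul_zero _
  neg_mem' {x} hx := by
    show gal N σ • (-x) = -x
    rw [smul_neg, hx]
  inv_mem' x hx := by
    show gal N σ • x⁻¹ = x⁻¹
    rw [smul_inv'', hx]

variable {N σ}

theorem mem_galFixed {y : Fb N} : y ∈ galFixed N σ ↔ gal N σ • y = y := Iff.rfl

theorem algebraMap_mem_galFixed {c : Kb} (hc : σ c = c) :
    algebraMap Kb (Fb N) c ∈ galFixed N σ := by
  show gal N σ • algebraMap Kb (Fb N) c = _
  rw [SemilinearAut.smul_algebraMap]
  show algebraMap Kb (Fb N) (σ c) = _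
  rw [hc]

theorem smul_mem_galFixed {c : Kb} (hc : σ c = c) {y : Fb N} (hy : y ∈ galFixed N σ) :
    c • y ∈ galFixed N σ := by
  rw [Algebra.smul_def]
  exact (galFixed N σ).mul_mem (algebraMap_mem_galFixed hc) hy

variable (σ) in
theorem barEmb_mem_galFixed (x : ↥(modularFunctionFieldFull N)) : barEmb N x ∈ galFixed N σ :=
  Fermat.Agent.BR.Inst.gal_smul_barEmb σ x

variable (σ) in
theorem jBarD_mem_galFixed (d : ℕ) [NeZero d] (hd : d ∣ N) : jBarD N d hd ∈ galFixed N σ :=
  gal_smul_jBarD N d hd σ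

/-- The functions of `E · F_N` are fixed as soon as `σ` fixes the constants of `E`. -/
theorem modelField_le_galFixed (E : Subfield Kb) (hE : ∀ c ∈ E, σ c = c) :
    modelField N E ≤ galFixed N σ := fun _ hx =>
  Fermat.Agent.BR.Inst.FKCover.gal_smul_eq_of_mem_FKs E hE hx

end Fixed

/-! ## The level maps and the Atkin–Lehner involutions -/

section Maps

variable {N : ℕ} [NeZero N] (ℓ : ℕ) [NeZero ℓ] {σ : Kb ≃ₐ[ℚ] Kb}

theorem heckeAlphaBar_mem_galFixed {y : Fb N} (hy : y ∈ galFixed N σ) :
    heckeAlphaBar Kb N ℓ y ∈ galFixed (N * ℓ) σ := by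
  show gal (N * ℓ) σ • heckeAlphaBar Kb N ℓ y = _
  rw [← Fermat.Agent.Jac.heckeAlphaBar_galAut, mem_galFixed.mp hy]

theorem heckeBetaBar_mem_galFixed {y : Fb N} (hy : y ∈ galFixed N σ) :
    heckeBetaBar Kb N ℓ y ∈ galFixed (N * ℓ) σ := by
  show gal (N * ℓ) σ • heckeBetaBar Kb N ℓ y = _
  rw [← Fermat.Agent.Jac.heckeBetaBar_galAut, mem_galFixed.mp hy]

variable (σ) in
/-- The compatibility `hcomm` for the algebra structure `heckeAlphaBar.toAlgebra`. -/
theorem heckeAlphaBar_comm (y : Fb N) :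
    gal (N * ℓ) σ • heckeAlphaBar Kb N ℓ y = heckeAlphaBar Kb N ℓ (gal N σ • y) :=
  (Fermat.Agent.Jac.heckeAlphaBar_galAut N ℓ σ y).symm

variable (σ) in
/-- The compatibility `hcomm` for the algebra structure `heckeBetaBar.toAlgebra`. -/
theorem heckeBetaBar_comm (y : Fb N) :
    gal (N * ℓ) σ • heckeBetaBar Kb N ℓ y = heckeBetaBar Kb N ℓ (gal N σ • y) :=
  (Fermat.Agent.Jac.heckeBetaBar_galAut N ℓ σ y).symm

end Maps

section AL

variable {N M Q : ℕ} [NeZero N] [NeZero M] [NeZero Q] {σ : Kb ≃ₐ[ℚ] Kb}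

theorem atkinLehnerGen_mem_galFixed (hN : N = M * Q) (hcop : Nat.Coprime Q M) {y : Fb N}
    (hy : y ∈ galFixed N σ) : atkinLehnerGen hN hcop y ∈ galFixed N σ := by
  show gal N σ • atkinLehnerGen hN hcop y = _
  rw [← EquivHoriz.atkinLehnerGen_gal_smul, mem_galFixed.mp hy]

end AL

section Sq

open Fermat.Agent.BR3.FibreProd Fermat.Agent.BR.TwoVal

variable {M q : ℕ} [NeZero M] [hq : Fact q.Prime] (hqM : ¬ q ∣ M) {σ : Kb ≃ₐ[ℚ] Kb}

theorem W2_mem_galFixed {y : Fb (M * q * q)} (hy : y ∈ galFixed (M * q * q) σ) :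
    W2 hqM y ∈ galFixed (M * q * q) σ :=
  atkinLehnerGen_mem_galFixed _ _ hy

theorem alpha2_mem_galFixed {y : Fb (M * q)} (hy : y ∈ galFixed (M * q) σ) :
    alpha2 M q y ∈ galFixed (M * q * q) σ :=
  heckeAlphaBar_mem_galFixed q hy

theorem beta2_mem_galFixed {y : Fb (M * q)} (hy : y ∈ galFixed (M * q) σ) :
    beta2 M q y ∈ galFixed (M * q * q) σ :=
  heckeBetaBar_mem_galFixed q hy

end Sq

/-! ## Sheets cut out by fixed generators -/

section Sheet

variable {K F' F'' : Type*} [Field K] [Field F'] [Field F''] [Algebra K F'] [Algebra K F'']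
  [Algebra F' F''] [IsScalarTower K F' F''] [Algebra.IsIntegral F' F'']

/-- The tube of node A6-K is the tube of `CoverSmooth`. -/
theorem coverTubeK_eq (A : ValuationSubring K) (T' : Set (Place K F')) (θ : F'') (u : A) :
    CoverK.coverTube A T' θ u = CoverSmooth.coverTube A T' θ u := rfl

/-- **The sheet `θ ≡ u` over a stable tube is stable** under a `g''` fixing `θ` (inertial base
automorphism). -/
theorem smul_mem_coverTubeK_iff_of_fixed (A : ValuationSubring K) (g'' : SemilinearAut K F'')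
    (g' : SemilinearAut K F')
    (hcomm : ∀ y : F', g'' • algebraMap F' F'' y = algebraMap F' F'' (g' • y))
    (hg : IsInertial A (SemilinearAut.baseAut g''))
    {T' : Set (Place K F')} (hT : ∀ P', g' • P' ∈ T' ↔ P' ∈ T') {θ : F''} (hθ : g'' • θ = θ)
    (u : A) (P'' : Place K F'') :
    g'' • P'' ∈ CoverK.coverTube A T' θ u ↔ P'' ∈ CoverK.coverTube A T' θ u :=
  EquivTrivial.smul_mem_coverTube_iff_of_fixed A g'' g' hcomm hg hT hθ u P''

end Sheet

end Fermat.Agent.BR3.EquivFixed
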