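import Fermat.Agent.BR3.EquivInert
import Fermat.Agent.BR3.CZero
import Fermat.Agent.BR.GaloisTwo
import Fermat.Agent.BR2.G4Modular

/-!
# Program C (S36), node I9 (EQUIV), concrete half for the horizontal components `cInf`, `cZero`

`B` a valuation subring of `ℚ̄` over the prime `q`, `σ` in the inertia group of `B`,
`gal N σ = galAut N σ` the coefficientwise action of `σ` on `F̄_N`.

* `isInertial_gal` : the base automorphism of `gal N σ` is inertial (`InvFiniteTheta.IsInertial`);
* `actsTrivially_O1`, `actsTrivially_O2` : `gal (M q) σ` acts trivially on the two Gauss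
  valuation rings `w₁`, `w₂ = w₁ ∘ W_q` of `F̄_{Mq}` (`EquivInert.ActsTrivially`);
* `atkinLehnerGen_gal_smul`, `W2_gal_smul` : the general Atkin–Lehner involution `W_Q` is defined
  over `ℚ` (it commutes with `gal N σ` for EVERY `σ`);
* `actsTrivially_w1`, `actsTrivially_cZero` : `gal (M q²) σ` acts trivially on
  `cInf = FibreProd.w1` and `cZero = CZero.cZero` — the input `h v` of
  `EquivInert.trivialAction_multiInput_of_actsTrivially` at the two horizontal components of `S''`;
* decomposition group: `gal_smul_mem_w1_iff`, `gal_smul_mem_cZero_iff`, `resw1_gal_smul`,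
  `resZero_gal_smul` (the residue maps intertwine `σ` with the coefficientwise action of the
  induced automorphism of the residue field).
-/

set_option autoImplicit false
set_option linter.style.haveILetI false
set_option linter.unusedSectionVars false

noncomputable section

set_option synthInstance.maxHeartbeats 400000

namespace Fermat.Agent.BR3.EquivHoriz

open ModularCurve AlgebraicCurve HahnSeries Fermat.Agent.X0 Fermat.Agent.Val
open Fermat.Agent.Hecke.AL Fermat.Agent.BR.TwoVal Fermat.Agent.BR.ValTwo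
open Fermat.Agent.BR3.FibreProd Fermat.Agent.BR3.ALSq Fermat.Agent.BR3.CZero
open Fermat.Agent.BR3.EquivInert Fermat.Agent.BR3.InvFiniteTheta

/-! ## The base automorphism -/

/-- For `σ` in the inertia group of `B`, the base automorphism of `gal N σ` is inertial. -/
theorem isInertial_gal (N : ℕ) [NeZero N] (B : ValuationSubring Kb) {σ : Kb ≃ₐ[ℚ] Kb}
    (hσ : σ ∈ B.inertiaSubgroupIn ℚ) : IsInertial B (SemilinearAut.baseAut (gal N σ)) := by
  have := Fermat.Agent.BR2.G4Modular.isAlgebraic_Kb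
  refine ⟨fun x => ?_, fun x hx => ?_⟩
  · exact Fermat.Agent.BR2.TameChar.val_apply (mem_decomposition_of_mem_inertiaIn hσ) x
  · exact Fermat.Agent.BR.InertiaRed.resOf_apply B hσ hx

/-! ## Level `M q`: the two Gauss valuations -/

section LevelOne

variable {M q : ℕ} [NeZero M] [hq : Fact q.Prime]
variable (B : ValuationSubring Kb) (hB : B.LiesOverPrime q) (hqM : ¬ q ∣ M)
variable {σ : Kb ≃ₐ[ℚ] Kb}

/-- **Inertia acts trivially on `w₁`.** -/
theorem actsTrivially_O1 (hσ : σ ∈ B.inertiaSubgroupIn ℚ) :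
    ActsTrivially (O1 M B hB) (gal (M * q) σ) :=
  ActsTrivially.of_res (res1 M B hB)
    (fun x hx => (O1 M B hB).mem_nonunits_iff.mp
      ((Fermat.Agent.BR.TwoValInst.mem_nonunits_O1_iff B hB x.2).mpr hx))
    (fun _ => Fermat.Agent.BR.GaloisTwo.gal_smul_mem_O1_iff B hB
      (mem_decomposition_of_mem_inertiaIn hσ))
    (fun y hy => Fermat.Agent.BR.GaloisTwo.res1_gal_smul_of_mem_inertia B hB hσ ⟨y, hy⟩)

/-- **Inertia acts trivially on `w₂ = w₁ ∘ W_q`.** -/
theorem actsTrivially_O2 (hσ : σ ∈ B.inertiaSubgroupIn ℚ) :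
    ActsTrivially (O2 B hB hqM) (gal (M * q) σ) :=
  (actsTrivially_O1 B hB hσ).comap (Wq hqM : Fb (M * q) ≃ₐ[Kb] Fb (M * q)).toRingEquiv
    (fun y => Fermat.Agent.BR.GaloisTwo.Wq_gal_smul hqM σ y)

end LevelOne

/-! ## The general Atkin–Lehner involution is defined over `ℚ` -/

section Gen

variable {N M Q : ℕ} [NeZero N] [NeZero M] [NeZero Q]

theorem gal_smul_gen (hN : N = M * Q) (σ : Kb ≃ₐ[ℚ] Kb) (i : Idx M Q) :
    gal N σ • ALSq.gen hN i = ALSq.gen hN i :=
  gal_smul_jBarD _ _ _ σ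

/-- `W_Q` commutes with the Galois action on `Rb N`. -/
theorem atkinLehnerGen_gal_smul_of_mem_Rb (hN : N = M * Q) (hcop : Nat.Coprime Q M)
    (σ : Kb ≃ₐ[ℚ] Kb) {r : Fb N} (hr : r ∈ Rb N) :
    atkinLehnerGen hN hcop (gal N σ • r) = gal N σ • atkinLehnerGen hN hcop r := by
  unfold Rb at hr
  induction hr using Algebra.adjoin_induction with
  | mem x hx =>
    obtain ⟨i, rfl⟩ := genSetB_subset_range hN hcop hx
    rw [gal_smul_gen, atkinLehnerGen_gen, gal_smul_gen]
  | algebraMap c =>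
    rw [SemilinearAut.smul_algebraMap, AlgEquiv.commutes, AlgEquiv.commutes,
      SemilinearAut.smul_algebraMap]
  | add x y _ _ hx hy => rw [smul_add, map_add, map_add, smul_add, hx, hy]
  | mul x y _ _ hx hy => rw [smul_mul', map_mul, map_mul, smul_mul', hx, hy]

/-- **`W_Q` is defined over `ℚ`**: it commutes with the coefficientwise Galois action. -/
theorem atkinLehnerGen_gal_smul (hN : N = M * Q) (hcop : Nat.Coprime Q M) (σ : Kb ≃ₐ[ℚ] Kb)
    (x : Fb N) :
    atkinLehnerGen hN hcop (gal N σ • x) = gal N σ • atkinLehnerGen hN hcop x := by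
  obtain ⟨g, h, -, rfl⟩ := exists_Rb_div N x
  rw [smul_div₀', map_div₀, map_div₀, smul_div₀',
    atkinLehnerGen_gal_smul_of_mem_Rb hN hcop σ g.2,
    atkinLehnerGen_gal_smul_of_mem_Rb hN hcop σ h.2]

end Gen

/-! ## Level `M q²`: `cInf = w₁` and `cZero = w₁ ∘ W_{q²}` -/

section LevelTwo

variable {M q : ℕ} [NeZero M] [hq : Fact q.Prime]
variable (B : ValuationSubring Kb) (hB : B.LiesOverPrime q) (hqM : ¬ q ∣ M)
variable {σ : Kb ≃ₐ[ℚ] Kb}

local notation "kB" => IsLocalRing.ResidueField B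

/-- **`W_{q²}` is defined over `ℚ`.** -/
theorem W2_gal_smul (σ : Kb ≃ₐ[ℚ] Kb) (x : Fb (M * q * q)) :
    W2 hqM (gal (M * q * q) σ • x) = gal (M * q * q) σ • W2 hqM x :=
  atkinLehnerGen_gal_smul _ _ σ x

/-- The decomposition group of `B` preserves `cInf`. -/
theorem gal_smul_mem_w1_iff (hσ : σ ∈ B.decompositionSubgroup ℚ) {x : Fb (M * q * q)} :
    gal (M * q * q) σ • x ∈ w1 M B hB ↔ x ∈ w1 M B hB :=
  Fermat.Agent.BR.GaloisTwo.gal_smul_mem_O1_iff (M := M * q) B hB hσ

/-- The decomposition group of `B` preserves `cZero`. -/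
theorem gal_smul_mem_cZero_iff (hσ : σ ∈ B.decompositionSubgroup ℚ) {x : Fb (M * q * q)} :
    gal (M * q * q) σ • x ∈ cZero B hB hqM ↔ x ∈ cZero B hB hqM := by
  rw [mem_cZero_iff, mem_cZero_iff, W2_gal_smul, gal_smul_mem_w1_iff B hB hσ]

/-- `res_{cInf} (σ • x) = σ̄ (res_{cInf} x)` coefficientwise, `σ` in the decomposition group. -/
theorem resw1_gal_smul (hσ : σ ∈ B.decompositionSubgroup ℚ) (x : w1 M B hB) :
    resw1 M B hB ⟨gal (M * q * q) σ • (x : Fb (M * q * q)),
        (gal_smul_mem_w1_iff B hB hσ).mpr x.2⟩ =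
      coeffMap ((decompResAut B ⟨σ, hσ⟩ : kB ≃+* kB) : kB →+* kB) (resw1 M B hB x) :=
  Fermat.Agent.BR.GaloisTwo.res1_gal_smul (M := M * q) B hB hσ x

/-- `res_{cZero} (σ • x) = σ̄ (res_{cZero} x)` coefficientwise, `σ` in the decomposition group. -/
theorem resZero_gal_smul (hσ : σ ∈ B.decompositionSubgroup ℚ) (x : cZero B hB hqM) :
    resZero B hB hqM ⟨gal (M * q * q) σ • (x : Fb (M * q * q)),
        (gal_smul_mem_cZero_iff B hB hqM hσ).mpr x.2⟩ =
      coeffMap ((decompResAut B ⟨σ, hσ⟩ : kB ≃+* kB) : kB →+* kB) (resZero B hB hqM x) := by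
  have h := resw1_gal_smul B hB hσ (W2O B hB hqM x)
  refine Eq.trans ?_ h
  exact congrArg (resw1 M B hB) (Subtype.ext (W2_gal_smul hqM σ _))

/-- **Inertia acts trivially on `cInf`.** -/
theorem actsTrivially_w1 (hσ : σ ∈ B.inertiaSubgroupIn ℚ) :
    ActsTrivially (w1 M B hB) (gal (M * q * q) σ) :=
  actsTrivially_O1 (M := M * q) B hB hσ

/-- **Inertia acts trivially on `cZero`.** -/
theorem actsTrivially_cZero (hσ : σ ∈ B.inertiaSubgroupIn ℚ) :
    ActsTrivially (cZero B hB hqM) (gal (M * q * q) σ) :=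
  (actsTrivially_w1 B hB hσ).comap
    (W2 hqM : Fb (M * q * q) ≃ₐ[Kb] Fb (M * q * q)).toRingEquiv
    (fun y => W2_gal_smul hqM σ y)

end LevelTwo

end Fermat.Agent.BR3.EquivHoriz
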