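import Fermat.Agent.BR3.EquivTrivial

/-!
# Program C (S36), node I9 (EQUIV): trivial action on a component, valuation-ring form

For a valuation subring `V` of `F` and a semilinear automorphism `g` of `F / K`:

* `ActsTrivially V g` : `g` preserves `V` and `g • y - y` is a non-unit of `V` for every `y ∈ V`
  (the induced automorphism of the residue field is the identity).  This does not mention the
  residue field, so it can be checked on ANY presentation of the residue map of `V`
  (`ActsTrivially.of_res`: on a ring homomorphism with kernel the non-units) and is transported by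
  automorphisms of `F` commuting with `g` (`ActsTrivially.comap`: e.g. an Atkin–Lehner
  involution defined over the fixed field of the base automorphism);
* `mapsComp_refl_of_actsTrivially` : `FiltPerm.MapsComp S g v v AlgEquiv.refl` for a component
  whose valuation ring is acted on trivially;
* `trivialAction_of_actsTrivially`, `trivialAction_multiInput_of_actsTrivially` :
  `InvFiniteUnit.TrivialAction` from `ActsTrivially` on every component (no generating sets).
-/

set_option autoImplicit false
set_option linter.unusedSectionVars false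

namespace Fermat.Agent.BR3.EquivInert

open AlgebraicCurve IsLocalRing Fermat.Agent.Red Fermat.Agent.BR.SS Fermat.Agent.BR2
  Fermat.Agent.BR3.FiltPerm Fermat.Agent.BR3.EquivUnique Fermat.Agent.BR3.InvFiniteUnit
  Fermat.Agent.BR3.InvFiniteTheta Fermat.Agent.BR3.EquivTrivial

section Ring

variable {K F : Type*} [Field K] [Field F] [Algebra K F]

/-- `g` preserves the valuation ring `V` and acts trivially on its residue field. -/
structure ActsTrivially (V : ValuationSubring F) (g : SemilinearAut K F) : Prop where
  mem_iff : ∀ y : F, g • y ∈ V ↔ y ∈ V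
  sub_lt : ∀ y : F, y ∈ V → V.valuation (g • y - y) < 1

namespace ActsTrivially

variable {V : ValuationSubring F} {g : SemilinearAut K F}

/-- `ActsTrivially` from any presentation of the residue map. -/
theorem of_res {L : Type*} [Ring L] (res : V →+* L)
    (hres : ∀ x : V, res x = 0 → V.valuation (x : F) < 1)
    (hmem : ∀ y : F, g • y ∈ V ↔ y ∈ V)
    (h : ∀ (y : F) (hy : y ∈ V), res ⟨g • y, (hmem y).mpr hy⟩ = res ⟨y, hy⟩) :
    ActsTrivially V g where
  mem_iff := hmem
  sub_lt y hy := by
    have h1 : res (⟨g • y, (hmem y).mpr hy⟩ - ⟨y, hy⟩) = 0 := by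
      rw [map_sub, h y hy, sub_self]
    exact hres _ h1

theorem one (V : ValuationSubring F) : ActsTrivially V (1 : SemilinearAut K F) where
  mem_iff y := by rw [one_smul]
  sub_lt y _ := by rw [one_smul, sub_self, map_zero]; exact zero_lt_one

theorem mul {g h : SemilinearAut K F} (hg : ActsTrivially V g) (hh : ActsTrivially V h) :
    ActsTrivially V (g * h) where
  mem_iff y := by rw [mul_smul, hg.mem_iff, hh.mem_iff]
  sub_lt y hy := by
    have e : (g * h) • y - y = (g • (h • y) - h • y) + (h • y - y) := by
      rw [mul_smul]; ring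
    rw [e]
    exact lt_of_le_of_lt (V.valuation.map_add _ _)
      (max_lt (hg.sub_lt _ ((hh.mem_iff y).mpr hy)) (hh.sub_lt y hy))

theorem inv (hg : ActsTrivially V g) : ActsTrivially V g⁻¹ where
  mem_iff y := by
    conv_rhs => rw [← smul_inv_smul g y]
    exact (hg.mem_iff (g⁻¹ • y)).symm
  sub_lt y hy := by
    have hy' : g⁻¹ • y ∈ V := by
      rw [← hg.mem_iff, smul_inv_smul]; exact hy
    have h := hg.sub_lt _ hy'
    rw [smul_inv_smul] at h
    rw [← neg_sub, Valuation.map_neg]
    exact h

/-- Transport by a field automorphism commuting with `g`. -/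
theorem comap (W : F ≃+* F) (hW : ∀ y : F, W (g • y) = g • W y) (hg : ActsTrivially V g) :
    ActsTrivially (V.comap (W : F →+* F)) g where
  mem_iff y := by
    rw [ValuationSubring.mem_comap, ValuationSubring.mem_comap]
    show W (g • y) ∈ V ↔ W y ∈ V
    rw [hW, hg.mem_iff]
  sub_lt y hy := by
    have hy' : W y ∈ V := hy
    have h := hg.sub_lt _ hy'
    rw [← hW, ← map_sub] at h
    -- the valuation of `V.comap W` is the valuation of `V` composed with `W`
    rw [← not_le] at h ⊢
    intro h1
    apply h
    -- `1 ≤ |x|` means `x⁻¹ ∈ V` or ... ; argue with membership of inverses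
    rcases eq_or_ne (g • y - y) 0 with h0 | h0
    · rw [h0, map_zero] at h1
      exact absurd h1 (not_le.mpr zero_lt_one)
    · have hW0 : W (g • y - y) ≠ 0 := (map_ne_zero W).mpr h0
      have h2 : (V.comap (W : F →+* F)).valuation (g • y - y)⁻¹ ≤ 1 := by
        rw [map_inv₀]
        exact (inv_le_one₀ (zero_lt_iff.mpr
          (((V.comap (W : F →+* F)).valuation.ne_zero_iff).mpr h0))).mpr h1
      have h3 : (g • y - y)⁻¹ ∈ V.comap (W : F →+* F) :=
        ((V.comap (W : F →+* F)).valuation_le_one_iff _).mp h2
      have h4 : W (g • y - y)⁻¹ ∈ V := h3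
      rw [map_inv₀] at h4
      have h5 : V.valuation (W (g • y - y))⁻¹ ≤ 1 := (V.valuation_le_one_iff _).mpr h4
      rw [map_inv₀] at h5
      exact (inv_le_one₀ (zero_lt_iff.mpr ((V.valuation.ne_zero_iff).mpr hW0))).mp h5

end ActsTrivially

end Ring

section Setup

variable {K F k : Type*} [Field K] [Field F] [Algebra K F] [Field k]
  {A : ValuationSubring K} {π : A →+* k} {ι : Type*} {Ft : ι → Type*}
  [∀ v, Field (Ft v)] [∀ v, Algebra k (Ft v)] {ν : Type*}
  (S : SemistableSetup (F := F) A π ι Ft ν)

/-- A component whose valuation ring is acted on trivially is mapped to itself with the identity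
on the residue field. -/
theorem mapsComp_refl_of_actsTrivially (g : SemilinearAut K F) (v : ι)
    (h : ActsTrivially (S.O v) g) : MapsComp S g v v AlgEquiv.refl where
  smul_mem y hy := (h.mem_iff y).mpr hy
  res_smul y hy hy' := by
    have h1 : (⟨g • y, hy'⟩ : S.O v) - ⟨y, hy⟩ ∈ IsLocalRing.maximalIdeal (S.O v) := by
      have h2 := h.sub_lt y hy
      have h3 : g • y - y ∈ (S.O v).nonunits := (S.O v).mem_nonunits_iff.mpr h2
      exact (ValuationSubring.coe_mem_nonunits_iff (A := S.O v)
        (a := (⟨g • y, hy'⟩ : S.O v) - ⟨y, hy⟩)).mp h3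
    have h4 : S.res v ((⟨g • y, hy'⟩ : S.O v) - ⟨y, hy⟩) = 0 := by
      rw [S.res_eq_zero_iff]
      exact (IsLocalRing.mem_maximalIdeal _).mp h1
    rw [map_sub, sub_eq_zero] at h4
    rw [h4]
    rfl

end Setup

section Trivial

variable {K : Type} {F : Type*} [Field K] [Field F] [Algebra K F]
  {A : ValuationSubring K} [IsAlgClosed (ResidueField A)]
  {ι₀ : Type} {Ft₀ : ι₀ → Type} [∀ v, Field (Ft₀ v)] [∀ v, Algebra (ResidueField A) (Ft₀ v)]
  {ν₀ : Type} (S₀ : SemistableSetup (F := F) A (residue A) ι₀ Ft₀ ν₀)

/-- **`TrivialAction` from `ActsTrivially` on every component.** -/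
theorem trivialAction_of_actsTrivially (u : ν₀ → F) (g : SemilinearAut K F)
    (hg : IsInertial A (SemilinearAut.baseAut g))
    (h : ∀ v, ActsTrivially (S₀.O v) g)
    (hr : ∀ P, S₀.r (g • P) = S₀.r P) (hu : ∀ e, g • u e = u e) : TrivialAction S₀ u g :=
  ⟨equivariant_one_of_mapsComp S₀ g fun v => mapsComp_refl_of_actsTrivially S₀ g v (h v),
    hr, hu, hg.val, hg.res⟩

/-- The same for the setup of a `MultiInput`: the reduction map is handled by the tubes. -/
theorem trivialAction_multiInput_of_actsTrivially
    (I : MultiInput (F := F) A (residue A) ι₀ Ft₀ ν₀) (u : ν₀ → F) (g : SemilinearAut K F)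
    (hg : IsInertial A (SemilinearAut.baseAut g))
    (h : ∀ v, ActsTrivially (I.C v).O g)
    (htube : ∀ x, ∀ P ∈ I.tube x, g • P ∈ I.tube x) (hu : ∀ e, g • u e = u e) :
    TrivialAction I.toSetup u g :=
  trivialAction_of_actsTrivially I.toSetup u g hg h (r_smul_of_tube I g htube) hu

end Trivial

end Fermat.Agent.BR3.EquivInert
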