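import Fermat.Agent.BR3.TameSurjFinal

/-!
# Program C (S36), node I9-RICH: the richness hypothesis of contract (A') from node A13

`B` a valuation subring of `ℚ̄` over the prime `q`.

* `valuation_sub_one_pow` : `|ζ - 1| ^ (q - 1) = |q|` for a primitive `q`-th root of unity;
* `apply_zeta_eq`, `apply_root_eq` : an element of the inertia group of `B` fixing a `(q-1)`-th
  root of `q` fixes the `q`-th roots of unity (`ℚ_q(ζ_q) ⊆ ℚ_q^{nr}(q^{1/(q-1)})`);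
* `ne_zero_of_pow_eq`, `valuation_lt_one_of_pow_eq` : an `e₀`-th root `ϖ` of `q` is a nonzero
  non-unit of `B`;
* `hrich_of_trivial` : for `ϖ ^ e₀ = q`, `q ∤ e₀`, `(q - 1) ∣ e₀`, `lam ≠ q` prime: for every `m`
  there are `s` in the inertia group and `c` with `c ^ (lam ^ m) = ϖ`, `s c / c` reducing to a
  primitive `lam ^ m`-th root of unity, and `P s` for any property `P` true for the elements of the
  inertia group fixing `ϖ`, the roots of unity of order prime to `q` and the `q`-th roots of unity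
  (`P s := TrivialAction S u (galAut _ s)` gives verbatim the hypothesis `hrich` of
  `GeoFinal.newInvBoundedLevel_of_geo`).
-/

set_option autoImplicit false

namespace Fermat.Agent.BR3.GeoRich

open Fermat.Agent.BR.UnramCyclo Fermat.Agent.BR.InertiaRed IsLocalRing Fermat.Agent.BR3.TameSurj

local notation "Qb" => AlgebraicClosure ℚ

variable {q : ℕ} (B : ValuationSubring Qb)

/-- a root of unity has valuation one -/
theorem valuation_eq_one_of_pow_eq_one {m : ℕ} (hm : m ≠ 0) {ζ : Qb} (hζ : ζ ^ m = 1) :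
    B.valuation ζ = 1 := by
  have h1 : B.valuation ζ ^ m = 1 := by rw [← map_pow, hζ, map_one]
  exact (pow_eq_one_iff_left hm).mp h1

/-- `|ζ ^ j - 1| ≤ |ζ - 1|` -/
theorem valuation_pow_sub_one_le {ζ : Qb} (hζ : B.valuation ζ = 1) (j : ℕ) :
    B.valuation (ζ ^ j - 1) ≤ B.valuation (ζ - 1) := by
  rw [← geom_sum_mul, map_mul]
  have h1 : B.valuation (∑ i ∈ Finset.range j, ζ ^ i) ≤ 1 := by
    refine Valuation.map_sum_le _ fun i _ => ?_
    rw [map_pow, hζ, one_pow]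
  exact mul_le_of_le_one_left' h1

/-- for a primitive `q`-th root of unity, `q` prime: `|ζ ^ j - 1| = |ζ - 1|` for `0 < j < q` -/
theorem valuation_pow_sub_one_eq (hq : q.Prime) {ζ : Qb} (hζ : IsPrimitiveRoot ζ q) {j : ℕ}
    (hj0 : 0 < j) (hjq : j < q) : B.valuation (ζ ^ j - 1) = B.valuation (ζ - 1) := by
  have hv : B.valuation ζ = 1 := valuation_eq_one_of_pow_eq_one B hq.ne_zero hζ.pow_eq_one
  refine le_antisymm (valuation_pow_sub_one_le B hv j) ?_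
  have hcop : Nat.Coprime j q := by
    rw [Nat.coprime_comm]
    exact (Nat.Prime.coprime_iff_not_dvd hq).mpr fun h => absurd (Nat.le_of_dvd hj0 h) (by omega)
  obtain ⟨l, -, hl⟩ := Nat.exists_mul_mod_eq_one_of_coprime hcop hq.one_lt
  have h1 : (ζ ^ j) ^ l = ζ := by
    rw [← pow_mul, pow_eq_pow_mod (j * l) hζ.pow_eq_one, hl, pow_one]
  have hv' : B.valuation (ζ ^ j) = 1 := by rw [map_pow, hv, one_pow]
  have h2 := valuation_pow_sub_one_le B hv' l
  rwa [h1] at h2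

/-- `|ζ - 1| ^ (q - 1) = |q|` -/
theorem valuation_sub_one_pow (hq : q.Prime) {ζ : Qb} (hζ : IsPrimitiveRoot ζ q) :
    B.valuation (ζ - 1) ^ (q - 1) = B.valuation (q : Qb) := by
  obtain ⟨n, hn⟩ : ∃ n, q = n + 1 := ⟨q - 1, (Nat.succ_pred_eq_of_pos hq.pos).symm⟩
  have hζ' : IsPrimitiveRoot ζ (n + 1) := by rw [← hn]; exact hζ
  have h := hζ'.prod_pow_sub_one_eq_order
  have hq1 : q - 1 = n := by omega
  have h2 : B.valuation ((-1 : Qb) ^ n * ∏ k ∈ Finset.range n, (ζ ^ (k + 1) - 1)) =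
      B.valuation (q : Qb) := by
    rw [h, hn]
    push_cast
    rfl
  rw [map_mul, map_pow, Valuation.map_neg, map_one, one_pow, one_mul, map_prod] at h2
  rw [← h2, hq1]
  have h3 : ∀ k ∈ Finset.range n, B.valuation (ζ ^ (k + 1) - 1) = B.valuation (ζ - 1) := by
    intro k hk
    have := Finset.mem_range.mp hk
    exact valuation_pow_sub_one_eq B hq hζ (Nat.succ_pos k) (by omega)
  rw [Finset.prod_congr rfl h3, Finset.prod_const, Finset.card_range]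


/-- **An element of the inertia group fixing a `(q-1)`-th root of `q` fixes the `q`-th roots of
unity.** -/
theorem apply_zeta_eq (hq : q.Prime) {σ : Qb ≃ₐ[ℚ] Qb} (hσ : σ ∈ B.inertiaSubgroupIn ℚ)
    {π₀ : Qb} (hπ₀ : π₀ ^ (q - 1) = (q : Qb)) (hσπ : σ π₀ = π₀) {ζ : Qb}
    (hζ : IsPrimitiveRoot ζ q) : σ ζ = ζ := by
  have hv : B.valuation ζ = 1 := valuation_eq_one_of_pow_eq_one B hq.ne_zero hζ.pow_eq_one
  have hq1 : q - 1 ≠ 0 := by have := hq.two_le; omega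
  have hπ0 : π₀ ≠ 0 := by
    rintro rfl
    rw [zero_pow hq1] at hπ₀
    exact (Nat.cast_ne_zero.2 hq.ne_zero) hπ₀.symm
  have hvπ : B.valuation (ζ - 1) = B.valuation π₀ := by
    have h1 := valuation_sub_one_pow B hq hζ
    rw [← hπ₀, map_pow] at h1
    exact (pow_left_inj hq1).mp h1
  have hvπ0 : B.valuation π₀ ≠ 0 := (Valuation.ne_zero_iff _).mpr hπ0
  have : NeZero q := ⟨hq.ne_zero⟩
  obtain ⟨i, hi, hiζ⟩ := hζ.eq_pow_of_pow_eq_one
    (show (σ ζ) ^ q = 1 by rw [← map_pow, hζ.pow_eq_one, map_one])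
  by_contra hne
  have hζ1 : ζ ≠ 1 := hζ.ne_one hq.one_lt
  have hi0 : i ≠ 0 := by
    rintro rfl
    rw [pow_zero] at hiζ
    exact hζ1 (by
      have := hiζ.symm
      rwa [← map_one σ, σ.injective.eq_iff] at this)
  have hi1 : i ≠ 1 := by
    rintro rfl
    rw [pow_one] at hiζ
    exact hne hiζ.symm
  -- the unit `y = (ζ - 1) / π₀`
  have hy : B.valuation ((ζ - 1) / π₀) ≤ 1 := by
    rw [map_div₀, hvπ, div_self hvπ0]
  have h1 := Fermat.Agent.S05.valuation_apply_sub_lt_one B hσ hy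
  have h2 : σ ((ζ - 1) / π₀) - (ζ - 1) / π₀ = ζ * (ζ ^ (i - 1) - 1) / π₀ := by
    rw [map_div₀, map_sub, map_one, hσπ, ← hiζ]
    have : ζ ^ i = ζ * ζ ^ (i - 1) := by
      rw [← pow_succ']
      congr 1
      omega
    rw [this]
    field_simp
    ring
  rw [h2, map_div₀, map_mul, hv, one_mul,
    valuation_pow_sub_one_eq B hq hζ (by omega : 0 < i - 1) (by omega), hvπ, div_self hvπ0] at h1
  exact lt_irrefl _ h1


/-- all `q`-th roots of unity are fixed -/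
theorem apply_root_eq (hq : q.Prime) {σ : Qb ≃ₐ[ℚ] Qb} (hσ : σ ∈ B.inertiaSubgroupIn ℚ)
    {π₀ : Qb} (hπ₀ : π₀ ^ (q - 1) = (q : Qb)) (hσπ : σ π₀ = π₀) {ζ : Qb} (hζ : ζ ^ q = 1) :
    σ ζ = ζ := by
  by_cases h1 : ζ = 1
  · rw [h1, map_one]
  · have hmem : ζ ∈ Polynomial.nthRootsFinset q (1 : Qb) :=
      (Polynomial.mem_nthRootsFinset hq.pos 1).mpr hζ
    exact apply_zeta_eq B hq hσ hπ₀ hσπ (isPrimitiveRoot_of_mem_nthRootsFinset hq hmem h1)

/-- an `e₀`-th root of `q` is nonzero -/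
theorem ne_zero_of_pow_eq (hq : q.Prime) {e₀ : ℕ} {ϖ : Qb} (hϖ : ϖ ^ e₀ = (q : Qb)) : ϖ ≠ 0 := by
  rintro rfl
  rcases Nat.eq_zero_or_pos e₀ with h | h
  · rw [h, pow_zero] at hϖ
    have h1 : ((1 : ℕ) : Qb) = (q : Qb) := by rw [Nat.cast_one]; exact hϖ
    exact hq.one_lt.ne (Nat.cast_injective h1)
  · rw [zero_pow h.ne'] at hϖ
    exact (Nat.cast_ne_zero.2 hq.ne_zero) hϖ.symm

/-- an `e₀`-th root of `q` is a non-unit of `B` -/
theorem valuation_lt_one_of_pow_eq (hB : B.LiesOverPrime q) {e₀ : ℕ} {ϖ : Qb}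
    (hϖ : ϖ ^ e₀ = (q : Qb)) : B.valuation ϖ < 1 := by
  have h1 : B.valuation (q : Qb) < 1 := (B.valuation_lt_one_iff _).mp
    ((B.mem_nonunits_iff_exists_mem_maximalIdeal).mp hB).choose_spec
  by_contra h
  have h2 : 1 ≤ B.valuation ϖ := not_lt.mp h
  have h3 : 1 ≤ B.valuation ϖ ^ e₀ := one_le_pow_of_one_le' h2 e₀
  rw [← map_pow, hϖ] at h3
  exact absurd h1 (not_lt.mpr h3)

/-- **The richness hypothesis of `GeoFinal.newInvBoundedLevel_of_geo`** from node A13: `ϖ` an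
`e₀`-th root of `q` with `q ∤ e₀`, `(q - 1) ∣ e₀`; `P σ` any property (`σ` acts trivially on the
model) which holds for the elements of the inertia group fixing `ϖ`, the roots of unity of order
prime to `q` and the `q`-th roots of unity. -/
theorem hrich_of_trivial (hq : q.Prime) (hB : B.LiesOverPrime q) {lam e₀ : ℕ} (hlam : lam.Prime)
    (hqlam : q ≠ lam) (hqe : ¬ q ∣ e₀) (hdvd : (q - 1) ∣ e₀) {ϖ : Qb} (hϖ : ϖ ^ e₀ = (q : Qb))
    (P : (Qb ≃ₐ[ℚ] Qb) → Prop)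
    (hP : ∀ σ ∈ B.inertiaSubgroupIn ℚ, σ ϖ = ϖ → (∀ a ∈ cycloField Qb q, σ a = a) →
      (∀ ζ : Qb, ζ ^ q = 1 → σ ζ = ζ) → P σ) :
    ∀ m : ℕ, ∃ (s : Qb ≃ₐ[ℚ] Qb) (c : Qb), s ∈ B.inertiaSubgroupIn ℚ ∧ P s ∧
      c ^ (lam ^ m) = ϖ ∧ IsPrimitiveRoot (resOf B (s c / c)) (lam ^ m) := by
  intro m
  have hpos : 0 < lam ^ m := pow_pos hlam.pos m
  obtain ⟨c, hc⟩ := IsAlgClosed.exists_pow_nat_eq ϖ hpos
  have hc' : c ^ (lam ^ m * e₀) = (q : Qb) := by rw [pow_mul, hc, hϖ]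
  have hqme : ¬ q ∣ lam ^ m * e₀ := by
    intro h
    rcases hq.dvd_mul.mp h with h1 | h1
    · exact hqlam ((Nat.prime_dvd_prime_iff_eq hq hlam).mp (hq.dvd_of_dvd_pow h1))
    · exact hqe h1
  obtain ⟨σ, hσI, ζ, -, -, hσϖ, hσK, hprim⟩ := exists_inertia_fixing_pow B hq hB hqme hc'
  rw [hc] at hσϖ
  obtain ⟨r, hr⟩ := hdvd
  have hπ₀ : (ϖ ^ r) ^ (q - 1) = (q : Qb) := by rw [← pow_mul, mul_comm, ← hr, hϖ]
  have hσπ : σ (ϖ ^ r) = ϖ ^ r := by rw [map_pow, hσϖ]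
  exact ⟨σ, c, hσI, hP σ hσI hσϖ hσK fun ζ' hζ' => apply_root_eq B hq hσI hπ₀ hσπ hζ', hc, hprim⟩

end Fermat.Agent.BR3.GeoRich
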