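import Fermat.Agent.BR3.SDD.Skeleton
import Fermat.Agent.BR3.GeoRich
import Fermat.Agent.BR3.EquivInert
import Fermat.Agent.BR3.EquivHoriz
import Fermat.Agent.Jac.HeckeGalois

/-!
# Program C (S36), node (I9-GLUE): the richness hypothesis (G4) `hrich` of contract (A') from the
component-wise trivial action

`I : SDD.Input B Mid SSp KP Ft` the named inputs of the stable model `S'' = I.setup` of
`Fb (N₁ * q)`, `D : SDD.CircleData I ιL` the level data of its nodes, `g := galAut (N₁ * q) s` for an
element `s` of the inertia group of `B`.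

* `trivialAction_of_parts` : `InvFiniteUnit.TrivialAction I.setup (fun x => (D.L x).u) g` from
  `EquivInert.ActsTrivially (I.C v).O g` at the four kinds of components (`cInf`, `cZero`, `mid i`,
  `ze e`), the stability of the tubes and `g • (D.L x).u = (D.L x).u`;
* `hrich_of_parts` : VERBATIM the hypothesis `hrich` of `SDD.newInvBoundedLevel_of_input`
  (`GeoFinal.newInvBoundedLevel_of_geo`), as soon as the parts hold for every `s` in the inertia
  group fixing `ϖ` (`ϖ ^ e₀ = q`), the roots of unity of order prime to `q` and the `q`-th roots of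
  unity (`GeoRich.hrich_of_trivial`).
-/

set_option autoImplicit false
set_option linter.unusedSectionVars false

namespace Fermat.Agent.BR3.EquivGlue

open ModularCurve AlgebraicCurve IsLocalRing Fermat.Agent.X0 Fermat.Agent.Jac Fermat.Agent.Red
  Fermat.Agent.BR.SS Fermat.Agent.BR.InertiaRed Fermat.Agent.BR.UnramCyclo
  Fermat.Agent.BR3.SDD Fermat.Agent.BR3.InvFiniteUnit Fermat.Agent.BR3.InvFiniteTheta
  Fermat.Agent.BR3.EquivInert

local notation "Qb" => AlgebraicClosure ℚ

section General

variable {K : Type} {F : Type*} [Field K] [Field F] [Algebra K F]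
  {A : ValuationSubring K} [IsAlgClosed (ResidueField A)] {Mid SSp KP : Type}
  {Ft : Comp Mid SSp → Type} [∀ v, Field (Ft v)] [∀ v, Algebra (ResidueField A) (Ft v)]
  (I : Input (F := F) A Mid SSp KP Ft) {ιL : Node SSp KP → Type*} (D : CircleData I ιL)

/-- **`TrivialAction` on `S''` from its parts** (any `g` with inertial base automorphism). -/
theorem trivialAction_of_parts_gen (g : SemilinearAut K F)
    (hg : IsInertial A (SemilinearAut.baseAut g))
    (hInf : ActsTrivially (I.C cInf).O g) (hZero : ActsTrivially (I.C cZero).O g)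
    (hMid : ∀ i, ActsTrivially (I.C (mid i)).O g) (hZe : ∀ e, ActsTrivially (I.C (ze e)).O g)
    (htube : ∀ x, ∀ P ∈ I.tube x, g • P ∈ I.tube x)
    (hu : ∀ x, g • (D.L x).u = (D.L x).u) :
    TrivialAction I.setup (fun x => (D.L x).u) g := by
  refine trivialAction_multiInput_of_actsTrivially I.toMultiInput (fun x => (D.L x).u) g hg ?_
    htube hu
  intro v
  rcases comp_cases v with rfl | rfl | ⟨i, rfl⟩ | ⟨e, rfl⟩
  · exact hZero
  · exact hInf
  · exact hMid i
  · exact hZe e

end General

section Modular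

variable (N₁ q : ℕ) [NeZero N₁] [NeZero q] (B : ValuationSubring Qb)
  [IsAlgClosed (ResidueField B)] {Mid SSp KP : Type}
  {Ft : Comp Mid SSp → Type} [∀ v, Field (Ft v)] [∀ v, Algebra (ResidueField B) (Ft v)]
  (I : Input (F := Fb (N₁ * q)) B Mid SSp KP Ft) {ιL : Node SSp KP → Type*} (D : CircleData I ιL)

/-- **`TrivialAction` on `S''` from its parts**, for the coefficientwise action of an element of
the inertia group of `B`. -/
theorem trivialAction_of_parts {s : GQ} (hs : s ∈ B.inertiaSubgroupIn ℚ)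
    (hInf : ActsTrivially (I.C cInf).O (galAut (N₁ * q) s))
    (hZero : ActsTrivially (I.C cZero).O (galAut (N₁ * q) s))
    (hMid : ∀ i, ActsTrivially (I.C (mid i)).O (galAut (N₁ * q) s))
    (hZe : ∀ e, ActsTrivially (I.C (ze e)).O (galAut (N₁ * q) s))
    (htube : ∀ x, ∀ P ∈ I.tube x, galAut (N₁ * q) s • P ∈ I.tube x)
    (hu : ∀ x, galAut (N₁ * q) s • (D.L x).u = (D.L x).u) :
    TrivialAction I.setup (fun x => (D.L x).u) (galAut (N₁ * q) s) :=
  trivialAction_of_parts_gen I D _ (EquivHoriz.isInertial_gal (N₁ * q) B hs) hInf hZero hMid hZe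
    htube hu

/-- **(G4) `hrich`**, verbatim the hypothesis of `SDD.newInvBoundedLevel_of_input`, from the parts
for the elements of the inertia group fixing `ϖ`, the roots of unity of order prime to `q` and the
`q`-th roots of unity. -/
theorem hrich_of_parts (hq : q.Prime) (hB : B.LiesOverPrime q) {lam e₀ : ℕ} (hlam : lam.Prime)
    (hqlam : q ≠ lam) (hqe : ¬ q ∣ e₀) (hdvd : (q - 1) ∣ e₀) {ϖ : Qb} (hϖ : ϖ ^ e₀ = (q : Qb))
    (hparts : ∀ s ∈ B.inertiaSubgroupIn ℚ, s ϖ = ϖ → (∀ a ∈ cycloField Qb q, s a = a) →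
      (∀ ζ : Qb, ζ ^ q = 1 → s ζ = ζ) →
      ActsTrivially (I.C cInf).O (galAut (N₁ * q) s) ∧
      ActsTrivially (I.C cZero).O (galAut (N₁ * q) s) ∧
      (∀ i, ActsTrivially (I.C (mid i)).O (galAut (N₁ * q) s)) ∧
      (∀ e, ActsTrivially (I.C (ze e)).O (galAut (N₁ * q) s)) ∧
      (∀ x, ∀ P ∈ I.tube x, galAut (N₁ * q) s • P ∈ I.tube x) ∧
      ∀ x, galAut (N₁ * q) s • (D.L x).u = (D.L x).u) :
    ∀ m : ℕ, ∃ (s : GQ) (c : Qb), s ∈ B.inertiaSubgroupIn ℚ ∧
      TrivialAction I.setup (fun x => (D.L x).u) (galAut (N₁ * q) s) ∧ c ^ (lam ^ m) = ϖ ∧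
      IsPrimitiveRoot (resOf B (s c / c)) (lam ^ m) :=
  GeoRich.hrich_of_trivial B hq hB hlam hqlam hqe hdvd hϖ
    (fun s => TrivialAction I.setup (fun x => (D.L x).u) (galAut (N₁ * q) s))
    (fun s hs h1 h2 h3 => by
      obtain ⟨hInf, hZero, hMid, hZe, htube, hu⟩ := hparts s hs h1 h2 h3
      exact trivialAction_of_parts N₁ q B I D hs hInf hZero hMid hZe htube hu)

end Modular

end Fermat.Agent.BR3.EquivGlue
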