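import Fermat.Agent.BR3.EquivGlue
import Fermat.Agent.BR3.SDD.Cases

/-!
# Program C (S36), node (I9-GLUE), kind by kind: `hrich` (G4) against `SDD.CaseInput` / `CaseCircle`

`X : SDD.CaseInput B Mid SSp KP Ft` the FLAT inputs of `S''`, `Y : SDD.CaseCircle X ιT ιK ιW` the
levels of its nodes; `I := X.toInput`, `D := Y.toCircleData`.

* `trivialAction_of_cases` : `TrivialAction X.toInput.setup (fun x => (Y.toCircleData.L x).u) g`,
  `g = galAut (N₁ * q) s`, from `ActsTrivially` on the four kinds of components, the stability of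
  the four families of tubes `TH`, `TM`, `TZ` and the fixed coordinates `(LT e).u`, `(LK e s).u`,
  `(LW e).u`;
* `hrich_of_cases` : verbatim the hypothesis `hrich` of `SDD.newInvBoundedLevel_of_input` for
  `I := X.toInput`, `D := Y.toCircleData`.
-/

set_option autoImplicit false
set_option linter.unusedSectionVars false

namespace Fermat.Agent.BR3.EquivGlueCases

open ModularCurve AlgebraicCurve IsLocalRing Fermat.Agent.X0 Fermat.Agent.Jac Fermat.Agent.Red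
  Fermat.Agent.BR.SS Fermat.Agent.BR.InertiaRed Fermat.Agent.BR.UnramCyclo
  Fermat.Agent.BR3.SDD Fermat.Agent.BR3.InvFiniteUnit Fermat.Agent.BR3.InvFiniteTheta
  Fermat.Agent.BR3.EquivInert Fermat.Agent.BR3.EquivGlue

local notation "Qb" => AlgebraicClosure ℚ

section General

variable {K : Type} {F : Type*} [Field K] [Field F] [Algebra K F]
  {A : ValuationSubring K} [IsAlgClosed (ResidueField A)] {Mid SSp KP : Type}
  {Ft : Comp Mid SSp → Type} [∀ v, Field (Ft v)] [∀ v, Algebra (ResidueField A) (Ft v)]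
  (X : CaseInput (F := F) A Mid SSp KP Ft) {ιT : SSp → Type} {ιK : SSp → KP → Type}
  {ιW : SSp → Type} (Y : CaseCircle X ιT ιK ιW)

/-- The tubes of `X.toInput` are stable as soon as the four families are. -/
theorem htube_of_cases (g : SemilinearAut K F)
    (hTH : ∀ b Q, ∀ P ∈ X.TH b Q, g • P ∈ X.TH b Q)
    (hTM : ∀ i Q, ∀ P ∈ X.TM i Q, g • P ∈ X.TM i Q)
    (hTZ : ∀ e Q, ∀ P ∈ X.TZ e Q, g • P ∈ X.TZ e Q) :
    ∀ x, ∀ P ∈ X.toInput.tube x, g • P ∈ X.toInput.tube x := by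
  rintro ⟨(b | i) | e, Q⟩ P hP
  · exact hTH b Q P hP
  · exact hTM i Q P hP
  · exact hTZ e Q P hP

/-- The node coordinates of `Y.toCircleData` are fixed as soon as the three families are. -/
theorem hu_of_cases (g : SemilinearAut K F)
    (huT : ∀ e, g • (Y.LT e).u = (Y.LT e).u) (huK : ∀ e s, g • (Y.LK e s).u = (Y.LK e s).u)
    (huW : ∀ e, g • (Y.LW e).u = (Y.LW e).u) :
    ∀ x, g • (Y.toCircleData.L x).u = (Y.toCircleData.L x).u := by
  rintro ⟨e, (b | s)⟩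
  · cases b
    · exact huT e
    · exact huW e
  · exact huK e s

/-- **`TrivialAction` on `S''` kind by kind** (any `g` with inertial base automorphism). -/
theorem trivialAction_of_cases_gen (g : SemilinearAut K F)
    (hg : IsInertial A (SemilinearAut.baseAut g))
    (hInf : ActsTrivially (X.C cInf).O g) (hZero : ActsTrivially (X.C cZero).O g)
    (hMid : ∀ i, ActsTrivially (X.C (mid i)).O g) (hZe : ∀ e, ActsTrivially (X.C (ze e)).O g)
    (hTH : ∀ b Q, ∀ P ∈ X.TH b Q, g • P ∈ X.TH b Q)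
    (hTM : ∀ i Q, ∀ P ∈ X.TM i Q, g • P ∈ X.TM i Q)
    (hTZ : ∀ e Q, ∀ P ∈ X.TZ e Q, g • P ∈ X.TZ e Q)
    (huT : ∀ e, g • (Y.LT e).u = (Y.LT e).u) (huK : ∀ e s, g • (Y.LK e s).u = (Y.LK e s).u)
    (huW : ∀ e, g • (Y.LW e).u = (Y.LW e).u) :
    TrivialAction X.toInput.setup (fun x => (Y.toCircleData.L x).u) g :=
  trivialAction_of_parts_gen X.toInput Y.toCircleData g hg hInf hZero hMid hZe
    (htube_of_cases X g hTH hTM hTZ) (hu_of_cases X Y g huT huK huW)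

end General

section Modular

variable (N₁ q : ℕ) [NeZero N₁] [NeZero q] (B : ValuationSubring Qb)
  [IsAlgClosed (ResidueField B)] {Mid SSp KP : Type}
  {Ft : Comp Mid SSp → Type} [∀ v, Field (Ft v)] [∀ v, Algebra (ResidueField B) (Ft v)]
  (X : CaseInput (F := Fb (N₁ * q)) B Mid SSp KP Ft) {ιT : SSp → Type} {ιK : SSp → KP → Type}
  {ιW : SSp → Type} (Y : CaseCircle X ιT ιK ιW)

/-- **(G4) `hrich` kind by kind**: verbatim the hypothesis of `SDD.newInvBoundedLevel_of_input` for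
`I := X.toInput`, `D := Y.toCircleData`. -/
theorem hrich_of_cases (hq : q.Prime) (hB : B.LiesOverPrime q) {lam e₀ : ℕ} (hlam : lam.Prime)
    (hqlam : q ≠ lam) (hqe : ¬ q ∣ e₀) (hdvd : (q - 1) ∣ e₀) {ϖ : Qb} (hϖ : ϖ ^ e₀ = (q : Qb))
    (hparts : ∀ s ∈ B.inertiaSubgroupIn ℚ, s ϖ = ϖ → (∀ a ∈ cycloField Qb q, s a = a) →
      (∀ ζ : Qb, ζ ^ q = 1 → s ζ = ζ) →
      ActsTrivially (X.C cInf).O (galAut (N₁ * q) s) ∧
      ActsTrivially (X.C cZero).O (galAut (N₁ * q) s) ∧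
      (∀ i, ActsTrivially (X.C (mid i)).O (galAut (N₁ * q) s)) ∧
      (∀ e, ActsTrivially (X.C (ze e)).O (galAut (N₁ * q) s)) ∧
      (∀ b Q, ∀ P ∈ X.TH b Q, galAut (N₁ * q) s • P ∈ X.TH b Q) ∧
      (∀ i Q, ∀ P ∈ X.TM i Q, galAut (N₁ * q) s • P ∈ X.TM i Q) ∧
      (∀ e Q, ∀ P ∈ X.TZ e Q, galAut (N₁ * q) s • P ∈ X.TZ e Q) ∧
      (∀ e, galAut (N₁ * q) s • (Y.LT e).u = (Y.LT e).u) ∧
      (∀ e t, galAut (N₁ * q) s • (Y.LK e t).u = (Y.LK e t).u) ∧
      ∀ e, galAut (N₁ * q) s • (Y.LW e).u = (Y.LW e).u) :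
    ∀ m : ℕ, ∃ (s : GQ) (c : Qb), s ∈ B.inertiaSubgroupIn ℚ ∧
      TrivialAction X.toInput.setup (fun x => (Y.toCircleData.L x).u) (galAut (N₁ * q) s) ∧
      c ^ (lam ^ m) = ϖ ∧ IsPrimitiveRoot (resOf B (s c / c)) (lam ^ m) :=
  hrich_of_parts N₁ q B X.toInput Y.toCircleData hq hB hlam hqlam hqe hdvd hϖ
    (fun s hs h1 h2 h3 => by
      obtain ⟨hInf, hZero, hMid, hZe, hTH, hTM, hTZ, huT, huK, huW⟩ := hparts s hs h1 h2 h3
      exact ⟨hInf, hZero, hMid, hZe, htube_of_cases X _ hTH hTM hTZ,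
        hu_of_cases X Y _ huT huK huW⟩)

end Modular

end Fermat.Agent.BR3.EquivGlueCases
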