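import Fermat.Agent.BR3.EquivHoriz
import Fermat.Agent.BR3.EquivActsSDD
import Fermat.Agent.Jac.HeckeGalois

/-!
# Program C (S36), node (I9-σ0), horizontal part: `MapsComp` on `cInf`, `cZero` for EVERY element of
the inertia group (in particular the tame generator `σ0` of `GeoSigma.exists_tame_generator`)

`I : SDD.Input B Mid SSp KP Ft` a model of `Fb (M q²)` whose horizontal components are
`(I.C cInf).O = FibreProd.w1` and `(I.C cZero).O = CZero.cZero` (both `rfl` for
`SDD.Modular.CAll`).  For `σ` in the inertia group of `B`, `g := galAut (M q²) σ` maps `cInf` and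
`cZero` to themselves and induces the IDENTITY on their residue fields (the induced automorphism
of the residue field of `B` is trivial; no condition on the action of `σ` on `ϖ` or `ζ_q`).

* `mapsComp_cInf`, `mapsComp_cZero` : `FiltPerm.MapsComp I.setup g v v AlgEquiv.refl`,
  `v = cInf, cZero` — the hypotheses `hInf`, `hZero` of `EquivActsSDD.mapsComp_of_cases` with
  `a' v = AlgEquiv.refl`;
* `sigmaMap_cInf`, `sigmaMap_cZero` : for `pι` fixing `v` with `a' v = AlgEquiv.refl` (e.g.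
  `pι = compPerm P`, `a' = aOf P refl refl aMid aZe`) the points of `v` are fixed by
  `TorGlue.sigmaMap` — the identities `hT` of `hs₁_of_cases` and `hW` of `hs₂_of_cases`.
-/

set_option autoImplicit false
set_option linter.unusedSectionVars false

noncomputable section

namespace Fermat.Agent.BR3.EquivHorizMaps

open ModularCurve AlgebraicCurve IsLocalRing Fermat.Agent.X0 Fermat.Agent.Jac Fermat.Agent.Red
  Fermat.Agent.BR.SS Fermat.Agent.BR.TwoVal Fermat.Agent.BR3.FibreProd Fermat.Agent.BR3.CZero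
  Fermat.Agent.BR3.SDD Fermat.Agent.BR3.FiltPerm Fermat.Agent.BR3.PlaceIso
  Fermat.Agent.BR3.TorGlue Fermat.Agent.BR3.EquivInert Fermat.Agent.BR3.EquivActsSDD

local notation "Qb" => AlgebraicClosure ℚ

section Maps

variable {M q : ℕ} [NeZero M] [hq : Fact q.Prime]
variable (B : ValuationSubring Qb) (hB : B.LiesOverPrime q) (hqM : ¬ q ∣ M)
  {Mid SSp KP : Type} {Ft : Comp Mid SSp → Type} [∀ v, Field (Ft v)]
  [∀ v, Algebra (ResidueField B) (Ft v)]
  (I : Input (F := Fb (M * q * q)) B Mid SSp KP Ft) {σ : GQ}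

/-- **Inertia maps `cInf` to itself with the identity on the residue field.** -/
theorem mapsComp_cInf (hO : (I.C cInf).O = w1 M B hB) (hσ : σ ∈ B.inertiaSubgroupIn ℚ) :
    MapsComp I.setup (galAut (M * q * q) σ) cInf cInf AlgEquiv.refl := by
  refine mapsComp_refl_of_actsTrivially I.setup _ cInf ?_
  show ActsTrivially (I.C cInf).O _
  rw [hO]
  exact EquivHoriz.actsTrivially_w1 B hB hσ

/-- **Inertia maps `cZero` to itself with the identity on the residue field.** -/
theorem mapsComp_cZero (hO : (I.C cZero).O = cZero B hB hqM) (hσ : σ ∈ B.inertiaSubgroupIn ℚ) :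
    MapsComp I.setup (galAut (M * q * q) σ) cZero cZero AlgEquiv.refl := by
  refine mapsComp_refl_of_actsTrivially I.setup _ cZero ?_
  show ActsTrivially (I.C cZero).O _
  rw [hO]
  exact EquivHoriz.actsTrivially_cZero B hB hqM hσ

end Maps

section Sigma

variable {k : Type*} [Field k] {Mid SSp : Type} {Ft : Comp Mid SSp → Type} [∀ v, Field (Ft v)]
  [∀ v, Algebra k (Ft v)]

/-- The points of `cInf` are fixed by `sigmaMap (compPerm P) (aOf P aZero refl aMid aZe)`. -/
theorem sigmaMap_cInf (P : Equiv.Perm Mid) (aZero : Ft cZero ≃ₐ[k] Ft cZero)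
    (aMid : ∀ i, Ft (mid i) ≃ₐ[k] Ft (mid (P i))) (aZe : ∀ e, Ft (ze e) ≃ₐ[k] Ft (ze e))
    (Q : Place k (Ft cInf)) :
    sigmaMap (compPerm P) (aOf P aZero AlgEquiv.refl aMid aZe) ⟨cInf, Q⟩ =
      (⟨cInf, Q⟩ : Σ v, Place k (Ft v)) := by
  show (⟨cInf, placeMap (AlgEquiv.refl : Ft cInf ≃ₐ[k] Ft cInf) Q⟩ : Σ v, Place k (Ft v)) = _
  rw [placeMap_refl]

/-- The points of `cZero` are fixed by `sigmaMap (compPerm P) (aOf P refl aInf aMid aZe)`. -/
theorem sigmaMap_cZero (P : Equiv.Perm Mid) (aInf : Ft cInf ≃ₐ[k] Ft cInf)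
    (aMid : ∀ i, Ft (mid i) ≃ₐ[k] Ft (mid (P i))) (aZe : ∀ e, Ft (ze e) ≃ₐ[k] Ft (ze e))
    (Q : Place k (Ft cZero)) :
    sigmaMap (compPerm P) (aOf P AlgEquiv.refl aInf aMid aZe) ⟨cZero, Q⟩ =
      (⟨cZero, Q⟩ : Σ v, Place k (Ft v)) := by
  show (⟨cZero, placeMap (AlgEquiv.refl : Ft cZero ≃ₐ[k] Ft cZero) Q⟩ :
    Σ v, Place k (Ft v)) = _
  rw [placeMap_refl]

end Sigma

end Fermat.Agent.BR3.EquivHorizMaps
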