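import Fermat.Agent.BR3.SDD.ModularRaw

/-!
# Program C (S36), node (G4-FINAL): the binder `hrest` of `SDD.Modular.modelAt_of_raw` kind by kind

* `forall_node_of_kinds` : a clause on every node of `S''` from the three kinds `nT e`, `nk e s`,
  `nW e`;
* `forall_sm_of_kinds` : a clause on every point `y` of the components of `S''` from the four kinds
  `⟨cInf, Q⟩`, `⟨cZero, Q⟩`, `⟨mid i, Q⟩`, `⟨ze e, Q⟩`;
* **`hrest_of_kinds`** : the hypothesis `hrest` of `SDD.Modular.modelAt_of_raw` VERBATIM, from the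
  clauses per kind for the rich inertia elements `s` (`s ∈ I_B`, `s ϖ = ϖ`, `s` fixes the
  cyclotomic field and the `q`-th roots of `1`): trivial action on the vertical components,
  stability of the raw tubes of the three kinds of nodes and of the four kinds of smooth points,
  invariance of the coordinates of the three kinds of levels.
-/

set_option autoImplicit false
set_option linter.style.haveILetI false
set_option linter.unusedSectionVars false
set_option linter.unusedVariables false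
set_option synthInstance.maxHeartbeats 400000

open ModularCurve AlgebraicCurve

noncomputable section

namespace Fermat.Agent.BR3.EquivRest

open IsLocalRing Fermat.Agent.Jac Fermat.Agent.X0 Fermat.Agent.Red Fermat.Agent.Val
  Fermat.Agent.BR.SS Fermat.Agent.BR Fermat.Agent.BR.InertiaRed Fermat.Agent.BR.UnramCyclo
  Fermat.Agent.BR3.EquivInert Fermat.Agent.BR.S0 Fermat.Agent.BR.S0.PointDict
  Fermat.Agent.BR.S0.RedModular Fermat.Agent.BR3.FibreProd Fermat.Agent.BR.TwoVal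
  Fermat.Agent.BR.Refine Fermat.Agent.BR.Circle Fermat.Agent.BR3.CircleN
  Fermat.Agent.BR3.ThickSDDPlug Fermat.Agent.BR3.SDD Fermat.Agent.BR3.SDD.Modular

section Generic

variable {Mid SSp KP : Type} {σ : Type*}

/-- A clause on every node from the three kinds of nodes. -/
theorem forall_node_of_kinds (nodeTube : Node SSp KP → Set σ) (g : σ → σ)
    (hT : ∀ e, ∀ P ∈ nodeTube (nT e), g P ∈ nodeTube (nT e))
    (hK : ∀ e s, ∀ P ∈ nodeTube (nk e s), g P ∈ nodeTube (nk e s))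
    (hW : ∀ e, ∀ P ∈ nodeTube (nW e), g P ∈ nodeTube (nW e)) :
    ∀ x, ∀ P ∈ nodeTube x, g P ∈ nodeTube x := by
  rintro ⟨e, (_ | _) | s⟩ P hP
  · exact hT e P hP
  · exact hW e P hP
  · exact hK e s P hP

variable {k : Type*} [Field k] {Ft : Comp Mid SSp → Type} [∀ v, Field (Ft v)]
  [∀ v, Algebra k (Ft v)]

/-- A clause on every point of the components from the four kinds of components. -/
theorem forall_sm_of_kinds (smTube : (Σ v, Place k (Ft v)) → Set σ) (g : σ → σ)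
    (hInf : ∀ Q : Place k (Ft cInf), ∀ P ∈ smTube ⟨cInf, Q⟩, g P ∈ smTube ⟨cInf, Q⟩)
    (hZero : ∀ Q : Place k (Ft cZero), ∀ P ∈ smTube ⟨cZero, Q⟩, g P ∈ smTube ⟨cZero, Q⟩)
    (hMid : ∀ (i : Mid) (Q : Place k (Ft (mid i))),
      ∀ P ∈ smTube ⟨mid i, Q⟩, g P ∈ smTube ⟨mid i, Q⟩)
    (hZe : ∀ (e : SSp) (Q : Place k (Ft (ze e))), ∀ P ∈ smTube ⟨ze e, Q⟩, g P ∈ smTube ⟨ze e, Q⟩) :
    ∀ y, ∀ P ∈ smTube y, g P ∈ smTube y := by
  rintro ⟨((_ | _) | i) | e, Q⟩ P hP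
  · exact hInf Q P hP
  · exact hZero Q P hP
  · exact hMid i Q P hP
  · exact hZe e Q P hP

end Generic

section Modular

local notation "Qb" => AlgebraicClosure ℚ

variable {M q : ℕ} [NeZero M] [hq : Fact q.Prime] [NeZero q]
variable (B : ValuationSubring (AlgebraicClosure ℚ)) (hB : B.LiesOverPrime q) (hqM : ¬ q ∣ M)
variable [IsAlgClosed (ResidueField B)]
variable {ζ : Kbˣ} (hζ : IsPrimitiveRoot ζ q)

local notation "kB" => IsLocalRing.ResidueField B

/-- (shortcut instance) -/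
local instance (priority := 100000) instAlgebraFtMShortcutRest :
    Algebra (IsLocalRing.ResidueField B)
      (modularFunctionFieldFullC (IsLocalRing.ResidueField B) M) :=
  inferInstance

/-- (shortcut instance: the search through the tower takes seconds) -/
local instance (priority := 100000) instAlgebraFMidShortcutRest :
    Algebra (IsLocalRing.ResidueField B) (FMid M B) :=
  inferInstance

variable {FZ : SSpM B hB hqM → Type} [∀ e, Field (FZ e)] [∀ e, Algebra (ResidueField B) (FZ e)]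
  {KP : Type}

/-- (shortcut instance) -/
local instance (priority := 100000) instFieldFtAllShortcutRest :
    ∀ v, Field (FtAll B hB hqM hζ FZ v) :=
  inferInstance

/-- (shortcut instance) -/
local instance (priority := 100000) instAlgebraFtAllShortcutRest :
    ∀ v, Algebra (IsLocalRing.ResidueField B) (FtAll B hB hqM hζ FZ v) :=
  inferInstance

variable
  (CZ : ∀ e, ConstRed (F := Fb (M * q * q)) (Ft := FZ e) B (residue B))
  (nodeTube : Node (SSpM B hB hqM) KP → Set (Place Kb (Fb (M * q * q))))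
  (smTube : (Σ v, Place (ResidueField B) (FtAll B hB hqM hζ FZ v)) →
    Set (Place Kb (Fb (M * q * q))))
  {ιT : SSpM B hB hqM → Type} {ιK : SSpM B hB hqM → KP → Type}
  {ιW : SSpM B hB hqM → Type}
  (LT : ∀ e, AnnulusLevels B (nodeTube (nT e)) (ιT e))
  (LK : ∀ e s, AnnulusLevels B (nodeTube (nk e s)) (ιK e s))
  (LW : ∀ e, AnnulusLevels B (nodeTube (nW e)) (ιW e))

/-- **The hypothesis `hrest` of `SDD.Modular.modelAt_of_raw`, kind by kind.** -/
theorem hrest_of_kinds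
    (hV : ∀ s ∈ B.inertiaSubgroupIn ℚ, s (unifSDD q) = unifSDD q →
      (∀ a ∈ cycloField Qb q, s a = a) → (∀ ζ' : Qb, ζ' ^ q = 1 → s ζ' = ζ') →
      ∀ e, ActsTrivially (CZ e).O (galAut (M * q * q) s))
    (hnT : ∀ s ∈ B.inertiaSubgroupIn ℚ, s (unifSDD q) = unifSDD q →
      (∀ a ∈ cycloField Qb q, s a = a) → (∀ ζ' : Qb, ζ' ^ q = 1 → s ζ' = ζ') →
      ∀ e, ∀ P ∈ nodeTube (nT e), galAut (M * q * q) s • P ∈ nodeTube (nT e))
    (hnK : ∀ s ∈ B.inertiaSubgroupIn ℚ, s (unifSDD q) = unifSDD q →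
      (∀ a ∈ cycloField Qb q, s a = a) → (∀ ζ' : Qb, ζ' ^ q = 1 → s ζ' = ζ') →
      ∀ e t, ∀ P ∈ nodeTube (nk e t), galAut (M * q * q) s • P ∈ nodeTube (nk e t))
    (hnW : ∀ s ∈ B.inertiaSubgroupIn ℚ, s (unifSDD q) = unifSDD q →
      (∀ a ∈ cycloField Qb q, s a = a) → (∀ ζ' : Qb, ζ' ^ q = 1 → s ζ' = ζ') →
      ∀ e, ∀ P ∈ nodeTube (nW e), galAut (M * q * q) s • P ∈ nodeTube (nW e))
    (hsmInf : ∀ s ∈ B.inertiaSubgroupIn ℚ, s (unifSDD q) = unifSDD q →
      (∀ a ∈ cycloField Qb q, s a = a) → (∀ ζ' : Qb, ζ' ^ q = 1 → s ζ' = ζ') →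
      ∀ Q : Place kB (FtAll B hB hqM hζ FZ cInf),
        ∀ P ∈ smTube ⟨cInf, Q⟩, galAut (M * q * q) s • P ∈ smTube ⟨cInf, Q⟩)
    (hsmZero : ∀ s ∈ B.inertiaSubgroupIn ℚ, s (unifSDD q) = unifSDD q →
      (∀ a ∈ cycloField Qb q, s a = a) → (∀ ζ' : Qb, ζ' ^ q = 1 → s ζ' = ζ') →
      ∀ Q : Place kB (FtAll B hB hqM hζ FZ SDD.cZero),
        ∀ P ∈ smTube ⟨SDD.cZero, Q⟩, galAut (M * q * q) s • P ∈ smTube ⟨SDD.cZero, Q⟩)
    (hsmMid : ∀ s ∈ B.inertiaSubgroupIn ℚ, s (unifSDD q) = unifSDD q →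
      (∀ a ∈ cycloField Qb q, s a = a) → (∀ ζ' : Qb, ζ' ^ q = 1 → s ζ' = ζ') →
      ∀ (i : MidM B hB hqM hζ) (Q : Place kB (FtAll B hB hqM hζ FZ (mid i))),
        ∀ P ∈ smTube ⟨mid i, Q⟩, galAut (M * q * q) s • P ∈ smTube ⟨mid i, Q⟩)
    (hsmZe : ∀ s ∈ B.inertiaSubgroupIn ℚ, s (unifSDD q) = unifSDD q →
      (∀ a ∈ cycloField Qb q, s a = a) → (∀ ζ' : Qb, ζ' ^ q = 1 → s ζ' = ζ') →
      ∀ (e : SSpM B hB hqM) (Q : Place kB (FtAll B hB hqM hζ FZ (ze e))),
        ∀ P ∈ smTube ⟨ze e, Q⟩, galAut (M * q * q) s • P ∈ smTube ⟨ze e, Q⟩)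
    (huT : ∀ s ∈ B.inertiaSubgroupIn ℚ, s (unifSDD q) = unifSDD q →
      (∀ a ∈ cycloField Qb q, s a = a) → (∀ ζ' : Qb, ζ' ^ q = 1 → s ζ' = ζ') →
      ∀ e, galAut (M * q * q) s • (LT e).u = (LT e).u)
    (huK : ∀ s ∈ B.inertiaSubgroupIn ℚ, s (unifSDD q) = unifSDD q →
      (∀ a ∈ cycloField Qb q, s a = a) → (∀ ζ' : Qb, ζ' ^ q = 1 → s ζ' = ζ') →
      ∀ e t, galAut (M * q * q) s • (LK e t).u = (LK e t).u)
    (huW : ∀ s ∈ B.inertiaSubgroupIn ℚ, s (unifSDD q) = unifSDD q →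
      (∀ a ∈ cycloField Qb q, s a = a) → (∀ ζ' : Qb, ζ' ^ q = 1 → s ζ' = ζ') →
      ∀ e, galAut (M * q * q) s • (LW e).u = (LW e).u) :
    ∀ s ∈ B.inertiaSubgroupIn ℚ, s (unifSDD q) = unifSDD q →
      (∀ a ∈ cycloField Qb q, s a = a) → (∀ ζ' : Qb, ζ' ^ q = 1 → s ζ' = ζ') →
      (∀ e, ActsTrivially (CZ e).O (galAut (M * q * q) s)) ∧
      (∀ x, ∀ P ∈ nodeTube x, galAut (M * q * q) s • P ∈ nodeTube x) ∧
      (∀ y, ∀ P ∈ smTube y, galAut (M * q * q) s • P ∈ smTube y) ∧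
      (∀ e, galAut (M * q * q) s • (LT e).u = (LT e).u) ∧
      (∀ e t, galAut (M * q * q) s • (LK e t).u = (LK e t).u) ∧
      ∀ e, galAut (M * q * q) s • (LW e).u = (LW e).u := by
  intro s hs h1 h2 h3
  exact ⟨hV s hs h1 h2 h3,
    forall_node_of_kinds nodeTube (fun P => galAut (M * q * q) s • P) (hnT s hs h1 h2 h3)
      (hnK s hs h1 h2 h3) (hnW s hs h1 h2 h3),
    forall_sm_of_kinds smTube (fun P => galAut (M * q * q) s • P) (hsmInf s hs h1 h2 h3)
      (hsmZero s hs h1 h2 h3) (hsmMid s hs h1 h2 h3) (hsmZe s hs h1 h2 h3),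
    huT s hs h1 h2 h3, huK s hs h1 h2 h3, huW s hs h1 h2 h3⟩

end Modular

end Fermat.Agent.BR3.EquivRest
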