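import Fermat.Agent.BR3.EquivTubesHorizAll
import Fermat.Agent.BR3.SDD.ModularFrame

/-!
# Program C (S36), node (G4) / (G6): the horizontal clauses for ONE tube function `smTube`

The final tube function `smTubeM` of the frame is, on the two horizontal components, the
`dite`-wrapper of the one-function tubes `cInfTubeAll` / `cZeroTubeAll` (empty over the crossing
points).  For ANY function `smTube` with these two shapes (`hsm` : the value at the non-crossing
points, `hsm0` : empty at the crossing points), and EVERY `σ` in the inertia group of `B`: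

* `smul_mem_smTube_cInf` : `∀ Q, ∀ P ∈ smTube ⟨cInf, Q⟩, galAut (M q²) σ • P ∈ smTube ⟨cInf, Q⟩`
  (the clause `hsmInf` of `EquivRest.hrest_of_kinds`, for every `Q`);
* `smul_mem_smTube_cZero` : the twin for `cZero`;
* `hsmInf_of_shape` / `hsmZero_of_shape` : the same in the literal shapes of the binders `hsmInf` /
  `hsmZero` of `ModularTameRaw.tameProp_of_rawTubes` (with the vacuous hypothesis on the special
  points).
-/

set_option autoImplicit false
set_option linter.style.haveILetI false
set_option linter.unusedSectionVars false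
set_option linter.unusedVariables false
set_option synthInstance.maxHeartbeats 400000

open ModularCurve AlgebraicCurve

noncomputable section

namespace Fermat.Agent.BR3.EquivTubesM

open IsLocalRing Fermat.Agent.Jac Fermat.Agent.X0 Fermat.Agent.Red Fermat.Agent.Val
  Fermat.Agent.BR.SS Fermat.Agent.BR Fermat.Agent.BR.S0 Fermat.Agent.BR.S0.PointDict
  Fermat.Agent.BR.S0.RedModular Fermat.Agent.BR.S0.RedHyp Fermat.Agent.BR.ValTwo
  Fermat.Agent.BR3.FibreProd Fermat.Agent.BR3.SDD Fermat.Agent.BR3.SDD.Modular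

local notation "Qb" => AlgebraicClosure ℚ

variable {M q : ℕ} [NeZero M] [hq : Fact q.Prime] [NeZero q]
variable (B : ValuationSubring (AlgebraicClosure ℚ)) (hB : B.LiesOverPrime q) (hqM : ¬ q ∣ M)
variable [IsAlgClosed (ResidueField B)]
variable {ζ : Kbˣ} (hζ : IsPrimitiveRoot ζ q)

local notation "kB" => IsLocalRing.ResidueField B
local notation "FtM" => modularFunctionFieldFullC (IsLocalRing.ResidueField B) M

/-- (shortcut instance) -/
local instance (priority := 100000) instAlgebraFtMShortcutTubesM :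
    Algebra (IsLocalRing.ResidueField B)
      (modularFunctionFieldFullC (IsLocalRing.ResidueField B) M) :=
  inferInstance

/-- (shortcut instance: the search through the tower takes seconds) -/
local instance (priority := 100000) instAlgebraFMidShortcutTubesM :
    Algebra (IsLocalRing.ResidueField B) (FMid M B) :=
  inferInstance

variable {FZ : SSpM B hB hqM → Type} [∀ e, Field (FZ e)] [∀ e, Algebra (ResidueField B) (FZ e)]

/-- (shortcut instance) -/
local instance (priority := 100000) instFieldFtAllShortcutTubesM :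
    ∀ v, Field (FtAll B hB hqM hζ FZ v) :=
  inferInstance

/-- (shortcut instance) -/
local instance (priority := 100000) instAlgebraFtAllShortcutTubesM :
    ∀ v, Algebra (IsLocalRing.ResidueField B) (FtAll B hB hqM hζ FZ v) :=
  inferInstance

variable (smTube : (Σ v, Place (ResidueField B) (FtAll B hB hqM hζ FZ v)) →
    Set (Place Kb (Fb (M * q * q))))

/-- **The clause `hsmInf` for every point `Q` of `cInf` and every inertia element**, for a tube
function which is `cInfTubeAll` at the non-crossing points and empty at the crossing points. -/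
theorem smul_mem_smTube_cInf (H : AtlasHyp (chartDataModular B hB hqM) (jx M q))
    (hsm : ∀ (Q : Place kB FtM)
      (h : ∀ e : Crossing (chartDataModular B hB hqM), Q ≠ z₁ (chartDataModular B hB hqM) e),
      smTube ⟨cInf, Q⟩ = Fermat.Agent.BR3.CInfChartAll.cInfTubeAll B hB hqM H Q h)
    (hsm0 : ∀ Q : Place kB FtM,
      (¬ ∀ e : Crossing (chartDataModular B hB hqM), Q ≠ z₁ (chartDataModular B hB hqM) e) →
      smTube ⟨cInf, Q⟩ = ∅)
    {σ : GQ} (hσ : σ ∈ B.inertiaSubgroupIn ℚ)
    (Q : Place kB (FtAll B hB hqM hζ FZ cInf)) :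
    ∀ P ∈ smTube ⟨cInf, Q⟩, galAut (M * q * q) σ • P ∈ smTube ⟨cInf, Q⟩ := by
  intro P hP
  by_cases h : ∀ e : Crossing (chartDataModular B hB hqM),
      (Q : Place kB FtM) ≠ z₁ (chartDataModular B hB hqM) e
  · rw [hsm Q h] at hP ⊢
    exact Fermat.Agent.BR3.EquivTubesHoriz.smul_mem_cInfTubeAll B hB hqM H hσ Q h hP
  · rw [hsm0 Q h] at hP
    exact hP.elim

/-- **The clause `hsmZero` for every point `Q` of `cZero` and every inertia element**, for a tube
function which is `cZeroTubeAll` at the non-crossing points and empty at the crossing points. -/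
theorem smul_mem_smTube_cZero (H : AtlasHyp (chartDataModular B hB hqM) (jx M q))
    (hsm : ∀ (Q : Place kB FtM)
      (h : ∀ e : Crossing (chartDataModular B hB hqM), Q ≠ z₂ (chartDataModular B hB hqM) e),
      smTube ⟨SDD.cZero, Q⟩ = Fermat.Agent.BR3.CZeroChartAll.cZeroTubeAll B hB hqM H Q h)
    (hsm0 : ∀ Q : Place kB FtM,
      (¬ ∀ e : Crossing (chartDataModular B hB hqM), Q ≠ z₂ (chartDataModular B hB hqM) e) →
      smTube ⟨SDD.cZero, Q⟩ = ∅)
    {σ : GQ} (hσ : σ ∈ B.inertiaSubgroupIn ℚ)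
    (Q : Place kB (FtAll B hB hqM hζ FZ SDD.cZero)) :
    ∀ P ∈ smTube ⟨SDD.cZero, Q⟩, galAut (M * q * q) σ • P ∈ smTube ⟨SDD.cZero, Q⟩ := by
  intro P hP
  by_cases h : ∀ e : Crossing (chartDataModular B hB hqM),
      (Q : Place kB FtM) ≠ z₂ (chartDataModular B hB hqM) e
  · rw [hsm Q h] at hP ⊢
    exact Fermat.Agent.BR3.EquivTubesHoriz.smul_mem_cZeroTubeAll B hB hqM H hσ Q h hP
  · rw [hsm0 Q h] at hP
    exact hP.elim

/-- The clause `hsmInf` in the literal shape of `ModularTameRaw.tameProp_of_rawTubes` /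
`EquivTubeFam.hT_stable_of_raw` (any family `pInf` of special points: the hypothesis is not
used). -/
theorem hsmInf_of_shape (H : AtlasHyp (chartDataModular B hB hqM) (jx M q))
    (hsm : ∀ (Q : Place kB FtM)
      (h : ∀ e : Crossing (chartDataModular B hB hqM), Q ≠ z₁ (chartDataModular B hB hqM) e),
      smTube ⟨cInf, Q⟩ = Fermat.Agent.BR3.CInfChartAll.cInfTubeAll B hB hqM H Q h)
    (hsm0 : ∀ Q : Place kB FtM,
      (¬ ∀ e : Crossing (chartDataModular B hB hqM), Q ≠ z₁ (chartDataModular B hB hqM) e) →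
      smTube ⟨cInf, Q⟩ = ∅)
    {σ : GQ} (hσ : σ ∈ B.inertiaSubgroupIn ℚ)
    (pInf : SSpM B hB hqM → Place kB (FtAll B hB hqM hζ FZ cInf)) :
    ∀ Q : Place kB (FtAll B hB hqM hζ FZ cInf), (∀ e, Q ≠ pInf e) →
      ∀ Pl ∈ smTube ⟨cInf, Q⟩, galAut (M * q * q) σ • Pl ∈ smTube ⟨cInf, Q⟩ :=
  fun Q _ => smul_mem_smTube_cInf B hB hqM hζ smTube H hsm hsm0 hσ Q

/-- The clause `hsmZero` in the literal shape of `ModularTameRaw.tameProp_of_rawTubes` /
`EquivTubeFam.hT_stable_of_raw`. -/
theorem hsmZero_of_shape (H : AtlasHyp (chartDataModular B hB hqM) (jx M q))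
    (hsm : ∀ (Q : Place kB FtM)
      (h : ∀ e : Crossing (chartDataModular B hB hqM), Q ≠ z₂ (chartDataModular B hB hqM) e),
      smTube ⟨SDD.cZero, Q⟩ = Fermat.Agent.BR3.CZeroChartAll.cZeroTubeAll B hB hqM H Q h)
    (hsm0 : ∀ Q : Place kB FtM,
      (¬ ∀ e : Crossing (chartDataModular B hB hqM), Q ≠ z₂ (chartDataModular B hB hqM) e) →
      smTube ⟨SDD.cZero, Q⟩ = ∅)
    {σ : GQ} (hσ : σ ∈ B.inertiaSubgroupIn ℚ)
    (pZero : SSpM B hB hqM → Place kB (FtAll B hB hqM hζ FZ SDD.cZero)) :
    ∀ Q : Place kB (FtAll B hB hqM hζ FZ SDD.cZero), (∀ e, Q ≠ pZero e) →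
      ∀ Pl ∈ smTube ⟨SDD.cZero, Q⟩, galAut (M * q * q) σ • Pl ∈ smTube ⟨SDD.cZero, Q⟩ :=
  fun Q _ => smul_mem_smTube_cZero B hB hqM hζ smTube H hsm hsm0 hσ Q

end Fermat.Agent.BR3.EquivTubesM
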