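import Fermat.Agent.BR3.EquivRest
import Fermat.Agent.BR3.EquivTubesM
import Fermat.Agent.BR3.SDD.ModularTubes

/-!
# Program C (S36), node (G4-FINAL): the binder `hrest` at THE tube functions `nodeTubeM` / `smTubeM`

For `nodeTube := nodeTubeM B hB hqM tubeT tubeK tubeW` and
`smTube := smTubeM B hB hqM hζ midTube zeTube` (helper3's `BR3/SDD/ModularTubes.lean`):

* `smul_mem_smTubeM_cInf` / `smul_mem_smTubeM_cZero` : the tubes of ALL points of `cInf` / `cZero`
  are stable under EVERY inertia element (no hypothesis);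
* `hsmInfM` / `hsmZeroM` : the binders `hsmInf` / `hsmZero` of
  `ModularTameRaw.tameProp_of_rawTubes` VERBATIM at `smTubeM` (any family of special points);
* `smul_mem_smTubeM` : all the points `y` of the components, from the clauses of `midTube` and
  `zeTube`;
* `smul_mem_nodeTubeM` : all the nodes, from the clauses of `tubeT`, `tubeK`, `tubeW`;
* **`hrestM`** : the binder `hrest` of `SDD.Modular.modelAt_of_raw` / `modelAt_of_raw_thick`
  VERBATIM at `nodeTubeM` / `smTubeM`, from the clauses for the rich inertia elements: trivial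
  action on the vertical components, the tubes `tubeT`, `tubeK`, `tubeW`, `midTube`, `zeTube`,
  the coordinates of the three kinds of levels.
-/

set_option autoImplicit false
set_option linter.style.haveILetI false
set_option linter.unusedSectionVars false
set_option linter.unusedVariables false
set_option synthInstance.maxHeartbeats 400000

open ModularCurve AlgebraicCurve

noncomputable section

namespace Fermat.Agent.BR3.EquivRestM

open IsLocalRing Fermat.Agent.Jac Fermat.Agent.X0 Fermat.Agent.Red Fermat.Agent.Val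
  Fermat.Agent.BR.SS Fermat.Agent.BR Fermat.Agent.BR.InertiaRed Fermat.Agent.BR.UnramCyclo
  Fermat.Agent.BR3.EquivInert Fermat.Agent.BR.S0 Fermat.Agent.BR.S0.PointDict
  Fermat.Agent.BR.S0.RedModular Fermat.Agent.BR.S0.RedHyp Fermat.Agent.BR3.FibreProd
  Fermat.Agent.BR.TwoVal Fermat.Agent.BR.Refine Fermat.Agent.BR.Circle Fermat.Agent.BR3.CircleN
  Fermat.Agent.BR3.ThickSDDPlug Fermat.Agent.BR3.SDD Fermat.Agent.BR3.SDD.Modular
  Fermat.Agent.BR2.SetupOfData

local notation "Qb" => AlgebraicClosure ℚ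

variable {M q : ℕ} [NeZero M] [hq : Fact q.Prime] [NeZero q]
variable (B : ValuationSubring (AlgebraicClosure ℚ)) (hB : B.LiesOverPrime q) (hqM : ¬ q ∣ M)
variable [IsAlgClosed (ResidueField B)]
variable {ζ : Kbˣ} (hζ : IsPrimitiveRoot ζ q)

local notation "kB" => IsLocalRing.ResidueField B
local notation "FtM" => modularFunctionFieldFullC (IsLocalRing.ResidueField B) M

/-- (shortcut instance) -/
local instance (priority := 100000) instAlgebraFtMShortcutRestM :
    Algebra (IsLocalRing.ResidueField B)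
      (modularFunctionFieldFullC (IsLocalRing.ResidueField B) M) :=
  inferInstance

/-- (shortcut instance: the search through the tower takes seconds) -/
local instance (priority := 100000) instAlgebraFMidShortcutRestM :
    Algebra (IsLocalRing.ResidueField B) (FMid M B) :=
  inferInstance

variable {FZ : SSpM B hB hqM → Type} [∀ e, Field (FZ e)] [∀ e, Algebra (ResidueField B) (FZ e)]
  {KP : Type}

/-- (shortcut instance) -/
local instance (priority := 100000) instFieldFtAllShortcutRestM :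
    ∀ v, Field (FtAll B hB hqM hζ FZ v) :=
  inferInstance

/-- (shortcut instance) -/
local instance (priority := 100000) instAlgebraFtAllShortcutRestM :
    ∀ v, Algebra (IsLocalRing.ResidueField B) (FtAll B hB hqM hζ FZ v) :=
  inferInstance

variable
  (midTube : MidM B hB hqM hζ → Place (IsLocalRing.ResidueField B) (FMid M B) →
    Set (Place (AlgebraicClosure ℚ) (Fb (M * q * q))))
  (zeTube : ∀ e : SSpM B hB hqM, Place (IsLocalRing.ResidueField B) (FZ e) →
    Set (Place (AlgebraicClosure ℚ) (Fb (M * q * q))))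

/-! ### the smooth kinds -/

/-- **The tubes of all the points of `cInf` are stable under every inertia element.** -/
theorem smul_mem_smTubeM_cInf {σ : GQ} (hσ : σ ∈ B.inertiaSubgroupIn ℚ)
    (Q : Place kB (FtAll B hB hqM hζ FZ cInf)) :
    ∀ P ∈ smTubeM B hB hqM hζ midTube zeTube ⟨cInf, Q⟩,
      galAut (M * q * q) σ • P ∈ smTubeM B hB hqM hζ midTube zeTube ⟨cInf, Q⟩ :=
  Fermat.Agent.BR3.EquivTubesM.smul_mem_smTube_cInf B hB hqM hζ
    (smTubeM B hB hqM hζ midTube zeTube) (atlas (DtM B hB hqM))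
    (fun Q h => smTubeM_cInf B hB hqM hζ midTube zeTube (atlas (DtM B hB hqM)) Q h)
    (fun Q h => by rw [smTubeM_cInf_eq, cInfTubeM, dif_neg h]) hσ Q

/-- **The tubes of all the points of `cZero` are stable under every inertia element.** -/
theorem smul_mem_smTubeM_cZero {σ : GQ} (hσ : σ ∈ B.inertiaSubgroupIn ℚ)
    (Q : Place kB (FtAll B hB hqM hζ FZ SDD.cZero)) :
    ∀ P ∈ smTubeM B hB hqM hζ midTube zeTube ⟨SDD.cZero, Q⟩,
      galAut (M * q * q) σ • P ∈ smTubeM B hB hqM hζ midTube zeTube ⟨SDD.cZero, Q⟩ :=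
  Fermat.Agent.BR3.EquivTubesM.smul_mem_smTube_cZero B hB hqM hζ
    (smTubeM B hB hqM hζ midTube zeTube) (atlas (DtM B hB hqM))
    (fun Q h => smTubeM_cZero B hB hqM hζ midTube zeTube (atlas (DtM B hB hqM)) Q h)
    (fun Q h => by rw [smTubeM_cZero_eq, cZeroTubeM, dif_neg h]) hσ Q

/-- The binder `hsmInf` of `ModularTameRaw.tameProp_of_rawTubes` (and of
`EquivTubeFam.hT_stable_of_raw`) VERBATIM at `smTubeM`. -/
theorem hsmInfM {σ : GQ} (hσ : σ ∈ B.inertiaSubgroupIn ℚ)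
    (pInf : SSpM B hB hqM → Place kB (FtAll B hB hqM hζ FZ cInf)) :
    ∀ Q : Place kB (FtAll B hB hqM hζ FZ cInf), (∀ e, Q ≠ pInf e) →
      ∀ Pl ∈ smTubeM B hB hqM hζ midTube zeTube ⟨cInf, Q⟩,
        galAut (M * q * q) σ • Pl ∈ smTubeM B hB hqM hζ midTube zeTube ⟨cInf, Q⟩ :=
  fun Q _ => smul_mem_smTubeM_cInf B hB hqM hζ midTube zeTube hσ Q

/-- The binder `hsmZero` of `ModularTameRaw.tameProp_of_rawTubes` (and of
`EquivTubeFam.hT_stable_of_raw`) VERBATIM at `smTubeM`. -/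
theorem hsmZeroM {σ : GQ} (hσ : σ ∈ B.inertiaSubgroupIn ℚ)
    (pZero : SSpM B hB hqM → Place kB (FtAll B hB hqM hζ FZ SDD.cZero)) :
    ∀ Q : Place kB (FtAll B hB hqM hζ FZ SDD.cZero), (∀ e, Q ≠ pZero e) →
      ∀ Pl ∈ smTubeM B hB hqM hζ midTube zeTube ⟨SDD.cZero, Q⟩,
        galAut (M * q * q) σ • Pl ∈ smTubeM B hB hqM hζ midTube zeTube ⟨SDD.cZero, Q⟩ :=
  fun Q _ => smul_mem_smTubeM_cZero B hB hqM hζ midTube zeTube hσ Q

/-- **All the smooth kinds**: the tubes `smTubeM y` are stable under an inertia element which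
stabilises the tubes `midTube i Q` and `zeTube e Q`. -/
theorem smul_mem_smTubeM {σ : GQ} (hσ : σ ∈ B.inertiaSubgroupIn ℚ)
    (hmid : ∀ (i : MidM B hB hqM hζ) (Q : Place kB (FMid M B)),
      ∀ P ∈ midTube i Q, galAut (M * q * q) σ • P ∈ midTube i Q)
    (hze : ∀ (e : SSpM B hB hqM) (Q : Place kB (FZ e)),
      ∀ P ∈ zeTube e Q, galAut (M * q * q) σ • P ∈ zeTube e Q) :
    ∀ y, ∀ P ∈ smTubeM B hB hqM hζ midTube zeTube y,
      galAut (M * q * q) σ • P ∈ smTubeM B hB hqM hζ midTube zeTube y :=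
  Fermat.Agent.BR3.EquivRest.forall_sm_of_kinds (smTubeM B hB hqM hζ midTube zeTube)
    (fun P => galAut (M * q * q) σ • P)
    (smul_mem_smTubeM_cInf B hB hqM hζ midTube zeTube hσ)
    (smul_mem_smTubeM_cZero B hB hqM hζ midTube zeTube hσ) hmid hze

/-! ### the nodes -/

variable (tubeT : SSpM B hB hqM → Set (Place (AlgebraicClosure ℚ) (Fb (M * q * q))))
  (tubeK : SSpM B hB hqM → KP → Set (Place (AlgebraicClosure ℚ) (Fb (M * q * q))))
  (tubeW : SSpM B hB hqM → Set (Place (AlgebraicClosure ℚ) (Fb (M * q * q))))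

/-- **All the nodes**: the tubes `nodeTubeM x` are stable under a map which stabilises the tubes
`tubeT e`, `tubeK e s`, `tubeW e`. -/
theorem smul_mem_nodeTubeM
    (g : Place (AlgebraicClosure ℚ) (Fb (M * q * q)) → Place (AlgebraicClosure ℚ) (Fb (M * q * q)))
    (hT : ∀ e, ∀ P ∈ tubeT e, g P ∈ tubeT e)
    (hK : ∀ e s, ∀ P ∈ tubeK e s, g P ∈ tubeK e s)
    (hW : ∀ e, ∀ P ∈ tubeW e, g P ∈ tubeW e) :
    ∀ x, ∀ P ∈ nodeTubeM B hB hqM tubeT tubeK tubeW x,
      g P ∈ nodeTubeM B hB hqM tubeT tubeK tubeW x :=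
  Fermat.Agent.BR3.EquivRest.forall_node_of_kinds (nodeTubeM B hB hqM tubeT tubeK tubeW) g hT hK hW

/-! ### the binder `hrest` -/

variable
  (CZ : ∀ e, ConstRed (F := Fb (M * q * q)) (Ft := FZ e) B (residue B))
  {ιT : SSpM B hB hqM → Type} {ιK : SSpM B hB hqM → KP → Type}
  {ιW : SSpM B hB hqM → Type}
  (LT : ∀ e, AnnulusLevels B (nodeTubeM B hB hqM tubeT tubeK tubeW (nT e)) (ιT e))
  (LK : ∀ e s, AnnulusLevels B (nodeTubeM B hB hqM tubeT tubeK tubeW (nk e s)) (ιK e s))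
  (LW : ∀ e, AnnulusLevels B (nodeTubeM B hB hqM tubeT tubeK tubeW (nW e)) (ιW e))

/-- **The binder `hrest` of `SDD.Modular.modelAt_of_raw` (and `modelAt_of_raw_thick`) at
`nodeTubeM` / `smTubeM`**, from the clauses kind by kind for the rich inertia elements; the two
horizontal kinds need no hypothesis. -/
theorem hrestM
    (hV : ∀ s ∈ B.inertiaSubgroupIn ℚ, s (unifSDD q) = unifSDD q →
      (∀ a ∈ cycloField Qb q, s a = a) → (∀ ζ' : Qb, ζ' ^ q = 1 → s ζ' = ζ') →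
      ∀ e, ActsTrivially (CZ e).O (galAut (M * q * q) s))
    (hnT : ∀ s ∈ B.inertiaSubgroupIn ℚ, s (unifSDD q) = unifSDD q →
      (∀ a ∈ cycloField Qb q, s a = a) → (∀ ζ' : Qb, ζ' ^ q = 1 → s ζ' = ζ') →
      ∀ e, ∀ P ∈ tubeT e, galAut (M * q * q) s • P ∈ tubeT e)
    (hnK : ∀ s ∈ B.inertiaSubgroupIn ℚ, s (unifSDD q) = unifSDD q →
      (∀ a ∈ cycloField Qb q, s a = a) → (∀ ζ' : Qb, ζ' ^ q = 1 → s ζ' = ζ') →
      ∀ e t, ∀ P ∈ tubeK e t, galAut (M * q * q) s • P ∈ tubeK e t)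
    (hnW : ∀ s ∈ B.inertiaSubgroupIn ℚ, s (unifSDD q) = unifSDD q →
      (∀ a ∈ cycloField Qb q, s a = a) → (∀ ζ' : Qb, ζ' ^ q = 1 → s ζ' = ζ') →
      ∀ e, ∀ P ∈ tubeW e, galAut (M * q * q) s • P ∈ tubeW e)
    (hmid : ∀ s ∈ B.inertiaSubgroupIn ℚ, s (unifSDD q) = unifSDD q →
      (∀ a ∈ cycloField Qb q, s a = a) → (∀ ζ' : Qb, ζ' ^ q = 1 → s ζ' = ζ') →
      ∀ (i : MidM B hB hqM hζ) (Q : Place kB (FMid M B)),
        ∀ P ∈ midTube i Q, galAut (M * q * q) s • P ∈ midTube i Q)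
    (hze : ∀ s ∈ B.inertiaSubgroupIn ℚ, s (unifSDD q) = unifSDD q →
      (∀ a ∈ cycloField Qb q, s a = a) → (∀ ζ' : Qb, ζ' ^ q = 1 → s ζ' = ζ') →
      ∀ (e : SSpM B hB hqM) (Q : Place kB (FZ e)),
        ∀ P ∈ zeTube e Q, galAut (M * q * q) s • P ∈ zeTube e Q)
    (huT : ∀ s ∈ B.inertiaSubgroupIn ℚ, s (unifSDD q) = unifSDD q →
      (∀ a ∈ cycloField Qb q, s a = a) → (∀ ζ' : Qb, ζ' ^ q = 1 → s ζ' = ζ') →
      ∀ e, galAut (M * q * q) s • (LT e).u = (LT e).u)
    (huK : ∀ s ∈ B.inertiaSubgroupIn ℚ, s (unifSDD q) = unifSDD q →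
      (∀ a ∈ cycloField Qb q, s a = a) → (∀ ζ' : Qb, ζ' ^ q = 1 → s ζ' = ζ') →
      ∀ e t, galAut (M * q * q) s • (LK e t).u = (LK e t).u)
    (huW : ∀ s ∈ B.inertiaSubgroupIn ℚ, s (unifSDD q) = unifSDD q →
      (∀ a ∈ cycloField Qb q, s a = a) → (∀ ζ' : Qb, ζ' ^ q = 1 → s ζ' = ζ') →
      ∀ e, galAut (M * q * q) s • (LW e).u = (LW e).u) :
    ∀ s ∈ B.inertiaSubgroupIn ℚ, s (unifSDD q) = unifSDD q →
      (∀ a ∈ cycloField Qb q, s a = a) → (∀ ζ' : Qb, ζ' ^ q = 1 → s ζ' = ζ') →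
      (∀ e, ActsTrivially (CZ e).O (galAut (M * q * q) s)) ∧
      (∀ x, ∀ P ∈ nodeTubeM B hB hqM tubeT tubeK tubeW x,
        galAut (M * q * q) s • P ∈ nodeTubeM B hB hqM tubeT tubeK tubeW x) ∧
      (∀ y, ∀ P ∈ smTubeM B hB hqM hζ midTube zeTube y,
        galAut (M * q * q) s • P ∈ smTubeM B hB hqM hζ midTube zeTube y) ∧
      (∀ e, galAut (M * q * q) s • (LT e).u = (LT e).u) ∧
      (∀ e t, galAut (M * q * q) s • (LK e t).u = (LK e t).u) ∧
      ∀ e, galAut (M * q * q) s • (LW e).u = (LW e).u := by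
  intro s hs h1 h2 h3
  exact ⟨hV s hs h1 h2 h3,
    smul_mem_nodeTubeM B hB hqM tubeT tubeK tubeW (fun P => galAut (M * q * q) s • P)
      (hnT s hs h1 h2 h3) (hnK s hs h1 h2 h3) (hnW s hs h1 h2 h3),
    smul_mem_smTubeM B hB hqM hζ midTube zeTube hs (hmid s hs h1 h2 h3) (hze s hs h1 h2 h3),
    huT s hs h1 h2 h3, huK s hs h1 h2 h3, huW s hs h1 h2 h3⟩

end Fermat.Agent.BR3.EquivRestM
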