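import Fermat.Agent.BR3.SRef.OneLevel
import Fermat.Agent.BR3.CircleEquiv

/-!
# Program C (S36), node (I9-GLUE), part B: the reduction map of the one-level refinement `S'ref` is
invariant under an inertial automorphism fixing the annulus coordinates and the gauges

`S₀` a semistable setup with annulus charts `I : CircleInputsN S₀`, `a₀ e` admissible gauges,
`S'ref = SRef.sref I a₀ hadm`.  `g : SemilinearAut K F` with

* `hg : IsInertial A (baseAut g)` (valuation preserved, trivial on residues),
* `hr₀ : ∀ P, S₀.r (g • P) = S₀.r P` (the reduction map of `S₀` is invariant),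
* `hu : ∀ e, g • (I.ch e).u = (I.ch e).u` (the annulus coordinates are fixed),
* `ha : ∀ e, theta A (baseAut g) (a₀ e) = 1` (the gauges are fixed up to `1`-units; e.g.
  `baseAut g (a₀ e) = a₀ e`: `theta_eq_one_of_fixed`).

Then `sref_r_smul : (sref I a₀ hadm).r (g • P) = (sref I a₀ hadm).r P`, hence every tube of
`S'ref` (`{P | r P = x}`) is stable: `smul_mem_fibre_iff`, `smul_mem_tube_sref_iff`.
These are the base tubes of the sheets of `S''` (input `hT` of
`EquivTrivial.smul_mem_coverTube_iff_of_fixed`).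
-/

set_option autoImplicit false
set_option linter.unusedSectionVars false

noncomputable section

namespace Fermat.Agent.BR3.EquivSRef

open AlgebraicCurve IsLocalRing Fermat.Agent.Red Fermat.Agent.BR.InertiaRed
  Fermat.Agent.BR.AnnulusRed Fermat.Agent.BR.P1 Fermat.Agent.BR.SS
  Fermat.Agent.BR.Refine Fermat.Agent.BR.Circle Fermat.Agent.BR3.CircleN
  Fermat.Agent.BR3.SRef Fermat.Agent.BR3.InvFiniteTheta Fermat.Agent.BR3.CircleEquiv

variable {K : Type} {F : Type*} [Field K] [Field F] [Algebra K F]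
  {A : ValuationSubring K} [IsAlgClosed (ResidueField A)]
  {ι₀ : Type} {Ft₀ : ι₀ → Type} [∀ v, Field (Ft₀ v)] [∀ v, Algebra (ResidueField A) (Ft₀ v)]
  {ν₀ : Type}
  {S₀ : SemistableSetup (F := F) A (residue A) ι₀ Ft₀ ν₀}
  (I : CircleInputsN S₀) (a₀ : ν₀ → K) (hadm : ∀ e, I.adm e (a₀ e))

local notation "k" => ResidueField A

omit [IsAlgClosed (ResidueField A)] in
/-- A fixed nonzero constant has trivial tame character. -/
theorem theta_eq_one_of_fixed {s : K ≃+* K} {a : K} (ha0 : a ≠ 0) (ha : s a = a) :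
    theta A s a = 1 := by
  unfold theta
  rw [ha, div_self ha0]
  exact resOf_one A

section Stable

variable (g : SemilinearAut K F) (hg : IsInertial A (SemilinearAut.baseAut g))
  (hr₀ : ∀ P : Place K F, S₀.r (g • P) = S₀.r P)
  (hu : ∀ e, g • (I.ch e).u = (I.ch e).u)

include hr₀ in
omit [IsAlgClosed (ResidueField A)] in
/-- The tubes of the nodes of `S₀` are stable. -/
theorem smul_mem_tube_of_mem {e : ν₀} {P : Place K F} (hP : P ∈ tube S₀ e) :
    g • P ∈ tube S₀ e := by
  show S₀.r (g • P) = _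
  rw [hr₀]
  exact hP

include hr₀ in
omit [IsAlgClosed (ResidueField A)] in
theorem smul_mem_tube_iff {e : ν₀} {P : Place K F} : g • P ∈ tube S₀ e ↔ P ∈ tube S₀ e := by
  show S₀.r (g • P) = _ ↔ S₀.r P = _
  rw [hr₀]

include hg hu in
/-- The valuation of the annulus coordinate at a place is invariant. -/
theorem valuation_evalAt_smul (e : ν₀) (P : Place K F) :
    A.valuation (evalAt (g • P) (I.ch e).u) = A.valuation (evalAt P (I.ch e).u) := by
  rw [evalAt_smul_of_fixed g P (hu e), hg.val]

include hg hr₀ hu in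
/-- **The reduction map of `S'ref` is invariant** under an inertial automorphism which leaves the
reduction map of `S₀` invariant and fixes the annulus coordinates and (up to `1`-units) the
gauges. -/
theorem sref_r_smul (ha : ∀ e, theta A (SemilinearAut.baseAut g) (a₀ e) = 1) (P : Place K F) :
    (sref I a₀ hadm).r (g • P) = (sref I a₀ hadm).r P := by
  obtain ⟨w, Q, hx⟩ : ∃ w Q, (sref I a₀ hadm).r P = ⟨w, Q⟩ := ⟨_, _, rfl⟩
  rw [hx]
  rcases comp_cases I a₀ hadm w with ⟨v, rfl⟩ | ⟨e, rfl⟩
  · -- an old component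
    have h1 := (sref_r_eq_old_iff I a₀ hadm (P := P) (v := v) (Q := Q)).mp hx
    refine (sref_r_eq_old_iff I a₀ hadm (P := g • P) (v := v) (Q := Q)).mpr ⟨?_, ?_⟩
    · rw [hr₀]
      exact h1.1
    · rcases h1.2 with ⟨e, he⟩ | h2
      · left
        refine ⟨e, ?_⟩
        rw [tube_outer] at he ⊢
        refine ⟨smul_mem_tube_of_mem g hr₀ he.1, ?_⟩
        rw [valuation_evalAt_smul I g hg hu]
        exact he.2
      · right
        intro e he
        exact h2 e ((smul_mem_tube_iff g hr₀).mp he)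
  · -- the exceptional component of `e`
    have h1 := (sref_r_eq_exc_iff I a₀ hadm (P := P) (e := e) (Q := Q)).mp hx
    refine (sref_r_eq_exc_iff I a₀ hadm (P := g • P) (e := e) (Q := Q)).mpr ?_
    rcases h1 with ⟨hc, hQ⟩ | ⟨hi, hQ⟩
    · left
      have hc' : g • P ∈ circle I a₀ e := by
        refine ⟨smul_mem_tube_of_mem g hr₀ hc.1, ?_⟩
        rw [valuation_evalAt_smul I g hg hu]
        exact hc.2
      refine ⟨hc', ?_⟩
      have ha0 : a₀ e ≠ 0 := by
        intro h0
        have := (hadm e).1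
        rw [h0, map_zero] at this
        exact not_lt_zero this
      rw [ubar_smul_of_isInertial g hg (hu e) ha0 hc.2, ha e, one_mul]
      exact hQ
    · right
      refine ⟨?_, hQ⟩
      rw [tube_inner] at hi ⊢
      refine ⟨smul_mem_tube_of_mem g hr₀ hi.1, ?_⟩
      rw [valuation_evalAt_smul I g hg hu]
      exact hi.2

include hg hr₀ hu in
/-- The fibres of the reduction map of `S'ref` are stable. -/
theorem smul_mem_fibre_iff (ha : ∀ e, theta A (SemilinearAut.baseAut g) (a₀ e) = 1)
    (x : Σ w, Place k (FtR Ft₀ A (oneLevel I a₀ hadm).X w)) (P : Place K F) :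
    g • P ∈ {P | (sref I a₀ hadm).r P = x} ↔ P ∈ {P | (sref I a₀ hadm).r P = x} := by
  show (sref I a₀ hadm).r (g • P) = x ↔ (sref I a₀ hadm).r P = x
  rw [sref_r_smul I a₀ hadm g hg hr₀ hu ha]

include hg hr₀ hu in
/-- The tubes of the nodes of `S'ref` are stable. -/
theorem smul_mem_tube_sref_iff (ha : ∀ e, theta A (SemilinearAut.baseAut g) (a₀ e) = 1)
    (x : ν₀ ⊕ (oneLevel I a₀ hadm).X) (P : Place K F) :
    g • P ∈ tube (sref I a₀ hadm) x ↔ P ∈ tube (sref I a₀ hadm) x :=
  smul_mem_fibre_iff I a₀ hadm g hg hr₀ hu ha _ P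

include hg hr₀ hu in
/-- The circles are stable. -/
theorem smul_mem_circle_iff (e : ν₀) (P : Place K F) :
    g • P ∈ circle I a₀ e ↔ P ∈ circle I a₀ e := by
  show (g • P ∈ tube S₀ e ∧ _) ↔ (P ∈ tube S₀ e ∧ _)
  rw [smul_mem_tube_iff g hr₀, valuation_evalAt_smul I g hg hu]

end Stable

end Fermat.Agent.BR3.EquivSRef
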