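import Fermat.Agent.BR3.EquivSRef
import Fermat.Agent.BR3.EquivHoriz
import Fermat.Agent.BR3.SRef.Modular

/-!
# Program C (S36), node (I9-GLUE), part B': the reduction maps of `S'ref_a`, `S'ref_b` are invariant
under the inertia elements fixing the gauges

`Dt : Final.ModularData M q B hB hqM`, `S' = SetupOfData.setup Dt`, `σ` in the inertia group of
`B` with `σ (a₀ e) = a₀ e` for the gauges `a₀ e` (in Program C the gauges are powers of the
uniformizing constant `ϖ`, fixed by the rich elements of `GeoRich.hrich_of_trivial`).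

* `srefM_r_smul`, `srefA_r_smul`, `srefB_r_smul` : the reduction map of the refinement is invariant
  under `gal (M q) σ`;
* `smul_mem_tube_srefM_iff`, `smul_mem_fibre_srefM_iff` : its tubes are stable
  (the hypothesis `hT` of `EquivTrivial.smul_mem_coverTube_iff_of_fixed` for the sheets of `S''`);
* `annulusCoord_smul` : the annulus coordinates of `S'` are fixed by inertia.
-/

set_option autoImplicit false
set_option synthInstance.maxHeartbeats 400000
set_option linter.unusedSectionVars false

noncomputable section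

/- S36 build-time patch: file-local shortcut instances. They only shorten instance search;
each is the instance that the search finds anyway (reducible, same terms after unfolding). -/
local instance (priority := 100000) Fermat.Agent.BR3.FastInst.instAlgFullC_EquivSRefModular
    {k : Type*} [Field k] (N : ℕ) :
    Algebra k ↥(ModularCurve.modularFunctionFieldFullC k N) := inferInstance
local instance (priority := 100000) Fermat.Agent.BR3.FastInst.instFieldFullC_EquivSRefModular
    {k : Type*} [Field k] (N : ℕ) :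
    Field ↥(ModularCurve.modularFunctionFieldFullC k N) := inferInstance
local instance (priority := 100000) Fermat.Agent.BR3.FastInst.instAlgLaurent_EquivSRefModular
    {k : Type*} [Field k] : Algebra k (LaurentSeries k) := inferInstance


namespace Fermat.Agent.BR3.EquivSRefModular

open AlgebraicCurve ModularCurve IsLocalRing
open Fermat.Agent.Red Fermat.Agent.Val Fermat.Agent.X0 Fermat.Agent.BR.SS Fermat.Agent.BR.Refine
open Fermat.Agent.BR.Circle Fermat.Agent.BR.S0
open Fermat.Agent.BR.S0.PointDict Fermat.Agent.BR.S0.RedModular Fermat.Agent.BR.Final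
open Fermat.Agent.BR.ValTwo
open Fermat.Agent.BR2.SetupOfData Fermat.Agent.BR3.CircleN Fermat.Agent.BR3.SRef
open Fermat.Agent.BR3.SRef.Modular Fermat.Agent.BR3.EquivSRef

variable {M q : ℕ} [NeZero M] [hq : Fact q.Prime]
variable {B : ValuationSubring (AlgebraicClosure ℚ)} {hB : B.LiesOverPrime q} {hqM : ¬ q ∣ M}
variable [IsAlgClosed (ResidueField B)]

local notation "kB" => IsLocalRing.ResidueField B
local notation "FtM" => modularFunctionFieldFullC (IsLocalRing.ResidueField B) M
local notation "Kb" => AlgebraicClosure ℚ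

/-- (shortcut instance: the search through the generic instances costs seconds per declaration) -/
local instance (priority := 100000) instAlgebraFtMShortcut :
    Algebra (IsLocalRing.ResidueField B)
      (modularFunctionFieldFullC (IsLocalRing.ResidueField B) M) :=
  inferInstance

variable (Dt : ModularData M q B hB hqM)

/-- **Inertia fixes the annulus coordinates of `S'`.** -/
theorem annulusCoord_smul {σ : Kb ≃ₐ[ℚ] Kb} (hσ : σ ∈ B.inertiaSubgroupIn ℚ)
    (e : Crossing (chartDataModular B hB hqM)) :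
    gal (M * q) σ • annulusCoord Dt e = annulusCoord Dt e :=
  chainProvider_u_smul Dt hσ e

variable (a₀ : Crossing (chartDataModular B hB hqM) → Kb) (hadm : ∀ e, (inputs Dt).adm e (a₀ e))

include hadm in
theorem gauge_ne_zero (e : Crossing (chartDataModular B hB hqM)) : a₀ e ≠ 0 := by
  intro h0
  have := (hadm e).1
  rw [h0, map_zero] at this
  exact not_lt_zero this

/-- **The reduction map of the one-level refinement of `S'` is invariant** under the inertia
elements fixing the gauges. -/
theorem srefM_r_smul {σ : Kb ≃ₐ[ℚ] Kb} (hσ : σ ∈ B.inertiaSubgroupIn ℚ)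
    (ha : ∀ e, σ (a₀ e) = a₀ e) (P : Place Kb (Fb (M * q))) :
    (srefM Dt a₀ hadm).r (gal (M * q) σ • P) = (srefM Dt a₀ hadm).r P := by
  have hg := EquivHoriz.isInertial_gal (M * q) B hσ
  have hr₀ : ∀ P : Place Kb (Fb (M * q)), (setup Dt).r (gal (M * q) σ • P) = (setup Dt).r P :=
    fun P => setup_r_smul Dt hσ P
  have hu : ∀ e, gal (M * q) σ • ((inputs Dt).ch e).u = ((inputs Dt).ch e).u :=
    fun e => annulusCoord_smul Dt hσ e
  have hθ : ∀ e, InvFiniteTheta.theta B (SemilinearAut.baseAut (gal (M * q) σ)) (a₀ e) = 1 :=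
    fun e => theta_eq_one_of_fixed (gauge_ne_zero Dt a₀ hadm e) (ha e)
  exact sref_r_smul (inputs Dt) a₀ hadm (gal (M * q) σ) hg hr₀ hu hθ P

/-- The fibres of the reduction map of the refinement are stable. -/
theorem smul_mem_fibre_srefM_iff {σ : Kb ≃ₐ[ℚ] Kb} (hσ : σ ∈ B.inertiaSubgroupIn ℚ)
    (ha : ∀ e, σ (a₀ e) = a₀ e)
    (x : Σ w, Place kB (FtR (fun _ : Fin 2 => FtM) B
      (oneLevel (inputs Dt) a₀ hadm).X w)) (P : Place Kb (Fb (M * q))) :
    gal (M * q) σ • P ∈ {P | (srefM Dt a₀ hadm).r P = x} ↔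
      P ∈ {P | (srefM Dt a₀ hadm).r P = x} := by
  show (srefM Dt a₀ hadm).r (gal (M * q) σ • P) = x ↔ (srefM Dt a₀ hadm).r P = x
  rw [srefM_r_smul Dt a₀ hadm hσ ha]

/-- The tubes of the nodes of the refinement are stable. -/
theorem smul_mem_tube_srefM_iff {σ : Kb ≃ₐ[ℚ] Kb} (hσ : σ ∈ B.inertiaSubgroupIn ℚ)
    (ha : ∀ e, σ (a₀ e) = a₀ e)
    (x : Crossing (chartDataModular B hB hqM) ⊕ (oneLevel (inputs Dt) a₀ hadm).X)
    (P : Place Kb (Fb (M * q))) :
    gal (M * q) σ • P ∈ tube (srefM Dt a₀ hadm) x ↔ P ∈ tube (srefM Dt a₀ hadm) x :=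
  smul_mem_fibre_srefM_iff Dt a₀ hadm hσ ha _ P

/-- `S'ref_a`. -/
theorem srefA_r_smul (h : IsGaugeA Dt a₀) {σ : Kb ≃ₐ[ℚ] Kb} (hσ : σ ∈ B.inertiaSubgroupIn ℚ)
    (ha : ∀ e, σ (a₀ e) = a₀ e) (P : Place Kb (Fb (M * q))) :
    (srefA Dt a₀ h).r (gal (M * q) σ • P) = (srefA Dt a₀ h).r P :=
  srefM_r_smul Dt a₀ h.adm hσ ha P

/-- `S'ref_b`. -/
theorem srefB_r_smul (h : IsGaugeB Dt a₀) {σ : Kb ≃ₐ[ℚ] Kb} (hσ : σ ∈ B.inertiaSubgroupIn ℚ)
    (ha : ∀ e, σ (a₀ e) = a₀ e) (P : Place Kb (Fb (M * q))) :
    (srefB Dt a₀ h).r (gal (M * q) σ • P) = (srefB Dt a₀ h).r P :=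
  srefM_r_smul Dt a₀ h.adm hσ ha P

end Fermat.Agent.BR3.EquivSRefModular
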