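import Mathlib
import Fermat.Agent.BR3.SRef.OneLevel
import Fermat.Agent.BR3.CircleEquiv
import Fermat.Agent.BR3.GalTrace
import Fermat.Agent.BR3.TorGlue

/-!
# Program C (S36), node (I9-σ0): an inertial automorphism ROTATES the reduction map of `S'ref`

`S₀` a semistable setup with annulus charts `I : CircleInputsN S₀`, gauges `a₀ e`, and
`SRef.sref I a₀ hadm` its one-level refinement.  `g : SemilinearAut K F` with

* `hg : IsInertial A (baseAut g)`,
* `hr0 : ∀ P, S₀.r (g • P) = S₀.r P` (the reduction map of `S₀` is invariant),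
* `hu : ∀ e, g • (I.ch e).u = (I.ch e).u` (the annulus coordinates are fixed);

NO hypothesis on the gauges: with `θ e := theta A (baseAut g) (a₀ e)` (the residue of
`g (a₀ e) / a₀ e`):

* `rotFam z hz` : the family of automorphisms of the residue fields of `S'ref` (identity on the old
  components, the rotation `X ↦ z e X` on the exceptional component over `e`);
* `smul_mem_tube_iff`, `smul_mem_outer_iff`, `smul_mem_inner_iff`, `smul_mem_circle_iff` : the tubes
  of `S₀`, the outer and inner tubes and the circles are stable;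
* **`sref_r_smul_rot`** : `(sref I a₀ hadm).r (g • P) = sigmaMap (Equiv.refl _) (rotFam θ⁻¹) (r P)` :
  the points of the exceptional component over `e` are rotated (`X = c ↦ X = θ e * c`), everything
  else is fixed;
* `sref_r_smul_of_theta_eq_one`, `sref_r_smul_of_fixed` : if the tame character of `g` is trivial on
  the gauges (e.g. `g` fixes the gauges), the reduction map is invariant.
-/

set_option autoImplicit false
set_option linter.unusedSectionVars false
set_option linter.unusedVariables false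

noncomputable section

namespace Fermat.Agent.BR3.EquivSRefRot

open AlgebraicCurve IsLocalRing Fermat.Agent.Red Fermat.Agent.BR.InertiaRed
  Fermat.Agent.BR.AnnulusRed Fermat.Agent.BR.P1 Fermat.Agent.BR.POne Fermat.Agent.BR.SS
  Fermat.Agent.BR.Refine Fermat.Agent.BR.Circle Fermat.Agent.BR3.CircleN Fermat.Agent.BR3.SRef
  Fermat.Agent.BR3.InvFiniteTheta Fermat.Agent.BR3.PlaceIso Fermat.Agent.BR3.TorGlue

variable {K : Type} {F : Type*} [Field K] [Field F] [Algebra K F]
  {A : ValuationSubring K} [IsAlgClosed (ResidueField A)]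
  {ι₀ : Type} {Ft₀ : ι₀ → Type} [∀ v, Field (Ft₀ v)] [∀ v, Algebra (ResidueField A) (Ft₀ v)]
  {ν₀ : Type}
  {S₀ : SemistableSetup (F := F) A (residue A) ι₀ Ft₀ ν₀}
  (I : CircleInputsN S₀) (a₀ : ν₀ → K) (hadm : ∀ e, I.adm e (a₀ e))

local notation "k" => ResidueField A

local notation "tube" => Fermat.Agent.BR.Refine.tube

/-- the automorphisms of the residue fields of `S'ref`: identity on the old components, the
rotation `X ↦ z e X` on the exceptional component over `e` -/
def rotFam (z : ν₀ → k) (hz : ∀ e, z e ≠ 0) :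
    ∀ w : ι₀ ⊕ (oneLevel I a₀ hadm).X,
      FtR Ft₀ A (oneLevel I a₀ hadm).X w ≃ₐ[k]
        FtR Ft₀ A (oneLevel I a₀ hadm).X (Equiv.refl (ι₀ ⊕ (oneLevel I a₀ hadm).X) w)
  | Sum.inl _ => AlgEquiv.refl
  | Sum.inr x => rotRatFunc (z x.1) (hz x.1)

/-- `sigmaMap` of the rotation family on a point of an old component -/
theorem sigmaMap_rotFam_old (z : ν₀ → k) (hz : ∀ e, z e ≠ 0) (v : ι₀) (Q : Place k (Ft₀ v)) :
    sigmaMap (Equiv.refl _) (rotFam I a₀ hadm z hz)
      (⟨Sum.inl v, Q⟩ : (oneLevel I a₀ hadm).PtR) = ⟨Sum.inl v, Q⟩ := by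
  have h : placeMap (AlgEquiv.refl : Ft₀ v ≃ₐ[k] Ft₀ v) Q = Q := placeMap_refl Q
  exact congrArg (Sigma.mk (β := fun w => Place k (FtR Ft₀ A (oneLevel I a₀ hadm).X w))
    (Sum.inl v)) h

/-- `sigmaMap` of the rotation family on a point of an exceptional component -/
theorem sigmaMap_rotFam_exc (z : ν₀ → k) (hz : ∀ e, z e ≠ 0) (e : ν₀) (c : k) :
    sigmaMap (Equiv.refl _) (rotFam I a₀ hadm z hz)
      (⟨exc I a₀ hadm e, placeAt k c⟩ : (oneLevel I a₀ hadm).PtR) =
        ⟨exc I a₀ hadm e, placeAt k ((z e)⁻¹ * c)⟩ := by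
  have h : placeMap (rotRatFunc (z e) (hz e)) (placeAt k c) = placeAt k ((z e)⁻¹ * c) := by
    rw [Fermat.Agent.BR3.GalTrace.placeMap_eq_smul]
    exact rot_smul_placeAt (z e) (hz e) c
  exact congrArg (Sigma.mk (β := fun w => Place k (FtR Ft₀ A (oneLevel I a₀ hadm).X w))
    (exc I a₀ hadm e)) h

section Stable

variable {I a₀ hadm}
variable (g : SemilinearAut K F) (hg : IsInertial A (SemilinearAut.baseAut g))
  (hr0 : ∀ P : Place K F, S₀.r (g • P) = S₀.r P) (hu : ∀ e, g • (I.ch e).u = (I.ch e).u)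

include hr0 in
theorem smul_mem_tube_iff (e : ν₀) (P : Place K F) : g • P ∈ tube S₀ e ↔ P ∈ tube S₀ e := by
  unfold Fermat.Agent.BR.Refine.tube
  simp only [Set.mem_ofPred_eq, hr0]

include hg hu in
theorem valuation_evalAt_smul (e : ν₀) (P : Place K F) :
    A.valuation (evalAt (g • P) (I.ch e).u) = A.valuation (evalAt P (I.ch e).u) := by
  rw [evalAt_smul_of_fixed g P (hu e), hg.val]

include hg hr0 hu in
theorem smul_mem_outer_iff (e : ν₀) (P : Place K F) :
    g • P ∈ tube (sref I a₀ hadm) (outer I a₀ hadm e) ↔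
      P ∈ tube (sref I a₀ hadm) (outer I a₀ hadm e) := by
  rw [tube_outer]
  simp only [Set.mem_ofPred_eq, smul_mem_tube_iff g hr0, valuation_evalAt_smul g hg hu]

include hg hr0 hu in
theorem smul_mem_inner_iff (e : ν₀) (P : Place K F) :
    g • P ∈ tube (sref I a₀ hadm) (inner I a₀ hadm e) ↔
      P ∈ tube (sref I a₀ hadm) (inner I a₀ hadm e) := by
  rw [tube_inner]
  simp only [Set.mem_ofPred_eq, smul_mem_tube_iff g hr0, valuation_evalAt_smul g hg hu]

include hg hr0 hu in
theorem smul_mem_circle_iff (e : ν₀) (P : Place K F) :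
    g • P ∈ circle I a₀ e ↔ P ∈ circle I a₀ e := by
  unfold circle
  simp only [Set.mem_ofPred_eq, smul_mem_tube_iff g hr0, valuation_evalAt_smul g hg hu]

end Stable

include hadm in
theorem gauge_ne_zero (e : ν₀) : a₀ e ≠ 0 := by
  intro h
  have h1 := (hadm e).1
  rw [h, map_zero] at h1
  exact not_lt_zero h1

/-- **An inertial automorphism fixing the annulus coordinates rotates the reduction map of
`S'ref`.** -/
theorem sref_r_smul_rot (g : SemilinearAut K F) (hg : IsInertial A (SemilinearAut.baseAut g))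
    (hr0 : ∀ P : Place K F, S₀.r (g • P) = S₀.r P) (hu : ∀ e, g • (I.ch e).u = (I.ch e).u)
    (P : Place K F) :
    (sref I a₀ hadm).r (g • P) =
      sigmaMap (Equiv.refl _)
        (rotFam I a₀ hadm (fun e => (theta A (SemilinearAut.baseAut g) (a₀ e))⁻¹)
          (fun e => inv_ne_zero (theta_ne_zero hg (gauge_ne_zero I a₀ hadm e))))
        ((sref I a₀ hadm).r P) := by
  set θ : ν₀ → k := fun e => theta A (SemilinearAut.baseAut g) (a₀ e) with hθ
  have hθ0 : ∀ e, θ e ≠ 0 := fun e => theta_ne_zero hg (gauge_ne_zero I a₀ hadm e)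
  generalize hrP' : (sref I a₀ hadm).r P = y
  obtain ⟨w, Q⟩ := y
  rcases w with v | x
  · -- an old component
    have h1 := (sref_r_eq_old_iff I a₀ hadm (P := P) (v := v) (Q := Q)).mp hrP'
    have h2 : (sref I a₀ hadm).r (g • P) = (⟨old I a₀ hadm v, Q⟩ : (oneLevel I a₀ hadm).PtR) := by
      refine (sref_r_eq_old_iff I a₀ hadm).mpr ⟨by rw [hr0]; exact h1.1, ?_⟩
      rcases h1.2 with ⟨e, he⟩ | h
      · exact Or.inl ⟨e, (smul_mem_outer_iff g hg hr0 hu e P).mpr he⟩
      · exact Or.inr fun e he => h e ((smul_mem_tube_iff g hr0 e P).mp he)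
    rw [h2]
    exact (sigmaMap_rotFam_old I a₀ hadm _ _ v Q).symm
  · -- the exceptional component over `e`
    obtain ⟨e, rfl⟩ : ∃ e, x = lvl I a₀ hadm e := ⟨x.1, eq_lvl I a₀ hadm x⟩
    have h1 := (sref_r_eq_exc_iff I a₀ hadm (P := P) (e := e) (Q := Q)).mp hrP'
    rcases h1 with ⟨hc, rfl⟩ | ⟨hin, rfl⟩
    · have hc' : g • P ∈ circle I a₀ e := (smul_mem_circle_iff g hg hr0 hu e P).mpr hc
      rw [sref_r_of_circle I a₀ hadm hc']
      have hub : ubar A (I.ch e).u (a₀ e) (g • P) = θ e * ubar A (I.ch e).u (a₀ e) P :=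
        Fermat.Agent.BR3.CircleEquiv.ubar_smul_of_isInertial g hg (hu e)
          (gauge_ne_zero I a₀ hadm e) hc.2
      rw [hub]
      have h3 := sigmaMap_rotFam_exc I a₀ hadm (fun e => (θ e)⁻¹)
        (fun e => inv_ne_zero (hθ0 e)) e (ubar A (I.ch e).u (a₀ e) P)
      rw [inv_inv] at h3
      exact h3.symm
    · have hin' := (smul_mem_inner_iff g hg hr0 hu e P).mpr hin
      have h2 : (sref I a₀ hadm).r (g • P) =
          (⟨exc I a₀ hadm e, placeAt k 0⟩ : (oneLevel I a₀ hadm).PtR) :=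
        (sref_r_eq_exc_iff I a₀ hadm).mpr (Or.inr ⟨hin', rfl⟩)
      rw [h2]
      have h3 := sigmaMap_rotFam_exc I a₀ hadm (fun e => (θ e)⁻¹)
        (fun e => inv_ne_zero (hθ0 e)) e 0
      rw [mul_zero] at h3
      exact h3.symm

/-- **If the tame character of `g` is trivial on the gauges** (e.g. `g` fixes the gauges), the
reduction map of `S'ref` is invariant. -/
theorem sref_r_smul_of_theta_eq_one (g : SemilinearAut K F)
    (hg : IsInertial A (SemilinearAut.baseAut g))
    (hr0 : ∀ P : Place K F, S₀.r (g • P) = S₀.r P) (hu : ∀ e, g • (I.ch e).u = (I.ch e).u)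
    (hθ : ∀ e, theta A (SemilinearAut.baseAut g) (a₀ e) = 1) (P : Place K F) :
    (sref I a₀ hadm).r (g • P) = (sref I a₀ hadm).r P := by
  rw [sref_r_smul_rot I a₀ hadm g hg hr0 hu P]
  generalize hrP' : (sref I a₀ hadm).r P = y
  obtain ⟨w, Q⟩ := y
  rcases w with v | x
  · exact sigmaMap_rotFam_old I a₀ hadm _ _ v Q
  · obtain ⟨e, rfl⟩ : ∃ e, x = lvl I a₀ hadm e := ⟨x.1, eq_lvl I a₀ hadm x⟩
    have h1 := (sref_r_eq_exc_iff I a₀ hadm (P := P) (e := e) (Q := Q)).mp hrP'
    have key : ∀ c : k, sigmaMap (Equiv.refl _)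
        (rotFam I a₀ hadm (fun e => (theta A (SemilinearAut.baseAut g) (a₀ e))⁻¹)
          (fun e => inv_ne_zero (theta_ne_zero hg (gauge_ne_zero I a₀ hadm e))))
        (⟨exc I a₀ hadm e, placeAt k c⟩ : (oneLevel I a₀ hadm).PtR) =
          ⟨exc I a₀ hadm e, placeAt k c⟩ := by
      intro c
      have h3 := sigmaMap_rotFam_exc I a₀ hadm
        (fun e => (theta A (SemilinearAut.baseAut g) (a₀ e))⁻¹)
        (fun e => inv_ne_zero (theta_ne_zero hg (gauge_ne_zero I a₀ hadm e))) e c
      rw [inv_inv, hθ e, one_mul] at h3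
      exact h3
    rcases h1 with ⟨-, rfl⟩ | ⟨-, rfl⟩
    · exact key _
    · exact key 0

/-- the gauges are fixed ⇒ the tame character is trivial on them -/
theorem theta_eq_one_of_fixed {s : K ≃+* K} {a : K} (ha : a ≠ 0) (h : s a = a) :
    theta A s a = 1 := by
  unfold theta
  rw [h, div_self ha]
  exact resOf_one A

/-- **If `g` fixes the gauges, the reduction map of `S'ref` is invariant.** -/
theorem sref_r_smul_of_fixed (g : SemilinearAut K F)
    (hg : IsInertial A (SemilinearAut.baseAut g))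
    (hr0 : ∀ P : Place K F, S₀.r (g • P) = S₀.r P) (hu : ∀ e, g • (I.ch e).u = (I.ch e).u)
    (ha : ∀ e, SemilinearAut.baseAut g (a₀ e) = a₀ e) (P : Place K F) :
    (sref I a₀ hadm).r (g • P) = (sref I a₀ hadm).r P :=
  sref_r_smul_of_theta_eq_one I a₀ hadm g hg hr0 hu
    (fun e => theta_eq_one_of_fixed (gauge_ne_zero I a₀ hadm e) (ha e)) P

end Fermat.Agent.BR3.EquivSRefRot
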