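import Fermat.Agent.BR3.EquivSRefRotModular

/-!
# Program C (S36), node (I9-TUBES) (b2): the fibres of the reduction map of `S'ref` under an inertial
automorphism which does not fix the gauges

Corollaries of `EquivSRefRot.sref_r_smul_rot` in the `iff` shape consumed by
`EquivTrivial.smul_mem_coverTube` / `EquivFixed.smul_mem_coverTubeK_iff_of_fixed`:

* `smul_mem_fibre_rot_iff` : `g • P` reduces to `sigmaMap refl rot y'` iff `P` reduces to `y'`;
* `smul_mem_fibre_old_iff` : the fibres over the points of the OLD components are stable;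
* `smul_mem_fibre_exc_iff` : the fibre over `X = c` of the exceptional component over `e` goes to
  the fibre over `X = θ e * c`;
* modular instances for `S'ref_a`, `S'ref_b` and EVERY `σ` in the inertia group.
-/

set_option autoImplicit false
set_option synthInstance.maxHeartbeats 400000
set_option linter.unusedSectionVars false
set_option linter.unusedVariables false

noncomputable section

namespace Fermat.Agent.BR3.EquivSRefRotFibre

open AlgebraicCurve IsLocalRing Fermat.Agent.Red Fermat.Agent.BR.InertiaRed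
  Fermat.Agent.BR.AnnulusRed Fermat.Agent.BR.P1 Fermat.Agent.BR.POne Fermat.Agent.BR.SS
  Fermat.Agent.BR.Refine Fermat.Agent.BR.Circle Fermat.Agent.BR3.CircleN Fermat.Agent.BR3.SRef
  Fermat.Agent.BR3.InvFiniteTheta Fermat.Agent.BR3.PlaceIso Fermat.Agent.BR3.TorGlue
  Fermat.Agent.BR3.EquivSRefRot

section Abstract

variable {K : Type} {F : Type*} [Field K] [Field F] [Algebra K F]
  {A : ValuationSubring K} [IsAlgClosed (ResidueField A)]
  {ι₀ : Type} {Ft₀ : ι₀ → Type} [∀ v, Field (Ft₀ v)] [∀ v, Algebra (ResidueField A) (Ft₀ v)]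
  {ν₀ : Type}
  {S₀ : SemistableSetup (F := F) A (residue A) ι₀ Ft₀ ν₀}
  (I : CircleInputsN S₀) (a₀ : ν₀ → K) (hadm : ∀ e, I.adm e (a₀ e))
  (g : SemilinearAut K F) (hg : IsInertial A (SemilinearAut.baseAut g))
  (hr0 : ∀ P : Place K F, S₀.r (g • P) = S₀.r P) (hu : ∀ e, g • (I.ch e).u = (I.ch e).u)

local notation "k" => ResidueField A

include hg hr0 hu

/-- `g • P` reduces to the rotated point iff `P` reduces to the point. -/
theorem smul_mem_fibre_rot_iff (y : (oneLevel I a₀ hadm).PtR) (P : Place K F) :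
    (sref I a₀ hadm).r (g • P) =
      sigmaMap (Equiv.refl _)
        (rotFam I a₀ hadm (fun e => (theta A (SemilinearAut.baseAut g) (a₀ e))⁻¹)
          (fun e => inv_ne_zero (theta_ne_zero hg (gauge_ne_zero I a₀ hadm e)))) y ↔
      (sref I a₀ hadm).r P = y := by
  rw [sref_r_smul_rot I a₀ hadm g hg hr0 hu P]
  exact (sigmaMap_injective _ _).eq_iff

/-- **The fibres over the points of the old components are stable.** -/
theorem smul_mem_fibre_old_iff (v : ι₀) (Q : Place k (Ft₀ v)) (P : Place K F) :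
    (sref I a₀ hadm).r (g • P) = (⟨Sum.inl v, Q⟩ : (oneLevel I a₀ hadm).PtR) ↔
      (sref I a₀ hadm).r P = (⟨Sum.inl v, Q⟩ : (oneLevel I a₀ hadm).PtR) := by
  have h := smul_mem_fibre_rot_iff I a₀ hadm g hg hr0 hu
    (⟨Sum.inl v, Q⟩ : (oneLevel I a₀ hadm).PtR) P
  rwa [sigmaMap_rotFam_old] at h

/-- **The fibre over `X = c` of the exceptional component over `e` goes to the fibre over
`X = θ e * c`.** -/
theorem smul_mem_fibre_exc_iff (e : ν₀) (c : k) (P : Place K F) :
    (sref I a₀ hadm).r (g • P) =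
        (⟨exc I a₀ hadm e, placeAt k (theta A (SemilinearAut.baseAut g) (a₀ e) * c)⟩ :
          (oneLevel I a₀ hadm).PtR) ↔
      (sref I a₀ hadm).r P = (⟨exc I a₀ hadm e, placeAt k c⟩ : (oneLevel I a₀ hadm).PtR) := by
  have h := smul_mem_fibre_rot_iff I a₀ hadm g hg hr0 hu
    (⟨exc I a₀ hadm e, placeAt k c⟩ : (oneLevel I a₀ hadm).PtR) P
  rwa [sigmaMap_rotFam_exc, inv_inv] at h

end Abstract

section Modular

open ModularCurve Fermat.Agent.Val Fermat.Agent.X0 Fermat.Agent.BR.S0
  Fermat.Agent.BR.S0.PointDict Fermat.Agent.BR.S0.RedModular Fermat.Agent.BR.Final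
  Fermat.Agent.BR.ValTwo Fermat.Agent.BR2.SetupOfData Fermat.Agent.BR3.SRef.Modular

variable {M q : ℕ} [NeZero M] [hq : Fact q.Prime]
variable {B : ValuationSubring (AlgebraicClosure ℚ)} {hB : B.LiesOverPrime q} {hqM : ¬ q ∣ M}
variable [IsAlgClosed (ResidueField B)]

local notation "kB" => IsLocalRing.ResidueField B
local notation "FtM" => modularFunctionFieldFullC (IsLocalRing.ResidueField B) M
local notation "Kb" => AlgebraicClosure ℚ

/-- (shortcut instance) -/
local instance (priority := 100000) instAlgebraFtMShortcutFibre :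
    Algebra (IsLocalRing.ResidueField B)
      (modularFunctionFieldFullC (IsLocalRing.ResidueField B) M) :=
  inferInstance

variable (Dt : ModularData M q B hB hqM)
variable (a₀ : Crossing (chartDataModular B hB hqM) → Kb) (hadm : ∀ e, (inputs Dt).adm e (a₀ e))

/-- The fibres of `S'ref` over the points of `'can'` and `'et'` are stable under EVERY inertia
element. -/
theorem smul_mem_fibre_old_srefM_iff {σ : Kb ≃ₐ[ℚ] Kb} (hσ : σ ∈ B.inertiaSubgroupIn ℚ)
    (v : Fin 2) (Q : Place kB FtM) (P : Place Kb (Fb (M * q))) :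
    (srefM Dt a₀ hadm).r (gal (M * q) σ • P) =
        (⟨Sum.inl v, Q⟩ : (oneLevel (inputs Dt) a₀ hadm).PtR) ↔
      (srefM Dt a₀ hadm).r P = (⟨Sum.inl v, Q⟩ : (oneLevel (inputs Dt) a₀ hadm).PtR) :=
  smul_mem_fibre_old_iff (inputs Dt) a₀ hadm (gal (M * q) σ)
    (EquivHoriz.isInertial_gal (M * q) B hσ) (fun P => setup_r_smul Dt hσ P)
    (fun e => EquivSRefModular.annulusCoord_smul Dt hσ e) v Q P

/-- The fibre over `X = c` of the exceptional component over `e` goes to the fibre over
`X = θ e * c`, `θ e` the residue of `σ (a₀ e) / a₀ e`. -/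
theorem smul_mem_fibre_exc_srefM_iff {σ : Kb ≃ₐ[ℚ] Kb} (hσ : σ ∈ B.inertiaSubgroupIn ℚ)
    (e : Crossing (chartDataModular B hB hqM)) (c : kB) (P : Place Kb (Fb (M * q))) :
    (srefM Dt a₀ hadm).r (gal (M * q) σ • P) =
        (⟨exc (inputs Dt) a₀ hadm e,
          placeAt kB (theta B (SemilinearAut.baseAut (gal (M * q) σ)) (a₀ e) * c)⟩ :
          (oneLevel (inputs Dt) a₀ hadm).PtR) ↔
      (srefM Dt a₀ hadm).r P =
        (⟨exc (inputs Dt) a₀ hadm e, placeAt kB c⟩ : (oneLevel (inputs Dt) a₀ hadm).PtR) :=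
  smul_mem_fibre_exc_iff (inputs Dt) a₀ hadm (gal (M * q) σ)
    (EquivHoriz.isInertial_gal (M * q) B hσ) (fun P => setup_r_smul Dt hσ P)
    (fun e => EquivSRefModular.annulusCoord_smul Dt hσ e) e c P

/-- The tubes of the nodes of `S'ref` are stable under EVERY inertia element. -/
theorem smul_mem_outer_srefM_iff {σ : Kb ≃ₐ[ℚ] Kb} (hσ : σ ∈ B.inertiaSubgroupIn ℚ)
    (e : Crossing (chartDataModular B hB hqM)) (P : Place Kb (Fb (M * q))) :
    gal (M * q) σ • P ∈ Fermat.Agent.BR.Refine.tube (srefM Dt a₀ hadm)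
        (outer (inputs Dt) a₀ hadm e) ↔
      P ∈ Fermat.Agent.BR.Refine.tube (srefM Dt a₀ hadm) (outer (inputs Dt) a₀ hadm e) :=
  smul_mem_outer_iff (gal (M * q) σ) (EquivHoriz.isInertial_gal (M * q) B hσ)
    (fun P => setup_r_smul Dt hσ P) (fun e => EquivSRefModular.annulusCoord_smul Dt hσ e) e P

theorem smul_mem_inner_srefM_iff {σ : Kb ≃ₐ[ℚ] Kb} (hσ : σ ∈ B.inertiaSubgroupIn ℚ)
    (e : Crossing (chartDataModular B hB hqM)) (P : Place Kb (Fb (M * q))) :
    gal (M * q) σ • P ∈ Fermat.Agent.BR.Refine.tube (srefM Dt a₀ hadm)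
        (inner (inputs Dt) a₀ hadm e) ↔
      P ∈ Fermat.Agent.BR.Refine.tube (srefM Dt a₀ hadm) (inner (inputs Dt) a₀ hadm e) :=
  smul_mem_inner_iff (gal (M * q) σ) (EquivHoriz.isInertial_gal (M * q) B hσ)
    (fun P => setup_r_smul Dt hσ P) (fun e => EquivSRefModular.annulusCoord_smul Dt hσ e) e P

end Modular

end Fermat.Agent.BR3.EquivSRefRotFibre
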