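import Fermat.Agent.BR3.EquivSRefRot
import Fermat.Agent.BR3.EquivSRefModular

/-!
# Program C (S36), node (I9-σ0): EVERY inertia element rotates the reduction maps of `S'ref_a`,
`S'ref_b`

`Dt : Final.ModularData M q B hB hqM`, `S' = SetupOfData.setup Dt`, `σ` ANY element of the inertia
group of `B` (no hypothesis on the gauges `a₀ e`: for the tame generator `σ0` of
`GeoSigma.exists_tame_generator` the gauge `ϖ ^ (q - 1)` is multiplied by a root of unity of exact
order `q + 1`).

* `srefM_r_smul_rot`, `srefA_r_smul_rot`, `srefB_r_smul_rot` : the reduction map of the refinement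
  intertwines `gal (M q) σ` with `sigmaMap (Equiv.refl _) (rotFam θ⁻¹)`,
  `θ e = theta B (baseAut (gal (M q) σ)) (a₀ e)` = the residue of `σ (a₀ e) / a₀ e`
  (rotation `X = c ↦ X = θ e * c` of the exceptional component over `e`, identity elsewhere).
-/

set_option autoImplicit false
set_option synthInstance.maxHeartbeats 400000
set_option linter.unusedSectionVars false

noncomputable section

namespace Fermat.Agent.BR3.EquivSRefRotModular

open AlgebraicCurve ModularCurve IsLocalRing
open Fermat.Agent.Red Fermat.Agent.Val Fermat.Agent.X0 Fermat.Agent.BR.SS Fermat.Agent.BR.Refine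
open Fermat.Agent.BR.Circle Fermat.Agent.BR.S0
open Fermat.Agent.BR.S0.PointDict Fermat.Agent.BR.S0.RedModular Fermat.Agent.BR.Final
open Fermat.Agent.BR.ValTwo
open Fermat.Agent.BR2.SetupOfData Fermat.Agent.BR3.CircleN Fermat.Agent.BR3.SRef
open Fermat.Agent.BR3.SRef.Modular Fermat.Agent.BR3.EquivSRefRot Fermat.Agent.BR3.TorGlue
open Fermat.Agent.BR3.InvFiniteTheta

variable {M q : ℕ} [NeZero M] [hq : Fact q.Prime]
variable {B : ValuationSubring (AlgebraicClosure ℚ)} {hB : B.LiesOverPrime q} {hqM : ¬ q ∣ M}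
variable [IsAlgClosed (ResidueField B)]

local notation "kB" => IsLocalRing.ResidueField B
local notation "FtM" => modularFunctionFieldFullC (IsLocalRing.ResidueField B) M
local notation "Kb" => AlgebraicClosure ℚ

/-- (shortcut instance) -/
local instance (priority := 100000) instAlgebraFtMShortcutRot :
    Algebra (IsLocalRing.ResidueField B)
      (modularFunctionFieldFullC (IsLocalRing.ResidueField B) M) :=
  inferInstance

variable (Dt : ModularData M q B hB hqM)
variable (a₀ : Crossing (chartDataModular B hB hqM) → Kb) (hadm : ∀ e, (inputs Dt).adm e (a₀ e))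

/-- **Every inertia element rotates the reduction map of the one-level refinement of `S'`.** -/
theorem srefM_r_smul_rot {σ : Kb ≃ₐ[ℚ] Kb} (hσ : σ ∈ B.inertiaSubgroupIn ℚ)
    (P : Place Kb (Fb (M * q))) :
    (srefM Dt a₀ hadm).r (gal (M * q) σ • P) =
      sigmaMap (Equiv.refl _)
        (rotFam (inputs Dt) a₀ hadm
          (fun e => (theta B (SemilinearAut.baseAut (gal (M * q) σ)) (a₀ e))⁻¹)
          (fun e => inv_ne_zero (theta_ne_zero (EquivHoriz.isInertial_gal (M * q) B hσ)
            (EquivSRefRot.gauge_ne_zero (inputs Dt) a₀ hadm e))))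
        ((srefM Dt a₀ hadm).r P) :=
  sref_r_smul_rot (inputs Dt) a₀ hadm (gal (M * q) σ) (EquivHoriz.isInertial_gal (M * q) B hσ)
    (fun P => setup_r_smul Dt hσ P)
    (fun e => EquivSRefModular.annulusCoord_smul Dt hσ e) P

/-- `S'ref_a`. -/
theorem srefA_r_smul_rot (h : IsGaugeA Dt a₀) {σ : Kb ≃ₐ[ℚ] Kb}
    (hσ : σ ∈ B.inertiaSubgroupIn ℚ) (P : Place Kb (Fb (M * q))) :
    (srefA Dt a₀ h).r (gal (M * q) σ • P) =
      sigmaMap (Equiv.refl _)
        (rotFam (inputs Dt) a₀ h.adm
          (fun e => (theta B (SemilinearAut.baseAut (gal (M * q) σ)) (a₀ e))⁻¹)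
          (fun e => inv_ne_zero (theta_ne_zero (EquivHoriz.isInertial_gal (M * q) B hσ)
            (EquivSRefRot.gauge_ne_zero (inputs Dt) a₀ h.adm e))))
        ((srefA Dt a₀ h).r P) :=
  srefM_r_smul_rot Dt a₀ h.adm hσ P

/-- `S'ref_b`. -/
theorem srefB_r_smul_rot (h : IsGaugeB Dt a₀) {σ : Kb ≃ₐ[ℚ] Kb}
    (hσ : σ ∈ B.inertiaSubgroupIn ℚ) (P : Place Kb (Fb (M * q))) :
    (srefB Dt a₀ h).r (gal (M * q) σ • P) =
      sigmaMap (Equiv.refl _)
        (rotFam (inputs Dt) a₀ h.adm
          (fun e => (theta B (SemilinearAut.baseAut (gal (M * q) σ)) (a₀ e))⁻¹)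
          (fun e => inv_ne_zero (theta_ne_zero (EquivHoriz.isInertial_gal (M * q) B hσ)
            (EquivSRefRot.gauge_ne_zero (inputs Dt) a₀ h.adm e))))
        ((srefB Dt a₀ h).r P) :=
  srefM_r_smul_rot Dt a₀ h.adm hσ P

end Fermat.Agent.BR3.EquivSRefRotModular
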