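import Fermat.Agent.BR3.EquivUnique
import Fermat.Agent.BR3.InvFiniteUnit
import Fermat.Agent.BR3.MultiInput
import Fermat.Agent.BR3.CoverSmooth.Basic
import Fermat.Agent.BR.AnnulusRed

/-!
# Program C (S36), node I9 (EQUIV), abstract parts (b) and (d)

* (b) **sheet ⇒ equivariance.**  `F'' / F'` a finite extension of function fields over `K`,
  `g''`, `g'` semilinear automorphisms of `F'' / K`, `F' / K` with `g'' ∘ incl = incl ∘ g'`:
  `restrict_smul` (`(g'' • P'').restrict F' = g' • P''.restrict F'`),
  `smul_mem_coverTube` (the tube `coverTube A T' U c₀` of a point of the cover is mapped into the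
  tube `coverTube A T'₂ (g'' • U) c₁` as soon as `g'` maps `T'` into `T'₂`, the base automorphism
  preserves the valuation of `A` and `σ c₀ ≡ c₁`), `smul_mem_coverTube_iff_of_fixed`;
  `r_smul_of_tube` : the reduction map of a `MultiInput` is invariant under a `g` which
  maps every tube into itself.
* (d) **TrivialAction.**  `trivialAction_of_generators` : `InvFiniteUnit.TrivialAction S u g` for a
  `g` with inertial base automorphism which preserves the rings of the components, fixes for
  every component a set of functions whose residues generate the residue field, preserves the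
  reduction map and fixes the annulus coordinates; `trivialAction_multiInput` : the same for the
  setup of a `MultiInput`, with the reduction map handled by the tubes.
-/

set_option autoImplicit false
set_option linter.unusedSectionVars false

namespace Fermat.Agent.BR3.EquivTrivial

open AlgebraicCurve IsLocalRing Fermat.Agent.Red Fermat.Agent.BR.SS Fermat.Agent.BR2
  Fermat.Agent.BR.InertiaRed Fermat.Agent.BR.AnnulusRed
  Fermat.Agent.BR3.FiltPerm Fermat.Agent.BR3.EquivUnique Fermat.Agent.BR3.InvFiniteUnit
  Fermat.Agent.BR3.InvFiniteTheta Fermat.Agent.BR3.CoverSmooth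

/-! ### (b) sheets of a cover -/

section Cover

variable {K F' F'' : Type*} [Field K] [Field F'] [Field F''] [Algebra K F'] [Algebra K F'']
  [Algebra F' F''] [IsScalarTower K F' F''] [Algebra.IsIntegral F' F'']

/-- Compatible semilinear automorphisms have the same base automorphism. -/
theorem baseAut_eq_of_comm (g'' : SemilinearAut K F'') (g' : SemilinearAut K F')
    (hcomm : ∀ y : F', g'' • algebraMap F' F'' y = algebraMap F' F'' (g' • y)) (a : K) :
    SemilinearAut.baseAut g'' a = SemilinearAut.baseAut g' a := by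
  have h1 := hcomm (algebraMap K F' a)
  rw [← IsScalarTower.algebraMap_apply, SemilinearAut.smul_algebraMap,
    SemilinearAut.smul_algebraMap, ← IsScalarTower.algebraMap_apply] at h1
  exact (algebraMap K F'').injective h1

/-- The inverses of compatible semilinear automorphisms are compatible. -/
theorem comm_inv (g'' : SemilinearAut K F'') (g' : SemilinearAut K F')
    (hcomm : ∀ y : F', g'' • algebraMap F' F'' y = algebraMap F' F'' (g' • y)) (y : F') :
    g''⁻¹ • algebraMap F' F'' y = algebraMap F' F'' (g'⁻¹ • y) := by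
  have h := hcomm (g'⁻¹ • y)
  rw [smul_inv_smul] at h
  rw [← h, inv_smul_smul]

/-- The inverse of an inertial automorphism is inertial. -/
theorem isInertial_symm {A : ValuationSubring K} {s : K ≃+* K} (hs : IsInertial A s) :
    IsInertial A s.symm := by
  refine ⟨fun x => ?_, fun x hx => ?_⟩
  · have := hs.val (s.symm x)
    rw [s.apply_symm_apply] at this
    exact this.symm
  · have hx' : s.symm x ∈ A := by
      rw [← A.valuation_le_one_iff, ← hs.val, s.apply_symm_apply, A.valuation_le_one_iff]
      exact hx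
    have := hs.res _ hx'
    rw [s.apply_symm_apply] at this
    exact this.symm

/-- **The place under `g'' • P''`.** -/
theorem restrict_smul (g'' : SemilinearAut K F'') (g' : SemilinearAut K F')
    (hcomm : ∀ y : F', g'' • algebraMap F' F'' y = algebraMap F' F'' (g' • y))
    (P'' : Place K F'') : (g'' • P'').restrict F' = g' • (P''.restrict F') := by
  have hcomm' := comm_inv g'' g' hcomm
  ext1
  ext y
  rw [Place.mem_restrict_iff, SemilinearAut.smul_toValuationSubring,
    SemilinearAut.smul_toValuationSubring,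
    ValuationSubring.mem_pointwise_smul_iff_inv_smul_mem,
    ValuationSubring.mem_pointwise_smul_iff_inv_smul_mem, hcomm', Place.mem_restrict_iff]

/-- **Sheet ⇒ equivariance**: the tube of a point of the cover is mapped into the tube cut out by
the transported generator and a congruent constant. -/
theorem smul_mem_coverTube (A : ValuationSubring K) (g'' : SemilinearAut K F'')
    (g' : SemilinearAut K F')
    (hcomm : ∀ y : F', g'' • algebraMap F' F'' y = algebraMap F' F'' (g' • y))
    (hval : ∀ x : K, A.valuation (SemilinearAut.baseAut g'' x) = A.valuation x)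
    {T' T'₂ : Set (Place K F')} (hT : ∀ P' ∈ T', g' • P' ∈ T'₂) {U : F''} {c₀ c₁ : A}
    (hc : A.valuation (SemilinearAut.baseAut g'' (c₀ : K) - (c₁ : K)) < 1)
    {P'' : Place K F''} (hP : P'' ∈ coverTube A T' U c₀) :
    g'' • P'' ∈ coverTube A T'₂ (g'' • U) c₁ := by
  obtain ⟨hres, c, hcv, hcc⟩ := hP
  refine ⟨?_, SemilinearAut.baseAut g'' c, isValueAt_smul g'' hcv, ?_⟩
  · rw [restrict_smul g'' g' hcomm]
    exact hT _ hres
  · have e : SemilinearAut.baseAut g'' c - (c₁ : K) =
        SemilinearAut.baseAut g'' (c - (c₀ : K)) +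
          (SemilinearAut.baseAut g'' (c₀ : K) - (c₁ : K)) := by
      rw [map_sub]; ring
    rw [e]
    refine lt_of_le_of_lt (A.valuation.map_add _ _) (max_lt ?_ hc)
    rw [hval]
    exact hcc

/-- The tube of a point of the cover cut out by a generator fixed by `g''` is stable under `g''`
(inertial base automorphism, base tube stable). -/
theorem smul_mem_coverTube_iff_of_fixed (A : ValuationSubring K) (g'' : SemilinearAut K F'')
    (g' : SemilinearAut K F')
    (hcomm : ∀ y : F', g'' • algebraMap F' F'' y = algebraMap F' F'' (g' • y))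
    (hg : IsInertial A (SemilinearAut.baseAut g''))
    {T' : Set (Place K F')} (hT : ∀ P', g' • P' ∈ T' ↔ P' ∈ T') {U : F''} (hU : g'' • U = U)
    (c₀ : A) (P'' : Place K F'') :
    g'' • P'' ∈ coverTube A T' U c₀ ↔ P'' ∈ coverTube A T' U c₀ := by
  have key : ∀ (h'' : SemilinearAut K F'') (h' : SemilinearAut K F'),
      (∀ y : F', h'' • algebraMap F' F'' y = algebraMap F' F'' (h' • y)) →
      IsInertial A (SemilinearAut.baseAut h'') → (∀ P', h' • P' ∈ T' ↔ P' ∈ T') →
      h'' • U = U → ∀ P'' : Place K F'', P'' ∈ coverTube A T' U c₀ →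
        h'' • P'' ∈ coverTube A T' U c₀ := by
    intro h'' h' hc hi hT' hU' P'' hP
    have hlt : A.valuation (SemilinearAut.baseAut h'' (c₀ : K) - (c₀ : K)) < 1 := by
      have h1 := hi.res (c₀ : K) c₀.2
      have hmem : SemilinearAut.baseAut h'' (c₀ : K) ∈ A := by
        rw [← A.valuation_le_one_iff, hi.val, A.valuation_le_one_iff]
        exact c₀.2
      rw [resOf_of_mem A hmem, resOf_of_mem A c₀.2] at h1
      have h2 : residue A (⟨SemilinearAut.baseAut h'' (c₀ : K), hmem⟩ - ⟨(c₀ : K), c₀.2⟩) = 0 := by
        rw [map_sub, h1, sub_self]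
      have h3 := (residue_eq_zero_iff _).mp h2
      have h4 := (A.valuation_lt_one_iff _).mp h3
      exact h4
    have := smul_mem_coverTube A h'' h' hc hi.val (fun P' hP' => (hT' P').mpr hP') hlt hP
    rwa [hU'] at this
  refine ⟨fun h => ?_, key g'' g' hcomm hg hT hU P''⟩
  have hcomm' := comm_inv g'' g' hcomm
  have hg' : IsInertial A (SemilinearAut.baseAut g''⁻¹) := by
    rw [SemilinearAut.baseAut_inv]
    exact isInertial_symm hg
  have hT' : ∀ P', g'⁻¹ • P' ∈ T' ↔ P' ∈ T' := by
    intro P'
    rw [← hT (g'⁻¹ • P'), smul_inv_smul]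
  have hU' : g''⁻¹ • U = U := by
    conv_lhs => rw [← hU]
    exact inv_smul_smul g'' U
  have := key g''⁻¹ g'⁻¹ hcomm' hg' hT' hU' _ h
  rwa [inv_smul_smul] at this

end Cover

/-! ### the reduction map of a `MultiInput` -/

section Multi

variable {K F k : Type*} [Field K] [Field F] [Algebra K F] [Field k]
  {A : ValuationSubring K} {π : A →+* k} {ι : Type*} {Ft : ι → Type*}
  [∀ v, Field (Ft v)] [∀ v, Algebra k (Ft v)] {ν : Type*}

/-- The reduction map is invariant under a `g` which maps every tube into itself. -/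
theorem r_smul_of_tube (I : MultiInput (F := F) A π ι Ft ν)
    (g : SemilinearAut K F) (h : ∀ x, ∀ P ∈ I.tube x, g • P ∈ I.tube x) (P : Place K F) :
    I.toSetup.r (g • P) = I.toSetup.r P :=
  I.r_map_of_tube (fun P => g • P) id h P

end Multi

/-! ### (d) `TrivialAction` -/

section Trivial

variable {K : Type} {F : Type*} [Field K] [Field F] [Algebra K F]
  {A : ValuationSubring K} [IsAlgClosed (ResidueField A)]
  {ι₀ : Type} {Ft₀ : ι₀ → Type} [∀ v, Field (Ft₀ v)] [∀ v, Algebra (ResidueField A) (Ft₀ v)]
  {ν₀ : Type} (S₀ : SemistableSetup (F := F) A (residue A) ι₀ Ft₀ ν₀)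

/-- An inertial base automorphism acts trivially on the residues of `A`. -/
theorem baseResTrivial_of_isInertial (g : SemilinearAut K F)
    (hg : IsInertial A (SemilinearAut.baseAut g)) : BaseResTrivial (residue A) g := by
  intro c hc
  have hmem : SemilinearAut.baseAut g c ∈ A := by
    rw [← A.valuation_le_one_iff, hg.val, A.valuation_le_one_iff]
    exact hc
  refine ⟨hmem, ?_⟩
  have h1 := hg.res c hc
  rwa [resOf_of_mem A hmem, resOf_of_mem A hc] at h1

/-- **(d)** `TrivialAction` from fixed generators of the residue fields. -/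
theorem trivialAction_of_generators (u : ν₀ → F) (g : SemilinearAut K F)
    (hg : IsInertial A (SemilinearAut.baseAut g))
    (hmem : ∀ v y, g • y ∈ S₀.O v ↔ y ∈ S₀.O v)
    (G : ι₀ → Set F) (hG : ∀ v, ∀ y ∈ G v, y ∈ S₀.O v) (hfix : ∀ v, ∀ y ∈ G v, g • y = y)
    (hgen : ∀ v, IntermediateField.adjoin (ResidueField A)
      {t : Ft₀ v | ∃ y, ∃ hy : y ∈ G v, t = S₀.res v ⟨y, hG v y hy⟩} = ⊤)
    (hr : ∀ P, S₀.r (g • P) = S₀.r P) (hu : ∀ e, g • u e = u e) :
    TrivialAction S₀ u g := by
  have hπ : Function.Surjective (residue A) := residue_surjective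
  have hb := baseResTrivial_of_isInertial g hg
  have hcomp : ∀ v, MapsComp S₀ g v v AlgEquiv.refl := by
    intro v
    refine mapsComp_of_generators S₀ hπ g hb v v (hmem v) AlgEquiv.refl (G v) (hG v) (hgen v) ?_
    intro y hy
    have e : (⟨g • y, (hmem v y).mpr (hG v y hy)⟩ : S₀.O v) = ⟨y, hG v y hy⟩ :=
      Subtype.ext (hfix v y hy)
    rw [e]
    rfl
  exact ⟨equivariant_one_of_mapsComp S₀ g hcomp, hr, hu, hg.val, hg.res⟩

/-- **(d)** for the setup of a `MultiInput`: the reduction map is handled by the tubes. -/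
theorem trivialAction_multiInput
    (I : MultiInput (F := F) A (residue A) ι₀ Ft₀ ν₀) (u : ν₀ → F) (g : SemilinearAut K F)
    (hg : IsInertial A (SemilinearAut.baseAut g))
    (hmem : ∀ v y, g • y ∈ (I.C v).O ↔ y ∈ (I.C v).O)
    (G : ι₀ → Set F) (hG : ∀ v, ∀ y ∈ G v, y ∈ (I.C v).O) (hfix : ∀ v, ∀ y ∈ G v, g • y = y)
    (hgen : ∀ v, IntermediateField.adjoin (ResidueField A)
      {t : Ft₀ v | ∃ y, ∃ hy : y ∈ G v, t = (I.C v).res ⟨y, hG v y hy⟩} = ⊤)
    (htube : ∀ x, ∀ P ∈ I.tube x, g • P ∈ I.tube x) (hu : ∀ e, g • u e = u e) :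
    TrivialAction I.toSetup u g :=
  trivialAction_of_generators I.toSetup u g hg hmem G hG hfix hgen (r_smul_of_tube I g htube) hu

end Trivial

end Fermat.Agent.BR3.EquivTrivial
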