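import Mathlib
import Fermat.Agent.BR3.SDD.TubeFam
import Fermat.Agent.BR3.EquivActsSDD

/-!
# Program C (S36), node (I9-TUBES b2): the tube families under the tame generator

The ROTATED twin of `SDD/TubeFamStable.lean`: a map `g` of the places (the action of the tame
generator `σ0`) which maps the raw tube of the node `x` into the raw tube of the node `n x` and the
raw tube of the smooth point `y` into the raw tube of `τ y` maps the member `y` of the tube family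
into the member `τ y`.

* `map_mem_tubeFam_perm` : the generic statement;
* `map_mem_tubeS_perm` and `map_mem_THf_true_perm`, `map_mem_THf_false_perm`, `map_mem_TMf_perm`,
  `map_mem_TZf_perm` : for the graph of `S''`, `τ = sigmaMap (compPerm P) (aOf P aZero aInf aMid aZe)`
  and `n = nodeMap p`, from the raw clauses per kind of node and per kind of smooth point and the
  six identities of the special points;
* `hT_of_raw` : the four tube inputs `hTZero`, `hTInf`, `hTM`, `hTZ` of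
  `EquivActsCases.tameProp_of_kinds` for `X : SDD.CaseInput` whose tubes are the families of raw
  tubes (`rfl` for `caseInputOfRaw`).
-/

set_option autoImplicit false
set_option linter.unusedSectionVars false
set_option linter.unusedVariables false

namespace Fermat.Agent.BR3.EquivTubeFam

open AlgebraicCurve IsLocalRing Fermat.Agent.Red Fermat.Agent.BR.SS
  Fermat.Agent.BR3.PlaceIso Fermat.Agent.BR3.TorGlue Fermat.Agent.BR3.SDD
  Fermat.Agent.BR3.SDD.Partition Fermat.Agent.BR3.EquivActsSDD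

section Generic

variable {k : Type*} [Field k] {ι : Type*} {Ft : ι → Type*} [∀ v, Field (Ft v)]
  [∀ v, Algebra k (Ft v)] {ν : Type*} {σ : Type*}
  (src tgt : ν → ι) (s₁ : ∀ x, Place k (Ft (src x))) (s₂ : ∀ x, Place k (Ft (tgt x)))
  (nodeTube : ν → Set σ) (smTube : (Σ v, Place k (Ft v)) → Set σ)

/-- **The tube family under a map permuting the raw tubes.** -/
theorem map_mem_tubeFam_perm (g : σ → σ)
    (τ : (Σ v, Place k (Ft v)) → Σ v, Place k (Ft v)) (n : ν → ν)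
    (hinj : Function.Injective fun x => (⟨src x, s₁ x⟩ : Σ v, Place k (Ft v)))
    (hτ : Function.Injective τ) (hn : Function.Surjective n)
    (hs₁ : ∀ x, (⟨src (n x), s₁ (n x)⟩ : Σ v, Place k (Ft v)) = τ ⟨src x, s₁ x⟩)
    (hs₂ : ∀ x, (⟨tgt (n x), s₂ (n x)⟩ : Σ v, Place k (Ft v)) = τ ⟨tgt x, s₂ x⟩)
    (hnode : ∀ x, ∀ P ∈ nodeTube x, g P ∈ nodeTube (n x))
    (hsm : ∀ y, (∀ x, (⟨src x, s₁ x⟩ : Σ v, Place k (Ft v)) ≠ y) →
      (∀ x, (⟨tgt x, s₂ x⟩ : Σ v, Place k (Ft v)) ≠ y) → ∀ P ∈ smTube y, g P ∈ smTube (τ y))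
    (y : Σ v, Place k (Ft v)) (P : σ)
    (hP : P ∈ tubeFam src tgt s₁ s₂ nodeTube smTube y) :
    g P ∈ tubeFam src tgt s₁ s₂ nodeTube smTube (τ y) := by
  rcases (mem_tubeFam_iff nodeTube smTube hinj).mp hP with ⟨x, rfl, hx⟩ | ⟨h1, h2, hy⟩
  · rw [← hs₁ x, tubeFam_src nodeTube smTube hinj]
    exact hnode x P hx
  · have h1' : ∀ x, (⟨src x, s₁ x⟩ : Σ v, Place k (Ft v)) ≠ τ y := by
      intro x' hx'
      obtain ⟨x, rfl⟩ := hn x'
      rw [hs₁ x] at hx'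
      exact h1 x (hτ hx')
    have h2' : ∀ x, (⟨tgt x, s₂ x⟩ : Σ v, Place k (Ft v)) ≠ τ y := by
      intro x' hx'
      obtain ⟨x, rfl⟩ := hn x'
      rw [hs₂ x] at hx'
      exact h2 x (hτ hx')
    rw [tubeFam_of_not_branch nodeTube smTube h1' h2']
    exact hsm y h1 h2 P hy

end Generic

section Families

variable {K F'' k : Type*} [Field K] [Field F''] [Algebra K F''] [Field k]
  {Mid SSp KP : Type} {Ft : Comp Mid SSp → Type} [∀ v, Field (Ft v)] [∀ v, Algebra k (Ft v)]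
  (comp : SSp → KP → Mid)
  (pInf : SSp → Place k (Ft cInf)) (pMid : ∀ e s, Place k (Ft (mid (comp e s))))
  (zW : ∀ e, Place k (Ft (ze e))) (pZero : SSp → Place k (Ft cZero))
  (zT : ∀ e, Place k (Ft (ze e))) (zK : ∀ e, KP → Place k (Ft (ze e)))
  (nodeTube : Node SSp KP → Set (Place K F''))
  (smTube : (Σ v, Place k (Ft v)) → Set (Place K F''))
  (g : Place K F'' → Place K F'')
  (P : Equiv.Perm Mid) (p : SSp → Equiv.Perm KP)
  (aZero : Ft cZero ≃ₐ[k] Ft cZero) (aInf : Ft cInf ≃ₐ[k] Ft cInf)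
  (aMid : ∀ i, Ft (mid i) ≃ₐ[k] Ft (mid (P i))) (aZe : ∀ e, Ft (ze e) ≃ₐ[k] Ft (ze e))
  (hbr : Function.Injective
    (Sum.elim (fun x => (⟨src comp x, s₁Of comp pInf pMid zW x⟩ : Σ v, Place k (Ft v)))
      (fun x => ⟨tgt x, s₂Of pZero zT zK x⟩)))
  -- the special points
  (hzW : ∀ e, placeMap (aZe e) (zW e) = zW e)
  (hpInf : ∀ e, placeMap aInf (pInf e) = pInf e)
  (hpMid : ∀ e s, (⟨mid (comp e (p e s)), pMid e (p e s)⟩ : Σ v, Place k (Ft v)) =
    ⟨mid (P (comp e s)), placeMap (aMid (comp e s)) (pMid e s)⟩)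
  (hpZero : ∀ e, placeMap aZero (pZero e) = pZero e)
  (hzT : ∀ e, placeMap (aZe e) (zT e) = zT e)
  (hzK : ∀ e s, placeMap (aZe e) (zK e s) = zK e (p e s))
  -- the raw tubes of the nodes
  (hnT : ∀ e, ∀ Pl ∈ nodeTube (nT e), g Pl ∈ nodeTube (nT e))
  (hnK : ∀ e s, ∀ Pl ∈ nodeTube (nk e s), g Pl ∈ nodeTube (nk e (p e s)))
  (hnW : ∀ e, ∀ Pl ∈ nodeTube (nW e), g Pl ∈ nodeTube (nW e))
  -- the raw tubes of the smooth points
  (hsmInf : ∀ Q : Place k (Ft cInf), (∀ e, Q ≠ pInf e) →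
    ∀ Pl ∈ smTube ⟨cInf, Q⟩, g Pl ∈ smTube ⟨cInf, placeMap aInf Q⟩)
  (hsmZero : ∀ Q : Place k (Ft cZero), (∀ e, Q ≠ pZero e) →
    ∀ Pl ∈ smTube ⟨cZero, Q⟩, g Pl ∈ smTube ⟨cZero, placeMap aZero Q⟩)
  (hsmMid : ∀ (i : Mid) (Q : Place k (Ft (mid i))),
    (∀ e s, (⟨mid i, Q⟩ : Σ v, Place k (Ft v)) ≠ ⟨mid (comp e s), pMid e s⟩) →
    ∀ Pl ∈ smTube ⟨mid i, Q⟩, g Pl ∈ smTube ⟨mid (P i), placeMap (aMid i) Q⟩)
  (hsmZe : ∀ (e : SSp) (Q : Place k (Ft (ze e))), Q ≠ zW e → Q ≠ zT e → (∀ s, Q ≠ zK e s) →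
    ∀ Pl ∈ smTube ⟨ze e, Q⟩, g Pl ∈ smTube ⟨ze e, placeMap (aZe e) Q⟩)

include hzW hpInf hpMid in
/-- the source branches are permuted by `nodeMap p` -/
theorem srcBranch_nodeMap (x : Node SSp KP) :
    (⟨src comp (nodeMap p x), s₁Of comp pInf pMid zW (nodeMap p x)⟩ : Σ v, Place k (Ft v)) =
      sigmaMap (compPerm P) (aOf P aZero aInf aMid aZe)
        ⟨src comp x, s₁Of comp pInf pMid zW x⟩ := by
  obtain ⟨e, (_ | _) | s⟩ := x
  · change (⟨cInf, pInf e⟩ : Σ v, Place k (Ft v)) = ⟨cInf, placeMap aInf (pInf e)⟩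
    rw [hpInf e]
  · change (⟨ze e, zW e⟩ : Σ v, Place k (Ft v)) = ⟨ze e, placeMap (aZe e) (zW e)⟩
    rw [hzW e]
  · exact hpMid e s

include hpZero hzT hzK in
/-- the target branches are permuted by `nodeMap p` -/
theorem tgtBranch_nodeMap (x : Node SSp KP) :
    (⟨tgt (nodeMap p x), s₂Of pZero zT zK (nodeMap p x)⟩ : Σ v, Place k (Ft v)) =
      sigmaMap (compPerm P) (aOf P aZero aInf aMid aZe) ⟨tgt x, s₂Of pZero zT zK x⟩ := by
  obtain ⟨e, (_ | _) | s⟩ := x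
  · change (⟨ze e, zT e⟩ : Σ v, Place k (Ft v)) = ⟨ze e, placeMap (aZe e) (zT e)⟩
    rw [hzT e]
  · change (⟨cZero, pZero e⟩ : Σ v, Place k (Ft v)) = ⟨cZero, placeMap aZero (pZero e)⟩
    rw [hpZero e]
  · change (⟨ze e, zK e (p e s)⟩ : Σ v, Place k (Ft v)) = ⟨ze e, placeMap (aZe e) (zK e s)⟩
    rw [hzK e s]

include hbr hzW hpInf hpMid hpZero hzT hzK hnT hnK hnW hsmInf hsmZero hsmMid hsmZe in
/-- **The tube family of `S''` under the tame generator.** -/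
theorem map_mem_tubeS_perm (y : Σ v, Place k (Ft v)) (Pl : Place K F'')
    (hP : Pl ∈ tubeS comp pInf pMid zW pZero zT zK nodeTube smTube y) :
    g Pl ∈ tubeS comp pInf pMid zW pZero zT zK nodeTube smTube
      (sigmaMap (compPerm P) (aOf P aZero aInf aMid aZe) y) := by
  refine map_mem_tubeFam_perm (src comp) tgt (s₁Of comp pInf pMid zW) (s₂Of pZero zT zK)
    nodeTube smTube g (sigmaMap (compPerm P) (aOf P aZero aInf aMid aZe)) (nodeMap p)
    (srcBranch_injective comp pInf pMid zW pZero zT zK hbr)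
    (sigmaMap_injective _ _) (nodeMap_surjective p)
    (srcBranch_nodeMap comp pInf pMid zW P p aZero aInf aMid aZe hzW hpInf hpMid)
    (tgtBranch_nodeMap pZero zT zK P p aZero aInf aMid aZe hpZero hzT hzK) ?_ ?_ y Pl hP
  · rintro ⟨e, (_ | _) | s⟩ Pl' hPl'
    · exact hnT e Pl' hPl'
    · exact hnW e Pl' hPl'
    · exact hnK e s Pl' hPl'
  · rintro ⟨((_ | _) | i) | e, Q⟩ h1 h2 Pl' hPl'
    · refine hsmInf Q (fun e hQ => h1 (nT e) ?_) Pl' hPl'
      rw [hQ]; rfl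
    · refine hsmZero Q (fun e hQ => h2 (nW e) ?_) Pl' hPl'
      rw [hQ]; rfl
    · exact hsmMid i Q (fun e s hQ => h1 (nk e s) hQ.symm) Pl' hPl'
    · refine hsmZe e Q (fun hQ => h1 (nW e) ?_) (fun hQ => h2 (nT e) ?_)
        (fun s hQ => h2 (nk e s) ?_) Pl' hPl'
      · rw [hQ]; rfl
      · rw [hQ]; rfl
      · rw [hQ]; rfl

include hbr hzW hpInf hpMid hpZero hzT hzK hnT hnK hnW hsmInf hsmZero hsmMid hsmZe

/-- the tubes of `cZero` under the tame generator (`hTZero` of `tameProp_of_kinds`) -/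
theorem map_mem_THf_true_perm (Q : Place k (Ft cZero)) (Pl : Place K F'')
    (hP : Pl ∈ THf comp pInf pMid zW pZero zT zK nodeTube smTube true Q) :
    g Pl ∈ THf comp pInf pMid zW pZero zT zK nodeTube smTube true (placeMap aZero Q) :=
  map_mem_tubeS_perm comp pInf pMid zW pZero zT zK nodeTube smTube g P p aZero aInf aMid aZe hbr
    hzW hpInf hpMid hpZero hzT hzK hnT hnK hnW hsmInf hsmZero hsmMid hsmZe ⟨cZero, Q⟩ Pl hP

/-- the tubes of `cInf` under the tame generator (`hTInf` of `tameProp_of_kinds`) -/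
theorem map_mem_THf_false_perm (Q : Place k (Ft cInf)) (Pl : Place K F'')
    (hP : Pl ∈ THf comp pInf pMid zW pZero zT zK nodeTube smTube false Q) :
    g Pl ∈ THf comp pInf pMid zW pZero zT zK nodeTube smTube false (placeMap aInf Q) :=
  map_mem_tubeS_perm comp pInf pMid zW pZero zT zK nodeTube smTube g P p aZero aInf aMid aZe hbr
    hzW hpInf hpMid hpZero hzT hzK hnT hnK hnW hsmInf hsmZero hsmMid hsmZe ⟨cInf, Q⟩ Pl hP

/-- the tubes of the middle components under the tame generator (`hTM` of `tameProp_of_kinds`) -/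
theorem map_mem_TMf_perm (i : Mid) (Q : Place k (Ft (mid i))) (Pl : Place K F'')
    (hP : Pl ∈ TMf comp pInf pMid zW pZero zT zK nodeTube smTube i Q) :
    g Pl ∈ TMf comp pInf pMid zW pZero zT zK nodeTube smTube (P i) (placeMap (aMid i) Q) :=
  map_mem_tubeS_perm comp pInf pMid zW pZero zT zK nodeTube smTube g P p aZero aInf aMid aZe hbr
    hzW hpInf hpMid hpZero hzT hzK hnT hnK hnW hsmInf hsmZero hsmMid hsmZe ⟨mid i, Q⟩ Pl hP

/-- the tubes of the vertical components under the tame generator (`hTZ` of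
`tameProp_of_kinds`) -/
theorem map_mem_TZf_perm (e : SSp) (Q : Place k (Ft (ze e))) (Pl : Place K F'')
    (hP : Pl ∈ TZf comp pInf pMid zW pZero zT zK nodeTube smTube e Q) :
    g Pl ∈ TZf comp pInf pMid zW pZero zT zK nodeTube smTube e (placeMap (aZe e) Q) :=
  map_mem_tubeS_perm comp pInf pMid zW pZero zT zK nodeTube smTube g P p aZero aInf aMid aZe hbr
    hzW hpInf hpMid hpZero hzT hzK hnT hnK hnW hsmInf hsmZero hsmMid hsmZe ⟨ze e, Q⟩ Pl hP

end Families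

section CaseInput

open Fermat.Agent.Val

variable {K : Type} {F : Type*} [Field K] [Field F] [Algebra K F]
  {A : ValuationSubring K} {Mid SSp KP : Type} {Ft : Comp Mid SSp → Type}
  [∀ v, Field (Ft v)] [∀ v, Algebra (ResidueField A) (Ft v)]
  (X : CaseInput (F := F) A Mid SSp KP Ft)
  (nodeTube : Node SSp KP → Set (Place K F))
  (smTube : (Σ v, Place (ResidueField A) (Ft v)) → Set (Place K F))

/-- **The four tube inputs `hTZero`, `hTInf`, `hTM`, `hTZ` of `EquivActsCases.tameProp_of_kinds`**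
for inputs `X` whose tubes are the families of the raw tubes `nodeTube`, `smTube` (the three
equalities are `rfl` for `X := caseInputOfRaw …`), from the raw clauses per kind and the six
identities of the special points. -/
theorem hT_of_raw
    (hTH : X.TH = THf X.comp X.pInf X.pMid X.zW X.pZero X.zT X.zK nodeTube smTube)
    (hTM : X.TM = TMf X.comp X.pInf X.pMid X.zW X.pZero X.zT X.zK nodeTube smTube)
    (hTZ : X.TZ = TZf X.comp X.pInf X.pMid X.zW X.pZero X.zT X.zK nodeTube smTube)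
    (g : Place K F → Place K F) (P : Equiv.Perm Mid) (p : SSp → Equiv.Perm KP)
    (aZero : Ft cZero ≃ₐ[ResidueField A] Ft cZero) (aInf : Ft cInf ≃ₐ[ResidueField A] Ft cInf)
    (aMid : ∀ i, Ft (mid i) ≃ₐ[ResidueField A] Ft (mid (P i)))
    (aZe : ∀ e, Ft (ze e) ≃ₐ[ResidueField A] Ft (ze e))
    (hzW : ∀ e, placeMap (aZe e) (X.zW e) = X.zW e)
    (hpInf : ∀ e, placeMap aInf (X.pInf e) = X.pInf e)
    (hpMid : ∀ e s, (⟨mid (X.comp e (p e s)), X.pMid e (p e s)⟩ :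
      Σ v, Place (ResidueField A) (Ft v)) =
        ⟨mid (P (X.comp e s)), placeMap (aMid (X.comp e s)) (X.pMid e s)⟩)
    (hpZero : ∀ e, placeMap aZero (X.pZero e) = X.pZero e)
    (hzT : ∀ e, placeMap (aZe e) (X.zT e) = X.zT e)
    (hzK : ∀ e s, placeMap (aZe e) (X.zK e s) = X.zK e (p e s))
    (hnT : ∀ e, ∀ Pl ∈ nodeTube (nT e), g Pl ∈ nodeTube (nT e))
    (hnK : ∀ e s, ∀ Pl ∈ nodeTube (nk e s), g Pl ∈ nodeTube (nk e (p e s)))
    (hnW : ∀ e, ∀ Pl ∈ nodeTube (nW e), g Pl ∈ nodeTube (nW e))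
    (hsmInf : ∀ Q : Place (ResidueField A) (Ft cInf), (∀ e, Q ≠ X.pInf e) →
      ∀ Pl ∈ smTube ⟨cInf, Q⟩, g Pl ∈ smTube ⟨cInf, placeMap aInf Q⟩)
    (hsmZero : ∀ Q : Place (ResidueField A) (Ft cZero), (∀ e, Q ≠ X.pZero e) →
      ∀ Pl ∈ smTube ⟨cZero, Q⟩, g Pl ∈ smTube ⟨cZero, placeMap aZero Q⟩)
    (hsmMid : ∀ (i : Mid) (Q : Place (ResidueField A) (Ft (mid i))),
      (∀ e s, (⟨mid i, Q⟩ : Σ v, Place (ResidueField A) (Ft v)) ≠
        ⟨mid (X.comp e s), X.pMid e s⟩) →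
      ∀ Pl ∈ smTube ⟨mid i, Q⟩, g Pl ∈ smTube ⟨mid (P i), placeMap (aMid i) Q⟩)
    (hsmZe : ∀ (e : SSp) (Q : Place (ResidueField A) (Ft (ze e))), Q ≠ X.zW e → Q ≠ X.zT e →
      (∀ s, Q ≠ X.zK e s) →
      ∀ Pl ∈ smTube ⟨ze e, Q⟩, g Pl ∈ smTube ⟨ze e, placeMap (aZe e) Q⟩) :
    (∀ Q, ∀ Pl ∈ X.TH true Q, g Pl ∈ X.TH true (placeMap aZero Q)) ∧
      (∀ Q, ∀ Pl ∈ X.TH false Q, g Pl ∈ X.TH false (placeMap aInf Q)) ∧
      (∀ i Q, ∀ Pl ∈ X.TM i Q, g Pl ∈ X.TM (P i) (placeMap (aMid i) Q)) ∧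
      ∀ e Q, ∀ Pl ∈ X.TZ e Q, g Pl ∈ X.TZ e (placeMap (aZe e) Q) := by
  have hbr := branch_injective_of X.comp X.pInf X.pMid X.zW X.pZero X.zT X.zK X.pInf_injective
    X.pZero_injective X.pMid_injective X.zK_injective X.zT_ne_zK X.zW_ne_zT X.zW_ne_zK
  rw [hTH, hTM, hTZ]
  exact ⟨fun Q Pl hPl => map_mem_THf_true_perm X.comp X.pInf X.pMid X.zW X.pZero X.zT X.zK
      nodeTube smTube g P p aZero aInf aMid aZe hbr hzW hpInf hpMid hpZero hzT hzK hnT hnK hnW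
      hsmInf hsmZero hsmMid hsmZe Q Pl hPl,
    fun Q Pl hPl => map_mem_THf_false_perm X.comp X.pInf X.pMid X.zW X.pZero X.zT X.zK
      nodeTube smTube g P p aZero aInf aMid aZe hbr hzW hpInf hpMid hpZero hzT hzK hnT hnK hnW
      hsmInf hsmZero hsmMid hsmZe Q Pl hPl,
    fun i Q Pl hPl => map_mem_TMf_perm X.comp X.pInf X.pMid X.zW X.pZero X.zT X.zK
      nodeTube smTube g P p aZero aInf aMid aZe hbr hzW hpInf hpMid hpZero hzT hzK hnT hnK hnW
      hsmInf hsmZero hsmMid hsmZe i Q Pl hPl,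
    fun e Q Pl hPl => map_mem_TZf_perm X.comp X.pInf X.pMid X.zW X.pZero X.zT X.zK
      nodeTube smTube g P p aZero aInf aMid aZe hbr hzW hpInf hpMid hpZero hzT hzK hnT hnK hnW
      hsmInf hsmZero hsmMid hsmZe e Q Pl hPl⟩

/-- The stable case (`P = 1`, `p = 1`, all `a = refl`): the three tube clauses of `hparts` of
`SDD.Modular.modelAt_of_casesAll` for inputs whose tubes are the families of the raw tubes, from the
raw clauses AWAY from the special points. -/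
theorem hT_stable_of_raw
    (hTH : X.TH = THf X.comp X.pInf X.pMid X.zW X.pZero X.zT X.zK nodeTube smTube)
    (hTM : X.TM = TMf X.comp X.pInf X.pMid X.zW X.pZero X.zT X.zK nodeTube smTube)
    (hTZ : X.TZ = TZf X.comp X.pInf X.pMid X.zW X.pZero X.zT X.zK nodeTube smTube)
    (g : Place K F → Place K F)
    (hnode : ∀ x, ∀ Pl ∈ nodeTube x, g Pl ∈ nodeTube x)
    (hsmInf : ∀ Q : Place (ResidueField A) (Ft cInf), (∀ e, Q ≠ X.pInf e) →
      ∀ Pl ∈ smTube ⟨cInf, Q⟩, g Pl ∈ smTube ⟨cInf, Q⟩)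
    (hsmZero : ∀ Q : Place (ResidueField A) (Ft cZero), (∀ e, Q ≠ X.pZero e) →
      ∀ Pl ∈ smTube ⟨cZero, Q⟩, g Pl ∈ smTube ⟨cZero, Q⟩)
    (hsmMid : ∀ (i : Mid) (Q : Place (ResidueField A) (Ft (mid i))),
      (∀ e s, (⟨mid i, Q⟩ : Σ v, Place (ResidueField A) (Ft v)) ≠
        ⟨mid (X.comp e s), X.pMid e s⟩) →
      ∀ Pl ∈ smTube ⟨mid i, Q⟩, g Pl ∈ smTube ⟨mid i, Q⟩)
    (hsmZe : ∀ (e : SSp) (Q : Place (ResidueField A) (Ft (ze e))), Q ≠ X.zW e → Q ≠ X.zT e →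
      (∀ s, Q ≠ X.zK e s) → ∀ Pl ∈ smTube ⟨ze e, Q⟩, g Pl ∈ smTube ⟨ze e, Q⟩) :
    (∀ b Q, ∀ Pl ∈ X.TH b Q, g Pl ∈ X.TH b Q) ∧
      (∀ i Q, ∀ Pl ∈ X.TM i Q, g Pl ∈ X.TM i Q) ∧
      ∀ e Q, ∀ Pl ∈ X.TZ e Q, g Pl ∈ X.TZ e Q := by
  have hbr := branch_injective_of X.comp X.pInf X.pMid X.zW X.pZero X.zT X.zK X.pInf_injective
    X.pZero_injective X.pMid_injective X.zK_injective X.zT_ne_zK X.zW_ne_zT X.zW_ne_zK
  have hinj := srcBranch_injective X.comp X.pInf X.pMid X.zW X.pZero X.zT X.zK hbr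
  have key : ∀ y, ∀ Pl ∈ tubeS X.comp X.pInf X.pMid X.zW X.pZero X.zT X.zK nodeTube smTube y,
      g Pl ∈ tubeS X.comp X.pInf X.pMid X.zW X.pZero X.zT X.zK nodeTube smTube y := by
    intro y Pl hPl
    refine map_mem_tubeFam_perm (src X.comp) tgt (s₁Of X.comp X.pInf X.pMid X.zW)
      (s₂Of X.pZero X.zT X.zK) nodeTube smTube g id id hinj Function.injective_id
      Function.surjective_id (fun _ => rfl) (fun _ => rfl) hnode ?_ y Pl hPl
    rintro ⟨((_ | _) | i) | e, Q⟩ h1 h2 Pl' hPl'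
    · refine hsmInf Q (fun e hQ => h1 (nT e) ?_) Pl' hPl'
      rw [hQ]; rfl
    · refine hsmZero Q (fun e hQ => h2 (nW e) ?_) Pl' hPl'
      rw [hQ]; rfl
    · exact hsmMid i Q (fun e s hQ => h1 (nk e s) hQ.symm) Pl' hPl'
    · refine hsmZe e Q (fun hQ => h1 (nW e) ?_) (fun hQ => h2 (nT e) ?_)
        (fun s hQ => h2 (nk e s) ?_) Pl' hPl'
      · rw [hQ]; rfl
      · rw [hQ]; rfl
      · rw [hQ]; rfl
  rw [hTH, hTM, hTZ]
  exact ⟨fun b Q Pl hPl => key ⟨Sum.inl (Sum.inl b), Q⟩ Pl hPl,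
    fun i Q Pl hPl => key ⟨mid i, Q⟩ Pl hPl, fun e Q Pl hPl => key ⟨ze e, Q⟩ Pl hPl⟩

end CaseInput

end Fermat.Agent.BR3.EquivTubeFam
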