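/-
Program C (S36), node A8 COVER-NODE-KUMMER, layer L3 (helper8): THE KUMMER END — the maximal ideal
of the explicit local ring `D = R'[X, Y, θ]_𝔫` is `(ϖ, X, Y)`.

`R'` a local ring with `𝔪_{R'} = (ϖ, x', y')` (the local ring of the sub-annulus node downstairs),
`F ⊇ R'` a field (the function field upstairs), `X Y θ : F` with (in `F`)

  (K1) `y' = θ * X ^ d`,   (K2) `x' ∈ (Y)`  (e.g. `x' * y' = κ * (X * Y) ^ d`),
  (K3) `P(θ) ∈ (ϖ, X, Y)` for some `P : R'[T]` with `P(c) ∈ 𝔪_{R'}`, `P'(c)` a unit (`c : R'`),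

and `𝒪` a valuation ring of `F` containing `R'[X, Y, θ]` in which `ϖ, x', y', X, Y, θ - c` are
non-units ("the closed point").  Then `D := kummerRing 𝒪 = R'[X, Y, θ]` localised at the trace of
`𝔪_𝒪` is a local ring (noetherian if `R'` is), dominated by `𝒪`, contained in every valuation ring
`V ⊇ 𝒪`, with

  **`nonunit_mem_kummerRing` : every non-unit of `D` lies in `(ϖ, X, Y)`.**

Together with `BR3/NodeCrit` (L1) and `BR3/NodeLevelExplicit` + `BR3/NodeLevelFrac` (L2) this makes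
`D` a level of the node of the Kummer sheet.

* Part A (abstract, Mathlib only): `sub_mem_of_taylor`, `maximalIdeal_eq_span_of_kummer`
  (referee amendments (K0) + (K0') as hypotheses).
* Part B (construction): `kummerAdj` (`= R'[X, Y, θ] ⊆ F`), `exists_sub_mem_span` (every element is
  a constant modulo `(X, Y, θ - c)`), `kummerIdeal`, `kummerIdeal_isMaximal`,
  `eq_kummerIdeal_of_le`, `kummerRing`, `isLocalRing_kummerRing`, `isNoetherianRing_kummerRing`,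
  `kummerRing_le` (`D ⊆ V` for every `V ⊇ 𝒪`), `not_isUnit_iff_mem_nonunits` (`𝒪` dominates `D`),
  `trace_eq_kummerIdeal`, `kummerRing_eq_of_generators` (`D` does not depend on `𝒪`: use it for
  the composites `BR3/CompVal.compVal` on the TWO components through the node),
  `theta_notMem_nonunits`, `inv_theta_mem_kummerRing`, `nonunit_mem_span_six` (= (K0)),
  `nonunit_mem_kummerRing` (general form), `eq_mul_of_kummer`,
  `nonunit_mem_kummerRing_of_relations` (relation form: (K1), (K2) as `x' * y' = κ * (X * Y) ^ d`,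
  `c` a unit; `θ'` is not needed, referee amendment 3).
-/
import Mathlib
import Fermat.Agent.BR.Inst.LocSub
import Fermat.Agent.BR.Inst.LevelsAnnulus

set_option autoImplicit false
set_option linter.unusedSectionVars false
set_option linter.style.haveILetI false

noncomputable section

namespace Fermat.Agent.BR3.KummerEnd

open Polynomial IsLocalRing Fermat.Agent.BR.Inst.LocSub
open Fermat.Agent.BR.Inst.LevelsAnnulus (trace mem_trace_iff trace_isPrime)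

/-! ### Part A: the abstract generator lemma -/

section Abstract

variable {R' D : Type*} [CommRing R'] [CommRing D] [IsLocalRing D] (f : R' →+* D)

/-- In a local ring, a unit plus a non-unit is a unit. -/
theorem isUnit_add_of_mem_maximalIdeal {a b : D} (ha : IsUnit a) (hb : b ∈ maximalIdeal D) :
    IsUnit (a + b) := by
  by_contra h
  have h1 : a + b ∈ maximalIdeal D := (mem_maximalIdeal _).mpr h
  have h2 : a ∈ maximalIdeal D := by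
    have := (maximalIdeal D).sub_mem h1 hb
    rwa [add_sub_cancel_right] at this
  exact (mem_maximalIdeal _).mp h2 ha

/-- **Taylor**: if `P(θ) ∈ I` and `P(c) ∈ I` for an ideal `I`, `P'(c)` is a unit and `θ - c` is a
non-unit of the local ring `D`, then `θ - c ∈ I`. -/
theorem sub_mem_of_taylor {I : Ideal D} {θ : D} {c : R'}
    (hθ : θ - f c ∈ maximalIdeal D) (P : R'[X]) (hP : (P.map f).eval θ ∈ I)
    (hPc : f (P.eval c) ∈ I) (hP'c : IsUnit (P.derivative.eval c)) : θ - f c ∈ I := by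
  obtain ⟨k, hk⟩ := Polynomial.binomExpansion (P.map f) (f c) (θ - f c)
  rw [add_sub_cancel, derivative_map, eval_map_apply, eval_map_apply] at hk
  have h1 : (θ - f c) * (f (P.derivative.eval c) + k * (θ - f c)) ∈ I := by
    have h2 : (θ - f c) * (f (P.derivative.eval c) + k * (θ - f c)) =
        (P.map f).eval θ - f (P.eval c) := by
      rw [hk]
      ring
    rw [h2]
    exact I.sub_mem hP hPc
  have hu : IsUnit (f (P.derivative.eval c) + k * (θ - f c)) :=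
    isUnit_add_of_mem_maximalIdeal (hP'c.map f) ((maximalIdeal D).mul_mem_left k hθ)
  exact (Ideal.mul_unit_mem_iff_mem I hu).mp h1

variable [IsLocalRing R']

/-- **The generator lemma of the Kummer end** (abstract form).  `f : R' → D` local rings,
`𝔪_{R'} = (ϖ, x', y')`; every non-unit of `D` lies in `(ϖ, x', y', X, Y, θ - c)` (K0), these
generators are non-units (K0'), `x', y' ∈ (ϖ, X, Y)` (K1, K2), `P(θ) ∈ (ϖ, X, Y)` with `c` a simple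
root of `P` modulo `𝔪_{R'}` (K3).  Then `𝔪_D = (ϖ, X, Y)`. -/
theorem maximalIdeal_eq_span_of_kummer {ϖ x' y' c : R'} {X Y θ : D}
    (hmax : maximalIdeal R' = Ideal.span {ϖ, x', y'})
    (hK0 : ∀ z : D, ¬ IsUnit z →
      z ∈ Ideal.span ({f ϖ, f x', f y', X, Y, θ - f c} : Set D))
    (hϖ : ¬ IsUnit (f ϖ)) (hX : ¬ IsUnit X) (hY : ¬ IsUnit Y) (hθ : ¬ IsUnit (θ - f c))
    (hx' : f x' ∈ Ideal.span ({f ϖ, X, Y} : Set D))
    (hy' : f y' ∈ Ideal.span ({f ϖ, X, Y} : Set D))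
    (P : R'[X]) (hP : (P.map f).eval θ ∈ Ideal.span ({f ϖ, X, Y} : Set D))
    (hPc : P.eval c ∈ maximalIdeal R') (hP'c : IsUnit (P.derivative.eval c)) :
    maximalIdeal D = Ideal.span {f ϖ, X, Y} := by
  set I : Ideal D := Ideal.span {f ϖ, X, Y} with hI
  have hϖI : f ϖ ∈ I := Ideal.subset_span (by simp)
  have hXI : X ∈ I := Ideal.subset_span (by simp)
  have hYI : Y ∈ I := Ideal.subset_span (by simp)
  -- `I ≤ 𝔪_D`
  have hIle : I ≤ maximalIdeal D := by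
    rw [hI, Ideal.span_le]
    rintro z (rfl | rfl | hz)
    · exact (mem_maximalIdeal _).mpr hϖ
    · exact (mem_maximalIdeal _).mpr hX
    · rw [Set.mem_singleton_iff] at hz
      rw [hz]
      exact (mem_maximalIdeal _).mpr hY
  -- `f(𝔪_{R'}) ⊆ I`
  have hfm : ∀ r ∈ maximalIdeal R', f r ∈ I := by
    intro r hr
    have h1 : maximalIdeal R' ≤ I.comap f := by
      rw [hmax, Ideal.span_le]
      rintro z (rfl | rfl | hz)
      · exact hϖI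
      · exact hx'
      · rw [Set.mem_singleton_iff] at hz
        rw [hz]
        exact hy'
    exact h1 hr
  -- Taylor
  have hθI : θ - f c ∈ I :=
    sub_mem_of_taylor f ((mem_maximalIdeal _).mpr hθ) P hP (hfm _ hPc) hP'c
  apply le_antisymm
  · intro z hz
    have h1 := hK0 z ((mem_maximalIdeal _).mp hz)
    have h2 : Ideal.span ({f ϖ, f x', f y', X, Y, θ - f c} : Set D) ≤ I := by
      rw [Ideal.span_le]
      rintro w (rfl | rfl | rfl | rfl | rfl | hw)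
      · exact hϖI
      · exact hx'
      · exact hy'
      · exact hXI
      · exact hYI
      · rw [Set.mem_singleton_iff] at hw
        rw [hw]
        exact hθI
    exact h2 h1
  · exact hIle

end Abstract

/-! ### Part B: the ring `R'[X, Y, θ]` inside a field -/

section Adjoin

variable (R' : Type*) [CommRing R'] {F : Type*} [Field F] [Algebra R' F] (X Y θ : F)

/-- The subring `R'[X, Y, θ]` of `F`. -/
def kummerAdj : Subring F := (Algebra.adjoin R' ({X, Y, θ} : Set F)).toSubring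

variable {R' X Y θ}

theorem mem_kummerAdj_iff {x : F} :
    x ∈ kummerAdj R' X Y θ ↔ x ∈ Algebra.adjoin R' ({X, Y, θ} : Set F) := Iff.rfl

variable (R' X Y θ)

theorem algebraMap_mem_kummerAdj (r : R') : algebraMap R' F r ∈ kummerAdj R' X Y θ :=
  Subalgebra.algebraMap_mem _ r

theorem X_mem_kummerAdj : X ∈ kummerAdj R' X Y θ :=
  Algebra.subset_adjoin (by simp)

theorem Y_mem_kummerAdj : Y ∈ kummerAdj R' X Y θ :=
  Algebra.subset_adjoin (by simp)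

theorem θ_mem_kummerAdj : θ ∈ kummerAdj R' X Y θ :=
  Algebra.subset_adjoin (by simp)

variable {R' X Y θ}

/-- `R'[X, Y, θ]` is the smallest subring containing `R'`, `X`, `Y`, `θ`. -/
theorem kummerAdj_le {S : Subring F} (hR : ∀ r : R', algebraMap R' F r ∈ S) (hX : X ∈ S)
    (hY : Y ∈ S) (hθ : θ ∈ S) : kummerAdj R' X Y θ ≤ S := by
  intro x hx
  rw [mem_kummerAdj_iff] at hx
  refine Algebra.adjoin_induction (p := fun x _ => x ∈ S) ?_ ?_ ?_ ?_ hx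
  · rintro x (rfl | rfl | hx)
    · exact hX
    · exact hY
    · rw [Set.mem_singleton_iff] at hx
      rw [hx]
      exact hθ
  · exact hR
  · intro x y _ _ hx hy
    exact S.add_mem hx hy
  · intro x y _ _ hx hy
    exact S.mul_mem hx hy

variable (R' X Y θ)

/-- the structural map `R' → R'[X, Y, θ]` -/
def toKAdj : R' →+* kummerAdj R' X Y θ :=
  (algebraMap R' F).codRestrict (kummerAdj R' X Y θ) (algebraMap_mem_kummerAdj R' X Y θ)

/-- `X`, as an element of `R'[X, Y, θ]` -/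
def XAdj : kummerAdj R' X Y θ := ⟨X, X_mem_kummerAdj R' X Y θ⟩

/-- `Y`, as an element of `R'[X, Y, θ]` -/
def YAdj : kummerAdj R' X Y θ := ⟨Y, Y_mem_kummerAdj R' X Y θ⟩

/-- `θ`, as an element of `R'[X, Y, θ]` -/
def θAdj : kummerAdj R' X Y θ := ⟨θ, θ_mem_kummerAdj R' X Y θ⟩

@[simp] theorem coe_toKAdj (r : R') :
    ((toKAdj R' X Y θ r : kummerAdj R' X Y θ) : F) = algebraMap R' F r := rfl

@[simp] theorem coe_XAdj : ((XAdj R' X Y θ : kummerAdj R' X Y θ) : F) = X := rfl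

@[simp] theorem coe_YAdj : ((YAdj R' X Y θ : kummerAdj R' X Y θ) : F) = Y := rfl

@[simp] theorem coe_θAdj : ((θAdj R' X Y θ : kummerAdj R' X Y θ) : F) = θ := rfl

/-- **Every element of `R'[X, Y, θ]` is a constant modulo `(X, Y, θ - c)`.** -/
theorem exists_sub_mem_span (c : R') (a : kummerAdj R' X Y θ) :
    ∃ r : R', a - toKAdj R' X Y θ r ∈
      Ideal.span ({XAdj R' X Y θ, YAdj R' X Y θ, θAdj R' X Y θ - toKAdj R' X Y θ c} :
        Set (kummerAdj R' X Y θ)) := by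
  set J : Ideal (kummerAdj R' X Y θ) :=
    Ideal.span {XAdj R' X Y θ, YAdj R' X Y θ, θAdj R' X Y θ - toKAdj R' X Y θ c} with hJ
  have hXJ : XAdj R' X Y θ ∈ J := Ideal.subset_span (by simp)
  have hYJ : YAdj R' X Y θ ∈ J := Ideal.subset_span (by simp)
  have hθJ : θAdj R' X Y θ - toKAdj R' X Y θ c ∈ J := Ideal.subset_span (by simp)
  obtain ⟨x, hx⟩ := a
  refine Algebra.adjoin_induction
    (p := fun x hx => ∃ r : R', (⟨x, hx⟩ : kummerAdj R' X Y θ) - toKAdj R' X Y θ r ∈ J)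
    ?_ ?_ ?_ ?_ hx
  · rintro x (rfl | rfl | hx)
    · refine ⟨0, ?_⟩
      rw [map_zero, sub_zero]
      exact hXJ
    · refine ⟨0, ?_⟩
      rw [map_zero, sub_zero]
      exact hYJ
    · rw [Set.mem_singleton_iff] at hx
      subst hx
      exact ⟨c, hθJ⟩
  · intro r
    refine ⟨r, ?_⟩
    have : (⟨algebraMap R' F r, Subalgebra.algebraMap_mem _ r⟩ : kummerAdj R' X Y θ) -
        toKAdj R' X Y θ r = 0 := by
      apply Subtype.ext
      simp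
    rw [this]
    exact J.zero_mem
  · rintro x y hx hy ⟨r, hr⟩ ⟨s, hs⟩
    refine ⟨r + s, ?_⟩
    have h1 := J.add_mem hr hs
    have h2 : (⟨x + y, Subalgebra.add_mem _ hx hy⟩ : kummerAdj R' X Y θ) -
        toKAdj R' X Y θ (r + s) =
        ((⟨x, hx⟩ : kummerAdj R' X Y θ) - toKAdj R' X Y θ r) +
        ((⟨y, hy⟩ : kummerAdj R' X Y θ) - toKAdj R' X Y θ s) := by
      apply Subtype.ext
      show x + y - algebraMap R' F (r + s) = (x - algebraMap R' F r) + (y - algebraMap R' F s)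
      rw [map_add]
      ring
    rw [h2]
    exact h1
  · rintro x y hx hy ⟨r, hr⟩ ⟨s, hs⟩
    refine ⟨r * s, ?_⟩
    have h1 := J.add_mem (J.mul_mem_left (⟨x, hx⟩ : kummerAdj R' X Y θ) hs)
      (J.mul_mem_left (toKAdj R' X Y θ s) hr)
    have h2 : (⟨x * y, Subalgebra.mul_mem _ hx hy⟩ : kummerAdj R' X Y θ) -
        toKAdj R' X Y θ (r * s) =
        (⟨x, hx⟩ : kummerAdj R' X Y θ) * ((⟨y, hy⟩ : kummerAdj R' X Y θ) - toKAdj R' X Y θ s) +
        toKAdj R' X Y θ s * ((⟨x, hx⟩ : kummerAdj R' X Y θ) - toKAdj R' X Y θ r) := by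
      apply Subtype.ext
      show x * y - algebraMap R' F (r * s) = x * (y - algebraMap R' F s) +
        algebraMap R' F s * (x - algebraMap R' F r)
      rw [map_mul]
      ring
    rw [h2]
    exact h1

/-- The ideal `(ϖ, x', y', X, Y, θ - c)` of `R'[X, Y, θ]`. -/
def kummerIdeal (ϖ x' y' c : R') : Ideal (kummerAdj R' X Y θ) :=
  Ideal.span {toKAdj R' X Y θ ϖ, toKAdj R' X Y θ x', toKAdj R' X Y θ y', XAdj R' X Y θ,
    YAdj R' X Y θ, θAdj R' X Y θ - toKAdj R' X Y θ c}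

variable {R' X Y θ}

theorem span_le_kummerIdeal (ϖ x' y' c : R') :
    Ideal.span ({XAdj R' X Y θ, YAdj R' X Y θ, θAdj R' X Y θ - toKAdj R' X Y θ c} :
      Set (kummerAdj R' X Y θ)) ≤ kummerIdeal R' X Y θ ϖ x' y' c := by
  apply Ideal.span_mono
  intro z hz
  simp only [Set.mem_insert_iff, Set.mem_singleton_iff] at hz ⊢
  tauto

theorem toKAdj_mem_kummerIdeal [IsLocalRing R'] {ϖ x' y' : R'} (c : R')
    (hmax : maximalIdeal R' = Ideal.span {ϖ, x', y'}) {r : R'} (hr : r ∈ maximalIdeal R') :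
    toKAdj R' X Y θ r ∈ kummerIdeal R' X Y θ ϖ x' y' c := by
  have h1 : maximalIdeal R' ≤ (kummerIdeal R' X Y θ ϖ x' y' c).comap (toKAdj R' X Y θ) := by
    rw [hmax, Ideal.span_le]
    rintro z (rfl | rfl | hz)
    · exact Ideal.subset_span (by simp)
    · exact Ideal.subset_span (by simp)
    · rw [Set.mem_singleton_iff] at hz
      rw [hz]
      exact Ideal.subset_span (by simp)
  exact h1 hr

/-- **`(ϖ, x', y', X, Y, θ - c)` is maximal as soon as it is proper**: the quotient is a quotient of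
`R' / 𝔪_{R'}`. -/
theorem kummerIdeal_isMaximal [IsLocalRing R'] {ϖ x' y' c : R'}
    (hmax : maximalIdeal R' = Ideal.span {ϖ, x', y'})
    (hne : kummerIdeal R' X Y θ ϖ x' y' c ≠ ⊤) :
    (kummerIdeal R' X Y θ ϖ x' y' c).IsMaximal := by
  rw [Ideal.isMaximal_iff]
  refine ⟨fun h => hne ((Ideal.eq_top_iff_one _).mpr h), ?_⟩
  intro J x hle hxn hxJ
  obtain ⟨r, hr⟩ := exists_sub_mem_span R' X Y θ c x
  have hr' := span_le_kummerIdeal ϖ x' y' c hr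
  have hru : IsUnit r := by
    by_contra hru
    have h1 := toKAdj_mem_kummerIdeal (X := X) (Y := Y) (θ := θ) c hmax
      ((mem_maximalIdeal r).mpr hru)
    apply hxn
    have := (kummerIdeal R' X Y θ ϖ x' y' c).add_mem hr' h1
    rwa [sub_add_cancel] at this
  have h2 : toKAdj R' X Y θ r ∈ J := by
    have := J.sub_mem hxJ (hle hr')
    rwa [sub_sub_cancel] at this
  exact (Ideal.eq_top_iff_one J).mp (Ideal.eq_top_of_isUnit_mem J h2 (hru.map _))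

/-- A proper ideal containing `ϖ, x', y', X, Y, θ - c` IS `(ϖ, x', y', X, Y, θ - c)`. -/
theorem eq_kummerIdeal_of_le [IsLocalRing R'] {ϖ x' y' c : R'}
    (hmax : maximalIdeal R' = Ideal.span {ϖ, x', y'}) {n : Ideal (kummerAdj R' X Y θ)}
    (hn : n ≠ ⊤) (hle : kummerIdeal R' X Y θ ϖ x' y' c ≤ n) :
    n = kummerIdeal R' X Y θ ϖ x' y' c := by
  have hne : kummerIdeal R' X Y θ ϖ x' y' c ≠ ⊤ := fun h => hn (top_le_iff.mp (h ▸ hle))
  exact ((kummerIdeal_isMaximal hmax hne).eq_of_le hn hle).symm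

theorem isNoetherianRing_kummerAdj [IsNoetherianRing R'] :
    IsNoetherianRing (kummerAdj R' X Y θ) := by
  classical
  have hfg : (Algebra.adjoin R' ({X, Y, θ} : Set F)).FG :=
    ⟨{X, Y, θ}, by simp⟩
  have h1 : IsNoetherianRing (Algebra.adjoin R' ({X, Y, θ} : Set F)) :=
    isNoetherianRing_of_fg hfg
  exact h1

end Adjoin

/-! ### Part B, continued: the local ring at the closed point of a valuation ring -/

section Ring

attribute [local instance] Fermat.Agent.BR.Inst.LevelsAnnulus.trace_isPrime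

variable {R' : Type*} [CommRing R'] {F : Type*} [Field F] [Algebra R' F] {X Y θ : F}
  (𝒪 : ValuationSubring F) (h𝒪 : ∀ x ∈ kummerAdj R' X Y θ, x ∈ 𝒪)

/-- **The local ring of the Kummer end**: `R'[X, Y, θ]` localised at the trace of the maximal ideal
of the valuation ring `𝒪 ⊇ R'[X, Y, θ]`. -/
def kummerRing : Subring F :=
  locSub (kummerAdj R' X Y θ) (trace 𝒪 (kummerAdj R' X Y θ) h𝒪)

theorem kummerAdj_le_kummerRing : kummerAdj R' X Y θ ≤ kummerRing 𝒪 h𝒪 := le_locSub _ _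

theorem algebraMap_mem_kummerRing (r : R') : algebraMap R' F r ∈ kummerRing 𝒪 h𝒪 :=
  kummerAdj_le_kummerRing 𝒪 h𝒪 (algebraMap_mem_kummerAdj R' X Y θ r)

theorem X_mem_kummerRing : X ∈ kummerRing 𝒪 h𝒪 :=
  kummerAdj_le_kummerRing 𝒪 h𝒪 (X_mem_kummerAdj R' X Y θ)

theorem Y_mem_kummerRing : Y ∈ kummerRing 𝒪 h𝒪 :=
  kummerAdj_le_kummerRing 𝒪 h𝒪 (Y_mem_kummerAdj R' X Y θ)

theorem θ_mem_kummerRing : θ ∈ kummerRing 𝒪 h𝒪 :=
  kummerAdj_le_kummerRing 𝒪 h𝒪 (θ_mem_kummerAdj R' X Y θ)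

theorem isLocalRing_kummerRing : IsLocalRing (kummerRing 𝒪 h𝒪) := isLocalRing_locSub _ _

theorem isNoetherianRing_kummerRing [IsNoetherianRing R'] :
    IsNoetherianRing (kummerRing 𝒪 h𝒪) := by
  haveI := isNoetherianRing_kummerAdj (R' := R') (X := X) (Y := Y) (θ := θ)
  exact isNoetherianRing_locSub _ _

/-- The local ring lies in every valuation ring containing `𝒪` (a coarsening of `𝒪`). -/
theorem kummerRing_le (V : ValuationSubring F) (hV : 𝒪 ≤ V) {x : F}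
    (hx : x ∈ kummerRing 𝒪 h𝒪) : x ∈ V := by
  refine locSub_le_valuationSubring V (fun a => hV (h𝒪 a a.2)) ?_ hx
  intro a ha
  rw [mem_trace_iff]
  exact (ValuationSubring.nonunits_le_nonunits.mpr hV) ha

theorem kummerRing_le_self {x : F} (hx : x ∈ kummerRing 𝒪 h𝒪) : x ∈ 𝒪 :=
  kummerRing_le 𝒪 h𝒪 𝒪 le_rfl hx

/-- **`𝒪` dominates the local ring.** -/
theorem not_isUnit_iff_mem_nonunits (x : kummerRing 𝒪 h𝒪) :
    ¬ IsUnit x ↔ (x : F) ∈ 𝒪.nonunits := by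
  obtain ⟨x, hx⟩ := x
  have hx' := hx
  obtain ⟨a, b, hb, hab⟩ := hx'
  replace hab : x * (b : F) = (a : F) := hab
  have hval : ∀ b : kummerAdj R' X Y θ, b ∉ trace 𝒪 (kummerAdj R' X Y θ) h𝒪 →
      𝒪.valuation (b : F) = 1 := by
    intro b hb
    rw [mem_trace_iff, 𝒪.mem_nonunits_iff, not_lt] at hb
    exact le_antisymm ((𝒪.valuation_le_one_iff _).mpr (h𝒪 b b.2)) hb
  constructor
  · intro hu
    have ha : a ∈ trace 𝒪 (kummerAdj R' X Y θ) h𝒪 :=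
      num_mem_of_not_isUnit (C := kummerAdj R' X Y θ) hx hu hb hab
    rw [mem_trace_iff, 𝒪.mem_nonunits_iff] at ha
    show x ∈ 𝒪.nonunits
    rw [𝒪.mem_nonunits_iff]
    have h1 : 𝒪.valuation x = 𝒪.valuation (a : F) := by
      rw [← hab, map_mul, hval b hb, mul_one]
    rw [h1]
    exact ha
  · intro hxn hu
    change x ∈ 𝒪.nonunits at hxn
    rw [𝒪.mem_nonunits_iff] at hxn
    obtain ⟨a', b', ha', hb', hab'⟩ := (isUnit_locSub_iff (C := kummerAdj R' X Y θ) hx).mp hu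
    have h1 : 𝒪.valuation x = 1 := by
      have := congrArg 𝒪.valuation hab'
      rw [map_mul, hval b' hb', hval a' ha', mul_one] at this
      exact this
    rw [h1] at hxn
    exact lt_irrefl _ hxn

/-- `θ⁻¹` lies in the local ring as soon as `θ` is a unit of `𝒪`. -/
theorem inv_theta_mem_kummerRing (hθ : θ ∉ 𝒪.nonunits) : θ⁻¹ ∈ kummerRing 𝒪 h𝒪 :=
  inv_mem_locSub (C := kummerAdj R' X Y θ) (b := θAdj R' X Y θ) (fun h => hθ h)

include h𝒪 in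
/-- `θ` is a unit of `𝒪` as soon as `θ - c` is a non-unit of `𝒪` for a unit `c` of `R'`. -/
theorem theta_notMem_nonunits {c : R'} (hc : IsUnit c)
    (hθc : θ - algebraMap R' F c ∈ 𝒪.nonunits) : θ ∉ 𝒪.nonunits := by
  intro hθ
  have h1 : algebraMap R' F c ∈ 𝒪.nonunits := by
    have := Fermat.Agent.BR.Inst.LevelsAnnulus.nonunits_sub 𝒪 hθ hθc
    rwa [sub_sub_cancel] at this
  obtain ⟨c', hc'⟩ := hc.exists_right_inv
  have h2 : algebraMap R' F c * algebraMap R' F c' = 1 := by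
    rw [← map_mul, hc', map_one]
  have h3 := Fermat.Agent.BR.Inst.LevelsAnnulus.nonunits_mul_mem 𝒪 h1
    (h𝒪 _ (algebraMap_mem_kummerAdj R' X Y θ c'))
  rw [h2] at h3
  exact Fermat.Agent.BR.Inst.LevelsAnnulus.one_notMem_nonunits 𝒪 h3

/-- the structural map `R' → D` -/
def toKummer : R' →+* kummerRing 𝒪 h𝒪 :=
  (algebraMap R' F).codRestrict (kummerRing 𝒪 h𝒪) (algebraMap_mem_kummerRing 𝒪 h𝒪)

/-- `X`, as an element of `D` -/
def XK : kummerRing 𝒪 h𝒪 := ⟨X, X_mem_kummerRing 𝒪 h𝒪⟩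

/-- `Y`, as an element of `D` -/
def YK : kummerRing 𝒪 h𝒪 := ⟨Y, Y_mem_kummerRing 𝒪 h𝒪⟩

/-- `θ`, as an element of `D` -/
def θK : kummerRing 𝒪 h𝒪 := ⟨θ, θ_mem_kummerRing 𝒪 h𝒪⟩

@[simp] theorem coe_toKummer (r : R') :
    ((toKummer 𝒪 h𝒪 r : kummerRing 𝒪 h𝒪) : F) = algebraMap R' F r := rfl

@[simp] theorem coe_XK : ((XK 𝒪 h𝒪 : kummerRing 𝒪 h𝒪) : F) = X := rfl

@[simp] theorem coe_YK : ((YK 𝒪 h𝒪 : kummerRing 𝒪 h𝒪) : F) = Y := rfl

@[simp] theorem coe_θK : ((θK 𝒪 h𝒪 : kummerRing 𝒪 h𝒪) : F) = θ := rfl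

/-- the inclusion `R'[X, Y, θ] → D` -/
def adjToKummer : kummerAdj R' X Y θ →+* kummerRing 𝒪 h𝒪 :=
  Subring.inclusion (kummerAdj_le_kummerRing 𝒪 h𝒪)

@[simp] theorem coe_adjToKummer (a : kummerAdj R' X Y θ) :
    ((adjToKummer 𝒪 h𝒪 a : kummerRing 𝒪 h𝒪) : F) = a := rfl

/-- evaluation of a polynomial at `θ` inside `D` -/
theorem coe_eval_map_θK (P : R'[X]) :
    (((P.map (toKummer 𝒪 h𝒪)).eval (θK 𝒪 h𝒪) : kummerRing 𝒪 h𝒪) : F) = aeval θ P := by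
  rw [eval_map, aeval_def]
  have h := Polynomial.hom_eval₂ P (toKummer 𝒪 h𝒪) (kummerRing 𝒪 h𝒪).subtype (θK 𝒪 h𝒪)
  exact h

variable [IsLocalRing R']

/-- The trace of `𝔪_𝒪` on `R'[X, Y, θ]` is `(ϖ, x', y', X, Y, θ - c)` as soon as these six
elements are non-units of `𝒪`. -/
theorem trace_eq_kummerIdeal {ϖ x' y' c : R'}
    (hmax : maximalIdeal R' = Ideal.span {ϖ, x', y'})
    (hϖ : algebraMap R' F ϖ ∈ 𝒪.nonunits) (hx'𝒪 : algebraMap R' F x' ∈ 𝒪.nonunits)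
    (hy'𝒪 : algebraMap R' F y' ∈ 𝒪.nonunits) (hX : X ∈ 𝒪.nonunits) (hY : Y ∈ 𝒪.nonunits)
    (hθ : θ - algebraMap R' F c ∈ 𝒪.nonunits) :
    trace 𝒪 (kummerAdj R' X Y θ) h𝒪 = kummerIdeal R' X Y θ ϖ x' y' c := by
  have hle : kummerIdeal R' X Y θ ϖ x' y' c ≤ trace 𝒪 (kummerAdj R' X Y θ) h𝒪 := by
    unfold kummerIdeal
    rw [Ideal.span_le]
    rintro w (rfl | rfl | rfl | rfl | rfl | hw)
    · exact hϖ
    · exact hx'𝒪
    · exact hy'𝒪
    · exact hX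
    · exact hY
    · rw [Set.mem_singleton_iff] at hw
      rw [hw]
      exact hθ
  exact eq_kummerIdeal_of_le hmax (trace_isPrime 𝒪 _ h𝒪).ne_top hle

/-- **The local ring does not depend on the valuation ring**: two valuation rings
`𝒪, 𝒪₂ ⊇ R'[X, Y, θ]` in which the six generators are non-units (e.g. the composites of the two
components through the node with the places of the two branches) define the same local ring. -/
theorem kummerRing_eq_of_generators (𝒪₂ : ValuationSubring F)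
    (h𝒪₂ : ∀ x ∈ kummerAdj R' X Y θ, x ∈ 𝒪₂) {ϖ x' y' c : R'}
    (hmax : maximalIdeal R' = Ideal.span {ϖ, x', y'})
    (hϖ : algebraMap R' F ϖ ∈ 𝒪.nonunits) (hx'𝒪 : algebraMap R' F x' ∈ 𝒪.nonunits)
    (hy'𝒪 : algebraMap R' F y' ∈ 𝒪.nonunits) (hX : X ∈ 𝒪.nonunits) (hY : Y ∈ 𝒪.nonunits)
    (hθ : θ - algebraMap R' F c ∈ 𝒪.nonunits)
    (hϖ₂ : algebraMap R' F ϖ ∈ 𝒪₂.nonunits) (hx'𝒪₂ : algebraMap R' F x' ∈ 𝒪₂.nonunits)
    (hy'𝒪₂ : algebraMap R' F y' ∈ 𝒪₂.nonunits) (hX₂ : X ∈ 𝒪₂.nonunits) (hY₂ : Y ∈ 𝒪₂.nonunits)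
    (hθ₂ : θ - algebraMap R' F c ∈ 𝒪₂.nonunits) :
    kummerRing 𝒪 h𝒪 = kummerRing 𝒪₂ h𝒪₂ := by
  have h1 := trace_eq_kummerIdeal 𝒪 h𝒪 hmax hϖ hx'𝒪 hy'𝒪 hX hY hθ
  have h2 := trace_eq_kummerIdeal 𝒪₂ h𝒪₂ hmax hϖ₂ hx'𝒪₂ hy'𝒪₂ hX₂ hY₂ hθ₂
  ext x
  unfold kummerRing
  rw [mem_locSub_iff, mem_locSub_iff, h1, h2]

/-- **(K0)**: every non-unit of `D` lies in `(ϖ, x', y', X, Y, θ - c)` as soon as these six
elements are non-units of `𝒪`. -/
theorem nonunit_mem_span_six {ϖ x' y' c : R'}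
    (hmax : maximalIdeal R' = Ideal.span {ϖ, x', y'})
    (hϖ : algebraMap R' F ϖ ∈ 𝒪.nonunits) (hx'𝒪 : algebraMap R' F x' ∈ 𝒪.nonunits)
    (hy'𝒪 : algebraMap R' F y' ∈ 𝒪.nonunits) (hX : X ∈ 𝒪.nonunits) (hY : Y ∈ 𝒪.nonunits)
    (hθ : θ - algebraMap R' F c ∈ 𝒪.nonunits) (z : kummerRing 𝒪 h𝒪) (hz : ¬ IsUnit z) :
    z ∈ Ideal.span ({toKummer 𝒪 h𝒪 ϖ, toKummer 𝒪 h𝒪 x', toKummer 𝒪 h𝒪 y', XK 𝒪 h𝒪, YK 𝒪 h𝒪,
      θK 𝒪 h𝒪 - toKummer 𝒪 h𝒪 c} : Set (kummerRing 𝒪 h𝒪)) := by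
  have htr : trace 𝒪 (kummerAdj R' X Y θ) h𝒪 = kummerIdeal R' X Y θ ϖ x' y' c :=
    trace_eq_kummerIdeal 𝒪 h𝒪 hmax hϖ hx'𝒪 hy'𝒪 hX hY hθ
  obtain ⟨z, hzm⟩ := z
  have hzm' := hzm
  obtain ⟨a, b, hb, hab⟩ := hzm'
  replace hab : z * (b : F) = (a : F) := hab
  have ha : a ∈ trace 𝒪 (kummerAdj R' X Y θ) h𝒪 :=
    num_mem_of_not_isUnit (C := kummerAdj R' X Y θ) hzm hz hb hab
  rw [htr] at ha
  -- push the membership to `D`
  have h1 : adjToKummer 𝒪 h𝒪 a ∈ (kummerIdeal R' X Y θ ϖ x' y' c).map (adjToKummer 𝒪 h𝒪) :=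
    Ideal.mem_map_of_mem _ ha
  have h2 : (kummerIdeal R' X Y θ ϖ x' y' c).map (adjToKummer 𝒪 h𝒪) =
      Ideal.span ({toKummer 𝒪 h𝒪 ϖ, toKummer 𝒪 h𝒪 x', toKummer 𝒪 h𝒪 y', XK 𝒪 h𝒪, YK 𝒪 h𝒪,
        θK 𝒪 h𝒪 - toKummer 𝒪 h𝒪 c} : Set (kummerRing 𝒪 h𝒪)) := by
    unfold kummerIdeal
    rw [Ideal.map_span]
    congr 1
    simp only [Set.image_insert_eq, Set.image_singleton, map_sub]
    rfl
  rw [h2] at h1
  have hb0 : (b : F) ≠ 0 := coe_ne_zero_of_notMem hb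
  have h3 : (⟨z, hzm⟩ : kummerRing 𝒪 h𝒪) =
      (⟨((b : F))⁻¹, inv_mem_locSub (C := kummerAdj R' X Y θ) hb⟩ : kummerRing 𝒪 h𝒪) *
        adjToKummer 𝒪 h𝒪 a := by
    apply Subtype.ext
    show z = ((b : F))⁻¹ * (a : F)
    rw [← hab]
    field_simp
  rw [h3]
  exact Ideal.mul_mem_left _ _ h1

/-- **THE KUMMER END: every non-unit of `D = R'[X, Y, θ]_𝔫` lies in `(ϖ, X, Y)`.** -/
theorem nonunit_mem_kummerRing {ϖ x' y' c : R'}
    (hmax : maximalIdeal R' = Ideal.span {ϖ, x', y'})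
    (hϖ : algebraMap R' F ϖ ∈ 𝒪.nonunits) (hx'𝒪 : algebraMap R' F x' ∈ 𝒪.nonunits)
    (hy'𝒪 : algebraMap R' F y' ∈ 𝒪.nonunits) (hX : X ∈ 𝒪.nonunits) (hY : Y ∈ 𝒪.nonunits)
    (hθ : θ - algebraMap R' F c ∈ 𝒪.nonunits)
    (hx' : ∃ t ∈ kummerRing 𝒪 h𝒪, algebraMap R' F x' = t * Y)
    (hy' : ∃ t ∈ kummerRing 𝒪 h𝒪, algebraMap R' F y' = t * X)
    (P : R'[X])
    (hP : ∃ a ∈ kummerRing 𝒪 h𝒪, ∃ b ∈ kummerRing 𝒪 h𝒪, ∃ e ∈ kummerRing 𝒪 h𝒪,
      aeval θ P = a * algebraMap R' F ϖ + b * X + e * Y)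
    (hPc : P.eval c ∈ maximalIdeal R') (hP'c : IsUnit (P.derivative.eval c))
    (z : kummerRing 𝒪 h𝒪) (hz : ¬ IsUnit z) :
    z ∈ Ideal.span ({toKummer 𝒪 h𝒪 ϖ, XK 𝒪 h𝒪, YK 𝒪 h𝒪} : Set (kummerRing 𝒪 h𝒪)) := by
  haveI := isLocalRing_kummerRing 𝒪 h𝒪
  have hXI : XK 𝒪 h𝒪 ∈ Ideal.span ({toKummer 𝒪 h𝒪 ϖ, XK 𝒪 h𝒪, YK 𝒪 h𝒪} :
      Set (kummerRing 𝒪 h𝒪)) := Ideal.subset_span (by simp)
  have hYI : YK 𝒪 h𝒪 ∈ Ideal.span ({toKummer 𝒪 h𝒪 ϖ, XK 𝒪 h𝒪, YK 𝒪 h𝒪} :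
      Set (kummerRing 𝒪 h𝒪)) := Ideal.subset_span (by simp)
  have hϖI : toKummer 𝒪 h𝒪 ϖ ∈ Ideal.span ({toKummer 𝒪 h𝒪 ϖ, XK 𝒪 h𝒪, YK 𝒪 h𝒪} :
      Set (kummerRing 𝒪 h𝒪)) := Ideal.subset_span (by simp)
  have key := maximalIdeal_eq_span_of_kummer (toKummer 𝒪 h𝒪) (X := XK 𝒪 h𝒪) (Y := YK 𝒪 h𝒪)
    (θ := θK 𝒪 h𝒪) (c := c) hmax
    (nonunit_mem_span_six 𝒪 h𝒪 hmax hϖ hx'𝒪 hy'𝒪 hX hY hθ)
    ((not_isUnit_iff_mem_nonunits 𝒪 h𝒪 _).mpr hϖ)
    ((not_isUnit_iff_mem_nonunits 𝒪 h𝒪 _).mpr hX)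
    ((not_isUnit_iff_mem_nonunits 𝒪 h𝒪 _).mpr hY)
    ((not_isUnit_iff_mem_nonunits 𝒪 h𝒪 _).mpr hθ)
    (by
      obtain ⟨t, ht, hxt⟩ := hx'
      have : toKummer 𝒪 h𝒪 x' = (⟨t, ht⟩ : kummerRing 𝒪 h𝒪) * YK 𝒪 h𝒪 := Subtype.ext hxt
      rw [this]
      exact Ideal.mul_mem_left _ _ hYI)
    (by
      obtain ⟨t, ht, hyt⟩ := hy'
      have : toKummer 𝒪 h𝒪 y' = (⟨t, ht⟩ : kummerRing 𝒪 h𝒪) * XK 𝒪 h𝒪 := Subtype.ext hyt
      rw [this]
      exact Ideal.mul_mem_left _ _ hXI)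
    P
    (by
      obtain ⟨a, ha, b, hb, e, he, hPe⟩ := hP
      have : (P.map (toKummer 𝒪 h𝒪)).eval (θK 𝒪 h𝒪) =
          (⟨a, ha⟩ : kummerRing 𝒪 h𝒪) * toKummer 𝒪 h𝒪 ϖ +
          (⟨b, hb⟩ : kummerRing 𝒪 h𝒪) * XK 𝒪 h𝒪 + (⟨e, he⟩ : kummerRing 𝒪 h𝒪) * YK 𝒪 h𝒪 := by
        apply Subtype.ext
        rw [coe_eval_map_θK, hPe]
        rfl
      rw [this]
      exact Ideal.add_mem _ (Ideal.add_mem _ (Ideal.mul_mem_left _ _ hϖI)
        (Ideal.mul_mem_left _ _ hXI)) (Ideal.mul_mem_left _ _ hYI))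
    hPc hP'c
  rw [← key]
  exact (mem_maximalIdeal _).mpr hz

/-- The field identity behind (K2): `y' = θ X^d` and `x' y' = κ (X Y)^d` give
`x' = (θ⁻¹ κ Y^(d-1)) Y`. -/
theorem eq_mul_of_kummer {x' y' κ X Y θ : F} {d : ℕ} (hd : 1 ≤ d) (hX0 : X ≠ 0) (hθ0 : θ ≠ 0)
    (K1 : y' = θ * X ^ d) (K2 : x' * y' = κ * (X * Y) ^ d) :
    x' = (θ⁻¹ * κ * Y ^ (d - 1)) * Y := by
  have hXd : X ^ d ≠ 0 := pow_ne_zero _ hX0
  have h1 : x' * θ = κ * Y ^ d := by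
    have h2 : x' * θ * X ^ d = κ * Y ^ d * X ^ d := by
      rw [mul_pow, K1] at K2
      linear_combination K2
    exact mul_right_cancel₀ hXd h2
  obtain ⟨e, rfl⟩ : ∃ e, d = e + 1 := ⟨d - 1, by omega⟩
  rw [Nat.add_sub_cancel]
  rw [pow_succ] at h1
  have h3 : x' = θ⁻¹ * (x' * θ) := by
    field_simp
  rw [h3, h1]
  ring

/-- **THE KUMMER END, relation form.**  `𝔪_{R'} = (ϖ, x', y')`, `c` a unit of `R'`, and in `F`:
(K1) `y' = θ X^d`, (K2) `x' y' = κ (X Y)^d` (`κ ∈ R'`, `d ≥ 1`, `X ≠ 0`),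
(K3) `P(θ) ∈ (ϖ, X, Y)` with `c` a simple root of `P` modulo `𝔪_{R'}`; `ϖ, X, Y, θ - c` non-units of
the valuation ring `𝒪 ⊇ R'[X, Y, θ]`.  Then every non-unit of `D` lies in `(ϖ, X, Y)`. -/
theorem nonunit_mem_kummerRing_of_relations {ϖ x' y' c κ : R'} {d : ℕ}
    (hmax : maximalIdeal R' = Ideal.span {ϖ, x', y'})
    (hϖ : algebraMap R' F ϖ ∈ 𝒪.nonunits) (hX : X ∈ 𝒪.nonunits) (hY : Y ∈ 𝒪.nonunits)
    (hθ : θ - algebraMap R' F c ∈ 𝒪.nonunits) (hc : IsUnit c) (hd : 1 ≤ d) (hX0 : X ≠ 0)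
    (K1 : algebraMap R' F y' = θ * X ^ d)
    (K2 : algebraMap R' F x' * algebraMap R' F y' = algebraMap R' F κ * (X * Y) ^ d)
    (P : R'[X])
    (hP : ∃ a ∈ kummerRing 𝒪 h𝒪, ∃ b ∈ kummerRing 𝒪 h𝒪, ∃ e ∈ kummerRing 𝒪 h𝒪,
      aeval θ P = a * algebraMap R' F ϖ + b * X + e * Y)
    (hPc : P.eval c ∈ maximalIdeal R') (hP'c : IsUnit (P.derivative.eval c))
    (z : kummerRing 𝒪 h𝒪) (hz : ¬ IsUnit z) :
    z ∈ Ideal.span ({toKummer 𝒪 h𝒪 ϖ, XK 𝒪 h𝒪, YK 𝒪 h𝒪} : Set (kummerRing 𝒪 h𝒪)) := by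
  have hθu : θ ∉ 𝒪.nonunits := theta_notMem_nonunits 𝒪 h𝒪 hc hθ
  have hθ0 : θ ≠ 0 := fun h =>
    hθu (h ▸ Fermat.Agent.BR.Inst.LevelsAnnulus.zero_mem_nonunits 𝒪)
  have hθinv : θ⁻¹ ∈ kummerRing 𝒪 h𝒪 := inv_theta_mem_kummerRing 𝒪 h𝒪 hθu
  have hx' : ∃ t ∈ kummerRing 𝒪 h𝒪, algebraMap R' F x' = t * Y :=
    ⟨θ⁻¹ * algebraMap R' F κ * Y ^ (d - 1),
      Subring.mul_mem _ (Subring.mul_mem _ hθinv (algebraMap_mem_kummerRing 𝒪 h𝒪 κ))
        (Subring.pow_mem _ (Y_mem_kummerRing 𝒪 h𝒪) _),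
      eq_mul_of_kummer hd hX0 hθ0 K1 K2⟩
  have hy' : ∃ t ∈ kummerRing 𝒪 h𝒪, algebraMap R' F y' = t * X := by
    refine ⟨θ * X ^ (d - 1), Subring.mul_mem _ (θ_mem_kummerRing 𝒪 h𝒪)
      (Subring.pow_mem _ (X_mem_kummerRing 𝒪 h𝒪) _), ?_⟩
    obtain ⟨e, rfl⟩ : ∃ e, d = e + 1 := ⟨d - 1, by omega⟩
    rw [K1, Nat.add_sub_cancel, pow_succ]
    ring
  have hx'𝒪 : algebraMap R' F x' ∈ 𝒪.nonunits := by
    obtain ⟨t, ht, hxt⟩ := hx'
    rw [hxt]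
    exact Fermat.Agent.BR.Inst.LevelsAnnulus.mem_mul_nonunits 𝒪 (kummerRing_le_self 𝒪 h𝒪 ht) hY
  have hy'𝒪 : algebraMap R' F y' ∈ 𝒪.nonunits := by
    obtain ⟨t, ht, hyt⟩ := hy'
    rw [hyt]
    exact Fermat.Agent.BR.Inst.LevelsAnnulus.mem_mul_nonunits 𝒪 (kummerRing_le_self 𝒪 h𝒪 ht) hX
  exact nonunit_mem_kummerRing 𝒪 h𝒪 hmax hϖ hx'𝒪 hy'𝒪 hX hY hθ hx' hy' P hP hPc hP'c z hz

end Ring

end Fermat.Agent.BR3.KummerEnd
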