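/-
Program C (S36), node A8 COVER-NODE-KUMMER, layer L5 (helper8): THE PLACES CENTRED AT THE KUMMER
END, AND THE FIELD OF DEFINITION.

`D = KummerEnd.kummerRing 𝒪 h𝒪 = R'[X, Y, θ]_𝔫 ⊆ F`, `F / K` a function field, `A ⊆ K` a valuation
ring.

* `kummerRing_le_subfield` : if a subfield `E ⊆ F` contains the image of `R'` and `X`, `Y`, `θ`, it
  contains `D` (the hypothesis `hRFK` of `S0.HorizProvider.exists_centredAt_of_horizontal`, which
  gives the field `horiz` of the level);
* `valSubring A P` : the subring of the functions with a value in `A` at the place `P`;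
* `integralAt_kummerAdj` : a place integral on `R'` at which `X`, `Y`, `θ` have values in `A` is
  integral on `R'[X, Y, θ]`;
* **`centredAt_kummerRing`** : a place `P` integral on `R'`, at which `ϖ, x', y', X, Y, θ - c` take
  values of absolute value `< 1`, is CENTRED at `D` (the field `centred` of the level).
-/
import Mathlib
import Fermat.Agent.BR3.KummerEnd
import Fermat.Agent.BR.Centre

set_option autoImplicit false
set_option linter.unusedSectionVars false
set_option linter.style.haveILetI false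

noncomputable section

namespace Fermat.Agent.BR3.KummerEndPlaces

open AlgebraicCurve IsLocalRing Fermat.Agent.Red Fermat.Agent.BR.Centre
  Fermat.Agent.BR.Inst.LocSub Fermat.Agent.BR3.KummerEnd
open Fermat.Agent.BR.Inst.LevelsAnnulus (trace mem_trace_iff trace_isPrime)

attribute [local instance] Fermat.Agent.BR.Inst.LevelsAnnulus.trace_isPrime

variable {R' : Type*} [CommRing R'] {F : Type*} [Field F] [Algebra R' F] {X Y θ : F}
  (𝒪 : ValuationSubring F) (h𝒪 : ∀ x ∈ kummerAdj R' X Y θ, x ∈ 𝒪)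

/-! ### The field of definition -/

/-- A subfield containing the image of `R'` and `X`, `Y`, `θ` contains the local ring of the Kummer
end. -/
theorem kummerRing_le_subfield (E : Subfield F) (hR : ∀ r : R', algebraMap R' F r ∈ E)
    (hX : X ∈ E) (hY : Y ∈ E) (hθ : θ ∈ E) {x : F} (hx : x ∈ kummerRing 𝒪 h𝒪) : x ∈ E := by
  have hle : kummerAdj R' X Y θ ≤ E.toSubring := kummerAdj_le hR hX hY hθ
  obtain ⟨a, b, hb, hab⟩ := hx
  replace hab : x * (b : F) = (a : F) := hab
  have hb0 : (b : F) ≠ 0 := coe_ne_zero_of_notMem hb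
  have e : x = (a : F) / (b : F) := eq_div_of_mul_eq hb0 hab
  rw [e]
  exact E.div_mem (hle a.2) (hle b.2)

/-! ### Places -/

variable {K : Type*} [Field K] [Algebra K F] (A : ValuationSubring K) (P : Place K F)

/-- The subring of the functions which have a value in `A` at the place `P`. -/
def valSubring : Subring F where
  carrier := {y | ∃ c : K, c ∈ A ∧ IsValueAt P y c}
  mul_mem' := by
    rintro x y ⟨c, hcA, hc⟩ ⟨d, hdA, hd⟩
    exact ⟨c * d, A.mul_mem _ _ hcA hdA, hc.mul hd⟩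
  one_mem' := ⟨1, A.one_mem, isValueAt_one P⟩
  add_mem' := by
    rintro x y ⟨c, hcA, hc⟩ ⟨d, hdA, hd⟩
    exact ⟨c + d, A.add_mem _ _ hcA hdA, hc.add hd⟩
  zero_mem' := ⟨0, A.zero_mem, isValueAt_zero P⟩
  neg_mem' := by
    rintro x ⟨c, hcA, hc⟩
    exact ⟨-c, A.neg_mem _ hcA, hc.neg⟩

theorem mem_valSubring_iff {y : F} :
    y ∈ valSubring A P ↔ ∃ c : K, c ∈ A ∧ IsValueAt P y c := Iff.rfl

variable {A P}

/-- A place integral on `R'` at which `X`, `Y`, `θ` have values in `A` is integral on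
`R'[X, Y, θ]`. -/
theorem integralAt_kummerAdj
    (hR : ∀ r : R', ∃ c : K, c ∈ A ∧ IsValueAt P (algebraMap R' F r) c)
    (hX : ∃ c : K, c ∈ A ∧ IsValueAt P X c) (hY : ∃ c : K, c ∈ A ∧ IsValueAt P Y c)
    (hθ : ∃ c : K, c ∈ A ∧ IsValueAt P θ c) : IntegralAt A (kummerAdj R' X Y θ) P :=
  fun _ hy => (kummerAdj_le (S := valSubring A P) hR hX hY hθ) hy

/-- the value of a function with a small value is small -/
theorem valuation_evalAt_lt_one {y : F} (h : ∃ c : K, IsValueAt P y c ∧ A.valuation c < 1) :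
    A.valuation (evalAt P y) < 1 := by
  obtain ⟨c, hc, hlt⟩ := h
  rwa [evalAt_eq_of_isValueAt hc]

variable [IsLocalRing R']

/-- **The places centred at the Kummer end.**  A place `P` of `F / K` which is integral on `R'` and
at which `ϖ, x', y', X, Y, θ - c` take values of absolute value `< 1` is centred at the local ring
`D = R'[X, Y, θ]_𝔫`. -/
theorem centredAt_kummerRing {ϖ x' y' c : R'}
    (hmax : maximalIdeal R' = Ideal.span {ϖ, x', y'})
    (hϖ : algebraMap R' F ϖ ∈ 𝒪.nonunits) (hx'𝒪 : algebraMap R' F x' ∈ 𝒪.nonunits)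
    (hy'𝒪 : algebraMap R' F y' ∈ 𝒪.nonunits) (hX : X ∈ 𝒪.nonunits) (hY : Y ∈ 𝒪.nonunits)
    (hθ : θ - algebraMap R' F c ∈ 𝒪.nonunits)
    (hR : ∀ r : R', ∃ d : K, d ∈ A ∧ IsValueAt P (algebraMap R' F r) d)
    (hϖP : ∃ d : K, IsValueAt P (algebraMap R' F ϖ) d ∧ A.valuation d < 1)
    (hx'P : ∃ d : K, IsValueAt P (algebraMap R' F x') d ∧ A.valuation d < 1)
    (hy'P : ∃ d : K, IsValueAt P (algebraMap R' F y') d ∧ A.valuation d < 1)
    (hXP : ∃ d : K, IsValueAt P X d ∧ A.valuation d < 1)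
    (hYP : ∃ d : K, IsValueAt P Y d ∧ A.valuation d < 1)
    (hθP : ∃ d : K, IsValueAt P (θ - algebraMap R' F c) d ∧ A.valuation d < 1) :
    CentredAt A (kummerRing 𝒪 h𝒪) P := by
  -- values in `A`
  have hXA : ∃ d : K, d ∈ A ∧ IsValueAt P X d := by
    obtain ⟨d, hd, hlt⟩ := hXP
    exact ⟨d, (A.valuation_le_one_iff _).mp hlt.le, hd⟩
  have hYA : ∃ d : K, d ∈ A ∧ IsValueAt P Y d := by
    obtain ⟨d, hd, hlt⟩ := hYP
    exact ⟨d, (A.valuation_le_one_iff _).mp hlt.le, hd⟩
  have hθA : ∃ d : K, d ∈ A ∧ IsValueAt P θ d := by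
    obtain ⟨d, hd, hlt⟩ := hθP
    obtain ⟨d', hd'A, hd'⟩ := hR c
    refine ⟨d + d', A.add_mem _ _ ((A.valuation_le_one_iff _).mp hlt.le) hd'A, ?_⟩
    have := hd.add hd'
    rwa [sub_add_cancel] at this
  have hB : IntegralAt A (kummerAdj R' X Y θ) P := integralAt_kummerAdj hR hXA hYA hθA
  -- the centre of `P` on `R'[X, Y, θ]` is the explicit ideal
  have hle : kummerIdeal R' X Y θ ϖ x' y' c ≤ centre hB := by
    unfold kummerIdeal
    rw [Ideal.span_le]
    rintro w (rfl | rfl | rfl | rfl | rfl | hw)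
    · exact (mem_centre_iff hB _).mpr (valuation_evalAt_lt_one hϖP)
    · exact (mem_centre_iff hB _).mpr (valuation_evalAt_lt_one hx'P)
    · exact (mem_centre_iff hB _).mpr (valuation_evalAt_lt_one hy'P)
    · exact (mem_centre_iff hB _).mpr (valuation_evalAt_lt_one hXP)
    · exact (mem_centre_iff hB _).mpr (valuation_evalAt_lt_one hYP)
    · rw [Set.mem_singleton_iff] at hw
      rw [hw]
      exact (mem_centre_iff hB _).mpr (valuation_evalAt_lt_one hθP)
  have hcen : centre hB = trace 𝒪 (kummerAdj R' X Y θ) h𝒪 := by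
    rw [trace_eq_kummerIdeal 𝒪 h𝒪 hmax hϖ hx'𝒪 hy'𝒪 hX hY hθ]
    exact eq_kummerIdeal_of_le hmax (centre_isPrime hB).ne_top hle
  -- integrality on the localisation
  have hD : IntegralAt A (kummerRing 𝒪 h𝒪) P := by
    rintro y ⟨a, b, hb, hab⟩
    replace hab : y * (b : F) = (a : F) := hab
    have hb0 : (b : F) ≠ 0 := coe_ne_zero_of_notMem hb
    have hb' : (⟨(b : F), b.2⟩ : kummerAdj R' X Y θ) ∉ centre hB := by
      rw [hcen]
      exact hb
    obtain ⟨e, heA, he⟩ := hB.inv_mem b.2 hb'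
    obtain ⟨d, hdA, hd⟩ := hB (a : F) a.2
    refine ⟨d * e, A.mul_mem _ _ hdA heA, ?_⟩
    have e1 : y = (a : F) * ((b : F))⁻¹ := by
      rw [← hab]
      field_simp
    rw [e1]
    exact hd.mul he
  refine ⟨hD, ?_⟩
  rintro ⟨y, hy⟩ hu
  have hy' := hy
  obtain ⟨a, b, hb, hab⟩ := hy'
  replace hab : y * (b : F) = (a : F) := hab
  have ha : a ∈ trace 𝒪 (kummerAdj R' X Y θ) h𝒪 :=
    num_mem_of_not_isUnit (C := kummerAdj R' X Y θ) hy hu hb hab
  rw [← hcen, mem_centre_iff] at ha
  have hb0 : (b : F) ≠ 0 := coe_ne_zero_of_notMem hb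
  have hb' : (⟨(b : F), b.2⟩ : kummerAdj R' X Y θ) ∉ centre hB := by
    rw [hcen]
    exact hb
  obtain ⟨e, heA, he⟩ := hB.inv_mem b.2 hb'
  have e1 : y = (a : F) * ((b : F))⁻¹ := by
    rw [← hab]
    field_simp
  rw [mem_centre_iff]
  show A.valuation (evalAt P y) < 1
  have h2 : IsValueAt P y (evalAt P (a : F) * e) := by
    rw [e1]
    exact (hB.isValueAt_evalAt a.2).mul he
  rw [evalAt_eq_of_isValueAt h2, map_mul]
  calc A.valuation (evalAt P (a : F)) * A.valuation e
      ≤ A.valuation (evalAt P (a : F)) * 1 :=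
        mul_le_mul_right ((A.valuation_le_one_iff _).mpr heA) _
    _ = A.valuation (evalAt P (a : F)) := mul_one _
    _ < 1 := ha

end Fermat.Agent.BR3.KummerEndPlaces
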