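/-
Program C (S36), node A8 COVER-NODE-KUMMER, layer L5 (helper8): THE GENERIC FIBRE OF THE KUMMER END
IS NORMAL (`hgen` of `NodeLevelFrac.FracLevels`) BY EULER'S LEMMA.

`R'` an integrally closed domain, `F ⊇ R'` a field of characteristic zero, `U : F` integral over
`R'` with minimal polynomial `Ψ`, `S := R'[U]`, `D ⊇ S` a subring of `F`, `ϖ : F`.
A GOOD DENOMINATOR of `d : F` is `t ∈ S`, `t ≠ 0`, with `t * d ∈ S` and `t ∣ ϖ ^ r` in `D`
(`HasDen R' U ϖ D d`).  If every element of `D` has a good denominator and `Ψ'(U) ∣ ϖ ^ r` in `D`,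
then every fraction `a / b` of `D` which is integral over `D` lies in `D[1/ϖ]`:

  `exists_pow_mul_mem : IsIntegral D (a / b) → ∃ r, ϖ ^ r * (a / b) ∈ D`

(multiply by a common good denominator `t` of the coefficients of an integral equation: `t * x` is
integral over `S`, hence over `R'`; Euler (`EtaleLocal.euler`): `Ψ'(U) * t * x ∈ S ⊆ D`).

* `isIntegral_mul_of_coeff_mem` : scaling an integral equation into a smaller ring;
* `HasDen`, `hasDen_of_mem_adjoin`, `HasDen.add/.neg/.mul/.inv`, `denSubring`,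
  `exists_common_den`;
* `hasDen_kummerRing` : every element of `KummerEnd.kummerRing 𝒪 h𝒪` has a good denominator as soon
  as `X`, `Y`, `θ` have one and `R'[U] ⊆ kummerRing` (e.g. `U = ϖ₁ * Y`, `X = ϖ₂ / U`,
  `θ = y' * U ^ d / ϖ₂ ^ d`: denominators `U`, `ϖ₁`, `ϖ₂ ^ d`);
* `exists_pow_mul_mem`, `hgen_kummerRing` (the field `hgen` of `FracLevels` for `kummerRing`).
-/
import Mathlib
import Fermat.Agent.BR3.EtaleLocal
import Fermat.Agent.BR3.KummerEnd

set_option autoImplicit false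
set_option linter.unusedSectionVars false
set_option linter.style.haveILetI false

noncomputable section

namespace Fermat.Agent.BR3.KummerEuler

open Polynomial Fermat.Agent.BR.Inst.LocSub Fermat.Agent.BR3.KummerEnd
open Fermat.Agent.BR.Inst.LevelsAnnulus (trace mem_trace_iff trace_isPrime)

/-! ### Scaling an integral equation -/

section Scale

variable {R' : Type*} [CommRing R'] {F : Type*} [Field F] [Algebra R' F]

/-- If `x` is a root of the monic `p ∈ D[T]` and `t ∈ S ⊆ D` multiplies all coefficients of `p`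
into the subalgebra `S`, then `t * x` is integral over `S`. -/
theorem isIntegral_mul_of_coeff_mem (S : Subalgebra R' F) (D : Subring F)
    (hSD : ∀ y ∈ S, y ∈ D) {x t : F} (ht : t ∈ S) (p : D[X]) (hp : p.Monic)
    (hpx : eval₂ D.subtype x p = 0) (hcoeff : ∀ i, t * (p.coeff i : F) ∈ S) :
    IsIntegral S (t * x) := by
  set tD : D := ⟨t, hSD t ht⟩ with htD
  set P : F[X] := (scaleRoots p tD).map D.subtype with hP
  have hmonic : P.Monic := ((monic_scaleRoots_iff tD).mpr hp).map _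
  have hroot : P.eval (t * x) = 0 := by
    rw [hP, eval_map]
    have := scaleRoots_eval₂_eq_zero D.subtype (s := tD) hpx
    exact this
  have hl : P ∈ lifts (algebraMap S F) := by
    rw [lifts_iff_coeff_lifts]
    intro i
    rw [hP, coeff_map, coeff_scaleRoots]
    have e : D.subtype (p.coeff i * tD ^ (p.natDegree - i)) =
        (p.coeff i : F) * t ^ (p.natDegree - i) := rfl
    rw [e]
    rcases lt_trichotomy i p.natDegree with h | h | h
    · refine ⟨⟨(t * (p.coeff i : F)) * t ^ (p.natDegree - i - 1),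
        S.mul_mem (hcoeff i) (S.pow_mem ht _)⟩, ?_⟩
      show (t * (p.coeff i : F)) * t ^ (p.natDegree - i - 1) = _
      have : p.natDegree - i = (p.natDegree - i - 1) + 1 := by omega
      conv_rhs => rw [this, pow_succ]
      ring
    · subst h
      refine ⟨1, ?_⟩
      rw [map_one, Nat.sub_self, pow_zero, mul_one]
      have : p.coeff p.natDegree = 1 := hp
      rw [this]
      rfl
    · refine ⟨0, ?_⟩
      rw [map_zero, coeff_eq_zero_of_natDegree_lt h]
      simp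
  obtain ⟨q, hq, -, hqm⟩ := lifts_and_natDegree_eq_and_monic hl hmonic
  refine ⟨q, hqm, ?_⟩
  rw [← eval_map, hq]
  exact hroot

end Scale

/-! ### Good denominators -/

section Den

variable (R' : Type*) [CommRing R'] {F : Type*} [Field F] [Algebra R' F] (U ϖ : F)
  (D : Subring F)

/-- `d` has a good denominator: `t ∈ R'[U]`, `t ≠ 0`, `t * d ∈ R'[U]`, `t ∣ ϖ ^ r` in `D`. -/
def HasDen (d : F) : Prop :=
  ∃ t ∈ Algebra.adjoin R' ({U} : Set F), t ≠ 0 ∧ t * d ∈ Algebra.adjoin R' ({U} : Set F) ∧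
    ∃ w ∈ D, ∃ r : ℕ, t * w = ϖ ^ r

variable {R' U ϖ D}

theorem hasDen_of_mem_adjoin {d : F} (hd : d ∈ Algebra.adjoin R' ({U} : Set F)) :
    HasDen R' U ϖ D d :=
  ⟨1, Subalgebra.one_mem _, one_ne_zero, by rwa [one_mul], 1, D.one_mem, 0, by
    rw [one_mul, pow_zero]⟩

theorem HasDen.add {d₁ d₂ : F} (h₁ : HasDen R' U ϖ D d₁) (h₂ : HasDen R' U ϖ D d₂) :
    HasDen R' U ϖ D (d₁ + d₂) := by
  obtain ⟨t₁, ht₁, ht₁0, hd₁, w₁, hw₁, r₁, hr₁⟩ := h₁
  obtain ⟨t₂, ht₂, ht₂0, hd₂, w₂, hw₂, r₂, hr₂⟩ := h₂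
  refine ⟨t₁ * t₂, Subalgebra.mul_mem _ ht₁ ht₂, mul_ne_zero ht₁0 ht₂0, ?_, w₁ * w₂,
    D.mul_mem hw₁ hw₂, r₁ + r₂, ?_⟩
  · have : t₁ * t₂ * (d₁ + d₂) = t₂ * (t₁ * d₁) + t₁ * (t₂ * d₂) := by ring
    rw [this]
    exact Subalgebra.add_mem _ (Subalgebra.mul_mem _ ht₂ hd₁) (Subalgebra.mul_mem _ ht₁ hd₂)
  · rw [pow_add, ← hr₁, ← hr₂]
    ring

theorem HasDen.neg {d : F} (h : HasDen R' U ϖ D d) : HasDen R' U ϖ D (-d) := by
  obtain ⟨t, ht, ht0, hd, w, hw, r, hr⟩ := h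
  refine ⟨t, ht, ht0, ?_, w, hw, r, hr⟩
  rw [mul_neg]
  exact Subalgebra.neg_mem _ hd

theorem HasDen.mul {d₁ d₂ : F} (h₁ : HasDen R' U ϖ D d₁) (h₂ : HasDen R' U ϖ D d₂) :
    HasDen R' U ϖ D (d₁ * d₂) := by
  obtain ⟨t₁, ht₁, ht₁0, hd₁, w₁, hw₁, r₁, hr₁⟩ := h₁
  obtain ⟨t₂, ht₂, ht₂0, hd₂, w₂, hw₂, r₂, hr₂⟩ := h₂
  refine ⟨t₁ * t₂, Subalgebra.mul_mem _ ht₁ ht₂, mul_ne_zero ht₁0 ht₂0, ?_, w₁ * w₂,
    D.mul_mem hw₁ hw₂, r₁ + r₂, ?_⟩
  · have : t₁ * t₂ * (d₁ * d₂) = (t₁ * d₁) * (t₂ * d₂) := by ring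
    rw [this]
    exact Subalgebra.mul_mem _ hd₁ hd₂
  · rw [pow_add, ← hr₁, ← hr₂]
    ring

/-- The inverse of a unit of `D` with a good denominator has a good denominator. -/
theorem HasDen.inv {b : F} (h : HasDen R' U ϖ D b) (hb0 : b ≠ 0) (hbinv : b⁻¹ ∈ D) :
    HasDen R' U ϖ D b⁻¹ := by
  obtain ⟨t, ht, ht0, hd, w, hw, r, hr⟩ := h
  refine ⟨t * b, hd, mul_ne_zero ht0 hb0, ?_, w * b⁻¹, D.mul_mem hw hbinv, r, ?_⟩
  · rw [mul_assoc, mul_inv_cancel₀ hb0, mul_one]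
    exact ht
  · rw [← hr]
    field_simp

variable (R' U ϖ D)

/-- The elements with a good denominator form a subring. -/
def denSubring : Subring F where
  carrier := {d | HasDen R' U ϖ D d}
  mul_mem' := fun h₁ h₂ => h₁.mul h₂
  one_mem' := hasDen_of_mem_adjoin (Subalgebra.one_mem _)
  add_mem' := fun h₁ h₂ => h₁.add h₂
  zero_mem' := hasDen_of_mem_adjoin (Subalgebra.zero_mem _)
  neg_mem' := fun h => h.neg

variable {R' U ϖ D}

theorem mem_denSubring_iff {d : F} : d ∈ denSubring R' U ϖ D ↔ HasDen R' U ϖ D d := Iff.rfl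

/-- Finitely many elements with good denominators have a common good denominator. -/
theorem exists_common_den {ι : Type*} (s : Finset ι) (f : ι → F)
    (h : ∀ i ∈ s, HasDen R' U ϖ D (f i)) :
    ∃ t ∈ Algebra.adjoin R' ({U} : Set F), t ≠ 0 ∧
      (∀ i ∈ s, t * f i ∈ Algebra.adjoin R' ({U} : Set F)) ∧ ∃ w ∈ D, ∃ r : ℕ, t * w = ϖ ^ r := by
  classical
  induction s using Finset.induction_on with
  | empty =>
    exact ⟨1, Subalgebra.one_mem _, one_ne_zero, fun i hi => absurd hi (Finset.notMem_empty i), 1,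
      D.one_mem, 0, by rw [one_mul, pow_zero]⟩
  | insert j s hj ih =>
    obtain ⟨t, ht, ht0, htf, w, hw, r, hr⟩ := ih fun i hi => h i (Finset.mem_insert_of_mem hi)
    obtain ⟨t', ht', ht'0, hd', w', hw', r', hr'⟩ := h j (Finset.mem_insert_self j s)
    refine ⟨t * t', Subalgebra.mul_mem _ ht ht', mul_ne_zero ht0 ht'0, ?_, w * w',
      D.mul_mem hw hw', r + r', ?_⟩
    · intro i hi
      rcases Finset.mem_insert.mp hi with rfl | hi
      · have : t * t' * f i = t * (t' * f i) := by ring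
        rw [this]
        exact Subalgebra.mul_mem _ ht hd'
      · have : t * t' * f i = t' * (t * f i) := by ring
        rw [this]
        exact Subalgebra.mul_mem _ ht' (htf i hi)
    · rw [pow_add, ← hr, ← hr']
      ring

end Den

/-! ### Euler -/

section Euler

variable {R' : Type*} [CommRing R'] [IsDomain R'] [IsIntegrallyClosed R']
  {F : Type*} [Field F] [CharZero F] [Algebra R' F]

/-- **The generic fibre is normal**: if every element of `D ⊇ R'[U]` has a good denominator and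
`Ψ'(U)` divides a power of `ϖ` in `D`, every fraction of `D` integral over `D` lies in
`D[1/ϖ]`. -/
theorem exists_pow_mul_mem (hinj : Function.Injective (algebraMap R' F)) {U ϖ : F}
    (hU : IsIntegral R' U) (D : Subring F)
    (hUD : ∀ y ∈ Algebra.adjoin R' ({U} : Set F), y ∈ D)
    (hden : ∀ d ∈ D, HasDen R' U ϖ D d)
    (hΨ : ∃ w ∈ D, ∃ r : ℕ, aeval U (derivative (minpoly R' U)) * w = ϖ ^ r)
    {a b : F} (ha : a ∈ D) (hb : b ∈ D) (hb0 : b ≠ 0) (hx : IsIntegral D (a / b)) :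
    ∃ r : ℕ, ϖ ^ r * (a / b) ∈ D := by
  classical
  obtain ⟨p, hp, hpx⟩ := hx
  -- a common good denominator of the coefficients
  obtain ⟨t, ht, ht0, htc, w, hw, r, hr⟩ := exists_common_den (R' := R') (U := U) (ϖ := ϖ) (D := D)
    p.support (fun i => (p.coeff i : F)) (fun i _ => hden _ (p.coeff i).2)
  have hcoeff : ∀ i, t * (p.coeff i : F) ∈ Algebra.adjoin R' ({U} : Set F) := by
    intro i
    by_cases hi : i ∈ p.support
    · exact htc i hi
    · rw [notMem_support_iff.mp hi]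
      simp
  have h1 : IsIntegral (Algebra.adjoin R' ({U} : Set F)) (t * (a / b)) :=
    isIntegral_mul_of_coeff_mem _ D hUD ht p hp hpx hcoeff
  haveI : Algebra.IsIntegral R' (Algebra.adjoin R' ({U} : Set F)) :=
    Algebra.IsIntegral.adjoin (by rintro x rfl; exact hU)
  have h2 : IsIntegral R' (t * (a / b)) := isIntegral_trans _ h1
  -- `t * (a / b)` is a fraction of `R'[U]`
  obtain ⟨ta, hta, hta0, hda, -⟩ := hden a ha
  obtain ⟨tb, htb, htb0, hdb, -⟩ := hden b hb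
  have h3 : ∃ a' ∈ Algebra.adjoin R' ({U} : Set F), ∃ b' ∈ Algebra.adjoin R' ({U} : Set F),
      b' ≠ 0 ∧ t * (a / b) * b' = a' := by
    refine ⟨t * (ta * a) * tb, Subalgebra.mul_mem _ (Subalgebra.mul_mem _ ht hda) htb,
      ta * (tb * b), Subalgebra.mul_mem _ hta hdb, mul_ne_zero hta0 (mul_ne_zero htb0 hb0), ?_⟩
    field_simp
  have h4 := EtaleLocal.euler hinj hU h2 h3
  obtain ⟨w', hw', r', hr'⟩ := hΨ
  refine ⟨r + r', ?_⟩
  have h5 : ϖ ^ (r + r') * (a / b) =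
      w * w' * (aeval U (derivative (minpoly R' U)) * (t * (a / b))) := by
    rw [pow_add, ← hr, ← hr']
    ring
  rw [h5]
  exact D.mul_mem (D.mul_mem hw hw') (hUD _ h4)

end Euler

/-! ### The Kummer end -/

section Kummer

attribute [local instance] Fermat.Agent.BR.Inst.LevelsAnnulus.trace_isPrime

variable {R' : Type*} [CommRing R'] {F : Type*} [Field F] [Algebra R' F] {X Y θ : F}
  (𝒪 : ValuationSubring F) (h𝒪 : ∀ x ∈ kummerAdj R' X Y θ, x ∈ 𝒪)

/-- **Every element of the local ring of the Kummer end has a good denominator**, as soon as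
`X`, `Y`, `θ` have one. -/
theorem hasDen_kummerRing {U ϖ : F}
    (hX : HasDen R' U ϖ (kummerRing 𝒪 h𝒪) X) (hY : HasDen R' U ϖ (kummerRing 𝒪 h𝒪) Y)
    (hθ : HasDen R' U ϖ (kummerRing 𝒪 h𝒪) θ) {d : F} (hd : d ∈ kummerRing 𝒪 h𝒪) :
    HasDen R' U ϖ (kummerRing 𝒪 h𝒪) d := by
  have hle : kummerAdj R' X Y θ ≤ denSubring R' U ϖ (kummerRing 𝒪 h𝒪) :=
    kummerAdj_le (fun r => hasDen_of_mem_adjoin (Subalgebra.algebraMap_mem _ r)) hX hY hθ
  obtain ⟨a, b, hb, hab⟩ := hd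
  replace hab : d * (b : F) = (a : F) := hab
  have hb0 : (b : F) ≠ 0 := coe_ne_zero_of_notMem hb
  have hbinv : ((b : F))⁻¹ ∈ kummerRing 𝒪 h𝒪 := inv_mem_locSub (C := kummerAdj R' X Y θ) hb
  have e : d = (a : F) * ((b : F))⁻¹ := by
    rw [← hab]
    field_simp
  rw [e]
  exact (hle a.2).mul ((hle b.2).inv hb0 hbinv)

variable [IsDomain R'] [IsIntegrallyClosed R'] [CharZero F]

/-- **The field `hgen` of `NodeLevelFrac.FracLevels` for the local ring of the Kummer end.** -/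
theorem hgen_kummerRing (hinj : Function.Injective (algebraMap R' F)) {U ϖ : F}
    (hU : IsIntegral R' U)
    (hUD : ∀ y ∈ Algebra.adjoin R' ({U} : Set F), y ∈ kummerRing 𝒪 h𝒪)
    (hX : HasDen R' U ϖ (kummerRing 𝒪 h𝒪) X) (hY : HasDen R' U ϖ (kummerRing 𝒪 h𝒪) Y)
    (hθ : HasDen R' U ϖ (kummerRing 𝒪 h𝒪) θ)
    (hΨ : ∃ w ∈ kummerRing 𝒪 h𝒪, ∃ r : ℕ, aeval U (derivative (minpoly R' U)) * w = ϖ ^ r)
    (a b : kummerRing 𝒪 h𝒪) (hb : b ≠ 0)
    (hx : IsIntegral (kummerRing 𝒪 h𝒪) ((a : F) / (b : F))) :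
    ∃ r : ℕ, ϖ ^ r * ((a : F) / (b : F)) ∈ kummerRing 𝒪 h𝒪 :=
  exists_pow_mul_mem hinj hU (kummerRing 𝒪 h𝒪) hUD
    (fun _ hd => hasDen_kummerRing 𝒪 h𝒪 hX hY hθ hd) hΨ a.2 b.2
    (fun h => hb (Subtype.ext h)) hx

end Kummer

end Fermat.Agent.BR3.KummerEuler
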