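/-
Program C (S36), node A7 (helper19), part 0: a normality criterion.

`D` a domain, `ϖ ∈ D` nonzero. If `D / ϖ D` is reduced and every element of the fraction field
integral over `D` lies in `D[1/ϖ]`, then `D` is integrally closed.  (Used for the local rings of
blow-up charts of a node, for the standard node `W[x, y] / (x y - θ)` and for Kummer charts: their
special fibre is reduced and their generic fibre is a localisation of a normal ring.)

* `exists_algebraMap_eq_of_isIntegral` : the element form (`D → L` injective, `L` a field);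
* `isIntegrallyClosed_of_reduced_fibre` : `IsIntegrallyClosed D` for an abstract domain;
* `mem_of_isIntegral_of_reduced_fibre` : the same for a subring of a field.
-/
import Mathlib

set_option autoImplicit false

namespace Fermat.Agent.BR3.NormalCrit

open Polynomial

section Element

variable {D L : Type*} [CommRing D] [Field L] [Algebra D L]

/-- **Element form of the criterion.** `ϖ ≠ 0` with `D / ϖ D` reduced
(`y ^ n ∈ ϖ D → y ∈ ϖ D`), `algebraMap D L` injective; if `x : L` is integral over `D` and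
`ϖ ^ r * x` comes from `D`, then `x` comes from `D`. -/
theorem exists_algebraMap_eq_of_isIntegral (hinj : Function.Injective (algebraMap D L)) {ϖ : D}
    (hϖ : ϖ ≠ 0)
    (hred : ∀ y : D, (∃ n : ℕ, y ^ n ∈ Ideal.span {ϖ}) → y ∈ Ideal.span {ϖ})
    {x : L} (hx : IsIntegral D x) :
    ∀ r : ℕ, (∃ y : D, algebraMap D L y = algebraMap D L ϖ ^ r * x) →
      ∃ y : D, algebraMap D L y = x := by
  have hϖ0 : algebraMap D L ϖ ≠ 0 := fun h => hϖ (hinj (by rw [h, map_zero]))
  intro r
  induction r with
  | zero =>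
    rintro ⟨y, hy⟩
    exact ⟨y, by rw [hy, pow_zero, one_mul]⟩
  | succ r ih =>
    rintro ⟨y, hy⟩
    apply ih
    obtain ⟨p, hp, hpx⟩ := hx
    set N := p.natDegree with hN
    -- `y ^ N = - ∑_{i < N} a_i ϖ^((r+1)(N - i)) y ^ i ∈ ϖ D`
    have key : y ^ N ∈ Ideal.span {ϖ} := by
      by_cases hN0 : N = 0
      · have h1 : p = 1 := hp.natDegree_eq_zero.mp (hN ▸ hN0)
        rw [h1, eval₂_one] at hpx
        exact absurd hpx one_ne_zero
      have hsum : eval₂ (algebraMap D L) x p = ∑ i ∈ Finset.range (N + 1),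
          algebraMap D L (p.coeff i) * x ^ i := by
        rw [eval₂_eq_sum_range]
      rw [hsum, Finset.sum_range_succ, hp.coeff_natDegree, map_one, one_mul] at hpx
      have h4 : x ^ N = - ∑ i ∈ Finset.range N, algebraMap D L (p.coeff i) * x ^ i := by
        rw [eq_neg_iff_add_eq_zero, add_comm]
        exact hpx
      have h2 : algebraMap D L (y ^ N) = algebraMap D L (- ∑ i ∈ Finset.range N,
          p.coeff i * ϖ ^ ((r + 1) * (N - i)) * y ^ i) := by
        rw [map_pow, hy, map_neg, map_sum, mul_pow, ← pow_mul, h4, mul_neg, Finset.mul_sum]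
        congr 1
        apply Finset.sum_congr rfl
        intro i hi
        have hiN : i ≤ N := (Finset.mem_range.mp hi).le
        rw [map_mul, map_mul, map_pow, map_pow, hy, mul_pow, ← pow_mul]
        have h5 : (r + 1) * N = (r + 1) * (N - i) + (r + 1) * i := by
          rw [← Nat.mul_add, Nat.sub_add_cancel hiN]
        rw [h5, pow_add]
        ring
      rw [hinj h2]
      apply (Ideal.neg_mem_iff _).mpr
      apply Ideal.sum_mem
      intro i hi
      have hiN : i < N := Finset.mem_range.mp hi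
      have hpos : 0 < (r + 1) * (N - i) := Nat.mul_pos (Nat.succ_pos r) (Nat.sub_pos_of_lt hiN)
      obtain ⟨j, hj⟩ := Nat.exists_eq_succ_of_ne_zero hpos.ne'
      rw [hj, pow_succ]
      apply Ideal.mul_mem_right
      rw [← mul_assoc]
      exact Ideal.mul_mem_left _ _ (Ideal.subset_span rfl)
    obtain ⟨z, hz⟩ := Ideal.mem_span_singleton'.mp (hred y ⟨N, key⟩)
    refine ⟨z, ?_⟩
    have h7 : algebraMap D L ϖ * algebraMap D L z =
        algebraMap D L ϖ * (algebraMap D L ϖ ^ r * x) := by
      rw [← map_mul, mul_comm ϖ z, hz, hy, pow_succ]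
      ring
    exact mul_left_cancel₀ hϖ0 h7

end Element

section Abstract

variable {D : Type*} [CommRing D] [IsDomain D]

/-- **Normality criterion**: a domain `D` with `D / ϖ D` reduced (`ϖ ≠ 0`) and `D[1/ϖ]`
integrally closed (in the form: every integral element of the fraction field is `y / ϖ ^ r`) is
integrally closed. -/
theorem isIntegrallyClosed_of_reduced_fibre {ϖ : D} (hϖ : ϖ ≠ 0)
    (hred : ∀ y : D, (∃ n : ℕ, y ^ n ∈ Ideal.span {ϖ}) → y ∈ Ideal.span {ϖ})
    (hgen : ∀ x : FractionRing D, IsIntegral D x →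
      ∃ (r : ℕ) (y : D), algebraMap D (FractionRing D) y =
        algebraMap D (FractionRing D) ϖ ^ r * x) :
    IsIntegrallyClosed D := by
  rw [isIntegrallyClosed_iff (FractionRing D)]
  intro x hx
  obtain ⟨r, hr⟩ := hgen x hx
  exact exists_algebraMap_eq_of_isIntegral (IsFractionRing.injective D (FractionRing D)) hϖ hred
    hx r hr

end Abstract

section Subring

variable {F : Type*} [Field F]

/-- **Normality criterion for a subring of a field** in element form: `D ⊆ F`, `ϖ ∈ D` nonzero,
`D / ϖ D` reduced; an element `x : F` integral over `D` with `ϖ ^ r * x ∈ D` lies in `D`. -/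
theorem mem_of_isIntegral_of_reduced_fibre (D : Subring F) {ϖ : F} (hϖD : ϖ ∈ D) (hϖ : ϖ ≠ 0)
    (hred : ∀ y ∈ D, (∃ n : ℕ, ∃ z ∈ D, y ^ n = ϖ * z) → ∃ z ∈ D, y = ϖ * z)
    {x : F} (hx : IsIntegral D x) {r : ℕ} (hr : ϖ ^ r * x ∈ D) : x ∈ D := by
  have hinj : Function.Injective (algebraMap D F) := Subtype.val_injective
  have hϖ' : (⟨ϖ, hϖD⟩ : D) ≠ 0 := fun h => hϖ (congrArg Subtype.val h)
  have hred' : ∀ y : D, (∃ n : ℕ, y ^ n ∈ Ideal.span {(⟨ϖ, hϖD⟩ : D)}) →
      y ∈ Ideal.span {(⟨ϖ, hϖD⟩ : D)} := by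
    rintro y ⟨n, hn⟩
    obtain ⟨z, hz⟩ := Ideal.mem_span_singleton'.mp hn
    have h1 : (y : F) ^ n = ϖ * (z : F) := by
      have := congrArg Subtype.val hz
      simp only [Subring.coe_mul, SubmonoidClass.coe_pow] at this
      rw [← this, mul_comm]
    obtain ⟨w, hwD, hw⟩ := hred y y.2 ⟨n, z, z.2, h1⟩
    rw [Ideal.mem_span_singleton']
    refine ⟨⟨w, hwD⟩, Subtype.ext ?_⟩
    show w * ϖ = (y : F)
    rw [hw, mul_comm]
  obtain ⟨y, hy⟩ := exists_algebraMap_eq_of_isIntegral (D := D) (L := F) hinj hϖ' hred' hx r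
    ⟨⟨ϖ ^ r * x, hr⟩, rfl⟩
  rw [← hy]
  exact y.2

end Subring

end Fermat.Agent.BR3.NormalCrit
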