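/-
Program C (S36), node A8 / (C-ANN)(b), layer L1 (helper8): THE EXPLICIT NODE CRITERION.

Pure commutative algebra (Mathlib + `BR3/NormalCrit`), no completion.

`D` a noetherian local domain, `ϖ X Y : D` with `𝔪 = (ϖ, X, Y)` and `X * Y ∈ (ϖ)`, and two ring
homomorphisms `ρ₁ : D → κ₁`, `ρ₂ : D → κ₂` to domains ("the reductions to the two components
through the point") with `ρ₁ ϖ = ρ₁ X = 0 ≠ ρ₁ Y` and `ρ₂ ϖ = ρ₂ Y = 0 ≠ ρ₂ X`.  Then `D` is the
local ring of a NODE:

* `ker_eq₁ : ker ρ₁ = (ϖ, X)`, `ker_eq₂ : ker ρ₂ = (ϖ, Y)` (so both are prime);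
* `inf_eq : (ϖ, X) ⊓ (ϖ, Y) = (ϖ)` (the special fibre is reduced: `reduced`);
* `eq_or_eq_of_mem`, `vertical` : the only primes containing `ϖ` below `𝔪` are `(ϖ, X)`, `(ϖ, Y)`;
* `isIntegrallyClosed` : `D` is integrally closed as soon as its generic fibre `D[1/ϖ]` is
  (helper19's criterion `NormalCrit.isIntegrallyClosed_of_reduced_fibre`).

The one-sided statements (`ker_eq_of_max`, `mem_of_forall_mem_sup_pow`) need only one reduction.

Users: the sub-annulus levels (A7s), the split ends (A7), the Kummer ends (A8) of Program C: in all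
three cases the local ring is given by explicit generators and the criterion replaces
"étale over normal is normal" / Abhyankar's lemma.
-/
import Mathlib
import Fermat.Agent.BR3.NormalCrit

set_option autoImplicit false
set_option linter.unusedSectionVars false

namespace Fermat.Agent.BR3.NodeCrit

open IsLocalRing

section OneSided

variable {D : Type*} [CommRing D] [IsNoetherianRing D] [IsLocalRing D]

/-- **Krull intersection modulo an ideal**: in a noetherian local ring, an element which lies in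
`P + 𝔪 ^ n` for every `n` lies in `P`. -/
theorem mem_of_forall_mem_sup_pow (P : Ideal D) (f : D)
    (h : ∀ n : ℕ, f ∈ P ⊔ maximalIdeal D ^ n) : f ∈ P := by
  have hne : maximalIdeal D ≠ ⊤ := Ideal.IsPrime.ne_top inferInstance
  have hK := Ideal.iInf_pow_smul_eq_bot_of_isLocalRing (R := D) (M := D ⧸ P) (maximalIdeal D) hne
  have hmem : (Ideal.Quotient.mk P f : D ⧸ P) ∈
      (⨅ i : ℕ, maximalIdeal D ^ i • (⊤ : Submodule D (D ⧸ P))) := by
    rw [Submodule.mem_iInf]
    intro n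
    obtain ⟨p, hp, m, hm, hpm⟩ := Submodule.mem_sup.mp (h n)
    have h1 : (Ideal.Quotient.mk P f : D ⧸ P) = m • (Ideal.Quotient.mk P (1 : D) : D ⧸ P) := by
      rw [← hpm, map_add, Ideal.Quotient.eq_zero_iff_mem.mpr hp, zero_add,
        Algebra.smul_def, map_one, mul_one]
      rfl
    rw [h1]
    exact Submodule.smul_mem_smul hm Submodule.mem_top
  rw [hK, Submodule.mem_bot] at hmem
  exact Ideal.Quotient.eq_zero_iff_mem.mp hmem

variable {κ : Type*} [CommRing κ] [IsDomain κ]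

/-- **One branch.**  If `𝔪 = (ϖ, X, Y)` and the ring homomorphism `ρ` to a domain kills `ϖ`, `X`
but not `Y`, then `ker ρ = (ϖ, X)`. -/
theorem ker_eq_of_max {ϖ X Y : D} (ρ : D →+* κ)
    (hmax : maximalIdeal D = Ideal.span {ϖ, X, Y}) (hϖ : ρ ϖ = 0) (hX : ρ X = 0)
    (hY : ρ Y ≠ 0) : RingHom.ker ρ = Ideal.span {ϖ, X} := by
  apply le_antisymm
  · intro f hf
    rw [RingHom.mem_ker] at hf
    have hYm : Y ∈ maximalIdeal D := by
      rw [hmax]
      exact Ideal.subset_span (by simp)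
    -- `f ∈ (ϖ, X) + (Y ^ n)` for every `n`
    have key : ∀ n : ℕ, f ∈ Ideal.span {ϖ, X} ⊔ Ideal.span {Y ^ n} := by
      intro n
      induction n with
      | zero =>
        rw [pow_zero, Ideal.span_singleton_one]
        exact Submodule.mem_sup_right Submodule.mem_top
      | succ n ih =>
        obtain ⟨p, hp, m, hm, hpm⟩ := Submodule.mem_sup.mp ih
        obtain ⟨g, rfl⟩ := Ideal.mem_span_singleton'.mp hm
        have hρp : ρ p = 0 := by
          have hle : Ideal.span {ϖ, X} ≤ RingHom.ker ρ := by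
            rw [Ideal.span_le]
            rintro x (rfl | hx)
            · exact hϖ
            · rw [Set.mem_singleton_iff] at hx
              rw [hx]
              exact hX
          exact hle hp
        have hρg : ρ g = 0 := by
          have h1 : ρ g * ρ Y ^ n = 0 := by
            rw [← map_pow, ← map_mul, ← hf, ← hpm, map_add, hρp, zero_add]
          rcases mul_eq_zero.mp h1 with h | h
          · exact h
          · exact absurd h (pow_ne_zero n hY)
        -- `g` is not a unit, hence lies in `(ϖ, X, Y)`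
        have hgm : g ∈ maximalIdeal D := by
          rw [mem_maximalIdeal, mem_nonunits_iff]
          intro hu
          have h2 := hu.map ρ
          rw [hρg] at h2
          exact not_isUnit_zero h2
        rw [hmax, Ideal.mem_span_insert] at hgm
        obtain ⟨a, z, hz, rfl⟩ := hgm
        rw [Ideal.mem_span_pair] at hz
        obtain ⟨b, c, rfl⟩ := hz
        rw [← hpm]
        have h3 : p + (a * ϖ + (b * X + c * Y)) * Y ^ n =
            (p + (a * Y ^ n) * ϖ + (b * Y ^ n) * X) + c * Y ^ (n + 1) := by ring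
        rw [h3]
        refine Submodule.add_mem_sup ?_ (Ideal.mul_mem_left _ _ (Ideal.mem_span_singleton_self _))
        refine Ideal.add_mem _ (Ideal.add_mem _ hp ?_) ?_
        · exact Ideal.mul_mem_left _ _ (Ideal.subset_span (by simp))
        · exact Ideal.mul_mem_left _ _ (Ideal.subset_span (by simp))
    apply mem_of_forall_mem_sup_pow
    intro n
    have hle : Ideal.span {Y ^ n} ≤ maximalIdeal D ^ n := by
      rw [Ideal.span_singleton_le_iff_mem]
      exact Ideal.pow_mem_pow hYm n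
    exact sup_le_sup_left hle _ (key n)
  · rw [Ideal.span_le]
    rintro x (rfl | hx)
    · exact hϖ
    · rw [Set.mem_singleton_iff] at hx
      rw [hx]
      exact hX

end OneSided

section TwoSided

variable {D : Type*} [CommRing D] [IsDomain D] [IsNoetherianRing D] [IsLocalRing D]
  {κ₁ κ₂ : Type*} [CommRing κ₁] [IsDomain κ₁] [CommRing κ₂] [IsDomain κ₂]

/-- **Explicit node data**: `𝔪 = (ϖ, X, Y)`, `X * Y ∈ (ϖ)`, and the two reductions `ρ₁` (to the
component `X = 0`) and `ρ₂` (to the component `Y = 0`). -/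
structure ExplicitNode (ϖ X Y : D) (ρ₁ : D →+* κ₁) (ρ₂ : D →+* κ₂) : Prop where
  max : maximalIdeal D = Ideal.span {ϖ, X, Y}
  mul_mem : X * Y ∈ Ideal.span {ϖ}
  ϖ_ne : ϖ ≠ 0
  ρ₁ϖ : ρ₁ ϖ = 0
  ρ₁X : ρ₁ X = 0
  ρ₁Y : ρ₁ Y ≠ 0
  ρ₂ϖ : ρ₂ ϖ = 0
  ρ₂Y : ρ₂ Y = 0
  ρ₂X : ρ₂ X ≠ 0

namespace ExplicitNode

variable {ϖ X Y : D} {ρ₁ : D →+* κ₁} {ρ₂ : D →+* κ₂}

/-- the data are symmetric in the two branches -/
theorem symm (h : ExplicitNode ϖ X Y ρ₁ ρ₂) : ExplicitNode ϖ Y X ρ₂ ρ₁ where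
  max := by
    rw [h.max]
    congr 1
    ext x
    simp only [Set.mem_insert_iff, Set.mem_singleton_iff]
    tauto
  mul_mem := by rw [mul_comm]; exact h.mul_mem
  ϖ_ne := h.ϖ_ne
  ρ₁ϖ := h.ρ₂ϖ
  ρ₁X := h.ρ₂Y
  ρ₁Y := h.ρ₂X
  ρ₂ϖ := h.ρ₁ϖ
  ρ₂Y := h.ρ₁X
  ρ₂X := h.ρ₁Y

/-- **The first branch**: `ker ρ₁ = (ϖ, X)`. -/
theorem ker_eq₁ (h : ExplicitNode ϖ X Y ρ₁ ρ₂) : RingHom.ker ρ₁ = Ideal.span {ϖ, X} :=
  ker_eq_of_max ρ₁ h.max h.ρ₁ϖ h.ρ₁X h.ρ₁Y

/-- **The second branch**: `ker ρ₂ = (ϖ, Y)`. -/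
theorem ker_eq₂ (h : ExplicitNode ϖ X Y ρ₁ ρ₂) : RingHom.ker ρ₂ = Ideal.span {ϖ, Y} :=
  h.symm.ker_eq₁

theorem isPrime₁ (h : ExplicitNode ϖ X Y ρ₁ ρ₂) : (Ideal.span {ϖ, X} : Ideal D).IsPrime := by
  rw [← h.ker_eq₁]
  exact RingHom.ker_isPrime ρ₁

theorem isPrime₂ (h : ExplicitNode ϖ X Y ρ₁ ρ₂) : (Ideal.span {ϖ, Y} : Ideal D).IsPrime :=
  h.symm.isPrime₁

theorem ϖ_mem₁ (_h : ExplicitNode ϖ X Y ρ₁ ρ₂) : ϖ ∈ (Ideal.span {ϖ, X} : Ideal D) :=
  Ideal.subset_span (by simp)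

theorem X_mem₁ (_h : ExplicitNode ϖ X Y ρ₁ ρ₂) : X ∈ (Ideal.span {ϖ, X} : Ideal D) :=
  Ideal.subset_span (by simp)

theorem Y_notMem₁ (h : ExplicitNode ϖ X Y ρ₁ ρ₂) : Y ∉ (Ideal.span {ϖ, X} : Ideal D) := by
  rw [← h.ker_eq₁, RingHom.mem_ker]
  exact h.ρ₁Y

theorem X_notMem₂ (h : ExplicitNode ϖ X Y ρ₁ ρ₂) : X ∉ (Ideal.span {ϖ, Y} : Ideal D) :=
  h.symm.Y_notMem₁

theorem le_maximalIdeal₁ (h : ExplicitNode ϖ X Y ρ₁ ρ₂) :
    (Ideal.span {ϖ, X} : Ideal D) ≤ maximalIdeal D := by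
  rw [h.max]
  apply Ideal.span_mono
  intro x hx
  simp only [Set.mem_insert_iff, Set.mem_singleton_iff] at hx ⊢
  tauto

theorem lt_maximalIdeal₁ (h : ExplicitNode ϖ X Y ρ₁ ρ₂) :
    (Ideal.span {ϖ, X} : Ideal D) < maximalIdeal D := by
  refine lt_of_le_of_ne h.le_maximalIdeal₁ fun heq => h.Y_notMem₁ ?_
  rw [heq, h.max]
  exact Ideal.subset_span (by simp)

/-- **The special fibre is reduced**, ideal form: `(ϖ, X) ⊓ (ϖ, Y) = (ϖ)`. -/
theorem inf_eq (h : ExplicitNode ϖ X Y ρ₁ ρ₂) :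
    (Ideal.span {ϖ, X} ⊓ Ideal.span {ϖ, Y} : Ideal D) = Ideal.span {ϖ} := by
  apply le_antisymm
  · rintro f ⟨hf1, hf2⟩
    rw [SetLike.mem_coe, Ideal.mem_span_pair] at hf1
    obtain ⟨a, b, rfl⟩ := hf1
    -- `ρ₂ (b X) = 0` and `ρ₂ X ≠ 0`, so `b ∈ ker ρ₂ = (ϖ, Y)`
    have hf2' : ρ₂ (a * ϖ + b * X) = 0 := by
      rw [← RingHom.mem_ker, h.ker_eq₂]
      exact hf2
    rw [map_add, map_mul, map_mul, h.ρ₂ϖ, mul_zero, zero_add] at hf2'
    have hb : ρ₂ b = 0 := by
      rcases mul_eq_zero.mp hf2' with hb | hb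
      · exact hb
      · exact absurd hb h.ρ₂X
    have hb' : b ∈ (Ideal.span {ϖ, Y} : Ideal D) := by
      rw [← h.ker_eq₂, RingHom.mem_ker]
      exact hb
    rw [Ideal.mem_span_pair] at hb'
    obtain ⟨c, e, rfl⟩ := hb'
    obtain ⟨t, ht⟩ := Ideal.mem_span_singleton'.mp h.mul_mem
    rw [Ideal.mem_span_singleton']
    refine ⟨a + c * X + e * t, ?_⟩
    have : Y * X = t * ϖ := by rw [mul_comm, ← ht]
    linear_combination (-e) * this
  · rw [Ideal.span_singleton_le_iff_mem]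
    exact ⟨h.ϖ_mem₁, h.symm.ϖ_mem₁⟩

/-- **The special fibre is reduced**, element form (the hypothesis `hred` of
`NormalCrit.isIntegrallyClosed_of_reduced_fibre`). -/
theorem reduced (h : ExplicitNode ϖ X Y ρ₁ ρ₂) (y : D)
    (hy : ∃ n : ℕ, y ^ n ∈ Ideal.span {ϖ}) : y ∈ Ideal.span {ϖ} := by
  obtain ⟨n, hn⟩ := hy
  rw [← h.inf_eq] at hn ⊢
  exact ⟨h.isPrime₁.mem_of_pow_mem n hn.1, h.isPrime₂.mem_of_pow_mem n hn.2⟩

/-- One-sided form of `eq_or_eq_of_mem`: a prime containing `ϖ` and `X`, different from the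
maximal ideal, is `(ϖ, X)`. -/
theorem eq_of_mem_of_mem (h : ExplicitNode ϖ X Y ρ₁ ρ₂) (Q : Ideal D) (hQ : Q.IsPrime)
    (hϖ : ϖ ∈ Q) (hne : Q ≠ maximalIdeal D) (hX : X ∈ Q) : Q = Ideal.span {ϖ, X} := by
  have hle : (Ideal.span {ϖ, X} : Ideal D) ≤ Q := by
    rw [Ideal.span_le]
    rintro x (rfl | hx)
    · exact hϖ
    · rw [Set.mem_singleton_iff] at hx
      rw [hx]
      exact hX
  refine le_antisymm ?_ hle
  -- if `Q` contained an element outside `(ϖ, X)` it would contain `Y`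
  intro f hf
  by_contra hfP
  apply hne
  have hYm : Y ∈ maximalIdeal D := by
    rw [h.max]
    exact Ideal.subset_span (by simp)
  have hYQ : Y ∈ Q := by
    have hex : ∃ n : ℕ, f ∉ Ideal.span {ϖ, X} ⊔ Ideal.span {Y ^ n} := by
      by_contra hcon
      push Not at hcon
      apply hfP
      apply mem_of_forall_mem_sup_pow
      intro n
      have hle' : Ideal.span {Y ^ n} ≤ maximalIdeal D ^ n := by
        rw [Ideal.span_singleton_le_iff_mem]
        exact Ideal.pow_mem_pow hYm n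
      exact sup_le_sup_left hle' _ (hcon n)
    classical
    have hn0 : Nat.find hex ≠ 0 := by
      intro h0
      have := Nat.find_spec hex
      rw [h0, pow_zero, Ideal.span_singleton_one] at this
      exact this (Submodule.mem_sup_right Submodule.mem_top)
    obtain ⟨m, hm⟩ := Nat.exists_eq_succ_of_ne_zero hn0
    have hmem : f ∈ Ideal.span {ϖ, X} ⊔ Ideal.span {Y ^ m} := by
      by_contra hcon
      have := Nat.find_min' hex hcon
      omega
    have hnot : f ∉ Ideal.span {ϖ, X} ⊔ Ideal.span {Y ^ (m + 1)} := by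
      have := Nat.find_spec hex
      rwa [hm] at this
    obtain ⟨p, hp, w, hw, hpw⟩ := Submodule.mem_sup.mp hmem
    obtain ⟨g, rfl⟩ := Ideal.mem_span_singleton'.mp hw
    -- `g` is a unit
    have hgu : IsUnit g := by
      by_contra hgnu
      have hgm : g ∈ maximalIdeal D := (mem_maximalIdeal g).mpr hgnu
      rw [h.max, Ideal.mem_span_insert] at hgm
      obtain ⟨a, z', hz', rfl⟩ := hgm
      rw [Ideal.mem_span_pair] at hz'
      obtain ⟨b, c, rfl⟩ := hz'
      apply hnot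
      rw [← hpw]
      have h3 : p + (a * ϖ + (b * X + c * Y)) * Y ^ m =
          (p + (a * Y ^ m) * ϖ + (b * Y ^ m) * X) + c * Y ^ (m + 1) := by ring
      rw [h3]
      refine Submodule.add_mem_sup ?_
        (Ideal.mul_mem_left _ _ (Ideal.mem_span_singleton_self _))
      refine Ideal.add_mem _ (Ideal.add_mem _ hp ?_) ?_
      · exact Ideal.mul_mem_left _ _ (Ideal.subset_span (by simp))
      · exact Ideal.mul_mem_left _ _ (Ideal.subset_span (by simp))
    -- `g Y^m = f - p ∈ Q`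
    have hgY : g * Y ^ m ∈ Q := by
      have : g * Y ^ m = f - p := by rw [← hpw]; ring
      rw [this]
      exact Ideal.sub_mem _ hf (hle hp)
    have hYmQ : Y ^ m ∈ Q := by
      rcases hQ.mem_or_mem hgY with hg | hY
      · exact absurd (Ideal.eq_top_of_isUnit_mem _ hg hgu) hQ.ne_top
      · exact hY
    exact hQ.mem_of_pow_mem m hYmQ
  apply le_antisymm (le_maximalIdeal hQ.ne_top)
  rw [h.max, Ideal.span_le]
  rintro x (rfl | rfl | hx)
  · exact hϖ
  · exact hX
  · rw [Set.mem_singleton_iff] at hx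
    rw [hx]
    exact hYQ

/-- **The vertical primes**: a prime containing `ϖ`, different from the maximal ideal, is
`(ϖ, X)` or `(ϖ, Y)`. -/
theorem eq_or_eq_of_mem (h : ExplicitNode ϖ X Y ρ₁ ρ₂) (Q : Ideal D) (hQ : Q.IsPrime)
    (hϖ : ϖ ∈ Q) (hne : Q ≠ maximalIdeal D) :
    Q = Ideal.span {ϖ, X} ∨ Q = Ideal.span {ϖ, Y} := by
  have hXY : X * Y ∈ Q := by
    obtain ⟨t, ht⟩ := Ideal.mem_span_singleton'.mp h.mul_mem
    rw [← ht]
    exact Ideal.mul_mem_left _ _ hϖ
  rcases hQ.mem_or_mem hXY with hX | hY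
  · exact Or.inl (h.eq_of_mem_of_mem Q hQ hϖ hne hX)
  · exact Or.inr (h.symm.eq_of_mem_of_mem Q hQ hϖ hne hY)

/-- **The vertical height-one primes** are `(ϖ, X)` and `(ϖ, Y)`. -/
theorem vertical (h : ExplicitNode ϖ X Y ρ₁ ρ₂) (Q : Ideal D) (hQ : Q.IsPrime)
    (hht : Q.height = 1) (hϖ : ϖ ∈ Q) :
    Q = Ideal.span {ϖ, X} ∨ Q = Ideal.span {ϖ, Y} := by
  refine h.eq_or_eq_of_mem Q hQ hϖ fun heq => ?_
  -- the maximal ideal has height at least two: `⊥ < (ϖ, X) < 𝔪`
  have hP := h.isPrime₁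
  have h1 : (⊥ : Ideal D) < Ideal.span {ϖ, X} := by
    refine lt_of_le_of_ne bot_le fun h0 => h.ϖ_ne ?_
    have := h.ϖ_mem₁
    rw [← h0, Ideal.mem_bot] at this
    exact this
  have h2 : (1 : ℕ∞) ≤ (Ideal.span {ϖ, X} : Ideal D).height :=
    le_trans le_add_self (Ideal.height_add_one_le_of_lt_of_isPrime h1)
  have h3 := Ideal.height_add_one_le_of_lt_of_isPrime h.lt_maximalIdeal₁
  rw [← heq, hht] at h3
  have h4 : (1 : ℕ∞) + 1 ≤ 1 := le_trans (add_le_add_left h2 1) h3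
  exact absurd h4 (by decide)

/-- **Normality**: the local ring of an explicit node is integrally closed as soon as its generic
fibre is (every integral element of the fraction field becomes an element of `D` after
multiplication by a power of `ϖ`). -/
theorem isIntegrallyClosed (h : ExplicitNode ϖ X Y ρ₁ ρ₂)
    (hgen : ∀ x : FractionRing D, IsIntegral D x →
      ∃ (r : ℕ) (y : D), algebraMap D (FractionRing D) y =
        algebraMap D (FractionRing D) ϖ ^ r * x) :
    IsIntegrallyClosed D :=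
  NormalCrit.isIntegrallyClosed_of_reduced_fibre h.ϖ_ne h.reduced hgen

end ExplicitNode

end TwoSided

end Fermat.Agent.BR3.NodeCrit
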