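/-
Program C (S36), node A8 / (C-ANN)(b), layer L2 (helper8): ONE FINITE LEVEL `S0.NodeLevel` FROM AN
EXPLICIT LOCAL RING.

`R ⊆ F` a noetherian local subring containing the constants `A ∩ K'` (uniformizer `ϖ`), with
maximal ideal `(ϖ, u, v)`, `u * v = thick • ε₀` (`ε₀` a unit of `R`, `thick ∈ K'`), contained in two
valuation rings `O₁`, `O₂` of `F` ("the two components through the point") such that
`ϖ, u ∈ 𝔪(O₁) ∌ v` and `ϖ, v ∈ 𝔪(O₂) ∌ u`.  By the explicit node criterion (`BR3/NodeCrit`):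

* `explicitNode` : `NodeCrit.ExplicitNode ϖ u v ρ₁ ρ₂` with `ρ_j : R → O_j / 𝔪(O_j)`;
* `trace_eq₁ : trace O₁ R = (ϖ, u)`, `trace_eq₂ : trace O₂ R = (ϖ, v)`;
* `vertical` : the vertical height-one primes of `R` are the two traces;
* `isIntegrallyClosed` : `R` is integrally closed as soon as every element of `F` integral over `R`
  lies in `R[1/ϖ]` (generic fibre normal);
* `nodeLevelOfExplicit : S0.NodeLevel A T u v ε₀ thick` with `.R = R`, `.K' = K'`, `.ϖ = ϖ`,
  `.p1 = trace O₁ R`, `.p2 = trace O₂ R`, from the remaining three fields `residue`, `centred`,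
  `horiz` (`horiz` = the conclusion of `PlaceLift.exists_centredAt_of_prime`).

No normality, no primality, no statement on height-one primes is assumed.
-/
import Mathlib
import Fermat.Agent.BR3.NodeCrit
import Fermat.Agent.BR.S0.AnnulusN2Level
import Fermat.Agent.BR.Inst.LevelsAnnulus

set_option autoImplicit false
set_option linter.unusedSectionVars false

namespace Fermat.Agent.BR3.NodeLevelExplicit

open AlgebraicCurve IsLocalRing Fermat.Agent.Red Fermat.Agent.BR Fermat.Agent.BR.Centre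
  Fermat.Agent.BR.S0 Fermat.Agent.BR3.NodeCrit
open Fermat.Agent.BR.Inst.LevelsAnnulus (trace mem_trace_iff trace_isPrime
  not_isUnit_of_mem_nonunits)

/-! ### A subring of a field which contains the integral elements is integrally closed -/

section IntClosed

variable {F : Type*} [Field F]

/-- A subring `R` of a field `F` such that every element of `F` integral over `R` lies in `R` is
integrally closed. -/
theorem isIntegrallyClosed_of_forall_mem (R : Subring F)
    (h : ∀ x : F, IsIntegral R x → x ∈ R) : IsIntegrallyClosed R := by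
  rw [isIntegrallyClosed_iff (FractionRing R)]
  intro x hx
  have hinj : Function.Injective (algebraMap R F) := Subtype.val_injective
  let φ : FractionRing R →+* F := IsFractionRing.lift hinj
  have hφ : ∀ r : R, φ (algebraMap R (FractionRing R) r) = (r : F) := fun r =>
    IsFractionRing.lift_algebraMap hinj r
  have hint : IsIntegral R (φ x) := by
    obtain ⟨p, hp, hpx⟩ := hx
    refine ⟨p, hp, ?_⟩
    have h1 := congrArg φ hpx
    rw [map_zero, Polynomial.hom_eval₂] at h1
    have h2 : φ.comp (algebraMap R (FractionRing R)) = algebraMap R F := by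
      ext r
      exact hφ r
    rw [h2] at h1
    exact h1
  have hmem := h (φ x) hint
  refine ⟨⟨φ x, hmem⟩, ?_⟩
  apply φ.injective
  rw [hφ]

end IntClosed

variable {K F : Type*} [Field K] [Field F] [Algebra K F]

/-! ### The hypotheses -/

/-- An explicit local ring of a node: `𝔪 = (ϖ, u, v)`, `u * v = thick • ε₀`, inside two valuation
rings `O₁`, `O₂`. -/
structure ExplicitLevel (A : ValuationSubring K) (u v ε₀ : F) (thick : K) (R : Subring F)
    (K' : Subfield K) (ϖ : K) (O₁ O₂ : ValuationSubring F) : Prop where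
  noeth : IsNoetherianRing R
  isLocal : IsLocalRing R
  thick_ne : thick ≠ 0
  thick_lt : A.valuation thick < 1
  uv : u * v = thick • ε₀
  const_mem : ∀ c ∈ K', c ∈ A → algebraMap K F c ∈ R
  unif_mem : ϖ ∈ K'
  unif_ne : ϖ ≠ 0
  unif_lt : A.valuation ϖ < 1
  unif_max : ∀ c ∈ K', A.valuation c < 1 → A.valuation c ≤ A.valuation ϖ
  thick_mem : thick ∈ K'
  unif_memR : algebraMap K F ϖ ∈ R
  u_mem : u ∈ R
  v_mem : v ∈ R
  ε₀_mem : ε₀ ∈ R
  ε₀_inv_mem : ε₀⁻¹ ∈ R
  /-- the maximal ideal is `(ϖ, u, v)` -/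
  nonunit_mem : ∀ x : R, ¬ IsUnit x →
    x ∈ Ideal.span {(⟨algebraMap K F ϖ, unif_memR⟩ : R), ⟨u, u_mem⟩, ⟨v, v_mem⟩}
  le₁ : ∀ x ∈ R, x ∈ O₁
  le₂ : ∀ x ∈ R, x ∈ O₂
  unif_mem₁ : algebraMap K F ϖ ∈ O₁.nonunits
  unif_mem₂ : algebraMap K F ϖ ∈ O₂.nonunits
  u_mem₁ : u ∈ O₁.nonunits
  v_mem₂ : v ∈ O₂.nonunits
  v_notMem₁ : v ∉ O₁.nonunits
  u_notMem₂ : u ∉ O₂.nonunits

namespace ExplicitLevel

variable {A : ValuationSubring K} {u v ε₀ : F} {thick : K} {R : Subring F} {K' : Subfield K}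
  {ϖ : K} {O₁ O₂ : ValuationSubring F} (H : ExplicitLevel A u v ε₀ thick R K' ϖ O₁ O₂)

/-- the uniformizer, as an element of the ring -/
abbrev ϖR : R := ⟨algebraMap K F ϖ, H.unif_memR⟩

/-- the first coordinate, as an element of the ring -/
abbrev uR : R := ⟨u, H.u_mem⟩

/-- the second coordinate, as an element of the ring -/
abbrev vR : R := ⟨v, H.v_mem⟩

/-- the reduction to the first component -/
noncomputable def ρ₁ : R →+* ResidueField O₁ :=
  (residue O₁).comp (Subring.inclusion (fun x hx => H.le₁ x hx : R ≤ O₁.toSubring))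

/-- the reduction to the second component -/
noncomputable def ρ₂ : R →+* ResidueField O₂ :=
  (residue O₂).comp (Subring.inclusion (fun x hx => H.le₂ x hx : R ≤ O₂.toSubring))

theorem ρ₁_eq_zero_iff (x : R) : H.ρ₁ x = 0 ↔ (x : F) ∈ O₁.nonunits := by
  unfold ρ₁
  rw [RingHom.comp_apply, residue_eq_zero_iff,
    ValuationSubring.mem_nonunits_iff_exists_mem_maximalIdeal]
  constructor
  · intro h
    exact ⟨H.le₁ x x.2, h⟩
  · rintro ⟨_, h⟩
    exact h

theorem ρ₂_eq_zero_iff (x : R) : H.ρ₂ x = 0 ↔ (x : F) ∈ O₂.nonunits := by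
  unfold ρ₂
  rw [RingHom.comp_apply, residue_eq_zero_iff,
    ValuationSubring.mem_nonunits_iff_exists_mem_maximalIdeal]
  constructor
  · intro h
    exact ⟨H.le₂ x x.2, h⟩
  · rintro ⟨_, h⟩
    exact h

theorem ker_ρ₁ : RingHom.ker H.ρ₁ = trace O₁ R H.le₁ := by
  ext x
  rw [RingHom.mem_ker, H.ρ₁_eq_zero_iff, mem_trace_iff]

theorem ker_ρ₂ : RingHom.ker H.ρ₂ = trace O₂ R H.le₂ := by
  ext x
  rw [RingHom.mem_ker, H.ρ₂_eq_zero_iff, mem_trace_iff]

include H in
/-- `thick = ϖ * c` with `c` a constant of the level. -/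
theorem exists_thick_eq : ∃ c ∈ K', c ∈ A ∧ thick = ϖ * c := by
  refine ⟨thick / ϖ, div_mem H.thick_mem H.unif_mem, ?_, ?_⟩
  · rw [← A.valuation_le_one_iff, map_div₀]
    have hpos : 0 < A.valuation ϖ :=
      lt_of_le_of_ne zero_le ((Valuation.ne_zero_iff _).mpr H.unif_ne).symm
    exact (div_le_one₀ hpos).mpr (H.unif_max thick H.thick_mem H.thick_lt)
  · rw [mul_div_cancel₀ _ H.unif_ne]

/-- **The explicit node data of the level.** -/
theorem explicitNode :
    haveI := H.noeth
    haveI := H.isLocal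
    ExplicitNode H.ϖR H.uR H.vR H.ρ₁ H.ρ₂ := by
  have := H.noeth
  have := H.isLocal
  refine ⟨?_, ?_, ?_, ?_, ?_, ?_, ?_, ?_, ?_⟩
  · apply le_antisymm
    · intro x hx
      exact H.nonunit_mem x ((mem_maximalIdeal x).mp hx)
    · rw [Ideal.span_le]
      rintro x (rfl | rfl | hx)
      · exact (mem_maximalIdeal _).mpr (not_isUnit_of_mem_nonunits O₁ H.le₁ H.unif_mem₁)
      · exact (mem_maximalIdeal _).mpr (not_isUnit_of_mem_nonunits O₁ H.le₁ H.u_mem₁)
      · rw [Set.mem_singleton_iff] at hx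
        rw [hx]
        exact (mem_maximalIdeal _).mpr (not_isUnit_of_mem_nonunits O₂ H.le₂ H.v_mem₂)
  · obtain ⟨c, hcK, hcA, hc⟩ := H.exists_thick_eq
    rw [Ideal.mem_span_singleton']
    refine ⟨⟨algebraMap K F c, H.const_mem c hcK hcA⟩ * ⟨ε₀, H.ε₀_mem⟩, Subtype.ext ?_⟩
    show algebraMap K F c * ε₀ * algebraMap K F ϖ = u * v
    rw [H.uv, hc, Algebra.smul_def, map_mul]
    ring
  · intro h0
    have h1 : algebraMap K F ϖ = 0 := congrArg Subtype.val h0
    exact H.unif_ne ((map_eq_zero _).mp h1)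
  · exact (H.ρ₁_eq_zero_iff _).mpr H.unif_mem₁
  · exact (H.ρ₁_eq_zero_iff _).mpr H.u_mem₁
  · exact fun h => H.v_notMem₁ ((H.ρ₁_eq_zero_iff _).mp h)
  · exact (H.ρ₂_eq_zero_iff _).mpr H.unif_mem₂
  · exact (H.ρ₂_eq_zero_iff _).mpr H.v_mem₂
  · exact fun h => H.u_notMem₂ ((H.ρ₂_eq_zero_iff _).mp h)

/-- **The first vertical prime** is `(ϖ, u)`. -/
theorem trace_eq₁ : trace O₁ R H.le₁ = Ideal.span {H.ϖR, H.uR} := by
  have := H.noeth
  have := H.isLocal
  rw [← H.ker_ρ₁]
  exact H.explicitNode.ker_eq₁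

/-- **The second vertical prime** is `(ϖ, v)`. -/
theorem trace_eq₂ : trace O₂ R H.le₂ = Ideal.span {H.ϖR, H.vR} := by
  have := H.noeth
  have := H.isLocal
  rw [← H.ker_ρ₂]
  exact H.explicitNode.ker_eq₂

/-- **`p1 ⊓ p2 = (ϖ)`.** -/
theorem trace_inf : trace O₁ R H.le₁ ⊓ trace O₂ R H.le₂ = Ideal.span {H.ϖR} := by
  have := H.noeth
  have := H.isLocal
  rw [H.trace_eq₁, H.trace_eq₂]
  exact H.explicitNode.inf_eq

/-- **The vertical height-one primes** of the level are the traces of `𝔪(O₁)`, `𝔪(O₂)`. -/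
theorem vertical (Q : Ideal R) (hQ : Q.IsPrime) (hht : Q.height = 1) (hϖ : H.ϖR ∈ Q) :
    Q = trace O₁ R H.le₁ ∨ Q = trace O₂ R H.le₂ := by
  have := H.noeth
  have := H.isLocal
  rw [H.trace_eq₁, H.trace_eq₂]
  exact H.explicitNode.vertical Q hQ hht hϖ

include H in
/-- **Normality**: the level is integrally closed as soon as every element of `F` integral over
it lies in `R[1/ϖ]`. -/
theorem isIntegrallyClosed
    (hgen : ∀ x : F, IsIntegral R x → ∃ r : ℕ, algebraMap K F ϖ ^ r * x ∈ R) :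
    IsIntegrallyClosed R := by
  have := H.noeth
  have := H.isLocal
  apply isIntegrallyClosed_of_forall_mem
  intro x hx
  obtain ⟨r, hr⟩ := hgen x hx
  have hϖ0 : algebraMap K F ϖ ≠ 0 := (map_ne_zero _).mpr H.unif_ne
  refine NormalCrit.mem_of_isIntegral_of_reduced_fibre R H.unif_memR hϖ0 ?_ hx hr
  rintro y hy ⟨n, z, hz, hyz⟩
  have h1 : (⟨y, hy⟩ : R) ^ n ∈ Ideal.span {H.ϖR} := by
    rw [Ideal.mem_span_singleton']
    refine ⟨⟨z, hz⟩, Subtype.ext ?_⟩
    show z * algebraMap K F ϖ = y ^ n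
    rw [hyz, mul_comm]
  have h2 := H.explicitNode.reduced ⟨y, hy⟩ ⟨n, h1⟩
  obtain ⟨w, hw⟩ := Ideal.mem_span_singleton'.mp h2
  refine ⟨w, w.2, ?_⟩
  have h3 : (w : F) * algebraMap K F ϖ = y := congrArg Subtype.val hw
  rw [← h3, mul_comm]

/-- **One finite level of the annulus level data from an explicit local ring.** -/
noncomputable def nodeLevelOfExplicit (T : Set (Place K F))
    (hgen : ∀ x : F, IsIntegral R x → ∃ r : ℕ, algebraMap K F ϖ ^ r * x ∈ R)
    (residue : ∀ y : R, ∃ (a : A) (h : algebraMap K F a ∈ R),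
      ¬ IsUnit (y - ⟨algebraMap K F a, h⟩))
    (centred : ∀ P ∈ T, CentredAt A R P)
    (horiz : ∀ Q : Ideal R, Q.IsPrime → Q.height = 1 → H.ϖR ∉ Q →
      ∃ P ∈ T, ∀ x : R, x ∈ Q ↔ evalAt P (x : F) = 0) :
    NodeLevel A T u v ε₀ thick :=
  AnnulusN2Level.nodeLevelOfFields A T H.thick_ne H.thick_lt H.uv R K' ϖ H.noeth
    (H.isIntegrallyClosed hgen) H.isLocal H.const_mem H.unif_mem H.unif_ne H.unif_lt H.unif_max
    H.thick_mem H.unif_memR H.u_mem H.v_mem H.ε₀_mem H.ε₀_inv_mem H.nonunit_mem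
    (trace O₁ R H.le₁) (trace O₂ R H.le₂) (trace_isPrime O₁ _ _) (trace_isPrime O₂ _ _)
    H.unif_mem₁ H.unif_mem₂ H.u_mem₁ H.v_mem₂ H.v_notMem₁ H.u_notMem₂ H.vertical residue centred
    horiz

@[simp] theorem nodeLevelOfExplicit_R (T : Set (Place K F)) hgen residue centred horiz :
    (H.nodeLevelOfExplicit T hgen residue centred horiz).R = R := rfl

@[simp] theorem nodeLevelOfExplicit_K' (T : Set (Place K F)) hgen residue centred horiz :
    (H.nodeLevelOfExplicit T hgen residue centred horiz).K' = K' := rfl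

@[simp] theorem nodeLevelOfExplicit_ϖ (T : Set (Place K F)) hgen residue centred horiz :
    (H.nodeLevelOfExplicit T hgen residue centred horiz).ϖ = ϖ := rfl

theorem nodeLevelOfExplicit_p1 (T : Set (Place K F)) hgen residue centred horiz :
    (H.nodeLevelOfExplicit T hgen residue centred horiz).p1 = trace O₁ R H.le₁ := rfl

theorem nodeLevelOfExplicit_p2 (T : Set (Place K F)) hgen residue centred horiz :
    (H.nodeLevelOfExplicit T hgen residue centred horiz).p2 = trace O₂ R H.le₂ := rfl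

end ExplicitLevel

/-! ### The family -/

/-- A directed family of explicit local rings of a node with tube `T`, exhausting `F` and `K`, with
the SAME coordinates `u`, `v` at all levels. -/
structure ExplicitLevels (A : ValuationSubring K) (T : Set (Place K F)) (u v ε₀ : F) (thick : K)
    {ι : Type*} (R : ι → Subring F) (K' : ι → Subfield K) (ϖ : ι → K)
    (O₁ O₂ : ValuationSubring F) : Prop where
  thick_ne : thick ≠ 0
  thick_lt : A.valuation thick < 1
  uv : u * v = thick • ε₀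
  level : ∀ i, ExplicitLevel A u v ε₀ thick (R i) (K' i) (ϖ i) O₁ O₂
  /-- the generic fibres are normal -/
  hgen : ∀ i, ∀ x : F, IsIntegral (R i) x → ∃ r : ℕ, algebraMap K F (ϖ i) ^ r * x ∈ R i
  /-- the residue field of the levels is the residue field of `A` -/
  residue : ∀ i, ∀ y : R i, ∃ (a : A) (h : algebraMap K F a ∈ R i),
    ¬ IsUnit (y - ⟨algebraMap K F a, h⟩)
  centred : ∀ i, ∀ P ∈ T, CentredAt A (R i) P
  /-- the places over the horizontal height-one primes -/
  horiz : ∀ i, ∀ Q : Ideal (R i), Q.IsPrime → Q.height = 1 → (level i).ϖR ∉ Q →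
    ∃ P ∈ T, ∀ x : R i, x ∈ Q ↔ evalAt P (x : F) = 0
  directed : ∀ i j, ∃ l, R i ≤ R l ∧ R j ≤ R l ∧ K' i ≤ K' l ∧ K' j ≤ K' l
  frac : ∀ y : F, ∃ i, ∃ a b : R i, b ≠ 0 ∧ y * (b : F) = (a : F)
  const : ∀ c : K, ∃ i, c ∈ K' i
  finite_div : ∀ y : F, y ≠ 0 → {P : Place K F | P.ord y ≠ 0}.Finite

namespace ExplicitLevels

variable {A : ValuationSubring K} {T : Set (Place K F)} {u v ε₀ : F} {thick : K} {ι : Type*}
  {R : ι → Subring F} {K' : ι → Subfield K} {ϖ : ι → K} {O₁ O₂ : ValuationSubring F}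
  (H : ExplicitLevels A T u v ε₀ thick R K' ϖ O₁ O₂)

/-- one level of the family -/
noncomputable def nodeLevel (i : ι) : NodeLevel A T u v ε₀ thick :=
  (H.level i).nodeLevelOfExplicit T (H.hgen i) (H.residue i) (H.centred i) (H.horiz i)

@[simp] theorem nodeLevel_R (i : ι) : (H.nodeLevel i).R = R i := rfl

@[simp] theorem nodeLevel_K' (i : ι) : (H.nodeLevel i).K' = K' i := rfl

@[simp] theorem nodeLevel_ϖ (i : ι) : (H.nodeLevel i).ϖ = ϖ i := rfl

/-- **The level data of the tube of a node from a family of explicit local rings.** -/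
noncomputable def levels : AnnulusLevels A T ι where
  u := u
  v := v
  ε₀ := ε₀
  thick := thick
  thick_ne := H.thick_ne
  thick_lt := H.thick_lt
  uv := H.uv
  level := H.nodeLevel
  directed := H.directed
  frac := H.frac
  const := H.const
  finite_div := H.finite_div

@[simp] theorem levels_u : H.levels.u = u := rfl

@[simp] theorem levels_v : H.levels.v = v := rfl

@[simp] theorem levels_thick : H.levels.thick = thick := rfl

@[simp] theorem levels_ε₀ : H.levels.ε₀ = ε₀ := rfl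

theorem levels_level (i : ι) : H.levels.level i = H.nodeLevel i := rfl

theorem levels_R (i : ι) : (H.levels.level i).R = R i := rfl

end ExplicitLevels

end Fermat.Agent.BR3.NodeLevelExplicit
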