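/-
Program C (S36), node A8 / (C-ANN)(b), layer L2, CORRECTED normality hypothesis (helper8; bug
report helper19).

`BR3/NodeLevelExplicit` asks for `hgen : ∀ x : F, IsIntegral R x → ∃ r, ϖ ^ r * x ∈ R`, with `x`
ranging over ALL of `F`.  At an honest finite level this can not be proved (a constant of `K` which
is integral over `A ∩ K'` but does not lie in `K'` is integral over `R` and no multiple `ϖ ^ r * x`
lies in `R ⊆ K'(curve)`).  The correct hypothesis ranges over the FRACTIONS `a / b` of `R` only: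

  `hgen : ∀ a b : R, b ≠ 0 → IsIntegral R (a / b) → ∃ r, ϖ ^ r * (a / b) ∈ R`

("the generic fibre `R[1/ϖ]` is integrally closed").  This file redoes the three consumers of the
hypothesis with the corrected form; everything else of `BR3/NodeLevelExplicit` (`ExplicitLevel`,
`explicitNode`, `trace_eq₁/₂`, `trace_inf`, `vertical`) is used unchanged.

* `isIntegrallyClosed_of_frac` : normality of an `ExplicitLevel` from the corrected `hgen`;
* `nodeLevelOfFrac : S0.NodeLevel A T u v ε₀ thick` (`.R = R`, `.K' = K'`, `.ϖ = ϖ`,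
  `.p1 = trace O₁ R`, `.p2 = trace O₂ R`);
* `FracLevels` (the family, corrected field `hgen`), `FracLevels.nodeLevel`,
  `FracLevels.levels : AnnulusLevels A T ι` with the `rfl` lemmas.

DO NOT instantiate `NodeLevelExplicit.ExplicitLevels`; instantiate `NodeLevelFrac.FracLevels`.
-/
import Mathlib
import Fermat.Agent.BR3.NodeLevelExplicit
import Fermat.Agent.BR3.EtaleLocal

set_option autoImplicit false
set_option linter.unusedSectionVars false

namespace Fermat.Agent.BR3.NodeLevelFrac

open AlgebraicCurve IsLocalRing Fermat.Agent.Red Fermat.Agent.BR Fermat.Agent.BR.Centre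
  Fermat.Agent.BR.S0 Fermat.Agent.BR3.NodeCrit Fermat.Agent.BR3.NodeLevelExplicit
open Fermat.Agent.BR.Inst.LevelsAnnulus (trace mem_trace_iff trace_isPrime
  not_isUnit_of_mem_nonunits)

variable {K F : Type*} [Field K] [Field F] [Algebra K F]

section Level

variable {A : ValuationSubring K} {u v ε₀ : F} {thick : K} {R : Subring F} {K' : Subfield K}
  {ϖ : K} {O₁ O₂ : ValuationSubring F} (H : ExplicitLevel A u v ε₀ thick R K' ϖ O₁ O₂)

include H in
/-- **Normality**: the level is integrally closed as soon as every FRACTION of `R` integral over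
`R` lies in `R[1/ϖ]`. -/
theorem isIntegrallyClosed_of_frac
    (hgen : ∀ a b : R, b ≠ 0 → IsIntegral R ((a : F) / (b : F)) →
      ∃ r : ℕ, algebraMap K F ϖ ^ r * ((a : F) / (b : F)) ∈ R) :
    IsIntegrallyClosed R := by
  have := H.noeth
  have := H.isLocal
  apply EtaleLocal.isIntegrallyClosed_subring
  intro a b hb hx
  obtain ⟨r, hr⟩ := hgen a b hb hx
  have hϖ0 : algebraMap K F ϖ ≠ 0 := (map_ne_zero _).mpr H.unif_ne
  refine NormalCrit.mem_of_isIntegral_of_reduced_fibre R H.unif_memR hϖ0 ?_ hx hr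
  rintro y hy ⟨n, z, hz, hyz⟩
  have h1 : (⟨y, hy⟩ : R) ^ n ∈ Ideal.span {H.ϖR} := by
    rw [Ideal.mem_span_singleton']
    refine ⟨⟨z, hz⟩, Subtype.ext ?_⟩
    show z * algebraMap K F ϖ = y ^ n
    rw [hyz, mul_comm]
  have h2 := H.explicitNode.reduced ⟨y, hy⟩ ⟨n, h1⟩
  obtain ⟨w, hw⟩ := Ideal.mem_span_singleton'.mp h2
  refine ⟨w, w.2, ?_⟩
  have h3 : (w : F) * algebraMap K F ϖ = y := congrArg Subtype.val hw
  rw [← h3, mul_comm]

/-- **One finite level of the annulus level data from an explicit local ring** (corrected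
normality hypothesis). -/
noncomputable def nodeLevelOfFrac (T : Set (Place K F))
    (hgen : ∀ a b : R, b ≠ 0 → IsIntegral R ((a : F) / (b : F)) →
      ∃ r : ℕ, algebraMap K F ϖ ^ r * ((a : F) / (b : F)) ∈ R)
    (residue : ∀ y : R, ∃ (a : A) (h : algebraMap K F a ∈ R),
      ¬ IsUnit (y - ⟨algebraMap K F a, h⟩))
    (centred : ∀ P ∈ T, CentredAt A R P)
    (horiz : ∀ Q : Ideal R, Q.IsPrime → Q.height = 1 → H.ϖR ∉ Q →
      ∃ P ∈ T, ∀ x : R, x ∈ Q ↔ evalAt P (x : F) = 0) :
    NodeLevel A T u v ε₀ thick :=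
  AnnulusN2Level.nodeLevelOfFields A T H.thick_ne H.thick_lt H.uv R K' ϖ H.noeth
    (isIntegrallyClosed_of_frac H hgen) H.isLocal H.const_mem H.unif_mem H.unif_ne H.unif_lt
    H.unif_max H.thick_mem H.unif_memR H.u_mem H.v_mem H.ε₀_mem H.ε₀_inv_mem H.nonunit_mem
    (trace O₁ R H.le₁) (trace O₂ R H.le₂) (trace_isPrime O₁ _ _) (trace_isPrime O₂ _ _)
    H.unif_mem₁ H.unif_mem₂ H.u_mem₁ H.v_mem₂ H.v_notMem₁ H.u_notMem₂ H.vertical residue centred
    horiz

@[simp] theorem nodeLevelOfFrac_R (T : Set (Place K F)) hgen residue centred horiz :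
    (nodeLevelOfFrac H T hgen residue centred horiz).R = R := rfl

@[simp] theorem nodeLevelOfFrac_K' (T : Set (Place K F)) hgen residue centred horiz :
    (nodeLevelOfFrac H T hgen residue centred horiz).K' = K' := rfl

@[simp] theorem nodeLevelOfFrac_ϖ (T : Set (Place K F)) hgen residue centred horiz :
    (nodeLevelOfFrac H T hgen residue centred horiz).ϖ = ϖ := rfl

theorem nodeLevelOfFrac_p1 (T : Set (Place K F)) hgen residue centred horiz :
    (nodeLevelOfFrac H T hgen residue centred horiz).p1 = trace O₁ R H.le₁ := rfl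

theorem nodeLevelOfFrac_p2 (T : Set (Place K F)) hgen residue centred horiz :
    (nodeLevelOfFrac H T hgen residue centred horiz).p2 = trace O₂ R H.le₂ := rfl

end Level

/-! ### The family -/

/-- A directed family of explicit local rings of a node with tube `T`, exhausting `F` and `K`, with
the SAME coordinates `u`, `v` at all levels (corrected normality field `hgen`). -/
structure FracLevels (A : ValuationSubring K) (T : Set (Place K F)) (u v ε₀ : F) (thick : K)
    {ι : Type*} (R : ι → Subring F) (K' : ι → Subfield K) (ϖ : ι → K)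
    (O₁ O₂ : ValuationSubring F) : Prop where
  thick_ne : thick ≠ 0
  thick_lt : A.valuation thick < 1
  uv : u * v = thick • ε₀
  level : ∀ i, ExplicitLevel A u v ε₀ thick (R i) (K' i) (ϖ i) O₁ O₂
  /-- the generic fibres are normal -/
  hgen : ∀ i, ∀ a b : R i, b ≠ 0 → IsIntegral (R i) ((a : F) / (b : F)) →
    ∃ r : ℕ, algebraMap K F (ϖ i) ^ r * ((a : F) / (b : F)) ∈ R i
  /-- the residue field of the levels is the residue field of `A` -/
  residue : ∀ i, ∀ y : R i, ∃ (a : A) (h : algebraMap K F a ∈ R i),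
    ¬ IsUnit (y - ⟨algebraMap K F a, h⟩)
  centred : ∀ i, ∀ P ∈ T, CentredAt A (R i) P
  /-- the places over the horizontal height-one primes -/
  horiz : ∀ i, ∀ Q : Ideal (R i), Q.IsPrime → Q.height = 1 → (level i).ϖR ∉ Q →
    ∃ P ∈ T, ∀ x : R i, x ∈ Q ↔ evalAt P (x : F) = 0
  directed : ∀ i j, ∃ l, R i ≤ R l ∧ R j ≤ R l ∧ K' i ≤ K' l ∧ K' j ≤ K' l
  frac : ∀ y : F, ∃ i, ∃ a b : R i, b ≠ 0 ∧ y * (b : F) = (a : F)
  const : ∀ c : K, ∃ i, c ∈ K' i
  finite_div : ∀ y : F, y ≠ 0 → {P : Place K F | P.ord y ≠ 0}.Finite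

namespace FracLevels

variable {A : ValuationSubring K} {T : Set (Place K F)} {u v ε₀ : F} {thick : K} {ι : Type*}
  {R : ι → Subring F} {K' : ι → Subfield K} {ϖ : ι → K} {O₁ O₂ : ValuationSubring F}
  (H : FracLevels A T u v ε₀ thick R K' ϖ O₁ O₂)

/-- one level of the family -/
noncomputable def nodeLevel (i : ι) : NodeLevel A T u v ε₀ thick :=
  nodeLevelOfFrac (H.level i) T (H.hgen i) (H.residue i) (H.centred i) (H.horiz i)

@[simp] theorem nodeLevel_R (i : ι) : (H.nodeLevel i).R = R i := rfl

@[simp] theorem nodeLevel_K' (i : ι) : (H.nodeLevel i).K' = K' i := rfl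

@[simp] theorem nodeLevel_ϖ (i : ι) : (H.nodeLevel i).ϖ = ϖ i := rfl

theorem nodeLevel_p1 (i : ι) : (H.nodeLevel i).p1 = trace O₁ (R i) (H.level i).le₁ := rfl

theorem nodeLevel_p2 (i : ι) : (H.nodeLevel i).p2 = trace O₂ (R i) (H.level i).le₂ := rfl

/-- **The level data of the tube of a node from a family of explicit local rings.** -/
noncomputable def levels : AnnulusLevels A T ι where
  u := u
  v := v
  ε₀ := ε₀
  thick := thick
  thick_ne := H.thick_ne
  thick_lt := H.thick_lt
  uv := H.uv
  level := H.nodeLevel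
  directed := H.directed
  frac := H.frac
  const := H.const
  finite_div := H.finite_div

@[simp] theorem levels_u : H.levels.u = u := rfl

@[simp] theorem levels_v : H.levels.v = v := rfl

@[simp] theorem levels_thick : H.levels.thick = thick := rfl

@[simp] theorem levels_ε₀ : H.levels.ε₀ = ε₀ := rfl

theorem levels_level (i : ι) : H.levels.level i = H.nodeLevel i := rfl

theorem levels_R (i : ι) : (H.levels.level i).R = R i := rfl

end FracLevels

end Fermat.Agent.BR3.NodeLevelFrac
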