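/-
Program C (S36), node (I7-N-KUM), layer 1 (helper8): THE LEVEL DATA OF A KUMMER SHEET OVER A NODE.

`F₂ / F` a finite extension of function fields over `K`, `A ⊆ K` a valuation ring,
`L : S0.AnnulusLevels A T ι` the level data of the tube `T` of a node of `F` (e.g. the outer
sub-annulus of a node of `S′`, A7s), base coordinates `y' := L.u`, `x' := L.v`.
Upstairs: `X Y θ U : F₂`, `c₀ : A`, with `X * Y = thick₂`, `L.thick = κ₀ * thick₂ ^ d`,
(K1) `L.u = θ * X ^ d`, (K3) `θ` is near the simple root `c₀` of some polynomial modulo `(ϖ, X, Y)`.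

* Part 0 (complements to `BR3/KummerEnd`): `kummerRing_mono`, `residue_kummerRing` (same residue
  field as the base);
* `kummerTube A T X Y θ c₀` : the places over `T` at which `X`, `Y`, `θ - c₀` are small;
* `KummerHyp L X Y θ U c₀ κ₀ thick₂ d 𝒪₁ 𝒪₂ O₁ O₂` : the hypotheses (twin of
  `SplitLevels.SheetHyp`);
* `KummerHyp.ring i = KummerEnd.kummerRing 𝒪₁ _` over the level `i`;
  `KummerHyp.explicitLevel`, `KummerHyp.fracLevels :
    NodeLevelFrac.FracLevels A (kummerTube A T X Y θ c₀) X Y 1 thick₂ H.ring K' ϖ O₁ O₂`,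
  `KummerHyp.levels : S0.AnnulusLevels A (kummerTube A T X Y θ c₀) ι` (`u = X`, `v = Y`, `ε₀ = 1`,
  `thick = thick₂`), `mem_kummerTube_of_centredAt`.
-/
import Mathlib
import Fermat.Agent.BR3.KummerEnd
import Fermat.Agent.BR3.KummerEuler
import Fermat.Agent.BR3.KummerEndPlaces
import Fermat.Agent.BR3.NodeLevelFrac
import Fermat.Agent.BR3.CoverSmooth.Basic

set_option autoImplicit false
set_option linter.unusedSectionVars false
set_option linter.style.haveILetI false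

noncomputable section

/- S36 build-time patch: file-local shortcut instances. They only shorten instance search;
each is the instance that the search finds anyway (reducible, same terms after unfolding). -/
local instance (priority := 100000) Fermat.Agent.BR3.FastInst.instAlgFullC_KummerLevels
    {k : Type*} [Field k] (N : ℕ) :
    Algebra k ↥(ModularCurve.modularFunctionFieldFullC k N) := inferInstance
local instance (priority := 100000) Fermat.Agent.BR3.FastInst.instFieldFullC_KummerLevels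
    {k : Type*} [Field k] (N : ℕ) :
    Field ↥(ModularCurve.modularFunctionFieldFullC k N) := inferInstance
local instance (priority := 100000) Fermat.Agent.BR3.FastInst.instAlgLaurent_KummerLevels
    {k : Type*} [Field k] : Algebra k (LaurentSeries k) := inferInstance


namespace Fermat.Agent.BR3.KummerLevels

open Polynomial IsLocalRing AlgebraicCurve Fermat.Agent.Red Fermat.Agent.BR.Centre
  Fermat.Agent.BR.S0 Fermat.Agent.BR.Inst.LocSub Fermat.Agent.BR3.KummerEnd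
  Fermat.Agent.BR3.NodeLevelExplicit Fermat.Agent.BR3.NodeLevelFrac
  Fermat.Agent.BR3.CoverSmooth
open Fermat.Agent.BR.Inst.LevelsAnnulus (trace mem_trace_iff trace_isPrime nonunits_add
  nonunits_sub mem_mul_nonunits nonunits_mul_mem zero_mem_nonunits one_notMem_nonunits)

attribute [local instance] Fermat.Agent.BR.Inst.LevelsAnnulus.trace_isPrime

/-! ### Part 0: complements to `BR3/KummerEnd` -/

section Complements

variable {F : Type*} [Field F] {X Y θ : F} (𝒪 : ValuationSubring F)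

/-- **Monotonicity in the base ring** (same valuation ring `𝒪`). -/
theorem kummerRing_mono {R₁ R₂ : Type*} [CommRing R₁] [CommRing R₂] [Algebra R₁ F] [Algebra R₂ F]
    (h₁ : ∀ x ∈ kummerAdj R₁ X Y θ, x ∈ 𝒪) (h₂ : ∀ x ∈ kummerAdj R₂ X Y θ, x ∈ 𝒪)
    (hle : ∀ r : R₁, algebraMap R₁ F r ∈ kummerAdj R₂ X Y θ) :
    kummerRing 𝒪 h₁ ≤ kummerRing 𝒪 h₂ := by
  have hadj : kummerAdj R₁ X Y θ ≤ kummerAdj R₂ X Y θ :=
    kummerAdj_le hle (X_mem_kummerAdj R₂ X Y θ) (Y_mem_kummerAdj R₂ X Y θ)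
      (θ_mem_kummerAdj R₂ X Y θ)
  unfold kummerRing
  exact locSub_mono hadj fun x hx => hx

variable {R' : Type*} [CommRing R'] [IsLocalRing R'] [Algebra R' F]
  (h𝒪 : ∀ x ∈ kummerAdj R' X Y θ, x ∈ 𝒪)

/-- **The local ring of the Kummer end has the same residue field as the base.** -/
theorem residue_kummerRing {ϖ x' y' c : R'}
    (hmax : maximalIdeal R' = Ideal.span {ϖ, x', y'})
    (hϖ : algebraMap R' F ϖ ∈ 𝒪.nonunits) (hx'𝒪 : algebraMap R' F x' ∈ 𝒪.nonunits)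
    (hy'𝒪 : algebraMap R' F y' ∈ 𝒪.nonunits) (hX : X ∈ 𝒪.nonunits) (hY : Y ∈ 𝒪.nonunits)
    (hθ : θ - algebraMap R' F c ∈ 𝒪.nonunits) (y : kummerRing 𝒪 h𝒪) :
    ∃ r : R', ¬ IsUnit (y - toKummer 𝒪 h𝒪 r) := by
  have htr := trace_eq_kummerIdeal 𝒪 h𝒪 hmax hϖ hx'𝒪 hy'𝒪 hX hY hθ
  obtain ⟨y, hy⟩ := y
  have hy' := hy
  obtain ⟨a, b, hb, hab⟩ := hy'
  replace hab : y * (b : F) = (a : F) := hab
  obtain ⟨ra, hra⟩ := exists_sub_mem_span R' X Y θ c a
  obtain ⟨rb, hrb⟩ := exists_sub_mem_span R' X Y θ c b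
  have hra' : a - toKAdj R' X Y θ ra ∈ trace 𝒪 (kummerAdj R' X Y θ) h𝒪 := by
    rw [htr]
    exact span_le_kummerIdeal ϖ x' y' c hra
  have hrb' : b - toKAdj R' X Y θ rb ∈ trace 𝒪 (kummerAdj R' X Y θ) h𝒪 := by
    rw [htr]
    exact span_le_kummerIdeal ϖ x' y' c hrb
  -- `rb` is a unit of `R'`
  have hrbu : IsUnit rb := by
    by_contra hu
    apply hb
    have h1 : toKAdj R' X Y θ rb ∈ trace 𝒪 (kummerAdj R' X Y θ) h𝒪 := by
      rw [htr]
      exact toKAdj_mem_kummerIdeal c hmax ((mem_maximalIdeal rb).mpr hu)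
    have := (trace 𝒪 (kummerAdj R' X Y θ) h𝒪).add_mem hrb' h1
    rwa [sub_add_cancel] at this
  obtain ⟨rbi, hrbi⟩ := hrbu.exists_right_inv
  refine ⟨ra * rbi, ?_⟩
  rw [not_isUnit_iff_mem_nonunits]
  show y - algebraMap R' F (ra * rbi) ∈ 𝒪.nonunits
  -- `(y - r) * b = (a - ra) - r * (b - rb)`
  have hnum : (y - algebraMap R' F (ra * rbi)) * (b : F) =
      ((a : F) - algebraMap R' F ra) -
        algebraMap R' F (ra * rbi) * ((b : F) - algebraMap R' F rb) := by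
    have h1 : algebraMap R' F (ra * rbi) * algebraMap R' F rb = algebraMap R' F ra := by
      rw [← map_mul, mul_assoc, mul_comm rbi rb, hrbi, mul_one]
    rw [sub_mul, hab, mul_sub, h1]
    ring
  have hnumlt : (y - algebraMap R' F (ra * rbi)) * (b : F) ∈ 𝒪.nonunits := by
    rw [hnum]
    refine nonunits_sub 𝒪 hra' (mem_mul_nonunits 𝒪 ?_ hrb')
    exact h𝒪 _ (algebraMap_mem_kummerAdj R' X Y θ _)
  have hbv : 𝒪.valuation (b : F) = 1 := by
    have h1 : (b : F) ∉ 𝒪.nonunits := hb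
    rw [𝒪.mem_nonunits_iff, not_lt] at h1
    exact le_antisymm ((𝒪.valuation_le_one_iff _).mpr (h𝒪 b b.2)) h1
  rw [𝒪.mem_nonunits_iff] at hnumlt ⊢
  rwa [map_mul, hbv, mul_one] at hnumlt

end Complements

/-! ### The hypotheses -/

section Family

attribute [local instance] NodeLevel.isLocal NodeLevel.noeth NodeLevel.intClosed

variable {K F F₂ : Type*} [Field K] [Field F] [Field F₂] [Algebra K F] [Algebra K F₂]
  [Algebra F F₂] [IsScalarTower K F F₂] [Algebra.IsIntegral F F₂] [CharZero F₂]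
  {A : ValuationSubring K} {T : Set (Place K F)} {ι : Type*}

/-- The tube of the Kummer sheet: the places over `T` at which `X`, `Y` and `θ - c₀` are small. -/
def kummerTube (A : ValuationSubring K) (T : Set (Place K F)) (X Y θ : F₂) (c₀ : A) :
    Set (Place K F₂) :=
  {P₂ | P₂.restrict F ∈ T ∧ (∃ d : K, IsValueAt P₂ X d ∧ A.valuation d < 1) ∧
    (∃ d : K, IsValueAt P₂ Y d ∧ A.valuation d < 1) ∧
    ∃ d : K, IsValueAt P₂ θ d ∧ A.valuation (d - (c₀ : K)) < 1}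

/-- the uniformizer of the level `i`, as an element of the level ring -/
abbrev piL (L : AnnulusLevels A T ι) (i : ι) : (L.level i).R :=
  ⟨algebraMap K F (L.level i).ϖ, (L.level i).unif_memR⟩

/-- the first coordinate, as an element of the level ring -/
abbrev uL (L : AnnulusLevels A T ι) (i : ι) : (L.level i).R := ⟨L.u, (L.level i).u_mem⟩

/-- the second coordinate, as an element of the level ring -/
abbrev vL (L : AnnulusLevels A T ι) (i : ι) : (L.level i).R := ⟨L.v, (L.level i).v_mem⟩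

theorem algebraMap_level_apply (L : AnnulusLevels A T ι) (i : ι) (r : (L.level i).R) :
    algebraMap (L.level i).R F₂ r = algebraMap F F₂ (r : F) := rfl

/-- **The hypotheses of a Kummer sheet** over a family of levels of the tube `T` of a node. -/
structure KummerHyp (L : AnnulusLevels A T ι) (X Y θ U : F₂) (c₀ : A) (κ₀ thick₂ : K) (d : ℕ)
    (𝒪₁ 𝒪₂ O₁ O₂ : ValuationSubring F₂) : Prop where
  d_pos : 1 ≤ d
  thick₂_ne : thick₂ ≠ 0
  thick₂_lt : A.valuation thick₂ < 1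
  XY : X * Y = algebraMap K F₂ thick₂
  thick_eq : L.thick = κ₀ * thick₂ ^ d
  κ₀_mem : κ₀ ∈ A
  X_ne : X ≠ 0
  /-- (K1) -/
  K1 : algebraMap F F₂ L.u = θ * X ^ d
  c₀_unit : A.valuation (c₀ : K) = 1
  c₀_mem : ∀ i, (c₀ : K) ∈ (L.level i).K'
  κ₀_memK : ∀ i, κ₀ ∈ (L.level i).K'
  thick₂_mem : ∀ i, thick₂ ∈ (L.level i).K'
  le₁ : 𝒪₁ ≤ O₁
  le₂ : 𝒪₂ ≤ O₂
  mem₁ : ∀ i, ∀ x ∈ kummerAdj (L.level i).R X Y θ, x ∈ 𝒪₁
  mem₂ : ∀ i, ∀ x ∈ kummerAdj (L.level i).R X Y θ, x ∈ 𝒪₂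
  unif_mem₁ : ∀ i, algebraMap K F₂ (L.level i).ϖ ∈ O₁.nonunits
  unif_mem₂ : ∀ i, algebraMap K F₂ (L.level i).ϖ ∈ O₂.nonunits
  X_mem₁ : X ∈ O₁.nonunits
  Y_notMem₁ : Y ∉ O₁.nonunits
  Y_mem₂ : Y ∈ O₂.nonunits
  X_notMem₂ : X ∉ O₂.nonunits
  Y_small₁ : Y ∈ 𝒪₁.nonunits
  X_small₂ : X ∈ 𝒪₂.nonunits
  θ_small₁ : θ - algebraMap K F₂ (c₀ : K) ∈ 𝒪₁.nonunits
  θ_small₂ : θ - algebraMap K F₂ (c₀ : K) ∈ 𝒪₂.nonunits
  /-- (K3) -/
  K3 : ∀ i, ∃ P : (L.level i).R[X],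
    P.eval (⟨algebraMap K F (c₀ : K), (L.level i).const_mem _ (c₀_mem i) c₀.2⟩ : (L.level i).R) ∈
      maximalIdeal (L.level i).R ∧
    IsUnit (P.derivative.eval
      (⟨algebraMap K F (c₀ : K), (L.level i).const_mem _ (c₀_mem i) c₀.2⟩ : (L.level i).R)) ∧
    ∃ a ∈ kummerRing 𝒪₁ (mem₁ i), ∃ b ∈ kummerRing 𝒪₁ (mem₁ i), ∃ e ∈ kummerRing 𝒪₁ (mem₁ i),
      aeval θ P = a * algebraMap K F₂ (L.level i).ϖ + b * X + e * Y
  U_int : ∀ i, IsIntegral (L.level i).R U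
  U_mem : ∀ i, U ∈ kummerRing 𝒪₁ (mem₁ i)
  den_X : ∀ i, KummerEuler.HasDen (L.level i).R U (algebraMap K F₂ (L.level i).ϖ)
    (kummerRing 𝒪₁ (mem₁ i)) X
  den_Y : ∀ i, KummerEuler.HasDen (L.level i).R U (algebraMap K F₂ (L.level i).ϖ)
    (kummerRing 𝒪₁ (mem₁ i)) Y
  den_θ : ∀ i, KummerEuler.HasDen (L.level i).R U (algebraMap K F₂ (L.level i).ϖ)
    (kummerRing 𝒪₁ (mem₁ i)) θ
  hΨ : ∀ i, ∃ w ∈ kummerRing 𝒪₁ (mem₁ i), ∃ r : ℕ,
    aeval U (derivative (minpoly (L.level i).R U)) * w = algebraMap K F₂ (L.level i).ϖ ^ r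
  gen : ∀ y : F₂, ∃ p : F[X], aeval U p = y
  finite_div : ∀ y : F₂, y ≠ 0 → {P : Place K F₂ | P.ord y ≠ 0}.Finite
  horiz : ∀ i, ∀ Q : Ideal (kummerRing 𝒪₁ (mem₁ i)), Q.IsPrime → Q.height = 1 →
    toKummer 𝒪₁ (mem₁ i) (piL L i) ∉ Q →
    ∃ P ∈ kummerTube A T X Y θ c₀, ∀ x : kummerRing 𝒪₁ (mem₁ i), x ∈ Q ↔ evalAt P (x : F₂) = 0

namespace KummerHyp

variable {L : AnnulusLevels A T ι} {X Y θ U : F₂} {c₀ : A} {κ₀ thick₂ : K} {d : ℕ}
  {𝒪₁ 𝒪₂ O₁ O₂ : ValuationSubring F₂} (H : KummerHyp L X Y θ U c₀ κ₀ thick₂ d 𝒪₁ 𝒪₂ O₁ O₂)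

/-- the constant `c₀`, as an element of the level `i` -/
def cL (i : ι) : (L.level i).R :=
  ⟨algebraMap K F (c₀ : K), (L.level i).const_mem _ (H.c₀_mem i) c₀.2⟩

/-- the constant `κ = κ₀ * ε₀` of (K2), as an element of the level `i` -/
def κL (i : ι) : (L.level i).R :=
  ⟨algebraMap K F κ₀ * L.ε₀, (L.level i).R.mul_mem
    ((L.level i).const_mem _ (H.κ₀_memK i) H.κ₀_mem) (L.level i).ε₀_mem⟩

/-- the local ring of the Kummer sheet over the level `i` -/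
abbrev ring (i : ι) : Subring F₂ := kummerRing 𝒪₁ (H.mem₁ i)

/-! #### Basic facts -/

include H

theorem hmax (i : ι) :
    maximalIdeal (L.level i).R = Ideal.span {piL L i, vL L i, uL L i} := by
  apply le_antisymm
  · intro x hx
    have h1 := (L.level i).nonunit_mem x ((mem_maximalIdeal x).mp hx)
    have h2 : ({piL L i, uL L i, vL L i} : Set (L.level i).R) = {piL L i, vL L i, uL L i} := by
      ext z
      simp only [Set.mem_insert_iff, Set.mem_singleton_iff]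
      tauto
    rw [← h2]
    exact h1
  · rw [Ideal.span_le]
    rintro x (rfl | rfl | hx)
    · exact (mem_maximalIdeal _).mpr fun hu =>
        (L.level i).prime1.ne_top (Ideal.eq_top_of_isUnit_mem _ (L.level i).unif_mem_p1 hu)
    · exact (mem_maximalIdeal _).mpr fun hu =>
        (L.level i).prime2.ne_top (Ideal.eq_top_of_isUnit_mem _ (L.level i).v_mem_p2 hu)
    · rw [Set.mem_singleton_iff] at hx
      rw [hx]
      exact (mem_maximalIdeal _).mpr fun hu =>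
        (L.level i).prime1.ne_top (Ideal.eq_top_of_isUnit_mem _ (L.level i).u_mem_p1 hu)

theorem algebraMap_piL (i : ι) :
    algebraMap (L.level i).R F₂ (piL L i) = algebraMap K F₂ (L.level i).ϖ :=
  (IsScalarTower.algebraMap_apply K F F₂ _).symm

theorem algebraMap_cL (i : ι) :
    algebraMap (L.level i).R F₂ (H.cL i) = algebraMap K F₂ (c₀ : K) :=
  (IsScalarTower.algebraMap_apply K F F₂ _).symm

theorem X_small₁ : X ∈ 𝒪₁.nonunits :=
  (ValuationSubring.nonunits_le_nonunits.mpr H.le₁) H.X_mem₁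

theorem Y_small₂ : Y ∈ 𝒪₂.nonunits :=
  (ValuationSubring.nonunits_le_nonunits.mpr H.le₂) H.Y_mem₂

theorem unif_small₁ (i : ι) : algebraMap (L.level i).R F₂ (piL L i) ∈ 𝒪₁.nonunits := by
  rw [H.algebraMap_piL]
  exact (ValuationSubring.nonunits_le_nonunits.mpr H.le₁) (H.unif_mem₁ i)

theorem unif_small₂ (i : ι) : algebraMap (L.level i).R F₂ (piL L i) ∈ 𝒪₂.nonunits := by
  rw [H.algebraMap_piL]
  exact (ValuationSubring.nonunits_le_nonunits.mpr H.le₂) (H.unif_mem₂ i)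

theorem θ_small₁' (i : ι) : θ - algebraMap (L.level i).R F₂ (H.cL i) ∈ 𝒪₁.nonunits := by
  rw [H.algebraMap_cL]
  exact H.θ_small₁

theorem θ_small₂' (i : ι) : θ - algebraMap (L.level i).R F₂ (H.cL i) ∈ 𝒪₂.nonunits := by
  rw [H.algebraMap_cL]
  exact H.θ_small₂

theorem cL_isUnit (i : ι) : IsUnit (H.cL i) := by
  have hc0 : (c₀ : K) ≠ 0 := by
    intro h0
    have := H.c₀_unit
    rw [h0, map_zero] at this
    exact zero_ne_one this
  have hinvA : (c₀ : K)⁻¹ ∈ A := by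
    rw [← A.valuation_le_one_iff, map_inv₀, H.c₀_unit, inv_one]
  refine IsUnit.of_mul_eq_one (⟨algebraMap K F ((c₀ : K)⁻¹),
    (L.level i).const_mem _ (inv_mem (H.c₀_mem i)) hinvA⟩ : (L.level i).R) ?_
  apply Subtype.ext
  show algebraMap K F (c₀ : K) * algebraMap K F ((c₀ : K)⁻¹) = 1
  rw [← map_mul, mul_inv_cancel₀ hc0, map_one]

theorem K1' (i : ι) : algebraMap (L.level i).R F₂ (uL L i) = θ * X ^ d := H.K1

theorem K2' (i : ι) :
    algebraMap (L.level i).R F₂ (vL L i) * algebraMap (L.level i).R F₂ (uL L i) =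
      algebraMap (L.level i).R F₂ (H.κL i) * (X * Y) ^ d := by
  show algebraMap F F₂ L.v * algebraMap F F₂ L.u =
    algebraMap F F₂ (algebraMap K F κ₀ * L.ε₀) * (X * Y) ^ d
  have e1 : algebraMap F F₂ (L.thick • L.ε₀) =
      algebraMap K F₂ L.thick * algebraMap F F₂ L.ε₀ := by
    rw [Algebra.smul_def, map_mul, ← IsScalarTower.algebraMap_apply]
  have e2 : algebraMap F F₂ (algebraMap K F κ₀ * L.ε₀) =
      algebraMap K F₂ κ₀ * algebraMap F F₂ L.ε₀ := by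
    rw [map_mul, ← IsScalarTower.algebraMap_apply]
  rw [← map_mul, mul_comm L.v L.u, L.uv, e1, e2, H.XY, H.thick_eq, map_mul, map_pow]
  ring

theorem θ_unit₁ : θ ∉ 𝒪₁.nonunits := by
  obtain ⟨i, -⟩ := L.const 0
  exact theta_notMem_nonunits 𝒪₁ (H.mem₁ i) (H.cL_isUnit i) (H.θ_small₁' i)

theorem θ_unit₂ : θ ∉ 𝒪₂.nonunits := by
  obtain ⟨i, -⟩ := L.const 0
  exact theta_notMem_nonunits 𝒪₂ (H.mem₂ i) (H.cL_isUnit i) (H.θ_small₂' i)

/-- a valuation ring containing `R'[X, Y, θ]` in which `θ` is a unit and `X`, `Y` are small: `u`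
and `v` are small -/
theorem uv_small (𝒪 : ValuationSubring F₂) (i : ι)
    (hmem : ∀ x ∈ kummerAdj (L.level i).R X Y θ, x ∈ 𝒪) (hX : X ∈ 𝒪.nonunits)
    (hY : Y ∈ 𝒪.nonunits) (hθ : θ ∉ 𝒪.nonunits) :
    algebraMap (L.level i).R F₂ (vL L i) ∈ 𝒪.nonunits ∧
      algebraMap (L.level i).R F₂ (uL L i) ∈ 𝒪.nonunits := by
  have hθ0 : θ ≠ 0 := fun h => hθ (h ▸ zero_mem_nonunits 𝒪)
  have hθm : θ ∈ 𝒪 := hmem _ (θ_mem_kummerAdj _ X Y θ)
  have hXm : X ∈ 𝒪 := hmem _ (X_mem_kummerAdj _ X Y θ)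
  have hYm : Y ∈ 𝒪 := hmem _ (Y_mem_kummerAdj _ X Y θ)
  have hθinv : θ⁻¹ ∈ 𝒪 := by
    rw [𝒪.mem_nonunits_iff, not_lt] at hθ
    have h1 : 𝒪.valuation θ = 1 := le_antisymm ((𝒪.valuation_le_one_iff _).mpr hθm) hθ
    rw [← 𝒪.valuation_le_one_iff, map_inv₀, h1, inv_one]
  constructor
  · rw [eq_mul_of_kummer H.d_pos H.X_ne hθ0 (H.K1' i) (H.K2' i)]
    refine mem_mul_nonunits 𝒪 ?_ hY
    exact 𝒪.mul_mem _ _ (𝒪.mul_mem _ _ hθinv (hmem _ (algebraMap_mem_kummerAdj _ X Y θ _)))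
      (pow_mem hYm _)
  · rw [H.K1' i]
    obtain ⟨e, he⟩ : ∃ e, d = e + 1 := ⟨d - 1, by have := H.d_pos; omega⟩
    rw [he, pow_succ, ← mul_assoc]
    exact mem_mul_nonunits 𝒪 (𝒪.mul_mem _ _ hθm (pow_mem hXm _)) hX

/-- **the local ring does not depend on the branch** -/
theorem ring_eq₂ (i : ι) : H.ring i = kummerRing 𝒪₂ (H.mem₂ i) := by
  obtain ⟨hv₁, hu₁⟩ := H.uv_small 𝒪₁ i (H.mem₁ i) H.X_small₁ H.Y_small₁ H.θ_unit₁
  obtain ⟨hv₂, hu₂⟩ := H.uv_small 𝒪₂ i (H.mem₂ i) H.X_small₂ H.Y_small₂ H.θ_unit₂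
  exact kummerRing_eq_of_generators 𝒪₁ (H.mem₁ i) 𝒪₂ (H.mem₂ i) (H.hmax i) (H.unif_small₁ i) hv₁
    hu₁ H.X_small₁ H.Y_small₁ (H.θ_small₁' i) (H.unif_small₂ i) hv₂ hu₂ H.X_small₂ H.Y_small₂
    (H.θ_small₂' i)

theorem mem_ring_of_mem (i : ι) {y : F} (hy : y ∈ (L.level i).R) :
    algebraMap F F₂ y ∈ H.ring i :=
  algebraMap_mem_kummerRing 𝒪₁ (H.mem₁ i) (⟨y, hy⟩ : (L.level i).R)

theorem const_mem_ring (i : ι) {c : K} (hc : c ∈ (L.level i).K') (hcA : c ∈ A) :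
    algebraMap K F₂ c ∈ H.ring i := by
  rw [IsScalarTower.algebraMap_apply K F F₂]
  exact H.mem_ring_of_mem i ((L.level i).const_mem c hc hcA)

theorem ring_le₁ (i : ι) {x : F₂} (hx : x ∈ H.ring i) : x ∈ O₁ :=
  kummerRing_le 𝒪₁ (H.mem₁ i) O₁ H.le₁ hx

theorem ring_le₂ (i : ι) {x : F₂} (hx : x ∈ H.ring i) : x ∈ O₂ := by
  rw [H.ring_eq₂ i] at hx
  exact kummerRing_le 𝒪₂ (H.mem₂ i) O₂ H.le₂ hx

theorem ring_mono {i l : ι} (h : (L.level i).R ≤ (L.level l).R) : H.ring i ≤ H.ring l :=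
  kummerRing_mono 𝒪₁ (H.mem₁ i) (H.mem₁ l) fun r =>
    algebraMap_mem_kummerAdj (L.level l).R X Y θ (⟨(r : F), h r.2⟩ : (L.level l).R)

/-- non-units of the base level stay non-units -/
theorem not_isUnit_toKummer (i : ι) {r : (L.level i).R} (hr : ¬ IsUnit r) :
    ¬ IsUnit (toKummer 𝒪₁ (H.mem₁ i) r) := by
  obtain ⟨hv₁, hu₁⟩ := H.uv_small 𝒪₁ i (H.mem₁ i) H.X_small₁ H.Y_small₁ H.θ_unit₁
  rw [not_isUnit_iff_mem_nonunits]
  have htr := trace_eq_kummerIdeal 𝒪₁ (H.mem₁ i) (H.hmax i) (H.unif_small₁ i) hv₁ hu₁ H.X_small₁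
    H.Y_small₁ (H.θ_small₁' i)
  have h1 : toKAdj (L.level i).R X Y θ r ∈ trace 𝒪₁ (kummerAdj (L.level i).R X Y θ) (H.mem₁ i) := by
    rw [htr]
    exact toKAdj_mem_kummerIdeal (H.cL i) (H.hmax i) ((mem_maximalIdeal r).mpr hr)
  exact h1

/-! #### The explicit level -/

theorem nonunit_mem (i : ι) (z : H.ring i) (hz : ¬ IsUnit z) :
    z ∈ Ideal.span ({(⟨algebraMap K F₂ (L.level i).ϖ,
        H.const_mem_ring i (L.level i).unif_mem
          ((A.valuation_le_one_iff _).mp (L.level i).unif_lt.le)⟩ : H.ring i),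
      ⟨X, X_mem_kummerRing 𝒪₁ (H.mem₁ i)⟩, ⟨Y, Y_mem_kummerRing 𝒪₁ (H.mem₁ i)⟩} :
        Set (H.ring i)) := by
  obtain ⟨P, hPc, hP'c, a, ha, b, hb, e, he, hPe⟩ := H.K3 i
  have hPe' : aeval θ P = a * algebraMap (L.level i).R F₂ (piL L i) + b * X + e * Y := by
    rw [H.algebraMap_piL]
    exact hPe
  have key := nonunit_mem_kummerRing_of_relations 𝒪₁ (H.mem₁ i) (ϖ := piL L i) (x' := vL L i)
    (y' := uL L i) (c := H.cL i) (κ := H.κL i) (d := d) (H.hmax i) (H.unif_small₁ i) H.X_small₁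
    H.Y_small₁ (H.θ_small₁' i) (H.cL_isUnit i) H.d_pos H.X_ne (H.K1' i) (H.K2' i) P
    ⟨a, ha, b, hb, e, he, hPe'⟩ hPc hP'c z hz
  have e1 : (⟨algebraMap K F₂ (L.level i).ϖ,
      H.const_mem_ring i (L.level i).unif_mem
        ((A.valuation_le_one_iff _).mp (L.level i).unif_lt.le)⟩ : H.ring i) =
      toKummer 𝒪₁ (H.mem₁ i) (piL L i) := Subtype.ext (H.algebraMap_piL i).symm
  rw [e1]
  exact key

/-- **The explicit level of the Kummer sheet over the level `i`.** -/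
theorem explicitLevel (i : ι) :
    ExplicitLevel A X Y (1 : F₂) thick₂ (H.ring i) (L.level i).K' (L.level i).ϖ O₁ O₂ where
  noeth := isNoetherianRing_kummerRing 𝒪₁ (H.mem₁ i)
  isLocal := isLocalRing_kummerRing 𝒪₁ (H.mem₁ i)
  thick_ne := H.thick₂_ne
  thick_lt := H.thick₂_lt
  uv := by rw [H.XY, Algebra.smul_def, mul_one]
  const_mem := fun c hc hcA => H.const_mem_ring i hc hcA
  unif_mem := (L.level i).unif_mem
  unif_ne := (L.level i).unif_ne
  unif_lt := (L.level i).unif_lt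
  unif_max := (L.level i).unif_max
  thick_mem := H.thick₂_mem i
  unif_memR := H.const_mem_ring i (L.level i).unif_mem
    ((A.valuation_le_one_iff _).mp (L.level i).unif_lt.le)
  u_mem := X_mem_kummerRing 𝒪₁ (H.mem₁ i)
  v_mem := Y_mem_kummerRing 𝒪₁ (H.mem₁ i)
  ε₀_mem := (H.ring i).one_mem
  ε₀_inv_mem := by rw [inv_one]; exact (H.ring i).one_mem
  nonunit_mem := H.nonunit_mem i
  le₁ := fun _ hx => H.ring_le₁ i hx
  le₂ := fun _ hx => H.ring_le₂ i hx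
  unif_mem₁ := H.unif_mem₁ i
  unif_mem₂ := H.unif_mem₂ i
  u_mem₁ := H.X_mem₁
  v_mem₂ := H.Y_mem₂
  v_notMem₁ := H.Y_notMem₁
  u_notMem₂ := H.X_notMem₂

/-! #### Normality of the generic fibre -/

theorem adjoin_le_ring (i : ι) :
    ∀ y ∈ Algebra.adjoin (L.level i).R ({U} : Set F₂), y ∈ H.ring i := by
  intro y hy
  refine Algebra.adjoin_induction (p := fun y _ => y ∈ H.ring i) ?_ ?_ ?_ ?_ hy
  · rintro x rfl
    exact H.U_mem i
  · intro r
    exact algebraMap_mem_kummerRing 𝒪₁ (H.mem₁ i) r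
  · intro x y _ _ hx hy
    exact (H.ring i).add_mem hx hy
  · intro x y _ _ hx hy
    exact (H.ring i).mul_mem hx hy

theorem hgen (i : ι) (a b : H.ring i) (hb : b ≠ 0)
    (hx : IsIntegral (H.ring i) ((a : F₂) / (b : F₂))) :
    ∃ r : ℕ, algebraMap K F₂ (L.level i).ϖ ^ r * ((a : F₂) / (b : F₂)) ∈ H.ring i :=
  KummerEuler.hgen_kummerRing 𝒪₁ (H.mem₁ i)
    ((algebraMap F F₂).injective.comp Subtype.val_injective) (H.U_int i) (H.adjoin_le_ring i)
    (H.den_X i) (H.den_Y i) (H.den_θ i) (H.hΨ i) a b hb hx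

/-! #### Residue field, centred places -/

theorem residue (i : ι) (y : H.ring i) :
    ∃ (a : A) (h : algebraMap K F₂ (a : K) ∈ H.ring i),
      ¬ IsUnit (y - ⟨algebraMap K F₂ (a : K), h⟩) := by
  haveI := isLocalRing_kummerRing 𝒪₁ (H.mem₁ i)
  obtain ⟨hv₁, hu₁⟩ := H.uv_small 𝒪₁ i (H.mem₁ i) H.X_small₁ H.Y_small₁ H.θ_unit₁
  obtain ⟨r, hr⟩ := residue_kummerRing 𝒪₁ (H.mem₁ i) (H.hmax i) (H.unif_small₁ i) hv₁ hu₁
    H.X_small₁ H.Y_small₁ (H.θ_small₁' i) y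
  obtain ⟨a, ha, hra⟩ := (L.level i).residue r
  have hmem : algebraMap K F₂ (a : K) ∈ H.ring i := by
    rw [IsScalarTower.algebraMap_apply K F F₂]
    exact H.mem_ring_of_mem i ha
  refine ⟨a, hmem, ?_⟩
  have h1 := H.not_isUnit_toKummer i hra
  have e : y - ⟨algebraMap K F₂ (a : K), hmem⟩ =
      (y - toKummer 𝒪₁ (H.mem₁ i) r) +
        toKummer 𝒪₁ (H.mem₁ i) (r - ⟨algebraMap K F (a : K), ha⟩) := by
    apply Subtype.ext
    show (y : F₂) - algebraMap K F₂ (a : K) = ((y : F₂) - algebraMap F F₂ (r : F)) +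
      algebraMap F F₂ ((r : F) - algebraMap K F (a : K))
    rw [map_sub, ← IsScalarTower.algebraMap_apply]
    ring
  rw [e]
  intro hu
  have h2 := (mem_maximalIdeal _).mpr hr
  have h3 := (mem_maximalIdeal _).mpr h1
  exact (mem_maximalIdeal _).mp ((maximalIdeal _).add_mem h2 h3) hu

theorem centred (i : ι) (P₂ : Place K F₂) (hP₂ : P₂ ∈ kummerTube A T X Y θ c₀) :
    CentredAt A (H.ring i) P₂ := by
  obtain ⟨hT, hXP, hYP, d', hd', hd'c⟩ := hP₂
  obtain ⟨hint, hcen⟩ := (L.level i).centred _ hT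
  obtain ⟨hv₁, hu₁⟩ := H.uv_small 𝒪₁ i (H.mem₁ i) H.X_small₁ H.Y_small₁ H.θ_unit₁
  have hsmall : ∀ r : (L.level i).R, ¬ IsUnit r →
      ∃ e : K, IsValueAt P₂ (algebraMap (L.level i).R F₂ r) e ∧ A.valuation e < 1 := by
    intro r hr
    refine ⟨evalAt (P₂.restrict F) (r : F),
      (isValueAt_restrict_iff P₂ _ _).mp (hint.isValueAt_evalAt r.2), ?_⟩
    exact (mem_centre_iff hint r).mp (hcen r hr)
  have hnu : ∀ x : (L.level i).R, x ∈ maximalIdeal (L.level i).R → ¬ IsUnit x :=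
    fun x hx => (mem_maximalIdeal x).mp hx
  have hmax := H.hmax i
  have hpi : ¬ IsUnit (piL L i) := hnu _ (by rw [hmax]; exact Ideal.subset_span (by simp))
  have hvn : ¬ IsUnit (vL L i) := hnu _ (by rw [hmax]; exact Ideal.subset_span (by simp))
  have hun : ¬ IsUnit (uL L i) := hnu _ (by rw [hmax]; exact Ideal.subset_span (by simp))
  refine KummerEndPlaces.centredAt_kummerRing 𝒪₁ (H.mem₁ i) hmax (H.unif_small₁ i) hv₁ hu₁
    H.X_small₁ H.Y_small₁ (H.θ_small₁' i) ?_ (hsmall _ hpi) (hsmall _ hvn) (hsmall _ hun) hXP hYP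
    ?_
  · intro r
    exact ⟨evalAt (P₂.restrict F) (r : F), hint.evalAt_mem r.2,
      (isValueAt_restrict_iff P₂ _ _).mp (hint.isValueAt_evalAt r.2)⟩
  · refine ⟨d' - (c₀ : K), ?_, hd'c⟩
    rw [H.algebraMap_cL]
    exact hd'.sub (isValueAt_algebraMap P₂ _)

/-! #### Fractions -/

/-- denominators: every polynomial in `U` over `F` lands in the local ring of some level after
multiplication by a nonzero function of that level -/
theorem exists_level_mul_mem (p : F[X]) :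
    ∃ i, ∃ b : F, b ∈ (L.level i).R ∧ b ≠ 0 ∧ aeval U p * algebraMap F F₂ b ∈ H.ring i := by
  induction p using Polynomial.induction_on' with
  | add p q hp hq =>
    obtain ⟨i₁, b₁, hb₁, hb₁0, h₁⟩ := hp
    obtain ⟨i₂, b₂, hb₂, hb₂0, h₂⟩ := hq
    obtain ⟨l, h1l, h2l, -, -⟩ := L.directed i₁ i₂
    refine ⟨l, b₁ * b₂, (L.level l).R.mul_mem (h1l hb₁) (h2l hb₂), mul_ne_zero hb₁0 hb₂0, ?_⟩
    have e : aeval U (p + q) * algebraMap F F₂ (b₁ * b₂) =
        (aeval U p * algebraMap F F₂ b₁) * algebraMap F F₂ b₂ +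
        (aeval U q * algebraMap F F₂ b₂) * algebraMap F F₂ b₁ := by
      rw [map_add, map_mul]
      ring
    rw [e]
    exact (H.ring l).add_mem
      ((H.ring l).mul_mem (H.ring_mono h1l h₁) (H.mem_ring_of_mem l (h2l hb₂)))
      ((H.ring l).mul_mem (H.ring_mono h2l h₂) (H.mem_ring_of_mem l (h1l hb₁)))
  | monomial n f =>
    obtain ⟨i, a, b, hb0, hab⟩ := L.frac f
    refine ⟨i, (b : F), b.2, fun h => hb0 (Subtype.ext h), ?_⟩
    have e : aeval U (monomial n f) * algebraMap F F₂ (b : F) =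
        algebraMap F F₂ (a : F) * U ^ n := by
      rw [aeval_monomial, ← hab, map_mul]
      ring
    rw [e]
    exact (H.ring i).mul_mem (H.mem_ring_of_mem i a.2) ((H.ring i).pow_mem (H.U_mem i) n)

/-- every function of the cover is a quotient of functions of some level -/
theorem frac (y : F₂) : ∃ i, ∃ a b : H.ring i, b ≠ 0 ∧ y * (b : F₂) = (a : F₂) := by
  obtain ⟨p, rfl⟩ := H.gen y
  obtain ⟨i, b, hb, hb0, hmem⟩ := H.exists_level_mul_mem p
  refine ⟨i, ⟨_, hmem⟩, ⟨algebraMap F F₂ b, H.mem_ring_of_mem i hb⟩, ?_, rfl⟩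
  intro h0
  apply hb0
  have h1 : algebraMap F F₂ b = 0 := congrArg Subtype.val h0
  exact (map_eq_zero _).mp h1

/-! #### The family -/

/-- **The explicit levels of the Kummer sheet.** -/
theorem fracLevels :
    FracLevels A (kummerTube A T X Y θ c₀) X Y (1 : F₂) thick₂ H.ring
      (fun i => (L.level i).K') (fun i => (L.level i).ϖ) O₁ O₂ where
  thick_ne := H.thick₂_ne
  thick_lt := H.thick₂_lt
  uv := by rw [H.XY, Algebra.smul_def, mul_one]
  level := H.explicitLevel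
  hgen := H.hgen
  residue := H.residue
  centred := H.centred
  horiz := fun i Q hQ hht hϖ => by
    refine H.horiz i Q hQ hht ?_
    have e1 : toKummer 𝒪₁ (H.mem₁ i) (piL L i) = (H.explicitLevel i).ϖR :=
      Subtype.ext (H.algebraMap_piL i)
    rw [e1]
    exact hϖ
  directed := fun i j => by
    obtain ⟨l, h1, h2, h3, h4⟩ := L.directed i j
    exact ⟨l, H.ring_mono h1, H.ring_mono h2, h3, h4⟩
  frac := H.frac
  const := L.const
  finite_div := H.finite_div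

/-- **The level data of the Kummer sheet.** -/
def levels : AnnulusLevels A (kummerTube A T X Y θ c₀) ι := H.fracLevels.levels

omit H in
@[simp] theorem levels_u (H : KummerHyp L X Y θ U c₀ κ₀ thick₂ d 𝒪₁ 𝒪₂ O₁ O₂) :
    H.levels.u = X := rfl

omit H in
@[simp] theorem levels_v (H : KummerHyp L X Y θ U c₀ κ₀ thick₂ d 𝒪₁ 𝒪₂ O₁ O₂) :
    H.levels.v = Y := rfl

omit H in
@[simp] theorem levels_ε₀ (H : KummerHyp L X Y θ U c₀ κ₀ thick₂ d 𝒪₁ 𝒪₂ O₁ O₂) :
    H.levels.ε₀ = 1 := rfl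

omit H in
@[simp] theorem levels_thick (H : KummerHyp L X Y θ U c₀ κ₀ thick₂ d 𝒪₁ 𝒪₂ O₁ O₂) :
    H.levels.thick = thick₂ := rfl

omit H in
theorem levels_R (H : KummerHyp L X Y θ U c₀ κ₀ thick₂ d 𝒪₁ 𝒪₂ O₁ O₂) (i : ι) :
    (H.levels.level i).R = H.ring i := rfl

omit H in
theorem levels_K' (H : KummerHyp L X Y θ U c₀ κ₀ thick₂ d 𝒪₁ 𝒪₂ O₁ O₂) (i : ι) :
    (H.levels.level i).K' = (L.level i).K' := rfl

omit H in
theorem levels_ϖ (H : KummerHyp L X Y θ U c₀ κ₀ thick₂ d 𝒪₁ 𝒪₂ O₁ O₂) (i : ι) :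
    (H.levels.level i).ϖ = (L.level i).ϖ := rfl

/-- **the places centred at a level of the Kummer sheet are the places of the sheet** (converse of
`centred`), from the converse downstairs -/
theorem mem_kummerTube_of_centredAt (i : ι)
    (hT : ∀ P : Place K F, CentredAt A (L.level i).R P → P ∈ T) {P₂ : Place K F₂}
    (hP₂ : CentredAt A (H.ring i) P₂) : P₂ ∈ kummerTube A T X Y θ c₀ := by
  obtain ⟨hint, hcen⟩ := hP₂
  haveI := isLocalRing_kummerRing 𝒪₁ (H.mem₁ i)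
  have hsmall : ∀ z : H.ring i, ¬ IsUnit z →
      ∃ e : K, IsValueAt P₂ (z : F₂) e ∧ A.valuation e < 1 := fun z hz =>
    ⟨evalAt P₂ (z : F₂), hint.isValueAt_evalAt z.2, (mem_centre_iff hint z).mp (hcen z hz)⟩
  have hval : ∀ r : (L.level i).R, IsValueAt (P₂.restrict F) (r : F)
      (evalAt P₂ (algebraMap F F₂ (r : F))) := fun r =>
    (isValueAt_restrict_iff P₂ (r : F) _).mpr
      (hint.isValueAt_evalAt (H.mem_ring_of_mem i r.2))
  have hint' : IntegralAt A (L.level i).R (P₂.restrict F) := fun y hy =>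
    ⟨_, hint.evalAt_mem (H.mem_ring_of_mem i hy), hval ⟨y, hy⟩⟩
  refine ⟨hT _ ⟨hint', fun r hr => ?_⟩, ?_, ?_, ?_⟩
  · rw [mem_centre_iff, evalAt_eq_of_isValueAt (hval r)]
    exact (mem_centre_iff hint (toKummer 𝒪₁ (H.mem₁ i) r)).mp
      (hcen _ (H.not_isUnit_toKummer i hr))
  · exact hsmall (XK 𝒪₁ (H.mem₁ i))
      ((not_isUnit_iff_mem_nonunits 𝒪₁ (H.mem₁ i) _).mpr H.X_small₁)
  · exact hsmall (YK 𝒪₁ (H.mem₁ i))
      ((not_isUnit_iff_mem_nonunits 𝒪₁ (H.mem₁ i) _).mpr H.Y_small₁)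
  · obtain ⟨e, he, hlt⟩ := hsmall (θK 𝒪₁ (H.mem₁ i) - toKummer 𝒪₁ (H.mem₁ i) (H.cL i))
      ((not_isUnit_iff_mem_nonunits 𝒪₁ (H.mem₁ i) _).mpr (H.θ_small₁' i))
    refine ⟨e + (c₀ : K), ?_, by rwa [add_sub_cancel_right]⟩
    have h1 : IsValueAt P₂ (θ - algebraMap K F₂ (c₀ : K)) e := by
      have := he
      rw [← H.algebraMap_cL i]
      exact this
    have := h1.add (isValueAt_algebraMap P₂ (c₀ : K))
    rwa [sub_add_cancel] at this

end KummerHyp

end Family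

end Fermat.Agent.BR3.KummerLevels
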