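import Fermat.Agent.BR3.EquivTrivial
import Fermat.Agent.BR3.CircleEquiv
import Fermat.Agent.BR3.SubDiscChart
import Fermat.Agent.BR3.SRef.SubAnnulus
import Fermat.Agent.BR3.KummerLevels
import Fermat.Agent.BR3.CoverK.Defs

/-!
# Program C (S36), node (I9-TUBES), abstract layer: transport of the tubes of `S''` by a semilinear
automorphism

`g''` a semilinear automorphism of `F'' / K` over `g'` on `F' / K` (`hcomm`), with INERTIAL base
automorphism (`InvFiniteTheta.IsInertial A (baseAut g'')`).  All the tubes of `S''` are cut out, over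
a tube of the base, by conditions on the values of finitely many functions; if `g''` multiplies
these functions by constants of absolute value `1`, the tubes are transported as follows.

## Base (one function field)
* `smul_mem_classDisc` : the residue disc of class `cb` on the circle of gauge `a` goes to the
  residue disc of class `θ * cb`, `θ = theta A (baseAut g) a`; `smul_mem_classDisc_iff_of_fixed`;
* `smul_mem_outerTube_iff`, `smul_mem_innerTube_iff` : the sub-annuli are stable.

## Sheets
* `coverTube_smul` : `coverTube A T' (c • θ) u' = coverTube A T' θ u` for `|c| = 1`, `c u ≡ u'`;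
* `smul_mem_coverTube_of_smul_eq` : if `g'' • θ = c • θ`, `|c| = 1`, `g' T' ⊆ T'₂` and
  `c * u₂ ≡ u`, the sheet `θ ≡ u` over `T'` goes to the sheet `θ ≡ u₂` over `T'₂`
  (`c = 1`: `EquivTrivial.smul_mem_coverTube_iff_of_fixed`); `_K` forms for `CoverK.coverTube`;
* `smul_mem_kummerTube_of_smul_eq` : the same for the tube `KummerLevels.kummerTube A T X Y θ c₀`
  of a Kummer node (`X`, `Y`, `θ` multiplied by constants of absolute value `1`);
  `smul_mem_kummerTube_iff_of_fixed`.
-/

set_option autoImplicit false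
set_option linter.unusedSectionVars false

noncomputable section

namespace Fermat.Agent.BR3.EquivTubes

open AlgebraicCurve IsLocalRing Fermat.Agent.Red Fermat.Agent.BR.InertiaRed
  Fermat.Agent.BR.AnnulusRed Fermat.Agent.BR.Circle Fermat.Agent.BR3.InvFiniteTheta
  Fermat.Agent.BR3.CircleEquiv Fermat.Agent.BR3.SubDisc Fermat.Agent.BR3.SRef
  Fermat.Agent.BR3.CoverSmooth Fermat.Agent.BR3.KummerLevels Fermat.Agent.BR3.EquivTrivial

/-! ## Constants -/

section Const

variable {K : Type*} [Field K] {A : ValuationSubring K}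

/-- An inertial automorphism moves the elements of `A` by non-units. -/
theorem valuation_apply_sub_lt_one {s : K ≃+* K} (hs : IsInertial A s) (c : A) :
    A.valuation (s (c : K) - (c : K)) < 1 := by
  have h1 := hs.res (c : K) c.2
  have hmem : s (c : K) ∈ A := by
    rw [← A.valuation_le_one_iff, hs.val, A.valuation_le_one_iff]
    exact c.2
  rw [resOf_of_mem A hmem, resOf_of_mem A c.2] at h1
  have h2 : residue A (⟨s (c : K), hmem⟩ - ⟨(c : K), c.2⟩) = 0 := by
    rw [map_sub, h1, sub_self]
  exact (A.valuation_lt_one_iff _).mp ((residue_eq_zero_iff _).mp h2)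

/-- An inertial automorphism preserves smallness. -/
theorem valuation_apply_lt_one {s : K ≃+* K} (hs : IsInertial A s) {d : K}
    (hd : A.valuation d < 1) : A.valuation (s d) < 1 := by
  rw [hs.val]
  exact hd

end Const

/-! ## Base: residue discs and sub-annuli -/

section Base

variable {K : Type} {F : Type*} [Field K] [Field F] [Algebra K F]
  {A : ValuationSubring K} {T : Set (Place K F)} (C : AnnulusCore A T)

/-- **Rotation of the residue discs of a circle.** -/
theorem smul_mem_classDisc (g : SemilinearAut K F) (hg : IsInertial A (SemilinearAut.baseAut g))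
    (hu : g • C.u = C.u) (hT : ∀ P ∈ T, g • P ∈ T) {a : K} (ha : a ≠ 0) {cb : ResidueField A}
    {P : Place K F} (hP : P ∈ classDisc C a cb) :
    g • P ∈ classDisc C a (theta A (SemilinearAut.baseAut g) a * cb) := by
  obtain ⟨hPT, hv, hub⟩ := hP
  refine ⟨hT P hPT, ?_, ?_⟩
  · rw [evalAt_smul_of_fixed g P hu, hg.val]
    exact hv
  · rw [ubar_smul_of_isInertial g hg hu ha hv, hub]

/-- The residue discs are stable when the gauge is fixed up to `1`-units. -/
theorem smul_mem_classDisc_iff_of_fixed (g : SemilinearAut K F)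
    (hg : IsInertial A (SemilinearAut.baseAut g)) (hu : g • C.u = C.u)
    (hT : ∀ P, g • P ∈ T ↔ P ∈ T) {a : K} (ha : a ≠ 0)
    (hθ : theta A (SemilinearAut.baseAut g) a = 1) (cb : ResidueField A) (P : Place K F) :
    g • P ∈ classDisc C a cb ↔ P ∈ classDisc C a cb := by
  constructor
  · rintro ⟨hPT, hv, hub⟩
    have hv' : A.valuation (evalAt P C.u) = A.valuation a := by
      rw [evalAt_smul_of_fixed g P hu, hg.val] at hv
      exact hv
    refine ⟨(hT P).mp hPT, hv', ?_⟩
    rw [ubar_smul_of_isInertial g hg hu ha hv', hθ, one_mul] at hub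
    exact hub
  · intro hP
    have := smul_mem_classDisc C g hg hu (fun P hP => (hT P).mpr hP) ha hP
    rwa [hθ, one_mul] at this

/-- The outer sub-annulus is stable. -/
theorem smul_mem_outerTube_iff (g : SemilinearAut K F)
    (hg : IsInertial A (SemilinearAut.baseAut g)) (hu : g • C.u = C.u)
    (hT : ∀ P, g • P ∈ T ↔ P ∈ T) (a : K) (P : Place K F) :
    g • P ∈ outerTube C a ↔ P ∈ outerTube C a := by
  show (g • P ∈ T ∧ _) ↔ (P ∈ T ∧ _)
  rw [hT, evalAt_smul_of_fixed g P hu, hg.val]

/-- The inner sub-annulus is stable. -/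
theorem smul_mem_innerTube_iff (g : SemilinearAut K F)
    (hg : IsInertial A (SemilinearAut.baseAut g)) (hu : g • C.u = C.u)
    (hT : ∀ P, g • P ∈ T ↔ P ∈ T) (a : K) (P : Place K F) :
    g • P ∈ innerTube C a ↔ P ∈ innerTube C a := by
  show (g • P ∈ T ∧ _) ↔ (P ∈ T ∧ _)
  rw [hT, evalAt_smul_of_fixed g P hu, hg.val]

end Base

/-! ## Values of a rescaled function -/

section Values

variable {K F : Type*} [Field K] [Field F] [Algebra K F]

theorem isValueAt_smul_const_iff {P : Place K F} {y : F} {c d : K} (hc : c ≠ 0) :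
    IsValueAt P (c • y) d ↔ IsValueAt P y (c⁻¹ * d) := by
  constructor
  · intro h
    have := h.smul c⁻¹
    rwa [smul_smul, inv_mul_cancel₀ hc, one_smul] at this
  · intro h
    have := h.smul c
    rwa [← mul_assoc, mul_inv_cancel₀ hc, one_mul] at this

/-- smallness of a value is insensitive to a constant of absolute value `1` -/
theorem exists_small_value_smul_iff {A : ValuationSubring K} {P : Place K F} {y : F} {c : K}
    (hc : A.valuation c = 1) :
    (∃ d : K, IsValueAt P (c • y) d ∧ A.valuation d < 1) ↔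
      ∃ d : K, IsValueAt P y d ∧ A.valuation d < 1 := by
  have hc0 : c ≠ 0 := by
    rintro rfl
    rw [map_zero] at hc
    exact zero_ne_one hc
  constructor
  · rintro ⟨d, hd, hlt⟩
    refine ⟨c⁻¹ * d, (isValueAt_smul_const_iff hc0).mp hd, ?_⟩
    rw [map_mul, map_inv₀, hc, inv_one, one_mul]
    exact hlt
  · rintro ⟨d, hd, hlt⟩
    refine ⟨c * d, hd.smul c, ?_⟩
    rw [map_mul, hc, one_mul]
    exact hlt

/-- a congruence of a value is transported by a constant of absolute value `1` -/
theorem exists_value_congr_smul_iff {A : ValuationSubring K} {P : Place K F} {y : F} {c : K}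
    (hc : A.valuation c = 1) {u u' : K} (hu : A.valuation (c * u - u') < 1) :
    (∃ d : K, IsValueAt P (c • y) d ∧ A.valuation (d - u') < 1) ↔
      ∃ d : K, IsValueAt P y d ∧ A.valuation (d - u) < 1 := by
  have hc0 : c ≠ 0 := by
    rintro rfl
    rw [map_zero] at hc
    exact zero_ne_one hc
  constructor
  · rintro ⟨d, hd, hlt⟩
    refine ⟨c⁻¹ * d, (isValueAt_smul_const_iff hc0).mp hd, ?_⟩
    have e : c⁻¹ * d - u = c⁻¹ * ((d - u') - (c * u - u')) := by
      field_simp
      ring
    rw [e, map_mul, map_inv₀, hc, inv_one, one_mul]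
    exact lt_of_le_of_lt (Valuation.map_sub _ _ _) (max_lt hlt hu)
  · rintro ⟨d, hd, hlt⟩
    refine ⟨c * d, hd.smul c, ?_⟩
    have e : c * d - u' = c * (d - u) + (c * u - u') := by ring
    rw [e]
    refine lt_of_le_of_lt (Valuation.map_add _ _ _) (max_lt ?_ hu)
    rw [map_mul, hc, one_mul]
    exact hlt

end Values

/-! ## Sheets -/

section Sheets

variable {K F' F'' : Type*} [Field K] [Field F'] [Field F''] [Algebra K F'] [Algebra K F'']
  [Algebra F' F''] [IsScalarTower K F' F''] [Algebra.IsIntegral F' F'']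

/-- **Rescaling the generator of a sheet** by a constant of absolute value `1`. -/
theorem coverTube_smul (A : ValuationSubring K) (T' : Set (Place K F')) (θ : F'') {c : K}
    (hc : A.valuation c = 1) {u u' : A} (hu : A.valuation (c * (u : K) - (u' : K)) < 1) :
    coverTube A T' (c • θ) u' = coverTube A T' θ u := by
  ext P
  show (P.restrict F' ∈ T' ∧ _) ↔ (P.restrict F' ∈ T' ∧ _)
  rw [exists_value_congr_smul_iff hc hu]

/-- **Transport of a sheet** by a `g''` which multiplies the generator by a constant of absolute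
value `1`. -/
theorem smul_mem_coverTube_of_smul_eq (A : ValuationSubring K) (g'' : SemilinearAut K F'')
    (g' : SemilinearAut K F')
    (hcomm : ∀ y : F', g'' • algebraMap F' F'' y = algebraMap F' F'' (g' • y))
    (hg : IsInertial A (SemilinearAut.baseAut g''))
    {T' T'₂ : Set (Place K F')} (hT : ∀ P' ∈ T', g' • P' ∈ T'₂) {θ : F''} {c : K}
    (hc : A.valuation c = 1) (hθ : g'' • θ = c • θ) {u u₂ : A}
    (hu : A.valuation (c * (u₂ : K) - (u : K)) < 1) {P'' : Place K F''}
    (hP : P'' ∈ coverTube A T' θ u) : g'' • P'' ∈ coverTube A T'₂ θ u₂ := by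
  have h1 := smul_mem_coverTube A g'' g' hcomm hg.val hT
    (valuation_apply_sub_lt_one hg u) hP
  rw [hθ, coverTube_smul A T'₂ θ hc hu] at h1
  exact h1

/-- The same for the tube of node A6-K. -/
theorem smul_mem_coverTubeK_of_smul_eq (A : ValuationSubring K) (g'' : SemilinearAut K F'')
    (g' : SemilinearAut K F')
    (hcomm : ∀ y : F', g'' • algebraMap F' F'' y = algebraMap F' F'' (g' • y))
    (hg : IsInertial A (SemilinearAut.baseAut g''))
    {T' T'₂ : Set (Place K F')} (hT : ∀ P' ∈ T', g' • P' ∈ T'₂) {θ : F''} {c : K}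
    (hc : A.valuation c = 1) (hθ : g'' • θ = c • θ) {u u₂ : A}
    (hu : A.valuation (c * (u₂ : K) - (u : K)) < 1) {P'' : Place K F''}
    (hP : P'' ∈ CoverK.coverTube A T' θ u) : g'' • P'' ∈ CoverK.coverTube A T'₂ θ u₂ :=
  smul_mem_coverTube_of_smul_eq A g'' g' hcomm hg hT hc hθ hu hP

/-- Transport of a sheet with a FIXED generator to the sheet over another tube. -/
theorem smul_mem_coverTube_of_fixed (A : ValuationSubring K) (g'' : SemilinearAut K F'')
    (g' : SemilinearAut K F')
    (hcomm : ∀ y : F', g'' • algebraMap F' F'' y = algebraMap F' F'' (g' • y))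
    (hg : IsInertial A (SemilinearAut.baseAut g''))
    {T' T'₂ : Set (Place K F')} (hT : ∀ P' ∈ T', g' • P' ∈ T'₂) {θ : F''}
    (hθ : g'' • θ = θ) (u : A) {P'' : Place K F''}
    (hP : P'' ∈ coverTube A T' θ u) : g'' • P'' ∈ coverTube A T'₂ θ u := by
  have h1 := smul_mem_coverTube A g'' g' hcomm hg.val hT
    (valuation_apply_sub_lt_one hg u) hP
  rwa [hθ] at h1

end Sheets

/-! ## Kummer sheets -/

section Kummer

variable {K F F₂ : Type*} [Field K] [Field F] [Field F₂] [Algebra K F] [Algebra K F₂]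
  [Algebra F F₂] [IsScalarTower K F F₂] [Algebra.IsIntegral F F₂]

/-- **Transport of the tube of a Kummer node** by a `g₂` which multiplies `X`, `Y`, `θ` by
constants of absolute value `1`. -/
theorem smul_mem_kummerTube_of_smul_eq (A : ValuationSubring K) (g₂ : SemilinearAut K F₂)
    (g : SemilinearAut K F)
    (hcomm : ∀ y : F, g₂ • algebraMap F F₂ y = algebraMap F F₂ (g • y))
    (hg : IsInertial A (SemilinearAut.baseAut g₂))
    {T T₂ : Set (Place K F)} (hT : ∀ P ∈ T, g • P ∈ T₂) {X Y θ : F₂} {cX cY cθ : K}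
    (hcX : A.valuation cX = 1) (hcY : A.valuation cY = 1) (hcθ : A.valuation cθ = 1)
    (hX : g₂ • X = cX • X) (hY : g₂ • Y = cY • Y) (hθ : g₂ • θ = cθ • θ) {c₀ c₁ : A}
    (hc : A.valuation (cθ * (c₁ : K) - (c₀ : K)) < 1) {P₂ : Place K F₂}
    (hP : P₂ ∈ kummerTube A T X Y θ c₀) : g₂ • P₂ ∈ kummerTube A T₂ X Y θ c₁ := by
  obtain ⟨hres, ⟨dX, hdX, hltX⟩, ⟨dY, hdY, hltY⟩, ⟨dθ, hdθ, hltθ⟩⟩ := hP
  refine ⟨?_, ?_, ?_, ?_⟩
  · rw [restrict_smul g₂ g hcomm]
    exact hT _ hres
  · have h1 : ∃ d : K, IsValueAt (g₂ • P₂) (cX • X) d ∧ A.valuation d < 1 := by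
      rw [← hX]
      exact ⟨_, isValueAt_smul g₂ hdX, valuation_apply_lt_one hg hltX⟩
    exact (exists_small_value_smul_iff hcX).mp h1
  · have h1 : ∃ d : K, IsValueAt (g₂ • P₂) (cY • Y) d ∧ A.valuation d < 1 := by
      rw [← hY]
      exact ⟨_, isValueAt_smul g₂ hdY, valuation_apply_lt_one hg hltY⟩
    exact (exists_small_value_smul_iff hcY).mp h1
  · have h1 : ∃ d : K, IsValueAt (g₂ • P₂) (cθ • θ) d ∧ A.valuation (d - (c₀ : K)) < 1 := by
      rw [← hθ]
      refine ⟨_, isValueAt_smul g₂ hdθ, ?_⟩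
      have e : SemilinearAut.baseAut g₂ dθ - (c₀ : K) =
          SemilinearAut.baseAut g₂ (dθ - (c₀ : K)) +
            (SemilinearAut.baseAut g₂ (c₀ : K) - (c₀ : K)) := by
        rw [map_sub]; ring
      rw [e]
      exact lt_of_le_of_lt (Valuation.map_add _ _ _)
        (max_lt (valuation_apply_lt_one hg hltθ) (valuation_apply_sub_lt_one hg c₀))
    exact (exists_value_congr_smul_iff hcθ hc).mp h1

/-- The tube of a Kummer node with fixed `X`, `Y`, `θ` over a stable tube is stable. -/
theorem smul_mem_kummerTube_of_fixed (A : ValuationSubring K) (g₂ : SemilinearAut K F₂)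
    (g : SemilinearAut K F)
    (hcomm : ∀ y : F, g₂ • algebraMap F F₂ y = algebraMap F F₂ (g • y))
    (hg : IsInertial A (SemilinearAut.baseAut g₂))
    {T T₂ : Set (Place K F)} (hT : ∀ P ∈ T, g • P ∈ T₂) {X Y θ : F₂}
    (hX : g₂ • X = X) (hY : g₂ • Y = Y) (hθ : g₂ • θ = θ) (c₀ : A) {P₂ : Place K F₂}
    (hP : P₂ ∈ kummerTube A T X Y θ c₀) : g₂ • P₂ ∈ kummerTube A T₂ X Y θ c₀ := by
  have h1 : A.valuation (1 : K) = 1 := map_one _
  refine smul_mem_kummerTube_of_smul_eq A g₂ g hcomm hg hT h1 h1 h1 (by rw [hX, one_smul])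
    (by rw [hY, one_smul]) (by rw [hθ, one_smul]) ?_ hP
  rw [one_mul, sub_self, map_zero]
  exact zero_lt_one

end Kummer

end Fermat.Agent.BR3.EquivTubes
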