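import Fermat.Agent.BR3.EquivTubesModular
import Fermat.Agent.BR3.CInfChart
import Fermat.Agent.BR3.CInfChartCusp
import Fermat.Agent.BR3.CZeroChart
import Fermat.Agent.BR3.CZeroChartCusp
import Fermat.Agent.BR3.CZeroChartAll

/-!
# Program C (S36), node (I9-TUBES), horizontal components: the raw tubes of `cInf` and `cZero`

For every `H : AtlasHyp (chartDataModular B hB hqM) (jx M q)` and EVERY `σ` in the inertia group of
`B` (the rich elements and the tame generator: the isomorphisms of the residue fields of `cInf`,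
`cZero` are the identity), `gal (M q²) σ` stabilises the four raw tubes of the horizontal
components of `S''`:

* `smul_mem_cInfTube` : `CInfChart.cInfTube` (finite points of `cInf`, generator `Θ = β₂ T`);
* `smul_mem_cInfTubeCusp` : `CInfChart.cInfTubeCusp` (cusps of `cInf`, generator `θ∞`);
* `smul_mem_cZeroTube` : `CZeroChart.cZeroTube` (finite points of `cZero`, along `β₂`, generator
  `Θ_Z = W_{q²} Θ`);
* `smul_mem_cZeroTubeCusp` : `CZeroChartCusp.cZeroTubeCusp` (cusps of `cZero`, generator
  `W_{q²} θ∞`).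

The generators have rational coefficients (`thetaInf_mem_galFixed`, `ThetaZ_mem_galFixed`,
`thetaZeroCusp_mem_galFixed`) and the base tubes are fibres of the reduction map of the atlas
(`r_smul_atlas`).
-/

set_option autoImplicit false
set_option linter.style.haveILetI false
set_option linter.unusedSectionVars false
set_option linter.unusedVariables false
set_option synthInstance.maxHeartbeats 400000

noncomputable section

/- S36 build-time patch: file-local shortcut instances. They only shorten instance search;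
each is the instance that the search finds anyway (reducible, same terms after unfolding). -/
local instance (priority := 100000) Fermat.Agent.BR3.FastInst.instAlgFullC_EquivTubesHoriz
    {k : Type*} [Field k] (N : ℕ) :
    Algebra k ↥(ModularCurve.modularFunctionFieldFullC k N) := inferInstance
local instance (priority := 100000) Fermat.Agent.BR3.FastInst.instFieldFullC_EquivTubesHoriz
    {k : Type*} [Field k] (N : ℕ) :
    Field ↥(ModularCurve.modularFunctionFieldFullC k N) := inferInstance
local instance (priority := 100000) Fermat.Agent.BR3.FastInst.instAlgLaurent_EquivTubesHoriz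
    {k : Type*} [Field k] : Algebra k (LaurentSeries k) := inferInstance


namespace Fermat.Agent.BR3.EquivTubesHoriz

open ModularCurve AlgebraicCurve IsLocalRing
open Fermat.Agent.Red Fermat.Agent.Val Fermat.Agent.X0 Fermat.Agent.Hecke
open Fermat.Agent.BR.SS Fermat.Agent.BR.S0 Fermat.Agent.BR.S0.PointDict
open Fermat.Agent.BR.S0.RedModular Fermat.Agent.BR.S0.RedHyp Fermat.Agent.BR.ValTwo Fermat.Agent.BR.ModUnit
open Fermat.Agent.BR.InertiaRed Fermat.Agent.BR3.FibreProd Fermat.Agent.BR3.EquivFixed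
open Fermat.Agent.BR3.EquivTubes Fermat.Agent.BR3.EquivTubesModular Fermat.Agent.BR3.CoverSmooth
open Fermat.Agent.BR3.CuspSheet Fermat.Agent.BR3.CZeroSheet Fermat.Agent.BR3.CoverSheetInf

local notation "Kb" => AlgebraicClosure ℚ

/-! ## Generators -/

section Generators

variable (M q : ℕ) [NeZero M] [hq : Fact q.Prime] (σ : Kb ≃ₐ[ℚ] Kb)

/-- `θ∞ = j(s^{q²}) / α₂ j(s^q)^q` is fixed by every `σ`. -/
theorem thetaInf_mem_galFixed : thetaInf M q ∈ galFixed (M * q * q) σ := by
  unfold thetaInf cInv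
  exact (galFixed (M * q * q) σ).mul_mem (jqq_mem_galFixed M q σ)
    (alpha2_mem_galFixed ((galFixed (M * q) σ).pow_mem
      ((galFixed (M * q) σ).inv_mem (jq'_mem_galFixed M q σ)) q))

/-- `Θ_Z = α₂ T' = W_{q²} Θ` is fixed by every `σ`. -/
theorem ThetaZ_mem_galFixed (hqM : ¬ q ∣ M) : ThetaZ M q ∈ galFixed (M * q * q) σ := by
  rw [← W2_Theta hqM]
  exact W2_mem_galFixed hqM (Theta_mem_galFixed M q σ)

/-- `W_{q²} θ∞` is fixed by every `σ`. -/
theorem thetaZeroCusp_mem_galFixed (hqM : ¬ q ∣ M) :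
    Fermat.Agent.BR3.CZeroChartCusp.thetaZeroCusp hqM ∈ galFixed (M * q * q) σ :=
  W2_mem_galFixed hqM (thetaInf_mem_galFixed M q σ)

end Generators

/-! ## Tubes -/

section Tubes

variable {M q : ℕ} [NeZero M] [hq : Fact q.Prime]
variable (B : ValuationSubring (AlgebraicClosure ℚ)) (hB : B.LiesOverPrime q) (hqM : ¬ q ∣ M)

local notation "kB" => IsLocalRing.ResidueField B
local notation "FtM" => modularFunctionFieldFullC (IsLocalRing.ResidueField B) M

variable {σ : Kb ≃ₐ[ℚ] Kb}

/-- The reduction map of any atlas of `S'` is invariant under inertia. -/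
theorem r_smul_atlas (H : AtlasHyp (chartDataModular B hB hqM) (jx M q))
    (hσ : σ ∈ B.inertiaSubgroupIn ℚ) (P : Place Kb (Fb (M * q))) :
    H.r (gal (M * q) σ • P) = H.r P :=
  rModular_smul B hB hqM H.chartHyp hσ P

/-- The fibres of the reduction map of `S'` are stable under inertia. -/
theorem smul_mem_fibre_atlas (H : AtlasHyp (chartDataModular B hB hqM) (jx M q))
    (hσ : σ ∈ B.inertiaSubgroupIn ℚ) (x : Σ _ : Fin 2, Place kB FtM) :
    ∀ P ∈ {P : Place Kb (Fb (M * q)) | H.r P = x}, gal (M * q) σ • P ∈ {P | H.r P = x} := by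
  intro P hP
  show H.r (gal (M * q) σ • P) = x
  rw [r_smul_atlas B hB hqM H hσ P]
  exact hP

/-- **The tubes of the finite points of `cInf` are stable under inertia.** -/
theorem smul_mem_cInfTube (H : AtlasHyp (chartDataModular B hB hqM) (jx M q))
    (hσ : σ ∈ B.inertiaSubgroupIn ℚ) (Q' : Place kB FtM)
    (hQ' : ∀ e, Q' ≠ z₁ (chartDataModular B hB hqM) e)
    (hjQ : jFullC kB M ∈ Q'.toValuationSubring) {P : Place Kb (Fb (M * q * q))}
    (hP : P ∈ Fermat.Agent.BR3.CInfChart.cInfTube B hB hqM H Q' hQ' hjQ) :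
    gal (M * q * q) σ • P ∈ Fermat.Agent.BR3.CInfChart.cInfTube B hB hqM H Q' hQ' hjQ := by
  letI := algebraAlong (alpha2 M q)
  haveI := isScalarTower_along (alpha2 M q)
  haveI : Module.Finite (Fb (M * q)) (Fb (M * q * q)) :=
    Fermat.Agent.Hecke.finiteAlong_heckeAlphaBar (M * q) q
  exact smul_mem_coverTube_of_fixed B (gal (M * q * q) σ) (gal (M * q) σ)
    (fun y => heckeAlphaBar_comm q σ y) (EquivHoriz.isInertial_gal (M * q * q) B hσ)
    (smul_mem_fibre_atlas B hB hqM H hσ _) (mem_galFixed.mp (Theta_mem_galFixed M q σ)) _ hP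

/-- **The tubes of the cusps of `cInf` are stable under inertia.** -/
theorem smul_mem_cInfTubeCusp (H : AtlasHyp (chartDataModular B hB hqM) (jx M q))
    (hσ : σ ∈ B.inertiaSubgroupIn ℚ) (Q : Place kB FtM) {P : Place Kb (Fb (M * q * q))}
    (hP : P ∈ Fermat.Agent.BR3.CInfChart.cInfTubeCusp B hB hqM H Q) :
    gal (M * q * q) σ • P ∈ Fermat.Agent.BR3.CInfChart.cInfTubeCusp B hB hqM H Q := by
  letI := algebraAlong (alpha2 M q)
  haveI := isScalarTower_along (alpha2 M q)
  haveI : Module.Finite (Fb (M * q)) (Fb (M * q * q)) :=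
    Fermat.Agent.Hecke.finiteAlong_heckeAlphaBar (M * q) q
  exact smul_mem_coverTube_of_fixed B (gal (M * q * q) σ) (gal (M * q) σ)
    (fun y => heckeAlphaBar_comm q σ y) (EquivHoriz.isInertial_gal (M * q * q) B hσ)
    (smul_mem_fibre_atlas B hB hqM H hσ _) (mem_galFixed.mp (thetaInf_mem_galFixed M q σ)) _ hP

/-- **The tubes of the finite points of `cZero` are stable under inertia.** -/
theorem smul_mem_cZeroTube (H : AtlasHyp (chartDataModular B hB hqM) (jx M q))
    (hσ : σ ∈ B.inertiaSubgroupIn ℚ) (Q' : Place kB FtM)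
    (hnc : ∀ e : Crossing (chartDataModular B hB hqM), Q' ≠ z₂ (chartDataModular B hB hqM) e)
    (hj : jFullC kB M ∈ Q'.toValuationSubring) {P : Place Kb (Fb (M * q * q))}
    (hP : P ∈ Fermat.Agent.BR3.CZeroChart.cZeroTube B hB hqM H Q' hnc hj) :
    gal (M * q * q) σ • P ∈ Fermat.Agent.BR3.CZeroChart.cZeroTube B hB hqM H Q' hnc hj := by
  letI := algebraAlong (beta2 M q)
  haveI := isScalarTower_along (beta2 M q)
  haveI : Module.Finite (Fb (M * q)) (Fb (M * q * q)) :=
    Fermat.Agent.Hecke.finiteAlong_heckeBetaBar (M * q) q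
  exact smul_mem_coverTube_of_fixed B (gal (M * q * q) σ) (gal (M * q) σ)
    (fun y => heckeBetaBar_comm q σ y) (EquivHoriz.isInertial_gal (M * q * q) B hσ)
    (smul_mem_fibre_atlas B hB hqM H hσ _) (mem_galFixed.mp (ThetaZ_mem_galFixed M q σ hqM)) _ hP

/-- **The tubes of the cusps of `cZero` are stable under inertia.** -/
theorem smul_mem_cZeroTubeCusp (H : AtlasHyp (chartDataModular B hB hqM) (jx M q))
    (hσ : σ ∈ B.inertiaSubgroupIn ℚ) (Q : Place kB FtM) {P : Place Kb (Fb (M * q * q))}
    (hP : P ∈ Fermat.Agent.BR3.CZeroChartCusp.cZeroTubeCusp B hB hqM H Q) :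
    gal (M * q * q) σ • P ∈ Fermat.Agent.BR3.CZeroChartCusp.cZeroTubeCusp B hB hqM H Q := by
  letI := algebraAlong (beta2 M q)
  haveI := isScalarTower_along (beta2 M q)
  haveI : Module.Finite (Fb (M * q)) (Fb (M * q * q)) :=
    Fermat.Agent.Hecke.finiteAlong_heckeBetaBar (M * q) q
  exact smul_mem_coverTube_of_fixed B (gal (M * q * q) σ) (gal (M * q) σ)
    (fun y => heckeBetaBar_comm q σ y) (EquivHoriz.isInertial_gal (M * q * q) B hσ)
    (smul_mem_fibre_atlas B hB hqM H hσ _)
    (mem_galFixed.mp (thetaZeroCusp_mem_galFixed M q σ hqM)) _ hP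

/-- **The tubes of all non-crossing points of `cZero` (helper1's `cZeroTubeAll`) are stable under
inertia**: the raw clause `hsmZero` of `EquivTubeFam.hT_of_raw` / `hT_stable_of_raw`. -/
theorem smul_mem_cZeroTubeAll (H : AtlasHyp (chartDataModular B hB hqM) (jx M q))
    (hσ : σ ∈ B.inertiaSubgroupIn ℚ) (Q : Place kB FtM)
    (hnc : ∀ e : Crossing (chartDataModular B hB hqM), Q ≠ z₂ (chartDataModular B hB hqM) e)
    {P : Place Kb (Fb (M * q * q))}
    (hP : P ∈ Fermat.Agent.BR3.CZeroChartAll.cZeroTubeAll B hB hqM H Q hnc) :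
    gal (M * q * q) σ • P ∈ Fermat.Agent.BR3.CZeroChartAll.cZeroTubeAll B hB hqM H Q hnc := by
  by_cases hj : jFullC kB M ∈ Q.toValuationSubring
  · rw [Fermat.Agent.BR3.CZeroChartAll.cZeroTubeAll_of_finite B hB hqM H Q hnc hj] at hP ⊢
    exact smul_mem_cZeroTube B hB hqM H hσ Q hnc hj hP
  · rw [Fermat.Agent.BR3.CZeroChartAll.cZeroTubeAll_of_cusp B hB hqM H Q hnc hj] at hP ⊢
    exact smul_mem_cZeroTubeCusp B hB hqM H hσ Q hP

end Tubes

end Fermat.Agent.BR3.EquivTubesHoriz
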