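import Fermat.Agent.BR3.EquivTubesHoriz
import Fermat.Agent.BR3.CInfChartAll

/-!
# Program C (S36), node (I9-TUBES), horizontal components: the one-function tubes of `cInf`

`smul_mem_cInfTubeAll` : the tube `CInfChartAll.cInfTubeAll B hB hqM H Q hnc` of every non-crossing
point of `cInf` is stable under `gal (M q²) σ` for EVERY `σ` in the inertia group of `B` (the raw
clause `hsmInf` of `EquivTubeFam.hT_of_raw` / `hT_stable_of_raw`; the twin for `cZero` is
`EquivTubesHoriz.smul_mem_cZeroTubeAll`).
-/

set_option autoImplicit false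
set_option linter.style.haveILetI false
set_option linter.unusedSectionVars false
set_option linter.unusedVariables false
set_option synthInstance.maxHeartbeats 400000

noncomputable section

namespace Fermat.Agent.BR3.EquivTubesHoriz

open ModularCurve AlgebraicCurve IsLocalRing
open Fermat.Agent.Red Fermat.Agent.Val Fermat.Agent.X0
open Fermat.Agent.BR.SS Fermat.Agent.BR.S0 Fermat.Agent.BR.S0.PointDict
open Fermat.Agent.BR.S0.RedModular Fermat.Agent.BR.S0.RedHyp Fermat.Agent.BR.ValTwo
open Fermat.Agent.BR3.EquivFixed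

local notation "Kb" => AlgebraicClosure ℚ

variable {M q : ℕ} [NeZero M] [hq : Fact q.Prime]
variable (B : ValuationSubring (AlgebraicClosure ℚ)) (hB : B.LiesOverPrime q) (hqM : ¬ q ∣ M)

local notation "kB" => IsLocalRing.ResidueField B
local notation "FtM" => modularFunctionFieldFullC (IsLocalRing.ResidueField B) M

variable {σ : Kb ≃ₐ[ℚ] Kb}

/-- **The tubes of all non-crossing points of `cInf` (`cInfTubeAll`) are stable under inertia.** -/
theorem smul_mem_cInfTubeAll (H : AtlasHyp (chartDataModular B hB hqM) (jx M q))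
    (hσ : σ ∈ B.inertiaSubgroupIn ℚ) (Q : Place kB FtM)
    (hnc : ∀ e : Crossing (chartDataModular B hB hqM), Q ≠ z₁ (chartDataModular B hB hqM) e)
    {P : Place Kb (Fb (M * q * q))}
    (hP : P ∈ Fermat.Agent.BR3.CInfChartAll.cInfTubeAll B hB hqM H Q hnc) :
    gal (M * q * q) σ • P ∈ Fermat.Agent.BR3.CInfChartAll.cInfTubeAll B hB hqM H Q hnc := by
  by_cases hj : jFullC kB M ∈ Q.toValuationSubring
  · rw [Fermat.Agent.BR3.CInfChartAll.cInfTubeAll_of_finite B hB hqM H Q hnc hj] at hP ⊢
    exact smul_mem_cInfTube B hB hqM H hσ Q hnc hj hP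
  · rw [Fermat.Agent.BR3.CInfChartAll.cInfTubeAll_of_cusp B hB hqM H Q hnc hj] at hP ⊢
    exact smul_mem_cInfTubeCusp B hB hqM H hσ Q hP

end Fermat.Agent.BR3.EquivTubesHoriz
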