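import Fermat.Agent.BR3.EquivTubesNode

/-!
# Program C (S36), node (I9-TUBES), nodes: the generator of the sheet of `nW e`

`gal_smul_splitWB_shape` : the generator `W_b = U_g / β₂ (β g - (α g')^q)` of the split sheet of the
node `nW e` along `β₂` (`SplitCompsModB.splitWB M q g g'`, unfolded) is fixed by every `σ` fixing
`g`, `g'`; `gal_smul_splitW_of_mem_CMod`, `gal_smul_splitWB_of_mem_CMod` : the instances for `σ` in
the inertia group and `g`, `g'` in the canonical model over the unramified constants (the fields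
`hg`, `hg'`, `hg''` of `SSParam.IsSSParam`).
-/

set_option autoImplicit false
set_option linter.style.haveILetI false
set_option linter.unusedSectionVars false
set_option linter.unusedVariables false
set_option synthInstance.maxHeartbeats 400000

noncomputable section

namespace Fermat.Agent.BR3.EquivTubesNode

open ModularCurve AlgebraicCurve IsLocalRing
open Fermat.Agent.Red Fermat.Agent.Val Fermat.Agent.X0 Fermat.Agent.Hecke
open Fermat.Agent.BR.ValTwo Fermat.Agent.BR3.FibreProd Fermat.Agent.BR3.EquivFixed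
open Fermat.Agent.BR3.HeckePoly Fermat.Agent.BR.Inst.LevelsInst Fermat.Agent.BR.S0.ThickFinal

local notation "Kb" => AlgebraicClosure ℚ

variable {M q : ℕ} [NeZero M] [hq : Fact q.Prime] {σ : Kb ≃ₐ[ℚ] Kb}

/-- **The generator of the sheet of `nW e`** (`SplitCompsModB.splitWB M q g g'`, unfolded) is
fixed by every `σ` fixing `g`, `g'`. -/
theorem gal_smul_splitWB_shape {g g' : Fb M} (hg : gal M σ • g = g) (hg' : gal M σ • g' = g') :
    gal (M * q * q) σ •
        (Ug M q g / beta2 M q (heckeBetaBar Kb M q g - heckeAlphaBar Kb M q g' ^ q)) =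
      Ug M q g / beta2 M q (heckeBetaBar Kb M q g - heckeAlphaBar Kb M q g' ^ q) := by
  refine gal_smul_div_beta2 (Fermat.Agent.BR3.VertEquivUg.galAut_smul_Ug_of_fixed hg) ?_
  rw [smul_sub, smul_pow', gal_smul_beta_of_fixed hg, gal_smul_alpha_of_fixed hg']

variable (B : ValuationSubring Kb) (hB : B.LiesOverPrime q)

include hB in
/-- The generator of the sheet of `nT e` is fixed by the inertia group (`g`, `g'` in the canonical
model over the unramified constants). -/
theorem gal_smul_splitW_of_mem_CMod (hσ : σ ∈ B.inertiaSubgroupIn ℚ) {g g' : Fb M}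
    (hg : g ∈ CMod M (W0 B q) (K0 q)) (hg' : g' ∈ CMod M (W0 B q) (K0 q)) :
    gal (M * q * q) σ •
        (Ug M q g / alpha2 M q (-(heckeAlphaBar Kb M q g - heckeBetaBar Kb M q g' ^ q))) =
      Ug M q g / alpha2 M q (-(heckeAlphaBar Kb M q g - heckeBetaBar Kb M q g' ^ q)) :=
  gal_smul_splitW_shape
    (Fermat.Agent.BR3.VertEquivUg.galAut_smul_of_mem_CMod B hB hσ hg)
    (Fermat.Agent.BR3.VertEquivUg.galAut_smul_of_mem_CMod B hB hσ hg')

include hB in
/-- The generator of the sheet of `nW e` is fixed by the inertia group. -/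
theorem gal_smul_splitWB_of_mem_CMod (hσ : σ ∈ B.inertiaSubgroupIn ℚ) {g g' : Fb M}
    (hg : g ∈ CMod M (W0 B q) (K0 q)) (hg' : g' ∈ CMod M (W0 B q) (K0 q)) :
    gal (M * q * q) σ •
        (Ug M q g / beta2 M q (heckeBetaBar Kb M q g - heckeAlphaBar Kb M q g' ^ q)) =
      Ug M q g / beta2 M q (heckeBetaBar Kb M q g - heckeAlphaBar Kb M q g' ^ q) :=
  gal_smul_splitWB_shape
    (Fermat.Agent.BR3.VertEquivUg.galAut_smul_of_mem_CMod B hB hσ hg)
    (Fermat.Agent.BR3.VertEquivUg.galAut_smul_of_mem_CMod B hB hσ hg')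

end Fermat.Agent.BR3.EquivTubesNode
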