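/-
Program C (S36), node I7, pieces (M2)/(W2) (helper12): the field `O_injective` of `SDD.Input` —
the valuation rings of the components of `S''` are pairwise different — by restriction along ONE
cover `φ : F' → F''` (in the application `a = alpha2 M q`) to a base setup `S'` with annulus charts:

* the vertical components `z e` restrict to the circle rings of the nodes `eZ e` of `S'`
  (`Z.comap φ = circleRing (core (eZ e)) (a₀ (eZ e))`, helper22's `exists_vertComponent_final`),
  which are pairwise different for different nodes (`Circle.circleRing_ne_of_separated` + `sep`)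
  and different from the rings of the components of `S'` (`AnnulusChartN.circleRing_ne_O`);
* the horizontal components restrict to components of `S'`.

`ne_of_comap_ne`, `ze_injective_of_comap`, `ne_ze_of_comap`, and the assembly
`O_injective_of_comap` through `SDD.constRedOf_O_injective`.
-/
import Mathlib
import Fermat.Agent.BR3.SDD.Fields
import Fermat.Agent.BR3.CircleN.Assembly

set_option autoImplicit false
set_option linter.unusedSectionVars false

namespace Fermat.Agent.BR3.SepNOInj

open AlgebraicCurve IsLocalRing Fermat.Agent.Red Fermat.Agent.Val Fermat.Agent.BR.SS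
  Fermat.Agent.BR.Refine Fermat.Agent.BR.Circle Fermat.Agent.BR3.CircleN Fermat.Agent.BR3.SDD

variable {K : Type} {F' F'' : Type*} [Field K] [Field F'] [Field F''] [Algebra K F']
  [Algebra K F''] {A : ValuationSubring K} [IsAlgClosed (ResidueField A)]
  {ι₁ : Type} {Ft₁ : ι₁ → Type} [∀ v, Field (Ft₁ v)] [∀ v, Algebra (ResidueField A) (Ft₁ v)]
  {ν₁ : Type} {S₁ : SemistableSetup (F := F') A (residue A) ι₁ Ft₁ ν₁}

/-- Valuation rings with different restrictions are different. -/
theorem ne_of_comap_ne (φ : F' →+* F'') {O₁ O₂ : ValuationSubring F''}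
    (h : O₁.comap φ ≠ O₂.comap φ) : O₁ ≠ O₂ := fun h12 => h (h12 ▸ rfl)

section Vertical

variable (I : CircleInputsN S₁) (a₀ : ν₁ → K) (hadm : ∀ e, I.adm e (a₀ e)) (φ : F' →+* F'')

/-- **`z e ≠ z e'`**: valuation rings over the circle rings of two different nodes are different. -/
theorem ne_of_comap_circleRing {e e' : ν₁} (hne : e ≠ e') {Z Z' : ValuationSubring F''}
    (hZ : Z.comap φ = circleRing (I.ch e).toCore (a₀ e) (hadm e).1 (hadm e).2)
    (hZ' : Z'.comap φ = circleRing (I.ch e').toCore (a₀ e') (hadm e').1 (hadm e').2) :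
    Z ≠ Z' := by
  apply ne_of_comap_ne φ
  rw [hZ, hZ']
  exact circleRing_ne_of_separated (I.ch e).toCore (I.ch e').toCore (a₀ e) (a₀ e')
    (hadm e).1 (hadm e).2 (hadm e').1 (hadm e').2 (I.sep e e' hne)

/-- **`z e ≠` a horizontal component**: a valuation ring over a circle ring is different from a
valuation ring over a component of `S'`. -/
theorem ne_of_comap_circleRing_of_comap_O {e : ν₁} {v : ι₁} {Z O : ValuationSubring F''}
    (hZ : Z.comap φ = circleRing (I.ch e).toCore (a₀ e) (hadm e).1 (hadm e).2)
    (hO : O.comap φ = S₁.O v) : O ≠ Z := by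
  apply ne_of_comap_ne φ
  rw [hZ, hO]
  exact ((I.ch e).circleRing_ne_O (a₀ e) (hadm e).1 (hadm e).2 v).symm

end Vertical

/-! ### the assembly -/

section Assembly

variable {Mid SSp : Type} {FH : Bool → Type} {FM : Mid → Type} {FZ : SSp → Type}
  [∀ b, Field (FH b)] [∀ i, Field (FM i)] [∀ e, Field (FZ e)]
  [∀ b, Algebra (ResidueField A) (FH b)] [∀ i, Algebra (ResidueField A) (FM i)]
  [∀ e, Algebra (ResidueField A) (FZ e)]
  (CH : ∀ b, ConstRed (F := F'') (Ft := FH b) A (residue A))
  (CM : ∀ i, ConstRed (F := F'') (Ft := FM i) A (residue A))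
  (CZ : ∀ e, ConstRed (F := F'') (Ft := FZ e) A (residue A))
  (I : CircleInputsN S₁) (a₀ : ν₁ → K) (hadm : ∀ e, I.adm e (a₀ e)) (φ : F' →+* F'')

/-- **The field `O_injective` of `SDD.Input`** from the restrictions along `φ`: `cInf ≠ cZero`,
the `mid i` pairwise different and different from `cInf`, `cZero` (inputs `hH`, `hM`, `hHM`:
helper1, helper6), the horizontal components over components of `S'`, the vertical components over
the circle rings of pairwise different nodes. -/
theorem O_injective_of_comap
    (hH : (CH false).O ≠ (CH true).O) (hM : Function.Injective fun i => (CM i).O)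
    (hHM : ∀ b i, (CH b).O ≠ (CM i).O)
    (vH : Bool → ι₁) (hHc : ∀ b, ((CH b).O).comap φ = S₁.O (vH b))
    (vM : Mid → ι₁) (hMc : ∀ i, ((CM i).O).comap φ = S₁.O (vM i))
    (eZ : SSp → ν₁) (heZ : Function.Injective eZ)
    (hZc : ∀ e, ((CZ e).O).comap φ =
      circleRing (I.ch (eZ e)).toCore (a₀ (eZ e)) (hadm (eZ e)).1 (hadm (eZ e)).2) :
    Function.Injective fun v => (constRedOf CH CM CZ v).O := by
  refine constRedOf_O_injective CH CM CZ ?_ hM ?_ hHM ?_ ?_
  · intro b b' h
    by_contra hbb
    rcases b with _ | _ <;> rcases b' with _ | _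
    · exact hbb rfl
    · exact hH h
    · exact hH h.symm
    · exact hbb rfl
  · intro e e' h
    by_contra hee
    exact ne_of_comap_circleRing I a₀ hadm φ (fun h' => hee (heZ h')) (hZc e) (hZc e') h
  · intro b e
    exact ne_of_comap_circleRing_of_comap_O I a₀ hadm φ (hZc e) (hHc b)
  · intro i e
    exact ne_of_comap_circleRing_of_comap_O I a₀ hadm φ (hZc e) (hMc i)

end Assembly

end Fermat.Agent.BR3.SepNOInj
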