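import Mathlib
import Fermat.Agent.BR3.FiltMaps
import Fermat.Agent.BR3.G5Multi
import Fermat.Agent.BR3.GalTrace

/-!
# Program C (S36), node A5b, step (H2): the abelian third of contract (A')

`S : SS.SemistableSetup A π ι Ft ν` a semistable valued function field `F/K` (the stable model at
level `M q²`), `m ≠ 0`, `y ∈ Filt.natSub S m` a class of the finite part fixed by a set `Gs` of
semilinear automorphisms of `F/K` (the image of the inertia group).  With the abelian parts
`abRes v y ∈ Pic⁰ (Ft v)` of `BR3/FiltMaps`: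

* `abRes_eq_of_fixed` : if `g ∈ Gs` maps the component `v` to `w` through `a : Ft v ≃ₐ[k] Ft w`
  then `abRes w y = a_* (abRes v y)`;
* `smul_abRes_eq_zero_of_vert` (vertical components): `g` maps `v` to itself through `a`, and every
  class of `Pic⁰ (Ft v)` fixed by `a` is killed by `n` (`BR3/VertKill`, `n = q + 1`)
  `⟹ n • abRes v y = 0`;
* `smul_abRes_eq_zero_of_mid` (middle components `mid i`, `i : Mid`, over the field `L₀` through
  `φ i : L₀ → Ft (mid i)`): if `∑ i, (φ i)_* (abRes (mid i) y) = 0` (the output of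
  `G5Multi.sum_push_abRes_eq_zero` after removing the horizontal component) and the isomorphisms
  `σ i t : Ft (mid i) ≃ Ft (mid j)` in the norm formula `φ j (N_{φ i} z) = ∏ t, σ i t z` are induced
  by elements of `Gs`, then `(|Mid| · [Ft (mid j) : L₀]) • abRes (mid j) y = 0`
  (`GalTrace.smul_eq_zero_of_fixed_of_pushSum_eq_zero`);
* `sum_push_mid_eq_zero` : removal of the components with vanishing abelian part from the sum of
  `G5Multi.sum_push_abRes_eq_zero` (index type `Option Mid`);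
* `smul_mem_torSub_of_forall` : `e • abRes v y = 0` for all `v` `⟹ e • y ∈ Filt.torSub S m`;
* **`smul_mem_torSub_of_kinds`** : the assembly: every component is horizontal (`abRes v y = 0`),
  middle (killed by `e₁`) or vertical (killed by `e₂`) `⟹ (e₁ * e₂) • y ∈ Filt.torSub S m`.
-/

set_option autoImplicit false
set_option linter.unusedVariables false
set_option linter.unusedSectionVars false

noncomputable section

namespace Fermat.Agent.BR3.GeoAb

open AlgebraicCurve Fermat.Agent.Red Fermat.Agent.BR.SS Fermat.Agent.Jac Fermat.Agent.BR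
  Fermat.Agent.BR2.Filt Fermat.Agent.BR3.FiltPerm Fermat.Agent.BR3.FiltMaps Fermat.Agent.X0
  Fermat.Agent.BR.PicFunct

/-! ### the two transports of `Pic⁰` along an isomorphism agree -/

section Bridge

variable {k L L' : Type*} [Field k] [Field L] [Field L'] [Algebra k L] [Algebra k L']

theorem pic0Map_eq (a : L ≃ₐ[k] L') (x : Pic0 k L) :
    FiltMaps.pic0Map a x = GalTrace.pic0Map a x := by
  obtain ⟨D, rfl⟩ := Pic0.mk_surjective x
  rw [FiltMaps.pic0Map_mk, GalTrace.pic0Map_mk]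
  exact congrArg Pic0.mk (Subtype.ext rfl)

end Bridge

variable {K F k : Type*} [Field K] [Field F] [Algebra K F] [Field k]
  {A : ValuationSubring K} {π : A →+* k} {ι : Type*} {Ft : ι → Type*}
  [∀ v, Field (Ft v)] [∀ v, Algebra k (Ft v)] {ν : Type*}
  {S : SemistableSetup (F := F) A π ι Ft ν}

/-! ### invariance -/

/-- If `g` fixes `y` and maps the component `v` to `w` through `a`, the abelian part of `y` on `w`
is the transport of its abelian part on `v`. -/
theorem abRes_eq_of_fixed (hF : RiemannPkg K F) (hFt : ∀ v, RiemannPkg k (Ft v)) {m : ℕ}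
    (hm : m ≠ 0) {g : SemilinearAut K F} {v w : ι} {a : Ft v ≃ₐ[k] Ft w}
    (h : MapsComp S g v w a) (y : natSub S m) (hgy : g • (y : Pic0 K F) = y) :
    abRes hF hFt hm w y = FiltMaps.pic0Map a (abRes hF hFt hm v y) := by
  have hy : g • (y : Pic0 K F) ∈ natSub S m := by rw [hgy]; exact y.2
  have h1 := abRes_smul hF hFt hm h y hy
  have e : (⟨g • (y : Pic0 K F), hy⟩ : natSub S m) = y := Subtype.ext hgy
  rwa [e] at h1

/-- **Vertical components**: `g` fixes `y` and maps the component `v` to itself through `a`; if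
every class of `Pic⁰ (Ft v)` fixed by `a` is killed by `n`, then `n • abRes v y = 0`. -/
theorem smul_abRes_eq_zero_of_vert (hF : RiemannPkg K F) (hFt : ∀ v, RiemannPkg k (Ft v))
    {m : ℕ} (hm : m ≠ 0) {g : SemilinearAut K F} {v : ι} {a : Ft v ≃ₐ[k] Ft v}
    (h : MapsComp S g v v a) (y : natSub S m) (hgy : g • (y : Pic0 K F) = y) (n : ℕ)
    (hkill : ∀ x : Pic0 k (Ft v), SemilinearAut.ofAlgAut a • x = x → n • x = 0) :
    n • abRes hF hFt hm v y = 0 := by
  apply hkill
  have h1 := abRes_eq_of_fixed hF hFt hm h y hgy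
  rw [pic0Map_eq, GalTrace.pic0Map_eq_smul] at h1
  exact h1.symm

/-! ### the middle components -/

section Mid

variable [∀ v, HasPrincipalDivisors k (Ft v)]
  {L₀ : Type*} [Field L₀] [Algebra k L₀] [HasPrincipalDivisors k L₀]
  {Mid : Type*} [Fintype Mid] (mid : Mid → ι)
  (φ : ∀ i, L₀ →ₐ[k] Ft (mid i)) (hφ : ∀ i, (φ i).toRingHom.IsIntegral)
  (hfin : ∀ i, FiniteAlong k (φ i)) (hN : ∀ i, NormFormulaAlong k (φ i) (hfin i))
  (hFI : ∀ i, FundamentalIdentityAlong k (φ i) (hφ i))

include hFI in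
/-- **Middle components.** -/
theorem smul_abRes_eq_zero_of_mid (hF : RiemannPkg K F) (hFt : ∀ v, RiemannPkg k (Ft v))
    {m : ℕ} (hm : m ≠ 0) (j : Mid) {T : Mid → Type*} [∀ i, Fintype (T i)]
    (σ : ∀ i, T i → (Ft (mid i) ≃ₐ[k] Ft (mid j)))
    (hnorm : ∀ (i : Mid) (z : Ft (mid i)), φ j (normAlong (φ i) z) = ∏ t, σ i t z)
    (hcard : ∀ i, Fintype.card (T i) = finrankAlong k (φ j))
    (Gs : Set (SemilinearAut K F))
    (hmaps : ∀ (i : Mid) (t : T i), ∃ g ∈ Gs, MapsComp S g (mid i) (mid j) (σ i t))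
    (y : natSub S m) (hfix : ∀ g ∈ Gs, g • (y : Pic0 K F) = y)
    (hsum : ∑ i, pic0Push (φ i) (hφ i) (hfin i) (hN i) (abRes hF hFt hm (mid i) y) = 0) :
    (Fintype.card Mid * finrankAlong k (φ j)) • abRes hF hFt hm (mid j) y = 0 := by
  refine GalTrace.smul_eq_zero_of_fixed_of_pushSum_eq_zero (Ft := fun i => Ft (mid i)) φ hφ hfin hN
    hFI (fun i => hFt (mid i)) j σ hnorm hcard (fun i => abRes hF hFt hm (mid i) y) ?_ hsum
  intro i t
  obtain ⟨g, hg, hmap⟩ := hmaps i t
  rw [← pic0Map_eq]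
  exact (abRes_eq_of_fixed hF hFt hm hmap y (hfix g hg)).symm

end Mid

/-! ### removal of the components with vanishing abelian part -/

section Remove

variable {L₀ : Type*} [Field L₀] [Algebra k L₀] [HasPrincipalDivisors k L₀]
  [∀ v, HasPrincipalDivisors k (Ft v)]

/-- From the sum of `G5Multi.sum_push_abRes_eq_zero` over `Option Mid` (`none` = a component with
vanishing abelian part) to the sum over `Mid`. -/
theorem sum_push_mid_eq_zero (hF : RiemannPkg K F) (hFt : ∀ v, RiemannPkg k (Ft v))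
    {m : ℕ} (hm : m ≠ 0) {Mid : Type*} [Fintype Mid] (w : Option Mid → ι)
    (ψ : ∀ j, L₀ →ₐ[k] Ft (w j)) (hψ : ∀ j, (ψ j).toRingHom.IsIntegral)
    (hfinψ : ∀ j, FiniteAlong k (ψ j)) (hNψ : ∀ j, NormFormulaAlong k (ψ j) (hfinψ j))
    (y : natSub S m) (h0 : abRes hF hFt hm (w none) y = 0)
    (hsum : ∑ j, pic0Push (ψ j) (hψ j) (hfinψ j) (hNψ j) (abRes hF hFt hm (w j) y) = 0) :
    ∑ i : Mid, pic0Push (ψ (some i)) (hψ (some i)) (hfinψ (some i)) (hNψ (some i))
      (abRes hF hFt hm (w (some i)) y) = 0 := by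
  rw [Fintype.sum_option, h0, map_zero, zero_add] at hsum
  exact hsum

end Remove

/-! ### the assembly -/

/-- `e • abRes v y = 0` for all components `v` `⟹ e • y` is in the toric part. -/
theorem smul_mem_torSub_of_forall (hF : RiemannPkg K F) (hFt : ∀ v, RiemannPkg k (Ft v))
    {m : ℕ} (hm : m ≠ 0) (y : natSub S m) (e : ℕ)
    (h : ∀ v, e • abRes hF hFt hm v y = 0) : e • (y : Pic0 K F) ∈ torSub S m := by
  have h1 := (abRes_eq_zero_iff hF hFt hm (e • y)).mp (fun v => by rw [map_nsmul]; exact h v)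
  exact h1

/-- **(H2), assembly.** Every component is horizontal (vanishing abelian part: norm–residue along
a purely inseparable residue extension), middle (abelian part killed by `e₁`) or vertical (abelian
part killed by `e₂`): then `(e₁ * e₂) • y` lies in the toric part. -/
theorem smul_mem_torSub_of_kinds (hF : RiemannPkg K F) (hFt : ∀ v, RiemannPkg k (Ft v))
    {m : ℕ} (hm : m ≠ 0) (y : natSub S m) (e₁ e₂ : ℕ)
    (h : ∀ v, abRes hF hFt hm v y = 0 ∨ e₁ • abRes hF hFt hm v y = 0 ∨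
      e₂ • abRes hF hFt hm v y = 0) :
    (e₁ * e₂) • (y : Pic0 K F) ∈ torSub S m := by
  refine smul_mem_torSub_of_forall hF hFt hm y (e₁ * e₂) fun v => ?_
  rcases h v with h0 | h1 | h2
  · rw [h0, smul_zero]
  · rw [mul_comm, mul_smul, h1, smul_zero]
  · rw [mul_smul, h2, smul_zero]

/-- **(H2) in the shape of `GeoC.newInvBounded_of_steps`**: `nat m := natSub S (lam ^ m)`,
`tor m := torSub S (lam ^ m)`, `Inv y := ∀ g ∈ Gs, g • y = y`, `a`, `b` the two push-forwards. -/
theorem h2_of_kinds (hF : RiemannPkg K F) (hFt : ∀ v, RiemannPkg k (Ft v)) (lam : ℕ)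
    (hlam : lam ≠ 0) (Gs : Set (SemilinearAut K F)) {X₀ : Type*} [AddCommGroup X₀]
    (a b : Pic0 K F →+ X₀) (e₁ e₂ : ℕ)
    (hkind : ∀ (m : ℕ) (y : natSub S (lam ^ m)), (∀ g ∈ Gs, g • (y : Pic0 K F) = y) →
      a (y : Pic0 K F) = 0 → b (y : Pic0 K F) = 0 → ∀ v,
        abRes hF hFt (pow_ne_zero m hlam) v y = 0 ∨
        e₁ • abRes hF hFt (pow_ne_zero m hlam) v y = 0 ∨
        e₂ • abRes hF hFt (pow_ne_zero m hlam) v y = 0) :
    ∀ (m : ℕ) (y : Pic0 K F), y ∈ natSub S (lam ^ m) → lam ^ m • y = 0 →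
      (∀ g ∈ Gs, g • y = y) → a y = 0 → b y = 0 → (e₁ * e₂) • y ∈ torSub S (lam ^ m) :=
  fun m y hy _ hinv ha hb =>
    smul_mem_torSub_of_kinds hF hFt (pow_ne_zero m hlam) ⟨y, hy⟩ e₁ e₂
      (hkind m ⟨y, hy⟩ hinv ha hb)

end Fermat.Agent.BR3.GeoAb
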