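import Mathlib

/-!
# Program C (S36), node A5b: the abstract three-step assembly of contract (A')

`X` = the Jacobian at the level `M q²`, `X₀` = the Jacobian at the level `M q`, `a`, `b` the two
push-forwards, `Inv` = "fixed by the inertia group at `q`", `nat m`, `tor m` the finite part and
the toric part of the `lam ^ m`-torsion for the stable model.

* `(H1)` an invariant torsion class lies in the finite part up to the bounded factor `Δ`
  (node A2 + richness of the tame inertia);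
* `(H2)` an invariant new class of the finite part lies in the toric part up to `e₂`
  (norm-residue formulas along `a`, `b`, Galois trace on the middle and vertical components);
* `(H3)` an invariant new class of the toric part is killed by `e₃`
  (gluing cochains, graph lemma, no torsion in the kernel of reduction).

Then every invariant new `lam`-power torsion class is killed by `e₃ * e₂ * Δ`
(`newInvBounded_of_steps`); `exists_newInvBounded_of_steps` is the existential form consumed by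
the top of Program C.
-/

set_option autoImplicit false

namespace Fermat.Agent.BR3.GeoC

variable {X X₀ : Type*} [AddCommGroup X] [AddCommGroup X₀]

/-- **The abstract assembly of (A').** -/
theorem newInvBounded_of_steps (lam : ℕ) (Inv : X → Prop) (a b : X →+ X₀)
    (nat tor : ℕ → AddSubgroup X)
    (hInv : ∀ (n : ℕ) (x : X), Inv x → Inv (n • x))
    (Δ e₂ e₃ : ℕ)
    (H1 : ∀ (m : ℕ) (x : X), lam ^ m • x = 0 → Inv x → Δ • x ∈ nat m)
    (H2 : ∀ (m : ℕ) (y : X), y ∈ nat m → lam ^ m • y = 0 → Inv y → a y = 0 → b y = 0 →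
      e₂ • y ∈ tor m)
    (H3 : ∀ (m : ℕ) (z : X), z ∈ tor m → lam ^ m • z = 0 → Inv z → a z = 0 → b z = 0 →
      e₃ • z = 0)
    (m : ℕ) (x : X) (hx : lam ^ m • x = 0) (hinv : Inv x) (ha : a x = 0) (hb : b x = 0) :
    (e₃ * e₂ * Δ) • x = 0 := by
  have hkill : ∀ (n : ℕ) (w : X), lam ^ m • w = 0 → lam ^ m • (n • w) = 0 := by
    intro n w hw
    rw [smul_comm, hw, smul_zero]
  have hzero : ∀ (f : X →+ X₀) (n : ℕ) (w : X), f w = 0 → f (n • w) = 0 := by
    intro f n w hw
    rw [map_nsmul, hw, smul_zero]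
  have h1 : Δ • x ∈ nat m := H1 m x hx hinv
  have h2 : e₂ • (Δ • x) ∈ tor m :=
    H2 m (Δ • x) h1 (hkill Δ x hx) (hInv Δ x hinv) (hzero a Δ x ha) (hzero b Δ x hb)
  have h3 : e₃ • (e₂ • (Δ • x)) = 0 :=
    H3 m (e₂ • (Δ • x)) h2 (hkill e₂ _ (hkill Δ x hx)) (hInv e₂ _ (hInv Δ x hinv))
      (hzero a e₂ _ (hzero a Δ x ha)) (hzero b e₂ _ (hzero b Δ x hb))
  rw [mul_smul, mul_smul]
  exact h3

/-- Existential form: the shape of the hypothesis of `InertiaInput.newInvBounded_of_down`. -/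
theorem exists_newInvBounded_of_steps (lam : ℕ) (Inv : X → Prop) (a b : X →+ X₀)
    (nat tor : ℕ → AddSubgroup X)
    (hInv : ∀ (n : ℕ) (x : X), Inv x → Inv (n • x))
    (Δ e₂ e₃ : ℕ) (hΔ : Δ ≠ 0) (he₂ : e₂ ≠ 0) (he₃ : e₃ ≠ 0)
    (H1 : ∀ (m : ℕ) (x : X), lam ^ m • x = 0 → Inv x → Δ • x ∈ nat m)
    (H2 : ∀ (m : ℕ) (y : X), y ∈ nat m → lam ^ m • y = 0 → Inv y → a y = 0 → b y = 0 →
      e₂ • y ∈ tor m)
    (H3 : ∀ (m : ℕ) (z : X), z ∈ tor m → lam ^ m • z = 0 → Inv z → a z = 0 → b z = 0 →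
      e₃ • z = 0) :
    ∃ e₀ : ℕ, e₀ ≠ 0 ∧ ∀ (m : ℕ) (y : X), lam ^ m • y = 0 → Inv y → a y = 0 → b y = 0 →
      e₀ • y = 0 :=
  ⟨e₃ * e₂ * Δ, mul_ne_zero (mul_ne_zero he₃ he₂) hΔ, fun m y hy hinv ha hb =>
    newInvBounded_of_steps lam Inv a b nat tor hInv Δ e₂ e₃ H1 H2 H3 m y hy hinv ha hb⟩

end Fermat.Agent.BR3.GeoC
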