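import Mathlib
import Fermat.Agent.BR3.InvFinite

/-!
# Program C (S36), node A5b, step (H1) of contract (A'): invariant torsion lies in the finite part

Glue between node A2 (`InvFinite.exists_smul_mem_natSub_of_fixed`) and the abstract assembly
`GeoC.newInvBounded_of_steps`: if for every `m` the group whose invariants are considered contains
an element acting trivially on the model `S₀` and *rich at level `lam ^ m`* (node A13,
`TameSurjFinal.exists_inertia_fixing_pow`), then `Δ • x ∈ Filt.natSub S₀ (lam ^ m)` for every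
invariant `x` killed by `lam ^ m`, with `Δ` independent of `m`.
-/

set_option autoImplicit false
set_option linter.unusedSectionVars false

namespace Fermat.Agent.BR3.GeoInv

open AlgebraicCurve IsLocalRing Fermat.Agent.Red Fermat.Agent.BR.SS Fermat.Agent.BR.Fact
  Fermat.Agent.BR.Refine Fermat.Agent.BR.InertiaRed Fermat.Agent.BR3.InvFiniteUnit
  Fermat.Agent.BR2 Fermat.Agent.BR2.Filt

variable {K : Type} {F : Type*} [Field K] [Field F] [Algebra K F]
  {A : ValuationSubring K} [IsAlgClosed (ResidueField A)]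
  {ι₀ : Type} {Ft₀ : ι₀ → Type} [∀ v, Field (Ft₀ v)] [∀ v, Algebra (ResidueField A) (Ft₀ v)]
  {ν₀ : Type}

/-- **Step (H1) of (A').**  `Inv` is the invariance condition (fixed by the inertia group); the
hypothesis `hrich` provides, for every `m`, one element `g` of the group acting trivially on the
model and rich at level `lam ^ m`. -/
theorem exists_smul_mem_natSub_of_inv [Fintype ι₀] [Fintype ν₀] [IsAlgClosed K]
    (S₀ : SemistableSetup (F := F) A (residue A) ι₀ Ft₀ ν₀)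
    (hF : RiemannPkg K F) (hFt : ∀ v, RiemannPkg (ResidueField A) (Ft₀ v))
    (u : ν₀ → F) (thick : ν₀ → K) (TU : ν₀ → F → Prop)
    (N : ∀ e, NodeFact S₀ e (u e) (thick e) (TU e))
    (hsrc : ∀ e (h : u e ∈ S₀.O (S₀.src e)),
      (S₀.s₁ e).ord (S₀.res (S₀.src e) ⟨u e, h⟩) = 1)
    (htgt : ∀ e (h : thick e • (u e)⁻¹ ∈ S₀.O (S₀.tgt e)),
      (S₀.s₂ e).ord (S₀.res (S₀.tgt e) ⟨thick e • (u e)⁻¹, h⟩) = 1)
    (ϖ : K) (hϖ0 : ϖ ≠ 0) (hϖ : A.valuation ϖ < 1) (t : ν₀ → ℕ) (ht0 : ∀ e, 0 < t e)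
    (ht : ∀ e, A.valuation (thick e) = A.valuation ϖ ^ t e)
    (lam : ℕ) (hlam : (lam : ResidueField A) ≠ 0) (Inv : Pic0 K F → Prop)
    (hrich : ∀ m : ℕ, ∃ (g : SemilinearAut K F) (c : K), TrivialAction S₀ u g ∧
      c ^ (lam ^ m) = ϖ ∧
      IsPrimitiveRoot (resOf A (SemilinearAut.baseAut g c / c)) (lam ^ m) ∧
      ∀ x : Pic0 K F, Inv x → g • x = x) :
    ∃ Δ : ℕ, 0 < Δ ∧ ∀ (m : ℕ) (x : Pic0 K F), lam ^ m • x = 0 → Inv x →
      Δ • x ∈ natSub S₀ (lam ^ m) := by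
  obtain ⟨Δ, hΔ0, hΔ⟩ := InvFinite.exists_smul_mem_natSub_of_fixed S₀ hF hFt u thick TU N hsrc
    htgt ϖ hϖ0 hϖ t ht0 ht
  refine ⟨Δ, hΔ0, fun m x hx hinv => ?_⟩
  obtain ⟨g, c, hg, hc, hprim, hfix⟩ := hrich m
  have hm : ((lam ^ m : ℕ) : ResidueField A) ≠ 0 := by
    rw [Nat.cast_pow]
    exact pow_ne_zero m hlam
  exact hΔ (lam ^ m) hm g hg c hc hprim x hx (hfix x hinv)

end Fermat.Agent.BR3.GeoInv
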