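import Fermat.Agent.BR3.S36Final
import Fermat.Agent.BR3.GeoC
import Fermat.Agent.BR3.GeoInv
import Fermat.Agent.BR3.GeoAb

/-!
# Program C (S36), node I11: contract (A') at the level `N₁ * q` from the three steps

`S` any semistable setup on `Fb (N₁ * q) / Kb` over the valuation ring `B` (for Program C:
`N₁ = M * q`, `S = S''` the stable model of `X₀(M q²)` over `B`).  With
`Inv x := ∀ s ∈ B.inertiaSubgroupIn ℚ, s • x = x`, `a := alphaDown N₁ q`, `b := betaDown N₁ q`,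
`nat m := natSub S (lam ^ m)`, `tor m := torSub S (lam ^ m)`:

* `newInvBoundedLevel_of_steps` : `(H1)`, `(H2)`, `(H3)` in the shape of
  `GeoC.newInvBounded_of_steps` give `S36Final.NewInvBoundedLevel N₁ q lam B`, the ONE input of
  `S36OfGeo.s36_of_newInvBounded`;
* `h1_of_rich` : `(H1)` from node A2 (`GeoInv.exists_smul_mem_natSub_of_inv`), the richness being
  stated for elements of the inertia group (`galAut (N₁ * q) s`);
* `h2_of_kinds_inertia` : `(H2)` from `GeoAb.h2_of_kinds` with `Gs :=` the image of the inertia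
  group;
* `newInvBoundedLevel_of_geo` : the assembly; `(H3)` is taken in the literal shape produced by
  `GeoTor.h3_of_graph`.
-/

set_option autoImplicit false
set_option linter.style.haveILetI false
set_option linter.unusedSectionVars false
set_option linter.unusedVariables false

open ModularCurve AlgebraicCurve

namespace Fermat.Agent.BR3.GeoFinal

open IsLocalRing Fermat.Agent.Jac Fermat.Agent.X0 Fermat.Agent.Red Fermat.Agent.BR.SS
  Fermat.Agent.BR.Fact Fermat.Agent.BR.InertiaRed Fermat.Agent.BR3.InvFiniteUnit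
  Fermat.Agent.BR2.Filt Fermat.Agent.BR3.FiltMaps Fermat.Agent.BR.LevelTransfer
  Fermat.Agent.BR2.LevelMaps Fermat.Agent.BR3.S36Final

local notation "Qb" => AlgebraicClosure ℚ

variable (N₁ q lam : ℕ) [NeZero N₁] [NeZero q] (B : ValuationSubring Qb)

/-- the invariance condition of contract (A') -/
def Inv (x : JZero (N₁ * q)) : Prop := ∀ s ∈ B.inertiaSubgroupIn ℚ, s • x = x

theorem inv_nsmul (n : ℕ) (x : JZero (N₁ * q)) (h : Inv N₁ q B x) : Inv N₁ q B (n • x) := by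
  intro s hs
  rw [smul_nsmul_comm_aux s n x, h s hs]
where
  smul_nsmul_comm_aux (s : GQ) (n : ℕ) (x : JZero (N₁ * q)) : s • (n • x) = n • (s • x) :=
    (smul_comm n s x).symm

section Steps

variable {k : Type*} [Field k] {π : B →+* k} {ι : Type*} {Ft : ι → Type*}
  [∀ v, Field (Ft v)] [∀ v, Algebra k (Ft v)] {ν : Type*}
  (S : SemistableSetup (F := Fb (N₁ * q)) B π ι Ft ν)

/-- **(A') at the level `N₁ * q` from the three steps.** -/
theorem newInvBoundedLevel_of_steps (Δ e₂ e₃ : ℕ) (hΔ : Δ ≠ 0) (he₂ : e₂ ≠ 0) (he₃ : e₃ ≠ 0)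
    (H1 : ∀ (m : ℕ) (x : JZero (N₁ * q)), lam ^ m • x = 0 → Inv N₁ q B x →
      Δ • x ∈ natSub S (lam ^ m))
    (H2 : ∀ (m : ℕ) (y : JZero (N₁ * q)), y ∈ natSub S (lam ^ m) → lam ^ m • y = 0 →
      Inv N₁ q B y → alphaDown N₁ q y = 0 → betaDown N₁ q y = 0 →
      e₂ • y ∈ torSub S (lam ^ m))
    (H3 : ∀ (m : ℕ) (z : JZero (N₁ * q)), z ∈ torSub S (lam ^ m) → lam ^ m • z = 0 →
      Inv N₁ q B z → alphaDown N₁ q z = 0 → betaDown N₁ q z = 0 → e₃ • z = 0) :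
    NewInvBoundedLevel N₁ q lam B :=
  GeoC.exists_newInvBounded_of_steps lam (Inv N₁ q B) (alphaDown N₁ q) (betaDown N₁ q)
    (fun m => natSub S (lam ^ m)) (fun m => torSub S (lam ^ m)) (inv_nsmul N₁ q B)
    Δ e₂ e₃ hΔ he₂ he₃ H1 H2 H3

/-- **(H2)** for the inertia group from `GeoAb.h2_of_kinds`. -/
theorem h2_of_kinds_inertia (hF : RiemannPkg Qb (Fb (N₁ * q))) (hFt : ∀ v, RiemannPkg k (Ft v))
    (hlam : lam ≠ 0) (e₁ e₂ : ℕ)
    (hkind : ∀ (m : ℕ) (y : natSub S (lam ^ m)),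
      (∀ s ∈ B.inertiaSubgroupIn ℚ, galAut (N₁ * q) s • (y : JZero (N₁ * q)) = y) →
      alphaDown N₁ q (y : JZero (N₁ * q)) = 0 → betaDown N₁ q (y : JZero (N₁ * q)) = 0 → ∀ v,
        abRes hF hFt (pow_ne_zero m hlam) v y = 0 ∨
        e₁ • abRes hF hFt (pow_ne_zero m hlam) v y = 0 ∨
        e₂ • abRes hF hFt (pow_ne_zero m hlam) v y = 0) :
    ∀ (m : ℕ) (y : JZero (N₁ * q)), y ∈ natSub S (lam ^ m) → lam ^ m • y = 0 →
      Inv N₁ q B y → alphaDown N₁ q y = 0 → betaDown N₁ q y = 0 →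
      (e₁ * e₂) • y ∈ torSub S (lam ^ m) := by
  intro m y hy hly hinv ha hb
  refine GeoAb.h2_of_kinds (S := S) hF hFt lam hlam
    {g | ∃ s ∈ B.inertiaSubgroupIn ℚ, g = galAut (N₁ * q) s} (alphaDown N₁ q) (betaDown N₁ q)
    e₁ e₂ (fun m y hfix ha hb => hkind m y (fun s hs => hfix _ ⟨s, hs, rfl⟩) ha hb) m y hy hly
    ?_ ha hb
  rintro g ⟨s, hs, rfl⟩
  exact hinv s hs

end Steps

section H1

variable [IsAlgClosed (ResidueField B)]
  {ι : Type} {Ft : ι → Type} [∀ v, Field (Ft v)] [∀ v, Algebra (ResidueField B) (Ft v)]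
  {ν : Type} [Fintype ι] [Fintype ν]
  (S : SemistableSetup (F := Fb (N₁ * q)) B (residue B) ι Ft ν)

/-- **(H1)** from node A2: for every `m` the inertia group contains an element acting trivially on
the model and rich at the level `lam ^ m` (node A13 + I9 (d)). -/
theorem h1_of_rich (hF : RiemannPkg Qb (Fb (N₁ * q)))
    (hFt : ∀ v, RiemannPkg (ResidueField B) (Ft v))
    (u : ν → Fb (N₁ * q)) (thick : ν → Qb) (TU : ν → Fb (N₁ * q) → Prop)
    (N : ∀ e, NodeFact S e (u e) (thick e) (TU e))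
    (hsrc : ∀ e (h : u e ∈ S.O (S.src e)),
      (S.s₁ e).ord (S.res (S.src e) ⟨u e, h⟩) = 1)
    (htgt : ∀ e (h : thick e • (u e)⁻¹ ∈ S.O (S.tgt e)),
      (S.s₂ e).ord (S.res (S.tgt e) ⟨thick e • (u e)⁻¹, h⟩) = 1)
    (ϖ : Qb) (hϖ0 : ϖ ≠ 0) (hϖ : B.valuation ϖ < 1) (t : ν → ℕ) (ht0 : ∀ e, 0 < t e)
    (ht : ∀ e, B.valuation (thick e) = B.valuation ϖ ^ t e)
    (hlam : (lam : ResidueField B) ≠ 0)
    (hrich : ∀ m : ℕ, ∃ (s : GQ) (c : Qb), s ∈ B.inertiaSubgroupIn ℚ ∧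
      TrivialAction S u (galAut (N₁ * q) s) ∧ c ^ (lam ^ m) = ϖ ∧
      IsPrimitiveRoot (resOf B (s c / c)) (lam ^ m)) :
    ∃ Δ : ℕ, 0 < Δ ∧ ∀ (m : ℕ) (x : JZero (N₁ * q)), lam ^ m • x = 0 → Inv N₁ q B x →
      Δ • x ∈ natSub S (lam ^ m) := by
  refine GeoInv.exists_smul_mem_natSub_of_inv S hF hFt u thick TU N hsrc htgt ϖ hϖ0 hϖ t ht0 ht
    lam hlam (Inv N₁ q B) fun m => ?_
  obtain ⟨s, c, hs, htriv, hc, hprim⟩ := hrich m
  exact ⟨galAut (N₁ * q) s, c, htriv, hc, hprim, fun x hx => hx s hs⟩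

/-- **(A') at the level `N₁ * q`**: the assembly of node I11.  `(H3)` is the conclusion of
`GeoTor.h3_of_graph`. -/
theorem newInvBoundedLevel_of_geo (hF : RiemannPkg Qb (Fb (N₁ * q)))
    (hFt : ∀ v, RiemannPkg (ResidueField B) (Ft v))
    (u : ν → Fb (N₁ * q)) (thick : ν → Qb) (TU : ν → Fb (N₁ * q) → Prop)
    (N : ∀ e, NodeFact S e (u e) (thick e) (TU e))
    (hsrc : ∀ e (h : u e ∈ S.O (S.src e)),
      (S.s₁ e).ord (S.res (S.src e) ⟨u e, h⟩) = 1)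
    (htgt : ∀ e (h : thick e • (u e)⁻¹ ∈ S.O (S.tgt e)),
      (S.s₂ e).ord (S.res (S.tgt e) ⟨thick e • (u e)⁻¹, h⟩) = 1)
    (ϖ : Qb) (hϖ0 : ϖ ≠ 0) (hϖ : B.valuation ϖ < 1) (t : ν → ℕ) (ht0 : ∀ e, 0 < t e)
    (ht : ∀ e, B.valuation (thick e) = B.valuation ϖ ^ t e)
    (hlam : (lam : ResidueField B) ≠ 0)
    (hrich : ∀ m : ℕ, ∃ (s : GQ) (c : Qb), s ∈ B.inertiaSubgroupIn ℚ ∧
      TrivialAction S u (galAut (N₁ * q) s) ∧ c ^ (lam ^ m) = ϖ ∧
      IsPrimitiveRoot (resOf B (s c / c)) (lam ^ m))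
    (e₁ e₂ : ℕ) (he₁ : e₁ ≠ 0) (he₂ : e₂ ≠ 0)
    (hkind : ∀ (m : ℕ) (y : natSub S (lam ^ m)),
      (∀ s ∈ B.inertiaSubgroupIn ℚ, galAut (N₁ * q) s • (y : JZero (N₁ * q)) = y) →
      alphaDown N₁ q (y : JZero (N₁ * q)) = 0 → betaDown N₁ q (y : JZero (N₁ * q)) = 0 → ∀ v,
        abRes hF hFt (pow_ne_zero m (fun h0 : lam = 0 => hlam (by rw [h0, Nat.cast_zero]))) v y
          = 0 ∨
        e₁ • abRes hF hFt (pow_ne_zero m (fun h0 : lam = 0 => hlam (by rw [h0, Nat.cast_zero])))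
          v y = 0 ∨
        e₂ • abRes hF hFt (pow_ne_zero m (fun h0 : lam = 0 => hlam (by rw [h0, Nat.cast_zero])))
          v y = 0)
    (e₃ : ℕ) (he₃ : e₃ ≠ 0)
    (H3 : ∀ (m : ℕ) (z : JZero (N₁ * q)), z ∈ torSub S (lam ^ m) → lam ^ m • z = 0 →
      Inv N₁ q B z → alphaDown N₁ q z = 0 → betaDown N₁ q z = 0 → e₃ • z = 0) :
    NewInvBoundedLevel N₁ q lam B := by
  have hlam0 : lam ≠ 0 := fun h0 => hlam (by rw [h0, Nat.cast_zero])
  obtain ⟨Δ, hΔ, H1⟩ := h1_of_rich N₁ q lam B S hF hFt u thick TU N hsrc htgt ϖ hϖ0 hϖ t ht0 ht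
    hlam hrich
  exact newInvBoundedLevel_of_steps N₁ q lam B S Δ (e₁ * e₂) e₃ hΔ.ne' (mul_ne_zero he₁ he₂) he₃
    H1 (h2_of_kinds_inertia N₁ q lam B S hF hFt hlam0 e₁ e₂ hkind) H3

end H1

end Fermat.Agent.BR3.GeoFinal
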