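import Fermat.Agent.BR3.S36OfGeo
import Fermat.Agent.BR3.SDD.Geo
import Fermat.Agent.BR3.GeoRich
import Fermat.Agent.BR2.ResInst

/-!
# Program C (S36), node (I11-TOP): the last plug

ONE target for the integrator of `S''` (`BR3/SDD/Modular.lean`): `modelProvider : ModelProvider`.

`ModelAt M q lam B` (for `[IsAlgClosed (ResidueField B)]`) : there are index types `Mid SSp KP`,
residue function fields `Ft`, the named inputs `I : SDD.Input (F := Fb (M * q * q)) B Mid SSp KP Ft`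
of the stable model `S''` and the level data `D : SDD.CircleData I ιL` of its nodes, with ALL the
remaining hypotheses of `SDD.newInvBoundedLevel_of_input (M * q) q lam B I D`:

* (G2) `hFt`, (G7) the genus formula `GenusProp`;
* (G3)+(G4) `RichProp` : a uniformiser `ϖ` with `ϖ ^ e₀ = q`, `q ∤ e₀`, `(q - 1) ∣ e₀`, the
  exponents `t` of the thicknesses of the nodes, and the trivial action on `S''` of the elements of
  the inertia group which fix `ϖ`, the roots of unity of order prime to `q` and the `q`-th roots of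
  unity;
* (G5) `HkindProp` with its exponents `e₁ e₂`;
* (G6) `HcochProp` with the combinatorial data `d φ P p` of the tame generator.

Discharged here: `IsRankOne B`, (G1) `hF`, `hlam`, `hϖ0`, `hϖ`, `hrich` (`GeoRich.hrich_of_trivial`),
`1 < q`, `IsAlgClosed (ResidueField B)`.

`RawModelAt M q lam B` : the same with `RawRichProp` (`ϖ ≠ 0`, `|ϖ| < 1` and `hrich` VERBATIM) in
place of the folded form (fallback target); `rawModelAt_of_modelAt`.

* `modelAt_of_input`, `rawModelAt_of_input` : the constructors with named arguments;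
* `newInvBoundedLevel_of_rawModelAt`, `newInvBoundedLevel_of_modelAt` : contract (A') at one `B`;
* `ModelProvider`, `RawModelProvider`;
* `newInvBoundedLevel_of_provider` : the hypothesis `hA'` of `S36OfGeo.s36_of_newInvBounded` verbatim;
* **`s36_of_provider`**, `s36_of_rawProvider` : the frozen statement of S36.
-/

set_option autoImplicit false
set_option linter.style.haveILetI false
set_option linter.unusedSectionVars false
set_option linter.unusedVariables false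

open Polynomial
open CuspForm CuspForm.IsNewform
open ModularCurve AlgebraicCurve

namespace Fermat.Agent.BR3.S36Plug

open IsLocalRing Fermat.Agent.Jac Fermat.Agent.X0 Fermat.Agent.Red Fermat.Agent.BR.SS
  Fermat.Agent.BR.Fact Fermat.Agent.BR.InertiaRed Fermat.Agent.BR3.InvFiniteUnit
  Fermat.Agent.BR2.Filt Fermat.Agent.BR3.FiltMaps Fermat.Agent.BR.LevelTransfer
  Fermat.Agent.BR2.LevelMaps Fermat.Agent.BR3.S36Final Fermat.Agent.BR3.CircleN
  Fermat.Agent.BR3.TorGlue Fermat.Agent.BR3.GeoTor Fermat.Agent.BR3.SDD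
  Fermat.Agent.BR.UnramCyclo

local notation "Qb" => AlgebraicClosure ℚ

section Defs

variable (M q lam : ℕ) [NeZero M] [NeZero q] (B : ValuationSubring Qb)
  [IsAlgClosed (ResidueField B)] {Mid SSp KP : Type} [Fintype Mid] [Fintype SSp] [Fintype KP]
  {Ft : Comp Mid SSp → Type} [∀ v, Field (Ft v)] [∀ v, Algebra (ResidueField B) (Ft v)]

/-- **(G7)** the genus formula of `S''`. -/
def GenusProp (Ft : Comp Mid SSp → Type) [∀ v, Field (Ft v)]
    [∀ v, Algebra (ResidueField B) (Ft v)] (KP : Type) [Fintype KP] : Prop :=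
  (genusFF Qb (Fb (M * q * q)) : ℤ) = ∑ v, (genusFF (ResidueField B) (Ft v) : ℤ) +
    Fintype.card (Node SSp KP) - Fintype.card (Comp Mid SSp) + 1

variable (I : Input (F := Fb (M * q * q)) B Mid SSp KP Ft) {ιL : Node SSp KP → Type}
  (D : CircleData I ιL)

/-- **(G3) + (G4), raw form**: `ϖ ≠ 0`, `|ϖ| < 1`, the thicknesses of the nodes are powers of `|ϖ|`
and the hypothesis `hrich` of `SDD.newInvBoundedLevel_of_input` VERBATIM. -/
def RawRichProp : Prop :=
  ∃ (ϖ : Qb) (t : Node SSp KP → ℕ), ϖ ≠ 0 ∧ B.valuation ϖ < 1 ∧ (∀ x, 0 < t x) ∧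
    (∀ x, B.valuation (D.L x).thick = B.valuation ϖ ^ t x) ∧
    ∀ m : ℕ, ∃ (s : GQ) (c : Qb), s ∈ B.inertiaSubgroupIn ℚ ∧
      TrivialAction I.setup (fun x => (D.L x).u) (galAut (M * q * q) s) ∧ c ^ (lam ^ m) = ϖ ∧
      IsPrimitiveRoot (resOf B (s c / c)) (lam ^ m)

/-- **(G3) + (G4), folded form**: `ϖ ^ e₀ = q` with `q ∤ e₀`, `(q - 1) ∣ e₀`, the thicknesses of
the nodes are powers of `|ϖ|`, and every element of the inertia group which fixes `ϖ`, the roots of
unity of order prime to `q` and the `q`-th roots of unity acts trivially on `S''`. -/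
def RichProp : Prop :=
  ∃ (e₀ : ℕ) (ϖ : Qb) (t : Node SSp KP → ℕ), ¬ q ∣ e₀ ∧ (q - 1) ∣ e₀ ∧ ϖ ^ e₀ = (q : Qb) ∧
    (∀ x, 0 < t x) ∧ (∀ x, B.valuation (D.L x).thick = B.valuation ϖ ^ t x) ∧
    ∀ σ ∈ B.inertiaSubgroupIn ℚ, σ ϖ = ϖ → (∀ a ∈ cycloField Qb q, σ a = a) →
      (∀ ζ : Qb, ζ ^ q = 1 → σ ζ = ζ) →
      TrivialAction I.setup (fun x => (D.L x).u) (galAut (M * q * q) σ)

/-- **(G5)** the hypothesis `hkind` of `SDD.newInvBoundedLevel_of_input` (the proof of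
`lam ^ m ≠ 0` is universally quantified: by proof irrelevance this IS the verbatim binder). -/
def HkindProp (hFt : ∀ v, RiemannPkg (ResidueField B) (Ft v)) (e₁ e₂ : ℕ) : Prop :=
  ∀ (m : ℕ) (hm : lam ^ m ≠ 0) (y : natSub I.setup (lam ^ m)),
    (∀ s ∈ B.inertiaSubgroupIn ℚ, galAut (M * q * q) s • (y : JZero (M * q * q)) = y) →
    alphaDown (M * q) q (y : JZero (M * q * q)) = 0 →
    betaDown (M * q) q (y : JZero (M * q * q)) = 0 → ∀ v,
      abRes (Fermat.Agent.Val.riemannPkg_bar (M * q * q)) hFt hm v y = 0 ∨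
      e₁ • abRes (Fermat.Agent.Val.riemannPkg_bar (M * q * q)) hFt hm v y = 0 ∨
      e₂ • abRes (Fermat.Agent.Val.riemannPkg_bar (M * q * q)) hFt hm v y = 0

/-- **(G6)** the hypothesis `hcoch` of `SDD.newInvBoundedLevel_of_input` VERBATIM. -/
def HcochProp (d : ℕ) (φ : SSp → SSp) (p : SSp → Equiv.Perm KP) : Prop :=
  ∀ (m : ℕ) (z : JZero (M * q * q))
    (D₀ : Divisor.degZero (K := Qb) (F := Fb (M * q * q))) (f : Fb (M * q * q))
    (u : ∀ v, Ft v), IsGood I.setup (lam ^ m) z D₀ f u → GeoFinal.Inv (M * q) q B z →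
    alphaDown (M * q) q z = 0 → betaDown (M * q) q z = 0 →
    ∀ (av bv : Node SSp KP → ResidueField B) (ha0 : ∀ e, av e ≠ 0) (hb0 : ∀ e, bv e ≠ 0),
    (∀ e, IsValueAt (I.setup.s₁ e) (u (I.setup.src e)) (av e)) →
    (∀ e, IsValueAt (I.setup.s₂ e) (u (I.setup.tgt e)) (bv e)) →
    ∃ (A1 A2 : (ResidueField B)ˣ) (α : SSp → (ResidueField B)ˣ) (B1 B2 : (ResidueField B)ˣ)
      (β : SSp → (ResidueField B)ˣ) (r1 : (ResidueField B)ˣ) (ρm : Mid → (ResidueField B)ˣ)
      (ρ' : SSp → (ResidueField B)ˣ),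
      (∀ e, xi hor av bv ha0 hb0 (nW e) ^ q = A1 / α e) ∧
      (∀ e, xi hor av bv ha0 hb0 (nT e) * (∏ s, xi hor av bv ha0 hb0 (nk e s)) ^ d =
        A2 / α e) ∧
      (∀ e, xi hor av bv ha0 hb0 (nT e) ^ q = B1 / β (φ e)) ∧
      (∀ e, xi hor av bv ha0 hb0 (nW e) * (∏ s, xi hor av bv ha0 hb0 (nk e s)) ^ d =
        B2 / β (φ e)) ∧
      (∀ e, xi hor av bv ha0 hb0 (nW e) = xi hor av bv ha0 hb0 (nW e) * r1 / ρ' e) ∧
      ∀ e s, xi hor av bv ha0 hb0 (nk e (p e s)) =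
        xi hor av bv ha0 hb0 (nk e s) * ρm (I.comp e s) / ρ' e

/-- The combinatorial data `d φ P p` of the tame generator with `hcoch`. -/
def TameProp : Prop :=
  ∃ (d : ℕ) (φ : SSp → SSp) (P : Equiv.Perm Mid) (p : SSp → Equiv.Perm KP),
    d * Fintype.card KP + 1 = q ∧ (∀ e s s', ∃ n : ℕ, ((p e) ^ n) s = s') ∧
    (∀ e s, I.comp e (p e s) = P (I.comp e s)) ∧ HcochProp M q lam B I d φ p

/-- The exponents `e₁ e₂` with `hkind`. -/
def KindProp (hFt : ∀ v, RiemannPkg (ResidueField B) (Ft v)) : Prop :=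
  ∃ e₁ e₂ : ℕ, e₁ ≠ 0 ∧ e₂ ≠ 0 ∧ HkindProp M q lam B I hFt e₁ e₂

end Defs

section ModelAt

variable (M q lam : ℕ) [NeZero M] [NeZero q] (B : ValuationSubring Qb)
  [IsAlgClosed (ResidueField B)]

/-- **The remaining inputs of contract (A') at the level `M q²`, raw form**: the named inputs `I`,
`D` of the stable model `S''` with ALL the hypotheses of `SDD.newInvBoundedLevel_of_input` which are
not on main, verbatim. -/
def RawModelAt : Prop :=
  ∃ (Mid SSp KP : Type) (_ : Fintype Mid) (_ : Fintype SSp) (_ : Fintype KP)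
    (Ft : Comp Mid SSp → Type) (_ : ∀ v, Field (Ft v)) (_ : ∀ v, Algebra (ResidueField B) (Ft v))
    (I : Input (F := Fb (M * q * q)) B Mid SSp KP Ft) (ιL : Node SSp KP → Type)
    (D : CircleData I ιL) (hFt : ∀ v, RiemannPkg (ResidueField B) (Ft v)),
    GenusProp M q B Ft KP ∧ RawRichProp M q lam B I D ∧ KindProp M q lam B I hFt ∧
      TameProp M q lam B I

/-- **The remaining inputs of contract (A') at the level `M q²`**: the named inputs `I`, `D` of the
stable model `S''` with (G2) `hFt`, (G7) `GenusProp`, (G3)+(G4) `RichProp`, (G5) `KindProp`,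
(G6) `TameProp`. -/
def ModelAt : Prop :=
  ∃ (Mid SSp KP : Type) (_ : Fintype Mid) (_ : Fintype SSp) (_ : Fintype KP)
    (Ft : Comp Mid SSp → Type) (_ : ∀ v, Field (Ft v)) (_ : ∀ v, Algebra (ResidueField B) (Ft v))
    (I : Input (F := Fb (M * q * q)) B Mid SSp KP Ft) (ιL : Node SSp KP → Type)
    (D : CircleData I ιL) (hFt : ∀ v, RiemannPkg (ResidueField B) (Ft v)),
    GenusProp M q B Ft KP ∧ RichProp M q B I D ∧ KindProp M q lam B I hFt ∧
      TameProp M q lam B I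

variable {M q lam B}

/-- The folded form of (G3)+(G4) gives the raw form (`GeoRich.hrich_of_trivial`). -/
theorem rawRichProp_of_richProp (hq : q.Prime) (hB : B.LiesOverPrime q) (hlam : lam.Prime)
    (hqlam : q ≠ lam) {Mid SSp KP : Type} [Fintype Mid] [Fintype SSp] [Fintype KP]
    {Ft : Comp Mid SSp → Type} [∀ v, Field (Ft v)] [∀ v, Algebra (ResidueField B) (Ft v)]
    {I : Input (F := Fb (M * q * q)) B Mid SSp KP Ft} {ιL : Node SSp KP → Type}
    {D : CircleData I ιL} (h : RichProp M q B I D) : RawRichProp M q lam B I D := by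
  obtain ⟨e₀, ϖ, t, hqe, hdvd, hϖ, ht0, ht, hP⟩ := h
  exact ⟨ϖ, t, GeoRich.ne_zero_of_pow_eq hq hϖ, GeoRich.valuation_lt_one_of_pow_eq B hB hϖ, ht0, ht,
    GeoRich.hrich_of_trivial B hq hB hlam hqlam hqe hdvd hϖ
      (fun σ => TrivialAction I.setup (fun x => (D.L x).u) (galAut (M * q * q) σ)) hP⟩

theorem rawModelAt_of_modelAt (hq : q.Prime) (hB : B.LiesOverPrime q) (hlam : lam.Prime)
    (hqlam : q ≠ lam) (h : ModelAt M q lam B) : RawModelAt M q lam B := by
  obtain ⟨Mid, SSp, KP, _, _, _, Ft, _, _, I, ιL, D, hFt, hg, hrich, hkind, htame⟩ := h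
  exact ⟨Mid, SSp, KP, _, _, _, Ft, _, _, I, ιL, D, hFt, hg,
    rawRichProp_of_richProp hq hB hlam hqlam hrich, hkind, htame⟩

/-- **Contract (A') at the level `M q²` from the raw inputs.** -/
theorem newInvBoundedLevel_of_rawModelAt (hq : q.Prime) (hB : B.LiesOverPrime q)
    (hlam : lam.Prime) (hqlam : q ≠ lam) (h : RawModelAt M q lam B) :
    NewInvBoundedLevel (M * q) q lam B := by
  obtain ⟨Mid, SSp, KP, _, _, _, Ft, _, _, I, ιL, D, hFt, hg, ⟨ϖ, t, hϖ0, hϖ, ht0, ht, hrich⟩,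
    ⟨e₁, e₂, he₁, he₂, hkind⟩, ⟨d, φ, P, p, hd, hp, hcomp, hcoch⟩⟩ := h
  haveI : Fact q.Prime := ⟨hq⟩
  haveI := Fermat.Agent.BR2.ResInst.charP_res q B hB
  have hlam' : (lam : ResidueField B) ≠ 0 := by
    intro h0
    rw [CharP.cast_eq_zero_iff (ResidueField B) q] at h0
    exact hqlam ((Nat.prime_dvd_prime_iff_eq hq hlam).mp h0)
  exact newInvBoundedLevel_of_input (M * q) q lam B I D (Fermat.Agent.Val.isRankOne B hB)
    (Fermat.Agent.Val.riemannPkg_bar (M * q * q)) hFt hg ϖ hϖ0 hϖ t ht0 ht hlam' hrich e₁ e₂ he₁ he₂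
    (fun m y => hkind m _ y) hq.one_lt d hd φ P p hp hcomp hcoch

/-- **Contract (A') at the level `M q²` from the inputs.** -/
theorem newInvBoundedLevel_of_modelAt (hq : q.Prime) (hB : B.LiesOverPrime q)
    (hlam : lam.Prime) (hqlam : q ≠ lam) (h : ModelAt M q lam B) :
    NewInvBoundedLevel (M * q) q lam B :=
  newInvBoundedLevel_of_rawModelAt hq hB hlam hqlam (rawModelAt_of_modelAt hq hB hlam hqlam h)

/-- **The constructor of `ModelAt` with named arguments** (the ONE target of `BR3/SDD/Modular.lean`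
at one valuation ring `B`). -/
theorem modelAt_of_input {Mid SSp KP : Type} [Fintype Mid] [Fintype SSp] [Fintype KP]
    {Ft : Comp Mid SSp → Type} [∀ v, Field (Ft v)] [∀ v, Algebra (ResidueField B) (Ft v)]
    (I : Input (F := Fb (M * q * q)) B Mid SSp KP Ft) {ιL : Node SSp KP → Type}
    (D : CircleData I ιL)
    -- (G2)
    (hFt : ∀ v, RiemannPkg (ResidueField B) (Ft v))
    -- (G7)
    (hg : (genusFF Qb (Fb (M * q * q)) : ℤ) = ∑ v, (genusFF (ResidueField B) (Ft v) : ℤ) +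
      Fintype.card (Node SSp KP) - Fintype.card (Comp Mid SSp) + 1)
    -- (G3)
    (e₀ : ℕ) (ϖ : Qb) (hqe : ¬ q ∣ e₀) (hdvd : (q - 1) ∣ e₀) (hϖ : ϖ ^ e₀ = (q : Qb))
    (t : Node SSp KP → ℕ) (ht0 : ∀ x, 0 < t x)
    (ht : ∀ x, B.valuation (D.L x).thick = B.valuation ϖ ^ t x)
    -- (G4)
    (hP : ∀ σ ∈ B.inertiaSubgroupIn ℚ, σ ϖ = ϖ → (∀ a ∈ cycloField Qb q, σ a = a) →
      (∀ ζ : Qb, ζ ^ q = 1 → σ ζ = ζ) →
      TrivialAction I.setup (fun x => (D.L x).u) (galAut (M * q * q) σ))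
    -- (G5)
    (e₁ e₂ : ℕ) (he₁ : e₁ ≠ 0) (he₂ : e₂ ≠ 0)
    (hkind : ∀ (m : ℕ) (hm : lam ^ m ≠ 0) (y : natSub I.setup (lam ^ m)),
      (∀ s ∈ B.inertiaSubgroupIn ℚ, galAut (M * q * q) s • (y : JZero (M * q * q)) = y) →
      alphaDown (M * q) q (y : JZero (M * q * q)) = 0 →
      betaDown (M * q) q (y : JZero (M * q * q)) = 0 → ∀ v,
        abRes (Fermat.Agent.Val.riemannPkg_bar (M * q * q)) hFt hm v y = 0 ∨
        e₁ • abRes (Fermat.Agent.Val.riemannPkg_bar (M * q * q)) hFt hm v y = 0 ∨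
        e₂ • abRes (Fermat.Agent.Val.riemannPkg_bar (M * q * q)) hFt hm v y = 0)
    -- (G6)
    (d : ℕ) (hd : d * Fintype.card KP + 1 = q) (φ : SSp → SSp) (P : Equiv.Perm Mid)
    (p : SSp → Equiv.Perm KP) (hp : ∀ e s s', ∃ n : ℕ, ((p e) ^ n) s = s')
    (hcomp : ∀ e s, I.comp e (p e s) = P (I.comp e s))
    (hcoch : ∀ (m : ℕ) (z : JZero (M * q * q))
      (D₀ : Divisor.degZero (K := Qb) (F := Fb (M * q * q))) (f : Fb (M * q * q))
      (u : ∀ v, Ft v), IsGood I.setup (lam ^ m) z D₀ f u → GeoFinal.Inv (M * q) q B z →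
      alphaDown (M * q) q z = 0 → betaDown (M * q) q z = 0 →
      ∀ (av bv : Node SSp KP → ResidueField B) (ha0 : ∀ e, av e ≠ 0) (hb0 : ∀ e, bv e ≠ 0),
      (∀ e, IsValueAt (I.setup.s₁ e) (u (I.setup.src e)) (av e)) →
      (∀ e, IsValueAt (I.setup.s₂ e) (u (I.setup.tgt e)) (bv e)) →
      ∃ (A1 A2 : (ResidueField B)ˣ) (α : SSp → (ResidueField B)ˣ) (B1 B2 : (ResidueField B)ˣ)
        (β : SSp → (ResidueField B)ˣ) (r1 : (ResidueField B)ˣ) (ρm : Mid → (ResidueField B)ˣ)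
        (ρ' : SSp → (ResidueField B)ˣ),
        (∀ e, xi hor av bv ha0 hb0 (nW e) ^ q = A1 / α e) ∧
        (∀ e, xi hor av bv ha0 hb0 (nT e) * (∏ s, xi hor av bv ha0 hb0 (nk e s)) ^ d =
          A2 / α e) ∧
        (∀ e, xi hor av bv ha0 hb0 (nT e) ^ q = B1 / β (φ e)) ∧
        (∀ e, xi hor av bv ha0 hb0 (nW e) * (∏ s, xi hor av bv ha0 hb0 (nk e s)) ^ d =
          B2 / β (φ e)) ∧
        (∀ e, xi hor av bv ha0 hb0 (nW e) = xi hor av bv ha0 hb0 (nW e) * r1 / ρ' e) ∧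
        ∀ e s, xi hor av bv ha0 hb0 (nk e (p e s)) =
          xi hor av bv ha0 hb0 (nk e s) * ρm (I.comp e s) / ρ' e) :
    ModelAt M q lam B :=
  ⟨Mid, SSp, KP, _, _, _, Ft, _, _, I, ιL, D, hFt, hg, ⟨e₀, ϖ, t, hqe, hdvd, hϖ, ht0, ht, hP⟩,
    ⟨e₁, e₂, he₁, he₂, hkind⟩, ⟨d, φ, P, p, hd, hp, hcomp, hcoch⟩⟩

/-- **The constructor of `RawModelAt` with named arguments**: (G3)+(G4) in the verbatim form of
`SDD.newInvBoundedLevel_of_input`. -/
theorem rawModelAt_of_input {Mid SSp KP : Type} [Fintype Mid] [Fintype SSp] [Fintype KP]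
    {Ft : Comp Mid SSp → Type} [∀ v, Field (Ft v)] [∀ v, Algebra (ResidueField B) (Ft v)]
    (I : Input (F := Fb (M * q * q)) B Mid SSp KP Ft) {ιL : Node SSp KP → Type}
    (D : CircleData I ιL)
    (hFt : ∀ v, RiemannPkg (ResidueField B) (Ft v))
    (hg : GenusProp M q B Ft KP)
    (ϖ : Qb) (hϖ0 : ϖ ≠ 0) (hϖ : B.valuation ϖ < 1) (t : Node SSp KP → ℕ) (ht0 : ∀ x, 0 < t x)
    (ht : ∀ x, B.valuation (D.L x).thick = B.valuation ϖ ^ t x)
    (hrich : ∀ m : ℕ, ∃ (s : GQ) (c : Qb), s ∈ B.inertiaSubgroupIn ℚ ∧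
      TrivialAction I.setup (fun x => (D.L x).u) (galAut (M * q * q) s) ∧ c ^ (lam ^ m) = ϖ ∧
      IsPrimitiveRoot (resOf B (s c / c)) (lam ^ m))
    (e₁ e₂ : ℕ) (he₁ : e₁ ≠ 0) (he₂ : e₂ ≠ 0) (hkind : HkindProp M q lam B I hFt e₁ e₂)
    (d : ℕ) (hd : d * Fintype.card KP + 1 = q) (φ : SSp → SSp) (P : Equiv.Perm Mid)
    (p : SSp → Equiv.Perm KP) (hp : ∀ e s s', ∃ n : ℕ, ((p e) ^ n) s = s')
    (hcomp : ∀ e s, I.comp e (p e s) = P (I.comp e s)) (hcoch : HcochProp M q lam B I d φ p) :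
    RawModelAt M q lam B :=
  ⟨Mid, SSp, KP, _, _, _, Ft, _, _, I, ιL, D, hFt, hg, ⟨ϖ, t, hϖ0, hϖ, ht0, ht, hrich⟩,
    ⟨e₁, e₂, he₁, he₂, hkind⟩, ⟨d, φ, P, p, hd, hp, hcomp, hcoch⟩⟩

/-- `HkindProp` from the VERBATIM binder `hkind` of `SDD.newInvBoundedLevel_of_input` (the output
of `GeoAbFinal.hkind_of_data`). -/
theorem hkindProp_of_verbatim {Mid SSp KP : Type} [Fintype Mid] [Fintype SSp] [Fintype KP]
    {Ft : Comp Mid SSp → Type} [∀ v, Field (Ft v)] [∀ v, Algebra (ResidueField B) (Ft v)]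
    (I : Input (F := Fb (M * q * q)) B Mid SSp KP Ft)
    (hF : RiemannPkg Qb (Fb (M * q * q))) (hFt : ∀ v, RiemannPkg (ResidueField B) (Ft v))
    (hlam : (lam : ResidueField B) ≠ 0) (e₁ e₂ : ℕ)
    (hkind : ∀ (m : ℕ) (y : natSub I.setup (lam ^ m)),
      (∀ s ∈ B.inertiaSubgroupIn ℚ, galAut (M * q * q) s • (y : JZero (M * q * q)) = y) →
      alphaDown (M * q) q (y : JZero (M * q * q)) = 0 →
      betaDown (M * q) q (y : JZero (M * q * q)) = 0 → ∀ v,
        abRes hF hFt (pow_ne_zero m (fun h0 : lam = 0 => hlam (by rw [h0, Nat.cast_zero]))) v y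
          = 0 ∨
        e₁ • abRes hF hFt (pow_ne_zero m (fun h0 : lam = 0 => hlam (by rw [h0, Nat.cast_zero])))
          v y = 0 ∨
        e₂ • abRes hF hFt (pow_ne_zero m (fun h0 : lam = 0 => hlam (by rw [h0, Nat.cast_zero])))
          v y = 0) :
    HkindProp M q lam B I hFt e₁ e₂ :=
  fun m _ y => hkind m y

/-- `(lam : ResidueField B) ≠ 0` for a prime `lam ≠ q` (the hypothesis `hlam` of (G5)). -/
theorem natCast_lam_ne_zero (hq : q.Prime) (hB : B.LiesOverPrime q) (hlam : lam.Prime)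
    (hqlam : q ≠ lam) : (lam : ResidueField B) ≠ 0 := by
  haveI : Fact q.Prime := ⟨hq⟩
  haveI := Fermat.Agent.BR2.ResInst.charP_res q B hB
  intro h0
  rw [CharP.cast_eq_zero_iff (ResidueField B) q] at h0
  exact hqlam ((Nat.prime_dvd_prime_iff_eq hq hlam).mp h0)

end ModelAt

/-! ### The providers and the frozen statement of S36 -/

/-- **THE target of `BR3/SDD/Modular.lean`**: the stable model `S''` of `X₀(M q²)` with its named
inputs, for every level `M` without elliptic points, `q ∤ M` prime, `lam ≠ q` prime and every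
valuation ring `B` of `ℚ̄` over `q`. -/
def ModelProvider : Prop :=
  ∀ (M q lam : ℕ) [NeZero M] [NeZero q], q.Prime → ¬ q ∣ M → lam.Prime → q ≠ lam →
    ModularCurve.nuTwo M = 0 → ModularCurve.nuThree M = 0 →
    ∀ B : ValuationSubring Qb, B.LiesOverPrime q →
      @ModelAt M q lam _ _ B (Fermat.Agent.BR2.ResInst.isAlgClosed_res B)

/-- The fallback target: the same with (G3)+(G4) in raw form. -/
def RawModelProvider : Prop :=
  ∀ (M q lam : ℕ) [NeZero M] [NeZero q], q.Prime → ¬ q ∣ M → lam.Prime → q ≠ lam →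
    ModularCurve.nuTwo M = 0 → ModularCurve.nuThree M = 0 →
    ∀ B : ValuationSubring Qb, B.LiesOverPrime q →
      @RawModelAt M q lam _ _ B (Fermat.Agent.BR2.ResInst.isAlgClosed_res B)

theorem rawModelProvider_of_modelProvider (h : ModelProvider) : RawModelProvider :=
  fun M q lam _ _ hq hqM hlam hqlam h2 h3 B hB =>
    haveI := Fermat.Agent.BR2.ResInst.isAlgClosed_res B
    rawModelAt_of_modelAt hq hB hlam hqlam (h M q lam hq hqM hlam hqlam h2 h3 B hB)

/-- **The hypothesis `hA'` of `S36OfGeo.s36_of_newInvBounded`, verbatim, from the raw provider.** -/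
theorem newInvBoundedLevel_of_rawProvider (h : RawModelProvider) :
    ∀ (M q lam : ℕ) [NeZero M] [NeZero q], q.Prime → ¬ q ∣ M → lam.Prime → q ≠ lam →
      ModularCurve.nuTwo M = 0 → ModularCurve.nuThree M = 0 →
      ∀ B : ValuationSubring Qb, B.LiesOverPrime q → NewInvBoundedLevel (M * q) q lam B :=
  fun M q lam _ _ hq hqM hlam hqlam h2 h3 B hB =>
    haveI := Fermat.Agent.BR2.ResInst.isAlgClosed_res B
    newInvBoundedLevel_of_rawModelAt hq hB hlam hqlam (h M q lam hq hqM hlam hqlam h2 h3 B hB)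

/-- **The hypothesis `hA'` of `S36OfGeo.s36_of_newInvBounded`, verbatim, from the provider.** -/
theorem newInvBoundedLevel_of_provider (h : ModelProvider) :
    ∀ (M q lam : ℕ) [NeZero M] [NeZero q], q.Prime → ¬ q ∣ M → lam.Prime → q ≠ lam →
      ModularCurve.nuTwo M = 0 → ModularCurve.nuThree M = 0 →
      ∀ B : ValuationSubring Qb, B.LiesOverPrime q → NewInvBoundedLevel (M * q) q lam B :=
  newInvBoundedLevel_of_rawProvider (rawModelProvider_of_modelProvider h)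

/-- **The frozen statement of S36 from the raw provider.** -/
theorem s36_of_rawProvider (h : RawModelProvider)
    {M : ℕ} [NeZero M] {g : CuspForm (CongruenceSubgroup.Gamma0 M) 2} (hg : g.IsNewform)
    (lam : ℕ) [Fact lam.Prime]
    (S : Finset ℕ)
    (O' : Type) [CommRing O'] [IsDomain O'] [IsDiscreteValuationRing O']
    [IsAdicComplete (IsLocalRing.maximalIdeal O') O'] [Finite (IsLocalRing.ResidueField O')]
    [CharZero O'] (hlamO' : (lam : O') ∈ IsLocalRing.maximalIdeal O')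
    (hlam2 : lam ≠ 2)
    (chig : CuspForm.heckeAlgebra M 2 (↑S : Set ℕ) →+* ℂ)
    (hchig : ∀ (ℓ : ℕ) (hℓ : ℓ.Prime) (hℓM : ¬ ℓ ∣ M) (hℓS : ℓ ∉ (↑S : Set ℕ)),
      chig (CuspForm.heckeAlgebra.T hℓ hℓM hℓS) = ModularFormClass.qCoeff g ℓ)
    (iota : chig.range →+* O')
    (hlamS : lam ∈ S) (hMS : ∀ q : ℕ, q.Prime → q ∣ M → q ∈ S) :
    ∃ (O'' : Type) (_ : CommRing O'') (_ : IsDomain O'') (_ : IsDiscreteValuationRing O'')
      (_ : IsAdicComplete (IsLocalRing.maximalIdeal O'') O'') (_ : Finite (IsLocalRing.ResidueField O''))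
      (_ : CharZero O'') (_ : Algebra O' O'') (_ : Module.Finite O' O'') (_ : IsLocalHom (algebraMap O' O'')),
      Function.Injective (algebraMap O' O'') ∧
      ∃ ρ : GaloisRepAdic O'',
        (∀ (ℓ : ℕ) (hℓ : ℓ.Prime) (hℓM : ¬ ℓ ∣ M) (hℓS : ℓ ∉ (↑S : Set ℕ)),
          ∀ A : ValuationSubring (AlgebraicClosure ℚ), A.LiesOverPrime ℓ →
            ∀ σ : AlgebraicClosure ℚ ≃ₐ[ℚ] AlgebraicClosure ℚ, A.IsFrobeniusAt σ ℓ →
              LinearMap.charpoly (ρ.ρ σ) =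
                X ^ 2 - C (algebraMap O' O'' ((iota.comp chig.rangeRestrict) (CuspForm.heckeAlgebra.T hℓ hℓM hℓS))) * X
                  + C ((ℓ : O''))) ∧
        (∀ q : ℕ, q.Prime → q ≠ lam → M.factorization q = 2 → ¬ ρ.IsUnipotentOnInertiaAt q) :=
  S36OfGeo.s36_of_newInvBounded (newInvBoundedLevel_of_rawProvider h) hg lam S O' hlamO' hlam2
    chig hchig iota hlamS hMS

/-- **The frozen statement of S36 from the provider** (`Fermat/Agent/S36.lean` is
`S36Plug.s36_of_provider <modelProvider> …`). -/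
theorem s36_of_provider (h : ModelProvider)
    {M : ℕ} [NeZero M] {g : CuspForm (CongruenceSubgroup.Gamma0 M) 2} (hg : g.IsNewform)
    (lam : ℕ) [Fact lam.Prime]
    (S : Finset ℕ)
    (O' : Type) [CommRing O'] [IsDomain O'] [IsDiscreteValuationRing O']
    [IsAdicComplete (IsLocalRing.maximalIdeal O') O'] [Finite (IsLocalRing.ResidueField O')]
    [CharZero O'] (hlamO' : (lam : O') ∈ IsLocalRing.maximalIdeal O')
    (hlam2 : lam ≠ 2)
    (chig : CuspForm.heckeAlgebra M 2 (↑S : Set ℕ) →+* ℂ)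
    (hchig : ∀ (ℓ : ℕ) (hℓ : ℓ.Prime) (hℓM : ¬ ℓ ∣ M) (hℓS : ℓ ∉ (↑S : Set ℕ)),
      chig (CuspForm.heckeAlgebra.T hℓ hℓM hℓS) = ModularFormClass.qCoeff g ℓ)
    (iota : chig.range →+* O')
    (hlamS : lam ∈ S) (hMS : ∀ q : ℕ, q.Prime → q ∣ M → q ∈ S) :
    ∃ (O'' : Type) (_ : CommRing O'') (_ : IsDomain O'') (_ : IsDiscreteValuationRing O'')
      (_ : IsAdicComplete (IsLocalRing.maximalIdeal O'') O'') (_ : Finite (IsLocalRing.ResidueField O''))
      (_ : CharZero O'') (_ : Algebra O' O'') (_ : Module.Finite O' O'') (_ : IsLocalHom (algebraMap O' O'')),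
      Function.Injective (algebraMap O' O'') ∧
      ∃ ρ : GaloisRepAdic O'',
        (∀ (ℓ : ℕ) (hℓ : ℓ.Prime) (hℓM : ¬ ℓ ∣ M) (hℓS : ℓ ∉ (↑S : Set ℕ)),
          ∀ A : ValuationSubring (AlgebraicClosure ℚ), A.LiesOverPrime ℓ →
            ∀ σ : AlgebraicClosure ℚ ≃ₐ[ℚ] AlgebraicClosure ℚ, A.IsFrobeniusAt σ ℓ →
              LinearMap.charpoly (ρ.ρ σ) =
                X ^ 2 - C (algebraMap O' O'' ((iota.comp chig.rangeRestrict) (CuspForm.heckeAlgebra.T hℓ hℓM hℓS))) * X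
                  + C ((ℓ : O''))) ∧
        (∀ q : ℕ, q.Prime → q ≠ lam → M.factorization q = 2 → ¬ ρ.IsUnipotentOnInertiaAt q) :=
  s36_of_rawProvider (rawModelProvider_of_modelProvider h) hg lam S O' hlamO' hlam2
    chig hchig iota hlamS hMS

end Fermat.Agent.BR3.S36Plug
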