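import Mathlib
import Fermat.Agent.BR3.SDD.Skeleton

/-!
# Program C (S36), node (I7-THICK): the thickness exponents of the nodes of `S''`

The hypothesis `ht : ∀ x, |(D.L x).thick| = |ϖ| ^ t x` (input (G3)) of
`SDD.newInvBoundedLevel_of_input`, by pure valuation arithmetic from

* `|thick' e| = |q|` : the thickness of the crossing `e` of `S'` (node (C-THICK1),
  `ThickOneFinal.valuation_thick_levels_final`);
* `nT e` : the level data is a split sheet over the OUTER sub-annulus along `a` at a gauge `a₀` with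
  `|a₀| ^ (q + 1) = |thick' e|` (`subLevels_thick`, `SheetHyp.levels` : thickness `a₀` by `rfl`);
* `nW e` : the level data is a split sheet over the INNER sub-annulus along `b` at a gauge `b₀` with
  `|b₀| ^ (q + 1) = |thick' e| ^ q` (`innerLevels_thick` : thickness `b₀⁻¹ * thick' e` by `rfl`);
* `nk e s` : the Kummer sheet of degree `d` over the outer sub-annulus along `a`:
  `a₀ = κ₀ * thick₂ ^ d` with `|κ₀| = 1` (`KummerHyp.thick_eq`);
* the BINDING constants: `ϖ ^ ((q - 1) * (q + 1)) = q`, `d * |KP| + 1 = q`.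

Then `t (nT e) = t (nW e) = q - 1` and `t (nk e s) = |KP| = (q - 1) / d` (`tExp`).

## Main statements

* `valuation_eq_pow_of_pow_eq` : `ϖ ^ (k * n) = x`, `|a| ^ n = |x|`, `n ≠ 0` ⟹ `|a| = |ϖ| ^ k`;
* `valuation_outer`, `valuation_inner`, `valuation_kummer` : the three node types, in the `rfl`
  shapes of the level constructions;
* `pow_outer`, `pow_inner`, `pow_kummer` : the intermediate forms `|thick| ^ (q+1) = |q|`,
  `|thick| ^ (d * (q+1)) = |q|`;
* `tExp q SSp KP`, `tExp_pos`;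
* `ht_of_pow`, `ht_of_gauges` : the family `ht` on `SDD.Node SSp KP` for an arbitrary family of
  thicknesses; `ht_circleData` : the same for `fun x => (D.L x).thick`, verbatim (G3);
* `ne_zero_of_pow_eq_natCast`, `valuation_lt_one_of_pow_eq_natCast` : `hϖ0`, `hϖ`.
-/

set_option autoImplicit false

namespace Fermat.Agent.BR3.ThickSDD

open Fermat.Agent.BR3.SDD

section Arith

variable {K : Type*} [Field K] (A : ValuationSubring K)

/-- `n`-th powers are injective on the value group. -/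
theorem valuation_eq_of_pow_eq {x y : A.ValueGroup} {n : ℕ} (hn : n ≠ 0) (h : x ^ n = y ^ n) :
    x = y :=
  (pow_left_inj₀ zero_le zero_le hn).mp h

/-- `ϖ ^ (k * n) = x` and `|a| ^ n = |x|` give `|a| = |ϖ| ^ k`. -/
theorem valuation_eq_pow_of_pow_eq {ϖ x : K} {k n : ℕ} (hn : n ≠ 0) (hϖ : ϖ ^ (k * n) = x)
    {g : A.ValueGroup} (hg : g ^ n = A.valuation x) : g = A.valuation ϖ ^ k := by
  apply valuation_eq_of_pow_eq A hn
  rw [hg, ← hϖ, map_pow, pow_mul]

variable {q : ℕ} {ϖ : K}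

/-- **The node `nT e`** (intermediate form): the thickness `a₀` of the outer sub-annulus at the
critical gauge along `a`. -/
theorem pow_outer {thick' a₀ : K} (h1 : A.valuation thick' = A.valuation (q : K))
    (ha : A.valuation a₀ ^ (q + 1) = A.valuation thick') :
    A.valuation a₀ ^ (q + 1) = A.valuation (q : K) := by
  rw [ha, h1]

/-- **The node `nW e`** (intermediate form): the thickness `b₀⁻¹ * thick'` of the inner sub-annulus
at the critical gauge along `b`. -/
theorem pow_inner {thick' b₀ : K} (hq0 : (q : K) ≠ 0)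
    (h1 : A.valuation thick' = A.valuation (q : K))
    (hb : A.valuation b₀ ^ (q + 1) = A.valuation thick' ^ q) :
    A.valuation (b₀⁻¹ * thick') ^ (q + 1) = A.valuation (q : K) := by
  have hq0' : A.valuation (q : K) ≠ 0 := (Valuation.ne_zero_iff _).mpr hq0
  rw [map_mul, map_inv₀, mul_pow, inv_pow, hb, h1, pow_succ, ← mul_assoc,
    inv_mul_cancel₀ (pow_ne_zero q hq0'), one_mul]

/-- **The node `nk e s`** (intermediate form): the thickness `thick₂` of the Kummer sheet of degree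
`d` over the outer sub-annulus, `a₀ = κ₀ * thick₂ ^ d` with `|κ₀| = 1`. -/
theorem pow_kummer {thick' a₀ κ₀ thick₂ : K} {d : ℕ}
    (h1 : A.valuation thick' = A.valuation (q : K))
    (ha : A.valuation a₀ ^ (q + 1) = A.valuation thick')
    (hκ : A.valuation κ₀ = 1) (hK : a₀ = κ₀ * thick₂ ^ d) :
    A.valuation thick₂ ^ (d * (q + 1)) = A.valuation (q : K) := by
  rw [← h1, ← ha, hK, map_mul, hκ, one_mul, map_pow, pow_mul]

/-- **The node `nT e`**: `|a₀| = |ϖ| ^ (q - 1)`. -/
theorem valuation_outer (hϖ : ϖ ^ ((q - 1) * (q + 1)) = (q : K)) {thick' a₀ : K}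
    (h1 : A.valuation thick' = A.valuation (q : K))
    (ha : A.valuation a₀ ^ (q + 1) = A.valuation thick') :
    A.valuation a₀ = A.valuation ϖ ^ (q - 1) :=
  valuation_eq_pow_of_pow_eq A (Nat.succ_ne_zero q) hϖ (pow_outer A h1 ha)

/-- **The node `nW e`**: `|b₀⁻¹ * thick'| = |ϖ| ^ (q - 1)`. -/
theorem valuation_inner (hq0 : (q : K) ≠ 0) (hϖ : ϖ ^ ((q - 1) * (q + 1)) = (q : K))
    {thick' b₀ : K} (h1 : A.valuation thick' = A.valuation (q : K))
    (hb : A.valuation b₀ ^ (q + 1) = A.valuation thick' ^ q) :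
    A.valuation (b₀⁻¹ * thick') = A.valuation ϖ ^ (q - 1) :=
  valuation_eq_pow_of_pow_eq A (Nat.succ_ne_zero q) hϖ (pow_inner A hq0 h1 hb)

/-- **The node `nk e s`**: `|thick₂| = |ϖ| ^ k` for `d * k + 1 = q`. -/
theorem valuation_kummer (hq : 1 < q) (hϖ : ϖ ^ ((q - 1) * (q + 1)) = (q : K))
    {thick' a₀ κ₀ thick₂ : K} {d k : ℕ} (hd : d * k + 1 = q)
    (h1 : A.valuation thick' = A.valuation (q : K))
    (ha : A.valuation a₀ ^ (q + 1) = A.valuation thick')
    (hκ : A.valuation κ₀ = 1) (hK : a₀ = κ₀ * thick₂ ^ d) :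
    A.valuation thick₂ = A.valuation ϖ ^ k := by
  have hd0 : d ≠ 0 := by
    rintro rfl
    omega
  have hq1 : q - 1 = k * d := by
    have : q - 1 = d * k := by omega
    rw [this, mul_comm]
  have hϖ' : ϖ ^ (k * (d * (q + 1))) = (q : K) := by
    rw [← mul_assoc, ← hq1]
    exact hϖ
  exact valuation_eq_pow_of_pow_eq A (mul_ne_zero hd0 (Nat.succ_ne_zero q)) hϖ'
    (pow_kummer A h1 ha hκ hK)

/-- `hϖ0` : a root of `q ≠ 0` is nonzero. -/
theorem ne_zero_of_pow_eq_natCast (hq0 : (q : K) ≠ 0) {e₀ : ℕ} (he₀ : e₀ ≠ 0)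
    (hϖ : ϖ ^ e₀ = (q : K)) : ϖ ≠ 0 := by
  rintro rfl
  rw [zero_pow he₀] at hϖ
  exact hq0 hϖ.symm

/-- `hϖ` : a root of `q` is a non-unit as soon as `q` is. -/
theorem valuation_lt_one_of_pow_eq_natCast (hq : A.valuation (q : K) < 1) {e₀ : ℕ}
    (hϖ : ϖ ^ e₀ = (q : K)) : A.valuation ϖ < 1 := by
  by_contra h
  have h3 : 1 ≤ A.valuation ϖ ^ e₀ := one_le_pow_of_one_le' (not_lt.mp h) e₀
  rw [← map_pow, hϖ] at h3
  exact absurd hq (not_lt.mpr h3)

end Arith

/-! ### The family of the nodes of `S''` -/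

section Family

variable {K : Type*} [Field K] (A : ValuationSubring K) {SSp KP : Type} [Fintype KP]

/-- **The thickness exponents of the nodes of `S''`** with respect to `ϖ`,
`ϖ ^ ((q - 1) * (q + 1)) = q`: `q - 1` at `nT e` and `nW e`, `|KP| = (q - 1) / d` at `nk e s`. -/
def tExp (q : ℕ) (SSp KP : Type) [Fintype KP] : Node SSp KP → ℕ
  | (_, Sum.inl _) => q - 1
  | (_, Sum.inr _) => Fintype.card KP

@[simp] theorem tExp_nT (q : ℕ) (e : SSp) : tExp q SSp KP (nT e) = q - 1 := rfl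

@[simp] theorem tExp_nW (q : ℕ) (e : SSp) : tExp q SSp KP (nW e) = q - 1 := rfl

@[simp] theorem tExp_nk (q : ℕ) (e : SSp) (s : KP) :
    tExp q SSp KP (nk e s) = Fintype.card KP := rfl

/-- `ht0` of `SDD.newInvBoundedLevel_of_input`. -/
theorem tExp_pos {q : ℕ} (hq : 1 < q) (x : Node SSp KP) : 0 < tExp q SSp KP x := by
  obtain ⟨e, b | s⟩ := x
  · show 0 < q - 1
    omega
  · exact Fintype.card_pos_iff.mpr ⟨s⟩

variable {q : ℕ} {ϖ : K}

/-- **(G3) from the intermediate forms**: `|thick (nT e)| ^ (q+1) = |thick (nW e)| ^ (q+1) = |q|`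
and `|thick (nk e s)| ^ (d * (q+1)) = |q|`. -/
theorem ht_of_pow (hq : 1 < q) (hϖ : ϖ ^ ((q - 1) * (q + 1)) = (q : K)) {d : ℕ}
    (hd : d * Fintype.card KP + 1 = q) (thick : Node SSp KP → K)
    (hT : ∀ e, A.valuation (thick (nT e)) ^ (q + 1) = A.valuation (q : K))
    (hW : ∀ e, A.valuation (thick (nW e)) ^ (q + 1) = A.valuation (q : K))
    (hK : ∀ e s, A.valuation (thick (nk e s)) ^ (d * (q + 1)) = A.valuation (q : K))
    (x : Node SSp KP) : A.valuation (thick x) = A.valuation ϖ ^ tExp q SSp KP x := by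
  obtain ⟨e, b | s⟩ := x
  · cases b
    · exact valuation_eq_pow_of_pow_eq A (Nat.succ_ne_zero q) hϖ (hT e)
    · exact valuation_eq_pow_of_pow_eq A (Nat.succ_ne_zero q) hϖ (hW e)
  · have hd0 : d ≠ 0 := by
      rintro rfl
      omega
    have hq1 : q - 1 = Fintype.card KP * d := by
      have : q - 1 = d * Fintype.card KP := by omega
      rw [this, mul_comm]
    have hϖ' : ϖ ^ (Fintype.card KP * (d * (q + 1))) = (q : K) := by
      rw [← mul_assoc, ← hq1]
      exact hϖ
    exact valuation_eq_pow_of_pow_eq A (mul_ne_zero hd0 (Nat.succ_ne_zero q)) hϖ' (hK e s)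

/-- **(G3) from the gauges**, in the `rfl` shapes of the level constructions: `thick' e` the
thickness of the crossing `e` of `S'` (`|thick' e| = |q|`, node (C-THICK1)), `a₀ e`, `b₀ e` the
critical gauges along `a`, `b`; `thick (nT e) = a₀ e` (split sheet over `subLevels`),
`thick (nW e) = (b₀ e)⁻¹ * thick' e` (split sheet over `innerLevels`),
`a₀ e = κ₀ e s * thick (nk e s) ^ d` with `|κ₀ e s| = 1` (`KummerHyp.thick_eq`). -/
theorem ht_of_gauges (hq : 1 < q) (hq0 : (q : K) ≠ 0)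
    (hϖ : ϖ ^ ((q - 1) * (q + 1)) = (q : K)) {d : ℕ}
    (hd : d * Fintype.card KP + 1 = q) (thick : Node SSp KP → K) (thick' a₀ b₀ : SSp → K)
    (κ₀ : SSp → KP → K)
    (h1 : ∀ e, A.valuation (thick' e) = A.valuation (q : K))
    (ha : ∀ e, A.valuation (a₀ e) ^ (q + 1) = A.valuation (thick' e))
    (hb : ∀ e, A.valuation (b₀ e) ^ (q + 1) = A.valuation (thick' e) ^ q)
    (hT : ∀ e, thick (nT e) = a₀ e)
    (hW : ∀ e, thick (nW e) = (b₀ e)⁻¹ * thick' e)
    (hκ : ∀ e s, A.valuation (κ₀ e s) = 1)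
    (hK : ∀ e s, a₀ e = κ₀ e s * thick (nk e s) ^ d)
    (x : Node SSp KP) : A.valuation (thick x) = A.valuation ϖ ^ tExp q SSp KP x := by
  refine ht_of_pow A hq hϖ hd thick (fun e => ?_) (fun e => ?_) (fun e s => ?_) x
  · rw [hT]
    exact pow_outer A (h1 e) (ha e)
  · rw [hW]
    exact pow_inner A hq0 (h1 e) (hb e)
  · exact pow_kummer A (h1 e) (ha e) (hκ e s) (hK e s)

end Family

/-! ### The shape of `SDD.newInvBoundedLevel_of_input` -/

section CircleData

variable {K : Type} {F : Type*} [Field K] [Field F] [Algebra K F]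
  {A : ValuationSubring K} [IsAlgClosed (IsLocalRing.ResidueField A)] {Mid SSp KP : Type}
  [Fintype KP] {Ft : Comp Mid SSp → Type} [∀ v, Field (Ft v)]
  [∀ v, Algebra (IsLocalRing.ResidueField A) (Ft v)]
  {I : Input (F := F) A Mid SSp KP Ft} {ιL : Node SSp KP → Type*} (D : CircleData I ιL)
  {q : ℕ} {ϖ : K}

/-- **(G3) of `SDD.newInvBoundedLevel_of_input`** from the intermediate forms. -/
theorem ht_circleData_of_pow (hq : 1 < q) (hϖ : ϖ ^ ((q - 1) * (q + 1)) = (q : K)) {d : ℕ}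
    (hd : d * Fintype.card KP + 1 = q)
    (hT : ∀ e, A.valuation (D.L (nT e)).thick ^ (q + 1) = A.valuation (q : K))
    (hW : ∀ e, A.valuation (D.L (nW e)).thick ^ (q + 1) = A.valuation (q : K))
    (hK : ∀ e s, A.valuation (D.L (nk e s)).thick ^ (d * (q + 1)) = A.valuation (q : K))
    (x : Node SSp KP) : A.valuation (D.L x).thick = A.valuation ϖ ^ tExp q SSp KP x :=
  ht_of_pow A hq hϖ hd (fun x => (D.L x).thick) hT hW hK x

/-- **(G3) of `SDD.newInvBoundedLevel_of_input`** from the gauges: `t := tExp q SSp KP`,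
`ht0 := tExp_pos hq`. -/
theorem ht_circleData (hq : 1 < q) (hq0 : (q : K) ≠ 0)
    (hϖ : ϖ ^ ((q - 1) * (q + 1)) = (q : K)) {d : ℕ}
    (hd : d * Fintype.card KP + 1 = q) (thick' a₀ b₀ : SSp → K) (κ₀ : SSp → KP → K)
    (h1 : ∀ e, A.valuation (thick' e) = A.valuation (q : K))
    (ha : ∀ e, A.valuation (a₀ e) ^ (q + 1) = A.valuation (thick' e))
    (hb : ∀ e, A.valuation (b₀ e) ^ (q + 1) = A.valuation (thick' e) ^ q)
    (hT : ∀ e, (D.L (nT e)).thick = a₀ e)
    (hW : ∀ e, (D.L (nW e)).thick = (b₀ e)⁻¹ * thick' e)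
    (hκ : ∀ e s, A.valuation (κ₀ e s) = 1)
    (hK : ∀ e s, a₀ e = κ₀ e s * (D.L (nk e s)).thick ^ d)
    (x : Node SSp KP) : A.valuation (D.L x).thick = A.valuation ϖ ^ tExp q SSp KP x :=
  ht_of_gauges A hq hq0 hϖ hd (fun x => (D.L x).thick) thick' a₀ b₀ κ₀ h1 ha hb hT hW hκ hK x

end CircleData

end Fermat.Agent.BR3.ThickSDD
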