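import Mathlib
import Fermat.Agent.BR3.ThickSDD
import Fermat.Agent.BR3.S36Plug

/-!
# Program C (S36), node (I7-THICK), part 2: the block (G3)+(G4) of `S36Plug` from the gauges

The BINDING uniformiser of `S''`: `e₀ = (q - 1) * (q + 1)`, `ϖ ^ e₀ = q`.

* `not_dvd_expo`, `dvd_expo` : `¬ q ∣ e₀` (`q` prime) and `(q - 1) ∣ e₀`;
* `exists_unif`, `unifSDD q`, `unifSDD_pow` : a chosen `ϖ : ℚ̄` with `ϖ ^ e₀ = q`; `gaugeSDD q`
  `= ϖ ^ (q - 1)` with `gaugeSDD q ^ (q + 1) = q` (the gauge of the vertical components);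
* `valuation_gaugeSDD_pow`, `valuation_gaugeSDD_pow_q` : `gaugeSDD q` is a critical gauge along `a`,
  `gaugeSDD q ^ q` is a critical gauge along `b`, for every crossing of thickness `|q|`;
* `richProp_of_gauges` : `S36Plug.RichProp M q B I D` from the gauges and the trivial action `hP`;
* `rawRichProp_of_gauges` : `S36Plug.RawRichProp M q lam B I D` from the gauges and `hrich`.
-/

set_option autoImplicit false
set_option linter.unusedSectionVars false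

open ModularCurve AlgebraicCurve

namespace Fermat.Agent.BR3.ThickSDDPlug

open IsLocalRing Fermat.Agent.Jac Fermat.Agent.X0 Fermat.Agent.Red Fermat.Agent.BR.SS
  Fermat.Agent.BR.Fact Fermat.Agent.BR.InertiaRed Fermat.Agent.BR3.InvFiniteUnit
  Fermat.Agent.BR2.Filt Fermat.Agent.BR3.FiltMaps Fermat.Agent.BR.LevelTransfer
  Fermat.Agent.BR2.LevelMaps Fermat.Agent.BR3.S36Final Fermat.Agent.BR3.CircleN
  Fermat.Agent.BR3.TorGlue Fermat.Agent.BR3.GeoTor Fermat.Agent.BR3.SDD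
  Fermat.Agent.BR.UnramCyclo Fermat.Agent.BR3.ThickSDD Fermat.Agent.BR3.S36Plug

local notation "Qb" => AlgebraicClosure ℚ

/-! ### The exponent `e₀ = (q - 1) * (q + 1)` -/

theorem not_dvd_expo {q : ℕ} (hq : q.Prime) : ¬ q ∣ (q - 1) * (q + 1) := by
  intro h
  have h2 := hq.two_le
  rcases (Nat.Prime.dvd_mul hq).mp h with h1 | h1
  · have := Nat.le_of_dvd (by omega) h1
    omega
  · have h3 : q ∣ 1 := (Nat.dvd_add_right (dvd_refl q)).mp h1
    have := Nat.le_of_dvd one_pos h3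
    omega

theorem dvd_expo (q : ℕ) : (q - 1) ∣ (q - 1) * (q + 1) := dvd_mul_right _ _

theorem expo_ne_zero {q : ℕ} (hq : 1 < q) : (q - 1) * (q + 1) ≠ 0 :=
  Nat.mul_ne_zero (by omega) (by omega)

/-! ### The chosen uniformiser -/

theorem exists_unif {q : ℕ} (hq : 1 < q) : ∃ ϖ : Qb, ϖ ^ ((q - 1) * (q + 1)) = (q : Qb) :=
  IsAlgClosed.exists_pow_nat_eq _ (Nat.pos_of_ne_zero (expo_ne_zero hq))

open Classical in
/-- **The uniformiser of `S''`**: a chosen root `ϖ ^ ((q - 1) * (q + 1)) = q`. -/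
noncomputable def unifSDD (q : ℕ) : Qb :=
  if hq : 1 < q then (exists_unif hq).choose else 1

theorem unifSDD_pow {q : ℕ} (hq : 1 < q) : unifSDD q ^ ((q - 1) * (q + 1)) = (q : Qb) := by
  unfold unifSDD
  rw [dif_pos hq]
  exact (exists_unif hq).choose_spec

/-- **The gauge of the vertical components**: `ϖ₁ = ϖ ^ (q - 1)`, `ϖ₁ ^ (q + 1) = q`. -/
noncomputable def gaugeSDD (q : ℕ) : Qb := unifSDD q ^ (q - 1)

theorem gaugeSDD_pow {q : ℕ} (hq : 1 < q) : gaugeSDD q ^ (q + 1) = (q : Qb) := by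
  unfold gaugeSDD
  rw [← pow_mul]
  exact unifSDD_pow hq

/-- `ϖ₁` is a critical gauge along `a` of every crossing of thickness `|q|`. -/
theorem valuation_gaugeSDD_pow {q : ℕ} (hq : 1 < q) (B : ValuationSubring Qb) {thick' : Qb}
    (h1 : B.valuation thick' = B.valuation (q : Qb)) :
    B.valuation (gaugeSDD q) ^ (q + 1) = B.valuation thick' := by
  rw [h1, ← map_pow, gaugeSDD_pow hq]

/-- `ϖ₁ ^ q` is a critical gauge along `b` of every crossing of thickness `|q|`. -/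
theorem valuation_gaugeSDD_pow_q {q : ℕ} (hq : 1 < q) (B : ValuationSubring Qb) {thick' : Qb}
    (h1 : B.valuation thick' = B.valuation (q : Qb)) :
    B.valuation (gaugeSDD q ^ q) ^ (q + 1) = B.valuation thick' ^ q := by
  rw [h1, ← map_pow, ← map_pow, ← pow_mul, mul_comm, pow_mul, gaugeSDD_pow hq]

/-! ### The block (G3)+(G4) of `S36Plug` -/

section Plug

variable {M q lam : ℕ} [NeZero M] [NeZero q] {B : ValuationSubring Qb}
  [IsAlgClosed (ResidueField B)] {Mid SSp KP : Type} [Fintype Mid] [Fintype SSp] [Fintype KP]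
  {Ft : Comp Mid SSp → Type} [∀ v, Field (Ft v)] [∀ v, Algebra (ResidueField B) (Ft v)]
  {I : Input (F := Fb (M * q * q)) B Mid SSp KP Ft} {ιL : Node SSp KP → Type}
  {D : CircleData I ιL}

/-- **(G3)+(G4), folded form, from the gauges**: `e₀ = (q - 1) * (q + 1)`, `t = tExp q SSp KP`. -/
theorem richProp_of_gauges (hq : q.Prime) {ϖ : Qb} (hϖ : ϖ ^ ((q - 1) * (q + 1)) = (q : Qb))
    {d : ℕ} (hd : d * Fintype.card KP + 1 = q) (thick' a₀ b₀ : SSp → Qb) (κ₀ : SSp → KP → Qb)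
    (h1 : ∀ e, B.valuation (thick' e) = B.valuation (q : Qb))
    (ha : ∀ e, B.valuation (a₀ e) ^ (q + 1) = B.valuation (thick' e))
    (hb : ∀ e, B.valuation (b₀ e) ^ (q + 1) = B.valuation (thick' e) ^ q)
    (hT : ∀ e, (D.L (nT e)).thick = a₀ e)
    (hW : ∀ e, (D.L (nW e)).thick = (b₀ e)⁻¹ * thick' e)
    (hκ : ∀ e s, B.valuation (κ₀ e s) = 1)
    (hK : ∀ e s, a₀ e = κ₀ e s * (D.L (nk e s)).thick ^ d)
    (hP : ∀ σ ∈ B.inertiaSubgroupIn ℚ, σ ϖ = ϖ → (∀ a ∈ cycloField Qb q, σ a = a) →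
      (∀ ζ : Qb, ζ ^ q = 1 → σ ζ = ζ) →
      TrivialAction I.setup (fun x => (D.L x).u) (galAut (M * q * q) σ)) :
    RichProp M q B I D :=
  ⟨(q - 1) * (q + 1), ϖ, tExp q SSp KP, not_dvd_expo hq, dvd_expo q, hϖ, tExp_pos hq.one_lt,
    ht_circleData D hq.one_lt (Nat.cast_ne_zero.mpr hq.ne_zero) hϖ hd thick' a₀ b₀ κ₀ h1 ha hb hT
      hW hκ hK, hP⟩

/-- **(G3)+(G4), raw form, from the gauges.** -/
theorem rawRichProp_of_gauges (hq : q.Prime) (hB : B.LiesOverPrime q) {ϖ : Qb}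
    (hϖ : ϖ ^ ((q - 1) * (q + 1)) = (q : Qb))
    {d : ℕ} (hd : d * Fintype.card KP + 1 = q) (thick' a₀ b₀ : SSp → Qb) (κ₀ : SSp → KP → Qb)
    (h1 : ∀ e, B.valuation (thick' e) = B.valuation (q : Qb))
    (ha : ∀ e, B.valuation (a₀ e) ^ (q + 1) = B.valuation (thick' e))
    (hb : ∀ e, B.valuation (b₀ e) ^ (q + 1) = B.valuation (thick' e) ^ q)
    (hT : ∀ e, (D.L (nT e)).thick = a₀ e)
    (hW : ∀ e, (D.L (nW e)).thick = (b₀ e)⁻¹ * thick' e)
    (hκ : ∀ e s, B.valuation (κ₀ e s) = 1)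
    (hK : ∀ e s, a₀ e = κ₀ e s * (D.L (nk e s)).thick ^ d)
    (hrich : ∀ m : ℕ, ∃ (s : GQ) (c : Qb), s ∈ B.inertiaSubgroupIn ℚ ∧
      TrivialAction I.setup (fun x => (D.L x).u) (galAut (M * q * q) s) ∧ c ^ (lam ^ m) = ϖ ∧
      IsPrimitiveRoot (resOf B (s c / c)) (lam ^ m)) :
    RawRichProp M q lam B I D :=
  ⟨ϖ, tExp q SSp KP, GeoRich.ne_zero_of_pow_eq hq hϖ, GeoRich.valuation_lt_one_of_pow_eq B hB hϖ,
    tExp_pos hq.one_lt,
    ht_circleData D hq.one_lt (Nat.cast_ne_zero.mpr hq.ne_zero) hϖ hd thick' a₀ b₀ κ₀ h1 ha hb hT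
      hW hκ hK, hrich⟩

end Plug

end Fermat.Agent.BR3.ThickSDDPlug
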