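import Mathlib
import Fermat.Agent.BR.S0.ThickFinal
import Fermat.Agent.BR.S0.RedModularInst
import Fermat.Agent.BR.Inst.SpecialIso
import Fermat.Agent.BR.Inst.SpecialIsoModel
import Fermat.Agent.Hecke.FrobPlaces

/-!
# Program C (S36), nodes (I5-MID) / (I5-GLUE) / (I5-SZ): the shared input at a supersingular crossing

`e : Crossing (chartDataModular B hB hqM)` a crossing of main's two-component model of `X₀(qM)` at
`q`, `z₁ e` / `z₂ e` its branches on `'can' = (compW 0).O = O1` and `'et' = (compW 1).O = O2`.

`IsSSParam B hB hqM e g g' g''` : a **twisted triple with simple zeros at `e`**: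

* `g, g', g''` lie in the level `M` model `CMod M (W0 B q) (K0 q)` of the unramified base level
  `(K₀, W₀, q)` (`BR/S0/ThickFinal.levelHyp_base`; it is level `∅` of the tower:
  `BR3/MidKummerFinal.CQ_base_eq_CS`);
* `g'` is a Frobenius untwist and `g''` a Frobenius twist of `g` modulo `q`
  (`HeckePolyModel.exists_untwist_CMod`, `exists_twist_CMod`);
* `g` is not a constant;
* the reductions of the transversal pair `x = α g - (β g')^q` (on `'can'`) and
  `y = β g'' - (α g)^q` (on `'et'`) have SIMPLE zeros at `z₁ e` resp. `z₂ e` — the literal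
  hypotheses `hxord`, `hyord` of `BR3/ThickOneUnit.isUnit_of_simple_zeros_final`.

Mathematically: `g̃ = res_M g` is a local parameter at the (`𝔽_{q²}`-rational) supersingular point
under `e`.  PRODUCER: node (I5-SZ) (`∀ e, ∃ g g' g'', IsSSParam B hB hqM e g g' g''`).
CONSUMERS: `BR3/MidKummerParam` (I5-MID: the Kummer witness `ord_e γ = -2` on every middle
component) and (I5-GLUE) (`exists_vertComponent_all`: the vertical component at every `e`).
-/

set_option autoImplicit false
set_option linter.unusedSectionVars false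
set_option linter.style.haveILetI false
set_option synthInstance.maxHeartbeats 400000

noncomputable section

namespace Fermat.Agent.BR3.SSParam

open AlgebraicCurve ModularCurve IsLocalRing
open Fermat.Agent.X0 Fermat.Agent.Val Fermat.Agent.Hecke
open Fermat.Agent.BR.S0.RedModular Fermat.Agent.BR.S0.PointDict Fermat.Agent.BR.S0.ThickFinal
open Fermat.Agent.BR.Inst.LevelsInst Fermat.Agent.BR.Inst.SpecIso Fermat.Agent.BR.ResGen
open Fermat.Agent.BR.TwoVal

variable {M q : ℕ} [NeZero M] [hq : Fact q.Prime]
variable (B : ValuationSubring Kb) (hB : B.LiesOverPrime q) (hqM : ¬ q ∣ M)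

local notation "kB" => IsLocalRing.ResidueField B

include hqM in
/-- the level `M` model of the base level lies in the Gauss valuation ring of level `M` -/
theorem mem_OM_of_mem_CMod_base {g : Fb M} (hg : g ∈ CMod M (W0 B q) (K0 q)) : g ∈ OM M B hB :=
  modelM_le_OM' B hB (levelHyp_base (M := M) B hB hqM).hWA
    (isModel_CMod M (W0 B q) (K0 q)) g hg

variable [CharP (IsLocalRing.ResidueField B) q] [PerfectField (IsLocalRing.ResidueField B)]

/-- **A twisted triple `(g, g', g'')` of the base level with simple zeros at the crossing `e`.** -/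
structure IsSSParam (e : Crossing (chartDataModular B hB hqM)) (g g' g'' : Fb M) : Prop where
  hg : g ∈ CMod M (W0 B q) (K0 q)
  hg' : g' ∈ CMod M (W0 B q) (K0 q)
  hg'' : g'' ∈ CMod M (W0 B q) (K0 q)
  /-- `g'` is a Frobenius untwist of `g` -/
  untwist : redMF B hB hqM ⟨g, mem_OM_of_mem_CMod_base B hB hqM hg⟩ =
    frobAutFullC kB M q • redMF B hB hqM ⟨g', mem_OM_of_mem_CMod_base B hB hqM hg'⟩
  /-- `g''` is a Frobenius twist of `g` -/
  twist : redMF B hB hqM ⟨g'', mem_OM_of_mem_CMod_base B hB hqM hg''⟩ =
    frobAutFullC kB M q • redMF B hB hqM ⟨g, mem_OM_of_mem_CMod_base B hB hqM hg⟩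
  /-- `g` is not a constant -/
  nonconst : g ∉ Set.range (algebraMap Kb (Fb M))
  /-- `x = α g - (β g')^q` has a simple zero at the branch `z₁ e` on `'can'` -/
  hxord : ∀ h : heckeAlphaBar Kb M q g - heckeBetaBar Kb M q g' ^ q ∈ (compW B hB hqM 0).O,
    (z₁ (chartDataModular B hB hqM) e).ord ((compW B hB hqM 0).res ⟨_, h⟩) = 1
  /-- `y = β g'' - (α g)^q` has a simple zero at the branch `z₂ e` on `'et'` -/
  hyord : ∀ h : heckeBetaBar Kb M q g'' - heckeAlphaBar Kb M q g ^ q ∈ (compW B hB hqM 1).O,
    (z₂ (chartDataModular B hB hqM) e).ord ((compW B hB hqM 1).res ⟨_, h⟩) = 1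

end Fermat.Agent.BR3.SSParam
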