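import Fermat.Agent.BR3.HeckePolyModel
import Fermat.Agent.BR.Inst.FKCover
import Fermat.Agent.Jac.HeckeGalois
import Fermat.Agent.BR.S0.ThickFinal

/-!
# Program C (S36), node (I5-KRON-Q): Galois descent of the Hecke polynomial and the Kronecker
congruence modulo `q` at the unramified base level

* `mem_FK_of_fixed_step`, `mem_FK_of_fixed`, `mem_FKs_of_fixed` : **Galois descent for the
  function field** `F̄_N = ℚ̄·F_N` : an element fixed by the arithmetic Galois action of every
  `σ ∈ Gal(ℚ̄/K')` lies in `K'·F_N`;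
* `eval_heckePoly_galAut`, `heckePoly_galAut`, `coeff_heckePoly_galAut` : `P_{σ g} = σ(P_g)`;
* `coeff_heckePoly_mem_modelField` : `g ∈ K'·F_M ⇒ P_g ∈ (K'·F_M)[X]` (every `K'`);
* `coeff_heckePoly_mem_CMod'`, `exists_kronecker_CMod'`, `exists_kronecker_PAt'` : the statements
  of `BR3/HeckePolyModel` without the hypothesis on the coefficient field;
* `exists_kronecker_PAt_q` : **the twisted Kronecker congruence modulo `q`** at the base level
  `(K₀, B ∩ K₀, q)` of `BR/S0/ThickFinal` :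
  `PAt g = (X^q - C (β g'')) (X - C ((β g')^q)) + C q · Ψ₁`, `Ψ₁ ∈ CQ₀[X]`.
-/

set_option autoImplicit false
set_option linter.style.haveILetI false
set_option linter.unusedSectionVars false

noncomputable section

set_option synthInstance.maxHeartbeats 400000

namespace Fermat.Agent.BR3.HeckePolyDescent

open ModularCurve AlgebraicCurve Polynomial Fermat.Agent.X0 Fermat.Agent.Good.Bridge
  Fermat.Agent.BR.Inst.FKCover Fermat.Agent.Jac Fermat.Agent.BR3.HeckePoly

/-! ### `P_{σ g} = σ (P_g)` -/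

section Galois

variable (M q : ℕ) [NeZero M] [NeZero q]

theorem eval_heckePoly_galAut (σ : GQ) (g c : Fb M) :
    (heckePoly M q (galAut M σ • g)).eval (galAut M σ • c) =
      galAut M σ • (heckePoly M q g).eval c := by
  rw [eval_heckePoly, eval_heckePoly, heckeAlphaBar_galAut, heckeBetaBar_galAut, ← smul_sub,
    normAlong_alpha_galAut]

/-- `P_{σ g} = σ (P_g)` (coefficientwise). -/
theorem heckePoly_galAut (σ : GQ) (g : Fb M) :
    heckePoly M q (galAut M σ • g) =
      (heckePoly M q g).map ((SemilinearAut.toRingAut (galAut M σ) : Fb M ≃+* Fb M) :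
        Fb M →+* Fb M) := by
  haveI : Infinite (Fb M) := Infinite.of_injective _ (algebraMap Kb (Fb M)).injective
  refine Polynomial.funext fun r => ?_
  obtain ⟨c, rfl⟩ := (SemilinearAut.toRingAut (galAut M σ)).surjective r
  have h := eval_heckePoly_galAut M q σ g c
  refine h.trans ?_
  exact (eval_map_apply ((SemilinearAut.toRingAut (galAut M σ) : Fb M ≃+* Fb M) :
    Fb M →+* Fb M) c).symm

theorem coeff_heckePoly_galAut (σ : GQ) (g : Fb M) (k : ℕ) :
    (heckePoly M q (galAut M σ • g)).coeff k = galAut M σ • (heckePoly M q g).coeff k := by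
  rw [heckePoly_galAut, coeff_map]
  rfl

end Galois

/-! ### Galois descent for `F̄_N = ℚ̄ · F_N` -/

section Descent

variable {N : ℕ} [NeZero N]

set_option maxHeartbeats 1600000 in
/-- **One step of the descent**: `a ∈ K₁(θ)·F_N` fixed by every `σ ∈ Gal(ℚ̄/K₁)` lies in
`K₁·F_N`. -/
theorem mem_FK_of_fixed_step (K₁ : IntermediateField ℚ Kb) (θ : Kb) {a : Fb N}
    (ha : a ∈ FK (K₁ ⊔ IntermediateField.adjoin ℚ {θ}) N)
    (hfix : ∀ σ : Kb ≃ₐ[ℚ] Kb, (∀ c ∈ K₁, σ c = c) →
      arithmeticGalois (modularFunctionFieldFull N) σ • a = a) : a ∈ FK K₁ N := by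
  classical
  haveI : Algebra.IsAlgebraic ℚ Kb := Fermat.Agent.Val.algebraIsAlgebraic_rat_algebraicClosure
  haveI : Algebra.IsAlgebraic ↥K₁ Kb := Algebra.IsAlgebraic.tower_top (K := ℚ) ↥K₁
  haveI : IsAlgClosure ↥K₁ Kb := ⟨inferInstance, inferInstance⟩
  haveI : Normal ↥K₁ Kb := IsAlgClosure.normal ↥K₁ Kb
  -- the constants of `K₁` inside `F' = K₁ · F_N`
  let ι : ↥K₁ →+* ↥(FK K₁ N) :=
    ((algebraMap Kb (Fb N)).comp (algebraMap ↥K₁ Kb)).codRestrict (FK K₁ N)
      (fun c => algebraMap_mem_FK c.2)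
  have key : ∀ (P : (↥K₁)[X]) (x : Kb),
      eval₂ (algebraMap ↥(FK K₁ N) (Fb N)) (algebraMap Kb (Fb N) x) (P.map ι) =
        algebraMap Kb (Fb N) (eval₂ (algebraMap ↥K₁ Kb) x P) := by
    intro P x
    rw [eval₂_map, hom_eval₂]
    rfl
  have hint : IsIntegral ↥K₁ θ := (Algebra.IsIntegral.isIntegral (R := ℚ) θ).tower_top
  set m : (↥K₁)[X] := minpoly ↥K₁ θ with hm
  have hmon : (m.map ι).Monic := (minpoly.monic hint).map ι
  have hθ0 : eval₂ (algebraMap ↥(FK K₁ N) (Fb N)) (algebraMap Kb (Fb N) θ) (m.map ι) = 0 := by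
    rw [key, ← aeval_def, hm, minpoly.aeval, map_zero]
  have halg : IsAlgebraic ↥(FK K₁ N) (algebraMap Kb (Fb N) θ) :=
    ⟨m.map ι, hmon.ne_zero, hθ0⟩
  -- `K₁(θ)·F_N ⊆ F'(θ)`
  have hle : FK (K₁ ⊔ IntermediateField.adjoin ℚ {θ}) N ≤
      (IntermediateField.adjoin ↥(FK K₁ N) {algebraMap Kb (Fb N) θ}).toSubfield := by
    show Subfield.closure _ ≤ _
    rw [Subfield.closure_le]
    rintro x (⟨c, hc, rfl⟩ | ⟨z, rfl⟩)
    · have hsup : K₁ ⊔ IntermediateField.adjoin ℚ {θ} ≤
          ofSubfield ((IntermediateField.adjoin ↥(FK K₁ N)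
            {algebraMap Kb (Fb N) θ}).toSubfield.comap (algebraMap Kb (Fb N))) := by
        refine sup_le (fun c hc => ?_) ?_
        · exact (IntermediateField.adjoin ↥(FK K₁ N) {algebraMap Kb (Fb N) θ}).algebraMap_mem
            ⟨_, algebraMap_mem_FK hc⟩
        · rw [IntermediateField.adjoin_le_iff]
          intro x hx
          rw [Set.mem_singleton_iff] at hx
          rw [hx]
          exact IntermediateField.mem_adjoin_simple_self ↥(FK K₁ N) (algebraMap Kb (Fb N) θ)
      exact hsup hc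
    · exact (IntermediateField.adjoin ↥(FK K₁ N) {algebraMap Kb (Fb N) θ}).algebraMap_mem
        ⟨_, barEmb_mem_FK K₁ z⟩
  -- `a = p(θ)`, `p ∈ F'[T]`
  have h1 : a ∈ (IntermediateField.adjoin ↥(FK K₁ N) {algebraMap Kb (Fb N) θ}).toSubalgebra :=
    hle ha
  rw [IntermediateField.adjoin_simple_toSubalgebra_of_isAlgebraic halg,
    Algebra.adjoin_singleton_eq_range_aeval] at h1
  obtain ⟨p, hp⟩ := h1
  have hp' : eval₂ (algebraMap ↥(FK K₁ N) (Fb N)) (algebraMap Kb (Fb N) θ) p = a := hp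
  -- the conjugates of `θ`
  have hroot : ∀ t ∈ (m.map (algebraMap ↥K₁ Kb)).roots,
      eval₂ (algebraMap ↥(FK K₁ N) (Fb N)) (algebraMap Kb (Fb N) t) p = a := by
    intro t ht
    have hev : aeval t (minpoly ↥K₁ θ) = 0 := by
      rw [aeval_def, ← eval_map]
      exact (mem_roots'.1 ht).2
    obtain ⟨σ₁, hσ₁⟩ := minpoly.exists_algEquiv_of_root' hint.isAlgebraic hev
    have hσfix : ∀ c ∈ K₁, (σ₁.restrictScalars ℚ) c = c := fun c hc => σ₁.commutes ⟨c, hc⟩
    have h2 := hfix (σ₁.restrictScalars ℚ) hσfix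
    have hcomp : ((SemilinearAut.toRingAut
        (arithmeticGalois (modularFunctionFieldFull N) (σ₁.restrictScalars ℚ)) :
          Fb N ≃+* Fb N) : Fb N →+* Fb N).comp (algebraMap ↥(FK K₁ N) (Fb N)) =
        algebraMap ↥(FK K₁ N) (Fb N) :=
      RingHom.ext fun y => gal_smul_eq_of_mem_FK hσfix y.2
    have hθt : ((SemilinearAut.toRingAut
        (arithmeticGalois (modularFunctionFieldFull N) (σ₁.restrictScalars ℚ)) :
          Fb N ≃+* Fb N) : Fb N →+* Fb N) (algebraMap Kb (Fb N) θ) =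
        algebraMap Kb (Fb N) t := by
      rw [← hσ₁]
      exact SemilinearAut.commutes
        (arithmeticGalois (modularFunctionFieldFull N) (σ₁.restrictScalars ℚ)) θ
    have h3 : ((SemilinearAut.toRingAut
        (arithmeticGalois (modularFunctionFieldFull N) (σ₁.restrictScalars ℚ)) :
          Fb N ≃+* Fb N) : Fb N →+* Fb N) a =
        eval₂ (algebraMap ↥(FK K₁ N) (Fb N)) (algebraMap Kb (Fb N) t) p := by
      rw [← hp', hom_eval₂, hcomp, hθt]
    exact h3.symm.trans h2
  -- reduce `p` modulo the minimal polynomial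
  have hmod : ∀ t ∈ (m.map (algebraMap ↥K₁ Kb)).roots,
      eval₂ (algebraMap ↥(FK K₁ N) (Fb N)) (algebraMap Kb (Fb N) t) (p %ₘ m.map ι) = a := by
    intro t ht
    have h3 := hroot t ht
    rw [← modByMonic_add_div p (m.map ι), eval₂_add, eval₂_mul, key] at h3
    have h4 : eval₂ (algebraMap ↥K₁ Kb) t m = 0 := by
      rw [← eval_map]
      exact (mem_roots'.1 ht).2
    rw [h4, map_zero, zero_mul, add_zero] at h3
    exact h3
  have hsep : m.Separable := (minpoly.irreducible hint).separable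
  have hcard : ((m.map (algebraMap ↥K₁ Kb)).roots.toFinset.image (algebraMap Kb (Fb N))).card =
      m.natDegree := by
    rw [Finset.card_image_of_injective _ (algebraMap Kb (Fb N)).injective,
      Multiset.toFinset_card_of_nodup (nodup_roots hsep.map),
      ← (IsAlgClosed.splits (m.map (algebraMap ↥K₁ Kb))).natDegree_eq_card_roots, natDegree_map]
  have hdeg1 : 0 < m.natDegree := minpoly.natDegree_pos hint
  have hm1 : m.map ι ≠ 1 := by
    intro h
    have h5 := congrArg natDegree h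
    rw [natDegree_map, natDegree_one] at h5
    omega
  have hlt : ((p %ₘ m.map ι).map (algebraMap ↥(FK K₁ N) (Fb N)) - C a).natDegree <
      ((m.map (algebraMap ↥K₁ Kb)).roots.toFinset.image (algebraMap Kb (Fb N))).card := by
    rw [hcard]
    have h6 : (p %ₘ m.map ι).natDegree < m.natDegree := by
      have := natDegree_modByMonic_lt p hmon hm1
      rwa [natDegree_map] at this
    refine lt_of_le_of_lt (natDegree_sub_le _ _) ?_
    rw [natDegree_C, max_lt_iff]
    exact ⟨lt_of_le_of_lt natDegree_map_le h6, hdeg1⟩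
  have hzero := eq_zero_of_natDegree_lt_card_of_eval_eq_zero'
    ((p %ₘ m.map ι).map (algebraMap ↥(FK K₁ N) (Fb N)) - C a)
    ((m.map (algebraMap ↥K₁ Kb)).roots.toFinset.image (algebraMap Kb (Fb N)))
    (fun r hr => by
      obtain ⟨t, ht, rfl⟩ := Finset.mem_image.1 hr
      rw [eval_sub, eval_C, eval_map, hmod t (Multiset.mem_toFinset.1 ht), sub_self]) hlt
  have h7 := congrArg (fun P : (Fb N)[X] => P.coeff 0) hzero
  simp only [coeff_sub, coeff_map, coeff_C_zero, coeff_zero] at h7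
  rw [← sub_eq_zero.1 h7]
  exact ((p %ₘ m.map ι).coeff 0).2

/-- **Galois descent** for `F̄_N`: an element fixed by the arithmetic Galois action of every
`σ ∈ Gal(ℚ̄/K₁)` lies in `K₁ · F_N`. -/
theorem mem_FK_of_fixed (K₁ : IntermediateField ℚ Kb) {a : Fb N}
    (hfix : ∀ σ : Kb ≃ₐ[ℚ] Kb, (∀ c ∈ K₁, σ c = c) →
      arithmeticGalois (modularFunctionFieldFull N) σ • a = a) : a ∈ FK K₁ N := by
  classical
  obtain ⟨S, hS⟩ := exists_finset_forall_mem_FK a
  have hind : ∀ T : Finset Kb,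
      a ∈ FK (K₁ ⊔ IntermediateField.adjoin ℚ (↑T : Set Kb)) N → a ∈ FK K₁ N := by
    intro T
    induction T using Finset.induction_on with
    | empty =>
      intro h
      refine FK_mono ?_ h
      refine sup_le le_rfl ?_
      rw [IntermediateField.adjoin_le_iff]
      intro x hx
      simp at hx
    | insert θ T _ ih =>
      intro h
      apply ih
      apply mem_FK_of_fixed_step (K₁ ⊔ IntermediateField.adjoin ℚ (↑T : Set Kb)) θ
      · refine FK_mono ?_ h
        refine sup_le (le_sup_left.trans le_sup_left) ?_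
        rw [IntermediateField.adjoin_le_iff]
        intro x hx
        rw [Finset.coe_insert, Set.mem_insert_iff] at hx
        rcases hx with rfl | hx
        · exact (le_sup_right : IntermediateField.adjoin ℚ {x} ≤ _)
            (IntermediateField.mem_adjoin_simple_self ℚ x)
        · exact (le_sup_left : K₁ ⊔ IntermediateField.adjoin ℚ (↑T : Set Kb) ≤ _)
            ((le_sup_right : IntermediateField.adjoin ℚ (↑T : Set Kb) ≤ _)
              (IntermediateField.subset_adjoin ℚ _ hx))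
      · intro σ hσ
        exact hfix σ fun c hc => hσ c ((le_sup_left : K₁ ≤ _) hc)
  apply hind S
  apply hS
  intro c hc
  exact (le_sup_right : IntermediateField.adjoin ℚ (↑S : Set Kb) ≤ _)
    (IntermediateField.subset_adjoin ℚ _ hc)

/-- **Galois descent**, `Subfield` form (`FKs N E = NormalModel.modelField N E`). -/
theorem mem_FKs_of_fixed (E : Subfield Kb) {a : Fb N}
    (hfix : ∀ σ : Kb ≃ₐ[ℚ] Kb, (∀ c ∈ E, σ c = c) →
      arithmeticGalois (modularFunctionFieldFull N) σ • a = a) : a ∈ FKs N E :=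
  mem_FK_of_fixed (ofSubfield E) hfix

end Descent

/-! ### The coefficient field of the Hecke polynomial -/

section Coeff

open Fermat.Agent.BR.Inst.NormalModel

variable {M q : ℕ} [NeZero M] [NeZero q]

theorem modelField_eq_FKs (N : ℕ) [NeZero N] (K' : Subfield Kb) : modelField N K' = FKs N K' :=
  rfl

/-- **`g ∈ K'·F_M ⇒ P_g ∈ (K'·F_M)[X]`**, for every subfield `K' ⊆ ℚ̄`. -/
theorem coeff_heckePoly_mem_modelField (K' : Subfield Kb) {g : Fb M}
    (hg : g ∈ modelField M K') (k : ℕ) : (heckePoly M q g).coeff k ∈ modelField M K' := by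
  rw [modelField_eq_FKs]
  apply mem_FKs_of_fixed
  intro σ hσ
  have hgfix : galAut M σ • g = g := gal_smul_eq_of_mem_FKs K' hσ hg
  have h := coeff_heckePoly_galAut M q σ g k
  rw [hgfix] at h
  exact h.symm

end Coeff

/-! ### The Kronecker congruence over the model, without hypothesis on the coefficient field -/

section Model

open Fermat.Agent.Val Fermat.Agent.BR.ResGen Fermat.Agent.BR.Inst.NormalGen
  Fermat.Agent.BR.Inst.NormalModel Fermat.Agent.BR.Inst.SpecIso Fermat.Agent.BR.Inst.LevelsInst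
  Fermat.Agent.Hecke Fermat.Agent.BR3.HeckePolyModel Fermat.Agent.BR.S0.ThickFinal

variable {M q : ℕ} [NeZero M] [hq : Fact q.Prime]
variable {A : ValuationSubring Kb} {hA : A.LiesOverPrime q} {hqM : ¬ q ∣ M}
variable {K' : Subfield Kb} {W : Subring Kb} {π' : Kb}

local notation "kA" => IsLocalRing.ResidueField A

/-- the hypothesis `hK` of `BR3/HeckePolyModel` holds at every level -/
theorem coeff_mem_modelField_of_mem_CMod {g : Fb M} (hg : g ∈ CMod M W K') (k : ℕ) :
    (heckePoly M q g).coeff k ∈ modelField M K' :=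
  coeff_heckePoly_mem_modelField K' ((isModel_CMod M W K' g).1 hg).1 k

/-- **(K-a) over the model**: `P_g ∈ CMod[X]` for `g ∈ CMod`. -/
theorem coeff_heckePoly_mem_CMod' (H : LevelHyp A hA hqM K' W π') {g : Fb M}
    (hg : g ∈ CMod M W K') (k : ℕ) : (heckePoly M q g).coeff k ∈ CMod M W K' :=
  coeff_heckePoly_mem_CMod H hg (coeff_mem_modelField_of_mem_CMod hg) k

variable [CharP (IsLocalRing.ResidueField A) q] [PerfectField (IsLocalRing.ResidueField A)]

/-- **The twisted Kronecker congruence over the level `M` model** (no hypothesis on the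
coefficient field). -/
theorem exists_kronecker_CMod' (H : LevelHyp A hA hqM K' W π') {g g' g'' : Fb M}
    (hg : g ∈ CMod M W K') (hg' : g' ∈ CMod M W K') (hg'' : g'' ∈ CMod M W K')
    (h' : redMF A hA hqM ⟨g, mem_OM_of_mem_CMod H hg⟩ =
      frobAutFullC kA M q • redMF A hA hqM ⟨g', mem_OM_of_mem_CMod H hg'⟩)
    (h'' : redMF A hA hqM ⟨g'', mem_OM_of_mem_CMod H hg''⟩ =
      frobAutFullC kA M q • redMF A hA hqM ⟨g, mem_OM_of_mem_CMod H hg⟩) :
    ∃ Ψ : (Fb M)[X], (∀ k, Ψ.coeff k ∈ CMod M W K') ∧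
      heckePoly M q g =
        (X - C (g' ^ q)) * (X ^ q - C g'') + C (algebraMap Kb (Fb M) π') * Ψ :=
  exists_kronecker_CMod H hg hg' hg'' (coeff_mem_modelField_of_mem_CMod hg) h' h''

/-- **The twisted Kronecker congruence for `PAt g = P_g.map β`** (no hypothesis on the
coefficient field), in the shape of `BR3/VertTaylorTw`. -/
theorem exists_kronecker_PAt' (H : LevelHyp A hA hqM K' W π') {g g' g'' : Fb M}
    (hg : g ∈ CMod M W K') (hg' : g' ∈ CMod M W K') (hg'' : g'' ∈ CMod M W K')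
    (h' : redMF A hA hqM ⟨g, mem_OM_of_mem_CMod H hg⟩ =
      frobAutFullC kA M q • redMF A hA hqM ⟨g', mem_OM_of_mem_CMod H hg'⟩)
    (h'' : redMF A hA hqM ⟨g'', mem_OM_of_mem_CMod H hg''⟩ =
      frobAutFullC kA M q • redMF A hA hqM ⟨g, mem_OM_of_mem_CMod H hg⟩) :
    ∃ Ψ₁ : (Fb (M * q))[X], (∀ k, Ψ₁.coeff k ∈ CQ M q W K') ∧
      PAt M q g =
        (X ^ q - C (heckeBetaBar Kb M q g'')) * (X - C ((heckeBetaBar Kb M q g') ^ q)) +
          C (algebraMap Kb (Fb (M * q)) π') * Ψ₁ :=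
  exists_kronecker_PAt H hg hg' hg'' (coeff_mem_modelField_of_mem_CMod hg) h' h''

end Model

/-! ### The base level: the Kronecker congruence modulo `q` -/

section Base

open Fermat.Agent.Val Fermat.Agent.BR.ResGen Fermat.Agent.BR.Inst.SpecIso
  Fermat.Agent.BR.Inst.LevelsInst Fermat.Agent.Hecke Fermat.Agent.BR3.HeckePolyModel
  Fermat.Agent.BR.S0.ThickFinal

variable {M q : ℕ} [NeZero M] [hq : Fact q.Prime]
variable (B : ValuationSubring Kb) (hB : B.LiesOverPrime q) (hqM : ¬ q ∣ M)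

local notation "kB" => IsLocalRing.ResidueField B

variable [CharP (IsLocalRing.ResidueField B) q] [PerfectField (IsLocalRing.ResidueField B)]

/-- **The twisted Kronecker congruence MODULO `q`** at the unramified base level
`(K₀, W₀, q)`, `K₀ = ℚ(μ_{prime to q})`, `W₀ = B ∩ K₀` : for `g g' g''` in the level `M` model over
`W₀` with `redMF g = σ • redMF g'`, `redMF g'' = σ • redMF g`,
`PAt g = (X^q - C (β g'')) (X - C ((β g')^q)) + C q · Ψ₁` with `Ψ₁` over the level `M q` model. -/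
theorem exists_kronecker_PAt_q {g g' g'' : Fb M}
    (hg : g ∈ CMod M (W0 B q) (K0 q)) (hg' : g' ∈ CMod M (W0 B q) (K0 q))
    (hg'' : g'' ∈ CMod M (W0 B q) (K0 q))
    (h' : redMF B hB hqM ⟨g, mem_OM_of_mem_CMod (levelHyp_base B hB hqM) hg⟩ =
      frobAutFullC kB M q •
        redMF B hB hqM ⟨g', mem_OM_of_mem_CMod (levelHyp_base B hB hqM) hg'⟩)
    (h'' : redMF B hB hqM ⟨g'', mem_OM_of_mem_CMod (levelHyp_base B hB hqM) hg''⟩ =
      frobAutFullC kB M q •
        redMF B hB hqM ⟨g, mem_OM_of_mem_CMod (levelHyp_base B hB hqM) hg⟩) :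
    ∃ Ψ₁ : (Fb (M * q))[X], (∀ k, Ψ₁.coeff k ∈ CQ M q (W0 B q) (K0 q)) ∧
      PAt M q g =
        (X ^ q - C (heckeBetaBar Kb M q g'')) * (X - C ((heckeBetaBar Kb M q g') ^ q)) +
          C ((q : ℕ) : Fb (M * q)) * Ψ₁ := by
  obtain ⟨Ψ₁, hΨ, e⟩ := exists_kronecker_PAt' (levelHyp_base B hB hqM) hg hg' hg'' h' h''
  refine ⟨Ψ₁, hΨ, ?_⟩
  rw [e, map_natCast]

/-- the same over the level `M` model: `P_g = (X - C (g'^q)) (X^q - C g'') + C q · Ψ`. -/
theorem exists_kronecker_CMod_q {g g' g'' : Fb M}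
    (hg : g ∈ CMod M (W0 B q) (K0 q)) (hg' : g' ∈ CMod M (W0 B q) (K0 q))
    (hg'' : g'' ∈ CMod M (W0 B q) (K0 q))
    (h' : redMF B hB hqM ⟨g, mem_OM_of_mem_CMod (levelHyp_base B hB hqM) hg⟩ =
      frobAutFullC kB M q •
        redMF B hB hqM ⟨g', mem_OM_of_mem_CMod (levelHyp_base B hB hqM) hg'⟩)
    (h'' : redMF B hB hqM ⟨g'', mem_OM_of_mem_CMod (levelHyp_base B hB hqM) hg''⟩ =
      frobAutFullC kB M q •
        redMF B hB hqM ⟨g, mem_OM_of_mem_CMod (levelHyp_base B hB hqM) hg⟩) :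
    ∃ Ψ : (Fb M)[X], (∀ k, Ψ.coeff k ∈ CMod M (W0 B q) (K0 q)) ∧
      heckePoly M q g =
        (X - C (g' ^ q)) * (X ^ q - C g'') + C ((q : ℕ) : Fb M) * Ψ := by
  obtain ⟨Ψ, hΨ, e⟩ := exists_kronecker_CMod' (levelHyp_base B hB hqM) hg hg' hg'' h' h''
  refine ⟨Ψ, hΨ, ?_⟩
  rw [e, map_natCast]

end Base

end Fermat.Agent.BR3.HeckePolyDescent

end
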