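import Mathlib
import Fermat.Agent.BR3.ThickOneUnit
import Fermat.Agent.BR3.HeckePolyDescent
import Fermat.Agent.Hecke.FrobPlaces

/-!
# Program C (S36), node (I5-SZ): the simple zeros of the transversal pair `(v_g, u_g)` of a local
parameter, at EVERY crossing

`g` a function of the level `M` model whose reduction `g̃` is a local parameter at the point
`z₁ e` of the component `'can'` of a crossing `e` of the two-component model of `X₀(qM)` at `q`;
`g'`, `g''` its Frobenius untwist and twist (`g̃ = σ g̃'`, `g̃'' = σ g̃`).  Then the reductions of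

* `v_g = α g - (β g')^q` on `'can'` at `z₁ e`, and of
* `u_g = β g'' - (α g)^q` on `'et'` at `z₂ e`

have SIMPLE zeros: these are the two named inputs `hxord`, `hyord` of
`ThickOneUnit.isUnit_of_simple_zeros_final` (the `f`-version of thickness one), hence of the uniform
vertical component (I5-GLUE).

The point is the dictionary **`z₂ e = σ • z₁ e`** (`σ` the coefficientwise Frobenius of `F̃_M`,
acting on places through `SemilinearAut`): the two branches of a crossing are exchanged by the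
Frobenius, because `res_can (β h) = (σ⁻¹ h̃)^q` and `res_et (β h) = h̃` take the same value at the
crossing point.

## Main statements

* `place_eq_of_ord_pos` : two places containing a Dedekind model, one centre contained in the other,
  are equal;
* `ord_sub_pow_eq_one` : `ord a = 1`, `b = 0 ∨ 0 < ord b`, `2 ≤ q` ⟹ `ord (a - b^q) = 1`;
* `res₀_alpha`, `res₀_beta`, `res₁_alpha`, `res₁_beta` : the reductions of `α x`, `β x` on the two
  components, with values in `F̃_M`;
* `branch_eq_frob_smul` : `Q₂ = σ • Q₁` for every crossing model of a level;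
* `ord_vg_eq_one`, `ord_ug_eq_one` : the two simple zeros at one level;
* `exists_localParam` : a function of the model whose reduction is a local parameter at `Q₁`;
* `exists_local_param_data` : the final form at the base level of `annulusLevels_modular_final`.
-/

set_option autoImplicit false
set_option linter.unusedSectionVars false
set_option linter.style.haveILetI false
set_option synthInstance.maxHeartbeats 400000
set_option maxHeartbeats 1600000


/- S36 build-time patch: file-local shortcut instances. They only shorten instance search;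
each is the instance that the search finds anyway (reducible, same terms after unfolding). -/
noncomputable local instance (priority := 100000) Fermat.Agent.BR3.FastInst.instAlgFullC_SimpleZeros
    {k : Type*} [Field k] (N : ℕ) :
    Algebra k ↥(ModularCurve.modularFunctionFieldFullC k N) := inferInstance
noncomputable local instance (priority := 100000) Fermat.Agent.BR3.FastInst.instFieldFullC_SimpleZeros
    {k : Type*} [Field k] (N : ℕ) :
    Field ↥(ModularCurve.modularFunctionFieldFullC k N) := inferInstance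
noncomputable local instance (priority := 100000) Fermat.Agent.BR3.FastInst.instAlgLaurent_SimpleZeros
    {k : Type*} [Field k] : Algebra k (LaurentSeries k) := inferInstance

namespace Fermat.Agent.BR3.SimpleZeros

open AlgebraicCurve ModularCurve IsLocalRing Polynomial IsDedekindDomain
open Fermat.Agent.Red Fermat.Agent.Val Fermat.Agent.X0

/-! ### Generic lemmas on places -/

section Generic

variable {K F : Type*} [Field K] [Field F] [Algebra K F]

/-- `ord a = 1`, `b` zero or of positive order, `2 ≤ q`: then `ord (a - b ^ q) = 1`. -/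
theorem ord_sub_pow_eq_one (P : Place K F) {a b : F} {q : ℕ} (hq : 2 ≤ q) (ha : P.ord a = 1)
    (hb : b = 0 ∨ 0 < P.ord b) : P.ord (a - b ^ q) = 1 := by
  rcases hb with rfl | hb
  · rw [zero_pow (by omega), sub_zero]
    exact ha
  · have ha0 : a ≠ 0 := by
      rintro rfl
      rw [Place.ord_zero] at ha
      exact zero_ne_one ha
    have hb0 : b ≠ 0 := by
      rintro rfl
      rw [Place.ord_zero] at hb
      exact lt_irrefl _ hb
    have hbq0 : -(b ^ q) ≠ 0 := neg_ne_zero.mpr (pow_ne_zero q hb0)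
    have hlt : P.ord a < P.ord (-(b ^ q)) := by
      rw [Place.ord_neg, Place.ord_pow, ha]
      have h2 : (2 : ℤ) ≤ (q : ℤ) := by exact_mod_cast hq
      nlinarith
    rw [sub_eq_add_neg, Place.ord_add_eq_of_lt P ha0 hbq0 hlt]
    exact ha

variable {R : Type*} [CommRing R] [IsDedekindDomain R] [Algebra R F] [IsFractionRing R F]
  [Algebra K R] [IsScalarTower K R F]

/-- Two places whose valuation rings contain the Dedekind model `R`, such that every function of
`R` vanishing at `P'` vanishes at `P`, are equal. -/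
theorem place_eq_of_ord_pos (P P' : Place K F)
    (hP : ∀ r : R, algebraMap R F r ∈ P.toValuationSubring)
    (hP' : ∀ r : R, algebraMap R F r ∈ P'.toValuationSubring)
    (h : ∀ r : R, 0 < P'.ord (algebraMap R F r) → 0 < P.ord (algebraMap R F r)) : P = P' := by
  obtain ⟨w, rfl⟩ := Place.exists_ofHeightOneSpectrum_eq P hP
  obtain ⟨w', rfl⟩ := Place.exists_ofHeightOneSpectrum_eq P' hP'
  have hmem : ∀ (v : HeightOneSpectrum R) (r : R), r ∈ v.asIdeal ↔
      r = 0 ∨ 0 < (Place.ofHeightOneSpectrum (K := K) (F := F) v).ord (algebraMap R F r) := by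
    intro v r
    rw [← v.valuation_lt_one_iff_mem (K := F), Place.ord_ofHeightOneSpectrum]
    by_cases hr : r = 0
    · subst hr
      simp
    · have hr' : algebraMap R F r ≠ 0 := fun h0 =>
        hr ((IsFractionRing.injective R F) (by rw [h0, map_zero]))
      have hv0 : v.valuation F (algebraMap R F r) ≠ 0 := (Valuation.ne_zero_iff _).mpr hr'
      rw [or_iff_right hr]
      conv_lhs => rw [← WithZero.exp_log hv0, ← WithZero.exp_zero, WithZero.exp_lt_exp]
      omega
  have hle : w'.asIdeal ≤ w.asIdeal := by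
    intro r hr
    rcases (hmem w' r).mp hr with h0 | hpos
    · rw [h0]
      exact Ideal.zero_mem _
    · exact (hmem w r).mpr (Or.inr (h r hpos))
  have hmax : w'.asIdeal.IsMaximal := w'.isMaximal
  have heq : w'.asIdeal = w.asIdeal := hmax.eq_of_le w.isPrime.ne_top hle
  have : w' = w := HeightOneSpectrum.ext heq
  rw [this]

end Generic

/-! ### The reductions of `α x`, `β x` on the two components -/

open Fermat.Agent.BR.TwoVal Fermat.Agent.BR.ResGen Fermat.Agent.BR.TwoValInst
open Fermat.Agent.BR.ConstRedTwo Fermat.Agent.BR.S0 Fermat.Agent.BR.S0.RedModular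
open Fermat.Agent.BR.S0.PointDict Fermat.Agent.BR.Inst.SpecIso Fermat.Agent.BR.Inst.LevelsInst
open Fermat.Agent.BR.Inst.NormalModel Fermat.Agent.Hecke

section Res

variable {M q : ℕ} [NeZero M] [hq : Fact q.Prime]
variable (B : ValuationSubring Kb) (hB : B.LiesOverPrime q) (hqM : ¬ q ∣ M)
variable [CharP (IsLocalRing.ResidueField B) q] [PerfectField (IsLocalRing.ResidueField B)]

local notation "kB" => IsLocalRing.ResidueField B
local notation "FtM" => modularFunctionFieldFullC (IsLocalRing.ResidueField B) M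

theorem alpha_mem_compW_zero {x : Fb M} (hx : x ∈ OM M B hB) :
    heckeAlphaBar Kb M q x ∈ (compW B hB hqM 0).O :=
  (alpha_mem_O1_iff B hB x).2 hx

theorem beta_mem_compW_zero {x : Fb M} (hx : x ∈ OM M B hB) :
    heckeBetaBar Kb M q x ∈ (compW B hB hqM 0).O :=
  (beta_mem_O1_iff B hB x).2 hx

theorem alpha_mem_compW_one {x : Fb M} (hx : x ∈ OM M B hB) :
    heckeAlphaBar Kb M q x ∈ (compW B hB hqM 1).O :=
  (alpha_mem_O2_iff B hB hqM x).2 hx

theorem beta_mem_compW_one {x : Fb M} (hx : x ∈ OM M B hB) :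
    heckeBetaBar Kb M q x ∈ (compW B hB hqM 1).O :=
  (beta_mem_O2_iff B hB hqM x).2 hx

/-- `res_can (α x) = x̃` -/
theorem res₀_alpha {x : Fb M} (hx : x ∈ OM M B hB)
    (h : heckeAlphaBar Kb M q x ∈ (compW B hB hqM 0).O) :
    (compW B hB hqM 0).res ⟨heckeAlphaBar Kb M q x, h⟩ = redMF B hB hqM ⟨x, hx⟩ :=
  Subtype.ext (res1_alpha B hB x hx)

/-- `res_can (β x) = x̃(s^q)` -/
theorem res₀_beta {x : Fb M} (hx : x ∈ OM M B hB)
    (h : heckeBetaBar Kb M q x ∈ (compW B hB hqM 0).O) :
    (compW B hB hqM 0).res ⟨heckeBetaBar Kb M q x, h⟩ =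
      qExpandFullC kB M q (redMF B hB hqM ⟨x, hx⟩) :=
  Subtype.ext (res1_beta B hB x hx)

/-- `res_et (α x) = x̃(s^q)` -/
theorem res₁_alpha {x : Fb M} (hx : x ∈ OM M B hB)
    (h : heckeAlphaBar Kb M q x ∈ (compW B hB hqM 1).O) :
    (compW B hB hqM 1).res ⟨heckeAlphaBar Kb M q x, h⟩ =
      qExpandFullC kB M q (redMF B hB hqM ⟨x, hx⟩) :=
  Subtype.ext (res2_alpha B hB hqM x hx)

/-- `res_et (β x) = x̃` -/
theorem res₁_beta {x : Fb M} (hx : x ∈ OM M B hB)
    (h : heckeBetaBar Kb M q x ∈ (compW B hB hqM 1).O) :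
    (compW B hB hqM 1).res ⟨heckeBetaBar Kb M q x, h⟩ = redMF B hB hqM ⟨x, hx⟩ :=
  Subtype.ext (res2_beta B hB hqM x hx)

/-- the twist relation in `k((s))` -/
theorem resM_eq_coeffMap {x x' : Fb M} (hx : x ∈ OM M B hB) (hx' : x' ∈ OM M B hB)
    (h : redMF B hB hqM ⟨x, hx⟩ = frobAutFullC kB M q • redMF B hB hqM ⟨x', hx'⟩) :
    resM M B hB ⟨x, hx⟩ = coeffMap (frobenius kB q) (resM M B hB ⟨x', hx'⟩) := by
  have h1 := congrArg (fun t : FtM => (t : LaurentSeries kB)) h
  simp only [coe_redMF, coe_frobAutFullC_smul] at h1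
  exact h1

/-- `v_g = α g - (β g')^q` vanishes on `'et'` (twisted Kronecker congruence) -/
theorem vg_mem_nonunits {g g' : Fb M} (hg : g ∈ OM M B hB) (hg' : g' ∈ OM M B hB)
    (h' : redMF B hB hqM ⟨g, hg⟩ = frobAutFullC kB M q • redMF B hB hqM ⟨g', hg'⟩) :
    heckeAlphaBar Kb M q g - (heckeBetaBar Kb M q g') ^ q ∈ (compW B hB hqM 1).O.nonunits :=
  Fermat.Agent.BR.KronTwisted.kron_twisted₂ B hB hqM hg hg' (resM_eq_coeffMap B hB hqM hg hg' h')

/-- `u_g = β g'' - (α g)^q` vanishes on `'can'` (twisted Kronecker congruence) -/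
theorem ug_mem_nonunits {g g'' : Fb M} (hg : g ∈ OM M B hB) (hg'' : g'' ∈ OM M B hB)
    (h'' : redMF B hB hqM ⟨g'', hg''⟩ = frobAutFullC kB M q • redMF B hB hqM ⟨g, hg⟩) :
    heckeBetaBar Kb M q g'' - (heckeAlphaBar Kb M q g) ^ q ∈ (compW B hB hqM 0).O.nonunits :=
  Fermat.Agent.BR.KronTwisted.kron_twisted₁ B hB hg'' hg (resM_eq_coeffMap B hB hqM hg'' hg h'')

end Res

/-! ### One level: the two branches of a crossing are exchanged by the Frobenius -/

section Level

variable {M q : ℕ} [NeZero M] [hq : Fact q.Prime]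
variable {B : ValuationSubring Kb} {hB : B.LiesOverPrime q} {hqM : ¬ q ∣ M}
variable [CharP (IsLocalRing.ResidueField B) q] [PerfectField (IsLocalRing.ResidueField B)]

local notation "kB" => IsLocalRing.ResidueField B
local notation "FtM" => modularFunctionFieldFullC (IsLocalRing.ResidueField B) M

variable {K' : Subfield Kb} {W : Subring Kb} {π' : Kb}
  {Q₁ Q₂ : Place (IsLocalRing.ResidueField B)
    (modularFunctionFieldFullC (IsLocalRing.ResidueField B) M)}
  {T : Set (Place Kb (Fb (M * q)))}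

/-- the functions of the level `M` model lie in `O_M` -/
theorem mem_OM_of_mem (Hl : LevelHyp B hB hqM K' W π') {g : Fb M} (hg : g ∈ CMod M W K') :
    g ∈ OM M B hB :=
  Fermat.Agent.BR3.HeckePolyModel.mem_OM_of_mem_CMod Hl hg

/-- `α g` lies in the level `M q` model -/
theorem alpha_mem_CQ (Hl : LevelHyp B hB hqM K' W π') {g : Fb M} (hg : g ∈ CMod M W K') :
    heckeAlphaBar Kb M q g ∈ CQ M q W K' :=
  (Hl.alpha ⟨g, hg⟩).2

/-- `β g` lies in the level `M q` model -/
theorem beta_mem_CQ (Hl : LevelHyp B hB hqM K' W π') {g : Fb M} (hg : g ∈ CMod M W K') :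
    heckeBetaBar Kb M q g ∈ CQ M q W K' :=
  (Hl.beta ⟨g, hg⟩).2

set_option maxSynthPendingDepth 3 in
/-- **The two branches of a crossing are exchanged by the Frobenius**: `Q₂ = σ • Q₁`. -/
theorem branch_eq_frob_smul (Hl : LevelHyp B hB hqM K' W π')
    (Mo : CrossingModel B (residue B) (compW B hB hqM 0).O (compW B hB hqM 1).O
      (compW B hB hqM 0).res (compW B hB hqM 1).res Q₁ Q₂ T (CQ M q W K') π') :
    Q₂ = frobAutFullC kB M q • Q₁ := by
  haveI := isDedekindDomain_Ck B hB hqM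
  haveI := Fermat.Agent.BR.S0.ThickInst.isFractionRing_Ck B hB hqM
  haveI := Fermat.Agent.BR.S0.ThickInst.isScalarTower_Ck M B
  -- every function of `Ck` is `redMF h`, `h` in the model
  have key : ∀ t : ↥(Ck M B), ∃ (h : Fb M) (hh : h ∈ CMod M W K'),
      algebraMap ↥(Ck M B) FtM t = redMF B hB hqM ⟨h, mem_OM_of_mem Hl hh⟩ := by
    intro t
    obtain ⟨h, rfl⟩ := Hl.redM_surjective t
    exact ⟨(h : Fb M), h.2, rfl⟩
  refine place_eq_of_ord_pos (R := ↥(Ck M B)) Q₂ (frobAutFullC kB M q • Q₁) ?_ ?_ ?_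
  · intro t
    obtain ⟨h, hh, e⟩ := key t
    rw [e, Fermat.Agent.X0.Place.mem_iff_adicValuation_le_one]
    have h1 := Mo.regular₂ ⟨_, beta_mem_CQ Hl hh⟩
    rwa [res₁_beta B hB hqM (mem_OM_of_mem Hl hh)] at h1
  · intro t
    obtain ⟨h, hh, e⟩ := key t
    rw [e, SemilinearAut.smul_toValuationSubring,
      ValuationSubring.mem_pointwise_smul_iff_inv_smul_mem,
      Fermat.Agent.X0.Place.mem_iff_adicValuation_le_one]
    have h1 := Mo.regular₁ ⟨_, beta_mem_CQ Hl hh⟩
    rw [res₀_beta B hB hqM (mem_OM_of_mem Hl hh), qExpandFullC_eq, map_pow] at h1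
    exact (pow_le_one_iff_of_nonneg zero_le (Nat.Prime.ne_zero hq.out)).mp h1
  · intro t hpos
    obtain ⟨h, hh, e⟩ := key t
    rw [e] at hpos ⊢
    have h1 := ord_qExpandFullC kB M q Q₁ (redMF B hB hqM ⟨h, mem_OM_of_mem Hl hh⟩)
    have hq0 : (0 : ℤ) < (q : ℤ) := by exact_mod_cast hq.out.pos
    have h2 : 0 < Q₁.ord (qExpandFullC kB M q (redMF B hB hqM ⟨h, mem_OM_of_mem Hl hh⟩)) := by
      rw [h1]
      exact mul_pos hq0 hpos
    have h3 : Q₁.adicValuation ((compW B hB hqM 0).res
        ⟨heckeBetaBar Kb M q h, Mo.le₁ _ (beta_mem_CQ Hl hh)⟩) < 1 := by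
      rw [res₀_beta B hB hqM (mem_OM_of_mem Hl hh), adicValuation_lt_one_iff]
      exact Or.inr h2
    have h4 := (Mo.same_point ⟨_, beta_mem_CQ Hl hh⟩).mp h3
    rw [res₁_beta B hB hqM (mem_OM_of_mem Hl hh), adicValuation_lt_one_iff] at h4
    rcases h4 with h0 | h4
    · rw [h0, Place.ord_zero] at hpos
      exact absurd hpos (lt_irrefl _)
    · exact h4

/-- the functions of `Ck` are regular at the first branch of a crossing -/
theorem redMF_mem_branch₁ (Hl : LevelHyp B hB hqM K' W π')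
    (Mo : CrossingModel B (residue B) (compW B hB hqM 0).O (compW B hB hqM 1).O
      (compW B hB hqM 0).res (compW B hB hqM 1).res Q₁ Q₂ T (CQ M q W K') π')
    {h : Fb M} (hh : h ∈ CMod M W K') :
    Q₁.adicValuation (redMF B hB hqM ⟨h, mem_OM_of_mem Hl hh⟩) ≤ 1 := by
  have h1 := Mo.regular₁ ⟨_, alpha_mem_CQ Hl hh⟩
  rwa [res₀_alpha B hB hqM (mem_OM_of_mem Hl hh)] at h1

/-- a function of the model whose reduction vanishes at `Q₁`: `α g` vanishes at `Q₂` on `'et'` -/
theorem adicValuation_res₁_alpha_lt_one (Hl : LevelHyp B hB hqM K' W π')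
    (Mo : CrossingModel B (residue B) (compW B hB hqM 0).O (compW B hB hqM 1).O
      (compW B hB hqM 0).res (compW B hB hqM 1).res Q₁ Q₂ T (CQ M q W K') π')
    {g : Fb M} (hg : g ∈ CMod M W K')
    (hord : 0 < Q₁.ord (redMF B hB hqM ⟨g, mem_OM_of_mem Hl hg⟩)) :
    Q₂.adicValuation (qExpandFullC kB M q (redMF B hB hqM ⟨g, mem_OM_of_mem Hl hg⟩)) < 1 := by
  have h3 : Q₁.adicValuation ((compW B hB hqM 0).res
      ⟨heckeAlphaBar Kb M q g, Mo.le₁ _ (alpha_mem_CQ Hl hg)⟩) < 1 := by
    rw [res₀_alpha B hB hqM (mem_OM_of_mem Hl hg), adicValuation_lt_one_iff]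
    exact Or.inr hord
  have h4 := (Mo.same_point ⟨_, alpha_mem_CQ Hl hg⟩).mp h3
  rwa [res₁_alpha B hB hqM (mem_OM_of_mem Hl hg)] at h4

/-- **The simple zero of `v_g = α g - (β g')^q` on `'can'`** at the first branch `Q₁` of a
crossing, for `g̃ = σ g̃'` a local parameter at `Q₁`. -/
theorem ord_vg_eq_one (Hl : LevelHyp B hB hqM K' W π')
    (Mo : CrossingModel B (residue B) (compW B hB hqM 0).O (compW B hB hqM 1).O
      (compW B hB hqM 0).res (compW B hB hqM 1).res Q₁ Q₂ T (CQ M q W K') π')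
    {g g' : Fb M} (hg : g ∈ CMod M W K') (hg' : g' ∈ CMod M W K')
    (h' : redMF B hB hqM ⟨g, mem_OM_of_mem Hl hg⟩ =
      frobAutFullC kB M q • redMF B hB hqM ⟨g', mem_OM_of_mem Hl hg'⟩)
    (hord : Q₁.ord (redMF B hB hqM ⟨g, mem_OM_of_mem Hl hg⟩) = 1)
    (hxO : heckeAlphaBar Kb M q g - (heckeBetaBar Kb M q g') ^ q ∈ (compW B hB hqM 0).O) :
    Q₁.ord ((compW B hB hqM 0).res
      ⟨heckeAlphaBar Kb M q g - (heckeBetaBar Kb M q g') ^ q, hxO⟩) = 1 := by
  have hgO := mem_OM_of_mem Hl hg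
  have hgO' := mem_OM_of_mem Hl hg'
  have hα := alpha_mem_compW_zero B hB hqM hgO
  have hβ := beta_mem_compW_zero B hB hqM hgO'
  have e : (⟨heckeAlphaBar Kb M q g - (heckeBetaBar Kb M q g') ^ q, hxO⟩ :
      (compW B hB hqM 0).O) = ⟨heckeAlphaBar Kb M q g, hα⟩ - ⟨heckeBetaBar Kb M q g', hβ⟩ ^ q :=
    rfl
  rw [e, map_sub, map_pow, res₀_alpha B hB hqM hgO, res₀_beta B hB hqM hgO']
  refine ord_sub_pow_eq_one Q₁ hq.out.two_le hord ?_
  rw [← adicValuation_lt_one_iff]
  -- `(g̃')^q = res_et (α g)` vanishes at `Q₂`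
  have h1 := adicValuation_res₁_alpha_lt_one Hl Mo hg (by rw [hord]; exact one_pos)
  have h2 : qExpandFullC kB M q (redMF B hB hqM ⟨g, hgO⟩) = redMF B hB hqM ⟨g', hgO'⟩ ^ q := by
    rw [qExpandFullC_eq, h', inv_smul_smul]
  rw [h2, map_pow] at h1
  have h3 : Q₂.adicValuation (redMF B hB hqM ⟨g', hgO'⟩) < 1 := by
    by_contra hcon
    exact absurd h1 (not_lt.mpr (one_le_pow_of_one_le' (not_lt.mp hcon) q))
  have h4 : Q₂.adicValuation ((compW B hB hqM 1).res
      ⟨heckeBetaBar Kb M q g', Mo.le₂ _ (beta_mem_CQ Hl hg')⟩) < 1 := by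
    rwa [res₁_beta B hB hqM hgO']
  have h5 := (Mo.same_point ⟨_, beta_mem_CQ Hl hg'⟩).mpr h4
  rwa [res₀_beta B hB hqM hgO'] at h5

/-- **The simple zero of `u_g = β g'' - (α g)^q` on `'et'`** at the second branch `Q₂ = σ • Q₁` of
a crossing, for `g̃'' = σ g̃`, `g̃` a local parameter at `Q₁`. -/
theorem ord_ug_eq_one (Hl : LevelHyp B hB hqM K' W π')
    (Mo : CrossingModel B (residue B) (compW B hB hqM 0).O (compW B hB hqM 1).O
      (compW B hB hqM 0).res (compW B hB hqM 1).res Q₁ Q₂ T (CQ M q W K') π')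
    {g g'' : Fb M} (hg : g ∈ CMod M W K') (hg'' : g'' ∈ CMod M W K')
    (h'' : redMF B hB hqM ⟨g'', mem_OM_of_mem Hl hg''⟩ =
      frobAutFullC kB M q • redMF B hB hqM ⟨g, mem_OM_of_mem Hl hg⟩)
    (hord : Q₁.ord (redMF B hB hqM ⟨g, mem_OM_of_mem Hl hg⟩) = 1)
    (hyO : heckeBetaBar Kb M q g'' - (heckeAlphaBar Kb M q g) ^ q ∈ (compW B hB hqM 1).O) :
    Q₂.ord ((compW B hB hqM 1).res
      ⟨heckeBetaBar Kb M q g'' - (heckeAlphaBar Kb M q g) ^ q, hyO⟩) = 1 := by
  have hgO := mem_OM_of_mem Hl hg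
  have hgO'' := mem_OM_of_mem Hl hg''
  have hα := alpha_mem_compW_one B hB hqM hgO
  have hβ := beta_mem_compW_one B hB hqM hgO''
  have e : (⟨heckeBetaBar Kb M q g'' - (heckeAlphaBar Kb M q g) ^ q, hyO⟩ :
      (compW B hB hqM 1).O) = ⟨heckeBetaBar Kb M q g'', hβ⟩ - ⟨heckeAlphaBar Kb M q g, hα⟩ ^ q :=
    rfl
  rw [e, map_sub, map_pow, res₁_beta B hB hqM hgO'', res₁_alpha B hB hqM hgO]
  refine ord_sub_pow_eq_one Q₂ hq.out.two_le ?_ ?_
  · rw [h'', branch_eq_frob_smul Hl Mo, SemilinearAut.ord_smul]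
    exact hord
  · rw [← adicValuation_lt_one_iff]
    exact adicValuation_res₁_alpha_lt_one Hl Mo hg (by rw [hord]; exact one_pos)

set_option maxSynthPendingDepth 3 in
/-- **A function of the model whose reduction is a local parameter at the first branch.** -/
theorem exists_localParam (Hl : LevelHyp B hB hqM K' W π')
    (Mo : CrossingModel B (residue B) (compW B hB hqM 0).O (compW B hB hqM 1).O
      (compW B hB hqM 0).res (compW B hB hqM 1).res Q₁ Q₂ T (CQ M q W K') π') :
    ∃ (g : Fb M) (hg : g ∈ CMod M W K'),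
      Q₁.ord (redMF B hB hqM ⟨g, mem_OM_of_mem Hl hg⟩) = 1 := by
  haveI := isDedekindDomain_Ck B hB hqM
  haveI := Fermat.Agent.BR.S0.ThickInst.isFractionRing_Ck B hB hqM
  haveI := Fermat.Agent.BR.S0.ThickInst.isScalarTower_Ck M B
  have hreg : ∀ t : ↥(Ck M B), algebraMap ↥(Ck M B) FtM t ∈ Q₁.toValuationSubring := by
    intro t
    obtain ⟨h, rfl⟩ := Hl.redM_surjective t
    rw [Fermat.Agent.X0.Place.mem_iff_adicValuation_le_one]
    exact redMF_mem_branch₁ Hl Mo h.2
  obtain ⟨w, hw⟩ := Place.exists_ofHeightOneSpectrum_eq (K := kB) (F := FtM) Q₁ hreg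
  obtain ⟨t, ht⟩ := w.intValuation_exists_uniformizer
  obtain ⟨h, rfl⟩ := Hl.redM_surjective t
  refine ⟨(h : Fb M), h.2, ?_⟩
  have e : redMF B hB hqM ⟨(h : Fb M), mem_OM_of_mem Hl h.2⟩ =
      algebraMap ↥(Ck M B) FtM (Hl.redM h) := rfl
  rw [e, ← hw, Place.ord_ofHeightOneSpectrum, HeightOneSpectrum.valuation_of_algebraMap, ht,
    WithZero.log_exp, neg_neg]

/-- a function whose reduction has a zero is not a constant -/
theorem not_mem_range_of_ord_pos (Q : Place kB FtM) {g : Fb M} (hg : g ∈ OM M B hB)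
    (hord : 0 < Q.ord (redMF B hB hqM ⟨g, hg⟩)) : g ∉ Set.range (algebraMap Kb (Fb M)) := by
  rintro ⟨c, rfl⟩
  have hc : c ∈ B := ((constRedBar M hqM B hB).algebraMap_mem_iff c).mp hg
  have h1 : redMF B hB hqM ⟨algebraMap Kb (Fb M) c, hg⟩ =
      algebraMap kB FtM (residue B ⟨c, hc⟩) := (constRedBar M hqM B hB).res_algebraMap c hc hg
  rw [h1, Place.ord_algebraMap] at hord
  exact lt_irrefl _ hord

end Level

/-! ### The base level of `annulusLevels_modular_final` -/

section Final

open Fermat.Agent.BR.Inst.Levels Fermat.Agent.BR.S0.ThickFinal Fermat.Agent.BR.UnramCyclo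
open Fermat.Agent.BR.S0.CrossingFamilyAssembly Fermat.Agent.BR3.ThickOneUnit
open Fermat.Agent.BR.UnramCycloTower Fermat.Agent.BR3.HeckePolyModel
open Fermat.Agent.BR.S0.RedHyp Fermat.Agent.BR.S0.Modular

variable {M q : ℕ} [NeZero M] [hq : Fact q.Prime]
variable (B : ValuationSubring Kb) (hB : B.LiesOverPrime q) (hqM : ¬ q ∣ M)

local notation "kB" => IsLocalRing.ResidueField B
local notation "FtM" => modularFunctionFieldFullC (IsLocalRing.ResidueField B) M

/-- the coefficient field of the level `S = ∅` of the tower is the base field `K₀` -/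
theorem KS_empty_eq : KS q (∅ : Finset Kb) = K0 q := by
  unfold KS K0
  rw [coeffField_empty_eq]

/-- the coefficient ring of the level `S = ∅` of the tower is the base ring `W₀` -/
theorem WS_empty_eq : WS B q (∅ : Finset Kb) = W0 B q := by
  unfold WS W0
  rw [KS_empty_eq]

/-- the level `M` model of the level `S = ∅` of the tower is the base model -/
theorem CMod_empty_eq : CMod M (WS B q (∅ : Finset Kb)) (KS q (∅ : Finset Kb)) =
    CMod M (W0 B q) (K0 q) := by
  rw [WS_empty_eq, KS_empty_eq]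

/-- the level `M q` model of the level `S = ∅` of the tower is the base model -/
theorem CQ_empty_eq : CQ M q (WS B q (∅ : Finset Kb)) (KS q (∅ : Finset Kb)) =
    CQ M q (W0 B q) (K0 q) := by
  rw [WS_empty_eq, KS_empty_eq]

variable [IsAlgClosed (IsLocalRing.ResidueField B)] [CharP (IsLocalRing.ResidueField B) q]

/-- The crossing model of the base level of the tower at the crossing `e`. -/
theorem crossingModel_base (e : Crossing (chartDataModular B hB hqM)) :
    CrossingModel B (residue B) (compW B hB hqM 0).O (compW B hB hqM 1).O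
      (compW B hB hqM 0).res (compW B hB hqM 1).res (z₁ (chartDataModular B hB hqM) e)
      (z₂ (chartDataModular B hB hqM) e)
      {P | (atlasHyp_modular B hB hqM
        (Fermat.Agent.BR.S0.GeomFinal.geomInputs_modular_final B hB hqM)).r P =
          ⟨0, z₁ (chartDataModular B hB hqM) e⟩}
      (CQ M q (WS B q (∅ : Finset Kb)) (KS q (∅ : Finset Kb))) (unif B hq.out hB ∅) :=
  (crossingFamily_final B hB hqM ⟨e⟩ e).model ∅

/-- **The two branches of a crossing of `X₀(qM)` are exchanged by the Frobenius.** -/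
theorem z₂_eq_frob_smul_z₁ (e : Crossing (chartDataModular B hB hqM)) :
    z₂ (chartDataModular B hB hqM) e =
      frobAutFullC kB M q • z₁ (chartDataModular B hB hqM) e :=
  branch_eq_frob_smul (levelHyp_tower B hB hqM ∅) (crossingModel_base B hB hqM e)

set_option maxHeartbeats 4000000 in
/-- **(I5-SZ)** At EVERY crossing `e` of the two-component model of `X₀(qM)` at `q` there are
functions `g`, `g'`, `g''` of the base model of level `M` (`g̃ = σ g̃'`, `g̃'' = σ g̃`, `g` not a
constant, `g̃` a local parameter at `z₁ e`) such that the reductions of `v_g = α g - (β g')^q` on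
`'can'` and of `u_g = β g'' - (α g)^q` on `'et'` have SIMPLE zeros at the branches `z₁ e`, `z₂ e`:
the hypotheses `hxord`, `hyord` of `ThickOneUnit.isUnit_of_simple_zeros_final`. -/
theorem exists_local_param_data (e : Crossing (chartDataModular B hB hqM)) :
    ∃ (g g' g'' : Fb M) (hg : g ∈ CMod M (W0 B q) (K0 q)) (hg' : g' ∈ CMod M (W0 B q) (K0 q))
      (hg'' : g'' ∈ CMod M (W0 B q) (K0 q)),
      redMF B hB hqM ⟨g, mem_OM_of_mem_CMod (levelHyp_base B hB hqM) hg⟩ =
        frobAutFullC kB M q •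
          redMF B hB hqM ⟨g', mem_OM_of_mem_CMod (levelHyp_base B hB hqM) hg'⟩ ∧
      redMF B hB hqM ⟨g'', mem_OM_of_mem_CMod (levelHyp_base B hB hqM) hg''⟩ =
        frobAutFullC kB M q •
          redMF B hB hqM ⟨g, mem_OM_of_mem_CMod (levelHyp_base B hB hqM) hg⟩ ∧
      g ∉ Set.range (algebraMap Kb (Fb M)) ∧
      (z₁ (chartDataModular B hB hqM) e).ord
        (redMF B hB hqM ⟨g, mem_OM_of_mem_CMod (levelHyp_base B hB hqM) hg⟩) = 1 ∧
      ∃ (hxO : heckeAlphaBar Kb M q g - (heckeBetaBar Kb M q g') ^ q ∈ (compW B hB hqM 0).O)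
        (hyO : heckeBetaBar Kb M q g'' - (heckeAlphaBar Kb M q g) ^ q ∈ (compW B hB hqM 1).O),
        (z₁ (chartDataModular B hB hqM) e).ord ((compW B hB hqM 0).res
          ⟨heckeAlphaBar Kb M q g - (heckeBetaBar Kb M q g') ^ q, hxO⟩) = 1 ∧
        (z₂ (chartDataModular B hB hqM) e).ord ((compW B hB hqM 1).res
          ⟨heckeBetaBar Kb M q g'' - (heckeAlphaBar Kb M q g) ^ q, hyO⟩) = 1 := by
  have Hl := levelHyp_tower B hB hqM (∅ : Finset Kb)
  have Mo := crossingModel_base B hB hqM e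
  obtain ⟨g, hgS, hord⟩ := exists_localParam Hl Mo
  have hg : g ∈ CMod M (W0 B q) (K0 q) := by
    rw [← CMod_empty_eq]
    exact hgS
  obtain ⟨g', hg', h'⟩ := exists_untwist_CMod (levelHyp_base B hB hqM) hg
  obtain ⟨g'', hg'', h''⟩ := exists_twist_CMod (levelHyp_base B hB hqM) hg
  have hgS' : g' ∈ CMod M (WS B q (∅ : Finset Kb)) (KS q (∅ : Finset Kb)) := by
    rw [CMod_empty_eq]
    exact hg'
  have hgS'' : g'' ∈ CMod M (WS B q (∅ : Finset Kb)) (KS q (∅ : Finset Kb)) := by
    rw [CMod_empty_eq]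
    exact hg''
  have hgO := mem_OM_of_mem Hl hgS
  have hgO' := mem_OM_of_mem Hl hgS'
  have hgO'' := mem_OM_of_mem Hl hgS''
  have hxO : heckeAlphaBar Kb M q g - (heckeBetaBar Kb M q g') ^ q ∈ (compW B hB hqM 0).O :=
    sub_mem (alpha_mem_compW_zero B hB hqM hgO) (pow_mem (beta_mem_compW_zero B hB hqM hgO') q)
  have hyO : heckeBetaBar Kb M q g'' - (heckeAlphaBar Kb M q g) ^ q ∈ (compW B hB hqM 1).O :=
    sub_mem (beta_mem_compW_one B hB hqM hgO'') (pow_mem (alpha_mem_compW_one B hB hqM hgO) q)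
  refine ⟨g, g', g'', hg, hg', hg'', h', h'', ?_, hord, hxO, hyO, ?_, ?_⟩
  · exact not_mem_range_of_ord_pos (z₁ (chartDataModular B hB hqM) e) hgO
      (by rw [hord]; exact one_pos)
  · exact ord_vg_eq_one Hl Mo hgS hgS' h' hord hxO
  · exact ord_ug_eq_one Hl Mo hgS hgS'' h'' hord hyO

end Final

end Fermat.Agent.BR3.SimpleZeros
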