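import Mathlib
import Fermat.Agent.BR3.SimpleZeros
import Fermat.Agent.BR3.SSParam

/-!
# Program C (S36), node (I5-SZ): THE PRODUCER of `SSParam.IsSSParam` at every crossing

`exists_isSSParam B hB hqM e : ∃ g g' g'', IsSSParam B hB hqM e g g' g''` for EVERY crossing `e` of
main's two-component model of `X₀(qM)` at `q`, with no hypothesis: `g̃` a local parameter at `z₁ e`
(`SimpleZeros.exists_localParam`), `g'`, `g''` its Frobenius untwist and twist, and the simple zeros
from the dictionary `z₂ e = σ • z₁ e` (`SimpleZeros.z₂_eq_frob_smul_z₁`).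

Also `exists_isSSParam_ord` : the same with the extra information `ord_{z₁ e} g̃ = 1` and
`ord_{z₂ e} g̃'' = 1`.
-/

set_option autoImplicit false
set_option linter.unusedSectionVars false
set_option linter.style.haveILetI false
set_option synthInstance.maxHeartbeats 400000
set_option maxHeartbeats 1600000

namespace Fermat.Agent.BR3.SSParamAll

open AlgebraicCurve ModularCurve IsLocalRing
open Fermat.Agent.X0 Fermat.Agent.Val Fermat.Agent.Hecke
open Fermat.Agent.BR.S0.RedModular Fermat.Agent.BR.S0.PointDict Fermat.Agent.BR.S0.ThickFinal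
open Fermat.Agent.BR.Inst.LevelsInst Fermat.Agent.BR.Inst.SpecIso Fermat.Agent.BR.ResGen
open Fermat.Agent.BR.TwoVal Fermat.Agent.BR3.SSParam Fermat.Agent.BR3.SimpleZeros

variable {M q : ℕ} [NeZero M] [hq : Fact q.Prime]
variable (B : ValuationSubring Kb) (hB : B.LiesOverPrime q) (hqM : ¬ q ∣ M)
variable [IsAlgClosed (IsLocalRing.ResidueField B)] [CharP (IsLocalRing.ResidueField B) q]

local notation "kB" => IsLocalRing.ResidueField B

set_option maxHeartbeats 4000000 in
/-- **(I5-SZ), the producer**: at EVERY crossing there is a twisted triple with simple zeros. -/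
theorem exists_isSSParam (e : Crossing (chartDataModular B hB hqM)) :
    ∃ g g' g'' : Fb M, IsSSParam B hB hqM e g g' g'' := by
  obtain ⟨g, g', g'', hg, hg', hg'', h', h'', hgc, -, hxO, hyO, hx, hy⟩ :=
    exists_local_param_data B hB hqM e
  exact ⟨g, g', g'', ⟨hg, hg', hg'', h', h'', hgc, fun _ => hx, fun _ => hy⟩⟩

set_option maxHeartbeats 4000000 in
/-- The same, with the orders of `g̃` at `z₁ e` and of `g̃''` at `z₂ e`. -/
theorem exists_isSSParam_ord (e : Crossing (chartDataModular B hB hqM)) :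
    ∃ (g g' g'' : Fb M) (H : IsSSParam B hB hqM e g g' g''),
      (z₁ (chartDataModular B hB hqM) e).ord
        (redMF B hB hqM ⟨g, mem_OM_of_mem_CMod_base B hB hqM H.hg⟩) = 1 ∧
      (z₂ (chartDataModular B hB hqM) e).ord
        (redMF B hB hqM ⟨g'', mem_OM_of_mem_CMod_base B hB hqM H.hg''⟩) = 1 := by
  obtain ⟨g, g', g'', hg, hg', hg'', h', h'', hgc, hord, hxO, hyO, hx, hy⟩ :=
    exists_local_param_data B hB hqM e
  refine ⟨g, g', g'', ⟨hg, hg', hg'', h', h'', hgc, fun _ => hx, fun _ => hy⟩, hord, ?_⟩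
  rw [z₂_eq_frob_smul_z₁ B hB hqM e]
  have e2 : redMF B hB hqM ⟨g'', mem_OM_of_mem_CMod_base B hB hqM hg''⟩ =
      frobAutFullC kB M q • redMF B hB hqM ⟨g, mem_OM_of_mem_CMod_base B hB hqM hg⟩ := h''
  rw [e2, SemilinearAut.ord_smul]
  exact hord

end Fermat.Agent.BR3.SSParamAll
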