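import Fermat.Agent.BR3.HeckePolyKron
import Fermat.Agent.BR.Inst.LevelsInst

/-!
# Program C (S36), node (I5-KRON), file 3: the Hecke polynomial over the normal model

One level of the tower: `H : LevelHyp A hA hqM K' W π'` (`W = A ∩ K'`, uniformizer `π'`),
`CMod M W K' ⊂ Fb M` the normal model of level `M`, `CQ M q W K' ⊂ Fb (M q)` of level `M q`.

* `saturated_CMod`, `mem_nonunits_OM_iff_CMod` : **the special fibre of the level `M` model is
  reduced and irreducible**: `CMod ∩ 𝔪(OM) = π' · CMod`;  `piM`, `ker_redM : ker res_M = (π')`,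
  `quotPiM : C_M ⧸ (π') ≃+* C_k`, `isDedekindDomain_quot_piM`;
* `exists_consts_W`, `isIntegral_eval_heckePoly`, `coeff_heckePoly_mem_CMod` : for `g ∈ CMod` with
  the coefficients of `P_g` in `K'·F_M` (`exists_level_coeff_mem` : true at every large enough
  level of the tower), `P_g ∈ CMod[X]`;
* `exists_untwist_CMod`, `exists_twist_CMod` : Frobenius untwists `g'` and twists `g''` of
  `g ∈ CMod` exist in `CMod`;
* `exists_kronecker_CMod` : **the twisted Kronecker congruence over the model**: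
  `P_g = (X - C (g'^q)) (X^q - C g'') + C π' · Ψ`, `Ψ ∈ CMod[X]`;
* `exists_kronecker_PAt` : the same for `PAt g = P_g.map β ∈ F₁[X]` in the shape of
  `BR3/VertTaylorTw` : `PAt g = (X^q - C x₂)(X - C (x₁^q)) + C π' · Ψ₁`, `x₁ = β g'`, `x₂ = β g''`,
  `Ψ₁ ∈ CQ[X]`;
* `CMod_mono`, `exists_kronecker_tower` : the tower form: for `g ∈ CMod_{S₀}`, at every large
  enough level `S` of the tower, `g' g'' ∈ CMod_S` and `Ψ₁ ∈ CQ_S[X]` exist.
-/

set_option autoImplicit false
set_option linter.style.haveILetI false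
set_option linter.unusedSectionVars false

noncomputable section

/- S36 build-time patch: file-local shortcut instances. They only shorten instance search;
each is the instance that the search finds anyway (reducible, same terms after unfolding). -/
local instance (priority := 100000) Fermat.Agent.BR3.FastInst.instAlgFullC_HeckePolyModel
    {k : Type*} [Field k] (N : ℕ) :
    Algebra k ↥(ModularCurve.modularFunctionFieldFullC k N) := inferInstance
local instance (priority := 100000) Fermat.Agent.BR3.FastInst.instFieldFullC_HeckePolyModel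
    {k : Type*} [Field k] (N : ℕ) :
    Field ↥(ModularCurve.modularFunctionFieldFullC k N) := inferInstance
local instance (priority := 100000) Fermat.Agent.BR3.FastInst.instAlgLaurent_HeckePolyModel
    {k : Type*} [Field k] : Algebra k (LaurentSeries k) := inferInstance


set_option synthInstance.maxHeartbeats 400000

namespace Fermat.Agent.BR3.HeckePolyModel

open ModularCurve ModularCurve.IgusaScheme AlgebraicCurve Polynomial Fermat.Agent.X0
  Fermat.Agent.Val Fermat.Agent.BR.TwoVal Fermat.Agent.BR.ResGen Fermat.Agent.BR.TwoValInst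
  Fermat.Agent.Good.Bridge Fermat.Agent.BR.Inst.NormalGen Fermat.Agent.BR.Inst.NormalModel
  Fermat.Agent.BR.Inst.ChartInModel Fermat.Agent.BR.Inst.DegenModel
  Fermat.Agent.BR.Inst.TwoCompInst Fermat.Agent.BR.Inst.SpecIso Fermat.Agent.BR.Inst.LevelsInst
  Fermat.Agent.Hecke Fermat.Agent.Jac Fermat.Agent.BR3.HeckePoly Fermat.Agent.BR3.HeckePolyKron

/-! ### Generic: integrality along a ring homomorphism, Lagrange over a subring -/

section Generic

variable {Ω₁ Ω₂ : Type*} [CommRing Ω₁] [CommRing Ω₂] (φ : Ω₁ →+* Ω₂)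

/-- integrality over `R₂ ⊆ φ R₁` is integrality along `φ ∘ R₁.subtype` -/
theorem isIntegralElem_comp_of_isIntegral [Nontrivial Ω₂] (R₁ : Subring Ω₁) (R₂ : Subring Ω₂)
    (h : ∀ r ∈ R₂, ∃ r' ∈ R₁, φ r' = r) {x : Ω₂} (hx : IsIntegral ↥R₂ x) :
    (φ.comp R₁.subtype).IsIntegralElem x := by
  obtain ⟨p, hp, hpx⟩ := hx
  have hl : p.map R₂.subtype ∈ Polynomial.lifts (φ.comp R₁.subtype) := by
    rw [Polynomial.lifts_iff_coeff_lifts]
    intro n
    rw [Polynomial.coeff_map]
    obtain ⟨r', hr', e⟩ := h _ (p.coeff n).2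
    exact ⟨⟨r', hr'⟩, e⟩
  obtain ⟨p', hp', -, hmon⟩ := Polynomial.lifts_and_natDegree_eq_and_monic hl (hp.map _)
  refine ⟨p', hmon, ?_⟩
  rw [← Polynomial.eval_map, hp', Polynomial.eval_map]
  exact hpx

/-- integrality along `φ ∘ R₁.subtype` of `φ y`, `φ` injective, is integrality of `y` over `R₁` -/
theorem isIntegral_of_isIntegralElem_comp (hφ : Function.Injective φ) (R₁ : Subring Ω₁) {y : Ω₁}
    (hy : (φ.comp R₁.subtype).IsIntegralElem (φ y)) : IsIntegral ↥R₁ y := by
  obtain ⟨p, hp, hpy⟩ := hy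
  refine ⟨p, hp, hφ ?_⟩
  rw [map_zero, Polynomial.hom_eval₂]
  exact hpy

/-- A polynomial of degree `≤ n` whose values at `n + 1` nodes `v i ∈ S` with differences
invertible in the subring `S` lie in `S` has its coefficients in `S`. -/
theorem coeff_mem_of_eval_mem {F : Type*} [Field F] (S : Subring F) {P : F[X]} (n : ℕ)
    (hdeg : P.natDegree ≤ n) (v : ℕ → F) (hv : ∀ i, v i ∈ S)
    (hinv : ∀ i j, i ≠ j → (v i - v j)⁻¹ ∈ S) (hne : ∀ i j, i ≠ j → v i ≠ v j)
    (hP : ∀ i, P.eval (v i) ∈ S) (k : ℕ) : P.coeff k ∈ S := by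
  have hvs : Set.InjOn v (Finset.range (n + 1) : Set ℕ) := by
    intro i _ j _ hij
    by_contra hne'
    exact hne i j hne' hij
  have hlt : P.degree < (Finset.range (n + 1)).card := by
    rw [Finset.card_range]
    exact lt_of_le_of_lt degree_le_natDegree (by exact_mod_cast Nat.lt_succ_of_le hdeg)
  have hmem : P ∈ lifts S.subtype := by
    rw [Lagrange.eq_interpolate hvs hlt, lifts_iff_liftsRing, Lagrange.interpolate_apply]
    have hC : ∀ a ∈ S, (C a : F[X]) ∈ liftsRing S.subtype := fun a ha => by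
      rw [← lifts_iff_liftsRing]
      exact C'_mem_lifts ⟨⟨a, ha⟩, rfl⟩
    have hX : (X : F[X]) ∈ liftsRing S.subtype := by
      rw [← lifts_iff_liftsRing]
      exact X_mem_lifts _
    refine Subring.sum_mem _ fun i _ => Subring.mul_mem _ (hC _ (hP i)) ?_
    unfold Lagrange.basis
    refine Subring.prod_mem _ fun j hj => ?_
    unfold Lagrange.basisDivisor
    exact Subring.mul_mem _ (hC _ (hinv i j (Finset.ne_of_mem_erase hj).symm))
      (Subring.sub_mem _ hX (hC _ (hv j)))
  obtain ⟨y, hy⟩ := (lifts_iff_coeff_lifts _).1 hmem k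
  rw [← hy]
  exact y.2

end Generic

/-! ### `α` and the base rings `W[j]` -/

section Base

variable (M q : ℕ) [NeZero M] [hq : Fact q.Prime] (W : Subring Kb)

/-- `α` maps `W[j] ⊂ Fb M` onto `W[j] ⊂ Fb (M q)`. -/
theorem exists_alpha_eq_of_mem_modelBase {r : Fb (M * q)} (hr : r ∈ modelBase (M * q) W) :
    ∃ r' ∈ modelBase M W, heckeAlphaBar Kb M q r' = r := by
  change r ∈ Subring.closure _ at hr
  induction hr using Subring.closure_induction with
  | mem x hx =>
    rcases hx with ⟨a, ha, rfl⟩ | hx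
    · exact ⟨algebraMap Kb (Fb M) a, const_mem_modelBase M W ha, AlgHom.commutes _ a⟩
    · rw [Set.mem_singleton_iff] at hx
      subst hx
      exact ⟨jBar M, jBar_mem_modelBase M W, alpha_jBar M q⟩
  | zero => exact ⟨0, zero_mem _, map_zero _⟩
  | one => exact ⟨1, one_mem _, map_one _⟩
  | add x y _ _ hx hy =>
    obtain ⟨x', hx', rfl⟩ := hx
    obtain ⟨y', hy', rfl⟩ := hy
    exact ⟨x' + y', add_mem hx' hy', map_add _ _ _⟩
  | neg x _ hx =>
    obtain ⟨x', hx', rfl⟩ := hx
    exact ⟨-x', neg_mem hx', map_neg _ _⟩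
  | mul x y _ _ hx hy =>
    obtain ⟨x', hx', rfl⟩ := hx
    obtain ⟨y', hy', rfl⟩ := hy
    exact ⟨x' * y', mul_mem hx' hy', map_mul _ _ _⟩

/-- integrality over `W[j] ⊂ Fb (M q)` is integrality over `W[j] ⊂ Fb M` along `α` -/
theorem isIntegralElem_alpha {x : Fb (M * q)} (hx : IsIntegral ↥(modelBase (M * q) W) x) :
    ((heckeAlphaBar Kb M q : Fb M →+* Fb (M * q)).comp (modelBase M W).subtype).IsIntegralElem
      x :=
  isIntegralElem_comp_of_isIntegral _ _ _
    (fun _ hr => exists_alpha_eq_of_mem_modelBase M q W hr) hx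

/-- integrality over `W[j]` descends along `α` -/
theorem isIntegral_of_alpha {y : Fb M}
    (hy : IsIntegral ↥(modelBase (M * q) W) (heckeAlphaBar Kb M q y)) :
    IsIntegral ↥(modelBase M W) y :=
  isIntegral_of_isIntegralElem_comp (heckeAlphaBar Kb M q : Fb M →+* Fb (M * q))
    (RingHom.injective _) _ (isIntegralElem_alpha M q W hy)

/-- the norm along `α` of an element integral over `W[j]` is integral over `W[j]` -/
theorem isIntegral_normAlong_alpha {x : Fb (M * q)}
    (hx : IsIntegral ↥(modelBase (M * q) W) x) :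
    IsIntegral ↥(modelBase M W) (normAlong (heckeAlphaBar Kb M q) x) := by
  letI := algebraAlong (heckeAlphaBar Kb M q)
  letI : Algebra ↥(modelBase M W) (Fb (M * q)) :=
    ((heckeAlphaBar Kb M q : Fb M →+* Fb (M * q)).comp (modelBase M W).subtype).toAlgebra
  haveI : IsScalarTower ↥(modelBase M W) (Fb M) (Fb (M * q)) :=
    IsScalarTower.of_algebraMap_eq (fun _ => rfl)
  have hx' : IsIntegral ↥(modelBase M W) x := isIntegralElem_alpha M q W hx
  exact Algebra.isIntegral_norm (Fb M) hx'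

end Base

/-! ### The special fibre of the level `M` model is `(π')` -/

section Saturation

variable {M q : ℕ} [NeZero M] [hq : Fact q.Prime]
variable {A : ValuationSubring Kb} {hA : A.LiesOverPrime q} {hqM : ¬ q ∣ M}
variable {K' : Subfield Kb} {W : Subring Kb} {π' : Kb}

/-- **Saturation of the level `M` model**: an element of `CMod` with zero residue is divisible by
the uniformizer `π'` in `CMod` (the special fibre of the level `M` model is reduced and
irreducible).  Proof: `α x` vanishes on both components of the level `M q` model, so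
`α x / π' ∈ O₁ ∩ O₂`, hence in `CQ` by `(★')`; and integrality descends along `α`. -/
theorem saturated_CMod (H : LevelHyp A hA hqM K' W π') {x : Fb M} (hx : x ∈ CMod M W K')
    (hx' : x ∈ (OM M A hA).nonunits) :
    ∃ y ∈ CMod M W K', x = algebraMap Kb (Fb M) π' * y := by
  have hCM := isModel_CMod M W K'
  have hCQ := isModel_CQ M q W K'
  have hϖ0 : algebraMap Kb (Fb M) π' ≠ 0 := (_root_.map_ne_zero _).2 H.hπ0
  have hϖq0 : algebraMap Kb (Fb (M * q)) π' ≠ 0 := (_root_.map_ne_zero _).2 H.hπ0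
  have hαϖ : heckeAlphaBar Kb M q (algebraMap Kb (Fb M) π') = algebraMap Kb (Fb (M * q)) π' :=
    AlgHom.commutes _ π'
  have hαx : heckeAlphaBar Kb M q x ∈ CQ M q W K' := alpha_mem_model M q hCM hCQ hx
  have hαxF : heckeAlphaBar Kb M q x ∈ modelField (M * q) K' := ((hCQ _).1 hαx).1
  have h1 : heckeAlphaBar Kb M q x ∈ (O1 M A hA).nonunits := by
    have h := (Fermat.Agent.BR.TwoValQ.mem_nonunits_comap
      (heckeAlphaBar Kb M q : Fb M →+* Fb (M * q)) (O1 M A hA) (x := x)).1
    rw [comap_alpha_O1] at h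
    exact h hx'
  have h2 : heckeAlphaBar Kb M q x ∈ (O2 A hA hqM).nonunits := by
    have h := (Fermat.Agent.BR.TwoValQ.mem_nonunits_comap
      (heckeAlphaBar Kb M q : Fb M →+* Fb (M * q)) (O2 A hA hqM) (x := x)).1
    rw [comap_alpha_O2] at h
    exact h hx'
  have hz1 := H.modelHyp.unif₁ _ hαxF h1
  have hz2 := H.modelHyp.unif₂ _ hαxF h2
  have hz : heckeAlphaBar Kb M q x / algebraMap Kb (Fb (M * q)) π' ∈ CQ M q W K' := by
    apply H.star _ _ hz1 hz2
    rw [div_mul_cancel₀ _ hϖq0]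
    exact hαx
  refine ⟨x / algebraMap Kb (Fb M) π', (hCM _).2 ⟨?_, ?_⟩, ?_⟩
  · exact div_mem ((hCM _).1 hx).1 (const_mem_modelField M K' H.hπK)
  · apply isIntegral_of_alpha M q W
    rw [map_div₀, hαϖ]
    exact ((hCQ _).1 hz).2
  · rw [mul_div_cancel₀ _ hϖ0]

/-- `CMod ∩ 𝔪(OM) = π' · CMod`. -/
theorem mem_nonunits_OM_iff_CMod (H : LevelHyp A hA hqM K' W π') {x : Fb M}
    (hx : x ∈ CMod M W K') :
    x ∈ (OM M A hA).nonunits ↔ ∃ y ∈ CMod M W K', x = algebraMap Kb (Fb M) π' * y := by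
  refine ⟨saturated_CMod H hx, ?_⟩
  rintro ⟨y, hy, rfl⟩
  have hyO : y ∈ OM M A hA := modelM_le_OM' A hA H.hWA (isModel_CMod M W K') y hy
  have hπO : algebraMap Kb (Fb M) π' ∈ (OM M A hA).nonunits := by
    have hπA : π' ∈ A := (A.valuation_le_one_iff _).mp H.hπ1.le
    rw [← redMF_eq_zero_iff A hA hqM ⟨_, algebraMap_mem_OM A hA hπA⟩, redMF_algebraMap A hA hqM hπA]
    have h0 : IsLocalRing.residue A ⟨π', hπA⟩ = 0 := by
      rw [IsLocalRing.residue_eq_zero_iff]
      have hm : π' ∈ A.nonunits := (A.mem_nonunits_iff).2 H.hπ1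
      rw [ValuationSubring.mem_nonunits_iff_exists_mem_maximalIdeal] at hm
      exact hm.2
    rw [h0, map_zero]
  rw [(OM M A hA).mem_nonunits_iff] at hπO ⊢
  rw [map_mul]
  exact mul_lt_one_of_nonneg_of_lt_one_left zero_le hπO ((OM M A hA).valuation_le_one_iff _ |>.2 hyO)

end Saturation

/-! ### The special fibre of the level `M` model is `Spec C_k` -/

section Fibre

variable {M q : ℕ} [NeZero M] [hq : Fact q.Prime]
variable {A : ValuationSubring Kb} {hA : A.LiesOverPrime q} {hqM : ¬ q ∣ M}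
variable {K' : Subfield Kb} {W : Subring Kb} {π' : Kb}

/-- the uniformizer as an element of the level `M` model -/
def piM (H : LevelHyp A hA hqM K' W π') : ↥(CMod M W K') :=
  ⟨algebraMap Kb (Fb M) π', const_mem_model M (isModel_CMod M W K') H.hWK H.pi_mem_W⟩

theorem coe_piM (H : LevelHyp A hA hqM K' W π') :
    ((piM H : ↥(CMod M W K')) : Fb M) = algebraMap Kb (Fb M) π' := rfl

/-- **`ker (res_M : C_M → C_k) = (π')`** -/
theorem ker_redM (H : LevelHyp A hA hqM K' W π') :
    RingHom.ker H.redM = Ideal.span {piM H} := by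
  ext x
  rw [RingHom.mem_ker, H.redM_eq_zero_iff, mem_nonunits_OM_iff_CMod H x.2,
    Ideal.mem_span_singleton']
  constructor
  · rintro ⟨y, hy, e⟩
    refine ⟨⟨y, hy⟩, Subtype.ext ?_⟩
    rw [e, mul_comm]
    rfl
  · rintro ⟨a, rfl⟩
    refine ⟨a, a.2, ?_⟩
    rw [mul_comm]
    rfl

/-- `C_M ⧸ (π') ≃ C_k` -/
def quotPiM (H : LevelHyp A hA hqM K' W π') :
    ↥(CMod M W K') ⧸ Ideal.span {piM H} ≃+* ↥(Ck M A) :=
  (Ideal.quotEquivOfEq (ker_redM H).symm).trans
    (RingHom.quotientKerEquivOfSurjective H.redM_surjective)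

/-- **the special fibre of the level `M` model is a Dedekind domain** (smooth affine curve) -/
theorem isDedekindDomain_quot_piM (H : LevelHyp A hA hqM K' W π') :
    IsDedekindDomain (↥(CMod M W K') ⧸ Ideal.span {piM H}) := by
  haveI := isDedekindDomain_Ck A hA hqM
  exact isDedekindDomain_of_ringEquiv (S := ↥(Ck M A)) (quotPiM H)

end Fibre

/-! ### The coefficients of the Hecke polynomial lie in the model -/

section Coeff

variable {M q : ℕ} [NeZero M] [hq : Fact q.Prime]
variable {A : ValuationSubring Kb} {hA : A.LiesOverPrime q} {hqM : ¬ q ∣ M}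
variable {K' : Subfield Kb} {W : Subring Kb} {π' : Kb}

/-- A sequence of constants of `W = A ∩ K'` with pairwise differences invertible in `W`. -/
theorem exists_consts_W (H : LevelHyp A hA hqM K' W π') : ∃ a : ℕ → Kb, (∀ i, a i ∈ W) ∧
    (∀ i j, i ≠ j → (a i - a j)⁻¹ ∈ W) ∧ ∀ i j, i ≠ j → a i ≠ a j := by
  haveI : IsAlgClosed (IsLocalRing.ResidueField A) := residueField_isAlgClosed A
  obtain ⟨a₀, ha₀, hinv₀, hne₀⟩ := exists_consts A
  choose a haW hsub using fun i => H.full (a₀ i) (ha₀ i)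
  have hunit : ∀ i j, i ≠ j → a i - a j ∉ A.nonunits := by
    intro i j hij hmem
    have h3 : a₀ i - a₀ j ∈ A.nonunits := by
      have e : a₀ i - a₀ j = (a₀ i - a i) + (a i - a j) - (a₀ j - a j) := by ring
      rw [e, A.mem_nonunits_iff]
      exact Valuation.map_sub_lt _
        (Valuation.map_add_lt _ ((A.mem_nonunits_iff).1 (hsub i)) ((A.mem_nonunits_iff).1 hmem))
        ((A.mem_nonunits_iff).1 (hsub j))
    have h0 : a₀ i - a₀ j ≠ 0 := sub_ne_zero.2 (hne₀ i j hij)
    exact (mem_nonunits_iff_inv_notMem A h0).1 h3 (hinv₀ i j hij)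
  refine ⟨a, haW, fun i j hij => ?_, fun i j hij h => ?_⟩
  · exact (H.hW _).2 ⟨Fermat.Agent.BR.TwoVal.inv_mem_of_notMem_nonunits A (hunit i j hij),
      K'.inv_mem (K'.sub_mem (H.hWK _ (haW i)) (H.hWK _ (haW j)))⟩
  · apply hunit i j hij
    rw [h, sub_self]
    exact zero_mem_nonunits A

/-- the values of `P_g` on `CMod` are integral over `W[j]` -/
theorem isIntegral_eval_heckePoly {g c : Fb M} (hg : g ∈ CMod M W K') (hc : c ∈ CMod M W K') :
    IsIntegral ↥(modelBase M W) ((heckePoly M q g).eval c) := by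
  rw [eval_heckePoly]
  apply isIntegral_normAlong_alpha M q W
  have hCM := isModel_CMod M W K'
  have hCQ := isModel_CQ M q W K'
  exact ((hCQ _).1 (sub_mem (alpha_mem_model M q hCM hCQ hc)
    (beta_mem_model M q hq.out hCM hCQ hg))).2

/-- **(K-a) over the model**: if the coefficients of `P_g`, `g ∈ CMod`, lie in the field
`K'·F_M`, they lie in the model `CMod`. -/
theorem coeff_heckePoly_mem_CMod (H : LevelHyp A hA hqM K' W π') {g : Fb M}
    (hg : g ∈ CMod M W K') (hK : ∀ k, (heckePoly M q g).coeff k ∈ modelField M K') (k : ℕ) :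
    (heckePoly M q g).coeff k ∈ CMod M W K' := by
  have hCM := isModel_CMod M W K'
  obtain ⟨a, haW, hainv, hane⟩ := exists_consts_W H
  have hmap : ∀ i j, (algebraMap Kb (Fb M) (a i) - algebraMap Kb (Fb M) (a j))⁻¹ =
      algebraMap Kb (Fb M) ((a i - a j)⁻¹) := fun i j => by rw [← map_sub, map_inv₀]
  have hconst : ∀ {b : Kb}, b ∈ W → algebraMap Kb (Fb M) b ∈ CMod M W K' := fun hb =>
    const_mem_model M hCM H.hWK hb
  refine coeff_mem_of_eval_mem (CMod M W K') (q + 1)
    (le_of_eq (heckePoly_natDegree_of_prime M q hq.out hqM g))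
    (fun i => algebraMap Kb (Fb M) (a i)) (fun i => hconst (haW i))
    (fun i j hij => ?_) (fun i j hij h => hane i j hij ((algebraMap Kb (Fb M)).injective h))
    (fun i => ?_) k
  · rw [hmap]
    exact hconst (hainv i j hij)
  · refine (hCM _).2 ⟨?_, isIntegral_eval_heckePoly hg (hconst (haW i))⟩
    rw [eval_eq_sum_range]
    refine Subfield.sum_mem _ fun n _ => Subfield.mul_mem _ (hK n) (Subfield.pow_mem _ ?_ n)
    exact const_mem_modelField M K' (H.hWK _ (haW i))

end Coeff

/-! ### Frobenius twists and untwists inside the model -/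

section Kronecker

variable {M q : ℕ} [NeZero M] [hq : Fact q.Prime]
variable {A : ValuationSubring Kb} {hA : A.LiesOverPrime q} {hqM : ¬ q ∣ M}
variable {K' : Subfield Kb} {W : Subring Kb} {π' : Kb}

local notation "kA" => IsLocalRing.ResidueField A

variable [CharP (IsLocalRing.ResidueField A) q] [PerfectField (IsLocalRing.ResidueField A)]

theorem mem_OM_of_mem_CMod (H : LevelHyp A hA hqM K' W π') {g : Fb M} (hg : g ∈ CMod M W K') :
    g ∈ OM M A hA :=
  modelM_le_OM' A hA H.hWA (isModel_CMod M W K') g hg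

/-- every `g ∈ CMod` has a Frobenius **untwist** `g' ∈ CMod` : `redMF g = σ • redMF g'` -/
theorem exists_untwist_CMod (H : LevelHyp A hA hqM K' W π') {g : Fb M}
    (hg : g ∈ CMod M W K') :
    ∃ g' : Fb M, ∃ hg' : g' ∈ CMod M W K',
      redMF A hA hqM ⟨g, mem_OM_of_mem_CMod H hg⟩ =
        frobAutFullC kA M q • redMF A hA hqM ⟨g', mem_OM_of_mem_CMod H hg'⟩ := by
  obtain ⟨g', hg', e⟩ := H.crossingInput.untwist g hg
  refine ⟨g', hg', Subtype.ext ?_⟩
  rw [coe_frobAutFullC_smul, coe_redMF, coe_redMF]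
  exact e

/-- every `g ∈ CMod` has a Frobenius **twist** `g'' ∈ CMod` : `redMF g'' = σ • redMF g` -/
theorem exists_twist_CMod (H : LevelHyp A hA hqM K' W π') {g : Fb M}
    (hg : g ∈ CMod M W K') :
    ∃ g'' : Fb M, ∃ hg'' : g'' ∈ CMod M W K',
      redMF A hA hqM ⟨g'', mem_OM_of_mem_CMod H hg''⟩ =
        frobAutFullC kA M q • redMF A hA hqM ⟨g, mem_OM_of_mem_CMod H hg⟩ := by
  have hCM := isModel_CMod M W K'
  have hy : IsIntegral ↥(kJ M A) (redMF A hA hqM ⟨g, mem_OM_of_mem_CMod H hg⟩) :=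
    isIntegral_redMF A hA hqM (modelM_isIntegral_AJM A H.hWA hCM g hg)
  have hy' : IsIntegral ↥(kJ M A)
      (Fermat.Agent.BR.KronTwisted.coeffMapFull (frobenius kA q) M
        (redMF A hA hqM ⟨g, mem_OM_of_mem_CMod H hg⟩)) :=
    Fermat.Agent.BR.KronTwisted.isIntegral_coeffMapFull _ M hy
  obtain ⟨x, hx⟩ := H.redM_surjective ⟨_, hy'⟩
  refine ⟨(x : Fb M), x.2, Subtype.ext ?_⟩
  have h1 := congrArg (fun z : ↥(Ck M A) =>
    (((z : ↥(modularFunctionFieldFullC kA M)) : LaurentSeries kA))) hx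
  rw [coe_frobAutFullC_smul]
  exact h1

/-! ### The twisted Kronecker congruence over the model -/

/-- **The twisted Kronecker congruence over the level `M` model**:
`P_g = (X - C (g'^q)) (X^q - C g'') + C π' · Ψ` with `Ψ ∈ CMod[X]`. -/
theorem exists_kronecker_CMod (H : LevelHyp A hA hqM K' W π') {g g' g'' : Fb M}
    (hg : g ∈ CMod M W K') (hg' : g' ∈ CMod M W K') (hg'' : g'' ∈ CMod M W K')
    (hK : ∀ k, (heckePoly M q g).coeff k ∈ modelField M K')
    (h' : redMF A hA hqM ⟨g, mem_OM_of_mem_CMod H hg⟩ =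
      frobAutFullC kA M q • redMF A hA hqM ⟨g', mem_OM_of_mem_CMod H hg'⟩)
    (h'' : redMF A hA hqM ⟨g'', mem_OM_of_mem_CMod H hg''⟩ =
      frobAutFullC kA M q • redMF A hA hqM ⟨g, mem_OM_of_mem_CMod H hg⟩) :
    ∃ Ψ : (Fb M)[X], (∀ k, Ψ.coeff k ∈ CMod M W K') ∧
      heckePoly M q g =
        (X - C (g' ^ q)) * (X ^ q - C g'') + C (algebraMap Kb (Fb M) π') * Ψ := by
  have hϖ0 : algebraMap Kb (Fb M) π' ≠ 0 := (_root_.map_ne_zero _).2 H.hπ0
  have hsub : ∀ k, ((X - C (g' ^ q)) * (X ^ q - C g'') : (Fb M)[X]).coeff k ∈ CMod M W K' := by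
    intro k
    have e : ((X - C (g' ^ q)) * (X ^ q - C g'') : (Fb M)[X]) =
        ((X - C ((⟨g', hg'⟩ : ↥(CMod M W K')) ^ q)) * (X ^ q - C ⟨g'', hg''⟩) :
          (↥(CMod M W K'))[X]).map (CMod M W K').subtype := by
      simp only [Polynomial.map_sub, Polynomial.map_mul, Polynomial.map_pow, Polynomial.map_X,
        Polynomial.map_C]
      rfl
    rw [e, coeff_map]
    exact Subtype.property _
  have hDmem : ∀ k, (heckePoly M q g - (X - C (g' ^ q)) * (X ^ q - C g'')).coeff k ∈
      CMod M W K' := fun k => by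
    rw [coeff_sub]
    exact sub_mem (coeff_heckePoly_mem_CMod H hg hK k) (hsub k)
  have hDnon : ∀ k, (heckePoly M q g - (X - C (g' ^ q)) * (X ^ q - C g'')).coeff k ∈
      (OM M A hA).nonunits := fun k => heckePoly_kronecker A hA hqM _ _ _ h' h'' k
  refine ⟨C (algebraMap Kb (Fb M) π')⁻¹ *
    (heckePoly M q g - (X - C (g' ^ q)) * (X ^ q - C g'')), fun k => ?_, ?_⟩
  · obtain ⟨y, hy, e⟩ := saturated_CMod H (hDmem k) (hDnon k)
    rw [coeff_C_mul, e, inv_mul_cancel_left₀ hϖ0]
    exact hy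
  · rw [← mul_assoc, ← C_mul, mul_inv_cancel₀ hϖ0, C_1, one_mul]
    ring

/-- **The twisted Kronecker congruence for `PAt g = P_g.map β ∈ F₁[X]`**, in the shape of
`BR3/VertTaylorTw` (`x₁ = β g'`, `x₂ = β g''`, `ϖ = π'`, `Ψ₁ ∈ CQ[X]`). -/
theorem exists_kronecker_PAt (H : LevelHyp A hA hqM K' W π') {g g' g'' : Fb M}
    (hg : g ∈ CMod M W K') (hg' : g' ∈ CMod M W K') (hg'' : g'' ∈ CMod M W K')
    (hK : ∀ k, (heckePoly M q g).coeff k ∈ modelField M K')
    (h' : redMF A hA hqM ⟨g, mem_OM_of_mem_CMod H hg⟩ =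
      frobAutFullC kA M q • redMF A hA hqM ⟨g', mem_OM_of_mem_CMod H hg'⟩)
    (h'' : redMF A hA hqM ⟨g'', mem_OM_of_mem_CMod H hg''⟩ =
      frobAutFullC kA M q • redMF A hA hqM ⟨g, mem_OM_of_mem_CMod H hg⟩) :
    ∃ Ψ₁ : (Fb (M * q))[X], (∀ k, Ψ₁.coeff k ∈ CQ M q W K') ∧
      PAt M q g =
        (X ^ q - C (heckeBetaBar Kb M q g'')) * (X - C ((heckeBetaBar Kb M q g') ^ q)) +
          C (algebraMap Kb (Fb (M * q)) π') * Ψ₁ := by
  obtain ⟨Ψ, hΨ, e⟩ := exists_kronecker_CMod H hg hg' hg'' hK h' h''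
  refine ⟨Ψ.map (heckeBetaBar Kb M q : Fb M →+* Fb (M * q)), fun k => ?_, ?_⟩
  · rw [coeff_map]
    exact beta_mem_model M q hq.out (isModel_CMod M W K') (isModel_CQ M q W K') (hΨ k)
  · have hβϖ : heckeBetaBar Kb M q (algebraMap Kb (Fb M) π') =
        algebraMap Kb (Fb (M * q)) π' := AlgHom.commutes _ π'
    rw [PAt, e]
    simp only [Polynomial.map_add, Polynomial.map_sub, Polynomial.map_mul, Polynomial.map_pow,
      Polynomial.map_X, Polynomial.map_C, RingHom.coe_coe, hβϖ, map_pow]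
    ring

end Kronecker

/-! ### The coefficient field: every large enough level of the tower -/

section Tower

open Fermat.Agent.BR.Inst.Levels

variable {M q : ℕ} [NeZero M] [hq : Fact q.Prime]

/-- the coefficients of `P_g` lie in `K₀(S)·F_M` for every large enough level `S` -/
theorem exists_level_coeff_mem (g : Fb M) : ∃ S₁ : Finset Kb, ∀ S : Finset Kb, S₁ ⊆ S →
    ∀ k, (heckePoly M q g).coeff k ∈ modelField M (KS q S) := by
  classical
  choose Sk hSk using fun k => exists_forall_mem_FS M q ((heckePoly M q g).coeff k)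
  refine ⟨(Finset.range ((heckePoly M q g).natDegree + 1)).biUnion Sk, fun S hS k => ?_⟩
  by_cases hk : k ≤ (heckePoly M q g).natDegree
  · exact hSk k S ((Finset.subset_biUnion_of_mem Sk
      (Finset.mem_range.2 (Nat.lt_succ_of_le hk))).trans hS)
  · rw [coeff_eq_zero_of_natDegree_lt (not_le.1 hk)]
    exact zero_mem _

variable (A : ValuationSubring Kb) (hA : A.LiesOverPrime q) (hqM : ¬ q ∣ M)

/-- the level `M` models grow with the level -/
theorem CMod_mono {S T : Finset Kb} (h : S ⊆ T) :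
    CMod M (WS A q S) (KS q S) ≤ CMod M (WS A q T) (KS q T) :=
  modelOf_mono (Subring.closure_mono (Set.union_subset_union_left _
    (Set.image_mono (WS_mono (A := A) q h)))) (FS_mono M q h)

local notation "kA" => IsLocalRing.ResidueField A

set_option maxHeartbeats 1000000 in
/-- **(I5-KRON), tower form.**  `g` in the level `M` model of some level `S₀` of the tower.  At
every large enough level `S` there are an untwist `g'` and a twist `g''` of `g` in `CMod_S` and
`Ψ₁ ∈ CQ_S[X]` with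
`PAt g = (X^q - C (β g'')) (X - C ((β g')^q)) + C π'_S · Ψ₁`  (the shape of `BR3/VertTaylorTw`). -/
theorem exists_kronecker_tower [CharP (IsLocalRing.ResidueField A) q]
    [PerfectField (IsLocalRing.ResidueField A)] {S₀ : Finset Kb} {g : Fb M}
    (hg : g ∈ CMod M (WS A q S₀) (KS q S₀)) :
    ∃ S₁ : Finset Kb, S₀ ⊆ S₁ ∧ ∀ S : Finset Kb, S₁ ⊆ S →
      ∃ (hgS : g ∈ CMod M (WS A q S) (KS q S)) (g' g'' : Fb M)
        (hg' : g' ∈ CMod M (WS A q S) (KS q S)) (hg'' : g'' ∈ CMod M (WS A q S) (KS q S)),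
        redMF A hA hqM ⟨g, mem_OM_of_mem_CMod (levelHyp_tower A hA hqM S) hgS⟩ =
          frobAutFullC kA M q •
            redMF A hA hqM ⟨g', mem_OM_of_mem_CMod (levelHyp_tower A hA hqM S) hg'⟩ ∧
        redMF A hA hqM ⟨g'', mem_OM_of_mem_CMod (levelHyp_tower A hA hqM S) hg''⟩ =
          frobAutFullC kA M q •
            redMF A hA hqM ⟨g, mem_OM_of_mem_CMod (levelHyp_tower A hA hqM S) hgS⟩ ∧
        ∃ Ψ₁ : (Fb (M * q))[X], (∀ k, Ψ₁.coeff k ∈ CQ M q (WS A q S) (KS q S)) ∧
          PAt M q g =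
            (X ^ q - C (heckeBetaBar Kb M q g'')) * (X - C ((heckeBetaBar Kb M q g') ^ q)) +
              C (algebraMap Kb (Fb (M * q)) (unif A hq.out hA S)) * Ψ₁ := by
  classical
  obtain ⟨S₁, hS₁⟩ := exists_level_coeff_mem (M := M) (q := q) g
  refine ⟨S₀ ∪ S₁, Finset.subset_union_left, fun S hS => ?_⟩
  have hgS : g ∈ CMod M (WS A q S) (KS q S) :=
    CMod_mono A (Finset.subset_union_left.trans hS) hg
  have H := levelHyp_tower (M := M) A hA hqM S
  obtain ⟨g', hg', h'⟩ := exists_untwist_CMod H hgS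
  obtain ⟨g'', hg'', h''⟩ := exists_twist_CMod H hgS
  exact ⟨hgS, g', g'', hg', hg'', h', h'',
    exists_kronecker_PAt H hgS hg' hg'' (hS₁ S (Finset.subset_union_right.trans hS)) h' h''⟩

end Tower

end Fermat.Agent.BR3.HeckePolyModel

end
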