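import Mathlib
import Fermat.Agent.BR3.VertGlueAbs
import Fermat.Agent.BR3.VertResidue

/-!
# Program C (S36), node (I5-VERT): the vertical polynomial of a UNIVARIATE Kronecker polynomial

At an elliptic supersingular point the coordinate `j - J₀` is not a local parameter, and the
vertical analysis of `BR3/VertTaylor.lean` has to be run with the Hecke polynomial `P ∈ K[Y]` of a
local parameter `f` (node (I5-KRON)) instead of `Φ_q(x, ·)`:

  `P = (Y^q - x) (Y - x^q) + q Ψ₁`,  `Ψ₁ ∈ K[Y]` with integral coefficients,  `P(y) = 0`.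

Everything of `VertTaylor` / `VertReduce` / `VertGlueAbs` only ever uses `outerAt Φ x`, so the
univariate case is literally the special case of the bivariate one with the CONSTANT lift
`Ψ := biC Ψ₁ = Ψ₁.map C` (constant in the inner variable) and `Φ := kronAt q Ψ₁`:
`outerAt (kronAt q Ψ₁) x = (Y^q - x)(Y - x^q) + q Ψ₁` (`outerAt_kronAt`).

* `biC`, `kronAt`, `kronAt_shape`, `outerAt_biC`, `outerAt_kronAt`, `outerAt_kronAt_of_eq`,
  `evalEval_biC`, `evalEval_kronAt_of_eq`, `intCoeff₂_biC`;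
* the univariate API: `vertPolyAt P y` (difference quotient), `vertPolyAt_eq_vertPoly`,
  `eval_add_sub`, `eval_vertPolyAt_eq_zero`, `vertHAt`, `vertPolyAt_eq` (the exact shape),
  `vertScaledAt`, `vertScaledAt_eq_vertScaled`, `vertScaledAt_eq`, `vertScaledAt_coeff_sub_lt`
  (the reduction on the critical circle), `intCoeff_vertScaledAt`, `vertA_mul_vertB_at`;
* `vertHyp_at` : the bundle `VertGlueAbs.VertHyp q (kronAt q Ψ₁) (biC Ψ₁) x y c U O` from the
  univariate hypotheses, so that ALL of `VertGlueAbs` (`vertSubring`, `vertRes`, uniqueness,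
  `e = 1`, `f = q`) applies verbatim;
* `minpoly_theta_at` : `minpoly K (U / c) = vertScaledAt P q y c`;
* `exists_vertComponent_at_of_eq`, `exists_vertComponent_at` : the abstract form of
  `VertGlueMod.exists_vertComponent` for `(P, x, y)`; `res_vertA_of_res_prod_at`.
-/

set_option autoImplicit false
set_option linter.unusedSectionVars false

noncomputable section

namespace Fermat.Agent.BR3.VertTaylorAt

open Polynomial
open Fermat.Agent.BR.NodeNewton Fermat.Agent.BR3.VertTaylor Fermat.Agent.BR3.VertReduce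
open Fermat.Agent.BR3.VertGlueAbs Fermat.Agent.BR3.VertResidue
open scoped Polynomial.Bivariate

variable {K : Type*} [Field K]

/-! ### the constant lift -/

/-- The constant lift of a univariate polynomial in the outer variable: coefficients constant in
the inner variable. -/
def biC (Ψ₁ : K[X]) : K[X][Y] := Ψ₁.map C

/-- The bivariate Kronecker polynomial with constant error term. -/
def kronAt (q : ℕ) (Ψ₁ : K[X]) : K[X][Y] :=
  (X ^ q - C X) * (X - C (X ^ q)) + C (C (q : K)) * biC Ψ₁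

theorem kronAt_shape (q : ℕ) (Ψ₁ : K[X]) :
    kronAt q Ψ₁ = (X ^ q - C X) * (X - C (X ^ q)) + C (C (q : K)) * biC Ψ₁ := rfl

theorem outerAt_biC (Ψ₁ : K[X]) (x : K) : outerAt (biC Ψ₁) x = Ψ₁ := by
  rw [outerAt, biC, Polynomial.map_map]
  have h : (evalRingHom x).comp (C : K →+* K[X]) = RingHom.id K := by
    ext a
    simp
  rw [h, Polynomial.map_id]

theorem outerAt_kronAt (q : ℕ) (Ψ₁ : K[X]) (x : K) :
    outerAt (kronAt q Ψ₁) x = (X ^ q - C x) * (X - C (x ^ q)) + C (q : K) * Ψ₁ := by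
  have h := outerAt_biC Ψ₁ x
  rw [outerAt] at h
  rw [kronAt, outerAt]
  simp only [Polynomial.map_add, Polynomial.map_mul, Polynomial.map_sub, Polynomial.map_pow,
    Polynomial.map_X, Polynomial.map_C, coe_evalRingHom, eval_X, eval_C, eval_pow, h]

theorem outerAt_kronAt_of_eq {q : ℕ} {Ψ₁ P : K[X]} {x : K}
    (hP : P = (X ^ q - C x) * (X - C (x ^ q)) + C (q : K) * Ψ₁) :
    outerAt (kronAt q Ψ₁) x = P := by
  rw [hP, outerAt_kronAt]

theorem evalEval_biC (Ψ₁ : K[X]) (x y : K) : (biC Ψ₁).evalEval x y = Ψ₁.eval y := by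
  rw [← eval_outerAt, outerAt_biC]

theorem evalEval_kronAt_of_eq {q : ℕ} {Ψ₁ P : K[X]} {x : K}
    (hP : P = (X ^ q - C x) * (X - C (x ^ q)) + C (q : K) * Ψ₁) (y : K) :
    (kronAt q Ψ₁).evalEval x y = P.eval y := by
  rw [← eval_outerAt, outerAt_kronAt_of_eq hP]

theorem intCoeff₂_biC {Γ₀ : Type*} [LinearOrderedCommGroupWithZero Γ₀] {v : Valuation K Γ₀}
    {Ψ₁ : K[X]} (h : IntCoeff v Ψ₁) : IntCoeff₂ v (biC Ψ₁) := fun i => by
  rw [biC, coeff_map]
  exact IntCoeff.C (h i)

/-! ### the univariate vertical polynomial -/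

/-- **The vertical polynomial of a univariate `P` at `y`**: the difference quotient of `P` at
`y`. -/
def vertPolyAt (P : K[X]) (y : K) : K[X] := divX (P.comp (X + C y))

theorem vertPolyAt_eq_vertPoly {q : ℕ} {Ψ₁ P : K[X]} {x : K}
    (hP : P = (X ^ q - C x) * (X - C (x ^ q)) + C (q : K) * Ψ₁) (y : K) :
    vertPolyAt P y = vertPoly (kronAt q Ψ₁) x y := by
  rw [vertPolyAt, vertPoly, outerAt_kronAt_of_eq hP]

theorem vertPolyAt_mul_X_add (P : K[X]) (y : K) :
    vertPolyAt P y * X + C (P.eval y) = P.comp (X + C y) := by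
  have h := divX_mul_X_add (P.comp (X + C y))
  have h0 : (P.comp (X + C y)).coeff 0 = P.eval y := by
    rw [coeff_zero_eq_eval_zero, eval_comp, eval_add, eval_X, eval_C, zero_add]
  rw [h0] at h
  exact h

/-- `P(y + u) - P(y) = u · vertPolyAt(u)`. -/
theorem eval_add_sub (P : K[X]) (y u : K) :
    P.eval (y + u) - P.eval y = u * (vertPolyAt P y).eval u := by
  have h := congrArg (fun R : K[X] => R.eval u) (vertPolyAt_mul_X_add P y)
  simp only [eval_add, eval_mul, eval_X, eval_C, eval_comp] at h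
  rw [add_comm u y] at h
  rw [← h]
  ring

/-- Two different roots `y`, `y + u` of `P`: `u` is a root of the vertical polynomial. -/
theorem eval_vertPolyAt_eq_zero {P : K[X]} {y u : K} (h0 : P.eval y = 0)
    (h1 : P.eval (y + u) = 0) (hu : u ≠ 0) : (vertPolyAt P y).eval u = 0 := by
  have h := eval_add_sub P y u
  rw [h0, h1, sub_zero] at h
  exact (mul_eq_zero.mp h.symm).resolve_left hu

/-- **The error polynomial** of the univariate vertical polynomial. -/
def vertHAt (Ψ₁ : K[X]) (q : ℕ) (x y : K) : K[X] :=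
  C y * binomCof q y * (X + C (y - x ^ q)) + vertPolyAt Ψ₁ y

theorem vertHAt_eq_vertH (Ψ₁ : K[X]) (q : ℕ) (x y : K) :
    vertHAt Ψ₁ q x y = vertH (biC Ψ₁) q x y := by
  rw [vertHAt, vertH, diffQuot, vertPoly, outerAt_biC, vertPolyAt]

/-- **The exact shape of the vertical polynomial** of `P = (Y^q - x)(Y - x^q) + q Ψ₁`. -/
theorem vertPolyAt_eq {q : ℕ} (hq : q.Prime) {Ψ₁ P : K[X]} {x : K}
    (hP : P = (X ^ q - C x) * (X - C (x ^ q)) + C (q : K) * Ψ₁) (y : K) :
    vertPolyAt P y =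
      X ^ q + C (y - x ^ q) * X ^ (q - 1) + C (y ^ q - x) + C (q : K) * vertHAt Ψ₁ q x y := by
  rw [vertPolyAt_eq_vertPoly hP, vertPoly_eq hq (kronAt_shape q Ψ₁), vertHAt_eq_vertH]

theorem intCoeff_vertHAt {Γ₀ : Type*} [LinearOrderedCommGroupWithZero Γ₀] {v : Valuation K Γ₀}
    {Ψ₁ : K[X]} (hΨ : IntCoeff v Ψ₁) (q : ℕ) {x y : K} (hx : v x ≤ 1) (hy : v y ≤ 1) :
    IntCoeff v (vertHAt Ψ₁ q x y) := by
  rw [vertHAt_eq_vertH]
  exact intCoeff_vertH (intCoeff₂_biC hΨ) q hx hy

theorem vertPolyAt_natDegree {P : K[X]} {q : ℕ} (hdeg : P.natDegree = q + 1) (y : K) :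
    (vertPolyAt P y).natDegree = q := by
  rw [vertPolyAt, natDegree_divX_eq_natDegree_tsub_one, natDegree_comp_X_add_C, hdeg,
    Nat.add_sub_cancel]

theorem vertPolyAt_monic {P : K[X]} {q : ℕ} (hmon : P.Monic) (hdeg : P.natDegree = q + 1)
    (y : K) : (vertPolyAt P y).Monic := by
  have h1 : (P.comp (X + C y)).Monic := hmon.comp_X_add_C y
  have h2 : (P.comp (X + C y)).natDegree = q + 1 := by
    rw [natDegree_comp_X_add_C, hdeg]
  rw [Monic, leadingCoeff, vertPolyAt_natDegree hdeg y, vertPolyAt, coeff_divX, ← h2]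
  exact h1

/-! ### the scaled vertical polynomial -/

/-- `c^(-q) · vertPolyAt(c X)` -/
def vertScaledAt (P : K[X]) (q : ℕ) (y c : K) : K[X] :=
  C (c ^ q)⁻¹ * (vertPolyAt P y).comp (C c * X)

theorem vertScaledAt_eq_vertScaled {q : ℕ} {Ψ₁ P : K[X]} {x : K}
    (hP : P = (X ^ q - C x) * (X - C (x ^ q)) + C (q : K) * Ψ₁) (y c : K) :
    vertScaledAt P q y c = vertScaled (kronAt q Ψ₁) q x y c := by
  rw [vertScaledAt, vertScaled, vertPolyAt_eq_vertPoly hP]

theorem eval_vertScaledAt (P : K[X]) (q : ℕ) (y c t : K) :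
    (vertScaledAt P q y c).eval t = (c ^ q)⁻¹ * (vertPolyAt P y).eval (c * t) := by
  simp [vertScaledAt, eval_comp]

/-- a root `u` of the vertical polynomial gives the root `u / c` of the scaled one -/
theorem eval_vertScaledAt_div {P : K[X]} {q : ℕ} {y c u : K} (hc : c ≠ 0)
    (hu : (vertPolyAt P y).eval u = 0) : (vertScaledAt P q y c).eval (u / c) = 0 := by
  rw [eval_vertScaledAt, mul_div_cancel₀ u hc, hu, mul_zero]

/-- the small part of the scaled vertical polynomial -/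
def vertEAt (Ψ₁ : K[X]) (q : ℕ) (x y c : K) : K[X] :=
  C ((q : K) / c ^ q) * (vertHAt Ψ₁ q x y).comp (C c * X)

theorem vertEAt_eq_vertE (Ψ₁ : K[X]) (q : ℕ) (x y c : K) :
    vertEAt Ψ₁ q x y c = vertE (biC Ψ₁) q x y c := by
  rw [vertEAt, vertE, vertHAt_eq_vertH]

/-- **The exact shape of the scaled vertical polynomial.** -/
theorem vertScaledAt_eq {q : ℕ} (hq : q.Prime) {Ψ₁ P : K[X]} {x : K}
    (hP : P = (X ^ q - C x) * (X - C (x ^ q)) + C (q : K) * Ψ₁) (y : K) {c : K} (hc : c ≠ 0) :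
    vertScaledAt P q y c =
      X ^ q + C (vertB q x y c) * X ^ (q - 1) + C (vertA q x y c) + vertEAt Ψ₁ q x y c := by
  rw [vertScaledAt_eq_vertScaled hP, vertScaled_eq hq (kronAt_shape q Ψ₁) y hc, vertEAt_eq_vertE]

theorem vertScaledAt_natDegree {P : K[X]} {q : ℕ} (hdeg : P.natDegree = q + 1) (hmon : P.Monic)
    (y : K) {c : K} (hc : c ≠ 0) : (vertScaledAt P q y c).natDegree = q := by
  have hco : ∀ n, (vertScaledAt P q y c).coeff n =
      (c ^ q)⁻¹ * ((vertPolyAt P y).coeff n * c ^ n) := fun n => by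
    rw [vertScaledAt, coeff_C_mul, comp_C_mul_X_coeff]
  apply le_antisymm
  · rw [natDegree_le_iff_coeff_eq_zero]
    intro n hn
    rw [hco, coeff_eq_zero_of_natDegree_lt (by rw [vertPolyAt_natDegree hdeg y]; exact hn)]
    simp
  · apply le_natDegree_of_ne_zero
    rw [hco]
    have h1 : (vertPolyAt P y).coeff q = 1 := by
      have := vertPolyAt_monic hmon hdeg y
      rwa [Monic, leadingCoeff, vertPolyAt_natDegree hdeg y] at this
    rw [h1, one_mul, inv_mul_cancel₀ (pow_ne_zero q hc)]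
    exact one_ne_zero

theorem vertScaledAt_monic {P : K[X]} {q : ℕ} (hdeg : P.natDegree = q + 1) (hmon : P.Monic)
    (y : K) {c : K} (hc : c ≠ 0) : (vertScaledAt P q y c).Monic := by
  have h1 : (vertPolyAt P y).coeff q = 1 := by
    have := vertPolyAt_monic hmon hdeg y
    rwa [Monic, leadingCoeff, vertPolyAt_natDegree hdeg y] at this
  rw [Monic, leadingCoeff, vertScaledAt_natDegree hdeg hmon y hc, vertScaledAt, coeff_C_mul,
    comp_C_mul_X_coeff, h1, one_mul, inv_mul_cancel₀ (pow_ne_zero q hc)]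

/-- `a b = - q Ψ₁(y) / c^(q+1)` at a zero of `P`. -/
theorem vertA_mul_vertB_at {q : ℕ} {Ψ₁ P : K[X]} {x y : K}
    (hP : P = (X ^ q - C x) * (X - C (x ^ q)) + C (q : K) * Ψ₁) (h0 : P.eval y = 0) (c : K) :
    vertA q x y c * vertB q x y c = -((q : K) * Ψ₁.eval y) / c ^ (q + 1) := by
  have h := vertA_mul_vertB (kronAt_shape q Ψ₁) (x := x) (y := y)
    (by rw [evalEval_kronAt_of_eq hP, h0]) c
  rw [evalEval_biC] at h
  exact h

/-! ### the reduction on the critical circle -/

section Reduction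

variable {Γ₀ : Type*} [LinearOrderedCommGroupWithZero Γ₀] {v : Valuation K Γ₀}

/-- **The reduction of the scaled vertical polynomial on the critical circle**: all coefficients
of `vertScaledAt - (X^q + b X^(q-1) + a)` have size `< 1`. -/
theorem vertScaledAt_coeff_sub_lt {q : ℕ} (hq : q.Prime) {Ψ₁ P : K[X]} {x : K}
    (hP : P = (X ^ q - C x) * (X - C (x ^ q)) + C (q : K) * Ψ₁) (hΨ : IntCoeff v Ψ₁)
    {y c : K} (hx : v x ≤ 1) (hy : v y ≤ 1) (hc1 : v c ≤ 1) (hc : c ≠ 0)
    (hqc : v (q : K) < v c ^ q) (n : ℕ) :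
    v ((vertScaledAt P q y c -
      (X ^ q + C (vertB q x y c) * X ^ (q - 1) + C (vertA q x y c))).coeff n) < 1 := by
  rw [vertScaledAt_eq_vertScaled hP]
  exact vertScaled_coeff_sub_lt hq (kronAt_shape q Ψ₁) (intCoeff₂_biC hΨ) hx hy hc1 hc hqc n

/-- the scaled vertical polynomial has integral coefficients on the critical circle -/
theorem intCoeff_vertScaledAt {q : ℕ} (hq : q.Prime) {Ψ₁ P : K[X]} {x : K}
    (hP : P = (X ^ q - C x) * (X - C (x ^ q)) + C (q : K) * Ψ₁) (hΨ : IntCoeff v Ψ₁)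
    {y c : K} (hx : v x ≤ 1) (hy : v y ≤ 1) (hc1 : v c ≤ 1) (hc : c ≠ 0)
    (hqc : v (q : K) < v c ^ q) (hb : v (vertB q x y c) ≤ 1) (ha : v (vertA q x y c) ≤ 1) :
    IntCoeff v (vertScaledAt P q y c) := by
  rw [vertScaledAt_eq_vertScaled hP]
  exact intCoeff_vertScaled hq (kronAt_shape q Ψ₁) (intCoeff₂_biC hΨ) hx hy hc1 hc hqc hb ha

/-- **The coefficientwise reduction of the scaled vertical polynomial on the critical circle.** -/
theorem res_coeff_vertScaledAt {κ : Type*} [Field κ] (res : v.integer →+* κ)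
    (hres : ∀ a : v.integer, res a = 0 ↔ v (a : K) < 1) {q : ℕ} (hq : q.Prime) {Ψ₁ P : K[X]}
    {x : K} (hP : P = (X ^ q - C x) * (X - C (x ^ q)) + C (q : K) * Ψ₁) (hΨ : IntCoeff v Ψ₁)
    {y c : K} (hx : v x ≤ 1) (hy : v y ≤ 1) (hc1 : v c ≤ 1) (hc : c ≠ 0)
    (hqc : v (q : K) < v c ^ q) (hb : v (vertB q x y c) ≤ 1) (ha : v (vertA q x y c) ≤ 1)
    (n : ℕ) (hn : v ((vertScaledAt P q y c).coeff n) ≤ 1) :
    res ⟨(vertScaledAt P q y c).coeff n, hn⟩ =
      (X ^ q + C (res ⟨vertB q x y c, hb⟩) * X ^ (q - 1) +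
        C (res ⟨vertA q x y c, ha⟩) : κ[X]).coeff n := by
  have e := vertScaledAt_eq_vertScaled hP y c
  have hn' : v ((vertScaled (kronAt q Ψ₁) q x y c).coeff n) ≤ 1 := by rw [← e]; exact hn
  rw [← res_coeff_vertScaled res hres hq (kronAt_shape q Ψ₁) (intCoeff₂_biC hΨ) hx hy hc1 hc hqc
    hb ha n hn']
  congr 1
  apply Subtype.ext
  show (vertScaledAt P q y c).coeff n = _
  rw [e]

end Reduction

/-! ### the bundle of `VertGlueAbs` -/

section Glue

variable {L : Type*} [Field L] [Algebra K L]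

/-- **The bundle `VertGlueAbs.VertHyp` from univariate hypotheses**: `L / K` of prime degree `q`,
`P = (Y^q - x)(Y - x^q) + q Ψ₁` monic of degree `q + 1` with the two roots `y ∈ K` and
`y + U`, `U ∈ L ∖ K`, the gauge `c` and the critical circle valuation `O` of `K`. -/
theorem vertHyp_at {q : ℕ} (hq : q.Prime) (hfin : Module.finrank K L = q) {Ψ₁ P : K[X]}
    {x y c : K} {U : L} (hP : P = (X ^ q - C x) * (X - C (x ^ q)) + C (q : K) * Ψ₁)
    (hmon : P.Monic) (hdeg : P.natDegree = q + 1) (h0 : P.eval y = 0)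
    (h1 : aeval (algebraMap K L y + U) P = 0) (hU : U ∉ Set.range (algebraMap K L))
    (hc : c ≠ 0) (O : ValuationSubring K) (hΨ : IntCoeff O.valuation Ψ₁) (hx : x ∈ O)
    (hy : y ∈ O) (hc1 : c ∈ O) (hqc : O.valuation (q : K) < O.valuation c ^ q)
    (hb : vertB q x y c ∈ O) (ha : vertA q x y c ∈ O) :
    VertHyp (L := L) q (kronAt q Ψ₁) (biC Ψ₁) x y c U O where
  prime := hq
  finrank_eq := hfin
  monic := by rw [outerAt_kronAt_of_eq hP]; exact hmon
  natDegree_eq := by rw [outerAt_kronAt_of_eq hP]; exact hdeg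
  root := by rw [evalEval_kronAt_of_eq hP, h0]
  root' := by rw [outerAt_kronAt_of_eq hP]; exact h1
  notMem := hU
  c_ne := hc
  shape := kronAt_shape q Ψ₁
  intCoeff := intCoeff₂_biC hΨ
  x_mem := hx
  y_mem := hy
  c_mem := hc1
  crit := hqc
  b_mem := hb
  a_mem := ha

/-- **The minimal polynomial of `θ = U / c`** is the scaled vertical polynomial of `P`. -/
theorem minpoly_theta_at [FiniteDimensional K L] {q : ℕ} (hq : q.Prime)
    (hfin : Module.finrank K L = q) {P : K[X]} {y c : K} {U : L}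
    (hmon : P.Monic) (hdeg : P.natDegree = q + 1) (h0 : P.eval y = 0)
    (h1 : aeval (algebraMap K L y + U) P = 0) (hU : U ∉ Set.range (algebraMap K L))
    (hc : c ≠ 0) :
    minpoly K (U / algebraMap K L c) = vertScaledAt P q y c ∧
      IntermediateField.adjoin K {U / algebraMap K L c} = ⊤ := by
  have hU0 : U ≠ 0 := ne_zero_of_notMem_range hU
  have hc' : algebraMap K L c ≠ 0 := (_root_.map_ne_zero _).mpr hc
  have hroot : aeval U (vertPolyAt P y) = 0 := by
    have h := congrArg (aeval U) (vertPolyAt_mul_X_add P y)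
    rw [map_add, map_mul, aeval_X, aeval_C, h0, map_zero, add_zero, aeval_comp, map_add, aeval_X,
      aeval_C, add_comm U, h1] at h
    exact (mul_eq_zero.mp h).resolve_right hU0
  refine minpoly_eq_of_prime_finrank hq hfin (theta_notMem_range hU hc)
    (vertScaledAt_monic hdeg hmon y hc) (vertScaledAt_natDegree hdeg hmon y hc) ?_
  rw [vertScaledAt, map_mul, aeval_C, aeval_comp, map_mul, aeval_C, aeval_X,
    mul_div_cancel₀ _ hc', hroot, mul_zero]

/-- The vertical component for `(P, x, y)`, for a residue polynomial given up to equality. -/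
theorem exists_vertComponent_at_of_eq [FiniteDimensional K L] {q : ℕ} (hq : q.Prime)
    (hfin : Module.finrank K L = q) {Ψ₁ P : K[X]} {x y c : K} {U : L}
    (hP : P = (X ^ q - C x) * (X - C (x ^ q)) + C (q : K) * Ψ₁)
    (hmon : P.Monic) (hdeg : P.natDegree = q + 1) (h0 : P.eval y = 0)
    (h1 : aeval (algebraMap K L y + U) P = 0) (hU : U ∉ Set.range (algebraMap K L))
    (hc : c ≠ 0) (O : ValuationSubring K) (hΨ : IntCoeff O.valuation Ψ₁) (hx : x ∈ O)
    (hy : y ∈ O) (hc1 : c ∈ O) (hqc : O.valuation (q : K) < O.valuation c ^ q)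
    (hb : vertB q x y c ∈ O) (ha : vertA q x y c ∈ O)
    {κ : Type*} [Field κ] (res : O →+* κ) (hres : ∀ a : O, res a = 0 ↔ ¬ IsUnit a)
    (hsurj : Function.Surjective res) (Pbar : κ[X])
    (hPbar : X ^ q + C (res ⟨vertB q x y c, hb⟩) * X ^ (q - 1) + C (res ⟨vertA q x y c, ha⟩) =
      Pbar)
    (hirr : Irreducible Pbar) :
    ∃ (Z : ValuationSubring L) (resZ : Z →+* AdjoinRoot Pbar),
      Z.comap (algebraMap K L) = O ∧
      (∀ B : ValuationSubring L, B.comap (algebraMap K L) = O → B = Z) ∧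
      Function.Surjective resZ ∧ (∀ z : Z, resZ z = 0 ↔ ¬ IsUnit z) ∧
      (∀ (a : O) (h : algebraMap K L (a : K) ∈ Z),
        resZ ⟨algebraMap K L (a : K), h⟩ = AdjoinRoot.of Pbar (res a)) ∧
      ∃ hθ : U / algebraMap K L c ∈ Z, resZ ⟨U / algebraMap K L c, hθ⟩ = AdjoinRoot.root Pbar := by
  have H := vertHyp_at (L := L) hq hfin hP hmon hdeg h0 h1 hU hc O hΨ hx hy hc1 hqc hb ha
  subst hPbar
  have hirr' : Irreducible (H.Pbar res) := hirr
  exact ⟨H.vertSubring res hres hirr', H.vertRes res hres hirr',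
    H.comap_vertSubring res hres hirr', H.vertSubring_unique res hres hirr',
    H.vertRes_surjective res hres hirr' hsurj, H.vertRes_eq_zero_iff res hres hirr',
    fun a _ => H.vertRes_algebraMap res hres hirr' a,
    H.theta_mem res hres hirr', H.vertRes_theta res hres hirr'⟩

/-- **The vertical component over a critical circle, for a univariate Kronecker polynomial**
(the form of `VertGlueMod.exists_vertComponent` used at an elliptic supersingular point, with
`P` the Hecke polynomial of a local parameter): if the circle valuation `O` of `K` with residue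
field `k(T)` satisfies `res ((y - x^q)/c) = β T` and `res ((y^q - x)/c^q) = - ρ / (β T)` with
`β, ρ ∈ kˣ`, then `O` has exactly one extension `Z` to `L`; its residue field is
`k(T)[Ũ] / (Ũ^q + β T Ũ^(q-1) - ρ/(β T))`, `Ũ` the residue of `U / c` (`e = 1`, `f = q`). -/
theorem exists_vertComponent_at [FiniteDimensional K L] {q : ℕ} (hq : q.Prime)
    (hfin : Module.finrank K L = q) {Ψ₁ P : K[X]} {x y c : K} {U : L}
    (hP : P = (X ^ q - C x) * (X - C (x ^ q)) + C (q : K) * Ψ₁)
    (hmon : P.Monic) (hdeg : P.natDegree = q + 1) (h0 : P.eval y = 0)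
    (h1 : aeval (algebraMap K L y + U) P = 0) (hU : U ∉ Set.range (algebraMap K L))
    (hc : c ≠ 0) (O : ValuationSubring K) (hΨ : IntCoeff O.valuation Ψ₁) (hx : x ∈ O)
    (hy : y ∈ O) (hc1 : c ∈ O) (hqc : O.valuation (q : K) < O.valuation c ^ q)
    (hb : vertB q x y c ∈ O) (ha : vertA q x y c ∈ O)
    {k : Type*} [Field k] (res : O →+* RatFunc k) (hres : ∀ a : O, res a = 0 ↔ ¬ IsUnit a)
    (hsurj : Function.Surjective res) {β ρ : k} (hβ : β ≠ 0) (hρ : ρ ≠ 0)
    (hbres : res ⟨vertB q x y c, hb⟩ = RatFunc.C β * RatFunc.X)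
    (hares : res ⟨vertA q x y c, ha⟩ = -(RatFunc.C ρ / (RatFunc.C β * RatFunc.X))) :
    ∃ (Z : ValuationSubring L) (resZ : Z →+* AdjoinRoot (vertBar q β ρ)),
      Z.comap (algebraMap K L) = O ∧
      (∀ B : ValuationSubring L, B.comap (algebraMap K L) = O → B = Z) ∧
      Function.Surjective resZ ∧ (∀ z : Z, resZ z = 0 ↔ ¬ IsUnit z) ∧
      (∀ (a : O) (h : algebraMap K L (a : K) ∈ Z),
        resZ ⟨algebraMap K L (a : K), h⟩ = AdjoinRoot.of (vertBar q β ρ) (res a)) ∧
      ∃ hθ : U / algebraMap K L c ∈ Z,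
        resZ ⟨U / algebraMap K L c, hθ⟩ = AdjoinRoot.root (vertBar q β ρ) :=
  exists_vertComponent_at_of_eq hq hfin hP hmon hdeg h0 h1 hU hc O hΨ hx hy hc1 hqc hb ha res hres
    hsurj (vertBar q β ρ) (by rw [hbres, hares, vertBar]) (vertBar_irreducible hq.two_le hβ hρ)

/-- The constant residue from the product: if `res (- q Ψ₁(y) / c^(q+1)) = - ρ` and
`res b = β T` then `res a = - ρ / (β T)`. -/
theorem res_vertA_of_res_prod_at {q : ℕ} {Ψ₁ P : K[X]} {x y c : K}
    (hP : P = (X ^ q - C x) * (X - C (x ^ q)) + C (q : K) * Ψ₁) (h0 : P.eval y = 0)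
    (O : ValuationSubring K) (hb : vertB q x y c ∈ O) (ha : vertA q x y c ∈ O)
    {k : Type*} [Field k] (res : O →+* RatFunc k) {β ρ : k} (hβ : β ≠ 0)
    (hbres : res ⟨vertB q x y c, hb⟩ = RatFunc.C β * RatFunc.X)
    (hρm : -((q : K) * Ψ₁.eval y) / c ^ (q + 1) ∈ O)
    (hρres : res ⟨_, hρm⟩ = -RatFunc.C ρ) :
    res ⟨vertA q x y c, ha⟩ = -(RatFunc.C ρ / (RatFunc.C β * RatFunc.X)) := by
  have hT : (RatFunc.C β * RatFunc.X : RatFunc k) ≠ 0 :=
    mul_ne_zero (by rw [ne_eq, map_eq_zero]; exact hβ) RatFunc.X_ne_zero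
  have h1 : res ⟨vertA q x y c, ha⟩ * res ⟨vertB q x y c, hb⟩ = res ⟨_, hρm⟩ := by
    rw [← map_mul]
    congr 1
    apply Subtype.ext
    exact vertA_mul_vertB_at hP h0 c
  rw [hbres, hρres] at h1
  rw [← neg_div, eq_div_iff hT, h1]

end Glue

end Fermat.Agent.BR3.VertTaylorAt
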