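import Mathlib
import Fermat.Agent.BR3.VertTaylorAt

/-!
# Program C (S36), node (I5-VERT), twisted form: the vertical polynomial of a TWISTED univariate
Kronecker polynomial

Over `ℚ̄` the Kronecker congruence of the Hecke polynomial `P_g` of a level-`M` function `g`
(node (I5-KRON)) is twisted by Frobenius on the constants, as in `BR/CrossingTwisted` on main:

  `P = (Y^q - x₂) (Y - x₁^q) + ϖ Ψ₁`,   `Ψ₁ ∈ K[Y]` with integral coefficients, `P(y) = 0`,

with TWO base points `x₁` (the Frobenius untwist) and `x₂` (the twist) and a uniformizer `ϖ` of a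
finite-level constant ring instead of `q` (`x₁ = x₂`, `ϖ = q` is the rational case of
`BR3/VertTaylorAt.lean`).

* `vertPolyAt_eq_tw` : **the exact shape**
  `vertPolyAt P y = X^q + (y - x₁^q) X^(q-1) + (y^q - x₂) + q H₁ + ϖ (vertPolyAt Ψ₁ y)`;
* `vertScaledAt_eq_tw`, `vertA_mul_vertB_tw` : `a b = - ϖ Ψ₁(y) / c^(q+1)` with
  `b = (y - x₁^q)/c`, `a = (y^q - x₂)/c^q`;
* `vertScaledAt_coeff_sub_lt_tw`, `intCoeff_vertScaledAt_tw`, `res_coeff_vertScaledAt_tw` : the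
  reduction on the critical circle (`|q| < |c|^q` and `|ϖ| < |c|^q`);
* `exists_vertComponent_tw_of_eq`, `exists_vertComponent_tw` : the vertical component: the circle
  valuation `O` of `K` has exactly one extension `Z` to `L`, with residue field
  `AdjoinRoot (vertBar q β ρ)` (`e = 1`, `f = q`) — the same conclusion as
  `VertGlueMod.exists_vertComponent`;
* `res_vertA_of_res_prod_tw`.
-/

set_option autoImplicit false
set_option linter.unusedSectionVars false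

noncomputable section

namespace Fermat.Agent.BR3.VertTaylorTw

open Polynomial
open Fermat.Agent.BR.NodeNewton Fermat.Agent.BR3.VertTaylor Fermat.Agent.BR3.VertReduce
open Fermat.Agent.BR3.VertGlueAbs Fermat.Agent.BR3.VertResidue Fermat.Agent.BR3.VertTaylorAt
open Fermat.Agent.BR3.GaussExt Fermat.Agent.BR3.GaussExtSubring

variable {K : Type*} [Field K]

/-! ### the exact shape -/

/-- the binomial part of the error polynomial (coefficient `q`) -/
def vertH₁ (q : ℕ) (x₁ y : K) : K[X] := C y * binomCof q y * (X + C (y - x₁ ^ q))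

/-- **The exact shape of the vertical polynomial** of `P = (Y^q - x₂)(Y - x₁^q) + ϖ Ψ₁`. -/
theorem vertPolyAt_eq_tw {q : ℕ} (hq : q.Prime) {Ψ₁ P : K[X]} {x₁ x₂ ϖ : K}
    (hP : P = (X ^ q - C x₂) * (X - C (x₁ ^ q)) + C ϖ * Ψ₁) (y : K) :
    vertPolyAt P y =
      X ^ q + C (y - x₁ ^ q) * X ^ (q - 1) + C (y ^ q - x₂) + C (q : K) * vertH₁ q x₁ y +
        C ϖ * vertPolyAt Ψ₁ y := by
  have hq1 : q = (q - 1) + 1 := (Nat.succ_pred_eq_of_pos hq.pos).symm
  have hΨ := vertPolyAt_mul_X_add Ψ₁ y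
  have hXq : (X : K[X]) ^ q = X ^ (q - 1) * X := by rw [← pow_succ, ← hq1]
  have key : P.comp (X + C y) =
      (X ^ q + C (y - x₁ ^ q) * X ^ (q - 1) + C (y ^ q - x₂) + C (q : K) * vertH₁ q x₁ y +
        C ϖ * vertPolyAt Ψ₁ y) * X + C (P.eval y) := by
    have hval : P.eval y = (y ^ q - x₂) * (y - x₁ ^ q) + ϖ * Ψ₁.eval y := by
      rw [hP]
      simp
    rw [hval]
    conv_lhs => rw [hP]
    simp only [add_comp, mul_comp, sub_comp, pow_comp, X_comp, C_comp]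
    rw [← hΨ, add_pow_eq_binomCof hq y, vertH₁]
    have hnat : ((q : ℕ) : K[X]) = C (q : K) := by simp
    rw [hnat]
    simp only [C_sub, C_pow, C_mul, C_add]
    rw [hXq]
    ring
  rw [vertPolyAt, key, divX_mul_X_add_C]

theorem intCoeff_vertH₁ {Γ₀ : Type*} [LinearOrderedCommGroupWithZero Γ₀] {v : Valuation K Γ₀}
    (q : ℕ) {x₁ y : K} (hx : v x₁ ≤ 1) (hy : v y ≤ 1) : IntCoeff v (vertH₁ q x₁ y) := by
  have h1 : v (y - x₁ ^ q) ≤ 1 := by
    refine le_trans (v.map_sub _ _) (max_le hy ?_)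
    rw [map_pow]
    exact pow_le_one' hx q
  exact ((IntCoeff.C hy).mul (intCoeff_binomCof q hy)).mul (IntCoeff.X.add (IntCoeff.C h1))

theorem intCoeff_vertPolyAt {Γ₀ : Type*} [LinearOrderedCommGroupWithZero Γ₀] {v : Valuation K Γ₀}
    {Ψ₁ : K[X]} (hΨ : IntCoeff v Ψ₁) {y : K} (hy : v y ≤ 1) : IntCoeff v (vertPolyAt Ψ₁ y) :=
  intCoeff_divX (hΨ.comp (IntCoeff.X.add (IntCoeff.C hy)))

/-! ### the scaled vertical polynomial -/

/-- the small part of the scaled vertical polynomial -/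
def vertETw (Ψ₁ : K[X]) (q : ℕ) (x₁ y c ϖ : K) : K[X] :=
  C ((q : K) / c ^ q) * (vertH₁ q x₁ y).comp (C c * X) +
    C (ϖ / c ^ q) * (vertPolyAt Ψ₁ y).comp (C c * X)

/-- **The exact shape of the scaled vertical polynomial.** -/
theorem vertScaledAt_eq_tw {q : ℕ} (hq : q.Prime) {Ψ₁ P : K[X]} {x₁ x₂ ϖ : K}
    (hP : P = (X ^ q - C x₂) * (X - C (x₁ ^ q)) + C ϖ * Ψ₁) (y : K) {c : K} (hc : c ≠ 0) :
    vertScaledAt P q y c =
      X ^ q + C (vertB q x₁ y c) * X ^ (q - 1) + C (vertA q x₂ y c) + vertETw Ψ₁ q x₁ y c ϖ := by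
  have hq1 : q = (q - 1) + 1 := (Nat.succ_pred_eq_of_pos hq.pos).symm
  have hcq : c ^ q ≠ 0 := pow_ne_zero q hc
  rw [vertScaledAt, vertPolyAt_eq_tw hq hP, vertB, vertA, vertETw]
  simp only [add_comp, mul_comp, pow_comp, X_comp, C_comp, mul_pow, mul_add]
  have e1 : C (c ^ q)⁻¹ * ((C c) ^ q * X ^ q) = X ^ q := by
    rw [← mul_assoc, ← C_pow, ← C_mul, inv_mul_cancel₀ hcq, C_1, one_mul]
  have e2 : C (c ^ q)⁻¹ * (C (y - x₁ ^ q) * ((C c) ^ (q - 1) * X ^ (q - 1))) =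
      C ((y - x₁ ^ q) / c) * X ^ (q - 1) := by
    rw [← mul_assoc, ← mul_assoc, ← C_pow, ← C_mul, ← C_mul]
    congr 2
    have : c ^ q = c ^ (q - 1) * c := by rw [← pow_succ, ← hq1]
    rw [this]
    field_simp
  have e3 : C (c ^ q)⁻¹ * C (y ^ q - x₂) = C ((y ^ q - x₂) / c ^ q) := by
    rw [← C_mul]
    congr 1
    field_simp
  have e4 : C (c ^ q)⁻¹ * (C (q : K) * (vertH₁ q x₁ y).comp (C c * X)) =
      C ((q : K) / c ^ q) * (vertH₁ q x₁ y).comp (C c * X) := by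
    rw [← mul_assoc, ← C_mul]
    congr 2
    field_simp
  have e5 : C (c ^ q)⁻¹ * (C ϖ * (vertPolyAt Ψ₁ y).comp (C c * X)) =
      C (ϖ / c ^ q) * (vertPolyAt Ψ₁ y).comp (C c * X) := by
    rw [← mul_assoc, ← C_mul]
    congr 2
    field_simp
  rw [e1, e2, e3, e4, e5]
  ring

/-- `a b = - ϖ Ψ₁(y) / c^(q+1)` at a zero of `P`. -/
theorem vertA_mul_vertB_tw {q : ℕ} {Ψ₁ P : K[X]} {x₁ x₂ ϖ y : K}
    (hP : P = (X ^ q - C x₂) * (X - C (x₁ ^ q)) + C ϖ * Ψ₁) (h0 : P.eval y = 0) (c : K) :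
    vertA q x₂ y c * vertB q x₁ y c = -(ϖ * Ψ₁.eval y) / c ^ (q + 1) := by
  have hval : P.eval y = (y ^ q - x₂) * (y - x₁ ^ q) + ϖ * Ψ₁.eval y := by
    rw [hP]
    simp
  rw [h0] at hval
  have h1 : (y ^ q - x₂) * (y - x₁ ^ q) = -(ϖ * Ψ₁.eval y) := by
    linear_combination -hval
  rw [vertA, vertB, div_mul_div_comm, h1, pow_succ]

/-! ### the reduction on the critical circle -/

section Reduction

variable {Γ₀ : Type*} [LinearOrderedCommGroupWithZero Γ₀] {v : Valuation K Γ₀}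

/-- **All coefficients of the small part have size `< 1`** when `|q| < |c|^q`, `|ϖ| < |c|^q`,
`|c| ≤ 1`. -/
theorem vertETw_coeff_lt {Ψ₁ : K[X]} (hΨ : IntCoeff v Ψ₁) (q : ℕ) {x₁ y c ϖ : K} (hx : v x₁ ≤ 1)
    (hy : v y ≤ 1) (hc1 : v c ≤ 1) (hc : c ≠ 0) (hqc : v (q : K) < v c ^ q)
    (hϖc : v ϖ < v c ^ q) (n : ℕ) : v ((vertETw Ψ₁ q x₁ y c ϖ).coeff n) < 1 := by
  have hint1 : IntCoeff v ((vertH₁ q x₁ y).comp (C c * X)) :=
    (intCoeff_vertH₁ q hx hy).comp ((IntCoeff.C hc1).mul IntCoeff.X)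
  have hint2 : IntCoeff v ((vertPolyAt Ψ₁ y).comp (C c * X)) :=
    (intCoeff_vertPolyAt hΨ hy).comp ((IntCoeff.C hc1).mul IntCoeff.X)
  have hcq : v (c ^ q) ≠ 0 := by
    rw [ne_eq, Valuation.zero_iff]
    exact pow_ne_zero q hc
  have h1 : v ((q : K) / c ^ q) < 1 := by
    rw [map_div₀, div_lt_one₀ (zero_lt_iff.mpr hcq), map_pow]
    exact hqc
  have h2 : v (ϖ / c ^ q) < 1 := by
    rw [map_div₀, div_lt_one₀ (zero_lt_iff.mpr hcq), map_pow]
    exact hϖc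
  rw [vertETw, coeff_add, coeff_C_mul, coeff_C_mul]
  refine lt_of_le_of_lt (v.map_add _ _) (max_lt ?_ ?_)
  · rw [map_mul]
    calc v ((q : K) / c ^ q) * v (((vertH₁ q x₁ y).comp (C c * X)).coeff n)
        ≤ v ((q : K) / c ^ q) * 1 := mul_le_mul' le_rfl (hint1 n)
      _ = v ((q : K) / c ^ q) := mul_one _
      _ < 1 := h1
  · rw [map_mul]
    calc v (ϖ / c ^ q) * v (((vertPolyAt Ψ₁ y).comp (C c * X)).coeff n)
        ≤ v (ϖ / c ^ q) * 1 := mul_le_mul' le_rfl (hint2 n)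
      _ = v (ϖ / c ^ q) := mul_one _
      _ < 1 := h2

/-- **The reduction of the scaled vertical polynomial on the critical circle**: all coefficients
of `vertScaledAt - (X^q + b X^(q-1) + a)` have size `< 1`. -/
theorem vertScaledAt_coeff_sub_lt_tw {q : ℕ} (hq : q.Prime) {Ψ₁ P : K[X]} {x₁ x₂ ϖ : K}
    (hP : P = (X ^ q - C x₂) * (X - C (x₁ ^ q)) + C ϖ * Ψ₁) (hΨ : IntCoeff v Ψ₁)
    {y c : K} (hx : v x₁ ≤ 1) (hy : v y ≤ 1) (hc1 : v c ≤ 1) (hc : c ≠ 0)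
    (hqc : v (q : K) < v c ^ q) (hϖc : v ϖ < v c ^ q) (n : ℕ) :
    v ((vertScaledAt P q y c -
      (X ^ q + C (vertB q x₁ y c) * X ^ (q - 1) + C (vertA q x₂ y c))).coeff n) < 1 := by
  rw [vertScaledAt_eq_tw hq hP y hc, add_sub_cancel_left]
  exact vertETw_coeff_lt hΨ q hx hy hc1 hc hqc hϖc n

/-- the scaled vertical polynomial has integral coefficients on the critical circle -/
theorem intCoeff_vertScaledAt_tw {q : ℕ} (hq : q.Prime) {Ψ₁ P : K[X]} {x₁ x₂ ϖ : K}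
    (hP : P = (X ^ q - C x₂) * (X - C (x₁ ^ q)) + C ϖ * Ψ₁) (hΨ : IntCoeff v Ψ₁)
    {y c : K} (hx : v x₁ ≤ 1) (hy : v y ≤ 1) (hc1 : v c ≤ 1) (hc : c ≠ 0)
    (hqc : v (q : K) < v c ^ q) (hϖc : v ϖ < v c ^ q) (hb : v (vertB q x₁ y c) ≤ 1)
    (ha : v (vertA q x₂ y c) ≤ 1) : IntCoeff v (vertScaledAt P q y c) := by
  rw [vertScaledAt_eq_tw hq hP y hc]
  refine (((IntCoeff.X.pow q).add ((IntCoeff.C hb).mul (IntCoeff.X.pow _))).add
    (IntCoeff.C ha)).add fun n => ?_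
  exact le_of_lt (vertETw_coeff_lt hΨ q hx hy hc1 hc hqc hϖc n)

/-- **The coefficientwise reduction of the scaled vertical polynomial on the critical circle.** -/
theorem res_coeff_vertScaledAt_tw {κ : Type*} [Field κ] (res : v.integer →+* κ)
    (hres : ∀ a : v.integer, res a = 0 ↔ v (a : K) < 1) {q : ℕ} (hq : q.Prime) {Ψ₁ P : K[X]}
    {x₁ x₂ ϖ : K} (hP : P = (X ^ q - C x₂) * (X - C (x₁ ^ q)) + C ϖ * Ψ₁) (hΨ : IntCoeff v Ψ₁)
    {y c : K} (hx : v x₁ ≤ 1) (hy : v y ≤ 1) (hc1 : v c ≤ 1) (hc : c ≠ 0)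
    (hqc : v (q : K) < v c ^ q) (hϖc : v ϖ < v c ^ q) (hb : v (vertB q x₁ y c) ≤ 1)
    (ha : v (vertA q x₂ y c) ≤ 1) (n : ℕ) (hn : v ((vertScaledAt P q y c).coeff n) ≤ 1) :
    res ⟨(vertScaledAt P q y c).coeff n, hn⟩ =
      (X ^ q + C (res ⟨vertB q x₁ y c, hb⟩) * X ^ (q - 1) +
        C (res ⟨vertA q x₂ y c, ha⟩) : κ[X]).coeff n := by
  have hm : v ((X ^ q + C (vertB q x₁ y c) * X ^ (q - 1) + C (vertA q x₂ y c) : K[X]).coeff n)
      ≤ 1 := intCoeff_model hb ha n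
  have h1 := res_eq_of_sub_lt res hres hn hm (by
    rw [← coeff_sub]
    exact vertScaledAt_coeff_sub_lt_tw hq hP hΨ hx hy hc1 hc hqc hϖc n)
  rw [h1]
  conv_rhs => rw [coeff_model]
  have e : (⟨(X ^ q + C (vertB q x₁ y c) * X ^ (q - 1) + C (vertA q x₂ y c) : K[X]).coeff n, hm⟩ :
      v.integer) = (if n = q then 1 else 0) + (if n = q - 1 then ⟨vertB q x₁ y c, hb⟩ else 0) +
        (if n = 0 then ⟨vertA q x₂ y c, ha⟩ else 0) := by
    apply Subtype.ext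
    show (X ^ q + C (vertB q x₁ y c) * X ^ (q - 1) + C (vertA q x₂ y c) : K[X]).coeff n = _
    rw [coeff_model]
    split_ifs <;> simp
  rw [e, map_add, map_add]
  split_ifs <;> simp

end Reduction

/-! ### the vertical component -/

section Glue

variable {L : Type*} [Field L] [Algebra K L] [FiniteDimensional K L]

/-- The vertical component for a twisted `(P, x₁, x₂, y)`, for a residue polynomial given up to
equality. -/
theorem exists_vertComponent_tw_of_eq {q : ℕ} (hq : q.Prime)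
    (hfin : Module.finrank K L = q) {Ψ₁ P : K[X]} {x₁ x₂ y c ϖ : K} {U : L}
    (hP : P = (X ^ q - C x₂) * (X - C (x₁ ^ q)) + C ϖ * Ψ₁)
    (hmon : P.Monic) (hdeg : P.natDegree = q + 1) (h0 : P.eval y = 0)
    (h1 : aeval (algebraMap K L y + U) P = 0) (hU : U ∉ Set.range (algebraMap K L))
    (hc : c ≠ 0) (O : ValuationSubring K) (hΨ : IntCoeff O.valuation Ψ₁) (hx : x₁ ∈ O)
    (hy : y ∈ O) (hc1 : c ∈ O) (hqc : O.valuation (q : K) < O.valuation c ^ q)
    (hϖc : O.valuation ϖ < O.valuation c ^ q)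
    (hb : vertB q x₁ y c ∈ O) (ha : vertA q x₂ y c ∈ O)
    {κ : Type*} [Field κ] (res : O →+* κ) (hres : ∀ a : O, res a = 0 ↔ ¬ IsUnit a)
    (hsurj : Function.Surjective res) (Pbar : κ[X])
    (hPbar : X ^ q + C (res ⟨vertB q x₁ y c, hb⟩) * X ^ (q - 1) +
      C (res ⟨vertA q x₂ y c, ha⟩) = Pbar)
    (hirr : Irreducible Pbar) :
    ∃ (Z : ValuationSubring L) (resZ : Z →+* AdjoinRoot Pbar),
      Z.comap (algebraMap K L) = O ∧
      (∀ B : ValuationSubring L, B.comap (algebraMap K L) = O → B = Z) ∧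
      Function.Surjective resZ ∧ (∀ z : Z, resZ z = 0 ↔ ¬ IsUnit z) ∧
      (∀ (a : O) (h : algebraMap K L (a : K) ∈ Z),
        resZ ⟨algebraMap K L (a : K), h⟩ = AdjoinRoot.of Pbar (res a)) ∧
      ∃ hθ : U / algebraMap K L c ∈ Z, resZ ⟨U / algebraMap K L c, hθ⟩ = AdjoinRoot.root Pbar := by
  obtain ⟨hmin, htop⟩ := minpoly_theta_at hq hfin hmon hdeg h0 h1 hU hc
  set pb : PowerBasis K L :=
    powerBasisOfAdjoinEqTop (θ := U / algebraMap K L c) (Algebra.IsIntegral.isIntegral _) htop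
    with hpb
  have hgen : pb.gen = U / algebraMap K L c := powerBasisOfAdjoinEqTop_gen _ _
  have hminpb : minpoly K pb.gen = vertScaledAt P q y c := by rw [hgen, hmin]
  have hx' := (O.valuation_le_one_iff _).mpr hx
  have hy' := (O.valuation_le_one_iff _).mpr hy
  have hc1' := (O.valuation_le_one_iff _).mpr hc1
  have hb' := (O.valuation_le_one_iff _).mpr hb
  have ha' := (O.valuation_le_one_iff _).mpr ha
  have hsc : ∀ i, (vertScaledAt P q y c).coeff i ∈ O := fun i =>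
    (O.valuation_le_one_iff _).mp
      (intCoeff_vertScaledAt_tw hq hP hΨ hx' hy' hc1' hc hqc hϖc hb' ha' i)
  have hint : ∀ i, (minpoly K pb.gen).coeff i ∈ O := fun i => by
    rw [hminpb]
    exact hsc i
  have hcoeff : ∀ i, res ⟨(minpoly K pb.gen).coeff i, hint i⟩ = Pbar.coeff i := fun i => by
    have h2 : res ⟨(vertScaledAt P q y c).coeff i, hsc i⟩ = Pbar.coeff i := by
      rw [← hPbar]
      exact res_coeff_vertScaledAt_tw (resInt O res) (resInt_eq_zero_iff O res hres) hq hP hΨ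
        hx' hy' hc1' hc hqc hϖc hb' ha' i ((O.valuation_le_one_iff _).mpr (hsc i))
    rw [← h2]
    congr 1
    apply Subtype.ext
    show (minpoly K pb.gen).coeff i = _
    rw [hminpb]
  refine ⟨extSubring O pb hint res hres Pbar hcoeff hirr,
    extRes O pb hint res hres Pbar hcoeff hirr, comap_extSubring _ _ _ _ _ _ _ _,
    extSubring_unique _ _ _ _ _ _ _ _, extRes_surjective _ _ _ _ _ _ _ _ hsurj,
    extRes_eq_zero_iff _ _ _ _ _ _ _ _, fun a _ => extRes_algebraMap _ _ _ _ _ _ _ _ a, ?_⟩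
  have hmem := gen_mem_extSubring O pb hint res hres Pbar hcoeff hirr
  have hres' := extRes_gen O pb hint res hres Pbar hcoeff hirr
  have hmem' : U / algebraMap K L c ∈ extSubring O pb hint res hres Pbar hcoeff hirr := by
    rw [← hgen]
    exact hmem
  refine ⟨hmem', ?_⟩
  rw [← hres']
  congr 1

/-- **The vertical component over a critical circle, for a TWISTED univariate Kronecker
polynomial** `P = (Y^q - x₂)(Y - x₁^q) + ϖ Ψ₁` with the two roots `y ∈ K`, `y + U`, `U ∈ L ∖ K`: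
if the circle valuation `O` of `K` with residue field `k(T)` satisfies `|q|, |ϖ| < |c|^q`,
`res ((y - x₁^q)/c) = β T` and `res ((y^q - x₂)/c^q) = - ρ / (β T)` with `β, ρ ∈ kˣ`, then `O`
has exactly one extension `Z` to `L`; its residue field is
`k(T)[Ũ] / (Ũ^q + β T Ũ^(q-1) - ρ/(β T))`, `Ũ` the residue of `U / c` (`e = 1`, `f = q`). -/
theorem exists_vertComponent_tw {q : ℕ} (hq : q.Prime)
    (hfin : Module.finrank K L = q) {Ψ₁ P : K[X]} {x₁ x₂ y c ϖ : K} {U : L}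
    (hP : P = (X ^ q - C x₂) * (X - C (x₁ ^ q)) + C ϖ * Ψ₁)
    (hmon : P.Monic) (hdeg : P.natDegree = q + 1) (h0 : P.eval y = 0)
    (h1 : aeval (algebraMap K L y + U) P = 0) (hU : U ∉ Set.range (algebraMap K L))
    (hc : c ≠ 0) (O : ValuationSubring K) (hΨ : IntCoeff O.valuation Ψ₁) (hx : x₁ ∈ O)
    (hy : y ∈ O) (hc1 : c ∈ O) (hqc : O.valuation (q : K) < O.valuation c ^ q)
    (hϖc : O.valuation ϖ < O.valuation c ^ q)
    (hb : vertB q x₁ y c ∈ O) (ha : vertA q x₂ y c ∈ O)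
    {k : Type*} [Field k] (res : O →+* RatFunc k) (hres : ∀ a : O, res a = 0 ↔ ¬ IsUnit a)
    (hsurj : Function.Surjective res) {β ρ : k} (hβ : β ≠ 0) (hρ : ρ ≠ 0)
    (hbres : res ⟨vertB q x₁ y c, hb⟩ = RatFunc.C β * RatFunc.X)
    (hares : res ⟨vertA q x₂ y c, ha⟩ = -(RatFunc.C ρ / (RatFunc.C β * RatFunc.X))) :
    ∃ (Z : ValuationSubring L) (resZ : Z →+* AdjoinRoot (vertBar q β ρ)),
      Z.comap (algebraMap K L) = O ∧
      (∀ B : ValuationSubring L, B.comap (algebraMap K L) = O → B = Z) ∧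
      Function.Surjective resZ ∧ (∀ z : Z, resZ z = 0 ↔ ¬ IsUnit z) ∧
      (∀ (a : O) (h : algebraMap K L (a : K) ∈ Z),
        resZ ⟨algebraMap K L (a : K), h⟩ = AdjoinRoot.of (vertBar q β ρ) (res a)) ∧
      ∃ hθ : U / algebraMap K L c ∈ Z,
        resZ ⟨U / algebraMap K L c, hθ⟩ = AdjoinRoot.root (vertBar q β ρ) :=
  exists_vertComponent_tw_of_eq hq hfin hP hmon hdeg h0 h1 hU hc O hΨ hx hy hc1 hqc hϖc hb ha res
    hres hsurj (vertBar q β ρ) (by rw [hbres, hares, vertBar])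
    (vertBar_irreducible hq.two_le hβ hρ)

omit [FiniteDimensional K L] in
/-- The constant residue from the product: if `res (- ϖ Ψ₁(y) / c^(q+1)) = - ρ` and
`res b = β T` then `res a = - ρ / (β T)`. -/
theorem res_vertA_of_res_prod_tw {q : ℕ} {Ψ₁ P : K[X]} {x₁ x₂ y c ϖ : K}
    (hP : P = (X ^ q - C x₂) * (X - C (x₁ ^ q)) + C ϖ * Ψ₁) (h0 : P.eval y = 0)
    (O : ValuationSubring K) (hb : vertB q x₁ y c ∈ O) (ha : vertA q x₂ y c ∈ O)
    {k : Type*} [Field k] (res : O →+* RatFunc k) {β ρ : k} (hβ : β ≠ 0)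
    (hbres : res ⟨vertB q x₁ y c, hb⟩ = RatFunc.C β * RatFunc.X)
    (hρm : -(ϖ * Ψ₁.eval y) / c ^ (q + 1) ∈ O)
    (hρres : res ⟨_, hρm⟩ = -RatFunc.C ρ) :
    res ⟨vertA q x₂ y c, ha⟩ = -(RatFunc.C ρ / (RatFunc.C β * RatFunc.X)) := by
  have hT : (RatFunc.C β * RatFunc.X : RatFunc k) ≠ 0 :=
    mul_ne_zero (by rw [ne_eq, map_eq_zero]; exact hβ) RatFunc.X_ne_zero
  have h1 : res ⟨vertA q x₂ y c, ha⟩ * res ⟨vertB q x₁ y c, hb⟩ = res ⟨_, hρm⟩ := by
    rw [← map_mul]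
    congr 1
    apply Subtype.ext
    exact vertA_mul_vertB_tw hP h0 c
  rw [hbres, hρres] at h1
  rw [← neg_div, eq_div_iff hT, h1]

end Glue

end Fermat.Agent.BR3.VertTaylorTw
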