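import Mathlib
import Fermat.Prelude.Def_AlgebraicCurve_DivisorClassGroup
import Fermat.Agent.BR3.VertTaylorTw

/-!
# Program C (S36), node (I5-MID), part (B): the residue of `U / ϖ₀` on a middle valuation, from
the vertical polynomial alone

`L / K` fields, `w` a valuation subring of `L` with residue map `rw : w →+* κ'` (kernel = the
non-units), `U ∈ L` a root of a monic `Ψ = X^(m+2) + c_(m+1) X^(m+1) + … + c₀ ∈ K[X]` whose
coefficients satisfy (sizes with respect to `w`): `|c_(m+1)| = 1`, `|c_i| ≤ |π|` (`1 ≤ i ≤ m`),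
`|c₀| = |π| < 1`.  This is the Newton polygon of the vertical polynomial `vertPolyAt P y` over the
component 'can' (`π = q`): one root of size `1` (the split sheet) and `m + 1 = q - 1` roots of size
`|π|^(1/(m+1))` (the middle components).

* `valuation_pow_eq_of_lt_one` : if `|U| < 1` then `|U|^(m+1) = |π|`;
* `valuation_div_eq_one` : if moreover `|ϖ₀|^(m+1) = |π|` then `V = U / ϖ₀` is a unit of `w`;
* `Red`, a relation 'the element `z` of `L` lies in `w` and has residue `r`', with its calculus;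
* `red_equation` : `res(c_(m+1)) · res(V)^(m+1) + res(c₀ / ϖ₀^(m+1)) = 0`;
* `pow_residue_mul_sq` : for `Ψ = vertPolyAt P y`, `P = (Y^q - x₂)(Y - x₁^q) + ϖ Ψ₁` (the twisted
  Kronecker shape of `BR3/VertTaylorTw.lean`), `Bc = y - x₁^q`, `R = ϖ Ψ₁(y) / q`
  (`A · Bc = - q R`), `h = H₁(0) + (ϖ/q) D(0)`:
  `res(V)^(q-1) · res(Bc)² = res(q / ϖ₀^(q-1)) · (res R - res Bc · res h)`
  — the `f`-version of `FibreProd.thetaL_pow_mul_sq`, with no `q`-expansion;
* `ord_eq_neg_two` : the local consequence `ord_e γ = -2` (thickness one).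
-/

set_option autoImplicit false
set_option linter.unusedSectionVars false

noncomputable section

namespace Fermat.Agent.BR3.MidKummerAbs

open Polynomial
open Fermat.Agent.BR.NodeNewton Fermat.Agent.BR3.VertTaylor Fermat.Agent.BR3.VertTaylorAt
open Fermat.Agent.BR3.VertTaylorTw

variable {K L : Type*} [Field K] [Field L] [Algebra K L] (w : ValuationSubring L)

/-! ### the size of `U` -/

section Size

variable {m : ℕ} {Ψ : K[X]} {U : L} {π : K}

/-- the expansion of `Ψ(U)` for a monic `Ψ` of degree `m + 2` -/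
theorem aeval_eq_of_monic (hmon : Ψ.Monic) (hdeg : Ψ.natDegree = m + 2) (U : L) :
    aeval U Ψ = algebraMap K L (Ψ.coeff 0) +
      ∑ i ∈ Finset.range m, algebraMap K L (Ψ.coeff (i + 1)) * U ^ (i + 1) +
      algebraMap K L (Ψ.coeff (m + 1)) * U ^ (m + 1) + U ^ (m + 2) := by
  have hlead : Ψ.coeff (m + 2) = 1 := by
    have := hmon
    rwa [Monic, leadingCoeff, hdeg] at this
  rw [aeval_eq_sum_range, hdeg, Finset.sum_range_succ, Finset.sum_range_succ,
    Finset.sum_range_succ', hlead, one_smul, Algebra.smul_def, Algebra.smul_def, pow_zero,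
    mul_one]
  have h : ∑ i ∈ Finset.range m, Ψ.coeff (i + 1) • U ^ (i + 1) =
      ∑ i ∈ Finset.range m, algebraMap K L (Ψ.coeff (i + 1)) * U ^ (i + 1) :=
    Finset.sum_congr rfl fun i _ => Algebra.smul_def _ _
  rw [h]
  ring

/-- **The size of a small root.** If `|U| < 1` then `|U|^(m+1) = |π|`. -/
theorem valuation_pow_eq_of_lt_one (hmon : Ψ.Monic) (hdeg : Ψ.natDegree = m + 2)
    (hroot : aeval U Ψ = 0) (hU : w.valuation U < 1)
    (h1 : w.valuation (algebraMap K L (Ψ.coeff (m + 1))) = 1)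
    (h2 : ∀ i, i < m →
      w.valuation (algebraMap K L (Ψ.coeff (i + 1))) ≤ w.valuation (algebraMap K L π))
    (h3 : w.valuation (algebraMap K L (Ψ.coeff 0)) = w.valuation (algebraMap K L π))
    (hπ0 : π ≠ 0) : w.valuation U ^ (m + 1) = w.valuation (algebraMap K L π) := by
  set v := w.valuation with hv
  have hπv : v (algebraMap K L π) ≠ 0 := by
    rw [ne_eq, Valuation.zero_iff, map_eq_zero]
    exact hπ0
  have hexp := aeval_eq_of_monic hmon hdeg U
  rw [hroot] at hexp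
  -- the middle sum is smaller than `|π|`
  have hmid : v (∑ i ∈ Finset.range m, algebraMap K L (Ψ.coeff (i + 1)) * U ^ (i + 1)) <
      v (algebraMap K L π) := by
    refine Valuation.map_sum_lt v hπv fun i hi => ?_
    rw [map_mul, map_pow]
    have hUp : v U ^ (i + 1) < 1 := pow_lt_one' hU (Nat.succ_ne_zero i)
    calc v (algebraMap K L (Ψ.coeff (i + 1))) * v U ^ (i + 1)
        ≤ v (algebraMap K L π) * v U ^ (i + 1) :=
          mul_le_mul' (h2 i (Finset.mem_range.mp hi)) le_rfl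
      _ < v (algebraMap K L π) * 1 := by
          exact mul_lt_mul_of_pos_left hUp (zero_lt_iff.mpr hπv)
      _ = v (algebraMap K L π) := mul_one _
  -- the low part has size `|π|`
  have hlow : v (algebraMap K L (Ψ.coeff 0) +
      ∑ i ∈ Finset.range m, algebraMap K L (Ψ.coeff (i + 1)) * U ^ (i + 1)) =
      v (algebraMap K L π) := by
    rw [Valuation.map_add_eq_of_lt_left v (by rw [h3]; exact hmid), h3]
  -- the high part is `U^(m+1) (c + U)`
  have hhigh : algebraMap K L (Ψ.coeff (m + 1)) * U ^ (m + 1) + U ^ (m + 2) =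
      U ^ (m + 1) * (algebraMap K L (Ψ.coeff (m + 1)) + U) := by ring
  have hcU : v (algebraMap K L (Ψ.coeff (m + 1)) + U) = 1 := by
    rw [Valuation.map_add_eq_of_lt_left v (by rw [h1]; exact hU), h1]
  have hsum : algebraMap K L (Ψ.coeff (m + 1)) * U ^ (m + 1) + U ^ (m + 2) =
      -(algebraMap K L (Ψ.coeff 0) +
        ∑ i ∈ Finset.range m, algebraMap K L (Ψ.coeff (i + 1)) * U ^ (i + 1)) := by
    linear_combination -hexp
  have := congrArg v hsum
  rw [hhigh, map_mul, map_pow, hcU, mul_one, Valuation.map_neg, hlow] at this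
  exact this

/-- `V = U / ϖ₀` has size `1` when `|ϖ₀|^(m+1) = |π|`. -/
theorem valuation_div_eq_one (hmon : Ψ.Monic) (hdeg : Ψ.natDegree = m + 2)
    (hroot : aeval U Ψ = 0) (hU : w.valuation U < 1)
    (h1 : w.valuation (algebraMap K L (Ψ.coeff (m + 1))) = 1)
    (h2 : ∀ i, i < m →
      w.valuation (algebraMap K L (Ψ.coeff (i + 1))) ≤ w.valuation (algebraMap K L π))
    (h3 : w.valuation (algebraMap K L (Ψ.coeff 0)) = w.valuation (algebraMap K L π))
    (hπ0 : π ≠ 0) {ϖ₀ : K}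
    (hϖ₀ : w.valuation (algebraMap K L ϖ₀) ^ (m + 1) = w.valuation (algebraMap K L π)) :
    w.valuation (U / algebraMap K L ϖ₀) = 1 := by
  have h := valuation_pow_eq_of_lt_one w hmon hdeg hroot hU h1 h2 h3 hπ0
  rw [← hϖ₀] at h
  have heq : w.valuation U = w.valuation (algebraMap K L ϖ₀) :=
    (pow_left_inj₀ zero_le zero_le (Nat.succ_ne_zero m)).mp h
  have hne : w.valuation (algebraMap K L ϖ₀) ≠ 0 := by
    intro h0
    rw [h0, zero_pow (Nat.succ_ne_zero m)] at hϖ₀
    rw [eq_comm, Valuation.zero_iff, map_eq_zero] at hϖ₀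
    exact hπ0 hϖ₀
  rw [map_div₀, heq, div_self hne]

end Size

/-! ### residues -/

section Red

variable {κ' : Type*} [Field κ'] (rw : w →+* κ')

/-- `z ∈ L` lies in `w` and has residue `r`. -/
def Red (z : L) (r : κ') : Prop := ∃ h : z ∈ w, rw ⟨z, h⟩ = r

variable {w rw}

theorem Red.mem {z : L} {r : κ'} (h : Red w rw z r) : z ∈ w := h.1

theorem Red.add {z z' : L} {r r' : κ'} (h : Red w rw z r) (h' : Red w rw z' r') :
    Red w rw (z + z') (r + r') := by
  obtain ⟨hz, hr⟩ := h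
  obtain ⟨hz', hr'⟩ := h'
  refine ⟨w.add_mem _ _ hz hz', ?_⟩
  rw [← hr, ← hr', ← map_add]
  rfl

theorem Red.mul {z z' : L} {r r' : κ'} (h : Red w rw z r) (h' : Red w rw z' r') :
    Red w rw (z * z') (r * r') := by
  obtain ⟨hz, hr⟩ := h
  obtain ⟨hz', hr'⟩ := h'
  refine ⟨w.mul_mem _ _ hz hz', ?_⟩
  rw [← hr, ← hr', ← map_mul]
  rfl

theorem Red.neg {z : L} {r : κ'} (h : Red w rw z r) : Red w rw (-z) (-r) := by
  obtain ⟨hz, hr⟩ := h
  refine ⟨w.neg_mem _ hz, ?_⟩
  rw [← hr, ← map_neg]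
  rfl

theorem Red.sub {z z' : L} {r r' : κ'} (h : Red w rw z r) (h' : Red w rw z' r') :
    Red w rw (z - z') (r - r') := by
  rw [sub_eq_add_neg, sub_eq_add_neg]
  exact h.add h'.neg

theorem Red.pow {z : L} {r : κ'} (h : Red w rw z r) (n : ℕ) : Red w rw (z ^ n) (r ^ n) := by
  induction n with
  | zero =>
    rw [pow_zero, pow_zero]
    exact ⟨w.one_mem, map_one rw⟩
  | succ n ih =>
    rw [pow_succ, pow_succ]
    exact ih.mul h

theorem Red.unique {z : L} {r r' : κ'} (h : Red w rw z r) (h' : Red w rw z r') : r = r' := by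
  obtain ⟨hz, hr⟩ := h
  obtain ⟨hz', hr'⟩ := h'
  rw [← hr, ← hr']

theorem Red.congr {z z' : L} {r : κ'} (h : Red w rw z r) (hzz' : z = z') : Red w rw z' r :=
  hzz' ▸ h

/-- an element of size `< 1` has residue `0` -/
theorem Red.of_lt_one (hrw : ∀ z : w, rw z = 0 ↔ ¬ IsUnit z) {z : L}
    (hz : w.valuation z < 1) : Red w rw z 0 := by
  have hmem : z ∈ w := (w.valuation_le_one_iff z).mp hz.le
  refine ⟨hmem, (hrw _).mpr ?_⟩
  intro hu
  have := (w.valuation_eq_one_iff ⟨z, hmem⟩).mp hu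
  exact absurd this hz.ne

/-- two elements whose difference has size `< 1` have the same residue -/
theorem Red.of_sub_lt_one (hrw : ∀ z : w, rw z = 0 ↔ ¬ IsUnit z) {z z' : L} {r : κ'}
    (h : Red w rw z r) (hz : w.valuation (z' - z) < 1) : Red w rw z' r := by
  have h0 := Red.of_lt_one (rw := rw) hrw hz
  have := h.add h0
  rw [add_zero] at this
  exact this.congr (by ring)

end Red

/-! ### the residue equation -/

section Equation

variable {κ' : Type*} [Field κ'] {rw : w →+* κ'} (hrw : ∀ z : w, rw z = 0 ↔ ¬ IsUnit z)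
variable {m : ℕ} {Ψ : K[X]} {U : L} {π ϖ₀ : K}

include hrw in
/-- **The residue equation**: `res(c_(m+1)) · res(V)^(m+1) + res(c₀ / ϖ₀^(m+1)) = 0`,
`V = U / ϖ₀`. -/
theorem red_equation (hmon : Ψ.Monic) (hdeg : Ψ.natDegree = m + 2) (hroot : aeval U Ψ = 0)
    (h2 : ∀ i, i < m →
      w.valuation (algebraMap K L (Ψ.coeff (i + 1))) ≤ w.valuation (algebraMap K L π))
    (hπ0 : π ≠ 0) (hπ1 : w.valuation (algebraMap K L π) < 1)
    (hϖ₀ : w.valuation (algebraMap K L ϖ₀) ^ (m + 1) = w.valuation (algebraMap K L π))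
    {a b t : κ'} (ha : Red w rw (algebraMap K L (Ψ.coeff (m + 1))) a)
    (hb : Red w rw (algebraMap K L (Ψ.coeff 0) / algebraMap K L ϖ₀ ^ (m + 1)) b)
    (ht : Red w rw (U / algebraMap K L ϖ₀) t) : a * t ^ (m + 1) + b = 0 := by
  set v := w.valuation with hv
  set p := algebraMap K L ϖ₀ with hp
  set V := U / p with hVdef
  have hpv0 : v p ≠ 0 := by
    intro h0
    rw [h0, zero_pow (Nat.succ_ne_zero m)] at hϖ₀
    rw [eq_comm, Valuation.zero_iff, map_eq_zero] at hϖ₀
    exact hπ0 hϖ₀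
  have hp0 : p ≠ 0 := by
    intro h0
    rw [h0, map_zero] at hpv0
    exact hpv0 rfl
  have hpv1 : v p < 1 := by
    by_contra hcon
    rw [not_lt] at hcon
    have : (1 : w.ValueGroup) ≤ v p ^ (m + 1) := one_le_pow_of_one_le' hcon _
    rw [hϖ₀] at this
    exact absurd hπ1 (not_lt.mpr this)
  have hVv : v V ≤ 1 := (w.valuation_le_one_iff _).mpr ht.mem
  have hU : U = p * V := by rw [hVdef, mul_div_cancel₀ _ hp0]
  -- the expansion divided by `p^(m+1)`
  have hexp := aeval_eq_of_monic hmon hdeg U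
  rw [hroot] at hexp
  have hpm : p ^ (m + 1) ≠ 0 := pow_ne_zero _ hp0
  -- the small part
  set S : L := p * V ^ (m + 2) +
    ∑ i ∈ Finset.range m, algebraMap K L (Ψ.coeff (i + 1)) * p ^ (i + 1) / p ^ (m + 1) *
      V ^ (i + 1) with hS
  have hkey : algebraMap K L (Ψ.coeff (m + 1)) * V ^ (m + 1) +
      algebraMap K L (Ψ.coeff 0) / p ^ (m + 1) = -S := by
    have h1 : ∑ i ∈ Finset.range m, algebraMap K L (Ψ.coeff (i + 1)) * U ^ (i + 1) =
        p ^ (m + 1) * ∑ i ∈ Finset.range m,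
          algebraMap K L (Ψ.coeff (i + 1)) * p ^ (i + 1) / p ^ (m + 1) * V ^ (i + 1) := by
      rw [Finset.mul_sum]
      refine Finset.sum_congr rfl fun i _ => ?_
      rw [hU, mul_pow]
      field_simp
    rw [h1, hU] at hexp
    have h3 : p ^ (m + 1) * (algebraMap K L (Ψ.coeff (m + 1)) * V ^ (m + 1) +
        algebraMap K L (Ψ.coeff 0) / p ^ (m + 1) + S) = 0 := by
      rw [hS]
      have e1 : p ^ (m + 1) * (algebraMap K L (Ψ.coeff 0) / p ^ (m + 1)) =
          algebraMap K L (Ψ.coeff 0) := by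
        field_simp
      rw [mul_add, mul_add, e1]
      linear_combination -hexp
    have h4 := (mul_eq_zero.mp h3).resolve_left hpm
    linear_combination h4
  -- `S` has size `< 1`
  have hSv : v S < 1 := by
    rw [hS]
    refine lt_of_le_of_lt (v.map_add _ _) (max_lt ?_ ?_)
    · rw [map_mul, map_pow]
      calc v p * v V ^ (m + 2) ≤ v p * 1 :=
            mul_le_mul' le_rfl (pow_le_one' hVv _)
        _ = v p := mul_one _
        _ < 1 := hpv1
    · refine Valuation.map_sum_lt v one_ne_zero fun i hi => ?_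
      rw [map_mul, map_div₀, map_mul, map_pow, map_pow, map_pow]
      have hi' := Finset.mem_range.mp hi
      have hc := h2 i hi'
      rw [← hϖ₀] at hc
      have hpp : v p ^ (m + 1) ≠ 0 := pow_ne_zero _ hpv0
      have h5 : v (algebraMap K L (Ψ.coeff (i + 1))) * v p ^ (i + 1) / v p ^ (m + 1) ≤
          v p ^ (i + 1) := by
        rw [div_le_iff₀ (zero_lt_iff.mpr hpp)]
        calc v (algebraMap K L (Ψ.coeff (i + 1))) * v p ^ (i + 1)
            ≤ v p ^ (m + 1) * v p ^ (i + 1) := mul_le_mul' hc le_rfl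
          _ = v p ^ (i + 1) * v p ^ (m + 1) := mul_comm _ _
      calc v (algebraMap K L (Ψ.coeff (i + 1))) * v p ^ (i + 1) / v p ^ (m + 1) * v V ^ (i + 1)
          ≤ v p ^ (i + 1) * 1 := mul_le_mul' h5 (pow_le_one' hVv _)
        _ = v p ^ (i + 1) := mul_one _
        _ < 1 := pow_lt_one' hpv1 (Nat.succ_ne_zero i)
  have hred : Red w rw (algebraMap K L (Ψ.coeff (m + 1)) * V ^ (m + 1) +
      algebraMap K L (Ψ.coeff 0) / p ^ (m + 1)) (a * t ^ (m + 1) + b) :=
    (ha.mul (ht.pow _)).add hb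
  have hzero : Red w rw (algebraMap K L (Ψ.coeff (m + 1)) * V ^ (m + 1) +
      algebraMap K L (Ψ.coeff 0) / p ^ (m + 1)) 0 := by
    rw [hkey]
    exact Red.of_lt_one hrw (by rw [Valuation.map_neg]; exact hSv)
  exact hred.unique hzero

end Equation

/-! ### the twisted Kronecker shape -/

section Kronecker

variable {κ' : Type*} [Field κ'] {rw : w →+* κ'} (hrw : ∀ z : w, rw z = 0 ↔ ¬ IsUnit z)

/-- the restriction of the valuation of `w` to `K` -/
def vK : Valuation K w.ValueGroup := w.valuation.comap (algebraMap K L)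

theorem vK_apply (a : K) : vK w a = w.valuation (algebraMap K L a) := rfl

variable {w} in
include hrw in
/-- units have invertible residues -/
theorem Red.inv {z : L} {r : κ'} (h : Red w rw z r) (hr : r ≠ 0) : Red w rw z⁻¹ r⁻¹ := by
  obtain ⟨hz, hzr⟩ := h
  have hu : IsUnit (⟨z, hz⟩ : w) := by
    by_contra hcon
    exact hr (hzr ▸ (hrw _).mpr hcon)
  obtain ⟨u, hu'⟩ := hu
  have hinv : ((u⁻¹ : wˣ) : w) * ⟨z, hz⟩ = 1 := by rw [← hu']; exact u.inv_mul
  have hz0 : z ≠ 0 := by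
    rintro rfl
    have h0 : (⟨0, hz⟩ : w) = 0 := rfl
    rw [h0, mul_zero] at hinv
    exact zero_ne_one hinv
  have hval : (((u⁻¹ : wˣ) : w) : L) = z⁻¹ := by
    have h1 := congrArg (Subtype.val) hinv
    simp only [MulMemClass.coe_mul, OneMemClass.coe_one] at h1
    exact eq_inv_of_mul_eq_one_left h1
  have hmem : z⁻¹ ∈ w := hval ▸ ((u⁻¹ : wˣ) : w).2
  refine ⟨hmem, ?_⟩
  have h2 : rw ⟨z⁻¹, hmem⟩ * rw ⟨z, hz⟩ = 1 := by
    rw [← map_mul]
    have : (⟨z⁻¹, hmem⟩ : w) * ⟨z, hz⟩ = 1 := Subtype.ext (inv_mul_cancel₀ hz0)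
    rw [this, map_one]
  rw [hzr] at h2
  exact eq_inv_of_mul_eq_one_left h2

variable {q : ℕ} {Ψ₁ P : K[X]} {x₁ x₂ y ϖ ϖ₀ : K} {U : L}

/-- the coefficients of the vertical polynomial of a twisted Kronecker polynomial -/
theorem coeff_vertPolyAt_tw (hq : q.Prime)
    (hP : P = (X ^ q - C x₂) * (X - C (x₁ ^ q)) + C ϖ * Ψ₁) (i : ℕ) :
    (vertPolyAt P y).coeff i =
      (if i = q then 1 else 0) + (if i = q - 1 then y - x₁ ^ q else 0) +
        (if i = 0 then y ^ q - x₂ else 0) + (q : K) * (vertH₁ q x₁ y).coeff i +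
        ϖ * (vertPolyAt Ψ₁ y).coeff i := by
  rw [vertPolyAt_eq_tw hq hP y]
  simp only [coeff_add, coeff_X_pow, coeff_C_mul, coeff_C, mul_ite, mul_one, mul_zero]

/-- the 'thickness' element `R = ϖ Ψ₁(y) / q` (`A · Bc = - q R`) -/
def thickR (q : ℕ) (Ψ₁ : K[X]) (y ϖ : K) : K := ϖ * Ψ₁.eval y / (q : K)

/-- the correction `h = H₁(0) + (ϖ / q) D(0)` -/
def corrH (q : ℕ) (Ψ₁ : K[X]) (x₁ y ϖ : K) : K :=
  (vertH₁ q x₁ y).coeff 0 + ϖ / (q : K) * (vertPolyAt Ψ₁ y).coeff 0

/-- `Bc · c₀ = - q (R - Bc h)`. -/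
theorem mul_coeff_zero_tw (hq : q.Prime) (hq0 : (q : K) ≠ 0)
    (hP : P = (X ^ q - C x₂) * (X - C (x₁ ^ q)) + C ϖ * Ψ₁) (h0 : P.eval y = 0) :
    (y - x₁ ^ q) * (vertPolyAt P y).coeff 0 =
      -((q : K) * (thickR q Ψ₁ y ϖ - (y - x₁ ^ q) * corrH q Ψ₁ x₁ y ϖ)) := by
  have hq2 := hq.two_le
  have hval : P.eval y = (y ^ q - x₂) * (y - x₁ ^ q) + ϖ * Ψ₁.eval y := by
    rw [hP]
    simp
  rw [h0] at hval
  have e1 : (q : K) * thickR q Ψ₁ y ϖ = ϖ * Ψ₁.eval y := by
    unfold thickR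
    field_simp
  have e2 : (q : K) * corrH q Ψ₁ x₁ y ϖ =
      (q : K) * (vertH₁ q x₁ y).coeff 0 + ϖ * (vertPolyAt Ψ₁ y).coeff 0 := by
    unfold corrH
    field_simp
  rw [coeff_vertPolyAt_tw hq hP 0, if_neg (by omega), if_neg (by omega), if_pos rfl]
  linear_combination (-1 : K) * hval + e1 - (y - x₁ ^ q) * e2

variable (hq : q.Prime) (hq0 : (q : K) ≠ 0)
  (hP : P = (X ^ q - C x₂) * (X - C (x₁ ^ q)) + C ϖ * Ψ₁)
  (hmon : P.Monic) (hdeg : P.natDegree = q + 1) (h0 : P.eval y = 0)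
  (h1 : aeval (algebraMap K L y + U) P = 0) (hU0 : U ≠ 0)
  (hΨ : IntCoeff (vK w) Ψ₁) (hx : vK w x₁ ≤ 1) (hy : vK w y ≤ 1)
  (hq1 : vK w (q : K) < 1) (hϖq : vK w ϖ ≤ vK w (q : K))
  (hBc : vK w (y - x₁ ^ q) = 1)
  (hRh : vK w (thickR q Ψ₁ y ϖ - (y - x₁ ^ q) * corrH q Ψ₁ x₁ y ϖ) = 1)

include hP h0 h1 hU0 in
theorem aeval_vertPolyAt_eq_zero_tw : aeval U (vertPolyAt P y) = 0 := by
  have h := congrArg (aeval U) (vertPolyAt_mul_X_add P y)
  rw [map_add, map_mul, aeval_X, aeval_C, h0, map_zero, add_zero, aeval_comp, map_add, aeval_X,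
    aeval_C, add_comm U, h1] at h
  exact (mul_eq_zero.mp h).resolve_right hU0

include hq hP hΨ hx hy hϖq in
/-- the small part of every coefficient -/
theorem vK_small_le (i : ℕ) :
    vK w ((q : K) * (vertH₁ q x₁ y).coeff i + ϖ * (vertPolyAt Ψ₁ y).coeff i) ≤ vK w (q : K) := by
  refine le_trans ((vK w).map_add _ _) (max_le ?_ ?_)
  · rw [map_mul]
    calc vK w (q : K) * vK w ((vertH₁ q x₁ y).coeff i) ≤ vK w (q : K) * 1 :=
          mul_le_mul' le_rfl (intCoeff_vertH₁ q hx hy i)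
      _ = vK w (q : K) := mul_one _
  · rw [map_mul]
    calc vK w ϖ * vK w ((vertPolyAt Ψ₁ y).coeff i) ≤ vK w (q : K) * 1 :=
          mul_le_mul' hϖq (intCoeff_vertPolyAt hΨ hy i)
      _ = vK w (q : K) := mul_one _

include hq hq0 hP hmon hdeg h0 h1 hU0 hΨ hx hy hq1 hϖq hBc hRh in
/-- **`V = U / ϖ₀` is a unit of every valuation ring over 'can' in which `U` is a non-unit**
(`|ϖ₀|^(q-1) = |q|`). -/
theorem valuation_div_eq_one_tw (hU : w.valuation U < 1)
    (hϖ₀ : vK w ϖ₀ ^ (q - 1) = vK w (q : K)) : w.valuation (U / algebraMap K L ϖ₀) = 1 := by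
  have hq2 := hq.two_le
  obtain ⟨m, rfl⟩ : ∃ m, q = m + 2 := ⟨q - 2, by omega⟩
  have hsmall := vK_small_le w hq hP hΨ hx hy hϖq
  refine valuation_div_eq_one w (π := ((m + 2 : ℕ) : K)) (vertPolyAt_monic hmon hdeg y)
    (vertPolyAt_natDegree hdeg y)
    (aeval_vertPolyAt_eq_zero_tw hP h0 h1 hU0) hU ?_ ?_ ?_ hq0 ?_
  · -- the coefficient of `X^(q-1)`
    rw [← vK_apply, coeff_vertPolyAt_tw hq hP, if_neg (by omega), if_pos (by omega),
      if_neg (by omega), zero_add, add_zero, add_assoc]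
    rw [Valuation.map_add_eq_of_lt_left (vK w) (by
      rw [hBc]; exact lt_of_le_of_lt (hsmall _) hq1), hBc]
  · intro i hi
    rw [← vK_apply, ← vK_apply, coeff_vertPolyAt_tw hq hP, if_neg (by omega), if_neg (by omega),
      if_neg (by omega), zero_add, zero_add, zero_add]
    exact hsmall _
  · -- the constant coefficient
    have hmul := mul_coeff_zero_tw hq hq0 hP h0
    have hv := congrArg (vK w) hmul
    rw [map_mul, hBc, one_mul, Valuation.map_neg, map_mul, hRh, mul_one] at hv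
    rw [← vK_apply, ← vK_apply]
    exact hv
  · rw [← vK_apply, ← vK_apply]
    have : m + 2 - 1 = m + 1 := by omega
    rw [this] at hϖ₀
    exact hϖ₀

include hrw hq hq0 hP hmon hdeg h0 h1 hU0 hΨ hx hy hq1 hϖq hBc hRh in
/-- **The Kummer equation of a middle component in `f`-coordinates**:
`res(V)^(q-1) · res(Bc)² = res(q / ϖ₀^(q-1)) · (res R - res Bc · res h)`, `V = U / ϖ₀`. -/
theorem pow_residue_mul_sq (hϖ₀ : vK w ϖ₀ ^ (q - 1) = vK w (q : K))
    {β ρ η γ₁ t : κ'} (hβ : Red w rw (algebraMap K L (y - x₁ ^ q)) β)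
    (hρ : Red w rw (algebraMap K L (thickR q Ψ₁ y ϖ)) ρ)
    (hη : Red w rw (algebraMap K L (corrH q Ψ₁ x₁ y ϖ)) η)
    (hγ₁ : Red w rw (algebraMap K L ((q : K) / ϖ₀ ^ (q - 1))) γ₁)
    (ht : Red w rw (U / algebraMap K L ϖ₀) t) :
    t ^ (q - 1) * β ^ 2 = γ₁ * (ρ - β * η) := by
  have hq2 := hq.two_le
  obtain ⟨m, rfl⟩ : ∃ m, q = m + 2 := ⟨q - 2, by omega⟩
  have hm1 : m + 2 - 1 = m + 1 := by omega
  rw [hm1] at hϖ₀ hγ₁ ⊢
  have hsmall := vK_small_le w hq hP hΨ hx hy hϖq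
  set Bc := y - x₁ ^ (m + 2) with hBcdef
  set c₀ := (vertPolyAt P y).coeff 0 with hc₀
  -- `β ≠ 0`
  have hβ0 : β ≠ 0 := by
    intro hβz
    obtain ⟨hz, hzr⟩ := hβ
    rw [hβz] at hzr
    have hnu := (hrw _).mp hzr
    apply hnu
    exact (w.valuation_eq_one_iff _).mpr hBc
  have hϖ₀0 : ϖ₀ ≠ 0 := by
    rintro rfl
    rw [map_zero, zero_pow (Nat.succ_ne_zero m)] at hϖ₀
    rw [eq_comm, Valuation.zero_iff] at hϖ₀
    exact hq0 hϖ₀
  have hBc0 : Bc ≠ 0 := by
    intro hz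
    rw [hz, map_zero] at hBc
    exact zero_ne_one hBc
  -- the residue of the coefficient of `X^(q-1)` is `β`
  have ha : Red w rw (algebraMap K L ((vertPolyAt P y).coeff (m + 1))) β := by
    refine hβ.of_sub_lt_one hrw ?_
    rw [← map_sub, ← vK_apply, coeff_vertPolyAt_tw hq hP, if_neg (by omega), if_pos (by omega),
      if_neg (by omega), zero_add, add_zero]
    have e : Bc + ((m + 2 : ℕ) : K) * (vertH₁ (m + 2) x₁ y).coeff (m + 1) +
        ϖ * (vertPolyAt Ψ₁ y).coeff (m + 1) - Bc =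
        ((m + 2 : ℕ) : K) * (vertH₁ (m + 2) x₁ y).coeff (m + 1) +
          ϖ * (vertPolyAt Ψ₁ y).coeff (m + 1) := by ring
    rw [e]
    exact lt_of_le_of_lt (hsmall _) hq1
  -- the residue of `c₀ / ϖ₀^(q-1)`
  have hmul := mul_coeff_zero_tw hq hq0 hP h0
  have hb : Red w rw (algebraMap K L c₀ / algebraMap K L ϖ₀ ^ (m + 1))
      (γ₁ * (-(ρ - β * η) * β⁻¹)) := by
    have h1' : Red w rw (algebraMap K L (thickR (m + 2) Ψ₁ y ϖ - Bc * corrH (m + 2) Ψ₁ x₁ y ϖ))
        (ρ - β * η) := by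
      rw [map_sub, map_mul]
      exact hρ.sub (hβ.mul hη)
    have h2' := hγ₁.mul ((h1'.neg).mul (hβ.inv hrw hβ0))
    refine h2'.congr ?_
    rw [← map_neg, ← map_inv₀, ← map_mul, ← map_mul, ← map_pow, ← map_div₀]
    congr 1
    have hc : c₀ = -(((m + 2 : ℕ) : K) *
        (thickR (m + 2) Ψ₁ y ϖ - Bc * corrH (m + 2) Ψ₁ x₁ y ϖ)) / Bc := by
      rw [eq_div_iff hBc0, mul_comm]
      exact hmul
    rw [hc]
    field_simp
  have heq := red_equation w hrw (π := ((m + 2 : ℕ) : K)) (vertPolyAt_monic hmon hdeg y)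
    (vertPolyAt_natDegree hdeg y) (aeval_vertPolyAt_eq_zero_tw hP h0 h1 hU0)
    (fun i hi => by
      rw [← vK_apply, ← vK_apply, coeff_vertPolyAt_tw hq hP, if_neg (by omega),
        if_neg (by omega), if_neg (by omega), zero_add, zero_add, zero_add]
      exact hsmall _)
    hq0 hq1 hϖ₀ ha hb ht
  have h3 : β * t ^ (m + 1) = γ₁ * ((ρ - β * η) * β⁻¹) := by
    linear_combination heq
  calc t ^ (m + 1) * β ^ 2 = β * (β * t ^ (m + 1)) := by ring
    _ = β * (γ₁ * ((ρ - β * η) * β⁻¹)) := by rw [h3]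
    _ = γ₁ * (ρ - β * η) * (β * β⁻¹) := by ring
    _ = γ₁ * (ρ - β * η) := by rw [mul_inv_cancel₀ hβ0, mul_one]

end Kronecker

/-! ### the local order -/

section Local

open AlgebraicCurve

variable {k F : Type*} [Field k] [Field F] [Algebra k F] (e : Place k F)

theorem adicValuation_eq_one_of_ord_eq_zero {f : F} (hf : f ≠ 0) (h : e.ord f = 0) :
    e.adicValuation f = 1 := by
  have hne := e.adicValuation_ne_zero hf
  have hlog : WithZero.log (e.adicValuation f) = 0 := by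
    have : e.ord f = -(WithZero.log (e.adicValuation f)) := rfl
    omega
  have := WithZero.exp_log hne
  rw [hlog] at this
  rw [← this]
  rfl

theorem adicValuation_lt_one_of_ord_pos {f : F} (h : 0 < e.ord f) : e.adicValuation f < 1 := by
  rcases eq_or_ne f 0 with rfl | hf
  · rw [map_zero]
    exact zero_lt_one
  have hne := e.adicValuation_ne_zero hf
  have hlog : WithZero.log (e.adicValuation f) < WithZero.log (1 : WithZero (Multiplicative ℤ)) := by
    have : e.ord f = -(WithZero.log (e.adicValuation f)) := rfl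
    rw [WithZero.log_one]
    omega
  exact (WithZero.log_lt_log hne one_ne_zero).mp hlog

theorem ord_eq_zero_of_adicValuation_eq_one {f : F} (h : e.adicValuation f = 1) :
    e.ord f = 0 := by
  have : e.ord f = -(WithZero.log (e.adicValuation f)) := rfl
  rw [this, h, WithZero.log_one, neg_zero]

/-- **Thickness one ⟹ `ord_e γ = -2`**: if `γ t² = c₁ (ρ - t η)` with `t` a local parameter at
`e`, `ρ` and `c₁` units at `e` and `η` regular at `e`. -/
theorem ord_eq_neg_two {γ t ρ η c₁ : F} (ht0 : t ≠ 0) (ht : e.ord t = 1) (hρ0 : ρ ≠ 0)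
    (hρ : e.ord ρ = 0) (hη : η = 0 ∨ 0 ≤ e.ord η) (hc0 : c₁ ≠ 0) (hc : e.ord c₁ = 0)
    (h : γ * t ^ 2 = c₁ * (ρ - t * η)) : γ ≠ 0 ∧ e.ord γ = -2 := by
  have hvρ := adicValuation_eq_one_of_ord_eq_zero e hρ0 hρ
  have hvtη : e.adicValuation (t * η) < 1 := by
    rcases hη with rfl | hη
    · rw [mul_zero, map_zero]
      exact zero_lt_one
    · rcases eq_or_ne η 0 with rfl | hη0
      · rw [mul_zero, map_zero]
        exact zero_lt_one
      · apply adicValuation_lt_one_of_ord_pos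
        rw [e.ord_mul ht0 hη0, ht]
        omega
  have hv : e.adicValuation (ρ - t * η) = 1 := by
    rw [Valuation.map_sub_eq_of_lt_left _ (by rw [hvρ]; exact hvtη), hvρ]
  have hne : ρ - t * η ≠ 0 := by
    intro h0
    rw [h0, map_zero] at hv
    exact zero_ne_one hv
  have hord : e.ord (ρ - t * η) = 0 := ord_eq_zero_of_adicValuation_eq_one e hv
  have hγ0 : γ ≠ 0 := by
    rintro rfl
    rw [zero_mul] at h
    exact mul_ne_zero hc0 hne h.symm
  refine ⟨hγ0, ?_⟩
  have h2 := congrArg e.ord h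
  rw [e.ord_mul hγ0 (pow_ne_zero 2 ht0), e.ord_mul hc0 hne, hc, hord, pow_two,
    e.ord_mul ht0 ht0, ht] at h2
  omega

end Local

end Fermat.Agent.BR3.MidKummerAbs
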