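/-
Program C (S36), node A13 (TAME-SURJ), step (1) (helper17): the roots of `X ^ n - q`, `q ∤ n`, over
the maximal prime-to-`q` cyclotomic field `K₀ = cycloField ℚ̄ q`.

`B` a valuation subring of `ℚ̄` over the prime `q`, `ϖ ^ n = q`.  The value group of `K₀` is
`v(q)^ℤ` (`UnramCyclo.isDVRField_cycloField`), hence the values of `a_i ϖ^i` (`a_i ∈ K₀ˣ`, `i < n`)
are pairwise distinct.  Consequences:

* `valuation_sum_eq` / `sum_mem_iff` : `∑_{i<n} a_i ϖ^i ∈ B ↔ ∀ i < n, a_i ϖ^i ∈ B`;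
* `eq_zero_of_sum_eq_zero` : `1, ϖ, …, ϖ^(n-1)` are `K₀`-linearly independent;
* `minpoly_eq` : `minpoly K₀ ϖ = X ^ n - C q`;
* `exists_algEquiv_root` (1a) : for `ζ ^ n = 1` there is `τ : ℚ̄ ≃ₐ[K₀] ℚ̄` with `τ ϖ = ζ * ϖ`;
* `mem_iff_of_mem_adjoin` (1b) : two valuation subrings over `q` which agree on `K₀` agree on
  `K₀(ϖ)` (uniqueness of the extension of the valuation to the totally ramified extension).
-/
import Mathlib
import Fermat.Agent.BR.UnramCyclo

set_option autoImplicit false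
set_option linter.style.haveILetI false

open Polynomial

namespace Fermat.Agent.BR3.TameRoot

open Fermat.Agent.BR.UnramCyclo

local notation "Qb" => AlgebraicClosure ℚ

variable {q : ℕ} (B : ValuationSubring Qb)

/-! ### Distinct values -/

section Distinct

variable {B}
variable (hq : q.Prime) (hB : B.LiesOverPrime q) {n : ℕ} {ϖ : Qb} (hϖ : ϖ ^ n = (q : Qb))

include hq in
omit hB in
theorem valuation_q_pos : 0 < B.valuation (q : Qb) :=
  valuation_natCast_pos B hq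

include hB in
theorem valuation_q_lt_one : B.valuation (q : Qb) < 1 :=
  (B.mem_nonunits_iff).1 hB

include hq hϖ in
theorem root_ne_zero : ϖ ≠ 0 := by
  rintro rfl
  have hq0 : (q : Qb) ≠ 0 := Nat.cast_ne_zero.2 hq.ne_zero
  rcases Nat.eq_zero_or_pos n with h | h
  · subst h
    rw [pow_zero] at hϖ
    have : ((1 : ℕ) : Qb) = (q : Qb) := by simpa using hϖ
    exact hq.one_lt.ne (Nat.cast_injective this)
  · rw [zero_pow h.ne'] at hϖ
    exact hq0 hϖ.symm

include hq hB hϖ in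
/-- The values of `a ϖ^i`, `a ∈ K₀ˣ`, `i < n`, determine `i`. -/
theorem eq_of_valuation_eq {a b : Qb} (ha : a ∈ cycloField Qb q) (hb : b ∈ cycloField Qb q)
    (ha0 : a ≠ 0) (hb0 : b ≠ 0) {i j : ℕ} (hi : i < n) (hj : j < n)
    (h : B.valuation (a * ϖ ^ i) = B.valuation (b * ϖ ^ j)) : i = j := by
  obtain ⟨-, -, hdvr⟩ := isDVRField_cycloField B hq hB
  obtain ⟨k, hk⟩ := hdvr a ha ha0
  obtain ⟨l, hl⟩ := hdvr b hb hb0
  set γ := B.valuation (q : Qb) with hγ
  have hγ0 : 0 < γ := valuation_q_pos hq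
  have hγ1 : γ ≠ 1 := (valuation_q_lt_one hB).ne
  have hvϖ : B.valuation ϖ ^ n = γ := by rw [← map_pow, hϖ]
  -- raise the equality to the `n`-th power
  have h2 : γ ^ (k * n + i) = γ ^ (l * n + j) := by
    have h3 := congrArg (· ^ n) h
    simp only [map_mul, map_pow, hk, hl, mul_pow] at h3
    rw [← pow_mul, ← pow_mul, mul_comm i n, mul_comm j n, pow_mul, pow_mul, hvϖ] at h3
    rw [zpow_add₀ hγ0.ne', zpow_add₀ hγ0.ne', zpow_mul, zpow_mul, zpow_natCast, zpow_natCast,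
      zpow_natCast, zpow_natCast]
    exact h3
  have h4 : k * n + i = l * n + j := (zpow_right_inj₀ hγ0 hγ1).1 h2
  -- `i ≡ j mod n` and both `< n`
  have h5 : ((i : ℤ) - j) = (l - k) * n := by linarith
  have h6 : (n : ℤ) ∣ (i : ℤ) - j := ⟨l - k, by rw [h5]; ring⟩
  have h7 : (i : ℤ) - j = 0 := by
    apply Int.eq_zero_of_abs_lt_dvd h6
    rw [abs_lt]
    constructor <;> omega
  omega

end Distinct

/-! ### Sums `∑_{i<n} a_i ϖ^i` -/

section Sums

variable {B}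
variable (hq : q.Prime) (hB : B.LiesOverPrime q) {n : ℕ} {ϖ : Qb} (hϖ : ϖ ^ n = (q : Qb))

include hq hB hϖ in
/-- The valuation of `∑_{i<n} a_i ϖ^i` is the largest valuation of a term. -/
theorem exists_valuation_sum_eq (a : ℕ → Qb) (ha : ∀ i, a i ∈ cycloField Qb q) (hn : 0 < n) :
    ∃ j ∈ Finset.range n, B.valuation (∑ i ∈ Finset.range n, a i * ϖ ^ i) =
        B.valuation (a j * ϖ ^ j) ∧
      ∀ i ∈ Finset.range n, B.valuation (a i * ϖ ^ i) ≤ B.valuation (a j * ϖ ^ j) := by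
  classical
  have hne : (Finset.range n).Nonempty := ⟨0, Finset.mem_range.2 hn⟩
  obtain ⟨j, hj, hmax⟩ := Finset.exists_max_image (Finset.range n)
    (fun i => B.valuation (a i * ϖ ^ i)) hne
  refine ⟨j, hj, ?_, hmax⟩
  have hϖ0 : ϖ ≠ 0 := root_ne_zero hq hϖ
  by_cases hj0 : a j = 0
  · -- all terms vanish
    have hall : ∀ i ∈ Finset.range n, a i * ϖ ^ i = 0 := by
      intro i hi
      have := hmax i hi
      simp only [hj0, zero_mul, map_zero] at this
      exact (map_eq_zero _).1 (le_antisymm this zero_le)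
    rw [Finset.sum_eq_zero hall, hj0, zero_mul]
  · apply Valuation.map_sum_eq_of_lt _ hj
    intro i hi
    rw [Finset.mem_sdiff, Finset.mem_singleton] at hi
    refine lt_of_le_of_ne (hmax i hi.1) ?_
    intro heq
    by_cases hi0 : a i = 0
    · simp only [hi0, zero_mul, map_zero] at heq
      exact (mul_ne_zero hj0 (pow_ne_zero _ hϖ0)) ((map_eq_zero _).1 heq.symm)
    · exact hi.2 (eq_of_valuation_eq hq hB hϖ (ha i) (ha j) hi0 hj0
        (Finset.mem_range.1 hi.1) (Finset.mem_range.1 hj) heq)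

include hq hB hϖ in
/-- `∑_{i<n} a_i ϖ^i ∈ B ↔ ∀ i < n, a_i ϖ^i ∈ B`. -/
theorem sum_mem_iff (a : ℕ → Qb) (ha : ∀ i, a i ∈ cycloField Qb q) (hn : 0 < n) :
    (∑ i ∈ Finset.range n, a i * ϖ ^ i) ∈ B ↔ ∀ i ∈ Finset.range n, a i * ϖ ^ i ∈ B := by
  constructor
  · intro h i hi
    obtain ⟨j, -, hj, hmax⟩ := exists_valuation_sum_eq hq hB hϖ a ha hn
    rw [← B.valuation_le_one_iff] at h ⊢
    exact (hmax i hi).trans (hj ▸ h)
  · intro h
    exact B.toSubring.sum_mem h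

include hq hB hϖ in
/-- `1, ϖ, …, ϖ^(n-1)` are linearly independent over `K₀`. -/
theorem eq_zero_of_sum_eq_zero (a : ℕ → Qb) (ha : ∀ i, a i ∈ cycloField Qb q) (hn : 0 < n)
    (h : ∑ i ∈ Finset.range n, a i * ϖ ^ i = 0) : ∀ i ∈ Finset.range n, a i = 0 := by
  obtain ⟨j, -, hj, hmax⟩ := exists_valuation_sum_eq hq hB hϖ a ha hn
  have hϖ0 : ϖ ≠ 0 := root_ne_zero hq hϖ
  intro i hi
  have h1 := hmax i hi
  rw [← hj, h, map_zero] at h1
  have h2 : a i * ϖ ^ i = 0 := (map_eq_zero _).1 (le_antisymm h1 zero_le)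
  exact (mul_eq_zero.1 h2).resolve_right (pow_ne_zero _ hϖ0)

end Sums

/-! ### The minimal polynomial of `ϖ` over `K₀`, conjugates, unique extension -/

section Minpoly

variable {B}
variable (hq : q.Prime) (hB : B.LiesOverPrime q) {n : ℕ} {ϖ : Qb} (hϖ : ϖ ^ n = (q : Qb))

theorem isAlgClosure_rat : IsAlgClosure ℚ Qb :=
  AlgebraicClosure.instIsAlgClosure ℚ

theorem isGalois_rat : IsGalois ℚ Qb :=
  have := isAlgClosure_rat
  inferInstance

theorem isGalois_cyclo : IsGalois ↥(cycloField Qb q) Qb := by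
  have := isGalois_rat
  exact IsGalois.tower_top_of_isGalois ℚ (cycloField Qb q) Qb

theorem isAlgebraic_cyclo (x : Qb) : IsAlgebraic ↥(cycloField Qb q) x :=
  (isAlgClosure_rat.isAlgebraic.isAlgebraic x).tower_top _

/-- evaluation at `ϖ` of a polynomial over `K₀` of degree `< n`, as a sum -/
theorem aeval_eq_sum (p : (↥(cycloField Qb q))[X]) (hp : p.natDegree < n) (x : Qb) :
    aeval x p = ∑ i ∈ Finset.range n, ((p.coeff i : ↥(cycloField Qb q)) : Qb) * x ^ i := by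
  rw [aeval_eq_sum_range' hp]
  refine Finset.sum_congr rfl fun i _ => ?_
  rw [Algebra.smul_def]
  rfl

include hq hB hϖ in
/-- a polynomial over `K₀` of degree `< n` vanishing at `ϖ` is zero -/
theorem eq_zero_of_aeval_eq_zero (hn : 0 < n) (p : (↥(cycloField Qb q))[X])
    (hp : p.natDegree < n) (h : aeval ϖ p = 0) : p = 0 := by
  rw [aeval_eq_sum p hp] at h
  have h1 := eq_zero_of_sum_eq_zero hq hB hϖ
    (fun i => ((p.coeff i : ↥(cycloField Qb q)) : Qb)) (fun i => (p.coeff i).2) hn h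
  refine Polynomial.ext fun i => ?_
  rw [coeff_zero]
  by_cases hi : i < n
  · exact Subtype.ext (h1 i (Finset.mem_range.2 hi))
  · exact coeff_eq_zero_of_natDegree_lt (lt_of_lt_of_le hp (not_lt.1 hi))

theorem aeval_X_pow_sub_C (x : Qb) :
    aeval x (X ^ n - C ((q : ℕ) : ↥(cycloField Qb q)) : (↥(cycloField Qb q))[X]) =
      x ^ n - (q : Qb) := by
  simp

include hq hB hϖ in
/-- **The minimal polynomial of `ϖ` over `K₀` is `X ^ n - q`.** -/
theorem minpoly_eq (hn : 0 < n) :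
    minpoly ↥(cycloField Qb q) ϖ = X ^ n - C ((q : ℕ) : ↥(cycloField Qb q)) := by
  have hint : IsIntegral ↥(cycloField Qb q) ϖ := (isAlgebraic_cyclo ϖ).isIntegral
  have hmon : (X ^ n - C ((q : ℕ) : ↥(cycloField Qb q)) : (↥(cycloField Qb q))[X]).Monic :=
    monic_X_pow_sub_C _ hn.ne'
  have hroot : aeval ϖ (X ^ n - C ((q : ℕ) : ↥(cycloField Qb q)) : (↥(cycloField Qb q))[X]) = 0 := by
    rw [aeval_X_pow_sub_C, hϖ, sub_self]
  have hdvd := minpoly.dvd ↥(cycloField Qb q) ϖ hroot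
  have hdeg : (X ^ n - C ((q : ℕ) : ↥(cycloField Qb q)) : (↥(cycloField Qb q))[X]).natDegree = n :=
    natDegree_X_pow_sub_C
  have hle : n ≤ (minpoly ↥(cycloField Qb q) ϖ).natDegree := by
    by_contra hlt
    rw [not_le] at hlt
    exact minpoly.ne_zero hint
      (eq_zero_of_aeval_eq_zero hq hB hϖ hn _ hlt (minpoly.aeval _ _))
  exact (eq_of_monic_of_dvd_of_natDegree_le (minpoly.monic hint) hmon hdvd (hdeg.le.trans hle)).symm

include hq hB hϖ in
/-- **(1a)** Every `ζ ϖ`, `ζ ^ n = 1`, is conjugate to `ϖ` over `K₀`. -/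
theorem exists_algEquiv_root (hn : 0 < n) {ζ : Qb} (hζ : ζ ^ n = 1) :
    ∃ τ : Qb ≃ₐ[↥(cycloField Qb q)] Qb, τ ϖ = ζ * ϖ := by
  have : Normal ↥(cycloField Qb q) Qb := (isGalois_cyclo (q := q)).to_normal
  apply minpoly.exists_algEquiv_of_root' (isAlgebraic_cyclo ϖ)
  rw [minpoly_eq hq hB hϖ hn, aeval_X_pow_sub_C, mul_pow, hζ, one_mul, hϖ, sub_self]

/-- every element of `K₀(ϖ)` is `∑_{i<n} a_i ϖ^i` with `a_i ∈ K₀` -/
theorem exists_sum_of_mem_adjoin (hn : 0 < n) (hϖ : ϖ ^ n = (q : Qb)) {x : Qb}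
    (hx : x ∈ IntermediateField.adjoin ↥(cycloField Qb q) ({ϖ} : Set Qb)) :
    ∃ a : ℕ → Qb, (∀ i, a i ∈ cycloField Qb q) ∧ x = ∑ i ∈ Finset.range n, a i * ϖ ^ i := by
  have hx' : x ∈ (IntermediateField.adjoin ↥(cycloField Qb q) ({ϖ} : Set Qb)).toSubalgebra := hx
  rw [IntermediateField.adjoin_simple_toSubalgebra_of_isAlgebraic (isAlgebraic_cyclo ϖ),
    Algebra.adjoin_singleton_eq_range_aeval] at hx'
  obtain ⟨p, rfl⟩ := hx'
  set f : (↥(cycloField Qb q))[X] := X ^ n - C ((q : ℕ) : ↥(cycloField Qb q)) with hf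
  have hmon : f.Monic := monic_X_pow_sub_C _ hn.ne'
  have hf1 : f ≠ 1 := by
    intro h1
    have := congrArg natDegree h1
    rw [hf, natDegree_X_pow_sub_C, natDegree_one] at this
    exact hn.ne' this
  have hdeg : (p %ₘ f).natDegree < n := by
    have := natDegree_modByMonic_lt p hmon hf1
    rwa [hf, natDegree_X_pow_sub_C] at this
  have hroot : aeval ϖ f = 0 := by rw [hf, aeval_X_pow_sub_C, hϖ, sub_self]
  have hval : aeval ϖ p = aeval ϖ (p %ₘ f) := by
    conv_lhs => rw [← modByMonic_add_div p f]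
    rw [map_add, map_mul, hroot, zero_mul, add_zero]
  refine ⟨fun i => (((p %ₘ f).coeff i : ↥(cycloField Qb q)) : Qb), fun i => ((p %ₘ f).coeff i).2, ?_⟩
  show (aeval ϖ) p = _
  rw [hval, aeval_eq_sum _ hdeg]

/-- `a ϖ^i ∈ B ↔ a^n q^i ∈ B` -/
theorem term_mem_iff (B : ValuationSubring Qb) (hn : 0 < n) (hϖ : ϖ ^ n = (q : Qb)) (a : Qb)
    (i : ℕ) :
    a * ϖ ^ i ∈ B ↔ a ^ n * (q : Qb) ^ i ∈ B := by
  have h1 : (a * ϖ ^ i) ^ n = a ^ n * (q : Qb) ^ i := by
    rw [mul_pow, ← pow_mul, mul_comm i n, pow_mul, hϖ]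
  rw [← h1, ← B.valuation_le_one_iff, ← B.valuation_le_one_iff, map_pow]
  exact (pow_le_one_iff_of_nonneg zero_le hn.ne').symm

/-- **(1b)** Two valuation subrings of `ℚ̄` over `q` which agree on `K₀` agree on `K₀(ϖ)`:
the valuation of `K₀` has a unique extension to the totally ramified extension `K₀(ϖ)`. -/
theorem mem_iff_of_mem_adjoin (hq : q.Prime) {B B' : ValuationSubring Qb}
    (hB : B.LiesOverPrime q) (hB' : B'.LiesOverPrime q)
    (h0 : ∀ x ∈ cycloField Qb q, x ∈ B ↔ x ∈ B') {n : ℕ} (hn : 0 < n) {ϖ : Qb}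
    (hϖ : ϖ ^ n = (q : Qb)) {x : Qb}
    (hx : x ∈ IntermediateField.adjoin ↥(cycloField Qb q) ({ϖ} : Set Qb)) :
    x ∈ B ↔ x ∈ B' := by
  obtain ⟨a, ha, rfl⟩ := exists_sum_of_mem_adjoin hn hϖ hx
  rw [sum_mem_iff hq hB hϖ a ha hn, sum_mem_iff hq hB' hϖ a ha hn]
  refine forall₂_congr fun i _ => ?_
  rw [term_mem_iff B hn hϖ, term_mem_iff B' hn hϖ]
  exact h0 _ (mul_mem (pow_mem (ha i) n) (pow_mem (natCast_mem _ q) i))

end Minpoly

end Fermat.Agent.BR3.TameRoot
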