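/-
Program C (S36), node A13 TAME-SURJ, file 2 (helper26): surjectivity of the tame character of the
inertia group of `ℚ̄` at `q` onto `μ_n`, `q ∤ n` — steps (2)–(4), from the two algebraic inputs of
file 1 (`BR3/TameRoot.lean`, helper17) taken here as NAMED hypotheses:

* (1a) `τ : ℚ̄ ≃ₐ[K₀] ℚ̄` with `τ ϖ = c` (`K₀ = cycloField ℚ̄ q`, `c = ζ ϖ` a conjugate of `ϖ`
  over `K₀`: `X^n − q` is irreducible over `K₀`);
* (1b) unique extension: two valuation subrings of `ℚ̄` over `q` which agree on `K₀` agree on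
  `K₀(ϖ)`.

Results (`B` a valuation subring of `ℚ̄` over the prime `q`):

* `mem_inertia_of_fixes_cycloField` : an element of the decomposition group of `B` fixing `K₀`
  pointwise lies in the inertia group (`K₀` has the full residue field);
* `smul_liesOver`, `mem_smul_iff_of_fixes` : conjugates of `B` by automorphisms over `K₀`;
* **`exists_inertia_apply_eq`** : `∃ σ ∈ B.inertiaSubgroupIn ℚ, σ ϖ = c ∧ σ fixes K₀ pointwise`;
* `exists_inertia_apply_eq_mul` : the form `σ ϖ = ζ * ϖ` for `ζ ∈ K₀`;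
* `valuation_pow_sub_one_eq_one` : for a primitive `n`-th root of unity `ζ`, `q ∤ n`, `n ∤ i`:
  `ζ ^ i − 1` is a unit of `B` (the tame character has exact order `n` modulo the maximal ideal).
-/
import Mathlib
import Fermat.Agent.BR.UnramCyclo
import Fermat.Agent.BR.PlaceLift
import Fermat.Agent.S55.TrivField

set_option autoImplicit false
set_option linter.style.haveILetI false

namespace Fermat.Agent.BR3.TameSurj

open Fermat.Agent.BR.UnramCyclo
open scoped Pointwise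

local notation "Qb" => AlgebraicClosure ℚ

variable {q : ℕ} (B : ValuationSubring Qb)

/-- **An element of the decomposition group of `B` fixing `K₀ = ℚ(μ_m : q ∤ m)` pointwise lies in
the inertia group**: `K₀` has the full residue field of `B`. -/
theorem mem_inertia_of_fixes_cycloField (hq : q.Prime) (hB : B.LiesOverPrime q)
    {σ : Qb ≃ₐ[ℚ] Qb} (hσD : σ ∈ B.decompositionSubgroup ℚ)
    (hσ : ∀ a ∈ cycloField Qb q, σ a = a) : σ ∈ B.inertiaSubgroupIn ℚ := by
  rw [Fermat.Agent.S14.mem_inertiaSubgroupIn_iff]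
  refine ⟨hσD, fun x hx => ?_⟩
  obtain ⟨a', ha'K, -, hd⟩ := fullRes_cycloField B hq hB x hx
  have e : σ x - x = σ (x - a') - (x - a') := by
    rw [map_sub, hσ a' ha'K]
    ring
  have h1 : B.valuation (x - a') < 1 := (B.mem_nonunits_iff).1 hd
  have h2 : B.valuation (σ (x - a')) < 1 := by
    have := (Fermat.Agent.S05.valuation_apply_lt_iff B hσD (x - a') 1).2 (by rwa [map_one])
    rwa [map_one, map_one] at this
  rw [e]
  exact lt_of_le_of_lt (Valuation.map_sub _ _ _) (max_lt h2 h1)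

/-- a conjugate of `B` lies over `q` -/
theorem smul_liesOver (hB : B.LiesOverPrime q) (τ : Qb ≃ₐ[ℚ] Qb) : (τ • B).LiesOverPrime q :=
  (Fermat.Agent.S55.liesOverPrime_smul_iff τ B q).2 hB

/-- membership in a conjugate of `B` of an element fixed by the automorphism -/
theorem mem_smul_iff_of_fixes (τ : Qb ≃ₐ[ℚ] Qb) {a : Qb} (ha : τ a = a) :
    a ∈ τ • B ↔ a ∈ B := by
  rw [ValuationSubring.mem_pointwise_smul_iff_inv_smul_mem]
  have : τ⁻¹ • a = a := by
    show τ⁻¹ a = a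
    conv_lhs => rw [← ha]
    exact τ.symm_apply_apply a
  rw [this]

/-- **(A13), core.**  Let `c` be a conjugate of `ϖ` over `K₀ = cycloField ℚ̄ q` lying in `K₀(ϖ)`
(input (1a): `τ`), and assume that the valuation subrings of `ℚ̄` over `q` are determined on
`K₀(ϖ)` by their restriction to `K₀` (input (1b)).  Then some element of the inertia group of `B`
maps `ϖ` to `c` (and fixes `K₀` pointwise). -/
theorem exists_inertia_apply_eq (hq : q.Prime) (hB : B.LiesOverPrime q) {ϖ c : Qb}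
    (hc : c ∈ IntermediateField.adjoin ↥(cycloField Qb q) {ϖ})
    (τ : Qb ≃ₐ[↥(cycloField Qb q)] Qb) (hτ : τ ϖ = c)
    (huniq : ∀ B' : ValuationSubring Qb, B'.LiesOverPrime q →
      (∀ a ∈ cycloField Qb q, a ∈ B ↔ a ∈ B') →
      ∀ x ∈ IntermediateField.adjoin ↥(cycloField Qb q) {ϖ}, x ∈ B ↔ x ∈ B') :
    ∃ σ ∈ B.inertiaSubgroupIn ℚ, σ ϖ = c ∧ ∀ a ∈ cycloField Qb q, σ a = a := by
  classical
  -- the field `L = K₀(ϖ)` over `ℚ`
  let L : IntermediateField ℚ Qb :=
    (IntermediateField.adjoin ↥(cycloField Qb q) {ϖ}).restrictScalars ℚ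
  have hL : ∀ x : Qb, x ∈ L ↔ x ∈ IntermediateField.adjoin ↥(cycloField Qb q) {ϖ} :=
    fun x => IntermediateField.mem_restrictScalars ℚ
  have hK0L : ∀ a ∈ cycloField Qb q, a ∈ L := by
    intro a ha
    rw [hL]
    exact (IntermediateField.adjoin ↥(cycloField Qb q) {ϖ}).algebraMap_mem ⟨a, ha⟩
  have hϖL : ϖ ∈ L := by
    rw [hL]
    exact IntermediateField.mem_adjoin_simple_self _ ϖ
  -- `τ` over `ℚ`
  let τ' : Qb ≃ₐ[ℚ] Qb := τ.restrictScalars ℚ
  have hτ'K0 : ∀ a ∈ cycloField Qb q, τ' a = a := by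
    intro a ha
    exact τ.commutes ⟨a, ha⟩
  -- the conjugate `B' = τ' • B` agrees with `B` on `K₀`, hence on `L`
  have hB' : (τ' • B).LiesOverPrime q := smul_liesOver B hB τ'
  have hagree : ∀ a ∈ cycloField Qb q, a ∈ B ↔ a ∈ τ' • B := fun a ha =>
    (mem_smul_iff_of_fixes B τ' (hτ'K0 a ha)).symm
  have hagreeL := huniq (τ' • B) hB' hagree
  have hcomap : (τ' • B).comap (algebraMap ↥L Qb) = B.comap (algebraMap ↥L Qb) := by
    ext x
    rw [ValuationSubring.mem_comap, ValuationSubring.mem_comap]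
    exact (hagreeL _ ((hL _).1 x.2)).symm
  -- conjugate back over `L`
  haveI : IsGalois ℚ Qb := Fermat.Agent.S54.FrobExists.isGalois_rat_algebraicClosure
  obtain ⟨g, hg⟩ := Fermat.Agent.BR.PlaceLift.exists_smul_eq_of_comap_eq (Ω := Qb) ↥L
    (τ' • B) B hcomap
  let g' : Qb ≃ₐ[ℚ] Qb := g.restrictScalars ℚ
  have hg'L : ∀ x ∈ L, g' x = x := fun x hx => g.commutes ⟨x, hx⟩
  have hg' : g' • (τ' • B) = B := by
    have e : g' • (τ' • B) = g • (τ' • B) := by
      ext x
      have h1 : x ∈ g' • (τ' • B) ↔ g'⁻¹ • x ∈ τ' • B :=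
        ValuationSubring.mem_pointwise_smul_iff_inv_smul_mem
      have h2 : x ∈ g • (τ' • B) ↔ g⁻¹ • x ∈ τ' • B :=
        ValuationSubring.mem_pointwise_smul_iff_inv_smul_mem
      rw [h1, h2]
      rfl
    rw [e, hg]
  refine ⟨g' * τ', ?_, ?_, ?_⟩
  · refine mem_inertia_of_fixes_cycloField B hq hB ?_ ?_
    · show (g' * τ') • B = B
      rw [mul_smul, hg']
    · intro a ha
      rw [AlgEquiv.mul_apply, hτ'K0 a ha, hg'L a (hK0L a ha)]
  · rw [AlgEquiv.mul_apply]
    show g' (τ ϖ) = c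
    rw [hτ]
    exact hg'L c ((hL c).2 hc)
  · intro a ha
    rw [AlgEquiv.mul_apply, hτ'K0 a ha, hg'L a (hK0L a ha)]

/-- **(A13), multiplicative form**: `σ ϖ = ζ * ϖ` with `ζ ∈ K₀`. -/
theorem exists_inertia_apply_eq_mul (hq : q.Prime) (hB : B.LiesOverPrime q) {ϖ ζ : Qb}
    (hζ : ζ ∈ cycloField Qb q)
    (τ : Qb ≃ₐ[↥(cycloField Qb q)] Qb) (hτ : τ ϖ = ζ * ϖ)
    (huniq : ∀ B' : ValuationSubring Qb, B'.LiesOverPrime q →
      (∀ a ∈ cycloField Qb q, a ∈ B ↔ a ∈ B') →
      ∀ x ∈ IntermediateField.adjoin ↥(cycloField Qb q) {ϖ}, x ∈ B ↔ x ∈ B') :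
    ∃ σ ∈ B.inertiaSubgroupIn ℚ, σ ϖ = ζ * ϖ ∧ ∀ a ∈ cycloField Qb q, σ a = a := by
  refine exists_inertia_apply_eq B hq hB ?_ τ hτ huniq
  exact mul_mem
    ((IntermediateField.adjoin ↥(cycloField Qb q) {ϖ}).algebraMap_mem ⟨ζ, hζ⟩)
    (IntermediateField.mem_adjoin_simple_self _ ϖ)

/-- **Exact order modulo the maximal ideal**: for a primitive `n`-th root of unity `ζ`, `q ∤ n`,
and `n ∤ i`, the element `ζ ^ i − 1` is a unit of `B`. -/
theorem valuation_pow_sub_one_eq_one (hq : q.Prime) (hB : B.LiesOverPrime q) {n : ℕ}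
    (hqn : ¬ q ∣ n) {ζ : Qb} (hζ : IsPrimitiveRoot ζ n) {i : ℕ} (hi : ¬ n ∣ i) :
    B.valuation (ζ ^ i - 1) = 1 := by
  have hn : 0 < n := by
    rcases Nat.eq_zero_or_pos n with h | h
    · subst h
      exact absurd (dvd_zero q) hqn
    · exact h
  have h1 : (ζ ^ i) ^ n = 1 := by
    rw [← pow_mul, mul_comm, pow_mul, hζ.pow_eq_one, one_pow]
  have hne : ζ ^ i ≠ 1 := fun h => hi ((hζ.pow_eq_one_iff_dvd i).1 h)
  exact valuation_sub_eq_one B hq ((B.mem_nonunits_iff).1 hB) hn hqn (one_pow n) h1 hne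

/-- the roots of unity of order prime to `q` lie in `K₀` -/
theorem mem_cycloField_of_isPrimitiveRoot {n : ℕ} (hqn : ¬ q ∣ n) {ζ : Qb}
    (hζ : IsPrimitiveRoot ζ n) : ζ ∈ cycloField Qb q := by
  have hn : 0 < n := by
    rcases Nat.eq_zero_or_pos n with h | h
    · subst h
      exact absurd (dvd_zero q) hqn
    · exact h
  exact mem_cycloField_of_pow_eq_one hn hqn hζ.pow_eq_one

end Fermat.Agent.BR3.TameSurj
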