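import Mathlib
import Fermat.Agent.BR3.TameRoot
import Fermat.Agent.BR3.TameSurj

/-!
# Program C (S36), node I3 (MID) part 5, arithmetic input: the inertia group at `q` acts
transitively on the primitive `q`-th roots of unity

`B` a valuation subring of `ℚ̄` over the prime `q`, `K₀ = cycloField ℚ̄ q` the maximal prime-to-`q`
cyclotomic field (unramified, with the full residue field).

General part (twin of `BR3/TameRoot` with the equation `ϖ ^ n = q` replaced by the valuation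
identity `v(ϖ) ^ n = v(q)` for every `v` over `q`, and `X ^ n - q` by a monic `f ∈ K₀[X]` of degree
`n` with `f(ϖ) = 0`):

* `minpoly_eq` : `minpoly K₀ ϖ = f`;
* `exists_algEquiv_of_root` (1a) : every root of `f` is conjugate to `ϖ` over `K₀`;
* `mem_iff_of_mem_adjoin` (1b) : two valuation subrings over `q` which agree on `K₀` agree on
  `K₀(ϖ)`;
* `exists_inertia_apply_eq_of_root` : for a root `c ∈ K₀(ϖ)` of `f` there is `σ` in the inertia
  group of `B` with `σ ϖ = c`, fixing `K₀` pointwise.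

Cyclotomic instance (`ϖ = ζ - 1`, `n = q - 1`, `f = Φ_q(X + 1)`):

* `valuation_pow_sub_one` : `v(ζ^a - 1) = v(ζ - 1)` for `q ∤ a`;
* `valuation_sub_one_pow` : `v(ζ - 1)^(q-1) = v(q)`;
* **`exists_inertia_apply_eq_pow`** : `∃ σ ∈ I_B, σ ζ = ζ ^ a ∧ σ fixes K₀` for every `a` prime to
  `q`.
-/

set_option autoImplicit false
set_option linter.style.haveILetI false

open Polynomial

namespace Fermat.Agent.BR3.WildCyclo

open Fermat.Agent.BR.UnramCyclo Fermat.Agent.BR3.TameRoot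

local notation "Qb" => AlgebraicClosure ℚ

variable {q : ℕ}

/-! ### Distinct values -/

section Distinct

variable {B : ValuationSubring Qb}
variable (hq : q.Prime) (hB : B.LiesOverPrime q) {n : ℕ} {ϖ : Qb}
  (hv : B.valuation ϖ ^ n = B.valuation (q : Qb))

include hq hv in
theorem root_ne_zero (hn : 0 < n) : ϖ ≠ 0 := by
  rintro rfl
  rw [map_zero, zero_pow hn.ne'] at hv
  exact (valuation_q_pos (B := B) hq).ne hv

include hq hB hv in
/-- The values of `a ϖ^i`, `a ∈ K₀ˣ`, `i < n`, determine `i`. -/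
theorem eq_of_valuation_eq {a b : Qb} (ha : a ∈ cycloField Qb q) (hb : b ∈ cycloField Qb q)
    (ha0 : a ≠ 0) (hb0 : b ≠ 0) {i j : ℕ} (hi : i < n) (hj : j < n)
    (h : B.valuation (a * ϖ ^ i) = B.valuation (b * ϖ ^ j)) : i = j := by
  obtain ⟨-, -, hdvr⟩ := isDVRField_cycloField B hq hB
  obtain ⟨k, hk⟩ := hdvr a ha ha0
  obtain ⟨l, hl⟩ := hdvr b hb hb0
  set γ := B.valuation (q : Qb) with hγ
  have hγ0 : 0 < γ := valuation_q_pos hq
  have hγ1 : γ ≠ 1 := (valuation_q_lt_one hB).ne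
  have h2 : γ ^ (k * n + i) = γ ^ (l * n + j) := by
    have h3 := congrArg (· ^ n) h
    simp only [map_mul, map_pow, hk, hl, mul_pow] at h3
    rw [← pow_mul, ← pow_mul, mul_comm i n, mul_comm j n, pow_mul, pow_mul, hv] at h3
    rw [zpow_add₀ hγ0.ne', zpow_add₀ hγ0.ne', zpow_mul, zpow_mul, zpow_natCast, zpow_natCast,
      zpow_natCast, zpow_natCast]
    exact h3
  have h4 : k * n + i = l * n + j := (zpow_right_inj₀ hγ0 hγ1).1 h2
  have h5 : ((i : ℤ) - j) = (l - k) * n := by linarith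
  have h6 : (n : ℤ) ∣ (i : ℤ) - j := ⟨l - k, by rw [h5]; ring⟩
  have h7 : (i : ℤ) - j = 0 := by
    apply Int.eq_zero_of_abs_lt_dvd h6
    rw [abs_lt]
    constructor <;> omega
  omega

include hq hB hv in
/-- The valuation of `∑_{i<n} a_i ϖ^i` is the largest valuation of a term. -/
theorem exists_valuation_sum_eq (a : ℕ → Qb) (ha : ∀ i, a i ∈ cycloField Qb q) (hn : 0 < n) :
    ∃ j ∈ Finset.range n, B.valuation (∑ i ∈ Finset.range n, a i * ϖ ^ i) =
        B.valuation (a j * ϖ ^ j) ∧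
      ∀ i ∈ Finset.range n, B.valuation (a i * ϖ ^ i) ≤ B.valuation (a j * ϖ ^ j) := by
  classical
  have hne : (Finset.range n).Nonempty := ⟨0, Finset.mem_range.2 hn⟩
  obtain ⟨j, hj, hmax⟩ := Finset.exists_max_image (Finset.range n)
    (fun i => B.valuation (a i * ϖ ^ i)) hne
  refine ⟨j, hj, ?_, hmax⟩
  have hϖ0 : ϖ ≠ 0 := root_ne_zero hq hv hn
  by_cases hj0 : a j = 0
  · have hall : ∀ i ∈ Finset.range n, a i * ϖ ^ i = 0 := by
      intro i hi
      have := hmax i hi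
      simp only [hj0, zero_mul, map_zero] at this
      exact (map_eq_zero _).1 (le_antisymm this zero_le)
    rw [Finset.sum_eq_zero hall, hj0, zero_mul]
  · apply Valuation.map_sum_eq_of_lt _ hj
    intro i hi
    rw [Finset.mem_sdiff, Finset.mem_singleton] at hi
    refine lt_of_le_of_ne (hmax i hi.1) ?_
    intro heq
    by_cases hi0 : a i = 0
    · simp only [hi0, zero_mul, map_zero] at heq
      exact (mul_ne_zero hj0 (pow_ne_zero _ hϖ0)) ((map_eq_zero _).1 heq.symm)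
    · exact hi.2 (eq_of_valuation_eq hq hB hv (ha i) (ha j) hi0 hj0
        (Finset.mem_range.1 hi.1) (Finset.mem_range.1 hj) heq)

include hq hB hv in
/-- `∑_{i<n} a_i ϖ^i ∈ B ↔ ∀ i < n, a_i ϖ^i ∈ B`. -/
theorem sum_mem_iff (a : ℕ → Qb) (ha : ∀ i, a i ∈ cycloField Qb q) (hn : 0 < n) :
    (∑ i ∈ Finset.range n, a i * ϖ ^ i) ∈ B ↔ ∀ i ∈ Finset.range n, a i * ϖ ^ i ∈ B := by
  constructor
  · intro h i hi
    obtain ⟨j, -, hj, hmax⟩ := exists_valuation_sum_eq hq hB hv a ha hn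
    rw [← B.valuation_le_one_iff] at h ⊢
    exact (hmax i hi).trans (hj ▸ h)
  · intro h
    exact B.toSubring.sum_mem h

include hq hB hv in
/-- `1, ϖ, …, ϖ^(n-1)` are linearly independent over `K₀`. -/
theorem eq_zero_of_sum_eq_zero (a : ℕ → Qb) (ha : ∀ i, a i ∈ cycloField Qb q) (hn : 0 < n)
    (h : ∑ i ∈ Finset.range n, a i * ϖ ^ i = 0) : ∀ i ∈ Finset.range n, a i = 0 := by
  obtain ⟨j, -, hj, hmax⟩ := exists_valuation_sum_eq hq hB hv a ha hn
  have hϖ0 : ϖ ≠ 0 := root_ne_zero hq hv hn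
  intro i hi
  have h1 := hmax i hi
  rw [← hj, h, map_zero] at h1
  have h2 : a i * ϖ ^ i = 0 := (map_eq_zero _).1 (le_antisymm h1 zero_le)
  exact (mul_eq_zero.1 h2).resolve_right (pow_ne_zero _ hϖ0)

include hq hB hv in
/-- a polynomial over `K₀` of degree `< n` vanishing at `ϖ` is zero -/
theorem eq_zero_of_aeval_eq_zero (hn : 0 < n) (p : (↥(cycloField Qb q))[X])
    (hp : p.natDegree < n) (h : aeval ϖ p = 0) : p = 0 := by
  rw [aeval_eq_sum p hp] at h
  have h1 := eq_zero_of_sum_eq_zero hq hB hv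
    (fun i => ((p.coeff i : ↥(cycloField Qb q)) : Qb)) (fun i => (p.coeff i).2) hn h
  refine Polynomial.ext fun i => ?_
  rw [coeff_zero]
  by_cases hi : i < n
  · exact Subtype.ext (h1 i (Finset.mem_range.2 hi))
  · exact coeff_eq_zero_of_natDegree_lt (lt_of_lt_of_le hp (not_lt.1 hi))

end Distinct

/-! ### The minimal polynomial, conjugates, unique extension -/

section Minpoly

variable {B : ValuationSubring Qb}
variable (hq : q.Prime) (hB : B.LiesOverPrime q) {n : ℕ} {ϖ : Qb}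
  (hv : B.valuation ϖ ^ n = B.valuation (q : Qb))
  {f : (↥(cycloField Qb q))[X]} (hf : f.Monic) (hfd : f.natDegree = n) (hroot : aeval ϖ f = 0)

include hq hB hv hf hfd hroot in
/-- **The minimal polynomial of `ϖ` over `K₀` is `f`.** -/
theorem minpoly_eq (hn : 0 < n) : minpoly ↥(cycloField Qb q) ϖ = f := by
  have hint : IsIntegral ↥(cycloField Qb q) ϖ := (isAlgebraic_cyclo ϖ).isIntegral
  have hdvd := minpoly.dvd ↥(cycloField Qb q) ϖ hroot
  have hle : n ≤ (minpoly ↥(cycloField Qb q) ϖ).natDegree := by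
    by_contra hlt
    rw [not_le] at hlt
    exact minpoly.ne_zero hint
      (eq_zero_of_aeval_eq_zero hq hB hv hn _ hlt (minpoly.aeval _ _))
  exact (eq_of_monic_of_dvd_of_natDegree_le (minpoly.monic hint) hf hdvd (hfd.le.trans hle)).symm

include hq hB hv hf hfd hroot in
/-- **(1a)** Every root of `f` is conjugate to `ϖ` over `K₀`. -/
theorem exists_algEquiv_of_root (hn : 0 < n) {c : Qb} (hc : aeval c f = 0) :
    ∃ τ : Qb ≃ₐ[↥(cycloField Qb q)] Qb, τ ϖ = c := by
  have : Normal ↥(cycloField Qb q) Qb := (isGalois_cyclo (q := q)).to_normal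
  apply minpoly.exists_algEquiv_of_root' (isAlgebraic_cyclo ϖ)
  rw [minpoly_eq hq hB hv hf hfd hroot hn]
  exact hc

include hf hfd hroot in
/-- every element of `K₀(ϖ)` is `∑_{i<n} a_i ϖ^i` with `a_i ∈ K₀` -/
theorem exists_sum_of_mem_adjoin (hn : 0 < n) {x : Qb}
    (hx : x ∈ IntermediateField.adjoin ↥(cycloField Qb q) ({ϖ} : Set Qb)) :
    ∃ a : ℕ → Qb, (∀ i, a i ∈ cycloField Qb q) ∧ x = ∑ i ∈ Finset.range n, a i * ϖ ^ i := by
  have hx' : x ∈ (IntermediateField.adjoin ↥(cycloField Qb q) ({ϖ} : Set Qb)).toSubalgebra := hx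
  rw [IntermediateField.adjoin_simple_toSubalgebra_of_isAlgebraic (isAlgebraic_cyclo ϖ),
    Algebra.adjoin_singleton_eq_range_aeval] at hx'
  obtain ⟨p, rfl⟩ := hx'
  have hf1 : f ≠ 1 := by
    intro h1
    have := congrArg natDegree h1
    rw [hfd, natDegree_one] at this
    exact hn.ne' this
  have hdeg : (p %ₘ f).natDegree < n := by
    have := natDegree_modByMonic_lt p hf hf1
    rwa [hfd] at this
  have hval : aeval ϖ p = aeval ϖ (p %ₘ f) := by
    conv_lhs => rw [← modByMonic_add_div p f]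
    rw [map_add, map_mul, hroot, zero_mul, add_zero]
  refine ⟨fun i => (((p %ₘ f).coeff i : ↥(cycloField Qb q)) : Qb),
    fun i => ((p %ₘ f).coeff i).2, ?_⟩
  show (aeval ϖ) p = _
  rw [hval, aeval_eq_sum _ hdeg]

omit hq hB in
include hv in
/-- `a ϖ^i ∈ B ↔ a^n q^i ∈ B` -/
theorem term_mem_iff (hn : 0 < n) (a : Qb) (i : ℕ) :
    a * ϖ ^ i ∈ B ↔ a ^ n * (q : Qb) ^ i ∈ B := by
  have h1 : B.valuation (a * ϖ ^ i) ^ n = B.valuation (a ^ n * (q : Qb) ^ i) := by
    rw [map_mul, map_mul, map_pow, map_pow, map_pow, mul_pow, ← pow_mul, mul_comm i n, pow_mul,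
      hv]
  rw [← B.valuation_le_one_iff, ← B.valuation_le_one_iff, ← h1]
  exact (pow_le_one_iff_of_nonneg zero_le hn.ne').symm

end Minpoly

section Unique

variable (hq : q.Prime) {n : ℕ} {ϖ : Qb}
  (hv : ∀ B : ValuationSubring Qb, B.LiesOverPrime q →
    B.valuation ϖ ^ n = B.valuation (q : Qb))
  {f : (↥(cycloField Qb q))[X]} (hf : f.Monic) (hfd : f.natDegree = n) (hroot : aeval ϖ f = 0)

include hq hv hf hfd hroot in
/-- **(1b)** Two valuation subrings of `ℚ̄` over `q` which agree on `K₀` agree on `K₀(ϖ)`. -/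
theorem mem_iff_of_mem_adjoin {B B' : ValuationSubring Qb}
    (hB : B.LiesOverPrime q) (hB' : B'.LiesOverPrime q)
    (h0 : ∀ x ∈ cycloField Qb q, x ∈ B ↔ x ∈ B') (hn : 0 < n) {x : Qb}
    (hx : x ∈ IntermediateField.adjoin ↥(cycloField Qb q) ({ϖ} : Set Qb)) :
    x ∈ B ↔ x ∈ B' := by
  obtain ⟨a, ha, rfl⟩ := exists_sum_of_mem_adjoin hf hfd hroot hn hx
  rw [sum_mem_iff hq hB (hv B hB) a ha hn, sum_mem_iff hq hB' (hv B' hB') a ha hn]
  refine forall₂_congr fun i _ => ?_
  rw [term_mem_iff (hv B hB) hn, term_mem_iff (hv B' hB') hn]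
  exact h0 _ (mul_mem (pow_mem (ha i) n) (pow_mem (natCast_mem _ q) i))

include hq hv hf hfd hroot in
/-- **the inertia group acts transitively on the roots of `f` in `K₀(ϖ)`** -/
theorem exists_inertia_apply_eq_of_root (B : ValuationSubring Qb) (hB : B.LiesOverPrime q)
    (hn : 0 < n) {c : Qb}
    (hcL : c ∈ IntermediateField.adjoin ↥(cycloField Qb q) ({ϖ} : Set Qb))
    (hc : aeval c f = 0) :
    ∃ σ ∈ B.inertiaSubgroupIn ℚ, σ ϖ = c ∧ ∀ a ∈ cycloField Qb q, σ a = a := by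
  obtain ⟨τ, hτ⟩ := exists_algEquiv_of_root hq hB (hv B hB) hf hfd hroot hn hc
  refine Fermat.Agent.BR3.TameSurj.exists_inertia_apply_eq B hq hB hcL τ hτ ?_
  intro B' hB' h0 x hx
  exact mem_iff_of_mem_adjoin hq hv hf hfd hroot hB hB' h0 hn hx

end Unique

/-! ### The cyclotomic instance `ϖ = ζ - 1` -/

section Cyclo

variable (hq : q.Prime) {ζ : Qb} (hζ : IsPrimitiveRoot ζ q) (B : ValuationSubring Qb)

/-- `v(z^a - 1) ≤ v(z - 1)` for `z ∈ B` -/
theorem valuation_pow_sub_one_le {z : Qb} (hz : z ∈ B) (a : ℕ) :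
    B.valuation (z ^ a - 1) ≤ B.valuation (z - 1) := by
  rw [← geom_sum_mul z a, map_mul]
  have h1 : B.valuation (∑ i ∈ Finset.range a, z ^ i) ≤ 1 := by
    rw [B.valuation_le_one_iff]
    exact B.toSubring.sum_mem fun i _ => pow_mem hz i
  calc B.valuation (∑ i ∈ Finset.range a, z ^ i) * B.valuation (z - 1)
      ≤ 1 * B.valuation (z - 1) := mul_le_mul_left h1 _
    _ = B.valuation (z - 1) := one_mul _

include hq hζ in
theorem zeta_pow_mem (a : ℕ) : ζ ^ a ∈ B := by
  rw [← B.valuation_le_one_iff]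
  have h : (ζ ^ a) ^ q = 1 := by rw [← pow_mul, mul_comm, pow_mul, hζ.pow_eq_one, one_pow]
  exact (valuation_eq_one_of_pow_eq_one B hq.pos h).le

include hq hζ in
/-- `v(ζ^a - 1) = v(ζ - 1)` for `q ∤ a` -/
theorem valuation_pow_sub_one {a : ℕ} (ha : ¬ q ∣ a) :
    B.valuation (ζ ^ a - 1) = B.valuation (ζ - 1) := by
  have hζB : ζ ∈ B := by simpa using zeta_pow_mem hq hζ B 1
  refine le_antisymm (valuation_pow_sub_one_le B hζB a) ?_
  have hcop : Nat.Coprime a q := (Nat.coprime_comm.1 ((Nat.Prime.coprime_iff_not_dvd hq).2 ha))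
  obtain ⟨a', -, ha'⟩ := Nat.exists_mul_mod_eq_one_of_coprime hcop hq.one_lt
  have h1 : (ζ ^ a) ^ a' = ζ := by
    rw [← pow_mul, ← pow_mod_orderOf, ← hζ.eq_orderOf, ha', pow_one]
  have h2 := valuation_pow_sub_one_le B (zeta_pow_mem hq hζ B a) a'
  rwa [h1] at h2

include hq hζ in
/-- `v(ζ - 1)^(q-1) = v(q)` -/
theorem valuation_sub_one_pow : B.valuation (ζ - 1) ^ (q - 1) = B.valuation (q : Qb) := by
  obtain ⟨n, hn⟩ : ∃ n, q = n + 1 := ⟨q - 1, (Nat.succ_pred_eq_of_pos hq.pos).symm⟩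
  have hζ' : IsPrimitiveRoot ζ (n + 1) := hn ▸ hζ
  have h := congrArg B.valuation hζ'.prod_pow_sub_one_eq_order
  rw [map_mul, map_pow, Valuation.map_neg, map_one, one_pow, one_mul, map_prod] at h
  have hq1 : q - 1 = n := by omega
  have h2 : ∀ k ∈ Finset.range n, B.valuation (ζ ^ (k + 1) - 1) = B.valuation (ζ - 1) := by
    intro k hk
    apply valuation_pow_sub_one hq hζ B
    intro hdvd
    have := Nat.le_of_dvd (Nat.succ_pos k) hdvd
    have := Finset.mem_range.1 hk
    omega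
  rw [Finset.prod_congr rfl h2, Finset.prod_const, Finset.card_range] at h
  rw [hq1, h, hn]
  push_cast
  rfl

/-- `Φ_q(X + 1)` over `K₀` -/
noncomputable def cycloShift (q : ℕ) : (↥(cycloField Qb q))[X] :=
  (cyclotomic q ↥(cycloField Qb q)).comp (X + C 1)

theorem cycloShift_monic : (cycloShift q).Monic :=
  (cyclotomic.monic q _).comp (monic_X_add_C 1) (by rw [natDegree_X_add_C]; exact one_ne_zero)

include hq in
theorem cycloShift_natDegree : (cycloShift q).natDegree = q - 1 := by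
  rw [cycloShift, natDegree_comp, natDegree_X_add_C, mul_one, natDegree_cyclotomic,
    Nat.totient_prime hq]

theorem aeval_cycloShift (x : Qb) :
    aeval x (cycloShift q) = eval (x + 1) (cyclotomic q Qb) := by
  rw [cycloShift, aeval_comp, map_add, aeval_X, aeval_C, map_one, aeval_def, eval₂_eq_eval_map,
    map_cyclotomic]

include hq hζ in
theorem aeval_cycloShift_pow_sub_one {a : ℕ} (ha : ¬ q ∣ a) :
    aeval (ζ ^ a - 1) (cycloShift q) = 0 := by
  rw [aeval_cycloShift, sub_add_cancel]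
  have hcop : Nat.Coprime a q := (Nat.coprime_comm.1 ((Nat.Prime.coprime_iff_not_dvd hq).2 ha))
  exact (hζ.pow_of_coprime a hcop).isRoot_cyclotomic hq.pos

include hq hζ in
/-- **The inertia group at `q` acts transitively on the primitive `q`-th roots of unity**: for
every `a` prime to `q` there is `σ` in the inertia group of `B` with `σ ζ = ζ ^ a`, fixing the
maximal prime-to-`q` cyclotomic field pointwise. -/
theorem exists_inertia_apply_eq_pow (hB : B.LiesOverPrime q) {a : ℕ} (ha : ¬ q ∣ a) :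
    ∃ σ ∈ B.inertiaSubgroupIn ℚ, σ ζ = ζ ^ a ∧ ∀ x ∈ cycloField Qb q, σ x = x := by
  have hn : 0 < q - 1 := by have := hq.two_le; omega
  have hv : ∀ B' : ValuationSubring Qb, B'.LiesOverPrime q →
      B'.valuation (ζ - 1) ^ (q - 1) = B'.valuation (q : Qb) :=
    fun B' _ => valuation_sub_one_pow hq hζ B'
  have h1 : ¬ q ∣ 1 := fun h => hq.one_lt.ne' (Nat.dvd_one.1 h)
  have hroot : aeval (ζ - 1) (cycloShift q) = 0 := by
    have := aeval_cycloShift_pow_sub_one hq hζ h1
    rwa [pow_one] at this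
  have hζL : ζ ∈ IntermediateField.adjoin ↥(cycloField Qb q) ({ζ - 1} : Set Qb) := by
    have h2 : ζ = (ζ - 1) + 1 := by ring
    have h3 : (ζ - 1) + 1 ∈ IntermediateField.adjoin ↥(cycloField Qb q) ({ζ - 1} : Set Qb) :=
      add_mem (IntermediateField.mem_adjoin_simple_self _ _) (one_mem _)
    rwa [← h2] at h3
  have hcL : ζ ^ a - 1 ∈ IntermediateField.adjoin ↥(cycloField Qb q) ({ζ - 1} : Set Qb) :=
    sub_mem (pow_mem hζL a) (one_mem _)
  obtain ⟨σ, hσ, hσϖ, hσK⟩ := exists_inertia_apply_eq_of_root hq hv cycloShift_monic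
    (cycloShift_natDegree hq) hroot B hB hn hcL (aeval_cycloShift_pow_sub_one hq hζ ha)
  refine ⟨σ, hσ, ?_, hσK⟩
  rw [map_sub, map_one] at hσϖ
  exact sub_left_injective hσϖ

end Cyclo

end Fermat.Agent.BR3.WildCyclo
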