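import Mathlib
import Fermat.Agent.BR3.MidKummerAbs
import Fermat.Agent.BR3.MidBeta
import Fermat.Agent.BR3.FibreProdMidFull
import Fermat.Agent.BR3.HeckePolyModel
import Fermat.Agent.BR3.WildCyclo
import Fermat.Agent.BR3.CompVal
import Fermat.Agent.BR.ZeroCount

/-!
# Program C (S36), node (I5-MID), part (D): the Kummer equation of the middle components in
`f`-coordinates — modular glue

`M` prime to the prime `q`, `B ⊂ ℚ̄` over `q`; `w₂ b` the middle valuations of `F₂ = Fb (M q q)`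
(`BR3/FibreProdMid`), over `O1 = 'can'` along `α₂` and over `O2 = 'et'` along `β₂` (`BR3/MidBeta`).
For `g ∈ Fb M` integral at the Gauss valuation `OM` of level `M`:

* `red_alpha2`, `red_beta2`, `red_alpha2_alpha`, `red_beta2_beta` : the residues on `w₂ b` of
  `α₂ x` (`= res₁ x`), `β₂ x` (`= res₂ x`), `α₂ (α g)` and `β₂ (β g)` (both `= res_M g`);
* `red_Ug`, `Ug_mem_nonunits_w2` : **(D1)** `U_g = β₂ (β g) - α₂ (α g)` is a non-unit of EVERY
  middle valuation `w₂ b`;
* `valuation_algebraMap_eq`, `valuation_zeta_sub_one_pow` : constants: `|ζ - 1|^(q-1) = |q|` on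
  `w₂ b`;
* `exists_pow_residue_mul_sq` : **(D2), algebraic form.**  At a level `H : LevelHyp B hB hqM K' W π'`
  with `|π'| = |q|` (e.g. the base level of the tower), for `g g' g'' ∈ CMod` with the twisted
  Kronecker congruence `PAt g = (X^q - C (β g''))(X - C ((β g')^q)) + C π' · Ψ₁`
  (`HeckePolyModel.exists_kronecker_PAt`), `Bc := α g - (β g')^q` and `R - Bc · h` units of `O1`:
  `V_g := U_g / (ζ - 1)` is a unit of `w₂ b`, and its residue `t` satisfies
  `t^(q-1) · β² = c₁ · (ρ - β · η)` with `β ρ η` the residues on `'can'` of `Bc`, `R`, `h` and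
  `c₁ = res (q / (ζ - 1)^(q-1))` a nonzero constant (`kummerC`, `kummerC_ne_zero`);
* `exists_kummer_witness_of_regular` : **(D2), local form.**  `Q₁` a place of `F̃_M`, `Cm ⊆ O1` a
  subring whose functions reduce to functions regular at `Q₁` (a model through the point),
  containing `α g`, `β g'`, the coefficients of `Ψ₁` and the constant `π'/q`.  If `res₁ Bc` has a
  SIMPLE zero at `Q₁` and `res₁ R` is a unit at `Q₁` (thickness one, `f`-form), then the residue `t`
  of `V_g` on `w₂ b` satisfies `t^(q-1) = c ∈ F̃_M` with `ord_{Q₁} c = -2`: the local witness of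
  `KummerGenus.riemann_hurwitz_ge_of_local` (`n = midDeg q`, `m = midCard q`) at every supersingular
  place, elliptic or not.
-/

set_option autoImplicit false
set_option linter.style.haveILetI false
set_option linter.unusedSectionVars false

noncomputable section

/- S36 build-time patch: file-local shortcut instances. They only shorten instance search;
each is the instance that the search finds anyway (reducible, same terms after unfolding). -/
local instance (priority := 100000) Fermat.Agent.BR3.FastInst.instAlgFullC_MidKummerMod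
    {k : Type*} [Field k] (N : ℕ) :
    Algebra k ↥(ModularCurve.modularFunctionFieldFullC k N) := inferInstance
local instance (priority := 100000) Fermat.Agent.BR3.FastInst.instFieldFullC_MidKummerMod
    {k : Type*} [Field k] (N : ℕ) :
    Field ↥(ModularCurve.modularFunctionFieldFullC k N) := inferInstance
local instance (priority := 100000) Fermat.Agent.BR3.FastInst.instAlgLaurent_MidKummerMod
    {k : Type*} [Field k] : Algebra k (LaurentSeries k) := inferInstance


set_option synthInstance.maxHeartbeats 400000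

namespace Fermat.Agent.BR3.MidKummerMod

open ModularCurve AlgebraicCurve HahnSeries Polynomial Fermat.Agent.X0 Fermat.Agent.Val
open Fermat.Agent.Hecke Fermat.Agent.Hecke.AL Fermat.Agent.Igusa Fermat.Agent.BR.TwoVal
open Fermat.Agent.BR.ResGen Fermat.Agent.BR.TwoValInst Fermat.Agent.BR3.FibreProd
open Fermat.Agent.BR3.MidBeta Fermat.Agent.BR3.HeckePoly Fermat.Agent.BR3.MidKummerAbs
open Fermat.Agent.Jac

/-! ### Generic: `Red` and the valuation -/

section Generic

variable {L : Type*} [Field L] {w : ValuationSubring L} {κ' : Type*} [Field κ'] {rw : w →+* κ'}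

theorem red_valuation_le_one {z : L} {r : κ'} (h : Red w rw z r) : w.valuation z ≤ 1 :=
  (w.valuation_le_one_iff z).mpr h.mem

theorem red_valuation_eq_one (hrw : ∀ z : w, rw z = 0 ↔ ¬ IsUnit z) {z : L} {r : κ'}
    (h : Red w rw z r) (hr : r ≠ 0) : w.valuation z = 1 := by
  obtain ⟨hz, hzr⟩ := h
  have hu : IsUnit (⟨z, hz⟩ : w) := by
    by_contra hnu
    exact hr (hzr ▸ (hrw _).mpr hnu)
  exact (w.valuation_eq_one_iff _).mp hu

theorem red_valuation_lt_one (hrw : ∀ z : w, rw z = 0 ↔ ¬ IsUnit z) {z : L}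
    (h : Red w rw z 0) : w.valuation z < 1 := by
  obtain ⟨hz, hzr⟩ := h
  have hnu : ¬ IsUnit (⟨z, hz⟩ : w) := (hrw _).mp hzr
  refine lt_of_le_of_ne ((w.valuation_le_one_iff z).mpr hz) fun h1 => hnu ?_
  exact (w.valuation_eq_one_iff (⟨z, hz⟩ : w)).mpr h1

end Generic

variable {M q : ℕ} [NeZero M] [hq : Fact q.Prime]
variable (B : ValuationSubring (AlgebraicClosure ℚ)) (hB : B.LiesOverPrime q) (hqM : ¬ q ∣ M)
variable {ζ : Kbˣ} (hζ : IsPrimitiveRoot ζ q) {b : ℕ} (hb : b < q - 1)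

local notation "kB" => IsLocalRing.ResidueField B

/-! ### (D1) the residues on `w₂ b` -/

section Residues

/-- the kernel of `res_{w₂ b}` is the set of non-units -/
theorem resw2_eq_zero_iff_not_isUnit (z : w2 B hB hqM hζ hb) :
    resw2 B hB hqM hζ hb z = 0 ↔ ¬ IsUnit z := by
  rw [isUnit_iff_resw2_ne_zero, not_not]

/-- `res_{w₂ b} (α₂ x) = res₁ x`. -/
theorem red_alpha2 {x : Fb (M * q)} (hx : x ∈ O1 M B hB) :
    Red (w2 B hB hqM hζ hb) (resw2 B hB hqM hζ hb) (alpha2 M q x) (res1 M B hB ⟨x, hx⟩) :=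
  ⟨(alpha2_mem_w2_iff B hB hqM hζ hb x).2 hx, resw2_alpha2 B hB hqM hζ hb x hx⟩

/-- `res_{w₂ b} (β₂ x) = res₂ x`. -/
theorem red_beta2 {x : Fb (M * q)} (hx : x ∈ O2 B hB hqM) :
    Red (w2 B hB hqM hζ hb) (resw2 B hB hqM hζ hb) (beta2 M q x) (res2 B hB hqM ⟨x, hx⟩) :=
  ⟨(beta2_mem_w2_iff B hB hqM hζ hb x).2 hx, resw2_beta2 B hB hqM hζ hb x hx⟩

/-- `res_{w₂ b} (α₂ (α g)) = res_M g`. -/
theorem red_alpha2_alpha {g : Fb M} (hg : g ∈ OM M B hB) :
    Red (w2 B hB hqM hζ hb) (resw2 B hB hqM hζ hb) (alpha2 M q (heckeAlphaBar Kb M q g))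
      (resM M B hB ⟨g, hg⟩) := by
  have h := red_alpha2 B hB hqM hζ hb ((alpha_mem_O1_iff B hB g).2 hg)
  rwa [res1_alpha B hB g hg] at h

/-- `res_{w₂ b} (β₂ (β g)) = res_M g`. -/
theorem red_beta2_beta {g : Fb M} (hg : g ∈ OM M B hB) :
    Red (w2 B hB hqM hζ hb) (resw2 B hB hqM hζ hb) (beta2 M q (heckeBetaBar Kb M q g))
      (resM M B hB ⟨g, hg⟩) := by
  have h := red_beta2 B hB hqM hζ hb ((beta_mem_O2_iff B hB hqM g).2 hg)
  rwa [res2_beta B hB hqM g hg] at h

/-- **(D1)** `res_{w₂ b} (U_g) = 0`. -/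
theorem red_Ug {g : Fb M} (hg : g ∈ OM M B hB) :
    Red (w2 B hB hqM hζ hb) (resw2 B hB hqM hζ hb) (Ug M q g) 0 := by
  have h := (red_beta2_beta B hB hqM hζ hb hg).sub (red_alpha2_alpha B hB hqM hζ hb hg)
  rwa [sub_self] at h

/-- **(D1)** `U_g` is a non-unit of every middle valuation. -/
theorem Ug_mem_nonunits_w2 {g : Fb M} (hg : g ∈ OM M B hB) :
    Ug M q g ∈ (w2 B hB hqM hζ hb).nonunits := by
  rw [ValuationSubring.mem_nonunits_iff]
  exact red_valuation_lt_one (resw2_eq_zero_iff_not_isUnit B hB hqM hζ hb)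
    (red_Ug B hB hqM hζ hb hg)

end Residues

/-! ### Constants -/

section Constants

/-- constants of `B`-valuation one have `w₂ b`-valuation one -/
theorem valuation_algebraMap_eq_one {u : Kb} (hu : B.valuation u = 1) :
    (w2 B hB hqM hζ hb).valuation (algebraMap Kb (Fb (M * q * q)) u) = 1 := by
  have h1 : u ∈ B := (B.valuation_le_one_iff u).mp hu.le
  have h2 : u⁻¹ ∈ B := by rw [← B.valuation_le_one_iff, map_inv₀, hu, inv_one]
  have h3 := ((w2 B hB hqM hζ hb).valuation_le_one_iff _).mpr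
    (algebraMap_mem_w2 B hB hqM hζ hb h1)
  have h4 := ((w2 B hB hqM hζ hb).valuation_le_one_iff _).mpr
    (algebraMap_mem_w2 B hB hqM hζ hb h2)
  rw [map_inv₀, map_inv₀] at h4
  have hu0 : u ≠ 0 := by
    rintro rfl
    rw [map_zero] at hu
    exact zero_ne_one hu
  have hpos : 0 < (w2 B hB hqM hζ hb).valuation (algebraMap Kb (Fb (M * q * q)) u) :=
    zero_lt_iff.mpr ((_root_.map_ne_zero _).mpr ((_root_.map_ne_zero _).mpr hu0))
  exact le_antisymm h3 ((inv_le_one₀ hpos).mp h4)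

/-- constants of equal `B`-valuation have equal `w₂ b`-valuation -/
theorem valuation_algebraMap_eq {c₁ c₂ : Kb} (h : B.valuation c₁ = B.valuation c₂) :
    (w2 B hB hqM hζ hb).valuation (algebraMap Kb (Fb (M * q * q)) c₁) =
      (w2 B hB hqM hζ hb).valuation (algebraMap Kb (Fb (M * q * q)) c₂) := by
  rcases eq_or_ne c₂ 0 with rfl | hc₂
  · rw [map_zero, Valuation.zero_iff] at h
    rw [h]
  · have hu : B.valuation (c₁ / c₂) = 1 := by
      rw [map_div₀, h]
      exact div_self ((_root_.map_ne_zero _).mpr hc₂)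
    have e : c₁ = c₁ / c₂ * c₂ := by field_simp
    rw [e, map_mul, map_mul, valuation_algebraMap_eq_one B hB hqM hζ hb hu, one_mul]

/-- constants of `B`-valuation `< 1` have `w₂ b`-valuation `< 1` -/
theorem valuation_algebraMap_lt_one {c : Kb} (hc : B.valuation c < 1) :
    (w2 B hB hqM hζ hb).valuation (algebraMap Kb (Fb (M * q * q)) c) < 1 := by
  have hcB : c ∈ B := (B.valuation_le_one_iff c).mp hc.le
  have hres : IsLocalRing.residue B ⟨c, hcB⟩ = 0 := by
    rw [IsLocalRing.residue_eq_zero_iff, IsLocalRing.mem_maximalIdeal, mem_nonunits_iff]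
    intro hu
    have := (B.valuation_eq_one_iff ⟨c, hcB⟩).mp hu
    exact absurd this hc.ne
  have hred : Red (w2 B hB hqM hζ hb) (resw2 B hB hqM hζ hb)
      (algebraMap Kb (Fb (M * q * q)) c) 0 :=
    ⟨algebraMap_mem_w2 B hB hqM hζ hb hcB, by
      rw [resw2_algebraMap B hB hqM hζ hb hcB, hres, map_zero]⟩
  exact red_valuation_lt_one (resw2_eq_zero_iff_not_isUnit B hB hqM hζ hb) hred

include hζ in
/-- `|ζ - 1|^(q-1) = |q|` in `B`. -/
theorem valuation_zeta_sub_one_pow_B :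
    B.valuation ((ζ : Kb) - 1) ^ (q - 1) = B.valuation (q : Kb) :=
  Fermat.Agent.BR3.WildCyclo.valuation_sub_one_pow hq.out
    (hζ.map_of_injective (f := Units.coeHom Kb) Units.val_injective) B

/-- `|ζ - 1|^(q-1) = |q|` on `w₂ b`. -/
theorem valuation_zeta_sub_one_pow :
    (w2 B hB hqM hζ hb).valuation (algebraMap Kb (Fb (M * q * q)) ((ζ : Kb) - 1)) ^ (q - 1) =
      (w2 B hB hqM hζ hb).valuation (algebraMap Kb (Fb (M * q * q)) (q : Kb)) := by
  rw [← map_pow, ← map_pow]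
  apply valuation_algebraMap_eq
  rw [map_pow]
  exact valuation_zeta_sub_one_pow_B B hζ

include B hζ in
theorem zeta_sub_one_ne_zero : (ζ : Kb) - 1 ≠ 0 := by
  intro h
  have h1 := valuation_zeta_sub_one_pow_B B hζ
  have hq1 : q - 1 ≠ 0 := by have := hq.out.two_le; omega
  rw [h, map_zero, zero_pow hq1, eq_comm, Valuation.zero_iff] at h1
  exact Nat.cast_ne_zero.mpr hq.out.ne_zero h1

include hζ in
/-- the constant `q / (ζ - 1)^(q-1)` is a unit of `B` -/
theorem valuation_kummerConst :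
    B.valuation ((q : Kb) / ((ζ : Kb) - 1) ^ (q - 1)) = 1 := by
  rw [map_div₀, map_pow, valuation_zeta_sub_one_pow_B B hζ]
  exact div_self ((_root_.map_ne_zero _).mpr (Nat.cast_ne_zero.mpr hq.out.ne_zero))

include hζ in
theorem kummerConst_mem : (q : Kb) / ((ζ : Kb) - 1) ^ (q - 1) ∈ B :=
  (B.valuation_le_one_iff _).mp (valuation_kummerConst B hζ).le

/-- `c₁ = res (q / (ζ - 1)^(q-1)) ∈ k` (in fact `c₁ = -1`). -/
def kummerC (hζ : IsPrimitiveRoot ζ q) : kB :=
  IsLocalRing.residue B ⟨(q : Kb) / ((ζ : Kb) - 1) ^ (q - 1), kummerConst_mem B hζ⟩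

theorem kummerC_ne_zero : kummerC B hζ ≠ 0 := by
  unfold kummerC
  rw [Ne, IsLocalRing.residue_eq_zero_iff, IsLocalRing.mem_maximalIdeal, mem_nonunits_iff, not_not]
  exact (B.valuation_eq_one_iff _).mpr (valuation_kummerConst B hζ)

end Constants

/-! ### (D2) the Kummer equation, algebraic form -/

section Equation

variable {π' : Kb} {g g' g'' : Fb M} {Ψ₁ : (Fb (M * q))[X]}

set_option maxHeartbeats 1600000 in
/-- **(D2), algebraic form: the Kummer equation of the middle component `w₂ b` in the coordinate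
`g`.**  `π'` a constant with `|π'| = |q|`; `g, g'` integral at the Gauss valuation of level `M`;
the twisted Kronecker congruence `hP` with `Ψ₁` integral on `'can'`; `Bc = α g - (β g')^q` and
`R - Bc · h` units of `O1 = 'can'` (`R = π' Ψ₁(α g) / q`, `h = corrH`).  Then `V_g = U_g / (ζ - 1)`
is a unit of `w₂ b` and its residue `t` satisfies `t^(q-1) β² = c₁ (ρ - β η)`. -/
theorem exists_pow_residue_mul_sq (hπq : B.valuation π' = B.valuation (q : Kb))
    (hg : g ∈ OM M B hB) (hg' : g' ∈ OM M B hB) (hΨ₁ : ∀ k, Ψ₁.coeff k ∈ O1 M B hB)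
    (hP : PAt M q g =
      (X ^ q - Polynomial.C (heckeBetaBar Kb M q g'')) *
          (X - Polynomial.C ((heckeBetaBar Kb M q g') ^ q)) +
        Polynomial.C (algebraMap Kb (Fb (M * q)) π') * Ψ₁)
    (hne : beta2 M q (heckeBetaBar Kb M q g) ≠ alpha2 M q (heckeAlphaBar Kb M q g))
    (hBcO : heckeAlphaBar Kb M q g - heckeBetaBar Kb M q g' ^ q ∈ O1 M B hB)
    (hBc : heckeAlphaBar Kb M q g - heckeBetaBar Kb M q g' ^ q ∉ (O1 M B hB).nonunits)
    (hRhO : thickR q Ψ₁ (heckeAlphaBar Kb M q g) (algebraMap Kb (Fb (M * q)) π') -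
        (heckeAlphaBar Kb M q g - heckeBetaBar Kb M q g' ^ q) *
          corrH q Ψ₁ (heckeBetaBar Kb M q g') (heckeAlphaBar Kb M q g)
            (algebraMap Kb (Fb (M * q)) π') ∈ O1 M B hB)
    (hRh : thickR q Ψ₁ (heckeAlphaBar Kb M q g) (algebraMap Kb (Fb (M * q)) π') -
        (heckeAlphaBar Kb M q g - heckeBetaBar Kb M q g' ^ q) *
          corrH q Ψ₁ (heckeBetaBar Kb M q g') (heckeAlphaBar Kb M q g)
            (algebraMap Kb (Fb (M * q)) π') ∉ (O1 M B hB).nonunits) :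
    ∃ t : LaurentSeries kB, t ≠ 0 ∧
      Red (w2 B hB hqM hζ hb) (resw2 B hB hqM hζ hb)
        (Ug M q g / algebraMap Kb (Fb (M * q * q)) ((ζ : Kb) - 1)) t ∧
      ∀ β ρ η : LaurentSeries kB,
        Red (O1 M B hB) (res1 M B hB)
          (heckeAlphaBar Kb M q g - heckeBetaBar Kb M q g' ^ q) β →
        Red (O1 M B hB) (res1 M B hB)
          (thickR q Ψ₁ (heckeAlphaBar Kb M q g) (algebraMap Kb (Fb (M * q)) π')) ρ →
        Red (O1 M B hB) (res1 M B hB)
          (corrH q Ψ₁ (heckeBetaBar Kb M q g') (heckeAlphaBar Kb M q g)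
            (algebraMap Kb (Fb (M * q)) π')) η →
        t ^ (q - 1) * β ^ 2 = HahnSeries.C (kummerC B hζ) * (ρ - β * η) := by
  letI := algebraAlong (alpha2 M q)
  set w := w2 B hB hqM hζ hb with hw
  set rw := resw2 B hB hqM hζ hb with hrwdef
  have hrw : ∀ z : w, rw z = 0 ↔ ¬ IsUnit z := resw2_eq_zero_iff_not_isUnit B hB hqM hζ hb
  have halg : ∀ x : Fb (M * q), algebraMap (Fb (M * q)) (Fb (M * q * q)) x = alpha2 M q x :=
    fun _ => rfl
  have hconst : ∀ c : Kb, alpha2 M q (algebraMap Kb (Fb (M * q)) c) =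
      algebraMap Kb (Fb (M * q * q)) c := fun c => (alpha2 M q).commutes c
  have hvK : ∀ x : Fb (M * q), vK w x = w.valuation (alpha2 M q x) := fun _ => rfl
  -- valuations of elements of `O1`
  have hle : ∀ x : Fb (M * q), x ∈ O1 M B hB → vK w x ≤ 1 := fun x hx =>
    red_valuation_le_one (red_alpha2 B hB hqM hζ hb hx)
  have hunit : ∀ x : Fb (M * q), x ∈ O1 M B hB → x ∉ (O1 M B hB).nonunits → vK w x = 1 :=
    fun x hx hxn => red_valuation_eq_one hrw (red_alpha2 B hB hqM hζ hb hx)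
      (fun h0 => hxn ((mem_nonunits_O1_iff B hB hx).mpr h0))
  have hq0 : ((q : ℕ) : Fb (M * q)) ≠ 0 := Nat.cast_ne_zero.mpr hq.out.ne_zero
  have hqcast : alpha2 M q ((q : ℕ) : Fb (M * q)) = algebraMap Kb (Fb (M * q * q)) (q : Kb) := by
    rw [map_natCast, map_natCast]
  have hy : heckeAlphaBar Kb M q g ∈ O1 M B hB := (alpha_mem_O1_iff B hB g).2 hg
  have hx : heckeBetaBar Kb M q g' ∈ O1 M B hB := (beta_mem_O1_iff B hB g').2 hg'
  have hqlt : B.valuation (q : Kb) < 1 := (ValuationSubring.mem_nonunits_iff B).mp hB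
  have hq1 : vK w ((q : ℕ) : Fb (M * q)) < 1 := by
    rw [hvK, hqcast]
    exact valuation_algebraMap_lt_one B hB hqM hζ hb hqlt
  have hϖq : vK w (algebraMap Kb (Fb (M * q)) π') ≤ vK w ((q : ℕ) : Fb (M * q)) := by
    rw [hvK, hvK, hqcast, hconst]
    exact (valuation_algebraMap_eq B hB hqM hζ hb hπq).le
  have hϖ₀ : vK w (algebraMap Kb (Fb (M * q)) ((ζ : Kb) - 1)) ^ (q - 1) =
      vK w ((q : ℕ) : Fb (M * q)) := by
    rw [hvK, hvK, hqcast, hconst]
    exact valuation_zeta_sub_one_pow B hB hqM hζ hb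
  have hΨ : Fermat.Agent.BR.NodeNewton.IntCoeff (vK w) Ψ₁ := fun k => hle _ (hΨ₁ k)
  have h0 : (PAt M q g).eval (heckeAlphaBar Kb M q g) = 0 := PAt_eval_alpha hqM g
  have h1 : aeval (algebraMap (Fb (M * q)) (Fb (M * q * q)) (heckeAlphaBar Kb M q g) + Ug M q g)
      (PAt M q g) = 0 := by
    have e : algebraMap (Fb (M * q)) (Fb (M * q * q)) (heckeAlphaBar Kb M q g) + Ug M q g =
        beta2 M q (heckeBetaBar Kb M q g) := by
      rw [halg, Ug]
      ring
    rw [e, aeval_def, ← eval_map]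
    have h := heckePoly_map_mid_eval_beta (M := M) (q := q) g
    rw [← PAt_map_alpha2] at h
    exact h
  have hU0 : Ug M q g ≠ 0 := by
    intro h
    apply hne
    rw [Ug, sub_eq_zero] at h
    exact h
  have hUlt : w.valuation (Ug M q g) < 1 :=
    red_valuation_lt_one hrw (red_Ug B hB hqM hζ hb hg)
  have hone := valuation_div_eq_one_tw w hq.out hq0 hP (PAt_monic g) (PAt_natDegree hqM g) h0 h1
    hU0 hΨ (hle _ hx) (hle _ hy) hq1 hϖq (hunit _ hBcO hBc) (hunit _ hRhO hRh) hUlt hϖ₀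
  have hone' : w.valuation (Ug M q g / algebraMap Kb (Fb (M * q * q)) ((ζ : Kb) - 1)) = 1 := by
    rw [← hconst]
    exact hone
  have hmem : Ug M q g / algebraMap Kb (Fb (M * q * q)) ((ζ : Kb) - 1) ∈ w := by
    rw [← w.valuation_le_one_iff]
    exact hone'.le
  refine ⟨rw ⟨_, hmem⟩, ?_, ⟨hmem, rfl⟩, ?_⟩
  · intro h0'
    have hnu := (hrw _).mp h0'
    apply hnu
    rw [w.valuation_eq_one_iff]
    exact hone'
  · intro β ρ η hβ hρ hη
    have hβ' := red_alpha2 B hB hqM hζ hb hβ.mem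
    rw [hβ.2] at hβ'
    have hρ' := red_alpha2 B hB hqM hζ hb hρ.mem
    rw [hρ.2] at hρ'
    have hη' := red_alpha2 B hB hqM hζ hb hη.mem
    rw [hη.2] at hη'
    have hγ₁ : Red w rw (algebraMap (Fb (M * q)) (Fb (M * q * q))
        (((q : ℕ) : Fb (M * q)) / algebraMap Kb (Fb (M * q)) ((ζ : Kb) - 1) ^ (q - 1)))
        (HahnSeries.C (kummerC B hζ)) := by
      have e : algebraMap (Fb (M * q)) (Fb (M * q * q))
          (((q : ℕ) : Fb (M * q)) / algebraMap Kb (Fb (M * q)) ((ζ : Kb) - 1) ^ (q - 1)) =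
          algebraMap Kb (Fb (M * q * q)) ((q : Kb) / ((ζ : Kb) - 1) ^ (q - 1)) := by
        rw [halg, map_div₀, map_pow, hconst, hqcast, map_div₀, map_pow]
      rw [e]
      exact ⟨algebraMap_mem_w2 B hB hqM hζ hb (kummerConst_mem B hζ),
        resw2_algebraMap B hB hqM hζ hb (kummerConst_mem B hζ)⟩
    have ht : Red w rw (Ug M q g / algebraMap (Fb (M * q)) (Fb (M * q * q))
        (algebraMap Kb (Fb (M * q)) ((ζ : Kb) - 1))) (rw ⟨_, hmem⟩) := by
      rw [halg, hconst]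
      exact ⟨hmem, rfl⟩
    exact pow_residue_mul_sq w hrw hq.out hq0 hP (PAt_monic g) (PAt_natDegree hqM g) h0 h1
      hU0 hΨ (hle _ hx) (hle _ hy) hq1 hϖq (hunit _ hBcO hBc) (hunit _ hRhO hRh) hϖ₀
      hβ' hρ' hη' hγ₁ ht

end Equation

/-! ### (D2) the local order at a supersingular place, from regularity on a model -/

section Local

open Fermat.Agent.BR.Inst.SpecIso Fermat.Agent.BR3.CompVal Fermat.Agent.BR3.VertTaylorTw
open Fermat.Agent.BR.NodeNewton Fermat.Agent.BR3.VertTaylorAt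

local notation "FtM" => modularFunctionFieldFullC (IsLocalRing.ResidueField B) M

theorem ord_nonneg_of_adicValuation_le_one {k F : Type*} [Field k] [Field F] [Algebra k F]
    (e : Place k F) {f : F} (hf : f ≠ 0) (h : e.adicValuation f ≤ 1) : 0 ≤ e.ord f := by
  have hne := e.adicValuation_ne_zero hf
  have hlog : WithZero.log (e.adicValuation f) ≤ WithZero.log (1 : WithZero (Multiplicative ℤ)) :=
    (WithZero.log_le_log hne one_ne_zero).mpr h
  have : e.ord f = -(WithZero.log (e.adicValuation f)) := rfl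
  rw [WithZero.log_one] at hlog
  omega

variable {π' : Kb} {g g' g'' : Fb M} {Ψ₁ : (Fb (M * q))[X]}

/-- `Ψ₁(y)` lies in every subring containing `y` and the coefficients of `Ψ₁` -/
theorem eval_mem_of_coeff_mem {R : Type*} [CommRing R] (S : Subring R) {P : R[X]} {y : R}
    (hP : ∀ k, P.coeff k ∈ S) (hy : y ∈ S) : P.eval y ∈ S := by
  rw [eval_eq_sum_range]
  exact S.sum_mem fun i _ => S.mul_mem (hP i) (S.pow_mem hy i)

set_option maxHeartbeats 1600000 in
/-- **(D2), local form.**  `Q₁` a place of `F̃_M = κ('can')`, `Cm ⊆ O1` a subring (a model) whose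
functions reduce to functions regular at `Q₁`, containing `α g`, `β g'`, the coefficients of `Ψ₁`
and the constant `π'/q`.  If the reduction of `Bc = α g - (β g')^q` has a SIMPLE zero at `Q₁` and
the reduction of `R = π' Ψ₁(α g)/q` is a unit at `Q₁` (thickness one), then
`V_g = U_g/(ζ - 1)` is a unit of every `w₂ b`, and the `(q-1)`-st power of its residue is a
function `c ∈ F̃_M` with `ord_{Q₁} c = -2`. -/
theorem exists_kummer_witness_of_regular (Q₁ : Place kB FtM) (Cm : Subring (Fb (M * q)))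
    (hCm : ∀ x ∈ Cm, x ∈ O1 M B hB)
    (hreg : ∀ x (hx : x ∈ Cm), Q₁.adicValuation (red1F B hB hqM ⟨x, hCm x hx⟩) ≤ 1)
    (hπq : B.valuation π' = B.valuation (q : Kb))
    (hg : g ∈ OM M B hB) (hg' : g' ∈ OM M B hB)
    (hy : heckeAlphaBar Kb M q g ∈ Cm) (hx : heckeBetaBar Kb M q g' ∈ Cm)
    (hΨ₁ : ∀ k, Ψ₁.coeff k ∈ Cm)
    (hc : algebraMap Kb (Fb (M * q)) (π' / (q : Kb)) ∈ Cm)
    (hP : PAt M q g =
      (X ^ q - Polynomial.C (heckeBetaBar Kb M q g'')) *
          (X - Polynomial.C ((heckeBetaBar Kb M q g') ^ q)) +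
        Polynomial.C (algebraMap Kb (Fb (M * q)) π') * Ψ₁)
    (hne : beta2 M q (heckeBetaBar Kb M q g) ≠ alpha2 M q (heckeAlphaBar Kb M q g))
    (hBcord : ∀ h : heckeAlphaBar Kb M q g - heckeBetaBar Kb M q g' ^ q ∈ O1 M B hB,
      Q₁.ord (red1F B hB hqM ⟨_, h⟩) = 1)
    (hRval : ∀ h : thickR q Ψ₁ (heckeAlphaBar Kb M q g) (algebraMap Kb (Fb (M * q)) π') ∈
      O1 M B hB, Q₁.adicValuation (red1F B hB hqM ⟨_, h⟩) = 1) :
    ∃ (t : LaurentSeries kB) (c : FtM), t ≠ 0 ∧
      Red (w2 B hB hqM hζ hb) (resw2 B hB hqM hζ hb)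
        (Ug M q g / algebraMap Kb (Fb (M * q * q)) ((ζ : Kb) - 1)) t ∧
      t ^ (q - 1) = (c : LaurentSeries kB) ∧ c ≠ 0 ∧ Q₁.ord c = -2 := by
  classical
  set y := heckeAlphaBar Kb M q g with hydef
  set x₁ := heckeBetaBar Kb M q g' with hx₁def
  set ϖ := algebraMap Kb (Fb (M * q)) π' with hϖdef
  have hq0K : (q : Kb) ≠ 0 := Nat.cast_ne_zero.mpr hq.out.ne_zero
  have hq0 : ((q : ℕ) : Fb (M * q)) ≠ 0 := Nat.cast_ne_zero.mpr hq.out.ne_zero
  have hϖq : ϖ / ((q : ℕ) : Fb (M * q)) = algebraMap Kb (Fb (M * q)) (π' / (q : Kb)) := by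
    rw [map_div₀, map_natCast]
  -- membership in the model
  have hBcC : y - x₁ ^ q ∈ Cm := Cm.sub_mem hy (Cm.pow_mem hx q)
  have hRC : thickR q Ψ₁ y ϖ ∈ Cm := by
    have e : thickR q Ψ₁ y ϖ = algebraMap Kb (Fb (M * q)) (π' / (q : Kb)) * Ψ₁.eval y := by
      rw [thickR, ← hϖq]
      field_simp
    rw [e]
    exact Cm.mul_mem hc (eval_mem_of_coeff_mem Cm hΨ₁ hy)
  -- the composite valuation ring `{x ∈ O1 | red x regular at Q₁}`
  set V := compVal (O1 M B hB) (red1F B hB hqM) (red1F_eq_zero_iff B hB hqM) Q₁.adicValuation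
    with hV
  have hCV : ∀ x ∈ Cm, V.valuation x ≤ 1 := fun x hx =>
    (V.valuation_le_one_iff x).mpr ⟨hCm x hx, hreg x hx⟩
  have hcorr : V.valuation (corrH q Ψ₁ x₁ y ϖ) ≤ 1 := by
    unfold corrH
    refine le_trans (V.valuation.map_add _ _) (max_le ?_ ?_)
    · exact intCoeff_vertH₁ q (hCV _ hx) (hCV _ hy) 0
    · rw [map_mul, hϖq]
      have h1 := hCV _ hc
      have h2 : V.valuation ((vertPolyAt Ψ₁ y).coeff 0) ≤ 1 :=
        intCoeff_vertPolyAt (fun k => hCV _ (hΨ₁ k)) (hCV _ hy) 0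
      exact mul_le_one' h1 h2
  obtain ⟨hhO, hhreg⟩ := (V.valuation_le_one_iff _).mp hcorr
  have hBcO := hCm _ hBcC
  have hRO := hCm _ hRC
  set β' := red1F B hB hqM ⟨y - x₁ ^ q, hBcO⟩ with hβ'
  set ρ' := red1F B hB hqM ⟨thickR q Ψ₁ y ϖ, hRO⟩ with hρ'
  set η' := red1F B hB hqM ⟨corrH q Ψ₁ x₁ y ϖ, hhO⟩ with hη'
  have hβord : Q₁.ord β' = 1 := hBcord hBcO
  have hβ0 : β' ≠ 0 := by
    intro h0
    rw [h0, Place.ord_zero] at hβord
    exact zero_ne_one hβord
  have hβlt : Q₁.adicValuation β' < 1 :=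
    adicValuation_lt_one_of_ord_pos Q₁ (by rw [hβord]; exact one_pos)
  have hρval : Q₁.adicValuation ρ' = 1 := hRval hRO
  have hρ0 : ρ' ≠ 0 := by
    intro h0
    rw [h0, map_zero] at hρval
    exact zero_ne_one hρval
  have hβηlt : Q₁.adicValuation (β' * η') < 1 := by
    rw [map_mul]
    calc Q₁.adicValuation β' * Q₁.adicValuation η' ≤ Q₁.adicValuation β' * 1 :=
          mul_le_mul' le_rfl hhreg
      _ = Q₁.adicValuation β' := mul_one _
      _ < 1 := hβlt
  have hdiffval : Q₁.adicValuation (ρ' - β' * η') = 1 := by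
    rw [Valuation.map_sub_eq_of_lt_left _ (by rw [hρval]; exact hβηlt), hρval]
  have hdiff0 : ρ' - β' * η' ≠ 0 := by
    intro h0
    rw [h0, map_zero] at hdiffval
    exact zero_ne_one hdiffval
  -- the hypotheses of the algebraic form
  have hRhO : thickR q Ψ₁ y ϖ - (y - x₁ ^ q) * corrH q Ψ₁ x₁ y ϖ ∈ O1 M B hB :=
    sub_mem hRO (mul_mem hBcO hhO)
  have hRhred : red1F B hB hqM ⟨_, hRhO⟩ = ρ' - β' * η' := by
    rw [hρ', hβ', hη', ← map_mul, ← map_sub]
    rfl
  have hRh : thickR q Ψ₁ y ϖ - (y - x₁ ^ q) * corrH q Ψ₁ x₁ y ϖ ∉ (O1 M B hB).nonunits := by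
    intro hnu
    have := (red1F_eq_zero_iff B hB hqM ⟨_, hRhO⟩).mpr hnu
    rw [hRhred] at this
    exact hdiff0 this
  have hBc : y - x₁ ^ q ∉ (O1 M B hB).nonunits := by
    intro hnu
    exact hβ0 ((red1F_eq_zero_iff B hB hqM ⟨_, hBcO⟩).mpr hnu)
  obtain ⟨t, ht0, htred, heq⟩ := exists_pow_residue_mul_sq B hB hqM hζ hb hπq hg hg'
    (fun k => hCm _ (hΨ₁ k)) hP hne hBcO hBc hRhO hRh
  have hkey := heq (β' : LaurentSeries kB) (ρ' : LaurentSeries kB) (η' : LaurentSeries kB)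
    ⟨hBcO, rfl⟩ ⟨hRO, rfl⟩ ⟨hhO, rfl⟩
  set c₁ : FtM := algebraMap kB FtM (kummerC B hζ) with hc₁
  have hc₁0 : c₁ ≠ 0 := (_root_.map_ne_zero _).mpr (kummerC_ne_zero B hζ)
  refine ⟨t, c₁ * (ρ' - β' * η') / β' ^ 2, ht0, htred, ?_, ?_, ?_⟩
  · have hβL : ((β' : FtM) : LaurentSeries kB) ≠ 0 := fun h => hβ0 (Subtype.ext h)
    have e : ((c₁ * (ρ' - β' * η') / β' ^ 2 : FtM) : LaurentSeries kB) =
        HahnSeries.C (kummerC B hζ) * ((ρ' : LaurentSeries kB) -
          (β' : LaurentSeries kB) * (η' : LaurentSeries kB)) / (β' : LaurentSeries kB) ^ 2 := by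
      rw [hc₁]
      push_cast
      rw [algebraMap_laurentSeries_eq_single, ← HahnSeries.C_apply]
    rw [e, eq_div_iff (pow_ne_zero 2 hβL)]
    exact hkey
  · exact div_ne_zero (mul_ne_zero hc₁0 hdiff0) (pow_ne_zero 2 hβ0)
  · have hη : η' = 0 ∨ 0 ≤ Q₁.ord η' := by
      rcases eq_or_ne η' 0 with h0 | h0
      · exact Or.inl h0
      · exact Or.inr (ord_nonneg_of_adicValuation_le_one Q₁ h0 hhreg)
    have hc₁ord : Q₁.ord c₁ = 0 :=
      ord_eq_zero_of_adicValuation_eq_one Q₁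
        (Fermat.Agent.BR.ZeroCount.adicValuation_algebraMap_eq_one Q₁ (kummerC_ne_zero B hζ))
    refine (ord_eq_neg_two Q₁ hβ0 hβord hρ0
      (ord_eq_zero_of_adicValuation_eq_one Q₁ hρval) hη hc₁0 hc₁ord ?_).2
    field_simp

end Local

end Fermat.Agent.BR3.MidKummerMod
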