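import Fermat.Agent.BR3.HeckePoly
import Fermat.Agent.BR3.VertTaylorTw
import Fermat.Agent.BR3.VertCircleMod

/-!
# Program C (S36), node (I5-GLUE), layer A: the vertical component over a critical circle of the
tube of a crossing point, for the Hecke polynomial `P_g` of a level-`M` function `g`

The level form of `BR3/VertCircleMod.exists_vertComponent_of_levels` with
`(j(s^q), j(s), Ψ_q(j(s^q), j(s)), U)` replaced by `(x₁, α g, Ψ₁(α g), U_g)`:

* `Ug_ne_zero` : `U_g = β₂ (β g) - α₂ (α g) ≠ 0` for a nonconstant `g`;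
* `not_isRoot_of_res_irreducible` : a monic polynomial over a valuation ring whose reduction is
  irreducible of degree `≥ 2` has no root in the fraction field;
* `exists_vertComponent_of_levels_tw` : **the vertical component from the level data** and the
  twisted Kronecker congruence `PAt g = (X^q - C x₂)(X - C (x₁^q)) + C q · Ψ₁` (node (I5-KRON-Q),
  `BR3/HeckePolyDescent.exists_kronecker_PAt_q`).  The hypothesis `U_g ∉ α₂ F₁` of
  `BR3/VertTaylorTw.exists_vertComponent_tw` is DERIVED (from the irreducibility of the reduction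
  of the scaled vertical polynomial), the only side condition is `g` nonconstant.
-/

set_option autoImplicit false
set_option linter.unusedSectionVars false
set_option linter.style.haveILetI false
set_option synthInstance.maxHeartbeats 400000

noncomputable section

namespace Fermat.Agent.BR3.VertAllLevels

open Polynomial ModularCurve AlgebraicCurve IsLocalRing
open Fermat.Agent.X0 Fermat.Agent.Val Fermat.Agent.Red
open Fermat.Agent.BR.Circle Fermat.Agent.BR.S0
open Fermat.Agent.BR3.FibreProd Fermat.Agent.BR3.VertTaylor Fermat.Agent.BR3.VertResidue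
open Fermat.Agent.BR3.VertGlueMod Fermat.Agent.BR3.VertCircle Fermat.Agent.BR3.VertTaylorAt
open Fermat.Agent.BR3.VertTaylorTw Fermat.Agent.BR3.HeckePoly Fermat.Agent.BR3.GaussExtSubring
open Fermat.Agent.BR.NodeNewton

/-! ### `U_g ≠ 0` -/

section Nonconst

/-- A Laurent series fixed by `s ↦ s^n`, `n ≥ 2`, is constant. -/
theorem coeff_eq_zero_of_qExpand_eq {R : Type*} [CommRing R] (n : ℕ) [NeZero n] (hn : 2 ≤ n)
    {G : LaurentSeries R} (hG : qExpand R n G = G) : ∀ k : ℤ, k ≠ 0 → G.coeff k = 0 := by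
  intro k
  induction' hk : k.natAbs using Nat.strong_induction_on with d ih generalizing k
  intro hk0
  by_cases hdvd : (n : ℤ) ∣ k
  · obtain ⟨m, rfl⟩ := hdvd
    have hm0 : m ≠ 0 := by
      rintro rfl
      exact hk0 (mul_zero _)
    rw [← hG, qExpand_coeff_mul]
    apply ih m.natAbs ?_ m rfl hm0
    rw [← hk, Int.natAbs_mul, Int.natAbs_natCast]
    have hpos : 0 < m.natAbs := Int.natAbs_pos.mpr hm0
    nlinarith
  · rw [← hG]
    exact qExpand_coeff_of_not_dvd n G hdvd

variable {M q : ℕ} [NeZero M] [hq : Fact q.Prime]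

/-- `U_g ≠ 0` for a nonconstant `g`. -/
theorem Ug_ne_zero {g : Fb M} (hgc : g ∉ Set.range (algebraMap Kb (Fb M))) : Ug M q g ≠ 0 := by
  intro h0
  apply hgc
  have h1 : beta2 M q (heckeBetaBar Kb M q g) = alpha2 M q (heckeAlphaBar Kb M q g) :=
    sub_eq_zero.mp h0
  have h2 := congrArg (fun z : Fb (M * q * q) => (z : LaurentSeries Kb)) h1
  simp only [coe_heckeBetaBar, coe_heckeAlphaBar] at h2
  rw [qExpand_qExpand] at h2
  haveI : NeZero (q * q) := ⟨Nat.mul_ne_zero hq.out.ne_zero hq.out.ne_zero⟩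
  have hqq : 2 ≤ q * q := by
    have := hq.out.two_le
    nlinarith
  have h3 := coeff_eq_zero_of_qExpand_eq (q * q) hqq h2
  refine ⟨(g : LaurentSeries Kb).coeff 0, Subtype.ext ?_⟩
  show algebraMap Kb (LaurentSeries Kb) ((g : LaurentSeries Kb).coeff 0) = (g : LaurentSeries Kb)
  rw [algebraMap_laurentSeries_eq_single]
  ext k
  by_cases hk : k = 0
  · subst hk
    rw [HahnSeries.coeff_single_same]
  · rw [HahnSeries.coeff_single_of_ne hk, h3 k hk]

end Nonconst

/-! ### No root in the fraction field when the reduction is irreducible -/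

section NoRoot

variable {K : Type*} [Field K]

/-- A monic polynomial with coefficients in a valuation ring `O`, whose reduction is irreducible
of degree `≥ 2`, has no root in the fraction field. -/
theorem not_isRoot_of_res_irreducible (O : ValuationSubring K) {κ : Type*} [Field κ]
    (res : O →+* κ) {S : K[X]} (hmon : S.Monic) (hint : ∀ n, S.coeff n ∈ O) {Sbar : κ[X]}
    (hred : ∀ n, res ⟨S.coeff n, hint n⟩ = Sbar.coeff n) (hirr : Irreducible Sbar)
    (hdeg : 2 ≤ Sbar.natDegree) (θ : K) : S.eval θ ≠ 0 := by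
  intro hθ
  have hl : S ∈ lifts O.subtype := by
    rw [lifts_iff_coeff_lifts]
    intro n
    exact ⟨⟨S.coeff n, hint n⟩, rfl⟩
  obtain ⟨So, hSo, -, hSomon⟩ := lifts_and_natDegree_eq_and_monic hl hmon
  have hθint : IsIntegral O θ := by
    refine ⟨So, hSomon, ?_⟩
    rw [eval₂_eq_eval_map]
    have : So.map (algebraMap O K) = S := hSo
    rw [this]
    exact hθ
  obtain ⟨t, ht⟩ := IsIntegrallyClosed.isIntegral_iff.mp hθint
  have hcoeff : ∀ n, So.coeff n = ⟨S.coeff n, hint n⟩ := fun n => by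
    apply Subtype.ext
    have h := congrArg (fun P : K[X] => P.coeff n) hSo
    simpa [coeff_map] using h
  have hSbar : So.map res = Sbar := by
    ext n
    rw [coeff_map, hcoeff, hred]
  have h0 : So.eval t = 0 := by
    apply Subtype.ext
    have h := eval_map_apply O.subtype t (p := So)
    have ht' : O.subtype t = θ := ht
    rw [hSo, ht', hθ] at h
    exact h.symm
  have hroot : Sbar.IsRoot (res t) := by
    rw [IsRoot, ← hSbar, eval_map_apply, h0, map_zero]
  have hd1 := degree_eq_one_of_irreducible_of_root hirr hroot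
  have hd2 : Sbar.natDegree = 1 := natDegree_eq_of_degree_eq_some hd1
  omega

end NoRoot

/-! ### The vertical component from the level data -/

section Levels

variable {M q : ℕ} [NeZero M] [hq : Fact q.Prime]
  {B : ValuationSubring Kb} [IsAlgClosed (ResidueField B)]
  {T : Set (Place Kb (Fb (M * q)))} {ι : Type*}

local notation "kB" => ResidueField B

/-- the value of a polynomial with coefficients in a subring at a point of the subring -/
theorem eval_mem_of_coeff_mem {F : Type*} [Field F] (R : Subring F) {P : F[X]}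
    (hP : ∀ k, P.coeff k ∈ R) {y : F} (hy : y ∈ R) : P.eval y ∈ R := by
  rw [eval_eq_sum_range]
  exact Subring.sum_mem _ fun n _ => Subring.mul_mem _ (hP n) (Subring.pow_mem _ hy n)

set_option maxHeartbeats 1600000 in
/-- **The vertical component over the critical circle of a tube, from the level data, for the
Hecke polynomial of a level-`M` function `g`.** -/
theorem exists_vertComponent_of_levels_tw (hqM : ¬ q ∣ M) (L : AnnulusLevels B T ι) (a₀ : Kb)
    (ha1 : B.valuation L.core.thick < B.valuation a₀) (ha2 : B.valuation a₀ < 1)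
    (ha₀ : B.valuation a₀ ^ (q + 1) = B.valuation (q : Kb)) (i : ι)
    {g : Fb M} (hgc : g ∉ Set.range (algebraMap Kb (Fb M)))
    {x₁ x₂ : Fb (M * q)} {Ψ₁ : (Fb (M * q))[X]}
    (hP : PAt M q g = (X ^ q - C x₂) * (X - C (x₁ ^ q)) + C ((q : ℕ) : Fb (M * q)) * Ψ₁)
    (hx₁ : x₁ ∈ (L.level i).R) (hy : heckeAlphaBar Kb M q g ∈ (L.level i).R)
    (hΨ : ∀ k, Ψ₁.coeff k ∈ (L.level i).R)
    (hz : Ψ₁.eval (heckeAlphaBar Kb M q g) ∈ (L.level i).R)
    (hR : IsUnit (⟨_, hz⟩ : (L.level i).R)) {β : kB} (hβ : β ≠ 0)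
    (hb : IsRed L.core a₀ (a₀⁻¹ • (heckeAlphaBar Kb M q g - x₁ ^ q))
      (RatFunc.C β * RatFunc.X)) :
    ∃ ρ : kB, ρ ≠ 0 ∧
      ∃ (Z : ValuationSubring (Fb (M * q * q))) (resZ : Z →+* AdjoinRoot (vertBar q β ρ)),
        Z.comap (alpha2 M q : Fb (M * q) →+* Fb (M * q * q)) = circleRing L.core a₀ ha1 ha2 ∧
        (∀ Z' : ValuationSubring (Fb (M * q * q)),
          Z'.comap (alpha2 M q : Fb (M * q) →+* Fb (M * q * q)) = circleRing L.core a₀ ha1 ha2 →
            Z' = Z) ∧
        Function.Surjective resZ ∧ (∀ z : Z, resZ z = 0 ↔ ¬ IsUnit z) ∧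
        (∀ (y : circleRing L.core a₀ ha1 ha2) (h : alpha2 M q (y : Fb (M * q)) ∈ Z),
          resZ ⟨alpha2 M q (y : Fb (M * q)), h⟩ =
            AdjoinRoot.of (vertBar q β ρ) (circleRes L.core a₀ ha1 ha2 y)) ∧
        ∃ hθ : Ug M q g / alpha2 M q (algebraMap Kb (Fb (M * q)) a₀) ∈ Z,
          resZ ⟨Ug M q g / alpha2 M q (algebraMap Kb (Fb (M * q)) a₀), hθ⟩ =
            AdjoinRoot.root (vertBar q β ρ) := by
  letI := algebraAlong (alpha2 M q)
  haveI : Module.Finite (Fb (M * q)) (Fb (M * q * q)) :=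
    Fermat.Agent.Hecke.finiteAlong_heckeAlphaBar (M * q) q
  set O := circleRing L.core a₀ ha1 ha2 with hO
  set c : Fb (M * q) := algebraMap Kb (Fb (M * q)) a₀ with hc
  set y := heckeAlphaBar Kb M q g with hydef
  have ha₀0 : a₀ ≠ 0 := gauge_ne_zero ha1
  have hc0 : c ≠ 0 := (_root_.map_ne_zero _).mpr ha₀0
  have ha₀B : a₀ ∈ B := (B.valuation_le_one_iff _).mp ha2.le
  have hxO : x₁ ∈ O := mem_circleRing_of_mem_level L a₀ ha1 ha2 i hx₁
  have hyO : y ∈ O := mem_circleRing_of_mem_level L a₀ ha1 ha2 i hy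
  have hc1 : c ∈ O := (algebraMap_mem_circleRing_iff L.core a₀ ha1 ha2 _).mpr ha₀B
  have hΨint : IntCoeff O.valuation Ψ₁ := fun n =>
    (O.valuation_le_one_iff _).mpr (mem_circleRing_of_mem_level L a₀ ha1 ha2 i (hΨ n))
  have hva₀ : 0 < B.valuation a₀ := by
    rw [zero_lt_iff, ne_eq, map_eq_zero]; exact ha₀0
  -- the critical inequality
  have hqc : O.valuation ((q : ℕ) : Fb (M * q)) < O.valuation c ^ q := by
    have h1 : B.valuation (q : Kb) < B.valuation (a₀ ^ q) := by
      rw [← ha₀, map_pow, pow_succ]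
      calc B.valuation a₀ ^ q * B.valuation a₀ < B.valuation a₀ ^ q * 1 :=
            mul_lt_mul_of_pos_left ha2 (pow_pos hva₀ q)
        _ = B.valuation a₀ ^ q := mul_one _
    have h2 := valuation_algebraMap_lt L a₀ ha1 ha2 h1
    rwa [map_natCast, map_pow, map_pow] at h2
  -- `b`
  have hvB : vertB q x₁ y c = a₀⁻¹ • (y - x₁ ^ q) := by
    rw [vertB, Algebra.smul_def, map_inv₀, div_eq_inv_mul]
  have hbO : vertB q x₁ y c ∈ O := by
    rw [hvB]; exact ⟨_, hb⟩
  have hbres : circleRes L.core a₀ ha1 ha2 ⟨vertB q x₁ y c, hbO⟩ = RatFunc.C β * RatFunc.X := by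
    apply circleRes_eq
    show IsRed L.core a₀ (vertB q x₁ y c) _
    rw [hvB]; exact hb
  have hβX : (RatFunc.C β * RatFunc.X : RatFunc kB) ≠ 0 :=
    mul_ne_zero (by rw [ne_eq, map_eq_zero]; exact hβ) RatFunc.X_ne_zero
  have hbunit : IsUnit (⟨vertB q x₁ y c, hbO⟩ : O) := by
    by_contra hnu
    rw [← circleRes_eq_zero_iff, hbres] at hnu
    exact hβX hnu
  -- the constant
  obtain ⟨γ, hγ0, hγ⟩ := exists_isRed_const_of_isUnit L a₀ ha1 ha2 i hz hR
  have hvd : B.valuation ((q : Kb) / a₀ ^ (q + 1)) = 1 := by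
    rw [map_div₀, map_pow, ha₀, div_self]
    rw [← ha₀]
    exact (pow_pos hva₀ _).ne'
  have hdB : -((q : Kb) / a₀ ^ (q + 1)) ∈ B :=
    B.neg_mem _ ((B.valuation_le_one_iff _).mp hvd.le)
  have hd'B : (q : Kb) / a₀ ^ (q + 1) ∈ B := (B.valuation_le_one_iff _).mp hvd.le
  have hρel : -(((q : ℕ) : Fb (M * q)) * Ψ₁.eval y) / c ^ (q + 1) =
      algebraMap Kb (Fb (M * q)) (-((q : Kb) / a₀ ^ (q + 1))) * Ψ₁.eval y := by
    rw [map_neg, map_div₀, map_pow, map_natCast, ← hc]
    field_simp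
  have hredρ := (isRed_const (C := L.core) (a := a₀) hdB).mul hγ
  rw [← hρel] at hredρ
  have hρm : -(((q : ℕ) : Fb (M * q)) * Ψ₁.eval y) / c ^ (q + 1) ∈ O := ⟨_, hredρ⟩
  set ρ : kB := residue B ⟨(q : Kb) / a₀ ^ (q + 1), hd'B⟩ * γ with hρdef
  have hres0 : residue B ⟨(q : Kb) / a₀ ^ (q + 1), hd'B⟩ ≠ 0 := by
    rw [ne_eq, residue_eq_zero_iff]
    intro hmem
    have := (B.valuation_lt_one_iff _).mp hmem
    rw [hvd] at this
    exact lt_irrefl _ this
  have hρ0 : ρ ≠ 0 := mul_ne_zero hres0 hγ0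
  have hρres : circleRes L.core a₀ ha1 ha2 ⟨_, hρm⟩ = -RatFunc.C ρ := by
    rw [circleRes_eq L.core a₀ ha1 ha2 (y := ⟨_, hρm⟩) hredρ, hρdef, map_mul, ← neg_mul]
    congr 1
    rw [← RatFunc.algebraMap_eq_C, ← map_neg, ← map_neg]
    rfl
  -- `a`
  have h0 : (PAt M q g).eval y = 0 := PAt_eval_alpha hqM g
  have hab : vertA q x₂ y c * vertB q x₁ y c =
      -(((q : ℕ) : Fb (M * q)) * Ψ₁.eval y) / c ^ (q + 1) := vertA_mul_vertB_tw hP h0 c
  have haO : vertA q x₂ y c ∈ O := by
    obtain ⟨w, hw⟩ := hbunit.exists_right_inv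
    have h1 : vertB q x₁ y c * (w : Fb (M * q)) = 1 := by
      have := congrArg (fun z : O => (z : Fb (M * q))) hw
      simpa using this
    have h2 : vertA q x₂ y c = (-(((q : ℕ) : Fb (M * q)) * Ψ₁.eval y) / c ^ (q + 1)) *
        (w : Fb (M * q)) := by
      rw [← hab, mul_assoc, h1, mul_one]
    rw [h2]
    exact O.mul_mem _ _ hρm w.2
  have hares := res_vertA_of_res_prod_tw hP h0 O hbO haO (circleRes L.core a₀ ha1 ha2) hβ hbres
    hρm hρres
  -- the polynomial data
  have hmon : (PAt M q g).Monic := PAt_monic g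
  have hdeg : (PAt M q g).natDegree = q + 1 := PAt_natDegree hqM g
  have h1 : aeval (algebraMap (Fb (M * q)) (Fb (M * q * q)) y + Ug M q g) (PAt M q g) = 0 := by
    have e : algebraMap (Fb (M * q)) (Fb (M * q * q)) y + Ug M q g =
        beta2 M q (heckeBetaBar Kb M q g) := by
      show alpha2 M q y + Ug M q g = _
      rw [Ug, add_sub_cancel]
    rw [e, aeval_def, eval₂_eq_eval_map]
    have e2 : (PAt M q g).map (algebraMap (Fb (M * q)) (Fb (M * q * q))) =
        (heckePoly M q g).map (mid M q : Fb M →+* Fb (M * q * q)) := PAt_map_alpha2 g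
    rw [e2]
    exact heckePoly_map_mid_eval_beta g
  -- `U_g ∉ α₂ F₁`
  have hx' := (O.valuation_le_one_iff _).mpr hxO
  have hy' := (O.valuation_le_one_iff _).mpr hyO
  have hc1' := (O.valuation_le_one_iff _).mpr hc1
  have hb' := (O.valuation_le_one_iff _).mpr hbO
  have ha' := (O.valuation_le_one_iff _).mpr haO
  have hsc : IntCoeff O.valuation (vertScaledAt (PAt M q g) q y c) :=
    intCoeff_vertScaledAt_tw hq.out hP hΨint hx' hy' hc1' hc0 hqc hqc hb' ha'
  have hscO : ∀ n, (vertScaledAt (PAt M q g) q y c).coeff n ∈ O := fun n =>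
    (O.valuation_le_one_iff _).mp (hsc n)
  have hredS : ∀ n, circleRes L.core a₀ ha1 ha2 ⟨(vertScaledAt (PAt M q g) q y c).coeff n, hscO n⟩ =
      (vertBar q β ρ).coeff n := by
    intro n
    have h2 := res_coeff_vertScaledAt_tw (resInt O (circleRes L.core a₀ ha1 ha2))
      (resInt_eq_zero_iff O (circleRes L.core a₀ ha1 ha2)
        (circleRes_eq_zero_iff L.core a₀ ha1 ha2)) hq.out hP hΨint hx' hy' hc1' hc0 hqc hqc
      hb' ha' n (hsc n)
    have h3 : (X ^ q + C (circleRes L.core a₀ ha1 ha2 ⟨vertB q x₁ y c, hbO⟩) * X ^ (q - 1) +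
        C (circleRes L.core a₀ ha1 ha2 ⟨vertA q x₂ y c, haO⟩) : (RatFunc kB)[X]) =
        vertBar q β ρ := by
      rw [hbres, hares, vertBar]
    rw [← h3]
    exact h2
  have hU : Ug M q g ∉ Set.range (algebraMap (Fb (M * q)) (Fb (M * q * q))) := by
    rintro ⟨u, hu⟩
    have hu0 : u ≠ 0 := by
      rintro rfl
      rw [map_zero] at hu
      exact Ug_ne_zero hgc hu.symm
    have h3 : (PAt M q g).eval (y + u) = 0 := by
      have h4 : algebraMap (Fb (M * q)) (Fb (M * q * q)) ((PAt M q g).eval (y + u)) = 0 := by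
        rw [← aeval_algebraMap_apply_eq_algebraMap_eval, map_add, hu]
        exact h1
      exact (_root_.map_eq_zero _).mp h4
    have h5 := eval_vertPolyAt_eq_zero h0 h3 hu0
    have h6 : (vertScaledAt (PAt M q g) q y c).eval (u / c) = 0 := eval_vertScaledAt_div hc0 h5
    exact not_isRoot_of_res_irreducible O (circleRes L.core a₀ ha1 ha2)
      (vertScaledAt_monic hdeg hmon y hc0) hscO hredS
      (vertBar_irreducible hq.out.two_le hβ hρ0)
      (by rw [vertBar_natDegree hq.out.two_le]; exact hq.out.two_le) (u / c) h6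
  exact ⟨ρ, hρ0, exists_vertComponent_tw hq.out finrankAlong_alpha2 hP hmon hdeg h0 h1 hU hc0 O
    hΨint hxO hyO hc1 hqc hqc hbO haO (circleRes L.core a₀ ha1 ha2)
    (circleRes_eq_zero_iff L.core a₀ ha1 ha2) (circleRes_surjective L.core a₀ ha1 ha2) hβ hρ0
    hbres hares⟩

end Levels

end Fermat.Agent.BR3.VertAllLevels

end
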