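import Mathlib
import Fermat.Agent.BR3.MidKummerMod
import Fermat.Agent.BR3.ThickOneUnit
import Fermat.Agent.BR3.HeckePolyDescent
import Fermat.Agent.BR3.VertAllLevels

/-!
# Program C (S36), node (I5-MID), part (D2-final): the Kummer witness `ord_e γ_g = -2` at EVERY
supersingular crossing of main's two-component model of `X₀(qM)`

`e : Crossing (chartDataModular B hB hqM)`, `z₁ e` / `z₂ e` its branches on `'can' = O1` and
`'et' = O2` (places of `F̃_M`).  For `g, g', g''` in the level `M` model of the unramified base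
level `(K₀, W₀, q)` (`BR/S0/ThickFinal.levelHyp_base`), `g'` a Frobenius untwist and `g''` a twist
of `g`, `g` nonconstant, such that the reductions of

  `x = α g - (β g')^q` on `'can'`  and  `y = β g'' - (α g)^q` on `'et'`

have SIMPLE zeros at `z₁ e`, `z₂ e` (i.e. `g̃` is a local parameter at the supersingular point):

* `bc_mem_nonunits_O2`, `a_mem_nonunits_O1` : `x ≡ 0` on `'et'`, `y ≡ 0` on `'can'` (from the
  twist relations);
* `exists_kummer_witness_final` : for EVERY middle valuation `w₂ b`, `V_g = U_g/(ζ - 1)` is a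
  unit of `w₂ b` and its residue `t` satisfies `t^(q-1) = c ∈ F̃_M` with `ord_{z₁ e} c = -2`.

Chain: `HeckePolyDescent.exists_kronecker_PAt_q` (helper15) ⇒ `ThickOneUnit.
isUnit_of_simple_zeros_final` (helper7: `x y / q = Ψ₁(α g)` is a unit of the base level of the tube
of `e`) ⇒ `MidKummerMod.exists_kummer_witness_of_regular`.
-/

set_option autoImplicit false
set_option linter.unusedSectionVars false
set_option linter.style.haveILetI false
set_option synthInstance.maxHeartbeats 400000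
set_option maxHeartbeats 1600000

noncomputable section

/- S36 build-time patch: file-local shortcut instances. They only shorten instance search;
each is the instance that the search finds anyway (reducible, same terms after unfolding). -/
local instance (priority := 100000) Fermat.Agent.BR3.FastInst.instAlgFullC_MidKummerFinal
    {k : Type*} [Field k] (N : ℕ) :
    Algebra k ↥(ModularCurve.modularFunctionFieldFullC k N) := inferInstance
local instance (priority := 100000) Fermat.Agent.BR3.FastInst.instFieldFullC_MidKummerFinal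
    {k : Type*} [Field k] (N : ℕ) :
    Field ↥(ModularCurve.modularFunctionFieldFullC k N) := inferInstance
local instance (priority := 100000) Fermat.Agent.BR3.FastInst.instAlgLaurent_MidKummerFinal
    {k : Type*} [Field k] : Algebra k (LaurentSeries k) := inferInstance


namespace Fermat.Agent.BR3.MidKummerFinal

open AlgebraicCurve ModularCurve IsLocalRing Polynomial
open Fermat.Agent.Red Fermat.Agent.Val Fermat.Agent.X0 Fermat.Agent.BR.SS Fermat.Agent.BR.Refine
open Fermat.Agent.BR.Centre Fermat.Agent.BR.ConstRedTwo Fermat.Agent.BR.ModUnit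
open Fermat.Agent.BR.S0 Fermat.Agent.BR.S0.RedModular Fermat.Agent.BR.S0.PointDict
open Fermat.Agent.BR.S0.Modular Fermat.Agent.BR.S0.RedHyp
open Fermat.Agent.BR.S0.AnnulusChartOfLevels Fermat.Agent.BR.S0.SmoothAssembly
open Fermat.Agent.BR.S0.CrossingFamilyAssembly
open Fermat.Agent.BR.UnramCycloTower Fermat.Agent.BR.UnramCyclo Fermat.Agent.BR.Inst.Levels
open Fermat.Agent.BR.Inst.NormalModel Fermat.Agent.BR.Inst.LevelsInst
open Fermat.Agent.BR.Inst.SpecIso Fermat.Agent.BR.Inst.AnnulusInst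
open Fermat.Agent.BR.Inst.AnnulusInstFinal Fermat.Agent.BR.Inst.NodeInstFinal
open Fermat.Agent.BR.TwoVal Fermat.Agent.BR.TwoValInst Fermat.Agent.BR.ResGen
open Fermat.Agent.BR.S0.ThickFinal Fermat.Agent.BR.Inst.DegenModel
open Fermat.Agent.BR3.ThickOneFamily Fermat.Agent.BR3.ThickOneFinal Fermat.Agent.BR3.ThickOneUnit
open Fermat.Agent.BR3.FibreProd Fermat.Agent.BR3.VertLevelMem Fermat.Agent.BR3.HeckePoly
open Fermat.Agent.BR3.HeckePolyKron Fermat.Agent.BR3.HeckePolyModel
open Fermat.Agent.BR3.HeckePolyDescent Fermat.Agent.BR3.MidKummerAbs Fermat.Agent.BR3.MidKummerMod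
open Fermat.Agent.Hecke Fermat.Agent.Jac

variable {M q : ℕ} [NeZero M] [hq : Fact q.Prime]
variable (B : ValuationSubring Kb) (hB : B.LiesOverPrime q) (hqM : ¬ q ∣ M)

local notation "kB" => IsLocalRing.ResidueField B
local notation "FtM" => modularFunctionFieldFullC (IsLocalRing.ResidueField B) M

/-! ### The base level of the tower is the base level `(K₀, W₀)` -/

section Base

theorem K0_eq_KS : K0 q = KS q (∅ : Finset Kb) := by
  show (cycloField Kb q).toSubfield = (coeffField q (∅ : Finset Kb)).toSubfield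
  rw [coeffField_empty_eq]

theorem W0_eq_WS : W0 B q = WS B q (∅ : Finset Kb) := by
  show B.toSubring ⊓ (K0 q).toSubring = B.toSubring ⊓ (KS q (∅ : Finset Kb)).toSubring
  rw [K0_eq_KS]

/-- the level `M q` model over `(K₀, W₀)` is the base level of the tower -/
theorem CQ_base_eq_CS :
    CQ M q (W0 B q) (K0 q) = CS (M * q) q (baseFin M q B) (∅ : Finset Kb) := by
  rw [W0_eq_WS, K0_eq_KS]
  rfl

end Base

/-! ### The transversal pair of a twisted triple `(g, g', g'')` -/

section Pair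

variable [CharP (IsLocalRing.ResidueField B) q] [PerfectField (IsLocalRing.ResidueField B)]
variable {g g' g'' : Fb M} (hg : g ∈ OM M B hB) (hg' : g' ∈ OM M B hB) (hg'' : g'' ∈ OM M B hB)

include hg hg' in
theorem bc_mem_O1 : heckeAlphaBar Kb M q g - heckeBetaBar Kb M q g' ^ q ∈ O1 M B hB :=
  sub_mem ((alpha_mem_O1_iff B hB g).2 hg) (pow_mem ((beta_mem_O1_iff B hB g').2 hg') q)

include hg hg' in
theorem bc_mem_O2 : heckeAlphaBar Kb M q g - heckeBetaBar Kb M q g' ^ q ∈ O2 B hB hqM :=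
  sub_mem ((alpha_mem_O2_iff B hB hqM g).2 hg) (pow_mem ((beta_mem_O2_iff B hB hqM g').2 hg') q)

include hg hg'' in
theorem a_mem_O1 : heckeBetaBar Kb M q g'' - heckeAlphaBar Kb M q g ^ q ∈ O1 M B hB :=
  sub_mem ((beta_mem_O1_iff B hB g'').2 hg'') (pow_mem ((alpha_mem_O1_iff B hB g).2 hg) q)

include hg hg'' in
theorem a_mem_O2 : heckeBetaBar Kb M q g'' - heckeAlphaBar Kb M q g ^ q ∈ O2 B hB hqM :=
  sub_mem ((beta_mem_O2_iff B hB hqM g'').2 hg'') (pow_mem ((alpha_mem_O2_iff B hB hqM g).2 hg) q)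

/-- `x = α g - (β g')^q` vanishes on `'et'`, for `g'` a Frobenius untwist of `g`. -/
theorem bc_mem_nonunits_O2
    (h' : redMF B hB hqM ⟨g, hg⟩ = frobAutFullC kB M q • redMF B hB hqM ⟨g', hg'⟩) :
    heckeAlphaBar Kb M q g - heckeBetaBar Kb M q g' ^ q ∈ (O2 B hB hqM).nonunits := by
  have hmem := bc_mem_O2 B hB hqM hg hg'
  rw [← red2F_eq_zero_iff B hB hqM ⟨_, hmem⟩]
  have e : (⟨heckeAlphaBar Kb M q g - heckeBetaBar Kb M q g' ^ q, hmem⟩ : O2 B hB hqM) =
      ⟨heckeAlphaBar Kb M q g, (alpha_mem_O2_iff B hB hqM g).2 hg⟩ -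
        ⟨heckeBetaBar Kb M q g', (beta_mem_O2_iff B hB hqM g').2 hg'⟩ ^ q := rfl
  rw [e, map_sub, map_pow, red2F_alpha B hB hqM g hg, red2F_beta B hB hqM g' hg', h',
    qExpandFullC_eq, inv_smul_smul, sub_self]

/-- `y = β g'' - (α g)^q` vanishes on `'can'`, for `g''` a Frobenius twist of `g`. -/
theorem a_mem_nonunits_O1
    (h'' : redMF B hB hqM ⟨g'', hg''⟩ = frobAutFullC kB M q • redMF B hB hqM ⟨g, hg⟩) :
    heckeBetaBar Kb M q g'' - heckeAlphaBar Kb M q g ^ q ∈ (O1 M B hB).nonunits := by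
  have hmem := a_mem_O1 B hB hg hg''
  rw [← red1F_eq_zero_iff B hB hqM ⟨_, hmem⟩]
  have e : (⟨heckeBetaBar Kb M q g'' - heckeAlphaBar Kb M q g ^ q, hmem⟩ : O1 M B hB) =
      ⟨heckeBetaBar Kb M q g'', (beta_mem_O1_iff B hB g'').2 hg''⟩ -
        ⟨heckeAlphaBar Kb M q g, (alpha_mem_O1_iff B hB g).2 hg⟩ ^ q := rfl
  rw [e, map_sub, map_pow, red1F_beta B hB hqM g'' hg'', red1F_alpha B hB hqM g hg, h'',
    qExpandFullC_eq, inv_smul_smul, sub_self]

end Pair

/-! ### Units of the local ring of a crossing model are units at the first branch -/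

section Abstract

variable {K F k : Type*} [Field K] [Field F] [Algebra K F] [Field k]
  {Ft₁ Ft₂ : Type*} [Field Ft₁] [Algebra k Ft₁] [Field Ft₂] [Algebra k Ft₂]
  {A : ValuationSubring K} {π : A →+* k} {O₁ O₂ : ValuationSubring F}
  {res₁ : O₁ →+* Ft₁} {res₂ : O₂ →+* Ft₂} {Q₁ : Place k Ft₁} {Q₂ : Place k Ft₂}
  {T : Set (Place K F)} {C : Subring F} {ϖ : K}

theorem adicValuation_res₁_eq_one_of_isUnit (Mo : CrossingModel A π O₁ O₂ res₁ res₂ Q₁ Q₂ T C ϖ)
    (hres0₁ : ∀ x : O₁, (x : F) ∈ O₁.nonunits → res₁ x = 0) {z : F} (hz : z ∈ Mo.loc)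
    (hu : IsUnit (⟨z, hz⟩ : Mo.loc)) (h : z ∈ O₁) : Q₁.adicValuation (res₁ ⟨z, h⟩) = 1 := by
  obtain ⟨w', hw'⟩ := hu.exists_right_inv
  have hw'O : (w' : F) ∈ O₁ := Mo.loc_le₁ hres0₁ _ w'.2
  have h1 := adicValuation_res₁_le_one Mo hz h
  have h2 := adicValuation_res₁_le_one Mo w'.2 hw'O
  have hmul : res₁ ⟨z, h⟩ * res₁ ⟨(w' : F), hw'O⟩ = 1 := by
    rw [← map_mul]
    have : (⟨z, h⟩ : O₁) * ⟨(w' : F), hw'O⟩ = 1 :=
      Subtype.ext (congrArg (fun t : Mo.loc => (t : F)) hw')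
    rw [this, map_one]
  have h3 := congrArg Q₁.adicValuation hmul
  rw [map_mul, map_one] at h3
  refine le_antisymm h1 ?_
  by_contra hlt
  push Not at hlt
  have h4 : Q₁.adicValuation (res₁ ⟨z, h⟩) * Q₁.adicValuation (res₁ ⟨(w' : F), hw'O⟩) < 1 := by
    calc Q₁.adicValuation (res₁ ⟨z, h⟩) * Q₁.adicValuation (res₁ ⟨(w' : F), hw'O⟩)
        ≤ Q₁.adicValuation (res₁ ⟨z, h⟩) * 1 := mul_le_mul' le_rfl h2
      _ = Q₁.adicValuation (res₁ ⟨z, h⟩) := mul_one _
      _ < 1 := hlt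
  rw [h3] at h4
  exact lt_irrefl _ h4

end Abstract

/-! ### The Kummer witness at a crossing of main's model -/

section Final

variable [IsAlgClosed (ResidueField B)] [CharP (IsLocalRing.ResidueField B) q]
  (e : Crossing (chartDataModular B hB hqM))
variable {ζ : Kbˣ} (hζ : IsPrimitiveRoot ζ q) {b : ℕ} (hb : b < q - 1)

set_option maxHeartbeats 4000000 in
/-- **(I5-MID), final form.**  At EVERY supersingular crossing `e` of main's two-component model of
`X₀(qM)` (`M` without elliptic points), for a twisted triple `(g, g', g'')` of the base level whose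
transversal pair `x = α g - (β g')^q`, `y = β g'' - (α g)^q` has simple zeros at the two branches
of `e`: for EVERY middle valuation `w₂ b`, `V_g = U_g / (ζ - 1)` is a unit of `w₂ b`, and the
`(q-1)`-st power of its residue is a function `c ∈ F̃_M` with a DOUBLE POLE at `z₁ e`. -/
theorem exists_kummer_witness_final (h2 : nuTwo M = 0) (h3 : nuThree M = 0)
    {g g' g'' : Fb M} (hg : g ∈ CMod M (W0 B q) (K0 q)) (hg' : g' ∈ CMod M (W0 B q) (K0 q))
    (hg'' : g'' ∈ CMod M (W0 B q) (K0 q))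
    (h' : redMF B hB hqM ⟨g, mem_OM_of_mem_CMod (levelHyp_base B hB hqM) hg⟩ =
      frobAutFullC kB M q •
        redMF B hB hqM ⟨g', mem_OM_of_mem_CMod (levelHyp_base B hB hqM) hg'⟩)
    (h'' : redMF B hB hqM ⟨g'', mem_OM_of_mem_CMod (levelHyp_base B hB hqM) hg''⟩ =
      frobAutFullC kB M q •
        redMF B hB hqM ⟨g, mem_OM_of_mem_CMod (levelHyp_base B hB hqM) hg⟩)
    (hgc : g ∉ Set.range (algebraMap Kb (Fb M)))
    (hxord : ∀ h : heckeAlphaBar Kb M q g - heckeBetaBar Kb M q g' ^ q ∈ (compW B hB hqM 0).O,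
      (z₁ (chartDataModular B hB hqM) e).ord ((compW B hB hqM 0).res ⟨_, h⟩) = 1)
    (hyord : ∀ h : heckeBetaBar Kb M q g'' - heckeAlphaBar Kb M q g ^ q ∈ (compW B hB hqM 1).O,
      (z₂ (chartDataModular B hB hqM) e).ord ((compW B hB hqM 1).res ⟨_, h⟩) = 1) :
    ∃ (t : LaurentSeries kB) (c : FtM), t ≠ 0 ∧
      Red (w2 B hB hqM hζ hb) (resw2 B hB hqM hζ hb)
        (Ug M q g / algebraMap Kb (Fb (M * q * q)) ((ζ : Kb) - 1)) t ∧
      t ^ (q - 1) = (c : LaurentSeries kB) ∧ c ≠ 0 ∧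
      (z₁ (chartDataModular B hB hqM) e).ord c = -2 := by
  have hne : Nonempty (Crossing (chartDataModular B hB hqM)) := ⟨e⟩
  have H := levelHyp_base (M := M) B hB hqM
  have hgO := mem_OM_of_mem_CMod H hg
  have hg'O := mem_OM_of_mem_CMod H hg'
  have hg''O := mem_OM_of_mem_CMod H hg''
  obtain ⟨Ψ₁, hΨ₁, hP⟩ := exists_kronecker_PAt_q B hB hqM hg hg' hg'' h' h''
  -- the base model and the crossing model
  set Cm := CS (M * q) q (baseFin M q B) (∅ : Finset Kb) with hCmdef
  have hCQ : ∀ x, x ∈ CQ M q (W0 B q) (K0 q) → x ∈ Cm := fun x hx => by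
    rw [hCmdef, ← CQ_base_eq_CS]
    exact hx
  have hF := crossingFamily_final B hB hqM hne e
  set Mo := hF.model (∅ : Finset Kb) with hMo
  have hres0₁ : ∀ x : (compW B hB hqM 0).O, (x : Fb (M * q)) ∈ (compW B hB hqM 0).O.nonunits →
      (compW B hB hqM 0).res x = 0 :=
    fun y hy => (constRed_res_eq_zero_iff (compW B hB hqM 0) y).mpr hy
  have hres : ∀ x : O1 M B hB, (compW B hB hqM 0).res x = red1F B hB hqM x :=
    fun x => Subtype.ext rfl
  have hCm1 : ∀ x ∈ Cm, x ∈ O1 M B hB := fun x hx => Mo.le₁ x hx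
  have hreg : ∀ x (hx : x ∈ Cm),
      (z₁ (chartDataModular B hB hqM) e).adicValuation (red1F B hB hqM ⟨x, hCm1 x hx⟩) ≤ 1 :=
    fun x hx => by
      rw [← hres]
      exact Mo.regular₁ ⟨x, hx⟩
  -- memberships
  have hyC : heckeAlphaBar Kb M q g ∈ Cm :=
    hCQ _ (alpha_mem_model M q (isModel_CMod M (W0 B q) (K0 q)) (isModel_CQ M q (W0 B q) (K0 q)) hg)
  have hxC : heckeBetaBar Kb M q g' ∈ Cm :=
    hCQ _ (beta_mem_model M q hq.out (isModel_CMod M (W0 B q) (K0 q))
      (isModel_CQ M q (W0 B q) (K0 q)) hg')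
  have hx₂C : heckeBetaBar Kb M q g'' ∈ Cm :=
    hCQ _ (beta_mem_model M q hq.out (isModel_CMod M (W0 B q) (K0 q))
      (isModel_CQ M q (W0 B q) (K0 q)) hg'')
  have hΨC : ∀ k, Ψ₁.coeff k ∈ Cm := fun k => hCQ _ (hΨ₁ k)
  have hq0K : (q : Kb) ≠ 0 := Nat.cast_ne_zero.mpr hq.out.ne_zero
  have hq0 : ((q : ℕ) : Fb (M * q)) ≠ 0 := Nat.cast_ne_zero.mpr hq.out.ne_zero
  have hcC : algebraMap Kb (Fb (M * q)) ((q : Kb) / (q : Kb)) ∈ Cm := by
    rw [div_self hq0K, map_one]
    exact Cm.one_mem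
  have hP' : PAt M q g =
      (X ^ q - Polynomial.C (heckeBetaBar Kb M q g'')) *
          (X - Polynomial.C ((heckeBetaBar Kb M q g') ^ q)) +
        Polynomial.C (algebraMap Kb (Fb (M * q)) (q : Kb)) * Ψ₁ := by
    rw [map_natCast]
    exact hP
  have hne' : beta2 M q (heckeBetaBar Kb M q g) ≠ alpha2 M q (heckeAlphaBar Kb M q g) := by
    intro h
    apply Fermat.Agent.BR3.VertAllLevels.Ug_ne_zero (M := M) (q := q) hgc
    rw [Ug, h, sub_self]
  -- the transversal pair
  set x := heckeAlphaBar Kb M q g - heckeBetaBar Kb M q g' ^ q with hxdef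
  set y := heckeBetaBar Kb M q g'' - heckeAlphaBar Kb M q g ^ q with hydef
  set z := thickR q Ψ₁ (heckeAlphaBar Kb M q g) (algebraMap Kb (Fb (M * q)) (q : Kb)) with hzdef
  have hzeq : z = Ψ₁.eval (heckeAlphaBar Kb M q g) := by
    rw [hzdef, thickR, map_natCast]
    field_simp
  have hxCm : x ∈ Cm := Cm.sub_mem hyC (Cm.pow_mem hxC q)
  have hyCm : y ∈ Cm := Cm.sub_mem hx₂C (Cm.pow_mem hyC q)
  have hzCm : z ∈ Cm := by
    rw [hzeq]
    exact Fermat.Agent.BR3.MidKummerMod.eval_mem_of_coeff_mem Cm hΨC hyC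
  have hxyz : x * y = (q : Kb) • z := by
    have h0 : (PAt M q g).eval (heckeAlphaBar Kb M q g) = 0 := PAt_eval_alpha hqM g
    rw [hP] at h0
    simp only [eval_add, eval_mul, eval_sub, eval_pow, eval_X, eval_C] at h0
    rw [hzeq, Algebra.smul_def, map_natCast, hxdef, hydef]
    linear_combination (-1 : Fb (M * q)) * h0
  have hxO : x ∈ (compW B hB hqM 0).O := hCm1 x hxCm
  have hyO : y ∈ (compW B hB hqM 1).O := Mo.le₂ y hyCm
  have hunit := isUnit_of_simple_zeros_final B hB hqM hne e h2 h3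
    (CS_le_level B hB hqM hne e ∅ hxCm) (CS_le_level B hB hqM hne e ∅ hyCm)
    (CS_le_level B hB hqM hne e ∅ hzCm)
    (bc_mem_nonunits_O2 B hB hqM hgO hg'O h') (a_mem_nonunits_O1 B hB hqM hgO hg''O h'')
    hxO hyO (hxord hxO) (hyord hyO) hxyz
  have hRval : ∀ h : z ∈ O1 M B hB,
      (z₁ (chartDataModular B hB hqM) e).adicValuation (red1F B hB hqM ⟨z, h⟩) = 1 := fun h => by
    rw [← hres]
    exact adicValuation_res₁_eq_one_of_isUnit Mo hres0₁
      (CS_le_level B hB hqM hne e ∅ hzCm) hunit h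
  have hBcord : ∀ h : x ∈ O1 M B hB,
      (z₁ (chartDataModular B hB hqM) e).ord (red1F B hB hqM ⟨x, h⟩) = 1 := fun h => by
    rw [← hres]
    exact hxord h
  exact exists_kummer_witness_of_regular B hB hqM hζ hb (z₁ (chartDataModular B hB hqM) e) Cm
    hCm1 hreg rfl hgO hg'O hyC hxC hΨC hcC hP' hne' hBcord hRval

end Final

end Fermat.Agent.BR3.MidKummerFinal
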