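import Mathlib
import Fermat.Agent.BR3.MidKummerFinal
import Fermat.Agent.BR3.SSParam

/-!
# Program C (S36), node (I5-SZ): the simple zeros `hxord`, `hyord` from LOCAL PARAMETERS, and the
assembly of `SSParam.IsSSParam`

`e` a crossing of main's two-component model of `X₀(qM)`, `(g, g', g'')` a twisted triple of the
level `M` model of the base level (`g'` a Frobenius untwist, `g''` a Frobenius twist of `g`).

* `hxord_of_localParam` : if `g̃ = res_M g` is a LOCAL PARAMETER at the branch `z₁ e`, the reduction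
  on `'can'` of `x = α g - (β g')^q` has a SIMPLE zero at `z₁ e`;
* `hyord_of_localParam` : if `g̃'' = res_M g''` is a local parameter at the branch `z₂ e`, the
  reduction on `'et'` of `y = β g'' - (α g)^q` has a simple zero at `z₂ e`;
  (the hypotheses `hxord`, `hyord` of `ThickOneUnit.isUnit_of_simple_zeros_final`,
  `VertAll.exists_vertComponent_all`, `MidKummerFinal.exists_kummer_witness_final`);
* `nonconst_of_ord_eq_one`, `isSSParam_of_localParams` : **the assembly**: a twisted triple with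
  `ord_{z₁ e} g̃ = 1` and `ord_{z₂ e} g̃'' = 1` is an `SSParam.IsSSParam`.

NO Frobenius-rationality of the supersingular point and NO gluing dictionary `z₂ e ↔ Frob (z₁ e)`
is needed: `x ≡ 0` on `'et'` (twist relation), and `α g` vanishes at the crossing point (at both
branches: `CrossingModel.same_point`), hence so does `(β g')^q = α g - x`, hence `β g'`; so
`res₁ ((β g')^q)` vanishes to order `≥ q ≥ 2` at `z₁ e`.  Mirror on `'et'`.

What remains for the producer `∀ e, ∃ g g' g'', IsSSParam B hB hqM e g g' g''`: a function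
`g̃ ∈ C_k` (the integral closure of `k[j̃]` in `F̃_M`) with `ord_{z₁ e} g̃ = 1` and
`ord_{z₂ e} (σ • g̃) = 1`, i.e. `g̃` a local parameter at the TWO places `z₁ e` and `σ⁻¹ • z₂ e`
(which exist in a Dedekind domain whether or not the two places coincide), lifted by
`redM_surjective`, with `g'`, `g''` from `HeckePolyModel.exists_untwist_CMod / exists_twist_CMod`.

* `ord_pos_of_adicValuation_lt_one`, `ord_sub_pow_eq_one` (abstract, any `Place`);
* `adicValuation_res_beta_lt_one`, `adicValuation_res_alpha_lt_one`.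
-/

set_option autoImplicit false
set_option linter.unusedSectionVars false
set_option linter.style.haveILetI false
set_option synthInstance.maxHeartbeats 400000
set_option maxHeartbeats 1600000

noncomputable section

/- S36 build-time patch: file-local shortcut instances. They only shorten instance search;
each is the instance that the search finds anyway (reducible, same terms after unfolding). -/
local instance (priority := 100000) Fermat.Agent.BR3.FastInst.instAlgFullC_SSParamOfLocal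
    {k : Type*} [Field k] (N : ℕ) :
    Algebra k ↥(ModularCurve.modularFunctionFieldFullC k N) := inferInstance
local instance (priority := 100000) Fermat.Agent.BR3.FastInst.instFieldFullC_SSParamOfLocal
    {k : Type*} [Field k] (N : ℕ) :
    Field ↥(ModularCurve.modularFunctionFieldFullC k N) := inferInstance
local instance (priority := 100000) Fermat.Agent.BR3.FastInst.instAlgLaurent_SSParamOfLocal
    {k : Type*} [Field k] : Algebra k (LaurentSeries k) := inferInstance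


namespace Fermat.Agent.BR3.SSParamOfLocal

open AlgebraicCurve ModularCurve IsLocalRing Polynomial
open Fermat.Agent.Red Fermat.Agent.Val Fermat.Agent.X0 Fermat.Agent.BR.SS Fermat.Agent.BR.Refine
open Fermat.Agent.BR.Centre Fermat.Agent.BR.ConstRedTwo Fermat.Agent.BR.ModUnit
open Fermat.Agent.BR.S0 Fermat.Agent.BR.S0.RedModular Fermat.Agent.BR.S0.PointDict
open Fermat.Agent.BR.S0.Modular Fermat.Agent.BR.S0.RedHyp
open Fermat.Agent.BR.S0.AnnulusChartOfLevels Fermat.Agent.BR.S0.SmoothAssembly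
open Fermat.Agent.BR.S0.CrossingFamilyAssembly
open Fermat.Agent.BR.UnramCycloTower Fermat.Agent.BR.UnramCyclo Fermat.Agent.BR.Inst.Levels
open Fermat.Agent.BR.Inst.NormalModel Fermat.Agent.BR.Inst.LevelsInst
open Fermat.Agent.BR.Inst.SpecIso Fermat.Agent.BR.Inst.AnnulusInst
open Fermat.Agent.BR.Inst.AnnulusInstFinal Fermat.Agent.BR.Inst.NodeInstFinal
open Fermat.Agent.BR.TwoVal Fermat.Agent.BR.TwoValInst Fermat.Agent.BR.ResGen
open Fermat.Agent.BR.S0.ThickFinal Fermat.Agent.BR.Inst.DegenModel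
open Fermat.Agent.BR3.ThickOneFamily Fermat.Agent.BR3.ThickOneFinal Fermat.Agent.BR3.ThickOneUnit
open Fermat.Agent.BR3.FibreProd Fermat.Agent.BR3.VertLevelMem Fermat.Agent.BR3.HeckePoly
open Fermat.Agent.BR3.HeckePolyKron Fermat.Agent.BR3.HeckePolyModel
open Fermat.Agent.BR3.MidKummerAbs Fermat.Agent.BR3.MidKummerFinal
open Fermat.Agent.Hecke Fermat.Agent.Jac

/-! ### Abstract: orders at a place -/

section Abstract

variable {k F : Type*} [Field k] [Field F] [Algebra k F] (e : Place k F)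

theorem ord_pos_of_adicValuation_lt_one {f : F} (hf : f ≠ 0) (h : e.adicValuation f < 1) :
    0 < e.ord f := by
  have hne := e.adicValuation_ne_zero hf
  have hlog : WithZero.log (e.adicValuation f) < WithZero.log (1 : WithZero (Multiplicative ℤ)) :=
    (WithZero.log_lt_log hne one_ne_zero).mpr h
  have : e.ord f = -(WithZero.log (e.adicValuation f)) := rfl
  rw [WithZero.log_one] at hlog
  omega

/-- `ord (a - b^n) = 1` if `ord a = 1`, `b` vanishes at the place and `n ≥ 2`. -/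
theorem ord_sub_pow_eq_one {a b : F} (ha : e.ord a = 1) (hb : e.adicValuation b < 1) {n : ℕ}
    (hn : 2 ≤ n) : e.ord (a - b ^ n) = 1 := by
  have ha0 : a ≠ 0 := by
    rintro rfl
    rw [Place.ord_zero] at ha
    exact zero_ne_one ha
  rcases eq_or_ne b 0 with rfl | hb0
  · rw [zero_pow (by omega), sub_zero]
    exact ha
  have hbn0 : b ^ n ≠ 0 := pow_ne_zero n hb0
  have hbpos := ord_pos_of_adicValuation_lt_one e hb0 hb
  have hordpow : e.ord (b ^ n) = (n : ℤ) * e.ord b := by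
    have := e.ord_zpow b (n : ℤ)
    rwa [zpow_natCast] at this
  have h2 : (2 : ℤ) ≤ e.ord (b ^ n) := by
    rw [hordpow]
    have hn' : (2 : ℤ) ≤ (n : ℤ) := by exact_mod_cast hn
    nlinarith
  have hlt : e.adicValuation (b ^ n) < e.adicValuation a := by
    rw [← WithZero.log_lt_log (e.adicValuation_ne_zero hbn0) (e.adicValuation_ne_zero ha0)]
    have e1 : e.ord (b ^ n) = -(WithZero.log (e.adicValuation (b ^ n))) := rfl
    have e2 : e.ord a = -(WithZero.log (e.adicValuation a)) := rfl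
    omega
  have hval : e.adicValuation (a - b ^ n) = e.adicValuation a :=
    Valuation.map_sub_eq_of_lt_left _ hlt
  show -(WithZero.log (e.adicValuation (a - b ^ n))) = 1
  rw [hval]
  exact ha

end Abstract

/-! ### The simple zero on `'can'` -/

section Can

variable {M q : ℕ} [NeZero M] [hq : Fact q.Prime]
variable (B : ValuationSubring Kb) (hB : B.LiesOverPrime q) (hqM : ¬ q ∣ M)
variable [IsAlgClosed (ResidueField B)] [CharP (IsLocalRing.ResidueField B) q]
  (e : Crossing (chartDataModular B hB hqM))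

local notation "kB" => IsLocalRing.ResidueField B
local notation "FtM" => modularFunctionFieldFullC (IsLocalRing.ResidueField B) M

set_option maxHeartbeats 4000000 in
/-- `res₁ (β g')` vanishes at `z₁ e` as soon as `g̃` does (`g'` a Frobenius untwist of `g`). -/
theorem adicValuation_res_beta_lt_one {g g' : Fb M} (hg : g ∈ CMod M (W0 B q) (K0 q))
    (hg' : g' ∈ CMod M (W0 B q) (K0 q))
    (h' : redMF B hB hqM ⟨g, mem_OM_of_mem_CMod (levelHyp_base B hB hqM) hg⟩ =
      frobAutFullC kB M q •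
        redMF B hB hqM ⟨g', mem_OM_of_mem_CMod (levelHyp_base B hB hqM) hg'⟩)
    (hloc : (z₁ (chartDataModular B hB hqM) e).adicValuation
      (redMF B hB hqM ⟨g, mem_OM_of_mem_CMod (levelHyp_base B hB hqM) hg⟩) < 1)
    (h : heckeBetaBar Kb M q g' ∈ (compW B hB hqM 0).O) :
    (z₁ (chartDataModular B hB hqM) e).adicValuation
      ((compW B hB hqM 0).res ⟨heckeBetaBar Kb M q g', h⟩) < 1 := by
  have hne : Nonempty (Crossing (chartDataModular B hB hqM)) := ⟨e⟩
  have H := levelHyp_base (M := M) B hB hqM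
  have hgO := mem_OM_of_mem_CMod H hg
  have hg'O := mem_OM_of_mem_CMod H hg'
  set Cm := CS (M * q) q (baseFin M q B) (∅ : Finset Kb) with hCmdef
  have hCQ : ∀ x, x ∈ CQ M q (W0 B q) (K0 q) → x ∈ Cm := fun x hx => by
    rw [hCmdef, ← CQ_base_eq_CS]
    exact hx
  have hF := crossingFamily_final B hB hqM hne e
  set Mo := hF.model (∅ : Finset Kb) with hMo
  have hres1 : ∀ (x : Fb (M * q)) (hx : x ∈ O1 M B hB),
      (compW B hB hqM 0).res ⟨x, hx⟩ = red1F B hB hqM ⟨x, hx⟩ := fun x hx => Subtype.ext rfl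
  have hres2 : ∀ (x : Fb (M * q)) (hx : x ∈ O2 B hB hqM),
      (compW B hB hqM 1).res ⟨x, hx⟩ = red2F B hB hqM ⟨x, hx⟩ := fun x hx => Subtype.ext rfl
  have hyC : heckeAlphaBar Kb M q g ∈ Cm :=
    hCQ _ (alpha_mem_model M q (isModel_CMod M (W0 B q) (K0 q)) (isModel_CQ M q (W0 B q) (K0 q)) hg)
  have hxC : heckeBetaBar Kb M q g' ∈ Cm :=
    hCQ _ (beta_mem_model M q hq.out (isModel_CMod M (W0 B q) (K0 q))
      (isModel_CQ M q (W0 B q) (K0 q)) hg')
  have hpowC : heckeBetaBar Kb M q g' ^ q ∈ Cm := Cm.pow_mem hxC q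
  -- `α g` vanishes at `z₁ e`, hence at `z₂ e`
  have h1 : (z₁ (chartDataModular B hB hqM) e).adicValuation
      ((compW B hB hqM 0).res ⟨heckeAlphaBar Kb M q g, Mo.le₁ _ hyC⟩) < 1 := by
    have e0 : (compW B hB hqM 0).res ⟨heckeAlphaBar Kb M q g, Mo.le₁ _ hyC⟩ =
        redMF B hB hqM ⟨g, hgO⟩ := (hres1 _ _).trans (red1F_alpha B hB hqM g hgO)
    rw [e0]
    exact hloc
  have h2 := (Mo.same_point ⟨_, hyC⟩).mp h1
  -- `(β g')^q = α g - x`, `x ≡ 0` on `'et'`
  have hx2 := bc_mem_nonunits_O2 B hB hqM hgO hg'O h'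
  have hxO2 := bc_mem_O2 B hB hqM hgO hg'O
  have hres2x : red2F B hB hqM ⟨_, hxO2⟩ = 0 := (red2F_eq_zero_iff B hB hqM ⟨_, hxO2⟩).mpr hx2
  have hαO2 : heckeAlphaBar Kb M q g ∈ O2 B hB hqM := Mo.le₂ _ hyC
  have hpowO2 : heckeBetaBar Kb M q g' ^ q ∈ O2 B hB hqM := Mo.le₂ _ hpowC
  have h3 : (compW B hB hqM 1).res ⟨heckeBetaBar Kb M q g' ^ q, Mo.le₂ _ hpowC⟩ =
      (compW B hB hqM 1).res ⟨heckeAlphaBar Kb M q g, Mo.le₂ _ hyC⟩ := by
    have e1 : (⟨heckeBetaBar Kb M q g' ^ q, hpowO2⟩ : O2 B hB hqM) =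
        ⟨heckeAlphaBar Kb M q g, hαO2⟩ -
          ⟨heckeAlphaBar Kb M q g - heckeBetaBar Kb M q g' ^ q, hxO2⟩ :=
      Subtype.ext (by simp)
    have e2 : red2F B hB hqM ⟨heckeBetaBar Kb M q g' ^ q, hpowO2⟩ =
        red2F B hB hqM ⟨heckeAlphaBar Kb M q g, hαO2⟩ := by
      rw [e1, map_sub, hres2x, sub_zero]
    exact ((hres2 _ hpowO2).trans e2).trans (hres2 _ hαO2).symm
  have h4 : (z₂ (chartDataModular B hB hqM) e).adicValuation
      ((compW B hB hqM 1).res ⟨heckeBetaBar Kb M q g' ^ q, Mo.le₂ _ hpowC⟩) < 1 := by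
    rw [h3]
    exact h2
  have h5 := (Mo.same_point ⟨_, hpowC⟩).mpr h4
  -- `res₁ ((β g')^q) = (res₁ (β g'))^q`
  have e2 : (⟨heckeBetaBar Kb M q g' ^ q, Mo.le₁ _ hpowC⟩ : (compW B hB hqM 0).O) =
      ⟨heckeBetaBar Kb M q g', h⟩ ^ q := rfl
  have h6 : (z₁ (chartDataModular B hB hqM) e).adicValuation
      ((compW B hB hqM 0).res ⟨heckeBetaBar Kb M q g', h⟩) ^ q < 1 := by
    have := h5
    rw [show (⟨((⟨heckeBetaBar Kb M q g' ^ q, hpowC⟩ : Cm) : Fb (M * q)),
      Mo.le₁ _ (⟨heckeBetaBar Kb M q g' ^ q, hpowC⟩ : Cm).2⟩ : (compW B hB hqM 0).O) =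
      ⟨heckeBetaBar Kb M q g', h⟩ ^ q from rfl, map_pow, map_pow] at this
    exact this
  by_contra hcon
  push Not at hcon
  exact absurd h6 (not_lt.mpr (one_le_pow_of_one_le' hcon q))

set_option maxHeartbeats 4000000 in
/-- **(I5-SZ), `'can'`-side: `hxord`.**  If `g̃ = res_M g` is a local parameter at `z₁ e` and `g'`
is a Frobenius untwist of `g`, then the reduction on `'can'` of `x = α g - (β g')^q` has a simple
zero at `z₁ e`. -/
theorem hxord_of_localParam {g g' : Fb M} (hg : g ∈ CMod M (W0 B q) (K0 q))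
    (hg' : g' ∈ CMod M (W0 B q) (K0 q))
    (h' : redMF B hB hqM ⟨g, mem_OM_of_mem_CMod (levelHyp_base B hB hqM) hg⟩ =
      frobAutFullC kB M q •
        redMF B hB hqM ⟨g', mem_OM_of_mem_CMod (levelHyp_base B hB hqM) hg'⟩)
    (hloc : (z₁ (chartDataModular B hB hqM) e).ord
      (redMF B hB hqM ⟨g, mem_OM_of_mem_CMod (levelHyp_base B hB hqM) hg⟩) = 1) :
    ∀ h : heckeAlphaBar Kb M q g - heckeBetaBar Kb M q g' ^ q ∈ (compW B hB hqM 0).O,
      (z₁ (chartDataModular B hB hqM) e).ord ((compW B hB hqM 0).res ⟨_, h⟩) = 1 := by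
  intro h
  have H := levelHyp_base (M := M) B hB hqM
  have hgO := mem_OM_of_mem_CMod H hg
  have hg'O := mem_OM_of_mem_CMod H hg'
  have hαO : heckeAlphaBar Kb M q g ∈ (compW B hB hqM 0).O := (alpha_mem_O1_iff B hB g).2 hgO
  have hβO : heckeBetaBar Kb M q g' ∈ (compW B hB hqM 0).O := (beta_mem_O1_iff B hB g').2 hg'O
  have hres1 : ∀ (x : Fb (M * q)) (hx : x ∈ O1 M B hB),
      (compW B hB hqM 0).res ⟨x, hx⟩ = red1F B hB hqM ⟨x, hx⟩ := fun x hx => Subtype.ext rfl
  have e1 : (⟨heckeAlphaBar Kb M q g - heckeBetaBar Kb M q g' ^ q, h⟩ : (compW B hB hqM 0).O) =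
      ⟨heckeAlphaBar Kb M q g, hαO⟩ - ⟨heckeBetaBar Kb M q g', hβO⟩ ^ q := rfl
  rw [e1, map_sub, map_pow]
  have ha : (z₁ (chartDataModular B hB hqM) e).ord
      ((compW B hB hqM 0).res ⟨heckeAlphaBar Kb M q g, hαO⟩) = 1 := by
    have e0 : (compW B hB hqM 0).res ⟨heckeAlphaBar Kb M q g, hαO⟩ =
        redMF B hB hqM ⟨g, hgO⟩ := (hres1 _ _).trans (red1F_alpha B hB hqM g hgO)
    rw [e0]
    exact hloc
  have hlt : (z₁ (chartDataModular B hB hqM) e).adicValuation
      (redMF B hB hqM ⟨g, mem_OM_of_mem_CMod (levelHyp_base B hB hqM) hg⟩) < 1 :=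
    adicValuation_lt_one_of_ord_pos _ (by rw [hloc]; exact one_pos)
  exact ord_sub_pow_eq_one _ ha
    (adicValuation_res_beta_lt_one B hB hqM e hg hg' h' hlt hβO) hq.out.two_le

/-! ### The mirror: the simple zero on `'et'` -/

set_option maxHeartbeats 4000000 in
/-- `res₂ (α g)` vanishes at `z₂ e` as soon as `g̃''` does (`g''` a Frobenius twist of `g`). -/
theorem adicValuation_res_alpha_lt_one {g g'' : Fb M} (hg : g ∈ CMod M (W0 B q) (K0 q))
    (hg'' : g'' ∈ CMod M (W0 B q) (K0 q))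
    (h'' : redMF B hB hqM ⟨g'', mem_OM_of_mem_CMod (levelHyp_base B hB hqM) hg''⟩ =
      frobAutFullC kB M q •
        redMF B hB hqM ⟨g, mem_OM_of_mem_CMod (levelHyp_base B hB hqM) hg⟩)
    (hloc : (z₂ (chartDataModular B hB hqM) e).adicValuation
      (redMF B hB hqM ⟨g'', mem_OM_of_mem_CMod (levelHyp_base B hB hqM) hg''⟩) < 1)
    (h : heckeAlphaBar Kb M q g ∈ (compW B hB hqM 1).O) :
    (z₂ (chartDataModular B hB hqM) e).adicValuation
      ((compW B hB hqM 1).res ⟨heckeAlphaBar Kb M q g, h⟩) < 1 := by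
  have hne : Nonempty (Crossing (chartDataModular B hB hqM)) := ⟨e⟩
  have H := levelHyp_base (M := M) B hB hqM
  have hgO := mem_OM_of_mem_CMod H hg
  have hg''O := mem_OM_of_mem_CMod H hg''
  set Cm := CS (M * q) q (baseFin M q B) (∅ : Finset Kb) with hCmdef
  have hCQ : ∀ x, x ∈ CQ M q (W0 B q) (K0 q) → x ∈ Cm := fun x hx => by
    rw [hCmdef, ← CQ_base_eq_CS]
    exact hx
  have hF := crossingFamily_final B hB hqM hne e
  set Mo := hF.model (∅ : Finset Kb) with hMo
  have hres1 : ∀ (x : Fb (M * q)) (hx : x ∈ O1 M B hB),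
      (compW B hB hqM 0).res ⟨x, hx⟩ = red1F B hB hqM ⟨x, hx⟩ := fun x hx => Subtype.ext rfl
  have hres2 : ∀ (x : Fb (M * q)) (hx : x ∈ O2 B hB hqM),
      (compW B hB hqM 1).res ⟨x, hx⟩ = red2F B hB hqM ⟨x, hx⟩ := fun x hx => Subtype.ext rfl
  have hyC : heckeAlphaBar Kb M q g ∈ Cm :=
    hCQ _ (alpha_mem_model M q (isModel_CMod M (W0 B q) (K0 q)) (isModel_CQ M q (W0 B q) (K0 q)) hg)
  have hxC : heckeBetaBar Kb M q g'' ∈ Cm :=
    hCQ _ (beta_mem_model M q hq.out (isModel_CMod M (W0 B q) (K0 q))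
      (isModel_CQ M q (W0 B q) (K0 q)) hg'')
  have hpowC : heckeAlphaBar Kb M q g ^ q ∈ Cm := Cm.pow_mem hyC q
  -- `β g''` vanishes at `z₂ e`, hence at `z₁ e`
  have h1 : (z₂ (chartDataModular B hB hqM) e).adicValuation
      ((compW B hB hqM 1).res ⟨heckeBetaBar Kb M q g'', Mo.le₂ _ hxC⟩) < 1 := by
    have e0 : (compW B hB hqM 1).res ⟨heckeBetaBar Kb M q g'', Mo.le₂ _ hxC⟩ =
        redMF B hB hqM ⟨g'', hg''O⟩ := (hres2 _ _).trans (red2F_beta B hB hqM g'' hg''O)
    rw [e0]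
    exact hloc
  have h2 := (Mo.same_point ⟨_, hxC⟩).mpr h1
  -- `(α g)^q = β g'' - y`, `y ≡ 0` on `'can'`
  have hy1 := a_mem_nonunits_O1 B hB hqM hgO hg''O h''
  have hyO1 := a_mem_O1 B hB hgO hg''O
  have hres1y : red1F B hB hqM ⟨_, hyO1⟩ = 0 := (red1F_eq_zero_iff B hB hqM ⟨_, hyO1⟩).mpr hy1
  have hβO1 : heckeBetaBar Kb M q g'' ∈ O1 M B hB := Mo.le₁ _ hxC
  have hpowO1 : heckeAlphaBar Kb M q g ^ q ∈ O1 M B hB := Mo.le₁ _ hpowC
  have h3 : (compW B hB hqM 0).res ⟨heckeAlphaBar Kb M q g ^ q, Mo.le₁ _ hpowC⟩ =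
      (compW B hB hqM 0).res ⟨heckeBetaBar Kb M q g'', Mo.le₁ _ hxC⟩ := by
    have e1 : (⟨heckeAlphaBar Kb M q g ^ q, hpowO1⟩ : O1 M B hB) =
        ⟨heckeBetaBar Kb M q g'', hβO1⟩ -
          ⟨heckeBetaBar Kb M q g'' - heckeAlphaBar Kb M q g ^ q, hyO1⟩ :=
      Subtype.ext (by simp)
    have e2 : red1F B hB hqM ⟨heckeAlphaBar Kb M q g ^ q, hpowO1⟩ =
        red1F B hB hqM ⟨heckeBetaBar Kb M q g'', hβO1⟩ := by
      rw [e1, map_sub, hres1y, sub_zero]
    exact ((hres1 _ hpowO1).trans e2).trans (hres1 _ hβO1).symm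
  have h4 : (z₁ (chartDataModular B hB hqM) e).adicValuation
      ((compW B hB hqM 0).res ⟨heckeAlphaBar Kb M q g ^ q, Mo.le₁ _ hpowC⟩) < 1 := by
    rw [h3]
    exact h2
  have h5 := (Mo.same_point ⟨_, hpowC⟩).mp h4
  have h6 : (z₂ (chartDataModular B hB hqM) e).adicValuation
      ((compW B hB hqM 1).res ⟨heckeAlphaBar Kb M q g, h⟩) ^ q < 1 := by
    have := h5
    rw [show (⟨((⟨heckeAlphaBar Kb M q g ^ q, hpowC⟩ : Cm) : Fb (M * q)),
      Mo.le₂ _ (⟨heckeAlphaBar Kb M q g ^ q, hpowC⟩ : Cm).2⟩ : (compW B hB hqM 1).O) =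
      ⟨heckeAlphaBar Kb M q g, h⟩ ^ q from rfl, map_pow, map_pow] at this
    exact this
  by_contra hcon
  push Not at hcon
  exact absurd h6 (not_lt.mpr (one_le_pow_of_one_le' hcon q))

set_option maxHeartbeats 4000000 in
/-- **(I5-SZ), `'et'`-side: `hyord`.**  If `g̃'' = res_M g''` is a local parameter at `z₂ e` and
`g''` is a Frobenius twist of `g`, then the reduction on `'et'` of `y = β g'' - (α g)^q` has a
simple zero at `z₂ e`. -/
theorem hyord_of_localParam {g g'' : Fb M} (hg : g ∈ CMod M (W0 B q) (K0 q))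
    (hg'' : g'' ∈ CMod M (W0 B q) (K0 q))
    (h'' : redMF B hB hqM ⟨g'', mem_OM_of_mem_CMod (levelHyp_base B hB hqM) hg''⟩ =
      frobAutFullC kB M q •
        redMF B hB hqM ⟨g, mem_OM_of_mem_CMod (levelHyp_base B hB hqM) hg⟩)
    (hloc : (z₂ (chartDataModular B hB hqM) e).ord
      (redMF B hB hqM ⟨g'', mem_OM_of_mem_CMod (levelHyp_base B hB hqM) hg''⟩) = 1) :
    ∀ h : heckeBetaBar Kb M q g'' - heckeAlphaBar Kb M q g ^ q ∈ (compW B hB hqM 1).O,
      (z₂ (chartDataModular B hB hqM) e).ord ((compW B hB hqM 1).res ⟨_, h⟩) = 1 := by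
  intro h
  have H := levelHyp_base (M := M) B hB hqM
  have hgO := mem_OM_of_mem_CMod H hg
  have hg''O := mem_OM_of_mem_CMod H hg''
  have hαO : heckeAlphaBar Kb M q g ∈ (compW B hB hqM 1).O :=
    (alpha_mem_O2_iff B hB hqM g).2 hgO
  have hβO : heckeBetaBar Kb M q g'' ∈ (compW B hB hqM 1).O :=
    (beta_mem_O2_iff B hB hqM g'').2 hg''O
  have hres2 : ∀ (x : Fb (M * q)) (hx : x ∈ O2 B hB hqM),
      (compW B hB hqM 1).res ⟨x, hx⟩ = red2F B hB hqM ⟨x, hx⟩ := fun x hx => Subtype.ext rfl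
  have e1 : (⟨heckeBetaBar Kb M q g'' - heckeAlphaBar Kb M q g ^ q, h⟩ : (compW B hB hqM 1).O) =
      ⟨heckeBetaBar Kb M q g'', hβO⟩ - ⟨heckeAlphaBar Kb M q g, hαO⟩ ^ q := rfl
  rw [e1, map_sub, map_pow]
  have ha : (z₂ (chartDataModular B hB hqM) e).ord
      ((compW B hB hqM 1).res ⟨heckeBetaBar Kb M q g'', hβO⟩) = 1 := by
    have e0 : (compW B hB hqM 1).res ⟨heckeBetaBar Kb M q g'', hβO⟩ =
        redMF B hB hqM ⟨g'', hg''O⟩ := (hres2 _ _).trans (red2F_beta B hB hqM g'' hg''O)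
    rw [e0]
    exact hloc
  have hlt : (z₂ (chartDataModular B hB hqM) e).adicValuation
      (redMF B hB hqM ⟨g'', mem_OM_of_mem_CMod (levelHyp_base B hB hqM) hg''⟩) < 1 :=
    adicValuation_lt_one_of_ord_pos _ (by rw [hloc]; exact one_pos)
  exact ord_sub_pow_eq_one _ ha
    (adicValuation_res_alpha_lt_one B hB hqM e hg hg'' h'' hlt hαO) hq.out.two_le

/-! ### Assembly: `IsSSParam` from the two local parameters -/

open Fermat.Agent.BR3.SSParam in
set_option maxHeartbeats 4000000 in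
/-- a function of level `M` whose reduction has order one at some place of `F̃_M` is not a
constant -/
theorem nonconst_of_ord_eq_one {g : Fb M} (hgO : g ∈ OM M B hB) (Q : Place kB FtM)
    (hloc : Q.ord (redMF B hB hqM ⟨g, hgO⟩) = 1) : g ∉ Set.range (algebraMap Kb (Fb M)) := by
  rintro ⟨c, rfl⟩
  have hcB : c ∈ B := ((constRedBar M hqM B hB).algebraMap_mem_iff c).mp hgO
  have e0 : redMF B hB hqM ⟨algebraMap Kb (Fb M) c, hgO⟩ =
      algebraMap kB FtM (IsLocalRing.residue B ⟨c, hcB⟩) :=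
    (constRedBar M hqM B hB).res_algebraMap c hcB hgO
  rw [e0] at hloc
  rcases eq_or_ne (IsLocalRing.residue B ⟨c, hcB⟩) 0 with h0 | h0
  · rw [h0, map_zero, Place.ord_zero] at hloc
    exact zero_ne_one hloc
  · have := ord_eq_zero_of_adicValuation_eq_one Q
      (Fermat.Agent.BR.ZeroCount.adicValuation_algebraMap_eq_one Q h0)
    rw [this] at hloc
    exact zero_ne_one hloc

open Fermat.Agent.BR3.SSParam in
set_option maxHeartbeats 4000000 in
/-- **(I5-SZ), assembly.**  A twisted triple `(g, g', g'')` of the base level such that `g̃` is a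
local parameter at `z₁ e` and `g̃''` (`= σ g̃`) is a local parameter at `z₂ e` is an `IsSSParam`. -/
theorem isSSParam_of_localParams {g g' g'' : Fb M} (hg : g ∈ CMod M (W0 B q) (K0 q))
    (hg' : g' ∈ CMod M (W0 B q) (K0 q)) (hg'' : g'' ∈ CMod M (W0 B q) (K0 q))
    (h' : redMF B hB hqM ⟨g, mem_OM_of_mem_CMod (levelHyp_base B hB hqM) hg⟩ =
      frobAutFullC kB M q •
        redMF B hB hqM ⟨g', mem_OM_of_mem_CMod (levelHyp_base B hB hqM) hg'⟩)
    (h'' : redMF B hB hqM ⟨g'', mem_OM_of_mem_CMod (levelHyp_base B hB hqM) hg''⟩ =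
      frobAutFullC kB M q •
        redMF B hB hqM ⟨g, mem_OM_of_mem_CMod (levelHyp_base B hB hqM) hg⟩)
    (hloc₁ : (z₁ (chartDataModular B hB hqM) e).ord
      (redMF B hB hqM ⟨g, mem_OM_of_mem_CMod (levelHyp_base B hB hqM) hg⟩) = 1)
    (hloc₂ : (z₂ (chartDataModular B hB hqM) e).ord
      (redMF B hB hqM ⟨g'', mem_OM_of_mem_CMod (levelHyp_base B hB hqM) hg''⟩) = 1) :
    IsSSParam B hB hqM e g g' g'' where
  hg := hg
  hg' := hg'
  hg'' := hg''
  untwist := h'
  twist := h''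
  nonconst := nonconst_of_ord_eq_one B hB hqM _ _ hloc₁
  hxord := hxord_of_localParam B hB hqM e hg hg' h' hloc₁
  hyord := hyord_of_localParam B hB hqM e hg hg'' h'' hloc₂

end Can

end Fermat.Agent.BR3.SSParamOfLocal
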