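import Mathlib
import Fermat.Agent.BR3.SSParamAll
import Fermat.Agent.BR3.SSParamOfLocal
import Fermat.Agent.BR3.VertBetaFr

/-!
# Program C (S36): a CHAIN of twisted triples over a supersingular crossing and its swap

`e` a crossing of main's two-component model of `X₀(qM)` at `q`, `Fr e = (z₂ e, z₁ e)` the swapped
crossing (`VertBetaFr.Fr`: the crossing of `S'` under the vertical component `z e` along `b = β₂`).

* `exists_isSSParam_chain` : there are FOUR functions `g₀, g', g, g''` of the level `M` model of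
  the base level, consecutive Frobenius twists of each other modulo `q`, such that
  `(g, g', g'')` is an `IsSSParam` at `e` and `(g', g₀, g)` is an `IsSSParam` at `Fr e`.

So the transversal pair at `e` is `v_g = α g - (β g')^q`, `u_g = β g'' - (α g)^q`, the transversal
pair at `Fr e` is `v_{g'} = α g' - (β g₀)^q`, `u_{g'} = β g - (α g')^q`, and at level `M q²`

  `β₂ u_{g'} = U_g + α₂ v_g`     (`U_g = β₂ (β g) - α₂ (α g)`, `α₂ ∘ β = β₂ ∘ α`)

is the exact identity linking the `a`-side coordinate at `e` to the `b`-side coordinate at `Fr e`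
(uniform version of `VertBetaMain.beta2_y1`): `beta2_ug_eq`.
-/

set_option autoImplicit false
set_option linter.unusedSectionVars false
set_option linter.style.haveILetI false
set_option synthInstance.maxHeartbeats 400000
set_option maxHeartbeats 1600000

namespace Fermat.Agent.BR3.SSParamChain

open AlgebraicCurve ModularCurve IsLocalRing
open Fermat.Agent.X0 Fermat.Agent.Val Fermat.Agent.Hecke
open Fermat.Agent.BR.S0.RedModular Fermat.Agent.BR.S0.PointDict Fermat.Agent.BR.S0.ThickFinal
open Fermat.Agent.BR.Inst.LevelsInst Fermat.Agent.BR.Inst.SpecIso Fermat.Agent.BR.ResGen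
open Fermat.Agent.BR.TwoVal Fermat.Agent.BR3.SSParam Fermat.Agent.BR3.SimpleZeros
open Fermat.Agent.BR3.SSParamAll Fermat.Agent.BR3.SSParamOfLocal Fermat.Agent.BR3.VertBetaFr
open Fermat.Agent.BR3.HeckePolyModel Fermat.Agent.BR3.HeckePoly Fermat.Agent.BR3.FibreProd

variable {M q : ℕ} [NeZero M] [hq : Fact q.Prime]
variable (B : ValuationSubring Kb) (hB : B.LiesOverPrime q) (hqM : ¬ q ∣ M)
variable [IsAlgClosed (IsLocalRing.ResidueField B)] [CharP (IsLocalRing.ResidueField B) q]

local notation "kB" => IsLocalRing.ResidueField B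

set_option maxHeartbeats 4000000 in
/-- **The chain of twisted triples over `e` and `Fr e`.** -/
theorem exists_isSSParam_chain (e : Crossing (chartDataModular B hB hqM)) :
    ∃ g₀ g' g g'' : Fb M, IsSSParam B hB hqM e g g' g'' ∧
      IsSSParam B hB hqM (Fr B hB hqM e) g' g₀ g := by
  obtain ⟨g, g', g'', H, hord₁, -⟩ := exists_isSSParam_ord B hB hqM e
  obtain ⟨g₀, hg₀, h₀⟩ := exists_untwist_CMod (levelHyp_base (M := M) B hB hqM) H.hg'
  refine ⟨g₀, g', g, g'', H, ?_⟩
  refine isSSParam_of_localParams B hB hqM (Fr B hB hqM e) H.hg' hg₀ H.hg h₀ H.untwist ?_ ?_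
  · -- `g̃'` is a local parameter at `z₁ (Fr e) = z₂ e`, since `z₁ e = σ • z₂ e`
    have hz : z₁ (chartDataModular B hB hqM) e =
        frobAutFullC kB M q • z₂ (chartDataModular B hB hqM) e := by
      have h := z₂_eq_frob_smul_z₁ B hB hqM (Fr B hB hqM e)
      rwa [z₂_Fr, z₁_Fr] at h
    have e1 : redMF B hB hqM ⟨g, mem_OM_of_mem_CMod_base B hB hqM H.hg⟩ =
        frobAutFullC kB M q • redMF B hB hqM ⟨g', mem_OM_of_mem_CMod_base B hB hqM H.hg'⟩ :=
      H.untwist
    rw [hz, e1, SemilinearAut.ord_smul] at hord₁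
    rw [z₁_Fr]
    exact hord₁
  · rw [z₂_Fr]
    exact hord₁

/-- **The exact identity at level `M q²`** linking the `a`-side at `e` to the `b`-side at `Fr e`:
`β₂ (β g - (α g')^q) = U_g + α₂ (α g - (β g')^q)`. -/
theorem beta2_ug_eq (g g' : Fb M) :
    beta2 M q (heckeBetaBar Kb M q g - heckeAlphaBar Kb M q g' ^ q) =
      Ug M q g + alpha2 M q (heckeAlphaBar Kb M q g - heckeBetaBar Kb M q g' ^ q) := by
  have h1 : beta2 M q (heckeAlphaBar Kb M q g') = alpha2 M q (heckeBetaBar Kb M q g') := by
    rw [← mid_apply', mid_apply]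
  rw [Ug, map_sub, map_sub, map_pow, map_pow, h1]
  ring

end Fermat.Agent.BR3.SSParamChain
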