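import Mathlib
import Fermat.Agent.BR3.SSParamChain

/-!
# Program C (S36): the chain of twisted triples over `e` and `Fr e`, WITH the orders

`exists_isSSParam_chain_ord e` : the chain `g₀, g', g, g''` of `SSParamChain.exists_isSSParam_chain`
(`IsSSParam e g g' g''` and `IsSSParam (Fr e) g' g₀ g`) together with

* `ord_{z₁ e} g̃ = 1`, `ord_{z₂ e} g̃'' = 1` (the orders at `e` of the triple `(g, g', g'')`),
* `ord_{z₁ (Fr e)} g̃' = 1`, `ord_{z₂ (Fr e)} g̃ = 1` (the orders at `Fr e` of the triple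
  `(g', g₀, g)`; recall `z₁ (Fr e) = z₂ e`, `z₂ (Fr e) = z₁ e`).

THE single source of the per-`e` functions for every consumer (ZeData, tube_b_*, VertBetaSS, …).
-/

set_option autoImplicit false
set_option linter.unusedSectionVars false
set_option linter.style.haveILetI false
set_option synthInstance.maxHeartbeats 400000
set_option maxHeartbeats 1600000

namespace Fermat.Agent.BR3.SSParamChainOrd

open AlgebraicCurve ModularCurve IsLocalRing
open Fermat.Agent.X0 Fermat.Agent.Val Fermat.Agent.Hecke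
open Fermat.Agent.BR.S0.RedModular Fermat.Agent.BR.S0.PointDict Fermat.Agent.BR.S0.ThickFinal
open Fermat.Agent.BR.Inst.LevelsInst Fermat.Agent.BR.Inst.SpecIso Fermat.Agent.BR.ResGen
open Fermat.Agent.BR.TwoVal Fermat.Agent.BR3.SSParam Fermat.Agent.BR3.SimpleZeros
open Fermat.Agent.BR3.SSParamAll Fermat.Agent.BR3.SSParamOfLocal Fermat.Agent.BR3.VertBetaFr
open Fermat.Agent.BR3.HeckePolyModel

variable {M q : ℕ} [NeZero M] [hq : Fact q.Prime]
variable (B : ValuationSubring Kb) (hB : B.LiesOverPrime q) (hqM : ¬ q ∣ M)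
variable [IsAlgClosed (IsLocalRing.ResidueField B)] [CharP (IsLocalRing.ResidueField B) q]

local notation "kB" => IsLocalRing.ResidueField B

set_option maxHeartbeats 4000000 in
/-- **The chain of twisted triples over `e` and `Fr e`, with the orders of the local
parameters.** -/
theorem exists_isSSParam_chain_ord (e : Crossing (chartDataModular B hB hqM)) :
    ∃ (g₀ g' g g'' : Fb M) (H : IsSSParam B hB hqM e g g' g'')
      (H' : IsSSParam B hB hqM (Fr B hB hqM e) g' g₀ g),
      (z₁ (chartDataModular B hB hqM) e).ord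
        (redMF B hB hqM ⟨g, mem_OM_of_mem_CMod_base B hB hqM H.hg⟩) = 1 ∧
      (z₂ (chartDataModular B hB hqM) e).ord
        (redMF B hB hqM ⟨g'', mem_OM_of_mem_CMod_base B hB hqM H.hg''⟩) = 1 ∧
      (z₁ (chartDataModular B hB hqM) (Fr B hB hqM e)).ord
        (redMF B hB hqM ⟨g', mem_OM_of_mem_CMod_base B hB hqM H.hg'⟩) = 1 ∧
      (z₂ (chartDataModular B hB hqM) (Fr B hB hqM e)).ord
        (redMF B hB hqM ⟨g, mem_OM_of_mem_CMod_base B hB hqM H.hg⟩) = 1 := by
  obtain ⟨g, g', g'', H, hord₁, hord₂⟩ := exists_isSSParam_ord B hB hqM e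
  obtain ⟨g₀, hg₀, h₀⟩ := exists_untwist_CMod (levelHyp_base (M := M) B hB hqM) H.hg'
  -- `g̃'` is a local parameter at `z₁ (Fr e) = z₂ e`, since `z₁ e = σ • z₂ e`
  have hord' : (z₁ (chartDataModular B hB hqM) (Fr B hB hqM e)).ord
      (redMF B hB hqM ⟨g', mem_OM_of_mem_CMod_base B hB hqM H.hg'⟩) = 1 := by
    have hz : z₁ (chartDataModular B hB hqM) e =
        frobAutFullC kB M q • z₂ (chartDataModular B hB hqM) e := by
      have h := z₂_eq_frob_smul_z₁ B hB hqM (Fr B hB hqM e)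
      rwa [z₂_Fr, z₁_Fr] at h
    have e1 : redMF B hB hqM ⟨g, mem_OM_of_mem_CMod_base B hB hqM H.hg⟩ =
        frobAutFullC kB M q • redMF B hB hqM ⟨g', mem_OM_of_mem_CMod_base B hB hqM H.hg'⟩ :=
      H.untwist
    have h1 := hord₁
    rw [hz, e1, SemilinearAut.ord_smul] at h1
    rw [z₁_Fr]
    exact h1
  have hord'' : (z₂ (chartDataModular B hB hqM) (Fr B hB hqM e)).ord
      (redMF B hB hqM ⟨g, mem_OM_of_mem_CMod_base B hB hqM H.hg⟩) = 1 := by
    rw [z₂_Fr]
    exact hord₁
  exact ⟨g₀, g', g, g'', H,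
    isSSParam_of_localParams B hB hqM (Fr B hB hqM e) H.hg' hg₀ H.hg h₀ H.untwist hord' hord'',
    hord₁, hord₂, hord', hord''⟩

end Fermat.Agent.BR3.SSParamChainOrd
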