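import Mathlib
import Fermat.Agent.BR.S0.SmoothAssembly
import Fermat.Agent.BR.S0.SepModular
import Fermat.Agent.BR.S0.CrossingModel

/-!
# Program C, node (I7-ZE-B) part (ii), abstract core: the centre of the pull-back of a valuation
ring along a second map, on a two-component model

`C ⊆ F₁` the model at a level of a two-component curve (`Lh : LevelHyp D C ϖ P₀ P₁ red₀ red₁`),
`b : F₁ →+* F₂` a ring homomorphism, `Z ⊆ F₂` a valuation ring with residue map
`resZ : Z →+* κ`, `k` algebraically closed.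

* `map_mem_of_isIntegral` : `b` maps elements integral over `R` into `Z` when `b R ⊆ Z`;
* `exists_eq_algebraMap_of_isIntegral` : an element of `κ` integral over `k` is a constant;
* `exists_const_of_isIntegral` : the residues of `b x`, `x` integral over `R`, are constants when
  the residues of `b R` are;
* `exists_place_of_ringHom` : a homomorphism `φ : C →+* k` which is `π` on the constants is the
  evaluation at a point `(v, Q')` of the special fibre (`PointOfHom`);
* `place_eq_of_tests` : identification of the point by test functions `g` with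
  `res₀ g = z`, `res₁ g = z ^ q`, the `z` spanning the Dedekind chart;
* `push_centre` : **the centre of `Z.comap b` on `C` is the point of the crossing `(Q₂, Q₁)`**:
  `b C ⊆ Z` and `b` maps the point of the crossing model into the maximal ideal of `Z`.
-/

set_option autoImplicit false
set_option linter.unusedSectionVars false

namespace Fermat.Agent.BR3.PushCentre

open AlgebraicCurve Polynomial Fermat.Agent.Red Fermat.Agent.X0 Fermat.Agent.BR.Centre
  Fermat.Agent.BR.SpecialFibre Fermat.Agent.BR.S0 Fermat.Agent.BR.S0.RedModular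
  Fermat.Agent.BR.S0.PointOfHom Fermat.Agent.BR.S0.SmoothAssembly

/-! ### integrality -/

section Integral

variable {F₁ F₂ : Type*} [Field F₁] [Field F₂]

/-- A ring homomorphism mapping `R` into the valuation ring `Z` maps every element integral over
`R` into `Z`. -/
theorem map_mem_of_isIntegral (f : F₁ →+* F₂) (Z : ValuationSubring F₂) (R : Subring F₁)
    (hR : ∀ r ∈ R, f r ∈ Z) {x : F₁} (hx : IsIntegral R x) : f x ∈ Z := by
  obtain ⟨p, hp, hpx⟩ := hx
  let ρ : R →+* Z := (f.comp R.subtype).codRestrict Z.toSubring fun r => hR r r.2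
  have hint : IsIntegral Z (f x) := by
    refine ⟨p.map ρ, hp.map _, ?_⟩
    rw [eval₂_map]
    have hcomp : (algebraMap Z F₂).comp ρ = f.comp R.subtype := by
      ext r
      rfl
    rw [hcomp]
    have h2 := Polynomial.hom_eval₂ p R.subtype f x
    have h3 : eval₂ R.subtype x p = 0 := hpx
    rw [h3, map_zero] at h2
    exact h2.symm
  obtain ⟨z, hz⟩ := (IsIntegrallyClosed.isIntegral_iff (R := Z) (K := F₂)).mp hint
  rw [← hz]
  exact z.2

/-- An element of a field extension of an algebraically closed field `k` which is integral over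
`k` is a constant. -/
theorem exists_eq_algebraMap_of_isIntegral {k κ : Type*} [Field k] [IsAlgClosed k] [Field κ]
    [Algebra k κ] {y : κ} (hy : IsIntegral k y) : ∃ c : k, y = algebraMap k κ c := by
  have h1 : (minpoly k y).degree = 1 :=
    IsAlgClosed.degree_eq_one_of_irreducible k (minpoly.irreducible hy)
  obtain ⟨c, hc⟩ := minpoly.mem_range_of_degree_eq_one k y h1
  exact ⟨c, hc.symm⟩

/-- The residue of `f x` is a constant when `x` is integral over `R` and the residues of `f R` are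
constants. -/
theorem exists_const_of_isIntegral {k κ : Type*} [Field k] [IsAlgClosed k] [Field κ] [Algebra k κ]
    (f : F₁ →+* F₂) (Z : ValuationSubring F₂) (resZ : Z →+* κ) (R : Subring F₁)
    (hR : ∀ r ∈ R, f r ∈ Z)
    (hψR : ∀ (r : F₁) (hr : r ∈ R), ∃ c : k, resZ ⟨f r, hR r hr⟩ = algebraMap k κ c)
    {x : F₁} (hx : IsIntegral R x) (hfx : f x ∈ Z) :
    ∃ c : k, resZ ⟨f x, hfx⟩ = algebraMap k κ c := by
  apply exists_eq_algebraMap_of_isIntegral
  obtain ⟨p, hp, hpx⟩ := hx
  -- the coefficients of `p` go to constants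
  have hchoose : ∀ r : R, ∃ c : k, resZ ⟨f r, hR r r.2⟩ = algebraMap k κ c := fun r => hψR r r.2
  choose cc hcc using hchoose
  let ρ : R →+* Z := (f.comp R.subtype).codRestrict Z.toSubring fun r => hR r r.2
  have hρ : ∀ r : R, resZ (ρ r) = algebraMap k κ (cc r) := fun r => hcc r
  -- the polynomial over `k`
  let pk : k[X] := ∑ i ∈ Finset.range (p.natDegree + 1), Polynomial.monomial i (cc (p.coeff i))
  have hcoeff : ∀ i, i ≤ p.natDegree → pk.coeff i = cc (p.coeff i) := by
    intro i hi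
    simp only [pk, Polynomial.finsetSum_coeff, Polynomial.coeff_monomial]
    rw [Finset.sum_eq_single i]
    · rw [if_pos rfl]
    · intro j _ hji
      rw [if_neg hji]
    · intro hni
      exact absurd (Finset.mem_range.mpr (Nat.lt_succ_of_le hi)) hni
  have hcoeff0 : ∀ i, p.natDegree < i → pk.coeff i = 0 := by
    intro i hi
    simp only [pk, Polynomial.finsetSum_coeff, Polynomial.coeff_monomial]
    apply Finset.sum_eq_zero
    intro j hj
    have : j ≠ i := by
      have := Finset.mem_range.mp hj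
      omega
    rw [if_neg this]
  have hc1 : cc 1 = 1 := by
    have h1 := hρ 1
    rw [map_one, map_one] at h1
    exact (algebraMap k κ).injective (by rw [← h1, map_one])
  have hlead : pk.coeff p.natDegree = 1 := by
    rw [hcoeff _ le_rfl]
    have : p.coeff p.natDegree = 1 := hp
    rw [this, hc1]
  have hdeg : pk.natDegree ≤ p.natDegree := by
    rw [Polynomial.natDegree_le_iff_coeff_eq_zero]
    exact hcoeff0
  have hmonic : pk.Monic := Polynomial.monic_of_natDegree_le_of_coeff_eq_one _ hdeg hlead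
  refine ⟨pk, hmonic, ?_⟩
  -- evaluation
  have hz0 : eval₂ ρ (⟨f x, hfx⟩ : Z) p = 0 := by
    apply Subtype.ext
    have h4 := Polynomial.hom_eval₂ p ρ Z.subtype (⟨f x, hfx⟩ : Z)
    rw [ZeroMemClass.coe_zero]
    refine Eq.trans h4 ?_
    have hcomp : (Z.subtype : Z →+* F₂).comp ρ = f.comp R.subtype := by
      ext r
      rfl
    rw [hcomp]
    have h2 := Polynomial.hom_eval₂ p R.subtype f x
    have h3 : eval₂ R.subtype x p = 0 := hpx
    rw [h3, map_zero] at h2
    exact h2.symm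
  have h5 := congrArg resZ hz0
  rw [map_zero, Polynomial.hom_eval₂] at h5
  rw [← h5, Polynomial.eval₂_eq_sum_range (p := p),
    Polynomial.eval₂_eq_sum_range' (algebraMap k κ) (p := pk) (Nat.lt_succ_of_le hdeg)]
  refine Finset.sum_congr rfl fun i hi => ?_
  have hi' : i ≤ p.natDegree := Nat.lt_succ_iff.mp (Finset.mem_range.mp hi)
  rw [hcoeff i hi', RingHom.comp_apply, hρ]

end Integral

/-! ### the point of a homomorphism on a two-component model -/

section Centre

variable {K F₁ F₂ k Ft κ : Type*} [Field K] [Field F₁] [Algebra K F₁] [Field F₂] [Field k]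
  [Field Ft] [Algebra k Ft] [Field κ] [Algebra k κ]
  {A : ValuationSubring K} {π : A →+* k}
  {Dk : Type*} [CommRing Dk] [IsDedekindDomain Dk] [Algebra Dk Ft] [IsFractionRing Dk Ft]
  [Algebra k Dk] [IsScalarTower k Dk Ft]
  {D : ChartData A π Ft F₁} {C : Subring F₁} {ϖ : K} {P₀ P₁ : Ideal C} {red₀ red₁ : C →+* Dk}

/-- **A `k`-point of the model at a level is a point of one of the two components.**  A
homomorphism `φ : C →+* k` equal to `π` on the constants of the model is the evaluation at a place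
`Q'` of the residues on one of the two components (`PointOfHom.exists_isRedOf_of_integralAt` for an
abstract homomorphism instead of the evaluation at a place of the generic fibre). -/
theorem exists_place_of_ringHom (Lh : LevelHyp D C ϖ P₀ P₁ red₀ red₁) (hnf : ¬ IsField Dk)
    (hπ0 : ∀ a : A, A.valuation (a : K) < 1 → π a = 0)
    (hres : ∀ v (a : K) (ha : a ∈ A) (h : algebraMap K F₁ a ∈ D.O v),
      D.res v ⟨algebraMap K F₁ a, h⟩ = algebraMap k Ft (π ⟨a, ha⟩))
    (φ : C →+* k)
    (hφ : ∀ (a : A) (h : algebraMap K F₁ (a : K) ∈ C), φ ⟨algebraMap K F₁ (a : K), h⟩ = π a) :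
    ∃ (v : Fin 2) (Q' : Place k Ft),
      ∀ x : C, IsValueAt Q' (D.res v ⟨x, Lh.hCO v x.2⟩) (φ x) := by
  have := Lh.noeth
  have := Lh.intClosed
  have hϖA : ϖ ∈ A := (A.valuation_le_one_iff _).mp Lh.unif_lt.le
  have hφϖ : φ ⟨algebraMap K F₁ ϖ, Lh.unif_mem⟩ = 0 := by
    have h1 := hφ ⟨ϖ, hϖA⟩ Lh.unif_mem
    rw [h1]
    exact hπ0 ⟨ϖ, hϖA⟩ Lh.unif_lt
  have hcases : (∀ x : C, red₀ x = 0 → φ x = 0) ∨ (∀ x : C, red₁ x = 0 → φ x = 0) := by
    by_contra hcon
    rw [not_or] at hcon
    obtain ⟨h0, h1⟩ := hcon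
    rw [not_forall] at h0 h1
    obtain ⟨x, hx⟩ := h0
    obtain ⟨y, hy⟩ := h1
    rw [Classical.not_imp] at hx hy
    have hmem : x * y ∈ P₀ ⊓ P₁ :=
      ⟨(Lh.mem_P₀ _).mpr (by rw [map_mul, hx.1, zero_mul]),
        (Lh.mem_P₁ _).mpr (by rw [map_mul, hy.1, mul_zero])⟩
    rw [Lh.twoComp.inf_eq] at hmem
    obtain ⟨z, hz⟩ := Ideal.mem_span_singleton.mp hmem
    have h2 : φ x * φ y = 0 := by
      rw [← map_mul, hz, map_mul, hφϖ, zero_mul]
    rcases mul_eq_zero.mp h2 with h | h
    · exact hx.2 h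
    · exact hy.2 h
  rcases hcases with h | h
  · obtain ⟨Q', hQ'⟩ := exists_place_of_hom_on_model hnf (fun x hx => Lh.hCO 0 hx) (hres 0) red₀
      Lh.hred₀ Lh.surj₀ Lh.fullRes φ h hφ
    exact ⟨0, Q', hQ'⟩
  · obtain ⟨Q', hQ'⟩ := exists_place_of_hom_on_model hnf (fun x hx => Lh.hCO 1 hx) (hres 1) red₁
      Lh.hred₁ Lh.surj₁ Lh.fullRes φ h hφ
    exact ⟨1, Q', hQ'⟩

/-- Two places agree when they give the same values to a `k`-spanning set of the Dedekind chart. -/
theorem place_eq_of_span (Q Q' : Place k Ft) (Sf : Set Ft)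
    (hspan : ∀ d : Dk, algebraMap Dk Ft d ∈ Submodule.span k Sf)
    (h : ∀ z ∈ Sf, ∃ c : k, IsValueAt Q z c ∧ IsValueAt Q' z c) : Q = Q' := by
  refine Fermat.Agent.BR.S0.SepModular.place_eq_of_forall_isValueAt (D := Dk) Q Q' fun d => ?_
  refine Submodule.span_induction
    (p := fun z _ => ∃ c : k, IsValueAt Q z c ∧ IsValueAt Q' z c) ?_ ?_ ?_ ?_ (hspan d)
  · exact fun z hz => h z hz
  · exact ⟨0, isValueAt_zero Q, isValueAt_zero Q'⟩
  · rintro z₁ z₂ _ _ ⟨c₁, h₁, h₁'⟩ ⟨c₂, h₂, h₂'⟩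
    exact ⟨c₁ + c₂, h₁.add h₂, h₁'.add h₂'⟩
  · rintro a z _ ⟨c, h₁, h₁'⟩
    exact ⟨a * c, h₁.smul a, h₁'.smul a⟩

/-- **The centre of the pull-back of a valuation ring along a second map.**

`C ⊆ F₁` the model at a level of a two-component curve (`Lh`), `b : F₁ →+* F₂`, `Z ⊆ F₂` a
valuation ring with residue map `resZ : Z →+* κ`.  If `b` maps the constants of `A` to constants
(`hbK`), `C` is integral over a subring `R₀` which `b` maps into `Z` with constant residues (`hR₀`),
and test functions `g ∈ C` with `res₀ g = z`, `res₁ g = z ^ q` spanning the Dedekind chart have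
`resZ (b g) = z(Q₂) = z(Q₁) ^ q` (`htest`), then `b C ⊆ Z` and `b` maps the point of the crossing
`(Q₂, Q₁)` on `C` into the maximal ideal of `Z`: the centre of `Z.comap b` on `C` is that point. -/
theorem push_centre (q : ℕ) [hq : Fact q.Prime] [CharP k q] [PerfectRing k q] [IsAlgClosed k]
    (Lh : LevelHyp D C ϖ P₀ P₁ red₀ red₁) (hnf : ¬ IsField Dk)
    (hπ0 : ∀ a : A, A.valuation (a : K) < 1 → π a = 0)
    (hres : ∀ v (a : K) (ha : a ∈ A) (h : algebraMap K F₁ a ∈ D.O v),
      D.res v ⟨algebraMap K F₁ a, h⟩ = algebraMap k Ft (π ⟨a, ha⟩))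
    (b : F₁ →+* F₂) (Z : ValuationSubring F₂) (resZ : Z →+* κ)
    (hker : ∀ z : Z, resZ z = 0 → (z : F₂) ∈ Z.nonunits)
    (hbK : ∀ a : A, ∃ h : b (algebraMap K F₁ (a : K)) ∈ Z,
      resZ ⟨b (algebraMap K F₁ (a : K)), h⟩ = algebraMap k κ (π a))
    (R₀ : Subring F₁) (hint : ∀ x ∈ C, IsIntegral R₀ x)
    (hR₀ : ∀ r ∈ R₀, ∃ (h : b r ∈ Z) (c : k), resZ ⟨b r, h⟩ = algebraMap k κ c)
    (Sf : Set Ft) (hspan : ∀ d : Dk, algebraMap Dk Ft d ∈ Submodule.span k Sf)
    {Q₁ Q₂ : Place k Ft}
    (htest : ∀ z ∈ Sf, ∃ (g : F₁) (hg : g ∈ C) (hbg : b g ∈ Z) (c c' : k),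
      D.res 0 ⟨g, Lh.hCO 0 hg⟩ = z ∧ D.res 1 ⟨g, Lh.hCO 1 hg⟩ = z ^ q ∧
      resZ ⟨b g, hbg⟩ = algebraMap k κ c ∧ IsValueAt Q₂ z c ∧ IsValueAt Q₁ z c' ∧ c = c' ^ q)
    {T' : Set (Place K F₁)} {ϖ' : K}
    (Mod' : CrossingModel A π (D.O 0) (D.O 1) (D.res 0) (D.res 1) Q₂ Q₁ T' C ϖ') :
    (∀ x ∈ C, b x ∈ Z) ∧ ∀ x : C, x ∈ Mod'.point → b (x : F₁) ∈ Z.nonunits := by
  have hR₀Z : ∀ r ∈ R₀, b r ∈ Z := fun r hr => (hR₀ r hr).1
  have hbC : ∀ x ∈ C, b x ∈ Z := fun x hx => map_mem_of_isIntegral b Z R₀ hR₀Z (hint x hx)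
  refine ⟨hbC, ?_⟩
  have hconst : ∀ x : C, ∃ c : k, resZ ⟨b x, hbC x x.2⟩ = algebraMap k κ c := fun x =>
    exists_const_of_isIntegral b Z resZ R₀ hR₀Z (fun r hr => (hR₀ r hr).2) (hint x x.2) _
  -- the homomorphism `C → k`
  let ψ : C →+* κ := resZ.comp ((b.comp C.subtype).codRestrict Z.toSubring fun x => hbC x x.2)
  have hψ : ∀ x : C, ψ x = resZ ⟨b x, hbC x x.2⟩ := fun _ => rfl
  choose φf hφf using hconst
  have hinj : Function.Injective (algebraMap k κ) := (algebraMap k κ).injective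
  have hψφ : ∀ x : C, ψ x = algebraMap k κ (φf x) := fun x => (hψ x).trans (hφf x)
  let φ : C →+* k :=
    { toFun := φf
      map_one' := hinj (by rw [← hψφ, map_one, map_one])
      map_mul' := fun x y => hinj (by rw [← hψφ, map_mul, map_mul, hψφ, hψφ])
      map_zero' := hinj (by rw [← hψφ, map_zero, map_zero])
      map_add' := fun x y => hinj (by rw [← hψφ, map_add, map_add, hψφ, hψφ]) }
  have hφx : ∀ x : C, ψ x = algebraMap k κ (φ x) := hψφ
  have hφ : ∀ (a : A) (h : algebraMap K F₁ (a : K) ∈ C),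
      φ ⟨algebraMap K F₁ (a : K), h⟩ = π a := by
    intro a h
    obtain ⟨h1, h2⟩ := hbK a
    apply hinj
    rw [← hφx, hψ]
    exact h2
  obtain ⟨v, Q', hQ'⟩ := exists_place_of_ringHom Lh hnf hπ0 hres φ hφ
  -- the value of `φ` on the test functions
  have hφtest : ∀ (g : F₁) (hg : g ∈ C) (hbg : b g ∈ Z) (c : k),
      resZ ⟨b g, hbg⟩ = algebraMap k κ c → φ ⟨g, hg⟩ = c := by
    intro g hg hbg c hc
    apply hinj
    rw [← hφx, hψ]
    exact hc
  -- vanishing of `φ` kills
  have hzero : ∀ x : C, φ x = 0 → b (x : F₁) ∈ Z.nonunits := by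
    intro x hx
    have h1 : resZ ⟨b x, hbC x x.2⟩ = 0 := by
      rw [← hψ, hφx, hx, map_zero]
    exact hker _ h1
  intro x hx
  apply hzero
  fin_cases v
  · -- the point lies on the component `0`: it is `Q₂`
    have hQQ : Q' = Q₂ := by
      refine place_eq_of_span (Dk := Dk) Q' Q₂ Sf hspan fun z hz => ?_
      obtain ⟨g, hg, hbg, c, c', e0, -, hc, hv2, -, -⟩ := htest z hz
      refine ⟨c, ?_, hv2⟩
      have h1 := hQ' ⟨g, hg⟩
      rw [hφtest g hg hbg c hc] at h1
      rw [← e0]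
      exact h1
    have h1 : IsValueAt Q₂ (D.res 0 ⟨x, Mod'.le₁ x x.2⟩) 0 :=
      isValueAt_zero_iff.mpr ((Mod'.mem_point_iff x).mp hx)
    have h2 := hQ' x
    rw [hQQ] at h2
    exact h2.unique h1
  · -- the point lies on the component `1`: it is `Q₁`
    have hQQ : Q' = Q₁ := by
      refine place_eq_of_span (Dk := Dk) Q' Q₁ Sf hspan fun z hz => ?_
      obtain ⟨g, hg, hbg, c, c', -, e1, hc, -, hv1, hcc⟩ := htest z hz
      refine ⟨c', ?_, hv1⟩
      have h1 := hQ' ⟨g, hg⟩
      rw [hφtest g hg hbg c hc] at h1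
      have h2 : IsValueAt Q' (z ^ q) c := by
        rw [← e1]
        exact h1
      have h3 := Fermat.Agent.BR.S0.SepModular.isValueAt_of_pow_char q Q' h2
      have h4 : (frobeniusEquiv k q).symm c = c' := by
        rw [hcc, ← frobenius_def, ← frobeniusEquiv_apply, RingEquiv.symm_apply_apply]
      rw [h4] at h3
      exact h3
    have h1 : IsValueAt Q₁ (D.res 1 ⟨x, Mod'.le₂ x x.2⟩) 0 :=
      isValueAt_zero_iff.mpr ((Mod'.mem_point_iff₂ x).mp hx)
    have h2 := hQ' x
    rw [hQQ] at h2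
    exact h2.unique h1

end Centre

end Fermat.Agent.BR3.PushCentre
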