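import Mathlib
import Fermat.Agent.BR3.VertLevelMem
import Fermat.Agent.BR3.VertCircle

/-!
# Program C, node (I7-ZE-B) part (ii), modular instance, first half: a function of main's model of
level `S` of `X₀(M q)` reduces on every circle of the annulus of a crossing `e` to its value at `e`

* `level_R_eq` : the level `S` of `annulusLevels_modular_final … e` is the local ring of the point
  of `crossingModel_modular_final … S e`;
* `not_isUnit_of_mem_point`, `isUnit_subtype_congr`;
* `exists_circleRes_eq_value` : for `y ∈ CS (M q) q (baseFin M q B) S` there is a constant `a ∈ B`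
  with `circleRes y = ā`, `ā` the value at `z₁ e` of `res₀ y` and at `z₂ e` of `res₁ y`.
-/

set_option autoImplicit false
set_option linter.unusedSectionVars false
set_option linter.style.haveILetI false
set_option synthInstance.maxHeartbeats 400000

noncomputable section

/- S36 build-time patch: file-local shortcut instances. They only shorten instance search;
each is the instance that the search finds anyway (reducible, same terms after unfolding). -/
local instance (priority := 100000) Fermat.Agent.BR3.FastInst.instAlgFullC_VertBetaValue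
    {k : Type*} [Field k] (N : ℕ) :
    Algebra k ↥(ModularCurve.modularFunctionFieldFullC k N) := inferInstance
local instance (priority := 100000) Fermat.Agent.BR3.FastInst.instFieldFullC_VertBetaValue
    {k : Type*} [Field k] (N : ℕ) :
    Field ↥(ModularCurve.modularFunctionFieldFullC k N) := inferInstance
local instance (priority := 100000) Fermat.Agent.BR3.FastInst.instAlgLaurent_VertBetaValue
    {k : Type*} [Field k] : Algebra k (LaurentSeries k) := inferInstance


namespace Fermat.Agent.BR3.VertBetaValue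

open AlgebraicCurve ModularCurve IsLocalRing Polynomial
open Fermat.Agent.Red Fermat.Agent.Val Fermat.Agent.X0 Fermat.Agent.BR.SS
open Fermat.Agent.BR.Circle
open Fermat.Agent.BR.S0 Fermat.Agent.BR.S0.RedModular Fermat.Agent.BR.S0.PointDict
open Fermat.Agent.BR.S0.Modular Fermat.Agent.BR.S0.CrossingFamilyAssembly
open Fermat.Agent.BR.Inst.Levels Fermat.Agent.BR.Inst.NormalModel Fermat.Agent.BR.Inst.LevelsInst
open Fermat.Agent.BR.Inst.NodeInstFinal Fermat.Agent.BR.Inst.AnnulusInst
open Fermat.Agent.BR.Inst.AnnulusInstFinal Fermat.Agent.BR.Kron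
open Fermat.Agent.BR3.FibreProd Fermat.Agent.BR.Inst.ChartInModel Fermat.Agent.BR.Inst.NormalGen
open Fermat.Agent.BR3.VertLevelMem

variable {M q : ℕ} [NeZero M] [hq : Fact q.Prime]
variable (B : ValuationSubring Kb) (hB : B.LiesOverPrime q) (hqM : ¬ q ∣ M)
  [IsAlgClosed (ResidueField B)]
  (hne : Nonempty (Crossing (chartDataModular B hB hqM)))
  (e : Crossing (chartDataModular B hB hqM))

local notation "kB" => ResidueField B

/-- main's crossing model of level `S` at the crossing `e` -/
abbrev modelAt (S : Finset Kb) :=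
  crossingModel_modular_final B hB hqM
    (Fermat.Agent.BR.S0.RedHyp.atlasHyp_modular B hB hqM
      (Fermat.Agent.BR.S0.GeomFinal.geomInputs_modular_final B hB hqM)) S e

set_option maxHeartbeats 4000000 in
/-- The level `S` of main's level data of the tube of `e` is the local ring of the point of the
crossing model of level `S`. -/
theorem level_R_eq (S : Finset Kb) :
    ((annulusLevels_modular_final B hB hqM hne e).level S).R = (modelAt B hB hqM e S).loc :=
  rfl

/-- A function of the point of a crossing model is a non-unit of the local ring of the point. -/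
theorem not_isUnit_of_mem_point {K F k : Type*} [Field K] [Field F] [Algebra K F] [Field k]
    {Ft₁ Ft₂ : Type*} [Field Ft₁] [Algebra k Ft₁] [Field Ft₂] [Algebra k Ft₂]
    {A : ValuationSubring K} {π : A →+* k} {O₁ O₂ : ValuationSubring F}
    {res₁ : O₁ →+* Ft₁} {res₂ : O₂ →+* Ft₂} {Q₁ : Place k Ft₁} {Q₂ : Place k Ft₂}
    {T : Set (Place K F)} {C : Subring F} {ϖ : K}
    (Mod : CrossingModel A π O₁ O₂ res₁ res₂ Q₁ Q₂ T C ϖ) {x : C} (hx : x ∈ Mod.point) :
    ¬ IsUnit (⟨x, Mod.le_loc x.2⟩ : Mod.loc) := by
  have h1 : (1 : C) ∉ Mod.point := (Ideal.ne_top_iff_one _).mp Mod.point_isPrime.ne_top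
  have hab : ((⟨x, Mod.le_loc x.2⟩ : Mod.loc) : F) * ((1 : C) : F) = (x : F) := by
    rw [OneMemClass.coe_one, mul_one]
  rw [Mod.isUnit_iff h1 hab, not_not]
  exact hx

/-- Units of equal subrings. -/
theorem isUnit_subtype_congr {F : Type*} [Field F] {R R' : Subring F} (h : R = R') {y : F}
    (hy : y ∈ R) : IsUnit (⟨y, hy⟩ : R) ↔ IsUnit (⟨y, h ▸ hy⟩ : R') := by
  subst h
  rfl

section Value

variable (a₀ : Kb)
  (ha1 : B.valuation (annulusLevels_modular_final B hB hqM hne e).core.thick < B.valuation a₀)
  (ha2 : B.valuation a₀ < 1)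

/-- **A function of the model of level `S` reduces on the circle of gauge `a₀` at `e` to its value
at the crossing `e`.** -/
theorem exists_circleRes_eq_value (S : Finset Kb) {y : Fb (M * q)}
    (hy : y ∈ CS (M * q) q (baseFin M q B) S) :
    ∃ (a : B) (hy' : y ∈ circleRing (annulusLevels_modular_final B hB hqM hne e).core a₀ ha1 ha2),
      circleRes (annulusLevels_modular_final B hB hqM hne e).core a₀ ha1 ha2 ⟨y, hy'⟩ =
        algebraMap kB (RatFunc kB) (residue B a) ∧
      IsValueAt (z₁ (chartDataModular B hB hqM) e)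
        ((compW B hB hqM 0).res ⟨y, (modelAt B hB hqM e S).le₁ y hy⟩) (residue B a) ∧
      IsValueAt (z₂ (chartDataModular B hB hqM) e)
        ((compW B hB hqM 1).res ⟨y, (modelAt B hB hqM e S).le₂ y hy⟩) (residue B a) := by
  set Mod := modelAt B hB hqM e S with hMod
  obtain ⟨a, haC, ha⟩ := Mod.fullRes ⟨y, hy⟩
  have hsub : (⟨y, hy⟩ : CS (M * q) q (baseFin M q B) S) - ⟨algebraMap Kb (Fb (M * q)) a, haC⟩ ∈
      Mod.point := by
    rw [Mod.mem_point_iff]
    have e1 : (⟨(((⟨y, hy⟩ : CS (M * q) q (baseFin M q B) S) -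
        ⟨algebraMap Kb (Fb (M * q)) a, haC⟩ : CS (M * q) q (baseFin M q B) S) : Fb (M * q)),
        Mod.le₁ _ (Subtype.coe_prop _)⟩ : (compW B hB hqM 0).O) =
        ⟨y, Mod.le₁ y hy⟩ - ⟨algebraMap Kb (Fb (M * q)) a, Mod.le₁ _ haC⟩ := rfl
    rw [e1, map_sub, (compW B hB hqM 0).res_algebraMap (a : Kb) a.2]
    exact ha
  have hsub2 := (Mod.mem_point_iff₂ _).mp hsub
  have e2 : (⟨(((⟨y, hy⟩ : CS (M * q) q (baseFin M q B) S) -
      ⟨algebraMap Kb (Fb (M * q)) a, haC⟩ : CS (M * q) q (baseFin M q B) S) : Fb (M * q)),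
      Mod.le₂ _ (Subtype.coe_prop _)⟩ : (compW B hB hqM 1).O) =
      ⟨y, Mod.le₂ y hy⟩ - ⟨algebraMap Kb (Fb (M * q)) a, Mod.le₂ _ haC⟩ := rfl
  rw [e2, map_sub, (compW B hB hqM 1).res_algebraMap (a : Kb) a.2] at hsub2
  -- the non-unit of the level
  have hnu := not_isUnit_of_mem_point Mod hsub
  have hRS := level_R_eq B hB hqM hne e S
  have hyL : y ∈ ((annulusLevels_modular_final B hB hqM hne e).level S).R :=
    CS_le_level B hB hqM hne e S hy
  have haL : algebraMap Kb (Fb (M * q)) a ∈
      ((annulusLevels_modular_final B hB hqM hne e).level S).R :=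
    CS_le_level B hB hqM hne e S haC
  have hnuL : ¬ IsUnit ((⟨y, hyL⟩ : ((annulusLevels_modular_final B hB hqM hne e).level S).R) -
      ⟨algebraMap Kb (Fb (M * q)) a, haL⟩) := by
    have h3 := isUnit_subtype_congr hRS (sub_mem hyL haL)
    intro hu
    exact hnu (h3.mp hu)
  have hred := Fermat.Agent.BR3.VertCircle.isRed_of_sub_const_not_isUnit
    (annulusLevels_modular_final B hB hqM hne e) a₀ S hyL a.2 haL hnuL
  refine ⟨a, ⟨_, hred⟩, ?_, ha, hsub2⟩
  exact circleRes_eq _ a₀ ha1 ha2 hred

end Value

end Fermat.Agent.BR3.VertBetaValue
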