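import Mathlib
import Fermat.Agent.BR3.PushCentre
import Fermat.Agent.BR3.CircleCentre
import Fermat.Agent.BR3.VertBetaValue
import Fermat.Agent.BR2.G3PrepCross

/-!
# Program C, node (I7-ZE-B) part (ii), modular instance: the centre of `Z.comap β₂` on main's
models of `X₀(M q)` is the point of the swapped crossing

`e` a crossing of main's two-component model of `X₀(M q)`, `L := annulusLevels_modular_final … e`,
`Z ⊆ Fb (M q q)` a valuation ring with `Z.comap α₂ = circleRing L.core a₀` and residue map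
compatible with `circleRes` (the vertical component `z e` of `VertMain.exists_vertComponent_main'`).
For every crossing `e'` with `z₁ e' = z₂ e`, `z₂ e' = z₁ e` (the swap of the two branches) the ring
`Z.comap β₂` contains and dominates every level ring of `annulusLevels_modular_final … e'`:
the fields `le`, `nonunit` of `CircleChar.CircleHyp`.

The two degeneracy maps enter through abstract ring homomorphisms `al`, `bt` (constants fixed,
fibre square `al ∘ β₁ = bt ∘ α₁`), so that no goal mentions the coercion of `alpha2`, `beta2`.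
-/

set_option autoImplicit false
set_option linter.unusedSectionVars false
set_option linter.style.haveILetI false
set_option synthInstance.maxHeartbeats 400000

noncomputable section

/- S36 build-time patch: file-local shortcut instances. They only shorten instance search;
each is the instance that the search finds anyway (reducible, same terms after unfolding). -/
local instance (priority := 100000) Fermat.Agent.BR3.FastInst.instAlgFullC_VertBetaCentre
    {k : Type*} [Field k] (N : ℕ) :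
    Algebra k ↥(ModularCurve.modularFunctionFieldFullC k N) := inferInstance
local instance (priority := 100000) Fermat.Agent.BR3.FastInst.instFieldFullC_VertBetaCentre
    {k : Type*} [Field k] (N : ℕ) :
    Field ↥(ModularCurve.modularFunctionFieldFullC k N) := inferInstance
local instance (priority := 100000) Fermat.Agent.BR3.FastInst.instAlgLaurent_VertBetaCentre
    {k : Type*} [Field k] : Algebra k (LaurentSeries k) := inferInstance


namespace Fermat.Agent.BR3.VertBetaCentre

open AlgebraicCurve ModularCurve IsLocalRing Polynomial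
open Fermat.Agent.Red Fermat.Agent.Val Fermat.Agent.X0 Fermat.Agent.BR.SS
open Fermat.Agent.BR.Circle
open Fermat.Agent.BR.S0 Fermat.Agent.BR.S0.RedModular Fermat.Agent.BR.S0.PointDict
open Fermat.Agent.BR.S0.Modular Fermat.Agent.BR.S0.CrossingFamilyAssembly
open Fermat.Agent.BR.Inst.Levels Fermat.Agent.BR.Inst.NormalModel Fermat.Agent.BR.Inst.LevelsInst
open Fermat.Agent.BR.Inst.NodeInstFinal Fermat.Agent.BR.Inst.AnnulusInst
open Fermat.Agent.BR.Inst.AnnulusInstFinal Fermat.Agent.BR.Kron
open Fermat.Agent.BR3.FibreProd Fermat.Agent.BR.Inst.ChartInModel Fermat.Agent.BR.Inst.NormalGen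
open Fermat.Agent.BR3.VertLevelMem Fermat.Agent.BR3.VertBetaValue
open ModularCurve.IgusaScheme Fermat.Agent.Hecke Fermat.Agent.BR.ResGen
open Fermat.Agent.Good.Bridge Fermat.Agent.BR.Inst.SpecIso Fermat.Agent.Igusa

/-- In a valuation ring, a nonzero element is a non-unit iff its inverse is not in the ring. -/
theorem mem_nonunits_iff_inv_notMem {F : Type*} [Field F] (O : ValuationSubring F) {y : F}
    (hy : y ≠ 0) : y ∈ O.nonunits ↔ y⁻¹ ∉ O := by
  rw [ValuationSubring.mem_nonunits_iff, ← O.valuation_le_one_iff, map_inv₀, not_le,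
    one_lt_inv₀ (zero_lt_iff.mpr ((Valuation.ne_zero_iff _).mpr hy))]

/-- Non-units of a pull-back valuation ring. -/
theorem mem_nonunits_comap_iff {F₁ F₂ : Type*} [Field F₁] [Field F₂] (f : F₁ →+* F₂)
    (Z : ValuationSubring F₂) (x : F₁) : x ∈ (Z.comap f).nonunits ↔ f x ∈ Z.nonunits := by
  rcases eq_or_ne x 0 with rfl | hx
  · rw [map_zero, ValuationSubring.mem_nonunits_iff, ValuationSubring.mem_nonunits_iff, map_zero,
      map_zero]
    exact ⟨fun _ => zero_lt_one, fun _ => zero_lt_one⟩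
  · have hfx : f x ≠ 0 := (_root_.map_ne_zero f).mpr hx
    rw [mem_nonunits_iff_inv_notMem _ hx, mem_nonunits_iff_inv_notMem _ hfx,
      ValuationSubring.mem_comap, map_inv₀]

variable {M q : ℕ} [NeZero M] [hq : Fact q.Prime]
variable (B : ValuationSubring Kb) (hB : B.LiesOverPrime q) (hqM : ¬ q ∣ M)
  [IsAlgClosed (ResidueField B)]
  (hne : Nonempty (Crossing (chartDataModular B hB hqM)))
  (e : Crossing (chartDataModular B hB hqM))

local notation "kB" => ResidueField B

section Main

variable (a₀ : Kb)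
  (ha1 : B.valuation (annulusLevels_modular_final B hB hqM hne e).core.thick < B.valuation a₀)
  (ha2 : B.valuation a₀ < 1)
  {κ : Type*} [Field κ] (φ₀ : RatFunc (ResidueField B) →+* κ)
  (Z : ValuationSubring (Fb (M * q * q))) (resZ : Z →+* κ)
  (al bt : Fb (M * q) →+* Fb (M * q * q))
  (hcomap : Z.comap al =
    circleRing (annulusLevels_modular_final B hB hqM hne e).core a₀ ha1 ha2)
  (hcompat : ∀ (y : circleRing (annulusLevels_modular_final B hB hqM hne e).core a₀ ha1 ha2)
    (h : al (y : Fb (M * q)) ∈ Z),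
    resZ ⟨al (y : Fb (M * q)), h⟩ =
      φ₀ (circleRes (annulusLevels_modular_final B hB hqM hne e).core a₀ ha1 ha2 y))

include hcomap in
theorem al_mem_of_mem_circleRing {y : Fb (M * q)}
    (hy : y ∈ circleRing (annulusLevels_modular_final B hB hqM hne e).core a₀ ha1 ha2) :
    al y ∈ Z := by
  rw [← hcomap, ValuationSubring.mem_comap] at hy
  exact hy

include hcomap hcompat in
/-- the residue on `Z` of `α₂ y`, `y` in the model of level `S`, is the value of `y` at `e` -/
theorem exists_resZ_al_eq_value (S : Finset Kb) {y : Fb (M * q)}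
    (hy : y ∈ CS (M * q) q (baseFin M q B) S) :
    ∃ (a : B) (h : al y ∈ Z),
      resZ ⟨al y, h⟩ = φ₀ (algebraMap (ResidueField B) (RatFunc (ResidueField B)) (residue B a)) ∧
      IsValueAt (z₁ (chartDataModular B hB hqM) e)
        ((compW B hB hqM 0).res ⟨y, (modelAt B hB hqM e S).le₁ y hy⟩) (residue B a) ∧
      IsValueAt (z₂ (chartDataModular B hB hqM) e)
        ((compW B hB hqM 1).res ⟨y, (modelAt B hB hqM e S).le₂ y hy⟩) (residue B a) := by
  obtain ⟨a, hy', h1, h2, h3⟩ := exists_circleRes_eq_value B hB hqM hne e a₀ ha1 ha2 S hy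
  have hZ := al_mem_of_mem_circleRing B hB hqM hne e a₀ ha1 ha2 Z al hcomap hy'
  refine ⟨a, hZ, ?_, h2, h3⟩
  rw [← h1]
  exact hcompat ⟨y, hy'⟩ hZ

section Centre

variable (e' : Crossing (chartDataModular B hB hqM))
  (h1 : z₁ (chartDataModular B hB hqM) e' = z₂ (chartDataModular B hB hqM) e)
  (h2 : z₂ (chartDataModular B hB hqM) e' = z₁ (chartDataModular B hB hqM) e)
  (hal : ∀ c : Kb, al (algebraMap Kb (Fb (M * q)) c) = algebraMap Kb (Fb (M * q * q)) c)
  (hbt : ∀ c : Kb, bt (algebraMap Kb (Fb (M * q)) c) = algebraMap Kb (Fb (M * q * q)) c)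
  (hsq : ∀ x : Fb M, al (heckeBetaBar Kb M q x) = bt (heckeAlphaBar Kb M q x))
  (hker : ∀ z : Z, resZ z = 0 → (z : Fb (M * q * q)) ∈ Z.nonunits)

include hcomap hcompat hal hbt in
/-- the residue on `Z` of `β₂` of a constant -/
theorem exists_resZ_bt_const (a : B) :
    ∃ h : bt (algebraMap Kb (Fb (M * q)) (a : Kb)) ∈ Z,
      resZ ⟨bt (algebraMap Kb (Fb (M * q)) (a : Kb)), h⟩ =
        φ₀ (algebraMap (ResidueField B) (RatFunc (ResidueField B)) (residue B a)) := by
  have hmem : algebraMap Kb (Fb (M * q)) (a : Kb) ∈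
      circleRing (annulusLevels_modular_final B hB hqM hne e).core a₀ ha1 ha2 :=
    (algebraMap_mem_circleRing_iff _ a₀ ha1 ha2 _).mpr a.2
  have hZ := al_mem_of_mem_circleRing B hB hqM hne e a₀ ha1 ha2 Z al hcomap hmem
  have e1 : bt (algebraMap Kb (Fb (M * q)) (a : Kb)) = al (algebraMap Kb (Fb (M * q)) (a : Kb)) :=
    (hbt _).trans (hal _).symm
  have hZ' : bt (algebraMap Kb (Fb (M * q)) (a : Kb)) ∈ Z := by
    rw [e1]
    exact hZ
  refine ⟨hZ', ?_⟩
  have e2 : (⟨bt (algebraMap Kb (Fb (M * q)) (a : Kb)), hZ'⟩ : Z) =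
      ⟨al (algebraMap Kb (Fb (M * q)) (a : Kb)), hZ⟩ := Subtype.ext e1
  rw [e2, hcompat ⟨_, hmem⟩ hZ, circleRes_algebraMap _ a₀ ha1 ha2 (a : Kb) a.2]

include hcomap hcompat hal hbt hsq in
/-- `β₂` maps the base ring `W_S[j]` into `Z`, with constant residues -/
theorem exists_resZ_bt_base (S : Finset Kb) :
    ∀ r ∈ baseFin M q B S, ∃ (h : bt r ∈ Z) (c : ResidueField B),
      resZ ⟨bt r, h⟩ = φ₀ (algebraMap (ResidueField B) (RatFunc (ResidueField B)) c) := by
  intro r hr
  refine Subring.closure_induction (p := fun r _ => ∃ (h : bt r ∈ Z) (c : ResidueField B),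
      resZ ⟨bt r, h⟩ = φ₀ (algebraMap (ResidueField B) (RatFunc (ResidueField B)) c))
    ?_ ?_ ?_ ?_ ?_ ?_ hr
  · rintro x (⟨a, ha, rfl⟩ | hx)
    · obtain ⟨h, hh⟩ := exists_resZ_bt_const B hB hqM hne e a₀ ha1 ha2 φ₀ Z resZ al bt hcomap
        hcompat hal hbt ⟨a, (mem_WS_iff.mp ha).1⟩
      exact ⟨h, _, hh⟩
    · rw [Set.mem_singleton_iff] at hx
      subst hx
      have e1 : bt (jBar (M * q)) = al (jq' M q) := by
        rw [← Fermat.Agent.BR.Inst.DegenModel.alpha_jBar, ← hsq,
          Fermat.Agent.BR.Inst.DegenModel.beta_jBar]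
        rfl
      obtain ⟨a, h, hh, -, -⟩ := exists_resZ_al_eq_value B hB hqM hne e a₀ ha1 ha2 φ₀ Z resZ al
        hcomap hcompat S (jq'_mem_CS B hB S)
      have hZ' : bt (jBar (M * q)) ∈ Z := by
        rw [e1]
        exact h
      refine ⟨hZ', residue B a, ?_⟩
      have e2 : (⟨bt (jBar (M * q)), hZ'⟩ : Z) = ⟨al (jq' M q), h⟩ := Subtype.ext e1
      rw [e2, hh]
  · refine ⟨by rw [map_zero]; exact Z.zero_mem, 0, ?_⟩
    have e2 : (⟨bt 0, by rw [map_zero]; exact Z.zero_mem⟩ : Z) = 0 := Subtype.ext (map_zero bt)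
    rw [e2, map_zero, map_zero, map_zero]
  · refine ⟨by rw [map_one]; exact Z.one_mem, 1, ?_⟩
    have e2 : (⟨bt 1, by rw [map_one]; exact Z.one_mem⟩ : Z) = 1 := Subtype.ext (map_one bt)
    rw [e2, map_one, map_one, map_one]
  · rintro x y _ _ ⟨hx, cx, hcx⟩ ⟨hy, cy, hcy⟩
    have hxy : bt (x + y) ∈ Z := by
      rw [map_add]
      exact Z.add_mem _ _ hx hy
    refine ⟨hxy, cx + cy, ?_⟩
    have e2 : (⟨bt (x + y), hxy⟩ : Z) = ⟨bt x, hx⟩ + ⟨bt y, hy⟩ := Subtype.ext (map_add bt x y)
    rw [e2, map_add, hcx, hcy, map_add, map_add]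
  · rintro x _ ⟨hx, cx, hcx⟩
    have hnx : bt (-x) ∈ Z := by
      rw [map_neg]
      exact Z.neg_mem _ hx
    refine ⟨hnx, -cx, ?_⟩
    have e2 : (⟨bt (-x), hnx⟩ : Z) = -⟨bt x, hx⟩ := Subtype.ext (map_neg bt x)
    rw [e2, map_neg, hcx, map_neg, map_neg]
  · rintro x y _ _ ⟨hx, cx, hcx⟩ ⟨hy, cy, hcy⟩
    have hxy : bt (x * y) ∈ Z := by
      rw [map_mul]
      exact Z.mul_mem _ _ hx hy
    refine ⟨hxy, cx * cy, ?_⟩
    have e2 : (⟨bt (x * y), hxy⟩ : Z) = ⟨bt x, hx⟩ * ⟨bt y, hy⟩ := Subtype.ext (map_mul bt x y)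
    rw [e2, map_mul, hcx, hcy, map_mul, map_mul]

include hcomap hcompat hal hbt hsq hker h1 h2 in
set_option maxHeartbeats 1600000 in
/-- **The centre of `Z.comap β₂` on main's model of level `S` is the point of the swapped
crossing `e'`.** -/
theorem bt_centre (S : Finset Kb) :
    (∀ x ∈ CS (M * q) q (baseFin M q B) S, bt x ∈ Z) ∧
      ∀ x : CS (M * q) q (baseFin M q B) S, x ∈ (modelAt B hB hqM e' S).point →
        bt (x : Fb (M * q)) ∈ Z.nonunits := by
  haveI : CharP (ResidueField B) q := Val.charP_residueField_of_liesOverPrime B hB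
  haveI := Fermat.Agent.BR.Inst.SpecIso.isDedekindDomain_Ck B hB hqM
  haveI := Fermat.Agent.BR.S0.SepModular.isFractionRing_Ck B hB hqM
  haveI : IsScalarTower (ResidueField B) ↥(Ck M B)
      ↥(modularFunctionFieldFullC (ResidueField B) M) :=
    IsScalarTower.of_algebraMap_eq (fun _ => rfl)
  letI : Algebra (ResidueField B) κ :=
    (φ₀.comp (algebraMap (ResidueField B) (RatFunc (ResidueField B)))).toAlgebra
  have Lh := Fermat.Agent.BR.S0.GeomModular.levelHyp_fin (levelHyp_tower B hB hqM S)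
  refine Fermat.Agent.BR3.PushCentre.push_centre (Dk := ↥(Ck M B)) q Lh
    (Fermat.Agent.BR.Inst.SpecIso.not_isField_Ck B hB hqM) ?_
    (fun v => (compW B hB hqM v).res_algebraMap) bt Z resZ hker ?_ (baseFin M q B S)
    (fun x hx => hx.2) ?_
    {z | ∃ (b : ↥(modularFunctionFieldFull M)) (_ : b ∈ chartAlgFin M q)
      (hO : barEmb M b ∈ Fermat.Agent.BR.ResGen.OM M B hB),
      redMF B hB hqM ⟨barEmb M b, hO⟩ = z}
    (Fermat.Agent.BR.S0.SepModular.mem_span_redMF B hB hqM) ?_ (modelAt B hB hqM e' S)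
  · intro a ha
    rw [residue_eq_zero_iff]
    exact (B.valuation_lt_one_iff _).mpr ha
  · intro a
    exact exists_resZ_bt_const B hB hqM hne e a₀ ha1 ha2 φ₀ Z resZ al bt hcomap hcompat hal hbt a
  · exact exists_resZ_bt_base B hB hqM hne e a₀ ha1 ha2 φ₀ Z resZ al bt hcomap hcompat hal hbt
      hsq S
  · rintro z ⟨b, hb, hO, rfl⟩
    have hg : heckeAlphaBar Kb M q (barEmb M b) ∈ CS (M * q) q (baseFin M q B) S :=
      Fermat.Agent.BR.Inst.ChartInLevels.chartFin_le_CS B hB S (Fermat.Agent.BR.S0.SepModular.alpha_barEmb_mem_chartFin hb)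
    have hg' : heckeBetaBar Kb M q (barEmb M b) ∈ CS (M * q) q (baseFin M q B) S :=
      Fermat.Agent.BR.Inst.ChartInLevels.chartFin_le_CS B hB S (Fermat.Agent.BR.S0.SepModular.beta_barEmb_mem_chartFin hb)
    obtain ⟨a, h, hh, -, hv2⟩ := exists_resZ_al_eq_value B hB hqM hne e a₀ ha1 ha2 φ₀ Z resZ al
      hcomap hcompat S hg'
    obtain ⟨c₁, c₂, k1, k2, e21, -⟩ :=
      Fermat.Agent.BR2.G3PrepCross.exists_values_of_gluedF B hB hqM
        (glued (chartDataModular B hB hqM) e) hb hO
    have e22 := Fermat.Agent.BR2.G3PrepCross.compW_one_res_beta B hB hqM hb hO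
    have hv2' : IsValueAt (z₂ (chartDataModular B hB hqM) e)
        (redMF B hB hqM ⟨barEmb M b, hO⟩ : ↥(modularFunctionFieldFullC (ResidueField B) M))
        (residue B a) := by
      rw [← e22]
      exact hv2
    have hc2 : c₂ = residue B a := k2.unique hv2'
    have e1 : bt (heckeAlphaBar Kb M q (barEmb M b)) = al (heckeBetaBar Kb M q (barEmb M b)) :=
      (hsq _).symm
    have hZ' : bt (heckeAlphaBar Kb M q (barEmb M b)) ∈ Z := by
      rw [e1]
      exact h
    refine ⟨_, hg, hZ', residue B a, c₁, ?_, ?_, ?_, ?_, ?_, ?_⟩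
    · exact Fermat.Agent.BR2.G3PrepCross.compW_zero_res_alpha B hB hqM hb hO
    · exact Fermat.Agent.BR2.G3PrepCross.compW_one_res_alpha B hB hqM hb hO
    · have e2 : (⟨bt (heckeAlphaBar Kb M q (barEmb M b)), hZ'⟩ : Z) =
          ⟨al (heckeBetaBar Kb M q (barEmb M b)), h⟩ := Subtype.ext e1
      rw [e2, hh]
      rfl
    · rw [h1]
      exact hv2'
    · rw [h2]
      exact k1
    · rw [← hc2]
      exact e21

include hcomap hcompat hal hbt hsq hker h1 h2 in
/-- **Field `le` of `CircleChar.CircleHyp` for `Z.comap β₂` at the swapped crossing `e'`**: the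
pull-back of `Z` along `β₂` contains every level ring of main's level data of the tube of `e'`. -/
theorem comap_bt_le (S : Finset Kb) :
    ∀ y ∈ ((annulusLevels_modular_final B hB hqM hne e').level S).R, y ∈ Z.comap bt := by
  obtain ⟨hC, hpt⟩ := bt_centre B hB hqM hne e a₀ ha1 ha2 φ₀ Z resZ al bt hcomap hcompat e' h1 h2
    hal hbt hsq hker S
  intro y hy
  rw [level_R_eq B hB hqM hne e' S] at hy
  refine Fermat.Agent.BR3.CircleCentre.loc_le_of_point (modelAt B hB hqM e' S) (Z.comap bt)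
    (fun c hc => ?_) (compW B hB hqM 0).res_algebraMap
    (Fermat.Agent.BR.Inst.NodeInst.inv_mem_of_residue_ne_zero B) (fun x hx => ?_)
    (fun x hx => ?_) y hy
  · rw [ValuationSubring.mem_comap]
    exact (exists_resZ_bt_const B hB hqM hne e a₀ ha1 ha2 φ₀ Z resZ al bt hcomap hcompat hal hbt
      ⟨c, hc⟩).1
  · rw [ValuationSubring.mem_comap]
    exact hC x hx
  · rw [mem_nonunits_comap_iff]
    exact hpt x hx

include hcomap hcompat hal hbt hsq hker h1 h2 in
/-- **Field `nonunit` of `CircleChar.CircleHyp` for `Z.comap β₂` at the swapped crossing `e'`**: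
the pull-back of `Z` along `β₂` dominates every level ring of main's level data of the tube of
`e'`. -/
theorem comap_bt_nonunit (S : Finset Kb)
    (y : ((annulusLevels_modular_final B hB hqM hne e').level S).R) (hy : ¬ IsUnit y) :
    (y : Fb (M * q)) ∈ (Z.comap bt).nonunits := by
  obtain ⟨hC, hpt⟩ := bt_centre B hB hqM hne e a₀ ha1 ha2 φ₀ Z resZ al bt hcomap hcompat e' h1 h2
    hal hbt hsq hker S
  have hRS := level_R_eq B hB hqM hne e' S
  have hy' : ¬ IsUnit (⟨(y : Fb (M * q)), hRS ▸ y.2⟩ : (modelAt B hB hqM e' S).loc) := by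
    intro hu
    exact hy ((isUnit_subtype_congr hRS y.2).mpr hu)
  refine Fermat.Agent.BR3.CircleCentre.loc_nonunit_of_point (modelAt B hB hqM e' S) (Z.comap bt)
    (fun c hc => ?_) (compW B hB hqM 0).res_algebraMap
    (Fermat.Agent.BR.Inst.NodeInst.inv_mem_of_residue_ne_zero B)
    (fun x hx => ?_) ⟨(y : Fb (M * q)), hRS ▸ y.2⟩ hy'
  · rw [ValuationSubring.mem_comap]
    exact (exists_resZ_bt_const B hB hqM hne e a₀ ha1 ha2 φ₀ Z resZ al bt hcomap hcompat hal hbt
      ⟨c, hc⟩).1
  · rw [mem_nonunits_comap_iff]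
    exact hpt x hx

end Centre

end Main

end Fermat.Agent.BR3.VertBetaCentre
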