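import Fermat.Agent.BR3.VertAll
import Fermat.Agent.BR3.SSParam

/-!
# Program C (S36), node (I5-GLUE): wrappers of `VertAll.exists_vertComponent_all`

* `vg_mem_O1`, `ug_mem_O2` : the memberships `hxO`, `hyO`;
* `gauge_bounds` : a gauge `|a₀|^(q+1) = |q|` lies strictly between the thickness of the tube of
  `e` and `1`;
* `exists_vertComponent_all_gauge` : `exists_vertComponent_all` with the gauge as an ARGUMENT;
* `exists_vertComponent_of_param`, `exists_vertComponent_of_param_gauge` : the same from the single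
  input `SSParam.IsSSParam B hB hqM e g g' g''` (helper29's shared structure).
-/

set_option autoImplicit false
set_option linter.unusedSectionVars false
set_option linter.style.haveILetI false
set_option synthInstance.maxHeartbeats 400000

noncomputable section

/- S36 build-time patch: file-local shortcut instances. They only shorten instance search;
each is the instance that the search finds anyway (reducible, same terms after unfolding). -/
local instance (priority := 100000) Fermat.Agent.BR3.FastInst.instAlgFullC_VertAllParam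
    {k : Type*} [Field k] (N : ℕ) :
    Algebra k ↥(ModularCurve.modularFunctionFieldFullC k N) := inferInstance
local instance (priority := 100000) Fermat.Agent.BR3.FastInst.instFieldFullC_VertAllParam
    {k : Type*} [Field k] (N : ℕ) :
    Field ↥(ModularCurve.modularFunctionFieldFullC k N) := inferInstance
local instance (priority := 100000) Fermat.Agent.BR3.FastInst.instAlgLaurent_VertAllParam
    {k : Type*} [Field k] : Algebra k (LaurentSeries k) := inferInstance


namespace Fermat.Agent.BR3.VertAllParam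

open Polynomial ModularCurve AlgebraicCurve IsLocalRing
open Fermat.Agent.X0 Fermat.Agent.Val Fermat.Agent.Red Fermat.Agent.Hecke
open Fermat.Agent.BR.SS Fermat.Agent.BR.Refine Fermat.Agent.BR.TwoVal Fermat.Agent.BR.TwoValInst
open Fermat.Agent.BR.ResGen
open Fermat.Agent.BR.Circle Fermat.Agent.BR.S0 Fermat.Agent.BR.S0.RedModular
open Fermat.Agent.BR.S0.PointDict Fermat.Agent.BR.S0.AnnulusChartOfLevels
open Fermat.Agent.BR.S0.Modular Fermat.Agent.BR.S0.ThickFinal
open Fermat.Agent.BR.Inst.Levels Fermat.Agent.BR.Inst.NormalModel Fermat.Agent.BR.Inst.LevelsInst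
open Fermat.Agent.BR.Inst.SpecIso
open Fermat.Agent.BR.Inst.AnnulusInstFinal Fermat.Agent.BR.Final
open Fermat.Agent.BR3.FibreProd Fermat.Agent.BR3.VertResidue Fermat.Agent.BR3.HeckePoly
open Fermat.Agent.BR3.HeckePolyKron Fermat.Agent.BR3.HeckePolyModel
open Fermat.Agent.BR3.HeckePolyDescent
open Fermat.Agent.BR3.VertCircleMod Fermat.Agent.BR3.VertLevelMem Fermat.Agent.BR3.VertFinal
open Fermat.Agent.BR3.VertTube Fermat.Agent.BR3.VertAllLevels Fermat.Agent.BR3.VertAll
open Fermat.Agent.BR3.ThickOneFinal Fermat.Agent.BR3.ThickOneUnit Fermat.Agent.BR3.SSParam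

variable {M q : ℕ} [NeZero M] [hq : Fact q.Prime]
variable (B : ValuationSubring Kb) (hB : B.LiesOverPrime q) (hqM : ¬ q ∣ M)

local notation "kB" => ResidueField B

/-! ### The memberships `hxO`, `hyO` -/

/-- `v_g = α g - (β g')^q` is integral on the component `'can'`. -/
theorem vg_mem_O1 {g g' : Fb M} (hg : g ∈ OM M B hB) (hg' : g' ∈ OM M B hB) :
    heckeAlphaBar Kb M q g - (heckeBetaBar Kb M q g') ^ q ∈ (compW B hB hqM 0).O :=
  sub_mem ((alpha_mem_O1_iff B hB g).2 hg) (pow_mem ((beta_mem_O1_iff B hB g').2 hg') q)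

/-- `u_g = β g'' - (α g)^q` is integral on the component `'et'`. -/
theorem ug_mem_O2 {g g'' : Fb M} (hg : g ∈ OM M B hB) (hg'' : g'' ∈ OM M B hB) :
    heckeBetaBar Kb M q g'' - (heckeAlphaBar Kb M q g) ^ q ∈ (compW B hB hqM 1).O :=
  sub_mem ((beta_mem_O2_iff B hB hqM g'').2 hg'') (pow_mem ((alpha_mem_O2_iff B hB hqM g).2 hg) q)

section Final

variable [IsAlgClosed (ResidueField B)]
  (hne : Nonempty (Crossing (chartDataModular B hB hqM)))
  (e : Crossing (chartDataModular B hB hqM))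

/-- A gauge `|a₀|^(q+1) = |q|` lies strictly between the thickness of the tube of `e` and `1`. -/
theorem gauge_bounds (h2 : nuTwo M = 0) (h3 : nuThree M = 0) {a₀ : Kb}
    (ha₀ : B.valuation a₀ ^ (q + 1) = B.valuation (q : Kb)) :
    B.valuation (annulusLevels_modular_final B hB hqM hne e).core.thick < B.valuation a₀ ∧
      B.valuation a₀ < 1 := by
  have hthick := valuation_thick_levels_final B hB hqM h2 h3 hne e
  have hq0 : (q : Kb) ≠ 0 := Nat.cast_ne_zero.mpr hq.out.ne_zero
  have hq1 : B.valuation (q : Kb) < 1 := (B.mem_nonunits_iff).1 hB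
  have ha0 : a₀ ≠ 0 := by
    rintro rfl
    rw [map_zero, zero_pow (Nat.succ_ne_zero q)] at ha₀
    exact hq0 ((map_eq_zero _).mp ha₀.symm)
  have hpos : 0 < B.valuation a₀ := by
    rw [zero_lt_iff, ne_eq, map_eq_zero]; exact ha0
  have hlt1 : B.valuation a₀ < 1 := by
    by_contra h
    have h1 : 1 ≤ B.valuation a₀ := not_lt.mp h
    have h2 : 1 ≤ B.valuation a₀ ^ (q + 1) := one_le_pow₀ h1
    rw [ha₀] at h2
    exact absurd hq1 (not_lt.mpr h2)
  refine ⟨?_, hlt1⟩
  show B.valuation (annulusLevels_modular_final B hB hqM hne e).thick < B.valuation a₀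
  rw [hthick, ← ha₀, pow_succ]
  have hq1' : q ≠ 0 := hq.out.ne_zero
  calc B.valuation a₀ ^ q * B.valuation a₀ < 1 * B.valuation a₀ :=
        mul_lt_mul_of_pos_right (pow_lt_one₀ zero_le hlt1 hq1') hpos
    _ = B.valuation a₀ := one_mul _

variable [CharP (ResidueField B) q]

set_option maxHeartbeats 1600000 in
/-- **`VertAll.exists_vertComponent_all` with the gauge as an argument.** -/
theorem exists_vertComponent_all_gauge (h2 : nuTwo M = 0) (h3 : nuThree M = 0)
    {g g' g'' : Fb M}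
    (hg : g ∈ CMod M (W0 B q) (K0 q)) (hg' : g' ∈ CMod M (W0 B q) (K0 q))
    (hg'' : g'' ∈ CMod M (W0 B q) (K0 q))
    (h' : redMF B hB hqM ⟨g, mem_OM_of_mem_CMod (levelHyp_base B hB hqM) hg⟩ =
      frobAutFullC kB M q •
        redMF B hB hqM ⟨g', mem_OM_of_mem_CMod (levelHyp_base B hB hqM) hg'⟩)
    (h'' : redMF B hB hqM ⟨g'', mem_OM_of_mem_CMod (levelHyp_base B hB hqM) hg''⟩ =
      frobAutFullC kB M q •
        redMF B hB hqM ⟨g, mem_OM_of_mem_CMod (levelHyp_base B hB hqM) hg⟩)
    (hgc : g ∉ Set.range (algebraMap Kb (Fb M)))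
    (hxO : heckeAlphaBar Kb M q g - (heckeBetaBar Kb M q g') ^ q ∈ (compW B hB hqM 0).O)
    (hyO : heckeBetaBar Kb M q g'' - (heckeAlphaBar Kb M q g) ^ q ∈ (compW B hB hqM 1).O)
    (hxord : (z₁ (chartDataModular B hB hqM) e).ord
      ((compW B hB hqM 0).res ⟨_, hxO⟩) = 1)
    (hyord : (z₂ (chartDataModular B hB hqM) e).ord
      ((compW B hB hqM 1).res ⟨_, hyO⟩) = 1)
    (a₀ : Kb)
    (ha1 : B.valuation (annulusLevels_modular_final B hB hqM hne e).core.thick <
      B.valuation a₀) (ha2 : B.valuation a₀ < 1)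
    (ha₀ : B.valuation a₀ ^ (q + 1) = B.valuation (q : Kb)) :
    ∃ β : kB, β ≠ 0 ∧ ∃ ρ : kB, ρ ≠ 0 ∧
      ∃ (Z : ValuationSubring (Fb (M * q * q))) (resZ : Z →+* AdjoinRoot (vertBar q β ρ)),
        Z.comap (alpha2 M q : Fb (M * q) →+* Fb (M * q * q)) =
          circleRing (annulusLevels_modular_final B hB hqM hne e).core a₀ ha1 ha2 ∧
        (∀ Z' : ValuationSubring (Fb (M * q * q)),
          Z'.comap (alpha2 M q : Fb (M * q) →+* Fb (M * q * q)) =
            circleRing (annulusLevels_modular_final B hB hqM hne e).core a₀ ha1 ha2 → Z' = Z) ∧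
        Function.Surjective resZ ∧ (∀ z : Z, resZ z = 0 ↔ ¬ IsUnit z) ∧
        (∀ (y : circleRing (annulusLevels_modular_final B hB hqM hne e).core a₀ ha1 ha2)
          (h : alpha2 M q (y : Fb (M * q)) ∈ Z),
          resZ ⟨alpha2 M q (y : Fb (M * q)), h⟩ =
            AdjoinRoot.of (vertBar q β ρ)
              (circleRes (annulusLevels_modular_final B hB hqM hne e).core a₀ ha1 ha2 y)) ∧
        ∃ hθ : Ug M q g / alpha2 M q (algebraMap Kb (Fb (M * q)) a₀) ∈ Z,
          resZ ⟨Ug M q g / alpha2 M q (algebraMap Kb (Fb (M * q)) a₀), hθ⟩ =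
            AdjoinRoot.root (vertBar q β ρ) := by
  obtain ⟨Ψ₁, hΨ, hP⟩ := exists_kronecker_PAt_q B hB hqM hg hg' hg'' h' h''
  have hgO := mem_OM_of_mem_CMod (levelHyp_base B hB hqM) hg
  have hg'O := mem_OM_of_mem_CMod (levelHyp_base B hB hqM) hg'
  have hg''O := mem_OM_of_mem_CMod (levelHyp_base B hB hqM) hg''
  have hαR := alpha_mem_level B hB hqM hne e hg
  have hβ'R := beta_mem_level B hB hqM hne e hg'
  have hβ''R := beta_mem_level B hB hqM hne e hg''
  have hΨR : ∀ k, Ψ₁.coeff k ∈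
      ((annulusLevels_modular_final B hB hqM hne e).level (∅ : Finset Kb)).R :=
    fun k => CQ0_le_level B hB hqM hne e (hΨ k)
  have hx : heckeAlphaBar Kb M q g - (heckeBetaBar Kb M q g') ^ q ∈
      ((annulusLevels_modular_final B hB hqM hne e).level (∅ : Finset Kb)).R :=
    sub_mem hαR (pow_mem hβ'R q)
  have hy : heckeBetaBar Kb M q g'' - (heckeAlphaBar Kb M q g) ^ q ∈
      ((annulusLevels_modular_final B hB hqM hne e).level (∅ : Finset Kb)).R :=
    sub_mem hβ''R (pow_mem hαR q)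
  have hz : Ψ₁.eval (heckeAlphaBar Kb M q g) ∈
      ((annulusLevels_modular_final B hB hqM hne e).level (∅ : Finset Kb)).R :=
    eval_mem_of_coeff_mem _ hΨR hαR
  have hxyz := vg_mul_ug (M := M) (q := q) hqM hP
  have hx₂ : heckeAlphaBar Kb M q g - (heckeBetaBar Kb M q g') ^ q ∈
      (compW B hB hqM 1).O.nonunits := vg_mem_nonunits_O2 B hB hqM hgO hg'O h'
  have hy₁ : heckeBetaBar Kb M q g'' - (heckeAlphaBar Kb M q g) ^ q ∈
      (compW B hB hqM 0).O.nonunits := ug_mem_nonunits_O1 B hB hqM hgO hg''O h''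
  have hR := isUnit_of_simple_zeros_final B hB hqM hne e h2 h3 hx hy hz hx₂ hy₁ hxO hyO
    hxord hyord hxyz
  have hq0 : ((q : ℕ) : Kb) ≠ 0 := Nat.cast_ne_zero.mpr hq.out.ne_zero
  obtain ⟨β, hβ, hred⟩ := exists_isRed_inv_smul_of_levels
    (branchData_modular_final B hB hqM hne e) a₀ ha1 ∅ hx hy hz hR hq0 hxyz hxord
  obtain ⟨ρ, hρ, Z, resZ, hZ⟩ := exists_vertComponent_of_levels_tw hqM
    (annulusLevels_modular_final B hB hqM hne e) a₀ ha1 ha2 ha₀ ∅ hgc hP hβ'R hαR hΨR hz hR
    hβ hred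
  exact ⟨β, hβ, ρ, hρ, Z, resZ, hZ⟩

/-- **The vertical component at the crossing `e` from a twisted triple with simple zeros**
(`SSParam.IsSSParam`), gauge given. -/
theorem exists_vertComponent_of_param_gauge (h2 : nuTwo M = 0) (h3 : nuThree M = 0)
    {g g' g'' : Fb M} (P : IsSSParam B hB hqM e g g' g'') (a₀ : Kb)
    (ha1 : B.valuation (annulusLevels_modular_final B hB hqM hne e).core.thick <
      B.valuation a₀) (ha2 : B.valuation a₀ < 1)
    (ha₀ : B.valuation a₀ ^ (q + 1) = B.valuation (q : Kb)) :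
    ∃ β : kB, β ≠ 0 ∧ ∃ ρ : kB, ρ ≠ 0 ∧
      ∃ (Z : ValuationSubring (Fb (M * q * q))) (resZ : Z →+* AdjoinRoot (vertBar q β ρ)),
        Z.comap (alpha2 M q : Fb (M * q) →+* Fb (M * q * q)) =
          circleRing (annulusLevels_modular_final B hB hqM hne e).core a₀ ha1 ha2 ∧
        (∀ Z' : ValuationSubring (Fb (M * q * q)),
          Z'.comap (alpha2 M q : Fb (M * q) →+* Fb (M * q * q)) =
            circleRing (annulusLevels_modular_final B hB hqM hne e).core a₀ ha1 ha2 → Z' = Z) ∧
        Function.Surjective resZ ∧ (∀ z : Z, resZ z = 0 ↔ ¬ IsUnit z) ∧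
        (∀ (y : circleRing (annulusLevels_modular_final B hB hqM hne e).core a₀ ha1 ha2)
          (h : alpha2 M q (y : Fb (M * q)) ∈ Z),
          resZ ⟨alpha2 M q (y : Fb (M * q)), h⟩ =
            AdjoinRoot.of (vertBar q β ρ)
              (circleRes (annulusLevels_modular_final B hB hqM hne e).core a₀ ha1 ha2 y)) ∧
        ∃ hθ : Ug M q g / alpha2 M q (algebraMap Kb (Fb (M * q)) a₀) ∈ Z,
          resZ ⟨Ug M q g / alpha2 M q (algebraMap Kb (Fb (M * q)) a₀), hθ⟩ =
            AdjoinRoot.root (vertBar q β ρ) :=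
  exists_vertComponent_all_gauge B hB hqM hne e h2 h3 P.hg P.hg' P.hg'' P.untwist P.twist
    P.nonconst
    (vg_mem_O1 B hB hqM (mem_OM_of_mem_CMod_base B hB hqM P.hg)
      (mem_OM_of_mem_CMod_base B hB hqM P.hg'))
    (ug_mem_O2 B hB hqM (mem_OM_of_mem_CMod_base B hB hqM P.hg)
      (mem_OM_of_mem_CMod_base B hB hqM P.hg''))
    (P.hxord _) (P.hyord _) a₀ ha1 ha2 ha₀

/-- **The vertical component at the crossing `e` from a twisted triple with simple zeros**
(`SSParam.IsSSParam`): the conclusion of `VertAll.exists_vertComponent_all`. -/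
theorem exists_vertComponent_of_param (h2 : nuTwo M = 0) (h3 : nuThree M = 0)
    {g g' g'' : Fb M} (P : IsSSParam B hB hqM e g g' g'') :
    ∃ (a₀ : Kb)
      (ha1 : B.valuation (annulusLevels_modular_final B hB hqM hne e).core.thick <
        B.valuation a₀) (ha2 : B.valuation a₀ < 1),
      B.valuation a₀ ^ (q + 1) = B.valuation (q : Kb) ∧
      ∃ β : kB, β ≠ 0 ∧ ∃ ρ : kB, ρ ≠ 0 ∧
      ∃ (Z : ValuationSubring (Fb (M * q * q))) (resZ : Z →+* AdjoinRoot (vertBar q β ρ)),
        Z.comap (alpha2 M q : Fb (M * q) →+* Fb (M * q * q)) =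
          circleRing (annulusLevels_modular_final B hB hqM hne e).core a₀ ha1 ha2 ∧
        (∀ Z' : ValuationSubring (Fb (M * q * q)),
          Z'.comap (alpha2 M q : Fb (M * q) →+* Fb (M * q * q)) =
            circleRing (annulusLevels_modular_final B hB hqM hne e).core a₀ ha1 ha2 → Z' = Z) ∧
        Function.Surjective resZ ∧ (∀ z : Z, resZ z = 0 ↔ ¬ IsUnit z) ∧
        (∀ (y : circleRing (annulusLevels_modular_final B hB hqM hne e).core a₀ ha1 ha2)
          (h : alpha2 M q (y : Fb (M * q)) ∈ Z),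
          resZ ⟨alpha2 M q (y : Fb (M * q)), h⟩ =
            AdjoinRoot.of (vertBar q β ρ)
              (circleRes (annulusLevels_modular_final B hB hqM hne e).core a₀ ha1 ha2 y)) ∧
        ∃ hθ : Ug M q g / alpha2 M q (algebraMap Kb (Fb (M * q)) a₀) ∈ Z,
          resZ ⟨Ug M q g / alpha2 M q (algebraMap Kb (Fb (M * q)) a₀), hθ⟩ =
            AdjoinRoot.root (vertBar q β ρ) :=
  exists_vertComponent_all B hB hqM hne e h2 h3 P.hg P.hg' P.hg'' P.untwist P.twist
    P.nonconst
    (vg_mem_O1 B hB hqM (mem_OM_of_mem_CMod_base B hB hqM P.hg)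
      (mem_OM_of_mem_CMod_base B hB hqM P.hg'))
    (ug_mem_O2 B hB hqM (mem_OM_of_mem_CMod_base B hB hqM P.hg)
      (mem_OM_of_mem_CMod_base B hB hqM P.hg''))
    (P.hxord _) (P.hyord _)

end Final

end Fermat.Agent.BR3.VertAllParam

end
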