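import Mathlib

/-!
# Program C (S36), node (I7-ZE-B), generic part 3: functions with constant residue

`f : F₁ →+* F₂` a homomorphism of fields, `Z` a valuation subring of `F₂` with a residue map
`res : Z →+* κ`, `ιk : k →+* κ` the constants of the residue field, `k` algebraically closed.

* `mem_comap_valuation_lt_one_iff` : the maximal ideal of `Z.comap f`;
* `map_mem_of_isIntegral` : `f x ∈ Z` for `x` integral over a subring mapped into `Z`;
* `constSub f Z res ιk : Subring F₁` : the functions `x` with `f x ∈ Z` and `res (f x)` a constant;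
  it is integrally closed in `F₁` (`mem_constSub_of_isIntegral`): a function integral over
  functions with constant residue has constant residue;
* `constHom f Z res ιk : constSub f Z res ιk →+* k` : the constant, `ιk_constHom`.
-/

set_option autoImplicit false
set_option linter.unusedSectionVars false

noncomputable section

namespace Fermat.Agent.BR3.ResConst

open Polynomial

variable {F₁ F₂ κ k : Type*} [Field F₁] [Field F₂] [Field κ] [Field k]

/-! ### the valuation of a pull-back -/

theorem valuation_lt_one_iff_of_mem (O : ValuationSubring F₂) {z : F₂} (hz : z ∈ O) :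
    O.valuation z < 1 ↔ ¬ IsUnit (⟨z, hz⟩ : O) := by
  have h1 := (O.valuation_le_one_iff z).mpr hz
  have h2 := O.valuation_eq_one_iff ⟨z, hz⟩
  constructor
  · intro h hu
    have := h2.mp hu
    rw [this] at h
    exact lt_irrefl _ h
  · intro h
    refine lt_of_le_of_ne h1 fun h3 => h (h2.mpr h3)

theorem valuation_lt_one_iff_inv_notMem (O : ValuationSubring F₂) {y : F₂} (hy : y ≠ 0) :
    O.valuation y < 1 ↔ y⁻¹ ∉ O := by
  rw [← O.valuation_le_one_iff, map_inv₀, not_le,
    one_lt_inv₀ (zero_lt_iff.mpr ((Valuation.ne_zero_iff _).mpr hy))]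

theorem valuation_comap_lt_one_iff (f : F₁ →+* F₂) (Z : ValuationSubring F₂) (x : F₁) :
    (Z.comap f).valuation x < 1 ↔ Z.valuation (f x) < 1 := by
  rcases eq_or_ne x 0 with rfl | hx
  · simp
  rw [valuation_lt_one_iff_inv_notMem (Z.comap f) hx,
    valuation_lt_one_iff_inv_notMem Z ((map_ne_zero f).mpr hx), ValuationSubring.mem_comap,
    map_inv₀]

theorem valuation_comap_eq_one_iff (f : F₁ →+* F₂) (Z : ValuationSubring F₂) (x : F₁) :
    (Z.comap f).valuation x = 1 ↔ Z.valuation (f x) = 1 := by
  have h1 : (Z.comap f).valuation x ≤ 1 ↔ Z.valuation (f x) ≤ 1 := by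
    rw [ValuationSubring.valuation_le_one_iff, ValuationSubring.valuation_le_one_iff,
      ValuationSubring.mem_comap]
  have h2 := valuation_comap_lt_one_iff f Z x
  constructor
  · intro h
    exact le_antisymm (h1.mp h.le) (not_lt.mp fun hlt => by
      have := h2.mpr hlt
      rw [h] at this
      exact lt_irrefl _ this)
  · intro h
    exact le_antisymm (h1.mpr h.le) (not_lt.mp fun hlt => by
      have := h2.mp hlt
      rw [h] at this
      exact lt_irrefl _ this)

/-! ### integrality -/

/-- The image of an element integral over a subring mapped into a valuation subring lies in the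
valuation subring. -/
theorem map_mem_of_isIntegral (f : F₁ →+* F₂) (Z : ValuationSubring F₂) (R : Subring F₁)
    (hRZ : ∀ y ∈ R, f y ∈ Z) {x : F₁} (hx : IsIntegral R x) : f x ∈ Z := by
  let φ : R →+* Z := (f.comp R.subtype).codRestrict Z.toSubring (fun y => hRZ y y.2)
  have h1 : IsIntegral Z (f x) := hx.map_of_comp_eq φ f (by ext; rfl)
  obtain ⟨y, hy⟩ := IsIntegrallyClosed.isIntegral_iff.mp h1
  rw [← hy]
  exact y.2

/-- integrality over a larger subring -/
theorem isIntegral_mono {R R' : Subring F₁} (h : R ≤ R') {x : F₁} (hx : IsIntegral R x) :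
    IsIntegral R' x :=
  hx.map_of_comp_eq (Subring.inclusion h) (RingHom.id F₁) (by ext; rfl)

/-! ### the functions with constant residue -/

variable (f : F₁ →+* F₂) (Z : ValuationSubring F₂) (res : Z →+* κ) (ιk : k →+* κ)

/-- The functions `x` with `f x ∈ Z` and `res (f x)` a constant. -/
def constSub : Subring F₁ :=
  Subring.comap f (Subring.map Z.subtype (Subring.comap res ιk.range))

theorem mem_constSub_iff {x : F₁} :
    x ∈ constSub f Z res ιk ↔ ∃ (h : f x ∈ Z) (c : k), res ⟨f x, h⟩ = ιk c := by
  unfold constSub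
  rw [Subring.mem_comap, Subring.mem_map]
  constructor
  · rintro ⟨z, hz, hzx⟩
    rw [Subring.mem_comap, RingHom.mem_range] at hz
    obtain ⟨c, hc⟩ := hz
    have hm : f x ∈ Z := by rw [← hzx]; exact z.2
    refine ⟨hm, c, ?_⟩
    rw [hc]
    congr 1
    exact Subtype.ext hzx.symm
  · rintro ⟨h, c, hc⟩
    exact ⟨⟨f x, h⟩, by rw [Subring.mem_comap, RingHom.mem_range]; exact ⟨c, hc.symm⟩, rfl⟩

theorem map_mem_of_mem_constSub {x : F₁} (hx : x ∈ constSub f Z res ιk) : f x ∈ Z :=
  ((mem_constSub_iff f Z res ιk).mp hx).1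

/-- `constSub → Z`. -/
def constToZ : constSub f Z res ιk →+* Z :=
  (f.comp (constSub f Z res ιk).subtype).codRestrict Z.toSubring
    (fun x => map_mem_of_mem_constSub f Z res ιk x.2)

theorem res_constToZ_mem (x : constSub f Z res ιk) :
    res (constToZ f Z res ιk x) ∈ ιk.range := by
  obtain ⟨h, c, hc⟩ := (mem_constSub_iff f Z res ιk).mp x.2
  exact ⟨c, hc.symm⟩

/-- **The constant residue**, as a ring homomorphism. -/
def constHom : constSub f Z res ιk →+* k :=
  ((RingEquiv.ofBijective ιk.rangeRestrict
      ⟨fun _ _ h => ιk.injective (congrArg Subtype.val h),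
        ιk.rangeRestrict_surjective⟩).symm : ιk.range →+* k).comp
    ((res.comp (constToZ f Z res ιk)).codRestrict ιk.range (res_constToZ_mem f Z res ιk))

theorem ιk_constHom (x : constSub f Z res ιk) :
    ιk (constHom f Z res ιk x) = res ⟨f x, map_mem_of_mem_constSub f Z res ιk x.2⟩ := by
  set e := RingEquiv.ofBijective ιk.rangeRestrict
    ⟨fun _ _ h => ιk.injective (congrArg Subtype.val h), ιk.rangeRestrict_surjective⟩
    with he
  set y : ιk.range := (res.comp (constToZ f Z res ιk)).codRestrict ιk.range
    (res_constToZ_mem f Z res ιk) x with hy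
  have h1 : constHom f Z res ιk x = e.symm y := rfl
  have h2 : ιk (e.symm y) = (y : κ) := by
    have h3 : e (e.symm y) = y := e.apply_symm_apply y
    have h4 : (e (e.symm y) : κ) = ιk (e.symm y) := rfl
    rw [← h4, h3]
  rw [h1, h2]
  rfl

/-- the constant residue of `x` is characterised by `ιk c = res (f x)` -/
theorem constHom_eq {x : F₁} (hx : x ∈ constSub f Z res ιk) {c : k}
    (hc : res ⟨f x, map_mem_of_mem_constSub f Z res ιk hx⟩ = ιk c) :
    constHom f Z res ιk ⟨x, hx⟩ = c := by
  apply ιk.injective
  rw [ιk_constHom]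
  exact hc

/-- **A function integral over functions with constant residue has constant residue.** -/
theorem mem_constSub_of_isIntegral [IsAlgClosed k] {x : F₁}
    (hx : IsIntegral (constSub f Z res ιk) x) : x ∈ constSub f Z res ιk := by
  have hfx : f x ∈ Z := map_mem_of_isIntegral f Z _
    (fun y hy => map_mem_of_mem_constSub f Z res ιk hy) hx
  obtain ⟨p, hp, hpx⟩ := hx
  -- the equation in `Z`
  have h1 : eval₂ (constToZ f Z res ιk) (⟨f x, hfx⟩ : Z) p = 0 := by
    apply Subtype.ext
    have h2 : ((eval₂ (constToZ f Z res ιk) (⟨f x, hfx⟩ : Z) p : Z) : F₂) =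
        Z.subtype (eval₂ (constToZ f Z res ιk) (⟨f x, hfx⟩ : Z) p) := rfl
    rw [h2, Polynomial.hom_eval₂]
    have h3 : Z.subtype.comp (constToZ f Z res ιk) =
        f.comp (algebraMap (constSub f Z res ιk) F₁) := by ext; rfl
    rw [h3]
    have h6 : eval₂ (f.comp (algebraMap (constSub f Z res ιk) F₁)) (f x) p =
        f (eval₂ (algebraMap (constSub f Z res ιk) F₁) x p) := (Polynomial.hom_eval₂ _ _ _ _).symm
    show eval₂ (f.comp (algebraMap (constSub f Z res ιk) F₁)) (f x) p = 0
    rw [h6, hpx, map_zero]
  -- the equation in `κ`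
  have h4 : eval₂ (res.comp (constToZ f Z res ιk)) (res ⟨f x, hfx⟩) p = 0 := by
    rw [← Polynomial.hom_eval₂, h1, map_zero]
  -- the coefficients are constants
  have h5 : res.comp (constToZ f Z res ιk) = ιk.comp (constHom f Z res ιk) := by
    ext y
    rw [RingHom.comp_apply, RingHom.comp_apply, ιk_constHom]
    rfl
  rw [h5, ← Polynomial.eval₂_map] at h4
  -- a root of a monic polynomial over an algebraically closed field
  have hmon : (p.map (constHom f Z res ιk)).Monic := hp.map _
  have hsplit := IsAlgClosed.splits (p.map (constHom f Z res ιk))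
  have hroot : ((p.map (constHom f Z res ιk)).map ιk).IsRoot (res ⟨f x, hfx⟩) := by
    rw [Polynomial.IsRoot, Polynomial.eval_map]
    exact h4
  obtain ⟨c, hc⟩ := hsplit.mem_range_of_isRoot hmon.ne_zero hroot
  exact (mem_constSub_iff f Z res ιk).mpr ⟨hfx, c, hc.symm⟩

end Fermat.Agent.BR3.ResConst
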