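import Mathlib
import Fermat.Agent.BR3.CircleDom
import Fermat.Agent.BR3.ResConst
import Fermat.Agent.BR3.VertResidue

/-!
# Program C (S36), node (I7-ZE-B), part (iii), abstract form: the restriction of a valuation ring
along a second map is the ring of a circle

`fa fb : F₁ →+* F₂` two homomorphisms of function fields over `K` which agree on the constants
(`α₂`, `β₂`), `Z` a valuation subring of `F₂` with residue map `resZ : Z →+* κ` (kernel = the
non-units), `ιk : k →+* κ` the constants, `L` level data of a tube of `F₁`, `b₀` a gauge.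

Hypotheses: `Z.comap fb` DOMINATES the level rings of `L` (`hle`, `hnu`); `x y z` functions of a
level with `x y = κ₀ z`, `z` a unit, `|κ₀| = |a₀| |b₀|`, `x / b₀` reduces to `β' X` on the circle of
gauge `b₀`; `t := fb y / fa a₀ ∈ Z` has a residue `τ ≠ 0` with `ω - c τ ≠ 0` for all constants
`ω ≠ 0`, `c` (`τ` is not a constant).

* `comap_eq_circleRing` : `Z.comap fb = circleRing L.core b₀` and
  `resZ (fb (x / b₀)) * τ = ω`, `ω ≠ 0` a constant;
* `exists_resHom_comap` : the residue map of `Z` along `fb` factors through `circleRes`;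
* `lin_ne_zero`, `root_add_ne_zero` : in `k(T)[Ũ]/(Ũ^q + β T Ũ^(q-1) - ρ/(β T))` the element
  `τ = Ũ + β T` satisfies the two conditions.
-/

set_option autoImplicit false
set_option linter.unusedSectionVars false

noncomputable section

namespace Fermat.Agent.BR3.VertBetaAbs

open AlgebraicCurve IsLocalRing Polynomial Fermat.Agent.Red Fermat.Agent.BR.Centre
  Fermat.Agent.BR.Circle Fermat.Agent.BR.S0 Fermat.Agent.BR3.VertCircle
  Fermat.Agent.BR3.CircleDom Fermat.Agent.BR3.ResConst Fermat.Agent.BR3.VertResidue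

/-! ### the residue field of the vertical component -/

section Bar

variable {k : Type*} [Field k] {q : ℕ} {β ρ : k}

/-- a nonzero polynomial of degree `< q` is nonzero in `k(T)[Ũ]/(vertBar)` -/
theorem mk_ne_zero_of_natDegree_lt (hq : 2 ≤ q) {p : (RatFunc k)[X]} (hp : p ≠ 0)
    (hdeg : p.natDegree < q) : AdjoinRoot.mk (vertBar q β ρ) p ≠ 0 := by
  intro h
  rw [AdjoinRoot.mk_eq_zero] at h
  refine hp (Polynomial.eq_zero_of_dvd_of_natDegree_lt h ?_)
  rw [vertBar_natDegree hq]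
  exact hdeg

/-- `τ = Ũ + β T ≠ 0` -/
theorem root_add_ne_zero (hq : 2 ≤ q) :
    AdjoinRoot.root (vertBar q β ρ) +
      AdjoinRoot.of (vertBar q β ρ) (RatFunc.C β * RatFunc.X) ≠ 0 := by
  have h1 : AdjoinRoot.root (vertBar q β ρ) +
      AdjoinRoot.of (vertBar q β ρ) (RatFunc.C β * RatFunc.X) =
      AdjoinRoot.mk (vertBar q β ρ) (X + C (RatFunc.C β * RatFunc.X)) := by
    rw [map_add, AdjoinRoot.mk_X, AdjoinRoot.mk_C]
  rw [h1]
  refine mk_ne_zero_of_natDegree_lt hq (Polynomial.X_add_C_ne_zero _) ?_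
  rw [natDegree_X_add_C]
  omega

/-- `ω - c (Ũ + β T) ≠ 0` for constants `ω ≠ 0`, `c`: `τ` is not a constant. -/
theorem lin_ne_zero (hq : 2 ≤ q) (ω c : k) (hω : ω ≠ 0) :
    AdjoinRoot.of (vertBar q β ρ) (RatFunc.C ω) -
      AdjoinRoot.of (vertBar q β ρ) (RatFunc.C c) *
        (AdjoinRoot.root (vertBar q β ρ) +
          AdjoinRoot.of (vertBar q β ρ) (RatFunc.C β * RatFunc.X)) ≠ 0 := by
  have h1 : AdjoinRoot.of (vertBar q β ρ) (RatFunc.C ω) -
      AdjoinRoot.of (vertBar q β ρ) (RatFunc.C c) *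
        (AdjoinRoot.root (vertBar q β ρ) +
          AdjoinRoot.of (vertBar q β ρ) (RatFunc.C β * RatFunc.X)) =
      AdjoinRoot.mk (vertBar q β ρ)
        (C (RatFunc.C ω) - C (RatFunc.C c) * (X + C (RatFunc.C β * RatFunc.X))) := by
    simp only [map_sub, map_mul, map_add, AdjoinRoot.mk_X, AdjoinRoot.mk_C]
  rw [h1]
  have hp : (C (RatFunc.C ω) - C (RatFunc.C c) * (X + C (RatFunc.C β * RatFunc.X)) :
      (RatFunc k)[X]) ≠ 0 := by
    intro h0
    have e1 := congrArg (fun p : (RatFunc k)[X] => p.coeff 1) h0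
    have e0 := congrArg (fun p : (RatFunc k)[X] => p.coeff 0) h0
    simp only [coeff_sub, coeff_C_mul, coeff_add, coeff_X_one, coeff_C_succ, coeff_C_zero,
      coeff_X_zero, coeff_zero, add_zero, zero_add, mul_one, zero_sub, neg_eq_zero] at e1 e0
    rw [map_eq_zero] at e1
    rw [e1, map_zero, zero_mul, sub_zero, map_eq_zero] at e0
    exact hω e0
  refine mk_ne_zero_of_natDegree_lt hq hp ?_
  have hle : (C (RatFunc.C ω) - C (RatFunc.C c) * (X + C (RatFunc.C β * RatFunc.X)) :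
      (RatFunc k)[X]).natDegree ≤ 1 := by
    refine le_trans (natDegree_sub_le _ _) (max_le ?_ ?_)
    · rw [natDegree_C]; exact Nat.zero_le _
    · refine le_trans (natDegree_C_mul_le _ _) ?_
      rw [natDegree_X_add_C]
  omega

end Bar

/-! ### units of a valuation ring through the residue map -/

section Lin

variable {F₂ κ : Type*} [Field F₂] [CommRing κ] [Nontrivial κ] (Z : ValuationSubring F₂)
  (resZ : Z →+* κ)
  (hker : ∀ z : Z, resZ z = 0 ↔ ¬ IsUnit z)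

include hker

theorem valuation_eq_one_of_res_ne_zero {z : F₂} (hz : z ∈ Z) (h : resZ ⟨z, hz⟩ ≠ 0) :
    Z.valuation z = 1 := by
  have h1 : IsUnit (⟨z, hz⟩ : Z) := by
    by_contra hn
    exact h ((hker _).mpr hn)
  exact (Z.valuation_eq_one_iff ⟨z, hz⟩).mp h1

theorem res_eq_zero_of_valuation_lt {z : F₂} (hz : z ∈ Z) (h : Z.valuation z < 1) :
    resZ ⟨z, hz⟩ = 0 :=
  (hker _).mpr ((valuation_lt_one_iff_of_mem Z hz).mp h)

/-- `xb t = w`, `t` a unit, the residue of `w - c' t` nonzero: `xb - c'` is a unit. -/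
theorem valuation_sub_eq_one {xb t w c' : F₂} (ht : t ∈ Z) (hw : w ∈ Z) (hc' : c' ∈ Z)
    (hmul : xb * t = w) (hτ : resZ ⟨t, ht⟩ ≠ 0)
    (hlin : resZ ⟨w, hw⟩ - resZ ⟨c', hc'⟩ * resZ ⟨t, ht⟩ ≠ 0) : Z.valuation (xb - c') = 1 := by
  have ht1 := valuation_eq_one_of_res_ne_zero Z resZ hker ht hτ
  have ht0 : t ≠ 0 := by
    rintro rfl
    rw [map_zero] at ht1
    exact zero_ne_one ht1
  have hm : w - c' * t ∈ Z := sub_mem hw (Z.mul_mem _ _ hc' ht)
  have e1 : resZ ⟨w - c' * t, hm⟩ = resZ ⟨w, hw⟩ - resZ ⟨c', hc'⟩ * resZ ⟨t, ht⟩ := by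
    rw [← map_mul, ← map_sub]
    rfl
  have h2 := valuation_eq_one_of_res_ne_zero Z resZ hker hm (by rw [e1]; exact hlin)
  have e2 : (xb - c') * t = w - c' * t := by rw [sub_mul, hmul]
  have h3 : Z.valuation ((xb - c') * t) = 1 := by rw [e2]; exact h2
  rwa [map_mul, ht1, mul_one] at h3

end Lin

/-! ### the restriction along `fb` -/

section Main

variable {K F₁ F₂ : Type*} [Field K] [Field F₁] [Field F₂] [Algebra K F₁]
  {A : ValuationSubring K} [IsAlgClosed (ResidueField A)]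
  {T : Set (Place K F₁)} {ι : Type*} (L : AnnulusLevels A T ι)
  (fa fb : F₁ →+* F₂)
  (hab : ∀ c : K, fb (algebraMap K F₁ c) = fa (algebraMap K F₁ c))
  (Z : ValuationSubring F₂) {κ : Type*} [CommRing κ] [Nontrivial κ] (resZ : Z →+* κ)
  (hker : ∀ z : Z, resZ z = 0 ↔ ¬ IsUnit z)
  (ιk : ResidueField A →+* κ)
  (hconst : ∀ c : K, fa (algebraMap K F₁ c) ∈ Z ↔ c ∈ A)
  (hconstres : ∀ (c : A) (h : fa (algebraMap K F₁ (c : K)) ∈ Z),
    resZ ⟨fa (algebraMap K F₁ (c : K)), h⟩ = ιk (residue A c))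
  (hle : ∀ i, ∀ y ∈ (L.level i).R, fb y ∈ Z)
  (hnu : ∀ i (y : (L.level i).R), ¬ IsUnit y → Z.valuation (fb (y : F₁)) < 1)

include hab hconst in
omit [IsAlgClosed (ResidueField A)] in
theorem algebraMap_mem_comap_iff (c : K) : algebraMap K F₁ c ∈ Z.comap fb ↔ c ∈ A := by
  rw [ValuationSubring.mem_comap, hab, hconst]

include hab hker hconst hconstres hle hnu in
omit [IsAlgClosed (ResidueField A)] in
/-- a unit of a level has a nonzero constant residue along `fb` -/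
theorem exists_res_unit {i : ι} {z : F₁} (hz : z ∈ (L.level i).R)
    (hu : IsUnit (⟨z, hz⟩ : (L.level i).R)) :
    ∃ e₀ : ResidueField A, e₀ ≠ 0 ∧ resZ ⟨fb z, hle i z hz⟩ = ιk e₀ := by
  obtain ⟨e₀, he₀R, he₀⟩ := (L.level i).residue ⟨z, hz⟩
  have hlt : Z.valuation (fb (z - algebraMap K F₁ (e₀ : K))) < 1 := hnu i _ he₀
  have hcm : fa (algebraMap K F₁ (e₀ : K)) ∈ Z := (hconst _).mpr e₀.2
  have hsub : fb z - fa (algebraMap K F₁ (e₀ : K)) ∈ Z := sub_mem (hle i z hz) hcm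
  have h0 : resZ ⟨fb z - fa (algebraMap K F₁ (e₀ : K)), hsub⟩ = 0 := by
    apply res_eq_zero_of_valuation_lt Z resZ hker
    rw [← hab, ← map_sub]
    exact hlt
  have h1 : resZ ⟨fb z, hle i z hz⟩ = ιk (residue A e₀) := by
    rw [← hconstres e₀ hcm, ← sub_eq_zero, ← map_sub]
    exact h0
  refine ⟨residue A e₀, ?_, h1⟩
  intro h
  rw [h, map_zero] at h1
  -- `fb z` is a unit of `Z`
  obtain ⟨w, hw⟩ := hu.exists_right_inv
  have h2 : z * (w : F₁) = 1 := by
    have := congrArg (fun t : (L.level i).R => (t : F₁)) hw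
    simpa using this
  have h3 : (⟨fb z, hle i z hz⟩ : Z) * ⟨fb (w : F₁), hle i _ w.2⟩ = 1 := by
    apply Subtype.ext
    show fb z * fb (w : F₁) = 1
    rw [← map_mul, h2, map_one]
  have h4 := congrArg resZ h3
  rw [map_mul, h1, zero_mul, map_one] at h4
  exact zero_ne_one h4

include hab hker hconst hconstres hle hnu in
/-- **The restriction of `Z` along `fb` is the ring of the circle of gauge `b₀`.** -/
theorem comap_eq_circleRing {a₀ b₀ : K}
    (hb1 : A.valuation L.core.thick < A.valuation b₀) (hb2 : A.valuation b₀ < 1) (ha₀ : a₀ ≠ 0)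
    {i : ι} {x y z : F₁} (hx : x ∈ (L.level i).R) (hy : y ∈ (L.level i).R)
    (hz : z ∈ (L.level i).R) (hu : IsUnit (⟨z, hz⟩ : (L.level i).R)) {κ₀ : K}
    (hxy : x * y = κ₀ • z) (hκ₀ : A.valuation κ₀ = A.valuation a₀ * A.valuation b₀)
    (hord : ∀ P ∈ T, P.ord x = 0) {β' : ResidueField A} (hβ' : β' ≠ 0)
    (hred : IsRed L.core b₀ (b₀⁻¹ • x) (RatFunc.C β' * RatFunc.X))
    (ht : fb y / fa (algebraMap K F₁ a₀) ∈ Z)
    (hτ0 : resZ ⟨fb y / fa (algebraMap K F₁ a₀), ht⟩ ≠ 0)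
    (hτ : ∀ ω c : ResidueField A, ω ≠ 0 →
      ιk ω - ιk c * resZ ⟨fb y / fa (algebraMap K F₁ a₀), ht⟩ ≠ 0) :
    Z.comap fb = circleRing L.core b₀ hb1 hb2 ∧
      ∃ ω : ResidueField A, ω ≠ 0 ∧ ∃ h : fb (b₀⁻¹ • x) ∈ Z,
        resZ ⟨fb (b₀⁻¹ • x), h⟩ * resZ ⟨fb y / fa (algebraMap K F₁ a₀), ht⟩ = ιk ω := by
  have hb₀ : b₀ ≠ 0 := gauge_ne_zero (C := L.core) hb1
  have hK := algebraMap_mem_comap_iff fa fb hab Z hconst
  -- the constant `κ₀ / (a₀ b₀)` is a unit of `A`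
  obtain ⟨δ, hδ⟩ : ∃ δ : K, δ = b₀⁻¹ * κ₀ * a₀⁻¹ := ⟨_, rfl⟩
  have hδ1 : A.valuation δ = 1 := by
    have h1 : A.valuation a₀ ≠ 0 := (Valuation.ne_zero_iff _).mpr ha₀
    have h2 : A.valuation b₀ ≠ 0 := (Valuation.ne_zero_iff _).mpr hb₀
    rw [hδ, map_mul, map_mul, map_inv₀, map_inv₀, hκ₀]
    field_simp
  have hδA : δ ∈ A := (A.valuation_le_one_iff _).mp hδ1.le
  have hδres : residue A ⟨δ, hδA⟩ ≠ 0 := by
    rw [ne_eq, residue_eq_zero_iff, mem_maximalIdeal, mem_nonunits_iff, not_not]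
    exact (A.valuation_eq_one_iff ⟨δ, hδA⟩).mpr hδ1
  -- the product
  have haF : fa (algebraMap K F₁ a₀) ≠ 0 :=
    (_root_.map_ne_zero _).mpr ((_root_.map_ne_zero _).mpr ha₀)
  obtain ⟨e₀, he₀, hresz⟩ := exists_res_unit L fa fb hab Z resZ hker ιk hconst hconstres hle hnu
    hz hu
  have hδZ : fa (algebraMap K F₁ δ) ∈ Z := (hconst _).mpr hδA
  have hwZ : fa (algebraMap K F₁ δ) * fb z ∈ Z := Z.mul_mem _ _ hδZ (hle i z hz)
  have hmul : fb (b₀⁻¹ • x) * (fb y / fa (algebraMap K F₁ a₀)) =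
      fa (algebraMap K F₁ δ) * fb z := by
    have h1 : fb (b₀⁻¹ • x) = fa (algebraMap K F₁ b₀⁻¹) * fb x := by
      rw [Algebra.smul_def, map_mul, hab]
    have h2 : fb x * fb y = fa (algebraMap K F₁ κ₀) * fb z := by
      rw [← map_mul, hxy, Algebra.smul_def, map_mul, hab]
    rw [h1, hδ]
    simp only [map_mul, map_inv₀, div_eq_mul_inv]
    linear_combination ((fa (algebraMap K F₁ b₀))⁻¹ * (fa (algebraMap K F₁ a₀))⁻¹) * h2
  have hresw : resZ ⟨fa (algebraMap K F₁ δ) * fb z, hwZ⟩ = ιk (residue A ⟨δ, hδA⟩ * e₀) := by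
    have e1 : (⟨fa (algebraMap K F₁ δ) * fb z, hwZ⟩ : Z) =
        ⟨fa (algebraMap K F₁ δ), hδZ⟩ * ⟨fb z, hle i z hz⟩ := rfl
    rw [e1, map_mul, hresz, map_mul]
    congr 1
    exact hconstres ⟨δ, hδA⟩ hδZ
  have hω : residue A ⟨δ, hδA⟩ * e₀ ≠ 0 := mul_ne_zero hδres he₀
  -- the transcendence test
  have hxtr : ∀ c ∈ A, (Z.comap fb).valuation (b₀⁻¹ • x - algebraMap K F₁ c) = 1 := by
    intro c hc
    rw [valuation_comap_eq_one_iff, map_sub, hab]
    have hcZ : fa (algebraMap K F₁ c) ∈ Z := (hconst _).mpr hc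
    refine valuation_sub_eq_one Z resZ hker ht hwZ hcZ hmul hτ0 ?_
    rw [hresw, hconstres ⟨c, hc⟩ hcZ]
    exact hτ _ _ hω
  have hD : Dom L b₀ (Z.comap fb) := dom_of_coord L hb1 hb2 hK
    (fun i y hy => hle i y hy)
    (fun i y hy => (valuation_comap_lt_one_iff fb Z _).mpr (hnu i y hy))
    hx hord hβ' hred hxtr
  refine ⟨eq_circleRing_of_dom L hb1 hb2 hD, residue A ⟨δ, hδA⟩ * e₀, hω, ?_⟩
  have hxZ : fb (b₀⁻¹ • x) ∈ Z := by
    have h1 := hxtr 0 A.zero_mem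
    rw [map_zero, sub_zero] at h1
    exact (mem_of_val_eq_one _ h1).1
  refine ⟨hxZ, ?_⟩
  rw [← hresw, ← map_mul]
  congr 1
  exact Subtype.ext hmul

end Main

/-! ### the residue map along `fb` -/

section ResHom

variable {K F₁ F₂ : Type*} [Field K] [Field F₁] [Field F₂] [Algebra K F₁]
  {A : ValuationSubring K} [IsAlgClosed (ResidueField A)]
  {T : Set (Place K F₁)} (C : AnnulusCore A T)
  (fb : F₁ →+* F₂) (Z : ValuationSubring F₂) {κ : Type*} [CommRing κ] [Nontrivial κ]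
  (resZ : Z →+* κ)
  (hker : ∀ z : Z, resZ z = 0 ↔ ¬ IsUnit z)

include hker in
/-- **The residue map of `Z` along `fb` factors through the residue map of the circle.** -/
theorem exists_resHom_comap {b₀ : K} (hb1 : A.valuation C.thick < A.valuation b₀)
    (hb2 : A.valuation b₀ < 1) (hO : Z.comap fb = circleRing C b₀ hb1 hb2) :
    ∃ φ : RatFunc (ResidueField A) →+* κ,
      ∀ (y : F₁) (hy : y ∈ circleRing C b₀ hb1 hb2) (h : fb y ∈ Z),
        resZ ⟨fb y, h⟩ = φ (circleRes C b₀ hb1 hb2 ⟨y, hy⟩) := by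
  have key : ∀ y : F₁, y ∈ Z.comap fb → y ∈ circleRing C b₀ hb1 hb2 := fun y hy => by
    rw [← hO]; exact hy
  have hmem : ∀ x : circleRing C b₀ hb1 hb2, fb (x : F₁) ∈ Z := by
    intro x
    have h1 : (x : F₁) ∈ Z.comap fb := by rw [hO]; exact x.2
    exact h1
  let ψ : circleRing C b₀ hb1 hb2 →+* κ :=
    resZ.comp ((fb.comp (circleRing C b₀ hb1 hb2).subtype).codRestrict Z.toSubring hmem)
  have hψ : ∀ x : circleRing C b₀ hb1 hb2, ψ x = resZ ⟨fb (x : F₁), hmem x⟩ := fun _ => rfl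
  have hk : RingHom.ker (circleRes C b₀ hb1 hb2) ≤ RingHom.ker ψ := by
    intro x hx
    rw [RingHom.mem_ker] at hx ⊢
    rw [circleRes_eq_zero_iff] at hx
    rw [hψ, hker]
    intro hu
    apply hx
    rcases eq_or_ne (x : F₁) 0 with h0 | h0
    · exfalso
      have h1 : (⟨fb (x : F₁), hmem x⟩ : Z) = 0 := by
        apply Subtype.ext
        show fb (x : F₁) = 0
        rw [h0, map_zero]
      rw [h1] at hu
      exact not_isUnit_zero hu
    · obtain ⟨w, hw⟩ := hu.exists_right_inv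
      have h1 : fb (x : F₁) * (w : F₂) = 1 := by
        have := congrArg (fun t : Z => (t : F₂)) hw
        simpa using this
      have h2 : (w : F₂) = fb ((x : F₁)⁻¹) := by
        rw [map_inv₀]
        exact eq_inv_of_mul_eq_one_right h1
      have h3' : (x : F₁)⁻¹ ∈ Z.comap fb := by
        rw [ValuationSubring.mem_comap, ← h2]
        exact w.2
      have h3 : (x : F₁)⁻¹ ∈ circleRing C b₀ hb1 hb2 := key _ h3'
      refine IsUnit.of_mul_eq_one ⟨(x : F₁)⁻¹, h3⟩ ?_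
      apply Subtype.ext
      show (x : F₁) * (x : F₁)⁻¹ = 1
      exact mul_inv_cancel₀ h0
  refine ⟨RingHom.liftOfSurjective (circleRes C b₀ hb1 hb2) (circleRes_surjective C b₀ hb1 hb2)
    ⟨ψ, hk⟩, fun y hy h => ?_⟩
  exact (RingHom.liftOfRightInverse_comp_apply _ _ _ ⟨ψ, hk⟩ ⟨y, hy⟩).symm

end ResHom

end Fermat.Agent.BR3.VertBetaAbs
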