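import Mathlib
import Fermat.Agent.BR3.VertMain
import Fermat.Agent.BR3.VertBetaAbs

/-!
# Program C (S36), node (I7-ZE-B), part (iii): the vertical component `z e` along `b = β₂` is the
ring of the `b`-critical circle at the crossing under it

`Z` the vertical component over the circle of gauge `a₀` of the tube of a crossing `e` of main's
model `S′` of `X₀(M q)` along `a = α₂` (conclusion of `VertMain.exists_vertComponent_main`: `comap`,
kernel, compatibility with `circleRes`, the residue of `U / a₀` is the root `Ũ`, and the coordinate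
`x₁ / a₀` reduces to `β T`).  `e'` a crossing such that `Z.comap β₂` DOMINATES the level rings of the
tube of `e'` (`hle`, `hnu`: part (ii), `e' = VertBetaFr.Fr e`), with `|thick e'| = |q|`, `Ψ_q` a unit
of a level and `x₁` a simple zero on the branch `s₁ e'`.

EXACT identity: `β₂ y₁ = U + α₂ x₁`, hence `β₂ y₁ / a₀` has the residue `τ = Ũ + β T`, which is not a
constant; `β₂ x₁ · β₂ y₁ = q β₂ Ψ` with `β₂ Ψ` a unit of constant residue.

* `beta2_y1` : the exact identity;
* **`comap_beta2_eq_circleRing`** : `Z.comap β₂ = circleRing (L e').core (a₀^q)`, the residue map of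
  `Z` along `β₂` is `φ ∘ circleRes` with `φ (C c) = C c` and
  `φ (β' T) * (Ũ + β T) = ω`, `ω ≠ 0` a constant (`x₁ / a₀^q` reduces to `β' T` on the `b`-circle).
-/

set_option autoImplicit false
set_option linter.unusedSectionVars false
set_option linter.style.haveILetI false
set_option synthInstance.maxHeartbeats 400000

noncomputable section

/- S36 build-time patch: file-local shortcut instances. They only shorten instance search;
each is the instance that the search finds anyway (reducible, same terms after unfolding). -/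
local instance (priority := 100000) Fermat.Agent.BR3.FastInst.instAlgFullC_VertBetaMain
    {k : Type*} [Field k] (N : ℕ) :
    Algebra k ↥(ModularCurve.modularFunctionFieldFullC k N) := inferInstance
local instance (priority := 100000) Fermat.Agent.BR3.FastInst.instFieldFullC_VertBetaMain
    {k : Type*} [Field k] (N : ℕ) :
    Field ↥(ModularCurve.modularFunctionFieldFullC k N) := inferInstance
local instance (priority := 100000) Fermat.Agent.BR3.FastInst.instAlgLaurent_VertBetaMain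
    {k : Type*} [Field k] : Algebra k (LaurentSeries k) := inferInstance


namespace Fermat.Agent.BR3.VertBetaMain

open Polynomial ModularCurve AlgebraicCurve IsLocalRing
open Fermat.Agent.X0 Fermat.Agent.Val Fermat.Agent.Red Fermat.Agent.BR.Kron
open Fermat.Agent.BR.SS Fermat.Agent.BR.Refine
open Fermat.Agent.BR.Circle Fermat.Agent.BR.S0 Fermat.Agent.BR.S0.RedModular
open Fermat.Agent.BR.S0.PointDict Fermat.Agent.BR.S0.AnnulusChartOfLevels
open Fermat.Agent.BR.Inst.AnnulusInstFinal Fermat.Agent.BR.Final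
open Fermat.Agent.BR3.FibreProd Fermat.Agent.BR3.VertResidue
open Fermat.Agent.BR3.VertLevelMem Fermat.Agent.BR3.VertMain Fermat.Agent.BR3.VertTube
open Fermat.Agent.BR3.VertBetaAbs

variable {M q : ℕ} [NeZero M] [hq : Fact q.Prime]

/-- **The exact identity** `β₂ y₁ = U + α₂ x₁`. -/
theorem beta2_y1 : beta2 M q (y1 M q) = U M q + alpha2 M q (x1 M q) := by
  rw [y1, x1, U, map_sub, map_sub, map_pow, map_pow, beta2_jBar, beta2_jq']
  ring

/-- `β₂` and `α₂` agree on the constants. -/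
theorem beta2_algebraMap (c : Kb) :
    beta2 M q (algebraMap Kb (Fb (M * q)) c) = alpha2 M q (algebraMap Kb (Fb (M * q)) c) := by
  rw [AlgHom.commutes, AlgHom.commutes]

variable (B : ValuationSubring Kb) (hB : B.LiesOverPrime q) (hqM : ¬ q ∣ M)
  [IsAlgClosed (ResidueField B)]
  (hne : Nonempty (Crossing (chartDataModular B hB hqM)))
  (e e' : Crossing (chartDataModular B hB hqM))

local notation "kB" => ResidueField B

/-- the gauge of the `b`-critical circle -/
theorem gauge_b {a₀ thick : Kb} (ha2 : B.valuation a₀ < 1)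
    (ha₀ : B.valuation a₀ ^ (q + 1) = B.valuation (q : Kb))
    (hthick : B.valuation thick = B.valuation (q : Kb)) :
    B.valuation thick < B.valuation (a₀ ^ q) ∧ B.valuation (a₀ ^ q) < 1 := by
  have hq0 : B.valuation (q : Kb) ≠ 0 :=
    (Valuation.ne_zero_iff _).mpr (Nat.cast_ne_zero.mpr hq.out.ne_zero)
  have hpos : 0 < B.valuation a₀ := by
    rw [zero_lt_iff]
    intro h0
    rw [h0, zero_pow (Nat.succ_ne_zero q)] at ha₀
    exact hq0 ha₀.symm
  constructor
  · rw [hthick, ← ha₀, map_pow, pow_succ]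
    calc B.valuation a₀ ^ q * B.valuation a₀ < B.valuation a₀ ^ q * 1 :=
          mul_lt_mul_of_pos_left ha2 (pow_pos hpos q)
      _ = B.valuation a₀ ^ q := mul_one _
  · rw [map_pow]
    exact pow_lt_one₀ zero_le ha2 hq.out.ne_zero

set_option maxHeartbeats 1600000 in
/-- **(I7-ZE-B): the vertical component `z e` along `β₂` lies over the `b`-critical circle at `e'`,
gauge `a₀^q`, and its residue map along `β₂` is explicit.** -/
theorem comap_beta2_eq_circleRing (a₀ : Kb)
    (ha1 : B.valuation (annulusLevels_modular_final B hB hqM hne e).core.thick < B.valuation a₀)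
    (ha2 : B.valuation a₀ < 1) (ha₀ : B.valuation a₀ ^ (q + 1) = B.valuation (q : Kb))
    {β ρ : kB}
    (hred : IsRed (annulusLevels_modular_final B hB hqM hne e).core a₀ (a₀⁻¹ • x1 M q)
      (RatFunc.C β * RatFunc.X))
    (Z : ValuationSubring (Fb (M * q * q))) (resZ : Z →+* AdjoinRoot (vertBar q β ρ))
    (hcomap : Z.comap (alpha2 M q : Fb (M * q) →+* Fb (M * q * q)) =
      circleRing (annulusLevels_modular_final B hB hqM hne e).core a₀ ha1 ha2)
    (hker : ∀ z : Z, resZ z = 0 ↔ ¬ IsUnit z)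
    (hcompat : ∀ (y : circleRing (annulusLevels_modular_final B hB hqM hne e).core a₀ ha1 ha2)
      (h : alpha2 M q (y : Fb (M * q)) ∈ Z),
      resZ ⟨alpha2 M q (y : Fb (M * q)), h⟩ =
        AdjoinRoot.of (vertBar q β ρ)
          (circleRes (annulusLevels_modular_final B hB hqM hne e).core a₀ ha1 ha2 y))
    (hθ : ∃ hθ : U M q / alpha2 M q (algebraMap Kb (Fb (M * q)) a₀) ∈ Z,
      resZ ⟨U M q / alpha2 M q (algebraMap Kb (Fb (M * q)) a₀), hθ⟩ =
        AdjoinRoot.root (vertBar q β ρ))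
    -- the crossing under `z e` along `b`
    (hthick' : B.valuation (annulusLevels_modular_final B hB hqM hne e').core.thick =
      B.valuation (q : Kb))
    (S : Finset Kb)
    (hR' : IsUnit (⟨_, psiK_mem_level B hB hqM hne e' S⟩ :
      ((annulusLevels_modular_final B hB hqM hne e').level S).R))
    (hsx' : ((setupFinal B hB hqM hne).s₁ e').ord
      ((setupFinal B hB hqM hne).res ((setupFinal B hB hqM hne).src e')
        ⟨x1 M q, x1_mem_src B hB hqM hne e'⟩) = 1)
    (hle : ∀ S', ∀ y ∈ ((annulusLevels_modular_final B hB hqM hne e').level S').R,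
      beta2 M q y ∈ Z)
    (hnu : ∀ S' (y : ((annulusLevels_modular_final B hB hqM hne e').level S').R), ¬ IsUnit y →
      Z.valuation (beta2 M q (y : Fb (M * q))) < 1) :
    ∃ (hb1 : B.valuation (annulusLevels_modular_final B hB hqM hne e').core.thick <
        B.valuation (a₀ ^ q)) (hb2 : B.valuation (a₀ ^ q) < 1),
      Z.comap (beta2 M q : Fb (M * q) →+* Fb (M * q * q)) =
        circleRing (annulusLevels_modular_final B hB hqM hne e').core (a₀ ^ q) hb1 hb2 ∧
      ∃ β' : kB, β' ≠ 0 ∧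
        IsRed (annulusLevels_modular_final B hB hqM hne e').core (a₀ ^ q)
          ((a₀ ^ q)⁻¹ • x1 M q) (RatFunc.C β' * RatFunc.X) ∧
      ∃ ω : kB, ω ≠ 0 ∧
      ∃ φ : RatFunc kB →+* AdjoinRoot (vertBar q β ρ),
        (∀ (y : Fb (M * q))
          (hy : y ∈ circleRing (annulusLevels_modular_final B hB hqM hne e').core (a₀ ^ q) hb1 hb2)
          (h : beta2 M q y ∈ Z),
          resZ ⟨beta2 M q y, h⟩ =
            φ (circleRes (annulusLevels_modular_final B hB hqM hne e').core (a₀ ^ q) hb1 hb2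
              ⟨y, hy⟩)) ∧
        (∀ c : kB, φ (RatFunc.C c) = AdjoinRoot.of (vertBar q β ρ) (RatFunc.C c)) ∧
        φ (RatFunc.C β' * RatFunc.X) *
          (AdjoinRoot.root (vertBar q β ρ) +
            AdjoinRoot.of (vertBar q β ρ) (RatFunc.C β * RatFunc.X)) =
          AdjoinRoot.of (vertBar q β ρ) (RatFunc.C ω) := by
  obtain ⟨hb1, hb2⟩ := gauge_b B ha2 ha₀ hthick'
  refine ⟨hb1, hb2, ?_⟩
  have hq2 : 2 ≤ q := hq.out.two_le
  haveI : Nontrivial (AdjoinRoot (vertBar q β ρ)) := by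
    refine AdjoinRoot.nontrivial _ ?_
    rw [Polynomial.degree_eq_natDegree (vertBar_monic hq2).ne_zero, vertBar_natDegree hq2]
    exact_mod_cast (by omega : q ≠ 0)
  have ha0 : a₀ ≠ 0 := gauge_ne_zero (C := (annulusLevels_modular_final B hB hqM hne e).core) ha1
  -- the `b`-coordinate
  obtain ⟨β', hβ', hred'⟩ := exists_isRed_inv_smul_of_levels
    (branchData_modular_final B hB hqM hne e') (a₀ ^ q) hb1 S (x1_mem_level B hB hqM hne e' S)
    (y1_mem_level B hB hqM hne e' S) (psiK_mem_level B hB hqM hne e' S) hR'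
    natCast_ne_zero_Kb x1_mul_y1 hsx'
  have hord := ord_eq_zero_of_mul_eq_smul (annulusLevels_modular_final B hB hqM hne e') S
    (x1_mem_level B hB hqM hne e' S) (y1_mem_level B hB hqM hne e' S)
    (psiK_mem_level B hB hqM hne e' S) hR' (natCast_ne_zero_Kb (q := q)) x1_mul_y1
  -- the constants
  obtain ⟨ιk, hιk⟩ : ∃ ιk : kB →+* AdjoinRoot (vertBar q β ρ),
      ιk = (AdjoinRoot.of (vertBar q β ρ)).comp (algebraMap kB (RatFunc kB)) := ⟨_, rfl⟩
  have hιkC : ∀ c : kB, ιk c = AdjoinRoot.of (vertBar q β ρ) (RatFunc.C c) := by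
    intro c
    rw [hιk, RingHom.comp_apply, RatFunc.algebraMap_eq_C]
  have hmemA : ∀ y : Fb (M * q), alpha2 M q y ∈ Z ↔
      y ∈ circleRing (annulusLevels_modular_final B hB hqM hne e).core a₀ ha1 ha2 := by
    intro y
    rw [← hcomap, ValuationSubring.mem_comap]
    rfl
  have hconst : ∀ c : Kb, alpha2 M q (algebraMap Kb (Fb (M * q)) c) ∈ Z ↔ c ∈ B := by
    intro c
    rw [hmemA]
    exact algebraMap_mem_circleRing_iff _ a₀ ha1 ha2 c
  have hconstres : ∀ (c : B) (h : alpha2 M q (algebraMap Kb (Fb (M * q)) (c : Kb)) ∈ Z),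
      resZ ⟨alpha2 M q (algebraMap Kb (Fb (M * q)) (c : Kb)), h⟩ = ιk (residue B c) := by
    intro c h
    have hcO := (hmemA _).mp h
    rw [hcompat ⟨_, hcO⟩ h, circleRes_algebraMap _ a₀ ha1 ha2 (c : Kb) c.2, hιk]
    rfl
  -- the residue `τ`
  obtain ⟨hθm, hθres⟩ := hθ
  have hxO : a₀⁻¹ • x1 M q ∈
      circleRing (annulusLevels_modular_final B hB hqM hne e).core a₀ ha1 ha2 := ⟨_, hred⟩
  have hxZ : alpha2 M q (a₀⁻¹ • x1 M q) ∈ Z := (hmemA _).mpr hxO
  have hxres : resZ ⟨alpha2 M q (a₀⁻¹ • x1 M q), hxZ⟩ =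
      AdjoinRoot.of (vertBar q β ρ) (RatFunc.C β * RatFunc.X) := by
    rw [hcompat ⟨_, hxO⟩ hxZ, circleRes_mk _ a₀ ha1 ha2 hred]
  have haF : alpha2 M q (algebraMap Kb (Fb (M * q)) a₀) ≠ 0 :=
    (_root_.map_ne_zero _).mpr ((_root_.map_ne_zero _).mpr ha0)
  have ht_eq : beta2 M q (y1 M q) / alpha2 M q (algebraMap Kb (Fb (M * q)) a₀) =
      U M q / alpha2 M q (algebraMap Kb (Fb (M * q)) a₀) + alpha2 M q (a₀⁻¹ • x1 M q) := by
    rw [beta2_y1, Algebra.smul_def, map_mul, map_inv₀, map_inv₀]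
    field_simp
  have ht : beta2 M q (y1 M q) / alpha2 M q (algebraMap Kb (Fb (M * q)) a₀) ∈ Z := by
    rw [ht_eq]
    exact Z.add_mem _ _ hθm hxZ
  have htres : resZ ⟨beta2 M q (y1 M q) / alpha2 M q (algebraMap Kb (Fb (M * q)) a₀), ht⟩ =
      AdjoinRoot.root (vertBar q β ρ) +
        AdjoinRoot.of (vertBar q β ρ) (RatFunc.C β * RatFunc.X) := by
    have e1 : (⟨beta2 M q (y1 M q) / alpha2 M q (algebraMap Kb (Fb (M * q)) a₀), ht⟩ : Z) =
        ⟨U M q / alpha2 M q (algebraMap Kb (Fb (M * q)) a₀), hθm⟩ +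
          ⟨alpha2 M q (a₀⁻¹ • x1 M q), hxZ⟩ := Subtype.ext ht_eq
    rw [e1, map_add, hθres, hxres]
  -- the valuations of the gauges
  have hκ₀ : B.valuation (q : Kb) = B.valuation a₀ * B.valuation (a₀ ^ q) := by
    rw [← ha₀, map_pow, pow_succ, mul_comm]
  -- the abstract theorem
  have hτ0 : resZ ⟨beta2 M q (y1 M q) / alpha2 M q (algebraMap Kb (Fb (M * q)) a₀), ht⟩ ≠ 0 := by
    rw [htres]; exact root_add_ne_zero hq2
  have hτ : ∀ ω c : kB, ω ≠ 0 → ιk ω - ιk c *
      resZ ⟨beta2 M q (y1 M q) / alpha2 M q (algebraMap Kb (Fb (M * q)) a₀), ht⟩ ≠ 0 := by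
    intro ω c hω
    rw [htres, hιkC, hιkC]
    exact lin_ne_zero hq2 ω c hω
  obtain ⟨fa, hfa⟩ : ∃ fa : Fb (M * q) →+* Fb (M * q * q), fa = (alpha2 M q : _ →+* _) :=
    ⟨_, rfl⟩
  obtain ⟨fb, hfb⟩ : ∃ fb : Fb (M * q) →+* Fb (M * q * q), fb = (beta2 M q : _ →+* _) :=
    ⟨_, rfl⟩
  have hfa' : ∀ x, fa x = alpha2 M q x := fun x => by rw [hfa]; rfl
  have hfb' : ∀ x, fb x = beta2 M q x := fun x => by rw [hfb]; rfl
  have habF : ∀ c : Kb, fb (algebraMap Kb (Fb (M * q)) c) = fa (algebraMap Kb (Fb (M * q)) c) := by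
    intro c
    rw [hfa', hfb']
    exact beta2_algebraMap c
  have hconstF : ∀ c : Kb, fa (algebraMap Kb (Fb (M * q)) c) ∈ Z ↔ c ∈ B := by
    intro c
    rw [hfa']
    exact hconst c
  have hconstresF : ∀ (c : B) (h : fa (algebraMap Kb (Fb (M * q)) (c : Kb)) ∈ Z),
      resZ ⟨fa (algebraMap Kb (Fb (M * q)) (c : Kb)), h⟩ = ιk (residue B c) := by
    subst hfa
    exact hconstres
  have hleF : ∀ i, ∀ y ∈ ((annulusLevels_modular_final B hB hqM hne e').level i).R, fb y ∈ Z := by
    subst hfb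
    exact hle
  have hnuF : ∀ i (y : ((annulusLevels_modular_final B hB hqM hne e').level i).R), ¬ IsUnit y →
      Z.valuation (fb (y : Fb (M * q))) < 1 := by
    subst hfb
    exact hnu
  have htF : fb (y1 M q) / fa (algebraMap Kb (Fb (M * q)) a₀) ∈ Z := by
    subst hfa hfb
    exact ht
  have hτ0F : resZ ⟨fb (y1 M q) / fa (algebraMap Kb (Fb (M * q)) a₀), htF⟩ ≠ 0 := by
    subst hfa hfb
    exact hτ0
  have hτF : ∀ ω c : kB, ω ≠ 0 → ιk ω - ιk c *
      resZ ⟨fb (y1 M q) / fa (algebraMap Kb (Fb (M * q)) a₀), htF⟩ ≠ 0 := by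
    subst hfa hfb
    exact hτ
  obtain ⟨hO, ω, hω, hxbZ, hprod⟩ := comap_eq_circleRing
    (annulusLevels_modular_final B hB hqM hne e') fa fb habF Z resZ hker ιk hconstF hconstresF
    hleF hnuF hb1 hb2 ha0
    (x1_mem_level B hB hqM hne e' S) (y1_mem_level B hB hqM hne e' S)
    (psiK_mem_level B hB hqM hne e' S) hR' x1_mul_y1 hκ₀ hord hβ' hred' htF hτ0F hτF
  subst hfa hfb
  refine ⟨hO, β', hβ', hred', ω, hω, ?_⟩
  obtain ⟨φ, hφ⟩ := exists_resHom_comap
    (annulusLevels_modular_final B hB hqM hne e').core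
    (beta2 M q : Fb (M * q) →+* Fb (M * q * q)) Z resZ hker hb1 hb2 hO
  refine ⟨φ, hφ, ?_, ?_⟩
  · intro c
    obtain ⟨c', rfl⟩ := residue_surjective c
    have hcO : algebraMap Kb (Fb (M * q)) (c' : Kb) ∈
        circleRing (annulusLevels_modular_final B hB hqM hne e').core (a₀ ^ q) hb1 hb2 :=
      (algebraMap_mem_circleRing_iff _ (a₀ ^ q) hb1 hb2 _).mpr c'.2
    have hcZ : alpha2 M q (algebraMap Kb (Fb (M * q)) (c' : Kb)) ∈ Z := (hconst _).mpr c'.2
    have hcZ' : beta2 M q (algebraMap Kb (Fb (M * q)) (c' : Kb)) ∈ Z := by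
      rw [beta2_algebraMap]; exact hcZ
    have h1 := hφ _ hcO hcZ'
    rw [circleRes_algebraMap _ (a₀ ^ q) hb1 hb2 (c' : Kb) c'.2, RatFunc.algebraMap_eq_C] at h1
    rw [← h1, ← hιkC, ← hconstres c' hcZ]
    congr 1
    exact Subtype.ext (beta2_algebraMap _)
  · have hxO' : (a₀ ^ q)⁻¹ • x1 M q ∈
        circleRing (annulusLevels_modular_final B hB hqM hne e').core (a₀ ^ q) hb1 hb2 :=
      ⟨_, hred'⟩
    have h1 := hφ _ hxO' hxbZ
    rw [circleRes_mk _ (a₀ ^ q) hb1 hb2 hred'] at h1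
    rw [← h1, ← htres, ← hιkC]
    exact hprod

end Fermat.Agent.BR3.VertBetaMain
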