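import Mathlib
import Fermat.Agent.BR3.VertBetaMain

/-!
# Program C (S36), node (I7-ZE-B), part (iii), general generator: the vertical component along
`b = β₂` is the ring of the `b`-critical circle

The statement of `VertBetaMain.comap_beta2_eq_circleRing` for an ARBITRARY generator: `Z` a valuation
subring of `Fb (M q q)` over the circle of gauge `a₀` of the tube of the crossing `e` along `α₂`,
residue field `k(T)[Ũ]/(vertBar q β ρ)`, `Ũ` the residue of `Ugen / a₀`, and `xa / a₀` reduces to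
`β T` on the `a`-circle.  At the crossing `e'`: `x' y' = q z'` in a level, `z'` a unit, `x'` a simple
zero on the branch `s₁ e'`, and the EXACT identity `β₂ y' = Ugen + α₂ xa`.

Instances: `(xa, x', y', Ugen) = (x₁, x₁, y₁, U)` (`VertBetaMain`, the `j`-line) and
`(α g - (β g')^q, α g' - (β g⁗)^q, β g - (α g')^q, U_g)` for a twisted chain `g⁗, g', g, g''`
(`BR3/VertBetaAll`: every supersingular crossing).
-/

set_option autoImplicit false
set_option linter.unusedSectionVars false
set_option linter.style.haveILetI false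
set_option synthInstance.maxHeartbeats 400000

noncomputable section

/- S36 build-time patch: file-local shortcut instances. They only shorten instance search;
each is the instance that the search finds anyway (reducible, same terms after unfolding). -/
local instance (priority := 100000) Fermat.Agent.BR3.FastInst.instAlgFullC_VertBetaGen
    {k : Type*} [Field k] (N : ℕ) :
    Algebra k ↥(ModularCurve.modularFunctionFieldFullC k N) := inferInstance
local instance (priority := 100000) Fermat.Agent.BR3.FastInst.instFieldFullC_VertBetaGen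
    {k : Type*} [Field k] (N : ℕ) :
    Field ↥(ModularCurve.modularFunctionFieldFullC k N) := inferInstance
local instance (priority := 100000) Fermat.Agent.BR3.FastInst.instAlgLaurent_VertBetaGen
    {k : Type*} [Field k] : Algebra k (LaurentSeries k) := inferInstance


namespace Fermat.Agent.BR3.VertBetaGen

open Polynomial ModularCurve AlgebraicCurve IsLocalRing
open Fermat.Agent.X0 Fermat.Agent.Val Fermat.Agent.Red Fermat.Agent.BR.Kron
open Fermat.Agent.BR.SS Fermat.Agent.BR.Refine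
open Fermat.Agent.BR.Circle Fermat.Agent.BR.S0 Fermat.Agent.BR.S0.RedModular
open Fermat.Agent.BR.S0.PointDict Fermat.Agent.BR.S0.AnnulusChartOfLevels
open Fermat.Agent.BR.Inst.AnnulusInstFinal Fermat.Agent.BR.Final
open Fermat.Agent.BR3.FibreProd Fermat.Agent.BR3.VertResidue
open Fermat.Agent.BR3.VertLevelMem Fermat.Agent.BR3.VertMain Fermat.Agent.BR3.VertTube
open Fermat.Agent.BR3.VertBetaAbs Fermat.Agent.BR3.VertBetaMain

variable {M q : ℕ} [NeZero M] [hq : Fact q.Prime]
variable (B : ValuationSubring Kb) (hB : B.LiesOverPrime q) (hqM : ¬ q ∣ M)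
  [IsAlgClosed (ResidueField B)]
  (hne : Nonempty (Crossing (chartDataModular B hB hqM)))
  (e e' : Crossing (chartDataModular B hB hqM))

local notation "kB" => ResidueField B

set_option maxHeartbeats 1600000 in
/-- **(I7-ZE-B): the vertical component `z e` along `β₂` lies over the `b`-critical circle at `e'`,
gauge `a₀^q`, and its residue map along `β₂` is explicit.** -/
theorem comap_beta2_eq_circleRing_gen (a₀ : Kb)
    (ha1 : B.valuation (annulusLevels_modular_final B hB hqM hne e).core.thick < B.valuation a₀)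
    (ha2 : B.valuation a₀ < 1) (ha₀ : B.valuation a₀ ^ (q + 1) = B.valuation (q : Kb))
    {β ρ : kB} {xa : Fb (M * q)}
    (hred : IsRed (annulusLevels_modular_final B hB hqM hne e).core a₀ (a₀⁻¹ • xa)
      (RatFunc.C β * RatFunc.X))
    (Z : ValuationSubring (Fb (M * q * q))) (resZ : Z →+* AdjoinRoot (vertBar q β ρ))
    (hcomap : Z.comap (alpha2 M q : Fb (M * q) →+* Fb (M * q * q)) =
      circleRing (annulusLevels_modular_final B hB hqM hne e).core a₀ ha1 ha2)
    (hker : ∀ z : Z, resZ z = 0 ↔ ¬ IsUnit z)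
    (hcompat : ∀ (y : circleRing (annulusLevels_modular_final B hB hqM hne e).core a₀ ha1 ha2)
      (h : alpha2 M q (y : Fb (M * q)) ∈ Z),
      resZ ⟨alpha2 M q (y : Fb (M * q)), h⟩ =
        AdjoinRoot.of (vertBar q β ρ)
          (circleRes (annulusLevels_modular_final B hB hqM hne e).core a₀ ha1 ha2 y))
    {Ugen : Fb (M * q * q)}
    (hθ : ∃ hθ : Ugen / alpha2 M q (algebraMap Kb (Fb (M * q)) a₀) ∈ Z,
      resZ ⟨Ugen / alpha2 M q (algebraMap Kb (Fb (M * q)) a₀), hθ⟩ =
        AdjoinRoot.root (vertBar q β ρ))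
    -- the crossing under `z e` along `b`
    (hthick' : B.valuation (annulusLevels_modular_final B hB hqM hne e').core.thick =
      B.valuation (q : Kb))
    (S : Finset Kb) {x' y' z' : Fb (M * q)}
    (hx' : x' ∈ ((annulusLevels_modular_final B hB hqM hne e').level S).R)
    (hy' : y' ∈ ((annulusLevels_modular_final B hB hqM hne e').level S).R)
    (hz' : z' ∈ ((annulusLevels_modular_final B hB hqM hne e').level S).R)
    (hR' : IsUnit (⟨z', hz'⟩ : ((annulusLevels_modular_final B hB hqM hne e').level S).R))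
    (hxyz : x' * y' = (q : Kb) • z')
    (hsx' : ((setupFinal B hB hqM hne).s₁ e').ord
      ((setupFinal B hB hqM hne).res ((setupFinal B hB hqM hne).src e')
        ⟨x', (branchData_modular_final B hB hqM hne e').le₁ S x' hx'⟩) = 1)
    (hid : beta2 M q y' = Ugen + alpha2 M q xa)
    (hle : ∀ S', ∀ y ∈ ((annulusLevels_modular_final B hB hqM hne e').level S').R,
      beta2 M q y ∈ Z)
    (hnu : ∀ S' (y : ((annulusLevels_modular_final B hB hqM hne e').level S').R), ¬ IsUnit y →
      Z.valuation (beta2 M q (y : Fb (M * q))) < 1) :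
    ∃ (hb1 : B.valuation (annulusLevels_modular_final B hB hqM hne e').core.thick <
        B.valuation (a₀ ^ q)) (hb2 : B.valuation (a₀ ^ q) < 1),
      Z.comap (beta2 M q : Fb (M * q) →+* Fb (M * q * q)) =
        circleRing (annulusLevels_modular_final B hB hqM hne e').core (a₀ ^ q) hb1 hb2 ∧
      ∃ β' : kB, β' ≠ 0 ∧
        IsRed (annulusLevels_modular_final B hB hqM hne e').core (a₀ ^ q)
          ((a₀ ^ q)⁻¹ • x') (RatFunc.C β' * RatFunc.X) ∧
      ∃ ω : kB, ω ≠ 0 ∧
      ∃ φ : RatFunc kB →+* AdjoinRoot (vertBar q β ρ),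
        (∀ (y : Fb (M * q))
          (hy : y ∈ circleRing (annulusLevels_modular_final B hB hqM hne e').core (a₀ ^ q) hb1 hb2)
          (h : beta2 M q y ∈ Z),
          resZ ⟨beta2 M q y, h⟩ =
            φ (circleRes (annulusLevels_modular_final B hB hqM hne e').core (a₀ ^ q) hb1 hb2
              ⟨y, hy⟩)) ∧
        (∀ c : kB, φ (RatFunc.C c) = AdjoinRoot.of (vertBar q β ρ) (RatFunc.C c)) ∧
        φ (RatFunc.C β' * RatFunc.X) *
          (AdjoinRoot.root (vertBar q β ρ) +
            AdjoinRoot.of (vertBar q β ρ) (RatFunc.C β * RatFunc.X)) =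
          AdjoinRoot.of (vertBar q β ρ) (RatFunc.C ω) := by
  obtain ⟨hb1, hb2⟩ := gauge_b B ha2 ha₀ hthick'
  refine ⟨hb1, hb2, ?_⟩
  have hq2 : 2 ≤ q := hq.out.two_le
  haveI : Nontrivial (AdjoinRoot (vertBar q β ρ)) := by
    refine AdjoinRoot.nontrivial _ ?_
    rw [Polynomial.degree_eq_natDegree (vertBar_monic hq2).ne_zero, vertBar_natDegree hq2]
    exact_mod_cast (by omega : q ≠ 0)
  have ha0 : a₀ ≠ 0 := gauge_ne_zero (C := (annulusLevels_modular_final B hB hqM hne e).core) ha1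
  -- the `b`-coordinate
  obtain ⟨β', hβ', hred'⟩ := exists_isRed_inv_smul_of_levels
    (branchData_modular_final B hB hqM hne e') (a₀ ^ q) hb1 S hx' hy' hz' hR'
    natCast_ne_zero_Kb hxyz hsx'
  have hord := ord_eq_zero_of_mul_eq_smul (annulusLevels_modular_final B hB hqM hne e') S
    hx' hy' hz' hR' (natCast_ne_zero_Kb (q := q)) hxyz
  -- the constants
  obtain ⟨ιk, hιk⟩ : ∃ ιk : kB →+* AdjoinRoot (vertBar q β ρ),
      ιk = (AdjoinRoot.of (vertBar q β ρ)).comp (algebraMap kB (RatFunc kB)) := ⟨_, rfl⟩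
  have hιkC : ∀ c : kB, ιk c = AdjoinRoot.of (vertBar q β ρ) (RatFunc.C c) := by
    intro c
    rw [hιk, RingHom.comp_apply, RatFunc.algebraMap_eq_C]
  have hmemA : ∀ y : Fb (M * q), alpha2 M q y ∈ Z ↔
      y ∈ circleRing (annulusLevels_modular_final B hB hqM hne e).core a₀ ha1 ha2 := by
    intro y
    rw [← hcomap, ValuationSubring.mem_comap]
    rfl
  have hconst : ∀ c : Kb, alpha2 M q (algebraMap Kb (Fb (M * q)) c) ∈ Z ↔ c ∈ B := by
    intro c
    rw [hmemA]
    exact algebraMap_mem_circleRing_iff _ a₀ ha1 ha2 c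
  have hconstres : ∀ (c : B) (h : alpha2 M q (algebraMap Kb (Fb (M * q)) (c : Kb)) ∈ Z),
      resZ ⟨alpha2 M q (algebraMap Kb (Fb (M * q)) (c : Kb)), h⟩ = ιk (residue B c) := by
    intro c h
    have hcO := (hmemA _).mp h
    rw [hcompat ⟨_, hcO⟩ h, circleRes_algebraMap _ a₀ ha1 ha2 (c : Kb) c.2, hιk]
    rfl
  -- the residue `τ`
  obtain ⟨hθm, hθres⟩ := hθ
  have hxO : a₀⁻¹ • xa ∈
      circleRing (annulusLevels_modular_final B hB hqM hne e).core a₀ ha1 ha2 := ⟨_, hred⟩
  have hxZ : alpha2 M q (a₀⁻¹ • xa) ∈ Z := (hmemA _).mpr hxO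
  have hxres : resZ ⟨alpha2 M q (a₀⁻¹ • xa), hxZ⟩ =
      AdjoinRoot.of (vertBar q β ρ) (RatFunc.C β * RatFunc.X) := by
    rw [hcompat ⟨_, hxO⟩ hxZ, circleRes_mk _ a₀ ha1 ha2 hred]
  have haF : alpha2 M q (algebraMap Kb (Fb (M * q)) a₀) ≠ 0 :=
    (_root_.map_ne_zero _).mpr ((_root_.map_ne_zero _).mpr ha0)
  have ht_eq : beta2 M q y' / alpha2 M q (algebraMap Kb (Fb (M * q)) a₀) =
      Ugen / alpha2 M q (algebraMap Kb (Fb (M * q)) a₀) + alpha2 M q (a₀⁻¹ • xa) := by
    rw [hid, Algebra.smul_def, map_mul, map_inv₀, map_inv₀]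
    field_simp
  have ht : beta2 M q y' / alpha2 M q (algebraMap Kb (Fb (M * q)) a₀) ∈ Z := by
    rw [ht_eq]
    exact Z.add_mem _ _ hθm hxZ
  have htres : resZ ⟨beta2 M q y' / alpha2 M q (algebraMap Kb (Fb (M * q)) a₀), ht⟩ =
      AdjoinRoot.root (vertBar q β ρ) +
        AdjoinRoot.of (vertBar q β ρ) (RatFunc.C β * RatFunc.X) := by
    have e1 : (⟨beta2 M q y' / alpha2 M q (algebraMap Kb (Fb (M * q)) a₀), ht⟩ : Z) =
        ⟨Ugen / alpha2 M q (algebraMap Kb (Fb (M * q)) a₀), hθm⟩ +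
          ⟨alpha2 M q (a₀⁻¹ • xa), hxZ⟩ := Subtype.ext ht_eq
    rw [e1, map_add, hθres, hxres]
  -- the valuations of the gauges
  have hκ₀ : B.valuation (q : Kb) = B.valuation a₀ * B.valuation (a₀ ^ q) := by
    rw [← ha₀, map_pow, pow_succ, mul_comm]
  -- the abstract theorem
  have hτ0 : resZ ⟨beta2 M q y' / alpha2 M q (algebraMap Kb (Fb (M * q)) a₀), ht⟩ ≠ 0 := by
    rw [htres]; exact root_add_ne_zero hq2
  have hτ : ∀ ω c : kB, ω ≠ 0 → ιk ω - ιk c *
      resZ ⟨beta2 M q y' / alpha2 M q (algebraMap Kb (Fb (M * q)) a₀), ht⟩ ≠ 0 := by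
    intro ω c hω
    rw [htres, hιkC, hιkC]
    exact lin_ne_zero hq2 ω c hω
  obtain ⟨fa, hfa⟩ : ∃ fa : Fb (M * q) →+* Fb (M * q * q), fa = (alpha2 M q : _ →+* _) :=
    ⟨_, rfl⟩
  obtain ⟨fb, hfb⟩ : ∃ fb : Fb (M * q) →+* Fb (M * q * q), fb = (beta2 M q : _ →+* _) :=
    ⟨_, rfl⟩
  have hfa' : ∀ x, fa x = alpha2 M q x := fun x => by rw [hfa]; rfl
  have hfb' : ∀ x, fb x = beta2 M q x := fun x => by rw [hfb]; rfl
  have habF : ∀ c : Kb, fb (algebraMap Kb (Fb (M * q)) c) = fa (algebraMap Kb (Fb (M * q)) c) := by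
    intro c
    rw [hfa', hfb']
    exact beta2_algebraMap c
  have hconstF : ∀ c : Kb, fa (algebraMap Kb (Fb (M * q)) c) ∈ Z ↔ c ∈ B := by
    intro c
    rw [hfa']
    exact hconst c
  have hconstresF : ∀ (c : B) (h : fa (algebraMap Kb (Fb (M * q)) (c : Kb)) ∈ Z),
      resZ ⟨fa (algebraMap Kb (Fb (M * q)) (c : Kb)), h⟩ = ιk (residue B c) := by
    subst hfa
    exact hconstres
  have hleF : ∀ i, ∀ y ∈ ((annulusLevels_modular_final B hB hqM hne e').level i).R, fb y ∈ Z := by
    subst hfb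
    exact hle
  have hnuF : ∀ i (y : ((annulusLevels_modular_final B hB hqM hne e').level i).R), ¬ IsUnit y →
      Z.valuation (fb (y : Fb (M * q))) < 1 := by
    subst hfb
    exact hnu
  have htF : fb y' / fa (algebraMap Kb (Fb (M * q)) a₀) ∈ Z := by
    subst hfa hfb
    exact ht
  have hτ0F : resZ ⟨fb y' / fa (algebraMap Kb (Fb (M * q)) a₀), htF⟩ ≠ 0 := by
    subst hfa hfb
    exact hτ0
  have hτF : ∀ ω c : kB, ω ≠ 0 → ιk ω - ιk c *
      resZ ⟨fb y' / fa (algebraMap Kb (Fb (M * q)) a₀), htF⟩ ≠ 0 := by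
    subst hfa hfb
    exact hτ
  obtain ⟨hO, ω, hω, hxbZ, hprod⟩ := comap_eq_circleRing
    (annulusLevels_modular_final B hB hqM hne e') fa fb habF Z resZ hker ιk hconstF hconstresF
    hleF hnuF hb1 hb2 ha0
    hx' hy' hz' hR' hxyz hκ₀ hord hβ' hred' htF hτ0F hτF
  subst hfa hfb
  refine ⟨hO, β', hβ', hred', ω, hω, ?_⟩
  obtain ⟨φ, hφ⟩ := exists_resHom_comap
    (annulusLevels_modular_final B hB hqM hne e').core
    (beta2 M q : Fb (M * q) →+* Fb (M * q * q)) Z resZ hker hb1 hb2 hO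
  refine ⟨φ, hφ, ?_, ?_⟩
  · intro c
    obtain ⟨c', rfl⟩ := residue_surjective c
    have hcO : algebraMap Kb (Fb (M * q)) (c' : Kb) ∈
        circleRing (annulusLevels_modular_final B hB hqM hne e').core (a₀ ^ q) hb1 hb2 :=
      (algebraMap_mem_circleRing_iff _ (a₀ ^ q) hb1 hb2 _).mpr c'.2
    have hcZ : alpha2 M q (algebraMap Kb (Fb (M * q)) (c' : Kb)) ∈ Z := (hconst _).mpr c'.2
    have hcZ' : beta2 M q (algebraMap Kb (Fb (M * q)) (c' : Kb)) ∈ Z := by
      rw [beta2_algebraMap]; exact hcZ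
    have h1 := hφ _ hcO hcZ'
    rw [circleRes_algebraMap _ (a₀ ^ q) hb1 hb2 (c' : Kb) c'.2, RatFunc.algebraMap_eq_C] at h1
    rw [← h1, ← hιkC, ← hconstres c' hcZ]
    congr 1
    exact Subtype.ext (beta2_algebraMap _)
  · have hxO' : (a₀ ^ q)⁻¹ • x' ∈
        circleRing (annulusLevels_modular_final B hB hqM hne e').core (a₀ ^ q) hb1 hb2 :=
      ⟨_, hred'⟩
    have h1 := hφ _ hxO' hxbZ
    rw [circleRes_mk _ (a₀ ^ q) hb1 hb2 hred'] at h1
    rw [← h1, ← htres, ← hιkC]
    exact hprod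

end Fermat.Agent.BR3.VertBetaGen
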