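import Mathlib
import Fermat.Agent.BR3.VertBetaGen
import Fermat.Agent.BR3.VertBetaFr
import Fermat.Agent.BR3.VertAllParam
import Fermat.Agent.BR3.SSParamAll
import Fermat.Agent.BR3.SSParamOfLocal

/-!
# Program C (S36), node (I7-ZE-B), every supersingular crossing: the vertical component along
`b = β₂` is the ring of the `b`-critical circle at the swapped crossing

`e` a crossing of main's two-component model of `X₀(M q)`, `Fr e` the swapped crossing
(`VertBetaFr.Fr`), `(g, g', g'')` a twisted triple with simple zeros at `e` (`SSParam.IsSSParam`).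

* `beta2_yg` : the EXACT identity `β₂ (β g - (α g')^q) = U_g + α₂ (α g - (β g')^q)`;
* `exists_chain` : an untwist `g⁗` of `g'` gives a twisted triple `(g', g⁗, g)` with simple zeros at
  `Fr e` (the ss points are `𝔽_{q²}`-rational: `z₁ e = σ • z₂ e`);
* `exists_tube_data` : the Kronecker pair `x_g y_g = q Ψ₁(α g)` in the base level of the tube of `e`,
  `Ψ₁(α g)` a unit;
* **`comap_beta2_eq_circleRing_ss`** : for the vertical component `Z` of a chain
  (`hred`, generator `U_g / a₀`), `Z.comap β₂ = circleRing (L (Fr e)).core (a₀^q)` and the residue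
  map along `β₂` is explicit — modulo the domination hypotheses `hle`, `hnu` of part (ii);
* **`exists_vertComponent_ss_beta`** : the vertical component at EVERY supersingular crossing with
  its two restrictions (along `α₂` over the `a`-circle at `e`, along `β₂` over the `b`-circle at
  `Fr e`), gauge given.
-/

set_option autoImplicit false
set_option linter.unusedSectionVars false
set_option linter.style.haveILetI false
set_option synthInstance.maxHeartbeats 400000

noncomputable section

/- S36 build-time patch: file-local shortcut instances. They only shorten instance search;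
each is the instance that the search finds anyway (reducible, same terms after unfolding). -/
local instance (priority := 100000) Fermat.Agent.BR3.FastInst.instAlgFullC_VertBetaAll
    {k : Type*} [Field k] (N : ℕ) :
    Algebra k ↥(ModularCurve.modularFunctionFieldFullC k N) := inferInstance
local instance (priority := 100000) Fermat.Agent.BR3.FastInst.instFieldFullC_VertBetaAll
    {k : Type*} [Field k] (N : ℕ) :
    Field ↥(ModularCurve.modularFunctionFieldFullC k N) := inferInstance
local instance (priority := 100000) Fermat.Agent.BR3.FastInst.instAlgLaurent_VertBetaAll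
    {k : Type*} [Field k] : Algebra k (LaurentSeries k) := inferInstance


namespace Fermat.Agent.BR3.VertBetaAll

open Polynomial ModularCurve AlgebraicCurve IsLocalRing
open Fermat.Agent.X0 Fermat.Agent.Val Fermat.Agent.Red Fermat.Agent.Hecke
open Fermat.Agent.BR.SS Fermat.Agent.BR.Refine Fermat.Agent.BR.TwoVal Fermat.Agent.BR.TwoValInst
open Fermat.Agent.BR.ResGen
open Fermat.Agent.BR.Circle Fermat.Agent.BR.S0 Fermat.Agent.BR.S0.RedModular
open Fermat.Agent.BR.S0.PointDict Fermat.Agent.BR.S0.AnnulusChartOfLevels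
open Fermat.Agent.BR.S0.Modular Fermat.Agent.BR.S0.ThickFinal
open Fermat.Agent.BR.Inst.Levels Fermat.Agent.BR.Inst.NormalModel Fermat.Agent.BR.Inst.LevelsInst
open Fermat.Agent.BR.Inst.SpecIso
open Fermat.Agent.BR.Inst.AnnulusInstFinal Fermat.Agent.BR.Final
open Fermat.Agent.BR3.FibreProd Fermat.Agent.BR3.VertResidue Fermat.Agent.BR3.HeckePoly
open Fermat.Agent.BR3.HeckePolyKron Fermat.Agent.BR3.HeckePolyModel
open Fermat.Agent.BR3.HeckePolyDescent
open Fermat.Agent.BR3.VertCircleMod Fermat.Agent.BR3.VertLevelMem Fermat.Agent.BR3.VertFinal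
open Fermat.Agent.BR3.VertTube Fermat.Agent.BR3.VertAllLevels Fermat.Agent.BR3.VertAll
open Fermat.Agent.BR3.VertAllParam
open Fermat.Agent.BR3.ThickOneFinal Fermat.Agent.BR3.ThickOneUnit Fermat.Agent.BR3.SSParam
open Fermat.Agent.BR3.SSParamOfLocal Fermat.Agent.BR3.SSParamAll Fermat.Agent.BR3.SimpleZeros
open Fermat.Agent.BR3.VertBetaFr Fermat.Agent.BR3.VertBetaGen Fermat.Agent.BR3.VertBetaMain

variable {M q : ℕ} [NeZero M] [hq : Fact q.Prime]

/-- **The exact identity** `β₂ (β g - (α g')^q) = U_g + α₂ (α g - (β g')^q)`. -/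
theorem beta2_yg (g g' : Fb M) :
    beta2 M q (heckeBetaBar Kb M q g - heckeAlphaBar Kb M q g' ^ q) =
      Ug M q g + alpha2 M q (heckeAlphaBar Kb M q g - heckeBetaBar Kb M q g' ^ q) := by
  rw [Ug, map_sub, map_sub, map_pow, map_pow, ← alpha2_beta1]
  ring

variable (B : ValuationSubring Kb) (hB : B.LiesOverPrime q) (hqM : ¬ q ∣ M)
  [IsAlgClosed (ResidueField B)] [CharP (ResidueField B) q]
  (hne : Nonempty (Crossing (chartDataModular B hB hqM)))
  (e : Crossing (chartDataModular B hB hqM))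

local notation "kB" => ResidueField B

/-! ### the chain -/

set_option maxHeartbeats 1600000 in
/-- **The swapped triple**: if `(g, g', g'')` is a twisted triple with simple zeros at `e` and `g̃`
is a local parameter at `z₁ e`, an untwist `g⁗` of `g'` gives the twisted triple `(g', g⁗, g)` with
simple zeros at `Fr e`. -/
theorem exists_chain {g g' g'' : Fb M} (P : IsSSParam B hB hqM e g g' g'')
    (hloc : (z₁ (chartDataModular B hB hqM) e).ord
      (redMF B hB hqM ⟨g, mem_OM_of_mem_CMod_base B hB hqM P.hg⟩) = 1) :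
    ∃ g₄ : Fb M, IsSSParam B hB hqM (Fr B hB hqM e) g' g₄ g := by
  obtain ⟨g₄, hg₄, h₄⟩ := exists_untwist_CMod (levelHyp_base B hB hqM) P.hg'
  refine ⟨g₄, isSSParam_of_localParams B hB hqM (Fr B hB hqM e) P.hg' hg₄ P.hg h₄ P.untwist
    ?_ ?_⟩
  · -- `g̃'` is a local parameter at `z₁ (Fr e) = z₂ e`
    have h1 : z₁ (chartDataModular B hB hqM) e =
        frobAutFullC kB M q • z₂ (chartDataModular B hB hqM) e :=
      z₂_eq_frob_smul_z₁ B hB hqM (Fr B hB hqM e)
    have h2 : redMF B hB hqM ⟨g, mem_OM_of_mem_CMod_base B hB hqM P.hg⟩ =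
        frobAutFullC kB M q • redMF B hB hqM ⟨g', mem_OM_of_mem_CMod_base B hB hqM P.hg'⟩ :=
      P.untwist
    rw [h1, h2, SemilinearAut.ord_smul] at hloc
    exact hloc
  · exact hloc

/-! ### the Kronecker pair in the base level of a tube -/

set_option maxHeartbeats 1600000 in
/-- **The Kronecker pair of a twisted triple in the base level of the tube of `e`**:
`x_g y_g = q Ψ₁(α g)` with `Ψ₁(α g)` a unit. -/
theorem exists_tube_data (h2 : nuTwo M = 0) (h3 : nuThree M = 0) {g g' g'' : Fb M}
    (P : IsSSParam B hB hqM e g g' g'') :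
    ∃ Ψ₁ : (Fb (M * q))[X],
      PAt M q g =
        (X ^ q - C (heckeBetaBar Kb M q g'')) * (X - C ((heckeBetaBar Kb M q g') ^ q)) +
          C ((q : ℕ) : Fb (M * q)) * Ψ₁ ∧
      (∀ k, Ψ₁.coeff k ∈
        ((annulusLevels_modular_final B hB hqM hne e).level (∅ : Finset Kb)).R) ∧
      ∃ (hx : heckeAlphaBar Kb M q g - (heckeBetaBar Kb M q g') ^ q ∈
          ((annulusLevels_modular_final B hB hqM hne e).level (∅ : Finset Kb)).R)
        (_ : heckeBetaBar Kb M q g'' - (heckeAlphaBar Kb M q g) ^ q ∈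
          ((annulusLevels_modular_final B hB hqM hne e).level (∅ : Finset Kb)).R)
        (hz : Ψ₁.eval (heckeAlphaBar Kb M q g) ∈
          ((annulusLevels_modular_final B hB hqM hne e).level (∅ : Finset Kb)).R),
        IsUnit (⟨_, hz⟩ :
          ((annulusLevels_modular_final B hB hqM hne e).level (∅ : Finset Kb)).R) ∧
        (heckeAlphaBar Kb M q g - (heckeBetaBar Kb M q g') ^ q) *
          (heckeBetaBar Kb M q g'' - (heckeAlphaBar Kb M q g) ^ q) =
          (q : Kb) • Ψ₁.eval (heckeAlphaBar Kb M q g) ∧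
        ((setupFinal B hB hqM hne).s₁ e).ord
          ((setupFinal B hB hqM hne).res ((setupFinal B hB hqM hne).src e)
            ⟨_, (branchData_modular_final B hB hqM hne e).le₁ ∅ _ hx⟩) = 1 := by
  obtain ⟨Ψ₁, hΨ, hP⟩ := exists_kronecker_PAt_q B hB hqM P.hg P.hg' P.hg'' P.untwist P.twist
  have hgO := mem_OM_of_mem_CMod (levelHyp_base B hB hqM) P.hg
  have hg'O := mem_OM_of_mem_CMod (levelHyp_base B hB hqM) P.hg'
  have hg''O := mem_OM_of_mem_CMod (levelHyp_base B hB hqM) P.hg''
  have hαR := alpha_mem_level B hB hqM hne e P.hg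
  have hβ'R := beta_mem_level B hB hqM hne e P.hg'
  have hβ''R := beta_mem_level B hB hqM hne e P.hg''
  have hΨR : ∀ k, Ψ₁.coeff k ∈
      ((annulusLevels_modular_final B hB hqM hne e).level (∅ : Finset Kb)).R :=
    fun k => CQ0_le_level B hB hqM hne e (hΨ k)
  have hx : heckeAlphaBar Kb M q g - (heckeBetaBar Kb M q g') ^ q ∈
      ((annulusLevels_modular_final B hB hqM hne e).level (∅ : Finset Kb)).R :=
    sub_mem hαR (pow_mem hβ'R q)
  have hy : heckeBetaBar Kb M q g'' - (heckeAlphaBar Kb M q g) ^ q ∈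
      ((annulusLevels_modular_final B hB hqM hne e).level (∅ : Finset Kb)).R :=
    sub_mem hβ''R (pow_mem hαR q)
  have hz : Ψ₁.eval (heckeAlphaBar Kb M q g) ∈
      ((annulusLevels_modular_final B hB hqM hne e).level (∅ : Finset Kb)).R :=
    eval_mem_of_coeff_mem _ hΨR hαR
  have hxyz := vg_mul_ug (M := M) (q := q) hqM hP
  have hx₂ : heckeAlphaBar Kb M q g - (heckeBetaBar Kb M q g') ^ q ∈
      (compW B hB hqM 1).O.nonunits := vg_mem_nonunits_O2 B hB hqM hgO hg'O P.untwist
  have hy₁ : heckeBetaBar Kb M q g'' - (heckeAlphaBar Kb M q g) ^ q ∈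
      (compW B hB hqM 0).O.nonunits := ug_mem_nonunits_O1 B hB hqM hgO hg''O P.twist
  have hxO := vg_mem_O1 B hB hqM hgO hg'O
  have hyO := ug_mem_O2 B hB hqM hgO hg''O
  have hR := isUnit_of_simple_zeros_final B hB hqM hne e h2 h3 hx hy hz hx₂ hy₁ hxO hyO
    (P.hxord hxO) (P.hyord hyO) hxyz
  exact ⟨Ψ₁, hP, hΨR, hx, hy, hz, hR, hxyz, P.hxord hxO⟩

/-! ### the vertical component along `β₂` at every supersingular crossing -/

set_option maxHeartbeats 1600000 in
/-- **(I7-ZE-B), every supersingular crossing**: for a chain `g₀, g', g, g''` (twisted triples with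
simple zeros at `e` and at `Fr e`) and the vertical component `Z` over the `a`-circle of gauge `a₀`
at `e` generated by `U_g / a₀`, the restriction of `Z` along `β₂` is the ring of the `b`-circle of
gauge `a₀^q` at `Fr e` — modulo the domination hypotheses of part (ii). -/
theorem comap_beta2_eq_circleRing_ss (h2 : nuTwo M = 0) (h3 : nuThree M = 0)
    {g₀ g' g : Fb M}
    (P' : IsSSParam B hB hqM (Fr B hB hqM e) g' g₀ g) (a₀ : Kb)
    (ha1 : B.valuation (annulusLevels_modular_final B hB hqM hne e).core.thick < B.valuation a₀)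
    (ha2 : B.valuation a₀ < 1) (ha₀ : B.valuation a₀ ^ (q + 1) = B.valuation (q : Kb))
    {β ρ : kB}
    (hred : IsRed (annulusLevels_modular_final B hB hqM hne e).core a₀
      (a₀⁻¹ • (heckeAlphaBar Kb M q g - (heckeBetaBar Kb M q g') ^ q))
      (RatFunc.C β * RatFunc.X))
    (Z : ValuationSubring (Fb (M * q * q))) (resZ : Z →+* AdjoinRoot (vertBar q β ρ))
    (hcomap : Z.comap (alpha2 M q : Fb (M * q) →+* Fb (M * q * q)) =
      circleRing (annulusLevels_modular_final B hB hqM hne e).core a₀ ha1 ha2)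
    (hker : ∀ z : Z, resZ z = 0 ↔ ¬ IsUnit z)
    (hcompat : ∀ (y : circleRing (annulusLevels_modular_final B hB hqM hne e).core a₀ ha1 ha2)
      (h : alpha2 M q (y : Fb (M * q)) ∈ Z),
      resZ ⟨alpha2 M q (y : Fb (M * q)), h⟩ =
        AdjoinRoot.of (vertBar q β ρ)
          (circleRes (annulusLevels_modular_final B hB hqM hne e).core a₀ ha1 ha2 y))
    (hθ : ∃ hθ : Ug M q g / alpha2 M q (algebraMap Kb (Fb (M * q)) a₀) ∈ Z,
      resZ ⟨Ug M q g / alpha2 M q (algebraMap Kb (Fb (M * q)) a₀), hθ⟩ =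
        AdjoinRoot.root (vertBar q β ρ))
    (hle : ∀ S',
      ∀ y ∈ ((annulusLevels_modular_final B hB hqM hne (Fr B hB hqM e)).level S').R,
        beta2 M q y ∈ Z)
    (hnu : ∀ S' (y : ((annulusLevels_modular_final B hB hqM hne (Fr B hB hqM e)).level S').R),
      ¬ IsUnit y → Z.valuation (beta2 M q (y : Fb (M * q))) < 1) :
    ∃ (hb1 : B.valuation (annulusLevels_modular_final B hB hqM hne (Fr B hB hqM e)).core.thick <
        B.valuation (a₀ ^ q)) (hb2 : B.valuation (a₀ ^ q) < 1),
      Z.comap (beta2 M q : Fb (M * q) →+* Fb (M * q * q)) =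
        circleRing (annulusLevels_modular_final B hB hqM hne (Fr B hB hqM e)).core (a₀ ^ q)
          hb1 hb2 ∧
      ∃ β' : kB, β' ≠ 0 ∧
        IsRed (annulusLevels_modular_final B hB hqM hne (Fr B hB hqM e)).core (a₀ ^ q)
          ((a₀ ^ q)⁻¹ • (heckeAlphaBar Kb M q g' - (heckeBetaBar Kb M q g₀) ^ q))
          (RatFunc.C β' * RatFunc.X) ∧
      ∃ ω : kB, ω ≠ 0 ∧
      ∃ φ : RatFunc kB →+* AdjoinRoot (vertBar q β ρ),
        (∀ (y : Fb (M * q))
          (hy : y ∈ circleRing (annulusLevels_modular_final B hB hqM hne (Fr B hB hqM e)).core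
            (a₀ ^ q) hb1 hb2)
          (h : beta2 M q y ∈ Z),
          resZ ⟨beta2 M q y, h⟩ =
            φ (circleRes (annulusLevels_modular_final B hB hqM hne (Fr B hB hqM e)).core (a₀ ^ q)
              hb1 hb2 ⟨y, hy⟩)) ∧
        (∀ c : kB, φ (RatFunc.C c) = AdjoinRoot.of (vertBar q β ρ) (RatFunc.C c)) ∧
        φ (RatFunc.C β' * RatFunc.X) *
          (AdjoinRoot.root (vertBar q β ρ) +
            AdjoinRoot.of (vertBar q β ρ) (RatFunc.C β * RatFunc.X)) =
          AdjoinRoot.of (vertBar q β ρ) (RatFunc.C ω) := by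
  obtain ⟨Ψ₁, -, -, hx', hy', hz', hR', hxyz', hsx'⟩ :=
    exists_tube_data B hB hqM hne (Fr B hB hqM e) h2 h3 P'
  have hthick' : B.valuation (annulusLevels_modular_final B hB hqM hne (Fr B hB hqM e)).core.thick =
      B.valuation (q : Kb) := valuation_thick_levels_final B hB hqM h2 h3 hne (Fr B hB hqM e)
  exact comap_beta2_eq_circleRing_gen B hB hqM hne e (Fr B hB hqM e) a₀ ha1 ha2 ha₀ hred Z resZ
    hcomap hker hcompat hθ hthick' ∅ hx' hy' hz' hR' hxyz' hsx' (beta2_yg g g') hle hnu

set_option maxHeartbeats 1600000 in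
/-- **The vertical component at EVERY supersingular crossing, gauge given, with the reduction of the
`a`-coordinate**: `VertAllParam.exists_vertComponent_of_param_gauge` keeping `hred`. -/
theorem exists_vertComponent_of_param_gauge_red (h2 : nuTwo M = 0) (h3 : nuThree M = 0)
    {g g' g'' : Fb M} (P : IsSSParam B hB hqM e g g' g'') (a₀ : Kb)
    (ha1 : B.valuation (annulusLevels_modular_final B hB hqM hne e).core.thick <
      B.valuation a₀) (ha2 : B.valuation a₀ < 1)
    (ha₀ : B.valuation a₀ ^ (q + 1) = B.valuation (q : Kb)) :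
    ∃ β : kB, β ≠ 0 ∧
      IsRed (annulusLevels_modular_final B hB hqM hne e).core a₀
        (a₀⁻¹ • (heckeAlphaBar Kb M q g - (heckeBetaBar Kb M q g') ^ q))
        (RatFunc.C β * RatFunc.X) ∧
      ∃ ρ : kB, ρ ≠ 0 ∧
      ∃ (Z : ValuationSubring (Fb (M * q * q))) (resZ : Z →+* AdjoinRoot (vertBar q β ρ)),
        Z.comap (alpha2 M q : Fb (M * q) →+* Fb (M * q * q)) =
          circleRing (annulusLevels_modular_final B hB hqM hne e).core a₀ ha1 ha2 ∧
        (∀ Z' : ValuationSubring (Fb (M * q * q)),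
          Z'.comap (alpha2 M q : Fb (M * q) →+* Fb (M * q * q)) =
            circleRing (annulusLevels_modular_final B hB hqM hne e).core a₀ ha1 ha2 → Z' = Z) ∧
        Function.Surjective resZ ∧ (∀ z : Z, resZ z = 0 ↔ ¬ IsUnit z) ∧
        (∀ (y : circleRing (annulusLevels_modular_final B hB hqM hne e).core a₀ ha1 ha2)
          (h : alpha2 M q (y : Fb (M * q)) ∈ Z),
          resZ ⟨alpha2 M q (y : Fb (M * q)), h⟩ =
            AdjoinRoot.of (vertBar q β ρ)
              (circleRes (annulusLevels_modular_final B hB hqM hne e).core a₀ ha1 ha2 y)) ∧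
        ∃ hθ : Ug M q g / alpha2 M q (algebraMap Kb (Fb (M * q)) a₀) ∈ Z,
          resZ ⟨Ug M q g / alpha2 M q (algebraMap Kb (Fb (M * q)) a₀), hθ⟩ =
            AdjoinRoot.root (vertBar q β ρ) := by
  obtain ⟨Ψ₁, hP, hΨR, hx, hy, hz, hR, hxyz, hsx⟩ := exists_tube_data B hB hqM hne e h2 h3 P
  have hq0 : ((q : ℕ) : Kb) ≠ 0 := Nat.cast_ne_zero.mpr hq.out.ne_zero
  obtain ⟨β, hβ, hred⟩ := exists_isRed_inv_smul_of_levels
    (branchData_modular_final B hB hqM hne e) a₀ ha1 ∅ hx hy hz hR hq0 hxyz hsx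
  obtain ⟨ρ, hρ, Z, resZ, hZ⟩ := exists_vertComponent_of_levels_tw hqM
    (annulusLevels_modular_final B hB hqM hne e) a₀ ha1 ha2 ha₀ ∅ P.nonconst hP
    (beta_mem_level B hB hqM hne e P.hg') (alpha_mem_level B hB hqM hne e P.hg) hΨR hz hR
    hβ hred
  exact ⟨β, hβ, hred, ρ, hρ, Z, resZ, hZ⟩

end Fermat.Agent.BR3.VertBetaAll
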