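import Mathlib
import Fermat.Agent.BR3.VertBetaAll
import Fermat.Agent.BR3.SSParamChain

/-!
# Program C (S36), node (I7-ZE-B): the vertical component at EVERY supersingular crossing with its
TWO restrictions, gauge given

`exists_vertComponent_ss_gauge_beta` : for every crossing `e` of main's two-component model of
`X₀(M q)` (`M` without elliptic points) and every gauge `a₀` (`|a₀|^(q+1) = |q|`) there are a chain
`g₀, g', g, g''` of twisted triples (`SSParamChain.exists_isSSParam_chain`) and THE valuation ring
`Z` of `Fb (M q q)` with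

* `Z.comap α₂ = circleRing (L e).core a₀` (unique such), residue field
  `k(T)[Ũ]/(Ũ^q + β T Ũ^(q-1) - ρ/(β T))`, `Ũ` the residue of `U_g / a₀`, `β T` the reduction of the
  coordinate `(α g - (β g')^q) / a₀`;
* `Z.comap β₂ = circleRing (L (Fr e)).core (a₀^q)`, the residue map along `β₂` is `φ ∘ circleRes`,
  `φ (C c) = C c`, `φ (β' T) * (Ũ + β T) = ω`, where `β' T` is the reduction of the coordinate
  `(α g' - (β g₀)^q) / a₀^q`, `ω ≠ 0` a constant.

The only input is `hcentre`: the domination of the level rings of the tube of `Fr e` by `Z.comap β₂`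
(part (ii) of (I7-ZE-B), for any `Z` over the `a`-circle).
-/

set_option autoImplicit false
set_option linter.unusedSectionVars false
set_option linter.style.haveILetI false
set_option synthInstance.maxHeartbeats 400000

noncomputable section

/- S36 build-time patch: file-local shortcut instances. They only shorten instance search;
each is the instance that the search finds anyway (reducible, same terms after unfolding). -/
local instance (priority := 100000) Fermat.Agent.BR3.FastInst.instAlgFullC_VertBetaSS
    {k : Type*} [Field k] (N : ℕ) :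
    Algebra k ↥(ModularCurve.modularFunctionFieldFullC k N) := inferInstance
local instance (priority := 100000) Fermat.Agent.BR3.FastInst.instFieldFullC_VertBetaSS
    {k : Type*} [Field k] (N : ℕ) :
    Field ↥(ModularCurve.modularFunctionFieldFullC k N) := inferInstance
local instance (priority := 100000) Fermat.Agent.BR3.FastInst.instAlgLaurent_VertBetaSS
    {k : Type*} [Field k] : Algebra k (LaurentSeries k) := inferInstance


namespace Fermat.Agent.BR3.VertBetaSS

open Polynomial ModularCurve AlgebraicCurve IsLocalRing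
open Fermat.Agent.X0 Fermat.Agent.Val Fermat.Agent.Red Fermat.Agent.Hecke
open Fermat.Agent.BR.Circle Fermat.Agent.BR.S0 Fermat.Agent.BR.S0.RedModular
open Fermat.Agent.BR.S0.PointDict
open Fermat.Agent.BR.Inst.AnnulusInstFinal
open Fermat.Agent.BR3.FibreProd Fermat.Agent.BR3.VertResidue Fermat.Agent.BR3.HeckePoly
open Fermat.Agent.BR3.SSParam Fermat.Agent.BR3.SSParamChain
open Fermat.Agent.BR3.VertBetaFr Fermat.Agent.BR3.VertBetaAll

variable {M q : ℕ} [NeZero M] [hq : Fact q.Prime]
variable (B : ValuationSubring Kb) (hB : B.LiesOverPrime q) (hqM : ¬ q ∣ M)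
  [IsAlgClosed (ResidueField B)] [CharP (ResidueField B) q]
  (hne : Nonempty (Crossing (chartDataModular B hB hqM)))
  (e : Crossing (chartDataModular B hB hqM))

local notation "kB" => ResidueField B

/-- **The domination hypothesis of part (ii)**: for every valuation ring `Z` over the `a`-circle of
gauge `a₀` at `e` (with a residue map compatible with `circleRes`), the restriction of `Z` along
`β₂` contains the level rings of the tube of `Fr e` and dominates them. -/
def Centre (a₀ : Kb)
    (ha1 : B.valuation (annulusLevels_modular_final B hB hqM hne e).core.thick < B.valuation a₀)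
    (ha2 : B.valuation a₀ < 1) : Prop :=
  ∀ (β ρ : kB) (Z : ValuationSubring (Fb (M * q * q)))
    (resZ : Z →+* AdjoinRoot (vertBar q β ρ)),
    Z.comap (alpha2 M q : Fb (M * q) →+* Fb (M * q * q)) =
      circleRing (annulusLevels_modular_final B hB hqM hne e).core a₀ ha1 ha2 →
    (∀ z : Z, resZ z = 0 ↔ ¬ IsUnit z) →
    (∀ (y : circleRing (annulusLevels_modular_final B hB hqM hne e).core a₀ ha1 ha2)
      (h : alpha2 M q (y : Fb (M * q)) ∈ Z),
      resZ ⟨alpha2 M q (y : Fb (M * q)), h⟩ =
        AdjoinRoot.of (vertBar q β ρ)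
          (circleRes (annulusLevels_modular_final B hB hqM hne e).core a₀ ha1 ha2 y)) →
    (∀ S', ∀ y ∈ ((annulusLevels_modular_final B hB hqM hne (Fr B hB hqM e)).level S').R,
      beta2 M q y ∈ Z) ∧
    (∀ S' (y : ((annulusLevels_modular_final B hB hqM hne (Fr B hB hqM e)).level S').R),
      ¬ IsUnit y → Z.valuation (beta2 M q (y : Fb (M * q))) < 1)

set_option maxHeartbeats 1600000 in
/-- **(I7-ZE-B): the vertical component at EVERY supersingular crossing with its two restrictions
(along `α₂` over the `a`-circle at `e`, along `β₂` over the `b`-circle at `Fr e`), gauge given.** -/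
theorem exists_vertComponent_ss_gauge_beta (h2 : nuTwo M = 0) (h3 : nuThree M = 0) (a₀ : Kb)
    (ha1 : B.valuation (annulusLevels_modular_final B hB hqM hne e).core.thick < B.valuation a₀)
    (ha2 : B.valuation a₀ < 1) (ha₀ : B.valuation a₀ ^ (q + 1) = B.valuation (q : Kb))
    (hcentre : Centre B hB hqM hne e a₀ ha1 ha2) :
    ∃ g₀ g' g g'' : Fb M, IsSSParam B hB hqM e g g' g'' ∧
      IsSSParam B hB hqM (Fr B hB hqM e) g' g₀ g ∧
      ∃ β : kB, β ≠ 0 ∧
      IsRed (annulusLevels_modular_final B hB hqM hne e).core a₀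
        (a₀⁻¹ • (heckeAlphaBar Kb M q g - (heckeBetaBar Kb M q g') ^ q))
        (RatFunc.C β * RatFunc.X) ∧
      ∃ ρ : kB, ρ ≠ 0 ∧
      ∃ (Z : ValuationSubring (Fb (M * q * q))) (resZ : Z →+* AdjoinRoot (vertBar q β ρ)),
        -- along `α₂`
        (Z.comap (alpha2 M q : Fb (M * q) →+* Fb (M * q * q)) =
          circleRing (annulusLevels_modular_final B hB hqM hne e).core a₀ ha1 ha2 ∧
        (∀ Z' : ValuationSubring (Fb (M * q * q)),
          Z'.comap (alpha2 M q : Fb (M * q) →+* Fb (M * q * q)) =
            circleRing (annulusLevels_modular_final B hB hqM hne e).core a₀ ha1 ha2 → Z' = Z) ∧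
        Function.Surjective resZ ∧ (∀ z : Z, resZ z = 0 ↔ ¬ IsUnit z) ∧
        (∀ (y : circleRing (annulusLevels_modular_final B hB hqM hne e).core a₀ ha1 ha2)
          (h : alpha2 M q (y : Fb (M * q)) ∈ Z),
          resZ ⟨alpha2 M q (y : Fb (M * q)), h⟩ =
            AdjoinRoot.of (vertBar q β ρ)
              (circleRes (annulusLevels_modular_final B hB hqM hne e).core a₀ ha1 ha2 y)) ∧
        ∃ hθ : Ug M q g / alpha2 M q (algebraMap Kb (Fb (M * q)) a₀) ∈ Z,
          resZ ⟨Ug M q g / alpha2 M q (algebraMap Kb (Fb (M * q)) a₀), hθ⟩ =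
            AdjoinRoot.root (vertBar q β ρ)) ∧
        -- along `β₂`
        ∃ (hb1 : B.valuation
            (annulusLevels_modular_final B hB hqM hne (Fr B hB hqM e)).core.thick <
            B.valuation (a₀ ^ q)) (hb2 : B.valuation (a₀ ^ q) < 1),
          Z.comap (beta2 M q : Fb (M * q) →+* Fb (M * q * q)) =
            circleRing (annulusLevels_modular_final B hB hqM hne (Fr B hB hqM e)).core (a₀ ^ q)
              hb1 hb2 ∧
          ∃ β' : kB, β' ≠ 0 ∧
            IsRed (annulusLevels_modular_final B hB hqM hne (Fr B hB hqM e)).core (a₀ ^ q)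
              ((a₀ ^ q)⁻¹ • (heckeAlphaBar Kb M q g' - (heckeBetaBar Kb M q g₀) ^ q))
              (RatFunc.C β' * RatFunc.X) ∧
          ∃ ω : kB, ω ≠ 0 ∧
          ∃ φ : RatFunc kB →+* AdjoinRoot (vertBar q β ρ),
            (∀ (y : Fb (M * q))
              (hy : y ∈ circleRing
                (annulusLevels_modular_final B hB hqM hne (Fr B hB hqM e)).core (a₀ ^ q) hb1 hb2)
              (h : beta2 M q y ∈ Z),
              resZ ⟨beta2 M q y, h⟩ =
                φ (circleRes (annulusLevels_modular_final B hB hqM hne (Fr B hB hqM e)).core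
                  (a₀ ^ q) hb1 hb2 ⟨y, hy⟩)) ∧
            (∀ c : kB, φ (RatFunc.C c) = AdjoinRoot.of (vertBar q β ρ) (RatFunc.C c)) ∧
            φ (RatFunc.C β' * RatFunc.X) *
              (AdjoinRoot.root (vertBar q β ρ) +
                AdjoinRoot.of (vertBar q β ρ) (RatFunc.C β * RatFunc.X)) =
              AdjoinRoot.of (vertBar q β ρ) (RatFunc.C ω) := by
  obtain ⟨g₀, g', g, g'', P, P'⟩ := exists_isSSParam_chain B hB hqM e
  obtain ⟨β, hβ, hred, ρ, hρ, Z, resZ, hcomap, huniq, hsurj, hker, hcompat, hθ⟩ :=
    exists_vertComponent_of_param_gauge_red B hB hqM hne e h2 h3 P a₀ ha1 ha2 ha₀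
  obtain ⟨hle, hnu⟩ := hcentre β ρ Z resZ hcomap hker hcompat
  exact ⟨g₀, g', g, g'', P, P', β, hβ, hred, ρ, hρ, Z, resZ,
    ⟨hcomap, huniq, hsurj, hker, hcompat, hθ⟩,
    comap_beta2_eq_circleRing_ss B hB hqM hne e h2 h3 P' a₀ ha1 ha2 ha₀ hred Z resZ hcomap hker
      hcompat hθ hle hnu⟩

end Fermat.Agent.BR3.VertBetaSS
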