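import Mathlib
import Fermat.Agent.BR3.VertBetaCentre
import Fermat.Agent.BR3.VertBetaSS

/-!
# Program C, node (I7-ZE-B) part (ii), final term: `VertBetaSS.Centre` holds

`centre B hB hqM hne e a₀ ha1 ha2 : VertBetaSS.Centre B hB hqM hne e a₀ ha1 ha2` — for every
valuation ring `Z` of `Fb (M q q)` over the `a`-circle of gauge `a₀` at the crossing `e` (residue map
compatible with `circleRes`), `β₂` maps every level ring of the tube of `Fr e` into `Z` and its
non-units into the maximal ideal of `Z`.  Instance of `VertBetaCentre.comap_bt_le`,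
`comap_bt_nonunit` at `al := α₂`, `bt := β₂`, `e' := Fr e`.
-/

set_option autoImplicit false
set_option linter.unusedSectionVars false
set_option linter.style.haveILetI false
set_option synthInstance.maxHeartbeats 400000

noncomputable section

namespace Fermat.Agent.BR3.VertBetaCentreInst

open Polynomial ModularCurve AlgebraicCurve IsLocalRing
open Fermat.Agent.X0 Fermat.Agent.Val Fermat.Agent.Red Fermat.Agent.Hecke
open Fermat.Agent.BR.Circle Fermat.Agent.BR.S0 Fermat.Agent.BR.S0.RedModular
open Fermat.Agent.BR.S0.PointDict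
open Fermat.Agent.BR.Inst.AnnulusInstFinal
open Fermat.Agent.BR3.FibreProd Fermat.Agent.BR3.VertResidue
open Fermat.Agent.BR3.VertBetaFr Fermat.Agent.BR3.VertBetaCentre

variable {M q : ℕ} [NeZero M] [hq : Fact q.Prime]
variable (B : ValuationSubring Kb) (hB : B.LiesOverPrime q) (hqM : ¬ q ∣ M)
  [IsAlgClosed (ResidueField B)] [CharP (ResidueField B) q]
  (hne : Nonempty (Crossing (chartDataModular B hB hqM)))
  (e : Crossing (chartDataModular B hB hqM))

/-- `α₂` fixes the constants (ring homomorphism form) -/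
theorem alpha2_algebraMap (c : Kb) :
    (alpha2 M q : Fb (M * q) →+* Fb (M * q * q)) (algebraMap Kb (Fb (M * q)) c) =
      algebraMap Kb (Fb (M * q * q)) c := by
  rw [RingHom.coe_coe]
  exact (alpha2 M q).commutes c

/-- `β₂` fixes the constants (ring homomorphism form) -/
theorem beta2_algebraMap (c : Kb) :
    (beta2 M q : Fb (M * q) →+* Fb (M * q * q)) (algebraMap Kb (Fb (M * q)) c) =
      algebraMap Kb (Fb (M * q * q)) c := by
  rw [RingHom.coe_coe]
  exact (beta2 M q).commutes c

/-- the fibre square (ring homomorphism form) -/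
theorem alpha2_beta1_ringHom (x : Fb M) :
    (alpha2 M q : Fb (M * q) →+* Fb (M * q * q)) (heckeBetaBar Kb M q x) =
      (beta2 M q : Fb (M * q) →+* Fb (M * q * q)) (heckeAlphaBar Kb M q x) := by
  rw [RingHom.coe_coe, RingHom.coe_coe]
  exact alpha2_beta1 x

/-- **(I7-ZE-B) part (ii), for ANY valuation ring over the `a`-circle at `e`** (no residue map
needed): `β₂` maps every level ring of the tube of `Fr e` into `Z`, non-units to non-units. -/
theorem centre_of_comap (a₀ : Kb)
    (ha1 : B.valuation (annulusLevels_modular_final B hB hqM hne e).core.thick < B.valuation a₀)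
    (ha2 : B.valuation a₀ < 1) (Z : ValuationSubring (Fb (M * q * q)))
    (hcomap : Z.comap (alpha2 M q : Fb (M * q) →+* Fb (M * q * q)) =
      circleRing (annulusLevels_modular_final B hB hqM hne e).core a₀ ha1 ha2) :
    (∀ S', ∀ y ∈ ((annulusLevels_modular_final B hB hqM hne (Fr B hB hqM e)).level S').R,
      beta2 M q y ∈ Z) ∧
    (∀ S' (y : ((annulusLevels_modular_final B hB hqM hne (Fr B hB hqM e)).level S').R),
      ¬ IsUnit y → Z.valuation (beta2 M q (y : Fb (M * q))) < 1) := by
  -- the residue field of `Z` and the induced map from `k(X)`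
  have hmem : ∀ y : circleRing (annulusLevels_modular_final B hB hqM hne e).core a₀ ha1 ha2,
      (alpha2 M q : Fb (M * q) →+* Fb (M * q * q)) (y : Fb (M * q)) ∈ Z := by
    intro y
    have h : (y : Fb (M * q)) ∈ Z.comap (alpha2 M q : Fb (M * q) →+* Fb (M * q * q)) := by
      rw [hcomap]
      exact y.2
    rw [ValuationSubring.mem_comap] at h
    exact h
  let ψ : circleRing (annulusLevels_modular_final B hB hqM hne e).core a₀ ha1 ha2 →+*
      ResidueField Z :=
    (residue Z).comp (((alpha2 M q : Fb (M * q) →+* Fb (M * q * q)).comp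
      (circleRing (annulusLevels_modular_final B hB hqM hne e).core a₀ ha1
        ha2).subtype).codRestrict Z.toSubring hmem)
  have hψ : ∀ y, ψ y = residue Z ⟨(alpha2 M q : Fb (M * q) →+* Fb (M * q * q)) (y : Fb (M * q)),
      hmem y⟩ := fun _ => rfl
  have hkerψ : RingHom.ker (circleRes (annulusLevels_modular_final B hB hqM hne e).core a₀ ha1
      ha2) ≤ RingHom.ker ψ := by
    intro x hx
    rw [RingHom.mem_ker] at hx ⊢
    rw [circleRes_eq_zero_iff] at hx
    rw [hψ, residue_eq_zero_iff, ← ValuationSubring.coe_mem_nonunits_iff,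
      ← mem_nonunits_comap_iff, hcomap]
    by_contra hnn
    apply hx
    rw [ValuationSubring.mem_nonunits_iff, not_lt] at hnn
    have h1 : (circleRing (annulusLevels_modular_final B hB hqM hne e).core a₀ ha1
        ha2).valuation (x : Fb (M * q)) = 1 :=
      le_antisymm ((ValuationSubring.valuation_le_one_iff _ _).mpr x.2) hnn
    exact (ValuationSubring.valuation_eq_one_iff _ x).mpr h1
  let φ₀ : RatFunc (ResidueField B) →+* ResidueField Z :=
    RingHom.liftOfSurjective (circleRes (annulusLevels_modular_final B hB hqM hne e).core a₀ ha1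
      ha2) (circleRes_surjective _ a₀ ha1 ha2) ⟨ψ, hkerψ⟩
  have hcompat' : ∀ (y : circleRing (annulusLevels_modular_final B hB hqM hne e).core a₀ ha1 ha2)
      (h : (alpha2 M q : Fb (M * q) →+* Fb (M * q * q)) (y : Fb (M * q)) ∈ Z),
      residue Z ⟨(alpha2 M q : Fb (M * q) →+* Fb (M * q * q)) (y : Fb (M * q)), h⟩ =
        φ₀ (circleRes (annulusLevels_modular_final B hB hqM hne e).core a₀ ha1 ha2 y) := by
    intro y h
    exact (RingHom.liftOfRightInverse_comp_apply _ _ _ ⟨ψ, hkerψ⟩ y).symm
  have hker' : ∀ z : Z, residue Z z = 0 → (z : Fb (M * q * q)) ∈ Z.nonunits := by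
    intro z hz
    rw [ValuationSubring.coe_mem_nonunits_iff]
    exact (residue_eq_zero_iff z).mp hz
  refine ⟨fun S' y hy => ?_, fun S' y hy => ?_⟩
  · have h := comap_bt_le B hB hqM hne e a₀ ha1 ha2 φ₀ Z (residue Z)
      (alpha2 M q : Fb (M * q) →+* Fb (M * q * q)) (beta2 M q : Fb (M * q) →+* Fb (M * q * q))
      hcomap hcompat' (Fr B hB hqM e) rfl rfl alpha2_algebraMap beta2_algebraMap
      alpha2_beta1_ringHom hker' S' y hy
    rw [ValuationSubring.mem_comap, RingHom.coe_coe] at h
    exact h
  · have h := comap_bt_nonunit B hB hqM hne e a₀ ha1 ha2 φ₀ Z (residue Z)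
      (alpha2 M q : Fb (M * q) →+* Fb (M * q * q)) (beta2 M q : Fb (M * q) →+* Fb (M * q * q))
      hcomap hcompat' (Fr B hB hqM e) rfl rfl alpha2_algebraMap beta2_algebraMap
      alpha2_beta1_ringHom hker' S' y hy
    rw [mem_nonunits_comap_iff, RingHom.coe_coe, ValuationSubring.mem_nonunits_iff] at h
    exact h

/-- **(I7-ZE-B) part (ii)**: the domination hypothesis `VertBetaSS.Centre` holds at every
crossing, for every gauge. -/
theorem centre (a₀ : Kb)
    (ha1 : B.valuation (annulusLevels_modular_final B hB hqM hne e).core.thick < B.valuation a₀)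
    (ha2 : B.valuation a₀ < 1) :
    Fermat.Agent.BR3.VertBetaSS.Centre B hB hqM hne e a₀ ha1 ha2 :=
  fun _ _ Z _ hcomap _ _ => centre_of_comap B hB hqM hne e a₀ ha1 ha2 Z hcomap

end Fermat.Agent.BR3.VertBetaCentreInst
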