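/-
Program C (S36), node (N1-INST) = instantiation of A7 COVER-NODE-SPLIT at the modular cover,
part 1 (helper19): the minimal polynomial of the split sheet over a BASE RING.

`Φ = Φ_q = (Y^q - X)(Y - X^q) + q Ψ_q` (Kronecker), `(x, y)` a zero of `Φ`, `U` with `Φ(x, y + U) = 0`
(`BR3/VertTaylor`, `BR3/VertGlueAbs`: `vertPoly Φ x y` kills `U`, `vertScaled Φ q x y c` kills
`U / c` and is its minimal polynomial in the modular situation).  On the split sheet
`W := U / c`, `c := -(y - x^q)`, one has `W ≡ 1`.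

* `comp_mem_lifts`, `divX_mem_lifts`, `outerAt_mem_lifts`, `vertPoly_mem_lifts`,
  `binomCof_mem_lifts`, `vertH_mem_lifts` : the polynomials of `BR3/VertTaylor` have coefficients
  in every subring containing `x`, `y` (in the form `∈ Polynomial.lifts f`); `psiK_map`;
* **`exists_lift_vertScaled`** : for `f : R →+* K` injective, `x y t : R` with
  `t * c^(q+1) = q`: a MONIC `P ∈ R[X]` with `P.map f = vertScaled Φ_q q (f x) (f y) (f c)`,
  `P(1) ∈ (t)` and `P'(1) ∈ 1 + (t)` — i.e. `P ≡ X^(q-1)(X - 1)` modulo `t`, the simple root `1`;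
  `exists_lift_vertScaled_subring` : the same for a subring `R₀ ⊆ K`.
  This is the input `Ψ hm hroot hval hder` of `SplitLevels.SheetHyp.of_poly`.
-/
import Mathlib
import Fermat.Agent.BR3.VertTaylor
import Fermat.Agent.BR.KronCong

set_option autoImplicit false

noncomputable section

namespace Fermat.Agent.BR3.SplitPoly

open Polynomial Finset Fermat.Agent.BR.Kron Fermat.Agent.BR3.VertTaylor
open scoped Polynomial.Bivariate

variable {R K : Type*} [CommRing R] [Field K] (f : R →+* K)

/-! ### polynomials with coefficients in the image of `f` -/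

theorem comp_mem_lifts {p s : K[X]} (hp : p ∈ lifts f) (hs : s ∈ lifts f) :
    p.comp s ∈ lifts f := by
  obtain ⟨p', rfl⟩ := (mem_lifts _).mp hp
  obtain ⟨s', rfl⟩ := (mem_lifts _).mp hs
  exact (mem_lifts _).mpr ⟨p'.comp s', Polynomial.map_comp f p' s'⟩

theorem divX_mem_lifts {p : K[X]} (hp : p ∈ lifts f) : divX p ∈ lifts f := by
  rw [lifts_iff_coeff_lifts] at hp ⊢
  intro n
  rw [coeff_divX]
  exact hp _

theorem natCast_mem_lifts (n : ℕ) : ((n : K[X])) ∈ lifts f :=
  natCast_mem (lifts f) n

theorem outerAt_mem_lifts (Ψ : R[X][Y]) (x : R) :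
    outerAt (Ψ.map (mapRingHom f)) (f x) ∈ lifts f := by
  refine (mem_lifts _).mpr ⟨Ψ.map (evalRingHom x), ?_⟩
  rw [outerAt, Polynomial.map_map, Polynomial.map_map]
  congr 1
  refine Polynomial.ringHom_ext (fun a => ?_) ?_
  · simp
  · simp

theorem vertPoly_mem_lifts (Ψ : R[X][Y]) (x y : R) :
    vertPoly (Ψ.map (mapRingHom f)) (f x) (f y) ∈ lifts f := by
  rw [vertPoly]
  exact divX_mem_lifts f (comp_mem_lifts f (outerAt_mem_lifts f Ψ x)
    (add_mem (X_mem_lifts f) (C_mem_lifts f y)))

theorem binomCof_mem_lifts (q : ℕ) (y : R) : binomCof q (f y) ∈ lifts f := by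
  rw [binomCof]
  refine sum_mem fun k _ => ?_
  exact mul_mem (mul_mem (pow_mem (X_mem_lifts f) _) (pow_mem (C_mem_lifts f y) _))
    (natCast_mem_lifts f _)

/-- **the error polynomial of the vertical polynomial has coefficients in the image of `f`** -/
theorem vertH_mem_lifts (Ψ : R[X][Y]) (q : ℕ) (x y : R) :
    vertH (Ψ.map (mapRingHom f)) q (f x) (f y) ∈ lifts f := by
  rw [vertH, diffQuot]
  refine add_mem (mul_mem (mul_mem (C_mem_lifts f y) (binomCof_mem_lifts f q y)) ?_)
    (vertPoly_mem_lifts f Ψ x y)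
  refine add_mem (X_mem_lifts f) ?_
  have : f y - f x ^ q = f (y - x ^ q) := by rw [map_sub, map_pow]
  rw [this]
  exact C_mem_lifts f _

variable (q : ℕ) [NeZero q]

theorem psiK_map : (psiK q R).map (mapRingHom f) = psiK q K := by
  rw [psiK, psiK, Polynomial.map_map]
  congr 1
  rw [Polynomial.mapRingHom_comp]
  congr 1
  exact RingHom.ext_int _ _

/-! ### the minimal polynomial of the split sheet over a base ring -/

/-- **The scaled vertical polynomial of the split sheet over a base ring.** `x y t ∈ R` with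
`(x, y)` a zero of `Φ_q`, `c := -(y - x^q) ≠ 0` and `t * c^(q+1) = q`. Then the minimal
polynomial `vertScaled Φ_q x y c` of `W = U / c` comes from a monic `P ∈ R[X]` with
`P ≡ X^(q-1) (X - 1)` modulo `t`: `P(1) ∈ (t)` and `P'(1) ∈ 1 + (t)`. -/
theorem exists_lift_vertScaled (hf : Function.Injective f) (hq : q.Prime) (x y t : R)
    (hc : f (y - x ^ q) ≠ 0) (ht : t * (-(y - x ^ q)) ^ (q + 1) = (q : R))
    (h0 : (phiK q K).evalEval (f x) (f y) = 0) :
    ∃ P : R[X], P.Monic ∧
      P.map f = vertScaled (phiK q K) q (f x) (f y) (f (-(y - x ^ q))) ∧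
      (∃ g : R, P.eval 1 = t * g) ∧ ∃ g : R, (derivative P).eval 1 = 1 + t * g := by
  set c : R := -(y - x ^ q) with hcdef
  set r : R := (psiK q R).evalEval x y with hr
  have hfc : f c ≠ 0 := by
    rw [hcdef, map_neg, neg_ne_zero]
    exact hc
  obtain ⟨H, hH⟩ := (mem_lifts _).mp (vertH_mem_lifts f (psiK q R) q x y)
  rw [psiK_map] at hH
  have hq1 : q = (q - 1) + 1 := (Nat.succ_pred_eq_of_pos hq.pos).symm
  have hq2 : 2 ≤ q := hq.two_le
  have hft : f t * f c ^ (q + 1) = (q : K) := by
    have := congrArg f ht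
    rwa [map_mul, map_pow, map_natCast] at this
  have hfr : f r = (psiK q K).evalEval (f x) (f y) := map_psiK_evalEval q f x y
  have himg : (X ^ q - X ^ (q - 1) + C (r * t) + C (t * c) * H.comp (C c * X)).map f =
      vertScaled (phiK q K) q (f x) (f y) (f c) := by
    rw [vertScaled_eq hq (phiK_eq q hq K) (f y) hfc]
    have hB : vertB q (f x) (f y) (f c) = -1 := by
      rw [vertB, hcdef, map_neg, map_sub, map_pow, div_neg, div_self]
      rw [← map_pow, ← map_sub]
      exact hc
    have hAB := vertA_mul_vertB (phiK_eq q hq K) h0 (f c)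
    rw [hB, mul_neg_one, neg_div, neg_inj] at hAB
    have hA : vertA q (f x) (f y) (f c) = f r * f t := by
      rw [hAB, hfr, ← hft]
      field_simp
    have hE : (q : K) / f c ^ q = f t * f c := by
      rw [← hft, pow_succ]
      field_simp
    rw [hB, hA, vertE, hE, ← hH]
    simp only [Polynomial.map_add, Polynomial.map_sub, Polynomial.map_mul, Polynomial.map_pow,
      Polynomial.map_X, Polynomial.map_C, Polynomial.map_comp, map_mul, C_neg, C_1]
    ring
  refine ⟨X ^ q - X ^ (q - 1) + C (r * t) + C (t * c) * H.comp (C c * X), ?_, himg, ?_, ?_⟩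
  · -- monic, through the image
    apply Polynomial.monic_of_injective hf
    rw [himg]
    have hmon : (outerAt (phiK q K) (f x)).Monic := (phiK_monic q hq K).map _
    have hdeg : (outerAt (phiK q K) (f x)).natDegree = q + 1 := by
      rw [outerAt, (phiK_monic q hq K).natDegree_map, phiK_natDegree q hq]
    exact vertScaled_monic hdeg hmon (f y) hfc
  · refine ⟨r + c * H.eval c, ?_⟩
    simp only [eval_add, eval_sub, eval_mul, eval_pow, eval_X, eval_C, eval_comp, one_pow,
      mul_one, sub_self, zero_add]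
    ring
  · refine ⟨c * c * (derivative H).eval c, ?_⟩
    simp only [derivative_add, derivative_sub, derivative_mul, derivative_X_pow, derivative_C,
      derivative_comp, derivative_X, zero_mul, zero_add, add_zero, mul_one, eval_add, eval_sub,
      eval_mul, eval_pow, eval_X, eval_C, eval_comp, one_pow]
    have h1 : ((q : ℕ) : R) - ((q - 1 : ℕ) : R) = 1 := by
      rw [Nat.cast_sub hq.one_le, Nat.cast_one]
      ring
    linear_combination h1

/-- `exists_lift_vertScaled` for a subring of a field. -/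
theorem exists_lift_vertScaled_subring (R₀ : Subring K) (hq : q.Prime) {x y t : K} (hx : x ∈ R₀)
    (hy : y ∈ R₀) (ht : t ∈ R₀) (hc : y - x ^ q ≠ 0)
    (htq : t * (-(y - x ^ q)) ^ (q + 1) = (q : K))
    (h0 : (phiK q K).evalEval x y = 0) :
    ∃ P : R₀[X], P.Monic ∧
      P.map R₀.subtype = vertScaled (phiK q K) q x y (-(y - x ^ q)) ∧
      (∃ g : R₀, P.eval 1 = ⟨t, ht⟩ * g) ∧ ∃ g : R₀, (derivative P).eval 1 = 1 + ⟨t, ht⟩ * g :=
  exists_lift_vertScaled R₀.subtype q Subtype.val_injective hq ⟨x, hx⟩ ⟨y, hy⟩ ⟨t, ht⟩ hc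
    (Subtype.ext (by simpa using htq)) h0

end Fermat.Agent.BR3.SplitPoly
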