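import Fermat.Agent.BR3.SSParam
import Fermat.Agent.BR3.HeckePolyModel
import Fermat.Agent.BR.Inst.CkPointModular
import Fermat.Agent.BR.Inst.SpecialIsoDedekind
import Fermat.Agent.BR.S0.ThickInstBase

/-!
# Program C (S36), node (I5-SZ), existence third: a twisted triple whose reduction is a local
parameter at the supersingular point under a crossing

* `exists_ord_eq_one_of_regular` : a place of `Ft = Frac D` (`D` Dedekind) at which `D` is regular
  has a local parameter in `D`;
* `regular_z₁`, `regular_z₂` : `C_k` (the coordinate ring of the affine part of the components) is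
  regular at the two branches of every crossing;
* `exists_localParam_CMod` : a place at which `C_k` is regular has a local parameter of the form
  `redMF g`, `g` in the level `M` model of the unramified base level;
* `not_mem_range_of_ord_eq_one` : such a `g` is not constant;
* `compW_res_zero`, `compW_res_one`, `res_vg`, `res_ug` : the residues of the transversal pair
  `x = α g - (β g')^q` on `'can'` and `y = β g'' - (α g)^q` on `'et'`;
* `exists_twisted_triple` : at every crossing `e` a twisted triple `(g, g', g'')` of the base level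
  with `ord_{z₁ e} (redMF g) = 1`, `g` not constant, `hxO`, `hyO`.
-/

set_option autoImplicit false
set_option linter.unusedSectionVars false
set_option linter.style.haveILetI false
set_option synthInstance.maxHeartbeats 400000

noncomputable section

/- S36 build-time patch: file-local shortcut instances. They only shorten instance search;
each is the instance that the search finds anyway (reducible, same terms after unfolding). -/
local instance (priority := 100000) Fermat.Agent.BR3.FastInst.instAlgFullC_SSTriple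
    {k : Type*} [Field k] (N : ℕ) :
    Algebra k ↥(ModularCurve.modularFunctionFieldFullC k N) := inferInstance
local instance (priority := 100000) Fermat.Agent.BR3.FastInst.instFieldFullC_SSTriple
    {k : Type*} [Field k] (N : ℕ) :
    Field ↥(ModularCurve.modularFunctionFieldFullC k N) := inferInstance
local instance (priority := 100000) Fermat.Agent.BR3.FastInst.instAlgLaurent_SSTriple
    {k : Type*} [Field k] : Algebra k (LaurentSeries k) := inferInstance


namespace Fermat.Agent.BR3.SSTriple

open AlgebraicCurve ModularCurve IsLocalRing IsDedekindDomain WithZero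
open Fermat.Agent.X0 Fermat.Agent.Val Fermat.Agent.Red Fermat.Agent.Hecke

/-! ### Abstract: local parameters in a Dedekind coordinate ring -/

section Abstract

variable {D : Type*} [CommRing D] [IsDedekindDomain D] {Ft : Type*} [Field Ft] [Algebra D Ft]
  [IsFractionRing D Ft] {k : Type*} [Field k] [Algebra k D] [Algebra k Ft] [IsScalarTower k D Ft]

/-- A place of `Ft = Frac D` at which the Dedekind coordinate ring `D` is regular has a local
parameter in `D`. -/
theorem exists_ord_eq_one_of_regular (Q : Place k Ft)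
    (hQ : ∀ d : D, algebraMap D Ft d ∈ Q.toValuationSubring) :
    ∃ d : D, Q.ord (algebraMap D Ft d) = 1 := by
  obtain ⟨w, rfl⟩ := Place.exists_ofHeightOneSpectrum_eq (R := D) Q hQ
  obtain ⟨π, hπ⟩ := w.intValuation_exists_uniformizer
  refine ⟨π, ?_⟩
  rw [Place.ord_ofHeightOneSpectrum, w.valuation_of_algebraMap, hπ, log_exp, neg_neg]

end Abstract

/-! ### The modular case -/

section Modular

open Fermat.Agent.BR.TwoVal Fermat.Agent.BR.TwoValInst Fermat.Agent.BR.ResGen
open Fermat.Agent.BR.S0.RedModular Fermat.Agent.BR.S0.RedHyp Fermat.Agent.BR.S0.PointDict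
open Fermat.Agent.BR.S0.ThickFinal Fermat.Agent.BR.S0.SmoothLevelsGlue
open Fermat.Agent.BR.S0.ThickInst
open Fermat.Agent.BR.Inst.LevelsInst Fermat.Agent.BR.Inst.SpecIso
open Fermat.Agent.BR.Inst.CkPointModular
open Fermat.Agent.BR3.HeckePolyModel Fermat.Agent.BR3.SSParam

variable {M q : ℕ} [NeZero M] [hq : Fact q.Prime]
variable (B : ValuationSubring Kb) (hB : B.LiesOverPrime q) (hqM : ¬ q ∣ M)

local notation "kB" => IsLocalRing.ResidueField B
local notation "FtM" => modularFunctionFieldFullC (IsLocalRing.ResidueField B) M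

/-- `C_k` is regular at the branch `z₁ e` of every crossing. -/
theorem regular_z₁ (e : Crossing (chartDataModular B hB hqM)) (d : ↥(Ck M B)) :
    algebraMap ↥(Ck M B) FtM d ∈ (z₁ (chartDataModular B hB hqM) e).toValuationSubring := by
  rw [mem_iff_adicValuation_le_one]
  refine hQDf_zero B hB hqM (z₁ (chartDataModular B hB hqM) e)
    (chartFin_le B hB hqM 0 jx_mem_chartFin) ?_ d
  obtain ⟨c, h1, -⟩ := glued (chartDataModular B hB hqM) e (jx M q) jx_mem_chartFin
  exact h1.mem

/-- `C_k` is regular at the branch `z₂ e` of every crossing. -/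
theorem regular_z₂ (e : Crossing (chartDataModular B hB hqM)) (d : ↥(Ck M B)) :
    algebraMap ↥(Ck M B) FtM d ∈ (z₂ (chartDataModular B hB hqM) e).toValuationSubring := by
  rw [mem_iff_adicValuation_le_one]
  refine hQDf_one B hB hqM (z₂ (chartDataModular B hB hqM) e)
    (chartFin_le B hB hqM 1 jx_mem_chartFin) ?_ d
  obtain ⟨c, -, h2⟩ := glued (chartDataModular B hB hqM) e (jx M q) jx_mem_chartFin
  exact h2.mem

set_option maxHeartbeats 1600000 in
/-- **A place at which `C_k` is regular has a local parameter `redMF g`**, `g` in the level `M`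
model of the unramified base level `(K₀, W₀, q)`. -/
theorem exists_localParam_CMod (Q : Place kB FtM)
    (hQ : ∀ d : ↥(Ck M B), algebraMap ↥(Ck M B) FtM d ∈ Q.toValuationSubring) :
    ∃ g : Fb M, ∃ hg : g ∈ CMod M (W0 B q) (K0 q),
      Q.ord (redMF B hB hqM ⟨g, mem_OM_of_mem_CMod_base B hB hqM hg⟩ : FtM) = 1 := by
  haveI := isDedekindDomain_Ck B hB hqM
  haveI := Fermat.Agent.BR.S0.ThickInst.isFractionRing_Ck B hB hqM
  haveI := Fermat.Agent.BR.S0.ThickInst.isScalarTower_Ck M B
  obtain ⟨d, hd⟩ := exists_ord_eq_one_of_regular (D := ↥(Ck M B)) Q hQ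
  obtain ⟨x, hx⟩ := (levelHyp_base (M := M) B hB hqM).redM_surjective d
  refine ⟨x.1, x.2, ?_⟩
  have e : algebraMap ↥(Ck M B) FtM d =
      redMF B hB hqM ⟨x.1, mem_OM_of_mem_CMod_base B hB hqM x.2⟩ := by
    rw [← hx]
    exact coe_redLvl B hB hqM (CMod M (W0 B q) (K0 q))
      (modelM_isIntegral_AJM B (levelHyp_base (M := M) B hB hqM).hWA
        (isModel_CMod M (W0 B q) (K0 q))) x
  rw [← e]
  exact hd

/-- A function of the Gauss valuation ring of level `M` whose reduction has a simple zero somewhere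
is not constant. -/
theorem not_mem_range_of_ord_eq_one {g : Fb M} (hg : g ∈ OM M B hB) (Q : Place kB FtM)
    (h : Q.ord (redMF B hB hqM ⟨g, hg⟩ : FtM) = 1) :
    g ∉ Set.range (algebraMap Kb (Fb M)) := by
  rintro ⟨c, rfl⟩
  have hc : c ∈ B := ((constRedBar M hqM B hB).algebraMap_mem_iff c).mp hg
  have e : redMF B hB hqM ⟨algebraMap Kb (Fb M) c, hg⟩ =
      algebraMap kB FtM (IsLocalRing.residue B ⟨c, hc⟩) := redMF_algebraMap B hB hqM hc
  rw [e, Fermat.Agent.X0.PrincipalDeg.ord_algebraMap_eq_zero] at h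
  exact zero_ne_one h

/-- the residue map of the component `'can'` is `red1F` -/
theorem compW_res_zero (x : O1 M B hB) : (compW B hB hqM 0).res x = red1F B hB hqM x :=
  Subtype.ext rfl

/-- the residue map of the component `'et'` is `red2F` -/
theorem compW_res_one (x : O2 B hB hqM) : (compW B hB hqM 1).res x = red2F B hB hqM x :=
  Subtype.ext rfl

variable [CharP (IsLocalRing.ResidueField B) q] [PerfectField (IsLocalRing.ResidueField B)]

/-- the residue of `x = α g - (β g')^q` on `'can'` is `g̃ - (φ g̃')^q`, `φ = qExpandFullC`. -/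
theorem res_vg {g g' : Fb M} (hg : g ∈ OM M B hB) (hg' : g' ∈ OM M B hB)
    (hxO : heckeAlphaBar Kb M q g - heckeBetaBar Kb M q g' ^ q ∈ (compW B hB hqM 0).O) :
    (compW B hB hqM 0).res ⟨_, hxO⟩ =
      redMF B hB hqM ⟨g, hg⟩ - qExpandFullC kB M q (redMF B hB hqM ⟨g', hg'⟩) ^ q := by
  have h1a : heckeAlphaBar Kb M q g ∈ O1 M B hB := (alpha_mem_O1_iff B hB g).2 hg
  have h1b : heckeBetaBar Kb M q g' ∈ O1 M B hB := (beta_mem_O1_iff B hB g').2 hg'
  have e : (⟨_, hxO⟩ : O1 M B hB) =
      ⟨heckeAlphaBar Kb M q g, h1a⟩ - ⟨heckeBetaBar Kb M q g', h1b⟩ ^ q := rfl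
  refine (compW_res_zero B hB hqM ⟨_, hxO⟩).trans ?_
  rw [e, map_sub, map_pow, red1F_alpha B hB hqM g hg,
    Fermat.Agent.BR3.HeckePolyKron.red1F_beta B hB hqM g' hg']

/-- the residue of `y = β g'' - (α g)^q` on `'et'` is `g̃'' - (φ g̃)^q`, `φ = qExpandFullC`. -/
theorem res_ug {g g'' : Fb M} (hg : g ∈ OM M B hB) (hg'' : g'' ∈ OM M B hB)
    (hyO : heckeBetaBar Kb M q g'' - heckeAlphaBar Kb M q g ^ q ∈ (compW B hB hqM 1).O) :
    (compW B hB hqM 1).res ⟨_, hyO⟩ =
      redMF B hB hqM ⟨g'', hg''⟩ - qExpandFullC kB M q (redMF B hB hqM ⟨g, hg⟩) ^ q := by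
  have h2a : heckeAlphaBar Kb M q g ∈ O2 B hB hqM := (alpha_mem_O2_iff B hB hqM g).2 hg
  have h2b : heckeBetaBar Kb M q g'' ∈ O2 B hB hqM := (beta_mem_O2_iff B hB hqM g'').2 hg''
  have e : (⟨_, hyO⟩ : O2 B hB hqM) =
      ⟨heckeBetaBar Kb M q g'', h2b⟩ - ⟨heckeAlphaBar Kb M q g, h2a⟩ ^ q := rfl
  refine (compW_res_one B hB hqM ⟨_, hyO⟩).trans ?_
  rw [e, map_sub, map_pow, red2F_beta B hB hqM g'' hg'',
    Fermat.Agent.BR3.HeckePolyKron.red2F_alpha B hB hqM g hg]

set_option maxHeartbeats 1600000 in
/-- **(I5-SZ), existence**: at every crossing `e` there is a twisted triple `(g, g', g'')` of the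
unramified base level whose reduction `redMF g` is a LOCAL PARAMETER at the branch `z₁ e` (the
supersingular point under `e`); `g` is not constant and the transversal pair
`x = α g - (β g')^q`, `y = β g'' - (α g)^q` is integral on `'can'` resp. `'et'`. -/
theorem exists_twisted_triple (e : Crossing (chartDataModular B hB hqM)) :
    ∃ (g g' g'' : Fb M) (hg : g ∈ CMod M (W0 B q) (K0 q))
      (hg' : g' ∈ CMod M (W0 B q) (K0 q)) (hg'' : g'' ∈ CMod M (W0 B q) (K0 q)),
      redMF B hB hqM ⟨g, mem_OM_of_mem_CMod_base B hB hqM hg⟩ =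
        frobAutFullC kB M q • redMF B hB hqM ⟨g', mem_OM_of_mem_CMod_base B hB hqM hg'⟩ ∧
      redMF B hB hqM ⟨g'', mem_OM_of_mem_CMod_base B hB hqM hg''⟩ =
        frobAutFullC kB M q • redMF B hB hqM ⟨g, mem_OM_of_mem_CMod_base B hB hqM hg⟩ ∧
      (z₁ (chartDataModular B hB hqM) e).ord
        (redMF B hB hqM ⟨g, mem_OM_of_mem_CMod_base B hB hqM hg⟩ : FtM) = 1 ∧
      g ∉ Set.range (algebraMap Kb (Fb M)) ∧
      heckeAlphaBar Kb M q g - heckeBetaBar Kb M q g' ^ q ∈ (compW B hB hqM 0).O ∧
      heckeBetaBar Kb M q g'' - heckeAlphaBar Kb M q g ^ q ∈ (compW B hB hqM 1).O := by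
  obtain ⟨g, hg, hord⟩ := exists_localParam_CMod B hB hqM _ (regular_z₁ B hB hqM e)
  obtain ⟨g', hg', h'⟩ := exists_untwist_CMod (levelHyp_base (M := M) B hB hqM) hg
  obtain ⟨g'', hg'', h''⟩ := exists_twist_CMod (levelHyp_base (M := M) B hB hqM) hg
  have hgO := mem_OM_of_mem_CMod_base B hB hqM hg
  have hg'O := mem_OM_of_mem_CMod_base B hB hqM hg'
  have hg''O := mem_OM_of_mem_CMod_base B hB hqM hg''
  refine ⟨g, g', g'', hg, hg', hg'', h', h'', hord,
    not_mem_range_of_ord_eq_one B hB hqM hgO _ hord, ?_, ?_⟩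
  · exact sub_mem ((alpha_mem_O1_iff B hB g).2 hgO) (pow_mem ((beta_mem_O1_iff B hB g').2 hg'O) q)
  · exact sub_mem ((beta_mem_O2_iff B hB hqM g'').2 hg''O)
      (pow_mem ((alpha_mem_O2_iff B hB hqM g).2 hgO) q)

end Modular

end Fermat.Agent.BR3.SSTriple

end
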