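import Fermat.Agent.BR3.FibreProdRoots

/-!
# Program C (S36), node (I5-KRON), file 1: the Hecke polynomial of a level-`M` function

`M`, `q` (`q` prime, `q ∤ M` where needed); `α β := heckeAlphaBar / heckeBetaBar Kb M q :
Fb M → Fb (M * q)` (`α` = inclusion of `q`-series, `β` = `y(q) ↦ y(q^q)`), `α₂ β₂ = alpha2 / beta2`
of `BR3/FibreProd` (`Fb (M * q) → Fb (M * q * q)`), `mid := α₂ ∘ β = β₂ ∘ α`.

For `g ∈ Fb M` the **Hecke polynomial** `heckePoly M q g ∈ (Fb M)[X]` is the characteristic
polynomial of (multiplication by) `β g` on `Fb (M * q)` over `Fb M` (along `α`): monic of degree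
`[Fb (M q) : α Fb M]` (`= q + 1`), with roots the values of `g` at the `q + 1` quotients `E / C'`.
For `g = j` it is the modular polynomial `Φ_q(·, j)`.

* `heckePoly_monic`, `heckePoly_natDegree`, `heckePoly_natDegree_of_prime`;
* `eval_heckePoly` : `P_g(c) = N_α (α c - β g)`;
* `heckePoly_map_alpha_eval` : `(P_g.map α)(β g) = 0` (Cayley–Hamilton);
  `heckePoly_map_beta_eval` : `(P_g.map β)(α g) = 0` (Atkin–Lehner `w_q` swaps `α` and `β`);
* in `F₂ = Fb (M q q)` : `heckePoly_map_mid_eval_alpha`, `heckePoly_map_mid_eval_beta` :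
  `P_g.map mid` has the roots `y = α₂ (α g)` and `f₂ = β₂ (β g)`;
* `PAt g = P_g.map β ∈ F₁[X]`, `cof g = PAt g /ₘ (X - α g)` (monic of degree `q`),
  `cof_map_alpha2_eval` : `f₂` is a root of `cof g` (along `α₂`) as soon as `f₂ ≠ y`;
* `Ug g = f₂ - y`, `vertCof g = (cof g).comp (X + C (α g))` = the difference quotient
  `divX ((PAt g).comp (X + C (α g)))` of `PAt g` at `α g` (`vertCof_eq_divX`);
* `minpoly_f2`, `minpoly_Ug` : if `f₂ ∉ α₂ F₁` then `cof g`, `vertCof g` are the minimal polynomials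
  of `f₂`, `Ug g` over `F₁` (along `α₂`), and both generate `F₂`.
-/

set_option autoImplicit false
set_option linter.style.haveILetI false
set_option linter.unusedSectionVars false

noncomputable section

/- S36 build-time patch: file-local shortcut instances. They only shorten instance search;
each is the instance that the search finds anyway (reducible, same terms after unfolding). -/
local instance (priority := 100000) Fermat.Agent.BR3.FastInst.instAlgFullC_HeckePoly
    {k : Type*} [Field k] (N : ℕ) :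
    Algebra k ↥(ModularCurve.modularFunctionFieldFullC k N) := inferInstance
local instance (priority := 100000) Fermat.Agent.BR3.FastInst.instFieldFullC_HeckePoly
    {k : Type*} [Field k] (N : ℕ) :
    Field ↥(ModularCurve.modularFunctionFieldFullC k N) := inferInstance
local instance (priority := 100000) Fermat.Agent.BR3.FastInst.instAlgLaurent_HeckePoly
    {k : Type*} [Field k] : Algebra k (LaurentSeries k) := inferInstance


set_option synthInstance.maxHeartbeats 400000

namespace Fermat.Agent.BR3.HeckePoly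

open ModularCurve AlgebraicCurve HahnSeries Polynomial Fermat.Agent.X0 Fermat.Agent.Hecke
open Fermat.Agent.BR.TwoVal Fermat.Agent.Jac Fermat.Agent.BR3.FibreProd

/-! ### Definition and first properties -/

section Def

variable (M q : ℕ) [NeZero M] [NeZero q]

/-- The **Hecke polynomial** of `g ∈ Fb M` at `q`: the characteristic polynomial of
multiplication by `β g` on `Fb (M * q)`, as a vector space over `Fb M` along `α`. -/
def heckePoly (g : Fb M) : (Fb M)[X] :=
  letI := algebraAlong (heckeAlphaBar Kb M q)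
  haveI : Module.Finite (Fb M) (Fb (M * q)) := finiteAlong_heckeAlphaBar M q
  (Algebra.lmul (Fb M) (Fb (M * q)) (heckeBetaBar Kb M q g)).charpoly

theorem heckePoly_monic (g : Fb M) : (heckePoly M q g).Monic := by
  letI := algebraAlong (heckeAlphaBar Kb M q)
  haveI : Module.Finite (Fb M) (Fb (M * q)) := finiteAlong_heckeAlphaBar M q
  exact LinearMap.charpoly_monic _

theorem heckePoly_natDegree (g : Fb M) :
    (heckePoly M q g).natDegree = finrankAlong Kb (heckeAlphaBar Kb M q) := by
  letI := algebraAlong (heckeAlphaBar Kb M q)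
  haveI : Module.Finite (Fb M) (Fb (M * q)) := finiteAlong_heckeAlphaBar M q
  exact LinearMap.charpoly_natDegree _

theorem heckePoly_natDegree_of_prime (hq : q.Prime) (hqM : ¬ q ∣ M) (g : Fb M) :
    (heckePoly M q g).natDegree = q + 1 := by
  rw [heckePoly_natDegree, Deg.finrankAlong_heckeAlphaBar M q hq hqM]

theorem heckePoly_ne_zero (g : Fb M) : heckePoly M q g ≠ 0 := (heckePoly_monic M q g).ne_zero

/-- `P_g(c) = N_α (α c - β g)`. -/
theorem eval_heckePoly (g c : Fb M) :
    (heckePoly M q g).eval c =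
      normAlong (heckeAlphaBar Kb M q) (heckeAlphaBar Kb M q c - heckeBetaBar Kb M q g) := by
  letI := algebraAlong (heckeAlphaBar Kb M q)
  haveI : Module.Finite (Fb M) (Fb (M * q)) := finiteAlong_heckeAlphaBar M q
  show ((Algebra.lmul (Fb M) (Fb (M * q)) (heckeBetaBar Kb M q g)).charpoly).eval c =
    Algebra.norm (Fb M) (heckeAlphaBar Kb M q c - heckeBetaBar Kb M q g)
  rw [LinearMap.eval_charpoly, Algebra.norm_apply]
  congr 1
  rw [map_sub]
  congr 1

/-- Cayley–Hamilton: `β g` is a root of `P_g` (coefficients through `α`). -/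
theorem heckePoly_map_alpha_eval (g : Fb M) :
    ((heckePoly M q g).map (heckeAlphaBar Kb M q : Fb M →+* Fb (M * q))).eval
      (heckeBetaBar Kb M q g) = 0 := by
  letI := algebraAlong (heckeAlphaBar Kb M q)
  haveI : Module.Finite (Fb M) (Fb (M * q)) := finiteAlong_heckeAlphaBar M q
  have h := LinearMap.aeval_self_charpoly
    (Algebra.lmul (Fb M) (Fb (M * q)) (heckeBetaBar Kb M q g))
  have h2 : Polynomial.aeval (Algebra.lmul (Fb M) (Fb (M * q)) (heckeBetaBar Kb M q g))
      (heckePoly M q g) = 0 := h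
  rw [Polynomial.aeval_algHom_apply] at h2
  have h3 := congrArg (fun f : Module.End (Fb M) (Fb (M * q)) => f 1) h2
  simp only [LinearMap.zero_apply] at h3
  have h4 : Polynomial.aeval (heckeBetaBar Kb M q g) (heckePoly M q g) * 1 = 0 := h3
  rw [mul_one] at h4
  rw [Polynomial.eval_map]
  exact h4

end Def

/-! ### The mirror root and the roots at level `M q²` -/

section Roots

variable {M q : ℕ} [NeZero M] [hq : Fact q.Prime]

/-- Atkin–Lehner: `α g` is a root of `P_g` with coefficients through `β`. -/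
theorem heckePoly_map_beta_eval (hqM : ¬ q ∣ M) (g : Fb M) :
    ((heckePoly M q g).map (heckeBetaBar Kb M q : Fb M →+* Fb (M * q))).eval
      (heckeAlphaBar Kb M q g) = 0 := by
  have h := heckePoly_map_alpha_eval M q g
  rw [Polynomial.eval_map] at h ⊢
  have h2 := congrArg ((Wq hqM : Fb (M * q) ≃ₐ[Kb] Fb (M * q)) : Fb (M * q) →+* Fb (M * q)) h
  rw [Polynomial.hom_eval₂, map_zero] at h2
  have hcomp : (((Wq hqM : Fb (M * q) ≃ₐ[Kb] Fb (M * q)) : Fb (M * q) →+* Fb (M * q))).comp
      (heckeAlphaBar Kb M q : Fb M →+* Fb (M * q)) =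
        (heckeBetaBar Kb M q : Fb M →+* Fb (M * q)) :=
    RingHom.ext fun x => Wq_alpha hqM x
  have hb : ((Wq hqM : Fb (M * q) ≃ₐ[Kb] Fb (M * q)) : Fb (M * q) →+* Fb (M * q))
      (heckeBetaBar Kb M q g) = heckeAlphaBar Kb M q g := Wq_beta hqM g
  rw [hcomp, hb] at h2
  exact h2

variable (M q) in
/-- The middle copy of `Fb M` in `Fb (M q q)`: `y(q) ↦ y(q^q)`, `mid = α₂ ∘ β = β₂ ∘ α`. -/
def mid : Fb M →ₐ[Kb] Fb (M * q * q) := (alpha2 M q).comp (heckeBetaBar Kb M q)

theorem mid_apply (x : Fb M) : mid M q x = alpha2 M q (heckeBetaBar Kb M q x) := rfl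

theorem mid_apply' (x : Fb M) : mid M q x = beta2 M q (heckeAlphaBar Kb M q x) :=
  (mid_apply x).trans (alpha2_beta1 x)

theorem alpha2_comp_beta :
    (alpha2 M q : Fb (M * q) →+* Fb (M * q * q)).comp
      (heckeBetaBar Kb M q : Fb M →+* Fb (M * q)) = (mid M q : Fb M →+* Fb (M * q * q)) := by
  refine RingHom.ext fun x => ?_
  rw [RingHom.comp_apply, RingHom.coe_coe, RingHom.coe_coe, RingHom.coe_coe, mid_apply]

theorem beta2_comp_alpha :
    (beta2 M q : Fb (M * q) →+* Fb (M * q * q)).comp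
      (heckeAlphaBar Kb M q : Fb M →+* Fb (M * q)) = (mid M q : Fb M →+* Fb (M * q * q)) := by
  refine RingHom.ext fun x => ?_
  rw [RingHom.comp_apply, RingHom.coe_coe, RingHom.coe_coe, RingHom.coe_coe, mid_apply']

/-- `y = α₂ (α g)` is a root of `P_g.map mid`. -/
theorem heckePoly_map_mid_eval_alpha (hqM : ¬ q ∣ M) (g : Fb M) :
    ((heckePoly M q g).map (mid M q : Fb M →+* Fb (M * q * q))).eval
      (alpha2 M q (heckeAlphaBar Kb M q g)) = 0 := by
  have h := heckePoly_map_beta_eval hqM g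
  rw [Polynomial.eval_map] at h ⊢
  have h2 := congrArg (alpha2 M q : Fb (M * q) →+* Fb (M * q * q)) h
  rw [Polynomial.hom_eval₂, map_zero, alpha2_comp_beta] at h2
  exact h2

/-- `f₂ = β₂ (β g)` is a root of `P_g.map mid`. -/
theorem heckePoly_map_mid_eval_beta (g : Fb M) :
    ((heckePoly M q g).map (mid M q : Fb M →+* Fb (M * q * q))).eval
      (beta2 M q (heckeBetaBar Kb M q g)) = 0 := by
  have h := heckePoly_map_alpha_eval M q g
  rw [Polynomial.eval_map] at h ⊢
  have h2 := congrArg (beta2 M q : Fb (M * q) →+* Fb (M * q * q)) h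
  rw [Polynomial.hom_eval₂, map_zero, beta2_comp_alpha] at h2
  exact h2

end Roots

/-! ### The cofactor over `F₁` and the difference quotient -/

section Cofactor

variable {M q : ℕ} [NeZero M] [hq : Fact q.Prime]

variable (M q) in
/-- `P_g` with coefficients through `β`, a polynomial over `F₁ = Fb (M q)` with the root `α g`. -/
def PAt (g : Fb M) : (Fb (M * q))[X] :=
  (heckePoly M q g).map (heckeBetaBar Kb M q : Fb M →+* Fb (M * q))

theorem PAt_monic (g : Fb M) : (PAt M q g).Monic := (heckePoly_monic M q g).map _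

theorem PAt_natDegree (hqM : ¬ q ∣ M) (g : Fb M) : (PAt M q g).natDegree = q + 1 := by
  rw [PAt, (heckePoly_monic M q g).natDegree_map, heckePoly_natDegree_of_prime M q hq.out hqM]

theorem PAt_eval_alpha (hqM : ¬ q ∣ M) (g : Fb M) :
    (PAt M q g).eval (heckeAlphaBar Kb M q g) = 0 := heckePoly_map_beta_eval hqM g

/-- `PAt g` through `α₂` is `P_g.map mid`. -/
theorem PAt_map_alpha2 (g : Fb M) :
    (PAt M q g).map (alpha2 M q : Fb (M * q) →+* Fb (M * q * q)) =
      (heckePoly M q g).map (mid M q : Fb M →+* Fb (M * q * q)) := by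
  rw [PAt, Polynomial.map_map, alpha2_comp_beta]

variable (M q) in
/-- **The cofactor** `P_g^β / (X - α g) ∈ F₁[X]`. -/
def cof (g : Fb M) : (Fb (M * q))[X] :=
  PAt M q g /ₘ (X - Polynomial.C (heckeAlphaBar Kb M q g))

theorem X_sub_C_mul_cof (hqM : ¬ q ∣ M) (g : Fb M) :
    (X - Polynomial.C (heckeAlphaBar Kb M q g)) * cof M q g = PAt M q g :=
  Polynomial.mul_divByMonic_eq_iff_isRoot.2 (PAt_eval_alpha hqM g)

theorem cof_monic (hqM : ¬ q ∣ M) (g : Fb M) : (cof M q g).Monic := by
  have h := PAt_monic (M := M) (q := q) g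
  rw [← X_sub_C_mul_cof hqM] at h
  exact (Polynomial.monic_X_sub_C _).of_mul_monic_left h

theorem cof_natDegree (hqM : ¬ q ∣ M) (g : Fb M) : (cof M q g).natDegree = q := by
  have h := PAt_natDegree hqM g
  rw [← X_sub_C_mul_cof hqM, (Polynomial.monic_X_sub_C _).natDegree_mul (cof_monic hqM g),
    Polynomial.natDegree_X_sub_C] at h
  omega

/-- `f₂ = β₂ (β g)` is a root of the cofactor (through `α₂`) as soon as `f₂ ≠ y = α₂ (α g)`. -/
theorem cof_map_alpha2_eval (hqM : ¬ q ∣ M) (g : Fb M)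
    (hne : beta2 M q (heckeBetaBar Kb M q g) ≠ alpha2 M q (heckeAlphaBar Kb M q g)) :
    ((cof M q g).map (alpha2 M q : Fb (M * q) →+* Fb (M * q * q))).eval
      (beta2 M q (heckeBetaBar Kb M q g)) = 0 := by
  have h := heckePoly_map_mid_eval_beta (M := M) (q := q) g
  rw [← PAt_map_alpha2, ← X_sub_C_mul_cof hqM, Polynomial.map_mul, Polynomial.eval_mul,
    Polynomial.map_sub, Polynomial.map_X, Polynomial.map_C, Polynomial.eval_sub,
    Polynomial.eval_X, Polynomial.eval_C] at h
  rcases mul_eq_zero.1 h with h1 | h1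
  · exact absurd (sub_eq_zero.1 h1) hne
  · exact h1

variable (M q) in
/-- `U_g = β₂ (β g) - α₂ (α g) ∈ F₂`: the difference of the two roots of `P_g.map mid`. -/
def Ug (g : Fb M) : Fb (M * q * q) :=
  beta2 M q (heckeBetaBar Kb M q g) - alpha2 M q (heckeAlphaBar Kb M q g)

variable (M q) in
/-- **The vertical polynomial** of `g`: the difference quotient of `PAt g` at `α g`. -/
def vertCof (g : Fb M) : (Fb (M * q))[X] :=
  (cof M q g).comp (X + Polynomial.C (heckeAlphaBar Kb M q g))

theorem vertCof_monic (hqM : ¬ q ∣ M) (g : Fb M) : (vertCof M q g).Monic :=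
  (cof_monic hqM g).comp_X_add_C _

theorem vertCof_natDegree (hqM : ¬ q ∣ M) (g : Fb M) : (vertCof M q g).natDegree = q := by
  rw [vertCof, Polynomial.natDegree_comp, Polynomial.natDegree_X_add_C, mul_one,
    cof_natDegree hqM]

/-- `X · vertCof g = (PAt g)(α g + X)`. -/
theorem X_mul_vertCof (hqM : ¬ q ∣ M) (g : Fb M) :
    X * vertCof M q g = (PAt M q g).comp (X + Polynomial.C (heckeAlphaBar Kb M q g)) := by
  rw [← X_sub_C_mul_cof hqM, Polynomial.mul_comp, Polynomial.sub_comp, Polynomial.X_comp,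
    Polynomial.C_comp, add_sub_cancel_right, vertCof]

/-- `vertCof g` is the difference quotient (in the `divX` form of `BR3/VertTaylor.vertPoly`). -/
theorem vertCof_eq_divX (hqM : ¬ q ∣ M) (g : Fb M) :
    vertCof M q g =
      Polynomial.divX ((PAt M q g).comp (X + Polynomial.C (heckeAlphaBar Kb M q g))) := by
  rw [← X_mul_vertCof hqM]
  ext n
  rw [Polynomial.coeff_divX, Polynomial.coeff_X_mul]

/-- Evaluated form: `u · (vertCof g)(u) = (PAt g)(α g + u)`. -/
theorem mul_vertCof_eval (hqM : ¬ q ∣ M) (g : Fb M) (u : Fb (M * q)) :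
    u * (vertCof M q g).eval u = (PAt M q g).eval (heckeAlphaBar Kb M q g + u) := by
  have h := congrArg (Polynomial.eval u) (X_mul_vertCof hqM g)
  rw [Polynomial.eval_mul, Polynomial.eval_X, Polynomial.eval_comp, Polynomial.eval_add,
    Polynomial.eval_X, Polynomial.eval_C, add_comm u] at h
  exact h

theorem vertCof_map_alpha2_eval_Ug (hqM : ¬ q ∣ M) (g : Fb M)
    (hne : beta2 M q (heckeBetaBar Kb M q g) ≠ alpha2 M q (heckeAlphaBar Kb M q g)) :
    ((vertCof M q g).map (alpha2 M q : Fb (M * q) →+* Fb (M * q * q))).eval (Ug M q g) = 0 := by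
  rw [vertCof, Polynomial.map_comp, Polynomial.eval_comp, Polynomial.map_add, Polynomial.map_X,
    Polynomial.map_C, Polynomial.eval_add, Polynomial.eval_X, Polynomial.eval_C, Ug,
    RingHom.coe_coe, sub_add_cancel]
  exact cof_map_alpha2_eval hqM g hne

/-- `U_g ∉ α₂ F₁` iff `f₂ ∉ α₂ F₁`. -/
theorem Ug_notMem_range_alpha2 (g : Fb M)
    (hf₂ : beta2 M q (heckeBetaBar Kb M q g) ∉ Set.range (alpha2 M q)) :
    Ug M q g ∉ Set.range (alpha2 M q) := by
  rintro ⟨y, hy⟩
  refine hf₂ ⟨y + heckeAlphaBar Kb M q g, ?_⟩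
  rw [map_add, hy, Ug, sub_add_cancel]

theorem ne_of_notMem_range (g : Fb M)
    (hf₂ : beta2 M q (heckeBetaBar Kb M q g) ∉ Set.range (alpha2 M q)) :
    beta2 M q (heckeBetaBar Kb M q g) ≠ alpha2 M q (heckeAlphaBar Kb M q g) :=
  fun h => hf₂ ⟨heckeAlphaBar Kb M q g, h.symm⟩

/-- **(K-c)** `cof g` is the minimal polynomial of `f₂ = β₂ (β g)` over `α₂ F₁`, and `f₂` generates
`F₂`, as soon as `f₂ ∉ α₂ F₁`. -/
theorem minpoly_f2 (hqM : ¬ q ∣ M) (g : Fb M)
    (hf₂ : beta2 M q (heckeBetaBar Kb M q g) ∉ Set.range (alpha2 M q)) :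
    letI := algebraAlong (alpha2 M q)
    minpoly (Fb (M * q)) (beta2 M q (heckeBetaBar Kb M q g)) = cof M q g ∧
      IntermediateField.adjoin (Fb (M * q)) {beta2 M q (heckeBetaBar Kb M q g)} = ⊤ :=
  minpoly_eq_of_monic_of_root hqM hf₂ (cof_monic hqM g) (cof_natDegree hqM g)
    (cof_map_alpha2_eval hqM g (ne_of_notMem_range g hf₂))

/-- **(K-c)** `vertCof g` (the difference quotient of `P_g^β` at `α g`) is the minimal polynomial of
`U_g = f₂ - y` over `α₂ F₁`, and `U_g` generates `F₂`, as soon as `f₂ ∉ α₂ F₁`. -/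
theorem minpoly_Ug (hqM : ¬ q ∣ M) (g : Fb M)
    (hf₂ : beta2 M q (heckeBetaBar Kb M q g) ∉ Set.range (alpha2 M q)) :
    letI := algebraAlong (alpha2 M q)
    minpoly (Fb (M * q)) (Ug M q g) = vertCof M q g ∧
      IntermediateField.adjoin (Fb (M * q)) {Ug M q g} = ⊤ :=
  minpoly_eq_of_monic_of_root hqM (Ug_notMem_range_alpha2 g hf₂) (vertCof_monic hqM g)
    (vertCof_natDegree hqM g)
    (vertCof_map_alpha2_eval_Ug hqM g (ne_of_notMem_range g hf₂))

end Cofactor

end Fermat.Agent.BR3.HeckePoly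

end
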