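/-
Program C (S36), node (N1-INST)/(N3-INST) (helper7): the minimal polynomial of `U / c`.

* `minpoly_div_eq` : for `U` integral over a field `F` with `(minpoly F U).natDegree = n` and
  `c ∈ F` nonzero: `minpoly F (U / c) = C (c^n)⁻¹ * (minpoly F U).comp (C c * X)`;
* `minpoly_div_eq_vertScaledAt` : if `minpoly F U = vertPolyAt P y` (of degree `q`), then
  `minpoly F (U / c) = vertScaledAt P q y c` — the hypothesis `hW` of
  `SplitCoordTw.sheetHyp_of_vertScaledAt` from `HeckePoly.minpoly_Ug` (+ `vertCof_eq_divX`).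
-/
import Mathlib
import Fermat.Agent.BR3.VertTaylorAt

set_option autoImplicit false

noncomputable section

namespace Fermat.Agent.BR3.MinpolyScale

open Polynomial Fermat.Agent.BR3.VertTaylorAt

variable {F L : Type*} [Field F] [Field L] [Algebra F L]

/-- the scaled polynomial `C (c^n)⁻¹ * p.comp (C c * X)` -/
def scalePoly (p : F[X]) (n : ℕ) (c : F) : F[X] := C (c ^ n)⁻¹ * p.comp (C c * X)

theorem coeff_scalePoly (p : F[X]) (n : ℕ) (c : F) (k : ℕ) :
    (scalePoly p n c).coeff k = (c ^ n)⁻¹ * (p.coeff k * c ^ k) := by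
  rw [scalePoly, coeff_C_mul, comp_C_mul_X_coeff]

theorem natDegree_scalePoly {p : F[X]} {n : ℕ} {c : F} (hc : c ≠ 0) :
    (scalePoly p n c).natDegree = p.natDegree := by
  have hcn : (c ^ n)⁻¹ ≠ 0 := inv_ne_zero (pow_ne_zero n hc)
  apply le_antisymm
  · rw [natDegree_le_iff_coeff_eq_zero]
    intro k hk
    rw [coeff_scalePoly, coeff_eq_zero_of_natDegree_lt hk, zero_mul, mul_zero]
  · rcases eq_or_ne p 0 with rfl | hp
    · simp
    apply le_natDegree_of_ne_zero
    rw [coeff_scalePoly]
    exact mul_ne_zero hcn (mul_ne_zero (leadingCoeff_ne_zero.mpr hp) (pow_ne_zero _ hc))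

theorem monic_scalePoly {p : F[X]} (hp : p.Monic) {c : F} (hc : c ≠ 0) :
    (scalePoly p p.natDegree c).Monic := by
  rw [Monic, leadingCoeff, natDegree_scalePoly hc, coeff_scalePoly, coeff_natDegree,
    hp.leadingCoeff, one_mul, inv_mul_cancel₀ (pow_ne_zero _ hc)]

theorem aeval_scalePoly (p : F[X]) (n : ℕ) {c : F} (hc : c ≠ 0) (U : L) :
    aeval (U / algebraMap F L c) (scalePoly p n c) =
      algebraMap F L (c ^ n)⁻¹ * aeval U p := by
  have hcL : algebraMap F L c ≠ 0 := (_root_.map_ne_zero _).mpr hc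
  rw [scalePoly, map_mul, aeval_C, aeval_comp, map_mul, aeval_C, aeval_X,
    mul_div_cancel₀ U hcL]

/-- **The minimal polynomial of `U / c`.** -/
theorem minpoly_div_eq {U : L} (hU : IsIntegral F U) {c : F} (hc : c ≠ 0) :
    minpoly F (U / algebraMap F L c) =
      scalePoly (minpoly F U) (minpoly F U).natDegree c := by
  have hcL : algebraMap F L c ≠ 0 := (_root_.map_ne_zero _).mpr hc
  symm
  refine minpoly.unique F _ (monic_scalePoly (minpoly.monic hU) hc) ?_ ?_
  · rw [aeval_scalePoly _ _ hc, minpoly.aeval, mul_zero]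
  · intro r hr hr0
    -- `r` scaled back kills `U`
    have hci : c⁻¹ ≠ 0 := inv_ne_zero hc
    have h1 : aeval U (scalePoly r r.natDegree c⁻¹) = 0 := by
      have h2 := aeval_scalePoly r r.natDegree hci (U / algebraMap F L c)
      have e : U / algebraMap F L c / algebraMap F L c⁻¹ = U := by
        rw [map_inv₀]
        field_simp
      rw [e, hr0, mul_zero] at h2
      exact h2
    have h3 := minpoly.min F U (monic_scalePoly hr hci) h1
    rw [degree_eq_natDegree (monic_scalePoly (minpoly.monic hU) hc).ne_zero,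
      degree_eq_natDegree hr.ne_zero, natDegree_scalePoly hc]
    rw [degree_eq_natDegree (minpoly.ne_zero hU),
      degree_eq_natDegree (monic_scalePoly hr hci).ne_zero, natDegree_scalePoly hci] at h3
    exact h3

/-- **The minimal polynomial of `U / c` is the scaled vertical polynomial.** -/
theorem minpoly_div_eq_vertScaledAt {P : F[X]} {q : ℕ} {y c : F} {U : L}
    (hU : minpoly F U = vertPolyAt P y) (hdeg : (vertPolyAt P y).natDegree = q)
    (hint : IsIntegral F U) (hc : c ≠ 0) :
    minpoly F (U / algebraMap F L c) = vertScaledAt P q y c := by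
  rw [minpoly_div_eq hint hc, hU, hdeg, scalePoly, vertScaledAt]

end Fermat.Agent.BR3.MinpolyScale
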