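/-
Program C (S36), node (N1-INST), g-frame (helper7): the minimal polynomial over `α₂ Fb (M q)` of the
generator `W = Ug M q g / α₂ c` of the split sheet is the scaled vertical polynomial of `PAt M q g`:
the hypothesis `hW` of `SplitCoordTw.sheetHyp_of_vertScaledAt` in the modular frame.
-/
import Mathlib
import Fermat.Agent.BR3.MinpolyScale
import Fermat.Agent.BR3.HeckePoly

set_option autoImplicit false
set_option linter.unusedSectionVars false
set_option linter.style.haveILetI false
set_option synthInstance.maxHeartbeats 400000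

noncomputable section

namespace Fermat.Agent.BR3.MinpolyScaleMod

open Polynomial ModularCurve AlgebraicCurve Fermat.Agent.X0 Fermat.Agent.Hecke Fermat.Agent.BR3.FibreProd
  Fermat.Agent.BR3.HeckePoly Fermat.Agent.BR3.VertTaylorAt Fermat.Agent.BR3.MinpolyScale

variable {M q : ℕ} [NeZero M] [hq : Fact q.Prime]

/-- `vertCof g` is the vertical polynomial of `PAt g` at `α g`. -/
theorem vertCof_eq_vertPolyAt (hqM : ¬ q ∣ M) (g : Fb M) :
    vertCof M q g = vertPolyAt (PAt M q g) (heckeAlphaBar Kb M q g) := by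
  rw [vertCof_eq_divX hqM, vertPolyAt]

/-- **The minimal polynomial of `Ug g / α₂ c` over `α₂ Fb (M q)`.** -/
theorem minpoly_Ug_div (hqM : ¬ q ∣ M) (g : Fb M)
    (hf₂ : beta2 M q (heckeBetaBar Kb M q g) ∉ Set.range (alpha2 M q)) {c : Fb (M * q)}
    (hc : c ≠ 0) :
    letI := algebraAlong (alpha2 M q)
    minpoly (Fb (M * q)) (Ug M q g / alpha2 M q c) =
      vertScaledAt (PAt M q g) q (heckeAlphaBar Kb M q g) c := by
  letI := algebraAlong (alpha2 M q)
  haveI : Module.Finite (Fb (M * q)) (Fb (M * q * q)) :=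
    Fermat.Agent.Hecke.finiteAlong_heckeAlphaBar (M * q) q
  have hU : minpoly (Fb (M * q)) (Ug M q g) =
      vertPolyAt (PAt M q g) (heckeAlphaBar Kb M q g) := by
    rw [← vertCof_eq_vertPolyAt hqM]
    exact (minpoly_Ug hqM g hf₂).1
  have hdeg : (vertPolyAt (PAt M q g) (heckeAlphaBar Kb M q g)).natDegree = q := by
    rw [← vertCof_eq_vertPolyAt hqM]
    exact vertCof_natDegree hqM g
  have hint : IsIntegral (Fb (M * q)) (Ug M q g) := Algebra.IsIntegral.isIntegral _
  exact minpoly_div_eq_vertScaledAt hU hdeg hint hc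

end Fermat.Agent.BR3.MinpolyScaleMod
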