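import Fermat.Agent.BR3.HeckePoly
import Fermat.Agent.BR2.NormResidueModular

/-!
# Program C (S36), node (I5-KRON), file 2: integrality and the (twisted) Kronecker congruence of
the Hecke polynomial

`A ⊂ ℚ̄` a valuation subring over `q` (`q ∤ M`), `OM M A hA ⊂ Fb M` the Gauss valuation subring of
level `M`, `redMF : OM → F̃_M = modularFunctionFieldFullC k_A M` its residue map, `φ = qExpandFullC`
the relative Frobenius `y ↦ y(s^q)` of `F̃_M`, `σ = frobAutFullC` the coefficientwise Frobenius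
(`φ y = (σ⁻¹ y)^q`).  `P_g = HeckePoly.heckePoly M q g`.

* `eval_heckePoly_mem` : for `g c ∈ OM` : `P_g(c) ∈ OM` and
  `redMF (P_g(c)) = (c̄ - φ ḡ) (c̄^q - σ ḡ)` (the norm–residue formula of
  `BR2/NormResidueModular` at `α c - β g`);
* `heckePoly_mem_lifts` : `P_g ∈ OM[X]` for `g ∈ OM` (Lagrange interpolation at `q + 2` constants
  with pairwise distinct residues); `coeff_heckePoly_mem`;
* `exists_lift_heckePoly` : the lift `Pₒ ∈ OM[X]` is monic and
  `Pₒ.map redMF = (X - C (φ ḡ)) (X^q - C (σ ḡ)) = resPoly ḡ`;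
* `heckePoly_kronecker` : **the twisted Kronecker congruence**: for `g g' g'' ∈ OM` with
  `redMF g = σ • redMF g'` and `redMF g'' = σ • redMF g`, every coefficient of
  `P_g - (X - C (g'^q)) (X^q - C g'')` lies in the maximal ideal of `OM`.
-/

set_option autoImplicit false
set_option linter.style.haveILetI false
set_option linter.unusedSectionVars false

noncomputable section

set_option synthInstance.maxHeartbeats 400000

namespace Fermat.Agent.BR3.HeckePolyKron

open ModularCurve AlgebraicCurve Polynomial Fermat.Agent.X0 Fermat.Agent.Val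
  Fermat.Agent.BR.TwoVal Fermat.Agent.BR.ResGen Fermat.Agent.BR.TwoValInst
  Fermat.Agent.BR.Inst.SpecIso Fermat.Agent.Hecke Fermat.Agent.Jac
  Fermat.Agent.BR2.NormResidueModular Fermat.Agent.BR3.HeckePoly

variable {M q : ℕ} [NeZero M] [hq : Fact q.Prime]
variable (A : ValuationSubring Kb) (hA : A.LiesOverPrime q) (hqM : ¬ q ∣ M)

local notation "kA" => IsLocalRing.ResidueField A

variable [CharP (IsLocalRing.ResidueField A) q] [PerfectField (IsLocalRing.ResidueField A)]

/-! ### The residues of `α`, `β` on the two components -/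

theorem red1F_beta (x : Fb M) (hx : x ∈ OM M A hA) :
    red1F A hA hqM ⟨heckeBetaBar Kb M q x, (beta_mem_O1_iff A hA x).2 hx⟩ =
      qExpandFullC kA M q (redMF A hA hqM ⟨x, hx⟩) :=
  Subtype.ext (res1_beta A hA x hx)

theorem red2F_alpha (x : Fb M) (hx : x ∈ OM M A hA) :
    red2F A hA hqM ⟨heckeAlphaBar Kb M q x, (alpha_mem_O2_iff A hA hqM x).2 hx⟩ =
      qExpandFullC kA M q (redMF A hA hqM ⟨x, hx⟩) :=
  Subtype.ext (res2_alpha A hA hqM x hx)

/-- `σ (φ y) = y ^ q`. -/
theorem frobAut_smul_qExpandFullC (y : ↥(modularFunctionFieldFullC kA M)) :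
    frobAutFullC kA M q • qExpandFullC kA M q y = y ^ q := by
  rw [qExpandFullC_eq, smul_pow', smul_inv_smul]

variable (M q) in
/-- The reduction of the Hecke polynomial of `g` with `redMF g = y`: `(X - φ y)(X^q - σ y)`. -/
def resPoly (y : ↥(modularFunctionFieldFullC kA M)) : (↥(modularFunctionFieldFullC kA M))[X] :=
  (X - C (qExpandFullC kA M q y)) * (X ^ q - C (frobAutFullC kA M q • y))

theorem eval_resPoly (y r : ↥(modularFunctionFieldFullC kA M)) :
    (resPoly M q A y).eval r =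
      (r - qExpandFullC kA M q y) * (r ^ q - frobAutFullC kA M q • y) := by
  simp [resPoly]

/-! ### The values of the Hecke polynomial on `OM` -/

set_option maxHeartbeats 1000000 in
/-- **Norm–residue at `α c - β g`**: `P_g(c) ∈ OM` and its residue. -/
theorem eval_heckePoly_mem {g c : Fb M} (hg : g ∈ OM M A hA) (hc : c ∈ OM M A hA) :
    ∃ h : (heckePoly M q g).eval c ∈ OM M A hA,
      redMF A hA hqM ⟨(heckePoly M q g).eval c, h⟩ =
        (resPoly M q A (redMF A hA hqM ⟨g, hg⟩)).eval (redMF A hA hqM ⟨c, hc⟩) := by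
  have h1a : heckeAlphaBar Kb M q c ∈ O1 M A hA := (alpha_mem_O1_iff A hA c).2 hc
  have h1b : heckeBetaBar Kb M q g ∈ O1 M A hA := (beta_mem_O1_iff A hA g).2 hg
  have h2a : heckeAlphaBar Kb M q c ∈ O2 A hA hqM := (alpha_mem_O2_iff A hA hqM c).2 hc
  have h2b : heckeBetaBar Kb M q g ∈ O2 A hA hqM := (beta_mem_O2_iff A hA hqM g).2 hg
  have hf1 : heckeAlphaBar Kb M q c - heckeBetaBar Kb M q g ∈ O1 M A hA :=
    sub_mem h1a h1b
  have hf2 : heckeAlphaBar Kb M q c - heckeBetaBar Kb M q g ∈ O2 A hA hqM :=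
    sub_mem h2a h2b
  obtain ⟨h, e⟩ := redMF_normAlong_alpha_unit A hA hqM hf1 hf2
  rw [← eval_heckePoly] at h
  refine ⟨h, ?_⟩
  have e1 : (⟨heckeAlphaBar Kb M q c - heckeBetaBar Kb M q g, hf1⟩ : O1 M A hA) =
      ⟨heckeAlphaBar Kb M q c, h1a⟩ - ⟨heckeBetaBar Kb M q g, h1b⟩ := rfl
  have e2 : (⟨heckeAlphaBar Kb M q c - heckeBetaBar Kb M q g, hf2⟩ : O2 A hA hqM) =
      ⟨heckeAlphaBar Kb M q c, h2a⟩ - ⟨heckeBetaBar Kb M q g, h2b⟩ := rfl
  rw [e1, e2, map_sub, map_sub, red1F_alpha A hA hqM c hc, red1F_beta A hA hqM g hg,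
    red2F_alpha A hA hqM c hc, red2F_beta A hA hqM g hg, smul_sub,
    frobAut_smul_qExpandFullC] at e
  rw [eval_resPoly, ← e]
  exact res_congr (redMF A hA hqM) h _ (eval_heckePoly M q g c)

/-! ### Lagrange interpolation over a valuation subring -/

section Lagrange

variable {F : Type*} [Field F]

/-- A polynomial of degree `≤ n` whose values at `n + 1` nodes `v i ∈ O` with unit differences lie
in the valuation subring `O` has its coefficients in `O`. -/
theorem mem_lifts_of_eval_mem (O : ValuationSubring F) {P : F[X]} (n : ℕ)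
    (hdeg : P.natDegree ≤ n) (v : ℕ → F) (hv : ∀ i, v i ∈ O)
    (hinv : ∀ i j, i ≠ j → (v i - v j)⁻¹ ∈ O) (hne : ∀ i j, i ≠ j → v i ≠ v j)
    (hP : ∀ i, P.eval (v i) ∈ O) : P ∈ lifts O.subtype := by
  have hvs : Set.InjOn v (Finset.range (n + 1) : Set ℕ) := by
    intro i _ j _ hij
    by_contra hne'
    exact hne i j hne' hij
  have hlt : P.degree < (Finset.range (n + 1)).card := by
    rw [Finset.card_range]
    exact lt_of_le_of_lt degree_le_natDegree (by exact_mod_cast Nat.lt_succ_of_le hdeg)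
  rw [Lagrange.eq_interpolate hvs hlt, lifts_iff_liftsRing, Lagrange.interpolate_apply]
  have hC : ∀ a ∈ O, (C a : F[X]) ∈ liftsRing O.subtype := fun a ha => by
    rw [← lifts_iff_liftsRing]
    exact C'_mem_lifts ⟨⟨a, ha⟩, rfl⟩
  have hX : (X : F[X]) ∈ liftsRing O.subtype := by
    rw [← lifts_iff_liftsRing]
    exact X_mem_lifts _
  refine Subring.sum_mem _ fun i _ => Subring.mul_mem _ (hC _ (hP i)) ?_
  unfold Lagrange.basis
  refine Subring.prod_mem _ fun j hj => ?_
  unfold Lagrange.basisDivisor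
  exact Subring.mul_mem _ (hC _ (hinv i j (Finset.ne_of_mem_erase hj).symm))
    (Subring.sub_mem _ hX (hC _ (hv j)))

end Lagrange

/-! ### Constants with pairwise distinct residues -/

/-- A sequence of constants of `A` with pairwise unit differences. -/
theorem exists_consts : ∃ a : ℕ → Kb, (∀ i, a i ∈ A) ∧
    (∀ i j, i ≠ j → (a i - a j)⁻¹ ∈ A) ∧ ∀ i j, i ≠ j → a i ≠ a j := by
  haveI : IsAlgClosed kA := residueField_isAlgClosed A
  haveI : Infinite kA := IsAlgClosed.instInfinite
  let emb := Infinite.natEmbedding kA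
  have hsurj := IsLocalRing.residue_surjective (R := A)
  choose a' ha' using fun i : ℕ => hsurj (emb i)
  have hunit : ∀ i j, i ≠ j → ((a' i : Kb) - (a' j : Kb)) ∉ A.nonunits := by
    intro i j hij hmem
    rw [ValuationSubring.mem_nonunits_iff_exists_mem_maximalIdeal] at hmem
    obtain ⟨hm, hmax⟩ := hmem
    have h1 : IsLocalRing.residue A (a' i - a' j) = 0 := by
      rw [IsLocalRing.residue_eq_zero_iff]
      exact hmax
    rw [map_sub, ha', ha', sub_eq_zero] at h1
    exact hij (emb.injective h1)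
  refine ⟨fun i => (a' i : Kb), fun i => (a' i).2, fun i j hij => ?_, fun i j hij h => ?_⟩
  · exact Fermat.Agent.BR.TwoVal.inv_mem_of_notMem_nonunits A (hunit i j hij)
  · apply hunit i j hij
    have h2 : (a' i : Kb) = (a' j : Kb) := h
    rw [h2, sub_self]
    exact zero_mem_nonunits A

/-! ### The coefficients of the Hecke polynomial -/

include hqM in
/-- **(K-a)** over the Gauss valuation ring: `P_g ∈ OM[X]` for `g ∈ OM`. -/
theorem heckePoly_mem_lifts {g : Fb M} (hg : g ∈ OM M A hA) :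
    heckePoly M q g ∈ lifts (OM M A hA).subtype := by
  obtain ⟨a, haA, hainv, hane⟩ := exists_consts A
  have hmap : ∀ i j, (algebraMap Kb (Fb M) (a i) - algebraMap Kb (Fb M) (a j))⁻¹ =
      algebraMap Kb (Fb M) ((a i - a j)⁻¹) := fun i j => by rw [← map_sub, map_inv₀]
  refine mem_lifts_of_eval_mem (OM M A hA) (q + 1)
    (le_of_eq (heckePoly_natDegree_of_prime M q hq.out hqM g))
    (fun i => algebraMap Kb (Fb M) (a i)) (fun i => algebraMap_mem_OM A hA (haA i))
    (fun i j hij => ?_) (fun i j hij h => hane i j hij ((algebraMap Kb (Fb M)).injective h))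
    (fun i => (eval_heckePoly_mem A hA hqM hg (algebraMap_mem_OM A hA (haA i))).1)
  rw [hmap]
  exact algebraMap_mem_OM A hA (hainv i j hij)

include hqM in
theorem coeff_heckePoly_mem {g : Fb M} (hg : g ∈ OM M A hA) (k : ℕ) :
    (heckePoly M q g).coeff k ∈ OM M A hA := by
  obtain ⟨y, hy⟩ := (lifts_iff_coeff_lifts _).1 (heckePoly_mem_lifts A hA hqM hg) k
  rw [← hy]
  exact y.2

/-- **(K-b)**, residue form: the lift `Pₒ ∈ OM[X]` of `P_g` is monic and reduces to
`(X - C (φ ḡ)) (X^q - C (σ ḡ))`. -/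
theorem exists_lift_heckePoly {g : Fb M} (hg : g ∈ OM M A hA) :
    ∃ Po : (↥(OM M A hA))[X], Po.map (OM M A hA).subtype = heckePoly M q g ∧ Po.Monic ∧
      Po.map (redMF A hA hqM) = resPoly M q A (redMF A hA hqM ⟨g, hg⟩) := by
  obtain ⟨Po, hPo⟩ := (mem_lifts _).1 (heckePoly_mem_lifts A hA hqM hg)
  have hinj : Function.Injective (OM M A hA).subtype := Subtype.val_injective
  have hmonic : Po.Monic := by
    apply monic_of_injective hinj
    rw [hPo]
    exact heckePoly_monic M q g
  refine ⟨Po, hPo, hmonic, ?_⟩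
  haveI : IsAlgClosed kA := residueField_isAlgClosed A
  haveI : Infinite kA := IsAlgClosed.instInfinite
  haveI : Infinite ↥(modularFunctionFieldFullC kA M) :=
    Infinite.of_injective _ (algebraMap kA ↥(modularFunctionFieldFullC kA M)).injective
  refine Polynomial.funext fun r => ?_
  obtain ⟨c, rfl⟩ := redMF_surjective A hA hqM r
  obtain ⟨h, e⟩ := eval_heckePoly_mem A hA hqM hg c.2
  rw [eval_map_apply, ← e]
  congr 1
  apply Subtype.ext
  show ((Po.eval c : ↥(OM M A hA)) : Fb M) = (heckePoly M q g).eval (c : Fb M)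
  rw [← hPo]
  exact (eval_map_apply (OM M A hA).subtype c).symm

/-- **(K-b) The twisted Kronecker congruence.**  `g' ` a Frobenius untwist of `g`
(`redMF g = σ • redMF g'`) and `g''` a twist (`redMF g'' = σ • redMF g`): all coefficients of
`P_g - (X - C (g'^q)) (X^q - C g'')` lie in the maximal ideal of `OM`. -/
theorem heckePoly_kronecker {g g' g'' : Fb M} (hg : g ∈ OM M A hA) (hg' : g' ∈ OM M A hA)
    (hg'' : g'' ∈ OM M A hA)
    (h' : redMF A hA hqM ⟨g, hg⟩ = frobAutFullC kA M q • redMF A hA hqM ⟨g', hg'⟩)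
    (h'' : redMF A hA hqM ⟨g'', hg''⟩ = frobAutFullC kA M q • redMF A hA hqM ⟨g, hg⟩) (k : ℕ) :
    (heckePoly M q g - (X - C (g' ^ q)) * (X ^ q - C g'')).coeff k ∈ (OM M A hA).nonunits := by
  obtain ⟨Po, hPo, -, hres⟩ := exists_lift_heckePoly A hA hqM hg
  let Do : (↥(OM M A hA))[X] :=
    Po - (X - C (⟨g', hg'⟩ ^ q)) * (X ^ q - C ⟨g'', hg''⟩)
  have hD : Do.map (OM M A hA).subtype =
      heckePoly M q g - (X - C (g' ^ q)) * (X ^ q - C g'') := by
    simp only [Do, Polynomial.map_sub, Polynomial.map_mul, Polynomial.map_pow, Polynomial.map_X,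
      Polynomial.map_C, hPo]
    rfl
  have hD0 : Do.map (redMF A hA hqM) = 0 := by
    simp only [Do, Polynomial.map_sub, Polynomial.map_mul, Polynomial.map_pow, Polynomial.map_X,
      Polynomial.map_C, hres, map_pow]
    rw [resPoly, ← h'', h', qExpandFullC_eq, inv_smul_smul, C_pow, sub_self]
  have hk : redMF A hA hqM (Do.coeff k) = 0 := by
    rw [← coeff_map, hD0, coeff_zero]
  rw [← hD, coeff_map]
  exact (redMF_eq_zero_iff A hA hqM _).1 hk

end Fermat.Agent.BR3.HeckePolyKron

end
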