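import Mathlib
import Fermat.Agent.BR3.VertResField
import Fermat.Agent.Red.FFLemmas
import Fermat.Agent.Red.Values
import Fermat.Agent.X0.Alg.PlaceBasic
import Fermat.Agent.FF.PlacesCoord

/-!
# Program C (S36), node (I7-ZE-PTS): the special points of the vertical component `z e`

The residue field of the vertical component `z e` is `L = k(b, U)` with

  `b U ^ q + b ^ 2 U ^ (q - 1) = ρ`, `ρ ∈ k`, `ρ ≠ 0`

(`BR3/VertCurve`, `BR3/VertResField`; `k` algebraically closed of characteristic `q`).  With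
`V := U / b` this is the Kummer model `b ^ (q + 1) V ^ (q - 1) (V + 1) = ρ`.

* `ord_types` : the local classification of a place `P` by the orders of `U`, `b`, `U + b`:
  generic (all `0`), type `Z` (zero of `b`, `V = ∞`), type `I` (`V = -1`), type `K` (`V = 0`);
* `special_points` (`q` odd): there are exactly four non-generic places `Pz`, `Pi`, `Pp`, `Pm`, with
  `(ord b, ord U, ord (U + b)) = (q, -1, -1), (-1, -1, q), (-d, 1, -d), (-d, 1, -d)`,
  `d = (q - 1) / 2`, and `b U ^ d ≡ c` at `Pp`, `≡ -c` at `Pm` (`c ^ 2 = ρ`);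
* `special_points_two` (`q = 2`): three non-generic places `Pz`, `Pi`, `Pk` with orders
  `(2, -1, -1), (-1, -1, 2), (-1, 2, -1)`, `b ^ 2 U ≡ ρ` at `Pk`;
* `special_points_vertBar`, `special_points_vertBar_two` : the instances for
  `L = AdjoinRoot (vertBar q β ρ)`.
-/

set_option autoImplicit false
set_option linter.unusedSectionVars false

open AlgebraicCurve Polynomial


/- S36 build-time patch: file-local shortcut instances. They only shorten instance search;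
each is the instance that the search finds anyway (reducible, same terms after unfolding). -/
noncomputable local instance (priority := 100000) Fermat.Agent.BR3.FastInst.instAlgFullC_VertPts
    {k : Type*} [Field k] (N : ℕ) :
    Algebra k ↥(ModularCurve.modularFunctionFieldFullC k N) := inferInstance
noncomputable local instance (priority := 100000) Fermat.Agent.BR3.FastInst.instFieldFullC_VertPts
    {k : Type*} [Field k] (N : ℕ) :
    Field ↥(ModularCurve.modularFunctionFieldFullC k N) := inferInstance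
noncomputable local instance (priority := 100000) Fermat.Agent.BR3.FastInst.instAlgLaurent_VertPts
    {k : Type*} [Field k] : Algebra k (LaurentSeries k) := inferInstance

namespace Fermat.Agent.BR3.VertPts

open Fermat.Agent.Red Fermat.Agent.X0 Fermat.Agent.FF

/-! ### finite sums of positive integers -/

section Comb

variable {α : Type*} [DecidableEq α]

/-- a sum of positive integers equal to `2` with two distinct indices has exactly these two
indices, each with value `1` -/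
theorem two_points {s : Finset α} {f : α → ℤ} (hpos : ∀ x ∈ s, 0 < f x)
    (hsum : ∑ x ∈ s, f x = 2) {a b : α} (ha : a ∈ s) (hb : b ∈ s) (hab : a ≠ b) :
    f a = 1 ∧ f b = 1 ∧ ∀ x ∈ s, x = a ∨ x = b := by
  have hb' : b ∈ s.erase a := Finset.mem_erase.mpr ⟨hab.symm, hb⟩
  have h1 := Finset.add_sum_erase s f ha
  have h2 := Finset.add_sum_erase (s.erase a) f hb'
  have hrest : ∀ x ∈ (s.erase a).erase b, 0 < f x := fun x hx =>
    hpos x (Finset.mem_of_mem_erase (Finset.mem_of_mem_erase hx))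
  have hnn : 0 ≤ ∑ x ∈ (s.erase a).erase b, f x :=
    Finset.sum_nonneg fun x hx => (hrest x hx).le
  have ha1 := hpos a ha
  have hb1 := hpos b hb
  have hempty : (s.erase a).erase b = ∅ := by
    by_contra hne
    have hne' : ((s.erase a).erase b).Nonempty := Finset.nonempty_iff_ne_empty.mpr hne
    have := Finset.sum_pos hrest hne'
    omega
  rw [hempty, Finset.sum_empty] at h2
  refine ⟨by omega, by omega, fun x hx => ?_⟩
  by_contra hcon
  push Not at hcon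
  have : x ∈ (s.erase a).erase b :=
    Finset.mem_erase.mpr ⟨hcon.2, Finset.mem_erase.mpr ⟨hcon.1, hx⟩⟩
  rw [hempty] at this
  exact absurd this (Finset.notMem_empty x)

/-- a sum of integers `≥ n > 0` equal to `n` has exactly one index -/
theorem one_point {s : Finset α} {f : α → ℤ} {n : ℤ} (hn : 0 < n) (hge : ∀ x ∈ s, n ≤ f x)
    (hsum : ∑ x ∈ s, f x = n) : ∃ a ∈ s, f a = n ∧ ∀ x ∈ s, x = a := by
  have hne : s.Nonempty := by
    by_contra hcon
    rw [Finset.not_nonempty_iff_eq_empty] at hcon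
    rw [hcon, Finset.sum_empty] at hsum
    omega
  obtain ⟨a, ha⟩ := hne
  have h1 := Finset.add_sum_erase s f ha
  have hrest : ∀ x ∈ s.erase a, 0 < f x := fun x hx =>
    lt_of_lt_of_le hn (hge x (Finset.mem_of_mem_erase hx))
  have hnn : 0 ≤ ∑ x ∈ s.erase a, f x := Finset.sum_nonneg fun x hx => (hrest x hx).le
  have ha1 := hge a ha
  have hempty : s.erase a = ∅ := by
    by_contra hne
    have hne' : (s.erase a).Nonempty := Finset.nonempty_iff_ne_empty.mpr hne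
    have := Finset.sum_pos hrest hne'
    omega
  rw [hempty, Finset.sum_empty] at h1
  refine ⟨a, ha, by omega, fun x hx => ?_⟩
  by_contra hcon
  have : x ∈ s.erase a := Finset.mem_erase.mpr ⟨hcon, hx⟩
  rw [hempty] at this
  exact absurd this (Finset.notMem_empty x)

end Comb

variable {k L : Type*} [Field k] [Field L] [Algebra k L]

/-! ### the local classification -/

section Local

variable {q : ℕ} {ρ : k} {b U : L}

theorem prod_eq (hq : 1 ≤ q) (heq : b * U ^ q + b ^ 2 * U ^ (q - 1) = algebraMap k L ρ) :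
    b * U ^ (q - 1) * (U + b) = algebraMap k L ρ := by
  obtain ⟨m, rfl⟩ : ∃ m, q = m + 1 := ⟨q - 1, by omega⟩
  rw [← heq, Nat.add_sub_cancel]
  ring

theorem ne_zero_of_heq (hq : 2 ≤ q) (hρ : ρ ≠ 0)
    (heq : b * U ^ q + b ^ 2 * U ^ (q - 1) = algebraMap k L ρ) :
    b ≠ 0 ∧ U ≠ 0 ∧ U + b ≠ 0 := by
  have h := prod_eq (by omega) heq
  have hρL : algebraMap k L ρ ≠ 0 := (_root_.map_ne_zero _).mpr hρ
  rw [← h] at hρL
  refine ⟨?_, ?_, ?_⟩
  · rintro rfl
    simp at hρL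
  · rintro rfl
    rw [zero_pow (by omega)] at hρL
    simp at hρL
  · intro h0
    rw [h0] at hρL
    simp at hρL

/-- `ord b + (q - 1) ord U + ord (U + b) = 0` at every place -/
theorem ord_sum (hq : 2 ≤ q) (hρ : ρ ≠ 0)
    (heq : b * U ^ q + b ^ 2 * U ^ (q - 1) = algebraMap k L ρ) (P : Place k L) :
    P.ord b + ((q - 1 : ℕ) : ℤ) * P.ord U + P.ord (U + b) = 0 := by
  obtain ⟨hb0, hU0, hUb0⟩ := ne_zero_of_heq hq hρ heq
  have h := congrArg P.ord (prod_eq (by omega) heq)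
  rw [Place.ord_algebraMap, P.ord_mul (mul_ne_zero hb0 (pow_ne_zero _ hU0)) hUb0,
    P.ord_mul hb0 (pow_ne_zero _ hU0), Place.ord_pow] at h
  exact h

/-- **The local classification**: every place is generic, of type `Z` (zero of `b`), of type `I`
(zero of `U + b`) or of type `K` (zero of `U`). -/
theorem ord_types (hq : 2 ≤ q) (hρ : ρ ≠ 0)
    (heq : b * U ^ q + b ^ 2 * U ^ (q - 1) = algebraMap k L ρ) (P : Place k L) :
    (P.ord U = 0 ∧ P.ord b = 0 ∧ P.ord (U + b) = 0) ∨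
    (P.ord U < 0 ∧ P.ord b = -((q : ℤ) * P.ord U) ∧ P.ord (U + b) = P.ord U) ∨
    (P.ord U < 0 ∧ P.ord b = P.ord U ∧ P.ord (U + b) = -((q : ℤ) * P.ord U)) ∨
    (0 < P.ord U ∧ 2 * P.ord b = -(((q - 1 : ℕ) : ℤ) * P.ord U) ∧ P.ord (U + b) = P.ord b) := by
  obtain ⟨hb0, hU0, hUb0⟩ := ne_zero_of_heq hq hρ heq
  have hs := ord_sum hq hρ heq P
  have hQ : (0 : ℤ) < ((q - 1 : ℕ) : ℤ) := by
    have : 0 < q - 1 := by omega
    exact_mod_cast this
  have hqQ : (q : ℤ) * P.ord U = ((q - 1 : ℕ) : ℤ) * P.ord U + P.ord U := by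
    have : (q : ℤ) = ((q - 1 : ℕ) : ℤ) + 1 := by
      have h1 : q = (q - 1) + 1 := by omega
      exact_mod_cast h1
    rw [this]
    ring
  -- the ultrametric trichotomy for `U + b`
  have hlt : P.ord U < P.ord b → P.ord (U + b) = P.ord U := fun h =>
    Place.ord_add_eq_of_lt P hU0 hb0 h
  have hgt : P.ord b < P.ord U → P.ord (U + b) = P.ord b := fun h => by
    rw [add_comm]
    exact Place.ord_add_eq_of_lt P hb0 hU0 h
  have heq' : P.ord b = P.ord U → P.ord U ≤ P.ord (U + b) := fun h => by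
    have := Place.min_le_ord_add P hU0 hb0 hUb0
    rw [h, min_self] at this
    exact this
  rcases lt_trichotomy (P.ord U) 0 with hυ | hυ | hυ
  · have hX : ((q - 1 : ℕ) : ℤ) * P.ord U < 0 := mul_neg_of_pos_of_neg hQ hυ
    rcases lt_trichotomy (P.ord b) (P.ord U) with hβ | hβ | hβ
    · have := hgt hβ
      omega
    · have := heq' hβ
      right; right; left
      refine ⟨hυ, hβ, ?_⟩
      omega
    · have := hlt hβ
      right; left
      refine ⟨hυ, ?_, this⟩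
      omega
  · left
    rw [hυ, mul_zero] at hs
    rcases lt_trichotomy (P.ord b) (P.ord U) with hβ | hβ | hβ
    · have := hgt hβ
      omega
    · have := heq' hβ
      refine ⟨hυ, ?_, ?_⟩ <;> omega
    · have := hlt hβ
      omega
  · have hX : 0 < ((q - 1 : ℕ) : ℤ) * P.ord U := mul_pos hQ hυ
    rcases lt_trichotomy (P.ord b) (P.ord U) with hβ | hβ | hβ
    · have := hgt hβ
      right; right; right
      refine ⟨hυ, ?_, this⟩
      omega
    · have := heq' hβ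
      omega
    · have := hlt hβ
      omega

end Local

/-! ### values of quotients -/

section Values

variable {b U : L}

theorem isValueAt_div_zero {f g : L} (hf : f ≠ 0) (hg : g ≠ 0) {P : Place k L}
    (h : P.ord g < P.ord f) : IsValueAt P (f / g) 0 := by
  rw [isValueAt_iff]
  right
  rw [map_zero, sub_zero, div_eq_mul_inv, P.ord_mul hf (inv_ne_zero hg), P.ord_inv]
  omega

theorem isValueAt_div_neg_one (hb0 : b ≠ 0) (hUb0 : U + b ≠ 0) {P : Place k L}
    (h : P.ord b < P.ord (U + b)) : IsValueAt P (U / b) (-1) := by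
  rw [isValueAt_iff]
  right
  have h1 : U / b - algebraMap k L (-1) = (U + b) / b := by
    rw [map_neg, map_one]
    field_simp
    ring
  rw [h1, div_eq_mul_inv, P.ord_mul hUb0 (inv_ne_zero hb0), P.ord_inv]
  omega

end Values

/-! ### the function `θ = b U ^ d`, `q = 2 d + 1` -/

section Theta

variable {q d : ℕ} {ρ : k} {b U : L}

theorem theta_sq (hqd : q = 2 * d + 1)
    (heq : b * U ^ q + b ^ 2 * U ^ (q - 1) = algebraMap k L ρ) :
    (b * U ^ d) ^ 2 = algebraMap k L ρ - b * U ^ q := by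
  subst hqd
  rw [← heq, Nat.add_sub_cancel]
  ring

/-- a zero of `θ - ε`, `ε ^ 2 = ρ`, is a zero of `U` -/
theorem ord_U_pos_of_theta (hqd : q = 2 * d + 1) (hd : 1 ≤ d) (hρ : ρ ≠ 0)
    (heq : b * U ^ q + b ^ 2 * U ^ (q - 1) = algebraMap k L ρ) {ε : k} (hε : ε ^ 2 = ρ)
    {P : Place k L} (hP : 0 < P.ord (b * U ^ d - algebraMap k L ε)) : 0 < P.ord U := by
  have hq2 : 2 ≤ q := by omega
  obtain ⟨hb0, hU0, hUb0⟩ := ne_zero_of_heq hq2 hρ heq
  have hε0 : ε ≠ 0 := by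
    rintro rfl
    rw [zero_pow two_ne_zero] at hε
    exact hρ hε.symm
  have hε' : algebraMap k L ε ≠ 0 := (_root_.map_ne_zero _).mpr hε0
  have hnε' : algebraMap k L (-ε) ≠ 0 := (_root_.map_ne_zero _).mpr (neg_ne_zero.mpr hε0)
  have hθ0 : b * U ^ d ≠ 0 := mul_ne_zero hb0 (pow_ne_zero _ hU0)
  have hordθ : P.ord (b * U ^ d) = P.ord b + (d : ℤ) * P.ord U := by
    rw [P.ord_mul hb0 (pow_ne_zero _ hU0), Place.ord_pow]
  have hqυ : (q : ℤ) * P.ord U = 2 * ((d : ℤ) * P.ord U) + P.ord U := by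
    subst hqd
    push_cast
    ring
  have hsub : b * U ^ d - algebraMap k L ε = b * U ^ d + algebraMap k L (-ε) := by
    rw [map_neg, sub_eq_add_neg]
  rcases ord_types hq2 hρ heq P with ⟨hυ, hβ, -⟩ | ⟨hυ, hβ, -⟩ | ⟨hυ, hβ, -⟩ | ⟨hυ, -, -⟩
  · -- generic place
    exfalso
    have hprod : (b * U ^ d - algebraMap k L ε) * (b * U ^ d + algebraMap k L ε) =
        -(b * U ^ q) := by
      have h1 := theta_sq hqd heq
      have h2 : algebraMap k L ε ^ 2 = algebraMap k L ρ := by rw [← map_pow, hε]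
      linear_combination h1 - h2
    have hbUq : b * U ^ q ≠ 0 := mul_ne_zero hb0 (pow_ne_zero _ hU0)
    have hne1 : b * U ^ d - algebraMap k L ε ≠ 0 := by
      intro h0
      rw [h0, zero_mul] at hprod
      exact (neg_ne_zero.mpr hbUq) hprod.symm
    have hne2 : b * U ^ d + algebraMap k L ε ≠ 0 := by
      intro h0
      rw [h0, mul_zero] at hprod
      exact (neg_ne_zero.mpr hbUq) hprod.symm
    have hord := congrArg P.ord hprod
    rw [P.ord_mul hne1 hne2, Place.ord_neg, P.ord_mul hb0 (pow_ne_zero _ hU0), Place.ord_pow,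
      hυ, hβ, mul_zero, add_zero] at hord
    have h2 : 0 ≤ P.ord (b * U ^ d + algebraMap k L ε) := by
      refine Place.le_ord_add P hne2 0 (Or.inl ?_) (Or.inl ?_)
      · rw [hordθ, hυ, hβ, mul_zero, add_zero]
      · rw [Place.ord_algebraMap]
    omega
  · -- type `Z`: `θ` vanishes
    exfalso
    have hdυ : (d : ℤ) * P.ord U ≤ 0 :=
      mul_nonpos_of_nonneg_of_nonpos (Int.natCast_nonneg d) hυ.le
    have hpos : 0 < P.ord (b * U ^ d) := by
      rw [hordθ, hβ, hqυ]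
      omega
    rw [hsub, Place.ord_add_algebraMap_of_pos P hpos (neg_ne_zero.mpr hε0)] at hP
    exact lt_irrefl _ hP
  · -- type `I`: `θ` has a pole
    exfalso
    have hdυ : (d : ℤ) * P.ord U ≤ 0 :=
      mul_nonpos_of_nonneg_of_nonpos (Int.natCast_nonneg d) hυ.le
    have hneg : P.ord (b * U ^ d) < 0 := by
      rw [hordθ, hβ]
      omega
    rw [hsub, Place.ord_add_eq_of_lt P hθ0 hnε' (by rw [Place.ord_algebraMap]; exact hneg)] at hP
    omega
  · exact hυ

end Theta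

/-! ### the global count, `q` odd -/

section Odd

variable [IsAlgClosed k] (q : ℕ) [hq : Fact q.Prime] [CharP k q] {ρ : k} {b U : L}

/-- `γ / U` is a separating variable of degree two (`q` odd). -/
theorem exists_sepVar (hq2 : q ≠ 2) (hρ : ρ ≠ 0) (hb : Transcendental k b)
    (heq : b * U ^ q + b ^ 2 * U ^ (q - 1) = algebraMap k L ρ)
    (hgen : IntermediateField.adjoin k {b, U} = ⊤) :
    ∃ γ : k, γ ≠ 0 ∧ IsSepVarS k (algebraMap k L γ / U) 2 := by
  have h2 := HyperGenus.two_ne_zero_of_charP (k := k) q hq2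
  obtain ⟨γ, hγ0, -, -, htr, hrel, htop⟩ := VertCurve.vert_coords q h2 hρ hb heq hgen
  have h4 : (4 : k) ≠ 0 := by
    have : (4 : k) = 2 * 2 := by norm_num
    rw [this]
    exact mul_ne_zero h2 h2
  refine ⟨γ, hγ0, HyperGenus.isSepVarS_of_sq_eq h2
    (HyperGenus.squarefree_monomial_add_C q (a := 1) (b := 4) h4) ?_ htr ?_ htop⟩
  · rw [HyperGenus.natDegree_monomial_add_C q one_ne_zero]
    exact Nat.succ_pos q
  · rw [hrel]
    simp only [map_add, map_pow, aeval_X, map_one, one_mul, map_ofNat]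

omit [IsAlgClosed k] in
theorem ord_const_div {γ : k} (hγ0 : γ ≠ 0) (hU0 : U ≠ 0) (P : Place k L) :
    P.ord (algebraMap k L γ / U) = -P.ord U := by
  have hγ' : algebraMap k L γ ≠ 0 := (_root_.map_ne_zero _).mpr hγ0
  rw [div_eq_mul_inv, P.ord_mul hγ' (inv_ne_zero hU0), Place.ord_algebraMap, P.ord_inv, zero_add]

/-- the poles and the zeros of a function `U` such that `γ / U` is a separating variable of degree
two: both sums of orders are `2` -/
theorem sums_of_sepVar {γ : k} (hγ0 : γ ≠ 0) (hU0 : U ≠ 0)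
    (hx : IsSepVarS k (algebraMap k L γ / U) 2) :
    ∃ T0 Tinf : Finset (Place k L), (∀ P, P ∈ T0 ↔ P.ord U < 0) ∧ (∀ P, P ∈ Tinf ↔ 0 < P.ord U) ∧
      ∑ P ∈ T0, -P.ord U = 2 ∧ ∑ P ∈ Tinf, P.ord U = 2 := by
  refine ⟨(finite_placesOver_S hx 0).toFinset, (finite_placesOverInfty_S hx).toFinset,
    fun P => ?_, fun P => ?_, ?_, ?_⟩
  · rw [Set.Finite.mem_toFinset, mem_placesOver, map_zero, sub_zero, ord_const_div hγ0 hU0]
    omega
  · rw [Set.Finite.mem_toFinset, mem_placesOverInfty, ord_const_div hγ0 hU0]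
    omega
  · have h := sum_ord_placesOver_S hx 0
    rw [Nat.cast_ofNat] at h
    rw [← h]
    refine Finset.sum_congr rfl fun P _ => ?_
    rw [map_zero, sub_zero, ord_const_div hγ0 hU0]
  · have h := sum_ord_placesOverInfty_S hx
    rw [Nat.cast_ofNat] at h
    rw [← h]
    refine Finset.sum_congr rfl fun P _ => ?_
    rw [ord_const_div hγ0 hU0, neg_neg]

/-- **The special points of the vertical component, `q` odd.** -/
theorem special_points (hq2 : q ≠ 2) (hρ : ρ ≠ 0) (hb : Transcendental k b)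
    (heq : b * U ^ q + b ^ 2 * U ^ (q - 1) = algebraMap k L ρ)
    (hgen : IntermediateField.adjoin k {b, U} = ⊤) {c : k} (hc : c ^ 2 = ρ) :
    ∃ Pz Pi Pp Pm : Place k L,
      (Pz.ord b = q ∧ Pz.ord U = -1 ∧ Pz.ord (U + b) = -1) ∧
      (Pi.ord b = -1 ∧ Pi.ord U = -1 ∧ Pi.ord (U + b) = q) ∧
      (Pp.ord b = -(((q - 1) / 2 : ℕ) : ℤ) ∧ Pp.ord U = 1 ∧
        Pp.ord (U + b) = -(((q - 1) / 2 : ℕ) : ℤ) ∧ IsValueAt Pp (b * U ^ ((q - 1) / 2)) c) ∧
      (Pm.ord b = -(((q - 1) / 2 : ℕ) : ℤ) ∧ Pm.ord U = 1 ∧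
        Pm.ord (U + b) = -(((q - 1) / 2 : ℕ) : ℤ) ∧ IsValueAt Pm (b * U ^ ((q - 1) / 2)) (-c)) ∧
      ∀ P : Place k L, P ≠ Pz → P ≠ Pi → P ≠ Pp → P ≠ Pm →
        P.ord b = 0 ∧ P.ord U = 0 ∧ P.ord (U + b) = 0 := by
  classical
  have hq2' : 2 ≤ q := hq.out.two_le
  obtain ⟨d, hqd⟩ : ∃ d, q = 2 * d + 1 := hq.out.odd_of_ne_two hq2
  have hd : 1 ≤ d := by omega
  have hdd : (q - 1) / 2 = d := by omega
  rw [hdd]
  have hqpos : (0 : ℤ) < (q : ℤ) := by exact_mod_cast hq.out.pos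
  have hQ : ((q - 1 : ℕ) : ℤ) = 2 * (d : ℤ) := by
    have : q - 1 = 2 * d := by omega
    exact_mod_cast this
  have hF : RiemannPkg k L := VertCurve.riemannPkg_vert q hq2 hρ hb heq hgen
  obtain ⟨hb0, hU0, hUb0⟩ := ne_zero_of_heq hq2' hρ heq
  obtain ⟨γ, hγ0, hx⟩ := exists_sepVar q hq2 hρ hb heq hgen
  obtain ⟨T0, Tinf, hT0, hTinf, hsum0, hsuminf⟩ := sums_of_sepVar hγ0 hU0 hx
  -- a zero of `b`: type `Z`
  obtain ⟨Pz, hPz⟩ := exists_ord_pos_of_not_const hF (f := b)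
    (fun a h => hb (h ▸ isAlgebraic_algebraMap a))
  have hZ : Pz.ord U < 0 ∧ Pz.ord b = -((q : ℤ) * Pz.ord U) ∧ Pz.ord (U + b) = Pz.ord U := by
    rcases ord_types hq2' hρ heq Pz with ⟨-, h, -⟩ | h | ⟨h1, h2, -⟩ | ⟨h1, h2, -⟩
    · omega
    · exact h
    · omega
    · have : 0 < (d : ℤ) * Pz.ord U := mul_pos (by exact_mod_cast hd) h1
      rw [hQ, mul_assoc] at h2
      omega
  -- `(U + b) / b` has a pole there, hence a zero: type `I`
  have hordf : ∀ P : Place k L, P.ord ((U + b) / b) = P.ord (U + b) - P.ord b := fun P => by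
    rw [div_eq_mul_inv, P.ord_mul hUb0 (inv_ne_zero hb0), P.ord_inv]
    ring
  obtain ⟨Pi, hPi⟩ := exists_ord_pos_of_not_const hF (f := (U + b) / b) (fun a h => by
    have h1 := hordf Pz
    rw [h, Place.ord_algebraMap] at h1
    obtain ⟨h2, h3, h4⟩ := hZ
    have : (q : ℤ) * Pz.ord U < 0 := mul_neg_of_pos_of_neg hqpos h2
    omega)
  rw [hordf] at hPi
  have hI : Pi.ord U < 0 ∧ Pi.ord b = Pi.ord U ∧ Pi.ord (U + b) = -((q : ℤ) * Pi.ord U) := by
    rcases ord_types hq2' hρ heq Pi with ⟨-, h1, h2⟩ | ⟨h1, h2, h3⟩ | h | ⟨h1, h2, h3⟩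
    · omega
    · have : (q : ℤ) * Pi.ord U < 0 := mul_neg_of_pos_of_neg hqpos h1
      omega
    · exact h
    · omega
  have hzi : Pz ≠ Pi := by
    rintro rfl
    obtain ⟨h2, h3, -⟩ := hZ
    obtain ⟨-, h5, -⟩ := hI
    omega
  obtain ⟨h1z, h1i, hT0all⟩ := two_points (s := T0) (f := fun P => -P.ord U)
    (fun P hP => by
      have := (hT0 P).mp hP
      show 0 < -P.ord U
      omega) hsum0 ((hT0 Pz).mpr hZ.1) ((hT0 Pi).mpr hI.1) hzi
  -- `θ = b U ^ d` has a pole at `Pi`, so `θ - ε` has a zero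
  have hθI : Pi.ord (b * U ^ d) < 0 := by
    rw [Pi.ord_mul hb0 (pow_ne_zero _ hU0), Place.ord_pow, hI.2.1]
    have : (d : ℤ) * Pi.ord U ≤ 0 :=
      mul_nonpos_of_nonneg_of_nonpos (Int.natCast_nonneg d) hI.1.le
    have := hI.1
    omega
  have hex : ∀ ε : k, ε ^ 2 = ρ → ∃ P : Place k L, 0 < P.ord U ∧ IsValueAt P (b * U ^ d) ε := by
    intro ε hε
    obtain ⟨P, hP⟩ := exists_ord_pos_of_not_const hF (f := b * U ^ d - algebraMap k L ε)
      (fun a h => by
        have h1 : b * U ^ d = algebraMap k L (a + ε) := by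
          rw [map_add, ← h]
          ring
        rw [h1, Place.ord_algebraMap] at hθI
        exact lt_irrefl _ hθI)
    refine ⟨P, ord_U_pos_of_theta hqd hd hρ heq hε hP, ?_⟩
    rw [isValueAt_iff]
    exact Or.inr hP
  obtain ⟨Pp, hPp, hvp⟩ := hex c hc
  obtain ⟨Pm, hPm, hvm⟩ := hex (-c) (by rw [neg_sq]; exact hc)
  have hpm : Pp ≠ Pm := by
    rintro rfl
    have hcc := hvp.unique hvm
    have h2 := HyperGenus.two_ne_zero_of_charP (k := k) q hq2
    have hc0 : c = 0 := by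
      have h3 : 2 * c = 0 := by linear_combination hcc
      rcases mul_eq_zero.mp h3 with h | h
      · exact absurd h h2
      · exact h
    rw [hc0, zero_pow two_ne_zero] at hc
    exact hρ hc.symm
  obtain ⟨h1p, h1m, hTinfall⟩ := two_points (s := Tinf) (f := fun P => P.ord U)
    (fun P hP => (hTinf P).mp hP) hsuminf ((hTinf Pp).mpr hPp) ((hTinf Pm).mpr hPm) hpm
  have hK : ∀ P : Place k L, P.ord U = 1 → P.ord b = -(d : ℤ) ∧ P.ord (U + b) = -(d : ℤ) := by
    intro P h1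
    rcases ord_types hq2' hρ heq P with ⟨h, -, -⟩ | ⟨h, -, -⟩ | ⟨h, -, -⟩ | ⟨-, h2, h3⟩
    · omega
    · omega
    · omega
    · rw [h1, mul_one, hQ] at h2
      constructor <;> omega
  have h1z' : Pz.ord U = -1 := by
    have : -Pz.ord U = 1 := h1z
    omega
  have h1i' : Pi.ord U = -1 := by
    have : -Pi.ord U = 1 := h1i
    omega
  refine ⟨Pz, Pi, Pp, Pm, ⟨?_, h1z', ?_⟩, ⟨?_, h1i', ?_⟩,
    ⟨(hK Pp h1p).1, h1p, (hK Pp h1p).2, hvp⟩, ⟨(hK Pm h1m).1, h1m, (hK Pm h1m).2, hvm⟩, ?_⟩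
  · rw [hZ.2.1, h1z']
    ring
  · rw [hZ.2.2, h1z']
  · rw [hI.2.1, h1i']
  · rw [hI.2.2, h1i']
    ring
  · intro P hz hi hp hm
    have hυ : P.ord U = 0 := by
      rcases lt_trichotomy (P.ord U) 0 with h | h | h
      · rcases hT0all P ((hT0 P).mpr h) with rfl | rfl
        · exact absurd rfl hz
        · exact absurd rfl hi
      · exact h
      · rcases hTinfall P ((hTinf P).mpr h) with rfl | rfl
        · exact absurd rfl hp
        · exact absurd rfl hm
    rcases ord_types hq2' hρ heq P with h | ⟨h, -, -⟩ | ⟨h, -, -⟩ | ⟨h, -, -⟩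
    · exact ⟨h.2.1, h.1, h.2.2⟩
    all_goals omega

/-- **The special points of the vertical component, `q` odd, full form**: orders, values,
distinctness, and the characterisations of the four points by the signs of the orders. -/
theorem special_points_full (hq2 : q ≠ 2) (hρ : ρ ≠ 0) (hb : Transcendental k b)
    (heq : b * U ^ q + b ^ 2 * U ^ (q - 1) = algebraMap k L ρ)
    (hgen : IntermediateField.adjoin k {b, U} = ⊤) {c : k} (hc : c ^ 2 = ρ) :
    ∃ Pz Pi Pp Pm : Place k L,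
      (Pz.ord b = q ∧ Pz.ord U = -1 ∧ Pz.ord (U + b) = -1) ∧
      (Pi.ord b = -1 ∧ Pi.ord U = -1 ∧ Pi.ord (U + b) = q) ∧
      (Pp.ord b = -(((q - 1) / 2 : ℕ) : ℤ) ∧ Pp.ord U = 1 ∧
        Pp.ord (U + b) = -(((q - 1) / 2 : ℕ) : ℤ) ∧ IsValueAt Pp (b * U ^ ((q - 1) / 2)) c) ∧
      (Pm.ord b = -(((q - 1) / 2 : ℕ) : ℤ) ∧ Pm.ord U = 1 ∧
        Pm.ord (U + b) = -(((q - 1) / 2 : ℕ) : ℤ) ∧ IsValueAt Pm (b * U ^ ((q - 1) / 2)) (-c)) ∧
      (∀ P : Place k L, P ≠ Pz → P ≠ Pi → P ≠ Pp → P ≠ Pm →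
        P.ord b = 0 ∧ P.ord U = 0 ∧ P.ord (U + b) = 0) ∧
      (Pz ≠ Pi ∧ Pz ≠ Pp ∧ Pz ≠ Pm ∧ Pi ≠ Pp ∧ Pi ≠ Pm ∧ Pp ≠ Pm) ∧
      (∀ P : Place k L, 0 < P.ord b ↔ P = Pz) ∧
      (∀ P : Place k L, 0 < P.ord (U + b) ↔ P = Pi) ∧
      (∀ P : Place k L, 0 < P.ord U ↔ P = Pp ∨ P = Pm) ∧
      (∀ P : Place k L, P.ord b < 0 ↔ P = Pi ∨ P = Pp ∨ P = Pm) ∧
      (∀ P : Place k L, P.ord U < 0 ↔ P = Pz ∨ P = Pi) ∧
      IsValueAt Pi (U / b) (-1) ∧ IsValueAt Pz (b / U) 0 ∧
      IsValueAt Pp (U / b) 0 ∧ IsValueAt Pm (U / b) 0 := by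
  obtain ⟨Pz, Pi, Pp, Pm, ⟨hz1, hz2, hz3⟩, ⟨hi1, hi2, hi3⟩, ⟨hp1, hp2, hp3, hp4⟩,
    ⟨hm1, hm2, hm3, hm4⟩, hall⟩ := special_points q hq2 hρ hb heq hgen hc
  have hq2' : 2 ≤ q := hq.out.two_le
  obtain ⟨hb0, hU0, hUb0⟩ := ne_zero_of_heq hq2' hρ heq
  have hqpos : (0 : ℤ) < (q : ℤ) := by exact_mod_cast hq.out.pos
  have hdnn : (0 : ℤ) ≤ (((q - 1) / 2 : ℕ) : ℤ) := Int.natCast_nonneg _
  have hpm : Pp ≠ Pm := by
    rintro rfl
    have hcc := hp4.unique hm4
    have h2 := HyperGenus.two_ne_zero_of_charP (k := k) q hq2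
    have hc0 : c = 0 := by
      have h3 : 2 * c = 0 := by linear_combination hcc
      rcases mul_eq_zero.mp h3 with h | h
      · exact absurd h h2
      · exact h
    rw [hc0, zero_pow two_ne_zero] at hc
    exact hρ hc.symm
  have hzi : Pz ≠ Pi := by rintro rfl; omega
  have hzp : Pz ≠ Pp := by rintro rfl; omega
  have hzm : Pz ≠ Pm := by rintro rfl; omega
  have hip : Pi ≠ Pp := by rintro rfl; omega
  have him : Pi ≠ Pm := by rintro rfl; omega
  -- the orders at an arbitrary place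
  have hcases : ∀ P : Place k L, P = Pz ∨ P = Pi ∨ P = Pp ∨ P = Pm ∨
      (P.ord b = 0 ∧ P.ord U = 0 ∧ P.ord (U + b) = 0) := by
    intro P
    by_cases h1 : P = Pz
    · exact Or.inl h1
    by_cases h2 : P = Pi
    · exact Or.inr (Or.inl h2)
    by_cases h3 : P = Pp
    · exact Or.inr (Or.inr (Or.inl h3))
    by_cases h4 : P = Pm
    · exact Or.inr (Or.inr (Or.inr (Or.inl h4)))
    exact Or.inr (Or.inr (Or.inr (Or.inr (hall P h1 h2 h3 h4))))
  refine ⟨Pz, Pi, Pp, Pm, ⟨hz1, hz2, hz3⟩, ⟨hi1, hi2, hi3⟩, ⟨hp1, hp2, hp3, hp4⟩,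
    ⟨hm1, hm2, hm3, hm4⟩, hall, ⟨hzi, hzp, hzm, hip, him, hpm⟩, fun P => ?_, fun P => ?_,
    fun P => ?_, fun P => ?_, fun P => ?_, ?_, ?_, ?_, ?_⟩
  · constructor
    · intro h
      rcases hcases P with rfl | rfl | rfl | rfl | ⟨h0, -, -⟩
      · rfl
      all_goals omega
    · rintro rfl
      omega
  · constructor
    · intro h
      rcases hcases P with rfl | rfl | rfl | rfl | ⟨-, -, h0⟩
      · omega
      · rfl
      all_goals omega
    · rintro rfl
      omega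
  · constructor
    · intro h
      rcases hcases P with rfl | rfl | rfl | rfl | ⟨-, h0, -⟩
      · omega
      · omega
      · exact Or.inl rfl
      · exact Or.inr rfl
      · omega
    · rintro (rfl | rfl) <;> omega
  · constructor
    · intro h
      rcases hcases P with rfl | rfl | rfl | rfl | ⟨h0, -, -⟩
      · omega
      · exact Or.inl rfl
      · exact Or.inr (Or.inl rfl)
      · exact Or.inr (Or.inr rfl)
      · omega
    · rintro (rfl | rfl | rfl)
      · omega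
      · have hd1 : 1 ≤ (q - 1) / 2 := by
          have := hq.out.odd_of_ne_two hq2
          obtain ⟨j, hj⟩ := this
          omega
        have : (1 : ℤ) ≤ (((q - 1) / 2 : ℕ) : ℤ) := by exact_mod_cast hd1
        omega
      · have hd1 : 1 ≤ (q - 1) / 2 := by
          have := hq.out.odd_of_ne_two hq2
          obtain ⟨j, hj⟩ := this
          omega
        have : (1 : ℤ) ≤ (((q - 1) / 2 : ℕ) : ℤ) := by exact_mod_cast hd1
        omega
  · constructor
    · intro h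
      rcases hcases P with rfl | rfl | rfl | rfl | ⟨-, h0, -⟩
      · exact Or.inl rfl
      · exact Or.inr rfl
      all_goals omega
    · rintro (rfl | rfl) <;> omega
  · exact isValueAt_div_neg_one hb0 hUb0 (by omega)
  · exact isValueAt_div_zero hb0 hU0 (by omega)
  · exact isValueAt_div_zero hU0 hb0 (by omega)
  · exact isValueAt_div_zero hU0 hb0 (by omega)

end Odd

/-! ### `q = 2` -/

section Two

variable {ρ : k} {b U : L}

theorem heq_two (heq : b * U ^ 2 + b ^ 2 * U = algebraMap k L ρ) :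
    b * U ^ 2 + b ^ 2 * U ^ (2 - 1) = algebraMap k L ρ := by
  simpa using heq

/-- the local classification for `q = 2` -/
theorem ord_types_two (hρ : ρ ≠ 0) (heq : b * U ^ 2 + b ^ 2 * U = algebraMap k L ρ)
    (P : Place k L) :
    (P.ord U = 0 ∧ P.ord b = 0 ∧ P.ord (U + b) = 0) ∨
    (P.ord U < 0 ∧ P.ord b = -(2 * P.ord U) ∧ P.ord (U + b) = P.ord U) ∨
    (P.ord U < 0 ∧ P.ord b = P.ord U ∧ P.ord (U + b) = -(2 * P.ord U)) ∨
    (0 < P.ord U ∧ 2 * P.ord b = -P.ord U ∧ P.ord (U + b) = P.ord b) := by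
  have h := ord_types (q := 2) le_rfl hρ (heq_two heq) P
  have h1 : (((2 - 1 : ℕ) : ℕ) : ℤ) = 1 := by norm_num
  rw [h1, one_mul, Nat.cast_ofNat] at h
  exact h

variable [IsAlgClosed k] [CharP k 2]

/-- **The special points of the vertical component, `q = 2`.** -/
theorem special_points_two (hρ : ρ ≠ 0) (hb : Transcendental k b)
    (heq : b * U ^ 2 + b ^ 2 * U = algebraMap k L ρ)
    (hgen : IntermediateField.adjoin k {b, U} = ⊤) :
    ∃ Pz Pi Pk : Place k L,
      (Pz.ord b = 2 ∧ Pz.ord U = -1 ∧ Pz.ord (U + b) = -1) ∧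
      (Pi.ord b = -1 ∧ Pi.ord U = -1 ∧ Pi.ord (U + b) = 2) ∧
      (Pk.ord b = -1 ∧ Pk.ord U = 2 ∧ Pk.ord (U + b) = -1 ∧ IsValueAt Pk (b ^ 2 * U) ρ) ∧
      ∀ P : Place k L, P ≠ Pz → P ≠ Pi → P ≠ Pk →
        P.ord b = 0 ∧ P.ord U = 0 ∧ P.ord (U + b) = 0 := by
  classical
  have hF : RiemannPkg k L := VertCurve.riemannPkg_vert_two hρ hb heq hgen
  obtain ⟨hb0, hU0, hUb0⟩ := ne_zero_of_heq le_rfl hρ (heq_two heq)
  obtain ⟨hs, hrel, htop⟩ := VertCurve.vert_coords_two hb heq hgen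
  have hx : IsSepVarS k (algebraMap k L 1 / b) 2 := by
    rw [map_one, one_div]
    refine ArtinSchreierGenus.isSepVarS_of_artinSchreier (f := C ρ * X ^ 3) (m := 1) hs ?_ ?_ htop
    · rw [natDegree_C_mul_X_pow 3 ρ hρ]
    · rw [hrel]
      simp
  obtain ⟨T0, Tinf, hT0, hTinf, hsum0, hsuminf⟩ := sums_of_sepVar (U := b) one_ne_zero hb0 hx
  -- the zero of `b`
  have hZ : ∀ P : Place k L, 0 < P.ord b →
      P.ord U < 0 ∧ P.ord b = -(2 * P.ord U) ∧ P.ord (U + b) = P.ord U := by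
    intro P hP
    rcases ord_types_two hρ heq P with ⟨-, h, -⟩ | h | ⟨h1, h2, -⟩ | ⟨h1, h2, -⟩
    · omega
    · exact h
    · omega
    · omega
  obtain ⟨Pz, hPzT, hPz2, hTinfall⟩ := one_point (s := Tinf) (f := fun P => P.ord b) (n := 2)
    (by norm_num) (fun P hP => by
      obtain ⟨h1, h2, -⟩ := hZ P ((hTinf P).mp hP)
      show 2 ≤ P.ord b
      omega) hsuminf
  have hPz2' : Pz.ord b = 2 := hPz2
  obtain ⟨hzυ, hzβ, hzσ⟩ := hZ Pz ((hTinf Pz).mp hPzT)
  have hzυ1 : Pz.ord U = -1 := by omega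
  -- `(U + b) / b` has a pole there, hence a zero: type `I`
  have hordf : ∀ P : Place k L, P.ord ((U + b) / b) = P.ord (U + b) - P.ord b := fun P => by
    rw [div_eq_mul_inv, P.ord_mul hUb0 (inv_ne_zero hb0), P.ord_inv]
    ring
  obtain ⟨Pi, hPi⟩ := exists_ord_pos_of_not_const hF (f := (U + b) / b) (fun a h => by
    have h1 := hordf Pz
    rw [h, Place.ord_algebraMap] at h1
    omega)
  rw [hordf] at hPi
  have hI : Pi.ord U < 0 ∧ Pi.ord b = Pi.ord U ∧ Pi.ord (U + b) = -(2 * Pi.ord U) := by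
    rcases ord_types_two hρ heq Pi with ⟨-, h1, h2⟩ | ⟨h1, h2, h3⟩ | h | ⟨h1, h2, h3⟩
    · omega
    · omega
    · exact h
    · omega
  -- `U` has a pole at `Pz`, hence a zero: type `K`
  obtain ⟨Pk, hPk⟩ := exists_ord_pos_of_not_const hF (f := U) (fun a h => by
    rw [h, Place.ord_algebraMap] at hzυ1
    omega)
  have hK : 2 * Pk.ord b = -Pk.ord U ∧ Pk.ord (U + b) = Pk.ord b := by
    rcases ord_types_two hρ heq Pk with ⟨h, -, -⟩ | ⟨h, -, -⟩ | ⟨h, -, -⟩ | ⟨-, h2, h3⟩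
    · omega
    · omega
    · omega
    · exact ⟨h2, h3⟩
  have hik : Pi ≠ Pk := by
    rintro rfl
    have := hI.1
    omega
  obtain ⟨h1i, h1k, hT0all⟩ := two_points (s := T0) (f := fun P => -P.ord b)
    (fun P hP => by
      have := (hT0 P).mp hP
      show 0 < -P.ord b
      omega) hsum0 ((hT0 Pi).mpr (by have := hI.1; have := hI.2.1; omega))
      ((hT0 Pk).mpr (by have := hK.1; omega)) hik
  have h1i' : Pi.ord b = -1 := by
    have : -Pi.ord b = 1 := h1i
    omega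
  have h1k' : Pk.ord b = -1 := by
    have : -Pk.ord b = 1 := h1k
    omega
  have hkυ : Pk.ord U = 2 := by have := hK.1; omega
  refine ⟨Pz, Pi, Pk, ⟨hPz2', hzυ1, by omega⟩, ⟨h1i', by have := hI.2.1; omega,
    by have := hI.2.1; have := hI.2.2; omega⟩, ⟨h1k', hkυ, by have := hK.2; omega, ?_⟩, ?_⟩
  · rw [isValueAt_iff]
    right
    have h1 : b ^ 2 * U - algebraMap k L ρ = -(b * U ^ 2) := by
      rw [← heq]
      ring
    rw [h1, Place.ord_neg, Pk.ord_mul hb0 (pow_ne_zero _ hU0), Place.ord_pow, h1k', hkυ]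
    norm_num
  · intro P hz hi hk
    have hβ : P.ord b = 0 := by
      rcases lt_trichotomy (P.ord b) 0 with h | h | h
      · rcases hT0all P ((hT0 P).mpr h) with rfl | rfl
        · exact absurd rfl hi
        · exact absurd rfl hk
      · exact h
      · exact absurd (hTinfall P ((hTinf P).mpr h)) hz
    rcases ord_types_two hρ heq P with h | ⟨h, h', -⟩ | ⟨h, h', -⟩ | ⟨h, h', -⟩
    · exact ⟨h.2.1, h.1, h.2.2⟩
    all_goals omega

/-- **The special points of the vertical component, `q = 2`, full form.** -/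
theorem special_points_two_full (hρ : ρ ≠ 0) (hb : Transcendental k b)
    (heq : b * U ^ 2 + b ^ 2 * U = algebraMap k L ρ)
    (hgen : IntermediateField.adjoin k {b, U} = ⊤) :
    ∃ Pz Pi Pk : Place k L,
      (Pz.ord b = 2 ∧ Pz.ord U = -1 ∧ Pz.ord (U + b) = -1) ∧
      (Pi.ord b = -1 ∧ Pi.ord U = -1 ∧ Pi.ord (U + b) = 2) ∧
      (Pk.ord b = -1 ∧ Pk.ord U = 2 ∧ Pk.ord (U + b) = -1 ∧ IsValueAt Pk (b ^ 2 * U) ρ) ∧
      (∀ P : Place k L, P ≠ Pz → P ≠ Pi → P ≠ Pk →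
        P.ord b = 0 ∧ P.ord U = 0 ∧ P.ord (U + b) = 0) ∧
      (Pz ≠ Pi ∧ Pz ≠ Pk ∧ Pi ≠ Pk) ∧
      (∀ P : Place k L, 0 < P.ord b ↔ P = Pz) ∧
      (∀ P : Place k L, 0 < P.ord (U + b) ↔ P = Pi) ∧
      (∀ P : Place k L, 0 < P.ord U ↔ P = Pk) ∧
      (∀ P : Place k L, P.ord b < 0 ↔ P = Pi ∨ P = Pk) ∧
      (∀ P : Place k L, P.ord U < 0 ↔ P = Pz ∨ P = Pi) ∧
      IsValueAt Pi (U / b) (-1) ∧ IsValueAt Pz (b / U) 0 ∧ IsValueAt Pk (U / b) 0 := by
  obtain ⟨Pz, Pi, Pk, ⟨hz1, hz2, hz3⟩, ⟨hi1, hi2, hi3⟩, ⟨hk1, hk2, hk3, hk4⟩, hall⟩ :=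
    special_points_two hρ hb heq hgen
  obtain ⟨hb0, hU0, hUb0⟩ := ne_zero_of_heq le_rfl hρ (heq_two heq)
  have hzi : Pz ≠ Pi := by rintro rfl; omega
  have hzk : Pz ≠ Pk := by rintro rfl; omega
  have hik : Pi ≠ Pk := by rintro rfl; omega
  have hcases : ∀ P : Place k L, P = Pz ∨ P = Pi ∨ P = Pk ∨
      (P.ord b = 0 ∧ P.ord U = 0 ∧ P.ord (U + b) = 0) := by
    intro P
    by_cases h1 : P = Pz
    · exact Or.inl h1
    by_cases h2 : P = Pi
    · exact Or.inr (Or.inl h2)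
    by_cases h3 : P = Pk
    · exact Or.inr (Or.inr (Or.inl h3))
    exact Or.inr (Or.inr (Or.inr (hall P h1 h2 h3)))
  refine ⟨Pz, Pi, Pk, ⟨hz1, hz2, hz3⟩, ⟨hi1, hi2, hi3⟩, ⟨hk1, hk2, hk3, hk4⟩, hall,
    ⟨hzi, hzk, hik⟩, fun P => ?_, fun P => ?_, fun P => ?_, fun P => ?_, fun P => ?_, ?_, ?_, ?_⟩
  · constructor
    · intro h
      rcases hcases P with rfl | rfl | rfl | ⟨h0, -, -⟩
      · rfl
      all_goals omega
    · rintro rfl
      omega
  · constructor
    · intro h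
      rcases hcases P with rfl | rfl | rfl | ⟨-, -, h0⟩
      · omega
      · rfl
      all_goals omega
    · rintro rfl
      omega
  · constructor
    · intro h
      rcases hcases P with rfl | rfl | rfl | ⟨-, h0, -⟩
      · omega
      · omega
      · rfl
      · omega
    · rintro rfl
      omega
  · constructor
    · intro h
      rcases hcases P with rfl | rfl | rfl | ⟨h0, -, -⟩
      · omega
      · exact Or.inl rfl
      · exact Or.inr rfl
      · omega
    · rintro (rfl | rfl) <;> omega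
  · constructor
    · intro h
      rcases hcases P with rfl | rfl | rfl | ⟨-, h0, -⟩
      · exact Or.inl rfl
      · exact Or.inr rfl
      all_goals omega
    · rintro (rfl | rfl) <;> omega
  · exact isValueAt_div_neg_one hb0 hUb0 (by omega)
  · exact isValueAt_div_zero hb0 hU0 (by omega)
  · exact isValueAt_div_zero hU0 hb0 (by omega)

end Two

/-! ### the instances for `AdjoinRoot (vertBar q β ρ)` -/

section VertBar

open Fermat.Agent.BR3.VertResidue Fermat.Agent.BR3.VertResField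

variable [IsAlgClosed k]

local notation "T" => (RatFunc.X : RatFunc k)

/-- **The special points of `z e`**, `q` odd: the residue field `AdjoinRoot (vertBar q β ρ)` with
`b̃ = of (β T)`, `Ũ = root`. -/
theorem special_points_vertBar (q : ℕ) [hq : Fact q.Prime] [CharP k q] {β ρ : k}
    [hP : Fact (Irreducible (vertBar q β ρ))] (hq2 : q ≠ 2) (hβ : β ≠ 0) (hρ : ρ ≠ 0) {c : k}
    (hc : c ^ 2 = ρ) :
    ∃ Pz Pi Pp Pm : Place k (AdjoinRoot (vertBar q β ρ)),
      (Pz.ord (AdjoinRoot.of (vertBar q β ρ) (RatFunc.C β * T)) = q ∧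
        Pz.ord (AdjoinRoot.root (vertBar q β ρ)) = -1 ∧
        Pz.ord (AdjoinRoot.root (vertBar q β ρ) +
          AdjoinRoot.of (vertBar q β ρ) (RatFunc.C β * T)) = -1) ∧
      (Pi.ord (AdjoinRoot.of (vertBar q β ρ) (RatFunc.C β * T)) = -1 ∧
        Pi.ord (AdjoinRoot.root (vertBar q β ρ)) = -1 ∧
        Pi.ord (AdjoinRoot.root (vertBar q β ρ) +
          AdjoinRoot.of (vertBar q β ρ) (RatFunc.C β * T)) = q) ∧
      (Pp.ord (AdjoinRoot.of (vertBar q β ρ) (RatFunc.C β * T)) = -(((q - 1) / 2 : ℕ) : ℤ) ∧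
        Pp.ord (AdjoinRoot.root (vertBar q β ρ)) = 1 ∧
        Pp.ord (AdjoinRoot.root (vertBar q β ρ) +
          AdjoinRoot.of (vertBar q β ρ) (RatFunc.C β * T)) = -(((q - 1) / 2 : ℕ) : ℤ) ∧
        IsValueAt Pp (AdjoinRoot.of (vertBar q β ρ) (RatFunc.C β * T) *
          AdjoinRoot.root (vertBar q β ρ) ^ ((q - 1) / 2)) c) ∧
      (Pm.ord (AdjoinRoot.of (vertBar q β ρ) (RatFunc.C β * T)) = -(((q - 1) / 2 : ℕ) : ℤ) ∧
        Pm.ord (AdjoinRoot.root (vertBar q β ρ)) = 1 ∧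
        Pm.ord (AdjoinRoot.root (vertBar q β ρ) +
          AdjoinRoot.of (vertBar q β ρ) (RatFunc.C β * T)) = -(((q - 1) / 2 : ℕ) : ℤ) ∧
        IsValueAt Pm (AdjoinRoot.of (vertBar q β ρ) (RatFunc.C β * T) *
          AdjoinRoot.root (vertBar q β ρ) ^ ((q - 1) / 2)) (-c)) ∧
      (∀ P : Place k (AdjoinRoot (vertBar q β ρ)), P ≠ Pz → P ≠ Pi → P ≠ Pp → P ≠ Pm →
        P.ord (AdjoinRoot.of (vertBar q β ρ) (RatFunc.C β * T)) = 0 ∧
        P.ord (AdjoinRoot.root (vertBar q β ρ)) = 0 ∧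
        P.ord (AdjoinRoot.root (vertBar q β ρ) +
          AdjoinRoot.of (vertBar q β ρ) (RatFunc.C β * T)) = 0) ∧
      (Pz ≠ Pi ∧ Pz ≠ Pp ∧ Pz ≠ Pm ∧ Pi ≠ Pp ∧ Pi ≠ Pm ∧ Pp ≠ Pm) :=
  by
  obtain ⟨Pz, Pi, Pp, Pm, h1, h2, h3, h4, h5, h6, -⟩ :=
    special_points_full q hq2 hρ (vertBar_hb (q := q) (ρ := ρ) hβ) (vertBar_heq hβ)
      (vertBar_hgen hβ) hc
  exact ⟨Pz, Pi, Pp, Pm, h1, h2, h3, h4, h5, h6⟩

/-- **The special points of `z e`**, `q = 2`. -/
theorem special_points_vertBar_two [CharP k 2] {β ρ : k}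
    [hP : Fact (Irreducible (vertBar 2 β ρ))] (hβ : β ≠ 0) (hρ : ρ ≠ 0) :
    ∃ Pz Pi Pk : Place k (AdjoinRoot (vertBar 2 β ρ)),
      (Pz.ord (AdjoinRoot.of (vertBar 2 β ρ) (RatFunc.C β * T)) = 2 ∧
        Pz.ord (AdjoinRoot.root (vertBar 2 β ρ)) = -1 ∧
        Pz.ord (AdjoinRoot.root (vertBar 2 β ρ) +
          AdjoinRoot.of (vertBar 2 β ρ) (RatFunc.C β * T)) = -1) ∧
      (Pi.ord (AdjoinRoot.of (vertBar 2 β ρ) (RatFunc.C β * T)) = -1 ∧
        Pi.ord (AdjoinRoot.root (vertBar 2 β ρ)) = -1 ∧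
        Pi.ord (AdjoinRoot.root (vertBar 2 β ρ) +
          AdjoinRoot.of (vertBar 2 β ρ) (RatFunc.C β * T)) = 2) ∧
      (Pk.ord (AdjoinRoot.of (vertBar 2 β ρ) (RatFunc.C β * T)) = -1 ∧
        Pk.ord (AdjoinRoot.root (vertBar 2 β ρ)) = 2 ∧
        Pk.ord (AdjoinRoot.root (vertBar 2 β ρ) +
          AdjoinRoot.of (vertBar 2 β ρ) (RatFunc.C β * T)) = -1 ∧
        IsValueAt Pk (AdjoinRoot.of (vertBar 2 β ρ) (RatFunc.C β * T) ^ 2 *
          AdjoinRoot.root (vertBar 2 β ρ)) ρ) ∧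
      (∀ P : Place k (AdjoinRoot (vertBar 2 β ρ)), P ≠ Pz → P ≠ Pi → P ≠ Pk →
        P.ord (AdjoinRoot.of (vertBar 2 β ρ) (RatFunc.C β * T)) = 0 ∧
        P.ord (AdjoinRoot.root (vertBar 2 β ρ)) = 0 ∧
        P.ord (AdjoinRoot.root (vertBar 2 β ρ) +
          AdjoinRoot.of (vertBar 2 β ρ) (RatFunc.C β * T)) = 0) ∧
      (Pz ≠ Pi ∧ Pz ≠ Pk ∧ Pi ≠ Pk) := by
  obtain ⟨Pz, Pi, Pk, h1, h2, h3, h4, h5, -⟩ :=
    special_points_two_full hρ (vertBar_hb (q := 2) (ρ := ρ) hβ) (vertBar_heq_two hβ)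
      (vertBar_hgen hβ)
  exact ⟨Pz, Pi, Pk, h1, h2, h3, h4, h5⟩

end VertBar

end Fermat.Agent.BR3.VertPts
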