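import Mathlib
import Fermat.Agent.BR3.VertPts

/-!
# Program C (S36), node (I7-ZE-PTS), part 2: the special points of `z e` as named places

Setting of `BR3/VertPts`: `L = k(b, U)`, `b U ^ q + b ^ 2 U ^ (q - 1) = ρ`.  The special points of
`BR3/VertPts.special_points_full` as terms (chosen by their characterisations):

* `ptZ` : the zero of `b` (`V = U / b = ∞`, the branch towards `cZero`), uniform in `q`;
* `ptI` : the zero of `U + b` (`V = -1`, the branch towards `cInf`), uniform in `q`;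
* `ptK c` (`q` odd, `c ^ 2 = ρ`) : the zero of `U` with `b U ^ ((q - 1) / 2) ≡ c` (the two Kummer
  branches are `ptK c`, `ptK (-c)`);
* `ptK₂` (`q = 2`) : the zero of `U`;

with their orders, values, distinctness and exhaustion lemmas.
-/

set_option autoImplicit false
set_option linter.unusedSectionVars false

open AlgebraicCurve Polynomial

namespace Fermat.Agent.BR3.VertPtsDef

open Fermat.Agent.Red Fermat.Agent.BR3.VertPts

variable {k L : Type*} [Field k] [Field L] [Algebra k L] [IsAlgClosed k]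

section Uniform

variable (q : ℕ) [hq : Fact q.Prime] [CharP k q] {ρ : k} {b U : L}

/-- the zero of `b`, all primes `q` -/
theorem exists_ptZ (hρ : ρ ≠ 0) (hb : Transcendental k b)
    (heq : b * U ^ q + b ^ 2 * U ^ (q - 1) = algebraMap k L ρ)
    (hgen : IntermediateField.adjoin k {b, U} = ⊤) :
    ∃ Pz : Place k L, (∀ P : Place k L, 0 < P.ord b ↔ P = Pz) ∧
      Pz.ord b = q ∧ Pz.ord U = -1 ∧ Pz.ord (U + b) = -1 ∧ IsValueAt Pz (b / U) 0 := by
  by_cases hq2 : q = 2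
  · subst hq2
    have heq' : b * U ^ 2 + b ^ 2 * U = algebraMap k L ρ := by simpa using heq
    obtain ⟨Pz, Pi, Pk, hz, -, -, -, -, h1, -, -, -, -, -, hv, -⟩ :=
      special_points_two_full hρ hb heq' hgen
    exact ⟨Pz, h1, by exact_mod_cast hz.1, hz.2.1, hz.2.2, hv⟩
  · obtain ⟨c, hc⟩ := IsAlgClosed.exists_pow_nat_eq ρ (n := 2) two_pos
    obtain ⟨Pz, Pi, Pp, Pm, hz, -, -, -, -, -, h1, -, -, -, -, -, hv, -, -⟩ :=
      special_points_full q hq2 hρ hb heq hgen hc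
    exact ⟨Pz, h1, hz.1, hz.2.1, hz.2.2, hv⟩

/-- the zero of `U + b`, all primes `q` -/
theorem exists_ptI (hρ : ρ ≠ 0) (hb : Transcendental k b)
    (heq : b * U ^ q + b ^ 2 * U ^ (q - 1) = algebraMap k L ρ)
    (hgen : IntermediateField.adjoin k {b, U} = ⊤) :
    ∃ Pi : Place k L, (∀ P : Place k L, 0 < P.ord (U + b) ↔ P = Pi) ∧
      Pi.ord b = -1 ∧ Pi.ord U = -1 ∧ Pi.ord (U + b) = q ∧ IsValueAt Pi (U / b) (-1) := by
  by_cases hq2 : q = 2
  · subst hq2
    have heq' : b * U ^ 2 + b ^ 2 * U = algebraMap k L ρ := by simpa using heq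
    obtain ⟨Pz, Pi, Pk, -, hi, -, -, -, -, h1, -, -, -, hv, -, -⟩ :=
      special_points_two_full hρ hb heq' hgen
    exact ⟨Pi, h1, hi.1, hi.2.1, by exact_mod_cast hi.2.2, hv⟩
  · obtain ⟨c, hc⟩ := IsAlgClosed.exists_pow_nat_eq ρ (n := 2) two_pos
    obtain ⟨Pz, Pi, Pp, Pm, -, hi, -, -, -, -, -, h1, -, -, -, hv, -, -, -⟩ :=
      special_points_full q hq2 hρ hb heq hgen hc
    exact ⟨Pi, h1, hi.1, hi.2.1, hi.2.2, hv⟩

/-- **the zero of `b`** (`V = ∞`): the branch of `z e` towards `cZero` -/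
noncomputable def ptZ (hρ : ρ ≠ 0) (hb : Transcendental k b)
    (heq : b * U ^ q + b ^ 2 * U ^ (q - 1) = algebraMap k L ρ)
    (hgen : IntermediateField.adjoin k {b, U} = ⊤) : Place k L :=
  Classical.choose (exists_ptZ q hρ hb heq hgen)

/-- **the zero of `U + b`** (`V = -1`): the branch of `z e` towards `cInf` -/
noncomputable def ptI (hρ : ρ ≠ 0) (hb : Transcendental k b)
    (heq : b * U ^ q + b ^ 2 * U ^ (q - 1) = algebraMap k L ρ)
    (hgen : IntermediateField.adjoin k {b, U} = ⊤) : Place k L :=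
  Classical.choose (exists_ptI q hρ hb heq hgen)

variable (hρ : ρ ≠ 0) (hb : Transcendental k b)
  (heq : b * U ^ q + b ^ 2 * U ^ (q - 1) = algebraMap k L ρ)
  (hgen : IntermediateField.adjoin k {b, U} = ⊤)

theorem ord_b_pos_iff (P : Place k L) : 0 < P.ord b ↔ P = ptZ q hρ hb heq hgen :=
  (Classical.choose_spec (exists_ptZ q hρ hb heq hgen)).1 P

theorem ord_b_ptZ : (ptZ q hρ hb heq hgen).ord b = q :=
  (Classical.choose_spec (exists_ptZ q hρ hb heq hgen)).2.1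

theorem ord_U_ptZ : (ptZ q hρ hb heq hgen).ord U = -1 :=
  (Classical.choose_spec (exists_ptZ q hρ hb heq hgen)).2.2.1

theorem ord_add_ptZ : (ptZ q hρ hb heq hgen).ord (U + b) = -1 :=
  (Classical.choose_spec (exists_ptZ q hρ hb heq hgen)).2.2.2.1

theorem isValueAt_ptZ : IsValueAt (ptZ q hρ hb heq hgen) (b / U) 0 :=
  (Classical.choose_spec (exists_ptZ q hρ hb heq hgen)).2.2.2.2

theorem ord_add_pos_iff (P : Place k L) : 0 < P.ord (U + b) ↔ P = ptI q hρ hb heq hgen :=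
  (Classical.choose_spec (exists_ptI q hρ hb heq hgen)).1 P

theorem ord_b_ptI : (ptI q hρ hb heq hgen).ord b = -1 :=
  (Classical.choose_spec (exists_ptI q hρ hb heq hgen)).2.1

theorem ord_U_ptI : (ptI q hρ hb heq hgen).ord U = -1 :=
  (Classical.choose_spec (exists_ptI q hρ hb heq hgen)).2.2.1

theorem ord_add_ptI : (ptI q hρ hb heq hgen).ord (U + b) = q :=
  (Classical.choose_spec (exists_ptI q hρ hb heq hgen)).2.2.2.1

theorem isValueAt_ptI : IsValueAt (ptI q hρ hb heq hgen) (U / b) (-1) :=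
  (Classical.choose_spec (exists_ptI q hρ hb heq hgen)).2.2.2.2

theorem ptZ_ne_ptI : ptZ q hρ hb heq hgen ≠ ptI q hρ hb heq hgen := by
  intro h
  have h1 := ord_b_ptZ q hρ hb heq hgen
  have h2 := ord_b_ptI q hρ hb heq hgen
  rw [h, h2] at h1
  have : (0 : ℤ) < (q : ℤ) := by exact_mod_cast hq.out.pos
  omega

/-- the poles of `U` are `ptZ` and `ptI` -/
theorem ord_U_neg_iff (P : Place k L) :
    P.ord U < 0 ↔ P = ptZ q hρ hb heq hgen ∨ P = ptI q hρ hb heq hgen := by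
  constructor
  · intro h
    rcases ord_types hq.out.two_le hρ heq P with ⟨h0, -, -⟩ | ⟨h0, h1, -⟩ | ⟨h0, -, h1⟩ |
      ⟨h0, -, -⟩
    · omega
    · left
      rw [← ord_b_pos_iff, h1]
      have : (q : ℤ) * P.ord U < 0 :=
        mul_neg_of_pos_of_neg (by exact_mod_cast hq.out.pos) h0
      omega
    · right
      rw [← ord_add_pos_iff, h1]
      have : (q : ℤ) * P.ord U < 0 :=
        mul_neg_of_pos_of_neg (by exact_mod_cast hq.out.pos) h0
      omega
    · omega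
  · rintro (rfl | rfl)
    · rw [ord_U_ptZ]
      norm_num
    · rw [ord_U_ptI]
      norm_num

end Uniform

/-! ### the Kummer points, `q` odd -/

section Odd

variable (q : ℕ) [hq : Fact q.Prime] [CharP k q] {ρ : k} {b U : L}

omit [IsAlgClosed k] hq [CharP k q] in
theorem neg_sq_eq {c : k} (hc : c ^ 2 = ρ) : (-c) ^ 2 = ρ := by rw [neg_sq]; exact hc

theorem ne_neg_of_sq (hq2 : q ≠ 2) (hρ : ρ ≠ 0) {c : k} (hc : c ^ 2 = ρ) : c ≠ -c := by
  intro hcc
  have h2 := HyperGenus.two_ne_zero_of_charP (k := k) q hq2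
  have hc0 : c = 0 := by
    have h3 : 2 * c = 0 := by linear_combination hcc
    rcases mul_eq_zero.mp h3 with h | h
    · exact absurd h h2
    · exact h
  rw [hc0, zero_pow two_ne_zero] at hc
  exact hρ hc.symm

/-- the zero of `U` with `b U ^ d ≡ c` -/
theorem exists_ptK (hq2 : q ≠ 2) (hρ : ρ ≠ 0) (hb : Transcendental k b)
    (heq : b * U ^ q + b ^ 2 * U ^ (q - 1) = algebraMap k L ρ)
    (hgen : IntermediateField.adjoin k {b, U} = ⊤) {c : k} (hc : c ^ 2 = ρ) :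
    ∃ Pc : Place k L,
      (∀ P : Place k L, (0 < P.ord U ∧ IsValueAt P (b * U ^ ((q - 1) / 2)) c) ↔ P = Pc) ∧
      Pc.ord b = -(((q - 1) / 2 : ℕ) : ℤ) ∧ Pc.ord U = 1 ∧
      Pc.ord (U + b) = -(((q - 1) / 2 : ℕ) : ℤ) ∧
      IsValueAt Pc (b * U ^ ((q - 1) / 2)) c ∧ IsValueAt Pc (U / b) 0 := by
  obtain ⟨Pz, Pi, Pp, Pm, -, -, hp, hm, -, -, -, -, h1, -, -, -, -, hv, -⟩ :=
    special_points_full q hq2 hρ hb heq hgen hc
  refine ⟨Pp, fun P => ⟨?_, ?_⟩, hp.1, hp.2.1, hp.2.2.1, hp.2.2.2, hv⟩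
  · rintro ⟨h0, hval⟩
    rcases (h1 P).mp h0 with rfl | rfl
    · rfl
    · exact absurd (hval.unique hm.2.2.2) (ne_neg_of_sq q hq2 hρ hc)
  · rintro rfl
    exact ⟨by rw [hp.2.1]; norm_num, hp.2.2.2⟩

/-- **the Kummer point** of `z e` with `b U ^ ((q - 1) / 2) ≡ c`, `c ^ 2 = ρ` (`q` odd) -/
noncomputable def ptK (hq2 : q ≠ 2) (hρ : ρ ≠ 0) (hb : Transcendental k b)
    (heq : b * U ^ q + b ^ 2 * U ^ (q - 1) = algebraMap k L ρ)
    (hgen : IntermediateField.adjoin k {b, U} = ⊤) (c : k) (hc : c ^ 2 = ρ) : Place k L :=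
  Classical.choose (exists_ptK q hq2 hρ hb heq hgen hc)

variable (hq2 : q ≠ 2) (hρ : ρ ≠ 0) (hb : Transcendental k b)
  (heq : b * U ^ q + b ^ 2 * U ^ (q - 1) = algebraMap k L ρ)
  (hgen : IntermediateField.adjoin k {b, U} = ⊤) {c : k} (hc : c ^ 2 = ρ)

theorem eq_ptK_iff (P : Place k L) :
    (0 < P.ord U ∧ IsValueAt P (b * U ^ ((q - 1) / 2)) c) ↔ P = ptK q hq2 hρ hb heq hgen c hc :=
  (Classical.choose_spec (exists_ptK q hq2 hρ hb heq hgen hc)).1 P

theorem ord_b_ptK : (ptK q hq2 hρ hb heq hgen c hc).ord b = -(((q - 1) / 2 : ℕ) : ℤ) :=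
  (Classical.choose_spec (exists_ptK q hq2 hρ hb heq hgen hc)).2.1

theorem ord_U_ptK : (ptK q hq2 hρ hb heq hgen c hc).ord U = 1 :=
  (Classical.choose_spec (exists_ptK q hq2 hρ hb heq hgen hc)).2.2.1

theorem ord_add_ptK : (ptK q hq2 hρ hb heq hgen c hc).ord (U + b) = -(((q - 1) / 2 : ℕ) : ℤ) :=
  (Classical.choose_spec (exists_ptK q hq2 hρ hb heq hgen hc)).2.2.2.1

theorem isValueAt_theta_ptK :
    IsValueAt (ptK q hq2 hρ hb heq hgen c hc) (b * U ^ ((q - 1) / 2)) c :=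
  (Classical.choose_spec (exists_ptK q hq2 hρ hb heq hgen hc)).2.2.2.2.1

theorem isValueAt_ptK : IsValueAt (ptK q hq2 hρ hb heq hgen c hc) (U / b) 0 :=
  (Classical.choose_spec (exists_ptK q hq2 hρ hb heq hgen hc)).2.2.2.2.2

/-- the two Kummer points are distinct -/
theorem ptK_ne_ptK_neg :
    ptK q hq2 hρ hb heq hgen c hc ≠ ptK q hq2 hρ hb heq hgen (-c) (neg_sq_eq hc) := by
  intro h
  have h1 := isValueAt_theta_ptK q hq2 hρ hb heq hgen hc
  have h2 := isValueAt_theta_ptK q hq2 hρ hb heq hgen (neg_sq_eq hc)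
  rw [← h] at h2
  exact ne_neg_of_sq q hq2 hρ hc (h1.unique h2)

/-- the zeros of `U` are the two Kummer points -/
theorem ord_U_pos_iff (P : Place k L) :
    0 < P.ord U ↔ P = ptK q hq2 hρ hb heq hgen c hc ∨
      P = ptK q hq2 hρ hb heq hgen (-c) (neg_sq_eq hc) := by
  obtain ⟨Pz, Pi, Pp, Pm, -, -, hp, hm, -, -, -, -, h1, -, -, -, -, -, -⟩ :=
    special_points_full q hq2 hρ hb heq hgen hc
  have hPp : Pp = ptK q hq2 hρ hb heq hgen c hc :=
    (eq_ptK_iff q hq2 hρ hb heq hgen hc Pp).mp ⟨by rw [hp.2.1]; norm_num, hp.2.2.2⟩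
  have hPm : Pm = ptK q hq2 hρ hb heq hgen (-c) (neg_sq_eq hc) :=
    (eq_ptK_iff q hq2 hρ hb heq hgen (neg_sq_eq hc) Pm).mp ⟨by rw [hm.2.1]; norm_num, hm.2.2.2⟩
  rw [← hPp, ← hPm]
  exact h1 P

theorem ptZ_ne_ptK : ptZ q hρ hb heq hgen ≠ ptK q hq2 hρ hb heq hgen c hc := by
  intro h
  have h1 := ord_U_ptZ q hρ hb heq hgen
  have h2 := ord_U_ptK q hq2 hρ hb heq hgen hc
  rw [h, h2] at h1
  omega

theorem ptI_ne_ptK : ptI q hρ hb heq hgen ≠ ptK q hq2 hρ hb heq hgen c hc := by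
  intro h
  have h1 := ord_U_ptI q hρ hb heq hgen
  have h2 := ord_U_ptK q hq2 hρ hb heq hgen hc
  rw [h, h2] at h1
  omega

/-- **exhaustion, `q` odd**: away from the four special points the orders of `b`, `U`, `U + b`
vanish -/
theorem ord_eq_zero_of_ne {P : Place k L} (hz : P ≠ ptZ q hρ hb heq hgen)
    (hi : P ≠ ptI q hρ hb heq hgen) (hp : P ≠ ptK q hq2 hρ hb heq hgen c hc)
    (hm : P ≠ ptK q hq2 hρ hb heq hgen (-c) (neg_sq_eq hc)) :
    P.ord b = 0 ∧ P.ord U = 0 ∧ P.ord (U + b) = 0 := by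
  have hυ : P.ord U = 0 := by
    rcases lt_trichotomy (P.ord U) 0 with h | h | h
    · rcases (ord_U_neg_iff q hρ hb heq hgen P).mp h with h' | h'
      · exact absurd h' hz
      · exact absurd h' hi
    · exact h
    · rcases (ord_U_pos_iff q hq2 hρ hb heq hgen hc P).mp h with h' | h'
      · exact absurd h' hp
      · exact absurd h' hm
  rcases ord_types hq.out.two_le hρ heq P with h | ⟨h, -, -⟩ | ⟨h, -, -⟩ | ⟨h, -, -⟩
  · exact ⟨h.2.1, h.1, h.2.2⟩
  all_goals omega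

/-- the poles of `b` (`q` odd): `ptI` and the two Kummer points -/
theorem ord_b_neg_iff (P : Place k L) :
    P.ord b < 0 ↔ P = ptI q hρ hb heq hgen ∨ P = ptK q hq2 hρ hb heq hgen c hc ∨
      P = ptK q hq2 hρ hb heq hgen (-c) (neg_sq_eq hc) := by
  have hd1 : (1 : ℤ) ≤ (((q - 1) / 2 : ℕ) : ℤ) := by
    have h1 : 1 ≤ (q - 1) / 2 := by
      obtain ⟨j, hj⟩ := hq.out.odd_of_ne_two hq2
      have := hq.out.two_le
      omega
    exact_mod_cast h1
  constructor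
  · intro h
    by_contra hcon
    push Not at hcon
    by_cases hz : P = ptZ q hρ hb heq hgen
    · rw [hz, ord_b_ptZ] at h
      have : (0 : ℤ) < (q : ℤ) := by exact_mod_cast hq.out.pos
      omega
    · have := (ord_eq_zero_of_ne q hq2 hρ hb heq hgen hc hz hcon.1 hcon.2.1 hcon.2.2).1
      omega
  · rintro (rfl | rfl | rfl)
    · rw [ord_b_ptI]
      norm_num
    · rw [ord_b_ptK]
      omega
    · rw [ord_b_ptK]
      omega

end Odd

/-! ### the Kummer point, `q = 2` -/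

section Two

variable [CharP k 2] {ρ : k} {b U : L}

/-- the zero of `U`, `q = 2` -/
theorem exists_ptK₂ (hρ : ρ ≠ 0) (hb : Transcendental k b)
    (heq : b * U ^ 2 + b ^ 2 * U = algebraMap k L ρ)
    (hgen : IntermediateField.adjoin k {b, U} = ⊤) :
    ∃ Pk : Place k L, (∀ P : Place k L, 0 < P.ord U ↔ P = Pk) ∧
      Pk.ord b = -1 ∧ Pk.ord U = 2 ∧ Pk.ord (U + b) = -1 ∧ IsValueAt Pk (b ^ 2 * U) ρ ∧
      IsValueAt Pk (U / b) 0 := by
  obtain ⟨Pz, Pi, Pk, -, -, hk, -, -, -, -, h1, -, -, -, -, hv⟩ :=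
    special_points_two_full hρ hb heq hgen
  exact ⟨Pk, h1, hk.1, hk.2.1, hk.2.2.1, hk.2.2.2, hv⟩

/-- **the Kummer point** of `z e` for `q = 2` -/
noncomputable def ptK₂ (hρ : ρ ≠ 0) (hb : Transcendental k b)
    (heq : b * U ^ 2 + b ^ 2 * U = algebraMap k L ρ)
    (hgen : IntermediateField.adjoin k {b, U} = ⊤) : Place k L :=
  Classical.choose (exists_ptK₂ hρ hb heq hgen)

variable (hρ : ρ ≠ 0) (hb : Transcendental k b)
  (heq : b * U ^ 2 + b ^ 2 * U = algebraMap k L ρ)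
  (hgen : IntermediateField.adjoin k {b, U} = ⊤)

theorem ord_U_pos_iff₂ (P : Place k L) : 0 < P.ord U ↔ P = ptK₂ hρ hb heq hgen :=
  (Classical.choose_spec (exists_ptK₂ hρ hb heq hgen)).1 P

theorem ord_b_ptK₂ : (ptK₂ hρ hb heq hgen).ord b = -1 :=
  (Classical.choose_spec (exists_ptK₂ hρ hb heq hgen)).2.1

theorem ord_U_ptK₂ : (ptK₂ hρ hb heq hgen).ord U = 2 :=
  (Classical.choose_spec (exists_ptK₂ hρ hb heq hgen)).2.2.1

theorem ord_add_ptK₂ : (ptK₂ hρ hb heq hgen).ord (U + b) = -1 :=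
  (Classical.choose_spec (exists_ptK₂ hρ hb heq hgen)).2.2.2.1

theorem isValueAt_sq_ptK₂ : IsValueAt (ptK₂ hρ hb heq hgen) (b ^ 2 * U) ρ :=
  (Classical.choose_spec (exists_ptK₂ hρ hb heq hgen)).2.2.2.2.1

theorem isValueAt_ptK₂ : IsValueAt (ptK₂ hρ hb heq hgen) (U / b) 0 :=
  (Classical.choose_spec (exists_ptK₂ hρ hb heq hgen)).2.2.2.2.2

/-- **exhaustion, `q = 2`** -/
theorem ord_eq_zero_of_ne₂ {P : Place k L}
    (hz : P ≠ ptZ 2 hρ hb (heq_two heq) hgen) (hi : P ≠ ptI 2 hρ hb (heq_two heq) hgen)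
    (hk : P ≠ ptK₂ hρ hb heq hgen) :
    P.ord b = 0 ∧ P.ord U = 0 ∧ P.ord (U + b) = 0 := by
  have hυ : P.ord U = 0 := by
    rcases lt_trichotomy (P.ord U) 0 with h | h | h
    · rcases (ord_U_neg_iff 2 hρ hb (heq_two heq) hgen P).mp h with h' | h'
      · exact absurd h' hz
      · exact absurd h' hi
    · exact h
    · exact absurd ((ord_U_pos_iff₂ hρ hb heq hgen P).mp h) hk
  rcases ord_types_two hρ heq P with h | ⟨h, -, -⟩ | ⟨h, -, -⟩ | ⟨h, -, -⟩
  · exact ⟨h.2.1, h.1, h.2.2⟩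
  all_goals omega

end Two

/-! ### the instances for `AdjoinRoot (vertBar q β ρ)` -/

section VertBar

open Fermat.Agent.BR3.VertResidue Fermat.Agent.BR3.VertResField

local notation "T" => (RatFunc.X : RatFunc k)

variable (q : ℕ) [hq : Fact q.Prime] [CharP k q] {β ρ : k}
  [hP : Fact (Irreducible (vertBar q β ρ))]

/-- the branch of `z e` towards `cZero`: the zero of `b̃` on `AdjoinRoot (vertBar q β ρ)` -/
noncomputable def ptZBar (hβ : β ≠ 0) (hρ : ρ ≠ 0) : Place k (AdjoinRoot (vertBar q β ρ)) :=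
  ptZ q hρ (vertBar_hb (q := q) (ρ := ρ) hβ) (vertBar_heq hβ) (vertBar_hgen hβ)

/-- the branch of `z e` towards `cInf`: the zero of `Ũ + b̃` on `AdjoinRoot (vertBar q β ρ)` -/
noncomputable def ptIBar (hβ : β ≠ 0) (hρ : ρ ≠ 0) : Place k (AdjoinRoot (vertBar q β ρ)) :=
  ptI q hρ (vertBar_hb (q := q) (ρ := ρ) hβ) (vertBar_heq hβ) (vertBar_hgen hβ)

/-- the Kummer branch of `z e` with `b̃ Ũ ^ ((q - 1) / 2) ≡ c` (`q` odd, `c ^ 2 = ρ`) -/
noncomputable def ptKBar (hq2 : q ≠ 2) (hβ : β ≠ 0) (hρ : ρ ≠ 0) (c : k) (hc : c ^ 2 = ρ) :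
    Place k (AdjoinRoot (vertBar q β ρ)) :=
  ptK q hq2 hρ (vertBar_hb (q := q) (ρ := ρ) hβ) (vertBar_heq hβ) (vertBar_hgen hβ) c hc

end VertBar

section VertBarTwo

open Fermat.Agent.BR3.VertResidue Fermat.Agent.BR3.VertResField

local notation "T" => (RatFunc.X : RatFunc k)

variable [CharP k 2] {β ρ : k} [hP : Fact (Irreducible (vertBar 2 β ρ))]

/-- the Kummer branch of `z e` for `q = 2` -/
noncomputable def ptKBar₂ (hβ : β ≠ 0) (hρ : ρ ≠ 0) : Place k (AdjoinRoot (vertBar 2 β ρ)) :=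
  ptK₂ hρ (vertBar_hb (q := 2) (ρ := ρ) hβ) (vertBar_heq_two hβ) (vertBar_hgen hβ)

end VertBarTwo

end Fermat.Agent.BR3.VertPtsDef
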