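import Mathlib
import Fermat.Agent.BR3.VertSheet.Sheet
import Fermat.Agent.BR3.VertPtsDef
import Fermat.Agent.BR3.SplitBranch

/-!
# Program C (S36), node (N1-C): the two components of the cover through the node `nT e`

The node `nT e` of the stable model of `X₀(M q²)` joins the horizontal component `cInf` and the
vertical component `z e`; it lies over the OUTER node of `S'ref_a` at `e` (between `'can'` and the
exceptional circle component `E_e`).  On the split sheet `W := U / (-(α₂ Bc))`, `c₀ := 1`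
(`BR3/SplitPoly`, `BR3/SplitCoord`), the two inputs `Hc₁ Hc₂ : SplitBranch.CoverComp …` of
`SplitNodeChart.splitNodeChart` / `CoverComp.branchComp` are:

## (N1-C₁) the side of `z e`, ABSTRACT over `H : VertSheet.VertComp C a₀ ha1 ha2 Z resZ θ`

* `ptIBar_restrict`, `ramificationIndex_ptIBar`, `ord_algebraMap_ptIBar` : the point `ptIBar`
  (`Ũ + b̃ = 0`, the branch of `z e` towards `cInf`) lies over `T = ∞` and is unramified over it
  (the hypothesis `hord` of `splitNodeChart` / `CoverComp.unif`);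
* `isUnit_map_of_isRed`, `res_div_of_isRed` : for `b₀` with residue `C β * X` on the circle,
  `α₂ b₀` is a unit of `Z` and `θ / (-(α₂ b₀))` reduces to `-(Ũ / b̃)`;
* **`coverComp_ptI`** : `CoverComp (residue A) (circleRing …) (circleRes …) (placeInfty k) Z resZ
  (ptIBar q hβ hρ) W c₀` for `W * (-(α₂ b₀)) = θ`, `residue A c₀ = 1`;
  `coverComp_ptI_div` : the same for `W = U / α₂ (-Bc)`, `θ = U / α₂ a₀`, `b₀ = a₀⁻¹ • Bc`.
-/

set_option autoImplicit false
set_option linter.unusedSectionVars false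

noncomputable section

/- S36 build-time patch: file-local shortcut instances. They only shorten instance search;
each is the instance that the search finds anyway (reducible, same terms after unfolding). -/
local instance (priority := 100000) Fermat.Agent.BR3.FastInst.instAlgFullC_SplitCompsMod
    {k : Type*} [Field k] (N : ℕ) :
    Algebra k ↥(ModularCurve.modularFunctionFieldFullC k N) := inferInstance
local instance (priority := 100000) Fermat.Agent.BR3.FastInst.instFieldFullC_SplitCompsMod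
    {k : Type*} [Field k] (N : ℕ) :
    Field ↥(ModularCurve.modularFunctionFieldFullC k N) := inferInstance
local instance (priority := 100000) Fermat.Agent.BR3.FastInst.instAlgLaurent_SplitCompsMod
    {k : Type*} [Field k] : Algebra k (LaurentSeries k) := inferInstance


namespace Fermat.Agent.BR3.SplitCompsMod

open AlgebraicCurve Polynomial IsLocalRing
open Fermat.Agent.Red Fermat.Agent.X0
open Fermat.Agent.BR.Circle Fermat.Agent.BR.S0 Fermat.Agent.BR.P1 Fermat.Agent.BR.InertiaRed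
open Fermat.Agent.BR3.VertResidue Fermat.Agent.BR3.VertResField Fermat.Agent.BR3.VertPtsDef
open Fermat.Agent.BR3.VertSheet Fermat.Agent.BR3.SplitBranch

/-! ### the point `ptI` lies over `T = ∞` and is unramified -/

section Points

variable {k : Type*} [Field k] [IsAlgClosed k] (q : ℕ) [hqF : Fact q.Prime] [CharP k q]
  {β ρ : k} [hP : Fact (Irreducible (vertBar q β ρ))]

/-- the order of `T` at the point of `k(T)` under `ptI`, and the ramification index -/
theorem ram_mul_ord_ptIBar (hβ : β ≠ 0) (hρ : ρ ≠ 0) :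
    (Place.ramificationIndex (F := RatFunc k) (ptIBar q hβ hρ) : ℤ) *
      ((ptIBar q hβ hρ).restrict (RatFunc k)).ord (RatFunc.X : RatFunc k) = -1 := by
  have h1 := (ptIBar q hβ hρ).ord_restrict (F := RatFunc k) (RatFunc.C β * RatFunc.X)
  rw [AdjoinRoot.algebraMap_eq] at h1
  have h2 : (ptIBar q hβ hρ).ord
      (AdjoinRoot.of (vertBar q β ρ) (RatFunc.C β * RatFunc.X)) = -1 :=
    ord_b_ptI q hρ (vertBar_hb (q := q) (ρ := ρ) hβ) (vertBar_heq hβ) (vertBar_hgen hβ)
  have hC : (RatFunc.C β : RatFunc k) ≠ 0 := by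
    rw [← RatFunc.algebraMap_eq_C]
    exact (_root_.map_ne_zero _).mpr hβ
  rw [h2, Place.ord_mul _ hC RatFunc.X_ne_zero, ← RatFunc.algebraMap_eq_C,
    Place.ord_algebraMap, zero_add] at h1
  exact h1.symm

/-- **`ptI` is unramified over `k(T)`.** -/
theorem ramificationIndex_ptIBar (hβ : β ≠ 0) (hρ : ρ ≠ 0) :
    Place.ramificationIndex (F := RatFunc k) (ptIBar q hβ hρ) = 1 := by
  have h := ram_mul_ord_ptIBar q hβ hρ
  have he : (0 : ℤ) < (Place.ramificationIndex (F := RatFunc k) (ptIBar q hβ hρ) : ℤ) := by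
    exact_mod_cast (ptIBar q hβ hρ).ramificationIndex_pos (F := RatFunc k)
  have hdvd : (Place.ramificationIndex (F := RatFunc k) (ptIBar q hβ hρ) : ℤ) ∣ 1 :=
    ⟨-((ptIBar q hβ hρ).restrict (RatFunc k)).ord (RatFunc.X : RatFunc k), by rw [mul_neg, h]; rfl⟩
  have h1 := Int.eq_one_of_dvd_one he.le hdvd
  exact_mod_cast h1

/-- **`ptI` lies over `T = ∞`.** -/
theorem ptIBar_restrict (hβ : β ≠ 0) (hρ : ρ ≠ 0) :
    (ptIBar q hβ hρ).restrict (RatFunc k) = placeInfty k := by
  apply eq_placeInfty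
  have h := ram_mul_ord_ptIBar q hβ hρ
  rw [ramificationIndex_ptIBar q hβ hρ, Nat.cast_one, one_mul] at h
  rw [h]
  norm_num

/-- **the orders at `ptI` of the functions of `k(T)` are their orders at `T = ∞`**: the hypothesis
`hord` of `SplitNodeChart.splitNodeChart` on the side of `z e`. -/
theorem ord_algebraMap_ptIBar (hβ : β ≠ 0) (hρ : ρ ≠ 0) (g : RatFunc k) :
    (ptIBar q hβ hρ).ord (algebraMap (RatFunc k) (AdjoinRoot (vertBar q β ρ)) g) =
      (placeInfty k).ord g := by
  rw [(ptIBar q hβ hρ).ord_restrict (F := RatFunc k) g, ramificationIndex_ptIBar q hβ hρ,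
    ptIBar_restrict q hβ hρ, Nat.cast_one, one_mul]

end Points

/-! ### the component `z e` over the circle component -/

section Sheet

variable {K F' F'' : Type*} [Field K] [Field F'] [Field F''] [Algebra K F'] [Algebra K F'']
  [Algebra F' F''] [IsScalarTower K F' F''] {A : ValuationSubring K}
  [IsAlgClosed (ResidueField A)] {T' : Set (Place K F')}

variable {q : ℕ} [hqF : Fact q.Prime] [CharP (ResidueField A) q] {β ρ : ResidueField A}
  [hP : Fact (Irreducible (vertBar q β ρ))]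
  {C : AnnulusCore A T'} {a₀ : K} {ha1 : A.valuation C.thick < A.valuation a₀}
  {ha2 : A.valuation a₀ < 1} {Z : ValuationSubring F''}
  {resZ : Z →+* AdjoinRoot (vertBar q β ρ)} {θ : F''} (H : VertComp C a₀ ha1 ha2 Z resZ θ)

include H

/-- the residue on `z e` of a function of the circle with residue `C β * X` -/
theorem res_map_of_isRed {b₀ : F'} (hb₀ : IsRed C a₀ b₀ (RatFunc.C β * RatFunc.X)) :
    resZ ⟨algebraMap F' F'' b₀, H.map_mem ⟨_, hb₀⟩⟩ =
      AdjoinRoot.of (vertBar q β ρ) (RatFunc.C β * RatFunc.X) := by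
  rw [H.compat ⟨b₀, ⟨_, hb₀⟩⟩ (H.map_mem ⟨_, hb₀⟩), circleRes_eq C a₀ ha1 ha2 hb₀]

omit H in
theorem of_b_ne_zero (hβ : β ≠ 0) :
    AdjoinRoot.of (vertBar q β ρ) (RatFunc.C β * RatFunc.X) ≠ 0 := by
  have hβX : (RatFunc.C β * RatFunc.X : RatFunc (ResidueField A)) ≠ 0 :=
    mul_ne_zero (by rw [ne_eq, map_eq_zero]; exact hβ) RatFunc.X_ne_zero
  exact (_root_.map_ne_zero _).mpr hβX

/-- a function of the circle with residue `C β * X` is a unit of `z e` -/
theorem isUnit_map_of_isRed (hβ : β ≠ 0) {b₀ : F'}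
    (hb₀ : IsRed C a₀ b₀ (RatFunc.C β * RatFunc.X)) :
    IsUnit (⟨algebraMap F' F'' b₀, H.map_mem ⟨_, hb₀⟩⟩ : Z) := by
  by_contra hnu
  have h0 := (H.ker _).mpr hnu
  rw [res_map_of_isRed H hb₀] at h0
  exact of_b_ne_zero (q := q) (ρ := ρ) hβ h0

/-- `W = θ / (-(α₂ b₀))` is integral on `z e` and reduces to `-(Ũ / b̃)` -/
theorem res_of_mul_eq (hβ : β ≠ 0) {b₀ : F'} (hb₀ : IsRed C a₀ b₀ (RatFunc.C β * RatFunc.X))
    {W : F''} (hW : W * -(algebraMap F' F'' b₀) = θ) :
    ∃ h : W ∈ Z, resZ ⟨W, h⟩ =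
      -(AdjoinRoot.root (vertBar q β ρ) /
        AdjoinRoot.of (vertBar q β ρ) (RatFunc.C β * RatFunc.X)) := by
  have hbm : algebraMap F' F'' b₀ ∈ Z := H.map_mem ⟨_, hb₀⟩
  obtain ⟨w, hw⟩ := (isUnit_map_of_isRed H hβ hb₀).exists_right_inv
  have h1 : algebraMap F' F'' b₀ * (w : F'') = 1 := by
    have := congrArg (fun z : Z => (z : F'')) hw
    simpa using this
  have hWeq : W = -(θ * (w : F'')) := by
    rw [← hW]
    linear_combination (-W) * h1
  have hmem : W ∈ Z := by
    rw [hWeq]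
    exact Z.neg_mem _ (Z.mul_mem _ _ H.θ_mem w.2)
  refine ⟨hmem, ?_⟩
  have e : (⟨W, hmem⟩ : Z) * -⟨algebraMap F' F'' b₀, hbm⟩ = ⟨θ, H.θ_mem⟩ := Subtype.ext hW
  have h2 := congrArg resZ e
  rw [map_mul, map_neg, res_map_of_isRed H hb₀, H.res_θ] at h2
  have hb0 := of_b_ne_zero (q := q) (ρ := ρ) (A := A) hβ
  rw [← h2]
  field_simp

/-- **(N1-C₁) The vertical component `z e` with its point `ptI`, over the circle component with
its point `T = ∞`, on the sheet `W ≡ 1`.** -/
theorem coverComp_ptI (hβ : β ≠ 0) (hρ : ρ ≠ 0) {b₀ : F'}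
    (hb₀ : IsRed C a₀ b₀ (RatFunc.C β * RatFunc.X))
    {W : F''} (hW : W * -(algebraMap F' F'' b₀) = θ) {c₀ : A} (hc₀ : residue A c₀ = 1) :
    CoverComp (residue A) (circleRing C a₀ ha1 ha2) (circleRes C a₀ ha1 ha2)
      (placeInfty (ResidueField A)) Z resZ (ptIBar q hβ hρ) W c₀ := by
  obtain ⟨hmem, hres⟩ := res_of_mul_eq H hβ hb₀ hW
  exact
    { map_mem := fun _ hy => H.map_mem hy
      res_map := fun y hy => by rw [H.compat ⟨y, hy⟩ _, AdjoinRoot.algebraMap_eq]
      res_nonunits := fun x hx => by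
        rw [H.ker x]
        rwa [ValuationSubring.coe_mem_nonunits_iff, IsLocalRing.mem_maximalIdeal,
          mem_nonunits_iff] at hx
      lies := lies_of_ord_map (ord_algebraMap_ptIBar q hβ hρ)
      W_mem := hmem
      value := by
        rw [hres, hc₀, map_one]
        have hv := (isValueAt_ptI q hρ (vertBar_hb (q := q) (ρ := ρ) hβ) (vertBar_heq hβ)
          (vertBar_hgen hβ)).neg
        rw [neg_neg] at hv
        have h1 : (ptIBar q hβ hρ).adicValuation
            (-(AdjoinRoot.root (vertBar q β ρ) /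
              AdjoinRoot.of (vertBar q β ρ) (RatFunc.C β * RatFunc.X)) -
              algebraMap (ResidueField A) (AdjoinRoot (vertBar q β ρ)) 1) < 1 := hv
        rwa [map_one] at h1 }

omit H in
/-- **(N1-C₁) in the shape of the modular instance**: `θ = U / α₂ a₀`, `W = U / α₂ (-Bc)`,
`b₀ = a₀⁻¹ • Bc`. -/
theorem coverComp_ptI_div {U : F''}
    (H : VertComp C a₀ ha1 ha2 Z resZ (U / algebraMap F' F'' (algebraMap K F' a₀)))
    (hβ : β ≠ 0) (hρ : ρ ≠ 0) {Bc : F'}
    (hb₀ : IsRed C a₀ (a₀⁻¹ • Bc) (RatFunc.C β * RatFunc.X))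
    {c₀ : A} (hc₀ : residue A c₀ = 1) :
    CoverComp (residue A) (circleRing C a₀ ha1 ha2) (circleRes C a₀ ha1 ha2)
      (placeInfty (ResidueField A)) Z resZ (ptIBar q hβ hρ) (U / algebraMap F' F'' (-Bc)) c₀ := by
  have ha₀ : a₀ ≠ 0 := gauge_ne_zero ha1
  have hA : algebraMap F' F'' (algebraMap K F' a₀) ≠ 0 :=
    (_root_.map_ne_zero _).mpr ((_root_.map_ne_zero _).mpr ha₀)
  have hBc : Bc ≠ 0 := by
    rintro rfl
    have h0 := res_map_of_isRed H hb₀
    have e : (⟨algebraMap F' F'' (a₀⁻¹ • (0 : F')), H.map_mem ⟨_, hb₀⟩⟩ : Z) = 0 := by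
      apply Subtype.ext
      show algebraMap F' F'' (a₀⁻¹ • (0 : F')) = 0
      simp
    rw [e, map_zero] at h0
    exact of_b_ne_zero (q := q) (ρ := ρ) (A := A) hβ h0.symm
  have hB : algebraMap F' F'' Bc ≠ 0 := (_root_.map_ne_zero _).mpr hBc
  refine coverComp_ptI H hβ hρ hb₀ ?_ hc₀
  simp only [Algebra.smul_def, map_mul, map_inv₀, map_neg]
  field_simp

end Sheet

end Fermat.Agent.BR3.SplitCompsMod
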