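import Mathlib
import Fermat.Agent.BR3.CInfRes
import Fermat.Agent.BR3.SSParam
import Fermat.Agent.BR3.HeckePolyKron
import Fermat.Agent.BR3.SplitBranch
import Fermat.Agent.BR3.SplitCompsMod

/-!
# Program C (S36), node (N1-C₂): the component `cInf` through the node `nT e`

`F₁ = Fb (M * q)`, `F₂ = Fb (M * q * q)` along `α₂`; `'can' = O1 M B hB` with residue map
`(constRedW1 B hB hqM).res` onto `F̃_M`, `cInf = w₁ = w1 M B hB` with residue map `resInf` onto
`F̃_M` (`BR3/CInfRes`); `(g, g', g'')` a twisted triple with simple zeros at the crossing `e`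
(`SSParam.IsSSParam`), `Bc := α g - (β g')^q`, `U_g = β₂ (β g) - α₂ (α g)`.

* `sum_mem_nonunits_w1` : `U_g + α₂ Bc = β₂ (β g) - α₂ ((β g')^q) ≡ 0` on `cInf`
  (both reduce to `g̃'(t^(q²))^q`);
* `alpha2_bc_notMem_nonunits_w1` : `α₂ Bc` is a unit of `cInf` (`Bc` has a simple zero at `z₁ e`);
* `splitW_mem_w1`, `resInf_splitW` : the split-sheet function `W = U_g / α₂ (-Bc)` is integral on
  `cInf` and **reduces to `1`**;
* **`coverComp_cInf`** : `SplitBranch.CoverComp (residue B) O1 (constRedW1 …).res (z₁ e) w₁ resInf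
  (z₁ e) W 1` (residue fields `F̃_M → F̃_M` by the identity), `ord_algebraMap_cInf` (`hord`);
* **`coverComp_ze`** : the modular shape of (N1-C₁) (`SplitCompsMod.coverComp_ptI_div` along `α₂`):
  `CoverComp (residue B) (circleRing C a₀ ..) (circleRes C a₀ ..) (placeInfty kB) Z resZ
  (ptIBar q hβ hρ) W 1` from `H : VertComp C a₀ ha1 ha2 Z resZ (U_g / α₂ a₀)` and
  `hred : IsRed C a₀ (a₀⁻¹ • Bc) (C β * X)`.
-/

set_option autoImplicit false
set_option linter.unusedSectionVars false
set_option linter.style.haveILetI false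
set_option synthInstance.maxHeartbeats 400000
set_option maxHeartbeats 1600000

noncomputable section

/- S36 build-time patch: file-local shortcut instances. They only shorten instance search;
each is the instance that the search finds anyway (reducible, same terms after unfolding). -/
local instance (priority := 100000) Fermat.Agent.BR3.FastInst.instAlgFullC_SplitCompsCInf
    {k : Type*} [Field k] (N : ℕ) :
    Algebra k ↥(ModularCurve.modularFunctionFieldFullC k N) := inferInstance
local instance (priority := 100000) Fermat.Agent.BR3.FastInst.instFieldFullC_SplitCompsCInf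
    {k : Type*} [Field k] (N : ℕ) :
    Field ↥(ModularCurve.modularFunctionFieldFullC k N) := inferInstance
local instance (priority := 100000) Fermat.Agent.BR3.FastInst.instAlgLaurent_SplitCompsCInf
    {k : Type*} [Field k] : Algebra k (LaurentSeries k) := inferInstance


namespace Fermat.Agent.BR3.SplitCompsCInf

open AlgebraicCurve ModularCurve IsLocalRing Polynomial
open Fermat.Agent.Red Fermat.Agent.Val Fermat.Agent.X0 Fermat.Agent.Hecke Fermat.Agent.Jac
open Fermat.Agent.BR.ConstRedTwo Fermat.Agent.BR.TwoVal Fermat.Agent.BR.TwoValInst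
open Fermat.Agent.BR.ResGen Fermat.Agent.BR.S0.RedModular Fermat.Agent.BR.S0.PointDict
open Fermat.Agent.BR.Inst.SpecIso Fermat.Agent.BR.Inst.LevelsInst
open Fermat.Agent.BR3.FibreProd Fermat.Agent.BR3.HeckePoly Fermat.Agent.BR3.HeckePolyKron
open Fermat.Agent.BR3.CInfRes Fermat.Agent.BR3.SSParam Fermat.Agent.BR3.SplitBranch

variable {M q : ℕ} [NeZero M] [hq : Fact q.Prime]
variable (B : ValuationSubring Kb) (hB : B.LiesOverPrime q) (hqM : ¬ q ∣ M)

local notation "kB" => IsLocalRing.ResidueField B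
local notation "FtM" => modularFunctionFieldFullC (IsLocalRing.ResidueField B) M

/-- The function of the split sheet of the node `nT e`: `W = U_g / α₂ (-(α g - (β g')^q))`. -/
def splitW (M q : ℕ) [NeZero M] [Fact q.Prime] (g g' : Fb M) : Fb (M * q * q) :=
  Ug M q g / alpha2 M q (-(heckeAlphaBar Kb M q g - heckeBetaBar Kb M q g' ^ q))

section Pair

variable [CharP (IsLocalRing.ResidueField B) q] [PerfectField (IsLocalRing.ResidueField B)]
variable {g g' : Fb M} (hg : g ∈ OM M B hB) (hg' : g' ∈ OM M B hB)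

include hg in
theorem beta2_beta_mem_w1 : beta2 M q (heckeBetaBar Kb M q g) ∈ w1 M B hB :=
  (beta2_mem_w1_iff B hB _).2 ((beta_mem_O1_iff B hB g).2 hg)

include hg' in
theorem alpha2_beta_pow_mem_w1 : alpha2 M q (heckeBetaBar Kb M q g' ^ q) ∈ w1 M B hB :=
  (alpha2_mem_w1_iff B hB _).2 (pow_mem ((beta_mem_O1_iff B hB g').2 hg') q)

/-- `β₂ (β g) - α₂ ((β g')^q)` vanishes on `cInf`, for `g'` a Frobenius untwist of `g`. -/
theorem sum_mem_nonunits_w1
    (h' : redMF B hB hqM ⟨g, hg⟩ = frobAutFullC kB M q • redMF B hB hqM ⟨g', hg'⟩) :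
    beta2 M q (heckeBetaBar Kb M q g) - alpha2 M q (heckeBetaBar Kb M q g' ^ q) ∈
      (w1 M B hB).nonunits := by
  have hβg : heckeBetaBar Kb M q g ∈ O1 M B hB := (beta_mem_O1_iff B hB g).2 hg
  have hβg' : heckeBetaBar Kb M q g' ∈ O1 M B hB := (beta_mem_O1_iff B hB g').2 hg'
  have hm1 := beta2_beta_mem_w1 B hB hg
  have hm2 := alpha2_beta_pow_mem_w1 B hB hg'
  have hmem : beta2 M q (heckeBetaBar Kb M q g) - alpha2 M q (heckeBetaBar Kb M q g' ^ q) ∈
      w1 M B hB := sub_mem hm1 hm2
  rw [mem_nonunits_O1_iff (M := M * q) B hB hmem]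
  have e : (⟨beta2 M q (heckeBetaBar Kb M q g) - alpha2 M q (heckeBetaBar Kb M q g' ^ q), hmem⟩ :
      w1 M B hB) = ⟨beta2 M q (heckeBetaBar Kb M q g), hm1⟩ -
        ⟨alpha2 M q (heckeBetaBar Kb M q g' ^ q), hm2⟩ := rfl
  have key : qExpandFullC kB M q (red1F B hB hqM ⟨heckeBetaBar Kb M q g, hβg⟩) =
      (red1F B hB hqM ⟨heckeBetaBar Kb M q g', hβg'⟩) ^ q := by
    rw [red1F_beta B hB hqM g hg, red1F_beta B hB hqM g' hg',
      qExpandFullC_eq kB M q (redMF B hB hqM ⟨g, hg⟩), h', inv_smul_smul, map_pow]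
  have key' := congrArg (fun y : FtM => (y : LaurentSeries kB)) key
  simp only [coe_qExpandFullC, coe_red1F, SubmonoidClass.coe_pow] at key'
  have e2 : (⟨heckeBetaBar Kb M q g' ^ q, pow_mem hβg' q⟩ : O1 M B hB) =
      ⟨heckeBetaBar Kb M q g', hβg'⟩ ^ q := rfl
  rw [e, map_sub, resw1_beta2 B hB _ hβg, resw1_alpha2 B hB _ (pow_mem hβg' q), e2, map_pow,
    key', sub_self]

end Pair

section Param

variable [CharP (IsLocalRing.ResidueField B) q] [PerfectField (IsLocalRing.ResidueField B)]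
variable {e : Crossing (chartDataModular B hB hqM)} {g g' g'' : Fb M}
  (P : IsSSParam B hB hqM e g g' g'')

include P

theorem bc_mem_O1 : heckeAlphaBar Kb M q g - heckeBetaBar Kb M q g' ^ q ∈ O1 M B hB :=
  sub_mem ((alpha_mem_O1_iff B hB g).2 (mem_OM_of_mem_CMod_base B hB hqM P.hg))
    (pow_mem ((beta_mem_O1_iff B hB g').2 (mem_OM_of_mem_CMod_base B hB hqM P.hg')) q)

/-- the reduction of `Bc = α g - (β g')^q` on `'can'` is not zero (it has a simple zero at
`z₁ e`) -/
theorem res_bc_ne_zero :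
    (constRedW1 B hB hqM).res ⟨_, bc_mem_O1 B hB hqM P⟩ ≠ 0 := by
  intro h0
  have h1 := P.hxord (bc_mem_O1 B hB hqM P)
  have h2 : (compW B hB hqM 0).res ⟨_, bc_mem_O1 B hB hqM P⟩ = 0 := h0
  rw [h2, Place.ord_zero] at h1
  exact zero_ne_one h1

theorem alpha2_bc_mem_w1 :
    alpha2 M q (heckeAlphaBar Kb M q g - heckeBetaBar Kb M q g' ^ q) ∈ w1 M B hB :=
  (alpha2_mem_w1_iff B hB _).2 (bc_mem_O1 B hB hqM P)

/-- `α₂ Bc` is a unit of `cInf` -/
theorem isUnit_alpha2_bc :
    IsUnit (⟨_, alpha2_bc_mem_w1 B hB hqM P⟩ : w1 M B hB) := by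
  by_contra hnu
  have h0 := (resInf_eq_zero_iff B hB hqM _).mpr hnu
  rw [resInf_alpha2 B hB hqM _ (bc_mem_O1 B hB hqM P)] at h0
  exact res_bc_ne_zero B hB hqM P h0

/-- **`W - 1` vanishes on `cInf`**: there is `w ∈ w₁` with `W = 1 - S * w`, `S ≡ 0`. -/
theorem exists_splitW_eq :
    ∃ w : w1 M B hB, splitW M q g g' =
      1 - (beta2 M q (heckeBetaBar Kb M q g) - alpha2 M q (heckeBetaBar Kb M q g' ^ q)) *
        (w : Fb (M * q * q)) := by
  obtain ⟨w, hw⟩ := (isUnit_alpha2_bc B hB hqM P).exists_right_inv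
  have h1 : alpha2 M q (heckeAlphaBar Kb M q g - heckeBetaBar Kb M q g' ^ q) *
      (w : Fb (M * q * q)) = 1 := by
    have := congrArg (fun z : w1 M B hB => (z : Fb (M * q * q))) hw
    simpa using this
  have hD : alpha2 M q (heckeAlphaBar Kb M q g - heckeBetaBar Kb M q g' ^ q) ≠ 0 := by
    intro h0
    rw [h0, zero_mul] at h1
    exact zero_ne_one h1
  refine ⟨w, ?_⟩
  have hw' : (w : Fb (M * q * q)) =
      (alpha2 M q (heckeAlphaBar Kb M q g - heckeBetaBar Kb M q g' ^ q))⁻¹ :=
    eq_inv_of_mul_eq_one_right h1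
  rw [splitW, Ug, hw', map_neg]
  field_simp
  rw [map_sub]
  ring

theorem splitW_mem_w1 : splitW M q g g' ∈ w1 M B hB := by
  obtain ⟨w, hw⟩ := exists_splitW_eq B hB hqM P
  rw [hw]
  have hgO := mem_OM_of_mem_CMod_base B hB hqM P.hg
  have hg'O := mem_OM_of_mem_CMod_base B hB hqM P.hg'
  exact sub_mem (one_mem _) (mul_mem
    (sub_mem (beta2_beta_mem_w1 B hB hgO) (alpha2_beta_pow_mem_w1 B hB hg'O)) w.2)

/-- **The split-sheet function reduces to `1` on `cInf`.** -/
theorem resInf_splitW :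
    resInf B hB hqM ⟨splitW M q g g', splitW_mem_w1 B hB hqM P⟩ = 1 := by
  obtain ⟨w, hw⟩ := exists_splitW_eq B hB hqM P
  have hgO := mem_OM_of_mem_CMod_base B hB hqM P.hg
  have hg'O := mem_OM_of_mem_CMod_base B hB hqM P.hg'
  have hS := sum_mem_nonunits_w1 B hB hqM hgO hg'O P.untwist
  have hSm : beta2 M q (heckeBetaBar Kb M q g) - alpha2 M q (heckeBetaBar Kb M q g' ^ q) ∈
      w1 M B hB := sub_mem (beta2_beta_mem_w1 B hB hgO) (alpha2_beta_pow_mem_w1 B hB hg'O)
  have e : (⟨splitW M q g g', splitW_mem_w1 B hB hqM P⟩ : w1 M B hB) =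
      1 - ⟨_, hSm⟩ * w := Subtype.ext hw
  rw [e, map_sub, map_one, map_mul,
    (resInf_eq_zero_iff_mem_nonunits B hB hqM ⟨_, hSm⟩).mpr hS, zero_mul, sub_zero]

/-- **(N1-C₂) The component `cInf` with its point `z₁ e`, over the component `'can'` with its
point `z₁ e`, on the sheet `W ≡ 1`.** -/
theorem coverComp_cInf :
    letI := algebraAlong (alpha2 M q)
    CoverComp (IsLocalRing.residue B) (O1 M B hB) (constRedW1 B hB hqM).res
      (z₁ (chartDataModular B hB hqM) e) (w1 M B hB) (resInf B hB hqM)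
      (z₁ (chartDataModular B hB hqM) e) (splitW M q g g') 1 := by
  letI := algebraAlong (alpha2 M q)
  exact
    { map_mem := fun y hy => (alpha2_mem_w1_iff B hB y).2 hy
      res_map := fun y hy => resInf_alpha2 B hB hqM y hy
      res_nonunits := fun x hx => (resInf_eq_zero_iff_mem_nonunits B hB hqM x).mpr hx
      lies := fun _ => Iff.rfl
      W_mem := splitW_mem_w1 B hB hqM P
      value := by
        rw [resInf_splitW B hB hqM P, map_one, map_one, sub_self, map_zero]
        exact zero_lt_one }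

/-- the hypothesis `hord` of `SplitNodeChart.splitNodeChart` on the side of `cInf` (the residue
fields are identified by the identity) -/
theorem ord_algebraMap_cInf (g : FtM) :
    (z₁ (chartDataModular B hB hqM) e).ord (algebraMap FtM FtM g) =
      (z₁ (chartDataModular B hB hqM) e).ord g := rfl

end Param

/-! ### the side of `z e` in the modular shape -/

section Ze

open Fermat.Agent.BR.Circle Fermat.Agent.BR.P1 Fermat.Agent.BR3.VertResidue
  Fermat.Agent.BR3.VertSheet Fermat.Agent.BR3.VertPtsDef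

variable [IsAlgClosed (IsLocalRing.ResidueField B)] [CharP (IsLocalRing.ResidueField B) q]
  {T' : Set (Place Kb (Fb (M * q)))} {C : AnnulusCore B T'} {a₀ : Kb}
  {ha1 : B.valuation C.thick < B.valuation a₀} {ha2 : B.valuation a₀ < 1}
  {β ρ : IsLocalRing.ResidueField B} [hP : Fact (Irreducible (vertBar q β ρ))]
  {Z : ValuationSubring (Fb (M * q * q))} {resZ : Z →+* AdjoinRoot (vertBar q β ρ)}

/-- **(N1-C₁) in the modular frame**: the vertical component `z e` (`H` = the clauses of
`exists_vertComponent_of_param_gauge` / `ZeData.vertComp`, generator `θ = U_g / α₂ a₀`) with its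
point `ptIBar`, over the circle component with its point `T = ∞`, on the sheet
`W = splitW M q g g' ≡ 1`; `hred` is the reduction `C β * X` of `a₀⁻¹ • (α g - (β g')^q)` on the
circle (the meaning of `β`). -/
theorem coverComp_ze (g g' : Fb M)
    (H : letI := algebraAlong (alpha2 M q)
      VertComp C a₀ ha1 ha2 Z resZ (Ug M q g / alpha2 M q (algebraMap Kb (Fb (M * q)) a₀)))
    (hβ : β ≠ 0) (hρ : ρ ≠ 0)
    (hred : IsRed C a₀ (a₀⁻¹ • (heckeAlphaBar Kb M q g - heckeBetaBar Kb M q g' ^ q))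
      (RatFunc.C β * RatFunc.X)) :
    letI := algebraAlong (alpha2 M q)
    CoverComp (IsLocalRing.residue B) (circleRing C a₀ ha1 ha2) (circleRes C a₀ ha1 ha2)
      (placeInfty (IsLocalRing.ResidueField B)) Z resZ (ptIBar q hβ hρ) (splitW M q g g') 1 := by
  letI := algebraAlong (alpha2 M q)
  haveI : IsScalarTower Kb (Fb (M * q)) (Fb (M * q * q)) := isScalarTower_along (alpha2 M q)
  exact Fermat.Agent.BR3.SplitCompsMod.coverComp_ptI_div (U := Ug M q g) H hβ hρ hred (map_one _)

end Ze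

end Fermat.Agent.BR3.SplitCompsCInf
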