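/-
Program C (S36), node (N1-INST), part 2 (helper19): the coordinate of a thickness-one tube at a
FINITE level, the small parameter of the split sheet on the outer sub-annulus, and the sheet
hypotheses from the scaled vertical polynomial.

* `mem_level_of_regular` : normality of ONE level of `S0.NodeLevels` (Krull descent
  `S0.mem_of_dominated`): a quotient of elements of the level, integral on both components and
  regular on the tube, lies in the level;
* **`coord_mul_inv_mem`** : `x y z ∈ R_i`, `x * y = κ • z`, `z` a unit of `R_i`, `|κ| = |thick|`,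
  `x` a unit on the component where `u` is a unit, `y` a unit on the other one
  ⇒ `u * x⁻¹ ∈ R_i` (for the modular curve: `x = j − j_q^q`, `y = j_q − j^q`, `z = Ψ(j_q, j)`,
  `κ = q`; this is the finite-level form of helper9's `VertCoord`);
* **`small_mem_maximalIdeal`** : for levels `L'` of the outer sub-annulus `{|ρ| < |u| < 1}`,
  `ρ^(n+1) = thick`, second coordinate `ρ • u⁻¹`: `κ / c^(n+1)` lies in the maximal ideal of every
  level of `L'` as soon as `c` divides `u` in the level of `L` and `|κ| = |thick|`;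
* `baseRing L'` (intersection of the level rings) and
  **`sheetHyp_of_vertScaled`** : `SplitLevels.SheetHyp L' W 1` for `W` with minimal polynomial
  `vertScaled Φ_q q x y c`, `c = -(y - x^q)`, from `x y ∈ R'_i`, `q / c^(q+1) ∈ 𝔪(R'_i)` for all
  levels, and the K-point existence lemma `hhoriz` (`SplitPoly.exists_lift_vertScaled_subring`
  + `SheetHyp.of_poly`).
-/
import Mathlib
import Fermat.Agent.BR3.SplitNodeChart
import Fermat.Agent.BR3.SplitPoly

set_option autoImplicit false
set_option linter.unusedSectionVars false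
set_option linter.style.haveILetI false

noncomputable section

namespace Fermat.Agent.BR3.SplitCoord

open IsLocalRing AlgebraicCurve Fermat.Agent.Red Fermat.Agent.BR.Centre
  Fermat.Agent.BR.S0 Fermat.Agent.BR3.EtaleLocal Fermat.Agent.BR3.SplitLevel
  Fermat.Agent.BR3.SplitBranch Fermat.Agent.BR3.SplitNodeChart

attribute [local instance] NodeLevel.isLocal NodeLevel.noeth NodeLevel.intClosed

variable {K F k : Type*} [Field K] [Field F] [Field k] [Algebra K F]
  {Ft₁ Ft₂ : Type*} [Field Ft₁] [Algebra k Ft₁] [Field Ft₂] [Algebra k Ft₂]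
  {A : ValuationSubring K} {T : Set (Place K F)} {ι : Type*}
  {π : A →+* k} {O₁ O₂ : ValuationSubring F} {res₁ : O₁ →+* Ft₁} {res₂ : O₂ →+* Ft₂}
  {Q₁ : Place k Ft₁} {Q₂ : Place k Ft₂}

/-! ### Normality of ONE level -/

/-- **Normality of one level**: a quotient of elements of a level which is integral on both
components and regular on the tube lies in the level. -/
theorem mem_level_of_regular {R : ι → Subring F}
    (N : NodeLevels A O₁ O₂ res₁ res₂ Q₁ Q₂ T R) (i : ι) {y : F} {a b : R i} (hb : b ≠ 0)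
    (hy : y * (b : F) = (a : F)) (h₁ : y ∈ O₁) (h₂ : y ∈ O₂)
    (hT : ∀ P ∈ T, y ∈ P.toValuationSubring) : y ∈ R i := by
  haveI := N.noeth i
  haveI := N.intClosed i
  refine mem_of_dominated (R i)
    {V | V = O₁ ∨ V = O₂ ∨ ∃ P ∈ T, V = P.toValuationSubring} ?_ ?_ hb hy ?_
  · rintro V (rfl | rfl | ⟨P, hP, rfl⟩) x hx
    · exact N.le₁ i x hx
    · exact N.le₂ i x hx
    · exact N.regular i P hP x hx
  · intro p hp hht
    rcases N.primes i p hp hht with h | h | ⟨P, hP, h⟩
    · exact ⟨O₁, Or.inl rfl, h⟩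
    · exact ⟨O₂, Or.inr (Or.inl rfl), h⟩
    · exact ⟨P.toValuationSubring, Or.inr (Or.inr ⟨P, hP, rfl⟩), h⟩
  · rintro V (rfl | rfl | ⟨P, hP, rfl⟩)
    · exact h₁
    · exact h₂
    · exact hT P hP

/-! ### Valuation rings -/

theorem valuation_eq_one_of_mem_of_notMem_nonunits {O : ValuationSubring F} {x : F} (hx : x ∈ O)
    (hn : x ∉ O.nonunits) : O.valuation x = 1 := by
  rw [ValuationSubring.mem_nonunits_iff, not_lt] at hn
  exact le_antisymm ((ValuationSubring.valuation_le_one_iff _ _).mpr hx) hn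

theorem valuation_eq_one_of_mem_of_inv_mem {O : ValuationSubring F} {x : F} (h0 : x ≠ 0)
    (hx : x ∈ O) (hx' : x⁻¹ ∈ O) : O.valuation x = 1 := by
  have h1 : O.valuation x ≤ 1 := (ValuationSubring.valuation_le_one_iff _ _).mpr hx
  have h2 : O.valuation x⁻¹ ≤ 1 := (ValuationSubring.valuation_le_one_iff _ _).mpr hx'
  rw [map_inv₀] at h2
  have hpos : 0 < O.valuation x := zero_lt_iff.mpr ((map_ne_zero _).mpr h0)
  exact le_antisymm h1 ((inv_le_one₀ hpos).mp h2)

theorem inv_mem_of_mem_of_notMem_nonunits {O : ValuationSubring F} {x : F} (hx : x ∈ O)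
    (hn : x ∉ O.nonunits) : x⁻¹ ∈ O := by
  rw [← ValuationSubring.valuation_le_one_iff, map_inv₀,
    valuation_eq_one_of_mem_of_notMem_nonunits hx hn, inv_one]

theorem ne_zero_of_notMem_nonunits {O : ValuationSubring F} {x : F} (hn : x ∉ O.nonunits) :
    x ≠ 0 := by
  rintro rfl
  apply hn
  rw [ValuationSubring.mem_nonunits_iff, map_zero]
  exact zero_lt_one

/-! ### The coordinate of a thickness-one tube, at ONE level -/

section Coord

variable {L : AnnulusLevels A T ι} (X₁ : BranchComp π O₁ res₁ Q₁ L)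
  (X₂ : BranchComp π O₂ res₂ Q₂ L)

include X₂ in
/-- a constant of absolute value one is a unit of the valuation ring of a component -/
theorem valuation_const_eq_one {d : K} (hd : A.valuation d = 1) :
    O₂.valuation (algebraMap K F d) = 1 := by
  have hd0 : d ≠ 0 := by
    rintro rfl
    rw [map_zero] at hd
    exact zero_ne_one hd
  have hdA : d ∈ A := (ValuationSubring.valuation_le_one_iff _ _).mp hd.le
  have hdA' : d⁻¹ ∈ A := by
    rw [← ValuationSubring.valuation_le_one_iff, map_inv₀, hd, inv_one]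
  have h1 := X₂.const_mem ⟨d, hdA⟩
  have h2 := X₂.const_mem ⟨d⁻¹, hdA'⟩
  simp only at h1 h2
  rw [map_inv₀] at h2
  exact valuation_eq_one_of_mem_of_inv_mem ((map_ne_zero _).mpr hd0) h1 h2

include X₁ X₂ in
/-- **The coordinate of a thickness-one tube at a finite level.** `x y z` in the level `i` with
`x * y = κ • z`, `z` a unit of the level, `|κ| = |thick|`, `x` a unit on the first component
(where `u` is a unit) and `y` a unit on the second component (where `v` is a unit). Then `x`
DIVIDES `u` in the level: `u * x⁻¹ ∈ R_i`. -/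
theorem coord_mul_inv_mem (hπ0 : ∀ a : A, A.valuation (a : K) < 1 → π a = 0)
    (hu₁ : L.u ∉ O₁.nonunits) (hv₂ : L.v ∉ O₂.nonunits) (i : ι) {x y z : F} {κ : K}
    (hx : x ∈ (L.level i).R) (hy : y ∈ (L.level i).R) (hz : z ∈ (L.level i).R)
    (hzu : IsUnit (⟨z, hz⟩ : (L.level i).R)) (hxyz : x * y = κ • z)
    (hκ : A.valuation κ = A.valuation L.thick)
    (hx₁ : x ∉ O₁.nonunits) (hy₂ : y ∉ O₂.nonunits) :
    L.u * x⁻¹ ∈ (L.level i).R := by
  have N := nodeLevelsOfComps X₁ X₂ hπ0 hu₁ hv₂
  have hx0 : x ≠ 0 := ne_zero_of_notMem_nonunits hx₁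
  have hκ0 : κ ≠ 0 := by
    rintro rfl
    rw [map_zero] at hκ
    exact L.thick_ne ((map_eq_zero _).mp hκ.symm)
  obtain ⟨hz0, hzinv⟩ := (isUnit_subring_iff hz).mp hzu
  have hb : (⟨x, hx⟩ : (L.level i).R) ≠ 0 := fun h => hx0 (congrArg Subtype.val h)
  refine mem_level_of_regular N i (a := ⟨L.u, (L.level i).u_mem⟩) (b := ⟨x, hx⟩) hb ?_ ?_ ?_ ?_
  · show L.u * x⁻¹ * x = L.u
    rw [mul_assoc, inv_mul_cancel₀ hx0, mul_one]
  · -- on the first component `x` is a unit
    exact O₁.mul_mem _ _ (X₁.le i _ (L.level i).u_mem)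
      (inv_mem_of_mem_of_notMem_nonunits (X₁.le i _ hx) hx₁)
  · -- on the second component `u` and `x` have the same valuation
    rw [← ValuationSubring.valuation_le_one_iff, map_mul, map_inv₀]
    have hv1 : O₂.valuation L.v = 1 :=
      valuation_eq_one_of_mem_of_notMem_nonunits (X₂.le i _ (L.level i).v_mem) hv₂
    have hy1 : O₂.valuation y = 1 :=
      valuation_eq_one_of_mem_of_notMem_nonunits (X₂.le i _ hy) hy₂
    have hz1 : O₂.valuation z = 1 :=
      valuation_eq_one_of_mem_of_inv_mem hz0 (X₂.le i _ hz) (X₂.le i _ hzinv)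
    have hε1 : O₂.valuation L.ε₀ = 1 := by
      have hε0 : L.ε₀ ≠ 0 := by
        intro h0
        have := L.uv
        rw [h0, smul_zero] at this
        rcases mul_eq_zero.mp this with h | h
        · exact hu₁ (by rw [h, ValuationSubring.mem_nonunits_iff, map_zero]; exact zero_lt_one)
        · exact hv₂ (by rw [h, ValuationSubring.mem_nonunits_iff, map_zero]; exact zero_lt_one)
      exact valuation_eq_one_of_mem_of_inv_mem hε0 (X₂.le i _ (L.level i).ε₀_mem)
        (X₂.le i _ (L.level i).ε₀_inv_mem)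
    have hu : O₂.valuation L.u = O₂.valuation (algebraMap K F L.thick) := by
      have h := congrArg O₂.valuation L.uv
      rwa [map_mul, hv1, mul_one, Algebra.smul_def, map_mul, hε1, mul_one] at h
    have hxv : O₂.valuation x = O₂.valuation (algebraMap K F κ) := by
      have h := congrArg O₂.valuation hxyz
      rwa [map_mul, hy1, mul_one, Algebra.smul_def, map_mul, hz1, mul_one] at h
    have hd : A.valuation (L.thick / κ) = 1 := by
      rw [map_div₀, hκ]
      exact div_self ((map_ne_zero _).mpr L.thick_ne)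
    have hd1 := valuation_const_eq_one X₂ hd
    have hκF : algebraMap K F κ ≠ 0 := (map_ne_zero _).mpr hκ0
    rw [hu, hxv, ← map_inv₀, ← map_mul, ← map_inv₀, ← map_mul, ← div_eq_mul_inv, hd1]
  · -- on the tube `x` has no zero
    intro P hP
    have hint := ((L.level i).centred P hP).choose
    have hxinv : x⁻¹ = y * ((algebraMap K F κ)⁻¹ * z⁻¹) := by
      have hκF : algebraMap K F κ ≠ 0 := (map_ne_zero _).mpr hκ0
      rw [Algebra.smul_def] at hxyz
      field_simp
      exact hxyz.symm
    rw [hxinv]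
    refine P.toValuationSubring.mul_mem _ _ (hint.mem_toValuationSubring (L.level i).u_mem)
      (P.toValuationSubring.mul_mem _ _ (hint.mem_toValuationSubring hy)
        (P.toValuationSubring.mul_mem _ _ ?_ (hint.mem_toValuationSubring hzinv)))
    rw [← map_inv₀]
    exact P.algebraMap_mem' _

end Coord

/-! ### The small parameter of the split sheet, on the outer sub-annulus -/

section Sub

variable {L : AnnulusLevels A T ι} {T' : Set (Place K F)} {ι' : Type*}
  (L' : AnnulusLevels A T' ι') (e : ι' → ι)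

/-- **The small parameter `t = κ / c^(n+1)` of the split sheet lies in the maximal ideal of every
level of the outer sub-annulus** `{|ρ| < |u| < 1}`, `ρ^(n+1) = thick`: here `c` divides `u` in
the level (`coord_mul_inv_mem`), `|κ| = |thick|`, and the second coordinate of the sub-annulus is
`ρ • u⁻¹`. -/
theorem small_mem_maximalIdeal (hX2 : ∀ i', (L.level (e i')).R ≤ (L'.level i').R)
    {ρ : K} (hv' : L'.v = ρ • L.u⁻¹) {n : ℕ} (hρ : ρ ^ (n + 1) = L.thick) (hu0 : L.u ≠ 0)
    (i' : ι') {c : F} {κ : K} (hc0 : c ≠ 0) (huc : L.u * c⁻¹ ∈ (L.level (e i')).R)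
    (hκK : κ ∈ (L.level (e i')).K') (hκ : A.valuation κ = A.valuation L.thick) :
    ∃ h : algebraMap K F κ * (c ^ (n + 1))⁻¹ ∈ (L'.level i').R,
      (⟨algebraMap K F κ * (c ^ (n + 1))⁻¹, h⟩ : (L'.level i').R) ∈
        maximalIdeal (L'.level i').R := by
  have hd : A.valuation (κ / L.thick) = 1 := by
    rw [map_div₀, hκ]
    exact div_self ((map_ne_zero _).mpr L.thick_ne)
  have hdA : κ / L.thick ∈ A := (ValuationSubring.valuation_le_one_iff _ _).mp hd.le
  have hdK : κ / L.thick ∈ (L.level (e i')).K' :=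
    (L.level (e i')).K'.div_mem hκK (L.level (e i')).thick_mem
  have hd' : algebraMap K F (κ / L.thick) ∈ (L'.level i').R :=
    hX2 i' ((L.level (e i')).const_mem _ hdK hdA)
  have huc' : L.u * c⁻¹ ∈ (L'.level i').R := hX2 i' huc
  have hthick : algebraMap K F L.thick ≠ 0 := (map_ne_zero _).mpr L.thick_ne
  have key : algebraMap K F κ * (c ^ (n + 1))⁻¹ =
      algebraMap K F (κ / L.thick) * (L'.v ^ (n + 1) * (L.u * c⁻¹) ^ (n + 1)) := by
    rw [hv', Algebra.smul_def, ← mul_pow, map_div₀]
    have e1 : algebraMap K F ρ * L.u⁻¹ * (L.u * c⁻¹) = algebraMap K F ρ * c⁻¹ := by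
      field_simp
    rw [e1, mul_pow, ← map_pow, hρ, inv_pow]
    field_simp
  have hv : (⟨L'.v, (L'.level i').v_mem⟩ : (L'.level i').R) ∈ maximalIdeal (L'.level i').R :=
    vR_mem_maximalIdeal (L'.level i')
  have hmem : algebraMap K F κ * (c ^ (n + 1))⁻¹ ∈ (L'.level i').R := by
    rw [key]
    exact (L'.level i').R.mul_mem hd' ((L'.level i').R.mul_mem
      ((L'.level i').R.pow_mem (L'.level i').v_mem _) ((L'.level i').R.pow_mem huc' _))
  refine ⟨hmem, ?_⟩
  have e2 : (⟨algebraMap K F κ * (c ^ (n + 1))⁻¹, hmem⟩ : (L'.level i').R) =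
      ⟨algebraMap K F (κ / L.thick), hd'⟩ *
        (⟨L'.v, (L'.level i').v_mem⟩ ^ (n + 1) * ⟨L.u * c⁻¹, huc'⟩ ^ (n + 1)) :=
    Subtype.ext key
  rw [e2]
  refine Ideal.mul_mem_left _ _ (Ideal.mul_mem_right _ _ ?_)
  rw [pow_succ]
  exact Ideal.mul_mem_left _ _ hv

end Sub

/-! ### The sheet hypotheses from the scaled vertical polynomial -/

section Sheet

open Polynomial Fermat.Agent.BR.Kron Fermat.Agent.BR3.VertTaylor Fermat.Agent.BR3.SplitPoly
  Fermat.Agent.BR3.SplitLevels Fermat.Agent.BR3.CoverSmooth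

variable {F₂ : Type*} [Field F₂] [Algebra K F₂] [Algebra F F₂] [IsScalarTower K F F₂]
  [Algebra.IsIntegral F F₂] [CharZero F₂]
  {T' : Set (Place K F)} {ι' : Type*} (L' : AnnulusLevels A T' ι')

/-- the intersection of the level rings -/
def baseRing : Subring F := ⨅ i', (L'.level i').R

theorem baseRing_le (i' : ι') : baseRing L' ≤ (L'.level i').R := iInf_le _ i'

theorem mem_baseRing_iff {z : F} : z ∈ baseRing L' ↔ ∀ i', z ∈ (L'.level i').R :=
  Subring.mem_iInf

/-- **The sheet hypotheses of the split sheet `W = U / c ≡ 1` from the scaled vertical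
polynomial**: `(x, y)` a zero of `Φ_q` in every level, `c = -(y - x^q)`, the small parameter
`t = q / c^(q+1)` in the maximal ideal of every level, `W` with minimal polynomial
`vertScaled Φ_q q x y c` over `F`. -/
theorem sheetHyp_of_vertScaled (q : ℕ) [NeZero q] (hq : q.Prime) {x y : F}
    (hx : ∀ i', x ∈ (L'.level i').R) (hy : ∀ i', y ∈ (L'.level i').R) (hc : y - x ^ q ≠ 0)
    (ht : ∀ i', ∃ h : (q : F) * ((-(y - x ^ q)) ^ (q + 1))⁻¹ ∈ (L'.level i').R,
      (⟨(q : F) * ((-(y - x ^ q)) ^ (q + 1))⁻¹, h⟩ : (L'.level i').R) ∈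
        maximalIdeal (L'.level i').R)
    (h0 : (phiK q F).evalEval x y = 0) {W : F₂}
    (hW : minpoly F W = vertScaled (phiK q F) q x y (-(y - x ^ q)))
    (hgen : ∀ z : F₂, ∃ p : F[X], aeval W p = z)
    (hfin : ∀ z : F₂, z ≠ 0 → {P : Place K F₂ | P.ord z ≠ 0}.Finite)
    (hhoriz : ∀ i' (χ : adjSub (L'.level i').R W →+* ResidueField (L'.level i').R)
      (h1 : algebraMap K F ((1 : A) : K) ∈ (L'.level i').R),
      IsSheetPoint χ (⟨algebraMap K F ((1 : A) : K), h1⟩ : (L'.level i').R) →
      ∀ Q : Ideal (splitRing χ), Q.IsPrime → Q.height = 1 → toSplit χ (ϖR (L'.level i')) ∉ Q →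
        ∃ P ∈ coverTube A T' W (1 : A), ∀ z : splitRing χ, z ∈ Q ↔ evalAt P (z : F₂) = 0) :
    SheetHyp L' W (1 : A) := by
  set t : F := (q : F) * ((-(y - x ^ q)) ^ (q + 1))⁻¹ with htdef
  have hc' : (-(y - x ^ q)) ^ (q + 1) ≠ 0 := pow_ne_zero _ (neg_ne_zero.mpr hc)
  have htq : t * (-(y - x ^ q)) ^ (q + 1) = (q : F) := by
    rw [htdef, mul_assoc, inv_mul_cancel₀ hc', mul_one]
  have hxR : x ∈ baseRing L' := (mem_baseRing_iff L').mpr hx
  have hyR : y ∈ baseRing L' := (mem_baseRing_iff L').mpr hy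
  have htR : t ∈ baseRing L' := (mem_baseRing_iff L').mpr fun i' => (ht i').1
  obtain ⟨P, hPm, hPmap, ⟨g, hg⟩, ⟨g', hg'⟩⟩ :=
    exists_lift_vertScaled_subring q (baseRing L') hq hxR hyR htR hc htq h0
  have hint : IsIntegral F W := Algebra.IsIntegral.isIntegral W
  have h1R : algebraMap K F ((1 : A) : K) ∈ baseRing L' := by
    rw [show ((1 : A) : K) = 1 from rfl, map_one]
    exact (baseRing L').one_mem
  have h1eq : (⟨algebraMap K F ((1 : A) : K), h1R⟩ : baseRing L') = 1 := by
    apply Subtype.ext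
    show algebraMap K F ((1 : A) : K) = ((1 : baseRing L') : F)
    rw [OneMemClass.coe_one, map_one, OneMemClass.coe_one]
  refine SheetHyp.of_poly L' (baseRing L') (baseRing_le L') P hPm ?_ ?_ h1R ?_ ?_ hgen hfin
    (fun i' χ => hhoriz i' χ (baseRing_le L' i' h1R))
  · -- irreducible over `F`
    rw [hPmap, ← hW]
    exact minpoly.irreducible hint
  · -- root
    have h2 : aeval W P = aeval W (P.map (algebraMap (baseRing L') F)) :=
      (aeval_map_algebraMap F W P).symm
    rw [h2, show algebraMap (baseRing L') F = (baseRing L').subtype from rfl, hPmap, ← hW]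
    exact minpoly.aeval F W
  · -- the value at `1` is a non-unit of every level
    intro i'
    rw [h1eq, hg]
    intro hu
    have e : (⟨(((⟨t, htR⟩ : baseRing L') * g : baseRing L') : F),
        baseRing_le L' i' ((⟨t, htR⟩ : baseRing L') * g : baseRing L').2⟩ : (L'.level i').R) =
        ⟨t, (ht i').1⟩ * ⟨(g : F), baseRing_le L' i' g.2⟩ := Subtype.ext rfl
    rw [e] at hu
    have hmem : (⟨t, (ht i').1⟩ * ⟨(g : F), baseRing_le L' i' g.2⟩ : (L'.level i').R) ∈
        maximalIdeal (L'.level i').R := Ideal.mul_mem_right _ _ (ht i').2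
    exact (mem_maximalIdeal _).mp hmem hu
  · -- the derivative at `1` is a unit of the base ring
    rw [h1eq, hg']
    have hunit : ∀ i', IsUnit (1 + ⟨t, (ht i').1⟩ * ⟨(g' : F), baseRing_le L' i' g'.2⟩ :
        (L'.level i').R) := by
      intro i'
      have hmem : (⟨t, (ht i').1⟩ * ⟨(g' : F), baseRing_le L' i' g'.2⟩ : (L'.level i').R) ∈
          maximalIdeal (L'.level i').R := Ideal.mul_mem_right _ _ (ht i').2
      by_contra hnu
      have h1 : (1 : (L'.level i').R) ∈ maximalIdeal (L'.level i').R := by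
        have h2 := Ideal.sub_mem _ ((mem_maximalIdeal _).mpr hnu) hmem
        simp at h2
      exact (Ideal.ne_top_iff_one _).mp (maximalIdeal.isMaximal _).ne_top h1
    have hunit' : ∀ i', (1 : F) + t * (g' : F) ≠ 0 ∧ ((1 : F) + t * (g' : F))⁻¹ ∈ (L'.level i').R :=
      fun i' => (isUnit_subring_iff (S := (L'.level i').R) (y := (1 : F) + t * (g' : F))
        ((1 + ⟨t, (ht i').1⟩ * ⟨(g' : F), baseRing_le L' i' g'.2⟩ : (L'.level i').R)).2).mp
        (hunit i')
    obtain ⟨i₀, -⟩ := L'.frac 0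
    rw [isUnit_subring_iff]
    exact ⟨(hunit' i₀).1, (mem_baseRing_iff L').mpr fun i' => (hunit' i').2⟩

end Sheet

end Fermat.Agent.BR3.SplitCoord
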