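/-
Program C (S36), node (N1-INST)/(N3-INST), UNIFORM (`U_g`) twin of `BR3/SplitPoly` (helper7):
the minimal polynomial of the split sheet over a BASE RING, for a twisted univariate Kronecker
polynomial.

`P = (Y^q - x₂)(Y - x₁^q) + q Ψ₁` (`BR3/VertTaylorTw`; for the modular curve `P = PAt M q g`,
`x₁ = β g'`, `x₂ = β g''`, `y = α g`), `P(y) = 0`, `U` with `P(y + U) = 0`.  The scaled vertical
polynomial `vertScaledAt P q y c` kills `W := U / c`; on the split sheet `c := -(y - x₁^q)` and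
`W ≡ 1`.

* `vertH₁_mem_lifts`, `vertPolyAt_mem_lifts` : coefficients in every subring containing the data;
* **`exists_lift_vertScaledAt`** : for `f : R →+* K` injective, `x₁ x₂ y t : R`, `Ψ : R[X]` with
  `t * c^(q+1) = q`: a MONIC `Pw ∈ R[X]` with `Pw.map f = vertScaledAt P q (f y) (f c)`,
  `Pw(1) ∈ (t)` and `Pw'(1) ∈ 1 + (t)` — i.e. `Pw ≡ X^(q-1)(X - 1)` modulo `t`;
  `exists_lift_vertScaledAt_subring` : the same for a subring `R₀ ⊆ K`.
  This is the input `Ψ hm hroot hval hder` of `SplitLevels.SheetHyp.of_poly`.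
-/
import Mathlib
import Fermat.Agent.BR3.VertTaylorTw
import Fermat.Agent.BR3.SplitPoly

set_option autoImplicit false

noncomputable section

namespace Fermat.Agent.BR3.SplitPolyTw

open Polynomial Finset Fermat.Agent.BR3.VertTaylor Fermat.Agent.BR3.VertTaylorAt
  Fermat.Agent.BR3.VertTaylorTw Fermat.Agent.BR3.SplitPoly

variable {R K : Type*} [CommRing R] [Field K] (f : R →+* K)

/-! ### polynomials with coefficients in the image of `f` -/

theorem vertH₁_mem_lifts (q : ℕ) (x₁ y : R) : vertH₁ q (f x₁) (f y) ∈ lifts f := by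
  rw [vertH₁]
  refine mul_mem (mul_mem (C_mem_lifts f y) (binomCof_mem_lifts f q y)) ?_
  refine add_mem (X_mem_lifts f) ?_
  have : f y - f x₁ ^ q = f (y - x₁ ^ q) := by rw [map_sub, map_pow]
  rw [this]
  exact C_mem_lifts f _

theorem vertPolyAt_mem_lifts (Ψ : R[X]) (y : R) : vertPolyAt (Ψ.map f) (f y) ∈ lifts f := by
  rw [vertPolyAt]
  exact divX_mem_lifts f (comp_mem_lifts f ((mem_lifts _).mpr ⟨Ψ, rfl⟩)
    (add_mem (X_mem_lifts f) (C_mem_lifts f y)))

/-! ### the minimal polynomial of the split sheet over a base ring -/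

/-- **The scaled vertical polynomial of the split sheet over a base ring** (twisted univariate
Kronecker form). `x₁ x₂ y t ∈ R`, `Ψ ∈ R[X]`, `P = (Y^q - x₂)(Y - x₁^q) + q Ψ` monic of degree
`q + 1` with `P(y) = 0`, `c := -(y - x₁^q) ≠ 0` and `t * c^(q+1) = q`. Then
`vertScaledAt P q y c` comes from a monic `Pw ∈ R[X]` with `Pw ≡ X^(q-1) (X - 1)` modulo `t`:
`Pw(1) ∈ (t)` and `Pw'(1) ∈ 1 + (t)`. -/
theorem exists_lift_vertScaledAt (hf : Function.Injective f) {q : ℕ} (hq : q.Prime)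
    (x₁ x₂ y t : R) (Ψ : R[X])
    (hc : f (y - x₁ ^ q) ≠ 0) (ht : t * (-(y - x₁ ^ q)) ^ (q + 1) = (q : R)) {P : K[X]}
    (hP : P = (X ^ q - C (f x₂)) * (X - C ((f x₁) ^ q)) + C (q : K) * Ψ.map f)
    (hmon : P.Monic) (hdeg : P.natDegree = q + 1) (h0 : P.eval (f y) = 0) :
    ∃ Pw : R[X], Pw.Monic ∧
      Pw.map f = vertScaledAt P q (f y) (f (-(y - x₁ ^ q))) ∧
      (∃ g : R, Pw.eval 1 = t * g) ∧ ∃ g : R, (derivative Pw).eval 1 = 1 + t * g := by
  set c : R := -(y - x₁ ^ q) with hcdef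
  set r : R := Ψ.eval y with hr
  have hfc : f c ≠ 0 := by
    rw [hcdef, map_neg, neg_ne_zero]
    exact hc
  obtain ⟨H, hH⟩ := (mem_lifts _).mp (vertH₁_mem_lifts f q x₁ y)
  obtain ⟨D, hD⟩ := (mem_lifts _).mp (vertPolyAt_mem_lifts f Ψ y)
  have hq1 : q = (q - 1) + 1 := (Nat.succ_pred_eq_of_pos hq.pos).symm
  have hft : f t * f c ^ (q + 1) = (q : K) := by
    have := congrArg f ht
    rwa [map_mul, map_pow, map_natCast] at this
  have hfr : f r = (Ψ.map f).eval (f y) := by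
    rw [hr, Polynomial.eval_map_apply]
  have himg : (X ^ q - X ^ (q - 1) + C (r * t) + C (t * c) * H.comp (C c * X) +
      C (t * c) * D.comp (C c * X)).map f = vertScaledAt P q (f y) (f c) := by
    rw [vertScaledAt_eq_tw hq hP (f y) hfc]
    have hB : vertB q (f x₁) (f y) (f c) = -1 := by
      rw [vertB, hcdef, map_neg, map_sub, map_pow, div_neg, div_self]
      rw [← map_pow, ← map_sub]
      exact hc
    have hAB := vertA_mul_vertB_tw hP h0 (f c)
    rw [hB, mul_neg_one, neg_div, neg_inj] at hAB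
    have hA : vertA q (f x₂) (f y) (f c) = f r * f t := by
      rw [hAB, hfr, ← hft]
      field_simp
    have hE : (q : K) / f c ^ q = f t * f c := by
      rw [← hft, pow_succ]
      field_simp
    rw [hB, hA, vertETw, hE, ← hH, ← hD]
    simp only [Polynomial.map_add, Polynomial.map_sub, Polynomial.map_mul, Polynomial.map_pow,
      Polynomial.map_X, Polynomial.map_C, Polynomial.map_comp, map_mul, C_neg, C_1]
    ring
  refine ⟨X ^ q - X ^ (q - 1) + C (r * t) + C (t * c) * H.comp (C c * X) +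
    C (t * c) * D.comp (C c * X), ?_, himg, ?_, ?_⟩
  · -- monic, through the image
    apply Polynomial.monic_of_injective hf
    rw [himg]
    exact vertScaledAt_monic hdeg hmon (f y) hfc
  · refine ⟨r + c * H.eval c + c * D.eval c, ?_⟩
    simp only [eval_add, eval_sub, eval_mul, eval_pow, eval_X, eval_C, eval_comp, one_pow,
      mul_one, sub_self, zero_add]
    ring
  · refine ⟨c * c * (derivative H).eval c + c * c * (derivative D).eval c, ?_⟩
    simp only [derivative_add, derivative_sub, derivative_mul, derivative_X_pow, derivative_C,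
      derivative_comp, derivative_X, zero_mul, zero_add, add_zero, mul_one, eval_add, eval_sub,
      eval_mul, eval_pow, eval_X, eval_C, eval_comp, one_pow]
    have h1 : ((q : ℕ) : R) - ((q - 1 : ℕ) : R) = 1 := by
      rw [Nat.cast_sub hq.one_le, Nat.cast_one]
      ring
    linear_combination h1

/-- `exists_lift_vertScaledAt` for a subring of a field. -/
theorem exists_lift_vertScaledAt_subring (R₀ : Subring K) {q : ℕ} (hq : q.Prime)
    {x₁ x₂ y t : K} (hx₁ : x₁ ∈ R₀) (hx₂ : x₂ ∈ R₀) (hy : y ∈ R₀) (ht : t ∈ R₀) {Ψ₁ : K[X]}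
    (hΨ : ∀ n, Ψ₁.coeff n ∈ R₀) (hc : y - x₁ ^ q ≠ 0)
    (htq : t * (-(y - x₁ ^ q)) ^ (q + 1) = (q : K)) {P : K[X]}
    (hP : P = (X ^ q - C x₂) * (X - C (x₁ ^ q)) + C (q : K) * Ψ₁)
    (hmon : P.Monic) (hdeg : P.natDegree = q + 1) (h0 : P.eval y = 0) :
    ∃ Pw : R₀[X], Pw.Monic ∧
      Pw.map R₀.subtype = vertScaledAt P q y (-(y - x₁ ^ q)) ∧
      (∃ g : R₀, Pw.eval 1 = ⟨t, ht⟩ * g) ∧
      ∃ g : R₀, (derivative Pw).eval 1 = 1 + ⟨t, ht⟩ * g := by
  have hcoef : (↑Ψ₁.coeffs : Set K) ⊆ R₀ := by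
    intro c hc
    obtain ⟨n, -, rfl⟩ := (Polynomial.mem_coeffs_iff).mp hc
    exact hΨ n
  have hmap : (Ψ₁.toSubring R₀ hcoef).map R₀.subtype = Ψ₁ := Polynomial.map_toSubring Ψ₁ R₀ hcoef
  refine exists_lift_vertScaledAt R₀.subtype Subtype.val_injective hq ⟨x₁, hx₁⟩ ⟨x₂, hx₂⟩ ⟨y, hy⟩
    ⟨t, ht⟩ (Ψ₁.toSubring R₀ hcoef) hc (Subtype.ext (by simpa using htq)) ?_ hmon hdeg h0
  rw [hmap]
  exact hP

end Fermat.Agent.BR3.SplitPolyTw
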