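/-
Program C (S36), node (N1-INST)/(N3-INST), UNIFORM (`U_g`) twin of `BR3/SplitCoord` (helper7):
the sheet hypotheses of the split sheet from the scaled vertical polynomial of a twisted univariate
Kronecker polynomial.

* **`sheetHyp_of_vertScaledAt`** : `SplitLevels.SheetHyp L' W 1` for `W` with minimal polynomial
  `vertScaledAt P q y c`, `P = (Y^q - x₂)(Y - x₁^q) + q Ψ₁`, `c = -(y - x₁^q)`, from
  `x₁ x₂ y ∈ R'_i`, coefficients of `Ψ₁` in `R'_i`, `q / c^(q+1) ∈ 𝔪(R'_i)` for all levels, and the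
  K-point existence lemma `hhoriz` (`SplitPolyTw.exists_lift_vertScaledAt_subring` +
  `SheetHyp.of_poly`).  For the modular curve: `P = PAt M q g`, `x₁ = β g'`, `x₂ = β g''`,
  `y = α g`, `W = Ug M q g / (-(α g - (β g')^q))` along `α₂` (node `nT e`), and the mirror along
  `β₂` (node `nW e`).
-/
import Mathlib
import Fermat.Agent.BR3.SplitCoord
import Fermat.Agent.BR3.SplitPolyTw

set_option autoImplicit false
set_option linter.unusedSectionVars false
set_option linter.style.haveILetI false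

noncomputable section

namespace Fermat.Agent.BR3.SplitCoordTw

open IsLocalRing AlgebraicCurve Polynomial Fermat.Agent.Red Fermat.Agent.BR.Centre
  Fermat.Agent.BR.S0 Fermat.Agent.BR3.EtaleLocal Fermat.Agent.BR3.SplitLevel
  Fermat.Agent.BR3.SplitBranch Fermat.Agent.BR3.SplitNodeChart Fermat.Agent.BR3.SplitCoord
  Fermat.Agent.BR3.VertTaylor Fermat.Agent.BR3.VertTaylorAt Fermat.Agent.BR3.SplitPolyTw
  Fermat.Agent.BR3.SplitLevels Fermat.Agent.BR3.CoverSmooth

attribute [local instance] NodeLevel.isLocal NodeLevel.noeth NodeLevel.intClosed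

variable {K F : Type*} [Field K] [Field F] [Algebra K F]
  {A : ValuationSubring K}
  {F₂ : Type*} [Field F₂] [Algebra K F₂] [Algebra F F₂] [IsScalarTower K F F₂]
  [Algebra.IsIntegral F F₂] [CharZero F₂]
  {T' : Set (Place K F)} {ι' : Type*} (L' : AnnulusLevels A T' ι')

/-- **The sheet hypotheses of the split sheet `W = U / c ≡ 1` from the scaled vertical polynomial
of a twisted univariate Kronecker polynomial**: `P = (Y^q - x₂)(Y - x₁^q) + q Ψ₁` with data in
every level, `P(y) = 0`, `c = -(y - x₁^q)`, the small parameter `t = q / c^(q+1)` in the maximal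
ideal of every level, `W` with minimal polynomial `vertScaledAt P q y c` over `F`. -/
theorem sheetHyp_of_vertScaledAt {q : ℕ} (hq : q.Prime) {x₁ x₂ y : F} {Ψ₁ P : F[X]}
    (hx₁ : ∀ i', x₁ ∈ (L'.level i').R) (hx₂ : ∀ i', x₂ ∈ (L'.level i').R)
    (hy : ∀ i', y ∈ (L'.level i').R) (hΨ : ∀ i' n, Ψ₁.coeff n ∈ (L'.level i').R)
    (hc : y - x₁ ^ q ≠ 0)
    (ht : ∀ i', ∃ h : (q : F) * ((-(y - x₁ ^ q)) ^ (q + 1))⁻¹ ∈ (L'.level i').R,
      (⟨(q : F) * ((-(y - x₁ ^ q)) ^ (q + 1))⁻¹, h⟩ : (L'.level i').R) ∈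
        maximalIdeal (L'.level i').R)
    (hP : P = (X ^ q - C x₂) * (X - C (x₁ ^ q)) + C (q : F) * Ψ₁)
    (hmon : P.Monic) (hdeg : P.natDegree = q + 1) (h0 : P.eval y = 0) {W : F₂}
    (hW : minpoly F W = vertScaledAt P q y (-(y - x₁ ^ q)))
    (hgen : ∀ z : F₂, ∃ p : F[X], aeval W p = z)
    (hfin : ∀ z : F₂, z ≠ 0 → {P : Place K F₂ | P.ord z ≠ 0}.Finite)
    (hhoriz : ∀ i' (χ : adjSub (L'.level i').R W →+* ResidueField (L'.level i').R)
      (h1 : algebraMap K F ((1 : A) : K) ∈ (L'.level i').R),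
      IsSheetPoint χ (⟨algebraMap K F ((1 : A) : K), h1⟩ : (L'.level i').R) →
      ∀ Q : Ideal (splitRing χ), Q.IsPrime → Q.height = 1 → toSplit χ (ϖR (L'.level i')) ∉ Q →
        ∃ P ∈ coverTube A T' W (1 : A), ∀ z : splitRing χ, z ∈ Q ↔ evalAt P (z : F₂) = 0) :
    SheetHyp L' W (1 : A) := by
  set t : F := (q : F) * ((-(y - x₁ ^ q)) ^ (q + 1))⁻¹ with htdef
  have hc' : (-(y - x₁ ^ q)) ^ (q + 1) ≠ 0 := pow_ne_zero _ (neg_ne_zero.mpr hc)
  have htq : t * (-(y - x₁ ^ q)) ^ (q + 1) = (q : F) := by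
    rw [htdef, mul_assoc, inv_mul_cancel₀ hc', mul_one]
  have hx₁R : x₁ ∈ baseRing L' := (mem_baseRing_iff L').mpr hx₁
  have hx₂R : x₂ ∈ baseRing L' := (mem_baseRing_iff L').mpr hx₂
  have hyR : y ∈ baseRing L' := (mem_baseRing_iff L').mpr hy
  have htR : t ∈ baseRing L' := (mem_baseRing_iff L').mpr fun i' => (ht i').1
  have hΨR : ∀ n, Ψ₁.coeff n ∈ baseRing L' := fun n =>
    (mem_baseRing_iff L').mpr fun i' => hΨ i' n
  obtain ⟨Pw, hPm, hPmap, ⟨g, hg⟩, ⟨g', hg'⟩⟩ :=
    exists_lift_vertScaledAt_subring (baseRing L') hq hx₁R hx₂R hyR htR hΨR hc htq hP hmon hdeg h0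
  have hint : IsIntegral F W := Algebra.IsIntegral.isIntegral W
  have h1R : algebraMap K F ((1 : A) : K) ∈ baseRing L' := by
    rw [show ((1 : A) : K) = 1 from rfl, map_one]
    exact (baseRing L').one_mem
  have h1eq : (⟨algebraMap K F ((1 : A) : K), h1R⟩ : baseRing L') = 1 := by
    apply Subtype.ext
    show algebraMap K F ((1 : A) : K) = ((1 : baseRing L') : F)
    rw [OneMemClass.coe_one, map_one, OneMemClass.coe_one]
  refine SheetHyp.of_poly L' (baseRing L') (baseRing_le L') Pw hPm ?_ ?_ h1R ?_ ?_ hgen hfin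
    (fun i' χ => hhoriz i' χ (baseRing_le L' i' h1R))
  · -- irreducible over `F`
    rw [hPmap, ← hW]
    exact minpoly.irreducible hint
  · -- root
    have h2 : aeval W Pw = aeval W (Pw.map (algebraMap (baseRing L') F)) :=
      (aeval_map_algebraMap F W Pw).symm
    rw [h2, show algebraMap (baseRing L') F = (baseRing L').subtype from rfl, hPmap, ← hW]
    exact minpoly.aeval F W
  · -- the value at `1` is a non-unit of every level
    intro i'
    rw [h1eq, hg]
    intro hu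
    have e : (⟨(((⟨t, htR⟩ : baseRing L') * g : baseRing L') : F),
        baseRing_le L' i' ((⟨t, htR⟩ : baseRing L') * g : baseRing L').2⟩ : (L'.level i').R) =
        ⟨t, (ht i').1⟩ * ⟨(g : F), baseRing_le L' i' g.2⟩ := Subtype.ext rfl
    rw [e] at hu
    have hmem : (⟨t, (ht i').1⟩ * ⟨(g : F), baseRing_le L' i' g.2⟩ : (L'.level i').R) ∈
        maximalIdeal (L'.level i').R := Ideal.mul_mem_right _ _ (ht i').2
    exact (mem_maximalIdeal _).mp hmem hu
  · -- the derivative at `1` is a unit of the base ring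
    rw [h1eq, hg']
    have hunit : ∀ i', IsUnit (1 + ⟨t, (ht i').1⟩ * ⟨(g' : F), baseRing_le L' i' g'.2⟩ :
        (L'.level i').R) := by
      intro i'
      have hmem : (⟨t, (ht i').1⟩ * ⟨(g' : F), baseRing_le L' i' g'.2⟩ : (L'.level i').R) ∈
          maximalIdeal (L'.level i').R := Ideal.mul_mem_right _ _ (ht i').2
      by_contra hnu
      have h1 : (1 : (L'.level i').R) ∈ maximalIdeal (L'.level i').R := by
        have h2 := Ideal.sub_mem _ ((mem_maximalIdeal _).mpr hnu) hmem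
        simp at h2
      exact (Ideal.ne_top_iff_one _).mp (maximalIdeal.isMaximal _).ne_top h1
    have hunit' : ∀ i', (1 : F) + t * (g' : F) ≠ 0 ∧ ((1 : F) + t * (g' : F))⁻¹ ∈ (L'.level i').R :=
      fun i' => (isUnit_subring_iff (S := (L'.level i').R) (y := (1 : F) + t * (g' : F))
        ((1 + ⟨t, (ht i').1⟩ * ⟨(g' : F), baseRing_le L' i' g'.2⟩ : (L'.level i').R)).2).mp
        (hunit i')
    obtain ⟨i₀, -⟩ := L'.frac 0
    rw [isUnit_subring_iff]
    exact ⟨(hunit' i₀).1, (mem_baseRing_iff L').mpr fun i' => (hunit' i').2⟩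

end Fermat.Agent.BR3.SplitCoordTw
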