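/-
Program C (S36), node A7 COVER-NODE-SPLIT (helper19), part 4: the K-point existence lemma
(`NodeLevel.horiz`) for the local ring of the sheet point, in the MODULAR FRAME.

`F₂ = F̄_{N₂}` (`Fb N₂`), `F` any function field over `ℚ̄` with `Algebra F (Fb N₂)` (e.g. `Fb N₁`
along a degeneracy map), `NL` a level of a tube of `F` whose ring and the generator `W` land in
the function field `FKs N₂ NL.K′` of the level, the valuation of `A` discrete on `NL.K′`.

* `splitRing_le_FKs` : the local ring of the sheet point lies in `FKs N₂ E`;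
* `horiz_splitRing_frame` : the hypothesis `hhoriz` of `SplitLevel.nodeLevelOfSheetPoint`, from
  `HorizProvider.horiz_smooth_frame` (Chevalley + Galois conjugation, Program B) and the converse
  of `centred` (`SplitLevel.mem_coverTube_of_centredAt`);
* `sheetHyp_of_poly_frame` : `SplitLevels.SheetHyp.of_poly` with `horiz` discharged.
-/
import Mathlib
import Fermat.Agent.BR3.SplitLevels
import Fermat.Agent.BR.S0.HorizProvider

set_option autoImplicit false
set_option linter.unusedSectionVars false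
set_option linter.style.haveILetI false

noncomputable section

namespace Fermat.Agent.BR3.SplitHoriz

open Polynomial IsLocalRing AlgebraicCurve ModularCurve Fermat.Agent.Red Fermat.Agent.X0
  Fermat.Agent.BR.Centre
  Fermat.Agent.BR.S0 Fermat.Agent.BR.Inst.LocSub Fermat.Agent.BR.Inst.FKCover
  Fermat.Agent.BR3.EtaleLocal
  Fermat.Agent.BR3.SplitLevel Fermat.Agent.BR3.SplitLevels Fermat.Agent.BR3.CoverSmooth
  Fermat.Agent.BR.S0.HorizProvider

section Frame

attribute [local instance] RingHom.ker_isPrime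

variable {N₂ : ℕ} [NeZero N₂] {F : Type*} [Field F] [Algebra Kb F] [Algebra F (Fb N₂)]
  [IsScalarTower Kb F (Fb N₂)] [Algebra.IsIntegral F (Fb N₂)]
  {A : ValuationSubring Kb} {T : Set (Place Kb F)} {u v ε₀ : F} {thick : Kb}
  (NL : NodeLevel A T u v ε₀ thick) [IsLocalRing NL.R]
  {W : Fb N₂} {c₀ : A} {hc₀ : algebraMap Kb F (c₀ : Kb) ∈ NL.R}
  {κ : Type*} [Field κ] {χ : adjSub NL.R W →+* κ}

/-- the local ring of the sheet point lies in the function field of the level -/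
theorem splitRing_le_FKs (E : Subfield Kb)
    (hRFK : ∀ y ∈ NL.R, algebraMap F (Fb N₂) y ∈ FKs N₂ E) (hW : W ∈ FKs N₂ E) :
    ∀ y ∈ splitRing χ, y ∈ FKs N₂ E := by
  have hadj : ∀ y ∈ adjSub NL.R W, y ∈ FKs N₂ E := by
    intro y hy
    rw [mem_adjSub_iff] at hy
    refine Algebra.adjoin_induction (p := fun y _ => y ∈ FKs N₂ E) ?_ ?_ ?_ ?_ hy
    · intro x hx
      rw [Set.mem_singleton_iff] at hx
      rw [hx]
      exact hW
    · intro r
      exact hRFK r r.2
    · intro x y _ _ hx hy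
      exact add_mem hx hy
    · intro x y _ _ hx hy
      exact mul_mem hx hy
  intro y hy
  obtain ⟨a, b, hb, hab⟩ := (mem_splitRing_iff χ).mp hy
  have hb0 : (b : Fb N₂) ≠ 0 := by
    intro h0
    apply hb
    have : b = 0 := Subtype.ext h0
    rw [this, map_zero]
  have : y = (a : Fb N₂) / (b : Fb N₂) := eq_div_of_mul_eq hb0 hab
  rw [this]
  exact div_mem (hadj a a.2) (hadj b b.2)

/-- **The K-point existence lemma for the local ring of the sheet point, in the modular frame**: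
`F₂ = F̄_{N₂}`, the level ring and `W` lie in the function field `FKs N₂ K'` of the level, the
valuation of `A` is discrete on `K'` with uniformizer `ϖ`, and the converse of `centred` holds
downstairs. This is the hypothesis `hhoriz` of `nodeLevelOfSheetPoint`. -/
theorem horiz_splitRing_frame (H : IsSheetPoint χ (⟨algebraMap Kb F (c₀ : Kb), hc₀⟩ : NL.R))
    (hRFK : ∀ y ∈ NL.R, algebraMap F (Fb N₂) y ∈ FKs N₂ NL.K') (hW : W ∈ FKs N₂ NL.K')
    (hdvr : ∀ x ∈ NL.K', x ≠ 0 → ∃ n : ℤ, A.valuation x = A.valuation NL.ϖ ^ n)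
    (hT : ∀ P : Place Kb F, CentredAt A NL.R P → P ∈ T) :
    ∀ Q : Ideal (splitRing χ), Q.IsPrime → Q.height = 1 → toSplit χ (ϖR NL) ∉ Q →
      ∃ P ∈ coverTube A T W c₀, ∀ x : splitRing χ, x ∈ Q ↔ evalAt P (x : Fb N₂) = 0 := by
  haveI := isLocalRing_splitRing χ
  have hconst : ∀ c ∈ NL.K', c ∈ A → algebraMap Kb (Fb N₂) c ∈ splitRing χ := by
    intro c hc hcA
    rw [IsScalarTower.algebraMap_apply Kb F (Fb N₂)]
    exact algebraMap_mem_splitRing χ (⟨algebraMap Kb F c, NL.const_mem c hc hcA⟩ : NL.R)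
  have hϖR : algebraMap Kb (Fb N₂) NL.ϖ ∈ splitRing χ := by
    rw [IsScalarTower.algebraMap_apply Kb F (Fb N₂)]
    exact algebraMap_mem_splitRing χ (ϖR NL)
  have hϖeq : (⟨algebraMap Kb (Fb N₂) NL.ϖ, hϖR⟩ : splitRing χ) = toSplit χ (ϖR NL) :=
    Subtype.ext (IsScalarTower.algebraMap_apply Kb F (Fb N₂) NL.ϖ)
  have hϖnu : ¬ IsUnit (⟨algebraMap Kb (Fb N₂) NL.ϖ, hϖR⟩ : splitRing χ) := by
    rw [hϖeq, H.isUnit_toSplit_iff]
    intro hu
    exact NL.prime1.ne_top (Ideal.eq_top_of_isUnit_mem _ NL.unif_mem_p1 hu)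
  have key := horiz_smooth_frame (A := A) (K' := ofSubfield NL.K') (R := splitRing χ)
    (splitRing_le_FKs NL NL.K' hRFK hW) hconst NL.unif_mem NL.unif_ne NL.unif_lt hdvr hϖR hϖnu
    (T := coverTube A T W c₀)
    (fun P hP => SplitLevel.mem_coverTube_of_centredAt H hT hP)
  intro Q hQ hht hϖQ
  rw [← hϖeq] at hϖQ
  exact key Q hQ hht hϖQ

end Frame

section FrameFamily

attribute [local instance] NodeLevel.isLocal NodeLevel.noeth NodeLevel.intClosed

variable {N₂ : ℕ} [NeZero N₂] {F : Type*} [Field F] [Algebra Kb F] [Algebra F (Fb N₂)]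
  [IsScalarTower Kb F (Fb N₂)] [Algebra.IsIntegral F (Fb N₂)]
  {A : ValuationSubring Kb} {T : Set (Place Kb F)} {ι : Type*}

/-- **The hypotheses of the split sheet in the modular frame**, from one polynomial over a base
ring: `SheetHyp.of_poly` with `horiz` discharged by `horiz_splitRing_frame`. -/
theorem sheetHyp_of_poly_frame (L : AnnulusLevels A T ι) {W : Fb N₂} {c₀ : A} (R₀ : Subring F)
    (hR₀ : ∀ i, R₀ ≤ (L.level i).R) (Ψ : R₀[X]) (hm : Ψ.Monic)
    (hirr : Irreducible (Ψ.map R₀.subtype)) (hroot : aeval W Ψ = 0)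
    (hc₀ : algebraMap Kb F (c₀ : Kb) ∈ R₀)
    (hval : ∀ i, ¬ IsUnit (⟨((Ψ.eval ⟨algebraMap Kb F (c₀ : Kb), hc₀⟩ : R₀) : F),
      hR₀ i (Ψ.eval ⟨algebraMap Kb F (c₀ : Kb), hc₀⟩ : R₀).2⟩ : (L.level i).R))
    (hder : IsUnit ((derivative Ψ).eval (⟨algebraMap Kb F (c₀ : Kb), hc₀⟩ : R₀)))
    (hgen : ∀ y : Fb N₂, ∃ p : F[X], aeval W p = y)
    (hfin : ∀ y : Fb N₂, y ≠ 0 → {P : Place Kb (Fb N₂) | P.ord y ≠ 0}.Finite)
    (hRFK : ∀ i, ∀ y ∈ (L.level i).R, algebraMap F (Fb N₂) y ∈ FKs N₂ (L.level i).K')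
    (hW : ∀ i, W ∈ FKs N₂ (L.level i).K')
    (hdvr : ∀ i, ∀ x ∈ (L.level i).K', x ≠ 0 →
      ∃ n : ℤ, A.valuation x = A.valuation (L.level i).ϖ ^ n)
    (hT : ∀ i, ∀ P : Place Kb F, CentredAt A (L.level i).R P → P ∈ T) :
    SheetHyp L W c₀ :=
  SheetHyp.of_poly L R₀ hR₀ Ψ hm hirr hroot hc₀ hval hder hgen hfin
    (fun i _ H => horiz_splitRing_frame (L.level i) H (hRFK i) (hW i) (hdvr i) (hT i))

end FrameFamily

end Fermat.Agent.BR3.SplitHoriz
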