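import Mathlib
import Fermat.Agent.BR3.SplitCoord
import Fermat.Agent.BR3.SplitHoriz
import Fermat.Agent.BR3.SplitNodeChart
import Fermat.Agent.BR3.VertMain
import Fermat.Agent.BR3.SubAnnChart.Modular
import Fermat.Agent.BR.Inst.AnnulusInstAux
import Fermat.Agent.BR.Inst.DegenModel

/-!
# Program C (S36), node (N1-INST), part 3: the split sheet of `X₀(M q²) → X₀(M q)` along `α₂` over
the outer sub-annulus of a crossing of main's two-component model of `X₀(M q)` (helper19)

`F = Fb (M q)`, `F₂ = Fb (M q q)` along `α₂` (inclusion of `q`-series), `x₁ = j(s) - j(s^q)^q`,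
`U = j(s^{q²}) - α₂ j(s)`; **`Wsplit M q = U / α₂(-x₁)`** is the generator of the split sheet: its
minimal polynomial over `F` is helper9's `vertScaled Φ_q q j(s^q) j(s) (-x₁)`
(`minpoly_Wsplit`, `gen_Wsplit`), whose value at `1` is `t · (…)` and whose derivative at `1` is
`1 + t · (…)` with the small parameter `t = q / (-x₁)^(q+1)` (`SplitPoly`).

Base levels `Lf := annulusLevels_modular_final B hB hqM hne e` of the tube of the crossing `e`
(the field `L` of `modularData_final`), named hypotheses as in helper22's `VertMain`: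
`hR` (`Ψ_q(j(s^q), j(s))` is a unit of the level), `hsx`, `hsy` (simple zeros of `x₁`, `y₁` on the
two branches).

* `alpha2_mem_FKs`, `Wsplit_mem_FKs` : the function fields of a field of constants;
* `small_mem_maximalIdeal_val` : the small parameter for a gauge given by its absolute value;
* `level_mono`, `isUnit_psiK_mono`, `branchDataN_final`;
* `u_mul_x1_inv_mem` : **`x₁` divides the coordinate `u` of the tube in the level** (thickness one);
* `OuterHyp L' idx ρ` : the hypotheses on a family of levels `L'` of the outer sub-annulus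
  `{|ρ| < |u| < 1}`, `|ρ|^(q+1) = |thick e|` (X1, X2, coordinates `(u, ρ • u⁻¹)`, `hRK`);
  `outerHyp_outerLevels` : helper5's `SubAnnChart.outerLevels` satisfy it;
* `OuterHyp.small`, **`OuterHyp.sheetHyp : SheetHyp L' (Wsplit M q) (1 : B)`**,
  **`OuterHyp.splitLevels : AnnulusLevels B (coverTube B T' (Wsplit M q) 1) ι'`** with
  `splitLevels_u/_v/_ε₀/_thick/_R`.

PRACTICAL TRAP: a statement `(… : AnnulusLevels … of Fb (M q q)).thick = L'.thick` proved by `rfl`
costs minutes (the unifier compares the two function fields first); use the lemmas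
`SheetHyp.levels_*` as here.
-/

set_option autoImplicit false
set_option linter.unusedSectionVars false
set_option linter.style.haveILetI false
set_option synthInstance.maxHeartbeats 400000
set_option maxHeartbeats 1600000

noncomputable section

/- S36 build-time patch: file-local shortcut instances. They only shorten instance search;
each is the instance that the search finds anyway (reducible, same terms after unfolding). -/
local instance (priority := 100000) Fermat.Agent.BR3.FastInst.instAlgFullC_SplitModular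
    {k : Type*} [Field k] (N : ℕ) :
    Algebra k ↥(ModularCurve.modularFunctionFieldFullC k N) := inferInstance
local instance (priority := 100000) Fermat.Agent.BR3.FastInst.instFieldFullC_SplitModular
    {k : Type*} [Field k] (N : ℕ) :
    Field ↥(ModularCurve.modularFunctionFieldFullC k N) := inferInstance
local instance (priority := 100000) Fermat.Agent.BR3.FastInst.instAlgLaurent_SplitModular
    {k : Type*} [Field k] : Algebra k (LaurentSeries k) := inferInstance


namespace Fermat.Agent.BR3.SplitModular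

open Polynomial ModularCurve AlgebraicCurve IsLocalRing
open Fermat.Agent.X0 Fermat.Agent.Val Fermat.Agent.Red Fermat.Agent.BR.Kron
open Fermat.Agent.BR.Centre Fermat.Agent.BR.SS Fermat.Agent.BR.Refine
open Fermat.Agent.BR.S0 Fermat.Agent.BR.S0.RedModular Fermat.Agent.BR.S0.PointDict
open Fermat.Agent.BR.Inst.AnnulusInstFinal Fermat.Agent.BR.Inst.NodeInstFinal
open Fermat.Agent.BR.Inst.Levels
open Fermat.Agent.BR.Inst.FKCover Fermat.Agent.BR.Final
open Fermat.Agent.BR3.FibreProd Fermat.Agent.BR3.VertTaylor Fermat.Agent.BR3.VertGlueAbs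
open Fermat.Agent.BR3.VertGlueMod Fermat.Agent.BR3.VertLevelMem Fermat.Agent.BR3.VertMain
open Fermat.Agent.BR3.CircleN
open Fermat.Agent.BR3.EtaleLocal Fermat.Agent.BR3.SplitLevel Fermat.Agent.BR3.SplitLevels
open Fermat.Agent.BR3.SplitBranch Fermat.Agent.BR3.SplitNodeChart Fermat.Agent.BR3.SplitCoord
open Fermat.Agent.BR3.SplitHoriz Fermat.Agent.BR3.CoverSmooth Fermat.Agent.Good.Bridge

variable {M q : ℕ} [NeZero M] [hq : Fact q.Prime]

/-! ### The cover `Fb (M q q) / Fb (M q)` along `α₂` -/

/-- the cover along `α₂` -/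
local instance instAlgAlpha2 : Algebra (Fb (M * q)) (Fb (M * q * q)) := algebraAlong (alpha2 M q)

local instance instTowerAlpha2 : IsScalarTower Kb (Fb (M * q)) (Fb (M * q * q)) :=
  isScalarTower_along (alpha2 M q)

local instance instFiniteAlpha2 : Module.Finite (Fb (M * q)) (Fb (M * q * q)) :=
  Fermat.Agent.Hecke.finiteAlong_heckeAlphaBar (M * q) q

theorem algebraMap_eq_alpha2 (y : Fb (M * q)) :
    algebraMap (Fb (M * q)) (Fb (M * q * q)) y = alpha2 M q y := rfl

variable (M q) in
/-- **the generator of the split sheet**: `W = U / α₂(-(j - j_q^q))` -/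
def Wsplit : Fb (M * q * q) := U M q / algebraMap (Fb (M * q)) (Fb (M * q * q)) (-(x1 M q))

/-- the minimal polynomial of `W` over `Fb (M q)` is the scaled vertical polynomial -/
theorem minpoly_Wsplit (hqM : ¬ q ∣ M) (hx1 : x1 M q ≠ 0) :
    minpoly (Fb (M * q)) (Wsplit M q) =
      vertScaled (phiK q (Fb (M * q))) q (jq' M q) (jBar (M * q))
        (-(jBar (M * q) - jq' M q ^ q)) :=
  minpoly_theta hq.out finrankAlong_alpha2 PhiAt_monic PhiAt_natDegree phiK_evalEval_mid_j
    aeval_jqq_PhiAt (U_notMem_range_alpha2 hqM) (neg_ne_zero.mpr hx1)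

/-- `W` generates `Fb (M q q)` over `Fb (M q)` -/
theorem gen_Wsplit (hqM : ¬ q ∣ M) (hx1 : x1 M q ≠ 0) (z : Fb (M * q * q)) :
    ∃ p : (Fb (M * q))[X], aeval (Wsplit M q) p = z := by
  have htop : IntermediateField.adjoin (Fb (M * q)) {Wsplit M q} = ⊤ :=
    adjoin_theta_eq_top hq.out finrankAlong_alpha2 PhiAt_monic PhiAt_natDegree
      phiK_evalEval_mid_j aeval_jqq_PhiAt (U_notMem_range_alpha2 hqM) (neg_ne_zero.mpr hx1)
  have halg : IsAlgebraic (Fb (M * q)) (Wsplit M q) :=
    (Algebra.IsIntegral.isIntegral (R := Fb (M * q)) (Wsplit M q)).isAlgebraic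
  have h1 : z ∈ (IntermediateField.adjoin (Fb (M * q)) {Wsplit M q}).toSubalgebra := by
    rw [htop]
    exact Algebra.mem_top
  rw [IntermediateField.adjoin_simple_toSubalgebra_of_isAlgebraic halg,
    Algebra.adjoin_singleton_eq_range_aeval] at h1
  exact h1

/-! ### The function field of a level upstairs -/

/-- `α₂` maps the function field of `E` at level `M q` into that at level `M q q` -/
theorem alpha2_mem_FKs (E : Subfield Kb) {y : Fb (M * q)} (hy : y ∈ FKs (M * q) E) :
    alpha2 M q y ∈ FKs (M * q * q) E := by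
  refine Fermat.Agent.BR.Inst.DegenModel.map_mem_of_closure
    (alpha2 M q : Fb (M * q) →+* Fb (M * q * q)) _ (FKs (M * q * q) E) ?_ hy
  rintro t (⟨c, hc, rfl⟩ | ⟨z, rfl⟩)
  · have e : (alpha2 M q : Fb (M * q) →+* Fb (M * q * q)) (algebraMap Kb (Fb (M * q)) c) =
        algebraMap Kb (Fb (M * q * q)) c := (alpha2 M q).commutes c
    rw [e]
    exact Subfield.subset_closure (Or.inl ⟨c, hc, rfl⟩)
  · have e : (alpha2 M q : Fb (M * q) →+* Fb (M * q * q)) (barEmb (M * q) z) =
        barEmb (M * q * q) ⟨(z : LaurentSeries ℚ),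
          full_degeneracy_le (dvd_mul_right (M * q) q) z.2⟩ :=
      Fermat.Agent.BR.Inst.DegenModel.alpha_barEmb (M * q) q z
    rw [e]
    exact Subfield.subset_closure (Or.inr ⟨_, rfl⟩)


/-- `j(s)`, `j(s^q)`, `j(s^{q²})` lie in the function field of any field of constants -/
theorem jBar_mem_FKs (N : ℕ) [NeZero N] (E : Subfield Kb) : jBar N ∈ FKs N E :=
  Subfield.subset_closure (Or.inr ⟨ModularCurve.IgusaScheme.jFull N, rfl⟩)

theorem jq'_mem_FKs (E : Subfield Kb) : jq' M q ∈ FKs (M * q) E :=
  Subfield.subset_closure (Or.inr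
    ⟨_, (Fermat.Agent.BR.Inst.NormalModel.jBarD_eq_barEmb (M * q) q (dvd_mul_left q M)).symm⟩)

theorem jqq_mem_FKs (E : Subfield Kb) : jqq M q ∈ FKs (M * q * q) E := by
  haveI : NeZero (q * q) := ⟨Nat.mul_ne_zero hq.out.ne_zero hq.out.ne_zero⟩
  exact Subfield.subset_closure (Or.inr
    ⟨_, (Fermat.Agent.BR.Inst.NormalModel.jBarD_eq_barEmb (M * q * q) (q * q) ⟨M, by ring⟩).symm⟩)

theorem x1_mem_FKs (E : Subfield Kb) : x1 M q ∈ FKs (M * q) E :=
  sub_mem (jBar_mem_FKs (M * q) E) (pow_mem (jq'_mem_FKs E) q)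

theorem Wsplit_mem_FKs (E : Subfield Kb) : Wsplit M q ∈ FKs (M * q * q) E := by
  refine div_mem (sub_mem (jqq_mem_FKs E) (alpha2_mem_FKs E (jBar_mem_FKs (M * q) E))) ?_
  exact alpha2_mem_FKs E (neg_mem (x1_mem_FKs E))

/-! ### The small parameter, for a gauge given by its absolute value -/

section Small

attribute [local instance] NodeLevel.isLocal

variable {K : Type*} {F : Type*} [Field K] [Field F] [Algebra K F] {A : ValuationSubring K}
  {T' : Set (Place K F)} {ι' : Type*} (L' : AnnulusLevels A T' ι')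

/-- **The small parameter `t = κ / c^(n+1)` lies in the maximal ideal of every level of the outer
sub-annulus** `{|ρ| < |u| < 1}`, `|ρ|^(n+1) = |κ|`: here `c` divides `u` in the level and the second
coordinate of the sub-annulus is `ρ • u⁻¹`. -/
theorem small_mem_maximalIdeal_val {u : F} {ρ : K} (hv' : L'.v = ρ • u⁻¹) {n : ℕ} (hu0 : u ≠ 0)
    (hρ0 : ρ ≠ 0) (i' : ι') {c : F} {κ : K} (hc0 : c ≠ 0) (huc : u * c⁻¹ ∈ (L'.level i').R)
    (hκK : κ ∈ (L'.level i').K') (hρK : ρ ∈ (L'.level i').K')
    (hκ : A.valuation κ = A.valuation ρ ^ (n + 1)) :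
    ∃ h : algebraMap K F κ * (c ^ (n + 1))⁻¹ ∈ (L'.level i').R,
      (⟨algebraMap K F κ * (c ^ (n + 1))⁻¹, h⟩ : (L'.level i').R) ∈
        maximalIdeal (L'.level i').R := by
  have hρn : ρ ^ (n + 1) ≠ 0 := pow_ne_zero _ hρ0
  have hd : A.valuation (κ / ρ ^ (n + 1)) = 1 := by
    rw [map_div₀, map_pow, hκ]
    exact div_self (pow_ne_zero _ ((_root_.map_ne_zero _).mpr hρ0))
  have hdA : κ / ρ ^ (n + 1) ∈ A := (ValuationSubring.valuation_le_one_iff _ _).mp hd.le
  have hdK : κ / ρ ^ (n + 1) ∈ (L'.level i').K' :=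
    (L'.level i').K'.div_mem hκK ((L'.level i').K'.pow_mem hρK _)
  have hd' : algebraMap K F (κ / ρ ^ (n + 1)) ∈ (L'.level i').R :=
    (L'.level i').const_mem _ hdK hdA
  have hρF : algebraMap K F ρ ≠ 0 := (_root_.map_ne_zero _).mpr hρ0
  have key : algebraMap K F κ * (c ^ (n + 1))⁻¹ =
      algebraMap K F (κ / ρ ^ (n + 1)) * (L'.v ^ (n + 1) * (u * c⁻¹) ^ (n + 1)) := by
    rw [hv', Algebra.smul_def, ← mul_pow, map_div₀, map_pow]
    have e1 : algebraMap K F ρ * u⁻¹ * (u * c⁻¹) = algebraMap K F ρ * c⁻¹ := by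
      field_simp
    rw [e1, mul_pow, inv_pow]
    field_simp
  have hv : (⟨L'.v, (L'.level i').v_mem⟩ : (L'.level i').R) ∈ maximalIdeal (L'.level i').R :=
    vR_mem_maximalIdeal (L'.level i')
  have hmem : algebraMap K F κ * (c ^ (n + 1))⁻¹ ∈ (L'.level i').R := by
    rw [key]
    exact (L'.level i').R.mul_mem hd' ((L'.level i').R.mul_mem
      ((L'.level i').R.pow_mem (L'.level i').v_mem _) ((L'.level i').R.pow_mem huc _))
  refine ⟨hmem, ?_⟩
  have e2 : (⟨algebraMap K F κ * (c ^ (n + 1))⁻¹, hmem⟩ : (L'.level i').R) =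
      ⟨algebraMap K F (κ / ρ ^ (n + 1)), hd'⟩ *
        (⟨L'.v, (L'.level i').v_mem⟩ ^ (n + 1) * ⟨u * c⁻¹, huc⟩ ^ (n + 1)) :=
    Subtype.ext key
  rw [e2]
  refine Ideal.mul_mem_left _ _ (Ideal.mul_mem_right _ _ ?_)
  rw [pow_succ]
  exact Ideal.mul_mem_left _ _ hv

end Small


/-! ### The base levels of main at a crossing -/

section Final

variable (B : ValuationSubring Kb) (hB : B.LiesOverPrime q) (hqM : ¬ q ∣ M)
  [IsAlgClosed (ResidueField B)]
  (hne : Nonempty (Crossing (chartDataModular B hB hqM)))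
  (e : Crossing (chartDataModular B hB hqM))

local notation "kB" => ResidueField B

/-- (shortcut instance: the search through the generic instances costs seconds per declaration) -/
local instance (priority := 100000) instAlgebraFtMShortcutSplit :
    Algebra kB (modularFunctionFieldFullC kB M) :=
  inferInstance

set_option maxHeartbeats 4000000 in
/-- the level rings of main grow with the level -/
theorem level_mono {S S' : Finset Kb} (h : S ⊆ S') :
    ((annulusLevels_modular_final B hB hqM hne e).level S).R ≤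
      ((annulusLevels_modular_final B hB hqM hne e).level S').R :=
  (crossingModel_modular_final B hB hqM
    (Fermat.Agent.BR.S0.RedHyp.atlasHyp_modular B hB hqM
      (Fermat.Agent.BR.S0.GeomFinal.geomInputs_modular_final B hB hqM)) S e).loc_mono
    (crossingModel_modular_final B hB hqM
      (Fermat.Agent.BR.S0.RedHyp.atlasHyp_modular B hB hqM
        (Fermat.Agent.BR.S0.GeomFinal.geomInputs_modular_final B hB hqM)) S' e)
    (Fermat.Agent.BR.Inst.Levels.CS_mono
      (baseFamily_fin (M * q) B hq.out hB) h)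

/-- the branch data of main's levels, in the `n`-component form -/
theorem branchDataN_final :
    BranchDataN (setupFinal B hB hqM hne) e (annulusLevels_modular_final B hB hqM hne e) :=
  BranchDataN.ofBranchData (branchData_modular_final B hB hqM hne e)

/-- `Ψ_q(j(s^q), j(s))` stays a unit in the bigger levels -/
theorem isUnit_psiK_mono {S S' : Finset Kb} (h : S ⊆ S')
    (hR : IsUnit (⟨_, psiK_mem_level B hB hqM hne e S⟩ :
      ((annulusLevels_modular_final B hB hqM hne e).level S).R)) :
    IsUnit (⟨_, psiK_mem_level B hB hqM hne e S'⟩ :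
      ((annulusLevels_modular_final B hB hqM hne e).level S').R) :=
  hR.map (Subring.inclusion (level_mono B hB hqM hne e h))


/-! ### The coordinate `x₁ = j(s) - j(s^q)^q` divides `u` in every level -/

section Coord

variable (S : Finset Kb)
  (hR : IsUnit (⟨_, psiK_mem_level B hB hqM hne e S⟩ :
    ((annulusLevels_modular_final B hB hqM hne e).level S).R))
  (hsx : ((setupFinal B hB hqM hne).s₁ e).ord
    ((setupFinal B hB hqM hne).res ((setupFinal B hB hqM hne).src e)
      ⟨x1 M q, x1_mem_src B hB hqM hne e⟩) = 1)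
  (hsy : ((setupFinal B hB hqM hne).s₂ e).ord
    ((setupFinal B hB hqM hne).res ((setupFinal B hB hqM hne).tgt e)
      ⟨y1 M q, y1_mem_tgt B hB hqM hne e⟩) = 1)

include hsx in
/-- `x₁` does not vanish identically on the source component -/
theorem x1_notMem_nonunits :
    x1 M q ∉ ((setupFinal B hB hqM hne).O ((setupFinal B hB hqM hne).src e)).nonunits := by
  intro h
  have h0 := res_eq_zero_of_nonunits (S₀ := setupFinal B hB hqM hne) _
    ⟨x1 M q, x1_mem_src B hB hqM hne e⟩ h
  rw [h0, Place.ord_zero] at hsx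
  exact zero_ne_one hsx

include hsy in
/-- `y₁` does not vanish identically on the target component -/
theorem y1_notMem_nonunits :
    y1 M q ∉ ((setupFinal B hB hqM hne).O ((setupFinal B hB hqM hne).tgt e)).nonunits := by
  intro h
  have h0 := res_eq_zero_of_nonunits (S₀ := setupFinal B hB hqM hne) _
    ⟨y1 M q, y1_mem_tgt B hB hqM hne e⟩ h
  rw [h0, Place.ord_zero] at hsy
  exact zero_ne_one hsy

include hsx in
theorem x1_ne_zero : x1 M q ≠ 0 :=
  ne_zero_of_notMem_nonunits (x1_notMem_nonunits B hB hqM hne e hsx)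

include hR hsx hsy in
set_option maxHeartbeats 4000000 in
/-- **`x₁` divides the coordinate `u` of the tube in the level `S`** (thickness one) -/
theorem u_mul_x1_inv_mem :
    (annulusLevels_modular_final B hB hqM hne e).u * (x1 M q)⁻¹ ∈
      ((annulusLevels_modular_final B hB hqM hne e).level S).R := by
  have X := branchDataN_final B hB hqM hne e
  exact coord_mul_inv_mem (branchComp_src X) (branchComp_tgt X) residue_eq_zero_of_lt
    (u_notMem_nonunits_of_unif (branchComp_src X) (res_eq_zero_of_nonunits _)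
      residue_eq_zero_of_lt X.v_src X.unif₁)
    (v_notMem_nonunits_of_unif (branchComp_tgt X) (res_eq_zero_of_nonunits _)
      residue_eq_zero_of_lt X.u_tgt X.unif₂) S
    (x1_mem_level B hB hqM hne e S) (y1_mem_level B hB hqM hne e S)
    (psiK_mem_level B hB hqM hne e S) hR x1_mul_y1
    (valuation_thick_eq B hB hqM hne e S hR hsx hsy).symm
    (x1_notMem_nonunits B hB hqM hne e hsx) (y1_notMem_nonunits B hB hqM hne e hsy)

end Coord


/-! ### The split sheet over the outer sub-annulus -/

section Outer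

attribute [local instance] NodeLevel.isLocal NodeLevel.noeth NodeLevel.intClosed

variable {T' : Set (Place Kb (Fb (M * q)))} {ι' : Type*}

/-- **The hypotheses on a family of levels `L'` of the outer sub-annulus `{|ρ| < |u| < 1}` of the
tube of the crossing `e`** (`ρ` the gauge of the critical circle along `a`,
`|ρ|^(q+1) = |thick e|`): the level `i'` contains main's level `idx i'` (X2), coordinates
`(u, ρ • u⁻¹)`, `ρ` a constant of every level, the converse of `centred` (X1) and `hRK` (the level
rings lie in the function fields of their constant fields).  Satisfied by helper5's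
`SubAnnChart.outerLevels` and by helper16's `SubAnnPlaces.outerLevelsRef` over main's levels. -/
structure OuterHyp (L' : AnnulusLevels B T' ι') (idx : ι' → Finset Kb) (ρ : Kb) : Prop where
  le : ∀ i', ((annulusLevels_modular_final B hB hqM hne e).level (idx i')).R ≤ (L'.level i').R
  u_eq : L'.u = (annulusLevels_modular_final B hB hqM hne e).u
  v_eq : L'.v = ρ • (annulusLevels_modular_final B hB hqM hne e).u⁻¹
  rho_mem : ∀ i', ρ ∈ (L'.level i').K'
  gauge : B.valuation ρ ^ (q + 1) = B.valuation (annulusLevels_modular_final B hB hqM hne e).thick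
  hT : ∀ i' (P : Place Kb (Fb (M * q))), CentredAt B (L'.level i').R P → P ∈ T'
  hRK : ∀ i', ∀ y ∈ (L'.level i').R, y ∈ FKs (M * q) (L'.level i').K'

variable {B hB hqM hne e}
variable {L' : AnnulusLevels B T' ι'} {idx : ι' → Finset Kb} {ρ : Kb}
  (H : OuterHyp B hB hqM hne e L' idx ρ)
  (hR : ∀ i', IsUnit (⟨_, psiK_mem_level B hB hqM hne e (idx i')⟩ :
    ((annulusLevels_modular_final B hB hqM hne e).level (idx i')).R))
  (hsx : ((setupFinal B hB hqM hne).s₁ e).ord
    ((setupFinal B hB hqM hne).res ((setupFinal B hB hqM hne).src e)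
      ⟨x1 M q, x1_mem_src B hB hqM hne e⟩) = 1)
  (hsy : ((setupFinal B hB hqM hne).s₂ e).ord
    ((setupFinal B hB hqM hne).res ((setupFinal B hB hqM hne).tgt e)
      ⟨y1 M q, y1_mem_tgt B hB hqM hne e⟩) = 1)

include H in
theorem OuterHyp.rho_ne_zero : ρ ≠ 0 := by
  rintro rfl
  have h := H.gauge
  rw [map_zero, zero_pow (Nat.succ_ne_zero q)] at h
  exact (annulusLevels_modular_final B hB hqM hne e).thick_ne ((map_eq_zero _).mp h.symm)

include H hR hsx hsy in
set_option maxHeartbeats 4000000 in
/-- **The small parameter `t = q / (-x₁)^(q+1)` of the split sheet** lies in the maximal ideal of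
every level of the outer sub-annulus. -/
theorem OuterHyp.small (i' : ι') :
    ∃ h : ((q : ℕ) : Fb (M * q)) * ((-(jBar (M * q) - jq' M q ^ q)) ^ (q + 1))⁻¹ ∈
        (L'.level i').R,
      (⟨((q : ℕ) : Fb (M * q)) * ((-(jBar (M * q) - jq' M q ^ q)) ^ (q + 1))⁻¹, h⟩ :
        (L'.level i').R) ∈ maximalIdeal (L'.level i').R := by
  have hx0 : x1 M q ≠ 0 := x1_ne_zero B hB hqM hne e hsx
  have hc0 : -(x1 M q) ≠ 0 := neg_ne_zero.mpr hx0
  have huc : (annulusLevels_modular_final B hB hqM hne e).u * (-(x1 M q))⁻¹ ∈ (L'.level i').R := by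
    rw [inv_neg, mul_neg]
    exact neg_mem (H.le i' (u_mul_x1_inv_mem B hB hqM hne e (idx i') (hR i') hsx hsy))
  have hκ : B.valuation ((q : ℕ) : Kb) = B.valuation ρ ^ (q + 1) := by
    rw [H.gauge, valuation_thick_eq B hB hqM hne e (idx i') (hR i') hsx hsy]
  have key := small_mem_maximalIdeal_val L' H.v_eq (n := q)
    (annulusLevels_modular_final B hB hqM hne e).u_ne_zero H.rho_ne_zero i' hc0 huc
    (natCast_mem _ q) (H.rho_mem i') hκ
  rw [map_natCast] at key
  exact key


include H hR hsx hsy in
set_option maxHeartbeats 4000000 in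
/-- **(N1-INST) The hypotheses of the split sheet of `X₀(M q²) → X₀(M q)` (along `α₂`) over the
outer sub-annulus of the crossing `e`**: `W = U / α₂(-x₁) ≡ 1`. -/
theorem OuterHyp.sheetHyp : SheetHyp L' (Wsplit M q) (1 : B) := by
  have hx0 : x1 M q ≠ 0 := x1_ne_zero B hB hqM hne e hsx
  haveI : NeZero q := ⟨hq.out.ne_zero⟩
  refine sheetHyp_of_vertScaled L' q hq.out (x := jq' M q) (y := jBar (M * q))
    (fun i' => H.le i' (jq'_mem_level B hB hqM hne e (idx i')))
    (fun i' => H.le i' (jBar_mem_level B hB hqM hne e (idx i')))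
    hx0 (H.small hR hsx hsy) phiK_evalEval_mid_j (minpoly_Wsplit hqM hx0) (gen_Wsplit hqM hx0)
    (Fermat.Agent.BR.Inst.AnnulusInstAux.finite_div_modular (M * q * q)) ?_
  intro i' χ h1 Hs
  exact horiz_splitRing_frame (L'.level i') Hs
    (fun y hy => alpha2_mem_FKs _ (H.hRK i' y hy)) (Wsplit_mem_FKs _)
    (fun x hx hx0 => Fermat.Agent.BR3.SubAnnChart.exists_zpow_of_mem_K' (L'.level i') hx hx0)
    (H.hT i')

/-- **The levels of the split sheet over the outer sub-annulus of the crossing `e`** -/
def OuterHyp.splitLevels :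
    AnnulusLevels B (coverTube B T' (Wsplit M q) (1 : B)) ι' :=
  (H.sheetHyp hR hsx hsy).levels



theorem OuterHyp.splitLevels_eq :
    H.splitLevels hR hsx hsy = (H.sheetHyp hR hsx hsy).levels := rfl

@[simp] theorem OuterHyp.splitLevels_u :
    (H.splitLevels hR hsx hsy).u = alpha2 M q L'.u :=
  SheetHyp.levels_u (H.sheetHyp hR hsx hsy)

@[simp] theorem OuterHyp.splitLevels_v :
    (H.splitLevels hR hsx hsy).v = alpha2 M q L'.v :=
  SheetHyp.levels_v (H.sheetHyp hR hsx hsy)

@[simp] theorem OuterHyp.splitLevels_ε₀ :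
    (H.splitLevels hR hsx hsy).ε₀ = alpha2 M q L'.ε₀ :=
  SheetHyp.levels_ε₀ (H.sheetHyp hR hsx hsy)

@[simp] theorem OuterHyp.splitLevels_thick :
    (H.splitLevels hR hsx hsy).thick = L'.thick :=
  SheetHyp.levels_thick (H.sheetHyp hR hsx hsy)

theorem OuterHyp.splitLevels_R (i' : ι') :
    ((H.splitLevels hR hsx hsy).level i').R = (H.sheetHyp hR hsx hsy).ring i' :=
  SheetHyp.levels_R (H.sheetHyp hR hsx hsy) i'

end Outer

/-! ### The instance: helper5's levels of the outer half -/

section Inst

open Fermat.Agent.BR3.SubAnnChart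

variable {ρ : Kb}
  (h1 : B.valuation (annulusLevels_modular_final B hB hqM hne e).thick < B.valuation ρ)
  (h2 : B.valuation ρ < 1)
  (hρ : B.valuation ρ ^ (q + 1) =
    B.valuation (annulusLevels_modular_final B hB hqM hne e).thick)

include hρ in
/-- **helper5's levels `SubAnnChart.outerLevels` of the outer half `{|ρ| < |u| < 1}`** satisfy
`OuterHyp` (index map: the underlying finite set of constants). -/
theorem outerHyp_outerLevels :
    OuterHyp B hB hqM hne e (outerLevels B hB hqM hne e h1 h2) Subtype.val ρ where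
  le := le_outerLevels_level_R B hB hqM hne e h1 h2
  u_eq := rfl
  v_eq := rfl
  rho_mem i' := i'.2
  gauge := hρ
  hT i' _ hP := mem_subTube_of_centredAt_outerLevels B hB hqM hne e h1 h2 i' hP
  hRK i' := hRK_subLevelsFrame _ h1 h2 _ _ i'

end Inst

end Final

end Fermat.Agent.BR3.SplitModular
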