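import Mathlib
import Fermat.Agent.BR3.SplitModular
import Fermat.Agent.BR3.SplitCoordTw
import Fermat.Agent.BR3.MinpolyScaleMod
import Fermat.Agent.BR3.VertAllParam
import Fermat.Agent.BR3.VertSheet.ModularTw
import Fermat.Agent.BR3.SplitCompsCInf

/-!
# Program C (S36), node (N1-INST), part 4 (helper19): the split sheet in the `g`-frame

The uniform (`U_g`) twin of `BR3/SplitModular`: at EVERY supersingular crossing `e` (elliptic or
not) of main's two-component model of `X₀(M q)`, for a twisted triple `(g, g', g'')` with simple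
zeros at `e` (`SSParam.IsSSParam`), the function `W = splitW M q g g' = U_g / α₂(-(α g - (β g')^q))`
generates a split sheet (`W ≡ 1`) of `X₀(M q²) → X₀(M q)` (along `α₂`) over the outer sub-annulus
`{|ρ| < |u| < 1}` of the tube of `e`, `|ρ|^(q+1) = |thick e| = |q|`.

* `sheetHypAt_frame` : **generic wrapper** (any base field `F` with `[Algebra F (Fb N₂)]`, so any
  algebra map: `α₂` for the node `nT e`, `β₂` for the node `nW e`): helper7's
  `SplitCoordTw.sheetHyp_of_vertScaledAt` with `hfin` and `hhoriz` discharged in the modular frame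
  (`SplitHoriz.horiz_splitRing_frame`); inputs `hRFK`, `hWK`, `hT`;
* `heckeAlpha_mem_FKs`, `heckeBeta_mem_FKs`, `beta2_mem_FKs`, `Ug_mem_FKs`, `splitW_mem_FKs`;
* `exists_frameData` : Kronecker shape of `PAt M q g` with coefficients in the base level and
  `Ψ₁(α g)` a unit of the base level; `u_mul_vg_inv_mem` : **`v_g = α g - (β g')^q` divides the
  coordinate `u` in every level**; `Ug_notMem_range_alpha2`; `minpoly_splitW`, `gen_splitW`;
* **`sheetHypTw : SheetHyp L' (splitW M q g g') (1 : B)`** for `L'` with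
  `H : SplitModular.OuterHyp …` (+ `hK`: the constant fields of main's levels lie in those of `L'`),
  `splitLevelsTw` with `splitLevelsTw_u/_v/_ε₀/_thick/_R`.
-/

set_option autoImplicit false
set_option linter.unusedSectionVars false
set_option linter.style.haveILetI false
set_option synthInstance.maxHeartbeats 400000
set_option maxHeartbeats 1600000

noncomputable section

/- S36 build-time patch: file-local shortcut instances. They only shorten instance search;
each is the instance that the search finds anyway (reducible, same terms after unfolding). -/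
local instance (priority := 100000) Fermat.Agent.BR3.FastInst.instAlgFullC_SplitModularTw
    {k : Type*} [Field k] (N : ℕ) :
    Algebra k ↥(ModularCurve.modularFunctionFieldFullC k N) := inferInstance
local instance (priority := 100000) Fermat.Agent.BR3.FastInst.instFieldFullC_SplitModularTw
    {k : Type*} [Field k] (N : ℕ) :
    Field ↥(ModularCurve.modularFunctionFieldFullC k N) := inferInstance
local instance (priority := 100000) Fermat.Agent.BR3.FastInst.instAlgLaurent_SplitModularTw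
    {k : Type*} [Field k] : Algebra k (LaurentSeries k) := inferInstance


namespace Fermat.Agent.BR3.SplitModularTw

open Polynomial ModularCurve AlgebraicCurve IsLocalRing
open Fermat.Agent.X0 Fermat.Agent.Val Fermat.Agent.Red Fermat.Agent.BR.Kron
open Fermat.Agent.BR.Centre Fermat.Agent.BR.SS Fermat.Agent.BR.Refine
open Fermat.Agent.BR.S0 Fermat.Agent.BR.S0.RedModular Fermat.Agent.BR.S0.PointDict
open Fermat.Agent.BR.Inst.AnnulusInstFinal Fermat.Agent.BR.Inst.NodeInstFinal
open Fermat.Agent.BR.Inst.Levels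
open Fermat.Agent.BR.Inst.FKCover Fermat.Agent.BR.Final
open Fermat.Agent.BR3.FibreProd Fermat.Agent.BR3.VertTaylor Fermat.Agent.BR3.VertTaylorAt
open Fermat.Agent.BR3.CircleN
open Fermat.Agent.BR3.EtaleLocal Fermat.Agent.BR3.SplitLevel Fermat.Agent.BR3.SplitLevels
open Fermat.Agent.BR3.SplitBranch Fermat.Agent.BR3.SplitNodeChart Fermat.Agent.BR3.SplitCoord
open Fermat.Agent.BR3.SplitHoriz Fermat.Agent.BR3.CoverSmooth Fermat.Agent.Good.Bridge
open Fermat.Agent.BR3.SplitModular Fermat.Agent.BR3.SplitCoordTw Fermat.Agent.BR3.HeckePoly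
open Fermat.Agent.BR3.SplitCompsCInf Fermat.Agent.BR3.SSParam

/-! ### The generic wrapper in the modular frame -/

section Frame

attribute [local instance] NodeLevel.isLocal NodeLevel.noeth NodeLevel.intClosed

variable {N₂ : ℕ} [NeZero N₂] {F : Type*} [Field F] [Algebra Kb F] [Algebra F (Fb N₂)]
  [IsScalarTower Kb F (Fb N₂)] [Algebra.IsIntegral F (Fb N₂)]
  {A : ValuationSubring Kb} {T' : Set (Place Kb F)} {ι' : Type*}

/-- **The hypotheses of the split sheet `W ≡ 1` in the modular frame `F₂ = F̄_{N₂}`**, from the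
scaled vertical polynomial of a twisted univariate Kronecker polynomial: helper7's
`sheetHyp_of_vertScaledAt` with the finiteness of divisors and the K-point existence lemma
discharged. Generic in the base field `F` (hence in the algebra map `F → F̄_{N₂}`). -/
theorem sheetHypAt_frame (L' : AnnulusLevels A T' ι') {q : ℕ} (hq : q.Prime) {x₁ x₂ y : F}
    {Ψ₁ P : F[X]}
    (hx₁ : ∀ i', x₁ ∈ (L'.level i').R) (hx₂ : ∀ i', x₂ ∈ (L'.level i').R)
    (hy : ∀ i', y ∈ (L'.level i').R) (hΨ : ∀ i' n, Ψ₁.coeff n ∈ (L'.level i').R)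
    (hc : y - x₁ ^ q ≠ 0)
    (ht : ∀ i', ∃ h : (q : F) * ((-(y - x₁ ^ q)) ^ (q + 1))⁻¹ ∈ (L'.level i').R,
      (⟨(q : F) * ((-(y - x₁ ^ q)) ^ (q + 1))⁻¹, h⟩ : (L'.level i').R) ∈
        maximalIdeal (L'.level i').R)
    (hP : P = (X ^ q - C x₂) * (X - C (x₁ ^ q)) + C (q : F) * Ψ₁)
    (hmon : P.Monic) (hdeg : P.natDegree = q + 1) (h0 : P.eval y = 0) {W : Fb N₂}
    (hW : minpoly F W = vertScaledAt P q y (-(y - x₁ ^ q)))
    (hgen : ∀ z : Fb N₂, ∃ p : F[X], aeval W p = z)
    (hRFK : ∀ i', ∀ z ∈ (L'.level i').R, algebraMap F (Fb N₂) z ∈ FKs N₂ (L'.level i').K')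
    (hWK : ∀ i', W ∈ FKs N₂ (L'.level i').K')
    (hT : ∀ i' (P : Place Kb F), CentredAt A (L'.level i').R P → P ∈ T') :
    SheetHyp L' W (1 : A) :=
  sheetHyp_of_vertScaledAt L' hq hx₁ hx₂ hy hΨ hc ht hP hmon hdeg h0 hW hgen
    (Fermat.Agent.BR.Inst.AnnulusInstAux.finite_div_modular N₂)
    (fun i' _ _ Hs => horiz_splitRing_frame (L'.level i') Hs (hRFK i') (hWK i')
      (fun _ hx hx0 => Fermat.Agent.BR3.SubAnnChart.exists_zpow_of_mem_K' (L'.level i') hx hx0)
      (hT i'))

end Frame

/-! ### The degeneracy maps and the function fields of a field of constants -/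

section FKs

variable (N q : ℕ) [NeZero N] [NeZero q] (E : Subfield Kb)

theorem heckeAlpha_mem_FKs {y : Fb N} (hy : y ∈ FKs N E) :
    heckeAlphaBar Kb N q y ∈ FKs (N * q) E := by
  refine Fermat.Agent.BR.Inst.DegenModel.map_mem_of_closure
    (heckeAlphaBar Kb N q : Fb N →+* Fb (N * q)) _ (FKs (N * q) E) ?_ hy
  rintro t (⟨c, hc, rfl⟩ | ⟨z, rfl⟩)
  · have e : (heckeAlphaBar Kb N q : Fb N →+* Fb (N * q)) (algebraMap Kb (Fb N) c) =
        algebraMap Kb (Fb (N * q)) c := (heckeAlphaBar Kb N q).commutes c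
    rw [e]
    exact Subfield.subset_closure (Or.inl ⟨c, hc, rfl⟩)
  · have e : (heckeAlphaBar Kb N q : Fb N →+* Fb (N * q)) (barEmb N z) = _ :=
      Fermat.Agent.BR.Inst.DegenModel.alpha_barEmb N q z
    rw [e]
    exact Subfield.subset_closure (Or.inr ⟨_, rfl⟩)

theorem heckeBeta_mem_FKs {y : Fb N} (hy : y ∈ FKs N E) :
    heckeBetaBar Kb N q y ∈ FKs (N * q) E := by
  refine Fermat.Agent.BR.Inst.DegenModel.map_mem_of_closure
    (heckeBetaBar Kb N q : Fb N →+* Fb (N * q)) _ (FKs (N * q) E) ?_ hy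
  rintro t (⟨c, hc, rfl⟩ | ⟨z, rfl⟩)
  · have e : (heckeBetaBar Kb N q : Fb N →+* Fb (N * q)) (algebraMap Kb (Fb N) c) =
        algebraMap Kb (Fb (N * q)) c := (heckeBetaBar Kb N q).commutes c
    rw [e]
    exact Subfield.subset_closure (Or.inl ⟨c, hc, rfl⟩)
  · have e : (heckeBetaBar Kb N q : Fb N →+* Fb (N * q)) (barEmb N z) = _ :=
      Fermat.Agent.BR.Inst.DegenModel.beta_barEmb N q z
    rw [e]
    exact Subfield.subset_closure (Or.inr ⟨_, rfl⟩)

end FKs


/-! ### The frame data of a twisted triple at a crossing -/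

section Final

open Fermat.Agent.BR3.VertAll Fermat.Agent.BR3.VertAllParam Fermat.Agent.BR3.VertAllLevels
open Fermat.Agent.BR3.HeckePolyDescent Fermat.Agent.BR3.HeckePolyModel
open Fermat.Agent.BR3.ThickOneFinal Fermat.Agent.BR3.ThickOneUnit Fermat.Agent.BR3.VertTube
open Fermat.Agent.BR3.VertSheet Fermat.Agent.BR3.VertFinal Fermat.Agent.BR.S0.ThickFinal
open Fermat.Agent.BR.Circle Fermat.Agent.BR.ResGen

variable {M q : ℕ} [NeZero M] [hq : Fact q.Prime]

/-- the cover along `α₂` -/
local instance instAlgAlpha2Tw : Algebra (Fb (M * q)) (Fb (M * q * q)) :=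
  algebraAlong (alpha2 M q)

local instance instTowerAlpha2Tw : IsScalarTower Kb (Fb (M * q)) (Fb (M * q * q)) :=
  isScalarTower_along (alpha2 M q)

local instance instFiniteAlpha2Tw : Module.Finite (Fb (M * q)) (Fb (M * q * q)) :=
  Fermat.Agent.Hecke.finiteAlong_heckeAlphaBar (M * q) q

variable (B : ValuationSubring Kb) (hB : B.LiesOverPrime q) (hqM : ¬ q ∣ M)
  [IsAlgClosed (ResidueField B)] [CharP (ResidueField B) q]
  (hne : Nonempty (Crossing (chartDataModular B hB hqM)))
  (e : Crossing (chartDataModular B hB hqM))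

local notation "kB" => ResidueField B

/-- (shortcut instance: the search through the generic instances costs seconds per declaration) -/
local instance (priority := 100000) instAlgebraFtMShortcutSplitTw :
    Algebra kB (modularFunctionFieldFullC kB M) :=
  inferInstance

variable (h2 : nuTwo M = 0) (h3 : nuThree M = 0) {g g' g'' : Fb M}
  (Hp : IsSSParam B hB hqM e g g' g'')

include Hp in
theorem vg_mem_level (S : Finset Kb) :
    heckeAlphaBar Kb M q g - heckeBetaBar Kb M q g' ^ q ∈
      ((annulusLevels_modular_final B hB hqM hne e).level S).R :=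
  level_mono B hB hqM hne e (Finset.empty_subset S)
    (sub_mem (alpha_mem_level B hB hqM hne e Hp.hg)
      (pow_mem (beta_mem_level B hB hqM hne e Hp.hg') q))

include Hp h2 h3 in
set_option maxHeartbeats 4000000 in
/-- **The frame data of the twisted triple**: the Kronecker shape of the Hecke polynomial
`PAt M q g` with coefficients in the base level of the tube of `e`, and `Ψ₁(α g)` a UNIT of the
base level. -/
theorem exists_frameData :
    ∃ Ψ₁ : (Fb (M * q))[X],
      (∀ k, Ψ₁.coeff k ∈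
        ((annulusLevels_modular_final B hB hqM hne e).level (∅ : Finset Kb)).R) ∧
      PAt M q g =
        (X ^ q - C (heckeBetaBar Kb M q g'')) * (X - C ((heckeBetaBar Kb M q g') ^ q)) +
          C ((q : ℕ) : Fb (M * q)) * Ψ₁ ∧
      ∃ hz : Ψ₁.eval (heckeAlphaBar Kb M q g) ∈
          ((annulusLevels_modular_final B hB hqM hne e).level (∅ : Finset Kb)).R,
        IsUnit (⟨_, hz⟩ :
          ((annulusLevels_modular_final B hB hqM hne e).level (∅ : Finset Kb)).R) := by
  obtain ⟨Ψ₁, hΨ, hP⟩ := exists_kronecker_PAt_q B hB hqM Hp.hg Hp.hg' Hp.hg'' Hp.untwist Hp.twist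
  have hgO := mem_OM_of_mem_CMod_base B hB hqM Hp.hg
  have hg'O := mem_OM_of_mem_CMod_base B hB hqM Hp.hg'
  have hg''O := mem_OM_of_mem_CMod_base B hB hqM Hp.hg''
  have hαR := alpha_mem_level B hB hqM hne e Hp.hg
  have hβ'R := beta_mem_level B hB hqM hne e Hp.hg'
  have hβ''R := beta_mem_level B hB hqM hne e Hp.hg''
  have hΨR : ∀ k, Ψ₁.coeff k ∈
      ((annulusLevels_modular_final B hB hqM hne e).level (∅ : Finset Kb)).R :=
    fun k => CQ0_le_level B hB hqM hne e (hΨ k)
  have hx : heckeAlphaBar Kb M q g - (heckeBetaBar Kb M q g') ^ q ∈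
      ((annulusLevels_modular_final B hB hqM hne e).level (∅ : Finset Kb)).R :=
    sub_mem hαR (pow_mem hβ'R q)
  have hy : heckeBetaBar Kb M q g'' - (heckeAlphaBar Kb M q g) ^ q ∈
      ((annulusLevels_modular_final B hB hqM hne e).level (∅ : Finset Kb)).R :=
    sub_mem hβ''R (pow_mem hαR q)
  have hz : Ψ₁.eval (heckeAlphaBar Kb M q g) ∈
      ((annulusLevels_modular_final B hB hqM hne e).level (∅ : Finset Kb)).R :=
    eval_mem_of_coeff_mem _ hΨR hαR
  have hxyz := vg_mul_ug (M := M) (q := q) hqM hP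
  have hx₂ : heckeAlphaBar Kb M q g - (heckeBetaBar Kb M q g') ^ q ∈
      (compW B hB hqM 1).O.nonunits := vg_mem_nonunits_O2 B hB hqM hgO hg'O Hp.untwist
  have hy₁ : heckeBetaBar Kb M q g'' - (heckeAlphaBar Kb M q g) ^ q ∈
      (compW B hB hqM 0).O.nonunits := ug_mem_nonunits_O1 B hB hqM hgO hg''O Hp.twist
  have hR := isUnit_of_simple_zeros_final B hB hqM hne e h2 h3 hx hy hz hx₂ hy₁
    (vg_mem_O1 B hB hqM hgO hg'O) (ug_mem_O2 B hB hqM hgO hg''O) (Hp.hxord _) (Hp.hyord _) hxyz
  exact ⟨Ψ₁, hΨR, hP, hz, hR⟩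


include Hp in
/-- `v_g = α g - (β g')^q` does not vanish identically on the source component `'can'` -/
theorem vg_notMem_nonunits :
    heckeAlphaBar Kb M q g - heckeBetaBar Kb M q g' ^ q ∉ (compW B hB hqM 0).O.nonunits := by
  intro h
  have hO := vg_mem_O1 B hB hqM (mem_OM_of_mem_CMod_base B hB hqM Hp.hg)
    (mem_OM_of_mem_CMod_base B hB hqM Hp.hg')
  have h0 : (compW B hB hqM 0).res ⟨_, hO⟩ = 0 :=
    (Fermat.Agent.BR.S0.SmoothAssembly.constRed_res_eq_zero_iff (compW B hB hqM 0) ⟨_, hO⟩).mpr h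
  have h1 := Hp.hxord hO
  rw [h0, Place.ord_zero] at h1
  exact zero_ne_one h1

include Hp in
/-- `u_g = β g'' - (α g)^q` does not vanish identically on the target component `'et'` -/
theorem ug_notMem_nonunits :
    heckeBetaBar Kb M q g'' - heckeAlphaBar Kb M q g ^ q ∉ (compW B hB hqM 1).O.nonunits := by
  intro h
  have hO := ug_mem_O2 B hB hqM (mem_OM_of_mem_CMod_base B hB hqM Hp.hg)
    (mem_OM_of_mem_CMod_base B hB hqM Hp.hg'')
  have h0 : (compW B hB hqM 1).res ⟨_, hO⟩ = 0 :=
    (Fermat.Agent.BR.S0.SmoothAssembly.constRed_res_eq_zero_iff (compW B hB hqM 1) ⟨_, hO⟩).mpr h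
  have h1 := Hp.hyord hO
  rw [h0, Place.ord_zero] at h1
  exact zero_ne_one h1

include Hp in
theorem vg_ne_zero : heckeAlphaBar Kb M q g - heckeBetaBar Kb M q g' ^ q ≠ 0 :=
  ne_zero_of_notMem_nonunits (vg_notMem_nonunits B hB hqM e Hp)

include Hp h2 h3 in
set_option maxHeartbeats 4000000 in
/-- **`v_g` divides the coordinate `u` of the tube of `e` in every level** (thickness one). -/
theorem u_mul_vg_inv_mem (S : Finset Kb) :
    (annulusLevels_modular_final B hB hqM hne e).u *
        (heckeAlphaBar Kb M q g - heckeBetaBar Kb M q g' ^ q)⁻¹ ∈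
      ((annulusLevels_modular_final B hB hqM hne e).level S).R := by
  obtain ⟨Ψ₁, hΨR, hP, hz, hR⟩ := exists_frameData B hB hqM hne e h2 h3 Hp
  have hαR := alpha_mem_level B hB hqM hne e Hp.hg
  have hβ'R := beta_mem_level B hB hqM hne e Hp.hg'
  have hβ''R := beta_mem_level B hB hqM hne e Hp.hg''
  have hx : heckeAlphaBar Kb M q g - (heckeBetaBar Kb M q g') ^ q ∈
      ((annulusLevels_modular_final B hB hqM hne e).level (∅ : Finset Kb)).R :=
    sub_mem hαR (pow_mem hβ'R q)
  have hy : heckeBetaBar Kb M q g'' - (heckeAlphaBar Kb M q g) ^ q ∈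
      ((annulusLevels_modular_final B hB hqM hne e).level (∅ : Finset Kb)).R :=
    sub_mem hβ''R (pow_mem hαR q)
  have hxyz := vg_mul_ug (M := M) (q := q) hqM hP
  have X := branchDataN_final B hB hqM hne e
  refine level_mono B hB hqM hne e (Finset.empty_subset S) ?_
  exact coord_mul_inv_mem (branchComp_src X) (branchComp_tgt X) residue_eq_zero_of_lt
    (u_notMem_nonunits_of_unif (branchComp_src X) (res_eq_zero_of_nonunits _)
      residue_eq_zero_of_lt X.v_src X.unif₁)
    (v_notMem_nonunits_of_unif (branchComp_tgt X) (res_eq_zero_of_nonunits _)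
      residue_eq_zero_of_lt X.u_tgt X.unif₂) ∅ hx hy hz hR hxyz
    (valuation_thick_levels_final B hB hqM h2 h3 hne e).symm
    (vg_notMem_nonunits B hB hqM e Hp) (ug_notMem_nonunits B hB hqM e Hp)


include Hp h2 h3 hne in
set_option maxHeartbeats 4000000 in
/-- `U_g ∉ α₂ F̄_{Mq}` (from the irreducibility of the reduction of the vertical polynomial on a
critical circle, `VertSheet.vertData_of_levels_tw`) -/
theorem Ug_notMem_range_alpha2' : Ug M q g ∉ Set.range (alpha2 M q) := by
  obtain ⟨Ψ₁, hΨR, hP, hz, hR⟩ := exists_frameData B hB hqM hne e h2 h3 Hp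
  have hαR := alpha_mem_level B hB hqM hne e Hp.hg
  have hβ'R := beta_mem_level B hB hqM hne e Hp.hg'
  have hβ''R := beta_mem_level B hB hqM hne e Hp.hg''
  have hx : heckeAlphaBar Kb M q g - (heckeBetaBar Kb M q g') ^ q ∈
      ((annulusLevels_modular_final B hB hqM hne e).level (∅ : Finset Kb)).R :=
    sub_mem hαR (pow_mem hβ'R q)
  have hy : heckeBetaBar Kb M q g'' - (heckeAlphaBar Kb M q g) ^ q ∈
      ((annulusLevels_modular_final B hB hqM hne e).level (∅ : Finset Kb)).R :=
    sub_mem hβ''R (pow_mem hαR q)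
  have hxyz := vg_mul_ug (M := M) (q := q) hqM hP
  have hthick := valuation_thick_levels_final B hB hqM h2 h3 hne e
  obtain ⟨a₀, ha1, ha2, ha₀⟩ := exists_gauge B hB hthick
  have hq0 : ((q : ℕ) : Kb) ≠ 0 := Nat.cast_ne_zero.mpr hq.out.ne_zero
  obtain ⟨β, hβ, hred⟩ := exists_isRed_inv_smul_of_levels
    (branchData_modular_final B hB hqM hne e) a₀ ha1 ∅ hx hy hz hR hq0 hxyz (Hp.hxord _)
  exact (vertData_of_levels_tw hqM (annulusLevels_modular_final B hB hqM hne e) a₀ ha1 ha2 ha₀ ∅
    Hp.nonconst hP hβ'R hαR hΨR hz hR hβ hred).2.2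

include Hp h2 h3 hne in
theorem beta2_beta_notMem_range :
    beta2 M q (heckeBetaBar Kb M q g) ∉ Set.range (alpha2 M q) := by
  rintro ⟨y, hy⟩
  refine Ug_notMem_range_alpha2' B hB hqM hne e h2 h3 Hp ⟨y - heckeAlphaBar Kb M q g, ?_⟩
  rw [map_sub, hy, Ug]

include Hp h2 h3 hne in
/-- **The minimal polynomial of `W = splitW M q g g'`** over `F̄_{Mq}` (along `α₂`) is the scaled
vertical polynomial of the Hecke polynomial `PAt M q g` at `α g`. -/
theorem minpoly_splitW :
    minpoly (Fb (M * q)) (splitW M q g g') =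
      vertScaledAt (PAt M q g) q (heckeAlphaBar Kb M q g)
        (-(heckeAlphaBar Kb M q g - heckeBetaBar Kb M q g' ^ q)) :=
  Fermat.Agent.BR3.MinpolyScaleMod.minpoly_Ug_div hqM g
    (beta2_beta_notMem_range B hB hqM hne e h2 h3 Hp)
    (neg_ne_zero.mpr (vg_ne_zero B hB hqM e Hp))

include Hp h2 h3 hne in
/-- `W` generates `F̄_{Mq²}` over `F̄_{Mq}` -/
theorem gen_splitW (z : Fb (M * q * q)) :
    ∃ p : (Fb (M * q))[X], aeval (splitW M q g g') p = z := by
  have htop : IntermediateField.adjoin (Fb (M * q)) {Ug M q g} = ⊤ :=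
    (minpoly_Ug hqM g (beta2_beta_notMem_range B hB hqM hne e h2 h3 Hp)).2
  have halg : IsAlgebraic (Fb (M * q)) (Ug M q g) :=
    (Algebra.IsIntegral.isIntegral (R := Fb (M * q)) (Ug M q g)).isAlgebraic
  have h1 : z ∈ (IntermediateField.adjoin (Fb (M * q)) {Ug M q g}).toSubalgebra := by
    rw [htop]
    exact Algebra.mem_top
  rw [IntermediateField.adjoin_simple_toSubalgebra_of_isAlgebraic halg,
    Algebra.adjoin_singleton_eq_range_aeval] at h1
  obtain ⟨p, hp⟩ := h1
  have hc0 : algebraMap (Fb (M * q)) (Fb (M * q * q))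
      (-(heckeAlphaBar Kb M q g - heckeBetaBar Kb M q g' ^ q)) ≠ 0 :=
    (_root_.map_ne_zero _).mpr (neg_ne_zero.mpr (vg_ne_zero B hB hqM e Hp))
  refine ⟨p.comp (C (-(heckeAlphaBar Kb M q g - heckeBetaBar Kb M q g' ^ q)) * X), ?_⟩
  have hp' : aeval (Ug M q g) p = z := hp
  have e : algebraMap (Fb (M * q)) (Fb (M * q * q))
      (-(heckeAlphaBar Kb M q g - heckeBetaBar Kb M q g' ^ q)) * splitW M q g g' = Ug M q g :=
    mul_div_cancel₀ _ hc0
  rw [aeval_comp, map_mul, aeval_C, aeval_X, e, hp']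


/-! ### The function field of a field of constants containing `K₀` -/

omit [IsAlgClosed (ResidueField B)] [CharP (ResidueField B) q] in
/-- the base-level model lies in the function field of every field of constants containing `K₀` -/
theorem mem_FKs_of_mem_CMod {f : Fb M} (hf : f ∈ Fermat.Agent.BR.Inst.LevelsInst.CMod M (W0 B q) (K0 q))
    {E : Subfield Kb} (hE : K0 q ≤ E) : f ∈ FKs M E :=
  FKs_mono hE ((Fermat.Agent.BR.Inst.LevelsInst.isModel_CMod M (W0 B q) (K0 q)).le_field hf)

omit [CharP (ResidueField B) q] in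
/-- the constant field of every level of main contains `K₀` -/
theorem K0_le_K'_final (S : Finset Kb) :
    K0 q ≤ ((annulusLevels_modular_final B hB hqM hne e).level S).K' := fun _ hx =>
  Fermat.Agent.BR3.SubAnnChart.KS_le_K'_modular_final B hB hqM hne e S
    (Fermat.Agent.BR.UnramCycloTower.cycloField_le_coeffField q S hx)

include Hp in
theorem splitW_mem_FKs {E : Subfield Kb} (hE : K0 q ≤ E) : splitW M q g g' ∈ FKs (M * q * q) E := by
  have hg := mem_FKs_of_mem_CMod B Hp.hg hE
  have hg' := mem_FKs_of_mem_CMod B Hp.hg' hE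
  have hα : heckeAlphaBar Kb M q g ∈ FKs (M * q) E := heckeAlpha_mem_FKs M q E hg
  have hβ : heckeBetaBar Kb M q g ∈ FKs (M * q) E := heckeBeta_mem_FKs M q E hg
  have hβ' : heckeBetaBar Kb M q g' ∈ FKs (M * q) E := heckeBeta_mem_FKs M q E hg'
  refine div_mem (sub_mem (heckeBeta_mem_FKs (M * q) q E hβ) (heckeAlpha_mem_FKs (M * q) q E hα)) ?_
  exact heckeAlpha_mem_FKs (M * q) q E (neg_mem (sub_mem hα (pow_mem hβ' q)))


/-! ### The split sheet over the outer sub-annulus, `g`-frame -/

section Outer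

attribute [local instance] NodeLevel.isLocal NodeLevel.noeth NodeLevel.intClosed

variable {T' : Set (Place Kb (Fb (M * q)))} {ι' : Type*}
variable {B hB hqM hne e}
variable {L' : AnnulusLevels B T' ι'} {idx : ι' → Finset Kb} {ρ : Kb}
  (H : OuterHyp B hB hqM hne e L' idx ρ) (hK0 : ∀ i', K0 q ≤ (L'.level i').K')

include H Hp h2 h3 in
set_option maxHeartbeats 4000000 in
/-- **The small parameter `t = q / (-v_g)^(q+1)` of the split sheet** lies in the maximal ideal of
every level of the outer sub-annulus. -/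
theorem smallTw (i' : ι') :
    ∃ h : ((q : ℕ) : Fb (M * q)) *
        ((-(heckeAlphaBar Kb M q g - heckeBetaBar Kb M q g' ^ q)) ^ (q + 1))⁻¹ ∈ (L'.level i').R,
      (⟨((q : ℕ) : Fb (M * q)) *
        ((-(heckeAlphaBar Kb M q g - heckeBetaBar Kb M q g' ^ q)) ^ (q + 1))⁻¹, h⟩ :
        (L'.level i').R) ∈ maximalIdeal (L'.level i').R := by
  have hx0 := vg_ne_zero B hB hqM e Hp
  have hc0 : -(heckeAlphaBar Kb M q g - heckeBetaBar Kb M q g' ^ q) ≠ 0 := neg_ne_zero.mpr hx0
  have huc : (annulusLevels_modular_final B hB hqM hne e).u *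
      (-(heckeAlphaBar Kb M q g - heckeBetaBar Kb M q g' ^ q))⁻¹ ∈ (L'.level i').R := by
    rw [inv_neg, mul_neg]
    exact neg_mem (H.le i' (u_mul_vg_inv_mem B hB hqM hne e h2 h3 Hp (idx i')))
  have hκ : B.valuation ((q : ℕ) : Kb) = B.valuation ρ ^ (q + 1) := by
    rw [H.gauge, valuation_thick_levels_final B hB hqM h2 h3 hne e]
  have key := small_mem_maximalIdeal_val L' H.v_eq (n := q)
    (annulusLevels_modular_final B hB hqM hne e).u_ne_zero H.rho_ne_zero i' hc0 huc
    (natCast_mem _ q) (H.rho_mem i') hκ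
  rw [map_natCast] at key
  exact key

include H hK0 Hp h2 h3 in
set_option maxHeartbeats 4000000 in
/-- **(N1-INST, `g`-frame) The hypotheses of the split sheet of `X₀(M q²) → X₀(M q)` (along `α₂`)
over the outer sub-annulus of the crossing `e`, at EVERY supersingular crossing**:
`W = splitW M q g g' = U_g / α₂(-(α g - (β g')^q)) ≡ 1`. -/
theorem sheetHypTw : SheetHyp L' (splitW M q g g') (1 : B) := by
  obtain ⟨Ψ₁, hΨR, hP, hz, hR⟩ := exists_frameData B hB hqM hne e h2 h3 Hp
  have hmono : ∀ i', ((annulusLevels_modular_final B hB hqM hne e).level (∅ : Finset Kb)).R ≤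
      (L'.level i').R := fun i' =>
    le_trans (level_mono B hB hqM hne e (Finset.empty_subset (idx i'))) (H.le i')
  exact sheetHypAt_frame L' hq.out
    (fun i' => hmono i' (beta_mem_level B hB hqM hne e Hp.hg'))
    (fun i' => hmono i' (beta_mem_level B hB hqM hne e Hp.hg''))
    (fun i' => hmono i' (alpha_mem_level B hB hqM hne e Hp.hg))
    (fun i' n => hmono i' (hΨR n))
    (vg_ne_zero B hB hqM e Hp) (smallTw h2 h3 Hp H) hP (PAt_monic g) (PAt_natDegree hqM g)
    (PAt_eval_alpha hqM g) (minpoly_splitW B hB hqM hne e h2 h3 Hp)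
    (gen_splitW B hB hqM hne e h2 h3 Hp)
    (fun i' y hy => alpha2_mem_FKs _ (H.hRK i' y hy))
    (fun i' => splitW_mem_FKs B hB hqM e Hp (hK0 i')) H.hT

/-- **The levels of the split sheet over the outer sub-annulus of the crossing `e`**
(`g`-frame). -/
def splitLevelsTw : AnnulusLevels B (coverTube B T' (splitW M q g g') (1 : B)) ι' :=
  (sheetHypTw h2 h3 Hp H hK0).levels

theorem splitLevelsTw_eq :
    splitLevelsTw h2 h3 Hp H hK0 = (sheetHypTw h2 h3 Hp H hK0).levels := rfl

@[simp] theorem splitLevelsTw_u :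
    (splitLevelsTw h2 h3 Hp H hK0).u = alpha2 M q L'.u :=
  SheetHyp.levels_u (sheetHypTw h2 h3 Hp H hK0)

@[simp] theorem splitLevelsTw_v :
    (splitLevelsTw h2 h3 Hp H hK0).v = alpha2 M q L'.v :=
  SheetHyp.levels_v (sheetHypTw h2 h3 Hp H hK0)

@[simp] theorem splitLevelsTw_ε₀ :
    (splitLevelsTw h2 h3 Hp H hK0).ε₀ = alpha2 M q L'.ε₀ :=
  SheetHyp.levels_ε₀ (sheetHypTw h2 h3 Hp H hK0)

@[simp] theorem splitLevelsTw_thick :
    (splitLevelsTw h2 h3 Hp H hK0).thick = L'.thick :=
  SheetHyp.levels_thick (sheetHypTw h2 h3 Hp H hK0)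

theorem splitLevelsTw_R (i' : ι') :
    ((splitLevelsTw h2 h3 Hp H hK0).level i').R = (sheetHypTw h2 h3 Hp H hK0).ring i' :=
  SheetHyp.levels_R (sheetHypTw h2 h3 Hp H hK0) i'


end Outer

/-! ### The instance: helper5's levels of the outer half -/

section Inst

open Fermat.Agent.BR3.SubAnnChart

variable {ρ : Kb}
  (h1 : B.valuation (annulusLevels_modular_final B hB hqM hne e).thick < B.valuation ρ)
  (h2' : B.valuation ρ < 1)

omit [CharP (ResidueField B) q] in
/-- `hK0` for helper5's `SubAnnChart.outerLevels` (with `SplitModular.outerHyp_outerLevels`) -/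
theorem hK0_outerLevels
    (i' : {S : Finset Kb // ρ ∈ ((annulusLevels_modular_final B hB hqM hne e).level S).K'}) :
    K0 q ≤ ((outerLevels B hB hqM hne e h1 h2').level i').K' :=
  K0_le_K'_final B hB hqM hne e i'.1

end Inst

end Final

end Fermat.Agent.BR3.SplitModularTw
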