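/-
Program C (S36), node (I7-SEP), second file (helper12): separation of the nodes and components of
the one-level refinement `S'ref = SRef.sref I a₀ hadm`, and the pull-back of the separation inputs
along a cover `φ : F' →ₐ[K] F''` through a dictionary "node of `S''` ↦ node of the base setup",
"component of `S''` ↦ component of the base setup".

* `val_outer`, `val_inner` : the values of the annulus coordinate on the tubes of `outer e`,
  `inner e`;
* `separated_sref` : `∀ n n', n ≠ n' → Separated (sref I a₀ hadm) n n'` (the field `sep` of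
  `CircleInputsN` for `S'ref`);
* `sepComp_sref` : `∀ n w, w ≠ src n → w ≠ tgt n → SepComp (sref I a₀ hadm) n w` (the field
  `sep_comp` of `AnnulusChartN` for `S'ref`);
* `CoverDictN S₁ S₂ φ hφ` : the (partial) dictionary of a cover (`underNode`, `underComp`,
  `tube_under`, `O_under`); `CoverDictN.separated`, `CoverDictN.sepComp` : pull-back along `φ`
  from ANY base setup `S₁` of `F'` to a setup `S₂` of `F''`; `NodesApart`, `CompApart`;
* `separated_of_two_covers`, `sepComp_of_two_covers` : the case analysis with two covers `a`, `b`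
  and a direct input for the pairs which neither cover separates (the two Kummer branches);
  `separated_of_two_srefs`, `sepComp_of_two_srefs` : the same over `S'ref_a`, `S'ref_b`.
-/
import Mathlib
import Fermat.Agent.BR3.SepN
import Fermat.Agent.BR3.SRef.OneLevel

set_option autoImplicit false
set_option linter.unusedSectionVars false

namespace Fermat.Agent.BR3.SepNCover

open AlgebraicCurve IsLocalRing Fermat.Agent.Red Fermat.Agent.BR.SS Fermat.Agent.BR.Refine
  Fermat.Agent.BR.Circle Fermat.Agent.BR3.CircleN Fermat.Agent.BR3.SRef Fermat.Agent.BR3.SepN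

section SRef

variable {K : Type} {F : Type*} [Field K] [Field F] [Algebra K F]
  {A : ValuationSubring K} [IsAlgClosed (ResidueField A)]
  {ι₀ : Type} {Ft₀ : ι₀ → Type} [∀ v, Field (Ft₀ v)] [∀ v, Algebra (ResidueField A) (Ft₀ v)]
  {ν₀ : Type}
  {S₀ : SemistableSetup (F := F) A (residue A) ι₀ Ft₀ ν₀}
  (I : CircleInputsN S₀) (a₀ : ν₀ → K) (hadm : ∀ e, I.adm e (a₀ e))

/-- The values of the annulus coordinate on the tube of the outer node. -/
theorem val_outer (e : ν₀) :
    ∀ P ∈ tube (sref I a₀ hadm) (outer I a₀ hadm e),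
      ∃ c : K, IsValueAt P (I.ch e).u c ∧ A.valuation (a₀ e) < A.valuation c := by
  intro P hP
  rw [tube_outer] at hP
  obtain ⟨c, hc, -, -⟩ := (I.ch e).val_mem P hP.1
  refine ⟨c, hc, ?_⟩
  rw [← evalAt_eq_of_isValueAt hc]
  exact hP.2

/-- The values of the annulus coordinate on the tube of the inner node. -/
theorem val_inner (e : ν₀) :
    ∀ P ∈ tube (sref I a₀ hadm) (inner I a₀ hadm e),
      ∃ c : K, IsValueAt P (I.ch e).u c ∧ A.valuation c < A.valuation (a₀ e) := by
  intro P hP
  rw [tube_inner] at hP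
  obtain ⟨c, hc, -, -⟩ := (I.ch e).val_mem P hP.1
  refine ⟨c, hc, ?_⟩
  rw [← evalAt_eq_of_isValueAt hc]
  exact hP.2

include hadm in
theorem a₀_ne_zero (e : ν₀) : a₀ e ≠ 0 := by
  intro h0
  have h1 := (hadm e).1
  rw [h0, map_zero] at h1
  exact not_lt_zero h1

/-- The base node of a node of `S'ref`. -/
def baseNode : ν₀ ⊕ (oneLevel I a₀ hadm).X → ν₀
  | Sum.inl e => e
  | Sum.inr x => x.1

@[simp] theorem baseNode_outer (e : ν₀) : baseNode I a₀ hadm (outer I a₀ hadm e) = e := rfl

@[simp] theorem baseNode_inner (e : ν₀) : baseNode I a₀ hadm (inner I a₀ hadm e) = e := rfl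

/-- The tube of a node of `S'ref` lies in the tube of its base node. -/
theorem tube_subset_baseNode (n : ν₀ ⊕ (oneLevel I a₀ hadm).X) :
    tube (sref I a₀ hadm) n ⊆ tube S₀ (baseNode I a₀ hadm n) := by
  rcases node_cases I a₀ hadm n with ⟨e, rfl⟩ | ⟨e, rfl⟩
  · exact tube_outer_subset I a₀ hadm e
  · exact tube_inner_subset I a₀ hadm e

/-- **The nodes of `S'ref` are separated**: the field `sep` of `CircleInputsN` for `S'ref`. -/
theorem separated_sref (n n' : ν₀ ⊕ (oneLevel I a₀ hadm).X) (hne : n ≠ n') :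
    Separated (sref I a₀ hadm) n n' := by
  by_cases hb : baseNode I a₀ hadm n = baseNode I a₀ hadm n'
  · -- the two nodes over the same node of `S₀`
    rcases node_cases I a₀ hadm n with ⟨e, rfl⟩ | ⟨e, rfl⟩ <;>
      rcases node_cases I a₀ hadm n' with ⟨e', rfl⟩ | ⟨e', rfl⟩
    · simp only [baseNode_outer] at hb
      exact absurd (hb ▸ rfl) hne
    · simp only [baseNode_outer, baseNode_inner] at hb
      subst hb
      exact sepSets_outer_inner (I.ch e).u (a₀ e) (a₀_ne_zero I a₀ hadm e)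
        (val_outer I a₀ hadm e) (val_inner I a₀ hadm e)
    · simp only [baseNode_outer, baseNode_inner] at hb
      subst hb
      exact sepSets_inner_outer (I.ch e).u (a₀ e) (a₀_ne_zero I a₀ hadm e)
        (val_inner I a₀ hadm e) (val_outer I a₀ hadm e)
    · simp only [baseNode_inner] at hb
      exact absurd (hb ▸ rfl) hne
  · exact SepSets.mono (I.sep _ _ hb) (tube_subset_baseNode I a₀ hadm n)
      (tube_subset_baseNode I a₀ hadm n')

/-- Non-units of `A` are non-units of every component. -/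
theorem algebraMap_mem_nonunits (v : ι₀) {c : K} (hc : c ∈ A.nonunits) :
    algebraMap K F c ∈ (S₀.O v).nonunits := by
  rw [ValuationSubring.mem_nonunits_iff_or] at hc ⊢
  rcases hc with h | h
  · exact Or.inl (by rw [h, map_zero])
  · right
    intro hinv
    apply h
    rw [← map_inv₀] at hinv
    exact (S₀.algebraMap_mem_iff v _).mp hinv

include hadm in
/-- `u / a₀` is a non-unit of the component `tgt e`. -/
theorem u_div_mem_nonunits_tgt (e : ν₀) :
    (I.ch e).u * (algebraMap K F (a₀ e))⁻¹ ∈ (S₀.O (S₀.tgt e)).nonunits := by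
  have ha0 := a₀_ne_zero I a₀ hadm e
  have hu0 : (I.ch e).u ≠ 0 := (I.ch e).u_ne_zero (a₀ e) (hadm e).1 (hadm e).2
  have hth : (I.ch e).thick ≠ 0 := (I.ch e).thick_ne
  -- `thick / a₀` is a non-unit of `A`
  have h1 : (I.ch e).thick * (a₀ e)⁻¹ ∈ A.nonunits := by
    rw [A.mem_nonunits_iff, map_mul, map_inv₀, ← div_eq_mul_inv]
    have hpos : 0 < A.valuation (a₀ e) :=
      lt_of_le_of_ne zero_le ((Valuation.ne_zero_iff _).mpr ha0).symm
    exact (div_lt_one₀ hpos).mpr (hadm e).1
  have h2 := algebraMap_mem_nonunits (S₀ := S₀) (S₀.tgt e) h1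
  -- `(thick / u)⁻¹` is integral on `tgt e`
  obtain ⟨w, hw⟩ := (I.ch e).isUnit_v_tgt.exists_right_inv
  have hw' : (I.ch e).thick • (I.ch e).u⁻¹ * (w : F) = 1 := congrArg Subtype.val hw
  have h3 : (I.ch e).u * (algebraMap K F (a₀ e))⁻¹ =
      (w : F) * algebraMap K F ((I.ch e).thick * (a₀ e)⁻¹) := by
    have hthF : algebraMap K F (I.ch e).thick ≠ 0 := (map_ne_zero _).mpr hth
    have haF : algebraMap K F (a₀ e) ≠ 0 := (map_ne_zero _).mpr ha0
    have hw2 : (w : F) = (I.ch e).u * (algebraMap K F (I.ch e).thick)⁻¹ := by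
      rw [Algebra.smul_def] at hw'
      field_simp at hw' ⊢
      linear_combination hw'
    rw [hw2, map_mul, map_inv₀]
    field_simp
  rw [h3, (S₀.O (S₀.tgt e)).mem_nonunits_iff, map_mul]
  have hw1 : (S₀.O (S₀.tgt e)).valuation (w : F) ≤ 1 :=
    ((S₀.O (S₀.tgt e)).valuation_le_one_iff _).mpr w.2
  have hm1 := ((S₀.O (S₀.tgt e)).mem_nonunits_iff).mp h2
  calc (S₀.O (S₀.tgt e)).valuation (w : F) *
        (S₀.O (S₀.tgt e)).valuation (algebraMap K F ((I.ch e).thick * (a₀ e)⁻¹))
      ≤ 1 * (S₀.O (S₀.tgt e)).valuation (algebraMap K F ((I.ch e).thick * (a₀ e)⁻¹)) :=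
        mul_le_mul_left hw1 _
    _ < 1 := by rw [one_mul]; exact hm1

include hadm in
/-- `a₀ / u` is a non-unit of the component `src e`. -/
theorem div_u_mem_nonunits_src (e : ν₀) :
    algebraMap K F (a₀ e) * (I.ch e).u⁻¹ ∈ (S₀.O (S₀.src e)).nonunits := by
  have h1 : a₀ e ∈ A.nonunits := (A.mem_nonunits_iff).mpr (hadm e).2
  have h2 := algebraMap_mem_nonunits (S₀ := S₀) (S₀.src e) h1
  have hm1 := ((S₀.O (S₀.src e)).mem_nonunits_iff).mp h2
  have hw1 : (S₀.O (S₀.src e)).valuation (I.ch e).u⁻¹ ≤ 1 :=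
    ((S₀.O (S₀.src e)).valuation_le_one_iff _).mpr (I.ch e).u_inv_mem_src
  rw [(S₀.O (S₀.src e)).mem_nonunits_iff, map_mul, mul_comm]
  calc (S₀.O (S₀.src e)).valuation (I.ch e).u⁻¹ *
        (S₀.O (S₀.src e)).valuation (algebraMap K F (a₀ e))
      ≤ 1 * (S₀.O (S₀.src e)).valuation (algebraMap K F (a₀ e)) := mul_le_mul_left hw1 _
    _ < 1 := by rw [one_mul]; exact hm1

/-- The tube of a node of `S₀` is separated from the exceptional components of the other nodes. -/
theorem sepSetVal_exc {e e' : ν₀} (hne : e ≠ e') :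
    SepSetVal A (tube S₀ e) ((sref I a₀ hadm).O (exc I a₀ hadm e')) := by
  rw [sref_O_exc]
  exact SepSets.sepSetVal_circle (I.sep e e' hne) (I.ch e').toCore (a₀ e') (hadm e').1 (hadm e').2

/-- **The components of `S'ref` which do not pass through a node are separated from its tube**: the
field `sep_comp` of `AnnulusChartN` for `S'ref`. -/
theorem sepComp_sref (n : ν₀ ⊕ (oneLevel I a₀ hadm).X) (w : ι₀ ⊕ (oneLevel I a₀ hadm).X)
    (h1 : w ≠ (sref I a₀ hadm).src n) (h2 : w ≠ (sref I a₀ hadm).tgt n) :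
    SepComp (sref I a₀ hadm) n w := by
  rw [sepComp_iff_sepSetVal]
  rcases node_cases I a₀ hadm n with ⟨e, rfl⟩ | ⟨e, rfl⟩
  · -- the outer node: `src = old (src e)`, `tgt = exc e`
    rw [sref_src_outer] at h1
    rw [sref_tgt_outer] at h2
    rcases comp_cases I a₀ hadm w with ⟨v, rfl⟩ | ⟨e', rfl⟩
    · have hv1 : v ≠ S₀.src e := fun h => h1 (h ▸ rfl)
      rw [sref_O_old]
      by_cases hv2 : v = S₀.tgt e
      · subst hv2
        exact sepSetVal_outer (I.ch e).u (a₀ e) (a₀_ne_zero I a₀ hadm e) (val_outer I a₀ hadm e)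
          (u_div_mem_nonunits_tgt I a₀ hadm e)
      · exact SepSetVal.mono ((sepComp_iff_sepSetVal S₀ e v).mp ((I.ch e).sep_comp v hv1 hv2))
          (tube_outer_subset I a₀ hadm e)
    · have hne : e ≠ e' := fun h => h2 (h ▸ rfl)
      exact SepSetVal.mono (sepSetVal_exc I a₀ hadm hne) (tube_outer_subset I a₀ hadm e)
  · -- the inner node: `src = exc e`, `tgt = old (tgt e)`
    rw [sref_src_inner] at h1
    rw [sref_tgt_inner] at h2
    rcases comp_cases I a₀ hadm w with ⟨v, rfl⟩ | ⟨e', rfl⟩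
    · have hv2 : v ≠ S₀.tgt e := fun h => h2 (h ▸ rfl)
      rw [sref_O_old]
      by_cases hv1 : v = S₀.src e
      · subst hv1
        exact sepSetVal_inner (I.ch e).u (a₀ e) (a₀_ne_zero I a₀ hadm e) (val_inner I a₀ hadm e)
          ((I.ch e).u_ne_zero (a₀ e) (hadm e).1 (hadm e).2) (div_u_mem_nonunits_src I a₀ hadm e)
      · exact SepSetVal.mono ((sepComp_iff_sepSetVal S₀ e v).mp ((I.ch e).sep_comp v hv1 hv2))
          (tube_inner_subset I a₀ hadm e)
    · have hne : e ≠ e' := fun h => h1 (h ▸ rfl)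
      exact SepSetVal.mono (sepSetVal_exc I a₀ hadm hne) (tube_inner_subset I a₀ hadm e)

end SRef

/-! ### pull-back along a cover through a dictionary -/

section Under

variable {K : Type} {F' F'' : Type*} [Field K] [Field F'] [Field F''] [Algebra K F']
  [Algebra K F''] {A : ValuationSubring K}
  {ι₁ : Type} {Ft₁ : ι₁ → Type} [∀ v, Field (Ft₁ v)] [∀ v, Algebra (ResidueField A) (Ft₁ v)]
  {ν₁ : Type}
  {ι₂ : Type} {Ft₂ : ι₂ → Type} [∀ v, Field (Ft₂ v)] [∀ v, Algebra (ResidueField A) (Ft₂ v)]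
  {ν₂ : Type}

/-- **The (partial) dictionary of a cover** `φ : F' →ₐ[K] F''` between a setup `S₁` of `F'` (e.g.
`S'ref`) and a setup `S₂` of `F''`: the nodes of `S₂` for which `underNode` is defined lie over
nodes of `S₁` (tubes), the components of `S₂` for which `underComp` is defined lie over components
of `S₁` (valuation rings). Only the entries needed for the separation have to be filled. -/
structure CoverDictN (S₁ : SemistableSetup (F := F') A (residue A) ι₁ Ft₁ ν₁)
    (S₂ : SemistableSetup (F := F'') A (residue A) ι₂ Ft₂ ν₂)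
    (φ : F' →ₐ[K] F'') (hφ : φ.toRingHom.IsIntegral) where
  /-- the node under a node -/
  underNode : ν₂ → Option ν₁
  /-- the component under a component -/
  underComp : ι₂ → Option ι₁
  tube_under : ∀ n m, underNode n = some m →
    ∀ P ∈ tube S₂ n, P.restrictAlong φ hφ ∈ tube S₁ m
  O_under : ∀ w v, underComp w = some v → ∀ y ∈ S₁.O v, φ y ∈ S₂.O w

namespace CoverDictN

variable {S₁ : SemistableSetup (F := F') A (residue A) ι₁ Ft₁ ν₁}
  {S₂ : SemistableSetup (F := F'') A (residue A) ι₂ Ft₂ ν₂}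
  {φ : F' →ₐ[K] F''} {hφ : φ.toRingHom.IsIntegral} (D : CoverDictN S₁ S₂ φ hφ)

/-- The two nodes lie over different nodes of the base. -/
def NodesApart (n n' : ν₂) : Prop :=
  ∃ m m', D.underNode n = some m ∧ D.underNode n' = some m' ∧ m ≠ m'

/-- The component `w` lies over a component of the base which does not pass through the node under
`n`. -/
def CompApart (n : ν₂) (w : ι₂) : Prop :=
  ∃ m v, D.underNode n = some m ∧ D.underComp w = some v ∧ v ≠ S₁.src m ∧ v ≠ S₁.tgt m

/-- Nodes over separated nodes are separated. -/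
theorem separated {n n' : ν₂} {m m' : ν₁} (hm : D.underNode n = some m)
    (hm' : D.underNode n' = some m') (h : Separated S₁ m m') : Separated S₂ n n' :=
  SepSets.restrictAlong φ hφ h (D.tube_under n m hm) (D.tube_under n' m' hm')

/-- A node over a node separated from the component under `w` is separated from `w`. -/
theorem sepComp {n : ν₂} {w : ι₂} {m : ν₁} {v : ι₁} (hm : D.underNode n = some m)
    (hv : D.underComp w = some v) (h : SepComp S₁ m v) : SepComp S₂ n w :=
  SepSetVal.restrictAlong φ hφ h (D.tube_under n m hm) (D.O_under w v hv)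

theorem separated_of_nodesApart (hsep : ∀ m m', m ≠ m' → Separated S₁ m m') {n n' : ν₂}
    (h : D.NodesApart n n') : Separated S₂ n n' := by
  obtain ⟨m, m', hm, hm', hne⟩ := h
  exact D.separated hm hm' (hsep m m' hne)

theorem sepComp_of_compApart (hc : ∀ m v, v ≠ S₁.src m → v ≠ S₁.tgt m → SepComp S₁ m v)
    {n : ν₂} {w : ι₂} (h : D.CompApart n w) : SepComp S₂ n w := by
  obtain ⟨m, v, hm, hv, h1, h2⟩ := h
  exact D.sepComp hm hv (hc m v h1 h2)

end CoverDictN

end Under

/-! ### two covers -/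

section TwoCovers

variable {K : Type} {Fa Fb F'' : Type*} [Field K] [Field Fa] [Field Fb] [Field F''] [Algebra K Fa]
  [Algebra K Fb] [Algebra K F''] {A : ValuationSubring K}
  {ιa : Type} {Fta : ιa → Type} [∀ v, Field (Fta v)] [∀ v, Algebra (ResidueField A) (Fta v)]
  {νa : Type}
  {ιb : Type} {Ftb : ιb → Type} [∀ v, Field (Ftb v)] [∀ v, Algebra (ResidueField A) (Ftb v)]
  {νb : Type}
  {ι₂ : Type} {Ft₂ : ι₂ → Type} [∀ v, Field (Ft₂ v)] [∀ v, Algebra (ResidueField A) (Ft₂ v)]
  {ν₂ : Type}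
  {Sa : SemistableSetup (F := Fa) A (residue A) ιa Fta νa}
  {Sb : SemistableSetup (F := Fb) A (residue A) ιb Ftb νb}
  {S₂ : SemistableSetup (F := F'') A (residue A) ι₂ Ft₂ ν₂}
  {a : Fa →ₐ[K] F''} {ha : a.toRingHom.IsIntegral} {b : Fb →ₐ[K] F''}
  {hb : b.toRingHom.IsIntegral}

/-- **`sep` for a setup with two covers**: two different nodes lie over different nodes along `a`,
or along `b`, or are separated directly. -/
theorem separated_of_two_covers (Da : CoverDictN Sa S₂ a ha) (Db : CoverDictN Sb S₂ b hb)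
    (hsepa : ∀ m m', m ≠ m' → Separated Sa m m') (hsepb : ∀ m m', m ≠ m' → Separated Sb m m')
    (hdirect : ∀ n n', n ≠ n' → ¬ Da.NodesApart n n' → ¬ Db.NodesApart n n' → Separated S₂ n n')
    (n n' : ν₂) (hne : n ≠ n') : Separated S₂ n n' := by
  by_cases h1 : Da.NodesApart n n'
  · exact Da.separated_of_nodesApart hsepa h1
  · by_cases h2 : Db.NodesApart n n'
    · exact Db.separated_of_nodesApart hsepb h2
    · exact hdirect n n' hne h1 h2

/-- **`sep_comp` for a setup with two covers**: a component not through the node `n` lies, along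
`a` or along `b`, over a component not through the node under `n`, or is separated directly. -/
theorem sepComp_of_two_covers (Da : CoverDictN Sa S₂ a ha) (Db : CoverDictN Sb S₂ b hb)
    (hca : ∀ m v, v ≠ Sa.src m → v ≠ Sa.tgt m → SepComp Sa m v)
    (hcb : ∀ m v, v ≠ Sb.src m → v ≠ Sb.tgt m → SepComp Sb m v)
    (hdirect : ∀ n w, w ≠ S₂.src n → w ≠ S₂.tgt n → ¬ Da.CompApart n w → ¬ Db.CompApart n w →
      SepComp S₂ n w)
    (n : ν₂) (w : ι₂) (h1 : w ≠ S₂.src n) (h2 : w ≠ S₂.tgt n) : SepComp S₂ n w := by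
  by_cases hA : Da.CompApart n w
  · exact Da.sepComp_of_compApart hca hA
  · by_cases hB : Db.CompApart n w
    · exact Db.sepComp_of_compApart hcb hB
    · exact hdirect n w h1 h2 hA hB

end TwoCovers

/-! ### two covers of one-level refinements -/

section TwoSRef

variable {K : Type} {Fa Fb F'' : Type*} [Field K] [Field Fa] [Field Fb] [Field F''] [Algebra K Fa]
  [Algebra K Fb] [Algebra K F''] {A : ValuationSubring K} [IsAlgClosed (ResidueField A)]
  {ιa : Type} {Fta : ιa → Type} [∀ v, Field (Fta v)] [∀ v, Algebra (ResidueField A) (Fta v)]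
  {νa : Type}
  {ιb : Type} {Ftb : ιb → Type} [∀ v, Field (Ftb v)] [∀ v, Algebra (ResidueField A) (Ftb v)]
  {νb : Type}
  {ι₂ : Type} {Ft₂ : ι₂ → Type} [∀ v, Field (Ft₂ v)] [∀ v, Algebra (ResidueField A) (Ft₂ v)]
  {ν₂ : Type}
  {Sa : SemistableSetup (F := Fa) A (residue A) ιa Fta νa}
  {Sb : SemistableSetup (F := Fb) A (residue A) ιb Ftb νb}
  {S₂ : SemistableSetup (F := F'') A (residue A) ι₂ Ft₂ ν₂}
  {a : Fa →ₐ[K] F''} {ha : a.toRingHom.IsIntegral} {b : Fb →ₐ[K] F''}
  {hb : b.toRingHom.IsIntegral}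
  (Ia : CircleInputsN Sa) (a₀ : νa → K) (hadma : ∀ e, Ia.adm e (a₀ e))
  (Ib : CircleInputsN Sb) (b₀ : νb → K) (hadmb : ∀ e, Ib.adm e (b₀ e))

/-- **`sep` of `S''`** from the dictionaries over `S'ref_a` (along `a`) and `S'ref_b` (along `b`). -/
theorem separated_of_two_srefs (Da : CoverDictN (sref Ia a₀ hadma) S₂ a ha)
    (Db : CoverDictN (sref Ib b₀ hadmb) S₂ b hb)
    (hdirect : ∀ n n', n ≠ n' → ¬ Da.NodesApart n n' → ¬ Db.NodesApart n n' → Separated S₂ n n')
    (n n' : ν₂) (hne : n ≠ n') : Separated S₂ n n' :=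
  separated_of_two_covers Da Db (separated_sref Ia a₀ hadma) (separated_sref Ib b₀ hadmb)
    hdirect n n' hne

/-- **`sep_comp` of `S''`** from the dictionaries over `S'ref_a` and `S'ref_b`. -/
theorem sepComp_of_two_srefs (Da : CoverDictN (sref Ia a₀ hadma) S₂ a ha)
    (Db : CoverDictN (sref Ib b₀ hadmb) S₂ b hb)
    (hdirect : ∀ n w, w ≠ S₂.src n → w ≠ S₂.tgt n → ¬ Da.CompApart n w → ¬ Db.CompApart n w →
      SepComp S₂ n w)
    (n : ν₂) (w : ι₂) (h1 : w ≠ S₂.src n) (h2 : w ≠ S₂.tgt n) : SepComp S₂ n w :=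
  sepComp_of_two_covers Da Db (sepComp_sref Ia a₀ hadma) (sepComp_sref Ib b₀ hadmb)
    hdirect n w h1 h2

end TwoSRef

end Fermat.Agent.BR3.SepNCover
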