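import Mathlib
import Fermat.Agent.BR3.SplitModularTw
import Fermat.Agent.BR3.SubAnnChart.ModularRef

/-!
# Program C (S36), node (N1-INST), part 5 (helper19): the levels of the outer node of `S'ref` satisfy
`SplitModular.OuterHyp`

`Dt := modularData_final B hB hqM` (main's data of `S'`), `a₀` a family of gauges with
`hadm : ∀ e, (inputs Dt).adm e (a₀ e)`, `hg : |a₀ e|^(q+1) = |thick e|` (critical along `a`).
helper5's levels of the outer node of `S'ref = srefM Dt a₀ hadm` at the crossing `e`
(`SubAnnChart.levelsM B hB hqM a₀ hadm (outer … e)` = helper16's `outerLevelsRef`) satisfy the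
hypotheses `OuterHyp` of the split sheet, with the index map `Subtype.val`:

* `outerHyp_outerLevelsRef`, `hK0_outerLevelsRef`;
* `outerRef_u/_v/_thick` (`rfl`), `levelsM_outer` (helper5's `levelsM … (outer e)` IS `outerRef`),
  `hg_of_isGaugeA`;
* `sheetHyp_outerRef`, `splitLevelsOuterRef` : the split sheet `nT e` over the outer node of
  `S'ref_a`, at every supersingular crossing, for a twisted triple; `splitLevelsOuterRef_thick`
  (`= a₀ e`: the field `hT` of the integrator), `_u`, `_v`.
-/

set_option autoImplicit false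
set_option linter.unusedSectionVars false
set_option linter.style.haveILetI false
set_option synthInstance.maxHeartbeats 400000
set_option maxHeartbeats 4000000

noncomputable section

/- S36 build-time patch: file-local shortcut instances. They only shorten instance search;
each is the instance that the search finds anyway (reducible, same terms after unfolding). -/
local instance (priority := 100000) Fermat.Agent.BR3.FastInst.instAlgFullC_SplitModularRef
    {k : Type*} [Field k] (N : ℕ) :
    Algebra k ↥(ModularCurve.modularFunctionFieldFullC k N) := inferInstance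
local instance (priority := 100000) Fermat.Agent.BR3.FastInst.instFieldFullC_SplitModularRef
    {k : Type*} [Field k] (N : ℕ) :
    Field ↥(ModularCurve.modularFunctionFieldFullC k N) := inferInstance
local instance (priority := 100000) Fermat.Agent.BR3.FastInst.instAlgLaurent_SplitModularRef
    {k : Type*} [Field k] : Algebra k (LaurentSeries k) := inferInstance


namespace Fermat.Agent.BR3.SplitModularRef

open ModularCurve AlgebraicCurve IsLocalRing
open Fermat.Agent.X0 Fermat.Agent.Val Fermat.Agent.Red
open Fermat.Agent.BR.Centre Fermat.Agent.BR.SS Fermat.Agent.BR.Refine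
open Fermat.Agent.BR.S0 Fermat.Agent.BR.S0.RedModular Fermat.Agent.BR.S0.PointDict
open Fermat.Agent.BR.Inst.AnnulusInstFinal Fermat.Agent.BR.Inst.FKCover Fermat.Agent.BR.Final
open Fermat.Agent.BR2.SetupOfData Fermat.Agent.BR3.CircleN Fermat.Agent.BR3.SRef
open Fermat.Agent.BR3.SRef.Modular Fermat.Agent.BR3.SubAnnPlaces Fermat.Agent.BR3.SubAnnChart
open Fermat.Agent.BR3.SplitModular Fermat.Agent.BR3.SplitModularTw
open Fermat.Agent.BR3.SplitLevels Fermat.Agent.BR3.SplitLevel Fermat.Agent.BR3.FibreProd
open Fermat.Agent.BR.S0.ThickFinal Fermat.Agent.BR3.SSParam Fermat.Agent.BR3.SplitCompsCInf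
open Fermat.Agent.BR3.CoverSmooth

variable {M q : ℕ} [NeZero M] [hq : Fact q.Prime]
variable (B : ValuationSubring Kb) (hB : B.LiesOverPrime q) (hqM : ¬ q ∣ M)
variable [IsAlgClosed (ResidueField B)]

local notation "kB" => ResidueField B

/-- (shortcut instance) -/
local instance (priority := 100000) instAlgebraFtMShortcutSplitRef :
    Algebra kB (modularFunctionFieldFullC kB M) :=
  inferInstance

variable (a₀ : Crossing (chartDataModular B hB hqM) → Kb)
  (hadm : ∀ e, (inputs (DtF B hB hqM)).adm e (a₀ e))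
  (e : Crossing (chartDataModular B hB hqM))
  (hg : B.valuation (a₀ e) ^ (q + 1) =
    B.valuation (annulusLevels_modular_final B hB hqM (nonempty_crossing (DtF B hB hqM)) e).thick)

/-- the levels of the outer node of `S'ref` at the crossing `e` (helper5 / helper16) -/
abbrev outerRef :=
  outerLevelsRef (inputs (DtF B hB hqM)) a₀ hadm e (LD (DtF B hB hqM) e) rfl rfl
    (hT_F B hB hqM e)
    (hPL_outer (inputs (DtF B hB hqM)) a₀ hadm (LD (DtF B hB hqM)) (fun _ => rfl)
      (hRK_F B hB hqM) e)

include hg in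
/-- **The levels of the outer node of `S'ref` satisfy `OuterHyp`.** -/
theorem outerHyp_outerLevelsRef :
    OuterHyp B hB hqM (nonempty_crossing (DtF B hB hqM)) e (outerRef B hB hqM a₀ hadm e)
      Subtype.val (a₀ e) where
  le i' := (subHyp (LD (DtF B hB hqM) e)
    (gauge_h1 (inputs (DtF B hB hqM)) a₀ hadm e (LD (DtF B hB hqM) e) rfl)
    (gauge_h2 (inputs (DtF B hB hqM)) a₀ hadm e) i'.1 i'.2).le_subRing
  u_eq := rfl
  v_eq := rfl
  rho_mem i' := i'.2
  gauge := hg
  hT i' P hP := by
    rw [tube_outer_eq (inputs (DtF B hB hqM)) a₀ hadm e (LD (DtF B hB hqM) e) rfl]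
    exact (subHyp (LD (DtF B hB hqM) e)
      (gauge_h1 (inputs (DtF B hB hqM)) a₀ hadm e (LD (DtF B hB hqM) e) rfl)
      (gauge_h2 (inputs (DtF B hB hqM)) a₀ hadm e) i'.1 i'.2).mem_subTube_of_centredAt
      (hT_F B hB hqM e i'.1) hP
  hRK i' := (subHyp (LD (DtF B hB hqM) e)
    (gauge_h1 (inputs (DtF B hB hqM)) a₀ hadm e (LD (DtF B hB hqM) e) rfl)
    (gauge_h2 (inputs (DtF B hB hqM)) a₀ hadm e) i'.1 i'.2).subRing_le_of_le
      (FKs (M * q) ((LD (DtF B hB hqM) e).level i'.1).K') (hRK_F B hB hqM e i'.1)
      (Subfield.subset_closure (Or.inl ⟨a₀ e, i'.2, rfl⟩))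


/-- `hK0` for the levels of the outer node of `S'ref` -/
theorem hK0_outerLevelsRef
    (i' : {i : (DtF B hB hqM).ι e // a₀ e ∈ ((LD (DtF B hB hqM) e).level i).K'}) :
    K0 q ≤ ((outerRef B hB hqM a₀ hadm e).level i').K' :=
  K0_le_K'_final B hB hqM (nonempty_crossing (DtF B hB hqM)) e i'.1

@[simp] theorem outerRef_u : (outerRef B hB hqM a₀ hadm e).u =
    (annulusLevels_modular_final B hB hqM (nonempty_crossing (DtF B hB hqM)) e).u := rfl

@[simp] theorem outerRef_v : (outerRef B hB hqM a₀ hadm e).v =
    a₀ e • (annulusLevels_modular_final B hB hqM (nonempty_crossing (DtF B hB hqM)) e).u⁻¹ := rfl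

@[simp] theorem outerRef_thick : (outerRef B hB hqM a₀ hadm e).thick = a₀ e := rfl

/-- helper5's `levelsM` at the outer node is `outerRef` -/
theorem levelsM_outer :
    levelsM B hB hqM a₀ hadm (outer (inputs (DtF B hB hqM)) a₀ hadm e) =
      outerRef B hB hqM a₀ hadm e := rfl

/-- the hypothesis `hg` from a critical gauge along `a` (`SRef.Modular.IsGaugeA`; then
`hadm := h.adm`) -/
theorem hg_of_isGaugeA (h : IsGaugeA (DtF B hB hqM) a₀) :
    B.valuation (a₀ e) ^ (q + 1) =
      B.valuation (annulusLevels_modular_final B hB hqM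
        (nonempty_crossing (DtF B hB hqM)) e).thick := h e

/-! ### The split sheet `nT e` over the outer node of `S'ref`, `g`-frame -/

section Sheet

variable [CharP (ResidueField B) q] (h2 : nuTwo M = 0) (h3 : nuThree M = 0) {g g' g'' : Fb M}
  (Hp : IsSSParam B hB hqM e g g' g'')

/-- the cover along `α₂` -/
local instance instAlgAlpha2Ref : Algebra (Fb (M * q)) (Fb (M * q * q)) :=
  algebraAlong (alpha2 M q)

local instance instTowerAlpha2Ref : IsScalarTower Kb (Fb (M * q)) (Fb (M * q * q)) :=
  isScalarTower_along (alpha2 M q)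

local instance instFiniteAlpha2Ref : Module.Finite (Fb (M * q)) (Fb (M * q * q)) :=
  Fermat.Agent.Hecke.finiteAlong_heckeAlphaBar (M * q) q

include hg h2 h3 Hp in
/-- **The hypotheses of the split sheet `nT e` over the outer node of `S'ref`** (every
supersingular crossing, `g`-frame). -/
theorem sheetHyp_outerRef :
    SheetHyp (outerRef B hB hqM a₀ hadm e) (splitW M q g g') (1 : B) :=
  sheetHypTw h2 h3 Hp (outerHyp_outerLevelsRef B hB hqM a₀ hadm e hg)
    (hK0_outerLevelsRef B hB hqM a₀ hadm e)

/-- **The levels of the split sheet `nT e`** on the tube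
`coverTube B (tube S'ref (outer e)) (splitW M q g g') 1`. -/
def splitLevelsOuterRef :
    AnnulusLevels B (coverTube B (tube (sref (inputs (DtF B hB hqM)) a₀ hadm)
      (outer (inputs (DtF B hB hqM)) a₀ hadm e)) (splitW M q g g') (1 : B))
      {i : (DtF B hB hqM).ι e // a₀ e ∈ ((LD (DtF B hB hqM) e).level i).K'} :=
  (sheetHyp_outerRef B hB hqM a₀ hadm e hg h2 h3 Hp).levels

theorem splitLevelsOuterRef_eq :
    splitLevelsOuterRef B hB hqM a₀ hadm e hg h2 h3 Hp =
      (sheetHyp_outerRef B hB hqM a₀ hadm e hg h2 h3 Hp).levels := rfl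

/-- the thickness of the split sheet `nT e` is the gauge (the field `hT` of the integrator) -/
theorem splitLevelsOuterRef_thick :
    (splitLevelsOuterRef B hB hqM a₀ hadm e hg h2 h3 Hp).thick = a₀ e :=
  SheetHyp.levels_thick (sheetHyp_outerRef B hB hqM a₀ hadm e hg h2 h3 Hp)

theorem splitLevelsOuterRef_u :
    (splitLevelsOuterRef B hB hqM a₀ hadm e hg h2 h3 Hp).u =
      alpha2 M q (annulusLevels_modular_final B hB hqM
        (nonempty_crossing (DtF B hB hqM)) e).u :=
  SheetHyp.levels_u (sheetHyp_outerRef B hB hqM a₀ hadm e hg h2 h3 Hp)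

theorem splitLevelsOuterRef_v :
    (splitLevelsOuterRef B hB hqM a₀ hadm e hg h2 h3 Hp).v =
      alpha2 M q (a₀ e • (annulusLevels_modular_final B hB hqM
        (nonempty_crossing (DtF B hB hqM)) e).u⁻¹) :=
  SheetHyp.levels_v (sheetHyp_outerRef B hB hqM a₀ hadm e hg h2 h3 Hp)

end Sheet

end Fermat.Agent.BR3.SplitModularRef
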