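/-
Program C (S36), node A13 TAME-SURJ, FINAL (helper26): the tame character of the inertia group of
`ℚ̄` at `q` is surjective onto `μ_n` for every `n` prime to `q`.

`B` a valuation subring of `ℚ̄` over the prime `q`, `K₀ = cycloField ℚ̄ q`.

* **`exists_inertia_smul_root`** : `ϖ ^ n = q`, `ζ ^ n = 1`, `q ∤ n` ⟹
  `∃ σ ∈ B.inertiaSubgroupIn ℚ, σ ϖ = ζ * ϖ ∧ σ fixes K₀ pointwise`
  (`BR3/TameRoot` (1a), (1b) by helper17 + `BR3/TameSurj` steps (2)–(4));
* `exists_inertia_smul_root_primitive` : the same with a primitive `n`-th root of unity chosen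
  inside, together with `ζ ^ i - 1` a unit of `B` for `n ∤ i` (exact order `n` modulo `𝔪`);
* `exists_inertia_fixing_pow` (RICHNESS, the input of A2 `exists_smul_mem_natSub_of_fixed`):
  `c ^ (m * e) = q`, `q ∤ m * e` ⟹ `∃ σ ∈ I_B` and a primitive `m`-th root of unity `ζ` with
  `σ c = ζ * c`, `σ (c ^ m) = c ^ m`, and the residue of `σ c / c` a primitive `m`-th root of unity;
* `isPrimitiveRoot_residue`, `isPrimitiveRoot_resOf` : reduction is injective on `μ_m`, `q ∤ m`.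
-/
import Mathlib
import Fermat.Agent.BR3.TameRoot
import Fermat.Agent.BR3.TameSurj
import Fermat.Agent.BR.InertiaRed

set_option autoImplicit false
set_option linter.style.haveILetI false

namespace Fermat.Agent.BR3.TameSurj

open Fermat.Agent.BR.UnramCyclo Fermat.Agent.BR.InertiaRed IsLocalRing

local notation "Qb" => AlgebraicClosure ℚ

variable {q : ℕ} (B : ValuationSubring Qb)

/-- **(A13) TAME-SURJ.** For `n` prime to `q`, `ϖ ^ n = q` and any `n`-th root of unity `ζ` there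
is an element of the inertia group of `B` with `σ ϖ = ζ ϖ` (fixing `K₀` pointwise). -/
theorem exists_inertia_smul_root (hq : q.Prime) (hB : B.LiesOverPrime q) {n : ℕ}
    (hqn : ¬ q ∣ n) {ϖ ζ : Qb} (hϖ : ϖ ^ n = (q : Qb)) (hζ : ζ ^ n = 1) :
    ∃ σ ∈ B.inertiaSubgroupIn ℚ, σ ϖ = ζ * ϖ ∧ ∀ a ∈ cycloField Qb q, σ a = a := by
  have hn : 0 < n := by
    rcases Nat.eq_zero_or_pos n with h | h
    · subst h
      exact absurd (dvd_zero q) hqn
    · exact h
  obtain ⟨τ, hτ⟩ := TameRoot.exists_algEquiv_root hq hB hϖ hn hζ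
  refine exists_inertia_apply_eq_mul B hq hB (mem_cycloField_of_pow_eq_one hn hqn hζ) τ hτ ?_
  intro B' hB' h0 x hx
  exact TameRoot.mem_iff_of_mem_adjoin hq hB hB' h0 hn hϖ hx

/-- reduction modulo the maximal ideal of `B` is injective on `μ_m`, `q ∤ m` -/
theorem isPrimitiveRoot_residue (hq : q.Prime) (hB : B.LiesOverPrime q) {m : ℕ}
    (hqm : ¬ q ∣ m) {ζ : Qb} (hζ : IsPrimitiveRoot ζ m) (hζB : ζ ∈ B) :
    IsPrimitiveRoot (residue B ⟨ζ, hζB⟩) m := by
  have hm : 0 < m := by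
    rcases Nat.eq_zero_or_pos m with h | h
    · subst h
      exact absurd (dvd_zero q) hqm
    · exact h
  refine IsPrimitiveRoot.mk_of_lt _ hm ?_ ?_
  · rw [← map_pow]
    have : (⟨ζ, hζB⟩ : B) ^ m = 1 := Subtype.ext (by simpa using hζ.pow_eq_one)
    rw [this, map_one]
  · intro l hl hlm h1
    have hnd : ¬ m ∣ l := Nat.not_dvd_of_pos_of_lt hl hlm
    have h3 := valuation_pow_sub_one_eq_one B hq hB hqm hζ hnd
    have h4 : residue B ((⟨ζ, hζB⟩ : B) ^ l - 1) = 0 := by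
      rw [map_sub, map_pow, h1, map_one, sub_self]
    rw [Fermat.Agent.Val.residue_eq_zero_iff_valuation_lt_one] at h4
    have h5 : (((⟨ζ, hζB⟩ : B) ^ l - 1 : B) : Qb) = ζ ^ l - 1 := by simp
    rw [h5, h3] at h4
    exact lt_irrefl _ h4

/-- a root of unity lies in `B` -/
theorem mem_of_pow_eq_one {m : ℕ} (hm : 0 < m) {ζ : Qb} (hζ : ζ ^ m = 1) : ζ ∈ B :=
  (B.valuation_le_one_iff ζ).1 (valuation_eq_one_of_pow_eq_one B hm hζ).le

/-- the `resOf` form of `isPrimitiveRoot_residue` -/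
theorem isPrimitiveRoot_resOf (hq : q.Prime) (hB : B.LiesOverPrime q) {m : ℕ}
    (hqm : ¬ q ∣ m) {ζ : Qb} (hζ : IsPrimitiveRoot ζ m) : IsPrimitiveRoot (resOf B ζ) m := by
  have hm : 0 < m := by
    rcases Nat.eq_zero_or_pos m with h | h
    · subst h
      exact absurd (dvd_zero q) hqm
    · exact h
  have hζB : ζ ∈ B := mem_of_pow_eq_one B hm hζ.pow_eq_one
  rw [resOf_of_mem B hζB]
  exact isPrimitiveRoot_residue B hq hB hqm hζ hζB

/-- **(A13), primitive form**: the tame character of level `n` takes a value of exact order `n`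
modulo the maximal ideal. -/
theorem exists_inertia_smul_root_primitive (hq : q.Prime) (hB : B.LiesOverPrime q) {n : ℕ}
    (hqn : ¬ q ∣ n) {ϖ : Qb} (hϖ : ϖ ^ n = (q : Qb)) :
    ∃ σ ∈ B.inertiaSubgroupIn ℚ, ∃ ζ : Qb, IsPrimitiveRoot ζ n ∧ σ ϖ = ζ * ϖ ∧
      (∀ a ∈ cycloField Qb q, σ a = a) ∧ (∀ i : ℕ, ¬ n ∣ i → B.valuation (ζ ^ i - 1) = 1) ∧
      IsPrimitiveRoot (resOf B ζ) n := by
  have hn : 0 < n := by
    rcases Nat.eq_zero_or_pos n with h | h
    · subst h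
      exact absurd (dvd_zero q) hqn
    · exact h
  haveI : NeZero n := ⟨hn.ne'⟩
  haveI : NeZero (n : Qb) := ⟨Nat.cast_ne_zero.2 hn.ne'⟩
  obtain ⟨ζ, hζ⟩ := HasEnoughRootsOfUnity.exists_primitiveRoot Qb n
  obtain ⟨σ, hσI, hσϖ, hσK⟩ := exists_inertia_smul_root B hq hB hqn hϖ hζ.pow_eq_one
  exact ⟨σ, hσI, ζ, hζ, hσϖ, hσK,
    fun i hi => valuation_pow_sub_one_eq_one B hq hB hqn hζ hi,
    isPrimitiveRoot_resOf B hq hB hqn hζ⟩

/-- **RICHNESS** (input of A2 INV⇒NAT): if `c ^ (m * e) = q` with `q ∤ m * e`, some element `σ` of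
the inertia group of `B` fixes `c ^ m` (a uniformiser `ϖ_L` of ramification index `e`) and
multiplies `c` by a primitive `m`-th root of unity `ζ`; the residue of `σ c / c` is a primitive
`m`-th root of unity of the residue field. -/
theorem exists_inertia_fixing_pow (hq : q.Prime) (hB : B.LiesOverPrime q) {m e : ℕ}
    (hqme : ¬ q ∣ m * e) {c : Qb} (hc : c ^ (m * e) = (q : Qb)) :
    ∃ σ ∈ B.inertiaSubgroupIn ℚ, ∃ ζ : Qb, IsPrimitiveRoot ζ m ∧ σ c = ζ * c ∧
      σ (c ^ m) = c ^ m ∧ (∀ a ∈ cycloField Qb q, σ a = a) ∧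
      IsPrimitiveRoot (resOf B (σ c / c)) m := by
  have hme : 0 < m * e := by
    rcases Nat.eq_zero_or_pos (m * e) with h | h
    · rw [h] at hqme
      exact absurd (dvd_zero q) hqme
    · exact h
  have hm : 0 < m := Nat.pos_of_mul_pos_right hme
  have hqm : ¬ q ∣ m := fun h => hqme (Dvd.dvd.mul_right h e)
  haveI : NeZero m := ⟨hm.ne'⟩
  haveI : NeZero (m : Qb) := ⟨Nat.cast_ne_zero.2 hm.ne'⟩
  obtain ⟨ζ, hζ⟩ := HasEnoughRootsOfUnity.exists_primitiveRoot Qb m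
  have hζme : ζ ^ (m * e) = 1 := by rw [pow_mul, hζ.pow_eq_one, one_pow]
  obtain ⟨σ, hσI, hσc, hσK⟩ := exists_inertia_smul_root B hq hB hqme hc hζme
  have hc0 : c ≠ 0 := by
    rintro rfl
    rw [zero_pow hme.ne'] at hc
    exact (Nat.cast_ne_zero.2 hq.ne_zero) hc.symm
  refine ⟨σ, hσI, ζ, hζ, hσc, ?_, hσK, ?_⟩
  · rw [map_pow, hσc, mul_pow, hζ.pow_eq_one, one_mul]
  · have : σ c / c = ζ := by
      rw [hσc]
      field_simp
    rw [this]
    exact isPrimitiveRoot_resOf B hq hB hqm hζ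

end Fermat.Agent.BR3.TameSurj
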