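import Mathlib
import Fermat.Agent.BR3.FiltPerm

/-!
# Program C (S36), node I9 (EQUIV), abstract part (a): unique extension ⇒ equivariance

`S : SemistableSetup A π ι Ft ν` on `F / K`, `g : SemilinearAut K F`.

* `apply_mem_iff_of_unique`, `smul_mem_iff_of_unique` : if `S.O v` is the ONLY valuation subring
  of `F` over the valuation subring `O'v` of a subfield `φ : F' →+* F`, `(S.O w).comap φ = O'w`,
  `g ∘ φ = φ ∘ g'` and `g'` maps `O'v` onto `O'w`, then `g • y ∈ S.O w ↔ y ∈ S.O v`;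
* `exists_mapsComp` : if `g • y ∈ S.O w ↔ y ∈ S.O v` and the base automorphism of `g` acts
  trivially on the residue field `k` of `A`, then `g` induces a `k`-isomorphism
  `a : Ft v ≃ₐ[k] Ft w` with `FiltPerm.MapsComp S g v w a`;
* `mapsComp_of_generators` : the induced isomorphism is the PRESCRIBED `a₀` as soon as `a₀` agrees
  with the action of `g` on the residues of a set `G ⊆ S.O v` whose residues generate the field
  `Ft v` over `k`;
* `mapsComp_of_unique` : the three statements together;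
* `placeMap_eq_of_pos_ord`, `mapsNode_of_mapsComp` : part (c), the branch points of a node are
  recognised by functions of which they are the only zero;
* `equivariant_one_of_mapsComp` : `MapsComp S g v v AlgEquiv.refl` for all `v` gives
  `BR2.Filt.Equivariant S g (fun _ => 1)`.
-/

set_option autoImplicit false
set_option linter.unusedVariables false
set_option linter.unusedSectionVars false

namespace Fermat.Agent.BR3.EquivUnique

open AlgebraicCurve Fermat.Agent.Red Fermat.Agent.BR.SS Fermat.Agent.BR2.Filt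
  Fermat.Agent.BR3.PlaceIso Fermat.Agent.BR3.FiltPerm

/-! ### valuation subrings -/

section Ring

variable {F' F : Type*} [Field F'] [Field F]

/-- Unique extension ⇒ equivariance, at the level of valuation subrings. -/
theorem apply_mem_iff_of_unique (φ : F' →+* F) (g' : F' ≃+* F') (g : F ≃+* F)
    (hcomm : ∀ x, g (φ x) = φ (g' x))
    (O'v O'w : ValuationSubring F') (Ov Ow : ValuationSubring F)
    (huniq : ∀ B : ValuationSubring F, B.comap φ = O'v → B = Ov)
    (hw : Ow.comap φ = O'w) (hg' : ∀ x, g' x ∈ O'w ↔ x ∈ O'v) (y : F) :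
    g y ∈ Ow ↔ y ∈ Ov := by
  have hB : (Ow.comap (g : F →+* F)).comap φ = O'v := by
    ext x
    rw [ValuationSubring.mem_comap, ValuationSubring.mem_comap]
    show g (φ x) ∈ Ow ↔ _
    rw [hcomm, ← hg', ← hw, ValuationSubring.mem_comap]
  rw [← huniq _ hB, ValuationSubring.mem_comap]
  rfl

/-- Two isomorphisms of fields over `k` which agree on a generating set are equal. -/
theorem algEquiv_eq_of_adjoin_eq_top {k L L' : Type*} [Field k] [Field L] [Field L']
    [Algebra k L] [Algebra k L'] (a a₀ : L ≃ₐ[k] L') (s : Set L)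
    (hs : IntermediateField.adjoin k s = ⊤) (h : ∀ t ∈ s, a t = a₀ t) : a = a₀ := by
  let E : IntermediateField k L :=
    (AlgHom.equalizer (a : L →ₐ[k] L') (a₀ : L →ₐ[k] L')).toIntermediateField (by
      intro x hx
      rw [AlgHom.mem_equalizer] at hx ⊢
      have hx' : a x = a₀ x := hx
      show a x⁻¹ = a₀ x⁻¹
      rw [map_inv₀, map_inv₀, hx'])
  have hE : IntermediateField.adjoin k s ≤ E := by
    rw [IntermediateField.adjoin_le_iff]
    intro t ht
    show t ∈ AlgHom.equalizer (a : L →ₐ[k] L') (a₀ : L →ₐ[k] L')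
    rw [AlgHom.mem_equalizer]
    exact h t ht
  rw [hs] at hE
  ext t
  have : t ∈ E := hE IntermediateField.mem_top
  exact this

end Ring

variable {K F k : Type*} [Field K] [Field F] [Algebra K F] [Field k]
  {A : ValuationSubring K} {π : A →+* k} {ι : Type*} {Ft : ι → Type*}
  [∀ v, Field (Ft v)] [∀ v, Algebra k (Ft v)] {ν : Type*}
  (S : SemistableSetup (F := F) A π ι Ft ν)

/-- the base automorphism of `g` acts trivially on the residue field of `A` -/
def BaseResTrivial (π : A →+* k) (g : SemilinearAut K F) : Prop :=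
  ∀ (c : K) (hc : c ∈ A), ∃ h : SemilinearAut.baseAut g c ∈ A,
    π ⟨SemilinearAut.baseAut g c, h⟩ = π ⟨c, hc⟩

theorem smul_mem_iff_of_unique {F' : Type*} [Field F'] (φ : F' →+* F) (g' : F' ≃+* F')
    (g : SemilinearAut K F) (hcomm : ∀ x, g • φ x = φ (g' x)) (v w : ι)
    (O'v O'w : ValuationSubring F')
    (huniq : ∀ B : ValuationSubring F, B.comap φ = O'v → B = S.O v)
    (hw : (S.O w).comap φ = O'w) (hg' : ∀ x, g' x ∈ O'w ↔ x ∈ O'v) (y : F) :
    g • y ∈ S.O w ↔ y ∈ S.O v :=
  apply_mem_iff_of_unique φ g' (SemilinearAut.toRingAut g) hcomm O'v O'w (S.O v) (S.O w)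
    huniq hw hg' y

/-- `g` as a ring homomorphism `S.O v →+* S.O w` -/
def smulHom (g : SemilinearAut K F) (v w : ι) (hmem : ∀ y, y ∈ S.O v → g • y ∈ S.O w) :
    S.O v →+* S.O w where
  toFun y := ⟨g • (y : F), hmem _ y.2⟩
  map_one' := Subtype.ext (smul_one g)
  map_mul' x y := Subtype.ext (smul_mul' g _ _)
  map_zero' := Subtype.ext (smul_zero g)
  map_add' x y := Subtype.ext (smul_add g _ _)

theorem isUnit_smulHom_iff (g : SemilinearAut K F) (v w : ι)
    (hmem : ∀ y, g • y ∈ S.O w ↔ y ∈ S.O v) (y : S.O v) :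
    IsUnit (smulHom S g v w (fun y => (hmem y).mpr) y) ↔ IsUnit y := by
  refine ⟨fun hu => ?_, fun hu => hu.map _⟩
  obtain ⟨z, hz⟩ := isUnit_iff_exists_inv.mp hu
  have hz' : g⁻¹ • (z : F) ∈ S.O v := by rw [← hmem, smul_inv_smul]; exact z.2
  refine isUnit_iff_exists_inv.mpr ⟨⟨g⁻¹ • (z : F), hz'⟩, Subtype.ext ?_⟩
  have h1 : g • (y : F) * (z : F) = 1 := congrArg Subtype.val hz
  show (y : F) * g⁻¹ • (z : F) = 1
  have h2 : g • ((y : F) * g⁻¹ • (z : F)) = g • (1 : F) := by
    rw [smul_mul', smul_inv_smul, h1, smul_one]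
  exact MulAction.injective g h2

/-- A semilinear automorphism which maps the ring of the component `v` ONTO the ring of the
component `w`, with base automorphism trivial on `k`, induces a `k`-isomorphism of the residue
fields. -/
theorem exists_mapsComp (hπ : Function.Surjective π) (g : SemilinearAut K F)
    (hb : BaseResTrivial π g) (v w : ι) (hmem : ∀ y, g • y ∈ S.O w ↔ y ∈ S.O v) :
    ∃ a : Ft v ≃ₐ[k] Ft w, MapsComp S g v w a := by
  set gO := smulHom S g v w (fun y => (hmem y).mpr) with hgO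
  set ψ : S.O v →+* Ft w := (S.res w).comp gO with hψ
  have hψsurj : Function.Surjective ψ := by
    intro t
    obtain ⟨z, rfl⟩ := S.res_surjective w t
    have hz : g⁻¹ • (z : F) ∈ S.O v := by rw [← hmem, smul_inv_smul]; exact z.2
    refine ⟨⟨g⁻¹ • (z : F), hz⟩, ?_⟩
    show S.res w ⟨g • (g⁻¹ • (z : F)), _⟩ = _
    congr 1
    exact Subtype.ext (smul_inv_smul g _)
  have hker : RingHom.ker (S.res v) ≤ RingHom.ker ψ := by
    intro y hy
    rw [RingHom.mem_ker] at hy ⊢
    show S.res w (gO y) = 0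
    rw [S.res_eq_zero_iff] at hy ⊢
    rwa [isUnit_smulHom_iff S g v w hmem]
  set a₁ : Ft v →+* Ft w := (S.res v).liftOfRightInverse (Function.surjInv (S.res_surjective v))
    (Function.rightInverse_surjInv _) ⟨ψ, hker⟩ with ha₁
  have ha₁_apply : ∀ y : S.O v, a₁ (S.res v y) = ψ y := fun y =>
    RingHom.liftOfRightInverse_comp_apply _ _ _ _ y
  have hbij : Function.Bijective a₁ := by
    refine ⟨a₁.injective, fun t => ?_⟩
    obtain ⟨y, rfl⟩ := hψsurj t
    exact ⟨S.res v y, ha₁_apply y⟩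
  have hcomm : ∀ c : k, (RingEquiv.ofBijective a₁ hbij) (algebraMap k (Ft v) c) =
      algebraMap k (Ft w) c := by
    intro c
    obtain ⟨⟨c', hc'⟩, rfl⟩ := hπ c
    obtain ⟨hσ, hσe⟩ := hb c' hc'
    have h1 : algebraMap K F c' ∈ S.O v := (S.algebraMap_mem_iff v c').mpr hc'
    have h2 : algebraMap K F (SemilinearAut.baseAut g c') ∈ S.O w :=
      (S.algebraMap_mem_iff w _).mpr hσ
    rw [RingEquiv.ofBijective_apply, ← S.res_algebraMap v c' hc' h1, ha₁_apply, ← hσe,
      ← S.res_algebraMap w _ hσ h2]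
    show S.res w ⟨g • algebraMap K F c', _⟩ = _
    congr 1
    exact Subtype.ext (SemilinearAut.smul_algebraMap g c')
  refine ⟨AlgEquiv.ofRingEquiv (f := RingEquiv.ofBijective a₁ hbij) hcomm,
    fun y hy => (hmem y).mpr hy, fun y hy hy' => ?_⟩
  show _ = a₁ (S.res v ⟨y, hy⟩)
  rw [ha₁_apply]
  rfl

/-- The isomorphism induced by `g` is the prescribed `a₀` as soon as `a₀` agrees with the action
of `g` on residues generating `Ft v` over `k`. -/
theorem mapsComp_of_generators (hπ : Function.Surjective π) (g : SemilinearAut K F)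
    (hb : BaseResTrivial π g) (v w : ι) (hmem : ∀ y, g • y ∈ S.O w ↔ y ∈ S.O v)
    (a₀ : Ft v ≃ₐ[k] Ft w) (G : Set F) (hG : ∀ y ∈ G, y ∈ S.O v)
    (hgen : IntermediateField.adjoin k
      {t : Ft v | ∃ y, ∃ hy : y ∈ G, t = S.res v ⟨y, hG y hy⟩} = ⊤)
    (h : ∀ y (hy : y ∈ G), S.res w ⟨g • y, (hmem y).mpr (hG y hy)⟩ = a₀ (S.res v ⟨y, hG y hy⟩)) :
    MapsComp S g v w a₀ := by
  obtain ⟨a, ha⟩ := exists_mapsComp S hπ g hb v w hmem
  have hEq : a = a₀ := by
    refine algEquiv_eq_of_adjoin_eq_top a a₀ _ hgen ?_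
    rintro t ⟨y, hy, rfl⟩
    rw [← ha.res_smul y (hG y hy) ((hmem y).mpr (hG y hy)), h y hy]
  rwa [← hEq]

/-- Unique extension ⇒ equivariance: `S.O v` the only valuation subring of `F` over `O'v` along
`φ : F' →+* F`, `g ∘ φ = φ ∘ g'`, `g'` maps `O'v` onto `O'w = (S.O w) ∩ F'`; then `g` maps the
component `v` to the component `w`, inducing the prescribed `a₀`. -/
theorem mapsComp_of_unique (hπ : Function.Surjective π) (g : SemilinearAut K F)
    (hb : BaseResTrivial π g) (v w : ι)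
    {F' : Type*} [Field F'] (φ : F' →+* F) (g' : F' ≃+* F')
    (hcomm : ∀ x, g • φ x = φ (g' x)) (O'v O'w : ValuationSubring F')
    (huniq : ∀ B : ValuationSubring F, B.comap φ = O'v → B = S.O v)
    (hw : (S.O w).comap φ = O'w) (hg' : ∀ x, g' x ∈ O'w ↔ x ∈ O'v)
    (a₀ : Ft v ≃ₐ[k] Ft w) (G : Set F) (hG : ∀ y ∈ G, y ∈ S.O v)
    (hgen : IntermediateField.adjoin k
      {t : Ft v | ∃ y, ∃ hy : y ∈ G, t = S.res v ⟨y, hG y hy⟩} = ⊤)
    (h : ∀ y (hy : y ∈ G) (hy' : g • y ∈ S.O w),
      S.res w ⟨g • y, hy'⟩ = a₀ (S.res v ⟨y, hG y hy⟩)) :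
    MapsComp S g v w a₀ :=
  mapsComp_of_generators S hπ g hb v w
    (smul_mem_iff_of_unique S φ g' g hcomm v w O'v O'w huniq hw hg') a₀ G hG hgen
    fun y hy => h y hy _

/-! ### part (c): nodes -/

/-- A branch point is recognised by a function of which it is the only zero. -/
theorem placeMap_eq_of_pos_ord {L L' : Type*} [Field L] [Field L'] [Algebra k L] [Algebra k L']
    (a : L ≃ₐ[k] L') (P : Place k L) (Q : Place k L') (t : L) (hP : 0 < P.ord t)
    (hQ : ∀ Q' : Place k L', 0 < Q'.ord (a t) → Q' = Q) : Q = placeMap a P :=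
  (hQ (placeMap a P) (by rwa [ord_placeMap])).symm

/-- `g` maps the node `e` to the node `e'`, the branch points being recognised by functions `t₁`
(on the `src` side) and `t₂` (on the `tgt` side) of which they are the only zeros. -/
theorem mapsNode_of_mapsComp (g : SemilinearAut K F) (e e' : ν)
    (a₁ : Ft (S.src e) ≃ₐ[k] Ft (S.src e')) (a₂ : Ft (S.tgt e) ≃ₐ[k] Ft (S.tgt e'))
    (h₁ : MapsComp S g (S.src e) (S.src e') a₁) (h₂ : MapsComp S g (S.tgt e) (S.tgt e') a₂)
    (t₁ : F) (ht₁ : t₁ ∈ S.O (S.src e)) (hz₁ : 0 < (S.s₁ e).ord (S.res (S.src e) ⟨t₁, ht₁⟩))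
    (hu₁ : ∀ Q' : Place k (Ft (S.src e')),
      0 < Q'.ord (S.res (S.src e') ⟨g • t₁, h₁.smul_mem _ ht₁⟩) → Q' = S.s₁ e')
    (t₂ : F) (ht₂ : t₂ ∈ S.O (S.tgt e)) (hz₂ : 0 < (S.s₂ e).ord (S.res (S.tgt e) ⟨t₂, ht₂⟩))
    (hu₂ : ∀ Q' : Place k (Ft (S.tgt e')),
      0 < Q'.ord (S.res (S.tgt e') ⟨g • t₂, h₂.smul_mem _ ht₂⟩) → Q' = S.s₂ e') :
    MapsNode S g e e' a₁ a₂ where
  src := h₁
  tgt := h₂
  s₁ := placeMap_eq_of_pos_ord a₁ (S.s₁ e) (S.s₁ e') _ hz₁ (by
    rw [← h₁.res_smul t₁ ht₁ (h₁.smul_mem _ ht₁)]; exact hu₁)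
  s₂ := placeMap_eq_of_pos_ord a₂ (S.s₂ e) (S.s₂ e') _ hz₂ (by
    rw [← h₂.res_smul t₂ ht₂ (h₂.smul_mem _ ht₂)]; exact hu₂)

/-- If `g` maps every component to itself and induces the identity on every residue field, then
`g` is equivariant in the sense of `BR2.Filt` with trivial residue action (the `equiv` field of
`InvFiniteUnit.TrivialAction`). -/
theorem equivariant_one_of_mapsComp (g : SemilinearAut K F)
    (h : ∀ v, MapsComp S g v v AlgEquiv.refl) : Equivariant S g (fun _ => 1) where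
  smul_mem v y hy := (h v).smul_mem y hy
  res_smul v y hy hy' := by
    rw [(h v).res_smul y hy hy', one_smul]
    rfl
  s₁_fixed e := one_smul _ _
  s₂_fixed e := one_smul _ _

end Fermat.Agent.BR3.EquivUnique
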