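import Mathlib
import Fermat.Agent.BR3.CircleEquiv
import Fermat.Agent.BR3.EquivUnique

/-!
# Program C (S36), node (I9-ze), part (ii): the inertia action on the vertical component `z e`

Abstract setting.  `F₁ / K`, `F₂ / K` function fields, `φ : F₁ →ₐ[K] F₂` (for `X₀(M q²) → X₀(M q)`:
`φ = α₂`), `C : Circle.AnnulusCore A T` the contract of the tube `T` of a node of `F₁`, `a₀` a gauge,
`O := circleRing C a₀` the valuation ring of the circle, `circleRes : O → k(X)`.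
`S : SemistableSetup A (residue A) ι Ft ν` on `F₂` and `v : ι` a component with

* `hcomap : (S.O v).comap φ = O`, `huniq` : `S.O v` is the ONLY valuation subring of `F₂` over `O`
  (the conclusion of `VertGlueMod.exists_vertComponent` / `VertTaylorAt.exists_vertComponent_at`);
* `ψ : k(X) →+* Ft v` with `S.res v (φ y) = ψ (circleRes y)`.

`g₁`, `g₂` semilinear automorphisms of `F₁`, `F₂` with `g₂ ∘ φ = φ ∘ g₁`, inertial base
automorphism, `g₁` fixing the annulus coordinate and the tube.  With `θ` the residue of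
`g a₀ / a₀` (`= residue of ζ` if `g a₀ = ζ a₀`):

* **`exists_mapsComp_vert`** : there is `a : Ft v ≃ₐ[k] Ft v` with `FiltPerm.MapsComp S g₂ v v a`,
  `a (ψ ȳ) = ψ (ȳ(θ⁻¹ X))` for all `ȳ`, in particular `a (ψ (β X)) = θ⁻¹ • ψ (β X)`, and
  `a (res (U₀ / φ a₀)) = θ⁻¹ • res (U₀ / φ a₀)` for every `U₀` fixed by `g₂` with
  `U₀ / φ a₀ ∈ S.O v`.
-/

set_option autoImplicit false
set_option linter.unusedSectionVars false
set_option linter.unusedVariables false

noncomputable section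

namespace Fermat.Agent.BR3.VertEquiv

open AlgebraicCurve IsLocalRing Fermat.Agent.Red Fermat.Agent.BR.InertiaRed
  Fermat.Agent.BR.AnnulusRed Fermat.Agent.BR.Circle Fermat.Agent.BR.SS
  Fermat.Agent.BR3.InvFiniteTheta Fermat.Agent.BR3.CircleEquiv Fermat.Agent.BR3.FiltPerm
  Fermat.Agent.BR3.EquivUnique

variable {K F₁ F₂ : Type*} [Field K] [Field F₁] [Field F₂] [Algebra K F₁] [Algebra K F₂]
  {A : ValuationSubring K} [IsAlgClosed (ResidueField A)] {T : Set (Place K F₁)}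

local notation "k" => ResidueField A

/-- An inertial base automorphism acts trivially on the residues of `A`. -/
theorem baseResTrivial_of_inertial (g : SemilinearAut K F₂)
    (hg : IsInertial A (SemilinearAut.baseAut g)) : BaseResTrivial (residue A) g := by
  intro c hc
  have hmem : SemilinearAut.baseAut g c ∈ A := by
    rw [← A.valuation_le_one_iff, hg.val, A.valuation_le_one_iff]
    exact hc
  refine ⟨hmem, ?_⟩
  have h1 := hg.res c hc
  rwa [resOf_of_mem A hmem, resOf_of_mem A hc] at h1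

/-- Compatible semilinear automorphisms have the same base automorphism. -/
theorem baseAut_eq_of_comm (φ : F₁ →ₐ[K] F₂) (g₁ : SemilinearAut K F₁) (g₂ : SemilinearAut K F₂)
    (hcomm : ∀ x : F₁, g₂ • φ x = φ (g₁ • x)) (c : K) :
    SemilinearAut.baseAut g₂ c = SemilinearAut.baseAut g₁ c := by
  have h1 := hcomm (algebraMap K F₁ c)
  rw [AlgHom.commutes, SemilinearAut.smul_algebraMap, SemilinearAut.smul_algebraMap,
    AlgHom.commutes] at h1
  exact (algebraMap K F₂).injective h1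

variable (C : AnnulusCore A T) (a₀ : K)
  (ha1 : A.valuation C.thick < A.valuation a₀) (ha2 : A.valuation a₀ < 1)
  {ι : Type*} {Ft : ι → Type*} [∀ v, Field (Ft v)] [∀ v, Algebra (ResidueField A) (Ft v)] {ν : Type*}
  (S : SemistableSetup (F := F₂) A (residue A) ι Ft ν) (v : ι) (φ : F₁ →ₐ[K] F₂)
  (hcomap : (S.O v).comap (φ : F₁ →+* F₂) = circleRing C a₀ ha1 ha2)
  (huniq : ∀ Z' : ValuationSubring F₂,
    Z'.comap (φ : F₁ →+* F₂) = circleRing C a₀ ha1 ha2 → Z' = S.O v)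
  (ψ : RatFunc (ResidueField A) →+* Ft v)
  (hψ : ∀ (y : circleRing C a₀ ha1 ha2) (h : φ (y : F₁) ∈ S.O v),
    S.res v ⟨φ (y : F₁), h⟩ = ψ (circleRes C a₀ ha1 ha2 y))
  (g₁ : SemilinearAut K F₁) (g₂ : SemilinearAut K F₂)
  (hcomm : ∀ x : F₁, g₂ • φ x = φ (g₁ • x))
  (hg : IsInertial A (SemilinearAut.baseAut g₂))
  (hu : g₁ • C.u = C.u) (hT : ∀ P : Place K F₁, g₁ • P ∈ T ↔ P ∈ T)

include hcomap hψ in
/-- `ψ` is `k`-linear. -/
theorem psi_algebraMap (c : k) : ψ (algebraMap k (RatFunc k) c) = algebraMap k (Ft v) c := by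
  obtain ⟨⟨c', hc'⟩, rfl⟩ := residue_surjective (R := A) c
  have h1 : algebraMap K F₁ c' ∈ circleRing C a₀ ha1 ha2 :=
    (algebraMap_mem_circleRing_iff C a₀ ha1 ha2 c').mpr hc'
  have h2 : φ (algebraMap K F₁ c') ∈ S.O v := by
    rw [AlgHom.commutes]; exact (S.algebraMap_mem_iff v c').mpr hc'
  have h3 := hψ ⟨algebraMap K F₁ c', h1⟩ h2
  rw [circleRes_algebraMap C a₀ ha1 ha2 c' hc' h1] at h3
  rw [← h3, ← S.res_algebraMap v c' hc' ((S.algebraMap_mem_iff v c').mpr hc')]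
  congr 1
  exact Subtype.ext (AlgHom.commutes φ c')

omit [IsAlgClosed (ResidueField A)] in
theorem rotAut_congr [IsAlgClosed (ResidueField A)] {z z' : k} (h : z = z') (hz : z ≠ 0)
    (hz' : z' ≠ 0) : rotAut z hz = rotAut z' hz' := by
  subst h; rfl

include hcomm hg in
/-- the base automorphism of `g₁` is inertial as well -/
theorem isInertial_base₁ : IsInertial A (SemilinearAut.baseAut g₁) := by
  refine ⟨fun x => ?_, fun x hx => ?_⟩
  · rw [← baseAut_eq_of_comm φ g₁ g₂ hcomm]; exact hg.val x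
  · rw [← baseAut_eq_of_comm φ g₁ g₂ hcomm]; exact hg.res x hx

include hcomm in
theorem theta_base₁ :
    theta A (SemilinearAut.baseAut g₁) a₀ = theta A (SemilinearAut.baseAut g₂) a₀ := by
  unfold theta
  rw [baseAut_eq_of_comm φ g₁ g₂ hcomm]

include hcomap huniq hcomm hg hu hT in
/-- **`g₂` preserves the valuation ring of the vertical component.** -/
theorem smul_mem_vert_iff (y : F₂) : g₂ • y ∈ S.O v ↔ y ∈ S.O v := by
  have hg₁ := isInertial_base₁ φ g₁ g₂ hcomm hg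
  exact smul_mem_iff_of_unique S (φ : F₁ →+* F₂) (SemilinearAut.toRingAut g₁) g₂
    (fun x => hcomm x) v v (circleRing C a₀ ha1 ha2) (circleRing C a₀ ha1 ha2) huniq hcomap
    (fun x => smul_mem_circleRing_iff g₁ hg₁ hu hT a₀ ha1 ha2 x) y

include hcomap in
theorem apply_mem_vert_iff (y : F₁) : φ y ∈ S.O v ↔ y ∈ circleRing C a₀ ha1 ha2 := by
  rw [← hcomap, ValuationSubring.mem_comap]
  rfl

include hcomap huniq hψ hcomm hg hu hT in
/-- **The inertia action on the vertical component `z e`.** -/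
theorem exists_mapsComp_vert :
    ∃ a : Ft v ≃ₐ[k] Ft v, MapsComp S g₂ v v a ∧
      (∀ yb : RatFunc k, a (ψ yb) =
        ψ (rotAut (theta A (SemilinearAut.baseAut g₂) a₀)⁻¹
          (inv_ne_zero (theta_ne_zero hg (gauge_ne_zero ha1))) • yb)) ∧
      (∀ β : k, a (ψ (RatFunc.C β * RatFunc.X)) =
        (theta A (SemilinearAut.baseAut g₂) a₀)⁻¹ • ψ (RatFunc.C β * RatFunc.X)) ∧
      ∀ U₀ : F₂, g₂ • U₀ = U₀ → ∀ hθ : U₀ / φ (algebraMap K F₁ a₀) ∈ S.O v,
        a (S.res v ⟨U₀ / φ (algebraMap K F₁ a₀), hθ⟩) =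
          (theta A (SemilinearAut.baseAut g₂) a₀)⁻¹ •
            S.res v ⟨U₀ / φ (algebraMap K F₁ a₀), hθ⟩ := by
  have ha₀ : a₀ ≠ 0 := gauge_ne_zero ha1
  have hg₁ := isInertial_base₁ φ g₁ g₂ hcomm hg
  have hθeq := theta_base₁ (A := A) a₀ φ g₁ g₂ hcomm
  set θ := theta A (SemilinearAut.baseAut g₂) a₀ with hθdef
  have hθ0 : θ ≠ 0 := theta_ne_zero hg ha₀
  have hmem := smul_mem_vert_iff C a₀ ha1 ha2 S v φ hcomap huniq g₁ g₂ hcomm hg hu hT
  obtain ⟨a, ha⟩ := exists_mapsComp S residue_surjective g₂ (baseResTrivial_of_inertial g₂ hg)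
    v v hmem
  have hrot : ∀ yb : RatFunc k, a (ψ yb) = ψ (rotAut θ⁻¹ (inv_ne_zero hθ0) • yb) := by
    intro yb
    obtain ⟨y, rfl⟩ := circleRes_surjective C a₀ ha1 ha2 yb
    have h1 : φ (y : F₁) ∈ S.O v := (apply_mem_vert_iff C a₀ ha1 ha2 S v φ hcomap _).mpr y.2
    have h2 : g₁ • (y : F₁) ∈ circleRing C a₀ ha1 ha2 :=
      (smul_mem_circleRing_iff g₁ hg₁ hu hT a₀ ha1 ha2 _).mpr y.2
    have h3 : φ (g₁ • (y : F₁)) ∈ S.O v :=
      (apply_mem_vert_iff C a₀ ha1 ha2 S v φ hcomap _).mpr h2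
    have h4 : g₂ • φ (y : F₁) ∈ S.O v := by rw [hcomm]; exact h3
    rw [← hψ y h1, ← ha.res_smul _ h1 h4]
    have e : (⟨g₂ • φ (y : F₁), h4⟩ : S.O v) = ⟨φ (g₁ • (y : F₁)), h3⟩ :=
      Subtype.ext (hcomm _)
    rw [e, hψ ⟨g₁ • (y : F₁), h2⟩ h3, circleRes_smul' g₁ hg₁ hu hT a₀ ha1 ha2 ha₀ y h2]
    congr 2
    exact rotAut_congr (by rw [hθeq]) _ _
  refine ⟨a, ha, hrot, fun β => ?_, fun U₀ hU₀ hθ => ?_⟩
  · rw [hrot, rotAut_smul_C_mul_X, map_mul, ← RatFunc.algebraMap_eq_C,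
      psi_algebraMap C a₀ ha1 ha2 S v φ hcomap ψ hψ, Algebra.smul_def]
  · set s := SemilinearAut.baseAut g₂ with hs
    have hsa : s a₀ ≠ 0 := by rwa [Ne, map_eq_zero_iff _ s.injective]
    have hval : A.valuation (s a₀ / a₀) = 1 := valuation_apply_div hg ha₀
    set w : K := (s a₀ / a₀)⁻¹ with hw
    have hwval : A.valuation w = 1 := by rw [hw, map_inv₀, hval, inv_one]
    have hwA : w ∈ A := mem_of_valuation_eq_one A hwval
    have hwO : algebraMap K F₂ w ∈ S.O v := (S.algebraMap_mem_iff v w).mpr hwA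
    have hsmul : g₂ • (U₀ / φ (algebraMap K F₁ a₀)) =
        algebraMap K F₂ w * (U₀ / φ (algebraMap K F₁ a₀)) := by
      have haF : algebraMap K F₂ a₀ ≠ 0 := (_root_.map_ne_zero _).mpr ha₀
      have hsaF : algebraMap K F₂ (s a₀) ≠ 0 := (_root_.map_ne_zero _).mpr hsa
      rw [smul_div₀', hU₀, AlgHom.commutes, SemilinearAut.smul_algebraMap, ← hs, hw, map_inv₀,
        map_div₀]
      field_simp
    have h4 : g₂ • (U₀ / φ (algebraMap K F₁ a₀)) ∈ S.O v := (hmem _).mpr hθ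
    rw [← ha.res_smul _ hθ h4]
    have e : (⟨g₂ • (U₀ / φ (algebraMap K F₁ a₀)), h4⟩ : S.O v) =
        ⟨algebraMap K F₂ w, hwO⟩ * ⟨U₀ / φ (algebraMap K F₁ a₀), hθ⟩ := Subtype.ext hsmul
    rw [e, map_mul, S.res_algebraMap v w hwA hwO, Algebra.smul_def]
    congr 2
    -- the residue of `w` is `θ⁻¹`
    have hu1 : s a₀ / a₀ ∈ A := mem_of_valuation_eq_one A hval
    have h5 : resOf A w * resOf A (s a₀ / a₀) = 1 := by
      rw [← resOf_mul A hwA hu1, hw, inv_mul_cancel₀ (div_ne_zero hsa ha₀), resOf_one]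
    have h6 : resOf A w = θ⁻¹ := eq_inv_of_mul_eq_one_left h5
    rw [← h6, resOf_of_mem A hwA]

end Fermat.Agent.BR3.VertEquiv
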