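import Mathlib
import Fermat.Agent.BR3.VertEquiv
import Fermat.Agent.BR3.GeoAb
import Fermat.Agent.BR3.VertKill

/-!
# Program C (S36), node (I9-ze), part (ii'): invariant classes have `(q + 1)`-torsion abelian part
on the vertical component `z e`

Setting of `BR3/VertEquiv` (`S` a semistable setup on `F₂`, `v` the vertical component over the
circle `circleRing C a₀` of `F₁` along `φ`, `ψ : k(X) → Ft v`, `g₁`, `g₂` compatible semilinear
automorphisms with inertial base automorphism, `g₁` fixing the annulus coordinate and the tube),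
`b̃ := ψ (β X)`, `Ũ := res (U₀ / φ a₀)` with `U₀` fixed by `g₂`, satisfying the hypotheses `hb`,
`heq`, `hgen` of `BR3/VertKill` (for `Ft v = AdjoinRoot (vertBar q β ρ)` these are
`VertResField.vertBar_hb/heq/hgen`), and the tame character `θ` of `g₂` at the gauge `a₀` a primitive
`(q + 1)`-th root of unity.

* `smul_abRes_eq_zero_vert` (`q` odd) : a class `y` of the finite part fixed by `g₂` has
  `(q + 1) • abRes v y = 0`;
* `smul_abRes_eq_zero_vert_two` (`q = 2`) : `3 • abRes v y = 0`.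
-/

set_option autoImplicit false
set_option linter.unusedSectionVars false
set_option linter.unusedVariables false

noncomputable section

namespace Fermat.Agent.BR3.VertEquivKill

open AlgebraicCurve IsLocalRing Fermat.Agent.Red Fermat.Agent.BR.InertiaRed
  Fermat.Agent.BR.AnnulusRed Fermat.Agent.BR.Circle Fermat.Agent.BR.SS Fermat.Agent.BR2.Filt
  Fermat.Agent.BR3.InvFiniteTheta Fermat.Agent.BR3.CircleEquiv Fermat.Agent.BR3.FiltPerm
  Fermat.Agent.BR3.FiltMaps Fermat.Agent.BR3.EquivUnique Fermat.Agent.BR3.VertEquiv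
  Fermat.Agent.BR3.GeoAb Fermat.Agent.BR3.VertCurve

variable {K F₁ F₂ : Type*} [Field K] [Field F₁] [Field F₂] [Algebra K F₁] [Algebra K F₂]
  {A : ValuationSubring K} [IsAlgClosed (ResidueField A)] {T : Set (Place K F₁)}

local notation "k" => ResidueField A

variable (C : AnnulusCore A T) (a₀ : K)
  (ha1 : A.valuation C.thick < A.valuation a₀) (ha2 : A.valuation a₀ < 1)
  {ι : Type*} {Ft : ι → Type*} [∀ v, Field (Ft v)] [∀ v, Algebra (ResidueField A) (Ft v)]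
  {ν : Type*}
  (S : SemistableSetup (F := F₂) A (residue A) ι Ft ν) (v : ι) (φ : F₁ →ₐ[K] F₂)
  (hcomap : (S.O v).comap (φ : F₁ →+* F₂) = circleRing C a₀ ha1 ha2)
  (huniq : ∀ Z' : ValuationSubring F₂,
    Z'.comap (φ : F₁ →+* F₂) = circleRing C a₀ ha1 ha2 → Z' = S.O v)
  (ψ : RatFunc (ResidueField A) →+* Ft v)
  (hψ : ∀ (y : circleRing C a₀ ha1 ha2) (h : φ (y : F₁) ∈ S.O v),
    S.res v ⟨φ (y : F₁), h⟩ = ψ (circleRes C a₀ ha1 ha2 y))
  (g₁ : SemilinearAut K F₁) (g₂ : SemilinearAut K F₂)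
  (hcomm : ∀ x : F₁, g₂ • φ x = φ (g₁ • x))
  (hg : IsInertial A (SemilinearAut.baseAut g₂))
  (hu : g₁ • C.u = C.u) (hT : ∀ P : Place K F₁, g₁ • P ∈ T ↔ P ∈ T)
  (hF : RiemannPkg K F₂) (hFt : ∀ v, RiemannPkg (ResidueField A) (Ft v))

include hcomap huniq hψ hcomm hg hu hT in
/-- **Invariant classes have `(q + 1)`-torsion abelian part on `z e`** (`q` odd). -/
theorem smul_abRes_eq_zero_vert (q : ℕ) [hq : Fact q.Prime] [CharP (ResidueField A) q]
    (hq2 : q ≠ 2) {β ρ : k} (hρ : ρ ≠ 0)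
    (U₀ : F₂) (hU₀ : g₂ • U₀ = U₀) (hθ : U₀ / φ (algebraMap K F₁ a₀) ∈ S.O v)
    (hb : Transcendental k (ψ (RatFunc.C β * RatFunc.X)))
    (heq : ψ (RatFunc.C β * RatFunc.X) * S.res v ⟨U₀ / φ (algebraMap K F₁ a₀), hθ⟩ ^ q +
      ψ (RatFunc.C β * RatFunc.X) ^ 2 * S.res v ⟨U₀ / φ (algebraMap K F₁ a₀), hθ⟩ ^ (q - 1) =
        algebraMap k (Ft v) ρ)
    (hgen : IntermediateField.adjoin k
      {ψ (RatFunc.C β * RatFunc.X), S.res v ⟨U₀ / φ (algebraMap K F₁ a₀), hθ⟩} = ⊤)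
    (hprim : IsPrimitiveRoot (theta A (SemilinearAut.baseAut g₂) a₀) (q + 1))
    {m : ℕ} (hm : m ≠ 0) (y : natSub S m) (hgy : g₂ • (y : Pic0 K F₂) = y) :
    (q + 1) • abRes hF hFt hm v y = 0 := by
  obtain ⟨a, ha, -, hab, haU⟩ :=
    exists_mapsComp_vert C a₀ ha1 ha2 S v φ hcomap huniq ψ hψ g₁ g₂ hcomm hg hu hT
  exact smul_abRes_eq_zero_of_vert hF hFt hm ha y hgy (q + 1) fun x hx =>
    vert_smul_eq_zero_of_fixed q hq2 hρ hb heq hgen hprim.inv (hab β) (haU U₀ hU₀ hθ) x hx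

include hcomap huniq hψ hcomm hg hu hT in
/-- Invariant classes have `3`-torsion abelian part on `z e` (`q = 2`). -/
theorem smul_abRes_eq_zero_vert_two [CharP (ResidueField A) 2] {β ρ : k} (hρ : ρ ≠ 0)
    (U₀ : F₂) (hU₀ : g₂ • U₀ = U₀) (hθ : U₀ / φ (algebraMap K F₁ a₀) ∈ S.O v)
    (hb : Transcendental k (ψ (RatFunc.C β * RatFunc.X)))
    (heq : ψ (RatFunc.C β * RatFunc.X) * S.res v ⟨U₀ / φ (algebraMap K F₁ a₀), hθ⟩ ^ 2 +
      ψ (RatFunc.C β * RatFunc.X) ^ 2 * S.res v ⟨U₀ / φ (algebraMap K F₁ a₀), hθ⟩ =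
        algebraMap k (Ft v) ρ)
    (hgen : IntermediateField.adjoin k
      {ψ (RatFunc.C β * RatFunc.X), S.res v ⟨U₀ / φ (algebraMap K F₁ a₀), hθ⟩} = ⊤)
    (hprim : IsPrimitiveRoot (theta A (SemilinearAut.baseAut g₂) a₀) 3)
    {m : ℕ} (hm : m ≠ 0) (y : natSub S m) (hgy : g₂ • (y : Pic0 K F₂) = y) :
    3 • abRes hF hFt hm v y = 0 := by
  obtain ⟨a, ha, -, hab, haU⟩ :=
    exists_mapsComp_vert C a₀ ha1 ha2 S v φ hcomap huniq ψ hψ g₁ g₂ hcomm hg hu hT
  exact smul_abRes_eq_zero_of_vert hF hFt hm ha y hgy 3 fun x hx =>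
    vert_smul_eq_zero_of_fixed_two hρ hb heq hgen hprim.inv (hab β) (haU U₀ hU₀ hθ) x hx

end Fermat.Agent.BR3.VertEquivKill
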