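import Mathlib
import Fermat.Agent.BR3.VertEquivKill
import Fermat.Agent.BR3.VertFinal
import Fermat.Agent.BR3.TameSurjFinal
import Fermat.Agent.BR.S0.GeomFinal
import Fermat.Agent.BR.Inst.InertiaBase
import Fermat.Agent.Jac.HeckeGalois
import Fermat.Agent.BR.ValTwo

/-!
# Program C (S36), node (I9-ze), part (ii''): the modular instantiation

`σ` in the inertia group of `B` at `q`, `g₁ := galAut (M q) σ`, `g₂ := galAut (M q q) σ`,
`φ := α₂`, `L := annulusLevels_modular_final B hB hqM hne e` (the level data of the tube of the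
crossing `e` of main's two-component model of `X₀(M q)`).

* `isInertial_galAut` : the base automorphism of `galAut N σ` is inertial;
* `theta_galAut` : `σ a₀ = ζ a₀ → theta B (baseAut (galAut N σ)) a₀ = resOf B ζ`;
* `alpha2_galAut` : `g₂ • α₂ x = α₂ (g₁ • x)`;
* `galAut_smul_jBar`, `galAut_smul_jqq`, `galAut_smul_U` : `j`, `j(s^{q²})`, `U = j(s^{q²}) - j` are
  fixed;
* `galAut_smul_coord`, `galAut_smul_mem_tube_iff` : the annulus coordinate of `L` is fixed and its
  tube is stable;
* `galAut_smul_mem_circleRing_iff`, `circleRes_galAut_smul` : part (i) for `L`;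
* **`exists_mapsComp_vert_modular`** : part (ii) for every semistable setup `S` of `Fb (M q q)` with a
  component `v` which is the unique extension of the circle `circleRing L.core a₀` along `α₂`;
* **`smul_abRes_eq_zero_vert_modular`** : for `a₀ ^ (q + 1) = q`, `q` odd: a class of the finite
  part fixed by the inertia group has `(q + 1) • abRes v y = 0`
  (the `e₂`-clause of `hkind` in `GeoFinal.newInvBoundedLevel_of_geo` for the vertical components).
-/

set_option autoImplicit false
set_option linter.unusedSectionVars false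
set_option linter.unusedVariables false
set_option linter.style.haveILetI false
set_option synthInstance.maxHeartbeats 400000

noncomputable section

namespace Fermat.Agent.BR3.VertEquivMod

open Polynomial ModularCurve AlgebraicCurve IsLocalRing
open Fermat.Agent.X0 Fermat.Agent.Val Fermat.Agent.Red Fermat.Agent.BR.Kron Fermat.Agent.Jac
open Fermat.Agent.BR.Circle Fermat.Agent.BR.S0 Fermat.Agent.BR.S0.RedModular
open Fermat.Agent.BR.S0.PointDict Fermat.Agent.BR.SS Fermat.Agent.BR2.Filt
open Fermat.Agent.BR.Inst.AnnulusInstFinal Fermat.Agent.BR.InertiaRed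
open Fermat.Agent.BR3.FibreProd Fermat.Agent.BR3.InvFiniteTheta Fermat.Agent.BR3.CircleEquiv
open Fermat.Agent.BR3.VertEquiv Fermat.Agent.BR3.VertEquivKill Fermat.Agent.BR3.FiltPerm
open Fermat.Agent.BR3.FiltMaps Fermat.Agent.BR.AnnulusRed Fermat.Agent.BR.S0.Modular
open Fermat.Agent.BR.S0.RedHyp

section Inertial

variable (N : ℕ) [NeZero N] (B : ValuationSubring Kb) {σ : GQ}

/-- The base automorphism of the Galois action of an inertia element is inertial. -/
theorem isInertial_galAut (hσ : σ ∈ B.inertiaSubgroupIn ℚ) :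
    IsInertial B (SemilinearAut.baseAut (galAut N σ)) where
  val x := Fermat.Agent.S05.valuation_apply_eq_of_mem_inertia B hσ x
  res x hx := resOf_apply B hσ hx

/-- The tame character of `galAut N σ` at a gauge on which `σ` acts through `ζ`. -/
theorem theta_galAut {a₀ ζ : Kb} (ha₀ : a₀ ≠ 0) (hσa : σ a₀ = ζ * a₀) :
    theta B (SemilinearAut.baseAut (galAut N σ)) a₀ = resOf B ζ := by
  unfold theta
  have h : SemilinearAut.baseAut (galAut N σ) a₀ = σ a₀ := rfl
  rw [h, hσa, mul_div_assoc, div_self ha₀, mul_one]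

end Inertial

variable {M q : ℕ} [NeZero M] [hq : Fact q.Prime]

/-- `α₂` commutes with the Galois action. -/
theorem alpha2_galAut (σ : GQ) (x : Fb (M * q)) :
    galAut (M * q * q) σ • alpha2 M q x = alpha2 M q (galAut (M * q) σ • x) :=
  (heckeAlphaBar_galAut (M * q) q σ x).symm

/-- `j` is fixed by the Galois action. -/
theorem galAut_smul_jBar (N : ℕ) [NeZero N] (σ : GQ) : galAut N σ • jBar N = jBar N :=
  Subtype.ext (by
    rw [coe_galAut_smul, X0.coe_jBar]
    exact coeffMap_coeffEmb σ _)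

/-- `j(s^{q²})` is fixed by the Galois action. -/
theorem galAut_smul_jqq (σ : GQ) : galAut (M * q * q) σ • jqq M q = jqq M q := by
  haveI : NeZero (q * q) := ⟨Nat.mul_ne_zero hq.out.ne_zero hq.out.ne_zero⟩
  exact Fermat.Agent.BR.ValTwo.gal_smul_jBarD (M * q * q) (q * q) ⟨M, by ring⟩ σ

/-- `j(s^q)` is fixed by the Galois action. -/
theorem galAut_smul_jq' (σ : GQ) : galAut (M * q) σ • jq' M q = jq' M q :=
  Fermat.Agent.BR.ValTwo.gal_smul_jBarD (M * q) q (dvd_mul_left q M) σ

/-- `U = j(s^{q²}) - j` is fixed by the Galois action. -/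
theorem galAut_smul_U (σ : GQ) : galAut (M * q * q) σ • U M q = U M q := by
  rw [U, smul_sub, galAut_smul_jqq, alpha2_galAut, galAut_smul_jBar]

section Final

/-- shortcut instance (the search is slow) -/
local instance algResFtM (B : ValuationSubring Kb) :
    Algebra (ResidueField B) (modularFunctionFieldFullC (ResidueField B) M) := inferInstance

variable (B : ValuationSubring Kb) (hB : B.LiesOverPrime q) (hqM : ¬ q ∣ M)
  [IsAlgClosed (ResidueField B)]
  (hne : Nonempty (Crossing (chartDataModular B hB hqM)))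
  (e : Crossing (chartDataModular B hB hqM)) {σ : GQ}

local notation "kB" => ResidueField B

/-- **Inertia fixes the annulus coordinate** of the tube of the crossing `e`. -/
theorem galAut_smul_coord (hσ : σ ∈ B.inertiaSubgroupIn ℚ) :
    galAut (M * q) σ • (annulusLevels_modular_final B hB hqM hne e).core.u =
      (annulusLevels_modular_final B hB hqM hne e).core.u :=
  Fermat.Agent.BR.Inst.InertiaBase.gal_smul_eq_of_mem_modelField_base B hq.out hB hσ
    (u_mem_base_modular_final B hB hqM hne e)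

set_option maxHeartbeats 1600000 in
/-- The tube of a crossing of the two-component bundle of an atlas. -/
theorem tube_modularInput (H : AtlasHyp (chartDataModular B hB hqM) (jx M q))
    (smooth₀ : ∀ Q : Place kB (modularFunctionFieldFullC kB M),
      (∀ e, Q ≠ z₁ (chartDataModular B hB hqM) e) →
      SmoothChart B (compW B hB hqM 0).O (compW B hB hqM 0).res Q {P | H.r P = ⟨0, Q⟩})
    (smooth₁ : ∀ Q : Place kB (modularFunctionFieldFullC kB M),
      (∀ e, Q ≠ z₂ (chartDataModular B hB hqM) e) →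
      SmoothChart B (compW B hB hqM 1).O (compW B hB hqM 1).res Q {P | H.r P = ⟨1, Q⟩})
    (chart : ∀ e, NodeChart B (compW B hB hqM 0).O (compW B hB hqM 1).O (compW B hB hqM 0).res
      (compW B hB hqM 1).res (z₁ (chartDataModular B hB hqM) e)
      (z₂ (chartDataModular B hB hqM) e)
      {P | H.r P = ⟨0, z₁ (chartDataModular B hB hqM) e⟩}) :
    Fermat.Agent.BR.Refine.tube (modularInput H hne smooth₀ smooth₁ chart).toSetup e =
      {P | H.r P = ⟨0, z₁ (chartDataModular B hB hqM) e⟩} := rfl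

/-- **The tube of the crossing `e` is stable under inertia.** -/
theorem galAut_smul_mem_tube_iff (hσ : σ ∈ B.inertiaSubgroupIn ℚ)
    (P : Place Kb (Fb (M * q))) :
    galAut (M * q) σ • P ∈ Fermat.Agent.BR.Refine.tube (Fermat.Agent.BR.Final.setupFinal B hB hqM hne) e ↔
      P ∈ Fermat.Agent.BR.Refine.tube (Fermat.Agent.BR.Final.setupFinal B hB hqM hne) e := by
  rw [tube_modularInput, Set.mem_ofPred_eq, Set.mem_ofPred_eq,
    Fermat.Agent.BR.S0.GeomFinal.rModular_smul_final B hB hqM hσ P]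

variable (a₀ : Kb)
  (ha1 : B.valuation (annulusLevels_modular_final B hB hqM hne e).core.thick < B.valuation a₀)
  (ha2 : B.valuation a₀ < 1)

/-- **Part (i) for the tube of `e`**: the circle valuation ring is stable under inertia. -/
theorem galAut_smul_mem_circleRing_iff (hσ : σ ∈ B.inertiaSubgroupIn ℚ) (y : Fb (M * q)) :
    galAut (M * q) σ • y ∈ circleRing (annulusLevels_modular_final B hB hqM hne e).core a₀ ha1 ha2 ↔
      y ∈ circleRing (annulusLevels_modular_final B hB hqM hne e).core a₀ ha1 ha2 :=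
  CircleEquiv.smul_mem_circleRing_iff (galAut (M * q) σ) (isInertial_galAut (M * q) B hσ)
    (galAut_smul_coord B hB hqM hne e hσ) (galAut_smul_mem_tube_iff B hB hqM hne e hσ)
    a₀ ha1 ha2 y

/-- **Part (i) for the tube of `e`**: the residue map of the circle intertwines `σ` with the
rotation `X ↦ (residue of ζ)⁻¹ X`, `σ a₀ = ζ a₀`. -/
theorem circleRes_galAut_smul (hσ : σ ∈ B.inertiaSubgroupIn ℚ) {ζ : Kb}
    (hσa : σ a₀ = ζ * a₀) (hζ0 : resOf B ζ ≠ 0)
    (y : circleRing (annulusLevels_modular_final B hB hqM hne e).core a₀ ha1 ha2)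
    (h : galAut (M * q) σ • (y : Fb (M * q)) ∈
      circleRing (annulusLevels_modular_final B hB hqM hne e).core a₀ ha1 ha2) :
    circleRes (annulusLevels_modular_final B hB hqM hne e).core a₀ ha1 ha2
        ⟨galAut (M * q) σ • (y : Fb (M * q)), h⟩ =
      rotAut (resOf B ζ)⁻¹ (inv_ne_zero hζ0) •
        circleRes (annulusLevels_modular_final B hB hqM hne e).core a₀ ha1 ha2 y := by
  have ha₀ : a₀ ≠ 0 := gauge_ne_zero ha1
  rw [circleRes_smul' (galAut (M * q) σ) (isInertial_galAut (M * q) B hσ)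
    (galAut_smul_coord B hB hqM hne e hσ) (galAut_smul_mem_tube_iff B hB hqM hne e hσ)
    a₀ ha1 ha2 ha₀ y h]
  congr 1
  exact rotAut_congr (by rw [theta_galAut (M * q) B ha₀ hσa]) _ _

variable {ι : Type*} {Ft : ι → Type*} [∀ v, Field (Ft v)] [∀ v, Algebra (ResidueField B) (Ft v)]
  {ν : Type*}
  (S : SemistableSetup (F := Fb (M * q * q)) B (residue B) ι Ft ν) (v : ι)
  (hcomap : (S.O v).comap (alpha2 M q : Fb (M * q) →+* Fb (M * q * q)) =
    circleRing (annulusLevels_modular_final B hB hqM hne e).core a₀ ha1 ha2)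
  (huniq : ∀ Z' : ValuationSubring (Fb (M * q * q)),
    Z'.comap (alpha2 M q : Fb (M * q) →+* Fb (M * q * q)) =
      circleRing (annulusLevels_modular_final B hB hqM hne e).core a₀ ha1 ha2 → Z' = S.O v)
  (ψ : RatFunc (ResidueField B) →+* Ft v)
  (hψ : ∀ (y : circleRing (annulusLevels_modular_final B hB hqM hne e).core a₀ ha1 ha2)
    (h : alpha2 M q (y : Fb (M * q)) ∈ S.O v),
    S.res v ⟨alpha2 M q (y : Fb (M * q)), h⟩ =
      ψ (circleRes (annulusLevels_modular_final B hB hqM hne e).core a₀ ha1 ha2 y))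

include hcomap huniq hψ in
/-- **Part (ii), modular form**: the inertia element `σ` with `σ a₀ = ζ a₀` maps the vertical
component `z e` to itself, through an isomorphism `a` of its residue field with
`a (ψ (β X)) = ξ • ψ (β X)` and `a (res (U / α₂ a₀)) = ξ • res (U / α₂ a₀)`, `ξ = (residue of ζ)⁻¹`. -/
theorem exists_mapsComp_vert_modular (hσ : σ ∈ B.inertiaSubgroupIn ℚ) {ζ : Kb}
    (hσa : σ a₀ = ζ * a₀) :
    ∃ a : Ft v ≃ₐ[kB] Ft v, MapsComp S (galAut (M * q * q) σ) v v a ∧
      (∀ β : kB, a (ψ (RatFunc.C β * RatFunc.X)) =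
        (resOf B ζ)⁻¹ • ψ (RatFunc.C β * RatFunc.X)) ∧
      ∀ hθ : U M q / alpha2 M q (algebraMap Kb (Fb (M * q)) a₀) ∈ S.O v,
        a (S.res v ⟨U M q / alpha2 M q (algebraMap Kb (Fb (M * q)) a₀), hθ⟩) =
          (resOf B ζ)⁻¹ • S.res v ⟨U M q / alpha2 M q (algebraMap Kb (Fb (M * q)) a₀), hθ⟩ := by
  have ha₀ : a₀ ≠ 0 := gauge_ne_zero ha1
  obtain ⟨a, ha, -, hab, haU⟩ :=
    exists_mapsComp_vert (annulusLevels_modular_final B hB hqM hne e).core a₀ ha1 ha2 S v
      (alpha2 M q) hcomap huniq ψ hψ (galAut (M * q) σ) (galAut (M * q * q) σ)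
      (alpha2_galAut σ) (isInertial_galAut (M * q * q) B hσ)
      (galAut_smul_coord B hB hqM hne e hσ) (galAut_smul_mem_tube_iff B hB hqM hne e hσ)
  rw [theta_galAut (M * q * q) B ha₀ hσa] at hab haU
  exact ⟨a, ha, hab, fun hθ => haU (U M q) (galAut_smul_U σ) hθ⟩

include hcomap huniq hψ in
/-- **Inertia-invariant classes of the finite part have `(q + 1)`-torsion abelian part on the
vertical component `z e`** (`q` odd; the gauge is a root `a₀` of `X ^ (q + 1) = q`): the clause of
`hkind` in `GeoFinal.newInvBoundedLevel_of_geo` for the vertical components, with `e₂ = q + 1`. -/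
theorem smul_abRes_eq_zero_vert_modular (hq2 : q ≠ 2) (ha₀ : a₀ ^ (q + 1) = (q : Kb))
    (hF : RiemannPkg Kb (Fb (M * q * q))) (hFt : ∀ v, RiemannPkg kB (Ft v))
    {β ρ : kB} (hρ : ρ ≠ 0)
    (hθ : U M q / alpha2 M q (algebraMap Kb (Fb (M * q)) a₀) ∈ S.O v)
    (hb : Transcendental kB (ψ (RatFunc.C β * RatFunc.X)))
    (heq : ψ (RatFunc.C β * RatFunc.X) *
        S.res v ⟨U M q / alpha2 M q (algebraMap Kb (Fb (M * q)) a₀), hθ⟩ ^ q +
      ψ (RatFunc.C β * RatFunc.X) ^ 2 *
        S.res v ⟨U M q / alpha2 M q (algebraMap Kb (Fb (M * q)) a₀), hθ⟩ ^ (q - 1) =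
        algebraMap kB (Ft v) ρ)
    (hgen : IntermediateField.adjoin kB
      {ψ (RatFunc.C β * RatFunc.X),
        S.res v ⟨U M q / alpha2 M q (algebraMap Kb (Fb (M * q)) a₀), hθ⟩} = ⊤)
    {m : ℕ} (hm : m ≠ 0) (y : natSub S m)
    (hfix : ∀ s ∈ B.inertiaSubgroupIn ℚ,
      galAut (M * q * q) s • (y : Pic0 Kb (Fb (M * q * q))) = y) :
    (q + 1) • abRes hF hFt hm v y = 0 := by
  haveI : CharP kB q := Fermat.Agent.Val.charP_residueField_of_liesOverPrime B hB
  have ha₀0 : a₀ ≠ 0 := gauge_ne_zero ha1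
  have hqn : ¬ q ∣ q + 1 := by
    intro h
    have h1 : q ∣ 1 := (Nat.dvd_add_right (dvd_refl q)).mp h
    exact hq.out.one_lt.ne' (Nat.dvd_one.mp h1)
  obtain ⟨σ, hσ, ζ, -, hσa, -, -, hprim⟩ :=
    Fermat.Agent.BR3.TameSurj.exists_inertia_smul_root_primitive B hq.out hB hqn ha₀
  have hprim' : IsPrimitiveRoot
      (theta B (SemilinearAut.baseAut (galAut (M * q * q) σ)) a₀) (q + 1) := by
    rw [theta_galAut (M * q * q) B ha₀0 hσa]
    exact hprim
  exact smul_abRes_eq_zero_vert (annulusLevels_modular_final B hB hqM hne e).core a₀ ha1 ha2 S v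
    (alpha2 M q) hcomap huniq ψ hψ (galAut (M * q) σ) (galAut (M * q * q) σ)
    (alpha2_galAut σ) (isInertial_galAut (M * q * q) B hσ)
    (galAut_smul_coord B hB hqM hne e hσ) (galAut_smul_mem_tube_iff B hB hqM hne e hσ)
    hF hFt q hq2 hρ (U M q) (galAut_smul_U σ) hθ hb heq hgen hprim' hm y (hfix σ hσ)

end Final

end Fermat.Agent.BR3.VertEquivMod
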