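import Mathlib
import Fermat.Agent.BR3.VertEquivMod
import Fermat.Agent.BR3.HeckePoly
import Fermat.Agent.BR.S0.ThickFinal

/-!
# Program C (S36), node (I9-ze): the generator `U_g` of the vertical components is fixed by inertia;
the clause of `hvert` for an arbitrary inertia-fixed generator

* `galAut_smul_of_mem_modelField_K0`, `galAut_smul_of_mem_CMod` : a function of level `M` defined
  over the unramified constants `K₀ = ℚ(μ_{prime to q})` (in particular `g ∈ CMod M (W0 B q) (K0 q)`)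
  is fixed by the inertia group of `B`;
* **`galAut_smul_Ug`** : `U_g = β₂ (β g) - α₂ (α g)` (the generator of `z e` at EVERY supersingular
  crossing, `BR3/VertAll`) is fixed by the inertia group;
* **`exists_mapsComp_kill_vert_gen`** : the clause of `hvert` (`FullPlugSDD.hkindProp_of_input`,
  `e₂ = q + 1`) against `circleRing (annulusLevels_modular_final B hB hqM hne e).core a₀ ha1 ha2`
  (the shape of `VertAllFinal.exists_vertComponent_ss_gauge`) for an ARBITRARY generator `U₀` fixed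
  by the inertia group; `exists_mapsComp_kill_vert_Ug` : the instance `U₀ = U_g`.
-/

set_option autoImplicit false
set_option linter.unusedSectionVars false
set_option linter.unusedVariables false
set_option linter.style.haveILetI false
set_option synthInstance.maxHeartbeats 400000

noncomputable section

namespace Fermat.Agent.BR3.VertEquivUg

open Polynomial ModularCurve AlgebraicCurve IsLocalRing
open Fermat.Agent.X0 Fermat.Agent.Val Fermat.Agent.Red Fermat.Agent.BR.Kron Fermat.Agent.Jac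
open Fermat.Agent.BR.Circle Fermat.Agent.BR.S0 Fermat.Agent.BR.S0.RedModular
open Fermat.Agent.BR.S0.PointDict Fermat.Agent.BR.SS Fermat.Agent.BR2.Filt
open Fermat.Agent.BR.Inst.AnnulusInstFinal Fermat.Agent.BR.InertiaRed
open Fermat.Agent.BR3.FibreProd Fermat.Agent.BR3.InvFiniteTheta Fermat.Agent.BR3.CircleEquiv
open Fermat.Agent.BR3.VertEquiv Fermat.Agent.BR3.VertEquivKill Fermat.Agent.BR3.FiltPerm
open Fermat.Agent.BR3.FiltMaps Fermat.Agent.BR.AnnulusRed Fermat.Agent.BR.S0.Modular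
open Fermat.Agent.BR.S0.RedHyp Fermat.Agent.BR3.VertEquivMod Fermat.Agent.BR3.HeckePoly
open Fermat.Agent.BR.Inst.LevelsInst Fermat.Agent.BR.Inst.NormalModel
open Fermat.Agent.BR.Inst.NormalGen Fermat.Agent.BR.S0.ThickFinal Fermat.Agent.Hecke

variable {M q : ℕ} [NeZero M] [hq : Fact q.Prime]

section Fixed

variable (B : ValuationSubring Kb) (hB : B.LiesOverPrime q) {σ : GQ}

include hB in
/-- A function of level `M` defined over the unramified constants is fixed by inertia. -/
theorem galAut_smul_of_mem_modelField_K0 (hσ : σ ∈ B.inertiaSubgroupIn ℚ) {g : Fb M}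
    (hg : g ∈ modelField M (K0 q)) : galAut M σ • g = g :=
  Fermat.Agent.BR.Inst.InertiaBase.gal_smul_eq_of_mem_modelField_of_le B hq.out hB
    (E := K0 q) (fun _ hc => hc) hσ hg

include hB in
/-- A function of the canonical model of level `M` over `W₀ = B ∩ K₀` is fixed by inertia. -/
theorem galAut_smul_of_mem_CMod (hσ : σ ∈ B.inertiaSubgroupIn ℚ) {g : Fb M}
    (hg : g ∈ CMod M (W0 B q) (K0 q)) : galAut M σ • g = g :=
  galAut_smul_of_mem_modelField_K0 B hB hσ ((isModel_CMod M (W0 B q) (K0 q) g).1 hg).1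

/-- `U_g` is fixed by every `σ` fixing `g`. -/
theorem galAut_smul_Ug_of_fixed {σ : GQ} {g : Fb M} (hg : galAut M σ • g = g) :
    galAut (M * q * q) σ • Ug M q g = Ug M q g := by
  haveI : NeZero q := ⟨hq.out.ne_zero⟩
  have h1 : galAut (M * q * q) σ • beta2 M q (heckeBetaBar Kb M q g) =
      beta2 M q (heckeBetaBar Kb M q g) := by
    have e1 := heckeBetaBar_galAut M q σ g
    have e2 := heckeBetaBar_galAut (M * q) q σ (heckeBetaBar Kb M q g)
    rw [hg] at e1
    rw [← e1] at e2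
    exact e2.symm
  have h2 : galAut (M * q * q) σ • alpha2 M q (heckeAlphaBar Kb M q g) =
      alpha2 M q (heckeAlphaBar Kb M q g) := by
    have e1 := heckeAlphaBar_galAut M q σ g
    have e2 := heckeAlphaBar_galAut (M * q) q σ (heckeAlphaBar Kb M q g)
    rw [hg] at e1
    rw [← e1] at e2
    exact e2.symm
  rw [Ug, smul_sub, h1, h2]

include hB in
/-- **`U_g` is fixed by the inertia group**, `g ∈ CMod M (W0 B q) (K0 q)`. -/
theorem galAut_smul_Ug (hσ : σ ∈ B.inertiaSubgroupIn ℚ) {g : Fb M}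
    (hg : g ∈ CMod M (W0 B q) (K0 q)) :
    galAut (M * q * q) σ • Ug M q g = Ug M q g :=
  galAut_smul_Ug_of_fixed (galAut_smul_of_mem_CMod B hB hσ hg)

end Fixed

section Final

/-- shortcut instance (the search is slow) -/
local instance algResFtMUg (B : ValuationSubring Kb) :
    Algebra (ResidueField B) (modularFunctionFieldFullC (ResidueField B) M) := inferInstance

variable (B : ValuationSubring Kb) (hB : B.LiesOverPrime q) (hqM : ¬ q ∣ M)
  [IsAlgClosed (ResidueField B)]
  (hne : Nonempty (Crossing (chartDataModular B hB hqM)))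
  (e : Crossing (chartDataModular B hB hqM))

local notation "kB" => ResidueField B

variable (a₀ : Kb)
  (ha1 : B.valuation (annulusLevels_modular_final B hB hqM hne e).core.thick < B.valuation a₀)
  (ha2 : B.valuation a₀ < 1)
  {ι : Type*} {Ft : ι → Type*} [∀ v, Field (Ft v)] [∀ v, Algebra (ResidueField B) (Ft v)]
  {ν : Type*}
  (S : SemistableSetup (F := Fb (M * q * q)) B (residue B) ι Ft ν) (v : ι)
  (hcomap : (S.O v).comap (alpha2 M q : Fb (M * q) →+* Fb (M * q * q)) =
    circleRing (annulusLevels_modular_final B hB hqM hne e).core a₀ ha1 ha2)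
  (huniq : ∀ Z' : ValuationSubring (Fb (M * q * q)),
    Z'.comap (alpha2 M q : Fb (M * q) →+* Fb (M * q * q)) =
      circleRing (annulusLevels_modular_final B hB hqM hne e).core a₀ ha1 ha2 → Z' = S.O v)
  (ψ : RatFunc (ResidueField B) →+* Ft v)
  (hψ : ∀ (y : circleRing (annulusLevels_modular_final B hB hqM hne e).core a₀ ha1 ha2)
    (h : alpha2 M q (y : Fb (M * q)) ∈ S.O v),
    S.res v ⟨alpha2 M q (y : Fb (M * q)), h⟩ =
      ψ (circleRes (annulusLevels_modular_final B hB hqM hne e).core a₀ ha1 ha2 y))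

include hcomap huniq hψ in
/-- **The clause of `hvert`** (`e₂ = q + 1`) at a vertical component, for an arbitrary generator
`U₀` fixed by the inertia group, every prime `q`. -/
theorem exists_mapsComp_kill_vert_gen (ha₀ : a₀ ^ (q + 1) = (q : Kb))
    (U₀ : Fb (M * q * q))
    (hU₀ : ∀ s ∈ B.inertiaSubgroupIn ℚ, galAut (M * q * q) s • U₀ = U₀)
    {β ρ : kB} (hρ : ρ ≠ 0)
    (hθ : U₀ / alpha2 M q (algebraMap Kb (Fb (M * q)) a₀) ∈ S.O v)
    (hb : Transcendental kB (ψ (RatFunc.C β * RatFunc.X)))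
    (heq : ψ (RatFunc.C β * RatFunc.X) *
        S.res v ⟨U₀ / alpha2 M q (algebraMap Kb (Fb (M * q)) a₀), hθ⟩ ^ q +
      ψ (RatFunc.C β * RatFunc.X) ^ 2 *
        S.res v ⟨U₀ / alpha2 M q (algebraMap Kb (Fb (M * q)) a₀), hθ⟩ ^ (q - 1) =
        algebraMap kB (Ft v) ρ)
    (hgen : IntermediateField.adjoin kB
      {ψ (RatFunc.C β * RatFunc.X),
        S.res v ⟨U₀ / alpha2 M q (algebraMap Kb (Fb (M * q)) a₀), hθ⟩} = ⊤) :
    ∃ s ∈ B.inertiaSubgroupIn ℚ, ∃ a : Ft v ≃ₐ[kB] Ft v,
      MapsComp S (galAut (M * q * q) s) v v a ∧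
      ∀ x : Pic0 kB (Ft v), SemilinearAut.ofAlgAut a • x = x → (q + 1) • x = 0 := by
  haveI : CharP kB q := Fermat.Agent.Val.charP_residueField_of_liesOverPrime B hB
  have ha₀0 : a₀ ≠ 0 := gauge_ne_zero ha1
  have hqn : ¬ q ∣ q + 1 := by
    intro h
    have h1 : q ∣ 1 := (Nat.dvd_add_right (dvd_refl q)).mp h
    exact hq.out.one_lt.ne' (Nat.dvd_one.mp h1)
  obtain ⟨σ, hσ, ζ, -, hσa, -, -, hprim⟩ :=
    Fermat.Agent.BR3.TameSurj.exists_inertia_smul_root_primitive B hq.out hB hqn ha₀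
  obtain ⟨a, ha, -, hab, haU⟩ :=
    exists_mapsComp_vert (annulusLevels_modular_final B hB hqM hne e).core a₀ ha1 ha2 S v
      (alpha2 M q) hcomap huniq ψ hψ (galAut (M * q) σ) (galAut (M * q * q) σ)
      (alpha2_galAut σ) (isInertial_galAut (M * q * q) B hσ)
      (galAut_smul_coord B hB hqM hne e hσ) (galAut_smul_mem_tube_iff B hB hqM hne e hσ)
  rw [theta_galAut (M * q * q) B ha₀0 hσa] at hab haU
  refine ⟨σ, hσ, a, ha, fun x hx => ?_⟩
  by_cases hq2 : q = 2
  · subst hq2
    have heq' : ψ (RatFunc.C β * RatFunc.X) *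
        S.res v ⟨U₀ / alpha2 M 2 (algebraMap Kb (Fb (M * 2)) a₀), hθ⟩ ^ 2 +
      ψ (RatFunc.C β * RatFunc.X) ^ 2 *
        S.res v ⟨U₀ / alpha2 M 2 (algebraMap Kb (Fb (M * 2)) a₀), hθ⟩ =
        algebraMap kB (Ft v) ρ := by
      simpa using heq
    exact Fermat.Agent.BR3.VertCurve.vert_smul_eq_zero_of_fixed_two hρ hb heq' hgen hprim.inv
      (hab β) (haU U₀ (hU₀ σ hσ) hθ) x hx
  · exact Fermat.Agent.BR3.VertCurve.vert_smul_eq_zero_of_fixed q hq2 hρ hb heq hgen hprim.inv
      (hab β) (haU U₀ (hU₀ σ hσ) hθ) x hx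

include hcomap huniq hψ in
/-- **The clause of `hvert`** with the generator `U_g`, `g ∈ CMod M (W0 B q) (K0 q)` (the shape of
`VertAllFinal.exists_vertComponent_ss_gauge`, every supersingular crossing). -/
theorem exists_mapsComp_kill_vert_Ug (ha₀ : a₀ ^ (q + 1) = (q : Kb))
    {g : Fb M} (hg : g ∈ CMod M (W0 B q) (K0 q))
    {β ρ : kB} (hρ : ρ ≠ 0)
    (hθ : Ug M q g / alpha2 M q (algebraMap Kb (Fb (M * q)) a₀) ∈ S.O v)
    (hb : Transcendental kB (ψ (RatFunc.C β * RatFunc.X)))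
    (heq : ψ (RatFunc.C β * RatFunc.X) *
        S.res v ⟨Ug M q g / alpha2 M q (algebraMap Kb (Fb (M * q)) a₀), hθ⟩ ^ q +
      ψ (RatFunc.C β * RatFunc.X) ^ 2 *
        S.res v ⟨Ug M q g / alpha2 M q (algebraMap Kb (Fb (M * q)) a₀), hθ⟩ ^ (q - 1) =
        algebraMap kB (Ft v) ρ)
    (hgen : IntermediateField.adjoin kB
      {ψ (RatFunc.C β * RatFunc.X),
        S.res v ⟨Ug M q g / alpha2 M q (algebraMap Kb (Fb (M * q)) a₀), hθ⟩} = ⊤) :
    ∃ s ∈ B.inertiaSubgroupIn ℚ, ∃ a : Ft v ≃ₐ[kB] Ft v,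
      MapsComp S (galAut (M * q * q) s) v v a ∧
      ∀ x : Pic0 kB (Ft v), SemilinearAut.ofAlgAut a • x = x → (q + 1) • x = 0 :=
  exists_mapsComp_kill_vert_gen B hB hqM hne e a₀ ha1 ha2 S v hcomap huniq ψ hψ ha₀ (Ug M q g)
    (fun s hs => galAut_smul_Ug B hB hs hg) hρ hθ hb heq hgen

end Final

end Fermat.Agent.BR3.VertEquivUg
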