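import Mathlib
import Fermat.Agent.BR3.VertPtsDef
import Fermat.Agent.BR3.IgSq.Uniform

/-!
# Program C (S36), node (ZE-PTS-U): the Kummer points of `z e`, uniformly in the prime `q`

Setting of `BR3/VertPtsDef`: `L = k(b, U)`, `b U ^ q + b ^ 2 U ^ (q - 1) = ρ`, `k` algebraically
closed of characteristic `q`.

* `KPq q := Fin (IgSq.midCard q)` (`Fin 1` for `q = 2`, `Fin 2` for `q` odd), `card_KPq`,
  `hd_KPq : IgSq.midDeg q * card (KPq q) + 1 = q`, `rev q := Fin.revPerm`, `rev_transitive`;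
* `rootsK q ρ : KPq q → k` : the square roots of `ρ` (`rootsK_sq`, `rootsK_injective`,
  `rootsK_surj`, `rootsK_rev : rootsK (rev s) = - rootsK s`);
* `ptKU q hρ hb heq hgen c hc` (`c ^ 2 = ρ`) : the zero of `U` with `b U ^ ((q - 1) / 2) ≡ c`
  (`= ptK c` for `q` odd, `= ptK₂` for `q = 2`) with its orders, values, distinctness and
  exhaustion lemmas, uniform in `q`;
* on `AdjoinRoot (vertBar q β ρ)`: `ptKFam q hβ hρ : KPq q → Place k _`, `ptKFam_eq_ptKBar`,
  `ptKFam_eq_ptKBar₂`, `ptKFam_injective`, `ptIBar_ne_ptKFam`, `ptZBar_ne_ptKFam`,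
  `ptZBar_ne_ptIBar`, `ord_U_pos_iff_fam`, `ord_eq_zero_of_ne_fam`.
-/

set_option autoImplicit false
set_option linter.unusedSectionVars false

open AlgebraicCurve Polynomial

namespace Fermat.Agent.BR3.VertPtsU

open Fermat.Agent.Red Fermat.Agent.BR3.VertPts Fermat.Agent.BR3.VertPtsDef Fermat.Agent.BR3.IgSq

/-! ### the index type -/

section Index

/-- **the index type of the Kummer points**: `Fin 1` for `q = 2`, `Fin 2` for `q` odd -/
abbrev KPq (q : ℕ) : Type := Fin (midCard q)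

theorem midCard_eq (q : ℕ) : midCard q = 1 ∨ midCard q = 2 := by
  unfold midCard
  split_ifs
  · exact Or.inl rfl
  · exact Or.inr rfl

theorem midCard_eq_one {q : ℕ} (h : q = 2) : midCard q = 1 := by
  unfold midCard
  rw [if_pos h]

theorem midCard_eq_two {q : ℕ} (h : q ≠ 2) : midCard q = 2 := by
  unfold midCard
  rw [if_neg h]

instance neZero_midCard (q : ℕ) : NeZero (midCard q) :=
  ⟨by rcases midCard_eq q with h | h <;> rw [h] <;> norm_num⟩

instance nonempty_KPq (q : ℕ) : Nonempty (KPq q) := ⟨0⟩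

instance inhabited_KPq (q : ℕ) : Inhabited (KPq q) := ⟨0⟩

theorem card_KPq (q : ℕ) : Fintype.card (KPq q) = midCard q := Fintype.card_fin _

theorem card_KPq_two : Fintype.card (KPq 2) = 1 := Fintype.card_fin _

theorem card_KPq_of_ne_two {q : ℕ} (h : q ≠ 2) : Fintype.card (KPq q) = 2 := by
  rw [card_KPq, midCard_eq_two h]

theorem card_KPq_eq_ite (q : ℕ) : Fintype.card (KPq q) = if q = 2 then 1 else 2 := card_KPq q

/-- `d * |KP| + 1 = q` -/
theorem hd_KPq {q : ℕ} (hq : q.Prime) : midDeg q * Fintype.card (KPq q) + 1 = q := by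
  rw [card_KPq]
  exact midDeg_mul_midCard hq

theorem subsingleton_KPq {q : ℕ} (h : q = 2) : Subsingleton (KPq q) := by
  have h1 : midCard q = 1 := midCard_eq_one h
  constructor
  intro s s'
  apply Fin.ext
  have h3 : s.val < midCard q := s.2
  have h4 : s'.val < midCard q := s'.2
  omega

theorem val_eq_zero_of_two {q : ℕ} (h : q = 2) (s : KPq q) : s.val = 0 := by
  have h1 : midCard q = 1 := midCard_eq_one h
  have h3 : s.val < midCard q := s.2
  omega

/-- the reversal of the index type (the swap of the two Kummer points for `q` odd) -/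
def rev (q : ℕ) : Equiv.Perm (KPq q) := Fin.revPerm

theorem rev_apply (q : ℕ) (s : KPq q) : rev q s = Fin.rev s := rfl

theorem val_rev (q : ℕ) (s : KPq q) : (rev q s).val = midCard q - (s.val + 1) := Fin.val_rev s

theorem rev_rev (q : ℕ) (s : KPq q) : rev q (rev q s) = s := Fin.rev_rev s

theorem rev_ne_self {q : ℕ} (h : q ≠ 2) (s : KPq q) : rev q s ≠ s := by
  intro hs
  have h1 := congrArg Fin.val hs
  rw [val_rev] at h1
  have h2 := midCard_eq_two h
  have h3 : s.val < midCard q := s.2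
  omega

theorem eq_or_eq_rev (q : ℕ) (s s' : KPq q) : s' = s ∨ s' = rev q s := by
  rcases midCard_eq q with h | h
  · left
    apply Fin.ext
    have h3 : s.val < midCard q := s.2
    have h4 : s'.val < midCard q := s'.2
    omega
  · by_cases hss : s'.val = s.val
    · exact Or.inl (Fin.ext hss)
    · right
      apply Fin.ext
      rw [val_rev]
      have h3 : s.val < midCard q := s.2
      have h4 : s'.val < midCard q := s'.2
      omega

/-- the reversal is transitive on the index type -/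
theorem rev_transitive (q : ℕ) (s s' : KPq q) : ∃ n : ℕ, ((rev q) ^ n) s = s' := by
  rcases eq_or_eq_rev q s s' with h | h
  · exact ⟨0, h.symm⟩
  · exact ⟨1, by rw [pow_one]; exact h.symm⟩

end Index

/-! ### the square roots of `ρ` -/

section Roots

variable {k : Type*} [Field k] [IsAlgClosed k]

/-- a chosen square root -/
noncomputable def sqrtK (ρ : k) : k :=
  Classical.choose (IsAlgClosed.exists_pow_nat_eq ρ (n := 2) two_pos)

theorem sqrtK_sq (ρ : k) : sqrtK ρ ^ 2 = ρ :=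
  Classical.choose_spec (IsAlgClosed.exists_pow_nat_eq ρ (n := 2) two_pos)

/-- **the square roots of `ρ`**, indexed by `KPq q` -/
noncomputable def rootsK (q : ℕ) (ρ : k) (s : KPq q) : k :=
  if s.val = 0 then sqrtK ρ else -sqrtK ρ

theorem rootsK_sq (q : ℕ) (ρ : k) (s : KPq q) : rootsK q ρ s ^ 2 = ρ := by
  unfold rootsK
  split_ifs
  · exact sqrtK_sq ρ
  · rw [neg_sq]
    exact sqrtK_sq ρ

variable (q : ℕ) [hq : Fact q.Prime] [CharP k q]

theorem neg_eq_self_of_two (h : q = 2) (c : k) : -c = c := by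
  subst h
  exact CharTwo.neg_eq c

theorem rootsK_rev (ρ : k) (s : KPq q) : rootsK q ρ (rev q s) = -rootsK q ρ s := by
  by_cases h : q = 2
  · have hs : rev q s = s := (subsingleton_KPq h).elim _ _
    rw [hs, neg_eq_self_of_two q h]
  · have h2 := midCard_eq_two h
    have hs : s.val < midCard q := s.2
    have hv := val_rev q s
    unfold rootsK
    by_cases h0 : s.val = 0
    · rw [if_pos h0, if_neg (by omega)]
    · rw [if_neg h0, if_pos (by omega), neg_neg]

theorem rootsK_injective {ρ : k} (hρ : ρ ≠ 0) : Function.Injective (rootsK (k := k) q ρ) := by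
  intro s s' hss
  by_cases h : q = 2
  · exact (subsingleton_KPq h).elim _ _
  · rcases eq_or_eq_rev q s s' with h1 | h1
    · exact h1.symm
    · exfalso
      rw [h1, rootsK_rev] at hss
      exact ne_neg_of_sq q h hρ (rootsK_sq q ρ s) hss

theorem rootsK_surj (ρ : k) {c : k} (hc : c ^ 2 = ρ) : ∃ s : KPq q, rootsK q ρ s = c := by
  have h1 : (c - sqrtK ρ) * (c + sqrtK ρ) = 0 := by
    have := sqrtK_sq ρ
    linear_combination hc - this
  have h0 : rootsK q ρ (0 : KPq q) = sqrtK ρ := by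
    unfold rootsK
    rw [if_pos (Fin.val_zero _)]
  rcases mul_eq_zero.mp h1 with h | h
  · exact ⟨0, by rw [h0]; exact (sub_eq_zero.mp h).symm⟩
  · refine ⟨rev q 0, ?_⟩
    rw [rootsK_rev, h0]
    linear_combination -h

theorem rootsK_ne_zero {ρ : k} (hρ : ρ ≠ 0) (s : KPq q) : rootsK q ρ s ≠ 0 := by
  intro h
  have := rootsK_sq q ρ s
  rw [h, zero_pow two_ne_zero] at this
  exact hρ this.symm

end Roots

/-! ### the uniform Kummer point on `L = k(b, U)` -/

section Uniform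

variable {k L : Type*} [Field k] [Field L] [Algebra k L] [IsAlgClosed k]
variable (q : ℕ) [hq : Fact q.Prime] [CharP k q] {ρ : k} {b U : L}

/-- the zero of `U` with `b U ^ ((q - 1) / 2) ≡ c` (no condition for `q = 2`) -/
theorem exists_ptKU (hρ : ρ ≠ 0) (hb : Transcendental k b)
    (heq : b * U ^ q + b ^ 2 * U ^ (q - 1) = algebraMap k L ρ)
    (hgen : IntermediateField.adjoin k {b, U} = ⊤) {c : k} (hc : c ^ 2 = ρ) :
    ∃ Pc : Place k L, ∀ P : Place k L,
      (0 < P.ord U ∧ (q ≠ 2 → IsValueAt P (b * U ^ ((q - 1) / 2)) c)) ↔ P = Pc := by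
  by_cases hq2 : q = 2
  · subst hq2
    have heq' : b * U ^ 2 + b ^ 2 * U = algebraMap k L ρ := by simpa using heq
    refine ⟨ptK₂ hρ hb heq' hgen, fun P => ?_⟩
    rw [← ord_U_pos_iff₂ hρ hb heq' hgen P]
    exact ⟨fun h => h.1, fun h => ⟨h, fun h2 => absurd rfl h2⟩⟩
  · refine ⟨ptK q hq2 hρ hb heq hgen c hc, fun P => ?_⟩
    rw [← eq_ptK_iff q hq2 hρ hb heq hgen hc P]
    exact ⟨fun h => ⟨h.1, h.2 hq2⟩, fun h => ⟨h.1, fun _ => h.2⟩⟩

/-- **the Kummer point of `z e` attached to the square root `c` of `ρ`, all primes `q`** -/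
noncomputable def ptKU (hρ : ρ ≠ 0) (hb : Transcendental k b)
    (heq : b * U ^ q + b ^ 2 * U ^ (q - 1) = algebraMap k L ρ)
    (hgen : IntermediateField.adjoin k {b, U} = ⊤) (c : k) (hc : c ^ 2 = ρ) : Place k L :=
  Classical.choose (exists_ptKU q hρ hb heq hgen hc)

variable (hρ : ρ ≠ 0) (hb : Transcendental k b)
  (heq : b * U ^ q + b ^ 2 * U ^ (q - 1) = algebraMap k L ρ)
  (hgen : IntermediateField.adjoin k {b, U} = ⊤) {c : k} (hc : c ^ 2 = ρ)

theorem eq_ptKU_iff (P : Place k L) :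
    (0 < P.ord U ∧ (q ≠ 2 → IsValueAt P (b * U ^ ((q - 1) / 2)) c)) ↔
      P = ptKU q hρ hb heq hgen c hc :=
  Classical.choose_spec (exists_ptKU q hρ hb heq hgen hc) P

/-- for `q` odd the uniform point is `ptK c` -/
theorem ptKU_eq_ptK (hq2 : q ≠ 2) :
    ptKU q hρ hb heq hgen c hc = ptK q hq2 hρ hb heq hgen c hc := by
  symm
  rw [← eq_ptKU_iff]
  exact ⟨by rw [ord_U_ptK]; norm_num, fun _ => isValueAt_theta_ptK q hq2 hρ hb heq hgen hc⟩

theorem ord_U_ptKU_pos : 0 < (ptKU q hρ hb heq hgen c hc).ord U :=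
  ((eq_ptKU_iff q hρ hb heq hgen hc _).mpr rfl).1

theorem isValueAt_theta_ptKU (hq2 : q ≠ 2) :
    IsValueAt (ptKU q hρ hb heq hgen c hc) (b * U ^ ((q - 1) / 2)) c :=
  ((eq_ptKU_iff q hρ hb heq hgen hc _).mpr rfl).2 hq2

end Uniform

section UniformTwo

variable {k L : Type*} [Field k] [Field L] [Algebra k L] [IsAlgClosed k]
variable [CharP k 2] {ρ : k} {b U : L}

/-- for `q = 2` the uniform point is `ptK₂` -/
theorem ptKU_eq_ptK₂ (hρ : ρ ≠ 0) (hb : Transcendental k b)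
    (heq : b * U ^ 2 + b ^ 2 * U = algebraMap k L ρ)
    (hgen : IntermediateField.adjoin k {b, U} = ⊤) {c : k} (hc : c ^ 2 = ρ) :
    ptKU 2 hρ hb (heq_two heq) hgen c hc = ptK₂ hρ hb heq hgen := by
  symm
  rw [← eq_ptKU_iff]
  exact ⟨by rw [ord_U_ptK₂]; norm_num, fun h => absurd rfl h⟩

end UniformTwo

section UniformLemmas

variable {k L : Type*} [Field k] [Field L] [Algebra k L] [IsAlgClosed k]
variable (q : ℕ) [hq : Fact q.Prime] [CharP k q] {ρ : k} {b U : L}
variable (hρ : ρ ≠ 0) (hb : Transcendental k b)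
  (heq : b * U ^ q + b ^ 2 * U ^ (q - 1) = algebraMap k L ρ)
  (hgen : IntermediateField.adjoin k {b, U} = ⊤) {c : k} (hc : c ^ 2 = ρ)

/-- the order of `U` at the Kummer point: `1` for `q` odd, `2` for `q = 2` -/
theorem ord_U_ptKU : (ptKU q hρ hb heq hgen c hc).ord U = if q = 2 then 2 else 1 := by
  by_cases hq2 : q = 2
  · subst hq2
    have heq' : b * U ^ 2 + b ^ 2 * U = algebraMap k L ρ := by simpa using heq
    rw [if_pos rfl, show heq = heq_two heq' from rfl, ptKU_eq_ptK₂ hρ hb heq' hgen hc,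
      ord_U_ptK₂]
  · rw [if_neg hq2, ptKU_eq_ptK q hρ hb heq hgen hc hq2, ord_U_ptK]

/-- the order of `b` at the Kummer point is `- midDeg q` -/
theorem ord_b_ptKU : (ptKU q hρ hb heq hgen c hc).ord b = -((midDeg q : ℕ) : ℤ) := by
  by_cases hq2 : q = 2
  · subst hq2
    have heq' : b * U ^ 2 + b ^ 2 * U = algebraMap k L ρ := by simpa using heq
    rw [show heq = heq_two heq' from rfl, ptKU_eq_ptK₂ hρ hb heq' hgen hc, ord_b_ptK₂,
      midDeg_two]
    norm_num
  · rw [ptKU_eq_ptK q hρ hb heq hgen hc hq2, ord_b_ptK, midDeg_of_ne_two hq2]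

/-- the order of `U + b` at the Kummer point is `- midDeg q` -/
theorem ord_add_ptKU : (ptKU q hρ hb heq hgen c hc).ord (U + b) = -((midDeg q : ℕ) : ℤ) := by
  by_cases hq2 : q = 2
  · subst hq2
    have heq' : b * U ^ 2 + b ^ 2 * U = algebraMap k L ρ := by simpa using heq
    rw [show heq = heq_two heq' from rfl, ptKU_eq_ptK₂ hρ hb heq' hgen hc, ord_add_ptK₂,
      midDeg_two]
    norm_num
  · rw [ptKU_eq_ptK q hρ hb heq hgen hc hq2, ord_add_ptK, midDeg_of_ne_two hq2]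

/-- `U / b` vanishes at the Kummer point -/
theorem isValueAt_ptKU : IsValueAt (ptKU q hρ hb heq hgen c hc) (U / b) 0 := by
  by_cases hq2 : q = 2
  · subst hq2
    have heq' : b * U ^ 2 + b ^ 2 * U = algebraMap k L ρ := by simpa using heq
    rw [show heq = heq_two heq' from rfl, ptKU_eq_ptK₂ hρ hb heq' hgen hc]
    exact isValueAt_ptK₂ hρ hb heq' hgen
  · rw [ptKU_eq_ptK q hρ hb heq hgen hc hq2]
    exact isValueAt_ptK q hq2 hρ hb heq hgen hc

/-- the zeros of `U` are the Kummer points -/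
theorem ord_U_pos_iffU (P : Place k L) :
    0 < P.ord U ↔ ∃ (c : k) (hc : c ^ 2 = ρ), P = ptKU q hρ hb heq hgen c hc := by
  constructor
  · intro h
    by_cases hq2 : q = 2
    · obtain ⟨c, hc⟩ := IsAlgClosed.exists_pow_nat_eq ρ (n := 2) two_pos
      exact ⟨c, hc, (eq_ptKU_iff q hρ hb heq hgen hc P).mp ⟨h, fun h2 => absurd hq2 h2⟩⟩
    · obtain ⟨c, hc⟩ := IsAlgClosed.exists_pow_nat_eq ρ (n := 2) two_pos
      rcases (ord_U_pos_iff q hq2 hρ hb heq hgen hc P).mp h with h1 | h1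
      · exact ⟨c, hc, by rw [h1, ptKU_eq_ptK q hρ hb heq hgen hc hq2]⟩
      · exact ⟨-c, neg_sq_eq hc, by
          rw [h1, ptKU_eq_ptK q hρ hb heq hgen (neg_sq_eq hc) hq2]⟩
  · rintro ⟨c, hc, rfl⟩
    exact ord_U_ptKU_pos q hρ hb heq hgen hc

/-- the Kummer points attached to different square roots are different -/
theorem ptKU_injective {c' : k} (hc' : c' ^ 2 = ρ)
    (h : ptKU q hρ hb heq hgen c hc = ptKU q hρ hb heq hgen c' hc') : c = c' := by
  by_cases hq2 : q = 2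
  · have h1 : (c - c') * (c + c') = 0 := by linear_combination hc - hc'
    rcases mul_eq_zero.mp h1 with h2 | h2
    · exact sub_eq_zero.mp h2
    · have h3 : c = -c' := by linear_combination h2
      rw [h3, neg_eq_self_of_two q hq2]
  · have h1 := isValueAt_theta_ptKU q hρ hb heq hgen hc hq2
    have h2 := isValueAt_theta_ptKU q hρ hb heq hgen hc' hq2
    rw [h] at h1
    exact h1.unique h2

theorem ptKU_ne_of_ne {c' : k} (hc' : c' ^ 2 = ρ) (hcc : c ≠ c') :
    ptKU q hρ hb heq hgen c hc ≠ ptKU q hρ hb heq hgen c' hc' := fun h =>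
  hcc (ptKU_injective q hρ hb heq hgen hc hc' h)

theorem ptZ_ne_ptKU : ptZ q hρ hb heq hgen ≠ ptKU q hρ hb heq hgen c hc := by
  intro h
  have h1 := ord_U_ptZ q hρ hb heq hgen
  have h2 := ord_U_ptKU_pos q hρ hb heq hgen hc
  rw [← h, h1] at h2
  omega

theorem ptI_ne_ptKU : ptI q hρ hb heq hgen ≠ ptKU q hρ hb heq hgen c hc := by
  intro h
  have h1 := ord_U_ptI q hρ hb heq hgen
  have h2 := ord_U_ptKU_pos q hρ hb heq hgen hc
  rw [← h, h1] at h2
  omega

include hq hρ heq in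
/-- the local classification, all `q` -/
theorem ord_typesU (P : Place k L) :
    (P.ord U = 0 ∧ P.ord b = 0 ∧ P.ord (U + b) = 0) ∨ P.ord U < 0 ∨ 0 < P.ord U := by
  rcases ord_types hq.out.two_le hρ heq P with h | ⟨h, -, -⟩ | ⟨h, -, -⟩ | ⟨h, -, -⟩
  · exact Or.inl h
  · exact Or.inr (Or.inl h)
  · exact Or.inr (Or.inl h)
  · exact Or.inr (Or.inr h)

/-- **exhaustion, all `q`**: away from `ptZ`, `ptI` and the Kummer points the orders of `b`, `U`,
`U + b` vanish -/
theorem ord_eq_zero_of_ne_familyU {P : Place k L} (hz : P ≠ ptZ q hρ hb heq hgen)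
    (hi : P ≠ ptI q hρ hb heq hgen)
    (hk : ∀ (c : k) (hc : c ^ 2 = ρ), P ≠ ptKU q hρ hb heq hgen c hc) :
    P.ord b = 0 ∧ P.ord U = 0 ∧ P.ord (U + b) = 0 := by
  rcases ord_typesU q hρ heq P with h | h | h
  · exact ⟨h.2.1, h.1, h.2.2⟩
  · rcases (ord_U_neg_iff q hρ hb heq hgen P).mp h with h' | h'
    · exact absurd h' hz
    · exact absurd h' hi
  · obtain ⟨c, hc, h'⟩ := (ord_U_pos_iffU q hρ hb heq hgen P).mp h
    exact absurd h' (hk c hc)

end UniformLemmas

/-! ### the family on `AdjoinRoot (vertBar q β ρ)` -/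

section VertBar

open Fermat.Agent.BR3.VertResidue Fermat.Agent.BR3.VertResField

variable {k : Type*} [Field k] [IsAlgClosed k]

local notation "T" => (RatFunc.X : RatFunc k)

variable (q : ℕ) [hq : Fact q.Prime] [CharP k q] {β ρ : k}
  [hP : Fact (Irreducible (vertBar q β ρ))]

/-- **the Kummer points of `z e`**, indexed by `KPq q`, on `AdjoinRoot (vertBar q β ρ)` -/
noncomputable def ptKFam (hβ : β ≠ 0) (hρ : ρ ≠ 0) (s : KPq q) :
    Place k (AdjoinRoot (vertBar q β ρ)) :=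
  ptKU q hρ (vertBar_hb (q := q) (ρ := ρ) hβ) (vertBar_heq hβ) (vertBar_hgen hβ)
    (rootsK q ρ s) (rootsK_sq q ρ s)

variable (hβ : β ≠ 0) (hρ : ρ ≠ 0)

theorem ptKFam_eq_ptKBar (hq2 : q ≠ 2) (s : KPq q) :
    ptKFam q hβ hρ s = ptKBar q hq2 hβ hρ (rootsK q ρ s) (rootsK_sq q ρ s) :=
  ptKU_eq_ptK q hρ _ _ _ _ hq2

theorem ord_U_ptKFam_pos (s : KPq q) :
    0 < (ptKFam q hβ hρ s).ord (AdjoinRoot.root (vertBar q β ρ)) :=
  ord_U_ptKU_pos q hρ _ _ _ _

theorem ord_U_ptKFam (s : KPq q) :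
    (ptKFam q hβ hρ s).ord (AdjoinRoot.root (vertBar q β ρ)) = if q = 2 then 2 else 1 :=
  ord_U_ptKU q hρ _ _ _ _

theorem ord_b_ptKFam (s : KPq q) :
    (ptKFam q hβ hρ s).ord (AdjoinRoot.of (vertBar q β ρ) (RatFunc.C β * T)) =
      -((midDeg q : ℕ) : ℤ) :=
  ord_b_ptKU q hρ _ _ _ _

theorem ord_add_ptKFam (s : KPq q) :
    (ptKFam q hβ hρ s).ord (AdjoinRoot.root (vertBar q β ρ) +
      AdjoinRoot.of (vertBar q β ρ) (RatFunc.C β * T)) = -((midDeg q : ℕ) : ℤ) :=
  ord_add_ptKU q hρ _ _ _ _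

theorem isValueAt_ptKFam (s : KPq q) :
    IsValueAt (ptKFam q hβ hρ s)
      (AdjoinRoot.root (vertBar q β ρ) / AdjoinRoot.of (vertBar q β ρ) (RatFunc.C β * T)) 0 :=
  isValueAt_ptKU q hρ _ _ _ _

theorem isValueAt_theta_ptKFam (hq2 : q ≠ 2) (s : KPq q) :
    IsValueAt (ptKFam q hβ hρ s)
      (AdjoinRoot.of (vertBar q β ρ) (RatFunc.C β * T) *
        AdjoinRoot.root (vertBar q β ρ) ^ ((q - 1) / 2)) (rootsK q ρ s) :=
  isValueAt_theta_ptKU q hρ _ _ _ _ hq2

theorem ptKFam_injective : Function.Injective (ptKFam (k := k) q hβ hρ) := by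
  intro s s' h
  exact rootsK_injective q hρ (ptKU_injective q hρ _ _ _ _ _ h)

theorem ptZBar_ne_ptKFam (s : KPq q) : ptZBar q hβ hρ ≠ ptKFam q hβ hρ s :=
  ptZ_ne_ptKU q hρ _ _ _ _

theorem ptIBar_ne_ptKFam (s : KPq q) : ptIBar q hβ hρ ≠ ptKFam q hβ hρ s :=
  ptI_ne_ptKU q hρ _ _ _ _

theorem ptZBar_ne_ptIBar : ptZBar q hβ hρ ≠ ptIBar q hβ hρ :=
  ptZ_ne_ptI q hρ _ _ _

/-- the zeros of `Ũ` are the points of the family -/
theorem ord_U_pos_iff_fam (P : Place k (AdjoinRoot (vertBar q β ρ))) :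
    0 < P.ord (AdjoinRoot.root (vertBar q β ρ)) ↔ ∃ s : KPq q, P = ptKFam q hβ hρ s := by
  constructor
  · intro h
    obtain ⟨c, hc, hP'⟩ := (ord_U_pos_iffU q hρ (vertBar_hb (q := q) (ρ := ρ) hβ)
      (vertBar_heq hβ) (vertBar_hgen hβ) P).mp h
    obtain ⟨s, hs⟩ := rootsK_surj q ρ hc
    refine ⟨s, ?_⟩
    subst hs
    exact hP'
  · rintro ⟨s, rfl⟩
    exact ord_U_ptKFam_pos q hβ hρ s

/-- **exhaustion, uniform in `q`**: away from `ptZBar`, `ptIBar` and the points of the family the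
orders of `b̃`, `Ũ`, `Ũ + b̃` vanish -/
theorem ord_eq_zero_of_ne_fam {P : Place k (AdjoinRoot (vertBar q β ρ))}
    (hz : P ≠ ptZBar q hβ hρ) (hi : P ≠ ptIBar q hβ hρ) (hk : ∀ s : KPq q, P ≠ ptKFam q hβ hρ s) :
    P.ord (AdjoinRoot.of (vertBar q β ρ) (RatFunc.C β * T)) = 0 ∧
      P.ord (AdjoinRoot.root (vertBar q β ρ)) = 0 ∧
      P.ord (AdjoinRoot.root (vertBar q β ρ) +
        AdjoinRoot.of (vertBar q β ρ) (RatFunc.C β * T)) = 0 := by
  refine ord_eq_zero_of_ne_familyU q hρ (vertBar_hb (q := q) (ρ := ρ) hβ) (vertBar_heq hβ)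
    (vertBar_hgen hβ) hz hi fun c hc h => ?_
  obtain ⟨s, hs⟩ := rootsK_surj q ρ hc
  subst hs
  exact hk s h

/-- the reversal of the index is the other Kummer point (`q` odd: the other square root) -/
theorem ptKFam_rev (hq2 : q ≠ 2) (s : KPq q) :
    ptKFam q hβ hρ (rev q s) =
      ptKBar q hq2 hβ hρ (-rootsK q ρ s) (neg_sq_eq (rootsK_sq q ρ s)) := by
  rw [ptKFam_eq_ptKBar q hβ hρ hq2]
  congr 1
  exact rootsK_rev q ρ s

end VertBar

section VertBarTwo

open Fermat.Agent.BR3.VertResidue Fermat.Agent.BR3.VertResField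

variable {k : Type*} [Field k] [IsAlgClosed k] [CharP k 2] {β ρ : k}
  [hP : Fact (Irreducible (vertBar 2 β ρ))]

/-- for `q = 2` the family is the single point `ptKBar₂` -/
theorem ptKFam_eq_ptKBar₂ (hβ : β ≠ 0) (hρ : ρ ≠ 0) (s : KPq 2) :
    ptKFam 2 hβ hρ s = ptKBar₂ hβ hρ :=
  ptKU_eq_ptK₂ hρ _ (vertBar_heq_two hβ) _ _

end VertBarTwo

end Fermat.Agent.BR3.VertPtsU
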