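import Mathlib
import Fermat.Agent.BR3.VertPtsU

/-!
# Program C (S36), node (ZE-WIRE), generic part: genus and Riemann package of the residue field of
`z e`, uniformly in the prime `q`

* `genusFF_vertBar_unif` : `g (AdjoinRoot (vertBar q β ρ)) = IgSq.midDeg q` for every prime `q`
  (`(q - 1) / 2` for `q` odd, `1` for `q = 2`);
* `genusFF_vertBar_int` : the same as an equality in `ℤ` (the shape `hze` of
  `SDD.Modular.modelAt_of_raw` with `gz := (IgSq.midDeg q : ℤ)`);
* `hz_KPq` : `q + 1 ≤ 2 * midDeg q + |KPq q|` (the shape `hz`);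
* `riemannPkg_vertBar_unif` : the Riemann package, every prime `q`.
-/

set_option autoImplicit false
set_option linter.unusedSectionVars false

open AlgebraicCurve Polynomial

namespace Fermat.Agent.BR3.VertPtsU

open Fermat.Agent.Red Fermat.Agent.BR3.VertPts Fermat.Agent.BR3.VertPtsDef Fermat.Agent.BR3.IgSq
open Fermat.Agent.BR3.VertResidue Fermat.Agent.BR3.VertResField

section Genus

variable {k : Type*} [Field k] [IsAlgClosed k]
variable (q : ℕ) [hq : Fact q.Prime] [CharP k q] {β ρ : k}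
  [hP : Fact (Irreducible (vertBar q β ρ))]

/-- **the genus of the residue field of `z e`, every prime `q`** -/
theorem genusFF_vertBar_unif (hβ : β ≠ 0) (hρ : ρ ≠ 0) :
    genusFF k (AdjoinRoot (vertBar q β ρ)) = midDeg q := by
  by_cases hq2 : q = 2
  · subst hq2
    rw [genusFF_vertBar_two hβ hρ, midDeg_two]
  · rw [genusFF_vertBar q hq2 hβ hρ, midDeg_of_ne_two hq2]

theorem genusFF_vertBar_int (hβ : β ≠ 0) (hρ : ρ ≠ 0) :
    (genusFF k (AdjoinRoot (vertBar q β ρ)) : ℤ) = ((midDeg q : ℕ) : ℤ) := by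
  rw [genusFF_vertBar_unif q hβ hρ]

/-- **the Riemann package of the residue field of `z e`, every prime `q`** -/
theorem riemannPkg_vertBar_unif (hβ : β ≠ 0) (hρ : ρ ≠ 0) :
    Fermat.Agent.Red.RiemannPkg k (AdjoinRoot (vertBar q β ρ)) := by
  by_cases hq2 : q = 2
  · subst hq2
    exact riemannPkg_vertBar_two hβ hρ
  · exact riemannPkg_vertBar q hq2 hβ hρ

end Genus

/-- `hz` of `SDD.Modular.modelAt_of_raw` with `gz := midDeg q`, `KP := KPq q` -/
theorem hz_KPq {q : ℕ} (hq : q.Prime) :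
    (q : ℤ) + 1 ≤ 2 * ((midDeg q : ℕ) : ℤ) + (Fintype.card (KPq q) : ℤ) := by
  have h := hd_KPq hq
  have h1 : ((midDeg q * Fintype.card (KPq q) + 1 : ℕ) : ℤ) = (q : ℤ) := by exact_mod_cast h
  push_cast at h1
  rcases midCard_eq q with h2 | h2
  · rw [card_KPq, h2] at h1 ⊢
    have h3 : midDeg q = 1 := by
      by_cases hq2 : q = 2
      · subst hq2
        rfl
      · rw [midCard_eq_two hq2] at h2
        omega
    rw [h3] at h1 ⊢
    push_cast at h1 ⊢
    omega
  · rw [card_KPq, h2] at h1 ⊢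
    push_cast at h1 ⊢
    omega

end Fermat.Agent.BR3.VertPtsU
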