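import Mathlib
import Fermat.Agent.BR3.VertPtsDef

/-!
# Program C (S36), node (I7-ZE-PTS), part 3: the Kummer points of `z e` as a family

Complements to `BR3/VertPtsDef` in the shapes of `SDD.branch_injective_of` / `SDD.smoothOf`:

* `ptK_injective` : `ptK c hc = ptK c' hc' → c = c'`;
* `ptK_congr` : `c = c' → ptK c hc = ptK c' hc'`;
* `ord_eq_zero_of_ne_family` : for a family `c : KP → k` of square roots of `ρ` which exhausts
  them, a place different from `ptZ`, `ptI` and all `ptK (c s)` has the orders of `b`, `U`,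
  `U + b` equal to `0`;
* `injective_ptK_family` : `s ↦ ptK (c s)` is injective when `c` is.
-/

set_option autoImplicit false
set_option linter.unusedSectionVars false

open AlgebraicCurve Polynomial

namespace Fermat.Agent.BR3.VertPtsInj

open Fermat.Agent.Red Fermat.Agent.BR3.VertPts Fermat.Agent.BR3.VertPtsDef

variable {k L : Type*} [Field k] [Field L] [Algebra k L] [IsAlgClosed k]
  (q : ℕ) [hq : Fact q.Prime] [CharP k q] {ρ : k} {b U : L}
  (hq2 : q ≠ 2) (hρ : ρ ≠ 0) (hb : Transcendental k b)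
  (heq : b * U ^ q + b ^ 2 * U ^ (q - 1) = algebraMap k L ρ)
  (hgen : IntermediateField.adjoin k {b, U} = ⊤)

theorem ptK_congr {c c' : k} (hc : c ^ 2 = ρ) (hc' : c' ^ 2 = ρ) (h : c = c') :
    ptK q hq2 hρ hb heq hgen c hc = ptK q hq2 hρ hb heq hgen c' hc' := by
  subst h
  rfl

/-- the Kummer point determines the square root -/
theorem ptK_injective {c c' : k} (hc : c ^ 2 = ρ) (hc' : c' ^ 2 = ρ)
    (h : ptK q hq2 hρ hb heq hgen c hc = ptK q hq2 hρ hb heq hgen c' hc') : c = c' := by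
  have h1 := isValueAt_theta_ptK q hq2 hρ hb heq hgen hc
  have h2 := isValueAt_theta_ptK q hq2 hρ hb heq hgen hc'
  rw [← h] at h2
  exact h1.unique h2

/-- `s ↦ ptK (c s)` is injective when `c` is -/
theorem injective_ptK_family {KP : Type*} (c : KP → k) (hc : ∀ s, c s ^ 2 = ρ)
    (hinj : Function.Injective c) :
    Function.Injective fun s => ptK q hq2 hρ hb heq hgen (c s) (hc s) :=
  fun _ _ h => hinj (ptK_injective q hq2 hρ hb heq hgen _ _ h)

/-- **exhaustion, family form**: a place different from `ptZ`, `ptI` and all the `ptK (c s)`,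
where the `c s` exhaust the square roots of `ρ`, is generic -/
theorem ord_eq_zero_of_ne_family {KP : Type*} (c : KP → k) (hc : ∀ s, c s ^ 2 = ρ)
    (hsurj : ∀ c' : k, c' ^ 2 = ρ → ∃ s, c s = c') {P : Place k L}
    (hz : P ≠ ptZ q hρ hb heq hgen) (hi : P ≠ ptI q hρ hb heq hgen)
    (hk : ∀ s, P ≠ ptK q hq2 hρ hb heq hgen (c s) (hc s)) :
    P.ord b = 0 ∧ P.ord U = 0 ∧ P.ord (U + b) = 0 := by
  obtain ⟨c₀, hc₀⟩ := IsAlgClosed.exists_pow_nat_eq ρ (n := 2) two_pos
  obtain ⟨s₁, hs₁⟩ := hsurj c₀ hc₀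
  obtain ⟨s₂, hs₂⟩ := hsurj (-c₀) (neg_sq_eq hc₀)
  refine ord_eq_zero_of_ne q hq2 hρ hb heq hgen hc₀ hz hi ?_ ?_
  · rw [← ptK_congr q hq2 hρ hb heq hgen (hc s₁) hc₀ hs₁]
    exact hk s₁
  · rw [← ptK_congr q hq2 hρ hb heq hgen (hc s₂) (neg_sq_eq hc₀) hs₂]
    exact hk s₂

/-- a family of two distinct square roots of `ρ` exhausts them -/
theorem exhausts_of_ne {c₁ c₂ : k} (h₁ : c₁ ^ 2 = ρ) (h₂ : c₂ ^ 2 = ρ) (hne : c₁ ≠ c₂)
    (c' : k) (hc' : c' ^ 2 = ρ) : c' = c₁ ∨ c' = c₂ := by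
  have e1 : (c' - c₁) * (c' + c₁) = 0 := by ring_nf; rw [hc', h₁]; ring
  have e2 : (c₂ - c₁) * (c₂ + c₁) = 0 := by ring_nf; rw [h₂, h₁]; ring
  rcases mul_eq_zero.mp e1 with h | h
  · exact Or.inl (sub_eq_zero.mp h)
  · rcases mul_eq_zero.mp e2 with h' | h'
    · exact absurd (sub_eq_zero.mp h').symm hne
    · right
      have : c' = -c₁ := eq_neg_of_add_eq_zero_left h
      have : c₂ = -c₁ := eq_neg_of_add_eq_zero_left h'
      rw [‹c' = -c₁›, this]

end Fermat.Agent.BR3.VertPtsInj
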