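import Mathlib
import Fermat.Agent.BR3.CZeroRes
import Fermat.Agent.BR3.SSParamChain
import Fermat.Agent.BR3.SplitCompsCInf

/-!
# Program C (S36), node (N3-C₂): the component `cZero` through the node `nW e` (along `β₂`)

`F₁ = Fb (M * q)`, `F₂ = Fb (M * q * q)` along `β₂`; `'et' = O2 B hB hqM` with residue map
`(constRedW2 B hB hqM).res` onto `F̃_M`, `cZero` with residue map `CZeroRes.resZ` onto `F̃_M`
(`res_{cZero} ∘ β₂ = res₂`, the residue fields are identified by the identity).

For `g, g'` of the base level with `g'` a Frobenius untwist of `g`, put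
`u = β g - (α g')^q` (vanishes on `'can'`, the `y`-type function), `v = α g - (β g')^q`
(vanishes on `'et'`), `U_g = β₂ (β g) - α₂ (α g)`; then `β₂ u = U_g + α₂ v`
(`SSParamChain.beta2_ug_eq`) and the function of the split sheet of `nW e` is

  `W_b = splitWb M q g g' = U_g / β₂ u = 1 - α₂ v / β₂ u`.

* `alpha2_v_mem_nonunits_cZero` : `α₂ v ≡ 0` on `cZero` (mirror through `W_{q²}` of
  `SplitCompsCInf.sum_mem_nonunits_w1`);
* `isUnit_beta2_u` : `β₂ u` is a unit of `cZero` as soon as `res₂ u ≠ 0`;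
* `splitWb_mem_cZero`, `resZ_splitWb` : `W_b` is integral on `cZero` and **reduces to `1`**;
* **`coverComp_cZero_of_pair`** (any point `Q` of `F̃_M`), **`coverComp_cZero`** (at `z₂ e'` for a
  twisted triple `IsSSParam B hB hqM e' G G' G''`, with `W_b = splitWb M q G'' G`; at the node
  `nW e` take `e' = Fr e`, `(G, G', G'') = (g', g₀, g)`), `coverComp_cZero'` (the same stated with
  `constRedCZero`), `ord_algebraMap_cZero` (`hord`).
-/

set_option autoImplicit false
set_option linter.unusedSectionVars false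
set_option linter.style.haveILetI false
set_option synthInstance.maxHeartbeats 400000
set_option maxHeartbeats 1600000

noncomputable section

/- S36 build-time patch: file-local shortcut instances. They only shorten instance search;
each is the instance that the search finds anyway (reducible, same terms after unfolding). -/
local instance (priority := 100000) Fermat.Agent.BR3.FastInst.instAlgFullC_SplitCompsCZero
    {k : Type*} [Field k] (N : ℕ) :
    Algebra k ↥(ModularCurve.modularFunctionFieldFullC k N) := inferInstance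
local instance (priority := 100000) Fermat.Agent.BR3.FastInst.instFieldFullC_SplitCompsCZero
    {k : Type*} [Field k] (N : ℕ) :
    Field ↥(ModularCurve.modularFunctionFieldFullC k N) := inferInstance
local instance (priority := 100000) Fermat.Agent.BR3.FastInst.instAlgLaurent_SplitCompsCZero
    {k : Type*} [Field k] : Algebra k (LaurentSeries k) := inferInstance


namespace Fermat.Agent.BR3.SplitCompsCZero

open AlgebraicCurve ModularCurve IsLocalRing Polynomial
open Fermat.Agent.Red Fermat.Agent.Val Fermat.Agent.X0 Fermat.Agent.Hecke Fermat.Agent.Jac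
open Fermat.Agent.BR.ConstRedTwo Fermat.Agent.BR.TwoVal Fermat.Agent.BR.TwoValInst
open Fermat.Agent.BR.ResGen Fermat.Agent.BR.S0.RedModular Fermat.Agent.BR.S0.PointDict
open Fermat.Agent.BR.Inst.SpecIso Fermat.Agent.BR.Inst.LevelsInst
open Fermat.Agent.BR3.FibreProd Fermat.Agent.BR3.HeckePoly Fermat.Agent.BR3.HeckePolyKron
open Fermat.Agent.BR3.CInfRes Fermat.Agent.BR3.SSParam Fermat.Agent.BR3.SplitBranch
open Fermat.Agent.BR3.ALSq Fermat.Agent.BR3.CZero Fermat.Agent.BR3.CZeroRes
open Fermat.Agent.BR3.SplitCompsCInf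

variable {M q : ℕ} [NeZero M] [hq : Fact q.Prime]
variable (B : ValuationSubring Kb) (hB : B.LiesOverPrime q) (hqM : ¬ q ∣ M)

local notation "kB" => IsLocalRing.ResidueField B
local notation "FtM" => modularFunctionFieldFullC (IsLocalRing.ResidueField B) M

/-- The function of the split sheet of the node `nW e` (along `β₂`):
`W_b = U_g / β₂ (β g - (α g')^q)`. -/
def splitWb (M q : ℕ) [NeZero M] [Fact q.Prime] (g g' : Fb M) : Fb (M * q * q) :=
  Ug M q g / beta2 M q (heckeBetaBar Kb M q g - heckeAlphaBar Kb M q g' ^ q)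

/-- the expanded form (the same term as `SplitCompsModB.splitWB`) -/
theorem splitWb_def (g g' : Fb M) :
    splitWb M q g g' =
      Ug M q g / beta2 M q (heckeBetaBar Kb M q g - heckeAlphaBar Kb M q g' ^ q) := rfl

section Pair

variable [CharP (IsLocalRing.ResidueField B) q] [PerfectField (IsLocalRing.ResidueField B)]
variable {g g' : Fb M} (hg : g ∈ OM M B hB) (hg' : g' ∈ OM M B hB)

include hg hg' in
/-- `u = β g - (α g')^q` is integral on `'et'` -/
theorem u_mem_O2 : heckeBetaBar Kb M q g - heckeAlphaBar Kb M q g' ^ q ∈ O2 B hB hqM :=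
  sub_mem ((beta_mem_O2_iff B hB hqM g).2 hg) (pow_mem ((alpha_mem_O2_iff B hB hqM g').2 hg') q)

include hg hg' in
/-- `v = α g - (β g')^q` is integral on `'et'` -/
theorem v_mem_O2 : heckeAlphaBar Kb M q g - heckeBetaBar Kb M q g' ^ q ∈ O2 B hB hqM :=
  sub_mem ((alpha_mem_O2_iff B hB hqM g).2 hg) (pow_mem ((beta_mem_O2_iff B hB hqM g').2 hg') q)

include hg hg' in
theorem alpha2_v_mem_cZero :
    alpha2 M q (heckeAlphaBar Kb M q g - heckeBetaBar Kb M q g' ^ q) ∈ cZero B hB hqM :=
  (alpha2_mem_cZero_iff B hB hqM _).2 (v_mem_O2 B hB hqM hg hg')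

include hg hg' in
theorem beta2_u_mem_cZero :
    beta2 M q (heckeBetaBar Kb M q g - heckeAlphaBar Kb M q g' ^ q) ∈ cZero B hB hqM :=
  (beta2_mem_cZero_iff B hB hqM _).2 (u_mem_O2 B hB hqM hg hg')

include hg hg' in
/-- **`α₂ v = α₂ (α g - (β g')^q)` vanishes on `cZero`**, for `g'` a Frobenius untwist of `g`
(mirror through `W_{q²}` of `SplitCompsCInf.sum_mem_nonunits_w1`). -/
theorem alpha2_v_mem_nonunits_cZero
    (h' : redMF B hB hqM ⟨g, hg⟩ = frobAutFullC kB M q • redMF B hB hqM ⟨g', hg'⟩) :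
    alpha2 M q (heckeAlphaBar Kb M q g - heckeBetaBar Kb M q g' ^ q) ∈
      (cZero B hB hqM).nonunits := by
  rw [mem_nonunits_cZero_iff_W2, W2_alpha2, map_sub, map_pow, Wq_alpha, Wq_beta]
  have h1 : beta2 M q (heckeAlphaBar Kb M q g') = alpha2 M q (heckeBetaBar Kb M q g') := by
    rw [← mid_apply', mid_apply]
  have h2 := sum_mem_nonunits_w1 B hB hqM hg hg' h'
  have e : beta2 M q (heckeBetaBar Kb M q g - heckeAlphaBar Kb M q g' ^ q) =
      beta2 M q (heckeBetaBar Kb M q g) - alpha2 M q (heckeBetaBar Kb M q g' ^ q) := by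
    rw [map_sub, map_pow, map_pow, h1]
  rw [e]
  exact h2

include hg hg' in
/-- `β₂ u` is a unit of `cZero` as soon as the reduction of `u` on `'et'` is not zero -/
theorem isUnit_beta2_u
    (hne : (constRedW2 B hB hqM).res ⟨_, u_mem_O2 B hB hqM hg hg'⟩ ≠ 0) :
    IsUnit (⟨_, beta2_u_mem_cZero B hB hqM hg hg'⟩ : cZero B hB hqM) := by
  by_contra hnu
  have h0 := (resZ_eq_zero_iff B hB hqM _).mpr hnu
  rw [resZ_beta2 B hB hqM _ (u_mem_O2 B hB hqM hg hg')] at h0
  exact hne h0

include hg hg' in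
/-- **`W_b - 1` vanishes on `cZero`**: there is `w ∈ cZero` with `W_b = 1 - α₂ v * w`. -/
theorem exists_splitWb_eq
    (hne : (constRedW2 B hB hqM).res ⟨_, u_mem_O2 B hB hqM hg hg'⟩ ≠ 0) :
    ∃ w : cZero B hB hqM, splitWb M q g g' =
      1 - alpha2 M q (heckeAlphaBar Kb M q g - heckeBetaBar Kb M q g' ^ q) *
        (w : Fb (M * q * q)) := by
  obtain ⟨w, hw⟩ := (isUnit_beta2_u B hB hqM hg hg' hne).exists_right_inv
  have h1 : beta2 M q (heckeBetaBar Kb M q g - heckeAlphaBar Kb M q g' ^ q) *
      (w : Fb (M * q * q)) = 1 := by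
    have := congrArg (fun z : cZero B hB hqM => (z : Fb (M * q * q))) hw
    simpa using this
  have hD : beta2 M q (heckeBetaBar Kb M q g - heckeAlphaBar Kb M q g' ^ q) ≠ 0 := by
    intro h0
    rw [h0, zero_mul] at h1
    exact zero_ne_one h1
  refine ⟨w, ?_⟩
  have hw' : (w : Fb (M * q * q)) =
      (beta2 M q (heckeBetaBar Kb M q g - heckeAlphaBar Kb M q g' ^ q))⁻¹ :=
    eq_inv_of_mul_eq_one_right h1
  have hU : Ug M q g = beta2 M q (heckeBetaBar Kb M q g - heckeAlphaBar Kb M q g' ^ q) -
      alpha2 M q (heckeAlphaBar Kb M q g - heckeBetaBar Kb M q g' ^ q) := by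
    rw [Fermat.Agent.BR3.SSParamChain.beta2_ug_eq]
    ring
  rw [splitWb, hw', hU]
  field_simp

include hg hg' in
theorem splitWb_mem_cZero
    (hne : (constRedW2 B hB hqM).res ⟨_, u_mem_O2 B hB hqM hg hg'⟩ ≠ 0) :
    splitWb M q g g' ∈ cZero B hB hqM := by
  obtain ⟨w, hw⟩ := exists_splitWb_eq B hB hqM hg hg' hne
  rw [hw]
  exact sub_mem (one_mem _) (mul_mem (alpha2_v_mem_cZero B hB hqM hg hg') w.2)

include hg hg' in
/-- **The split-sheet function of `nW e` reduces to `1` on `cZero`.** -/
theorem resZ_splitWb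
    (h' : redMF B hB hqM ⟨g, hg⟩ = frobAutFullC kB M q • redMF B hB hqM ⟨g', hg'⟩)
    (hne : (constRedW2 B hB hqM).res ⟨_, u_mem_O2 B hB hqM hg hg'⟩ ≠ 0) :
    resZ B hB hqM ⟨splitWb M q g g', splitWb_mem_cZero B hB hqM hg hg' hne⟩ = 1 := by
  obtain ⟨w, hw⟩ := exists_splitWb_eq B hB hqM hg hg' hne
  have hS := alpha2_v_mem_nonunits_cZero B hB hqM hg hg' h'
  have e : (⟨splitWb M q g g', splitWb_mem_cZero B hB hqM hg hg' hne⟩ : cZero B hB hqM) =
      1 - ⟨_, alpha2_v_mem_cZero B hB hqM hg hg'⟩ * w := Subtype.ext hw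
  rw [e, map_sub, map_one, map_mul,
    (resZ_eq_zero_iff_mem_nonunits B hB hqM ⟨_, alpha2_v_mem_cZero B hB hqM hg hg'⟩).mpr hS,
    zero_mul, sub_zero]

include hg hg' in
/-- **The component `cZero` with a point `Q`, over the component `'et'` with the point `Q`, on
the sheet `W_b ≡ 1`** (along `β₂`; general pair). -/
theorem coverComp_cZero_of_pair
    (h' : redMF B hB hqM ⟨g, hg⟩ = frobAutFullC kB M q • redMF B hB hqM ⟨g', hg'⟩)
    (hne : (constRedW2 B hB hqM).res ⟨_, u_mem_O2 B hB hqM hg hg'⟩ ≠ 0) (Q : Place kB FtM) :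
    letI := algebraAlong (beta2 M q)
    CoverComp (IsLocalRing.residue B) (O2 B hB hqM) (constRedW2 B hB hqM).res Q
      (cZero B hB hqM) (resZ B hB hqM) Q (splitWb M q g g') 1 := by
  letI := algebraAlong (beta2 M q)
  exact
    { map_mem := fun y hy => (beta2_mem_cZero_iff B hB hqM y).2 hy
      res_map := fun y hy => resZ_beta2 B hB hqM y hy
      res_nonunits := fun x hx => (resZ_eq_zero_iff_mem_nonunits B hB hqM x).mpr hx
      lies := fun _ => Iff.rfl
      W_mem := splitWb_mem_cZero B hB hqM hg hg' hne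
      value := by
        rw [resZ_splitWb B hB hqM hg hg' h' hne, map_one, map_one, sub_self, map_zero]
        exact zero_lt_one }

end Pair

section Param

variable [CharP (IsLocalRing.ResidueField B) q] [PerfectField (IsLocalRing.ResidueField B)]
variable {e' : Crossing (chartDataModular B hB hqM)} {G G' G'' : Fb M}
  (P : IsSSParam B hB hqM e' G G' G'')

include P

/-- the reduction of `u = β G'' - (α G)^q` on `'et'` is not zero (it has a simple zero at
`z₂ e'`) -/
theorem res_u_ne_zero :
    (constRedW2 B hB hqM).res ⟨_, u_mem_O2 B hB hqM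
      (mem_OM_of_mem_CMod_base B hB hqM P.hg'') (mem_OM_of_mem_CMod_base B hB hqM P.hg)⟩ ≠ 0 := by
  intro h0
  have h1 := P.hyord (u_mem_O2 B hB hqM
    (mem_OM_of_mem_CMod_base B hB hqM P.hg'') (mem_OM_of_mem_CMod_base B hB hqM P.hg))
  have h2 : (compW B hB hqM 1).res ⟨_, u_mem_O2 B hB hqM
      (mem_OM_of_mem_CMod_base B hB hqM P.hg'') (mem_OM_of_mem_CMod_base B hB hqM P.hg)⟩ = 0 := h0
  rw [h2, Place.ord_zero] at h1
  exact zero_ne_one h1

/-- **(N3-C₂) The component `cZero` with its point `z₂ e'`, over the component `'et'` with its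
point `z₂ e'`, on the sheet `W_b ≡ 1`** (along `β₂`).  At the node `nW e`: `e' = Fr e` and
`(G, G', G'') = (g', g₀, g)` of `SSParamChain.exists_isSSParam_chain`, `W_b = splitWb M q g g'`. -/
theorem coverComp_cZero :
    letI := algebraAlong (beta2 M q)
    CoverComp (IsLocalRing.residue B) (O2 B hB hqM) (constRedW2 B hB hqM).res
      (z₂ (chartDataModular B hB hqM) e') (cZero B hB hqM) (resZ B hB hqM)
      (z₂ (chartDataModular B hB hqM) e') (splitWb M q G'' G) 1 :=
  coverComp_cZero_of_pair B hB hqM (mem_OM_of_mem_CMod_base B hB hqM P.hg'')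
    (mem_OM_of_mem_CMod_base B hB hqM P.hg) P.twist (res_u_ne_zero B hB hqM P) _

/-- the same, stated with the constant reduction `constRedCZero` -/
theorem coverComp_cZero' :
    letI := algebraAlong (beta2 M q)
    CoverComp (IsLocalRing.residue B) (constRedW2 B hB hqM).O (constRedW2 B hB hqM).res
      (z₂ (chartDataModular B hB hqM) e') (constRedCZero B hB hqM).O (constRedCZero B hB hqM).res
      (z₂ (chartDataModular B hB hqM) e') (splitWb M q G'' G) 1 :=
  coverComp_cZero B hB hqM P

/-- the hypothesis `hord` of `SplitNodeChart.splitNodeChart` on the side of `cZero` (the residue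
fields are identified by the identity) -/
theorem ord_algebraMap_cZero (g : FtM) :
    (z₂ (chartDataModular B hB hqM) e').ord (algebraMap FtM FtM g) =
      (z₂ (chartDataModular B hB hqM) e').ord g := rfl

end Param

end Fermat.Agent.BR3.SplitCompsCZero
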