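import Mathlib
import Fermat.Agent.BR3.MultiVal
import Fermat.Agent.BR3.PushGlue

/-!
# Program C (S36), node (I7-FULL), part 1: generic glue for `MultiVal.Full` data

* `mem_nonunits_comap_ringEquiv_iff`, `arch_comap_ringEquiv` : pull back of a valuation subring
  along a ring isomorphism `E' ≃+* E`;
* `resIndep_comap` : **transport of a residue-independent family** through a commutative square of
  isomorphisms `τ₀ : F' ≃+* F`, `τ : E' ≃+* E` (`τ ∘ algebraMap = algebraMap ∘ τ₀`);
* `Full.single` : the `MultiVal.Full` datum of ONE valuation subring over `O₀` (`e f = [E : F]`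
  with `e = 1`) from `lies`, `arch`, a residue-independent family of cardinality `[E : F]`;
* `Full.congr` : change of the rings of a `MultiVal.Full` datum along equalities (the adapter to the
  shape `MultiVal.Full (S₀.O v) (fun j => S.O (w j)) κ`);
* `pow_mem_range_resHom` : **purely inseparable residue extensions, from the valuation rings
  alone**: if every `y ∈ S.O w` has `y ^ n ≡ φ c` modulo the maximal ideal for some `c ∈ S₀.O v`,
  then `g ^ n ∈ range (resHom hπ hl)` for every `g : Ft w` (the hypotheses `hpib`, `hpiz` of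
  `GeoAbFinal.hkind_of_data`, `hg` of `PushGlue.resHom_norm_of_insep`).
-/

set_option autoImplicit false
set_option linter.unusedVariables false
set_option linter.unusedSectionVars false
set_option linter.style.haveILetI false

noncomputable section

namespace Fermat.Agent.BR3.FullGlue

open Fermat.Agent.Val Fermat.Agent.BR.TwoVal Fermat.Agent.BR3.MultiVal

/-! ### pull back along a ring isomorphism -/

section Comap

variable {E E' : Type*} [Field E] [Field E']

theorem mem_nonunits_comap_ringEquiv_iff (τ : E' ≃+* E) (O : ValuationSubring E) (t : E') :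
    t ∈ (O.comap (τ : E' →+* E)).nonunits ↔ τ t ∈ O.nonunits := by
  rw [ValuationSubring.mem_nonunits_iff_or, ValuationSubring.mem_nonunits_iff_or,
    ValuationSubring.mem_comap]
  show t = 0 ∨ τ t⁻¹ ∉ O ↔ _
  rw [map_inv₀, map_eq_zero_iff τ τ.injective]

theorem arch_comap_ringEquiv {O : ValuationSubring E} (hO : Arch O) (τ : E' ≃+* E) :
    Arch (O.comap (τ : E' →+* E)) := by
  intro x u hu hu0
  have hτu : τ u ∈ O.nonunits := (mem_nonunits_comap_ringEquiv_iff τ O u).1 hu
  have hτu0 : τ u ≠ 0 := fun h => hu0 ((map_eq_zero_iff τ τ.injective).1 h)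
  obtain ⟨n, hn⟩ := hO (τ x) (τ u) hτu hτu0
  refine ⟨n, ?_⟩
  rw [ValuationSubring.mem_comap]
  show τ (x * u ^ n) ∈ O
  rw [map_mul, map_pow]
  exact hn

end Comap

/-! ### transport of residue-independent families -/

section Transport

variable {F E F' E' : Type*} [Field F] [Field E] [Algebra F E] [Field F'] [Field E']
  [Algebra F' E']

/-- **Transport of a residue-independent family** through a commutative square of isomorphisms. -/
theorem resIndep_comap (τ₀ : F' ≃+* F) (τ : E' ≃+* E)
    (hcomm : ∀ c : F', τ (algebraMap F' E' c) = algebraMap F E (τ₀ c))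
    {O₀ : ValuationSubring F} {O : ValuationSubring E} {ι : Type*} [Fintype ι] {x : ι → E}
    (hx : ResIndep O₀ O x) :
    ResIndep (O₀.comap (τ₀ : F' →+* F)) (O.comap (τ : E' →+* E)) (fun i => τ.symm (x i)) := by
  refine ⟨fun i => ?_, fun c hc hsum i => ?_⟩
  · rw [ValuationSubring.mem_comap]
    show τ (τ.symm (x i)) ∈ O
    rw [RingEquiv.apply_symm_apply]
    exact hx.1 i
  · have h1 : τ (∑ i, c i • τ.symm (x i)) = ∑ i, τ₀ (c i) • x i := by
      rw [map_sum]
      refine Finset.sum_congr rfl fun i _ => ?_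
      rw [Algebra.smul_def, map_mul, hcomm, RingEquiv.apply_symm_apply, ← Algebra.smul_def]
    have h2 := (mem_nonunits_comap_ringEquiv_iff τ O _).1 hsum
    rw [h1] at h2
    have h3 := hx.2 (fun i => τ₀ (c i)) (fun i => hc i) h2 i
    exact (mem_nonunits_comap_ringEquiv_iff τ₀ O₀ (c i)).2 h3

/-- lying over is transported -/
theorem comap_comap_of_comm (τ₀ : F' ≃+* F) (τ : E' ≃+* E)
    (hcomm : ∀ c : F', τ (algebraMap F' E' c) = algebraMap F E (τ₀ c))
    {O₀ : ValuationSubring F} {O : ValuationSubring E}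
    (hlies : O.comap (algebraMap F E) = O₀) :
    (O.comap (τ : E' →+* E)).comap (algebraMap F' E') = O₀.comap (τ₀ : F' →+* F) := by
  ext c
  rw [ValuationSubring.mem_comap, ValuationSubring.mem_comap, ValuationSubring.mem_comap, ← hlies,
    ValuationSubring.mem_comap]
  show τ (algebraMap F' E' c) ∈ O ↔ algebraMap F E (τ₀ c) ∈ O
  rw [hcomm]

end Transport

/-! ### one valuation subring over `O₀` -/

section Single

variable {F E : Type*} [Field F] [Field E] [Algebra F E]

/-- **The `MultiVal.Full` datum of ONE valuation subring over `O₀`.** -/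
def Full.single {O₀ : ValuationSubring F} {O : ValuationSubring E}
    (hlies : O.comap (algebraMap F E) = O₀) (harch : Arch O) {κ : Type*} [Fintype κ] (x : κ → E)
    (hx : ResIndep O₀ O x) (hcard : Fintype.card κ = Module.finrank F E) :
    MultiVal.Full O₀ (fun _ : Unit => O) (fun _ => κ) where
  setup := ⟨fun _ => hlies, fun _ => harch, fun v w hvw => absurd (Subsingleton.elim v w) hvw⟩
  x := fun _ => x
  hx := fun _ => hx
  card_eq := by rw [Fintype.sum_unique]; exact hcard

/-- **Change of the rings of a `MultiVal.Full` datum along equalities.** -/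
def Full.congr {O₀ O₀' : ValuationSubring F} {V : Type*} [Fintype V]
    {O O' : V → ValuationSubring E} {ι : V → Type*} [∀ v, Fintype (ι v)]
    (h₀ : O₀' = O₀) (h : ∀ v, O' v = O v) (D : MultiVal.Full O₀ O ι) :
    MultiVal.Full O₀' O' ι where
  setup := by
    obtain rfl : O' = O := funext h
    subst h₀
    exact D.setup
  x := D.x
  hx := fun v => by
    rw [h₀, h v]
    exact D.hx v
  card_eq := D.card_eq

@[simp] theorem Full.congr_x {O₀ O₀' : ValuationSubring F} {V : Type*} [Fintype V]
    {O O' : V → ValuationSubring E} {ι : V → Type*} [∀ v, Fintype (ι v)]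
    (h₀ : O₀' = O₀) (h : ∀ v, O' v = O v) (D : MultiVal.Full O₀ O ι) :
    (Full.congr h₀ h D).x = D.x := rfl

end Single

/-! ### purely inseparable residue extensions, from the valuation rings alone -/

section Insep

open AlgebraicCurve Fermat.Agent.Red Fermat.Agent.BR.SS Fermat.Agent.BR3.PushGlue

variable {K k : Type*} [Field K] [Field k] {A : ValuationSubring K} {π : A →+* k}
  {F₀ F : Type*} [Field F₀] [Algebra K F₀] [Field F] [Algebra K F]
  {ι₀ : Type*} {Ft₀ : ι₀ → Type*} [∀ v, Field (Ft₀ v)] [∀ v, Algebra k (Ft₀ v)] {ν₀ : Type*}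
  {ι : Type*} {Ft : ι → Type*} [∀ w, Field (Ft w)] [∀ w, Algebra k (Ft w)] {ν : Type*}
  {S₀ : SemistableSetup (F := F₀) A π ι₀ Ft₀ ν₀} {S : SemistableSetup (F := F) A π ι Ft ν}
  {φ : F₀ →ₐ[K] F} {v : ι₀} {w : ι}

/-- **A power map on the residue fields, from the valuation rings alone**: if every `y ∈ S.O w`
satisfies `y ^ n ≡ φ c` modulo the maximal ideal of `S.O w` for some `c ∈ S₀.O v`, then
`g ^ n` lies in the image of the residue extension `resHom hπ hl`, for every `g : Ft w`. -/
theorem pow_mem_range_resHom (hπ : Function.Surjective π) (hl : LiesOverAlong S₀ S φ v w) (n : ℕ)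
    (h : ∀ y ∈ S.O w, ∃ c ∈ S₀.O v, y ^ n - φ c ∈ (S.O w).nonunits) (g : Ft w) :
    g ^ n ∈ (resHom hπ hl).toRingHom.range := by
  obtain ⟨y, rfl⟩ := S.res_surjective w g
  obtain ⟨c, hc, hyc⟩ := h (y : F) y.2
  have hφc : φ c ∈ S.O w := (hl c).mpr hc
  refine ⟨S₀.res v ⟨c, hc⟩, ?_⟩
  have h1 : resHom hπ hl (S₀.res v ⟨c, hc⟩) = S.res w ⟨φ c, hφc⟩ :=
    (resHom_res hπ hl ⟨c, hc⟩ hφc).symm
  show resHom hπ hl (S₀.res v ⟨c, hc⟩) = S.res w y ^ n
  rw [h1, ← map_pow, ← sub_eq_zero, ← map_sub]
  have h2 : ((y ^ n - ⟨φ c, hφc⟩ : S.O w) : F) ∈ (S.O w).nonunits := hyc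
  have h3 : S.res w (y ^ n - ⟨φ c, hφc⟩) = 0 := by
    rw [S.res_eq_zero_iff w, ← mem_nonunits_iff, ← IsLocalRing.mem_maximalIdeal,
      ← ValuationSubring.coe_mem_nonunits_iff]
    exact h2
  rw [← neg_sub, map_neg, h3, neg_zero]

end Insep

end Fermat.Agent.BR3.FullGlue
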