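import Mathlib
import Fermat.Agent.BR3.FullGlue
import Fermat.Agent.BR3.PushGlue
import Fermat.Agent.BR3.PushRam

/-!
# Program C (S36), node (I7-FULL), b-exc, abstract core: a `MultiVal.Full` datum of ONE valuation
ring from a totally ramified point of its residue extension

* `linearIndependent_pow_of_ramified` : `ψ : L₀ →ₐ[k] L` a map of function fields, `Q` a place of
  `L` with ramification index `n` over `L₀`, `t : L` with `ord_Q t` prime to `n`: the powers
  `t ^ i`, `i < n`, are linearly independent over `L₀` (strict ultrametric inequality at `Q`: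
  `ord_Q (ψ c) ∈ n ℤ`, so the orders of the terms `ψ (c i) t ^ i` are pairwise distinct);
* `fullSingleOfRamified` : `Z ⊆ E` a valuation ring over `O₀ ⊆ F` (`hlies`, `harch`), residue maps
  `res₀ : O₀ →+* k₀`, `resZ : Z →+* κ` compatible with `φ : k₀ →ₐ[k] κ`, a place `Q` of `κ` with
  ramification index `n = [E : F]` along `φ` and `θ ∈ Z` with `ord_Q (resZ θ)` prime to `n`:
  `MultiVal.Full O₀ (fun _ : Unit => Z) (fun _ => Fin n)` (family `θ ^ i`).

For Program C (b-exc): `F = Fb (M q)`, `E = Fb (M q²)` along `β₂`, `O₀` the `b`-critical circle ring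
at `Fr e`, `Z` the vertical component `z e`, `κ = AdjoinRoot (vertBar q β ρ)`, `φ` helper22's map of
`VertBetaMain.comap_beta2_eq_circleRing`, `Q = ptI` (ramification index `q`:
`VertPtsRam.ptI_b`), `θ = U / α₂ a₀` (residue `Ũ`, `ord_{ptI} Ũ = -1`).
-/

set_option autoImplicit false
set_option linter.unusedVariables false
set_option linter.unusedSectionVars false
set_option linter.style.haveILetI false

noncomputable section

namespace Fermat.Agent.BR3.FullRam

open AlgebraicCurve Fermat.Agent.Red Fermat.Agent.X0 Fermat.Agent.Val Fermat.Agent.BR.TwoVal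
  Fermat.Agent.BR3.MultiVal Fermat.Agent.BR2.NormResidue Fermat.Agent.BR3.FullGlue
  Fermat.Agent.BR3.PushGlue Fermat.Agent.BR3.PushRam

/-! ### linear independence of the powers of a function at a ramified point -/

section LinIndep

variable {k L₀ L : Type*} [Field k] [Field L₀] [Field L] [Algebra k L₀] [Algebra k L]

theorem ord_eq_of_adicValuation_eq (Q : Place k L) {x y : L}
    (h : Q.adicValuation x = Q.adicValuation y) : Q.ord x = Q.ord y := by
  unfold Place.ord
  rw [h]

theorem ord_pow_nat (Q : Place k L) (t : L) (i : ℕ) : Q.ord (t ^ i) = i * Q.ord t := by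
  rw [← zpow_natCast, Q.ord_zpow]

/-- **The powers of a function whose order at a ramified point is prime to the ramification index
are linearly independent over the subfield.** -/
theorem linearIndependent_pow_of_ramified (ψ : L₀ →ₐ[k] L) (hψ : ψ.toRingHom.IsIntegral)
    (Q : Place k L) (n : ℕ) (hn : Q.ramificationIndexAlong ψ = n) (t : L) (ht0 : t ≠ 0)
    (hcop : IsCoprime (Q.ord t) (n : ℤ)) :
    letI := algebraAlong ψ
    LinearIndependent L₀ (fun i : Fin n => t ^ (i : ℕ)) := by
  classical
  letI := algebraAlong ψ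
  rw [Fintype.linearIndependent_iff]
  intro c hsum
  by_contra hcon
  push Not at hcon
  obtain ⟨i₀, hi₀⟩ := hcon
  -- the terms
  set f : Fin n → L := fun i => c i • t ^ (i : ℕ) with hf
  have hfdef : ∀ i, f i = ψ (c i) * t ^ (i : ℕ) := fun i => by
    rw [hf]
    simp only [Algebra.smul_def]
    rfl
  have hne : ∀ i, c i ≠ 0 → f i ≠ 0 := fun i hi => by
    rw [hfdef]
    exact mul_ne_zero ((_root_.map_ne_zero ψ).mpr hi) (pow_ne_zero _ ht0)
  have hord : ∀ i, c i ≠ 0 → Q.ord (f i) =
      (n : ℤ) * (Q.restrictAlong ψ hψ).ord (c i) + (i : ℕ) * Q.ord t := fun i hi => by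
    rw [hfdef, Q.ord_mul ((_root_.map_ne_zero ψ).mpr hi) (pow_ne_zero _ ht0),
      Place.ord_restrictAlong ψ hψ Q (c i), hn, ord_pow_nat]
  -- distinct terms have distinct valuations
  have hdist : ∀ i j, c i ≠ 0 → c j ≠ 0 → Q.adicValuation (f i) = Q.adicValuation (f j) →
      i = j := fun i j hi hj h => by
    have h1 := ord_eq_of_adicValuation_eq Q h
    rw [hord i hi, hord j hj] at h1
    have h2 : (n : ℤ) ∣ (((i : ℕ) : ℤ) - ((j : ℕ) : ℤ)) * Q.ord t :=
      ⟨(Q.restrictAlong ψ hψ).ord (c j) - (Q.restrictAlong ψ hψ).ord (c i), by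
        linear_combination h1⟩
    have h3 : (n : ℤ) ∣ ((i : ℕ) : ℤ) - ((j : ℕ) : ℤ) := hcop.symm.dvd_of_dvd_mul_right h2
    have h4 : ((i : ℕ) : ℤ) - ((j : ℕ) : ℤ) = 0 := by
      apply Int.eq_zero_of_abs_lt_dvd h3
      have hi' : ((i : ℕ) : ℤ) < n := by exact_mod_cast i.2
      have hj' : ((j : ℕ) : ℤ) < n := by exact_mod_cast j.2
      have hi0 : (0 : ℤ) ≤ ((i : ℕ) : ℤ) := by positivity
      have hj0 : (0 : ℤ) ≤ ((j : ℕ) : ℤ) := by positivity
      rw [abs_lt]
      constructor <;> omega
    apply Fin.ext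
    have : ((i : ℕ) : ℤ) = ((j : ℕ) : ℤ) := by omega
    exact_mod_cast this
  -- the term of maximal valuation among the nonzero coefficients
  have hS : (Finset.univ.filter fun i => c i ≠ 0).Nonempty :=
    ⟨i₀, Finset.mem_filter.mpr ⟨Finset.mem_univ _, hi₀⟩⟩
  obtain ⟨j, hjS, hmax⟩ := Finset.exists_max_image _ (fun i => Q.adicValuation (f i)) hS
  have hj : c j ≠ 0 := (Finset.mem_filter.mp hjS).2
  have hvj : Q.adicValuation (f j) ≠ 0 := Q.adicValuation_ne_zero (hne j hj)
  have hkey := Valuation.map_sum_eq_of_lt Q.adicValuation (s := Finset.univ) (f := f) (j := j)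
    (Finset.mem_univ j) (fun i hi => by
      have hij : i ≠ j := fun h => by
        rw [Finset.mem_sdiff, Finset.mem_singleton] at hi
        exact hi.2 h
      by_cases hci : c i = 0
      · have : f i = 0 := by rw [hf]; simp only [hci, zero_smul]
        rw [this, map_zero]
        exact zero_lt_iff.mpr hvj
      · exact lt_of_le_of_ne (hmax i (Finset.mem_filter.mpr ⟨Finset.mem_univ _, hci⟩))
          fun h => hij (hdist i j hci hj h))
  have hsum' : ∑ i, f i = 0 := hsum
  rw [hsum', map_zero] at hkey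
  exact hvj hkey.symm

end LinIndep

/-! ### the `MultiVal.Full` datum -/

section Full

variable {F E : Type*} [Field F] [Field E] [Algebra F E]
  {k k₀ κ : Type*} [Field k] [Field k₀] [Field κ] [Algebra k k₀] [Algebra k κ]

/-- **A `MultiVal.Full` datum of ONE valuation ring `Z` over `O₀`** from a point `Q` of the
residue field of `Z` which is totally ramified over the residue field of `O₀` (index
`n = [E : F]`) and an element `θ ∈ Z` whose residue has order prime to `n` at `Q`. -/
def fullSingleOfRamified {O₀ : ValuationSubring F} {Z : ValuationSubring E}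
    (res₀ : O₀ →+* k₀) (resZ : Z →+* κ) (H₀ : ResBase res₀)
    (hlies : Z.comap (algebraMap F E) = O₀) (harch : Arch Z)
    (φ : k₀ →ₐ[k] κ) (hφ : φ.toRingHom.IsIntegral)
    (hsurj : Function.Surjective resZ) (hker : ∀ z : Z, resZ z = 0 ↔ (z : E) ∈ Z.nonunits)
    (hcompat : ∀ (c : O₀) (h : algebraMap F E (c : F) ∈ Z),
      resZ ⟨algebraMap F E (c : F), h⟩ = φ (res₀ c))
    (Q : Place k κ) (n : ℕ) (hn : Q.ramificationIndexAlong φ = n)
    (hcard : n = Module.finrank F E) (θ : E) (hθ : θ ∈ Z) (hθ0 : resZ ⟨θ, hθ⟩ ≠ 0)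
    (hcop : IsCoprime (Q.ord (resZ ⟨θ, hθ⟩)) (n : ℤ)) :
    MultiVal.Full O₀ (fun _ : Unit => Z) (fun _ => Fin n) :=
  letI := algebraAlong φ
  FullGlue.Full.single hlies harch (fun i : Fin n => θ ^ (i : ℕ))
    (resIndep_of_linearIndependent (res₀ := res₀) (res := resZ) hlies H₀
      ⟨hsurj, hker, hcompat⟩ _ (fun i => Z.pow_mem hθ _)
      (by
        have h1 : ∀ i : Fin n, resZ ⟨θ ^ (i : ℕ), Z.pow_mem hθ _⟩ =
            resZ ⟨θ, hθ⟩ ^ (i : ℕ) := fun i => by
          rw [← map_pow]
          rfl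
        simp only [h1]
        exact linearIndependent_pow_of_ramified φ hφ Q n hn _ hθ0 hcop))
    (by rw [Fintype.card_fin]; exact hcard)

end Full

end Fermat.Agent.BR3.FullRam
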