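import Mathlib
import Fermat.Agent.BR3.VertPtsDef
import Fermat.Agent.BR3.PushRam
import Fermat.Agent.BR.P1Places

/-!
# Program C (S36), node (G6-PUSH-MOD), the vertical enumerations: the special points of `z e` over
the points `X = 0`, `X = ∞` of the exceptional lines of `S'ref_a` and `S'ref_b`

Setting of `BR3/VertPts` / `BR3/VertPtsDef`: `L = k(b, U)`, `b U ^ q + b ^ 2 U ^ (q - 1) = ρ`, with
the named special points `ptZ`, `ptI`, `ptK c` (`q` odd), `ptK₂` (`q = 2`), and a map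
`ψ : k(X) →ₐ[k] L` (the residue extension of `z e` over an exceptional line).

* generic (`P1`): `restrictAlong_eq_placeAt_zero_iff`, `restrictAlong_eq_placeInfty_iff`,
  `restrict_ram_of_ord_pos`, `restrict_ram_of_ord_neg` : the place of `k(X)` under `Q` and the
  ramification index of `Q` from `ord_Q (ψ X)`;
* **a-side** (`hXa : algebraMap k L β * ψ X = b`, the line `E^a`, `X_a = b / β`):
  `ptZ` over `X = 0` with index `q` (the only one: `eq_ptZ_of_restrict_a`); `ptI` (index `1`),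
  `ptK ±c` (index `(q - 1) / 2`) resp. `ptK₂` (index `1`) over `X = ∞` (the only ones);
* **b-side** (`hXb : algebraMap k L β' * ψ X * (U + b) = algebraMap k L ω`, the line `E^b`,
  `X_b = ω / (β' (U + b))`, helper22's mirror formula of `VertBetaMain`): `ptI` over `X = ∞` with
  index `q` (the only one); `ptZ` (index `1`), `ptK ±c` (index `(q - 1) / 2`) resp. `ptK₂`
  (index `1`) over `X = 0` (the only ones).
-/

set_option autoImplicit false
set_option linter.unusedSectionVars false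
set_option linter.unusedVariables false

open AlgebraicCurve Polynomial

namespace Fermat.Agent.BR3.VertPtsRam

open Fermat.Agent.Red Fermat.Agent.X0 Fermat.Agent.BR.P1 Fermat.Agent.BR3.PushRam
  Fermat.Agent.BR3.VertPts Fermat.Agent.BR3.VertPtsDef

/-! ### the place of `k(X)` under a place, and its ramification index -/

section P1

variable {k L : Type*} [Field k] [IsAlgClosed k] [Field L] [Algebra k L]
  (ψ : RatFunc k →ₐ[k] L) (hψ : ψ.toRingHom.IsIntegral)

theorem ord_placeAt_zero_X : (placeAt k 0).ord (RatFunc.X : RatFunc k) = 1 := by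
  have h := ord_placeAt_X_sub (k := k) 0
  rwa [map_zero, sub_zero] at h

theorem restrictAlong_eq_placeAt_zero_iff (Q : Place k L) :
    Q.restrictAlong ψ hψ = placeAt k 0 ↔ 0 < Q.ord (ψ RatFunc.X) := by
  have he : (0 : ℤ) < (Q.ramificationIndexAlong ψ : ℤ) := by
    exact_mod_cast ramificationIndexAlong_pos ψ hψ Q
  have h := Place.ord_restrictAlong ψ hψ Q (RatFunc.X : RatFunc k)
  constructor
  · intro h0
    rw [h, h0, ord_placeAt_zero_X, mul_one]
    exact he
  · intro h0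
    apply eq_placeAt_of_ord_pos
    rw [map_zero, sub_zero]
    rw [h] at h0
    by_contra hcon
    have h1 : (Q.restrictAlong ψ hψ).ord (RatFunc.X : RatFunc k) ≤ 0 := not_lt.mp hcon
    have h2 : (Q.ramificationIndexAlong ψ : ℤ) *
        (Q.restrictAlong ψ hψ).ord (RatFunc.X : RatFunc k) ≤ 0 :=
      mul_nonpos_of_nonneg_of_nonpos he.le h1
    omega

theorem restrictAlong_eq_placeInfty_iff (Q : Place k L) :
    Q.restrictAlong ψ hψ = placeInfty k ↔ Q.ord (ψ RatFunc.X) < 0 := by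
  have he : (0 : ℤ) < (Q.ramificationIndexAlong ψ : ℤ) := by
    exact_mod_cast ramificationIndexAlong_pos ψ hψ Q
  have h := Place.ord_restrictAlong ψ hψ Q (RatFunc.X : RatFunc k)
  constructor
  · intro h0
    rw [h, h0, ord_placeInfty_X]
    omega
  · intro h0
    apply eq_placeInfty
    rw [h] at h0
    by_contra hcon
    have h1 : 0 ≤ (Q.restrictAlong ψ hψ).ord (RatFunc.X : RatFunc k) := not_lt.mp hcon
    have h2 : 0 ≤ (Q.ramificationIndexAlong ψ : ℤ) *
        (Q.restrictAlong ψ hψ).ord (RatFunc.X : RatFunc k) := mul_nonneg he.le h1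
    omega

/-- `ord_Q (ψ X) = n > 0`: `Q` lies over `X = 0` with ramification index `n`. -/
theorem restrict_ram_of_ord_pos {Q : Place k L} {n : ℕ} (hn : Q.ord (ψ RatFunc.X) = n)
    (hpos : 0 < n) :
    Q.restrictAlong ψ hψ = placeAt k 0 ∧ Q.ramificationIndexAlong ψ = n := by
  have h1 : Q.restrictAlong ψ hψ = placeAt k 0 :=
    (restrictAlong_eq_placeAt_zero_iff ψ hψ Q).mpr (by rw [hn]; exact_mod_cast hpos)
  refine ⟨h1, ramificationIndexAlong_eq_of_ord_eq_one ψ hψ Q (t := RatFunc.X) ?_ hn⟩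
  rw [h1]
  exact ord_placeAt_zero_X

/-- `ord_Q (ψ X) = -n < 0`: `Q` lies over `X = ∞` with ramification index `n`. -/
theorem restrict_ram_of_ord_neg {Q : Place k L} {n : ℕ} (hn : Q.ord (ψ RatFunc.X) = -(n : ℤ))
    (hpos : 0 < n) :
    Q.restrictAlong ψ hψ = placeInfty k ∧ Q.ramificationIndexAlong ψ = n := by
  have h1 : Q.restrictAlong ψ hψ = placeInfty k :=
    (restrictAlong_eq_placeInfty_iff ψ hψ Q).mpr (by
      rw [hn]
      have : (0 : ℤ) < (n : ℤ) := by exact_mod_cast hpos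
      omega)
  refine ⟨h1, ramificationIndexAlong_eq_of_ord_eq_neg_one ψ hψ Q (t := RatFunc.X) ?_ hn⟩
  rw [h1]
  exact ord_placeInfty_X

end P1

/-! ### the orders of `ψ X` -/

section Orders

variable {k L : Type*} [Field k] [Field L] [Algebra k L]
  (ψ : RatFunc k →ₐ[k] L) {b U : L}

/-- a-side: `X_a = b / β` -/
theorem ord_psi_a {β : k} (hβ : β ≠ 0) (hXa : algebraMap k L β * ψ RatFunc.X = b)
    (P : Place k L) : P.ord (ψ RatFunc.X) = P.ord b := by
  have hβ' : algebraMap k L β ≠ 0 := (_root_.map_ne_zero _).mpr hβ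
  have hX0 : ψ (RatFunc.X : RatFunc k) ≠ 0 := (_root_.map_ne_zero _).mpr RatFunc.X_ne_zero
  rw [← hXa, P.ord_mul hβ' hX0, Place.ord_algebraMap, zero_add]

/-- b-side: `X_b = ω / (β' (U + b))` -/
theorem ord_psi_b {β' ω : k} (hβ' : β' ≠ 0) (hω : ω ≠ 0)
    (hXb : algebraMap k L β' * ψ RatFunc.X * (U + b) = algebraMap k L ω)
    (P : Place k L) : P.ord (ψ RatFunc.X) = -P.ord (U + b) := by
  have hβL : algebraMap k L β' ≠ 0 := (_root_.map_ne_zero _).mpr hβ'
  have hωL : algebraMap k L ω ≠ 0 := (_root_.map_ne_zero _).mpr hω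
  have hX0 : ψ (RatFunc.X : RatFunc k) ≠ 0 := (_root_.map_ne_zero _).mpr RatFunc.X_ne_zero
  have hUb : U + b ≠ 0 := by
    intro h0
    rw [h0, mul_zero] at hXb
    exact hωL hXb.symm
  have h := congrArg P.ord hXb
  rw [P.ord_mul (mul_ne_zero hβL hX0) hUb, P.ord_mul hβL hX0, Place.ord_algebraMap,
    Place.ord_algebraMap, zero_add] at h
  omega

end Orders

/-! ### the special points, uniform in `q` -/

section Uniform

variable {k L : Type*} [Field k] [Field L] [Algebra k L] [IsAlgClosed k]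
  (q : ℕ) [hq : Fact q.Prime] [CharP k q] {ρ : k} {b U : L}
  (hρ : ρ ≠ 0) (hb : Transcendental k b)
  (heq : b * U ^ q + b ^ 2 * U ^ (q - 1) = algebraMap k L ρ)
  (hgen : IntermediateField.adjoin k {b, U} = ⊤)
  (ψ : RatFunc k →ₐ[k] L) (hψ : ψ.toRingHom.IsIntegral)

/-- a-side: `ptZ` lies over `X = 0` with ramification index `q`. -/
theorem ptZ_a {β : k} (hβ : β ≠ 0) (hXa : algebraMap k L β * ψ RatFunc.X = b) :
    (ptZ q hρ hb heq hgen).restrictAlong ψ hψ = placeAt k 0 ∧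
      (ptZ q hρ hb heq hgen).ramificationIndexAlong ψ = q :=
  restrict_ram_of_ord_pos ψ hψ
    (by rw [ord_psi_a ψ hβ hXa, ord_b_ptZ]) hq.out.pos

/-- a-side: `ptZ` is the only point over `X = 0`. -/
theorem eq_ptZ_of_restrict_a {β : k} (hβ : β ≠ 0) (hXa : algebraMap k L β * ψ RatFunc.X = b)
    {Q : Place k L} (hQ : Q.restrictAlong ψ hψ = placeAt k 0) : Q = ptZ q hρ hb heq hgen := by
  rw [← ord_b_pos_iff, ← ord_psi_a ψ hβ hXa]
  exact (restrictAlong_eq_placeAt_zero_iff ψ hψ Q).mp hQ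

/-- a-side: `ptI` lies over `X = ∞` with ramification index `1`. -/
theorem ptI_a {β : k} (hβ : β ≠ 0) (hXa : algebraMap k L β * ψ RatFunc.X = b) :
    (ptI q hρ hb heq hgen).restrictAlong ψ hψ = placeInfty k ∧
      (ptI q hρ hb heq hgen).ramificationIndexAlong ψ = 1 :=
  restrict_ram_of_ord_neg ψ hψ (n := 1)
    (by rw [ord_psi_a ψ hβ hXa, ord_b_ptI]; norm_num) Nat.one_pos

/-- b-side: `ptI` lies over `X = ∞` with ramification index `q`. -/
theorem ptI_b {β' ω : k} (hβ' : β' ≠ 0) (hω : ω ≠ 0)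
    (hXb : algebraMap k L β' * ψ RatFunc.X * (U + b) = algebraMap k L ω) :
    (ptI q hρ hb heq hgen).restrictAlong ψ hψ = placeInfty k ∧
      (ptI q hρ hb heq hgen).ramificationIndexAlong ψ = q :=
  restrict_ram_of_ord_neg ψ hψ
    (by rw [ord_psi_b ψ hβ' hω hXb, ord_add_ptI]) hq.out.pos

/-- b-side: `ptI` is the only point over `X = ∞`. -/
theorem eq_ptI_of_restrict_b {β' ω : k} (hβ' : β' ≠ 0) (hω : ω ≠ 0)
    (hXb : algebraMap k L β' * ψ RatFunc.X * (U + b) = algebraMap k L ω)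
    {Q : Place k L} (hQ : Q.restrictAlong ψ hψ = placeInfty k) : Q = ptI q hρ hb heq hgen := by
  rw [← ord_add_pos_iff]
  have h := (restrictAlong_eq_placeInfty_iff ψ hψ Q).mp hQ
  rw [ord_psi_b ψ hβ' hω hXb] at h
  omega

/-- b-side: `ptZ` lies over `X = 0` with ramification index `1`. -/
theorem ptZ_b {β' ω : k} (hβ' : β' ≠ 0) (hω : ω ≠ 0)
    (hXb : algebraMap k L β' * ψ RatFunc.X * (U + b) = algebraMap k L ω) :
    (ptZ q hρ hb heq hgen).restrictAlong ψ hψ = placeAt k 0 ∧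
      (ptZ q hρ hb heq hgen).ramificationIndexAlong ψ = 1 :=
  restrict_ram_of_ord_pos ψ hψ (n := 1)
    (by rw [ord_psi_b ψ hβ' hω hXb, ord_add_ptZ]; norm_num) Nat.one_pos

end Uniform

/-! ### the Kummer points, `q` odd -/

section Odd

variable {k L : Type*} [Field k] [Field L] [Algebra k L] [IsAlgClosed k]
  (q : ℕ) [hq : Fact q.Prime] [CharP k q] {ρ : k} {b U : L}
  (hq2 : q ≠ 2) (hρ : ρ ≠ 0) (hb : Transcendental k b)
  (heq : b * U ^ q + b ^ 2 * U ^ (q - 1) = algebraMap k L ρ)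
  (hgen : IntermediateField.adjoin k {b, U} = ⊤) {c : k} (hc : c ^ 2 = ρ)
  (ψ : RatFunc k →ₐ[k] L) (hψ : ψ.toRingHom.IsIntegral)

include hq2 in
theorem half_pos : 0 < (q - 1) / 2 := by
  obtain ⟨j, hj⟩ := hq.out.odd_of_ne_two hq2
  have := hq.out.two_le
  omega

/-- a-side: `ptK c` lies over `X = ∞` with ramification index `(q - 1) / 2`. -/
theorem ptK_a {β : k} (hβ : β ≠ 0) (hXa : algebraMap k L β * ψ RatFunc.X = b) :
    (ptK q hq2 hρ hb heq hgen c hc).restrictAlong ψ hψ = placeInfty k ∧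
      (ptK q hq2 hρ hb heq hgen c hc).ramificationIndexAlong ψ = (q - 1) / 2 :=
  restrict_ram_of_ord_neg ψ hψ
    (by rw [ord_psi_a ψ hβ hXa, ord_b_ptK]) (half_pos q hq2)

/-- a-side: the points over `X = ∞` are `ptI`, `ptK c`, `ptK (-c)`. -/
theorem cases_of_restrict_a {β : k} (hβ : β ≠ 0) (hXa : algebraMap k L β * ψ RatFunc.X = b)
    {Q : Place k L} (hQ : Q.restrictAlong ψ hψ = placeInfty k) :
    Q = ptI q hρ hb heq hgen ∨ Q = ptK q hq2 hρ hb heq hgen c hc ∨
      Q = ptK q hq2 hρ hb heq hgen (-c) (neg_sq_eq hc) := by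
  rw [← ord_b_neg_iff, ← ord_psi_a ψ hβ hXa]
  exact (restrictAlong_eq_placeInfty_iff ψ hψ Q).mp hQ

/-- b-side: `ptK c` lies over `X = 0` with ramification index `(q - 1) / 2`. -/
theorem ptK_b {β' ω : k} (hβ' : β' ≠ 0) (hω : ω ≠ 0)
    (hXb : algebraMap k L β' * ψ RatFunc.X * (U + b) = algebraMap k L ω) :
    (ptK q hq2 hρ hb heq hgen c hc).restrictAlong ψ hψ = placeAt k 0 ∧
      (ptK q hq2 hρ hb heq hgen c hc).ramificationIndexAlong ψ = (q - 1) / 2 :=
  restrict_ram_of_ord_pos ψ hψ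
    (by rw [ord_psi_b ψ hβ' hω hXb, ord_add_ptK, neg_neg]) (half_pos q hq2)

/-- b-side: the points over `X = 0` are `ptZ`, `ptK c`, `ptK (-c)`. -/
theorem cases_of_restrict_b {β' ω : k} (hβ' : β' ≠ 0) (hω : ω ≠ 0)
    (hXb : algebraMap k L β' * ψ RatFunc.X * (U + b) = algebraMap k L ω)
    {Q : Place k L} (hQ : Q.restrictAlong ψ hψ = placeAt k 0) :
    Q = ptZ q hρ hb heq hgen ∨ Q = ptK q hq2 hρ hb heq hgen c hc ∨
      Q = ptK q hq2 hρ hb heq hgen (-c) (neg_sq_eq hc) := by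
  have h := (restrictAlong_eq_placeAt_zero_iff ψ hψ Q).mp hQ
  rw [ord_psi_b ψ hβ' hω hXb] at h
  by_contra hcon
  push Not at hcon
  by_cases hi : Q = ptI q hρ hb heq hgen
  · rw [hi, ord_add_ptI] at h
    have : (0 : ℤ) < (q : ℤ) := by exact_mod_cast hq.out.pos
    omega
  · have := (ord_eq_zero_of_ne q hq2 hρ hb heq hgen hc hcon.1 hi hcon.2.1 hcon.2.2).2.2
    omega

end Odd

/-! ### the Kummer point, `q = 2` -/

section Two

variable {k L : Type*} [Field k] [Field L] [Algebra k L] [IsAlgClosed k] [CharP k 2]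
  {ρ : k} {b U : L} (hρ : ρ ≠ 0) (hb : Transcendental k b)
  (heq : b * U ^ 2 + b ^ 2 * U = algebraMap k L ρ)
  (hgen : IntermediateField.adjoin k {b, U} = ⊤)
  (ψ : RatFunc k →ₐ[k] L) (hψ : ψ.toRingHom.IsIntegral)

/-- a-side, `q = 2`: `ptK₂` lies over `X = ∞` with ramification index `1`. -/
theorem ptK₂_a {β : k} (hβ : β ≠ 0) (hXa : algebraMap k L β * ψ RatFunc.X = b) :
    (ptK₂ hρ hb heq hgen).restrictAlong ψ hψ = placeInfty k ∧
      (ptK₂ hρ hb heq hgen).ramificationIndexAlong ψ = 1 :=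
  restrict_ram_of_ord_neg ψ hψ (n := 1)
    (by rw [ord_psi_a ψ hβ hXa, ord_b_ptK₂]; norm_num) Nat.one_pos

/-- a-side, `q = 2`: the points over `X = ∞` are `ptI`, `ptK₂`. -/
theorem cases_of_restrict_a₂ {β : k} (hβ : β ≠ 0) (hXa : algebraMap k L β * ψ RatFunc.X = b)
    {Q : Place k L} (hQ : Q.restrictAlong ψ hψ = placeInfty k) :
    Q = ptI 2 hρ hb (heq_two heq) hgen ∨ Q = ptK₂ hρ hb heq hgen := by
  have h := (restrictAlong_eq_placeInfty_iff ψ hψ Q).mp hQ
  rw [ord_psi_a ψ hβ hXa] at h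
  by_contra hcon
  push Not at hcon
  by_cases hz : Q = ptZ 2 hρ hb (heq_two heq) hgen
  · rw [hz, ord_b_ptZ] at h
    norm_num at h
  · have := (ord_eq_zero_of_ne₂ hρ hb heq hgen hz hcon.1 hcon.2).1
    omega

/-- b-side, `q = 2`: `ptK₂` lies over `X = 0` with ramification index `1`. -/
theorem ptK₂_b {β' ω : k} (hβ' : β' ≠ 0) (hω : ω ≠ 0)
    (hXb : algebraMap k L β' * ψ RatFunc.X * (U + b) = algebraMap k L ω) :
    (ptK₂ hρ hb heq hgen).restrictAlong ψ hψ = placeAt k 0 ∧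
      (ptK₂ hρ hb heq hgen).ramificationIndexAlong ψ = 1 :=
  restrict_ram_of_ord_pos ψ hψ (n := 1)
    (by rw [ord_psi_b ψ hβ' hω hXb, ord_add_ptK₂]; norm_num) Nat.one_pos

/-- b-side, `q = 2`: the points over `X = 0` are `ptZ`, `ptK₂`. -/
theorem cases_of_restrict_b₂ {β' ω : k} (hβ' : β' ≠ 0) (hω : ω ≠ 0)
    (hXb : algebraMap k L β' * ψ RatFunc.X * (U + b) = algebraMap k L ω)
    {Q : Place k L} (hQ : Q.restrictAlong ψ hψ = placeAt k 0) :
    Q = ptZ 2 hρ hb (heq_two heq) hgen ∨ Q = ptK₂ hρ hb heq hgen := by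
  have h := (restrictAlong_eq_placeAt_zero_iff ψ hψ Q).mp hQ
  rw [ord_psi_b ψ hβ' hω hXb] at h
  by_contra hcon
  push Not at hcon
  by_cases hi : Q = ptI 2 hρ hb (heq_two heq) hgen
  · rw [hi, ord_add_ptI] at h
    norm_num at h
  · have := (ord_eq_zero_of_ne₂ hρ hb heq hgen hcon.1 hi hcon.2).2.2
    omega

end Two

end Fermat.Agent.BR3.VertPtsRam
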