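import Mathlib
import Fermat.Agent.BR3.FullRam
import Fermat.Agent.BR3.VertPtsRam
import Fermat.Agent.BR3.ArchCircle
import Fermat.Agent.BR3.ArchExt
import Fermat.Agent.BR3.HyperGenus
import Fermat.Agent.Hecke.HeckeInputs

/-!
# Program C (S36), node (I7-FULL), b-exc: the `MultiVal.Full` datum of the vertical component
`z e` over the `b`-critical circle ring, from the clauses of (I7-ZE-B)

* `finiteDimensional_adjoin_b`, `finiteAlong_ratFunc`, `isIntegral_ratFunc` : in the setting of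
  `BR3/VertPts` (`L = k(b, U)`, `b U ^ q + b ^ 2 U ^ (q - 1) = ρ`) EVERY `k`-algebra map
  `ψ : k(X) →ₐ[k] L` is finite, hence integral (the hypothesis `hψ` of `BR3/VertPtsRam`);
* `mirrorAlgHom` : helper22's map `φ` of `VertBetaMain.comap_beta2_eq_circleRing` as a
  `k`-algebra map, `mirror_hXb` : his mirror formula in the shape `hXb` of `BR3/VertPtsRam`;
* **`fullExcOfMirror`** : for `b₂ : F →ₐ[K] E` of degree `q`, `C'` an annulus core of `F`, a
  valuation ring `Z ⊆ E` with residue map `resZ : Z →+* AdjoinRoot (vertBar q β ρ)` such that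
  `Z.comap b₂ = circleRing C' b₀`, `resZ ∘ b₂ = φ ∘ circleRes`, the mirror formula and
  `θ ∈ Z` with residue `root`:
  `MultiVal.Full (circleRing C' b₀ hb1 hb2) (fun _ : Unit => Z) (fun _ => Fin q)` along `b₂`
  (family `θ ^ i`; the point `ptIBar` is totally ramified over `X_b = ∞` and
  `ord_{ptI} Ũ = -1`).
-/

set_option autoImplicit false
set_option linter.unusedVariables false
set_option linter.unusedSectionVars false
set_option linter.style.haveILetI false

noncomputable section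

open AlgebraicCurve Polynomial IntermediateField

namespace Fermat.Agent.BR3.FullExcB

open Fermat.Agent.Red Fermat.Agent.X0 Fermat.Agent.BR.P1 Fermat.Agent.BR3.VertPts
  Fermat.Agent.BR3.VertPtsDef Fermat.Agent.BR3.VertPtsRam Fermat.Agent.BR3.VertResidue
  Fermat.Agent.BR3.VertResField Fermat.Agent.BR.TwoVal Fermat.Agent.BR3.MultiVal
  Fermat.Agent.BR2.NormResidue Fermat.Agent.BR.Circle

/-! ### every map `k(X) → k(b, U)` is finite -/

section Finite

variable {k L : Type*} [Field k] [Field L] [Algebra k L] {q : ℕ} {ρ : k} {b U : L}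

/-- `U` is integral over `k(b)`. -/
theorem isIntegral_U (hq : 2 ≤ q) (hρ : ρ ≠ 0)
    (heq : b * U ^ q + b ^ 2 * U ^ (q - 1) = algebraMap k L ρ) : IsIntegral k⟮b⟯ U := by
  obtain ⟨hb0, -, -⟩ := ne_zero_of_heq hq hρ heq
  apply IsAlgebraic.isIntegral
  let bb : k⟮b⟯ := ⟨b, mem_adjoin_simple_self k b⟩
  refine ⟨C bb * X ^ q + C (bb ^ 2) * X ^ (q - 1) - C (algebraMap k k⟮b⟯ ρ), ?_, ?_⟩
  · intro h0
    have h1 := congrArg (fun p : k⟮b⟯[X] => p.coeff q) h0
    simp only [coeff_sub, coeff_add, coeff_C_mul, coeff_X_pow, coeff_C, coeff_zero] at h1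
    have hq1 : ¬ q = q - 1 := by omega
    have hq0 : ¬ q = 0 := by omega
    simp only [hq1, hq0, if_true, if_false, mul_one, mul_zero, add_zero, sub_zero] at h1
    exact hb0 (congrArg Subtype.val h1)
  · simp only [map_sub, map_add, map_mul, map_pow, aeval_C, aeval_X]
    rw [← IsScalarTower.algebraMap_apply]
    show b * U ^ q + b ^ 2 * U ^ (q - 1) - algebraMap k L ρ = 0
    rw [heq, sub_self]

/-- `L = k(b, U)` is finite over `k(b)`. -/
theorem finiteDimensional_adjoin_b (hq : 2 ≤ q) (hρ : ρ ≠ 0)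
    (heq : b * U ^ q + b ^ 2 * U ^ (q - 1) = algebraMap k L ρ)
    (hgen : IntermediateField.adjoin k {b, U} = ⊤) : FiniteDimensional k⟮b⟯ L := by
  have h1 : FiniteDimensional k⟮b⟯ (k⟮b⟯)⟮U⟯ :=
    IntermediateField.adjoin.finiteDimensional (isIntegral_U hq hρ heq)
  rw [Fermat.Agent.BR3.HyperGenus.adjoin_adjoin_eq_top hgen] at h1
  exact Module.Finite.equiv (IntermediateField.topEquiv (F := k⟮b⟯) (E := L)).toLinearEquiv

/-- every `k`-algebra map `k(X) → L` is finite -/
theorem finiteAlong_ratFunc (hq : 2 ≤ q) (hρ : ρ ≠ 0)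
    (heq : b * U ^ q + b ^ 2 * U ^ (q - 1) = algebraMap k L ρ)
    (hgen : IntermediateField.adjoin k {b, U} = ⊤) (ψ : RatFunc k →ₐ[k] L) :
    FiniteAlong k ψ := by
  haveI := finiteDimensional_adjoin_b hq hρ heq hgen
  exact Fermat.Agent.Hecke.finiteAlong_of_transcendental ψ b (y := RatFunc.X)
    RatFunc.transcendental_X

/-- every `k`-algebra map `k(X) → L` is integral -/
theorem isIntegral_ratFunc (hq : 2 ≤ q) (hρ : ρ ≠ 0)
    (heq : b * U ^ q + b ^ 2 * U ^ (q - 1) = algebraMap k L ρ)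
    (hgen : IntermediateField.adjoin k {b, U} = ⊤) (ψ : RatFunc k →ₐ[k] L) :
    ψ.toRingHom.IsIntegral :=
  Fermat.Agent.Hecke.isIntegral_of_finiteAlong ψ (finiteAlong_ratFunc hq hρ heq hgen ψ)

end Finite

/-! ### the mirror map as an algebra map -/

section Mirror

variable {k : Type*} [Field k] {q : ℕ} {β ρ : k}

/-- the constants of `AdjoinRoot (vertBar q β ρ)` -/
theorem algebraMap_adjoinRoot (c : k) :
    algebraMap k (AdjoinRoot (vertBar q β ρ)) c =
      AdjoinRoot.of (vertBar q β ρ) (RatFunc.C c) := by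
  rw [IsScalarTower.algebraMap_apply k (RatFunc k) (AdjoinRoot (vertBar q β ρ)),
    RatFunc.algebraMap_eq_C, AdjoinRoot.algebraMap_eq]

/-- helper22's map `φ` as a `k`-algebra map -/
def mirrorAlgHom (φ : RatFunc k →+* AdjoinRoot (vertBar q β ρ))
    (hφC : ∀ c : k, φ (RatFunc.C c) = AdjoinRoot.of (vertBar q β ρ) (RatFunc.C c)) :
    RatFunc k →ₐ[k] AdjoinRoot (vertBar q β ρ) :=
  { φ with
    commutes' := fun c => by
      show φ (algebraMap k (RatFunc k) c) = _
      rw [RatFunc.algebraMap_eq_C, hφC, algebraMap_adjoinRoot] }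

@[simp] theorem mirrorAlgHom_apply (φ : RatFunc k →+* AdjoinRoot (vertBar q β ρ))
    (hφC : ∀ c : k, φ (RatFunc.C c) = AdjoinRoot.of (vertBar q β ρ) (RatFunc.C c))
    (y : RatFunc k) : mirrorAlgHom φ hφC y = φ y := rfl

/-- the mirror formula in the shape `hXb` of `BR3/VertPtsRam` -/
theorem mirror_hXb (φ : RatFunc k →+* AdjoinRoot (vertBar q β ρ))
    (hφC : ∀ c : k, φ (RatFunc.C c) = AdjoinRoot.of (vertBar q β ρ) (RatFunc.C c))
    {β' ω : k}
    (hmirror : φ (RatFunc.C β' * RatFunc.X) *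
      (AdjoinRoot.root (vertBar q β ρ) +
        AdjoinRoot.of (vertBar q β ρ) (RatFunc.C β * RatFunc.X)) =
      AdjoinRoot.of (vertBar q β ρ) (RatFunc.C ω)) :
    algebraMap k (AdjoinRoot (vertBar q β ρ)) β' * mirrorAlgHom φ hφC RatFunc.X *
      (AdjoinRoot.root (vertBar q β ρ) +
        AdjoinRoot.of (vertBar q β ρ) (RatFunc.C β * RatFunc.X)) =
      algebraMap k (AdjoinRoot (vertBar q β ρ)) ω := by
  rw [algebraMap_adjoinRoot, algebraMap_adjoinRoot, mirrorAlgHom_apply, ← hφC, ← map_mul]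
  exact hmirror

end Mirror

/-! ### the `MultiVal.Full` datum -/

section Full

variable {K : Type*} [Field K] {A : ValuationSubring K} [IsAlgClosed (IsLocalRing.ResidueField A)]
  {F E : Type*} [Field F] [Algebra K F] [Field E] [Algebra K E]
  {T : Set (Place K F)}

/-- **(b-exc)** the full situation over the `b`-critical circle ring along `b₂`: the single
valuation ring `Z` (the vertical component `z e`), `f = q`. -/
def fullExcOfMirror (hA : IsRankOne A) (b₂ : F →ₐ[K] E) (hfin : FiniteAlong K b₂)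
    (C' : AnnulusCore A T) (b₀ : K)
    (hb1 : A.valuation C'.thick < A.valuation b₀) (hb2 : A.valuation b₀ < 1)
    (q : ℕ) [hq : Fact q.Prime] [CharP (IsLocalRing.ResidueField A) q]
    (hdeg : finrankAlong K b₂ = q)
    {β ρ : IsLocalRing.ResidueField A} (hβ : β ≠ 0) (hρ : ρ ≠ 0)
    (Z : ValuationSubring E) (resZ : Z →+* AdjoinRoot (vertBar q β ρ))
    (hcomap : Z.comap (b₂ : F →+* E) = circleRing C' b₀ hb1 hb2)
    (hsurj : Function.Surjective resZ) (hker : ∀ z : Z, resZ z = 0 ↔ ¬ IsUnit z)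
    (φ : RatFunc (IsLocalRing.ResidueField A) →+* AdjoinRoot (vertBar q β ρ))
    (hφ : ∀ (y : F) (hy : y ∈ circleRing C' b₀ hb1 hb2) (h : b₂ y ∈ Z),
      resZ ⟨b₂ y, h⟩ = φ (circleRes C' b₀ hb1 hb2 ⟨y, hy⟩))
    (hφC : ∀ c, φ (RatFunc.C c) = AdjoinRoot.of (vertBar q β ρ) (RatFunc.C c))
    {β' ω : IsLocalRing.ResidueField A} (hβ' : β' ≠ 0) (hω : ω ≠ 0)
    (hmirror : φ (RatFunc.C β' * RatFunc.X) *
      (AdjoinRoot.root (vertBar q β ρ) +
        AdjoinRoot.of (vertBar q β ρ) (RatFunc.C β * RatFunc.X)) =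
      AdjoinRoot.of (vertBar q β ρ) (RatFunc.C ω))
    (θ : E) (hθ : θ ∈ Z) (hθres : resZ ⟨θ, hθ⟩ = AdjoinRoot.root (vertBar q β ρ)) :
    letI := algebraAlong b₂
    MultiVal.Full (circleRing C' b₀ hb1 hb2) (fun _ : Unit => Z) (fun _ => Fin q) :=
  letI := algebraAlong b₂
  haveI : Fact (Irreducible (vertBar q β ρ)) := fact_irreducible_vertBar hq.out.two_le hβ hρ
  haveI : Module.Finite F E := hfin
  haveI : Algebra.IsAlgebraic F E := Algebra.IsAlgebraic.of_finite F E
  have hint : (mirrorAlgHom φ hφC).toRingHom.IsIntegral :=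
    isIntegral_ratFunc hq.out.two_le hρ (vertBar_heq hβ) (vertBar_hgen hβ) _
  Fermat.Agent.BR3.FullRam.fullSingleOfRamified (circleRes C' b₀ hb1 hb2) resZ
    ⟨circleRes_surjective C' b₀ hb1 hb2, fun c => by
      rw [circleRes_eq_zero_iff, ValuationSubring.coe_mem_nonunits_iff,
        IsLocalRing.mem_maximalIdeal, mem_nonunits_iff]⟩
    hcomap
    (Fermat.Agent.BR3.ArchExt.arch_of_comap (F := F) Z (by
      have h : Z.comap (algebraMap F E) = circleRing C' b₀ hb1 hb2 := hcomap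
      rw [h]
      exact Fermat.Agent.BR3.ArchCircle.arch_circleRing C' b₀ hb1 hb2 hA))
    (mirrorAlgHom φ hφC) hint hsurj
    (fun z => by
      rw [hker, ValuationSubring.coe_mem_nonunits_iff, IsLocalRing.mem_maximalIdeal,
        mem_nonunits_iff])
    (fun c h => hφ (c : F) c.2 h)
    (ptIBar q hβ hρ) q
    (ptI_b q hρ (vertBar_hb (q := q) (ρ := ρ) hβ) (vertBar_heq hβ) (vertBar_hgen hβ)
      (mirrorAlgHom φ hφC) hint hβ' hω (mirror_hXb φ hφC hmirror)).2
    hdeg.symm θ hθ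
    (by
      rw [hθres]
      exact (ne_zero_of_heq hq.out.two_le hρ (vertBar_heq (q := q) (ρ := ρ) hβ)).2.1)
    (by
      rw [hθres]
      have h1 : (ptIBar q hβ hρ).ord (AdjoinRoot.root (vertBar q β ρ)) = -1 :=
        ord_U_ptI q hρ (vertBar_hb (q := q) (ρ := ρ) hβ) (vertBar_heq hβ) (vertBar_hgen hβ)
      rw [h1]
      exact isCoprime_one_left.neg_left)

end Full

end Fermat.Agent.BR3.FullExcB
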