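import Mathlib
import Fermat.Agent.BR3.FullExcB
import Fermat.Agent.BR3.SplitCompsCInf

/-!
# Program C (S36), node (N3-C₁): the component `z e` through the node `nW e`, along `β₂`

The node `nW e` of the stable model of `X₀(M q²)` joins the vertical component `z e` and the
horizontal component `cZero`; along `b = β₂` it lies over the INNER node of `S'ref_b` at the swapped
crossing `Fr e` (between the exceptional circle component `E^b` and `'et'`), whose branch on `E^b`
is the point `T_b = 0`.  On the split sheet `W_b := U_g / β₂ (β g - (α g')^q)`, `c₀ := 1`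
(`β₂ (β g - (α g')^q) = U_g + α₂ (α g - (β g')^q)`, so `W_b = θ / (θ + α₂ b₀)` with the `a`-side
quantities `θ = U_g / α₂ a₀`, `b₀ = a₀⁻¹ • (α g - (β g')^q)`), this file gives the input
`Hc : SplitBranch.CoverComp …` of `SplitNodeChart.splitNodeChart` on the side of `z e`.

## abstract part (`[Algebra F' F'']` is the `b`-side structure `β₂`)

`Z ⊆ F''` a valuation ring with residue map `resZ : Z →+* AdjoinRoot (vertBar q β ρ)`, with the
`b`-side clauses of (I7-ZE-B) (`VertBetaSS.exists_vertComponent_ss_gauge_beta`):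
`hcomap : Z.comap (algebraMap F' F'') = circleRing C b₀ hb1 hb2`, `hφ : resZ ∘ β₂ = φ ∘ circleRes`,
`hφC : φ (C c) = of (C c)`, `hmirror : φ (C β' * X) * (Ũ + b̃) = of (C ω)`; and `θ bₐ ∈ Z` with
residues `Ũ = root`, `b̃ = of (C β * X)` (the `a`-side: `SplitCompsMod.res_map_of_isRed`).

* `isScalarTower_mirror` : `k → k(T_b) → k(b̃, Ũ)` is a tower for the algebra structure `φ`;
* `ord_mirror_ptZBar` : `ord_{ptZ} (φ g) = ord_{T_b = 0} g` (`ptZ` lies over `T_b = 0`, unramified: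
  `VertPtsRam.ptZ_b`) — the hypothesis `hord` of `splitNodeChart`;
* `res_of_mul_add_eq` : `W * (θ + bₐ) = θ` ⇒ `W ∈ Z`, `resZ W = Ũ / (Ũ + b̃)`;
  `isValueAt_ptZBar_div` : `Ũ / (Ũ + b̃)` has the value `1` at `ptZ`;
* **`coverComp_ptZ`** : `CoverComp (residue A) (circleRing C b₀ hb1 hb2) (circleRes C b₀ hb1 hb2)
  (placeAt k 0) Z resZ (ptZBar q hβ hρ) W c₀` (algebra `k(T_b) → k(b̃, Ũ)` := `φ.toAlgebra`).

## modular part

* `splitWB M q g g' := U_g / β₂ (β g - (α g')^q)`, `beta2_ug_eq'`, `splitWB_mul` ;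
* **`coverComp_zeB`** : the modular shape, from the `a`-side `H : VertComp …`, `hred` and the
  `b`-side clauses.
-/

set_option autoImplicit false
set_option linter.unusedSectionVars false
set_option linter.style.haveILetI false

noncomputable section

/- S36 build-time patch: file-local shortcut instances. They only shorten instance search;
each is the instance that the search finds anyway (reducible, same terms after unfolding). -/
local instance (priority := 100000) Fermat.Agent.BR3.FastInst.instAlgFullC_SplitCompsModB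
    {k : Type*} [Field k] (N : ℕ) :
    Algebra k ↥(ModularCurve.modularFunctionFieldFullC k N) := inferInstance
local instance (priority := 100000) Fermat.Agent.BR3.FastInst.instFieldFullC_SplitCompsModB
    {k : Type*} [Field k] (N : ℕ) :
    Field ↥(ModularCurve.modularFunctionFieldFullC k N) := inferInstance
local instance (priority := 100000) Fermat.Agent.BR3.FastInst.instAlgLaurent_SplitCompsModB
    {k : Type*} [Field k] : Algebra k (LaurentSeries k) := inferInstance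


namespace Fermat.Agent.BR3.SplitCompsModB

open AlgebraicCurve Polynomial IsLocalRing
open Fermat.Agent.Red Fermat.Agent.X0
open Fermat.Agent.BR.Circle Fermat.Agent.BR.S0 Fermat.Agent.BR.P1 Fermat.Agent.BR.InertiaRed
open Fermat.Agent.BR3.VertResidue Fermat.Agent.BR3.VertResField Fermat.Agent.BR3.VertPtsDef
open Fermat.Agent.BR3.VertPtsRam Fermat.Agent.BR3.FullExcB
open Fermat.Agent.BR3.VertSheet Fermat.Agent.BR3.SplitBranch

/-! ### the point `ptZ` lies over `T_b = 0` and is unramified, along the mirror map -/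

section Points

variable {k : Type*} [Field k] [IsAlgClosed k] (q : ℕ) [hqF : Fact q.Prime] [CharP k q]
  {β ρ : k} [hP : Fact (Irreducible (vertBar q β ρ))]
  (φ : RatFunc k →+* AdjoinRoot (vertBar q β ρ))
  (hφC : ∀ c : k, φ (RatFunc.C c) = AdjoinRoot.of (vertBar q β ρ) (RatFunc.C c))

include hφC in
/-- `k → k(T_b) → k(b̃, Ũ)` is a tower for the algebra structure given by the mirror map `φ`
(stated for the scalar actions coming from the algebra structures, the form in which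
`SplitBranch.CoverComp.branchComp` etc. consume it) -/
theorem isScalarTower_mirror :
    @IsScalarTower k (RatFunc k) (AdjoinRoot (vertBar q β ρ)) Algebra.toSMul
      (RingHom.toAlgebra φ).toSMul Algebra.toSMul := by
  letI : Algebra (RatFunc k) (AdjoinRoot (vertBar q β ρ)) := RingHom.toAlgebra φ
  refine IsScalarTower.of_algebraMap_eq (R := k) (S := RatFunc k)
    (A := AdjoinRoot (vertBar q β ρ)) fun c => ?_
  show algebraMap k (AdjoinRoot (vertBar q β ρ)) c = φ (algebraMap k (RatFunc k) c)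
  rw [RatFunc.algebraMap_eq_C, hφC, algebraMap_adjoinRoot]

variable {β' ω : k} (hβ' : β' ≠ 0) (hω : ω ≠ 0)
  (hmirror : φ (RatFunc.C β' * RatFunc.X) *
    (AdjoinRoot.root (vertBar q β ρ) +
      AdjoinRoot.of (vertBar q β ρ) (RatFunc.C β * RatFunc.X)) =
    AdjoinRoot.of (vertBar q β ρ) (RatFunc.C ω))

include hφC hβ' hω hmirror in
/-- **the orders at `ptZ` of the functions of `k(T_b)` (through `φ`) are their orders at
`T_b = 0`**: the hypothesis `hord` of `SplitNodeChart.splitNodeChart` on the side of `z e`. -/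
theorem ord_mirror_ptZBar (hβ : β ≠ 0) (hρ : ρ ≠ 0) (g : RatFunc k) :
    (ptZBar q hβ hρ).ord (φ g) = (placeAt k 0).ord g := by
  have hint : (mirrorAlgHom φ hφC).toRingHom.IsIntegral :=
    isIntegral_ratFunc hqF.out.two_le hρ (vertBar_heq hβ) (vertBar_hgen hβ) _
  obtain ⟨h1, h2⟩ := ptZ_b q hρ (vertBar_hb (q := q) (ρ := ρ) hβ) (vertBar_heq hβ)
    (vertBar_hgen hβ) (mirrorAlgHom φ hφC) hint hβ' hω (mirror_hXb φ hφC hmirror)
  have h3 := Place.ord_restrictAlong (mirrorAlgHom φ hφC) hint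
    (ptZ q hρ (vertBar_hb (q := q) (ρ := ρ) hβ) (vertBar_heq hβ) (vertBar_hgen hβ)) g
  rw [h1, h2, Nat.cast_one, one_mul] at h3
  exact h3

omit [IsAlgClosed k] hqF [CharP k q] in
theorem of_b_ne_zero' (hβ : β ≠ 0) :
    AdjoinRoot.of (vertBar q β ρ) (RatFunc.C β * RatFunc.X) ≠ 0 := by
  have hβX : (RatFunc.C β * RatFunc.X : RatFunc k) ≠ 0 :=
    mul_ne_zero (by rw [ne_eq, map_eq_zero]; exact hβ) RatFunc.X_ne_zero
  exact (_root_.map_ne_zero _).mpr hβX

/-- `Ũ + b̃ ≠ 0` -/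
theorem root_add_ne_zero (hβ : β ≠ 0) (hρ : ρ ≠ 0) :
    AdjoinRoot.root (vertBar q β ρ) +
      AdjoinRoot.of (vertBar q β ρ) (RatFunc.C β * RatFunc.X) ≠ 0 := by
  intro h0
  have h1 : (ptZBar q hβ hρ).ord (AdjoinRoot.root (vertBar q β ρ) +
      AdjoinRoot.of (vertBar q β ρ) (RatFunc.C β * RatFunc.X)) = -1 :=
    ord_add_ptZ q hρ (vertBar_hb (q := q) (ρ := ρ) hβ) (vertBar_heq hβ) (vertBar_hgen hβ)
  rw [h0, Place.ord_zero] at h1
  omega

/-- `Ũ ≠ 0` -/
theorem root_ne_zero (hβ : β ≠ 0) (hρ : ρ ≠ 0) : AdjoinRoot.root (vertBar q β ρ) ≠ 0 := by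
  intro h0
  have h1 : (ptZBar q hβ hρ).ord (AdjoinRoot.root (vertBar q β ρ)) = -1 :=
    ord_U_ptZ q hρ (vertBar_hb (q := q) (ρ := ρ) hβ) (vertBar_heq hβ) (vertBar_hgen hβ)
  rw [h0, Place.ord_zero] at h1
  omega

/-- **`Ũ / (Ũ + b̃)` has the value `1` at `ptZ`** (`b̃ / Ũ` vanishes there). -/
theorem isValueAt_ptZBar_div (hβ : β ≠ 0) (hρ : ρ ≠ 0) :
    IsValueAt (ptZBar q hβ hρ)
      (AdjoinRoot.root (vertBar q β ρ) /
        (AdjoinRoot.root (vertBar q β ρ) +
          AdjoinRoot.of (vertBar q β ρ) (RatFunc.C β * RatFunc.X))) 1 := by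
  have h0 : IsValueAt (ptZBar q hβ hρ)
      (AdjoinRoot.of (vertBar q β ρ) (RatFunc.C β * RatFunc.X) /
        AdjoinRoot.root (vertBar q β ρ)) 0 :=
    isValueAt_ptZ q hρ (vertBar_hb (q := q) (ρ := ρ) hβ) (vertBar_heq hβ) (vertBar_hgen hβ)
  have h1 : IsValueAt (ptZBar q hβ hρ)
      (algebraMap k (AdjoinRoot (vertBar q β ρ)) 1) 1 := isValueAt_algebraMap _ _
  have h2 := (h1.add h0)
  rw [add_zero] at h2
  have h3 := Fermat.Agent.BR.Centre.IsValueAt.inv h2 one_ne_zero
  rw [inv_one] at h3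
  have hU := root_ne_zero q hβ hρ
  have hS := root_add_ne_zero q hβ hρ
  have e : (algebraMap k (AdjoinRoot (vertBar q β ρ)) 1 +
      AdjoinRoot.of (vertBar q β ρ) (RatFunc.C β * RatFunc.X) /
        AdjoinRoot.root (vertBar q β ρ))⁻¹ =
      AdjoinRoot.root (vertBar q β ρ) /
        (AdjoinRoot.root (vertBar q β ρ) +
          AdjoinRoot.of (vertBar q β ρ) (RatFunc.C β * RatFunc.X)) := by
    rw [map_one]
    field_simp
  rwa [e] at h3

end Points

/-! ### the component `z e` over the `b`-circle component -/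

section Sheet

variable {K F' F'' : Type*} [Field K] [Field F'] [Field F''] [Algebra K F'] [Algebra K F'']
  [Algebra F' F''] [IsScalarTower K F' F''] {A : ValuationSubring K}
  [IsAlgClosed (ResidueField A)] {T' : Set (Place K F')}

variable {q : ℕ} [hqF : Fact q.Prime] [CharP (ResidueField A) q] {β ρ : ResidueField A}
  [hP : Fact (Irreducible (vertBar q β ρ))]
  {C : AnnulusCore A T'} {b₀ : K} {hb1 : A.valuation C.thick < A.valuation b₀}
  {hb2 : A.valuation b₀ < 1} {Z : ValuationSubring F''}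
  {resZ : Z →+* AdjoinRoot (vertBar q β ρ)}
  (hker : ∀ z : Z, resZ z = 0 ↔ ¬ IsUnit z)
  {θ bₐ : F''} (hθ : θ ∈ Z) (hθres : resZ ⟨θ, hθ⟩ = AdjoinRoot.root (vertBar q β ρ))
  (hbₐ : bₐ ∈ Z)
  (hbres : resZ ⟨bₐ, hbₐ⟩ = AdjoinRoot.of (vertBar q β ρ) (RatFunc.C β * RatFunc.X))

include hker hθres hbres in
/-- `W = θ / (θ + bₐ)` is integral on `z e` and reduces to `Ũ / (Ũ + b̃)` -/
theorem res_of_mul_add_eq (hβ : β ≠ 0) (hρ : ρ ≠ 0) {W : F''} (hW : W * (θ + bₐ) = θ) :
    ∃ h : W ∈ Z, resZ ⟨W, h⟩ =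
      AdjoinRoot.root (vertBar q β ρ) /
        (AdjoinRoot.root (vertBar q β ρ) +
          AdjoinRoot.of (vertBar q β ρ) (RatFunc.C β * RatFunc.X)) := by
  have hS := root_add_ne_zero q hβ hρ
  have hsm : θ + bₐ ∈ Z := Z.add_mem _ _ hθ hbₐ
  have hsres : resZ ⟨θ + bₐ, hsm⟩ = AdjoinRoot.root (vertBar q β ρ) +
      AdjoinRoot.of (vertBar q β ρ) (RatFunc.C β * RatFunc.X) := by
    have e : (⟨θ + bₐ, hsm⟩ : Z) = ⟨θ, hθ⟩ + ⟨bₐ, hbₐ⟩ := rfl
    rw [e, map_add, hθres, hbres]
  have hsu : IsUnit (⟨θ + bₐ, hsm⟩ : Z) := by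
    by_contra hnu
    have h0 := (hker _).mpr hnu
    rw [hsres] at h0
    exact hS h0
  obtain ⟨w, hw⟩ := hsu.exists_right_inv
  have h1 : (θ + bₐ) * (w : F'') = 1 := by
    have := congrArg (fun z : Z => (z : F'')) hw
    simpa using this
  have hWeq : W = θ * (w : F'') := by
    rw [← hW]
    linear_combination (-W) * h1
  have hmem : W ∈ Z := by
    rw [hWeq]
    exact Z.mul_mem _ _ hθ w.2
  refine ⟨hmem, ?_⟩
  have e : (⟨W, hmem⟩ : Z) * ⟨θ + bₐ, hsm⟩ = ⟨θ, hθ⟩ := Subtype.ext hW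
  have h2 := congrArg resZ e
  rw [map_mul, hsres, hθres] at h2
  rw [eq_div_iff hS]
  exact h2

variable (hcomap : Z.comap (algebraMap F' F'') = circleRing C b₀ hb1 hb2)
  (φ : RatFunc (ResidueField A) →+* AdjoinRoot (vertBar q β ρ))
  (hφ : ∀ (y : F') (hy : y ∈ circleRing C b₀ hb1 hb2) (h : algebraMap F' F'' y ∈ Z),
    resZ ⟨algebraMap F' F'' y, h⟩ = φ (circleRes C b₀ hb1 hb2 ⟨y, hy⟩))
  (hφC : ∀ c : ResidueField A, φ (RatFunc.C c) = AdjoinRoot.of (vertBar q β ρ) (RatFunc.C c))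
  {β' ω : ResidueField A} (hβ' : β' ≠ 0) (hω : ω ≠ 0)
  (hmirror : φ (RatFunc.C β' * RatFunc.X) *
    (AdjoinRoot.root (vertBar q β ρ) +
      AdjoinRoot.of (vertBar q β ρ) (RatFunc.C β * RatFunc.X)) =
    AdjoinRoot.of (vertBar q β ρ) (RatFunc.C ω))

include hker hθres hbres hcomap hφ hφC hβ' hω hmirror in
/-- **(N3-C₁) The vertical component `z e` with its point `ptZ`, over the `b`-circle component with
its point `T_b = 0`, on the sheet `W ≡ 1`** (the algebra `k(T_b) → k(b̃, Ũ)` is the mirror map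
`φ`). -/
theorem coverComp_ptZ (hβ : β ≠ 0) (hρ : ρ ≠ 0) {W : F''} (hW : W * (θ + bₐ) = θ) {c₀ : A}
    (hc₀ : residue A c₀ = 1) :
    letI : Algebra (RatFunc (ResidueField A)) (AdjoinRoot (vertBar q β ρ)) := RingHom.toAlgebra φ
    CoverComp (residue A) (circleRing C b₀ hb1 hb2) (circleRes C b₀ hb1 hb2)
      (placeAt (ResidueField A) 0) Z resZ (ptZBar q hβ hρ) W c₀ := by
  letI : Algebra (RatFunc (ResidueField A)) (AdjoinRoot (vertBar q β ρ)) := RingHom.toAlgebra φ
  haveI : @IsScalarTower (ResidueField A) (RatFunc (ResidueField A))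
      (AdjoinRoot (vertBar q β ρ)) Algebra.toSMul (RingHom.toAlgebra φ).toSMul Algebra.toSMul :=
    isScalarTower_mirror q φ hφC
  obtain ⟨hmem, hres⟩ := res_of_mul_add_eq hker hθ hθres hbₐ hbres hβ hρ hW
  have hmap : ∀ y : F', y ∈ circleRing C b₀ hb1 hb2 → algebraMap F' F'' y ∈ Z := fun y hy => by
    have : y ∈ Z.comap (algebraMap F' F'') := by rw [hcomap]; exact hy
    exact this
  exact
    { map_mem := hmap
      res_map := fun y hy => hφ y hy (hmap y hy)
      res_nonunits := fun x hx => by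
        rw [hker x]
        rwa [ValuationSubring.coe_mem_nonunits_iff, IsLocalRing.mem_maximalIdeal,
          mem_nonunits_iff] at hx
      lies := lies_of_ord_map (fun g => ord_mirror_ptZBar q φ hφC hβ' hω hmirror hβ hρ g)
      W_mem := hmem
      value := by
        rw [hres, hc₀, map_one]
        have hv := isValueAt_ptZBar_div q hβ hρ (β := β) (ρ := ρ)
        have h1 : (ptZBar q hβ hρ).adicValuation
            (AdjoinRoot.root (vertBar q β ρ) /
              (AdjoinRoot.root (vertBar q β ρ) +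
                AdjoinRoot.of (vertBar q β ρ) (RatFunc.C β * RatFunc.X)) -
              algebraMap (ResidueField A) (AdjoinRoot (vertBar q β ρ)) 1) < 1 := hv
        rwa [map_one] at h1 }

end Sheet

/-! ### the modular shape -/

section Modular

open ModularCurve Fermat.Agent.Hecke Fermat.Agent.BR3.FibreProd Fermat.Agent.BR3.HeckePoly

variable {M q : ℕ} [NeZero M] [hq : Fact q.Prime]

/-- The function of the split sheet of the node `nW e` along `β₂`:
`W_b = U_g / β₂ (β g - (α g')^q)`. -/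
def splitWB (M q : ℕ) [NeZero M] [Fact q.Prime] (g g' : Fb M) : Fb (M * q * q) :=
  Ug M q g / beta2 M q (heckeBetaBar Kb M q g - heckeAlphaBar Kb M q g' ^ q)

/-- `β₂ (β g - (α g')^q) = U_g + α₂ (α g - (β g')^q)` (= `SSParamChain.beta2_ug_eq`). -/
theorem beta2_ug_eq' (g g' : Fb M) :
    beta2 M q (heckeBetaBar Kb M q g - heckeAlphaBar Kb M q g' ^ q) =
      Ug M q g + alpha2 M q (heckeAlphaBar Kb M q g - heckeBetaBar Kb M q g' ^ q) := by
  have h1 : beta2 M q (heckeAlphaBar Kb M q g') = alpha2 M q (heckeBetaBar Kb M q g') := by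
    rw [← mid_apply', mid_apply]
  rw [Ug, map_sub, map_sub, map_pow, map_pow, h1]
  ring

variable (B : ValuationSubring Kb) [IsAlgClosed (IsLocalRing.ResidueField B)]
  [CharP (IsLocalRing.ResidueField B) q]
  {Ta Tb : Set (Place Kb (Fb (M * q)))} {Ca : AnnulusCore B Ta} {a₀ : Kb}
  {ha1 : B.valuation Ca.thick < B.valuation a₀} {ha2 : B.valuation a₀ < 1}
  {Cb : AnnulusCore B Tb} {b₀ : Kb}
  {hb1 : B.valuation Cb.thick < B.valuation b₀} {hb2 : B.valuation b₀ < 1}
  {β ρ : IsLocalRing.ResidueField B} [hP : Fact (Irreducible (vertBar q β ρ))]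
  {Z : ValuationSubring (Fb (M * q * q))} {resZ : Z →+* AdjoinRoot (vertBar q β ρ)}

/-- **(N3-C₁) in the modular frame**: the vertical component `z e` with its point `ptZBar`, over
the `b`-circle component (at `Fr e`, along `β₂`) with its point `T_b = 0`, on the sheet
`W_b = splitWB M q g g' ≡ 1`.  `H`, `hred` are the `a`-side clauses and `hcomap hφ hφC hmirror`
the `b`-side clauses of `VertBetaSS.exists_vertComponent_ss_gauge_beta`. -/
theorem coverComp_zeB (g g' : Fb M)
    (H : letI := algebraAlong (alpha2 M q)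
      VertComp Ca a₀ ha1 ha2 Z resZ (Ug M q g / alpha2 M q (algebraMap Kb (Fb (M * q)) a₀)))
    (hβ : β ≠ 0) (hρ : ρ ≠ 0)
    (hred : IsRed Ca a₀ (a₀⁻¹ • (heckeAlphaBar Kb M q g - heckeBetaBar Kb M q g' ^ q))
      (RatFunc.C β * RatFunc.X))
    (hcomap : Z.comap (beta2 M q : Fb (M * q) →+* Fb (M * q * q)) = circleRing Cb b₀ hb1 hb2)
    (φ : RatFunc (IsLocalRing.ResidueField B) →+* AdjoinRoot (vertBar q β ρ))
    (hφ : ∀ (y : Fb (M * q)) (hy : y ∈ circleRing Cb b₀ hb1 hb2) (h : beta2 M q y ∈ Z),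
      resZ ⟨beta2 M q y, h⟩ = φ (circleRes Cb b₀ hb1 hb2 ⟨y, hy⟩))
    (hφC : ∀ c : IsLocalRing.ResidueField B,
      φ (RatFunc.C c) = AdjoinRoot.of (vertBar q β ρ) (RatFunc.C c))
    {β' ω : IsLocalRing.ResidueField B} (hβ' : β' ≠ 0) (hω : ω ≠ 0)
    (hmirror : φ (RatFunc.C β' * RatFunc.X) *
      (AdjoinRoot.root (vertBar q β ρ) +
        AdjoinRoot.of (vertBar q β ρ) (RatFunc.C β * RatFunc.X)) =
      AdjoinRoot.of (vertBar q β ρ) (RatFunc.C ω)) :
    letI := algebraAlong (beta2 M q)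
    letI : Algebra (RatFunc (IsLocalRing.ResidueField B)) (AdjoinRoot (vertBar q β ρ)) :=
      RingHom.toAlgebra φ
    CoverComp (IsLocalRing.residue B) (circleRing Cb b₀ hb1 hb2) (circleRes Cb b₀ hb1 hb2)
      (placeAt (IsLocalRing.ResidueField B) 0) Z resZ (ptZBar q hβ hρ) (splitWB M q g g') 1 := by
  -- the `a`-side facts
  have hθ : Ug M q g / alpha2 M q (algebraMap Kb (Fb (M * q)) a₀) ∈ Z := by
    letI := algebraAlong (alpha2 M q)
    exact H.θ_mem
  have hθres : resZ ⟨_, hθ⟩ = AdjoinRoot.root (vertBar q β ρ) := by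
    letI := algebraAlong (alpha2 M q)
    exact H.res_θ
  have hbₐ : alpha2 M q (a₀⁻¹ • (heckeAlphaBar Kb M q g - heckeBetaBar Kb M q g' ^ q)) ∈ Z := by
    letI := algebraAlong (alpha2 M q)
    exact H.map_mem ⟨_, hred⟩
  have hbres : resZ ⟨_, hbₐ⟩ =
      AdjoinRoot.of (vertBar q β ρ) (RatFunc.C β * RatFunc.X) := by
    letI := algebraAlong (alpha2 M q)
    haveI : IsScalarTower Kb (Fb (M * q)) (Fb (M * q * q)) := isScalarTower_along (alpha2 M q)
    exact Fermat.Agent.BR3.SplitCompsMod.res_map_of_isRed H hred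
  have hker : ∀ z : Z, resZ z = 0 ↔ ¬ IsUnit z := by
    letI := algebraAlong (alpha2 M q)
    exact H.ker
  -- `θ + bₐ = β₂ (u) / α₂ a₀`
  have ha₀ : a₀ ≠ 0 := gauge_ne_zero ha1
  have hA : alpha2 M q (algebraMap Kb (Fb (M * q)) a₀) ≠ 0 :=
    (_root_.map_ne_zero _).mpr ((_root_.map_ne_zero _).mpr ha₀)
  have hsum : Ug M q g / alpha2 M q (algebraMap Kb (Fb (M * q)) a₀) +
      alpha2 M q (a₀⁻¹ • (heckeAlphaBar Kb M q g - heckeBetaBar Kb M q g' ^ q)) =
      beta2 M q (heckeBetaBar Kb M q g - heckeAlphaBar Kb M q g' ^ q) /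
        alpha2 M q (algebraMap Kb (Fb (M * q)) a₀) := by
    rw [beta2_ug_eq', Algebra.smul_def, map_mul, add_div]
    congr 1
    rw [map_inv₀, map_inv₀, div_eq_inv_mul]
  have hne : Ug M q g / alpha2 M q (algebraMap Kb (Fb (M * q)) a₀) +
      alpha2 M q (a₀⁻¹ • (heckeAlphaBar Kb M q g - heckeBetaBar Kb M q g' ^ q)) ≠ 0 := by
    intro h0
    have hsm := Z.add_mem _ _ hθ hbₐ
    have e : (⟨_, hsm⟩ : Z) = ⟨_, hθ⟩ + ⟨_, hbₐ⟩ := rfl
    have e0 : (⟨_, hsm⟩ : Z) = 0 := Subtype.ext h0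
    have h1 := congrArg resZ e
    rw [e0, map_zero, map_add, hθres, hbres] at h1
    exact root_add_ne_zero q hβ hρ h1.symm
  have hY : beta2 M q (heckeBetaBar Kb M q g - heckeAlphaBar Kb M q g' ^ q) ≠ 0 := by
    intro h0
    rw [hsum, h0, zero_div] at hne
    exact hne rfl
  have hW : splitWB M q g g' *
      (Ug M q g / alpha2 M q (algebraMap Kb (Fb (M * q)) a₀) +
        alpha2 M q (a₀⁻¹ • (heckeAlphaBar Kb M q g - heckeBetaBar Kb M q g' ^ q))) =
      Ug M q g / alpha2 M q (algebraMap Kb (Fb (M * q)) a₀) := by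
    rw [hsum, splitWB]
    field_simp
  letI := algebraAlong (beta2 M q)
  haveI : IsScalarTower Kb (Fb (M * q)) (Fb (M * q * q)) := isScalarTower_along (beta2 M q)
  exact coverComp_ptZ hker hθ hθres hbₐ hbres hcomap φ hφ hφC hβ' hω hmirror hβ hρ hW (map_one _)

end Modular

end Fermat.Agent.BR3.SplitCompsModB
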