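import Mathlib
import Fermat.Agent.BR3.SDD.ModularNodeTEquiv
import Fermat.Agent.BR3.SDD.ModularNodeW
import Fermat.Agent.BR3.EquivTubesNodeB
import Fermat.Agent.BR3.EquivRest

/-!
# Program C (S36), node (G4-FINAL), node kinds: the raw node tubes and the node coordinates of THE
family under the rich inertia elements

The node clauses `hnT`, `hnW`, `huT`, `huW` of helper10's `EquivRest.hrest_of_kinds` /
`EquivRestM.hrestM` (= the hypothesis `hrest` of `SDD.Modular.modelAt_of_raw(_thick)` kind by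
kind) in their LITERAL shapes, at helper16's `tubeTM`, `LTM` (`ModularNodeT`) and helper5's
`tubeWM`, `LWM` (`ModularNodeW`):

* `smul_mem_tubeW_raw` : the raw tube `coverTube B (tube S'ref_b (inner e')) (splitWB M q g g') 1`
  along `β₂` is stable under the WHOLE inertia group (`g, g'` over the unramified constants);
  `smul_mem_tubeWM` : the instance at `tubeWM e` (`e' = Fr e`, `g, g'` of `zePackM e`);
* `galAut_smul_LW_u_of_eq`, `galAut_smul_LT_u_of_eq` : levels with coordinate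
  `β₂ ((gaugeB e')⁻¹ • u_{e'})` resp. `α₂ u_e` have their coordinate fixed (`σ` fixing `unifSDD q`
  resp. every inertia element); `galAut_smul_LWM_u`;
* **`hnTM`**, **`hnWM`**, **`huTM`**, **`huWM`** : the four clauses, hypothesis free (`huWM` for
  every `HW : HWM ..`, e.g. `hWM_closed ..`).

The kind `nk e s` (`hnK`, `huK`) is helper15's (`ModularNodeK`: `smul_mem_tubeKM_rich`,
`smul_LKM_u`).
-/

set_option autoImplicit false
set_option linter.style.haveILetI false
set_option linter.unusedSectionVars false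
set_option linter.unusedVariables false
set_option synthInstance.maxHeartbeats 400000

open ModularCurve AlgebraicCurve

noncomputable section

namespace Fermat.Agent.BR3.EquivTubesMNodes

open IsLocalRing Fermat.Agent.X0 Fermat.Agent.Red Fermat.Agent.Val Fermat.Agent.Hecke
  Fermat.Agent.Jac Fermat.Agent.BR Fermat.Agent.BR.UnramCyclo
  Fermat.Agent.BR.SS Fermat.Agent.BR.Refine Fermat.Agent.BR.Circle Fermat.Agent.BR.S0
  Fermat.Agent.BR.S0.PointDict Fermat.Agent.BR.S0.RedModular Fermat.Agent.BR.Final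
  Fermat.Agent.BR.ValTwo Fermat.Agent.BR.InertiaRed
  Fermat.Agent.BR2.SetupOfData Fermat.Agent.BR3.CircleN Fermat.Agent.BR3.SRef
  Fermat.Agent.BR3.SRef.Modular Fermat.Agent.BR3.FibreProd Fermat.Agent.BR3.HeckePoly
  Fermat.Agent.BR3.CoverSmooth Fermat.Agent.BR3.ThickSDDPlug Fermat.Agent.BR3.SSParam
  Fermat.Agent.BR3.SDD Fermat.Agent.BR3.SDD.Modular Fermat.Agent.BR3.EquivTubesNode
  Fermat.Agent.BR3.SplitCompsModB Fermat.Agent.BR3.VertBetaFr
  Fermat.Agent.BR.Inst.LevelsInst Fermat.Agent.BR.S0.ThickFinal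

local notation "Kb" => AlgebraicClosure ℚ
local notation "Qb" => AlgebraicClosure ℚ

variable {M q : ℕ} [NeZero M] [hq : Fact q.Prime]
variable (B : ValuationSubring (AlgebraicClosure ℚ)) (hB : B.LiesOverPrime q) (hqM : ¬ q ∣ M)
variable [IsAlgClosed (ResidueField B)]

local notation "kB" => IsLocalRing.ResidueField B
local notation "FtM" => modularFunctionFieldFullC (IsLocalRing.ResidueField B) M

/-- (shortcut instance) -/
local instance (priority := 100000) instAlgebraFtMShortcutMNodes :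
    Algebra (IsLocalRing.ResidueField B)
      (modularFunctionFieldFullC (IsLocalRing.ResidueField B) M) :=
  inferInstance

/-! ### raw forms -/

section Raw

variable (h2 : nuTwo M = 0) (h3 : nuThree M = 0) {σ : GQ}

include hB in
/-- **The raw tube of a node `nW`** over the inner node of `S'ref_b` at `e'` (the split sheet
`W_b = U_g / β₂ (β g - (α g')^q) ≡ 1` along `β₂`) **is stable under the inertia group**. -/
theorem smul_mem_tubeW_raw (hσ : σ ∈ B.inertiaSubgroupIn ℚ)
    (e' : Crossing (chartDataModular B hB hqM)) {g g' : Fb M}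
    (hg : g ∈ CMod M (W0 B q) (K0 q)) (hg' : g' ∈ CMod M (W0 B q) (K0 q))
    {P : Place Kb (Fb (M * q * q))} :
    letI := algebraAlong (beta2 M q)
    haveI := isScalarTower_along (beta2 M q)
    haveI : Module.Finite (Fb (M * q)) (Fb (M * q * q)) :=
      Fermat.Agent.Hecke.finiteAlong_heckeBetaBar (M * q) q
    P ∈ coverTube B
        (tube (srefM (DtM B hB hqM) (gaugeB q B hB hqM) (admB B hB hqM h2 h3))
          (inner (inputs (DtM B hB hqM)) (gaugeB q B hB hqM) (admB B hB hqM h2 h3) e'))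
        (splitWB M q g g') (1 : B) →
      galAut (M * q * q) σ • P ∈ coverTube B
        (tube (srefM (DtM B hB hqM) (gaugeB q B hB hqM) (admB B hB hqM h2 h3))
          (inner (inputs (DtM B hB hqM)) (gaugeB q B hB hqM) (admB B hB hqM h2 h3) e'))
        (splitWB M q g g') (1 : B) :=
  smul_mem_nodeTube_inner_beta (DtM B hB hqM) (gaugeB q B hB hqM) (admB B hB hqM h2 h3) hσ e'
    (gal_smul_splitWB_of_mem_CMod B hB hσ hg hg') (1 : B)

/-- **(G4), coordinates, kind `nW`**: a coordinate `β₂ ((gaugeB e')⁻¹ • u_{e'})` is fixed by the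
inertia elements fixing the uniformiser `unifSDD q`. -/
theorem galAut_smul_LW_u_of_eq (hσ : σ ∈ B.inertiaSubgroupIn ℚ)
    (hu : σ (unifSDD q) = unifSDD q) (e' : Crossing (chartDataModular B hB hqM))
    {u : Fb (M * q * q)}
    (hLu : u = beta2 M q ((gaugeB q B hB hqM e')⁻¹ • annulusCoord (DtM B hB hqM) e')) :
    galAut (M * q * q) σ • u = u := by
  rw [hLu]
  exact gal_smul_beta2_smul_coord (DtM B hB hqM) hσ e' (apply_inv_gaugeB_of_fixed B hB hqM e' hu)

/-- **(G4), coordinates, kind `nT`**: a coordinate `α₂ u_e` is fixed by the inertia group. -/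
theorem galAut_smul_LT_u_of_eq (hσ : σ ∈ B.inertiaSubgroupIn ℚ)
    (e : Crossing (chartDataModular B hB hqM)) {u : Fb (M * q * q)}
    (hLu : u = alpha2 M q (annulusCoord (DtM B hB hqM) e)) :
    galAut (M * q * q) σ • u = u := by
  rw [hLu]
  exact gal_smul_alpha2_coord (DtM B hB hqM) hσ e

end Raw

/-! ### THE family -/

section Family

variable [CharP (ResidueField B) q] (h2 : nuTwo M = 0) (h3 : nuThree M = 0) {σ : GQ}

set_option maxHeartbeats 4000000 in
/-- **(G4), tubes, kind `nW`**: the raw tube `tubeWM e` is stable under the inertia group. -/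
theorem smul_mem_tubeWM (hσ : σ ∈ B.inertiaSubgroupIn ℚ) (e : SSpM B hB hqM)
    {P : Place Kb (Fb (M * q * q))} (hP : P ∈ tubeWM B hB hqM h2 h3 e) :
    galAut (M * q * q) σ • P ∈ tubeWM B hB hqM h2 h3 e :=
  smul_mem_tubeW_raw B hB hqM h2 h3 hσ (Fr B hB hqM e) (zePackM B hB hqM h2 h3 e).P.hg
    (zePackM B hB hqM h2 h3 e).P.hg' hP

set_option maxHeartbeats 4000000 in
/-- **(G4), coordinates, kind `nW`**: the coordinate of the levels `LWM e` is fixed by the inertia
elements fixing `unifSDD q`. -/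
theorem galAut_smul_LWM_u (HW : HWM B hB hqM h2 h3) (hσ : σ ∈ B.inertiaSubgroupIn ℚ)
    (hu : σ (unifSDD q) = unifSDD q) (e : SSpM B hB hqM) :
    galAut (M * q * q) σ • (LWM B hB hqM h2 h3 HW e).u = (LWM B hB hqM h2 h3 HW e).u :=
  galAut_smul_LW_u_of_eq B hB hqM hσ hu (Fr B hB hqM e) (LWM_u B hB hqM h2 h3 HW e)

/-- **`hnW`** of `hrest_of_kinds` at `tubeWM`. -/
theorem hnWM : ∀ s ∈ B.inertiaSubgroupIn ℚ, s (unifSDD q) = unifSDD q →
    (∀ a ∈ cycloField Qb q, s a = a) → (∀ ζ' : Qb, ζ' ^ q = 1 → s ζ' = ζ') →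
    ∀ e, ∀ P ∈ tubeWM B hB hqM h2 h3 e, galAut (M * q * q) s • P ∈ tubeWM B hB hqM h2 h3 e :=
  fun s hs _ _ _ e P hP => smul_mem_tubeWM B hB hqM h2 h3 hs e hP

/-- **`huW`** of `hrest_of_kinds` at `LWM`. -/
theorem huWM (HW : HWM B hB hqM h2 h3) : ∀ s ∈ B.inertiaSubgroupIn ℚ, s (unifSDD q) = unifSDD q →
    (∀ a ∈ cycloField Qb q, s a = a) → (∀ ζ' : Qb, ζ' ^ q = 1 → s ζ' = ζ') →
    ∀ e, galAut (M * q * q) s • (LWM B hB hqM h2 h3 HW e).u = (LWM B hB hqM h2 h3 HW e).u :=
  fun s hs h1 _ _ e => galAut_smul_LWM_u B hB hqM h2 h3 HW hs h1 e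

variable [PerfectField (ResidueField B)]

/-- **`hnT`** of `hrest_of_kinds` at `tubeTM`. -/
theorem hnTM : ∀ s ∈ B.inertiaSubgroupIn ℚ, s (unifSDD q) = unifSDD q →
    (∀ a ∈ cycloField Qb q, s a = a) → (∀ ζ' : Qb, ζ' ^ q = 1 → s ζ' = ζ') →
    ∀ e, ∀ P ∈ tubeTM B hB hqM h2 h3 e, galAut (M * q * q) s • P ∈ tubeTM B hB hqM h2 h3 e :=
  fun s hs h1 _ _ e P hP => smul_mem_tubeTM B hB hqM h2 h3 e hs h1 hP

/-- **`huT`** of `hrest_of_kinds` at `LTM`. -/
theorem huTM : ∀ s ∈ B.inertiaSubgroupIn ℚ, s (unifSDD q) = unifSDD q →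
    (∀ a ∈ cycloField Qb q, s a = a) → (∀ ζ' : Qb, ζ' ^ q = 1 → s ζ' = ζ') →
    ∀ e, galAut (M * q * q) s • (LTM B hB hqM h2 h3 e).u = (LTM B hB hqM h2 h3 e).u :=
  fun s hs _ _ _ e => galAut_smul_LTM_u B hB hqM h2 h3 e hs

end Family

end Fermat.Agent.BR3.EquivTubesMNodes
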