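import Fermat.Agent.BR3.EquivTubes
import Fermat.Agent.BR3.EquivFixed
import Fermat.Agent.BR3.EquivSRefModular
import Fermat.Agent.BR3.CoverSheetInf.Theta
import Fermat.Agent.BR3.VertSheet.Modular

/-!
# Program C (S36), node (I9-TUBES), modular layer: the named generators of the sheets of `S''` and
the base tubes of `S'`, `S'ref` under the coefficientwise Galois action

`gal N σ = galAut N σ`.

## Generators (ALL `σ`)
`jBar_mem_galFixed`, `jq'_mem_galFixed`, `jqq_mem_galFixed`, `U_mem_galFixed`, `TB_mem_galFixed`,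
`Theta_mem_galFixed` : the functions `j`, `j(s^q)`, `j(s^{q²})`, `U = j(s^{q²}) - α₂ j`,
`T = Δ(s)/Δ(s^q)`, `Θ = β₂ T` have rational coefficients, hence are fixed by every `gal N σ`;
`gal_smul_thetaVert` : `gal σ • (U / α₂ a₀) = (a₀ / σ a₀) • (U / α₂ a₀)`; `thetaVert_mem_galFixed`
(for `σ a₀ = a₀`).

## Base tubes (`σ` in the inertia group of `B`)
`smul_mem_tube_setup_iff` (tubes of the crossings of `S'`), `smul_mem_outerTube_core_iff`,
`smul_mem_innerTube_core_iff` (sub-annuli, ANY gauge), `smul_mem_classDisc_core` (residue discs of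
the circle of gauge `a`: ROTATED by `θ = theta B σ a`), `smul_mem_classDisc_core_iff` (`σ a = a`).

## Sheets of `z e` at the ordinary points
`smul_mem_vertTube_iff` : the tube `coverTube B (classDisc (core Dt e) a₀ cb) (thetaVert M q a₀) u`
(helper16's `VertSheet.regChart_of_levels`) is stable under `gal (M q²) σ` for `σ` in the inertia
group with `σ a₀ = a₀`; `smul_mem_vertTube` : for ANY `σ` in the inertia group it goes to the sheet
`θ ≡ u₂` over the residue disc of class `theta B σ a₀ * cb`, where `(a₀ / σ a₀) * u₂ ≡ u`.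
-/

set_option autoImplicit false
set_option linter.style.haveILetI false
set_option linter.unusedSectionVars false
set_option synthInstance.maxHeartbeats 400000

noncomputable section

namespace Fermat.Agent.BR3.EquivTubesModular

open ModularCurve AlgebraicCurve IsLocalRing HahnSeries
open Fermat.Agent.Red Fermat.Agent.Val Fermat.Agent.X0 Fermat.Agent.Hecke
open Fermat.Agent.BR.SS Fermat.Agent.BR.Refine Fermat.Agent.BR.Circle Fermat.Agent.BR.S0
open Fermat.Agent.BR.S0.PointDict Fermat.Agent.BR.S0.RedModular Fermat.Agent.BR.Final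
open Fermat.Agent.BR.ValTwo Fermat.Agent.BR.ModUnit Fermat.Agent.BR.InertiaRed
open Fermat.Agent.Good.Bridge
open Fermat.Agent.BR2.SetupOfData Fermat.Agent.BR3.CircleN Fermat.Agent.BR3.SRef
open Fermat.Agent.BR3.SRef.Modular Fermat.Agent.BR3.EquivSRef Fermat.Agent.BR3.EquivSRefModular
open Fermat.Agent.BR3.FibreProd Fermat.Agent.BR3.EquivFixed Fermat.Agent.BR3.EquivTubes
open Fermat.Agent.BR3.InvFiniteTheta Fermat.Agent.BR3.SubDisc Fermat.Agent.BR3.VertSheet

local notation "Kb" => AlgebraicClosure ℚ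

/-! ## Generators -/

section Generators

variable (M q : ℕ) [NeZero M] [hq : Fact q.Prime] (σ : Kb ≃ₐ[ℚ] Kb)

theorem jBar_mem_galFixed (N : ℕ) [NeZero N] : jBar N ∈ galFixed N σ := by
  rw [← barEmb_jFull]
  exact barEmb_mem_galFixed σ _

theorem jq'_mem_galFixed : jq' M q ∈ galFixed (M * q) σ :=
  jBarD_mem_galFixed σ _ _

theorem jqq_mem_galFixed : jqq M q ∈ galFixed (M * q * q) σ := by
  haveI : NeZero (q * q) := ⟨Nat.mul_ne_zero hq.out.ne_zero hq.out.ne_zero⟩
  exact jBarD_mem_galFixed σ _ _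

/-- `U = j(s^{q²}) - α₂ j` is fixed by every `σ`. -/
theorem U_mem_galFixed : U M q ∈ galFixed (M * q * q) σ :=
  (galFixed (M * q * q) σ).sub_mem (jqq_mem_galFixed M q σ)
    (alpha2_mem_galFixed (jBar_mem_galFixed σ (M * q)))

/-- The modular unit `T = Δ(s)/Δ(s^q)` is fixed by every `σ`. -/
theorem TB_mem_galFixed : TB M q ∈ galFixed (M * q) σ := by
  show gal (M * q) σ • TB M q = TB M q
  apply Subtype.ext
  rw [Fermat.Agent.Jac.coe_galAut_smul, coe_TB]
  exact coeffMap_TK q (σ : Kb →+* Kb)

/-- `Θ = β₂ T` is fixed by every `σ`. -/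
theorem Theta_mem_galFixed : CoverSheetInf.Theta M q ∈ galFixed (M * q * q) σ :=
  beta2_mem_galFixed (TB_mem_galFixed M q σ)

variable {M q σ}

/-- The generator `θ = U / α₂ a₀` of the vertical sheets is multiplied by `a₀ / σ a₀`. -/
theorem gal_smul_thetaVert (a₀ : Kb) :
    gal (M * q * q) σ • thetaVert M q a₀ = (a₀ / σ a₀) • thetaVert M q a₀ := by
  unfold thetaVert
  rw [smul_div₀', mem_galFixed.mp (U_mem_galFixed M q σ), heckeAlphaBar_comm q σ,
    SemilinearAut.smul_algebraMap]
  have h1 : SemilinearAut.baseAut (gal (M * q) σ) a₀ = σ a₀ := rfl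
  rw [h1, AlgHom.commutes, AlgHom.commutes, Algebra.smul_def, map_div₀]
  by_cases h0 : a₀ = 0
  · rw [h0, map_zero, map_zero, div_zero, div_zero, mul_zero]
  · have hs0 : σ a₀ ≠ 0 := by rwa [Ne, map_eq_zero]
    have e1 : algebraMap Kb (Fb (M * q * q)) a₀ ≠ 0 := by rwa [Ne, map_eq_zero]
    have e2 : algebraMap Kb (Fb (M * q * q)) (σ a₀) ≠ 0 := by rwa [Ne, map_eq_zero]
    field_simp

/-- The generator of the vertical sheets is fixed as soon as the gauge is. -/
theorem thetaVert_mem_galFixed {a₀ : Kb} (ha : σ a₀ = a₀) :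
    thetaVert M q a₀ ∈ galFixed (M * q * q) σ := by
  show gal (M * q * q) σ • thetaVert M q a₀ = _
  rw [gal_smul_thetaVert, ha]
  by_cases h0 : a₀ = 0
  · rw [h0, div_zero, zero_smul]
    unfold thetaVert
    rw [map_zero, map_zero, div_zero]
  · rw [div_self h0, one_smul]

end Generators

/-! ## Base tubes -/

section BaseTubes

variable {M q : ℕ} [NeZero M] [hq : Fact q.Prime]
variable {B : ValuationSubring (AlgebraicClosure ℚ)} {hB : B.LiesOverPrime q} {hqM : ¬ q ∣ M}
variable [IsAlgClosed (ResidueField B)]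

local notation "kB" => IsLocalRing.ResidueField B
local notation "FtM" => modularFunctionFieldFullC (IsLocalRing.ResidueField B) M

/-- (shortcut instance: the search through the generic instances costs seconds per declaration) -/
local instance (priority := 100000) instAlgebraFtMShortcut :
    Algebra (IsLocalRing.ResidueField B)
      (modularFunctionFieldFullC (IsLocalRing.ResidueField B) M) :=
  inferInstance

variable (Dt : ModularData M q B hB hqM) {σ : Kb ≃ₐ[ℚ] Kb}

/-- The tubes of the crossings of `S'` are stable under inertia. -/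
theorem smul_mem_tube_setup_iff (hσ : σ ∈ B.inertiaSubgroupIn ℚ)
    (e : Crossing (chartDataModular B hB hqM)) (P : Place Kb (Fb (M * q))) :
    gal (M * q) σ • P ∈ tube (setup Dt) e ↔ P ∈ tube (setup Dt) e :=
  smul_mem_tube_iff (gal (M * q) σ) (fun P => setup_r_smul Dt hσ P)

/-- The outer sub-annuli are stable under inertia (any gauge). -/
theorem smul_mem_outerTube_core_iff (hσ : σ ∈ B.inertiaSubgroupIn ℚ)
    (e : Crossing (chartDataModular B hB hqM)) (a : Kb) (P : Place Kb (Fb (M * q))) :
    gal (M * q) σ • P ∈ outerTube (core Dt e) a ↔ P ∈ outerTube (core Dt e) a :=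
  smul_mem_outerTube_iff (core Dt e) (gal (M * q) σ) (EquivHoriz.isInertial_gal (M * q) B hσ)
    (annulusCoord_smul Dt hσ e) (fun P => smul_mem_tube_setup_iff Dt hσ e P) a P

/-- The inner sub-annuli are stable under inertia (any gauge). -/
theorem smul_mem_innerTube_core_iff (hσ : σ ∈ B.inertiaSubgroupIn ℚ)
    (e : Crossing (chartDataModular B hB hqM)) (a : Kb) (P : Place Kb (Fb (M * q))) :
    gal (M * q) σ • P ∈ innerTube (core Dt e) a ↔ P ∈ innerTube (core Dt e) a :=
  smul_mem_innerTube_iff (core Dt e) (gal (M * q) σ) (EquivHoriz.isInertial_gal (M * q) B hσ)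
    (annulusCoord_smul Dt hσ e) (fun P => smul_mem_tube_setup_iff Dt hσ e P) a P

/-- **Inertia rotates the residue discs of the circle of gauge `a`** by the tame character. -/
theorem smul_mem_classDisc_core (hσ : σ ∈ B.inertiaSubgroupIn ℚ)
    (e : Crossing (chartDataModular B hB hqM)) {a : Kb} (ha : a ≠ 0) {cb : kB}
    {P : Place Kb (Fb (M * q))} (hP : P ∈ classDisc (core Dt e) a cb) :
    gal (M * q) σ • P ∈ classDisc (core Dt e) a
      (theta B (SemilinearAut.baseAut (gal (M * q) σ)) a * cb) :=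
  smul_mem_classDisc (core Dt e) (gal (M * q) σ) (EquivHoriz.isInertial_gal (M * q) B hσ)
    (annulusCoord_smul Dt hσ e) (fun P hP => (smul_mem_tube_setup_iff Dt hσ e P).mpr hP) ha hP

/-- The residue discs of the circle of a FIXED gauge are stable. -/
theorem smul_mem_classDisc_core_iff (hσ : σ ∈ B.inertiaSubgroupIn ℚ)
    (e : Crossing (chartDataModular B hB hqM)) {a : Kb} (ha0 : a ≠ 0) (ha : σ a = a) (cb : kB)
    (P : Place Kb (Fb (M * q))) :
    gal (M * q) σ • P ∈ classDisc (core Dt e) a cb ↔ P ∈ classDisc (core Dt e) a cb :=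
  smul_mem_classDisc_iff_of_fixed (core Dt e) (gal (M * q) σ)
    (EquivHoriz.isInertial_gal (M * q) B hσ) (annulusCoord_smul Dt hσ e)
    (fun P => smul_mem_tube_setup_iff Dt hσ e P) ha0 (theta_eq_one_of_fixed ha0 ha) cb P

/-! ## The sheets of `z e` at the ordinary points -/

/-- **The tubes of the ordinary points of `z e` are stable** under the inertia elements fixing the
gauge. -/
theorem smul_mem_vertTube_iff (hσ : σ ∈ B.inertiaSubgroupIn ℚ)
    (e : Crossing (chartDataModular B hB hqM)) {a₀ : Kb} (ha0 : a₀ ≠ 0) (ha : σ a₀ = a₀)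
    (cb : kB) (u : B) (P : Place Kb (Fb (M * q * q))) :
    letI := algebraAlong (alpha2 M q)
    haveI := isScalarTower_along (alpha2 M q)
    haveI : Module.Finite (Fb (M * q)) (Fb (M * q * q)) :=
      Fermat.Agent.Hecke.finiteAlong_heckeAlphaBar (M * q) q
    gal (M * q * q) σ • P ∈
        CoverK.coverTube B (classDisc (core Dt e) a₀ cb) (thetaVert M q a₀) u ↔
      P ∈ CoverK.coverTube B (classDisc (core Dt e) a₀ cb) (thetaVert M q a₀) u := by
  letI := algebraAlong (alpha2 M q)
  haveI := isScalarTower_along (alpha2 M q)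
  haveI : Module.Finite (Fb (M * q)) (Fb (M * q * q)) :=
    Fermat.Agent.Hecke.finiteAlong_heckeAlphaBar (M * q) q
  exact smul_mem_coverTubeK_iff_of_fixed B (gal (M * q * q) σ) (gal (M * q) σ)
    (fun y => heckeAlphaBar_comm q σ y) (EquivHoriz.isInertial_gal (M * q * q) B hσ)
    (fun P' => smul_mem_classDisc_core_iff Dt hσ e ha0 ha cb P')
    (mem_galFixed.mp (thetaVert_mem_galFixed ha)) u P

/-- **Transport of the tubes of the ordinary points of `z e`** by ANY element of the inertia
group: the sheet `θ ≡ u` over the residue disc of class `cb` goes to the sheet `θ ≡ u₂` over the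
residue disc of class `theta * cb`, for `(a₀ / σ a₀) * u₂ ≡ u`. -/
theorem smul_mem_vertTube (hσ : σ ∈ B.inertiaSubgroupIn ℚ)
    (e : Crossing (chartDataModular B hB hqM)) {a₀ : Kb} (ha0 : a₀ ≠ 0) {cb : kB} {u u₂ : B}
    (hu : B.valuation ((a₀ / σ a₀) * (u₂ : Kb) - (u : Kb)) < 1)
    {P : Place Kb (Fb (M * q * q))} :
    letI := algebraAlong (alpha2 M q)
    haveI := isScalarTower_along (alpha2 M q)
    haveI : Module.Finite (Fb (M * q)) (Fb (M * q * q)) :=
      Fermat.Agent.Hecke.finiteAlong_heckeAlphaBar (M * q) q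
    P ∈ CoverK.coverTube B (classDisc (core Dt e) a₀ cb) (thetaVert M q a₀) u →
      gal (M * q * q) σ • P ∈ CoverK.coverTube B
        (classDisc (core Dt e) a₀ (theta B (SemilinearAut.baseAut (gal (M * q) σ)) a₀ * cb))
        (thetaVert M q a₀) u₂ := by
  letI := algebraAlong (alpha2 M q)
  haveI := isScalarTower_along (alpha2 M q)
  haveI : Module.Finite (Fb (M * q)) (Fb (M * q * q)) :=
    Fermat.Agent.Hecke.finiteAlong_heckeAlphaBar (M * q) q
  intro hP
  have hg := EquivHoriz.isInertial_gal (M * q * q) B hσ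
  have hc : B.valuation (a₀ / σ a₀) = 1 := by
    have h1 : B.valuation (σ a₀) = B.valuation a₀ := hg.val a₀
    rw [map_div₀, h1]
    exact div_self ((Valuation.ne_zero_iff _).mpr ha0)
  exact smul_mem_coverTubeK_of_smul_eq B (gal (M * q * q) σ) (gal (M * q) σ)
    (fun y => heckeAlphaBar_comm q σ y) hg
    (fun P' hP' => smul_mem_classDisc_core Dt hσ e ha0 hP') hc (gal_smul_thetaVert a₀) hu hP

end BaseTubes

end Fermat.Agent.BR3.EquivTubesModular
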