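import Fermat.Agent.BR3.EquivSRefRotFibre
import Fermat.Agent.BR3.EquivTubesModular
import Fermat.Agent.BR3.VertEquivUg
import Fermat.Agent.BR3.SDD.ModularGauge

/-!
# Program C (S36), node (I9-TUBES), nodes: the raw tubes of the nodes of `S''` under inertia

The tubes of the nodes `nT e`, `nk e s`, `nW e` of `S''` are sheets `coverTube B T' W c₀` over the
tube `T'` of a node of `S'ref` (`outer … e` or `inner … e`), along `α₂` or `β₂`, cut out by a
generator `W` with value `≡ c₀`.  For EVERY `σ` in the inertia group of `B` the base tubes are stable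
(`EquivSRefRotFibre.smul_mem_outer_srefM_iff`, `smul_mem_inner_srefM_iff`); so the sheet is stable
as soon as `gal (M q²) σ • W = W`:

* `smul_mem_nodeTube_outer_alpha`, `smul_mem_nodeTube_inner_alpha`, `smul_mem_nodeTube_outer_beta`,
  `smul_mem_nodeTube_inner_beta`;
* generators: `gal_smul_div_alpha2`, `gal_smul_div_beta2` (`U₀ / α₂ y`, `U₀ / β₂ y` with `U₀`, `y`
  fixed), `gal_smul_splitW_shape` (the generator `U_g / α₂ (-(α g - (β g')^q))` of `nT e`);
* coordinates (`hu` of `hparts`): `gal_smul_alpha2_coord`, `gal_smul_alpha2_smul_coord`,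
  `gal_smul_beta2_coord`, `gal_smul_beta2_smul_coord`; `apply_gaugeB_of_fixed`,
  `apply_inv_gaugeB_of_fixed`.
-/

set_option autoImplicit false
set_option linter.style.haveILetI false
set_option linter.unusedSectionVars false
set_option linter.unusedVariables false
set_option synthInstance.maxHeartbeats 400000

noncomputable section

/- S36 build-time patch: file-local shortcut instances. They only shorten instance search;
each is the instance that the search finds anyway (reducible, same terms after unfolding). -/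
local instance (priority := 100000) Fermat.Agent.BR3.FastInst.instAlgFullC_EquivTubesNode
    {k : Type*} [Field k] (N : ℕ) :
    Algebra k ↥(ModularCurve.modularFunctionFieldFullC k N) := inferInstance
local instance (priority := 100000) Fermat.Agent.BR3.FastInst.instFieldFullC_EquivTubesNode
    {k : Type*} [Field k] (N : ℕ) :
    Field ↥(ModularCurve.modularFunctionFieldFullC k N) := inferInstance
local instance (priority := 100000) Fermat.Agent.BR3.FastInst.instAlgLaurent_EquivTubesNode
    {k : Type*} [Field k] : Algebra k (LaurentSeries k) := inferInstance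


namespace Fermat.Agent.BR3.EquivTubesNode

open ModularCurve AlgebraicCurve IsLocalRing
open Fermat.Agent.Red Fermat.Agent.Val Fermat.Agent.X0 Fermat.Agent.Hecke
open Fermat.Agent.BR.SS Fermat.Agent.BR.Refine Fermat.Agent.BR.Circle Fermat.Agent.BR.S0
open Fermat.Agent.BR.S0.PointDict Fermat.Agent.BR.S0.RedModular Fermat.Agent.BR.Final
open Fermat.Agent.BR.ValTwo Fermat.Agent.BR.InertiaRed
open Fermat.Agent.BR2.SetupOfData Fermat.Agent.BR3.CircleN Fermat.Agent.BR3.SRef
open Fermat.Agent.BR3.SRef.Modular Fermat.Agent.BR3.EquivSRefModular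
open Fermat.Agent.BR3.FibreProd Fermat.Agent.BR3.EquivFixed Fermat.Agent.BR3.EquivTubes
open Fermat.Agent.BR3.EquivTubesModular Fermat.Agent.BR3.EquivSRefRotFibre
open Fermat.Agent.BR3.CoverSmooth Fermat.Agent.BR3.HeckePoly Fermat.Agent.BR3.ThickSDDPlug

local notation "Kb" => AlgebraicClosure ℚ

/-! ## Generators -/

section Generators

variable {M q : ℕ} [NeZero M] [hq : Fact q.Prime] {σ : Kb ≃ₐ[ℚ] Kb}

theorem gal_smul_div_alpha2 {U₀ : Fb (M * q * q)} (hU₀ : gal (M * q * q) σ • U₀ = U₀)
    {y : Fb (M * q)} (hy : gal (M * q) σ • y = y) :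
    gal (M * q * q) σ • (U₀ / alpha2 M q y) = U₀ / alpha2 M q y := by
  rw [smul_div₀', hU₀, mem_galFixed.mp (alpha2_mem_galFixed (mem_galFixed.mpr hy))]

theorem gal_smul_div_beta2 {U₀ : Fb (M * q * q)} (hU₀ : gal (M * q * q) σ • U₀ = U₀)
    {y : Fb (M * q)} (hy : gal (M * q) σ • y = y) :
    gal (M * q * q) σ • (U₀ / beta2 M q y) = U₀ / beta2 M q y := by
  rw [smul_div₀', hU₀, mem_galFixed.mp (beta2_mem_galFixed (mem_galFixed.mpr hy))]

/-- `α g` is fixed when `g` is. -/
theorem gal_smul_alpha_of_fixed {g : Fb M} (hg : gal M σ • g = g) :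
    gal (M * q) σ • heckeAlphaBar Kb M q g = heckeAlphaBar Kb M q g := by
  haveI : NeZero q := ⟨hq.out.ne_zero⟩
  rw [heckeAlphaBar_comm q σ, hg]

/-- `β g` is fixed when `g` is. -/
theorem gal_smul_beta_of_fixed {g : Fb M} (hg : gal M σ • g = g) :
    gal (M * q) σ • heckeBetaBar Kb M q g = heckeBetaBar Kb M q g := by
  haveI : NeZero q := ⟨hq.out.ne_zero⟩
  rw [heckeBetaBar_comm q σ, hg]

/-- **The generator of the sheet of `nT e`** (`SplitCompsCInf.splitW M q g g'`, unfolded) is fixed
by every `σ` fixing `g`, `g'`. -/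
theorem gal_smul_splitW_shape {g g' : Fb M} (hg : gal M σ • g = g) (hg' : gal M σ • g' = g') :
    gal (M * q * q) σ •
        (Ug M q g / alpha2 M q (-(heckeAlphaBar Kb M q g - heckeBetaBar Kb M q g' ^ q))) =
      Ug M q g / alpha2 M q (-(heckeAlphaBar Kb M q g - heckeBetaBar Kb M q g' ^ q)) := by
  refine gal_smul_div_alpha2 (Fermat.Agent.BR3.VertEquivUg.galAut_smul_Ug_of_fixed hg) ?_
  rw [smul_neg, smul_sub, smul_pow', gal_smul_alpha_of_fixed hg, gal_smul_beta_of_fixed hg']

end Generators

/-! ## Tubes and coordinates -/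

section Tubes

variable {M q : ℕ} [NeZero M] [hq : Fact q.Prime]
variable {B : ValuationSubring (AlgebraicClosure ℚ)} {hB : B.LiesOverPrime q} {hqM : ¬ q ∣ M}
variable [IsAlgClosed (ResidueField B)]

local notation "kB" => IsLocalRing.ResidueField B
local notation "FtM" => modularFunctionFieldFullC (IsLocalRing.ResidueField B) M

/-- (shortcut instance) -/
local instance (priority := 100000) instAlgebraFtMShortcutNode :
    Algebra (IsLocalRing.ResidueField B)
      (modularFunctionFieldFullC (IsLocalRing.ResidueField B) M) :=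
  inferInstance

variable (Dt : ModularData M q B hB hqM)
variable (a₀ : Crossing (chartDataModular B hB hqM) → Kb) (hadm : ∀ e, (inputs Dt).adm e (a₀ e))
variable {σ : Kb ≃ₐ[ℚ] Kb}

/-- **A sheet along `α₂` over the tube of an outer node of `S'ref` is stable under inertia** (the
raw tube of `nT e`). -/
theorem smul_mem_nodeTube_outer_alpha (hσ : σ ∈ B.inertiaSubgroupIn ℚ)
    (e : Crossing (chartDataModular B hB hqM)) {W : Fb (M * q * q)}
    (hW : gal (M * q * q) σ • W = W) (c₀ : B) {P : Place Kb (Fb (M * q * q))} :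
    letI := algebraAlong (alpha2 M q)
    haveI := isScalarTower_along (alpha2 M q)
    haveI : Module.Finite (Fb (M * q)) (Fb (M * q * q)) :=
      Fermat.Agent.Hecke.finiteAlong_heckeAlphaBar (M * q) q
    P ∈ coverTube B (tube (srefM Dt a₀ hadm) (outer (inputs Dt) a₀ hadm e)) W c₀ →
      gal (M * q * q) σ • P ∈
        coverTube B (tube (srefM Dt a₀ hadm) (outer (inputs Dt) a₀ hadm e)) W c₀ := by
  letI := algebraAlong (alpha2 M q)
  haveI := isScalarTower_along (alpha2 M q)
  haveI : Module.Finite (Fb (M * q)) (Fb (M * q * q)) :=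
    Fermat.Agent.Hecke.finiteAlong_heckeAlphaBar (M * q) q
  intro hP
  exact smul_mem_coverTube_of_fixed B (gal (M * q * q) σ) (gal (M * q) σ)
    (fun y => heckeAlphaBar_comm q σ y) (EquivHoriz.isInertial_gal (M * q * q) B hσ)
    (fun P' hP' => (smul_mem_outer_srefM_iff Dt a₀ hadm hσ e P').mpr hP') hW c₀ hP

/-- A sheet along `α₂` over the tube of an inner node of `S'ref` is stable under inertia. -/
theorem smul_mem_nodeTube_inner_alpha (hσ : σ ∈ B.inertiaSubgroupIn ℚ)
    (e : Crossing (chartDataModular B hB hqM)) {W : Fb (M * q * q)}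
    (hW : gal (M * q * q) σ • W = W) (c₀ : B) {P : Place Kb (Fb (M * q * q))} :
    letI := algebraAlong (alpha2 M q)
    haveI := isScalarTower_along (alpha2 M q)
    haveI : Module.Finite (Fb (M * q)) (Fb (M * q * q)) :=
      Fermat.Agent.Hecke.finiteAlong_heckeAlphaBar (M * q) q
    P ∈ coverTube B (tube (srefM Dt a₀ hadm) (inner (inputs Dt) a₀ hadm e)) W c₀ →
      gal (M * q * q) σ • P ∈
        coverTube B (tube (srefM Dt a₀ hadm) (inner (inputs Dt) a₀ hadm e)) W c₀ := by
  letI := algebraAlong (alpha2 M q)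
  haveI := isScalarTower_along (alpha2 M q)
  haveI : Module.Finite (Fb (M * q)) (Fb (M * q * q)) :=
    Fermat.Agent.Hecke.finiteAlong_heckeAlphaBar (M * q) q
  intro hP
  exact smul_mem_coverTube_of_fixed B (gal (M * q * q) σ) (gal (M * q) σ)
    (fun y => heckeAlphaBar_comm q σ y) (EquivHoriz.isInertial_gal (M * q * q) B hσ)
    (fun P' hP' => (smul_mem_inner_srefM_iff Dt a₀ hadm hσ e P').mpr hP') hW c₀ hP

/-- A sheet along `β₂` over the tube of an outer node of `S'ref` is stable under inertia. -/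
theorem smul_mem_nodeTube_outer_beta (hσ : σ ∈ B.inertiaSubgroupIn ℚ)
    (e : Crossing (chartDataModular B hB hqM)) {W : Fb (M * q * q)}
    (hW : gal (M * q * q) σ • W = W) (c₀ : B) {P : Place Kb (Fb (M * q * q))} :
    letI := algebraAlong (beta2 M q)
    haveI := isScalarTower_along (beta2 M q)
    haveI : Module.Finite (Fb (M * q)) (Fb (M * q * q)) :=
      Fermat.Agent.Hecke.finiteAlong_heckeBetaBar (M * q) q
    P ∈ coverTube B (tube (srefM Dt a₀ hadm) (outer (inputs Dt) a₀ hadm e)) W c₀ →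
      gal (M * q * q) σ • P ∈
        coverTube B (tube (srefM Dt a₀ hadm) (outer (inputs Dt) a₀ hadm e)) W c₀ := by
  letI := algebraAlong (beta2 M q)
  haveI := isScalarTower_along (beta2 M q)
  haveI : Module.Finite (Fb (M * q)) (Fb (M * q * q)) :=
    Fermat.Agent.Hecke.finiteAlong_heckeBetaBar (M * q) q
  intro hP
  exact smul_mem_coverTube_of_fixed B (gal (M * q * q) σ) (gal (M * q) σ)
    (fun y => heckeBetaBar_comm q σ y) (EquivHoriz.isInertial_gal (M * q * q) B hσ)
    (fun P' hP' => (smul_mem_outer_srefM_iff Dt a₀ hadm hσ e P').mpr hP') hW c₀ hP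

/-- **A sheet along `β₂` over the tube of an inner node of `S'ref` is stable under inertia** (the
raw tube of `nW e`). -/
theorem smul_mem_nodeTube_inner_beta (hσ : σ ∈ B.inertiaSubgroupIn ℚ)
    (e : Crossing (chartDataModular B hB hqM)) {W : Fb (M * q * q)}
    (hW : gal (M * q * q) σ • W = W) (c₀ : B) {P : Place Kb (Fb (M * q * q))} :
    letI := algebraAlong (beta2 M q)
    haveI := isScalarTower_along (beta2 M q)
    haveI : Module.Finite (Fb (M * q)) (Fb (M * q * q)) :=
      Fermat.Agent.Hecke.finiteAlong_heckeBetaBar (M * q) q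
    P ∈ coverTube B (tube (srefM Dt a₀ hadm) (inner (inputs Dt) a₀ hadm e)) W c₀ →
      gal (M * q * q) σ • P ∈
        coverTube B (tube (srefM Dt a₀ hadm) (inner (inputs Dt) a₀ hadm e)) W c₀ := by
  letI := algebraAlong (beta2 M q)
  haveI := isScalarTower_along (beta2 M q)
  haveI : Module.Finite (Fb (M * q)) (Fb (M * q * q)) :=
    Fermat.Agent.Hecke.finiteAlong_heckeBetaBar (M * q) q
  intro hP
  exact smul_mem_coverTube_of_fixed B (gal (M * q * q) σ) (gal (M * q) σ)
    (fun y => heckeBetaBar_comm q σ y) (EquivHoriz.isInertial_gal (M * q * q) B hσ)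
    (fun P' hP' => (smul_mem_inner_srefM_iff Dt a₀ hadm hσ e P').mpr hP') hW c₀ hP

/-! ### the coordinates of the levels -/

/-- `α₂ u_e` is fixed by inertia (`= (LT e).u`). -/
theorem gal_smul_alpha2_coord (hσ : σ ∈ B.inertiaSubgroupIn ℚ)
    (e : Crossing (chartDataModular B hB hqM)) :
    gal (M * q * q) σ • alpha2 M q (annulusCoord Dt e) = alpha2 M q (annulusCoord Dt e) :=
  mem_galFixed.mp (alpha2_mem_galFixed (mem_galFixed.mpr (annulusCoord_smul Dt hσ e)))

/-- `β₂ u_e` is fixed by inertia. -/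
theorem gal_smul_beta2_coord (hσ : σ ∈ B.inertiaSubgroupIn ℚ)
    (e : Crossing (chartDataModular B hB hqM)) :
    gal (M * q * q) σ • beta2 M q (annulusCoord Dt e) = beta2 M q (annulusCoord Dt e) :=
  mem_galFixed.mp (beta2_mem_galFixed (mem_galFixed.mpr (annulusCoord_smul Dt hσ e)))

/-- `α₂ (c • u_e)` is fixed by the inertia elements fixing `c`. -/
theorem gal_smul_alpha2_smul_coord (hσ : σ ∈ B.inertiaSubgroupIn ℚ)
    (e : Crossing (chartDataModular B hB hqM)) {c : Kb} (hc : σ c = c) :
    gal (M * q * q) σ • alpha2 M q (c • annulusCoord Dt e) =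
      alpha2 M q (c • annulusCoord Dt e) :=
  mem_galFixed.mp (alpha2_mem_galFixed
    (smul_mem_galFixed hc (mem_galFixed.mpr (annulusCoord_smul Dt hσ e))))

/-- `β₂ (c • u_e)` is fixed by the inertia elements fixing `c` (`= (LW e).u`,
`c = (gaugeB e)⁻¹`). -/
theorem gal_smul_beta2_smul_coord (hσ : σ ∈ B.inertiaSubgroupIn ℚ)
    (e : Crossing (chartDataModular B hB hqM)) {c : Kb} (hc : σ c = c) :
    gal (M * q * q) σ • beta2 M q (c • annulusCoord Dt e) =
      beta2 M q (c • annulusCoord Dt e) :=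
  mem_galFixed.mp (beta2_mem_galFixed
    (smul_mem_galFixed hc (mem_galFixed.mpr (annulusCoord_smul Dt hσ e))))

end Tubes

section Gauges

open Fermat.Agent.BR3.SDD.Modular

variable {M q : ℕ} [NeZero M] [hq : Fact q.Prime]
variable (B : ValuationSubring (AlgebraicClosure ℚ)) (hB : B.LiesOverPrime q) (hqM : ¬ q ∣ M)
variable [IsAlgClosed (ResidueField B)]

/-- An automorphism fixing the uniformiser `unifSDD q` fixes the gauge `gaugeB`. -/
theorem apply_gaugeB_of_fixed (e : Crossing (chartDataModular B hB hqM)) {s : Kb ≃ₐ[ℚ] Kb}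
    (hs1 : s (unifSDD q) = unifSDD q) : s (gaugeB q B hB hqM e) = gaugeB q B hB hqM e := by
  show s (gaugeSDD q ^ q) = gaugeSDD q ^ q
  unfold gaugeSDD
  rw [map_pow, map_pow, hs1]

theorem apply_inv_gaugeB_of_fixed (e : Crossing (chartDataModular B hB hqM)) {s : Kb ≃ₐ[ℚ] Kb}
    (hs1 : s (unifSDD q) = unifSDD q) :
    s (gaugeB q B hB hqM e)⁻¹ = (gaugeB q B hB hqM e)⁻¹ := by
  rw [map_inv₀, apply_gaugeB_of_fixed B hB hqM e hs1]

theorem apply_inv_gaugeA_of_fixed (e : Crossing (chartDataModular B hB hqM)) {s : Kb ≃ₐ[ℚ] Kb}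
    (hs1 : s (unifSDD q) = unifSDD q) :
    s (gaugeA q B hB hqM e)⁻¹ = (gaugeA q B hB hqM e)⁻¹ := by
  rw [map_inv₀]
  congr 1
  show s (gaugeSDD q) = gaugeSDD q
  unfold gaugeSDD
  rw [map_pow, hs1]

end Gauges

end Fermat.Agent.BR3.EquivTubesNode
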