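import Fermat.Agent.BR3.CuspSheet.MidCusp

/-!
# Program C, node (MID-ALL): the chart of a middle component at EVERY non-crossing point, one
function

`H : AtlasHyp (chartDataModular B hB hqM) (jx M q)` the atlas of `S'`, `b₀ : Fin (q - 1)` the index
of the middle valuation `w₂ b₀` (component `constRedMid B hB hqM hζ b₀.2`, residue field `FMid M B`),
`Q''` a place of `FMid M B` whose restriction `Q' = Q''.restrict F̃_M` is not a crossing point of
`can` (`hnc`).  Mirror of `CInfChartAll` / `CZeroChartAll`.

* `HasMidSheet B hB hqM hζ H b₀ Q'' hnc : Prop` — the statement owed at the point by the three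
  sources (cusps: `CuspSheet.exists_coverSheet_mid_cusp_chart`; finite non-elliptic: SC3; finite
  elliptic: ELL-PUR): there is a `CoverK.CoverSheet` of `w₂ b₀` at `Q''` over `can` at `Q'` along
  `α₂` with coefficient ring the ring of `RegAtlas.regChartCan` at `Q'`
  (`hasMidSheet_of_coverSheet`, `hasMidSheet_of_cusp`);
* `midTheta`, `midU` : ONE generator and ONE value chosen at the point (`Classical.choice`, once);
* `midTubeAll B hB hqM hζ H b₀ Q'' hnc : Set (Place Kb (Fb (M * q * q)))`
  `= coverTube B {P | H.r P = ⟨0, Q'⟩} midTheta midU` (`mem_midTubeAll_iff`) — the NAME of the raw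
  tube `smTube ⟨mid i, Q''⟩` (`b₀ := i.rep`); it does not depend on any hypothesis;
* `midRegAll … (h : HasMidSheet …) : RegChart B mid.O mid.res Q'' (midTubeAll …)`,
  `midSmoothAll := (midRegAll …).chart`, `midRegAll_t : chart.t = α₂ (regChartCan …).chart.t`,
  `midRegAll_R` (the ring is `coverRing`);
* `restrict_mem_of_mem_midTubeAll`, `restrictAlong_mem_of_mem_midTubeAll` : the places of the tube
  lie over the tube of `Q'` on `can`;
* `MidFinHyp`, `MidEllHyp` : the two named hypotheses (finite non-elliptic resp. the other finite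
  non-crossing points), `hasMidSheet_all` : the trichotomy.
-/

set_option autoImplicit false
set_option linter.unusedSectionVars false
set_option linter.style.haveILetI false

noncomputable section

/- S36 build-time patch: file-local shortcut instances. They only shorten instance search;
each is the instance that the search finds anyway (reducible, same terms after unfolding). -/
local instance (priority := 100000) Fermat.Agent.BR3.FastInst.instAlgFullC_MidChartAll
    {k : Type*} [Field k] (N : ℕ) :
    Algebra k ↥(ModularCurve.modularFunctionFieldFullC k N) := inferInstance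
local instance (priority := 100000) Fermat.Agent.BR3.FastInst.instFieldFullC_MidChartAll
    {k : Type*} [Field k] (N : ℕ) :
    Field ↥(ModularCurve.modularFunctionFieldFullC k N) := inferInstance
local instance (priority := 100000) Fermat.Agent.BR3.FastInst.instAlgLaurent_MidChartAll
    {k : Type*} [Field k] : Algebra k (LaurentSeries k) := inferInstance


namespace Fermat.Agent.BR3.MidChartAll

open ModularCurve AlgebraicCurve IsLocalRing Polynomial
open Fermat.Agent.X0 Fermat.Agent.Val Fermat.Agent.Red Fermat.Agent.BR.Centre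
open Fermat.Agent.Hecke.AL Fermat.Agent.BR.TwoVal Fermat.Agent.BR.TwoValInst
open Fermat.Agent.BR.ConstRedTwo Fermat.Agent.BR.ResGen Fermat.Agent.BR.S0
open Fermat.Agent.BR.S0.RedModular Fermat.Agent.BR.S0.RedHyp Fermat.Agent.BR.S0.PointDict
open Fermat.Agent.BR3.CoverK Fermat.Agent.BR3.FibreProd Fermat.Agent.BR3.CInfRes
open Fermat.Agent.BR3.RegAtlas Fermat.Agent.BR3.CuspSheet

set_option synthInstance.maxHeartbeats 400000

variable {M q : ℕ} [NeZero M] [hq : Fact q.Prime]
variable (B : ValuationSubring (AlgebraicClosure ℚ)) (hB : B.LiesOverPrime q) (hqM : ¬ q ∣ M)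
variable {ζ : Kbˣ} (hζ : IsPrimitiveRoot ζ q)

local notation "kB" => IsLocalRing.ResidueField B
local notation "FtM" => modularFunctionFieldFullC (IsLocalRing.ResidueField B) M

/-- (shortcut instances) -/
local instance (priority := 100000) instAlgebraFtMShortcutMA :
    Algebra (IsLocalRing.ResidueField B)
      (modularFunctionFieldFullC (IsLocalRing.ResidueField B) M) :=
  inferInstance
local instance (priority := 100000) instAlgKFMidMA :
    Algebra (IsLocalRing.ResidueField B) (FMid M B) := inferInstance
local instance (priority := 100000) instAlgFtFMidMA :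
    Algebra (modularFunctionFieldFullC (IsLocalRing.ResidueField B) M) (FMid M B) := inferInstance
local instance (priority := 100000) instTowerMidMA :
    IsScalarTower (IsLocalRing.ResidueField B)
      (modularFunctionFieldFullC (IsLocalRing.ResidueField B) M) (FMid M B) :=
  inferInstance

variable [FiniteDimensional (modularFunctionFieldFullC (IsLocalRing.ResidueField B) M) (FMid M B)]

local instance (priority := 100000) instIsIntegralMidMA :
    Algebra.IsIntegral (modularFunctionFieldFullC (IsLocalRing.ResidueField B) M) (FMid M B) :=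
  Algebra.IsIntegral.of_finite _ _

/-- rank one, in the archimedean form used by the cover theorem (local copy of
`VertSheet.arch_of_isRankOne`, to keep the import closure small) -/
theorem arch_of_rankOne {K : Type*} [Field K] {A : ValuationSubring K} (hA : IsRankOne A)
    (a c : K) (ha : A.valuation a < 1) (hc : c ≠ 0) :
    ∃ N : ℕ, A.valuation a ^ N ≤ A.valuation c := by
  by_cases hc1 : A.valuation c ≤ 1
  · have haA : a ∈ A := (A.valuation_le_one_iff a).mp ha.le
    have hcA : c ∈ A := (A.valuation_le_one_iff c).mp hc1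
    have hnu : ¬ IsUnit (⟨a, haA⟩ : A) := by
      intro hu
      have := (A.valuation_eq_one_iff ⟨a, haA⟩).mp hu
      exact absurd ha (by rw [this]; exact lt_irrefl _)
    have hc0 : (⟨c, hcA⟩ : A) ≠ 0 := fun h => hc (congrArg Subtype.val h)
    obtain ⟨n, d, hd⟩ := hA ⟨a, haA⟩ hnu ⟨c, hcA⟩ hc0
    refine ⟨n, ?_⟩
    have h1 : a ^ n = c * (d : K) := by
      have := congrArg (fun z : A => (z : K)) hd
      simpa using this
    rw [← map_pow, h1, map_mul]
    calc A.valuation c * A.valuation (d : K) ≤ A.valuation c * 1 :=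
          mul_le_mul_right ((A.valuation_le_one_iff _).mpr d.2) _
      _ = A.valuation c := mul_one _
  · exact ⟨0, by rw [pow_zero]; exact (not_le.mp hc1).le⟩

/-- a point at which `j̃` is not regular is a cusp -/
theorem cusp_of_notMem {Q : Place kB FtM} (hj : jFullC kB M ∉ Q.toValuationSubring) :
    Q.adicValuation ((jFullC kB M)⁻¹) < 1 :=
  Fermat.Agent.BR.S0.SmoothLevelsGlue.adicValuation_lt_one_of_mul_eq_one
    (mul_inv_cancel₀ (Fermat.Agent.BR3.CuspSheet.jFullC_ne_zero' B)) hj

/-- **The sheet datum at a point of a middle component**: a `CoverSheet` of `w₂ b₀` at `Q''` over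
`can` at `Q' = Q''.restrict F̃_M` along `α₂`, coefficient ring the ring of the regular chart
`regChartCan` of `S'` at `Q'`. -/
def HasMidSheet (H : AtlasHyp (chartDataModular B hB hqM) (jx M q)) (b₀ : Fin (q - 1))
    (Q'' : Place kB (FMid M B))
    (hnc : ∀ e : Crossing (chartDataModular B hB hqM),
      Q''.restrict FtM ≠ z₁ (chartDataModular B hB hqM) e) : Prop :=
  letI := algebraAlong (alpha2 M q)
  haveI := isScalarTower_along (alpha2 M q)
  ∃ (θ : Fb (M * q * q)) (Ψ ψ ψc : (Fb (M * q))[X]) (u : B),
    CoverSheet B (IsLocalRing.residue B) (constRedW1 B hB hqM).O (constRedW1 B hB hqM).res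
      (Q''.restrict FtM) (constRedMid B hB hqM hζ b₀.2).O (constRedMid B hB hqM hζ b₀.2).res Q''
      (regChartCan B hB hqM H (Q''.restrict FtM) hnc).chart.R θ Ψ ψ ψc u

variable {B hB hqM hζ} in
/-- any `CoverSheet` at the point, over any `Q'` equal to the restriction, is a sheet datum -/
theorem hasMidSheet_of_coverSheet {H : AtlasHyp (chartDataModular B hB hqM) (jx M q)}
    {b₀ : Fin (q - 1)} {Q'' : Place kB (FMid M B)} {Q' : Place kB FtM}
    (hQ'' : Q''.restrict FtM = Q')
    (hQnc : ∀ e : Crossing (chartDataModular B hB hqM), Q' ≠ z₁ (chartDataModular B hB hqM) e)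
    {θ : Fb (M * q * q)} {Ψ ψ ψc : (Fb (M * q))[X]} {u : B}
    (hS : letI := algebraAlong (alpha2 M q)
      haveI := isScalarTower_along (alpha2 M q)
      CoverSheet B (IsLocalRing.residue B) (constRedW1 B hB hqM).O (constRedW1 B hB hqM).res Q'
        (constRedMid B hB hqM hζ b₀.2).O (constRedMid B hB hqM hζ b₀.2).res Q''
        (regChartCan B hB hqM H Q' hQnc).chart.R θ Ψ ψ ψc u) :
    HasMidSheet B hB hqM hζ H b₀ Q'' (by rw [hQ'']; exact hQnc) := by
  subst hQ''
  exact ⟨θ, Ψ, ψ, ψc, u, hS⟩

open Classical in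
/-- **The generator chosen at the point** (`0` if there is no sheet datum). -/
def midTheta (H : AtlasHyp (chartDataModular B hB hqM) (jx M q)) (b₀ : Fin (q - 1))
    (Q'' : Place kB (FMid M B))
    (hnc : ∀ e : Crossing (chartDataModular B hB hqM),
      Q''.restrict FtM ≠ z₁ (chartDataModular B hB hqM) e) : Fb (M * q * q) :=
  if h : HasMidSheet B hB hqM hζ H b₀ Q'' hnc then h.choose else 0

open Classical in
/-- **The value chosen at the point** (`0` if there is no sheet datum). -/
def midU (H : AtlasHyp (chartDataModular B hB hqM) (jx M q)) (b₀ : Fin (q - 1))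
    (Q'' : Place kB (FMid M B))
    (hnc : ∀ e : Crossing (chartDataModular B hB hqM),
      Q''.restrict FtM ≠ z₁ (chartDataModular B hB hqM) e) : B :=
  if h : HasMidSheet B hB hqM hζ H b₀ Q'' hnc then h.choose_spec.choose_spec.choose_spec.choose_spec.choose
  else 0

/-- the chosen generator and value carry a sheet -/
theorem exists_coverSheet_midTheta (H : AtlasHyp (chartDataModular B hB hqM) (jx M q))
    (b₀ : Fin (q - 1)) (Q'' : Place kB (FMid M B))
    (hnc : ∀ e : Crossing (chartDataModular B hB hqM),
      Q''.restrict FtM ≠ z₁ (chartDataModular B hB hqM) e)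
    (h : HasMidSheet B hB hqM hζ H b₀ Q'' hnc) :
    letI := algebraAlong (alpha2 M q)
    haveI := isScalarTower_along (alpha2 M q)
    ∃ Ψ ψ ψc : (Fb (M * q))[X],
      CoverSheet B (IsLocalRing.residue B) (constRedW1 B hB hqM).O (constRedW1 B hB hqM).res
        (Q''.restrict FtM) (constRedMid B hB hqM hζ b₀.2).O (constRedMid B hB hqM hζ b₀.2).res Q''
        (regChartCan B hB hqM H (Q''.restrict FtM) hnc).chart.R
        (midTheta B hB hqM hζ H b₀ Q'' hnc) Ψ ψ ψc (midU B hB hqM hζ H b₀ Q'' hnc) := by
  letI := algebraAlong (alpha2 M q)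
  haveI := isScalarTower_along (alpha2 M q)
  unfold midTheta midU
  rw [dif_pos h, dif_pos h]
  exact ⟨_, _, _, h.choose_spec.choose_spec.choose_spec.choose_spec.choose_spec⟩

/-- **The tube of the point `Q''` of the middle component `w₂ b₀`** (`Q''` not over a crossing point
of `can`): the sheet `midTheta ≡ midU` over the tube of `Q''.restrict F̃_M` on `can`. -/
def midTubeAll (H : AtlasHyp (chartDataModular B hB hqM) (jx M q)) (b₀ : Fin (q - 1))
    (Q'' : Place kB (FMid M B))
    (hnc : ∀ e : Crossing (chartDataModular B hB hqM),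
      Q''.restrict FtM ≠ z₁ (chartDataModular B hB hqM) e) :
    Set (Place Kb (Fb (M * q * q))) :=
  letI := algebraAlong (alpha2 M q)
  haveI : Module.Finite (Fb (M * q)) (Fb (M * q * q)) := finite_alpha2
  coverTube B {P | H.r P = ⟨0, Q''.restrict FtM⟩} (midTheta B hB hqM hζ H b₀ Q'' hnc)
    (midU B hB hqM hζ H b₀ Q'' hnc)

theorem mem_midTubeAll_iff (H : AtlasHyp (chartDataModular B hB hqM) (jx M q)) (b₀ : Fin (q - 1))
    (Q'' : Place kB (FMid M B))
    (hnc : ∀ e : Crossing (chartDataModular B hB hqM),
      Q''.restrict FtM ≠ z₁ (chartDataModular B hB hqM) e) {P : Place Kb (Fb (M * q * q))} :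
    letI := algebraAlong (alpha2 M q)
    haveI := isScalarTower_along (alpha2 M q)
    haveI : Module.Finite (Fb (M * q)) (Fb (M * q * q)) := finite_alpha2
    P ∈ midTubeAll B hB hqM hζ H b₀ Q'' hnc ↔
      H.r (P.restrict (Fb (M * q))) = ⟨0, Q''.restrict FtM⟩ ∧
        ∃ c : Kb, IsValueAt P (midTheta B hB hqM hζ H b₀ Q'' hnc) c ∧
          B.valuation (c - (midU B hB hqM hζ H b₀ Q'' hnc : Kb)) < 1 :=
  Iff.rfl

/-- the places of the tube lie over the tube of `Q''.restrict F̃_M` on `can` -/
theorem restrict_mem_of_mem_midTubeAll (H : AtlasHyp (chartDataModular B hB hqM) (jx M q))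
    (b₀ : Fin (q - 1)) (Q'' : Place kB (FMid M B))
    (hnc : ∀ e : Crossing (chartDataModular B hB hqM),
      Q''.restrict FtM ≠ z₁ (chartDataModular B hB hqM) e) {P : Place Kb (Fb (M * q * q))}
    (hP : P ∈ midTubeAll B hB hqM hζ H b₀ Q'' hnc) :
    letI := algebraAlong (alpha2 M q)
    haveI := isScalarTower_along (alpha2 M q)
    haveI : Module.Finite (Fb (M * q)) (Fb (M * q * q)) := finite_alpha2
    H.r (P.restrict (Fb (M * q))) = ⟨0, Q''.restrict FtM⟩ :=
  hP.1

/-- the same with `Place.restrictAlong` -/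
theorem restrictAlong_mem_of_mem_midTubeAll (H : AtlasHyp (chartDataModular B hB hqM) (jx M q))
    (b₀ : Fin (q - 1)) (Q'' : Place kB (FMid M B))
    (hnc : ∀ e : Crossing (chartDataModular B hB hqM),
      Q''.restrict FtM ≠ z₁ (chartDataModular B hB hqM) e)
    (hα : (alpha2 M q).toRingHom.IsIntegral) {P : Place Kb (Fb (M * q * q))}
    (hP : P ∈ midTubeAll B hB hqM hζ H b₀ Q'' hnc) :
    H.r (P.restrictAlong (alpha2 M q) hα) = ⟨0, Q''.restrict FtM⟩ :=
  restrict_mem_of_mem_midTubeAll B hB hqM hζ H b₀ Q'' hnc hP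

set_option maxHeartbeats 1600000 in
/-- **The regular chart of the middle component `w₂ b₀` at every point not over a crossing point**,
from the sheet datum: the lift of `regChartCan` along the sheet `midTheta ≡ midU`. -/
def midRegAll (H : AtlasHyp (chartDataModular B hB hqM) (jx M q)) (b₀ : Fin (q - 1))
    (Q'' : Place kB (FMid M B))
    (hnc : ∀ e : Crossing (chartDataModular B hB hqM),
      Q''.restrict FtM ≠ z₁ (chartDataModular B hB hqM) e)
    (h : HasMidSheet B hB hqM hζ H b₀ Q'' hnc) :
    RegChart B (constRedMid B hB hqM hζ b₀.2).O (constRedMid B hB hqM hζ b₀.2).res Q''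
      (midTubeAll B hB hqM hζ H b₀ Q'' hnc) :=
  letI := algebraAlong (alpha2 M q)
  haveI := isScalarTower_along (alpha2 M q)
  haveI : Module.Finite (Fb (M * q)) (Fb (M * q * q)) := finite_alpha2
  haveI : Algebra.IsSeparable (Fb (M * q)) (Fb (M * q * q)) :=
    Algebra.IsAlgebraic.isSeparable_of_perfectField
  coverRegChartOfConstRed (constRedW1 B hB hqM) (regChartCan B hB hqM H (Q''.restrict FtM) hnc)
    (exists_coverSheet_midTheta B hB hqM hζ H b₀ Q'' hnc h).choose_spec.choose_spec.choose_spec
    (arch_of_rankOne (Fermat.Agent.Val.isRankOne B hB))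

/-- **The smooth chart of the middle component at every point not over a crossing point** = the
field `smMid` of `SDD.CaseInput` (with `TM i Q'' := midTubeAll … (i.rep) Q'' …`). -/
def midSmoothAll (H : AtlasHyp (chartDataModular B hB hqM) (jx M q)) (b₀ : Fin (q - 1))
    (Q'' : Place kB (FMid M B))
    (hnc : ∀ e : Crossing (chartDataModular B hB hqM),
      Q''.restrict FtM ≠ z₁ (chartDataModular B hB hqM) e)
    (h : HasMidSheet B hB hqM hζ H b₀ Q'' hnc) :
    SmoothChart B (constRedMid B hB hqM hζ b₀.2).O (constRedMid B hB hqM hζ b₀.2).res Q''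
      (midTubeAll B hB hqM hζ H b₀ Q'' hnc) :=
  (midRegAll B hB hqM hζ H b₀ Q'' hnc h).chart

/-- the parameter of the chart is the parameter of the chart of `can`, pulled back by `α₂` -/
theorem midRegAll_t (H : AtlasHyp (chartDataModular B hB hqM) (jx M q)) (b₀ : Fin (q - 1))
    (Q'' : Place kB (FMid M B))
    (hnc : ∀ e : Crossing (chartDataModular B hB hqM),
      Q''.restrict FtM ≠ z₁ (chartDataModular B hB hqM) e)
    (h : HasMidSheet B hB hqM hζ H b₀ Q'' hnc) :
    (midRegAll B hB hqM hζ H b₀ Q'' hnc h).chart.t =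
      alpha2 M q (regChartCan B hB hqM H (Q''.restrict FtM) hnc).chart.t :=
  rfl

theorem midSmoothAll_t (H : AtlasHyp (chartDataModular B hB hqM) (jx M q)) (b₀ : Fin (q - 1))
    (Q'' : Place kB (FMid M B))
    (hnc : ∀ e : Crossing (chartDataModular B hB hqM),
      Q''.restrict FtM ≠ z₁ (chartDataModular B hB hqM) e)
    (h : HasMidSheet B hB hqM hζ H b₀ Q'' hnc) :
    (midSmoothAll B hB hqM hζ H b₀ Q'' hnc h).t =
      alpha2 M q (regChartCan B hB hqM H (Q''.restrict FtM) hnc).chart.t :=
  rfl

/-! ### The three sources -/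

include hζ in
/-- **cusps** (helper2, hypothesis-free): the sheet datum at every `Q''` over a cusp of `can` -/
theorem hasMidSheet_of_cusp (H : AtlasHyp (chartDataModular B hB hqM) (jx M q)) (b₀ : Fin (q - 1))
    (Q'' : Place kB (FMid M B))
    (hnc : ∀ e : Crossing (chartDataModular B hB hqM),
      Q''.restrict FtM ≠ z₁ (chartDataModular B hB hqM) e)
    (hQ : (Q''.restrict FtM).adicValuation ((jFullC kB M)⁻¹) < 1) :
    HasMidSheet B hB hqM hζ H b₀ Q'' hnc := by
  obtain ⟨u, ψ, ψc, -, hS⟩ :=
    exists_coverSheet_mid_cusp_chart B hB hqM hζ H (Q''.restrict FtM) hnc hQ b₀ (Q'' := Q'') rfl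
  exact ⟨_, _, ψ, ψc, u, hS⟩

/-- **(hFin) the named hypothesis at the finite non-elliptic points** (`j̃(Q') ≠ 0, 1728`):
owner SC3 (`MidUnitOrd.exists_coverSheet_mid_jBar` at `R' := (regChartCan …).chart.R`). -/
def MidFinHyp (H : AtlasHyp (chartDataModular B hB hqM) (jx M q)) : Prop :=
  ∀ (b₀ : Fin (q - 1)) (Q'' : Place kB (FMid M B))
    (hnc : ∀ e : Crossing (chartDataModular B hB hqM),
      Q''.restrict FtM ≠ z₁ (chartDataModular B hB hqM) e),
    jFullC kB M ∈ (Q''.restrict FtM).toValuationSubring →
    (Q''.restrict FtM).ord (jFullC kB M) = 0 → (Q''.restrict FtM).ord (jFullC kB M - 1728) = 0 →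
    HasMidSheet B hB hqM hζ H b₀ Q'' hnc

/-- **(hEll) the named hypothesis at the other finite non-crossing points** (the elliptic ordinary
points `j̃(Q') ∈ {0, 1728}`): owner ELL-PUR. -/
def MidEllHyp (H : AtlasHyp (chartDataModular B hB hqM) (jx M q)) : Prop :=
  ∀ (b₀ : Fin (q - 1)) (Q'' : Place kB (FMid M B))
    (hnc : ∀ e : Crossing (chartDataModular B hB hqM),
      Q''.restrict FtM ≠ z₁ (chartDataModular B hB hqM) e),
    jFullC kB M ∈ (Q''.restrict FtM).toValuationSubring →
    ¬ ((Q''.restrict FtM).ord (jFullC kB M) = 0 ∧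
      (Q''.restrict FtM).ord (jFullC kB M - 1728) = 0) →
    HasMidSheet B hB hqM hζ H b₀ Q'' hnc

include hζ in
/-- **The trichotomy**: the sheet datum at EVERY point of every middle component not over a
crossing point of `can`. -/
theorem hasMidSheet_all (H : AtlasHyp (chartDataModular B hB hqM) (jx M q))
    (hFin : MidFinHyp B hB hqM hζ H) (hEll : MidEllHyp B hB hqM hζ H) (b₀ : Fin (q - 1))
    (Q'' : Place kB (FMid M B))
    (hnc : ∀ e : Crossing (chartDataModular B hB hqM),
      Q''.restrict FtM ≠ z₁ (chartDataModular B hB hqM) e) :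
    HasMidSheet B hB hqM hζ H b₀ Q'' hnc := by
  by_cases hj : jFullC kB M ∈ (Q''.restrict FtM).toValuationSubring
  · by_cases h01 : (Q''.restrict FtM).ord (jFullC kB M) = 0 ∧
        (Q''.restrict FtM).ord (jFullC kB M - 1728) = 0
    · exact hFin b₀ Q'' hnc hj h01.1 h01.2
    · exact hEll b₀ Q'' hnc hj h01
  · exact hasMidSheet_of_cusp B hB hqM hζ H b₀ Q'' hnc (cusp_of_notMem B hj)

end Fermat.Agent.BR3.MidChartAll
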