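import Fermat.Agent.BR3.MidChart
import Fermat.Agent.BR3.MidChartAll
import Fermat.Agent.BR3.EquivTubesHoriz
import Fermat.Agent.BR3.PlaceIso
import Fermat.Agent.BR3.CoverK.Dict
import Fermat.Agent.BR3.CoverK.OfConstRed
import Fermat.Agent.BR2.LevelGen

/-!
# Program C (S36), node (I9-TUBES), middle components: the tubes of the smooth points of the middle
components under EVERY element of the inertia group (rich elements and the tame generator)

The tube of a point `Q''` of a middle component `w₂ b` is `MidChart.MidSheet.tube`, the sheet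
`θ ≡ u` over the tube of the point of `can` under `Q''`; the sheet data come from a
`Classical.choice` (`MidChart.midSheetFin`), so nothing can be said about `θ`.  The transport is
nevertheless CHOICE-FREE, by (D4) of `CoverK.Dict`: the tube of ANY regular chart upstairs lies on
the sheet `θ₂ ≡ u₂` of ANY integral function `θ₂` whose reduction takes the value `ū₂` at the
point; apply this to `g⁻¹ • θ₂`.

## Generic
* `smul_aeval` : `h'' • aeval θ Ψ = aeval (h'' • θ) (Ψ.map h')`;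
* `smul_mem_chartR` : the local ring of a regular chart is stable under an automorphism preserving
  the component and the tube;
* `smul_mem_coverTube_of_mapsComp` : `g''` maps the tube `T₁` of a regular chart at `Q₁` on the
  component `(O₁, res₁)` into the sheet `θ₂ ≡ u₂`, as soon as `g''` maps `(O₁, res₁)` to
  `(O₂, res₂)` inducing `a` on the residue fields and `θ̄₂ (a Q₁) = ū₂`.

## Modular
* `aMid_commutes` : the isomorphisms induced by the inertia elements are `F̃_M`-linear;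
* `smul_mem_coverTube_mid`, **`smul_mem_midSheet_tube`** : `gal (M q²) s • S₁.tube ⊆ S₂.tube` for
  `S₁` a sheet at `Q₁` on `w₂ b₁`, `S₂` a sheet at `placeMap a Q₁` on `w₂ b₂` — the raw clause
  `hsmMid` of `EquivTubeFam.hT_of_raw`;
* **`midSheet_tube_eq`** : the tube does not depend on the choice of the sheet;
* **`smul_mem_midSheet_tube_rich`** : the clause `hsmMid` of `EquivTubeFam.hT_stable_of_raw`
  (inertia elements fixing `ζ`).
-/

set_option autoImplicit false
set_option linter.style.haveILetI false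
set_option linter.unusedSectionVars false
set_option linter.unusedVariables false

noncomputable section

/- S36 build-time patch: file-local shortcut instances. They only shorten instance search;
each is the instance that the search finds anyway (reducible, same terms after unfolding). -/
local instance (priority := 100000) Fermat.Agent.BR3.FastInst.instAlgFullC_EquivTubesSmooth
    {k : Type*} [Field k] (N : ℕ) :
    Algebra k ↥(ModularCurve.modularFunctionFieldFullC k N) := inferInstance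
local instance (priority := 100000) Fermat.Agent.BR3.FastInst.instFieldFullC_EquivTubesSmooth
    {k : Type*} [Field k] (N : ℕ) :
    Field ↥(ModularCurve.modularFunctionFieldFullC k N) := inferInstance
local instance (priority := 100000) Fermat.Agent.BR3.FastInst.instAlgLaurent_EquivTubesSmooth
    {k : Type*} [Field k] : Algebra k (LaurentSeries k) := inferInstance


namespace Fermat.Agent.BR3.EquivTubesSmooth

open AlgebraicCurve Polynomial Fermat.Agent.Red Fermat.Agent.BR.Centre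
  Fermat.Agent.BR3.CoverK Fermat.Agent.BR3.CoverK.Factor Fermat.Agent.BR3.CoverK.Dict
  Fermat.Agent.BR3.PlaceIso Fermat.Agent.BR3.InvFiniteTheta Fermat.Agent.BR3.EquivTrivial

/-! ## Generic -/

section Generic

variable {K k : Type*} [Field K] [Field k]
  {F' : Type*} [Field F'] [Algebra K F']
  {F'' : Type*} [Field F''] [Algebra K F''] [Algebra F' F''] [IsScalarTower K F' F'']
  [Algebra.IsIntegral F' F'']
  {A : ValuationSubring K} {π : A →+* k}

/-- Semilinear transport of `aeval`. -/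
theorem smul_aeval (h'' : SemilinearAut K F'') (h' : SemilinearAut K F')
    (hcomm : ∀ y : F', h'' • algebraMap F' F'' y = algebraMap F' F'' (h' • y)) (θ : F'')
    (Ψ : F'[X]) :
    h'' • aeval θ Ψ =
      aeval (h'' • θ) (Ψ.map ((SemilinearAut.toRingAut h' : F' ≃+* F') : F' →+* F')) := by
  rw [aeval_def, aeval_def, eval₂_map]
  show ((SemilinearAut.toRingAut h'' : F'' ≃+* F'') : F'' →+* F'') (eval₂ _ θ Ψ) = _
  rw [hom_eval₂]
  congr 1
  exact RingHom.ext fun y => hcomm y

variable {Ft' : Type*} [Field Ft'] [Algebra k Ft'] {O' : ValuationSubring F'} {res' : O' →+* Ft'}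
  {Q' : Place k Ft'} {T' : Set (Place K F')}

/-- The local ring of a regular chart is stable under an automorphism preserving the component
and the tube. -/
theorem smul_mem_chartR (C : RegChart A O' res' Q' T') (h' : SemilinearAut K F')
    (hO : ∀ y ∈ O', h' • y ∈ O') (hT : ∀ P ∈ T', h'⁻¹ • P ∈ T') {y : F'}
    (hy : y ∈ C.chart.R) : h' • y ∈ C.chart.R := by
  refine C.chart.normal _ (hO y (C.chart.le y hy)) fun P hP => ?_
  have h1 : 0 ≤ (h'⁻¹ • P).ord y := Factor.ord_nonneg C (hT P hP) hy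
  have h2 := SemilinearAut.ord_smul h' (h'⁻¹ • P) y
  rw [smul_inv_smul] at h2
  rw [h2]
  exact h1

variable {Ft₁ : Type*} [Field Ft₁] [Algebra k Ft₁] {O₁ : ValuationSubring F''}
  {res₁ : O₁ →+* Ft₁} {Q₁ : Place k Ft₁} {T₁ : Set (Place K F'')}
  {Ft₂ : Type*} [Field Ft₂] [Algebra k Ft₂] {O₂ : ValuationSubring F''} {res₂ : O₂ →+* Ft₂}

/-- **Transport of the tube of a regular chart into a sheet, without looking at the generator of
the chart**: `g''` (over `g'`, inertial) maps the component `(O₁, res₁)` to `(O₂, res₂)` inducing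
`a` on the residue fields; `θ₂` is integral over the local ring downstairs and `θ̄₂` takes the value
`ū₂` at `a Q₁`.  Then `g''` maps the tube of every regular chart at `Q₁` into the sheet
`θ₂ ≡ u₂`. -/
theorem smul_mem_coverTube_of_mapsComp (C : RegChart A O' res' Q' T')
    (C₁ : RegChart A O₁ res₁ Q₁ T₁) (hB₁ : ConstHyp A π O₁ res₁)
    (hsub₁ : ∀ P ∈ T₁, P.restrict F' ∈ T')
    (g'' : SemilinearAut K F'') (g' : SemilinearAut K F')
    (hcomm : ∀ y : F', g'' • algebraMap F' F'' y = algebraMap F' F'' (g' • y))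
    (hg : IsInertial A (SemilinearAut.baseAut g''))
    (hO' : ∀ y ∈ O', g'⁻¹ • y ∈ O') (hT' : ∀ P' ∈ T', g' • P' ∈ T')
    (a : Ft₁ ≃ₐ[k] Ft₂) (hmem : ∀ y : F'', g'' • y ∈ O₂ ↔ y ∈ O₁)
    (hres : ∀ (y : F'') (hy : y ∈ O₁) (hy' : g'' • y ∈ O₂),
      res₂ ⟨g'' • y, hy'⟩ = a (res₁ ⟨y, hy⟩))
    {θ₂ : F''} {Ψ₂ : F'[X]} (hmonic : Ψ₂.Monic) (hΨ : ∀ n, Ψ₂.coeff n ∈ C.chart.R)
    (hroot : aeval θ₂ Ψ₂ = 0) (hθ₂ : θ₂ ∈ O₂) {u₂ : A}
    (hval : IsValueAt (placeMap a Q₁) (res₂ ⟨θ₂, hθ₂⟩) (π u₂))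
    {P : Place K F''} (hP : P ∈ T₁) : g'' • P ∈ coverTube A T' θ₂ u₂ := by
  have hcomm' := comm_inv g'' g' hcomm
  -- the function `θ := g''⁻¹ • θ₂`
  have hgθ : g'' • (g''⁻¹ • θ₂) = θ₂ := smul_inv_smul g'' θ₂
  have hθO : g''⁻¹ • θ₂ ∈ O₁ := (hmem _).mp (by rw [hgθ]; exact hθ₂)
  have hmonic' : (Ψ₂.map ((SemilinearAut.toRingAut g'⁻¹ : F' ≃+* F') : F' →+* F')).Monic :=
    hmonic.map _
  have hΨ' : ∀ n, (Ψ₂.map ((SemilinearAut.toRingAut g'⁻¹ : F' ≃+* F') : F' →+* F')).coeff n ∈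
      C.chart.R := by
    intro n
    rw [coeff_map]
    exact smul_mem_chartR C g'⁻¹ hO' (fun P hP => by rw [inv_inv]; exact hT' P hP) (hΨ n)
  have hroot' : aeval (g''⁻¹ • θ₂)
      (Ψ₂.map ((SemilinearAut.toRingAut g'⁻¹ : F' ≃+* F') : F' →+* F')) = 0 := by
    rw [← smul_aeval g''⁻¹ g'⁻¹ hcomm', hroot, smul_zero]
  have hval' : IsValueAt Q₁ (res₁ ⟨g''⁻¹ • θ₂, hθO⟩) (π u₂) := by
    have h1 := hres (g''⁻¹ • θ₂) hθO (by rw [hgθ]; exact hθ₂)
    have e : (⟨g'' • (g''⁻¹ • θ₂), by rw [hgθ]; exact hθ₂⟩ : O₂) = ⟨θ₂, hθ₂⟩ :=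
      Subtype.ext hgθ
    rw [e] at h1
    rw [h1] at hval
    exact isValueAt_placeMap_iff.mp hval
  have hsubset := tube_subset_coverTube_of_isIntegral C C₁ hB₁ hsub₁ hmonic' hΨ' hroot' hθO hval'
  have h2 := smul_mem_coverTube A g'' g' hcomm hg.val hT'
    (Fermat.Agent.BR3.EquivTubes.valuation_apply_sub_lt_one hg u₂) (hsubset hP)
  rw [hgθ] at h2
  exact h2

end Generic

/-! ## Modular -/

section Modular

open ModularCurve HahnSeries Fermat.Agent.X0 Fermat.Agent.Val
open Fermat.Agent.Hecke.AL Fermat.Agent.BR.TwoVal Fermat.Agent.BR.ResGen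
open Fermat.Agent.BR.TwoValInst Fermat.Agent.BR.ValTwo Fermat.Agent.BR3.FibreProd
open Fermat.Agent.BR.ConstRedTwo Fermat.Agent.BR3.KummerGenus Fermat.Agent.BR3.KummerGenus.MidInst
open Fermat.Agent.BR.S0 Fermat.Agent.BR.S0.RedModular Fermat.Agent.BR.S0.PointDict
open Fermat.Agent.BR.S0.RedHyp Fermat.Agent.BR3.RegAtlas Fermat.Agent.BR3.MidChart
open Fermat.Agent.BR3.EquivTubesHoriz

set_option synthInstance.maxHeartbeats 400000

variable {M q : ℕ} [NeZero M] [hq : Fact q.Prime]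
variable (B : ValuationSubring (AlgebraicClosure ℚ)) (hB : B.LiesOverPrime q) (hqM : ¬ q ∣ M)
variable {ζ : Kbˣ} (hζ : IsPrimitiveRoot ζ q)

local notation "kB" => IsLocalRing.ResidueField B
local notation "FtM" => modularFunctionFieldFullC (IsLocalRing.ResidueField B) M

/-- (shortcut instances: the search through the generic instances costs seconds per declaration) -/
local instance (priority := 100000) instAlgKFtE : Algebra kB FtM := inferInstance
local instance (priority := 100000) instAlgKFMidE : Algebra kB (FMid M B) := inferInstance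
local instance (priority := 100000) instAlgFtFMidE : Algebra FtM (FMid M B) := inferInstance
local instance (priority := 100000) instTowerMidE : IsScalarTower kB FtM (FMid M B) :=
  inferInstance

variable {s : Kb ≃ₐ[ℚ] Kb} {b₁ b₂ : ℕ} (hb₁ : b₁ < q - 1) (hb₂ : b₂ < q - 1)

/-- inertia fixes the residues of `can` -/
theorem constRedW1_res_gal_smul (hs : s ∈ B.inertiaSubgroupIn ℚ) (x : Fb (M * q))
    (hx : x ∈ O1 M B hB) (hx' : gal (M * q) s • x ∈ O1 M B hB) :
    (constRedW1 B hB hqM).res ⟨gal (M * q) s • x, hx'⟩ = (constRedW1 B hB hqM).res ⟨x, hx⟩ := by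
  apply Subtype.ext
  exact Fermat.Agent.BR.GaloisTwo.res1_gal_smul_of_mem_inertia B hB hs ⟨x, hx⟩

/-- **The isomorphisms of the residue fields of the middle components induced by the inertia
elements are `F̃_M`-linear** (self-contained twin of `SDD.ModularTame.aMid_linear`). -/
theorem aMid_commutes (hs : s ∈ B.inertiaSubgroupIn ℚ) (a : FMid M B ≃ₐ[kB] FMid M B)
    (hres : ∀ (y : Fb (M * q * q)) (hy : y ∈ (constRedMid B hB hqM hζ hb₁).O)
      (hy' : gal (M * q * q) s • y ∈ (constRedMid B hB hqM hζ hb₂).O),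
      (constRedMid B hB hqM hζ hb₂).res ⟨gal (M * q * q) s • y, hy'⟩ =
        a ((constRedMid B hB hqM hζ hb₁).res ⟨y, hy⟩))
    (c : FtM) : a (algebraMap FtM (FMid M B) c) = algebraMap FtM (FMid M B) c := by
  obtain ⟨x, rfl⟩ := (constRedW1 B hB hqM).res_surjective c
  have hx : (x : Fb (M * q)) ∈ O1 M B hB := x.2
  have hgx : gal (M * q) s • (x : Fb (M * q)) ∈ O1 M B hB :=
    (Fermat.Agent.BR.GaloisTwo.gal_smul_mem_O1_iff B hB
      (mem_decomposition_of_mem_inertiaIn hs)).mpr hx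
  have hα : alpha2 M q (x : Fb (M * q)) ∈ (constRedMid B hB hqM hζ hb₁).O :=
    (alpha2_mem_w2_iff B hB hqM hζ hb₁ _).2 hx
  have hgα : gal (M * q * q) s • alpha2 M q (x : Fb (M * q)) ∈
      (constRedMid B hB hqM hζ hb₂).O := by
    rw [Fermat.Agent.BR3.FibreProd.gal_smul_alpha2]
    exact (alpha2_mem_w2_iff B hB hqM hζ hb₂ _).2 hgx
  have h1 := hres _ hα hgα
  have h2 : (constRedMid B hB hqM hζ hb₁).res ⟨alpha2 M q (x : Fb (M * q)), hα⟩ =
      algebraMap FtM (FMid M B) ((constRedW1 B hB hqM).res x) :=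
    resMid_alpha2 B hB hqM hζ hb₁ _ hx
  have h3 : (constRedMid B hB hqM hζ hb₂).res
      ⟨gal (M * q * q) s • alpha2 M q (x : Fb (M * q)), hgα⟩ =
      algebraMap FtM (FMid M B) ((constRedW1 B hB hqM).res x) := by
    have e : (⟨gal (M * q * q) s • alpha2 M q (x : Fb (M * q)), hgα⟩ :
        (constRedMid B hB hqM hζ hb₂).O) =
        ⟨alpha2 M q (gal (M * q) s • (x : Fb (M * q))),
          (alpha2_mem_w2_iff B hB hqM hζ hb₂ _).2 hgx⟩ :=
      Subtype.ext (Fermat.Agent.BR3.FibreProd.gal_smul_alpha2 s _)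
    rw [e]
    refine (resMid_alpha2 B hB hqM hζ hb₂ _ hgx).trans ?_
    exact congrArg _ (constRedW1_res_gal_smul B hB hqM hs _ hx hgx)
  rw [← h2, ← h1, h3, h2]

/-- a place is determined by its order function -/
theorem place_eq_of_ord_eq {k L : Type*} [Field k] [Field L] [Algebra k L] {v w : Place k L}
    (h : ∀ f : L, v.ord f = w.ord f) : v = w := by
  apply Place.ext
  ext f
  rw [Fermat.Agent.X0.Place.mem_iff_ord_nonneg, Fermat.Agent.X0.Place.mem_iff_ord_nonneg, h f]

/-- **Transport of the tube of ANY regular chart of the middle component `w₂ b₁` at `Q₁` (over the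
tube of the point `Q'` of `can`) into a sheet of the middle component `w₂ b₂`** by an inertia
element which maps `w₂ b₁` to `w₂ b₂` inducing `a` on the residue fields: the generator `θ₂` of
the sheet is any function integral over the ring of the regular chart of `can` at `Q'`, in
`w₂ b₂`, whose reduction takes the value `ū₂` at `a Q₁`. -/
theorem smul_mem_coverTube_mid (hs : s ∈ B.inertiaSubgroupIn ℚ) (a : FMid M B ≃ₐ[kB] FMid M B)
    (hmem : ∀ y : Fb (M * q * q), gal (M * q * q) s • y ∈ (constRedMid B hB hqM hζ hb₂).O ↔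
      y ∈ (constRedMid B hB hqM hζ hb₁).O)
    (hres : ∀ (y : Fb (M * q * q)) (hy : y ∈ (constRedMid B hB hqM hζ hb₁).O)
      (hy' : gal (M * q * q) s • y ∈ (constRedMid B hB hqM hζ hb₂).O),
      (constRedMid B hB hqM hζ hb₂).res ⟨gal (M * q * q) s • y, hy'⟩ =
        a ((constRedMid B hB hqM hζ hb₁).res ⟨y, hy⟩))
    (H : AtlasHyp (chartDataModular B hB hqM) (jx M q)) (Q' : Place kB FtM)
    (hQ' : ∀ e, Q' ≠ z₁ (chartDataModular B hB hqM) e)
    {Q₁ : Place kB (FMid M B)} {T₁ : Set (Place Kb (Fb (M * q * q)))}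
    (C₁ : RegChart B (constRedMid B hB hqM hζ hb₁).O (constRedMid B hB hqM hζ hb₁).res Q₁ T₁)
    (hα : (alpha2 M q).toRingHom.IsIntegral)
    (hsub₁ : ∀ P ∈ T₁, H.r (P.restrictAlong (alpha2 M q) hα) = ⟨0, Q'⟩)
    {θ₂ : Fb (M * q * q)} {Ψ₂ : (Fb (M * q))[X]} (hmonic : Ψ₂.Monic)
    (hΨ : ∀ n, Ψ₂.coeff n ∈ (regChartCan B hB hqM H Q' hQ').chart.R)
    (hroot : letI := algebraAlong (alpha2 M q); aeval θ₂ Ψ₂ = 0)
    (hθ₂ : θ₂ ∈ (constRedMid B hB hqM hζ hb₂).O) {u₂ : B}
    (hval : IsValueAt (placeMap a Q₁) ((constRedMid B hB hqM hζ hb₂).res ⟨θ₂, hθ₂⟩)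
      (IsLocalRing.residue B u₂))
    {P : Place Kb (Fb (M * q * q))} (hP : P ∈ T₁) :
    letI := algebraAlong (alpha2 M q)
    haveI := isScalarTower_along (alpha2 M q)
    haveI : Module.Finite (Fb (M * q)) (Fb (M * q * q)) :=
      Fermat.Agent.Hecke.finiteAlong_heckeAlphaBar (M * q) q
    gal (M * q * q) s • P ∈
      coverTube B {P | H.r P = (⟨0, Q'⟩ : Σ _ : Fin 2, Place kB FtM)} θ₂ u₂ := by
  letI := algebraAlong (alpha2 M q)
  haveI := isScalarTower_along (alpha2 M q)
  haveI : Module.Finite (Fb (M * q)) (Fb (M * q * q)) :=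
    Fermat.Agent.Hecke.finiteAlong_heckeAlphaBar (M * q) q
  have hdec := mem_decomposition_of_mem_inertiaIn hs
  refine smul_mem_coverTube_of_mapsComp (regChartCan B hB hqM H Q' hQ') C₁
    (constHyp_of_constRed (constRedMid B hB hqM hζ hb₁)) hsub₁
    (gal (M * q * q) s) (gal (M * q) s)
    (fun y => Fermat.Agent.BR3.EquivFixed.heckeAlphaBar_comm q s y)
    (Fermat.Agent.BR3.EquivHoriz.isInertial_gal (M * q * q) B hs) ?_
    (smul_mem_fibre_atlas B hB hqM H hs _) a hmem hres hmonic hΨ hroot hθ₂ hval hP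
  intro y hy
  refine (Fermat.Agent.BR.GaloisTwo.gal_smul_mem_O1_iff B hB hdec).mp ?_
  rw [smul_inv_smul]
  exact hy

/-- **The tubes of the middle components under the inertia group** (raw clause `hsmMid` of
`EquivTubeFam.hT_of_raw`): an inertia element which maps `w₂ b₁` to `w₂ b₂` inducing `a` on the
residue fields maps the tube of a sheet at `Q₁` into the tube of EVERY sheet at `a Q₁`.  The
sheets are arbitrary (no condition on the generators), and the two points of `can` are not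
assumed equal: they are, by `aMid_commutes`. -/
theorem smul_mem_midSheet_tube (hs : s ∈ B.inertiaSubgroupIn ℚ) (a : FMid M B ≃ₐ[kB] FMid M B)
    (hmem : ∀ y : Fb (M * q * q), gal (M * q * q) s • y ∈ (constRedMid B hB hqM hζ hb₂).O ↔
      y ∈ (constRedMid B hB hqM hζ hb₁).O)
    (hres : ∀ (y : Fb (M * q * q)) (hy : y ∈ (constRedMid B hB hqM hζ hb₁).O)
      (hy' : gal (M * q * q) s • y ∈ (constRedMid B hB hqM hζ hb₂).O),
      (constRedMid B hB hqM hζ hb₂).res ⟨gal (M * q * q) s • y, hy'⟩ =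
        a ((constRedMid B hB hqM hζ hb₁).res ⟨y, hy⟩))
    {H : AtlasHyp (chartDataModular B hB hqM) (jx M q)} {Q₁' Q₂' : Place kB FtM}
    {hQ₁' : ∀ e, Q₁' ≠ z₁ (chartDataModular B hB hqM) e}
    {hQ₂' : ∀ e, Q₂' ≠ z₁ (chartDataModular B hB hqM) e}
    {Q₁ Q₂ : Place kB (FMid M B)}
    (S₁ : MidSheet B hB hqM hζ hb₁ H Q₁' hQ₁' Q₁) (S₂ : MidSheet B hB hqM hζ hb₂ H Q₂' hQ₂' Q₂)
    (hQ₂ : Q₂ = placeMap a Q₁) {P : Place Kb (Fb (M * q * q))} (hP : P ∈ S₁.tube) :
    gal (M * q * q) s • P ∈ S₂.tube := by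
  letI := algebraAlong (alpha2 M q)
  haveI := isScalarTower_along (alpha2 M q)
  have hca := aMid_commutes B hB hqM hζ hb₁ hb₂ hs a hres
  have hQ' : Q₂' = Q₁' := place_eq_of_ord_eq fun f => by
    rw [← S₂.sheet.ord_map f, hQ₂, ord_placeMap', ← S₁.sheet.ord_map f]
    congr 1
    rw [AlgEquiv.symm_apply_eq, hca]
  subst hQ'
  subst hQ₂
  exact smul_mem_coverTube_mid B hB hqM hζ hb₁ hb₂ hs a hmem hres H Q₂' hQ₂' S₁.regChart
    (Fermat.Agent.BR2.LevelGen.isIntegral_fb (alpha2 M q)) (fun P hP => hP.1)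
    S₂.sheet.monic S₂.sheet.coeff_mem S₂.sheet.root S₂.sheet.θ_mem S₂.sheet.value hP

/-- **The tube of a point of a middle component does not depend on the choice of the sheet.** -/
theorem midSheet_tube_eq {b : ℕ} (hb : b < q - 1)
    {H : AtlasHyp (chartDataModular B hB hqM) (jx M q)} {Q₁' Q₂' : Place kB FtM}
    {hQ₁' : ∀ e, Q₁' ≠ z₁ (chartDataModular B hB hqM) e}
    {hQ₂' : ∀ e, Q₂' ≠ z₁ (chartDataModular B hB hqM) e} {Q'' : Place kB (FMid M B)}
    (S₁ : MidSheet B hB hqM hζ hb H Q₁' hQ₁' Q'') (S₂ : MidSheet B hB hqM hζ hb H Q₂' hQ₂' Q'') :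
    S₁.tube = S₂.tube := by
  have hone : (1 : Kb ≃ₐ[ℚ] Kb) ∈ B.inertiaSubgroupIn ℚ := Subgroup.one_mem _
  have hg : gal (M * q * q) (1 : Kb ≃ₐ[ℚ] Kb) = 1 := map_one _
  have key : ∀ {Q₁' Q₂' : Place kB FtM} {hQ₁' : ∀ e, Q₁' ≠ z₁ (chartDataModular B hB hqM) e}
      {hQ₂' : ∀ e, Q₂' ≠ z₁ (chartDataModular B hB hqM) e}
      (S₁ : MidSheet B hB hqM hζ hb H Q₁' hQ₁' Q'') (S₂ : MidSheet B hB hqM hζ hb H Q₂' hQ₂' Q''),
      S₁.tube ⊆ S₂.tube := by
    intro Q₁' Q₂' hQ₁' hQ₂' S₁ S₂ P hP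
    have h := smul_mem_midSheet_tube B hB hqM hζ hb hb hone AlgEquiv.refl
      (fun y => by rw [hg, one_smul])
      (fun y hy hy' => by
        have e : (⟨gal (M * q * q) (1 : Kb ≃ₐ[ℚ] Kb) • y, hy'⟩ :
            (constRedMid B hB hqM hζ hb).O) = ⟨y, hy⟩ :=
          Subtype.ext (by show gal (M * q * q) (1 : Kb ≃ₐ[ℚ] Kb) • y = y; rw [hg, one_smul])
        rw [e]
        rfl)
      S₁ S₂ (placeMap_refl Q'').symm hP
    rwa [hg, one_smul] at h
  exact Set.Subset.antisymm (key S₁ S₂) (key S₂ S₁)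

/-- **The tubes of the middle components are stable under the inertia elements fixing `ζ`**
(raw clause `hsmMid` of `EquivTubeFam.hT_stable_of_raw`). -/
theorem smul_mem_midSheet_tube_rich (hs : s ∈ B.inertiaSubgroupIn ℚ)
    (hsζ : s (ζ : Kb) = (ζ : Kb)) {b : ℕ} (hb : b < q - 1)
    {H : AtlasHyp (chartDataModular B hB hqM) (jx M q)} {Q₁' Q₂' : Place kB FtM}
    {hQ₁' : ∀ e, Q₁' ≠ z₁ (chartDataModular B hB hqM) e}
    {hQ₂' : ∀ e, Q₂' ≠ z₁ (chartDataModular B hB hqM) e} {Q'' : Place kB (FMid M B)}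
    (S₁ : MidSheet B hB hqM hζ hb H Q₁' hQ₁' Q'') (S₂ : MidSheet B hB hqM hζ hb H Q₂' hQ₂' Q'')
    {P : Place Kb (Fb (M * q * q))} (hP : P ∈ S₁.tube) : gal (M * q * q) s • P ∈ S₂.tube := by
  have hz : s ((ζ ^ (b + 1) : Kbˣ) : Kb) = ((ζ ^ (b + 1) : Kbˣ) : Kb) := by
    rw [Units.val_pow_eq_pow_val, map_pow, hsζ]
  have hdec := mem_decomposition_of_mem_inertiaIn hs
  refine smul_mem_midSheet_tube B hB hqM hζ hb hb hs AlgEquiv.refl
    (fun y => gal_smul_mem_w2_iff B hB hqM hζ hdec hb hb hz) (fun y hy hy' => ?_)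
    S₁ S₂ (placeMap_refl Q'').symm hP
  apply Subtype.ext
  exact resw2_gal_smul_of_mem_inertia B hB hqM hζ hs hb hb hz ⟨y, hy⟩

/-! ### Against the one-function tube `MidChartAll.midTubeAll` -/

section All

open Fermat.Agent.BR3.MidChartAll

variable [FiniteDimensional (modularFunctionFieldFullC (IsLocalRing.ResidueField B) M) (FMid M B)]

local instance (priority := 100000) instIsIntegralMidE :
    Algebra.IsIntegral (modularFunctionFieldFullC (IsLocalRing.ResidueField B) M) (FMid M B) :=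
  Algebra.IsIntegral.of_finite _ _

omit [FiniteDimensional (modularFunctionFieldFullC (IsLocalRing.ResidueField B) M) (FMid M B)] in
/-- an `F̃_M`-linear isomorphism does not move the point of `can` under a place -/
theorem restrict_placeMap_of_commutes
    [Algebra.IsIntegral (modularFunctionFieldFullC (IsLocalRing.ResidueField B) M) (FMid M B)]
    (a : FMid M B ≃ₐ[kB] FMid M B)
    (ha : ∀ c : FtM, a (algebraMap FtM (FMid M B) c) = algebraMap FtM (FMid M B) c)
    (Q : Place kB (FMid M B)) : (placeMap a Q).restrict FtM = Q.restrict FtM := by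
  apply Place.ext
  ext f
  rw [Place.restrict_toValuationSubring, Place.restrict_toValuationSubring,
    ValuationSubring.mem_comap, ValuationSubring.mem_comap, placeMap_toValuationSubring,
    mem_mapVS]
  have e : a.symm (algebraMap FtM (FMid M B) f) = algebraMap FtM (FMid M B) f := by
    rw [AlgEquiv.symm_apply_eq, ha]
  rw [e]

/-- the isomorphisms induced by the inertia elements do not move the point of `can` under a place
of a middle component -/
theorem restrict_placeMap_eq (hs : s ∈ B.inertiaSubgroupIn ℚ) (a : FMid M B ≃ₐ[kB] FMid M B)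
    (hres : ∀ (y : Fb (M * q * q)) (hy : y ∈ (constRedMid B hB hqM hζ hb₁).O)
      (hy' : gal (M * q * q) s • y ∈ (constRedMid B hB hqM hζ hb₂).O),
      (constRedMid B hB hqM hζ hb₂).res ⟨gal (M * q * q) s • y, hy'⟩ =
        a ((constRedMid B hB hqM hζ hb₁).res ⟨y, hy⟩))
    (Q : Place kB (FMid M B)) : (placeMap a Q).restrict FtM = Q.restrict FtM :=
  restrict_placeMap_of_commutes B a (aMid_commutes B hB hqM hζ hb₁ hb₂ hs a hres) Q

/-- the sheet of `MidChartAll` at a point with a sheet datum -/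
def midSheetAll (H : AtlasHyp (chartDataModular B hB hqM) (jx M q)) (b₀ : Fin (q - 1))
    (Q'' : Place kB (FMid M B))
    (hnc : ∀ e : Crossing (chartDataModular B hB hqM),
      Q''.restrict FtM ≠ z₁ (chartDataModular B hB hqM) e)
    (h : HasMidSheet B hB hqM hζ H b₀ Q'' hnc) :
    MidSheet B hB hqM hζ b₀.2 H (Q''.restrict FtM) hnc Q'' where
  θ := midTheta B hB hqM hζ H b₀ Q'' hnc
  Ψ := (exists_coverSheet_midTheta B hB hqM hζ H b₀ Q'' hnc h).choose
  ψ := (exists_coverSheet_midTheta B hB hqM hζ H b₀ Q'' hnc h).choose_spec.choose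
  ψc := (exists_coverSheet_midTheta B hB hqM hζ H b₀ Q'' hnc h).choose_spec.choose_spec.choose
  u := midU B hB hqM hζ H b₀ Q'' hnc
  sheet := (exists_coverSheet_midTheta B hB hqM hζ H b₀ Q'' hnc
    h).choose_spec.choose_spec.choose_spec

theorem midSheetAll_tube (H : AtlasHyp (chartDataModular B hB hqM) (jx M q)) (b₀ : Fin (q - 1))
    (Q'' : Place kB (FMid M B))
    (hnc : ∀ e : Crossing (chartDataModular B hB hqM),
      Q''.restrict FtM ≠ z₁ (chartDataModular B hB hqM) e)
    (h : HasMidSheet B hB hqM hζ H b₀ Q'' hnc) :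
    (midSheetAll B hB hqM hζ H b₀ Q'' hnc h).tube = midTubeAll B hB hqM hζ H b₀ Q'' hnc :=
  rfl

/-- **The raw clause `hsmMid` of `EquivTubeFam.hT_of_raw` against `MidChartAll.midTubeAll`**: an
inertia element which maps `w₂ b₁` to `w₂ b₂` inducing `a` on the residue fields maps the tube of
`Q₁` on `w₂ b₁` into the tube of `a Q₁` on `w₂ b₂`. -/
theorem smul_mem_midTubeAll (hs : s ∈ B.inertiaSubgroupIn ℚ) (a : FMid M B ≃ₐ[kB] FMid M B)
    (b₁ b₂ : Fin (q - 1))
    (hmem : ∀ y : Fb (M * q * q), gal (M * q * q) s • y ∈ (constRedMid B hB hqM hζ b₂.2).O ↔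
      y ∈ (constRedMid B hB hqM hζ b₁.2).O)
    (hres : ∀ (y : Fb (M * q * q)) (hy : y ∈ (constRedMid B hB hqM hζ b₁.2).O)
      (hy' : gal (M * q * q) s • y ∈ (constRedMid B hB hqM hζ b₂.2).O),
      (constRedMid B hB hqM hζ b₂.2).res ⟨gal (M * q * q) s • y, hy'⟩ =
        a ((constRedMid B hB hqM hζ b₁.2).res ⟨y, hy⟩))
    (H : AtlasHyp (chartDataModular B hB hqM) (jx M q)) (Q₁ : Place kB (FMid M B))
    (hnc₁ : ∀ e : Crossing (chartDataModular B hB hqM),
      Q₁.restrict FtM ≠ z₁ (chartDataModular B hB hqM) e)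
    (hnc₂ : ∀ e : Crossing (chartDataModular B hB hqM),
      (placeMap a Q₁).restrict FtM ≠ z₁ (chartDataModular B hB hqM) e)
    (h₁ : HasMidSheet B hB hqM hζ H b₁ Q₁ hnc₁)
    (h₂ : HasMidSheet B hB hqM hζ H b₂ (placeMap a Q₁) hnc₂)
    {P : Place Kb (Fb (M * q * q))} (hP : P ∈ midTubeAll B hB hqM hζ H b₁ Q₁ hnc₁) :
    gal (M * q * q) s • P ∈ midTubeAll B hB hqM hζ H b₂ (placeMap a Q₁) hnc₂ :=
  smul_mem_midSheet_tube B hB hqM hζ b₁.2 b₂.2 hs a hmem hres
    (midSheetAll B hB hqM hζ H b₁ Q₁ hnc₁ h₁)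
    (midSheetAll B hB hqM hζ H b₂ (placeMap a Q₁) hnc₂ h₂) rfl hP

/-- the non-crossing condition is transported by the isomorphisms induced by the inertia
elements -/
theorem hnc_placeMap (hs : s ∈ B.inertiaSubgroupIn ℚ) (a : FMid M B ≃ₐ[kB] FMid M B)
    (hres : ∀ (y : Fb (M * q * q)) (hy : y ∈ (constRedMid B hB hqM hζ hb₁).O)
      (hy' : gal (M * q * q) s • y ∈ (constRedMid B hB hqM hζ hb₂).O),
      (constRedMid B hB hqM hζ hb₂).res ⟨gal (M * q * q) s • y, hy'⟩ =
        a ((constRedMid B hB hqM hζ hb₁).res ⟨y, hy⟩))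
    {Q₁ : Place kB (FMid M B)}
    (hnc₁ : ∀ e : Crossing (chartDataModular B hB hqM),
      Q₁.restrict FtM ≠ z₁ (chartDataModular B hB hqM) e) :
    ∀ e : Crossing (chartDataModular B hB hqM),
      (placeMap a Q₁).restrict FtM ≠ z₁ (chartDataModular B hB hqM) e := by
  rw [restrict_placeMap_eq B hB hqM hζ hb₁ hb₂ hs a hres Q₁]
  exact hnc₁

/-- **The raw clause `hsmMid` of `EquivTubeFam.hT_stable_of_raw` against
`MidChartAll.midTubeAll`**: the tubes of the middle components are stable under the inertia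
elements fixing `ζ`. -/
theorem smul_mem_midTubeAll_rich (hs : s ∈ B.inertiaSubgroupIn ℚ) (hsζ : s (ζ : Kb) = (ζ : Kb))
    (H : AtlasHyp (chartDataModular B hB hqM) (jx M q)) (b₀ : Fin (q - 1))
    (Q'' : Place kB (FMid M B))
    (hnc : ∀ e : Crossing (chartDataModular B hB hqM),
      Q''.restrict FtM ≠ z₁ (chartDataModular B hB hqM) e)
    (h : HasMidSheet B hB hqM hζ H b₀ Q'' hnc)
    {P : Place Kb (Fb (M * q * q))} (hP : P ∈ midTubeAll B hB hqM hζ H b₀ Q'' hnc) :
    gal (M * q * q) s • P ∈ midTubeAll B hB hqM hζ H b₀ Q'' hnc :=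
  smul_mem_midSheet_tube_rich B hB hqM hζ hs hsζ b₀.2
    (midSheetAll B hB hqM hζ H b₀ Q'' hnc h) (midSheetAll B hB hqM hζ H b₀ Q'' hnc h) hP

end All

end Modular

end Fermat.Agent.BR3.EquivTubesSmooth
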