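import Mathlib
import Fermat.Agent.BR3.VertSheet.Fibre
import Fermat.Agent.BR3.EquivTubes
import Fermat.Agent.BR3.PlaceIso

/-!
# Program C (S36), node (I9-TUBES), vertical components: the tubes `ptTube` under inertia

Frame of `BR3/VertSheet/Fibre.lean`: `C : AnnulusCore A T'` the contract of the tube of a node of
`F'`, `a₀` a gauge, `θ : F''` the generator of the vertical sheets, `L = AdjoinRoot (vertBar q β ρ)`
the residue field of the vertical component, `ptTube C a₀ θ Q` the tube of the point `Q` of `L`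
(the sheet `θ ≡ Ũ(Q)` over the residue disc of class `T(Q)`).  `g''`, `g'` compatible semilinear
automorphisms of `F''`, `F'` with inertial base automorphisms, `g'` fixing the coordinate `C.u` and
stabilising `T'`.

* `restrict_eq_placeAt_iff` : `Q` lies over `T = cb` iff `T̃` has the value `cb` at `Q`;
* `smul_mem_ptTube_of_fixed` : if the gauge is fixed up to `1`-units and `g'' • θ = θ`, the tubes
  `ptTube C a₀ θ Q` are stable (the rich inertia elements);
* `smul_mem_ptTube_rot` : if `g'' • θ = cθ • θ` with `|cθ| = 1` and `a : L ≃ₐ[k] L` satisfies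
  `a T̃ = (theta A g' a₀)⁻¹ • T̃`, `a Ũ = (residue of cθ) • Ũ`, then `g''` maps `ptTube C a₀ θ Q`
  into `ptTube C a₀ θ (placeMap a Q)` (the tame generator).
-/

set_option autoImplicit false
set_option linter.unusedSectionVars false
set_option linter.unusedVariables false

noncomputable section

namespace Fermat.Agent.BR3.EquivTubesVert

open AlgebraicCurve Polynomial IsLocalRing
open Fermat.Agent.Red Fermat.Agent.X0
open Fermat.Agent.BR.Circle Fermat.Agent.BR.S0 Fermat.Agent.BR.P1 Fermat.Agent.BR.InertiaRed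
open Fermat.Agent.BR3.VertResidue Fermat.Agent.BR3.SubDisc Fermat.Agent.BR3.CoverK
open Fermat.Agent.BR3.VertSheet Fermat.Agent.BR3.InvFiniteTheta Fermat.Agent.BR3.EquivTubes
open Fermat.Agent.BR3.PlaceIso

/-! ### points over `T = cb` -/

section Line

variable {k : Type*} [Field k] [IsAlgClosed k] {L : Type*} [Field L] [Algebra k L]
  [Algebra (RatFunc k) L] [IsScalarTower k (RatFunc k) L] [Algebra.IsIntegral (RatFunc k) L]

/-- A place of an extension of `k(T)` lies over `T = cb` iff `T` has the value `cb` there. -/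
theorem restrict_eq_placeAt_iff (Q : Place k L) (cb : k) :
    Q.restrict (RatFunc k) = placeAt k cb ↔
      IsValueAt Q (algebraMap (RatFunc k) L RatFunc.X) cb := by
  rw [← Fermat.Agent.BR3.CoverPlaces.isValueAt_restrict_iff Q RatFunc.X cb]
  constructor
  · intro h
    rw [h]
    unfold IsValueAt
    have h1 := ord_placeAt_X_sub (k := k) cb
    rw [RatFunc.algebraMap_eq_C]
    have hne : (RatFunc.X : RatFunc k) - RatFunc.C cb ≠ 0 := by
      intro h0
      rw [h0, Place.ord_zero] at h1
      exact absurd h1 (by simp)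
    rw [AlgebraicCurve.Place.adicValuation_eq_exp_neg_ord _ hne, h1]
    rw [← WithZero.exp_zero]
    exact WithZero.exp_lt_exp.mpr (by norm_num)
  · intro h
    unfold IsValueAt at h
    rw [RatFunc.algebraMap_eq_C] at h
    refine eq_placeAt_of_ord_pos ?_
    have hne : (RatFunc.X : RatFunc k) - RatFunc.C cb ≠ 0 := by
      intro h0
      have := congrArg RatFunc.num h0
      have hX : (RatFunc.X : RatFunc k) - RatFunc.C cb =
          algebraMap (Polynomial k) (RatFunc k) (Polynomial.X - Polynomial.C cb) := by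
        rw [map_sub, RatFunc.algebraMap_X, RatFunc.algebraMap_C]
      rw [hX] at h0
      have h1 : (Polynomial.X - Polynomial.C cb : Polynomial k) = 0 :=
        (IsFractionRing.injective (Polynomial k) (RatFunc k)) (by rw [h0, map_zero])
      exact Polynomial.X_sub_C_ne_zero cb h1
    rw [AlgebraicCurve.Place.adicValuation_eq_exp_neg_ord _ hne, ← WithZero.exp_zero,
      WithZero.exp_lt_exp] at h
    omega

end Line

/-! ### the tubes -/

section Tube

variable {K : Type} {F' F'' : Type*} [Field K] [Field F'] [Field F''] [Algebra K F']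
  [Algebra K F''] [Algebra F' F''] [IsScalarTower K F' F''] [Algebra.IsIntegral F' F'']
  {A : ValuationSubring K} [IsAlgClosed (ResidueField A)] {T' : Set (Place K F')}

variable {q : ℕ} {β ρ : ResidueField A} [hP : Fact (Irreducible (vertBar q β ρ))]
  (C : AnnulusCore A T') {a₀ : K} {θ : F''}

local notation "k" => ResidueField A
local notation "L" => AdjoinRoot (vertBar q β ρ)

/-- **The tubes of the generic points of a vertical component are stable** under an inertial
automorphism fixing the gauge up to `1`-units and the generator of the sheets. -/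
theorem smul_mem_ptTube_of_fixed (g'' : SemilinearAut K F'') (g' : SemilinearAut K F')
    (hcomm : ∀ y : F', g'' • algebraMap F' F'' y = algebraMap F' F'' (g' • y))
    (hg'' : IsInertial A (SemilinearAut.baseAut g''))
    (hg' : IsInertial A (SemilinearAut.baseAut g'))
    (hu : g' • C.u = C.u) (hT : ∀ P, g' • P ∈ T' ↔ P ∈ T') (ha0 : a₀ ≠ 0)
    (hth : theta A (SemilinearAut.baseAut g') a₀ = 1) (hθ : g'' • θ = θ)
    {Q : Place k L} {P : Place K F''} (hP : P ∈ ptTube C a₀ θ Q) :
    g'' • P ∈ ptTube C a₀ θ Q := by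
  obtain ⟨c, u, hc, hQ, hu', hP'⟩ := hP
  refine ⟨c, u, hc, hQ, hu', ?_⟩
  exact smul_mem_coverTubeK_of_smul_eq A g'' g' hcomm hg''
    (fun P₁ hP₁ => (smul_mem_classDisc_iff_of_fixed C g' hg' hu hT ha0 hth _ P₁).mpr hP₁)
    (map_one _) (by rw [hθ, one_smul]) (u := u) (u₂ := u)
    (by rw [one_mul, sub_self, map_zero]; exact zero_lt_one) hP'

/-- **The tubes of the generic points of a vertical component under a rotating inertial
automorphism**: the tube of `Q` goes into the tube of `placeMap a Q`. -/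
theorem smul_mem_ptTube_rot (g'' : SemilinearAut K F'') (g' : SemilinearAut K F')
    (hcomm : ∀ y : F', g'' • algebraMap F' F'' y = algebraMap F' F'' (g' • y))
    (hg'' : IsInertial A (SemilinearAut.baseAut g''))
    (hg' : IsInertial A (SemilinearAut.baseAut g'))
    (hu : g' • C.u = C.u) (hT : ∀ P ∈ T', g' • P ∈ T') (ha0 : a₀ ≠ 0)
    {cθ : K} (hcθ : A.valuation cθ = 1) (hθ : g'' • θ = cθ • θ)
    (a : L ≃ₐ[k] L)
    (haX : a (algebraMap (RatFunc k) L RatFunc.X) =
      (theta A (SemilinearAut.baseAut g') a₀)⁻¹ • algebraMap (RatFunc k) L RatFunc.X)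
    (haU : a (AdjoinRoot.root (vertBar q β ρ)) = resOf A cθ • AdjoinRoot.root (vertBar q β ρ))
    {Q : Place k L} {P : Place K F''} (hP : P ∈ ptTube C a₀ θ Q) :
    g'' • P ∈ ptTube C a₀ θ (placeMap a Q) := by
  obtain ⟨c, u, hc, hQ, hu', hP'⟩ := hP
  set s := SemilinearAut.baseAut g' with hs
  set t := theta A s a₀ with ht
  have ht0 : t ≠ 0 := theta_ne_zero hg' ha0
  have hsa : s a₀ ≠ 0 := by rwa [Ne, map_eq_zero_iff _ s.injective]
  have hval : A.valuation (s a₀ / a₀) = 1 := valuation_apply_div hg' ha0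
  have hwA : s a₀ / a₀ ∈ A := mem_of_valuation_eq_one A hval
  have hca : A.valuation (c / a₀) = 1 := by
    rw [map_div₀, hc]
    exact div_self ((Valuation.ne_zero_iff _).mpr ha0)
  have hcaA : c / a₀ ∈ A := mem_of_valuation_eq_one A hca
  -- the new centre and the new sheet constant
  have hcθ0 : cθ ≠ 0 := by
    rintro rfl
    rw [map_zero] at hcθ
    exact zero_ne_one hcθ
  have hcθA : cθ ∈ A := mem_of_valuation_eq_one A hcθ
  have hinvA : cθ⁻¹ ∈ A := mem_of_valuation_eq_one A (by rw [map_inv₀, hcθ, inv_one])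
  have hang : angRes A (s a₀ / a₀ * c) a₀ = t * angRes A c a₀ := by
    unfold angRes
    rw [mul_div_assoc, resOf_mul A hwA hcaA]
    rfl
  refine ⟨s a₀ / a₀ * c, ⟨cθ⁻¹, hinvA⟩ * u, ?_, ?_, ?_, ?_⟩
  · rw [map_mul, hval, one_mul, hc]
  · -- the point under `placeMap a Q`
    rw [hang, restrict_eq_placeAt_iff]
    have h1 : IsValueAt Q (algebraMap (RatFunc k) L RatFunc.X) (angRes A c a₀) :=
      (restrict_eq_placeAt_iff Q _).mp hQ
    have h2 := isValueAt_placeMap (a := a) h1
    rw [haX] at h2
    have h3 := h2.smul t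
    rwa [smul_smul, mul_inv_cancel₀ ht0, one_smul] at h3
  · -- the value of `Ũ` at `placeMap a Q`
    have h2 := isValueAt_placeMap (a := a) hu'
    rw [haU] at h2
    have hr : resOf A cθ ≠ 0 := by
      rw [resOf_of_mem A hcθA]
      intro h0
      have h1 : (⟨cθ, hcθA⟩ : A) ∈ IsLocalRing.maximalIdeal A := (residue_eq_zero_iff _).mp h0
      exact (IsLocalRing.mem_maximalIdeal _).mp h1 ((A.valuation_eq_one_iff ⟨cθ, hcθA⟩).mpr hcθ)
    have h3 := h2.smul (resOf A cθ)⁻¹
    rw [smul_smul, inv_mul_cancel₀ hr, one_smul] at h3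
    have e : (resOf A cθ)⁻¹ * residue A u = residue A (⟨cθ⁻¹, hinvA⟩ * u) := by
      rw [map_mul]
      congr 1
      have h5 : resOf A cθ⁻¹ * resOf A cθ = 1 := by
        rw [← resOf_mul A hinvA hcθA, inv_mul_cancel₀ hcθ0, resOf_one]
      rw [← resOf_of_mem A hinvA]
      exact (eq_inv_of_mul_eq_one_left h5).symm
    rwa [e] at h3
  · rw [hang]
    refine smul_mem_coverTubeK_of_smul_eq A g'' g' hcomm hg''
      (fun P₁ hP₁ => smul_mem_classDisc C g' hg' hu hT ha0 hP₁) hcθ hθ ?_ hP'
    have e : cθ * ((⟨cθ⁻¹, hinvA⟩ * u : A) : K) - (u : K) = 0 := by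
      show cθ * (cθ⁻¹ * (u : K)) - (u : K) = 0
      rw [← mul_assoc, mul_inv_cancel₀ hcθ0, one_mul, sub_self]
    rw [e, map_zero]
    exact zero_lt_one

end Tube

end Fermat.Agent.BR3.EquivTubesVert
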