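import Mathlib
import Fermat.Agent.BR3.VertEquivMod
import Fermat.Agent.BR3.SRef.Modular

/-!
# Program C (S36), node (I9-ze): the inertia action on `z e`, against the names of `S'ref`

`Dt : ModularData M q B hB hqM`, gauges `a₀`, `hadm`; `ringE Dt a₀ hadm e`, `resE Dt a₀ hadm e` the
valuation ring and the residue map of the exceptional component `E_e` of `S'ref`
(`BR3/SRef/Modular`; for `Dt = DtM`, `a₀ = gaugeA` this is `SDD.Modular.ringEA`).
`S` a semistable setup of `Fb (M q q)` over `B`, `v` a component with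

* `hcomap : (S.O v).comap α₂ = ringE Dt a₀ hadm e`, `huniq` (the only one),
* `ψ : k(X) →+* Ft v` with `S.res v (α₂ y) = ψ (resE y)`,

and a generator `U₀` fixed by the inertia group (`U M q`, or `Ug M q g` for `g` defined over the
unramified constants) with `U₀ / α₂ (a₀ e) ∈ S.O v`.

* `galAut_smul_mem_ringE_iff`, `resE_galAut_smul` : part (i) for `ringE`/`resE`;
* **`exists_mapsComp_ringE`** : for `σ ∈ I_B` with `σ (a₀ e) = ζ (a₀ e)`: `MapsComp S (galAut σ) v v a`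
  with `a (ψ ȳ) = ψ (ȳ(ξ X))`, `a (ψ (β X)) = ξ • ψ (β X)`, `a Ũ = ξ • Ũ`, `ξ = (residue of ζ)⁻¹`;
* **`exists_mapsComp_kill_ringE`** : for `a₀ e ^ (q + 1) = q`: the clause of `hvert`
  (`FullPlugSDD.hkindProp_of_input`, `e₂ = q + 1`) for `v`, every prime `q`.
-/

set_option autoImplicit false
set_option linter.unusedSectionVars false
set_option linter.unusedVariables false
set_option linter.style.haveILetI false
set_option synthInstance.maxHeartbeats 400000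

noncomputable section

namespace Fermat.Agent.BR3.VertEquivSDD

open Polynomial ModularCurve AlgebraicCurve IsLocalRing
open Fermat.Agent.X0 Fermat.Agent.Val Fermat.Agent.Red Fermat.Agent.BR.Kron Fermat.Agent.Jac
open Fermat.Agent.BR.Circle Fermat.Agent.BR.S0 Fermat.Agent.BR.S0.RedModular
open Fermat.Agent.BR.S0.PointDict Fermat.Agent.BR.SS Fermat.Agent.BR2.Filt Fermat.Agent.BR.Final
open Fermat.Agent.BR.InertiaRed Fermat.Agent.BR.Refine Fermat.Agent.BR2.SetupOfData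
open Fermat.Agent.BR3.FibreProd Fermat.Agent.BR3.InvFiniteTheta Fermat.Agent.BR3.CircleEquiv
open Fermat.Agent.BR3.VertEquiv Fermat.Agent.BR3.VertEquivKill Fermat.Agent.BR3.FiltPerm
open Fermat.Agent.BR3.FiltMaps Fermat.Agent.BR.AnnulusRed Fermat.Agent.BR3.VertEquivMod
open Fermat.Agent.BR3.SRef Fermat.Agent.BR3.SRef.Modular

variable {M q : ℕ} [NeZero M] [hq : Fact q.Prime]

/-- shortcut instance (the search is slow) -/
local instance algResFtM'' (B : ValuationSubring Kb) :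
    Algebra (ResidueField B) (modularFunctionFieldFullC (ResidueField B) M) := inferInstance

variable {B : ValuationSubring Kb} {hB : B.LiesOverPrime q} {hqM : ¬ q ∣ M}
  [IsAlgClosed (ResidueField B)] (Dt : ModularData M q B hB hqM)
  (a₀ : Crossing (chartDataModular B hB hqM) → Kb) (hadm : ∀ e, (inputs Dt).adm e (a₀ e))
  (e : Crossing (chartDataModular B hB hqM)) {σ : GQ}

local notation "kB" => ResidueField B

/-- Inertia fixes the coordinate of the K-level contract of the tube of `e`. -/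
theorem galAut_smul_core_u (hσ : σ ∈ B.inertiaSubgroupIn ℚ) :
    galAut (M * q) σ • (core Dt e).u = (core Dt e).u :=
  chainProvider_u_smul Dt hσ e

/-- The tube of the crossing `e` is stable under inertia. -/
theorem galAut_smul_mem_tube_setup_iff (hσ : σ ∈ B.inertiaSubgroupIn ℚ)
    (P : Place Kb (Fb (M * q))) :
    galAut (M * q) σ • P ∈ tube (setup Dt) e ↔ P ∈ tube (setup Dt) e := by
  unfold Fermat.Agent.BR.Refine.tube
  rw [Set.mem_ofPred_eq, Set.mem_ofPred_eq, setup_r_smul Dt hσ P]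

/-- **Part (i) for `ringE`**. -/
theorem galAut_smul_mem_ringE_iff (hσ : σ ∈ B.inertiaSubgroupIn ℚ) (y : Fb (M * q)) :
    galAut (M * q) σ • y ∈ ringE Dt a₀ hadm e ↔ y ∈ ringE Dt a₀ hadm e :=
  CircleEquiv.smul_mem_circleRing_iff (galAut (M * q) σ) (isInertial_galAut (M * q) B hσ)
    (galAut_smul_core_u Dt e hσ) (galAut_smul_mem_tube_setup_iff Dt e hσ)
    (a₀ e) (hadm e).1 (hadm e).2 y

omit [IsAlgClosed (ResidueField B)] in
theorem rotAut_smul_congr [IsAlgClosed (ResidueField B)] {z z' : kB} (h : z = z') (hz : z ≠ 0)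
    (hz' : z' ≠ 0) (x : RatFunc kB) : rotAut z hz • x = rotAut z' hz' • x := by
  subst h; rfl

/-- **Part (i) for `resE`**: `σ` acts on the residue field of `E_e` by `X ↦ (residue of ζ)⁻¹ X`,
`σ (a₀ e) = ζ (a₀ e)`. -/
theorem resE_galAut_smul (hσ : σ ∈ B.inertiaSubgroupIn ℚ) {ζ : Kb}
    (hσa : σ (a₀ e) = ζ * a₀ e) (hζ0 : resOf B ζ ≠ 0) (y : ringE Dt a₀ hadm e)
    (h : galAut (M * q) σ • (y : Fb (M * q)) ∈ ringE Dt a₀ hadm e) :
    resE Dt a₀ hadm e ⟨galAut (M * q) σ • (y : Fb (M * q)), h⟩ =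
      rotAut (resOf B ζ)⁻¹ (inv_ne_zero hζ0) • resE Dt a₀ hadm e y := by
  have ha₀ : a₀ e ≠ 0 := gauge_ne_zero (C := core Dt e) (hadm e).1
  have h1 := circleRes_smul' (galAut (M * q) σ) (isInertial_galAut (M * q) B hσ)
    (galAut_smul_core_u Dt e hσ) (galAut_smul_mem_tube_setup_iff Dt e hσ)
    (a₀ e) (hadm e).1 (hadm e).2 ha₀ y h
  exact h1.trans (rotAut_smul_congr (by rw [theta_galAut (M * q) B ha₀ hσa]) _ _ _)

variable {ι : Type*} {Ft : ι → Type*} [∀ v, Field (Ft v)] [∀ v, Algebra (ResidueField B) (Ft v)]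
  {ν : Type*}
  (S : SemistableSetup (F := Fb (M * q * q)) B (residue B) ι Ft ν) (v : ι)
  (hcomap : (S.O v).comap (alpha2 M q : Fb (M * q) →+* Fb (M * q * q)) = ringE Dt a₀ hadm e)
  (huniq : ∀ Z' : ValuationSubring (Fb (M * q * q)),
    Z'.comap (alpha2 M q : Fb (M * q) →+* Fb (M * q * q)) = ringE Dt a₀ hadm e → Z' = S.O v)
  (ψ : RatFunc (ResidueField B) →+* Ft v)
  (hψ : ∀ (y : ringE Dt a₀ hadm e) (h : alpha2 M q (y : Fb (M * q)) ∈ S.O v),
    S.res v ⟨alpha2 M q (y : Fb (M * q)), h⟩ = ψ (resE Dt a₀ hadm e y))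

set_option maxHeartbeats 1600000 in
include hcomap huniq hψ in
/-- **The inertia element `σ` with `σ (a₀ e) = ζ (a₀ e)` on the vertical component over `E_e`.** -/
theorem exists_mapsComp_ringE (hσ : σ ∈ B.inertiaSubgroupIn ℚ) {ζ : Kb}
    (hσa : σ (a₀ e) = ζ * a₀ e) (hζ0 : resOf B ζ ≠ 0) :
    ∃ a : Ft v ≃ₐ[kB] Ft v, MapsComp S (galAut (M * q * q) σ) v v a ∧
      (∀ yb : RatFunc kB, a (ψ yb) = ψ (rotAut (resOf B ζ)⁻¹ (inv_ne_zero hζ0) • yb)) ∧
      (∀ β : kB, a (ψ (RatFunc.C β * RatFunc.X)) =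
        (resOf B ζ)⁻¹ • ψ (RatFunc.C β * RatFunc.X)) ∧
      ∀ U₀ : Fb (M * q * q), galAut (M * q * q) σ • U₀ = U₀ →
        ∀ hθ : U₀ / alpha2 M q (algebraMap Kb (Fb (M * q)) (a₀ e)) ∈ S.O v,
          a (S.res v ⟨U₀ / alpha2 M q (algebraMap Kb (Fb (M * q)) (a₀ e)), hθ⟩) =
            (resOf B ζ)⁻¹ • S.res v ⟨U₀ / alpha2 M q (algebraMap Kb (Fb (M * q)) (a₀ e)), hθ⟩ := by
  have ha₀ : a₀ e ≠ 0 := gauge_ne_zero (C := core Dt e) (hadm e).1
  have hcomap' : (S.O v).comap (alpha2 M q : Fb (M * q) →+* Fb (M * q * q)) =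
      circleRing (core Dt e) (a₀ e) (hadm e).1 (hadm e).2 := hcomap
  have huniq' : ∀ Z' : ValuationSubring (Fb (M * q * q)),
      Z'.comap (alpha2 M q : Fb (M * q) →+* Fb (M * q * q)) =
        circleRing (core Dt e) (a₀ e) (hadm e).1 (hadm e).2 → Z' = S.O v := huniq
  have hψ' : ∀ (y : circleRing (core Dt e) (a₀ e) (hadm e).1 (hadm e).2)
      (h : alpha2 M q (y : Fb (M * q)) ∈ S.O v),
      S.res v ⟨alpha2 M q (y : Fb (M * q)), h⟩ =
        ψ (circleRes (core Dt e) (a₀ e) (hadm e).1 (hadm e).2 y) := hψ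
  obtain ⟨a, ha, hrot, hab, haU⟩ :=
    exists_mapsComp_vert (core Dt e) (a₀ e) (hadm e).1 (hadm e).2 S v
      (alpha2 M q) hcomap' huniq' ψ hψ' (galAut (M * q) σ) (galAut (M * q * q) σ)
      (alpha2_galAut σ) (isInertial_galAut (M * q * q) B hσ)
      (galAut_smul_core_u Dt e hσ) (galAut_smul_mem_tube_setup_iff Dt e hσ)
  have hθeq := theta_galAut (M * q * q) B ha₀ hσa
  rw [hθeq] at hab haU
  exact ⟨a, ha, fun yb => (hrot yb).trans
    (congrArg ψ (rotAut_smul_congr (by rw [hθeq]) _ _ yb)), hab, haU⟩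

include hcomap huniq hψ in
/-- **The clause of `hvert`** (`FullPlugSDD.hkindProp_of_input`, `e₂ = q + 1`) for the vertical
component over `E_e`, every prime `q`. -/
theorem exists_mapsComp_kill_ringE (ha₀ : a₀ e ^ (q + 1) = (q : Kb))
    (U₀ : Fb (M * q * q))
    (hU₀ : ∀ s ∈ B.inertiaSubgroupIn ℚ, galAut (M * q * q) s • U₀ = U₀)
    {β ρ : kB} (hρ : ρ ≠ 0)
    (hθ : U₀ / alpha2 M q (algebraMap Kb (Fb (M * q)) (a₀ e)) ∈ S.O v)
    (hb : Transcendental kB (ψ (RatFunc.C β * RatFunc.X)))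
    (heq : ψ (RatFunc.C β * RatFunc.X) *
        S.res v ⟨U₀ / alpha2 M q (algebraMap Kb (Fb (M * q)) (a₀ e)), hθ⟩ ^ q +
      ψ (RatFunc.C β * RatFunc.X) ^ 2 *
        S.res v ⟨U₀ / alpha2 M q (algebraMap Kb (Fb (M * q)) (a₀ e)), hθ⟩ ^ (q - 1) =
        algebraMap kB (Ft v) ρ)
    (hgen : IntermediateField.adjoin kB
      {ψ (RatFunc.C β * RatFunc.X),
        S.res v ⟨U₀ / alpha2 M q (algebraMap Kb (Fb (M * q)) (a₀ e)), hθ⟩} = ⊤) :
    ∃ s ∈ B.inertiaSubgroupIn ℚ, ∃ a : Ft v ≃ₐ[kB] Ft v,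
      MapsComp S (galAut (M * q * q) s) v v a ∧
      ∀ x : Pic0 kB (Ft v), SemilinearAut.ofAlgAut a • x = x → (q + 1) • x = 0 := by
  haveI : CharP kB q := Fermat.Agent.Val.charP_residueField_of_liesOverPrime B hB
  have hqn : ¬ q ∣ q + 1 := by
    intro h
    have h1 : q ∣ 1 := (Nat.dvd_add_right (dvd_refl q)).mp h
    exact hq.out.one_lt.ne' (Nat.dvd_one.mp h1)
  obtain ⟨σ, hσ, ζ, -, hσa, -, -, hprim⟩ :=
    Fermat.Agent.BR3.TameSurj.exists_inertia_smul_root_primitive B hq.out hB hqn ha₀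
  have hζ0 : resOf B ζ ≠ 0 := hprim.ne_zero (Nat.succ_ne_zero q)
  obtain ⟨a, ha, -, hab, haU⟩ :=
    exists_mapsComp_ringE Dt a₀ hadm e S v hcomap huniq ψ hψ hσ hσa hζ0
  refine ⟨σ, hσ, a, ha, fun x hx => ?_⟩
  by_cases hq2 : q = 2
  · subst hq2
    have heq' : ψ (RatFunc.C β * RatFunc.X) *
        S.res v ⟨U₀ / alpha2 M 2 (algebraMap Kb (Fb (M * 2)) (a₀ e)), hθ⟩ ^ 2 +
      ψ (RatFunc.C β * RatFunc.X) ^ 2 *
        S.res v ⟨U₀ / alpha2 M 2 (algebraMap Kb (Fb (M * 2)) (a₀ e)), hθ⟩ =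
        algebraMap kB (Ft v) ρ := by
      simpa using heq
    exact Fermat.Agent.BR3.VertCurve.vert_smul_eq_zero_of_fixed_two hρ hb heq' hgen hprim.inv
      (hab β) (haU U₀ (hU₀ σ hσ) hθ) x hx
  · exact Fermat.Agent.BR3.VertCurve.vert_smul_eq_zero_of_fixed q hq2 hρ hb heq hgen hprim.inv
      (hab β) (haU U₀ (hU₀ σ hσ) hθ) x hx

end Fermat.Agent.BR3.VertEquivSDD
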