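import Mathlib
import Fermat.Agent.BR3.VertEquivSDD
import Fermat.Agent.BR3.EquivInert
import Fermat.Agent.BR3.SDD.ModularGauge

/-!
# Program C (S36), node (I9-ze-rich): the rich inertia elements act trivially on `z e`

Clause `∀ e, ActsTrivially (CZ e).O (galAut (M q q) s)` of `SDD.Modular.hparts_of_rest`.

* `actsTrivially_of_mapsComp` : `FiltPerm.MapsComp S g v v a` with `a = id` pointwise gives
  `EquivInert.ActsTrivially (S.O v) g` (converse of `EquivInert.mapsComp_refl_of_actsTrivially`);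
* `actsTrivially_ringE` : under the hypotheses of `VertEquivSDD.exists_mapsComp_kill_ringE`
  (`hcomap`, `huniq`, `ψ`, `hψ`, `hθ`, `hgen`), an inertia element `s` fixing the gauge `a₀ e` and the
  generator `U₀` acts trivially on the vertical component `v` over `E_e`;
* `actsTrivially_ringEA` : the same for `Dt = DtM`, `a₀ = gaugeA` and `s` fixing `unifSDD q`.
-/

set_option autoImplicit false
set_option linter.unusedSectionVars false
set_option linter.unusedVariables false
set_option linter.style.haveILetI false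
set_option synthInstance.maxHeartbeats 400000

noncomputable section

namespace Fermat.Agent.BR3.EquivVert

open Polynomial ModularCurve AlgebraicCurve IsLocalRing
open Fermat.Agent.X0 Fermat.Agent.Val Fermat.Agent.Red Fermat.Agent.Jac
open Fermat.Agent.BR.Circle Fermat.Agent.BR.S0 Fermat.Agent.BR.S0.RedModular
open Fermat.Agent.BR.S0.PointDict Fermat.Agent.BR.SS Fermat.Agent.BR.Final
open Fermat.Agent.BR.InertiaRed Fermat.Agent.BR.Refine Fermat.Agent.BR2.SetupOfData
open Fermat.Agent.BR3.FibreProd Fermat.Agent.BR3.InvFiniteTheta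
open Fermat.Agent.BR3.FiltPerm Fermat.Agent.BR3.EquivInert Fermat.Agent.BR3.EquivUnique
open Fermat.Agent.BR3.SRef Fermat.Agent.BR3.SRef.Modular Fermat.Agent.BR3.VertEquivSDD
open Fermat.Agent.BR3.ThickSDDPlug

section Abstract

variable {K F k : Type*} [Field K] [Field F] [Algebra K F] [Field k]
  {A : ValuationSubring K} {π : A →+* k} {ι : Type*} {Ft : ι → Type*}
  [∀ v, Field (Ft v)] [∀ v, Algebra k (Ft v)] {ν : Type*}
  (S : SemistableSetup (F := F) A π ι Ft ν)

/-- A component mapped to itself with the identity on its residue field is acted on trivially. -/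
theorem actsTrivially_of_mapsComp {g : SemilinearAut K F} {v : ι} {a : Ft v ≃ₐ[k] Ft v}
    (h : MapsComp S g v v a) (ha : ∀ t, a t = t) : ActsTrivially (S.O v) g :=
  ActsTrivially.of_res (S.res v)
    (fun x hx => by
      have h1 : ¬ IsUnit x := (S.res_eq_zero_iff v x).mp hx
      have h2 : x ∈ IsLocalRing.maximalIdeal (S.O v) := (IsLocalRing.mem_maximalIdeal _).mpr h1
      have h3 : (x : F) ∈ (S.O v).nonunits :=
        (ValuationSubring.coe_mem_nonunits_iff (A := S.O v) (a := x)).mpr h2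
      exact (S.O v).mem_nonunits_iff.mp h3)
    (fun y => h.smul_mem_iff)
    (fun y hy => by rw [h.res_smul y hy, ha])

end Abstract

variable {M q : ℕ} [NeZero M] [hq : Fact q.Prime]

/-- shortcut instance (the search is slow) -/
local instance algResFtMV (B : ValuationSubring Kb) :
    Algebra (ResidueField B) (modularFunctionFieldFullC (ResidueField B) M) := inferInstance

variable {B : ValuationSubring Kb} {hB : B.LiesOverPrime q} {hqM : ¬ q ∣ M}
  [IsAlgClosed (ResidueField B)] (Dt : ModularData M q B hB hqM)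
  (a₀ : Crossing (chartDataModular B hB hqM) → Kb) (hadm : ∀ e, (inputs Dt).adm e (a₀ e))
  (e : Crossing (chartDataModular B hB hqM)) {σ : GQ}

local notation "kB" => ResidueField B

variable {ι : Type*} {Ft : ι → Type*} [∀ v, Field (Ft v)] [∀ v, Algebra (ResidueField B) (Ft v)]
  {ν : Type*}
  (S : SemistableSetup (F := Fb (M * q * q)) B (residue B) ι Ft ν) (v : ι)
  (hcomap : (S.O v).comap (alpha2 M q : Fb (M * q) →+* Fb (M * q * q)) = ringE Dt a₀ hadm e)
  (huniq : ∀ Z' : ValuationSubring (Fb (M * q * q)),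
    Z'.comap (alpha2 M q : Fb (M * q) →+* Fb (M * q * q)) = ringE Dt a₀ hadm e → Z' = S.O v)
  (ψ : RatFunc (ResidueField B) →+* Ft v)
  (hψ : ∀ (y : ringE Dt a₀ hadm e) (h : alpha2 M q (y : Fb (M * q)) ∈ S.O v),
    S.res v ⟨alpha2 M q (y : Fb (M * q)), h⟩ = ψ (resE Dt a₀ hadm e y))

include hcomap huniq hψ in
/-- **An inertia element fixing the gauge `a₀ e` and the generator `U₀` acts trivially on the
vertical component over `E_e`.** -/
theorem actsTrivially_ringE (hσ : σ ∈ B.inertiaSubgroupIn ℚ) (hσa : σ (a₀ e) = a₀ e)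
    (U₀ : Fb (M * q * q)) (hU₀ : galAut (M * q * q) σ • U₀ = U₀) {β : kB}
    (hθ : U₀ / alpha2 M q (algebraMap Kb (Fb (M * q)) (a₀ e)) ∈ S.O v)
    (hgen : IntermediateField.adjoin kB
      {ψ (RatFunc.C β * RatFunc.X),
        S.res v ⟨U₀ / alpha2 M q (algebraMap Kb (Fb (M * q)) (a₀ e)), hθ⟩} = ⊤) :
    ActsTrivially (S.O v) (galAut (M * q * q) σ) := by
  have hζ0 : resOf B (1 : Kb) ≠ 0 := by rw [resOf_one]; exact one_ne_zero
  have hσa' : σ (a₀ e) = 1 * a₀ e := by rw [one_mul]; exact hσa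
  obtain ⟨a, ha, -, hab, haU⟩ :=
    exists_mapsComp_ringE Dt a₀ hadm e S v hcomap huniq ψ hψ hσ hσa' hζ0
  have h1 : a = AlgEquiv.refl := by
    refine algEquiv_eq_of_adjoin_eq_top a AlgEquiv.refl _ hgen ?_
    intro t ht
    rcases ht with rfl | ht
    · rw [hab β, resOf_one, inv_one, one_smul]; rfl
    · rw [Set.mem_singleton_iff] at ht
      subst ht
      rw [haU U₀ hU₀ hθ, resOf_one, inv_one, one_smul]; rfl
  refine actsTrivially_of_mapsComp S ha fun t => ?_
  rw [h1]; rfl

section GaugeA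

open Fermat.Agent.BR3.SDD.Modular

variable (B) (hB) (hqM) (h2 : nuTwo M = 0) (h3 : nuThree M = 0)
  (e' : Crossing (chartDataModular B hB hqM))
  {ι' : Type*} {Ft' : ι' → Type*} [∀ v, Field (Ft' v)] [∀ v, Algebra (ResidueField B) (Ft' v)]
  {ν' : Type*}
  (S' : SemistableSetup (F := Fb (M * q * q)) B (residue B) ι' Ft' ν') (v' : ι')
  (hcomapA : (S'.O v').comap (alpha2 M q : Fb (M * q) →+* Fb (M * q * q)) =
    ringEA B hB hqM h2 h3 e')
  (huniqA : ∀ Z' : ValuationSubring (Fb (M * q * q)),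
    Z'.comap (alpha2 M q : Fb (M * q) →+* Fb (M * q * q)) = ringEA B hB hqM h2 h3 e' →
      Z' = S'.O v')
  (ψ' : RatFunc (ResidueField B) →+* Ft' v')
  (hψA : ∀ (y : ringEA B hB hqM h2 h3 e') (h : alpha2 M q (y : Fb (M * q)) ∈ S'.O v'),
    S'.res v' ⟨alpha2 M q (y : Fb (M * q)), h⟩ =
      ψ' (resE (DtM B hB hqM) (gaugeA q B hB hqM) (admA B hB hqM h2 h3) e' y))

/-- An automorphism fixing the uniformiser `unifSDD q` fixes the gauge `gaugeA`. -/
theorem apply_gaugeA_of_fixed {s : GQ} (hs1 : s (unifSDD q) = unifSDD q) :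
    s (gaugeA q B hB hqM e') = gaugeA q B hB hqM e' := by
  show s (gaugeSDD q) = gaugeSDD q
  unfold gaugeSDD
  rw [map_pow, hs1]

include hcomapA huniqA hψA in
/-- **The rich inertia elements (fixing `unifSDD q`) act trivially on the vertical component over
`E_e` of `S'ref_a`** (`Dt = DtM`, `a₀ = gaugeA`). -/
theorem actsTrivially_ringEA {s : GQ} (hs : s ∈ B.inertiaSubgroupIn ℚ)
    (hs1 : s (unifSDD q) = unifSDD q)
    (U₀ : Fb (M * q * q)) (hU₀ : galAut (M * q * q) s • U₀ = U₀) {β : kB}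
    (hθ : U₀ / alpha2 M q (algebraMap Kb (Fb (M * q)) (gaugeA q B hB hqM e')) ∈ S'.O v')
    (hgen : IntermediateField.adjoin kB
      {ψ' (RatFunc.C β * RatFunc.X),
        S'.res v' ⟨U₀ / alpha2 M q (algebraMap Kb (Fb (M * q)) (gaugeA q B hB hqM e')), hθ⟩} = ⊤) :
    ActsTrivially (S'.O v') (galAut (M * q * q) s) :=
  actsTrivially_ringE (DtM B hB hqM) (gaugeA q B hB hqM) (admA B hB hqM h2 h3) e' S' v'
    hcomapA huniqA ψ' hψA hs (apply_gaugeA_of_fixed B hB hqM e' hs1) U₀ hU₀ hθ hgen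

end GaugeA

end Fermat.Agent.BR3.EquivVert
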