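import Fermat.Agent.BR3.EquivTubesVertModular
import Fermat.Agent.BR3.SDD.ModularZe
import Fermat.Agent.BR3.EquivVert
import Fermat.Agent.BR3.VertEquivMod

/-!
# Program C (S36), node (I9-TUBES), vertical components: the FAMILY plug at the final frame

The final frame of the vertical components `z e` of the stable model of `X₀(M q²)`:
`zePackM B hB hqM h2 h3 e` (`BR3/SDD/ModularZe.lean`), residue field
`FZM e = AdjoinRoot (vertBar q β_e ρ_e)`, gauge `gaugeA e = gaugeSDD q`, generator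
`θ_e = thetaVertTw M q g_e (gaugeA e) = U_{g_e} / α₂ a₀`.

* `zeTubeM B hB hqM h2 h3 e Q` : THE raw tube of the point `Q` of `z e`
  (`= VertSheet.ptTube (core (DtM ..) e) (gaugeA e) θ_e Q`, `zeTubeM_eq` by `rfl`);
* `galAut_smul_gZe` : the generator `g_e` is fixed by the inertia group;
* `smul_mem_zeTubeM_rich` : the raw clause `hsmZe` of `EquivTubeFam.hT_stable_of_raw` for the rich
  inertia elements (`s (unifSDD q) = unifSDD q`);
* `smul_mem_zeTubeM_tame` : the raw clause `hsmZe` of `EquivTubeFam.hT_of_raw` /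
  `ModularTameRaw.tameProp_of_rawTubes` for ANY inertia element `σ` acting on the uniformiser
  through `ζ₀` and `a : FZM e ≃ₐ FZM e` with the two clauses `hab`, `haU` of
  `VertSigmaBar.exists_aZe_bar` (`ξ = (resOf B (ζ₀ ^ (q - 1)))⁻¹`);
* `hsmZe_rich`, `hsmZe_tame` : the same in the literal binder shape (`Q ≠ zW e → …`).
-/

set_option autoImplicit false
set_option linter.style.haveILetI false
set_option linter.unusedSectionVars false
set_option linter.unusedVariables false
set_option synthInstance.maxHeartbeats 400000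

noncomputable section

namespace Fermat.Agent.BR3.EquivTubesVertMod

open ModularCurve AlgebraicCurve IsLocalRing Polynomial
open Fermat.Agent.Red Fermat.Agent.Val Fermat.Agent.X0 Fermat.Agent.Hecke Fermat.Agent.Jac
open Fermat.Agent.BR.SS Fermat.Agent.BR.Refine Fermat.Agent.BR.Circle Fermat.Agent.BR.S0
open Fermat.Agent.BR.S0.PointDict Fermat.Agent.BR.S0.RedModular Fermat.Agent.BR.Final
open Fermat.Agent.BR.ValTwo Fermat.Agent.BR.InertiaRed
open Fermat.Agent.BR2.SetupOfData Fermat.Agent.BR3.SRef Fermat.Agent.BR3.SRef.Modular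
open Fermat.Agent.BR3.FibreProd Fermat.Agent.BR3.VertSheet Fermat.Agent.BR3.VertResidue
open Fermat.Agent.BR3.PlaceIso Fermat.Agent.BR3.SDD.Modular Fermat.Agent.BR3.ThickSDDPlug
open Fermat.Agent.BR3.InvFiniteTheta Fermat.Agent.BR3.HeckePoly

local notation "Kb" => AlgebraicClosure ℚ

variable {M q : ℕ} [NeZero M] [hq : Fact q.Prime]
variable (B : ValuationSubring (AlgebraicClosure ℚ))

local notation "kB" => IsLocalRing.ResidueField B

/-- (shortcut instance: the search through the generic instances costs seconds per declaration) -/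
local instance (priority := 100000) instAlgebraFtMShortcutVMod :
    Algebra (IsLocalRing.ResidueField B)
      (modularFunctionFieldFullC (IsLocalRing.ResidueField B) M) :=
  inferInstance

variable (hB : B.LiesOverPrime q) (hqM : ¬ q ∣ M)
  [IsAlgClosed (ResidueField B)] [CharP (ResidueField B) q]
  (h2 : nuTwo M = 0) (h3 : nuThree M = 0)

/-- **The raw tube of the point `Q` of the vertical component `z e`** of the stable model of
`X₀(M q²)`, final frame: the sheet `θ_e ≡ Ũ(Q)` over the residue disc of class `T(Q)` of the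
critical circle of the tube of `e`. -/
def zeTubeM (e : Crossing (chartDataModular B hB hqM))
    (Q : Place kB (FZM B hB hqM h2 h3 e)) : Set (Place Kb (Fb (M * q * q))) :=
  letI := algebraAlong (alpha2 M q)
  haveI := isScalarTower_along (alpha2 M q)
  haveI : Module.Finite (Fb (M * q)) (Fb (M * q * q)) :=
    Fermat.Agent.Hecke.finiteAlong_heckeAlphaBar (M * q) q
  ptTube (core (DtM B hB hqM) e) (gaugeA q B hB hqM e)
    (thetaVertTw M q (zePackM B hB hqM h2 h3 e).g (gaugeA q B hB hqM e)) Q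

theorem zeTubeM_eq (e : Crossing (chartDataModular B hB hqM))
    (Q : Place kB (FZM B hB hqM h2 h3 e)) :
    letI := algebraAlong (alpha2 M q)
    haveI := isScalarTower_along (alpha2 M q)
    haveI : Module.Finite (Fb (M * q)) (Fb (M * q * q)) :=
      Fermat.Agent.Hecke.finiteAlong_heckeAlphaBar (M * q) q
    zeTubeM B hB hqM h2 h3 e Q =
      ptTube (core (DtM B hB hqM) e) (gaugeA q B hB hqM e)
        (thetaVertTw M q (zePackM B hB hqM h2 h3 e).g (gaugeA q B hB hqM e)) Q :=
  rfl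

/-- the gauge of the vertical components is not zero -/
theorem gaugeA_ne_zero (e : Crossing (chartDataModular B hB hqM)) :
    gaugeA q B hB hqM e ≠ 0 := by
  show gaugeSDD q ≠ 0
  intro h
  have h1 := gaugeSDD_pow (q := q) hq.out.one_lt
  rw [h, zero_pow (Nat.succ_ne_zero q)] at h1
  exact (Nat.cast_ne_zero.mpr hq.out.ne_zero) h1.symm

/-- **The generator `g_e` of the vertical component is fixed by the inertia group** (it is defined
over the unramified constants). -/
theorem galAut_smul_gZe {σ : GQ} (hσ : σ ∈ B.inertiaSubgroupIn ℚ)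
    (e : Crossing (chartDataModular B hB hqM)) :
    galAut M σ • (zePackM B hB hqM h2 h3 e).g = (zePackM B hB hqM h2 h3 e).g :=
  Fermat.Agent.BR3.VertEquivUg.galAut_smul_of_mem_CMod B hB hσ (zePackM B hB hqM h2 h3 e).P.hg

/-- **The raw tubes of `z e` are stable under the rich inertia elements** (`s` fixes the
uniformiser `unifSDD q`): the raw clause `hsmZe` of `EquivTubeFam.hT_stable_of_raw`, without the
restrictions on `Q`. -/
theorem smul_mem_zeTubeM_rich {s : GQ} (hs : s ∈ B.inertiaSubgroupIn ℚ)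
    (hs1 : s (unifSDD q) = unifSDD q) (e : Crossing (chartDataModular B hB hqM))
    (Q : Place kB (FZM B hB hqM h2 h3 e)) :
    ∀ Pl ∈ zeTubeM B hB hqM h2 h3 e Q, galAut (M * q * q) s • Pl ∈ zeTubeM B hB hqM h2 h3 e Q :=
  fun Pl hPl =>
    Fermat.Agent.BR3.EquivTubesVertModular.smul_mem_TZ_rich (DtM B hB hqM) hs e
      (gaugeA_ne_zero B hB hqM e)
      (Fermat.Agent.BR3.EquivVert.apply_gaugeA_of_fixed B hB hqM e hs1)
      (galAut_smul_gZe B hB hqM h2 h3 hs e) hPl

/-- **The raw tubes of `z e` under ANY inertia element** `σ` acting on the uniformiser through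
`ζ₀`: the tube of `Q` goes into the tube of `placeMap a Q`, for `a` with the clauses `hab`, `haU` of
`VertSigmaBar.exists_aZe_bar`. -/
theorem smul_mem_zeTubeM_tame {σ : GQ} (hσ : σ ∈ B.inertiaSubgroupIn ℚ) {ζ₀ : Kb}
    (hσϖ : σ (unifSDD q ^ (q - 1)) = ζ₀ ^ (q - 1) * unifSDD q ^ (q - 1))
    (e : Crossing (chartDataModular B hB hqM))
    (a : FZM B hB hqM h2 h3 e ≃ₐ[kB] FZM B hB hqM h2 h3 e)
    (hab : a (AdjoinRoot.of
        (vertBar q (zePackM B hB hqM h2 h3 e).β (zePackM B hB hqM h2 h3 e).ρ)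
        (RatFunc.C (zePackM B hB hqM h2 h3 e).β * RatFunc.X)) =
      (resOf B (ζ₀ ^ (q - 1)))⁻¹ •
        AdjoinRoot.of (vertBar q (zePackM B hB hqM h2 h3 e).β (zePackM B hB hqM h2 h3 e).ρ)
          (RatFunc.C (zePackM B hB hqM h2 h3 e).β * RatFunc.X))
    (haU : a (AdjoinRoot.root
        (vertBar q (zePackM B hB hqM h2 h3 e).β (zePackM B hB hqM h2 h3 e).ρ)) =
      (resOf B (ζ₀ ^ (q - 1)))⁻¹ •
        AdjoinRoot.root (vertBar q (zePackM B hB hqM h2 h3 e).β (zePackM B hB hqM h2 h3 e).ρ))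
    (Q : Place kB (FZM B hB hqM h2 h3 e)) :
    ∀ Pl ∈ zeTubeM B hB hqM h2 h3 e Q,
      galAut (M * q * q) σ • Pl ∈ zeTubeM B hB hqM h2 h3 e (placeMap a Q) := by
  intro Pl hPl
  have hθ : theta B (SemilinearAut.baseAut (gal (M * q) σ)) (gaugeA q B hB hqM e) =
      resOf B (ζ₀ ^ (q - 1)) :=
    Fermat.Agent.BR3.VertEquivMod.theta_galAut (M * q) B (gaugeA_ne_zero B hB hqM e) hσϖ
  exact Fermat.Agent.BR3.EquivTubesVertModular.smul_mem_TZ_tame (DtM B hB hqM) hσ e
    (gaugeA_ne_zero B hB hqM e) (galAut_smul_gZe B hB hqM h2 h3 hσ e)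
    (zePackM B hB hqM h2 h3 e).hβ a (by rw [hθ]; exact hab) (by rw [hθ]; exact haU) hPl

/-! ### the literal binder shapes of the raw clauses `hsmZe` -/

section Shapes

variable {KP : Type}
  (zW zT : ∀ e : Crossing (chartDataModular B hB hqM),
    Place (IsLocalRing.ResidueField B) (FZM B hB hqM h2 h3 e))
  (zK : ∀ e : Crossing (chartDataModular B hB hqM), KP →
    Place (IsLocalRing.ResidueField B) (FZM B hB hqM h2 h3 e))

/-- `hsmZe` of `EquivTubeFam.hT_stable_of_raw` (rich `s`), for ANY special points. -/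
theorem hsmZe_rich {s : GQ} (hs : s ∈ B.inertiaSubgroupIn ℚ)
    (hs1 : s (unifSDD q) = unifSDD q) :
    ∀ (e : Crossing (chartDataModular B hB hqM)) (Q : Place kB (FZM B hB hqM h2 h3 e)),
      Q ≠ zW e → Q ≠ zT e → (∀ s', Q ≠ zK e s') →
      ∀ Pl ∈ zeTubeM B hB hqM h2 h3 e Q,
        galAut (M * q * q) s • Pl ∈ zeTubeM B hB hqM h2 h3 e Q :=
  fun e Q _ _ _ => smul_mem_zeTubeM_rich B hB hqM h2 h3 hs hs1 e Q

/-- `hsmZe` of `EquivTubeFam.hT_of_raw` / `ModularTameRaw.tameProp_of_rawTubes` (any inertia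
element, e.g. the tame generator), for ANY special points. -/
theorem hsmZe_tame {σ : GQ} (hσ : σ ∈ B.inertiaSubgroupIn ℚ) {ζ₀ : Kb}
    (hσϖ : σ (unifSDD q ^ (q - 1)) = ζ₀ ^ (q - 1) * unifSDD q ^ (q - 1))
    (aZe : ∀ e : Crossing (chartDataModular B hB hqM),
      FZM B hB hqM h2 h3 e ≃ₐ[kB] FZM B hB hqM h2 h3 e)
    (hab : ∀ e, aZe e (AdjoinRoot.of
        (vertBar q (zePackM B hB hqM h2 h3 e).β (zePackM B hB hqM h2 h3 e).ρ)
        (RatFunc.C (zePackM B hB hqM h2 h3 e).β * RatFunc.X)) =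
      (resOf B (ζ₀ ^ (q - 1)))⁻¹ •
        AdjoinRoot.of (vertBar q (zePackM B hB hqM h2 h3 e).β (zePackM B hB hqM h2 h3 e).ρ)
          (RatFunc.C (zePackM B hB hqM h2 h3 e).β * RatFunc.X))
    (haU : ∀ e, aZe e (AdjoinRoot.root
        (vertBar q (zePackM B hB hqM h2 h3 e).β (zePackM B hB hqM h2 h3 e).ρ)) =
      (resOf B (ζ₀ ^ (q - 1)))⁻¹ •
        AdjoinRoot.root (vertBar q (zePackM B hB hqM h2 h3 e).β (zePackM B hB hqM h2 h3 e).ρ)) :
    ∀ (e : Crossing (chartDataModular B hB hqM)) (Q : Place kB (FZM B hB hqM h2 h3 e)),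
      Q ≠ zW e → Q ≠ zT e → (∀ s', Q ≠ zK e s') →
      ∀ Pl ∈ zeTubeM B hB hqM h2 h3 e Q,
        galAut (M * q * q) σ • Pl ∈ zeTubeM B hB hqM h2 h3 e (placeMap (aZe e) Q) :=
  fun e Q _ _ _ => smul_mem_zeTubeM_tame B hB hqM h2 h3 hσ hσϖ e (aZe e) (hab e) (haU e) Q

end Shapes

end Fermat.Agent.BR3.EquivTubesVertMod
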