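import Fermat.Agent.BR3.EquivTubesVert
import Fermat.Agent.BR3.EquivTubesModular
import Fermat.Agent.BR3.VertEquivUg
import Fermat.Agent.BR3.VertSheet.ModularTw

/-!
# Program C (S36), node (I9-TUBES), vertical components, modular instance

`C : AnnulusCore B T'` the contract of the tube of a supersingular crossing of `X₀(M q)` (in either
frame: `SRef.Modular.core Dt e` or `(annulusLevels_modular_final B hB hqM hne e).core`), with the
two facts `hu : gal (M q) σ • C.u = C.u`, `hT : gal (M q) σ • P ∈ T' ↔ P ∈ T'`; `U₀` a generator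
fixed by `gal (M q²) σ` (`U M q`, or `Ug M q g`), `θ = U₀ / α₂ a₀`; `L = AdjoinRoot (vertBar q β ρ)`.

* `gal_smul_theta_gen` : `gal σ • (U₀ / α₂ a₀) = (a₀ / σ a₀) • (U₀ / α₂ a₀)`;
* `smul_mem_ptTube_rich` : for `σ` in the inertia group with `σ a₀ = a₀` the tubes
  `ptTube C a₀ θ Q` are stable (raw clause `hsmZe` of `EquivTubeFam.hT_stable_of_raw`);
* `smul_mem_ptTube_tame` : for ANY `σ` in the inertia group and `a : L ≃ₐ[k] L` with
  `a b̃ = ξ • b̃`, `a Ũ = ξ • Ũ`, `ξ = (theta B σ a₀)⁻¹` (the conclusion of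
  `VertSigmaPts.exists_mapsComp_pts_ringE` with `ξ = (resOf B ζ)⁻¹`), `gal σ` maps
  `ptTube C a₀ θ Q` into `ptTube C a₀ θ (placeMap a Q)` (raw clause `hsmZe` of
  `EquivTubeFam.hT_of_raw`);
* the instances `_core` (frame `core Dt e`) and `_final` (frame `annulusLevels_modular_final`).
-/

set_option autoImplicit false
set_option linter.style.haveILetI false
set_option linter.unusedSectionVars false
set_option linter.unusedVariables false
set_option synthInstance.maxHeartbeats 400000

noncomputable section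

/- S36 build-time patch: file-local shortcut instances. They only shorten instance search;
each is the instance that the search finds anyway (reducible, same terms after unfolding). -/
local instance (priority := 100000) Fermat.Agent.BR3.FastInst.instAlgFullC_EquivTubesVertModular
    {k : Type*} [Field k] (N : ℕ) :
    Algebra k ↥(ModularCurve.modularFunctionFieldFullC k N) := inferInstance
local instance (priority := 100000) Fermat.Agent.BR3.FastInst.instFieldFullC_EquivTubesVertModular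
    {k : Type*} [Field k] (N : ℕ) :
    Field ↥(ModularCurve.modularFunctionFieldFullC k N) := inferInstance
local instance (priority := 100000) Fermat.Agent.BR3.FastInst.instAlgLaurent_EquivTubesVertModular
    {k : Type*} [Field k] : Algebra k (LaurentSeries k) := inferInstance


namespace Fermat.Agent.BR3.EquivTubesVertModular

open ModularCurve AlgebraicCurve IsLocalRing Polynomial
open Fermat.Agent.Red Fermat.Agent.Val Fermat.Agent.X0 Fermat.Agent.Hecke
open Fermat.Agent.BR.SS Fermat.Agent.BR.Refine Fermat.Agent.BR.Circle Fermat.Agent.BR.S0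
open Fermat.Agent.BR.S0.PointDict Fermat.Agent.BR.S0.RedModular Fermat.Agent.BR.Final
open Fermat.Agent.BR.ValTwo Fermat.Agent.BR.InertiaRed Fermat.Agent.BR.P1
open Fermat.Agent.BR2.SetupOfData Fermat.Agent.BR3.SRef Fermat.Agent.BR3.SRef.Modular
open Fermat.Agent.BR3.EquivSRef Fermat.Agent.BR3.EquivSRefModular
open Fermat.Agent.BR3.FibreProd Fermat.Agent.BR3.EquivFixed Fermat.Agent.BR3.EquivTubes
open Fermat.Agent.BR3.EquivTubesModular Fermat.Agent.BR3.EquivTubesVert
open Fermat.Agent.BR3.InvFiniteTheta Fermat.Agent.BR3.SubDisc Fermat.Agent.BR3.VertSheet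
open Fermat.Agent.BR3.VertResidue Fermat.Agent.BR3.PlaceIso

local notation "Kb" => AlgebraicClosure ℚ

variable {M q : ℕ} [NeZero M] [hq : Fact q.Prime] {σ : Kb ≃ₐ[ℚ] Kb}

/-- The generator `U₀ / α₂ a₀` of the vertical sheets is multiplied by `a₀ / σ a₀`, for `U₀`
fixed. -/
theorem gal_smul_theta_gen {U₀ : Fb (M * q * q)} (hU₀ : gal (M * q * q) σ • U₀ = U₀) (a₀ : Kb) :
    gal (M * q * q) σ • (U₀ / alpha2 M q (algebraMap Kb (Fb (M * q)) a₀)) =
      (a₀ / σ a₀) • (U₀ / alpha2 M q (algebraMap Kb (Fb (M * q)) a₀)) := by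
  rw [smul_div₀', hU₀, heckeAlphaBar_comm q σ, SemilinearAut.smul_algebraMap]
  have h1 : SemilinearAut.baseAut (gal (M * q) σ) a₀ = σ a₀ := rfl
  rw [h1, AlgHom.commutes, AlgHom.commutes, Algebra.smul_def, map_div₀]
  by_cases h0 : a₀ = 0
  · rw [h0, map_zero, map_zero, div_zero, div_zero, mul_zero]
  · have hs0 : σ a₀ ≠ 0 := by rwa [Ne, map_eq_zero]
    have e1 : algebraMap Kb (Fb (M * q * q)) a₀ ≠ 0 := by rwa [Ne, map_eq_zero]
    have e2 : algebraMap Kb (Fb (M * q * q)) (σ a₀) ≠ 0 := by rwa [Ne, map_eq_zero]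
    field_simp

variable {B : ValuationSubring (AlgebraicClosure ℚ)} [IsAlgClosed (ResidueField B)]
  {T' : Set (Place Kb (Fb (M * q)))} (C : AnnulusCore B T')
  {β ρ : ResidueField B} [hP : Fact (Irreducible (vertBar q β ρ))]

local notation "kB" => IsLocalRing.ResidueField B
local notation "L" => AdjoinRoot (vertBar q β ρ)

/-- **The tubes of the generic points of `z e` are stable under the inertia elements fixing the
gauge.** -/
theorem smul_mem_ptTube_rich (hσ : σ ∈ B.inertiaSubgroupIn ℚ)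
    (hu : gal (M * q) σ • C.u = C.u) (hT : ∀ P, gal (M * q) σ • P ∈ T' ↔ P ∈ T')
    {a₀ : Kb} (ha0 : a₀ ≠ 0) (ha : σ a₀ = a₀)
    {U₀ : Fb (M * q * q)} (hU₀ : gal (M * q * q) σ • U₀ = U₀)
    {Q : Place kB L} {P : Place Kb (Fb (M * q * q))} :
    letI := algebraAlong (alpha2 M q)
    haveI := isScalarTower_along (alpha2 M q)
    haveI : Module.Finite (Fb (M * q)) (Fb (M * q * q)) :=
      Fermat.Agent.Hecke.finiteAlong_heckeAlphaBar (M * q) q
    P ∈ ptTube C a₀ (U₀ / alpha2 M q (algebraMap Kb (Fb (M * q)) a₀)) Q →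
      gal (M * q * q) σ • P ∈ ptTube C a₀ (U₀ / alpha2 M q (algebraMap Kb (Fb (M * q)) a₀)) Q := by
  letI := algebraAlong (alpha2 M q)
  haveI := isScalarTower_along (alpha2 M q)
  haveI : Module.Finite (Fb (M * q)) (Fb (M * q * q)) :=
    Fermat.Agent.Hecke.finiteAlong_heckeAlphaBar (M * q) q
  intro hP
  refine smul_mem_ptTube_of_fixed C (gal (M * q * q) σ) (gal (M * q) σ)
    (fun y => heckeAlphaBar_comm q σ y) (EquivHoriz.isInertial_gal (M * q * q) B hσ)
    (EquivHoriz.isInertial_gal (M * q) B hσ) hu hT ha0 (theta_eq_one_of_fixed ha0 ha) ?_ hP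
  rw [gal_smul_theta_gen hU₀, ha, div_self ha0, one_smul]

set_option maxHeartbeats 1600000 in
/-- **The tubes of the generic points of `z e` under ANY inertia element**: the tube of `Q` goes
into the tube of `placeMap a Q`, for `a` acting on the generators `b̃ = β T`, `Ũ` through
`ξ = (theta B σ a₀)⁻¹`. -/
theorem smul_mem_ptTube_tame (hσ : σ ∈ B.inertiaSubgroupIn ℚ)
    (hu : gal (M * q) σ • C.u = C.u) (hT : ∀ P ∈ T', gal (M * q) σ • P ∈ T')
    {a₀ : Kb} (ha0 : a₀ ≠ 0)
    {U₀ : Fb (M * q * q)} (hU₀ : gal (M * q * q) σ • U₀ = U₀) (hβ : β ≠ 0)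
    (a : L ≃ₐ[kB] L)
    (hab : a (AdjoinRoot.of (vertBar q β ρ) (RatFunc.C β * RatFunc.X)) =
      (theta B (SemilinearAut.baseAut (gal (M * q) σ)) a₀)⁻¹ •
        AdjoinRoot.of (vertBar q β ρ) (RatFunc.C β * RatFunc.X))
    (haU : a (AdjoinRoot.root (vertBar q β ρ)) =
      (theta B (SemilinearAut.baseAut (gal (M * q) σ)) a₀)⁻¹ • AdjoinRoot.root (vertBar q β ρ))
    {Q : Place kB L} {P : Place Kb (Fb (M * q * q))} :
    letI := algebraAlong (alpha2 M q)
    haveI := isScalarTower_along (alpha2 M q)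
    haveI : Module.Finite (Fb (M * q)) (Fb (M * q * q)) :=
      Fermat.Agent.Hecke.finiteAlong_heckeAlphaBar (M * q) q
    P ∈ ptTube C a₀ (U₀ / alpha2 M q (algebraMap Kb (Fb (M * q)) a₀)) Q →
      gal (M * q * q) σ • P ∈
        ptTube C a₀ (U₀ / alpha2 M q (algebraMap Kb (Fb (M * q)) a₀)) (placeMap a Q) := by
  letI := algebraAlong (alpha2 M q)
  haveI := isScalarTower_along (alpha2 M q)
  haveI : Module.Finite (Fb (M * q)) (Fb (M * q * q)) :=
    Fermat.Agent.Hecke.finiteAlong_heckeAlphaBar (M * q) q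
  intro hP
  have hg' := EquivHoriz.isInertial_gal (M * q) B hσ
  have hsa : σ a₀ ≠ 0 := by rwa [Ne, map_eq_zero]
  have hval : B.valuation (σ a₀ / a₀) = 1 := valuation_apply_div hg' ha0
  have hc : B.valuation (a₀ / σ a₀) = 1 := by
    have e : a₀ / σ a₀ = (σ a₀ / a₀)⁻¹ := by rw [inv_div]
    rw [e, map_inv₀, hval, inv_one]
  -- the residue of `a₀ / σ a₀` is `theta⁻¹`
  have hres : resOf B (a₀ / σ a₀) =
      (theta B (SemilinearAut.baseAut (gal (M * q) σ)) a₀)⁻¹ := by
    have h1 : σ a₀ / a₀ ∈ B := mem_of_valuation_eq_one B hval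
    have h2 : a₀ / σ a₀ ∈ B := mem_of_valuation_eq_one B hc
    have h5 : resOf B (a₀ / σ a₀) * resOf B (σ a₀ / a₀) = 1 := by
      rw [← resOf_mul B h2 h1, div_mul_div_comm, mul_comm a₀, div_self (mul_ne_zero hsa ha0),
        resOf_one]
    exact eq_inv_of_mul_eq_one_left h5
  -- `a` on `T̃`
  have hC : (RatFunc.C β : RatFunc kB) = algebraMap kB (RatFunc kB) β := by
    rw [RatFunc.algebraMap_eq_C]
  have haX : a (algebraMap (RatFunc kB) L RatFunc.X) =
      (theta B (SemilinearAut.baseAut (gal (M * q) σ)) a₀)⁻¹ •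
        algebraMap (RatFunc kB) L RatFunc.X := by
    have e : AdjoinRoot.of (vertBar q β ρ) (RatFunc.C β * RatFunc.X) =
        β • algebraMap (RatFunc kB) L RatFunc.X := by
      rw [← AdjoinRoot.algebraMap_eq, map_mul, hC, ← IsScalarTower.algebraMap_apply,
        Algebra.smul_def]
    rw [e, map_smul, smul_comm] at hab
    exact smul_right_injective L hβ hab
  exact smul_mem_ptTube_rot C (gal (M * q * q) σ) (gal (M * q) σ)
    (fun y => heckeAlphaBar_comm q σ y) (EquivHoriz.isInertial_gal (M * q * q) B hσ) hg' hu hT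
    ha0 hc (gal_smul_theta_gen hU₀ a₀) a haX (by rw [hres]; exact haU) hP

/-! ### the frame `core Dt e`, generator `U_g` -/

section Core

open Fermat.Agent.BR3.HeckePoly

variable {hB : B.LiesOverPrime q} {hqM : ¬ q ∣ M} (Dt : ModularData M q B hB hqM)

/-- (shortcut instance: the search through the generic instances costs seconds per declaration) -/
local instance (priority := 100000) instAlgebraFtMShortcutVM :
    Algebra (IsLocalRing.ResidueField B)
      (modularFunctionFieldFullC (IsLocalRing.ResidueField B) M) :=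
  inferInstance

/-- **The raw tubes `TZ e Q = ptTube (core Dt e) a₀ (thetaVertTw M q g a₀) Q` of the vertical
component over `e` are stable under the inertia elements fixing the gauge** (`g` fixed by `σ`:
`VertEquivUg.galAut_smul_of_mem_CMod`). -/
theorem smul_mem_TZ_rich (hσ : σ ∈ B.inertiaSubgroupIn ℚ)
    (e : Crossing (chartDataModular B hB hqM)) {a₀ : Kb} (ha0 : a₀ ≠ 0) (ha : σ a₀ = a₀)
    {g : Fb M} (hg : gal M σ • g = g) {Q : Place kB L} {P : Place Kb (Fb (M * q * q))} :
    letI := algebraAlong (alpha2 M q)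
    haveI := isScalarTower_along (alpha2 M q)
    haveI : Module.Finite (Fb (M * q)) (Fb (M * q * q)) :=
      Fermat.Agent.Hecke.finiteAlong_heckeAlphaBar (M * q) q
    P ∈ ptTube (core Dt e) a₀ (thetaVertTw M q g a₀) Q →
      gal (M * q * q) σ • P ∈ ptTube (core Dt e) a₀ (thetaVertTw M q g a₀) Q :=
  smul_mem_ptTube_rich (core Dt e) hσ (annulusCoord_smul Dt hσ e)
    (fun P => smul_mem_tube_setup_iff Dt hσ e P) ha0 ha
    (Fermat.Agent.BR3.VertEquivUg.galAut_smul_Ug_of_fixed hg)

/-- **The raw tubes `TZ e Q` under ANY inertia element** (the tame generator): the tube of `Q`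
goes into the tube of `placeMap a Q`. -/
theorem smul_mem_TZ_tame (hσ : σ ∈ B.inertiaSubgroupIn ℚ)
    (e : Crossing (chartDataModular B hB hqM)) {a₀ : Kb} (ha0 : a₀ ≠ 0)
    {g : Fb M} (hg : gal M σ • g = g) (hβ : β ≠ 0) (a : L ≃ₐ[kB] L)
    (hab : a (AdjoinRoot.of (vertBar q β ρ) (RatFunc.C β * RatFunc.X)) =
      (theta B (SemilinearAut.baseAut (gal (M * q) σ)) a₀)⁻¹ •
        AdjoinRoot.of (vertBar q β ρ) (RatFunc.C β * RatFunc.X))
    (haU : a (AdjoinRoot.root (vertBar q β ρ)) =
      (theta B (SemilinearAut.baseAut (gal (M * q) σ)) a₀)⁻¹ • AdjoinRoot.root (vertBar q β ρ))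
    {Q : Place kB L} {P : Place Kb (Fb (M * q * q))} :
    letI := algebraAlong (alpha2 M q)
    haveI := isScalarTower_along (alpha2 M q)
    haveI : Module.Finite (Fb (M * q)) (Fb (M * q * q)) :=
      Fermat.Agent.Hecke.finiteAlong_heckeAlphaBar (M * q) q
    P ∈ ptTube (core Dt e) a₀ (thetaVertTw M q g a₀) Q →
      gal (M * q * q) σ • P ∈ ptTube (core Dt e) a₀ (thetaVertTw M q g a₀) (placeMap a Q) :=
  smul_mem_ptTube_tame (core Dt e) hσ (annulusCoord_smul Dt hσ e)
    (fun P hP => (smul_mem_tube_setup_iff Dt hσ e P).mpr hP) ha0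
    (Fermat.Agent.BR3.VertEquivUg.galAut_smul_Ug_of_fixed hg) hβ a hab haU

end Core

end Fermat.Agent.BR3.EquivTubesVertModular
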