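import Fermat.Agent.BR3.FibreProdMidRes
import Fermat.Agent.BR3.MidBeta
import Fermat.Agent.BR3.HeckePoly
import Fermat.Agent.BR3.CoverSheetInf.Theta
import Fermat.Agent.BR3.WildCyclo

/-!
# Program C, node (SC-MID): the shared `(g, h)` residue lemma and the repaired generator of the
middle sheets

`F₁ = Fb (M * q)`, `F₂ = Fb (M * q * q)`, `α₂ β₂ : F₁ → F₂`, `W_q` the Atkin–Lehner involution of
`F₁`, `σ_b : F₂ → ℚ̄((s))` the embeddings of the middle valuations `w₂ b` (`BR3/FibreProdMid`).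
Because `σ_b ∘ β₂ = (s ↦ ζ^{b+1} s) ∘ W_q` (helper1's `MidBeta.sigmaB_beta2`), for EVERY
`x ∈ F₁` the element `U_x := β₂ (W_q x) - α₂ x` has `σ_b U_x = x(ζ^{b+1} s) - x(s)`; no
`q`-expansion of level-`M` functions is needed.

* `thetaL_add`, `thetaL_mul`, `thetaL_C`, `thetaL_div_eq` : `θ = s d/ds` is a derivation of `k((s))`;
* `diffQuot_gauss` : for `x` in the Gauss ring of `L((s))` and a unit `z ≡ 1`, `z ≠ 1`, of `A`:
  `(x(z s) - x(s)) / (z - 1)` is Gauss-integral with residue `θ x̄`;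
* `Ux`, `Ux_alpha : U_{α g} = HeckePoly.Ug M q g`, `Ux_jBar : U_j = U`, `sigmaB_Ux`;
* `UxTilde x z = U_x / (z - 1)`, `exists_resw2_UxTilde` (residue `θ x̃` on `w₂ b` for `x ∈ O1`),
  `exists_resw2_UxTilde_of_pow` (residue `m · θ x̃` on `w₂ b'` when `ζ^{b'+1} = (ζ^{b+1})^m`);
* `thetaGen r x h z = β₂ r · U_x / ((z - 1) · α₂ h)` : **the generator of the middle sheets**;
  `exists_resw2_thetaGen` : residue `res₂ r · m · θ x̃ · res₁ h⁻¹` on `w₂ b'`;
  `thetaGen_mem_nonunits_w1` : small on `cInf` when `r / (z - 1)` is small on `can`;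
  `notMem_range_alpha2_of_w1_w2` : such an element generates `F₂` over `α₂ F₁`;
* `q_pow_div_mem_nonunits`, `TB'_mul_mem_nonunits_O1` : the repair factor `r = TB' = q^12 / T`
  (`res₂ TB' = T̄`, a unit away from the cusps) satisfies the smallness hypothesis.
-/

set_option autoImplicit false
set_option linter.style.haveILetI false
set_option linter.unusedSectionVars false

noncomputable section

set_option synthInstance.maxHeartbeats 400000

namespace Fermat.Agent.BR3.FibreProd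

open ModularCurve AlgebraicCurve HahnSeries Polynomial Fermat.Agent.X0 Fermat.Agent.Val
open Fermat.Agent.Hecke.AL Fermat.Agent.Igusa Fermat.Agent.BR.Kron Fermat.Agent.BR3.IgSq
open Fermat.Agent.BR.TwoVal Fermat.Agent.BR.ResGen Fermat.Agent.Jac Fermat.Agent.Jac.ALF
open Fermat.Agent.BR.TwoValInst Fermat.Agent.BR.ValTwo Fermat.Agent.BR.ConstRedTwo
open Fermat.Agent.BR.ModUnit

/-! ### `θ = s d/ds` is a derivation of `k((s))` -/

section Theta

variable {k : Type*} [CommRing k]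

theorem thetaL_add (f g : LaurentSeries k) :
    thetaL k (f + g) = thetaL k f + thetaL k g := by
  ext n
  rw [coeff_thetaL, HahnSeries.coeff_add, HahnSeries.coeff_add, coeff_thetaL, coeff_thetaL, mul_add]

theorem thetaL_zero : thetaL k (0 : LaurentSeries k) = 0 := by
  ext n
  rw [coeff_thetaL, HahnSeries.coeff_zero, mul_zero]

theorem thetaL_C (c : k) : thetaL k (HahnSeries.C c) = 0 := by
  ext n
  rw [coeff_thetaL, HahnSeries.C_apply, HahnSeries.coeff_single, HahnSeries.coeff_zero]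
  split_ifs with h
  · rw [h, Int.cast_zero, zero_mul]
  · rw [mul_zero]

theorem support_thetaL_subset (f : LaurentSeries k) : (thetaL k f).support ⊆ f.support := by
  intro m hm
  simp only [HahnSeries.mem_support, coeff_thetaL, ne_eq] at hm ⊢
  intro h
  exact hm (by rw [h, mul_zero])

/-- **Leibniz rule** for `θ = s d/ds` on Laurent series. -/
theorem thetaL_mul (f g : LaurentSeries k) :
    thetaL k (f * g) = thetaL k f * g + f * thetaL k g := by
  ext n
  rw [coeff_thetaL, HahnSeries.coeff_add, HahnSeries.coeff_mul,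
    HahnSeries.coeff_mul_left' f.isPWO_support (support_thetaL_subset f),
    HahnSeries.coeff_mul_right' g.isPWO_support (support_thetaL_subset g), Finset.mul_sum,
    ← Finset.sum_add_distrib]
  refine Finset.sum_congr rfl fun ij hij => ?_
  rw [Finset.mem_addAntidiagonal] at hij
  rw [coeff_thetaL, coeff_thetaL, ← hij.2.2]
  push_cast
  ring

theorem thetaL_mul_C (f : LaurentSeries k) (c : k) :
    thetaL k (f * HahnSeries.C c) = thetaL k f * HahnSeries.C c := by
  rw [thetaL_mul, thetaL_C, mul_zero, add_zero]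

end Theta

section ThetaField

variable {k : Type*} [Field k]

/-- quotient rule, in the form needed for Gauss residues -/
theorem thetaL_div_eq {a c : LaurentSeries k} (hc : c ≠ 0) :
    thetaL k (a / c) = (thetaL k a * c - a * thetaL k c) / (c * c) := by
  have h1 : thetaL k a = thetaL k (a / c) * c + a / c * thetaL k c := by
    rw [← thetaL_mul, div_mul_cancel₀ a hc]
  rw [h1]
  field_simp
  ring

end ThetaField


/-! ### The difference quotient on the Gauss ring -/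

section GaussDiff

variable {L : Type*} [Field L] (A : ValuationSubring L) {k : Type*} [Field k] (π : A →+* k)

/-- **The difference quotient of a Gauss-integral series**: for a unit `z ≡ 1` of `A`, `z ≠ 1`,
and `x` in the Gauss ring, `(x(z s) - x(s)) / (z - 1)` is Gauss-integral with residue `θ x̄`. -/
theorem diffQuot_gauss (zA : Aˣ) (hz : π (zA : A) = 1) (hne : (((zA : A) : L)) - 1 ≠ 0)
    {x : LaurentSeries L} (hx : x ∈ gaussRingA A π) :
    ∃ h : (scale (Units.map (A.subtype : A →* L) zA) x - x) *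
        HahnSeries.C ((((zA : A) : L)) - 1)⁻¹ ∈ gaussRingA A π,
      gaussResA A π ⟨_, h⟩ = thetaL k (gaussResA A π ⟨x, hx⟩) := by
  obtain ⟨a, c, hc, hac⟩ := (mem_gaussRingA_iff A π).1 hx
  set z : Lˣ := Units.map (A.subtype : A →* L) zA with hzdef
  have hzk : Units.map (π : A →* k) zA = 1 := Units.ext (by rw [Units.coe_map]; exact hz)
  set W : LaurentSeries L := HahnSeries.C ((((zA : A) : L)) - 1) with hW
  set Wi : LaurentSeries L := HahnSeries.C ((((zA : A) : L)) - 1)⁻¹ with hWi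
  have hWWi : W * Wi = 1 := by
    rw [hW, hWi, ← map_mul, mul_inv_cancel₀ hne, map_one]
  have hW0 : W ≠ 0 := left_ne_zero_of_mul_eq_one hWWi
  have hWA : W = aIota A (HahnSeries.C ((zA : A) - 1)) := by
    rw [aIota_C]
    rfl
  have ha' : W * aIota A (diffQuot zA a) = scale z (aIota A a) - aIota A a := by
    rw [hWA, ← map_mul, C_mul_diffQuot, map_sub, MidBeta.aIota_scale]
  have hc' : W * aIota A (diffQuot zA c) = scale z (aIota A c) - aIota A c := by
    rw [hWA, ← map_mul, C_mul_diffQuot, map_sub, MidBeta.aIota_scale]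
  have hsc : scale z x * scale z (aIota A c) = scale z (aIota A a) := by
    rw [← map_mul, hac]
  have hcs : aRed π (c * scale zA c) ≠ 0 := by
    rw [map_mul, MidBeta.aRed_scale, hzk, scale_one_apply]
    exact mul_ne_zero hc hc
  have key : (scale z x - x) * Wi * aIota A (c * scale zA c) =
      aIota A (diffQuot zA a * c - a * diffQuot zA c) := by
    apply mul_left_cancel₀ hW0
    rw [map_mul, MidBeta.aIota_scale, map_sub, map_mul, map_mul, ← hzdef]
    linear_combination ((scale z x - x) * aIota A c * scale z (aIota A c)) * hWWi +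
      (aIota A c) * hsc - (scale z (aIota A c)) * hac - (aIota A c) * ha' +
      (aIota A a) * hc'
  have hmem : (scale z x - x) * Wi ∈ gaussRingA A π := ⟨_, _, hcs, key⟩
  refine ⟨hmem, ?_⟩
  have e1 := gaussResA_eq A π ⟨(scale z x - x) * Wi, hmem⟩ hcs key
  have e2 := gaussResA_eq A π ⟨x, hx⟩ hc hac
  rw [e1, e2, thetaL_div_eq hc]
  have e3 : aRed π (diffQuot zA a * c - a * diffQuot zA c) =
      thetaL k (aRed π a) * aRed π c - aRed π a * thetaL k (aRed π c) := by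
    rw [map_sub, map_mul, map_mul]
    show coeffMap π (diffQuot zA a) * aRed π c - aRed π a * coeffMap π (diffQuot zA c) = _
    rw [coeffMap_diffQuot π zA hz, coeffMap_diffQuot π zA hz]
    rfl
  have e4 : aRed π (c * scale zA c) = aRed π c * aRed π c := by
    rw [map_mul, MidBeta.aRed_scale, hzk, scale_one_apply]
  rw [e3, e4]

end GaussDiff

/-! ### The elements `U_x = β₂ (W_q x) - α₂ x` -/

variable {M q : ℕ} [NeZero M] [hq : Fact q.Prime]

section Ux

variable (hqM : ¬ q ∣ M)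

/-- `U_x = β₂ (W_q x) - α₂ x` for `x ∈ F̄_{Mq}`; `U_{α g} = U_g` (`HeckePoly.Ug`), `U_j = U`. -/
def Ux (x : Fb (M * q)) : Fb (M * q * q) := beta2 M q (Wq hqM x) - alpha2 M q x

theorem Ux_alpha (g : Fb M) : Ux hqM (heckeAlphaBar Kb M q g) = HeckePoly.Ug M q g := by
  rw [Ux, Wq_alpha]
  rfl

theorem Ux_jBar : Ux hqM (jBar (M * q)) = U M q := by
  have h : Wq hqM (jBar (M * q)) = jq' M q := by
    rw [← MidBeta.Wq_jq' (hqM := hqM), Wq_Wq]
  rw [Ux, h, beta2_jq']
  rfl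

/-- `Ũ_{x,z} = U_x / (z - 1)` for a constant `z`. -/
def UxTilde (x : Fb (M * q)) (z : Kb) : Fb (M * q * q) :=
  Ux hqM x * algebraMap Kb (Fb (M * q * q)) (z - 1)⁻¹

theorem UxTilde_jBar (z : Kb) : UxTilde hqM (jBar (M * q)) z = Utilde M q z := by
  rw [UxTilde, Ux_jBar]
  rfl

/-- `Ũ_{x,z} = Ũ_{x,z^m} · (1 + z + ⋯ + z^{m-1})` -/
theorem UxTilde_eq_mul_geom (x : Fb (M * q)) {z : Kb} (m : ℕ) (hm : z ^ m - 1 ≠ 0) :
    UxTilde hqM x z =
      UxTilde hqM x (z ^ m) * algebraMap Kb (Fb (M * q * q)) (∑ i ∈ Finset.range m, z ^ i) := by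
  have hz : z - 1 ≠ 0 := by
    intro h
    apply hm
    rw [sub_eq_zero] at h
    rw [h, one_pow, sub_self]
  unfold UxTilde
  rw [mul_assoc (Ux hqM x), ← map_mul]
  congr 2
  have h := geom_sum_mul z m
  rw [eq_comm, inv_mul_eq_iff_eq_mul₀ hm, ← h]
  field_simp

variable (B : ValuationSubring (AlgebraicClosure ℚ)) (hB : B.LiesOverPrime q)
variable {ζ : Kbˣ} (hζ : IsPrimitiveRoot ζ q) {b : ℕ} (hb : b < q - 1)

local notation "kB" => IsLocalRing.ResidueField B

include B hB in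
/-- `σ_b U_x = x(ζ^{b+1} s) - x(s)`. -/
theorem sigmaB_Ux (x : Fb (M * q)) :
    sigmaB hqM hζ hb (Ux hqM x) =
      scale (ζ ^ (b + 1)) (x : LaurentSeries Kb) - (x : LaurentSeries Kb) := by
  rw [Ux, map_sub, MidBeta.sigmaB_beta2 B hB hqM hζ hb, Wq_Wq, sigmaB_alpha2]

include hB in
/-- **The Kummer generator for a general function**: for `x ∈ O1` (integral on `can`),
`U_x / (ζ^{b+1} - 1) ∈ w₂ b` with residue `θ x̃`. -/
theorem exists_resw2_UxTilde {x : Fb (M * q)} (hx : x ∈ O1 M B hB) :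
    ∃ h : UxTilde hqM x ((ζ ^ (b + 1) : Kbˣ) : Kb) ∈ w2 B hB hqM hζ hb,
      resw2 B hB hqM hζ hb ⟨_, h⟩ = thetaL kB (res1 M B hB ⟨x, hx⟩) := by
  obtain ⟨zB, hzB, hres⟩ := MidBeta.exists_unitB_zeta B hζ (b := b)
  have hz1 : IsLocalRing.residue B (zB : B) = 1 := by
    have h := congrArg (fun u : kBˣ => (u : kB)) (hres hB)
    simpa using h
  have hzv : (((zB : B) : Kb)) = ((ζ ^ (b + 1) : Kbˣ) : Kb) := by
    rw [← hzB]
    rfl
  have hne : (((zB : B) : Kb)) - 1 ≠ 0 := by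
    rw [hzv]
    intro h
    apply zeta_pow_ne_one hζ hb
    exact Units.ext (by rw [Units.val_one]; exact sub_eq_zero.1 h)
  have hx' : (x : LaurentSeries Kb) ∈ gaussRingA B (IsLocalRing.residue B) := hx
  obtain ⟨hmem, hr⟩ := diffQuot_gauss B (IsLocalRing.residue B) zB hz1 hne hx'
  have heq : sigmaB hqM hζ hb (UxTilde hqM x ((ζ ^ (b + 1) : Kbˣ) : Kb)) =
      (scale (Units.map (B.subtype : B →* Kb) zB) (x : LaurentSeries Kb) -
        (x : LaurentSeries Kb)) * HahnSeries.C ((((zB : B) : Kb)) - 1)⁻¹ := by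
    rw [UxTilde, map_mul, sigmaB_Ux hqM B hB hζ hb, sigmaB_algebraMap, hzB, hzv]
  have hmem' : UxTilde hqM x ((ζ ^ (b + 1) : Kbˣ) : Kb) ∈ w2 B hB hqM hζ hb := by
    rw [mem_w2_iff, heq]
    exact hmem
  refine ⟨hmem', ?_⟩
  rw [resw2_apply]
  exact (Fermat.Agent.BR.ResGen.gaussResA_congr B _ hmem heq).trans hr

include hB in
/-- **The residue of `Ũ_{x,b}` at `w₂ b'`**: if `ζ^{b'+1} = (ζ^{b+1})^m` then
`U_x / (ζ^{b+1} - 1) ∈ w₂ b'` with residue `m · θ x̃`. -/
theorem exists_resw2_UxTilde_of_pow {x : Fb (M * q)} (hx : x ∈ O1 M B hB) {b' : ℕ}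
    (hb' : b' < q - 1) (m : ℕ) (hm : ζ ^ (b' + 1) = (ζ ^ (b + 1)) ^ m) :
    ∃ h : UxTilde hqM x ((ζ ^ (b + 1) : Kbˣ) : Kb) ∈ w2 B hB hqM hζ hb',
      resw2 B hB hqM hζ hb' ⟨_, h⟩ =
        thetaL kB (res1 M B hB ⟨x, hx⟩) * HahnSeries.C ((m : ℕ) : kB) := by
  haveI := charP_kB B hB
  obtain ⟨zB, hzB, hzBq⟩ := exists_unitB B hq.out.ne_zero (zeta_pow_pow hζ (b := b))
  have hres : IsLocalRing.residue B (zB : B) = 1 := by
    apply residue_eq_one_of_pow_eq_one q
    have := congrArg (fun u : Bˣ => IsLocalRing.residue B (u : B)) hzBq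
    simpa using this
  set z : Kb := ((ζ ^ (b + 1) : Kbˣ) : Kb) with hz
  have hzm : z ^ m = ((ζ ^ (b' + 1) : Kbˣ) : Kb) := by
    rw [hm, Units.val_pow_eq_pow_val]
  have hne : z ^ m - 1 ≠ 0 := by
    rw [hzm]
    intro h
    apply zeta_pow_ne_one hζ hb'
    exact Units.ext (by rw [Units.val_one]; exact sub_eq_zero.1 h)
  have hg : (∑ i ∈ Finset.range m, z ^ i) = ((∑ i ∈ Finset.range m, (zB : B) ^ i : B) : Kb) := by
    rw [← hzB]
    push_cast
    rfl
  have hgmem : (∑ i ∈ Finset.range m, z ^ i) ∈ B := by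
    rw [hg]
    exact Subtype.property _
  have hgres : IsLocalRing.residue B ⟨_, hgmem⟩ = ((m : ℕ) : kB) := by
    have : (⟨_, hgmem⟩ : B) = ∑ i ∈ Finset.range m, (zB : B) ^ i := Subtype.ext hg
    rw [this, map_sum]
    simp [hres]
  obtain ⟨h1, hr1⟩ := exists_resw2_UxTilde hqM B hB hζ hb' hx
  have h2 := algebraMap_mem_w2 (M := M) B hB hqM hζ hb' hgmem
  have heq := UxTilde_eq_mul_geom hqM x m hne
  rw [hzm] at heq
  have hmem : UxTilde hqM x z ∈ w2 B hB hqM hζ hb' := by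
    rw [heq]
    exact (w2 B hB hqM hζ hb').mul_mem _ _ h1 h2
  refine ⟨hmem, ?_⟩
  have h3 : (⟨UxTilde hqM x z, hmem⟩ : w2 B hB hqM hζ hb') =
      ⟨_, h1⟩ * ⟨_, h2⟩ := Subtype.ext heq
  rw [h3, map_mul, hr1, resw2_algebraMap B hB hqM hζ hb' hgmem, hgres]

/-! ### The repaired generator -/

/-- **The generator of the middle sheets**: `β₂ r · U_x / ((z - 1) · α₂ h)`; `r` is the repair
factor (small on `can`, e.g. `TB'`), `x` the function whose `θ`-derivative separates the sheets,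
`h` a normalisation (`h = 1` at finite points, `h = x` at the cusps). -/
def thetaGen (r x h : Fb (M * q)) (z : Kb) : Fb (M * q * q) :=
  beta2 M q r * UxTilde hqM x z * alpha2 M q h⁻¹

include hB in
/-- **The residues of the generator on the middle valuations.** -/
theorem exists_resw2_thetaGen {r x h : Fb (M * q)} (hr2 : r ∈ O2 B hB hqM)
    (hx : x ∈ O1 M B hB) (hh : h⁻¹ ∈ O1 M B hB) {b' : ℕ}
    (hb' : b' < q - 1) (m : ℕ) (hm : ζ ^ (b' + 1) = (ζ ^ (b + 1)) ^ m) :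
    ∃ hmem : thetaGen hqM r x h ((ζ ^ (b + 1) : Kbˣ) : Kb) ∈ w2 B hB hqM hζ hb',
      resw2 B hB hqM hζ hb' ⟨_, hmem⟩ =
        res2 B hB hqM ⟨r, hr2⟩ *
          (thetaL kB (res1 M B hB ⟨x, hx⟩) * HahnSeries.C ((m : ℕ) : kB)) *
            res1 M B hB ⟨h⁻¹, hh⟩ := by
  obtain ⟨h1, hr1⟩ := exists_resw2_UxTilde_of_pow hqM B hB hζ hx hb' m hm
  have h0 := (MidBeta.beta2_mem_w2_iff B hB hqM hζ hb' r).2 hr2
  have h2 := (alpha2_mem_w2_iff B hB hqM hζ hb' h⁻¹).2 hh
  have hmem : thetaGen hqM r x h ((ζ ^ (b + 1) : Kbˣ) : Kb) ∈ w2 B hB hqM hζ hb' :=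
    (w2 B hB hqM hζ hb').mul_mem _ _ ((w2 B hB hqM hζ hb').mul_mem _ _ h0 h1) h2
  refine ⟨hmem, ?_⟩
  have h3 : (⟨thetaGen hqM r x h ((ζ ^ (b + 1) : Kbˣ) : Kb), hmem⟩ : w2 B hB hqM hζ hb') =
      ⟨_, h0⟩ * ⟨_, h1⟩ * ⟨_, h2⟩ := rfl
  rw [h3, map_mul, map_mul, hr1, MidBeta.resw2_beta2 B hB hqM hζ hb' r hr2,
    resw2_alpha2 B hB hqM hζ hb' h⁻¹ hh]

/-- **The generator is small on `cInf`.** -/
theorem thetaGen_mem_nonunits_w1 {r x h : Fb (M * q)} {z : Kb}
    (hr1 : r * algebraMap Kb (Fb (M * q)) (z - 1)⁻¹ ∈ (O1 M B hB).nonunits)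
    (hx1 : x ∈ O1 M B hB) (hx2 : x ∈ O2 B hB hqM) (hh : h⁻¹ ∈ O1 M B hB) :
    thetaGen hqM r x h z ∈ (w1 M B hB).nonunits := by
  have e : thetaGen hqM r x h z =
      beta2 M q (r * algebraMap Kb (Fb (M * q)) (z - 1)⁻¹) * Ux hqM x * alpha2 M q h⁻¹ := by
    rw [thetaGen, UxTilde, map_mul, AlgHom.commutes]
    ring
  rw [e]
  have h0 := (CoverSheetInf.beta2_mem_nonunits_w1_iff B hB _).2 hr1
  have h1 : Ux hqM x ∈ w1 M B hB :=
    sub_mem ((beta2_mem_w1_iff B hB _).2 hx2) ((alpha2_mem_w1_iff B hB _).2 hx1)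
  have h2 := (alpha2_mem_w1_iff B hB h⁻¹).2 hh
  exact mul_mem_nonunits_right _ (mul_mem_nonunits_right _ h0 h1) h2

include hB in
/-- a generator with a nonzero residue on one middle valuation and small on `cInf` is not in
`α₂ F₁` -/
theorem notMem_range_alpha2_of_w1_w2 {y : Fb (M * q * q)} (h1 : y ∈ (w1 M B hB).nonunits)
    (h2 : y ∉ (w2 B hB hqM hζ hb).nonunits) : y ∉ Set.range (alpha2 M q) := by
  rintro ⟨c, rfl⟩
  exact h2 ((CoverSheetInf.alpha2_mem_nonunits_w2_iff B hB hqM hζ hb c).2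
    ((CoverSheetInf.alpha2_mem_nonunits_w1_iff B hB c).1 h1))

include hB hζ in
/-- `q^12 / (ζ^{b+1} - 1)` is a non-unit of `B` -/
theorem q_pow_div_mem_nonunits (hb : b < q - 1) :
    ((q : Kb) ^ 12 * ((((ζ ^ (b + 1) : Kbˣ) : Kb)) - 1)⁻¹) ∈ B.nonunits := by
  have hcop : Nat.Coprime (b + 1) q := by
    rw [Nat.coprime_comm]
    refine (Nat.Prime.coprime_iff_not_dvd hq.out).2 fun h => ?_
    have := Nat.le_of_dvd (Nat.succ_pos b) h
    omega
  have hz : IsPrimitiveRoot (((ζ ^ (b + 1) : Kbˣ) : Kb)) q :=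
    (hζ.pow_of_coprime (b + 1) hcop).map_of_injective Units.coeHom_injective
  set z : Kb := ((ζ ^ (b + 1) : Kbˣ) : Kb) with hzdef
  have h1 : B.valuation (z - 1) ^ (q - 1) = B.valuation (q : Kb) :=
    WildCyclo.valuation_sub_one_pow hq.out hz B
  have hq1 : B.valuation (q : Kb) < 1 := (ValuationSubring.mem_nonunits_iff (A := B)).1 hB
  have hne : z - 1 ≠ 0 := by
    intro h
    apply zeta_pow_ne_one hζ hb
    exact Units.ext (by rw [Units.val_one]; exact sub_eq_zero.1 h)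
  have hv0 : B.valuation (z - 1) ≠ 0 := (Valuation.ne_zero_iff _).2 hne
  have hv1 : B.valuation (z - 1) < 1 := by
    by_contra hge
    rw [not_lt] at hge
    have : (1 : ValuationSubring.ValueGroup B) ≤ B.valuation (z - 1) ^ (q - 1) :=
      one_le_pow_of_one_le' hge _
    rw [h1] at this
    exact absurd hq1 (not_lt.2 this)
  rw [ValuationSubring.mem_nonunits_iff, map_mul, map_pow, map_inv₀, ← h1, ← pow_mul]
  have hq2 : 2 ≤ q := hq.out.two_le
  obtain ⟨n, hn⟩ : ∃ n, (q - 1) * 12 = n + 2 := ⟨(q - 1) * 12 - 2, by omega⟩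
  rw [hn, pow_succ, mul_assoc, mul_inv_cancel₀ hv0, mul_one]
  exact pow_lt_one₀ zero_le hv1 (by omega)

include hζ in
/-- **the repair factor `TB' = q^12 / T`** is small enough on `can` -/
theorem TB'_mul_mem_nonunits_O1 (hb : b < q - 1) :
    TB' M q * algebraMap Kb (Fb (M * q)) ((((ζ ^ (b + 1) : Kbˣ) : Kb)) - 1)⁻¹ ∈
      (O1 M B hB).nonunits := by
  have e : TB' M q * algebraMap Kb (Fb (M * q)) ((((ζ ^ (b + 1) : Kbˣ) : Kb)) - 1)⁻¹ =
      algebraMap Kb (Fb (M * q)) ((q : Kb) ^ 12 * ((((ζ ^ (b + 1) : Kbˣ) : Kb)) - 1)⁻¹) *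
        TBinv M q := by
    rw [TB', qF, map_mul, map_pow]
    ring
  rw [e]
  exact mul_mem_nonunits_right _
    ((Fermat.Agent.BR.Separate.algebraMap_mem_nonunits_O1_iff B hB _).2
      (q_pow_div_mem_nonunits B hB hζ hb)) (TBinv_mem_O1 M q B hB)

end Ux

end Fermat.Agent.BR3.FibreProd
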