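import Fermat.Agent.BR3.FibreProdMidFull
import Fermat.Agent.BR.GaloisTwo
import Fermat.Agent.Val.GaussGalois
import Fermat.Agent.BR3.WildCyclo

/-!
# Program C, node I3 (MID), part 5: the Galois action on the middle valuations (I9 input)

`gal N σ` is the coefficientwise action of `σ ∈ Gal(ℚ̄/ℚ)` on `F̄_N`; `σ_b : F₂ → ℚ̄((s))` the
conjugate embeddings over `α₂ F₁` (`j(s^{q²}) ↦ j(ζ^{b+1} s)`), `w₂ b` the middle valuations.

* `ringHom_ext_alpha2_jqq` : ring homomorphisms out of `F₂` are determined on `α₂ F₁` and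
  `j(s^{q²})`; `gal_smul_alpha2`, `gal_smul_jqq` : `α₂` and `j(s^{q²})` are defined over `ℚ`;
* `sigmaB_gal_smul` : `σ (ζ^{b'+1}) = ζ^{b+1}` ⟹ `σ_b (σ • y) = σ (σ_{b'} y)` coefficientwise;
* `gal_smul_mem_w2_iff`, `resw2_gal_smul` : for `σ` in the decomposition group of `B`,
  `σ • y ∈ w₂ b ↔ y ∈ w₂ b'` and `res_{w₂ b} (σ • y) = σ̄ (res_{w₂ b'} y)`;
  `resw2_gal_smul_of_mem_inertia` : inertia acts trivially on the residues;
* `exists_index_of_gal` : the index `b` with `σ (ζ^{b'+1}) = ζ^{b+1}`; `exists_mid_gal` : the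
  decomposition group permutes `Mid`; `gal_smul_mem_w1_iff`, `resw1_gal_smul_of_mem_inertia` :
  `w₁` is fixed;
* `exists_inertia_index`, **`exists_inertia_maps_w2`**, `exists_inertia_mid` : TRANSITIVITY: for
  any two indices `b'`, `b` some `σ` in the inertia group of `B` (fixing the maximal prime-to-`q`
  cyclotomic field) maps `w₂ b'` onto `w₂ b` with `res_{w₂ b} (σ • y) = res_{w₂ b'} y`
  (from `BR3/WildCyclo.exists_inertia_apply_eq_pow`).
-/

set_option autoImplicit false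
set_option linter.style.haveILetI false
set_option linter.unusedSectionVars false

noncomputable section

set_option synthInstance.maxHeartbeats 400000

namespace Fermat.Agent.BR3.FibreProd

open ModularCurve AlgebraicCurve HahnSeries Polynomial Fermat.Agent.X0 Fermat.Agent.Val
open Fermat.Agent.Hecke.AL Fermat.Agent.Igusa Fermat.Agent.BR.Kron Fermat.Agent.BR3.IgSq
open Fermat.Agent.BR.TwoVal Fermat.Agent.BR.ResGen Fermat.Agent.Jac Fermat.Agent.Jac.ALF
open Fermat.Agent.BR.TwoValInst Fermat.Agent.BR.ValTwo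

variable {M q : ℕ} [NeZero M] [hq : Fact q.Prime]

/-! ### Ring homomorphisms out of `F₂` -/

section Ext

variable (hqM : ¬ q ∣ M)

include hqM in
/-- ring homomorphisms out of `F₂` are determined by their values on `α₂ F₁` and on
`j(s^{q²})`. -/
theorem ringHom_ext_alpha2_jqq {L : Type*} [Field L] {φ ψ : Fb (M * q * q) →+* L}
    (h1 : ∀ x, φ (alpha2 M q x) = ψ (alpha2 M q x)) (h2 : φ (jqq M q) = ψ (jqq M q)) :
    φ = ψ := by
  letI := algebraAlong (alpha2 M q)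
  let T : IntermediateField (Fb (M * q)) (Fb (M * q * q)) :=
    (RingHom.eqLocusField φ ψ).toIntermediateField fun y => h1 y
  have hle : IntermediateField.adjoin (Fb (M * q)) {jqq M q} ≤ T := by
    rw [IntermediateField.adjoin_le_iff]
    rintro y rfl
    exact h2
  rw [adjoin_jqq_eq_top hqM] at hle
  exact RingHom.ext fun x => hle (IntermediateField.mem_top (x := x))

end Ext

/-! ### The Galois action on the conjugate embeddings -/

section GalSigma

variable (hqM : ¬ q ∣ M) {ζ : Kbˣ} (hζ : IsPrimitiveRoot ζ q)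

/-- `α₂` is defined over `ℚ`. -/
theorem gal_smul_alpha2 (σ : Kb ≃ₐ[ℚ] Kb) (x : Fb (M * q)) :
    gal (M * q * q) σ • alpha2 M q x = alpha2 M q (gal (M * q) σ • x) :=
  Subtype.ext (by
    rw [coe_arithmeticGalois_smul, coe_heckeAlphaBar, coe_heckeAlphaBar,
      coe_arithmeticGalois_smul])

/-- `j(s^{q²})` is defined over `ℚ`. -/
theorem gal_smul_jqq (σ : Kb ≃ₐ[ℚ] Kb) : gal (M * q * q) σ • jqq M q = jqq M q := by
  haveI : NeZero (q * q) := ⟨Nat.mul_ne_zero hq.out.ne_zero hq.out.ne_zero⟩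
  exact gal_smul_jBarD _ _ _ σ

/-- **the Galois action permutes the conjugate embeddings**: if `σ (ζ^{b'+1}) = ζ^{b+1}` then
`σ_b (σ • y) = σ (σ_{b'} y)` (coefficientwise). -/
theorem sigmaB_gal_smul (σ : Kb ≃ₐ[ℚ] Kb) {b b' : ℕ} (hb : b < q - 1) (hb' : b' < q - 1)
    (h : σ ((ζ ^ (b' + 1) : Kbˣ) : Kb) = ((ζ ^ (b + 1) : Kbˣ) : Kb)) (y : Fb (M * q * q)) :
    sigmaB hqM hζ hb (gal (M * q * q) σ • y) =
      coeffMap (σ : Kb →+* Kb) (sigmaB hqM hζ hb' y) := by
  let φ : Fb (M * q * q) →+* LaurentSeries Kb :=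
    (sigmaB hqM hζ hb).comp (SemilinearAut.toRingAut (gal (M * q * q) σ) : _ →+* _)
  let ψ : Fb (M * q * q) →+* LaurentSeries Kb :=
    (coeffMap (σ : Kb →+* Kb)).comp (sigmaB hqM hζ hb')
  have hφψ : φ = ψ := by
    refine ringHom_ext_alpha2_jqq hqM (fun x => ?_) ?_
    · show sigmaB hqM hζ hb (gal (M * q * q) σ • alpha2 M q x) =
        coeffMap (σ : Kb →+* Kb) (sigmaB hqM hζ hb' (alpha2 M q x))
      rw [gal_smul_alpha2, sigmaB_alpha2, sigmaB_alpha2, coe_arithmeticGalois_smul]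
    · show sigmaB hqM hζ hb (gal (M * q * q) σ • jqq M q) =
        coeffMap (σ : Kb →+* Kb) (sigmaB hqM hζ hb' (jqq M q))
      rw [gal_smul_jqq, sigmaB_jqq, sigmaB_jqq, coeffMap_scale, ModularCurve.coeffMap_jqModC]
      congr 2
      apply Units.ext
      rw [Units.coe_map]
      exact h.symm
  exact congrArg (fun f : Fb (M * q * q) →+* LaurentSeries Kb => f y) hφψ

end GalSigma

/-! ### The decomposition group permutes the middle valuations -/

section GalW2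

variable (B : ValuationSubring (AlgebraicClosure ℚ)) (hB : B.LiesOverPrime q)
variable (hqM : ¬ q ∣ M) {ζ : Kbˣ} (hζ : IsPrimitiveRoot ζ q)
variable {σ : Kb ≃ₐ[ℚ] Kb}

local notation "kB" => IsLocalRing.ResidueField B

/-- the decomposition group preserves the Gauss ring of `ℚ̄((s))` -/
theorem coeffMap_mem_gaussRingA_iff (hσ : σ ∈ B.decompositionSubgroup ℚ)
    {x : LaurentSeries Kb} :
    coeffMap (σ : Kb →+* Kb) x ∈ gaussRingA B (IsLocalRing.residue B) ↔
      x ∈ gaussRingA B (IsLocalRing.residue B) := by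
  constructor
  · intro h
    have h1 := (gaussCompat_of_mem_decompositionSubgroup
      (symm_mem_decompositionSubgroup hσ)).coeffMap_mem_gaussRingA h
    rwa [coeffMap_coeffMap,
      coeffMap_congr (g := RingHom.id Kb) (RingHom.ext fun a => σ.symm_apply_apply a) x,
      coeffMap_id] at h1
  · exact (gaussCompat_of_mem_decompositionSubgroup hσ).coeffMap_mem_gaussRingA

/-- **the decomposition group permutes the middle valuations**: if `σ (ζ^{b'+1}) = ζ^{b+1}` then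
`σ` maps `w₂ b'` onto `w₂ b`. -/
theorem gal_smul_mem_w2_iff (hσ : σ ∈ B.decompositionSubgroup ℚ) {b b' : ℕ} (hb : b < q - 1)
    (hb' : b' < q - 1) (h : σ ((ζ ^ (b' + 1) : Kbˣ) : Kb) = ((ζ ^ (b + 1) : Kbˣ) : Kb))
    {y : Fb (M * q * q)} :
    gal (M * q * q) σ • y ∈ w2 B hB hqM hζ hb ↔ y ∈ w2 B hB hqM hζ hb' := by
  rw [mem_w2_iff, mem_w2_iff, sigmaB_gal_smul hqM hζ σ hb hb' h,
    coeffMap_mem_gaussRingA_iff B hσ]

/-- the residue maps intertwine `σ` with the coefficientwise action of the induced automorphism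
of the residue field of `B` -/
theorem resw2_gal_smul (hσ : σ ∈ B.decompositionSubgroup ℚ) {b b' : ℕ} (hb : b < q - 1)
    (hb' : b' < q - 1) (h : σ ((ζ ^ (b' + 1) : Kbˣ) : Kb) = ((ζ ^ (b + 1) : Kbˣ) : Kb))
    (y : w2 B hB hqM hζ hb') :
    resw2 B hB hqM hζ hb ⟨gal (M * q * q) σ • (y : Fb (M * q * q)),
        (gal_smul_mem_w2_iff B hB hqM hζ hσ hb hb' h).mpr y.2⟩ =
      coeffMap ((decompResAut B ⟨σ, hσ⟩ : kB ≃+* kB) : kB →+* kB)
        (resw2 B hB hqM hζ hb' y) := by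
  rw [resw2_apply, resw2_apply,
    ← (gaussCompat_of_mem_decompositionSubgroup hσ).gaussResA_coeffMap
      ⟨sigmaB hqM hζ hb' (y : Fb (M * q * q)), y.2⟩]
  exact Fermat.Agent.BR.ResGen.gaussResA_congr B _ _ (sigmaB_gal_smul hqM hζ σ hb hb' h _)

/-- **inertia acts trivially on the residues**: for `σ` in the inertia group with
`σ (ζ^{b'+1}) = ζ^{b+1}`, `res_{w₂ b} (σ • y) = res_{w₂ b'} y`. -/
theorem resw2_gal_smul_of_mem_inertia (hσ : σ ∈ B.inertiaSubgroupIn ℚ) {b b' : ℕ}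
    (hb : b < q - 1) (hb' : b' < q - 1)
    (h : σ ((ζ ^ (b' + 1) : Kbˣ) : Kb) = ((ζ ^ (b + 1) : Kbˣ) : Kb))
    (y : w2 B hB hqM hζ hb') :
    resw2 B hB hqM hζ hb ⟨gal (M * q * q) σ • (y : Fb (M * q * q)),
        (gal_smul_mem_w2_iff B hB hqM hζ (mem_decomposition_of_mem_inertiaIn hσ) hb hb'
          h).mpr y.2⟩ = resw2 B hB hqM hζ hb' y := by
  rw [resw2_gal_smul B hB hqM hζ (mem_decomposition_of_mem_inertiaIn hσ) hb hb' h y,
    decompResAut_of_mem_inertiaSubgroupIn hσ]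
  exact coeffMap_id _

include hζ in
/-- the index `b` with `σ (ζ^{b'+1}) = ζ^{b+1}` -/
theorem exists_index_of_gal (σ : Kb ≃ₐ[ℚ] Kb) {b' : ℕ} (hb' : b' < q - 1) :
    ∃ (b : ℕ) (_ : b < q - 1), σ ((ζ ^ (b' + 1) : Kbˣ) : Kb) = ((ζ ^ (b + 1) : Kbˣ) : Kb) := by
  haveI : NeZero q := ⟨hq.out.ne_zero⟩
  have hζK : IsPrimitiveRoot (ζ : Kb) q := hζ.map_of_injective Units.coeHom_injective
  have h1 : (σ ((ζ ^ (b' + 1) : Kbˣ) : Kb)) ^ q = 1 := by
    rw [← map_pow, ← Units.val_pow_eq_pow_val, zeta_pow_pow hζ, Units.val_one, map_one]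
  obtain ⟨i, hi, hi'⟩ := hζK.eq_pow_of_pow_eq_one h1
  have hi0 : i ≠ 0 := by
    rintro rfl
    rw [pow_zero] at hi'
    have h2 : ((ζ ^ (b' + 1) : Kbˣ) : Kb) = 1 := by
      apply σ.injective
      rw [← hi', map_one]
    exact zeta_pow_ne_one hζ hb' (Units.ext h2)
  refine ⟨i - 1, by omega, ?_⟩
  rw [← hi', Units.val_pow_eq_pow_val]
  congr 1
  omega

end GalW2

/-! ### Transitivity: the inertia group permutes the middle valuations transitively -/

section Transitive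

variable (B : ValuationSubring (AlgebraicClosure ℚ)) (hB : B.LiesOverPrime q)
variable (hqM : ¬ q ∣ M) {ζ : Kbˣ} (hζ : IsPrimitiveRoot ζ q)

local notation "kB" => IsLocalRing.ResidueField B

open Fermat.Agent.BR.UnramCyclo

include hB hζ in
/-- for any two indices there is an element of the inertia group of `B` (fixing the maximal
prime-to-`q` cyclotomic field) with `σ (ζ^{b'+1}) = ζ^{b+1}` -/
theorem exists_inertia_index {b b' : ℕ} (hb : b < q - 1) (hb' : b' < q - 1) :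
    ∃ σ ∈ B.inertiaSubgroupIn ℚ,
      σ ((ζ ^ (b' + 1) : Kbˣ) : Kb) = ((ζ ^ (b + 1) : Kbˣ) : Kb) ∧
        ∀ x ∈ cycloField Kb q, σ x = x := by
  haveI : NeZero q := ⟨hq.out.ne_zero⟩
  have hcop : Nat.Coprime (b' + 1) q := by
    rw [Nat.coprime_comm]
    refine (Nat.Prime.coprime_iff_not_dvd hq.out).2 fun h => ?_
    have := Nat.le_of_dvd (Nat.succ_pos b') h
    omega
  have hξ : IsPrimitiveRoot (((ζ ^ (b' + 1) : Kbˣ) : Kb)) q :=
    (hζ.pow_of_coprime (b' + 1) hcop).map_of_injective Units.coeHom_injective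
  have h1 : (((ζ ^ (b + 1) : Kbˣ) : Kb)) ^ q = 1 := by
    rw [← Units.val_pow_eq_pow_val, zeta_pow_pow hζ, Units.val_one]
  obtain ⟨a, -, ha⟩ := hξ.eq_pow_of_pow_eq_one h1
  have hqa : ¬ q ∣ a := by
    rintro ⟨c, rfl⟩
    rw [pow_mul, hξ.pow_eq_one, one_pow] at ha
    exact zeta_pow_ne_one hζ hb (Units.ext ha.symm)
  obtain ⟨σ, hσ, hσξ, hσK⟩ :=
    Fermat.Agent.BR3.WildCyclo.exists_inertia_apply_eq_pow hq.out hξ B hB hqa
  exact ⟨σ, hσ, hσξ.trans ha, hσK⟩

include hB in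
/-- **transitivity (I9 input)**: for any two indices `b'`, `b` there is `σ` in the inertia group
of `B` which maps `w₂ b'` onto `w₂ b` and is compatible with the two residue maps. -/
theorem exists_inertia_maps_w2 {b b' : ℕ} (hb : b < q - 1) (hb' : b' < q - 1) :
    ∃ σ ∈ B.inertiaSubgroupIn ℚ, (∀ x ∈ cycloField Kb q, σ x = x) ∧
      (∀ y : Fb (M * q * q),
        gal (M * q * q) σ • y ∈ w2 B hB hqM hζ hb ↔ y ∈ w2 B hB hqM hζ hb') ∧
      ∀ (y : Fb (M * q * q)) (hy : y ∈ w2 B hB hqM hζ hb')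
        (hy' : gal (M * q * q) σ • y ∈ w2 B hB hqM hζ hb),
        resw2 B hB hqM hζ hb ⟨_, hy'⟩ = resw2 B hB hqM hζ hb' ⟨y, hy⟩ := by
  obtain ⟨σ, hσ, hσζ, hσK⟩ := exists_inertia_index B hB hζ hb hb'
  refine ⟨σ, hσ, hσK, fun y => gal_smul_mem_w2_iff B hB hqM hζ
    (mem_decomposition_of_mem_inertiaIn hσ) hb hb' hσζ, fun y hy hy' => ?_⟩
  exact resw2_gal_smul_of_mem_inertia B hB hqM hζ hσ hb hb' hσζ ⟨y, hy⟩

include hB in
/-- the inertia group acts transitively on `Mid` -/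
theorem exists_inertia_mid (i j : Mid B hB hqM hζ) :
    ∃ σ ∈ B.inertiaSubgroupIn ℚ, ∀ y : Fb (M * q * q),
      gal (M * q * q) σ • y ∈ j.ring B hB hqM hζ ↔ y ∈ i.ring B hB hqM hζ := by
  obtain ⟨σ, hσ, -, h, -⟩ := exists_inertia_maps_w2 B hB hqM hζ
    (j.rep B hB hqM hζ).2 (i.rep B hB hqM hζ).2
  refine ⟨σ, hσ, fun y => ?_⟩
  rw [← i.w2_rep, ← j.w2_rep]
  exact h y

/-- the decomposition group maps every middle valuation onto a middle valuation -/
theorem exists_mid_gal {σ : Kb ≃ₐ[ℚ] Kb} (hσ : σ ∈ B.decompositionSubgroup ℚ)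
    (i : Mid B hB hqM hζ) :
    ∃ j : Mid B hB hqM hζ, ∀ y : Fb (M * q * q),
      gal (M * q * q) σ • y ∈ j.ring B hB hqM hζ ↔ y ∈ i.ring B hB hqM hζ := by
  obtain ⟨b, hb, h⟩ := exists_index_of_gal hζ σ (i.rep B hB hqM hζ).2
  refine ⟨midOf B hB hqM hζ ⟨b, hb⟩, fun y => ?_⟩
  rw [← i.w2_rep, midOf_ring]
  exact gal_smul_mem_w2_iff B hB hqM hζ hσ hb (i.rep B hB hqM hζ).2 h

/-- the decomposition group fixes `w₁` -/
theorem gal_smul_mem_w1_iff {σ : Kb ≃ₐ[ℚ] Kb} (hσ : σ ∈ B.decompositionSubgroup ℚ)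
    {y : Fb (M * q * q)} : gal (M * q * q) σ • y ∈ w1 M B hB ↔ y ∈ w1 M B hB :=
  Fermat.Agent.BR.GaloisTwo.gal_smul_mem_O1_iff (M := M * q) B hB hσ

/-- inertia acts trivially on the residues of `w₁` -/
theorem resw1_gal_smul_of_mem_inertia {σ : Kb ≃ₐ[ℚ] Kb} (hσ : σ ∈ B.inertiaSubgroupIn ℚ)
    (y : w1 M B hB) :
    resw1 M B hB ⟨gal (M * q * q) σ • (y : Fb (M * q * q)),
        (gal_smul_mem_w1_iff B hB (mem_decomposition_of_mem_inertiaIn hσ)).mpr y.2⟩ =
      resw1 M B hB y :=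
  Fermat.Agent.BR.GaloisTwo.res1_gal_smul_of_mem_inertia (M := M * q) B hB hσ y

end Transitive

end Fermat.Agent.BR3.FibreProd
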