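import Fermat.Agent.BR3.FibreProdMid

/-!
# Program C, node I3 (MID), part 2: all `q` embeddings, norm–residue along `α₂`, Kummer equation

* `sigmaAll hqM hζ : Option (Fin (q - 1)) → (F₂ →+* ℚ̄((s)))` : all `q` embeddings of
  `F₂ = Fb (M * q * q)` over `α₂ F₁` (`none` = the inclusion = the sheet `c_∞ = w₁`, `some b` = `σ_b`
  = the middle sheets), pairwise distinct on `j(s^{q²})`;
* `coeB_norm` : `N_{F₂/α₂F₁}(x) = ∏_o σ_o(x)` in `ℚ̄((s))`;
* `norm_mem_O1`, `res1_norm` : if `x ∈ w₁ ∩ ⋂_b w₂ b` then `N x ∈ O1` and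
  `res₁(N x) = res_{w₁}(x) · ∏_b res_{w₂ b}(x)` (norm–residue along `a` over `can`, no counting);
* `prod_zeta_sub_one`, `normUq`, `res1_normUq` :
  `res₁(N(U)/q) = (-1)^{q-1} (j̃^{q²} - j̃) (θ j̃)^{q-1}`;
* `exists_res1_eq_thetaL_pow` : **the Kummer equation** `γ := (θ j̃)^{q-1} ∈ res₁(O1)`:
  the middle residue fields are `κ(γ^{1/(q-1)})`, `κ` the residue field of `can`.
-/

set_option autoImplicit false
set_option linter.style.haveILetI false
set_option linter.unusedSectionVars false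

noncomputable section

set_option synthInstance.maxHeartbeats 400000

namespace Fermat.Agent.BR3.FibreProd

open ModularCurve AlgebraicCurve HahnSeries Polynomial Fermat.Agent.X0 Fermat.Agent.Val
open Fermat.Agent.Hecke.AL Fermat.Agent.Igusa Fermat.Agent.BR.Kron Fermat.Agent.BR3.IgSq
open Fermat.Agent.BR.TwoVal Fermat.Agent.BR.ResGen Fermat.Agent.Jac Fermat.Agent.Jac.ALF

variable {M q : ℕ} [NeZero M] [hq : Fact q.Prime]

/-! ### All `q` embeddings of `F₂` over `α₂ F₁` -/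

section Embeddings

variable (hqM : ¬ q ∣ M) {ζ : Kbˣ} (hζ : IsPrimitiveRoot ζ q)

/-- All `q` embeddings `F₂ → ℚ̄((s))` over `α₂ F₁`: the inclusion (`none`, the sheet `c_∞`) and the
`σ_b` (`some b`, the middle sheets). -/
def sigmaAll : Option (Fin (q - 1)) → (Fb (M * q * q) →+* LaurentSeries Kb)
  | none => coeB (M * q * q)
  | some b => sigmaB hqM hζ b.2

@[simp] theorem sigmaAll_none : sigmaAll hqM hζ none = coeB (M * q * q) := rfl

@[simp] theorem sigmaAll_some (b : Fin (q - 1)) :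
    sigmaAll hqM hζ (some b) = sigmaB hqM hζ b.2 := rfl

theorem sigmaAll_alpha2 (o : Option (Fin (q - 1))) (x : Fb (M * q)) :
    sigmaAll hqM hζ o (alpha2 M q x) = coeB (M * q) x := by
  cases o with
  | none => exact coeB_alpha2 x
  | some b => exact sigmaB_alpha2 hqM hζ b.2 x

theorem coeff_scale_jqModC_neg_one (z : Kbˣ) :
    (scale z (jqModC Kb)).coeff (-1) = ((z⁻¹ : Kbˣ) : Kb) := by
  rw [scale_coeff, coeff_jqModC_neg_one, mul_one, zpow_neg_one]

theorem coeff_J_mul_self_neg_one :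
    haveI : NeZero (q * q) := ⟨Nat.mul_ne_zero hq.out.ne_zero hq.out.ne_zero⟩
    (J (1 : Kbˣ) (q * q)).coeff (-1) = 0 := by
  haveI : NeZero (q * q) := ⟨Nat.mul_ne_zero hq.out.ne_zero hq.out.ne_zero⟩
  rw [J_one_unit, qExpand_coeff_of_not_dvd]
  rw [Int.dvd_neg, Int.natCast_dvd]
  intro h
  have h4 : 4 ≤ q * q := by nlinarith [hq.out.two_le]
  have h1 : q * q ∣ 1 := by simpa using h
  have := Nat.le_of_dvd one_pos h1
  omega

theorem sigmaAll_jqq_injective :
    Function.Injective fun o => sigmaAll hqM hζ o (jqq M q) := by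
  intro o o' h
  simp only at h
  have hc := congrArg (fun f : LaurentSeries Kb => f.coeff (-1)) h
  cases o with
  | none =>
    cases o' with
    | none => rfl
    | some b' =>
      exfalso
      simp only [sigmaAll_none, sigmaAll_some, coeB_apply, coe_jqq, sigmaB_jqq] at hc
      rw [coeff_J_mul_self_neg_one, coeff_scale_jqModC_neg_one] at hc
      exact Units.ne_zero _ hc.symm
  | some b =>
    cases o' with
    | none =>
      exfalso
      simp only [sigmaAll_none, sigmaAll_some, coeB_apply, coe_jqq, sigmaB_jqq] at hc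
      rw [coeff_J_mul_self_neg_one, coeff_scale_jqModC_neg_one] at hc
      exact Units.ne_zero _ hc
    | some b' =>
      simp only [sigmaAll_some, sigmaB_jqq] at hc
      rw [coeff_scale_jqModC_neg_one, coeff_scale_jqModC_neg_one] at hc
      have h1 : ζ ^ ((b : ℕ) + 1) = ζ ^ ((b' : ℕ) + 1) := inv_injective (Units.ext hc)
      have h2 := hζ.pow_inj (by have := b.2; omega) (by have := b'.2; omega) h1
      congr 1
      exact Fin.ext (by omega)

/-- **The norm along `α₂` is the product over all `q` embeddings.** -/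
theorem coeB_norm (x : Fb (M * q * q)) :
    letI := algebraAlong (alpha2 M q)
    coeB (M * q) (Algebra.norm (Fb (M * q)) x) = ∏ o, sigmaAll hqM hζ o x := by
  letI := algebraAlong (alpha2 M q)
  haveI : Module.Finite (Fb (M * q)) (Fb (M * q * q)) :=
    Fermat.Agent.Hecke.finiteAlong_heckeAlphaBar (M * q) q
  have hfd : Module.finrank (Fb (M * q)) (Fb (M * q * q)) = q := finrankAlong_alpha2
  let Ebar := AlgebraicClosure (LaurentSeries Kb)
  let ι : LaurentSeries Kb →+* Ebar := algebraMap (LaurentSeries Kb) Ebar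
  letI : Algebra (Fb (M * q)) Ebar := (ι.comp (coeB (M * q))).toAlgebra
  let τ : Option (Fin (q - 1)) → (Fb (M * q * q) →ₐ[Fb (M * q)] Ebar) := fun o =>
    { ι.comp (sigmaAll hqM hζ o) with
      commutes' := fun y => by
        show ι (sigmaAll hqM hζ o (alpha2 M q y)) = ι (coeB (M * q) y)
        rw [sigmaAll_alpha2] }
  have hτ : ∀ o y, τ o y = ι (sigmaAll hqM hζ o y) := fun _ _ => rfl
  have hinj : Function.Injective τ := by
    intro o o' h
    apply sigmaAll_jqq_injective hqM hζ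
    apply ι.injective
    have := congrArg (fun f : Fb (M * q * q) →ₐ[Fb (M * q)] Ebar => f (jqq M q)) h
    simpa [hτ] using this
  have hcard : Fintype.card (Option (Fin (q - 1))) =
      Fintype.card (Fb (M * q * q) →ₐ[Fb (M * q)] Ebar) := by
    rw [AlgHom.card, hfd, Fintype.card_option, Fintype.card_fin]
    have := hq.out.pos
    omega
  have hbij : Function.Bijective τ :=
    (Fintype.bijective_iff_injective_and_card τ).2 ⟨hinj, hcard⟩
  have h1 := Algebra.norm_eq_prod_embeddings (Fb (M * q)) Ebar x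
  rw [← Fintype.prod_bijective τ hbij (fun o => τ o x) (fun σ => σ x) (fun _ => rfl)] at h1
  apply ι.injective
  rw [map_prod]
  exact h1

end Embeddings

/-! ### Norm–residue along `α₂` over `can` -/

section NormResidue

variable (B : ValuationSubring (AlgebraicClosure ℚ)) (hB : B.LiesOverPrime q)
variable (hqM : ¬ q ∣ M) {ζ : Kbˣ} (hζ : IsPrimitiveRoot ζ q)

local notation "kB" => IsLocalRing.ResidueField B

/-- membership in all the valuations over `O1` along `α₂`, in terms of the embeddings -/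
theorem sigmaAll_mem_gaussRingA {x : Fb (M * q * q)} (h1 : x ∈ w1 M B hB)
    (h2 : ∀ b : Fin (q - 1), x ∈ w2 B hB hqM hζ b.2) (o : Option (Fin (q - 1))) :
    sigmaAll hqM hζ o x ∈ gaussRingA B (IsLocalRing.residue B) := by
  cases o with
  | none => exact h1
  | some b => exact h2 b

/-- **Integrality of the norm**: if `x` lies in `w₁` and in all `w₂ b`, then `N x ∈ O1`. -/
theorem norm_mem_O1 {x : Fb (M * q * q)} (h1 : x ∈ w1 M B hB)
    (h2 : ∀ b : Fin (q - 1), x ∈ w2 B hB hqM hζ b.2) :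
    letI := algebraAlong (alpha2 M q)
    Algebra.norm (Fb (M * q)) x ∈ O1 M B hB := by
  letI := algebraAlong (alpha2 M q)
  show coeB (M * q) (Algebra.norm (Fb (M * q)) x) ∈ gaussRingA B (IsLocalRing.residue B)
  rw [coeB_norm hqM hζ]
  exact Subring.prod_mem _ fun o _ => sigmaAll_mem_gaussRingA B hB hqM hζ h1 h2 o

/-- **Norm–residue along `α₂` over `can`**: `res₁ (N x) = res_{w₁} x · ∏_b res_{w₂ b} x`. -/
theorem res1_norm {x : Fb (M * q * q)} (h1 : x ∈ w1 M B hB)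
    (h2 : ∀ b : Fin (q - 1), x ∈ w2 B hB hqM hζ b.2) :
    letI := algebraAlong (alpha2 M q)
    res1 M B hB ⟨Algebra.norm (Fb (M * q)) x, norm_mem_O1 B hB hqM hζ h1 h2⟩ =
      resw1 M B hB ⟨x, h1⟩ * ∏ b : Fin (q - 1), resw2 B hB hqM hζ b.2 ⟨x, h2 b⟩ := by
  letI := algebraAlong (alpha2 M q)
  let y : Option (Fin (q - 1)) → gaussRingA B (IsLocalRing.residue B) := fun o =>
    ⟨sigmaAll hqM hζ o x, sigmaAll_mem_gaussRingA B hB hqM hζ h1 h2 o⟩
  have hy : ((∏ o, y o : gaussRingA B (IsLocalRing.residue B)) : LaurentSeries Kb) =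
      coeB (M * q) (Algebra.norm (Fb (M * q)) x) := by
    rw [coeB_norm hqM hζ]
    exact map_prod (gaussRingA B (IsLocalRing.residue B)).subtype y Finset.univ
  have h3 : res1 M B hB ⟨Algebra.norm (Fb (M * q)) x, norm_mem_O1 B hB hqM hζ h1 h2⟩ =
      gaussResA B (IsLocalRing.residue B) (∏ o, y o) :=
    Fermat.Agent.BR.ResGen.gaussResA_congr B _ _ hy.symm
  rw [h3, map_prod, Fintype.prod_option]
  rfl

end NormResidue

/-! ### The Kummer equation: `(θ j̃)^{q-1}` lies in the residue field of `can` -/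

section Kummer

variable (B : ValuationSubring (AlgebraicClosure ℚ)) (hB : B.LiesOverPrime q)
variable (hqM : ¬ q ∣ M) {ζ : Kbˣ} (hζ : IsPrimitiveRoot ζ q)

local notation "kB" => IsLocalRing.ResidueField B

include hζ in
/-- `∏_{0<c<q} (ζ^c - 1) = (-1)^{q-1} q`. -/
theorem prod_zeta_sub_one :
    ∏ b : Fin (q - 1), (((ζ ^ ((b : ℕ) + 1) : Kbˣ) : Kb) - 1) = (-1) ^ (q - 1) * (q : Kb) := by
  obtain ⟨n, hn⟩ : ∃ n, q = n + 1 := ⟨q - 1, (Nat.succ_pred_eq_of_pos hq.out.pos).symm⟩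
  have hζ' : IsPrimitiveRoot (ζ : Kb) (n + 1) := by
    rw [← hn]
    exact hζ.map_of_injective (f := Units.coeHom Kb) Units.val_injective
  have h := hζ'.prod_pow_sub_one_eq_order
  have hq1 : q - 1 = n := by omega
  rw [hq1, Fin.prod_univ_eq_prod_range (fun k => (((ζ ^ (k + 1) : Kbˣ) : Kb) - 1)) n]
  simp only [Units.val_pow_eq_pow_val]
  have h2 : ((-1 : Kb) ^ n) * ((-1) ^ n * ∏ k ∈ Finset.range n, ((ζ : Kb) ^ (k + 1) - 1)) =
      (-1) ^ n * ((n : Kb) + 1) := by rw [h]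
  rw [← mul_assoc, ← mul_pow, neg_one_mul, neg_neg, one_pow, one_mul] at h2
  rw [h2, hn]
  push_cast
  ring

variable (M q) in
/-- `N_{F₂/α₂F₁}(U) / q ∈ F₁`. -/
def normUq : Fb (M * q) :=
  letI := algebraAlong (alpha2 M q)
  Algebra.norm (Fb (M * q)) (U M q) * algebraMap Kb (Fb (M * q)) ((q : Kb))⁻¹

include hζ in
theorem U_eq_Utilde_mul (b : Fin (q - 1)) :
    U M q = Utilde M q ((ζ ^ ((b : ℕ) + 1) : Kbˣ) : Kb) *
      algebraMap Kb (Fb (M * q * q)) (((ζ ^ ((b : ℕ) + 1) : Kbˣ) : Kb) - 1) := by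
  have hne : ((ζ ^ ((b : ℕ) + 1) : Kbˣ) : Kb) - 1 ≠ 0 := by
    intro h
    apply zeta_pow_ne_one hζ b.2
    exact Units.ext (by rw [Units.val_one]; exact sub_eq_zero.1 h)
  have h1 : algebraMap Kb (Fb (M * q * q)) (((ζ ^ ((b : ℕ) + 1) : Kbˣ) : Kb) - 1)⁻¹ *
      algebraMap Kb (Fb (M * q * q)) (((ζ ^ ((b : ℕ) + 1) : Kbˣ) : Kb) - 1) = 1 := by
    rw [← map_mul, inv_mul_cancel₀ hne, map_one]
  unfold Utilde
  rw [mul_assoc (U M q), h1, mul_one]

/-- `N(U)/q = (-1)^{q-1} · U · ∏_b σ_b(Ũ_b)` in `ℚ̄((s))`. -/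
theorem coeB_normUq :
    coeB (M * q) (normUq M q) = (-1) ^ (q - 1) * (coeB (M * q * q) (U M q) *
      ∏ b : Fin (q - 1), sigmaB hqM hζ b.2 (Utilde M q ((ζ ^ ((b : ℕ) + 1) : Kbˣ) : Kb))) := by
  letI := algebraAlong (alpha2 M q)
  have hq0 : ((q : Kb)) ≠ 0 := Nat.cast_ne_zero.2 hq.out.ne_zero
  have h1 : ∀ b : Fin (q - 1), sigmaB hqM hζ b.2 (U M q) =
      sigmaB hqM hζ b.2 (Utilde M q ((ζ ^ ((b : ℕ) + 1) : Kbˣ) : Kb)) *
        HahnSeries.C (((ζ ^ ((b : ℕ) + 1) : Kbˣ) : Kb) - 1) := by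
    intro b
    conv_lhs => rw [U_eq_Utilde_mul hζ b, map_mul, sigmaB_algebraMap]
  have h2 : coeB (M * q) (algebraMap Kb (Fb (M * q)) ((q : Kb))⁻¹) =
      HahnSeries.C ((q : Kb))⁻¹ := by
    show algebraMap Kb (LaurentSeries Kb) _ = _
    rw [algebraMap_laurentSeries_eq_single]
    rfl
  rw [normUq, map_mul, coeB_norm hqM hζ, Fintype.prod_option, sigmaAll_none, h2]
  simp only [sigmaAll_some, h1]
  rw [Finset.prod_mul_distrib, ← map_prod, prod_zeta_sub_one hζ, map_mul, map_pow, map_neg,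
    map_one]
  have h3 : (HahnSeries.C (q : Kb) : LaurentSeries Kb) * HahnSeries.C ((q : Kb))⁻¹ = 1 := by
    rw [← map_mul, mul_inv_cancel₀ hq0, map_one]
  linear_combination ((-1) ^ (q - 1) * coeB (M * q * q) (U M q) *
    ∏ b : Fin (q - 1), sigmaB hqM hζ b.2 (Utilde M q ((ζ ^ ((b : ℕ) + 1) : Kbˣ) : Kb))) * h3

include hζ hqM in
theorem normUq_mem_O1 : normUq M q ∈ O1 M B hB := by
  show coeB (M * q) (normUq M q) ∈ gaussRingA B (IsLocalRing.residue B)
  rw [coeB_normUq hqM hζ]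
  refine Subring.mul_mem _ (Subring.pow_mem _ (Subring.neg_mem _ (Subring.one_mem _)) _)
    (Subring.mul_mem _ (U_mem_w1 B hB) (Subring.prod_mem _ fun b _ => ?_))
  exact Utilde_mem_w2 B hB hqM hζ b.2

/-- **The residue of `N(U)/q`**: `(-1)^{q-1} (j̃^{q²} - j̃) (θ j̃)^{q-1}`. -/
theorem res1_normUq :
    res1 M B hB ⟨normUq M q, normUq_mem_O1 B hB hqM hζ⟩ =
      (-1) ^ (q - 1) * ((jqModC kB ^ (q * q) - jqModC kB) * thetaL kB (jqModC kB) ^ (q - 1)) := by
  let y0 : gaussRingA B (IsLocalRing.residue B) := ⟨coeB (M * q * q) (U M q), U_mem_w1 B hB⟩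
  let y : Fin (q - 1) → gaussRingA B (IsLocalRing.residue B) := fun b =>
    ⟨sigmaB hqM hζ b.2 (Utilde M q ((ζ ^ ((b : ℕ) + 1) : Kbˣ) : Kb)),
      Utilde_mem_w2 B hB hqM hζ b.2⟩
  have hy : (((-1) ^ (q - 1) * (y0 * ∏ b, y b) : gaussRingA B (IsLocalRing.residue B)) :
      LaurentSeries Kb) = coeB (M * q) (normUq M q) := by
    rw [coeB_normUq hqM hζ]
    push_cast
    rfl
  have h3 : res1 M B hB ⟨normUq M q, normUq_mem_O1 B hB hqM hζ⟩ =
      gaussResA B (IsLocalRing.residue B) ((-1) ^ (q - 1) * (y0 * ∏ b, y b)) :=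
    Fermat.Agent.BR.ResGen.gaussResA_congr B _ _ hy.symm
  rw [h3, map_mul, map_pow, map_neg, map_one, map_mul, map_prod]
  have h4 : gaussResA B (IsLocalRing.residue B) y0 = jqModC kB ^ (q * q) - jqModC kB :=
    resw1_U B hB
  have h5 : ∀ b : Fin (q - 1), gaussResA B (IsLocalRing.residue B) (y b) =
      thetaL kB (jqModC kB) := fun b => resw2_Utilde B hB hqM hζ b.2
  rw [h4]
  simp only [h5, Finset.prod_const, Finset.card_univ, Fintype.card_fin]

theorem jq'_mem_O1 : jq' M q ∈ O1 M B hB := by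
  unfold jq'
  exact jBarD_mem_gaussValQbar B (M * q) hq.out.ne_zero hB q _

/-- `res₁ j(s^q) = j̃^q`. -/
theorem res1_jq' : res1 M B hB ⟨jq' M q, jq'_mem_O1 B hB⟩ = jqModC kB ^ q := by
  haveI := charP_kB B hB
  have h := gaussResQbar_jBarD B (M * q) hq.out.ne_zero hB q (dvd_mul_left q M)
  have h2 : jqNModC kB q = jqModC kB ^ q := by
    have h3 := jqNModC_mul_char kB q 1
    rw [jqNModC_one] at h3
    rw [← h3]
    exact qExpand_congr (one_mul q).symm _
  rw [h2] at h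
  rw [← h]
  rfl

variable (M q) in
/-- `t = j(s^q)^q - j ∈ F₁`: a unit of `can` with residue `j̃^{q²} - j̃`. -/
def tCan : Fb (M * q) := jq' M q ^ q - jBar (M * q)

theorem tCan_mem_O1 : tCan M q ∈ O1 M B hB :=
  sub_mem (pow_mem (jq'_mem_O1 B hB) q) (jBar_mem_O1 B hB)

theorem res1_tCan :
    res1 M B hB ⟨tCan M q, tCan_mem_O1 B hB⟩ = jqModC kB ^ (q * q) - jqModC kB := by
  have h : (⟨tCan M q, tCan_mem_O1 B hB⟩ : O1 M B hB) =
      ⟨jq' M q, jq'_mem_O1 B hB⟩ ^ q - ⟨jBar (M * q), jBar_mem_O1 B hB⟩ := rfl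
  rw [h, map_sub, map_pow, res1_jq', res1_jBar, ← pow_mul]

theorem res1_tCan_ne_zero : res1 M B hB ⟨tCan M q, tCan_mem_O1 B hB⟩ ≠ 0 := by
  rw [res1_tCan, ← resw1_U (M := M) (q := q) B hB]
  exact resw1_U_ne_zero (M := M) (q := q) B hB

theorem thetaL_jqModC_ne_zero : thetaL kB (jqModC kB) ≠ 0 := by
  intro h
  have h1 := congrArg (fun f : LaurentSeries kB => f.coeff (-1)) h
  simp only [coeff_thetaL, coeff_jqModC_neg_one, HahnSeries.coeff_zero] at h1
  simp at h1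

include hqM hζ in
/-- **The Kummer equation.** `γ = (θ j̃)^{q-1}` lies in the residue field of `can`: it is the
residue of `(-1)^{q-1} (N(U)/q) / (j(s^q)^q - j) ∈ O1`. -/
theorem exists_res1_eq_thetaL_pow :
    ∃ (g : Fb (M * q)) (hg : g ∈ O1 M B hB),
      res1 M B hB ⟨g, hg⟩ = thetaL kB (jqModC kB) ^ (q - 1) := by
  have ht : tCan M q ∉ (O1 M B hB).nonunits := fun h =>
    res1_tCan_ne_zero (M := M) (q := q) B hB
      ((Fermat.Agent.BR.TwoValInst.mem_nonunits_O1_iff B hB (tCan_mem_O1 B hB)).1 h)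
  have hinv : (tCan M q)⁻¹ ∈ O1 M B hB := inv_mem_of_notMem_nonunits _ ht
  have ht0 : tCan M q ≠ 0 := by
    intro h
    apply res1_tCan_ne_zero (M := M) (q := q) B hB
    have : (⟨tCan M q, tCan_mem_O1 B hB⟩ : O1 M B hB) = 0 := Subtype.ext h
    rw [this, map_zero]
  have hmul : (⟨(tCan M q)⁻¹, hinv⟩ : O1 M B hB) * ⟨tCan M q, tCan_mem_O1 B hB⟩ = 1 :=
    Subtype.ext (inv_mul_cancel₀ ht0)
  have hres := congrArg (res1 M B hB) hmul
  rw [map_mul, map_one, res1_tCan] at hres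
  refine ⟨(-1) ^ (q - 1) * normUq M q * (tCan M q)⁻¹,
    (O1 M B hB).mul_mem _ _ ((O1 M B hB).mul_mem _ _
      (pow_mem (neg_mem (O1 M B hB).one_mem) _) (normUq_mem_O1 B hB hqM hζ)) hinv, ?_⟩
  have h : (⟨(-1) ^ (q - 1) * normUq M q * (tCan M q)⁻¹, (O1 M B hB).mul_mem _ _
      ((O1 M B hB).mul_mem _ _ (pow_mem (neg_mem (O1 M B hB).one_mem) _)
        (normUq_mem_O1 B hB hqM hζ)) hinv⟩ : O1 M B hB) =
      (-1) ^ (q - 1) * ⟨normUq M q, normUq_mem_O1 B hB hqM hζ⟩ * ⟨(tCan M q)⁻¹, hinv⟩ := rfl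
  rw [h, map_mul, map_mul, map_pow, map_neg, map_one, res1_normUq B hB hqM hζ]
  have hsq : ((-1 : LaurentSeries kB) ^ (q - 1)) * (-1) ^ (q - 1) = 1 := by
    rw [← mul_pow, neg_one_mul, neg_neg, one_pow]
  linear_combination (thetaL kB (jqModC kB) ^ (q - 1) *
      (res1 M B hB ⟨(tCan M q)⁻¹, hinv⟩ * (jqModC kB ^ (q * q) - jqModC kB))) * hsq +
    thetaL kB (jqModC kB) ^ (q - 1) * hres

end Kummer

end Fermat.Agent.BR3.FibreProd
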