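import Fermat.Agent.BR3.GeoFinal
import Fermat.Agent.BR3.PushGlue

/-!
# Program C (S36), node (I11-H2): the hypothesis `hkind` of `GeoFinal.newInvBoundedLevel_of_geo`

`S` a semistable setup on `Fb (N₁ * q) / Kb` over `B` (the stable model `S″` of `X₀(M q²)`), whose
components are presented by `eι : (Bool ⊕ Mid) ⊕ SSp ≃ ι`
(`cZero = eι (inl (inl true))`, `cInf = eι (inl (inl false))`, `mid i = eι (inl (inr i))`,
`z e = eι (inr e)`); `Sa`, `Sb` semistable setups on `Fb N₁ / Kb` (the one-level refinements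
`S′ref_a`, `S′ref_b`), `φa = heckeAlphaBar Kb N₁ q`, `φb = heckeBetaBar Kb N₁ q`.

For a class `y` of the finite part of `S`, fixed by the inertia group and killed by `α_*`, `β_*`:

* `abRes_cInf_eq_zero` : `cInf` is the only component over the component `vb` of `Sb` along `φb`,
  with purely inseparable residue extension (`MultiVal.Full` datum `Db` with one valuation)
  `⟹ abRes cInf y = 0`;  `abRes_cZero_eq_zero` : the mirror along `φa`;
* `smul_abRes_mid_eq_zero` : the components over the component `va` of `Sa` along `φa` are `cInf`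
  and the `mid i` (`MultiVal.Full` datum `Da` over `Option Mid`), the isomorphisms of the norm
  formula between the `mid i` are induced by inertia elements
  `⟹ (|Mid| · dmid) • abRes (mid j) y = 0`;
* `smul_abRes_vert_eq_zero` : an inertia element maps `z e` to itself through `a`, and the classes
  of `Pic⁰` of the residue field fixed by `a` are killed by `e₂` `⟹ e₂ • abRes (z e) y = 0`;
* **`hkind_of_data`** : verbatim the binder `hkind` of `GeoFinal.newInvBoundedLevel_of_geo`, with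
  `e₁ = |Mid| · dmid`.
-/

set_option autoImplicit false
set_option linter.style.haveILetI false
set_option linter.unusedSectionVars false
set_option linter.unusedVariables false

open ModularCurve AlgebraicCurve

noncomputable section

namespace Fermat.Agent.BR3.GeoAbFinal

open IsLocalRing Fermat.Agent.Jac Fermat.Agent.X0 Fermat.Agent.Red Fermat.Agent.BR.SS
  Fermat.Agent.BR Fermat.Agent.BR.PicFunct
  Fermat.Agent.BR2.Filt Fermat.Agent.BR3.FiltMaps Fermat.Agent.BR3.FiltPerm
  Fermat.Agent.BR.LevelTransfer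
  Fermat.Agent.BR2.LevelMaps Fermat.Agent.BR3.G5Multi Fermat.Agent.BR3.PushGlue
  Fermat.Agent.BR3.MultiVal

local notation "Qb" => AlgebraicClosure ℚ

variable (N₁ q lam : ℕ) [NeZero N₁] [NeZero q] (B : ValuationSubring Qb)
  {k : Type*} [Field k] {π : B →+* k} (hπ : Function.Surjective π)
  {ι : Type*} {Ft : ι → Type*} [∀ v, Field (Ft v)] [∀ v, Algebra k (Ft v)] {ν : Type*}
  (S : SemistableSetup (F := Fb (N₁ * q)) B π ι Ft ν)
  {ι₀ : Type*} {Ft₀ : ι₀ → Type*} [∀ v, Field (Ft₀ v)] [∀ v, Algebra k (Ft₀ v)] {ν₀ : Type*}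
  (S₀ : SemistableSetup (F := Fb N₁) B π ι₀ Ft₀ ν₀)

/-! ### a single component with purely inseparable residue extension -/

/-- **A horizontal component**: `w` is the only component of `S` over the component `v` of `S₀`
along `φ`, with purely inseparable residue extension of degree prime to `m`; then the abelian part
on `w` of a class of the finite part killed by `φ_*` vanishes. -/
theorem abRes_eq_zero_of_full_insep (hF₀ : RiemannPkg Qb (Fb N₁))
    (hF : RiemannPkg Qb (Fb (N₁ * q))) (hFt : ∀ v, RiemannPkg k (Ft v))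
    (φ : Fb N₁ →ₐ[Qb] Fb (N₁ * q)) (hφ : φ.toRingHom.IsIntegral) (hfin : FiniteAlong Qb φ)
    (hN : NormFormulaAlong Qb φ hfin) (v : ι₀) (w : ι) {κ : Type*} [Fintype κ]
    (D : letI := algebraAlong φ
      MultiVal.Full (S₀.O v) (fun _ : Unit => S.O w) (fun _ => κ))
    (p : ℕ) [ExpChar (Ft₀ v) p] (a : ℕ)
    (hpi : ∀ g : Ft w, g ^ p ^ a ∈ (resHom hπ (liesOverAlong_of_full D ())).toRingHom.range)
    {m : ℕ} (hm : m ≠ 0) (hd : Nat.Coprime (Fintype.card κ) m) (y : natSub S m)
    (h0 : PicFunct.pic0Push φ hφ hfin hN (y : Pic0 Qb (Fb (N₁ * q))) = 0) :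
    abRes hF hFt hm w y = 0 := by
  haveI := hF₀.principal
  haveI := hF.principal
  exact abRes_eq_zero_of_normRes_insep (S₀ := S₀) (S := S) hF₀ hF hFt φ hφ hfin hN
    (w := fun _ : Unit => w)
    (normRes_of_full_resHom S₀ S φ hfin hπ v (fun _ : Unit => w) D)
    (fun g => resHom_norm_of_insep hfin hπ D () p a g (hpi g)) hm hd y h0

/-! ### the middle components -/

variable [∀ v, HasPrincipalDivisors k (Ft v)] [∀ v, HasPrincipalDivisors k (Ft₀ v)]

/-- **The middle components**: the components of `S` over the component `v` of `S₀` along `φ` are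
`w none` (with vanishing abelian part) and the `w (some i)`, `i : Mid`; the isomorphisms in the norm
formula between the `w (some i)` are induced by elements of `Gs`, which fix `y`.  Then
`(|Mid| · d) • abRes (w (some j)) y = 0`, `d` the common residue degree. -/
theorem smul_abRes_mid_eq_zero_of_full (hF₀ : RiemannPkg Qb (Fb N₁))
    (hF : RiemannPkg Qb (Fb (N₁ * q))) (hFt : ∀ v, RiemannPkg k (Ft v))
    (hFt₀ : ∀ v, RiemannPkg k (Ft₀ v))
    (φ : Fb N₁ →ₐ[Qb] Fb (N₁ * q)) (hφ : φ.toRingHom.IsIntegral) (hfin : FiniteAlong Qb φ)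
    (hN : NormFormulaAlong Qb φ hfin) (v : ι₀) {Mid : Type*} [Fintype Mid] (w : Option Mid → ι)
    {κ : Option Mid → Type*} [∀ j, Fintype (κ j)]
    (D : letI := algebraAlong φ
      MultiVal.Full (S₀.O v) (fun j => S.O (w j)) κ)
    (hNψ : ∀ j, NormFormulaAlong k (resHom hπ (liesOverAlong_of_full D j))
      (finiteAlong_resHom hfin hπ D j))
    (hFI : ∀ i : Mid, FundamentalIdentityAlong k (resHom hπ (liesOverAlong_of_full D (some i)))
      (isIntegral_resHom hfin hπ D (some i)))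
    (d : ℕ) (hdeg : ∀ i : Mid, Fintype.card (κ (some i)) = d)
    (j : Mid) {T : Mid → Type*} [∀ i, Fintype (T i)]
    (σ : ∀ i, T i → (Ft (w (some i)) ≃ₐ[k] Ft (w (some j))))
    (hnorm : ∀ (i : Mid) (z : Ft (w (some i))),
      resHom hπ (liesOverAlong_of_full D (some j))
        (normAlong (resHom hπ (liesOverAlong_of_full D (some i))) z) = ∏ t, σ i t z)
    (hcard : ∀ i, Fintype.card (T i) = d)
    (Gs : Set (SemilinearAut Qb (Fb (N₁ * q))))
    (hmaps : ∀ (i : Mid) (t : T i), ∃ g ∈ Gs, MapsComp S g (w (some i)) (w (some j)) (σ i t))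
    {m : ℕ} (hm : m ≠ 0) (y : natSub S m)
    (hfix : ∀ g ∈ Gs, g • (y : Pic0 Qb (Fb (N₁ * q))) = y)
    (hnone : abRes hF hFt hm (w none) y = 0)
    (h0 : PicFunct.pic0Push φ hφ hfin hN (y : Pic0 Qb (Fb (N₁ * q))) = 0) :
    (Fintype.card Mid * d) • abRes hF hFt hm (w (some j)) y = 0 := by
  haveI := hF₀.principal
  haveI := hF.principal
  have hsum := sum_push_abRes_eq_zero (S₀ := S₀) (S := S) hF₀ hF hFt φ hφ hfin hN
    (normRes_of_full_resHom S₀ S φ hfin hπ v w D)
    (fun j => isIntegral_resHom hfin hπ D j) (fun j => finiteAlong_resHom hfin hπ D j) hNψ hm y h0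
  have hsum' := GeoAb.sum_push_mid_eq_zero hF hFt hm w
    (fun j => resHom hπ (liesOverAlong_of_full D j)) (fun j => isIntegral_resHom hfin hπ D j)
    (fun j => finiteAlong_resHom hfin hπ D j) hNψ y hnone hsum
  have hfr : ∀ i : Mid, finrankAlong k (resHom hπ (liesOverAlong_of_full D (some i))) = d :=
    fun i => by rw [finrankAlong_resHom hfin hπ D (some i), hdeg i]
  have h := GeoAb.smul_abRes_eq_zero_of_mid (S := S) (fun i : Mid => w (some i))
    (fun i => resHom hπ (liesOverAlong_of_full D (some i)))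
    (fun i => isIntegral_resHom hfin hπ D (some i))
    (fun i => finiteAlong_resHom hfin hπ D (some i)) (fun i => hNψ (some i)) hFI hF hFt hm j σ
    hnorm (fun i => by rw [hcard i, hfr j]) Gs hmaps y hfix hsum'
  rwa [hfr j] at h

/-! ### the vertical components -/

omit [∀ v, HasPrincipalDivisors k (Ft v)] in
/-- **A vertical component**: an element of `Gs` maps the component `v` to itself through `a`, and
the classes of `Pic⁰ (Ft v)` fixed by `a` are killed by `n`. -/
theorem smul_abRes_vert_eq_zero (hF : RiemannPkg Qb (Fb (N₁ * q)))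
    (hFt : ∀ v, RiemannPkg k (Ft v)) (v : ι) (n : ℕ)
    (Gs : Set (SemilinearAut Qb (Fb (N₁ * q))))
    (hvert : ∃ g ∈ Gs, ∃ a : Ft v ≃ₐ[k] Ft v, MapsComp S g v v a ∧
      ∀ x : Pic0 k (Ft v), SemilinearAut.ofAlgAut a • x = x → n • x = 0)
    {m : ℕ} (hm : m ≠ 0) (y : natSub S m)
    (hfix : ∀ g ∈ Gs, g • (y : Pic0 Qb (Fb (N₁ * q))) = y) :
    n • abRes hF hFt hm v y = 0 := by
  obtain ⟨g, hg, a, hmap, hkill⟩ := hvert
  exact GeoAb.smul_abRes_eq_zero_of_vert hF hFt hm hmap y (hfix g hg) n hkill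

/-! ### the assembly -/

/-- the components over the canonical component along `α`: `none ↦ cInf`, `some i ↦ mid i` -/
abbrev overCan {Mid SSp : Type*} (eι : (Bool ⊕ Mid) ⊕ SSp ≃ ι) (j : Option Mid) : ι :=
  j.elim (eι (Sum.inl (Sum.inl false))) (fun i => eι (Sum.inl (Sum.inr i)))

/-- **(I11-H2)**: the hypothesis `hkind` of `GeoFinal.newInvBoundedLevel_of_geo`, with
`e₁ = |Mid| · dmid`, from the per-kind data. -/
theorem hkind_of_data (hF₀ : RiemannPkg Qb (Fb N₁)) (hF : RiemannPkg Qb (Fb (N₁ * q)))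
    (hFt : ∀ v, RiemannPkg k (Ft v)) (hlam0 : lam ≠ 0)
    {ιb : Type*} {Ftb : ιb → Type*} [∀ v, Field (Ftb v)] [∀ v, Algebra k (Ftb v)] {νb : Type*}
    (Sb : SemistableSetup (F := Fb N₁) B π ιb Ftb νb)
    {Mid SSp : Type*} [Fintype Mid] (eι : (Bool ⊕ Mid) ⊕ SSp ≃ ι)
    -- `cInf`, along `β`
    (vb : ιb) {κb : Type*} [Fintype κb]
    (Db : letI := algebraAlong (heckeBetaBar Kb N₁ q)
      MultiVal.Full (Sb.O vb) (fun _ : Unit => S.O (eι (Sum.inl (Sum.inl false)))) (fun _ => κb))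
    (pb : ℕ) [ExpChar (Ftb vb) pb] (ab : ℕ)
    (hpib : ∀ g : Ft (eι (Sum.inl (Sum.inl false))),
      g ^ pb ^ ab ∈ (resHom hπ (liesOverAlong_of_full Db ())).toRingHom.range)
    (hdb : Nat.Coprime (Fintype.card κb) lam)
    -- `cZero`, along `α`
    (vz : ι₀) {κz : Type*} [Fintype κz]
    (Dz : letI := algebraAlong (heckeAlphaBar Kb N₁ q)
      MultiVal.Full (S₀.O vz) (fun _ : Unit => S.O (eι (Sum.inl (Sum.inl true)))) (fun _ => κz))
    (pz : ℕ) [ExpChar (Ft₀ vz) pz] (az : ℕ)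
    (hpiz : ∀ g : Ft (eι (Sum.inl (Sum.inl true))),
      g ^ pz ^ az ∈ (resHom hπ (liesOverAlong_of_full Dz ())).toRingHom.range)
    (hdz : Nat.Coprime (Fintype.card κz) lam)
    -- the middle components, along `α`
    (hFt₀ : ∀ v, RiemannPkg k (Ft₀ v)) (va : ι₀) {κa : Option Mid → Type*}
    [∀ j, Fintype (κa j)]
    (Da : letI := algebraAlong (heckeAlphaBar Kb N₁ q)
      MultiVal.Full (S₀.O va) (fun j => S.O (overCan eι j)) κa)
    (hNψ : ∀ j, NormFormulaAlong k (resHom hπ (liesOverAlong_of_full Da j))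
      (finiteAlong_resHom (Fermat.Agent.BR2.LevelGen.finiteAlong_fb (heckeAlphaBar Kb N₁ q)) hπ Da j))
    (hFI : ∀ i : Mid, FundamentalIdentityAlong k (resHom hπ (liesOverAlong_of_full Da (some i)))
      (isIntegral_resHom (Fermat.Agent.BR2.LevelGen.finiteAlong_fb (heckeAlphaBar Kb N₁ q)) hπ Da (some i)))
    (dmid : ℕ) (hdeg : ∀ i : Mid, Fintype.card (κa (some i)) = dmid)
    {T : Mid → Mid → Type*} [∀ j i, Fintype (T j i)]
    (σ : ∀ j i, T j i → (Ft (overCan eι (some i)) ≃ₐ[k] Ft (overCan eι (some j))))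
    (hnorm : ∀ (j i : Mid) (z : Ft (overCan eι (some i))),
      resHom hπ (liesOverAlong_of_full Da (some j))
        (normAlong (resHom hπ (liesOverAlong_of_full Da (some i))) z) = ∏ t, σ j i t z)
    (hcard : ∀ j i, Fintype.card (T j i) = dmid)
    (hmaps : ∀ (j i : Mid) (t : T j i), ∃ s ∈ B.inertiaSubgroupIn ℚ,
      MapsComp S (galAut (N₁ * q) s) (overCan eι (some i)) (overCan eι (some j)) (σ j i t))
    -- the vertical components
    (e₂ : ℕ)
    (hvert : ∀ e : SSp, ∃ s ∈ B.inertiaSubgroupIn ℚ,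
      ∃ a : Ft (eι (Sum.inr e)) ≃ₐ[k] Ft (eι (Sum.inr e)),
        MapsComp S (galAut (N₁ * q) s) (eι (Sum.inr e)) (eι (Sum.inr e)) a ∧
        ∀ x : Pic0 k (Ft (eι (Sum.inr e))), SemilinearAut.ofAlgAut a • x = x → e₂ • x = 0) :
    ∀ (m : ℕ) (y : natSub S (lam ^ m)),
      (∀ s ∈ B.inertiaSubgroupIn ℚ, galAut (N₁ * q) s • (y : JZero (N₁ * q)) = y) →
      alphaDown N₁ q (y : JZero (N₁ * q)) = 0 → betaDown N₁ q (y : JZero (N₁ * q)) = 0 → ∀ v,
        abRes hF hFt (pow_ne_zero m hlam0) v y = 0 ∨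
        (Fintype.card Mid * dmid) • abRes hF hFt (pow_ne_zero m hlam0) v y = 0 ∨
        e₂ • abRes hF hFt (pow_ne_zero m hlam0) v y = 0 := by
  intro m y hinv ha hb v
  have hm : lam ^ m ≠ 0 := pow_ne_zero m hlam0
  -- the image of the inertia group
  set Gs : Set (SemilinearAut Qb (Fb (N₁ * q))) :=
    {g | ∃ s ∈ B.inertiaSubgroupIn ℚ, g = galAut (N₁ * q) s} with hGs
  have hfix : ∀ g ∈ Gs, g • (y : Pic0 Qb (Fb (N₁ * q))) = y := by
    rintro g ⟨s, hs, rfl⟩
    exact hinv s hs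
  have hcInf : abRes hF hFt hm (eι (Sum.inl (Sum.inl false))) y = 0 :=
    abRes_eq_zero_of_full_insep N₁ q B hπ S Sb hF₀ hF hFt (heckeBetaBar Kb N₁ q)
      (Fermat.Agent.BR2.LevelGen.isIntegral_fb _) (Fermat.Agent.BR2.LevelGen.finiteAlong_fb _)
      (Fermat.Agent.BR2.LevelGen.normFormulaAlong_fb _) vb _ Db
      pb ab hpib hm (Nat.Coprime.pow_right m hdb) y hb
  obtain ⟨x, rfl⟩ := eι.surjective v
  rcases x with ((b | j) | e)
  · left
    cases b
    · exact hcInf
    · exact abRes_eq_zero_of_full_insep N₁ q B hπ S S₀ hF₀ hF hFt (heckeAlphaBar Kb N₁ q)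
        (Fermat.Agent.BR2.LevelGen.isIntegral_fb _) (Fermat.Agent.BR2.LevelGen.finiteAlong_fb _)
        (Fermat.Agent.BR2.LevelGen.normFormulaAlong_fb _)
        vz _ Dz pz az hpiz hm (Nat.Coprime.pow_right m hdz) y ha
  · right; left
    exact smul_abRes_mid_eq_zero_of_full N₁ q B hπ S S₀ hF₀ hF hFt hFt₀ (heckeAlphaBar Kb N₁ q)
      (Fermat.Agent.BR2.LevelGen.isIntegral_fb _) (Fermat.Agent.BR2.LevelGen.finiteAlong_fb _)
      (Fermat.Agent.BR2.LevelGen.normFormulaAlong_fb _)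
      va (overCan eι) Da hNψ hFI dmid hdeg j (σ j) (hnorm j) (hcard j) Gs
      (fun i t => by
        obtain ⟨s, hs, hmap⟩ := hmaps j i t
        exact ⟨_, ⟨s, hs, rfl⟩, hmap⟩) hm y hfix hcInf ha
  · right; right
    refine smul_abRes_vert_eq_zero N₁ q B S hF hFt _ e₂ Gs ?_ hm y hfix
    obtain ⟨s, hs, a, hmap, hkill⟩ := hvert e
    exact ⟨_, ⟨s, hs, rfl⟩, a, hmap, hkill⟩

end Fermat.Agent.BR3.GeoAbFinal
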