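import Fermat.Agent.BR3.MidGal
import Fermat.Agent.BR3.CZeroRes
import Fermat.Agent.BR3.GeoAbFinal
import Fermat.Agent.BR2.ResInst
import Fermat.Agent.Hecke.FrobPlaces

/-!
# Program C (S36), node (I7-FULL), a-side: the `MultiVal.Full` families along `α₂`

`S₀` a semistable setup on `F̄_{Mq}` (for Program C: `S′ref_a`), `S` one on `F̄_{Mq²}` (`S″`), both
over `B` with `π = residue B`; only ring identifications are assumed.  Binder shapes are those of
`GeoAbFinal.hkind_of_data` (`alpha2 M q = heckeAlphaBar Kb (M * q) q`, `gal = galAut`).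

## (1) over `can` (`hO₀ : S₀.O va = O1`, `hw : ∀ v, S.O (w v) = OAll v`, `w : Option Mid → ι`)

* `fullCan` : `MultiVal.Full (S₀.O va) (fun v => S.O (w v)) (fun v => Fin (fAll v))` (transport of
  `FibreProd.fullAll`); `card_fullCan_none`, `card_fullCan_some` (`hdeg`, `dmid := fMid`);
* `phiCan v` the residue extensions, `finrankAlong_fullCan`, `finrankAlong_fullCan_none`;
* `normFormulaAlong_fullCan` (`hNψ`), `fundamentalIdentityAlong_fullCan` (`hFI`);
* **`exists_sigma_fullCan`** : `σ`, `hnorm`, `hcard`, `hmaps` with `T j i := MidGal.ClassOf j`.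

## (2) over `et` (`hOz : S₀.O vz = O2`, `hwz : S.O wz = cZero`)

* `resZero_jqq`, `resIndep_cZero` : `1, j(s^{q²}), …, j(s^{q²})^{q-1}` is residue-independent;
* `exists_alpha2_sub_pow_mem_nonunits` : `y ^ q ≡ α₂ c` modulo the maximal ideal of `cZero`;
* `fullEt` : `MultiVal.Full (S₀.O vz) (fun _ : Unit => S.O wz) (fun _ => Fin q)`;
* **`pow_mem_range_fullEt`** : `hpiz` with `pz := q`, `az := 1`.
-/

set_option autoImplicit false
set_option linter.style.haveILetI false
set_option linter.unusedSectionVars false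
set_option linter.unusedVariables false

noncomputable section

set_option synthInstance.maxHeartbeats 400000

namespace Fermat.Agent.BR3.FullA

open ModularCurve AlgebraicCurve HahnSeries Polynomial Fermat.Agent.X0 Fermat.Agent.Val
open Fermat.Agent.Hecke.AL Fermat.Agent.Igusa Fermat.Agent.BR.Kron Fermat.Agent.BR3.IgSq
open Fermat.Agent.BR.TwoVal Fermat.Agent.BR.ResGen Fermat.Agent.Jac Fermat.Agent.Jac.ALF
open Fermat.Agent.BR.TwoValInst Fermat.Agent.BR.ValTwo Fermat.Agent.BR3.FibreProd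
open Fermat.Agent.Red Fermat.Agent.BR.SS Fermat.Agent.BR3.FiltPerm Fermat.Agent.BR3.MidGal
open Fermat.Agent.BR3.PushGlue Fermat.Agent.BR3.MultiVal

/-! ### (1) over `can`: `w₁` and the middle valuations -/

section Can

variable {M q : ℕ} [NeZero M] [hq : Fact q.Prime]
variable (B : ValuationSubring (AlgebraicClosure ℚ)) (hB : B.LiesOverPrime q)
variable (hqM : ¬ q ∣ M) {ζ : Kbˣ} (hζ : IsPrimitiveRoot ζ q)

local notation "kB" => IsLocalRing.ResidueField B

variable {ι : Type*} {Ft : ι → Type*} [∀ v, Field (Ft v)]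
  [∀ v, Algebra (IsLocalRing.ResidueField B) (Ft v)] {ν : Type*}
  (S : SemistableSetup (F := Fb (M * q * q)) B (IsLocalRing.residue B) ι Ft ν)
  {ι₀ : Type*} {Ft₀ : ι₀ → Type*} [∀ v, Field (Ft₀ v)]
  [∀ v, Algebra (IsLocalRing.ResidueField B) (Ft₀ v)] {ν₀ : Type*}
  (S₀ : SemistableSetup (F := Fb (M * q)) B (IsLocalRing.residue B) ι₀ Ft₀ ν₀) (va : ι₀)
  (hO₀ : S₀.O va = O1 M B hB)
  (w : Option (Mid B hB hqM hζ) → ι) (hw : ∀ v, S.O (w v) = OAll B hB hqM hζ v)

/-- **The full situation over `can` along `α₂` in the shape of the setups**: transport of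
`FibreProd.fullAll`. -/
def fullCan :
    letI := algebraAlong (alpha2 M q)
    MultiVal.Full (S₀.O va) (fun v => S.O (w v)) (fun v => Fin (fAll B hB hqM hζ v)) :=
  letI := algebraAlong (alpha2 M q)
  { setup := by
      have e : (fun v => S.O (w v)) = OAll B hB hqM hζ := funext hw
      rw [hO₀, e]
      exact setupAll B hB hqM hζ
    x := xAll B hB hqM hζ
    hx := fun v => by
      rw [hO₀, hw v]
      exact resIndep_xAll B hB hqM hζ v
    card_eq := (fullAll B hB hqM hζ).card_eq }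

variable (M q) in
theorem finiteAlong_alpha2 : FiniteAlong Kb (alpha2 M q) :=
  finiteDimensional_alpha2 (M := M) (q := q)

theorem card_fullCan_none : Fintype.card (Fin (fAll B hB hqM hζ none)) = 1 := Fintype.card_fin _

theorem card_fullCan_some (i : Mid B hB hqM hζ) :
    Fintype.card (Fin (fAll B hB hqM hζ (some i))) = fMid M B hB := Fintype.card_fin _

/-- the residue extension of the component `w v` over `can` -/
abbrev phiCan (v : Option (Mid B hB hqM hζ)) : Ft₀ va →ₐ[kB] Ft (w v) :=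
  resHom IsLocalRing.residue_surjective
    (liesOverAlong_of_full (fullCan B hB hqM hζ S S₀ va hO₀ w hw) v)

/-- the residue degree of the middle components over `can` -/
theorem finrankAlong_fullCan (i : Mid B hB hqM hζ) :
    finrankAlong kB (phiCan B hB hqM hζ S S₀ va hO₀ w hw (some i)) = fMid M B hB := by
  rw [finrankAlong_resHom (finiteAlong_alpha2 M q) IsLocalRing.residue_surjective
    (fullCan B hB hqM hζ S S₀ va hO₀ w hw) (some i)]
  exact Fintype.card_fin _

/-- the residue degree of `cInf` over `can` -/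
theorem finrankAlong_fullCan_none :
    finrankAlong kB (phiCan B hB hqM hζ S S₀ va hO₀ w hw none) = 1 := by
  rw [finrankAlong_resHom (finiteAlong_alpha2 M q) IsLocalRing.residue_surjective
    (fullCan B hB hqM hζ S S₀ va hO₀ w hw) none]
  exact Fintype.card_fin _

include hB in
/-- the characteristic exponent of the residue fields -/
theorem expChar_of_algebra (L : Type*) [Field L] [Algebra kB L] : ExpChar L q := by
  haveI := charP_kB B hB
  haveI : CharP L q := charP_of_injective_algebraMap (algebraMap kB L).injective q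
  exact ExpChar.prime hq.out

/-- **`hNψ` of `GeoAbFinal.hkind_of_data`** for `Da := fullCan`. -/
theorem normFormulaAlong_fullCan (v : Option (Mid B hB hqM hζ)) :
    NormFormulaAlong kB (phiCan B hB hqM hζ S S₀ va hO₀ w hw v)
      (finiteAlong_resHom (finiteAlong_alpha2 M q) IsLocalRing.residue_surjective
        (fullCan B hB hqM hζ S S₀ va hO₀ w hw) v) := by
  haveI : ExpChar (Ft₀ va) q := expChar_of_algebra B hB _
  refine normFormulaAlong_of_coprime _ _ q ?_
  rcases v with _ | i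
  · rw [finrankAlong_fullCan_none B hB hqM hζ S S₀ va hO₀ w hw]
    exact Nat.coprime_one_left q
  · rw [finrankAlong_fullCan B hB hqM hζ S S₀ va hO₀ w hw]
    exact fMid_coprime B hB hqM hζ

/-- **`hFI` of `GeoAbFinal.hkind_of_data`** for `Da := fullCan`. -/
theorem fundamentalIdentityAlong_fullCan [∀ v, HasPrincipalDivisors kB (Ft v)]
    (v : Option (Mid B hB hqM hζ)) :
    FundamentalIdentityAlong kB (phiCan B hB hqM hζ S S₀ va hO₀ w hw v)
      (isIntegral_resHom (finiteAlong_alpha2 M q) IsLocalRing.residue_surjective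
        (fullCan B hB hqM hζ S S₀ va hO₀ w hw) v) := by
  haveI : ExpChar (Ft₀ va) q := expChar_of_algebra B hB _
  refine fundamentalIdentityAlong_of_coprime _
    (finiteAlong_resHom (finiteAlong_alpha2 M q) IsLocalRing.residue_surjective
      (fullCan B hB hqM hζ S S₀ va hO₀ w hw) v) q ?_ _
  rcases v with _ | i
  · rw [finrankAlong_fullCan_none B hB hqM hζ S S₀ va hO₀ w hw]
    exact Nat.coprime_one_left q
  · rw [finrankAlong_fullCan B hB hqM hζ S S₀ va hO₀ w hw]
    exact fMid_coprime B hB hqM hζ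

/-- **`σ`, `hnorm`, `hcard`, `hmaps` of `GeoAbFinal.hkind_of_data`** for `Da := fullCan`, with
`T j i := MidGal.ClassOf j` and `dmid := fMid`. -/
theorem exists_sigma_fullCan :
    ∃ σ : ∀ j i : Mid B hB hqM hζ, ClassOf B hB hqM hζ j →
        (Ft (w (some i)) ≃ₐ[kB] Ft (w (some j))),
      (∀ (j i : Mid B hB hqM hζ) (z : Ft (w (some i))),
        phiCan B hB hqM hζ S S₀ va hO₀ w hw (some j)
          (normAlong (phiCan B hB hqM hζ S S₀ va hO₀ w hw (some i)) z) = ∏ t, σ j i t z) ∧
      (∀ j _i : Mid B hB hqM hζ, Fintype.card (ClassOf B hB hqM hζ j) = fMid M B hB) ∧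
      ∀ (j i : Mid B hB hqM hζ) (t : ClassOf B hB hqM hζ j), ∃ s ∈ B.inertiaSubgroupIn ℚ,
        MapsComp S (gal (M * q * q) s) (w (some i)) (w (some j)) (σ j i t) := by
  have h := fun j : Mid B hB hqM hζ =>
    exists_sigma_mid B hB hqM hζ S (fun i => w (some i)) (fun i => hw (some i)) S₀ va hO₀
      (fun i => phiCan B hB hqM hζ S S₀ va hO₀ w hw (some i))
      (fun i c h => resHom_res IsLocalRing.residue_surjective _ c h)
      (fun i => finrankAlong_fullCan B hB hqM hζ S S₀ va hO₀ w hw i) j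
  choose σ hmaps hnorm hcard using h
  refine ⟨σ, fun j i z => hnorm j i z, fun j _ => card_classOf B hB hqM hζ j, fun j i t => ?_⟩
  obtain ⟨g, ⟨s, hs, rfl⟩, hg⟩ := hmaps j i t
  exact ⟨s, hs, hg⟩

end Can

/-! ### (2) over `et`: the component `cZero` (purely inseparable of degree `q`) -/

section Et

open Fermat.Agent.BR3.CZero Fermat.Agent.BR3.ALSq

variable {M q : ℕ} [NeZero M] [hq : Fact q.Prime]
variable (B : ValuationSubring (AlgebraicClosure ℚ)) (hB : B.LiesOverPrime q) (hqM : ¬ q ∣ M)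

local notation "kB" => IsLocalRing.ResidueField B

theorem jqq_mem_cZero : jqq M q ∈ cZero B hB hqM := by
  rw [mem_cZero_iff, W2_jqq]
  exact (alpha2_mem_w1_iff B hB _).2 (jBar_mem_O1 B hB)

/-- `res_{cZero} j(s^{q²}) = j̃`. -/
theorem resZero_jqq : resZero B hB hqM ⟨jqq M q, jqq_mem_cZero B hB hqM⟩ = jqModC kB := by
  have h : W2O B hB hqM ⟨jqq M q, jqq_mem_cZero B hB hqM⟩ =
      ⟨alpha2 M q (jBar (M * q)), (alpha2_mem_w1_iff B hB _).2 (jBar_mem_O1 B hB)⟩ :=
    Subtype.ext (W2_jqq hqM)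
  rw [resZero_apply, h, resw1_alpha2 B hB _ (jBar_mem_O1 B hB), res1_jBar]

/-- **`1, j(s^{q²}), …, j(s^{q²})^{q-1}` is residue-independent for `cZero` over `et` along
`α₂`** (`f = q`). -/
theorem resIndep_cZero :
    letI := algebraAlong (alpha2 M q)
    ResIndep (O2 B hB hqM) (cZero B hB hqM) (fun i : Fin q => jqq M q ^ (i : ℕ)) := by
  letI := algebraAlong (alpha2 M q)
  haveI : NeZero q := ⟨hq.out.ne_zero⟩
  have hJ := jqq_mem_cZero B hB hqM
  refine ⟨fun i => pow_mem hJ _, fun c hc h i => ?_⟩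
  have hα : ∀ i, alpha2 M q (c i) ∈ cZero B hB hqM := fun i =>
    (alpha2_mem_cZero_iff B hB hqM (c i)).2 (hc i)
  set W : cZero B hB hqM := ∑ i : Fin q, (⟨alpha2 M q (c i), hα i⟩ : cZero B hB hqM) *
    (⟨jqq M q, hJ⟩ : cZero B hB hqM) ^ (i : ℕ) with hW
  have hWcoe : ((W : cZero B hB hqM) : Fb (M * q * q)) = ∑ i : Fin q, c i • jqq M q ^ (i : ℕ) := by
    have h1 : ((W : cZero B hB hqM) : Fb (M * q * q)) = (cZero B hB hqM).subtype W := rfl
    rw [h1, hW, map_sum]
    refine Finset.sum_congr rfl fun i _ => ?_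
    rw [map_mul, map_pow, Algebra.smul_def]
    rfl
  have hres : resZero B hB hqM W = 0 := by
    have h2 : ((W : cZero B hB hqM) : Fb (M * q * q)) ∈ (cZero B hB hqM).nonunits := by
      rw [hWcoe]
      exact h
    exact (mem_nonunits_cZero_iff B hB hqM W.2).1 h2
  rw [hW, map_sum] at hres
  have hres' : ∑ i : Fin q, qExpand kB q (res2 B hB hqM ⟨c i, hc i⟩) * jqModC kB ^ (i : ℕ) = 0 := by
    rw [← hres]
    refine Finset.sum_congr rfl fun i _ => ?_
    rw [map_mul, map_pow, resZero_jqq, resZero_alpha2 B hB hqM (c i) (hc i)]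
  have hzero := eq_zero_of_sum_qExpand_mul_pow kB q (order_jqModC B)
    (fun i => res2 B hB hqM ⟨c i, hc i⟩) hres' i
  exact (mem_nonunits_O2_iff B hB hqM (hc i)).2 hzero

/-- **`q`-th powers of residues at `cZero` are residues of `α₂ (et)`**: for `y ∈ cZero` there is
`c ∈ O2` with `y ^ q ≡ α₂ c` modulo the maximal ideal. -/
theorem exists_alpha2_sub_pow_mem_nonunits {y : Fb (M * q * q)} (hy : y ∈ cZero B hB hqM) :
    ∃ c ∈ O2 B hB hqM, y ^ q - alpha2 M q c ∈ (cZero B hB hqM).nonunits := by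
  haveI := charP_kB B hB
  haveI := Fermat.Agent.BR2.ResInst.perfectField_res B
  set f : LaurentSeries kB := resZero B hB hqM ⟨y, hy⟩ with hf
  have hfM : f ∈ modularFunctionFieldFullC kB M :=
    Fermat.Agent.BR3.CInfRes.resw1_mem_fullC B hB hqM (W2O B hB hqM ⟨y, hy⟩)
  -- the coefficientwise Frobenius of `f`, an element of `F̃_M`
  set f' : modularFunctionFieldFullC kB M :=
    Fermat.Agent.Hecke.frobAutFullC kB M q • (⟨f, hfM⟩ : modularFunctionFieldFullC kB M) with hf'
  have hf'coe : ((f' : modularFunctionFieldFullC kB M) : LaurentSeries kB) =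
      coeffMap (frobenius kB q) f := Fermat.Agent.Hecke.coe_frobAutFullC_smul kB M q _
  obtain ⟨c, hc⟩ := (Fermat.Agent.BR.ConstRedTwo.constRedW2 B hB hqM).res_surjective f'
  have hc2 : res2 B hB hqM c = coeffMap (frobenius kB q) f := by
    rw [← hf'coe, ← hc]
    rfl
  refine ⟨(c : Fb (M * q)), c.2, ?_⟩
  have hmem : y ^ q - alpha2 M q (c : Fb (M * q)) ∈ cZero B hB hqM :=
    sub_mem (pow_mem hy q) ((alpha2_mem_cZero_iff B hB hqM _).2 c.2)
  rw [mem_nonunits_cZero_iff B hB hqM hmem]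
  have h1 : (⟨y ^ q - alpha2 M q (c : Fb (M * q)), hmem⟩ : cZero B hB hqM) =
      ⟨y, hy⟩ ^ q - ⟨alpha2 M q (c : Fb (M * q)), (alpha2_mem_cZero_iff B hB hqM _).2 c.2⟩ := rfl
  rw [h1, map_sub, map_pow, resZero_alpha2 B hB hqM (c : Fb (M * q)) c.2, sub_eq_zero, ← hf,
    Fermat.Agent.Hecke.pow_char_eq_qExpand_coeffMap q f]
  congr 1
  exact hc2.symm

variable {ι : Type*} {Ft : ι → Type*} [∀ v, Field (Ft v)]
  [∀ v, Algebra (IsLocalRing.ResidueField B) (Ft v)] {ν : Type*}
  (S : SemistableSetup (F := Fb (M * q * q)) B (IsLocalRing.residue B) ι Ft ν)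
  {ι₀ : Type*} {Ft₀ : ι₀ → Type*} [∀ v, Field (Ft₀ v)]
  [∀ v, Algebra (IsLocalRing.ResidueField B) (Ft₀ v)] {ν₀ : Type*}
  (S₀ : SemistableSetup (F := Fb (M * q)) B (IsLocalRing.residue B) ι₀ Ft₀ ν₀) (vz : ι₀)
  (hOz : S₀.O vz = O2 B hB hqM) (wz : ι) (hwz : S.O wz = cZero B hB hqM)

/-- **The full situation over `et` along `α₂`**: the single component `cZero`, `f = q`. -/
def fullEt :
    letI := algebraAlong (alpha2 M q)
    MultiVal.Full (S₀.O vz) (fun _ : Unit => S.O wz) (fun _ => Fin q) :=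
  letI := algebraAlong (alpha2 M q)
  Full.single (O₀ := S₀.O vz) (O := S.O wz)
    (by rw [hwz, hOz]; exact comap_alpha2_cZero B hB hqM)
    (by rw [hwz]; exact arch_cZero B hB hqM)
    (fun i : Fin q => jqq M q ^ (i : ℕ))
    (by rw [hOz, hwz]; exact resIndep_cZero B hB hqM)
    (by
      rw [Fintype.card_fin]
      exact (show Module.finrank (Fb (M * q)) (Fb (M * q * q)) = q from finrankAlong_alpha2).symm)

/-- **`hpiz` of `GeoAbFinal.hkind_of_data`** for `Dz := fullEt`, with `pz := q`, `az := 1`: the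
residue extension of `cZero` over `et` along `α₂` is purely inseparable. -/
theorem pow_mem_range_fullEt (g : Ft wz) :
    g ^ q ^ 1 ∈ (resHom IsLocalRing.residue_surjective
      (liesOverAlong_of_full (fullEt B hB hqM S S₀ vz hOz wz hwz) ())).toRingHom.range := by
  obtain ⟨⟨y, hyS⟩, rfl⟩ := S.res_surjective wz g
  have hy : y ∈ cZero B hB hqM := by rw [← hwz]; exact hyS
  obtain ⟨c, hc, hd⟩ := exists_alpha2_sub_pow_mem_nonunits B hB hqM hy
  have hc' : c ∈ S₀.O vz := by rw [hOz]; exact hc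
  have hmem : alpha2 M q c ∈ S.O wz := by
    rw [hwz]
    exact (alpha2_mem_cZero_iff B hB hqM c).2 hc
  refine ⟨S₀.res vz ⟨c, hc'⟩, ?_⟩
  rw [pow_one]
  have h1 := resHom_res IsLocalRing.residue_surjective
    (liesOverAlong_of_full (fullEt B hB hqM S S₀ vz hOz wz hwz) ()) ⟨c, hc'⟩ hmem
  show resHom IsLocalRing.residue_surjective
    (liesOverAlong_of_full (fullEt B hB hqM S S₀ vz hOz wz hwz) ()) (S₀.res vz ⟨c, hc'⟩) = _
  rw [← h1, ← map_pow, eq_comm, ← sub_eq_zero, ← map_sub, S.res_eq_zero_iff]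
  have h3 : y ^ q - alpha2 M q c ∈ (S.O wz).nonunits := by
    rw [hwz]
    exact hd
  have h2 : (((⟨y, hyS⟩ : S.O wz) ^ q - ⟨alpha2 M q c, hmem⟩ : S.O wz) : Fb (M * q * q)) ∈
      (S.O wz).nonunits := h3
  rw [ValuationSubring.coe_mem_nonunits_iff, IsLocalRing.mem_maximalIdeal, mem_nonunits_iff] at h2
  exact h2

end Et

end Fermat.Agent.BR3.FullA
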