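import Fermat.Agent.BR3.FullHoriz

/-!
# Program C (S36), node (I7-FULL), b-side: the `MultiVal.Full` families ALONG `β₂` in the shapes of
the setups

Everything ALONG `beta2 M q = heckeBetaBar Kb (M*q) q`, stated against ARBITRARY setups
`S₀ : SemistableSetup (F := Fb (M*q)) B (residue B) ι₀ Ft₀ ν₀` (`= S'ref_b`, or `S'`) and
`S : SemistableSetup (F := Fb (M*q*q)) B (residue B) ι Ft ν` (`= S'' = I.setup`), with
ring-identification hypotheses only (the mirror of helper11's `BR3/FullA.lean`); binder shapes =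
`GeoAbFinal.hkind_of_data` verbatim, `hπ := IsLocalRing.residue_surjective`.

* OVER `can` : `(vb : ι₀) (hOb : S₀.O vb = O1 M B hB) (wb : ι) (hwb : S.O wb = w1 M B hB)` :
  `fullCanB : MultiVal.Full (S₀.O vb) (fun _ : Unit => S.O wb) (fun _ => Fin q)`,
  `pow_mem_range_fullCanB : ∀ g : Ft wb, g ^ q ^ 1 ∈ range (resHom …)` (`pb := q`, `ab := 1`),
  `card_fin_coprime` (`hdb`);
* OVER `et` : `(ve : ι₀) (hOe : S₀.O ve = O2 B hB hqM) (w : Option Mid → ι)
  (hw : ∀ v, S.O (w v) = OAllB B hB hqM hζ v)` :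
  `fullEtB : MultiVal.Full (S₀.O ve) (fun v => S.O (w v)) (fun v => Fin (fAll B hB hqM hζ v))`.
-/

set_option autoImplicit false
set_option linter.style.haveILetI false
set_option linter.unusedSectionVars false
set_option linter.unusedVariables false

noncomputable section

set_option synthInstance.maxHeartbeats 400000

namespace Fermat.Agent.BR3.FullB

open ModularCurve AlgebraicCurve IsLocalRing Fermat.Agent.X0 Fermat.Agent.Val Fermat.Agent.Red
open Fermat.Agent.BR.TwoVal Fermat.Agent.BR.SS Fermat.Agent.BR3.FibreProd Fermat.Agent.BR3.CZero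
open Fermat.Agent.Jac Fermat.Agent.BR3.FullGlue Fermat.Agent.BR3.FullHoriz
open Fermat.Agent.BR3.PushGlue

variable {M q : ℕ} [NeZero M] [hq : Fact q.Prime]
variable (B : ValuationSubring (AlgebraicClosure ℚ)) (hB : B.LiesOverPrime q) (hqM : ¬ q ∣ M)

local notation "kB" => IsLocalRing.ResidueField B

variable {ι₀ : Type*} {Ft₀ : ι₀ → Type*} [∀ v, Field (Ft₀ v)]
  [∀ v, Algebra (IsLocalRing.ResidueField B) (Ft₀ v)]
  {ν₀ : Type*} {ι : Type*} {Ft : ι → Type*} [∀ w, Field (Ft w)]
  [∀ w, Algebra (IsLocalRing.ResidueField B) (Ft w)]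
  {ν : Type*}
  (S₀ : SemistableSetup (F := Fb (M * q)) B (residue B) ι₀ Ft₀ ν₀)
  (S : SemistableSetup (F := Fb (M * q * q)) B (residue B) ι Ft ν)

/-! ### over `can` -/

section Can

variable (vb : ι₀) (hOb : S₀.O vb = O1 M B hB) (wb : ι) (hwb : S.O wb = w1 M B hB)

/-- **(b-can)** in the shape of the setups: the single component `cInf` of `S''` over the component
`can` along `β₂`, `f = q`. -/
def fullCanB :
    letI := algebraAlong (beta2 M q)
    MultiVal.Full (S₀.O vb) (fun _ : Unit => S.O wb) (fun _ => Fin q) :=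
  letI := algebraAlong (beta2 M q)
  Full.congr hOb (fun _ => hwb) (fullInfBeta B hB)

include hqM in
/-- **`hpib`**: the residue extension of `cInf` over `can` along `β₂` is purely inseparable of
exponent one. -/
theorem pow_mem_range_fullCanB (g : Ft wb) :
    g ^ q ^ 1 ∈ (resHom (residue_surjective (R := B))
      (liesOverAlong_of_full (fullCanB B hB S₀ S vb hOb wb hwb) ())).toRingHom.range := by
  rw [pow_one]
  refine pow_mem_range_resHom _ _ q (fun y hy => ?_) g
  rw [hwb] at hy
  obtain ⟨c, hc, h⟩ := exists_beta2_sub_pow_mem_nonunits B hB hqM hy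
  refine ⟨c, by rw [hOb]; exact hc, ?_⟩
  rw [hwb]
  exact h

end Can

/-- **`hdb`, `hdz`**: `card (Fin q) = q` is prime to a prime `lam ≠ q`. -/
theorem card_fin_coprime {lam : ℕ} (hlam : lam.Prime) (hqlam : q ≠ lam) :
    Nat.Coprime (Fintype.card (Fin q)) lam := by
  rw [Fintype.card_fin]
  exact (Nat.coprime_primes hq.out hlam).mpr hqlam

/-! ### over `et` -/

section Et

variable {ζ : Kbˣ} (hζ : IsPrimitiveRoot ζ q)
  (ve : ι₀) (hOe : S₀.O ve = O2 B hB hqM) (w : Option (Mid B hB hqM hζ) → ι)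
  (hw : ∀ v, S.O (w v) = OAllB B hB hqM hζ v)

/-- **(b-et)** in the shape of the setups: the components `cZero` (`none`) and `mid i` (`some i`) of
`S''` over the component `et` along `β₂`. -/
def fullEtB :
    letI := algebraAlong (beta2 M q)
    MultiVal.Full (S₀.O ve) (fun v => S.O (w v)) (fun v => Fin (fAll B hB hqM hζ v)) :=
  letI := algebraAlong (beta2 M q)
  Full.congr hOe hw (fullAllBeta B hB hqM hζ)

theorem card_fullEtB_none : Fintype.card (Fin (fAll B hB hqM hζ none)) = 1 := Fintype.card_fin 1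

theorem card_fullEtB_some (i : Mid B hB hqM hζ) :
    Fintype.card (Fin (fAll B hB hqM hζ (some i))) = fMid M B hB := Fintype.card_fin _

end Et

end Fermat.Agent.BR3.FullB
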