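import Fermat.Agent.BR3.ConstRedAdjoin
import Fermat.Agent.BR3.ArchCircle
import Fermat.Agent.BR3.FullGlue
import Fermat.Agent.BR3.FibreProdMidFull
import Fermat.Agent.BR3.VertResidue
import Fermat.Agent.Val.RankOne
import Fermat.Agent.BR2.LevelGen

/-!
# Program C (S36), node (I7-FULL), part (3): the `MultiVal.Full` datum of a unique unramified
extension with residue field `AdjoinRoot P` — the vertical component `z e` over the exceptional
circle component

## abstract part (any finite extension `E / F`)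

`O₀` a valuation subring of `F` with a residue map `res₀ : O₀ →+* k₀` killing only non-units, `Z` a
valuation subring of `E` over `O₀` with a residue map `resZ : Z →+* AdjoinRoot P`, `P ∈ k₀[X]` monic,
`resZ z = 0 ↔ ¬ IsUnit z`, compatible with `res₀`, and `θ ∈ Z` with `resZ θ = root P`.

* `resIndep_pow_of_adjoinRoot` : `1, θ, …, θ ^ (n - 1)` (`n = deg P`) is residue-independent;
* `fullSingleOfAdjoinRoot` : `MultiVal.Full O₀ (fun _ : Unit => Z) (fun _ => Fin n)` when
  `n = [E : F]` and `O₀` has rank one (`ArchExt.arch_of_comap`).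

## the vertical components along `α₂` / any `φ`

* `fullOverCircle` : `O₀ = circleRing C a₀ ha1 ha2` (`ArchCircle.arch_circleRing`), `res₀ = circleRes`,
  along an arbitrary `φ : F₀ →ₐ[K] F` of degree `n`;
* `fullExcRing` : the instance `φ = alpha2 M q`, `P = vertBar q β ρ`, `κ = Fin q`, the hypotheses are
  VERBATIM the conjuncts of `VertAllFinal.exists_vertComponent_ss_gauge` /
  `VertMain.exists_vertComponent_main'`;
* **`fullExc`** : the same in the shape of the setups: `S₀` on `F̄_{Mq}` with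
  `hOe : S₀.O ve = circleRing C a₀ ha1 ha2` (for `S₀ = SRef.sref …`, `ve = exc e` : `sref_O_exc`, `rfl`),
  `S` on `F̄_{Mq²}` with `hwze : S.O wze = Z` :
  `MultiVal.Full (S₀.O ve) (fun _ : Unit => S.O wze) (fun _ => Fin q)`; `card_fullExc`,
  `fullExc_x`.
-/

set_option autoImplicit false
set_option linter.style.haveILetI false
set_option linter.unusedSectionVars false
set_option linter.unusedVariables false

noncomputable section

set_option synthInstance.maxHeartbeats 400000

namespace Fermat.Agent.BR3.FullExc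

open Polynomial Module Fermat.Agent.BR.TwoVal Fermat.Agent.BR3.MultiVal Fermat.Agent.BR3.FullGlue
  Fermat.Agent.BR3.ApproxFull

/-! ### the abstract part -/

section Abstract

variable {F E k₀ : Type*} [Field F] [Field E] [Algebra F E] [Field k₀]
  {O₀ : ValuationSubring F} {Z : ValuationSubring E}
  (hlies : Z.comap (algebraMap F E) = O₀)
  (res₀ : O₀ →+* k₀) (hker₀ : ∀ c : O₀, res₀ c = 0 → ¬ IsUnit c)
  {P : k₀[X]} (hPm : P.Monic) (resZ : Z →+* AdjoinRoot P)
  (hker : ∀ z : Z, resZ z = 0 ↔ ¬ IsUnit z)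
  (hcompat : ∀ (c : O₀) (h : algebraMap F E (c : F) ∈ Z),
    resZ ⟨algebraMap F E (c : F), h⟩ = AdjoinRoot.of P (res₀ c))
  {θ : E} (hθ : θ ∈ Z) (hroot : resZ ⟨θ, hθ⟩ = AdjoinRoot.root P)
  {n : ℕ} (hn : P.natDegree = n)

include hlies hker₀ hPm hker hcompat hroot hn in
/-- **The powers of `θ` are residually independent over `O₀`** (the argument of
`ConstRedAdjoin.resIndep_pow`, for a bare residue map downstairs). -/
theorem resIndep_pow_of_adjoinRoot : ResIndep O₀ Z (fun i : Fin n => θ ^ (i : ℕ)) := by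
  subst hn
  refine ⟨fun i => pow_mem hθ _, fun c hc hsum i => ?_⟩
  have hcZ : ∀ i, algebraMap F E (c i) ∈ Z := fun i => by
    rw [← ValuationSubring.mem_comap, hlies]
    exact hc i
  set z : Z := ∑ i, (⟨algebraMap F E (c i), hcZ i⟩ : Z) * (⟨θ, hθ⟩ : Z) ^ (i : ℕ) with hz
  have hzval : (z : E) = ∑ i, c i • θ ^ (i : ℕ) := by
    rw [hz]
    simp only [AddSubmonoidClass.coe_finsetSum, MulMemClass.coe_mul, SubmonoidClass.coe_pow]
    exact Finset.sum_congr rfl fun i _ => by rw [Algebra.smul_def]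
  have hz0 : resZ z = 0 := by
    rw [hker, ← mem_nonunits_iff_not_isUnit', hzval]
    exact hsum
  have hres : resZ z = ∑ i, AdjoinRoot.of P (res₀ ⟨c i, hc i⟩) * AdjoinRoot.root P ^ (i : ℕ) := by
    rw [hz, map_sum]
    refine Finset.sum_congr rfl fun i _ => ?_
    rw [map_mul, map_pow, hroot, hcompat ⟨c i, hc i⟩ (hcZ i)]
  rw [hres] at hz0
  have h0 := ConstRedAdjoin.coeff_eq_zero_of_sum_eq_zero hPm (fun i => res₀ ⟨c i, hc i⟩) hz0 i
  exact (mem_nonunits_iff_not_isUnit' O₀ ⟨c i, hc i⟩).2 (hker₀ _ h0)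

/-- **The `MultiVal.Full` datum of the unique extension `Z` with residue field `AdjoinRoot P`**,
`deg P = n = [E : F]`. -/
def fullSingleOfAdjoinRoot [FiniteDimensional F E] (harch : Arch O₀) (hdeg : n = finrank F E) :
    MultiVal.Full O₀ (fun _ : Unit => Z) (fun _ => Fin n) :=
  haveI : Algebra.IsAlgebraic F E := Algebra.IsAlgebraic.of_finite F E
  FullGlue.Full.single hlies (ArchExt.arch_of_comap (F := F) Z (by rw [hlies]; exact harch))
    (fun i : Fin n => θ ^ (i : ℕ))
    (resIndep_pow_of_adjoinRoot hlies res₀ hker₀ hPm resZ hker hcompat hθ hroot hn)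
    (by rw [Fintype.card_fin]; exact hdeg)

@[simp] theorem fullSingleOfAdjoinRoot_x [FiniteDimensional F E] (harch : Arch O₀)
    (hdeg : n = finrank F E) (u : Unit) (i : Fin n) :
    (fullSingleOfAdjoinRoot hlies res₀ hker₀ hPm resZ hker hcompat hθ hroot hn harch hdeg).x u i =
      θ ^ (i : ℕ) := rfl

end Abstract

/-! ### over a circle ring, along an arbitrary `φ` -/

section Circle

open AlgebraicCurve IsLocalRing Fermat.Agent.Red Fermat.Agent.BR.Circle

variable {K F₀ F : Type*} [Field K] [Field F₀] [Field F] [Algebra K F₀] [Algebra K F]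
  {A : ValuationSubring K} [IsAlgClosed (ResidueField A)] {T : Set (Place K F₀)}
  (C : AnnulusCore A T) (a₀ : K)
  (ha1 : A.valuation C.thick < A.valuation a₀) (ha2 : A.valuation a₀ < 1)
  (hA : IsRankOne A) (φ : F₀ →ₐ[K] F)
  {Z : ValuationSubring F} {P : (RatFunc (ResidueField A))[X]} (hPm : P.Monic)
  (resZ : Z →+* AdjoinRoot P)
  (hlies : Z.comap (φ : F₀ →+* F) = circleRing C a₀ ha1 ha2)
  (hker : ∀ z : Z, resZ z = 0 ↔ ¬ IsUnit z)
  (hcompat : ∀ (y : circleRing C a₀ ha1 ha2) (h : φ (y : F₀) ∈ Z),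
    resZ ⟨φ (y : F₀), h⟩ = AdjoinRoot.of P (circleRes C a₀ ha1 ha2 y))
  {θ : F} (hθ : θ ∈ Z) (hroot : resZ ⟨θ, hθ⟩ = AdjoinRoot.root P)
  {n : ℕ} (hn : P.natDegree = n)

/-- **The vertical component over a circle, along `φ`**: `Z` is the only valuation subring over the
circle ring, with `f = n = deg P = [F : φ F₀]`. -/
def fullOverCircle
    (hfd : letI := algebraAlong φ
      FiniteDimensional F₀ F)
    (hdeg : letI := algebraAlong φ
      n = finrank F₀ F) :
    letI := algebraAlong φ
    MultiVal.Full (circleRing C a₀ ha1 ha2) (fun _ : Unit => Z) (fun _ => Fin n) :=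
  letI := algebraAlong φ
  haveI := hfd
  fullSingleOfAdjoinRoot (F := F₀) (E := F) hlies (circleRes C a₀ ha1 ha2)
    (fun c h => (circleRes_eq_zero_iff C a₀ ha1 ha2 c).1 h) hPm resZ hker hcompat hθ hroot hn
    (ArchCircle.arch_circleRing C a₀ ha1 ha2 hA) hdeg

end Circle

/-! ### the vertical components of `S''` over the exceptional components of `S'ref`, along `α₂` -/

section Modular

open ModularCurve AlgebraicCurve IsLocalRing Fermat.Agent.X0 Fermat.Agent.Val Fermat.Agent.Red
  Fermat.Agent.BR.Circle Fermat.Agent.BR.SS Fermat.Agent.BR3.FibreProd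
  Fermat.Agent.BR3.VertResidue Fermat.Agent.BR3.PushGlue

variable {M q : ℕ} [NeZero M] [hq : Fact q.Prime]
variable (B : ValuationSubring (AlgebraicClosure ℚ)) (hB : B.LiesOverPrime q)
  [IsAlgClosed (ResidueField B)]

variable {T : Set (Place Kb (Fb (M * q)))} (C : AnnulusCore B T) (a₀ : Kb)
  (ha1 : B.valuation C.thick < B.valuation a₀) (ha2 : B.valuation a₀ < 1)
  {β ρ : IsLocalRing.ResidueField B} {Z : ValuationSubring (Fb (M * q * q))}
  (resZ : Z →+* AdjoinRoot (vertBar q β ρ))
  (hlies : Z.comap (alpha2 M q : Fb (M * q) →+* Fb (M * q * q)) = circleRing C a₀ ha1 ha2)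
  (hker : ∀ z : Z, resZ z = 0 ↔ ¬ IsUnit z)
  (hcompat : ∀ (y : circleRing C a₀ ha1 ha2) (h : alpha2 M q (y : Fb (M * q)) ∈ Z),
    resZ ⟨alpha2 M q (y : Fb (M * q)), h⟩ =
      AdjoinRoot.of (vertBar q β ρ) (circleRes C a₀ ha1 ha2 y))
  {θ : Fb (M * q * q)} (hθ : θ ∈ Z) (hroot : resZ ⟨θ, hθ⟩ = AdjoinRoot.root (vertBar q β ρ))

/-- **(a-exc), ring form**: `Z` (the vertical component `z e`) is the only valuation subring of
`F̄_{Mq²}` over the critical circle of the crossing `e` along `α₂`, with `f = q`; the hypotheses are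
the conjuncts of `VertAllFinal.exists_vertComponent_ss_gauge`. -/
def fullExcRing :
    letI := algebraAlong (alpha2 M q)
    MultiVal.Full (circleRing C a₀ ha1 ha2) (fun _ : Unit => Z) (fun _ => Fin q) :=
  fullOverCircle C a₀ ha1 ha2 (Val.isRankOne B hB) (alpha2 M q)
    (vertBar_monic (q := q) (β := β) (ρ := ρ) hq.out.two_le) resZ hlies hker hcompat hθ hroot
    (vertBar_natDegree hq.out.two_le) finiteDimensional_alpha2
    (finrankAlong_alpha2 (M := M) (q := q)).symm

variable {ι₀ : Type*} {Ft₀ : ι₀ → Type*} [∀ v, Field (Ft₀ v)]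
  [∀ v, Algebra (IsLocalRing.ResidueField B) (Ft₀ v)]
  {ν₀ : Type*} {ι : Type*} {Ft : ι → Type*} [∀ w, Field (Ft w)]
  [∀ w, Algebra (IsLocalRing.ResidueField B) (Ft w)]
  {ν : Type*}
  (S₀ : SemistableSetup (F := Fb (M * q)) B (residue B) ι₀ Ft₀ ν₀)
  (S : SemistableSetup (F := Fb (M * q * q)) B (residue B) ι Ft ν)
  (ve : ι₀) (hOe : S₀.O ve = circleRing C a₀ ha1 ha2) (wze : ι) (hwze : S.O wze = Z)

/-- **(a-exc)** in the shape of the setups: the single component `z e` of `S''` over the exceptional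
component `exc e` of `S'ref` along `α₂`, `f = q`. -/
def fullExc :
    letI := algebraAlong (alpha2 M q)
    MultiVal.Full (S₀.O ve) (fun _ : Unit => S.O wze) (fun _ => Fin q) :=
  letI := algebraAlong (alpha2 M q)
  Full.congr hOe (fun _ => hwze)
    (fullExcRing B hB C a₀ ha1 ha2 resZ hlies hker hcompat hθ hroot)

theorem card_fullExc : Fintype.card (Fin q) = q := Fintype.card_fin q

@[simp] theorem fullExc_x (u : Unit) (i : Fin q) :
    letI := algebraAlong (alpha2 M q)
    (fullExc B hB C a₀ ha1 ha2 resZ hlies hker hcompat hθ hroot S₀ S ve hOe wze hwze).x u i =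
      θ ^ (i : ℕ) := rfl

include hB ha1 ha2 hlies hker hcompat hroot hOe hwze in
/-- `z e` lies over `exc e` along `α₂`. -/
theorem liesOverAlong_fullExc : LiesOverAlong S₀ S (alpha2 M q) ve wze :=
  liesOverAlong_of_full
    (fullExc B hB C a₀ ha1 ha2 resZ hlies hker hcompat hθ hroot S₀ S ve hOe wze hwze) ()

include hB ha1 ha2 hlies hker hcompat hroot hOe hwze in
/-- **`NormRes` at the exceptional component** (the entry `v = exc e` of `hNRa` of
`SDD.hcochProp_of_data` / `hNR` of `PushMod.hpa_of_enum`): `J = Unit`, `w = fun _ => z e`, the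
residue extension is `resHom`. -/
theorem normRes_fullExc :
    Fermat.Agent.BR3.G5Multi.NormRes S₀ S (alpha2 M q) ve (fun _ : Unit => wze)
      (fun _ => resHom (residue_surjective (R := B))
        (liesOverAlong_fullExc B hB C a₀ ha1 ha2 resZ hlies hker hcompat hθ hroot S₀ S ve hOe wze
          hwze)) :=
  normRes_of_full_resHom S₀ S (alpha2 M q) (Fermat.Agent.BR2.LevelGen.finiteAlong_fb _)
    (residue_surjective (R := B)) ve (fun _ : Unit => wze)
    (fullExc B hB C a₀ ha1 ha2 resZ hlies hker hcompat hθ hroot S₀ S ve hOe wze hwze)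

end Modular

end Fermat.Agent.BR3.FullExc
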