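import Mathlib
import Fermat.Agent.BR3.FullExcB
import Fermat.Agent.BR3.FullGlue
import Fermat.Agent.BR3.PushGlue
import Fermat.Agent.BR3.FibreProd
import Fermat.Agent.BR2.LevelGen
import Fermat.Agent.Val.RankOne

/-!
# Program C (S36), node (I7-FULL), (b-3): the `MultiVal.Full` datum of the vertical component
`z e` over the exceptional component of `S'ref_b` at `Fr e`, along `β₂`

The instance `b₂ = beta2 M q` of `FullExcB.fullExcOfMirror`, in the shape of the setups (the mirror
of `FullExc.fullExc`): the hypotheses are VERBATIM the b-side conjuncts of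
`VertBetaSS.exists_vertComponent_ss_gauge_beta` (`hcomap`, `φ`, `hφ`, `hφC`, `hmirror`) and the a-side
conjuncts `hsurj`, `hker`, `hθ`/`hθres` of the same theorem.

* `fullExcBRing` : `MultiVal.Full (circleRing C' b₀ hb1 hb2) (fun _ : Unit => Z) (fun _ => Fin q)`
  along `β₂`;
* **`fullExcB`** : `MultiVal.Full (S₀.O ve) (fun _ : Unit => S.O wze) (fun _ => Fin q)` with
  `hOe : S₀.O ve = circleRing C' b₀ hb1 hb2` (for `S₀ = SRef.sref …`, `ve = exc (Fr e)` :
  `sref_O_exc`, `rfl`) and `hwze : S.O wze = Z`; `fullExcB_x`;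
* `liesOverAlong_fullExcB`, **`normRes_fullExcB`** : the entry `v = exc (Fr e)` of `hNRb` of
  `SDD.hcochProp_of_data` / `hNR` of `PushModB.hpb_of_enum` (`J = Unit`).
-/

set_option autoImplicit false
set_option linter.style.haveILetI false
set_option linter.unusedSectionVars false
set_option linter.unusedVariables false

noncomputable section

set_option synthInstance.maxHeartbeats 400000

namespace Fermat.Agent.BR3.FullExcBPlug

open Polynomial Module Fermat.Agent.BR.TwoVal Fermat.Agent.BR3.MultiVal Fermat.Agent.BR3.FullGlue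

open ModularCurve AlgebraicCurve IsLocalRing Fermat.Agent.X0 Fermat.Agent.Val Fermat.Agent.Red
  Fermat.Agent.BR.Circle Fermat.Agent.BR.SS Fermat.Agent.BR3.FibreProd
  Fermat.Agent.BR3.VertResidue Fermat.Agent.BR3.PushGlue Fermat.Agent.BR3.FullExcB

variable {M q : ℕ} [NeZero M] [hq : Fact q.Prime]
variable (B : ValuationSubring (AlgebraicClosure ℚ)) (hB : B.LiesOverPrime q)
  [IsAlgClosed (ResidueField B)] [CharP (ResidueField B) q]

variable {T : Set (Place Kb (Fb (M * q)))} (C' : AnnulusCore B T) (b₀ : Kb)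
  (hb1 : B.valuation C'.thick < B.valuation b₀) (hb2 : B.valuation b₀ < 1)
  {β ρ : IsLocalRing.ResidueField B} (hβ : β ≠ 0) (hρ : ρ ≠ 0)
  {Z : ValuationSubring (Fb (M * q * q))}
  (resZ : Z →+* AdjoinRoot (vertBar q β ρ))
  (hcomap : Z.comap (beta2 M q : Fb (M * q) →+* Fb (M * q * q)) = circleRing C' b₀ hb1 hb2)
  (hsurj : Function.Surjective resZ) (hker : ∀ z : Z, resZ z = 0 ↔ ¬ IsUnit z)
  (φ : RatFunc (IsLocalRing.ResidueField B) →+* AdjoinRoot (vertBar q β ρ))
  (hφ : ∀ (y : Fb (M * q)) (hy : y ∈ circleRing C' b₀ hb1 hb2) (h : beta2 M q y ∈ Z),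
    resZ ⟨beta2 M q y, h⟩ = φ (circleRes C' b₀ hb1 hb2 ⟨y, hy⟩))
  (hφC : ∀ c, φ (RatFunc.C c) = AdjoinRoot.of (vertBar q β ρ) (RatFunc.C c))
  {β' ω : IsLocalRing.ResidueField B} (hβ' : β' ≠ 0) (hω : ω ≠ 0)
  (hmirror : φ (RatFunc.C β' * RatFunc.X) *
    (AdjoinRoot.root (vertBar q β ρ) +
      AdjoinRoot.of (vertBar q β ρ) (RatFunc.C β * RatFunc.X)) =
    AdjoinRoot.of (vertBar q β ρ) (RatFunc.C ω))
  {θ : Fb (M * q * q)} (hθ : θ ∈ Z) (hθres : resZ ⟨θ, hθ⟩ = AdjoinRoot.root (vertBar q β ρ))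

/-- **(b-exc), ring form**: `Z` (the vertical component `z e`) is the only valuation subring of
`F̄_{Mq²}` over the `b`-critical circle of the crossing `Fr e` along `β₂`, with `f = q`
(`e = 1`: the residue extension is separable of degree `q`, totally ramified over `X_b = ∞`). -/
def fullExcBRing :
    letI := algebraAlong (beta2 M q)
    MultiVal.Full (circleRing C' b₀ hb1 hb2) (fun _ : Unit => Z) (fun _ => Fin q) :=
  fullExcOfMirror (Val.isRankOne B hB) (beta2 M q)
    (Fermat.Agent.BR2.LevelGen.finiteAlong_fb _) C' b₀ hb1 hb2 q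
    (finrankAlong_beta2 (M := M) (q := q)) hβ hρ Z resZ hcomap hsurj hker φ hφ hφC hβ' hω hmirror
    θ hθ hθres

variable {ι₀ : Type*} {Ft₀ : ι₀ → Type*} [∀ v, Field (Ft₀ v)]
  [∀ v, Algebra (IsLocalRing.ResidueField B) (Ft₀ v)]
  {ν₀ : Type*} {ι : Type*} {Ft : ι → Type*} [∀ w, Field (Ft w)]
  [∀ w, Algebra (IsLocalRing.ResidueField B) (Ft w)]
  {ν : Type*}
  (S₀ : SemistableSetup (F := Fb (M * q)) B (residue B) ι₀ Ft₀ ν₀)
  (S : SemistableSetup (F := Fb (M * q * q)) B (residue B) ι Ft ν)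
  (ve : ι₀) (hOe : S₀.O ve = circleRing C' b₀ hb1 hb2) (wze : ι) (hwze : S.O wze = Z)

/-- **(b-exc)** in the shape of the setups: the single component `z e` of `S''` over the
exceptional component `exc (Fr e)` of `S'ref_b` along `β₂`, `f = q`. -/
def fullExcB :
    letI := algebraAlong (beta2 M q)
    MultiVal.Full (S₀.O ve) (fun _ : Unit => S.O wze) (fun _ => Fin q) :=
  letI := algebraAlong (beta2 M q)
  Full.congr hOe (fun _ => hwze)
    (fullExcBRing B hB C' b₀ hb1 hb2 hβ hρ resZ hcomap hsurj hker φ hφ hφC hβ' hω hmirror hθ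
      hθres)

include hB hb1 hb2 hβ hρ hcomap hsurj hker hφ hφC hβ' hω hmirror hθres hOe hwze in
/-- `z e` lies over `exc (Fr e)` along `β₂`. -/
theorem liesOverAlong_fullExcB : LiesOverAlong S₀ S (beta2 M q) ve wze :=
  liesOverAlong_of_full
    (fullExcB B hB C' b₀ hb1 hb2 hβ hρ resZ hcomap hsurj hker φ hφ hφC hβ' hω hmirror hθ hθres
      S₀ S ve hOe wze hwze) ()

include hB hb1 hb2 hβ hρ hcomap hsurj hker hφ hφC hβ' hω hmirror hθres hOe hwze in
/-- **`NormRes` at the exceptional component, along `β₂`** (the entry `v = exc (Fr e)` of `hNRb`):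
`J = Unit`, `w = fun _ => z e`, the residue extension is `resHom`. -/
theorem normRes_fullExcB :
    Fermat.Agent.BR3.G5Multi.NormRes S₀ S (beta2 M q) ve (fun _ : Unit => wze)
      (fun _ => resHom (residue_surjective (R := B))
        (liesOverAlong_fullExcB B hB C' b₀ hb1 hb2 hβ hρ resZ hcomap hsurj hker φ hφ hφC hβ' hω
          hmirror hθ hθres S₀ S ve hOe wze hwze)) :=
  normRes_of_full_resHom S₀ S (beta2 M q) (Fermat.Agent.BR2.LevelGen.finiteAlong_fb _)
    (residue_surjective (R := B)) ve (fun _ : Unit => wze)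
    (fullExcB B hB C' b₀ hb1 hb2 hβ hρ resZ hcomap hsurj hker φ hφ hφC hβ' hω hmirror hθ hθres
      S₀ S ve hOe wze hwze)

end Fermat.Agent.BR3.FullExcBPlug
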