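import Fermat.Agent.BR3.FullExc
import Fermat.Agent.BR3.NormResidueMulti
import Fermat.Agent.Hecke.HeckeInputs

/-!
# Program C (S36), node (G6-PUSH-MOD): the residue extension of a unique unramified extension with
residue field `AdjoinRoot P`, `P` separable, is separable — the fundamental identity `hFIexc`

## abstract part

Setting of `BR3/FullExc` (`O₀ ⊆ F`, `Z ⊆ E` over `O₀`, `res₀ : O₀ →+* k₀` SURJECTIVE,
`resZ : Z →+* AdjoinRoot P`, `P ∈ k₀[X]` monic of degree `[E : F]`, `resZ θ = root P`) with `P`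
SEPARABLE, and ANY pair of residue maps `r₀ : O₀ →+* L₀` (`ResBase`), `r : Z →+* L` (`ResOver`):

* `aeval_residue_eq_zero` : `r θ` is a root of `P.map τ₀`, `τ₀ : k₀ →+* L₀` the comparison map;
* `isSeparable_residue_gen` : `r θ` is separable over `L₀`;
* `span_pow_residue` : the powers `(r θ) ^ i`, `i < deg P`, span `L` over `L₀`;
* **`isSeparable_residue`** : `Algebra.IsSeparable L₀ L`.

## for the setups

* **`isSeparable_resHom_of_adjoinRoot`** : for setups `S₀`, `S`, `φ`, `hl : LiesOverAlong S₀ S φ v w`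
  with `S₀.O v = O₀`, `S.O w = Z`: `Algebra.IsSeparable (Ft₀ v) (Ft w)` along `resHom hπ hl`;
* **`fundamentalIdentityAlong_resHom_of_adjoinRoot`**, `normFormulaAlong_resHom_of_adjoinRoot`;
* `fundamentalIdentityAlong_exc` : the instance `alpha2 M q`, `vertBar q β ρ`, circle rings
  (`hFIexc` of `PushMod.hpa_of_enum`).
-/

set_option autoImplicit false
set_option linter.style.haveILetI false
set_option linter.unusedSectionVars false
set_option linter.unusedVariables false

noncomputable section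

set_option synthInstance.maxHeartbeats 400000

namespace Fermat.Agent.BR3.FullExcSep

open Polynomial Module IntermediateField Fermat.Agent.BR.TwoVal Fermat.Agent.BR3.MultiVal
  Fermat.Agent.BR3.FullGlue Fermat.Agent.BR3.ApproxFull Fermat.Agent.BR2.NormResidue
  Fermat.Agent.BR3.FullExc

/-! ### the abstract part -/

section Abstract

variable {F E k₀ : Type*} [Field F] [Field E] [Algebra F E] [Field k₀]
  {O₀ : ValuationSubring F} {Z : ValuationSubring E}
  (hlies : Z.comap (algebraMap F E) = O₀)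
  (res₀ : O₀ →+* k₀) (hsurj₀ : Function.Surjective res₀)
  (hker₀ : ∀ c : O₀, res₀ c = 0 → ¬ IsUnit c)
  {P : k₀[X]} (hPm : P.Monic) (hPsep : P.Separable) (resZ : Z →+* AdjoinRoot P)
  (hker : ∀ z : Z, resZ z = 0 ↔ ¬ IsUnit z)
  (hcompat : ∀ (c : O₀) (h : algebraMap F E (c : F) ∈ Z),
    resZ ⟨algebraMap F E (c : F), h⟩ = AdjoinRoot.of P (res₀ c))
  {θ : E} (hθ : θ ∈ Z) (hroot : resZ ⟨θ, hθ⟩ = AdjoinRoot.root P)
  {L₀ L : Type*} [Field L₀] [Field L] [Algebra L₀ L] {r₀ : O₀ →+* L₀} {r : Z →+* L}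
  (H₀ : ResBase r₀) (H : ResOver r₀ r)

include hlies in
/-- the inclusion `O₀ → Z` -/
theorem algebraMap_mem_of_lies (c : O₀) : algebraMap F E (c : F) ∈ Z := by
  rw [← ValuationSubring.mem_comap, hlies]
  exact c.2

/-- the inclusion `O₀ → Z` as a ring homomorphism -/
def liftZ : O₀ →+* Z where
  toFun c := ⟨algebraMap F E (c : F), algebraMap_mem_of_lies hlies c⟩
  map_one' := Subtype.ext (map_one _)
  map_mul' a b := Subtype.ext (map_mul (algebraMap F E) (a : F) (b : F))
  map_zero' := Subtype.ext (map_zero _)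
  map_add' a b := Subtype.ext (map_add (algebraMap F E) (a : F) (b : F))

include hsurj₀ hker₀ H₀ in
/-- the kernel of `res₀` is contained in the kernel of `r₀` -/
theorem ker_res₀_le : RingHom.ker res₀ ≤ RingHom.ker r₀ := by
  intro c hc
  rw [RingHom.mem_ker] at hc ⊢
  rw [H₀.ker]
  exact (mem_nonunits_iff_not_isUnit' O₀ c).2 (hker₀ c hc)

/-- **The comparison map** `τ₀ : k₀ →+* L₀` of the two residue fields of `O₀`. -/
def tau₀ : k₀ →+* L₀ :=
  res₀.liftOfSurjective hsurj₀ ⟨r₀, ker_res₀_le res₀ hsurj₀ hker₀ H₀⟩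

theorem tau₀_res₀ (c : O₀) : tau₀ res₀ hsurj₀ hker₀ H₀ (res₀ c) = r₀ c :=
  res₀.liftOfRightInverse_comp_apply _ _ ⟨r₀, ker_res₀_le res₀ hsurj₀ hker₀ H₀⟩ c

include hlies hsurj₀ hker₀ hPm hker hcompat hroot H₀ H in
/-- **`r θ` is a root of `P.map τ₀`.** -/
theorem aeval_residue_eq_zero :
    aeval (r ⟨θ, hθ⟩) (P.map (tau₀ res₀ hsurj₀ hker₀ H₀)) = 0 := by
  obtain ⟨Pt, hPt⟩ := Polynomial.map_surjective res₀ hsurj₀ P
  -- the value of the lift of `P` at `θ` is a non-unit of `Z`
  have h1 : resZ (eval₂ (liftZ hlies) (⟨θ, hθ⟩ : Z) Pt) = 0 := by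
    rw [hom_eval₂, hroot]
    have e : resZ.comp (liftZ hlies) = (AdjoinRoot.of P).comp res₀ := by
      ext c
      exact hcompat c (algebraMap_mem_of_lies hlies c)
    rw [e, ← eval₂_map, hPt]
    exact AdjoinRoot.eval₂_root P
  have h2 : r (eval₂ (liftZ hlies) (⟨θ, hθ⟩ : Z) Pt) = 0 := by
    rw [H.ker, mem_nonunits_iff_not_isUnit', ← hker]
    exact h1
  rw [hom_eval₂] at h2
  have e2 : r.comp (liftZ hlies) = (algebraMap L₀ L).comp r₀ := by
    ext c
    exact H.compat c (algebraMap_mem_of_lies hlies c)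
  have e3 : Pt.map r₀ = P.map (tau₀ res₀ hsurj₀ hker₀ H₀) := by
    rw [← hPt, Polynomial.map_map]
    congr 1
    ext c
    exact (tau₀_res₀ res₀ hsurj₀ hker₀ H₀ c).symm
  rw [e2, ← eval₂_map, e3] at h2
  rw [aeval_def]
  exact h2

include hlies hsurj₀ hker₀ hPm hPsep hker hcompat hroot H₀ H in
/-- **`r θ` is separable over `L₀`.** -/
theorem isSeparable_residue_gen : IsSeparable L₀ (r ⟨θ, hθ⟩) :=
  (hPsep.map (f := tau₀ res₀ hsurj₀ hker₀ H₀)).of_dvd
    (minpoly.dvd L₀ _
      (aeval_residue_eq_zero hlies res₀ hsurj₀ hker₀ hPm resZ hker hcompat hθ hroot H₀ H))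

variable [FiniteDimensional F E] (harch : Arch O₀) (hdeg : P.natDegree = finrank F E)

include hlies hker₀ hPm hker hcompat hroot harch hdeg H₀ H in
/-- **The powers of `r θ` span `L` over `L₀`.** -/
theorem span_pow_residue :
    Submodule.span L₀ (Set.range fun i : Fin P.natDegree => r ⟨θ, hθ⟩ ^ (i : ℕ)) = ⊤ := by
  have hx := resIndep_pow_of_adjoinRoot hlies res₀ hker₀ hPm resZ hker hcompat hθ hroot rfl
  have hli := linearIndependent_res H₀ H
    (fun c hc => algebraMap_mem_of_lies hlies ⟨c, hc⟩) hx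
  have hpow : (fun i : Fin P.natDegree => r ⟨θ ^ (i : ℕ), hx.1 i⟩) =
      fun i : Fin P.natDegree => r ⟨θ, hθ⟩ ^ (i : ℕ) := by
    funext i
    rw [← map_pow]
    rfl
  rw [hpow] at hli
  have D := fullSingleOfAdjoinRoot hlies res₀ hker₀ hPm resZ hker hcompat hθ hroot rfl harch hdeg
  have hfr : Module.finrank L₀ L = Fintype.card (Fin P.natDegree) :=
    Fermat.Agent.BR3.MultiVal.finrank_residue (k := fun _ : Unit => L)
      (res := fun _ : Unit => r) D H₀ (fun _ => H) ()
  haveI : Module.Finite L₀ L :=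
    Fermat.Agent.BR3.MultiVal.finite_residue (k := fun _ : Unit => L)
      (res := fun _ : Unit => r) D H₀ (fun _ => H) ()
  exact hli.span_eq_top_of_card_eq_finrank' hfr.symm

include hlies hsurj₀ hker₀ hPm hPsep hker hcompat hroot harch hdeg H₀ H in
/-- **The residue extension is separable.** -/
theorem isSeparable_residue : Algebra.IsSeparable L₀ L := by
  have hsep : IsSeparable L₀ (r ⟨θ, hθ⟩) :=
    isSeparable_residue_gen hlies res₀ hsurj₀ hker₀ hPm hPsep resZ hker hcompat hθ hroot H₀ H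
  haveI : Algebra.IsSeparable L₀ L₀⟮r ⟨θ, hθ⟩⟯ :=
    (isSeparable_adjoin_simple_iff_isSeparable L₀ L).mpr hsep
  refine ⟨fun x => ?_⟩
  refine isSeparable_of_mem_isSeparable L₀ L (L := L₀⟮r ⟨θ, hθ⟩⟯) ?_
  have hx : x ∈ Submodule.span L₀
      (Set.range fun i : Fin P.natDegree => r ⟨θ, hθ⟩ ^ (i : ℕ)) := by
    rw [span_pow_residue hlies res₀ hker₀ hPm resZ hker hcompat hθ hroot H₀ H harch hdeg]
    exact Submodule.mem_top
  have hle : Submodule.span L₀ (Set.range fun i : Fin P.natDegree => r ⟨θ, hθ⟩ ^ (i : ℕ)) ≤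
      (L₀⟮r ⟨θ, hθ⟩⟯).toSubalgebra.toSubmodule := by
    rw [Submodule.span_le]
    rintro _ ⟨i, rfl⟩
    exact pow_mem (mem_adjoin_simple_self L₀ _) _
  exact hle hx

end Abstract

/-! ### for the setups -/

section Setups

open AlgebraicCurve Fermat.Agent.Red Fermat.Agent.BR.SS Fermat.Agent.Jac Fermat.Agent.X0
  Fermat.Agent.BR3.PushGlue

variable {K k : Type*} [Field K] [Field k] {A : ValuationSubring K} {π : A →+* k}
  {F₀ F : Type*} [Field F₀] [Algebra K F₀] [Field F] [Algebra K F]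
  {ι₀ : Type*} {Ft₀ : ι₀ → Type*} [∀ v, Field (Ft₀ v)] [∀ v, Algebra k (Ft₀ v)] {ν₀ : Type*}
  {ι : Type*} {Ft : ι → Type*} [∀ w, Field (Ft w)] [∀ w, Algebra k (Ft w)] {ν : Type*}
  {S₀ : SemistableSetup (F := F₀) A π ι₀ Ft₀ ν₀} {S : SemistableSetup (F := F) A π ι Ft ν}
  {φ : F₀ →ₐ[K] F} {v : ι₀} {w : ι} (hπ : Function.Surjective π)
  (hl : LiesOverAlong S₀ S φ v w) (hfin : FiniteAlong K φ)
  {k₀ : Type*} [Field k₀] {O₀ : ValuationSubring F₀} {Z : ValuationSubring F}
  (hO₀ : S₀.O v = O₀) (hZ : S.O w = Z)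
  (res₀ : O₀ →+* k₀) (hsurj₀ : Function.Surjective res₀)
  (hker₀ : ∀ c : O₀, res₀ c = 0 → ¬ IsUnit c)
  {P : k₀[X]} (hPm : P.Monic) (hPsep : P.Separable) (resZ : Z →+* AdjoinRoot P)
  (hker : ∀ z : Z, resZ z = 0 ↔ ¬ IsUnit z)
  (hcompat : ∀ (c : O₀) (h : φ (c : F₀) ∈ Z), resZ ⟨φ (c : F₀), h⟩ = AdjoinRoot.of P (res₀ c))
  {θ : F} (hθ : θ ∈ Z) (hroot : resZ ⟨θ, hθ⟩ = AdjoinRoot.root P)
  (harch : Arch O₀)
  (hdeg : letI := algebraAlong φ
    P.natDegree = finrank F₀ F)

include hfin hO₀ hZ hsurj₀ hker₀ hPm hPsep hker hcompat hroot harch hdeg in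
/-- **The residue extension of `w` over `v` is separable** when the residue field of `S.O w = Z` is
`AdjoinRoot P` with `P` separable of degree `[F : φ F₀]`. -/
theorem isSeparable_resHom_of_adjoinRoot :
    letI := algebraAlong (resHom hπ hl)
    Algebra.IsSeparable (Ft₀ v) (Ft w) := by
  subst hO₀
  subst hZ
  letI := algebraAlong φ
  haveI : FiniteDimensional F₀ F := hfin
  letI := algebraAlong (resHom hπ hl)
  have hlies : (S.O w).comap (algebraMap F₀ F) = S₀.O v := liesOverAlong_iff_comap.mp hl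
  have H : ResOver (S₀.res v) (S.res w) :=
    ⟨S.res_surjective w, fun z => by
      rw [S.res_eq_zero_iff w z, ValuationSubring.coe_mem_nonunits_iff,
        IsLocalRing.mem_maximalIdeal, mem_nonunits_iff],
      fun c h => resHom_res hπ hl c h⟩
  exact isSeparable_residue (F := F₀) (E := F) hlies res₀ hsurj₀ hker₀ hPm hPsep resZ hker
    hcompat hθ hroot (resBase_res v) H harch hdeg

include hfin hO₀ hZ hsurj₀ hker₀ hPm hPsep hker hcompat hroot harch hdeg in
/-- **The fundamental identity for the residue extension** of `w` over `v`. -/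
theorem fundamentalIdentityAlong_resHom_of_adjoinRoot [HasPrincipalDivisors k (Ft w)]
    (hfinψ : FiniteAlong k (resHom hπ hl)) (hψ : (resHom hπ hl).toRingHom.IsIntegral) :
    FundamentalIdentityAlong k (resHom hπ hl) hψ :=
  Fermat.Agent.Hecke.fundamentalIdentityAlong_of_finite (resHom hπ hl) hfinψ
    (isSeparable_resHom_of_adjoinRoot hπ hl hfin hO₀ hZ res₀ hsurj₀ hker₀ hPm hPsep resZ hker
      hcompat hθ hroot harch hdeg) hψ

include hfin hO₀ hZ hsurj₀ hker₀ hPm hPsep hker hcompat hroot harch hdeg in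
/-- **The norm formula for the residue extension** of `w` over `v`. -/
theorem normFormulaAlong_resHom_of_adjoinRoot (hfinψ : FiniteAlong k (resHom hπ hl)) :
    NormFormulaAlong k (resHom hπ hl) hfinψ :=
  Fermat.Agent.Hecke.normFormulaAlong_of_finite (resHom hπ hl) hfinψ
    (isSeparable_resHom_of_adjoinRoot hπ hl hfin hO₀ hZ res₀ hsurj₀ hker₀ hPm hPsep resZ hker
      hcompat hθ hroot harch hdeg)

end Setups

/-! ### the vertical components over the exceptional components, along `α₂` -/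

section Modular

open ModularCurve AlgebraicCurve IsLocalRing Fermat.Agent.X0 Fermat.Agent.Val Fermat.Agent.Red
  Fermat.Agent.BR.Circle Fermat.Agent.BR.SS Fermat.Agent.BR3.FibreProd
  Fermat.Agent.BR3.VertResidue Fermat.Agent.BR3.PushGlue Fermat.Agent.Jac

variable {M q : ℕ} [NeZero M] [hq : Fact q.Prime]
variable (B : ValuationSubring (AlgebraicClosure ℚ)) (hB : B.LiesOverPrime q)
  [IsAlgClosed (ResidueField B)]

variable {T : Set (Place Kb (Fb (M * q)))} (C : AnnulusCore B T) (a₀ : Kb)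
  (ha1 : B.valuation C.thick < B.valuation a₀) (ha2 : B.valuation a₀ < 1)
  {β ρ : IsLocalRing.ResidueField B} (hβ : β ≠ 0) (hρ : ρ ≠ 0)
  {Z : ValuationSubring (Fb (M * q * q))}
  (resZ : Z →+* AdjoinRoot (vertBar q β ρ))
  (hker : ∀ z : Z, resZ z = 0 ↔ ¬ IsUnit z)
  (hcompat : ∀ (y : circleRing C a₀ ha1 ha2) (h : alpha2 M q (y : Fb (M * q)) ∈ Z),
    resZ ⟨alpha2 M q (y : Fb (M * q)), h⟩ =
      AdjoinRoot.of (vertBar q β ρ) (circleRes C a₀ ha1 ha2 y))
  {θ : Fb (M * q * q)} (hθ : θ ∈ Z) (hroot : resZ ⟨θ, hθ⟩ = AdjoinRoot.root (vertBar q β ρ))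

variable {ι₀ : Type*} {Ft₀ : ι₀ → Type*} [∀ v, Field (Ft₀ v)]
  [∀ v, Algebra (IsLocalRing.ResidueField B) (Ft₀ v)]
  {ν₀ : Type*} {ι : Type*} {Ft : ι → Type*} [∀ w, Field (Ft w)]
  [∀ w, Algebra (IsLocalRing.ResidueField B) (Ft w)]
  {ν : Type*}
  {S₀ : SemistableSetup (F := Fb (M * q)) B (residue B) ι₀ Ft₀ ν₀}
  {S : SemistableSetup (F := Fb (M * q * q)) B (residue B) ι Ft ν}
  {ve : ι₀} (hOe : S₀.O ve = circleRing C a₀ ha1 ha2) {wze : ι} (hwze : S.O wze = Z)
  (hl : LiesOverAlong S₀ S (alpha2 M q) ve wze)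

include hB hβ hρ hker hcompat hroot hOe hwze in
/-- **The residue extension of `z e` over `exc e` along `α₂` is separable.** -/
theorem isSeparable_resHom_exc :
    letI := algebraAlong (resHom (residue_surjective (R := B)) hl)
    Algebra.IsSeparable (Ft₀ ve) (Ft wze) := by
  haveI : CharP (IsLocalRing.ResidueField B) q := Fermat.Agent.Val.charP_residueField_of_liesOverPrime B hB
  exact isSeparable_resHom_of_adjoinRoot (residue_surjective (R := B)) hl
    (Fermat.Agent.BR2.LevelGen.finiteAlong_fb (alpha2 M q)) hOe hwze (circleRes C a₀ ha1 ha2)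
    (circleRes_surjective C a₀ ha1 ha2) (fun c h => (circleRes_eq_zero_iff C a₀ ha1 ha2 c).1 h)
    (vertBar_monic hq.out.two_le) (vertBar_separable hq.out.two_le hβ hρ) resZ hker hcompat hθ
    hroot (ArchCircle.arch_circleRing C a₀ ha1 ha2 (Val.isRankOne B hB))
    ((vertBar_natDegree hq.out.two_le).trans (finrankAlong_alpha2 (M := M) (q := q)).symm)

include hB hβ hρ hker hcompat hroot hOe hwze in
/-- **`hFIexc`**: the fundamental identity for the residue extension of `z e` over `exc e` along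
`α₂`. -/
theorem fundamentalIdentityAlong_exc
    [HasPrincipalDivisors (IsLocalRing.ResidueField B) (Ft wze)]
    (hfinψ : FiniteAlong (IsLocalRing.ResidueField B)
      (resHom (residue_surjective (R := B)) hl))
    (hψ : (resHom (residue_surjective (R := B)) hl).toRingHom.IsIntegral) :
    FundamentalIdentityAlong (IsLocalRing.ResidueField B)
      (resHom (residue_surjective (R := B)) hl) hψ :=
  Fermat.Agent.Hecke.fundamentalIdentityAlong_of_finite _ hfinψ
    (isSeparable_resHom_exc B hB C a₀ ha1 ha2 hβ hρ resZ hker hcompat hθ hroot hOe hwze hl) hψ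

include hB hβ hρ hker hcompat hroot hOe hwze in
/-- the norm formula for the residue extension of `z e` over `exc e` along `α₂` -/
theorem normFormulaAlong_exc
    (hfinψ : FiniteAlong (IsLocalRing.ResidueField B)
      (resHom (residue_surjective (R := B)) hl)) :
    NormFormulaAlong (IsLocalRing.ResidueField B)
      (resHom (residue_surjective (R := B)) hl) hfinψ :=
  Fermat.Agent.Hecke.normFormulaAlong_of_finite _ hfinψ
    (isSeparable_resHom_exc B hB C a₀ ha1 ha2 hβ hρ resZ hker hcompat hθ hroot hOe hwze hl)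

end Modular

end Fermat.Agent.BR3.FullExcSep
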