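import Fermat.Agent.BR3.FullGlue
import Fermat.Agent.BR3.MidBeta
import Fermat.Agent.BR3.FibreProdMidFull
import Fermat.Agent.BR3.CInfRes
import Fermat.Agent.BR2.NormResidueModular
import Fermat.Agent.BR2.ResInst
import Fermat.Agent.BR.ConstRedTwoFinal

/-!
# Program C (S36), node (I7-FULL), part 2: the horizontal `MultiVal.Full` families of `X₀(M q²)`

`F₁ = Fb (M q)`, `F₂ = Fb (M q q)`, `α₂ β₂ : F₁ → F₂`; `O1 = can`, `O2 = et` the two components of
`X₀(M q)`; `w₁ = cInf`, `cZero`, the middle valuations `i.ring`, `i : Mid`.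

ALONG `α₂` : over `can` helper6's `FibreProd.fullAll` (`none ↦ w₁`, `some i ↦ i.ring`);
* `fullZeroAlpha` : over `et` the single family `{cZero}` (`f = q`, purely inseparable).

ALONG `β₂` :
* `fullInfBeta` : over `can` the single family `{w₁}` (`f = q`, purely inseparable), the powers of
  `α₂ (j)`;
* `fullAllBeta` : over `et` the family `OAllB` (`none ↦ cZero`, `some i ↦ i.ring`), transport of
  `fullAll` through `W_{q²}`.

PURELY INSEPARABLE, at the level of the valuation rings:
* `exists_beta2_sub_pow_mem_nonunits` : `∀ y ∈ w₁, ∃ c ∈ O1, y ^ q - β₂ c ∈ 𝔪_{w₁}`;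
* `exists_alpha2_sub_pow_mem_nonunits` : `∀ y ∈ cZero, ∃ c ∈ O2, y ^ q - α₂ c ∈ 𝔪_{cZero}`
(the inputs of `FullGlue.pow_mem_range_resHom`).
-/

set_option autoImplicit false
set_option linter.style.haveILetI false
set_option linter.unusedSectionVars false
set_option linter.unusedVariables false

noncomputable section

set_option synthInstance.maxHeartbeats 400000

namespace Fermat.Agent.BR3.FullHoriz

open ModularCurve AlgebraicCurve HahnSeries Polynomial Fermat.Agent.X0 Fermat.Agent.Val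
open Fermat.Agent.Hecke.AL Fermat.Agent.BR.TwoVal Fermat.Agent.BR.ResGen
open Fermat.Agent.BR.TwoValInst Fermat.Agent.BR3.FibreProd Fermat.Agent.BR3.ALSq
open Fermat.Agent.BR3.CZero Fermat.Agent.BR3.MidBeta Fermat.Agent.Jac Fermat.Agent.BR3.FullGlue

variable {M q : ℕ} [NeZero M] [hq : Fact q.Prime]
variable (B : ValuationSubring (AlgebraicClosure ℚ)) (hB : B.LiesOverPrime q) (hqM : ¬ q ∣ M)

local notation "kB" => IsLocalRing.ResidueField B

/-! ### `w₁` over `can` along `β₂` -/

theorem smul_along_beta2 (c : Fb (M * q)) (x : Fb (M * q * q)) :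
    letI := algebraAlong (beta2 M q)
    c • x = beta2 M q c * x := rfl

/-- the generator: `α₂ (j)`, with residue `j̃` of order `-1` -/
theorem alpha2_jOne_mem_w1 : alpha2 M q (jOne M q) ∈ w1 M B hB :=
  (alpha2_mem_w1_iff B hB _).2 (jOne_mem_O1 B hB)

theorem resw1_alpha2_jOne :
    resw1 M B hB ⟨alpha2 M q (jOne M q), alpha2_jOne_mem_w1 B hB⟩ = jqModC kB := by
  rw [resw1_alpha2 B hB _ (jOne_mem_O1 B hB), res1_jOne]

/-- **`1, α₂ j, …, (α₂ j)^{q-1}` is residue-independent for `w₁` over `can` along `β₂`.** -/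
theorem resIndep_w1_beta2 :
    letI := algebraAlong (beta2 M q)
    ResIndep (O1 M B hB) (w1 M B hB) (fun i : Fin q => alpha2 M q (jOne M q) ^ (i : ℕ)) := by
  letI := algebraAlong (beta2 M q)
  have : NeZero q := ⟨hq.out.ne_zero⟩
  have hJ := alpha2_jOne_mem_w1 (M := M) B hB
  refine ⟨fun i => pow_mem hJ _, fun c hc h i => ?_⟩
  have hβ : ∀ i, beta2 M q (c i) ∈ w1 M B hB := fun i => (beta2_mem_w1_iff B hB _).2 (hc i)
  set W : w1 M B hB := ∑ i : Fin q, (⟨beta2 M q (c i), hβ i⟩ : w1 M B hB) *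
    (⟨alpha2 M q (jOne M q), hJ⟩ : w1 M B hB) ^ (i : ℕ) with hW
  have hWcoe : ((W : w1 M B hB) : Fb (M * q * q)) =
      ∑ i : Fin q, c i • alpha2 M q (jOne M q) ^ (i : ℕ) := by
    have h1 : ((W : w1 M B hB) : Fb (M * q * q)) = (w1 M B hB).subtype W := rfl
    rw [h1, hW, map_sum]
    refine Finset.sum_congr rfl fun i _ => ?_
    rw [map_mul, map_pow]
    rfl
  have hres : resw1 M B hB W = 0 := by
    have h2 : ((W : w1 M B hB) : Fb (M * q * q)) ∈ (w1 M B hB).nonunits := by
      rw [hWcoe]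
      exact h
    exact (mem_nonunits_O1_iff (M := M * q) B hB W.2).1 h2
  rw [hW, map_sum] at hres
  have hres' : ∑ i : Fin q, qExpand kB q (res1 M B hB ⟨c i, hc i⟩) * jqModC kB ^ (i : ℕ) = 0 := by
    rw [← hres]
    refine Finset.sum_congr rfl fun i _ => ?_
    rw [map_mul, map_pow, resw1_alpha2_jOne, resw1_beta2 B hB (c i) (hc i)]
  have hzero := eq_zero_of_sum_qExpand_mul_pow kB q (order_jqModC B)
    (fun i => res1 M B hB ⟨c i, hc i⟩) hres' i
  exact (mem_nonunits_O1_iff B hB (hc i)).2 hzero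

/-- **(b-can)** the full situation over `can` along `β₂`: the single valuation `w₁ = cInf`,
`f = q`. -/
def fullInfBeta :
    letI := algebraAlong (beta2 M q)
    MultiVal.Full (O1 M B hB) (fun _ : Unit => w1 M B hB) (fun _ => Fin q) :=
  letI := algebraAlong (beta2 M q)
  Full.single (comap_beta2_w1 B hB) (arch_O1 (M := M * q) B hB) _ (resIndep_w1_beta2 B hB)
    (by rw [Fintype.card_fin]; exact (finrankAlong_beta2 (M := M) (q := q)).symm)

/-! ### transport through `W_q`, `W_{q²}` -/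

/-- `cZero` is the pull back of `w₁` through `W_{q²}` (as a ring isomorphism) -/
theorem comap_W2_w1 :
    (w1 M B hB).comap (((W2 hqM).toRingEquiv : Fb (M * q * q) ≃+* Fb (M * q * q)) :
      Fb (M * q * q) →+* Fb (M * q * q)) = cZero B hB hqM := rfl

/-- `et` is the pull back of `can` through `W_q` (as a ring isomorphism) -/
theorem comap_Wq_O1 :
    (O1 M B hB).comap (((Wq hqM).toRingEquiv : Fb (M * q) ≃+* Fb (M * q)) :
      Fb (M * q) →+* Fb (M * q)) = O2 B hB hqM := rfl

/-- the square `W_{q²} ∘ α₂ = β₂ ∘ W_q` for the algebra structures along `α₂` (source) and `β₂`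
(target) -/
theorem W2_algebraMap_alpha2 (c : Fb (M * q)) :
    (W2 hqM).toRingEquiv ((algebraAlong (alpha2 M q)).algebraMap c) =
      (algebraAlong (beta2 M q)).algebraMap ((Wq hqM).toRingEquiv c) :=
  W2_alpha2 hqM c

/-- the square `W_{q²} ∘ β₂ = α₂ ∘ W_q` -/
theorem W2_algebraMap_beta2 (c : Fb (M * q)) :
    (W2 hqM).toRingEquiv ((algebraAlong (beta2 M q)).algebraMap c) =
      (algebraAlong (alpha2 M q)).algebraMap ((Wq hqM).toRingEquiv c) :=
  W2_beta2 hqM c

/-! ### `cZero` over `et` along `α₂` -/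

/-- **`W_{q²} (α₂ j)^i`, `i < q`, is residue-independent for `cZero` over `et` along `α₂`.** -/
theorem resIndep_cZero_alpha2 :
    letI := algebraAlong (alpha2 M q)
    ResIndep (O2 B hB hqM) (cZero B hB hqM)
      (fun i : Fin q => W2 hqM (alpha2 M q (jOne M q) ^ (i : ℕ))) := by
  have h := @resIndep_comap (Fb (M * q)) (Fb (M * q * q)) (Fb (M * q)) (Fb (M * q * q)) _ _
    (algebraAlong (beta2 M q)) _ _ (algebraAlong (alpha2 M q)) (Wq hqM).toRingEquiv
    (W2 hqM).toRingEquiv (W2_algebraMap_alpha2 hqM) _ _ _ _ _ (resIndep_w1_beta2 (M := M) B hB)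
  have e : (fun i : Fin q => (W2 hqM).toRingEquiv.symm (alpha2 M q (jOne M q) ^ (i : ℕ))) =
      fun i : Fin q => W2 hqM (alpha2 M q (jOne M q) ^ (i : ℕ)) := by
    funext i
    apply (W2 hqM).toRingEquiv.injective
    rw [RingEquiv.apply_symm_apply]
    exact (W2_W2 hqM _).symm
  rw [e] at h
  exact h

/-- **(a-et)** the full situation over `et` along `α₂`: the single valuation `cZero`, `f = q`. -/
def fullZeroAlpha :
    letI := algebraAlong (alpha2 M q)
    MultiVal.Full (O2 B hB hqM) (fun _ : Unit => cZero B hB hqM) (fun _ => Fin q) :=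
  letI := algebraAlong (alpha2 M q)
  Full.single (comap_alpha2_cZero B hB hqM) (arch_cZero B hB hqM) _
    (resIndep_cZero_alpha2 B hB hqM)
    (by rw [Fintype.card_fin]; exact (finrankAlong_alpha2 (M := M) (q := q)).symm)

/-! ### `cZero` and the middle valuations over `et` along `β₂` -/

section AllBeta

variable {ζ : Kbˣ} (hζ : IsPrimitiveRoot ζ q)

/-- `W_{q²}` is an involution on the valuation subrings -/
theorem comap_W2_comap_W2 (O : ValuationSubring (Fb (M * q * q))) :
    (O.comap (((W2 hqM).toRingEquiv : Fb (M * q * q) ≃+* Fb (M * q * q)) :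
      Fb (M * q * q) →+* Fb (M * q * q))).comap
      (((W2 hqM).toRingEquiv : Fb (M * q * q) ≃+* Fb (M * q * q)) :
        Fb (M * q * q) →+* Fb (M * q * q)) = O := by
  ext x
  rw [ValuationSubring.mem_comap, ValuationSubring.mem_comap]
  show W2 hqM (W2 hqM x) ∈ O ↔ x ∈ O
  rw [W2_W2]

include hB in
/-- **`W_{q²}` permutes the middle valuations**: every middle valuation is the pull back through
`W_{q²}` of a middle valuation. -/
theorem exists_mid_comap_W2 (i : Mid B hB hqM hζ) :
    ∃ i' : Mid B hB hqM hζ,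
      (i'.ring B hB hqM hζ).comap (((W2 hqM).toRingEquiv : Fb (M * q * q) ≃+* Fb (M * q * q)) :
        Fb (M * q * q) →+* Fb (M * q * q)) = i.ring B hB hqM hζ := by
  obtain ⟨b', hb', h⟩ := exists_w2_eq_w2W B hB hqM hζ (i.rep B hB hqM hζ).2
    (eq_w1_or_exists_eq_w2 B hB hqM hζ)
  refine ⟨midOf B hB hqM hζ ⟨b', hb'⟩, ?_⟩
  rw [midOf_ring, ← h, ← i.w2_rep]
  exact comap_W2_comap_W2 hqM _

/-- the middle valuation whose pull back through `W_{q²}` is `i` -/
def midW (i : Mid B hB hqM hζ) : Mid B hB hqM hζ :=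
  Classical.choose (exists_mid_comap_W2 B hB hqM hζ i)

theorem comap_W2_midW (i : Mid B hB hqM hζ) :
    ((midW B hB hqM hζ i).ring B hB hqM hζ).comap
      (((W2 hqM).toRingEquiv : Fb (M * q * q) ≃+* Fb (M * q * q)) :
        Fb (M * q * q) →+* Fb (M * q * q)) = i.ring B hB hqM hζ :=
  Classical.choose_spec (exists_mid_comap_W2 B hB hqM hζ i)

/-- **all valuations of `F₂` over `et` along `β₂`**: `cZero` and the middle ones -/
def OAllB : Option (Mid B hB hqM hζ) → ValuationSubring (Fb (M * q * q))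
  | none => cZero B hB hqM
  | some i => i.ring B hB hqM hζ

@[simp] theorem OAllB_none : OAllB B hB hqM hζ none = cZero B hB hqM := rfl

@[simp] theorem OAllB_some (i : Mid B hB hqM hζ) :
    OAllB B hB hqM hζ (some i) = i.ring B hB hqM hζ := rfl

/-- the residue-independent families along `β₂`: the `W_{q²}`-transports of those along `α₂` -/
def xAllB : ∀ v : Option (Mid B hB hqM hζ), Fin (fAll B hB hqM hζ v) → Fb (M * q * q)
  | none => fun _ => 1
  | some i => fun k => W2 hqM (xAll B hB hqM hζ (some (midW B hB hqM hζ i)) k)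

theorem OAllB_injective : Function.Injective (OAllB B hB hqM hζ) := by
  rintro (_ | i) (_ | j) h
  · rfl
  · exfalso
    have h1 : cZero B hB hqM = j.ring B hB hqM hζ := h
    rw [← j.w2_rep] at h1
    exact w2_ne_cZero B hB hqM hζ _ h1.symm
  · exfalso
    have h1 : i.ring B hB hqM hζ = cZero B hB hqM := h
    rw [← i.w2_rep] at h1
    exact w2_ne_cZero B hB hqM hζ _ h1
  · exact congrArg some (Mid.ring_injective B hB hqM hζ h)

theorem arch_OAllB (v : Option (Mid B hB hqM hζ)) : Arch (OAllB B hB hqM hζ v) := by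
  rcases v with _ | i
  · exact arch_cZero B hB hqM
  · show Arch (i.ring B hB hqM hζ)
    rw [← i.w2_rep]
    exact arch_w2 B hB hqM hζ _

theorem exists_notMem_OAllB (v : Option (Mid B hB hqM hζ)) :
    ∃ y : Fb (M * q * q), y ∉ OAllB B hB hqM hζ v := by
  rcases v with _ | i
  · obtain ⟨y, hy⟩ := exists_notMem_w1 (M := M) B hB
    refine ⟨W2 hqM y, fun h => hy ?_⟩
    have h1 := (mem_cZero_iff B hB hqM).1 h
    rwa [W2_W2] at h1
  · show ∃ y, y ∉ i.ring B hB hqM hζ
    rw [← i.w2_rep]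
    exact exists_notMem_w2 B hB hqM hζ _

/-- **the setup along `β₂`**: `cZero` and the middle valuations are pairwise separated rank one
valuation subrings of `F₂` over `et = O2` along `β₂`. -/
theorem setupAllBeta :
    letI := algebraAlong (beta2 M q)
    MultiVal.Setup (O2 B hB hqM) (OAllB B hB hqM hζ) := by
  letI := algebraAlong (beta2 M q)
  refine ⟨?_, arch_OAllB B hB hqM hζ, fun v w hvw => ?_⟩
  · rintro (_ | i)
    · exact comap_beta2_cZero B hB hqM
    · show (i.ring B hB hqM hζ).comap _ = _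
      rw [← i.w2_rep]
      exact comap_beta2_w2 B hB hqM hζ _
  · have hne : OAllB B hB hqM hζ v ≠ OAllB B hB hqM hζ w := fun h =>
      hvw (OAllB_injective B hB hqM hζ h)
    exact exists_sep_of_not_le
      (fun hle => hne ((arch_OAllB B hB hqM hζ v).eq_of_le hle
        (exists_notMem_OAllB B hB hqM hζ w)).symm)
      (fun hle => hne ((arch_OAllB B hB hqM hζ w).eq_of_le hle
        (exists_notMem_OAllB B hB hqM hζ v)))

include hB in
theorem resIndep_xAllB (v : Option (Mid B hB hqM hζ)) :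
    letI := algebraAlong (beta2 M q)
    ResIndep (O2 B hB hqM) (OAllB B hB hqM hζ v) (xAllB B hB hqM hζ v) := by
  rcases v with _ | i
  · have h := @resIndep_comap (Fb (M * q)) (Fb (M * q * q)) (Fb (M * q)) (Fb (M * q * q)) _ _
      (algebraAlong (alpha2 M q)) _ _ (algebraAlong (beta2 M q)) (Wq hqM).toRingEquiv
      (W2 hqM).toRingEquiv (W2_algebraMap_beta2 hqM) _ _ _ _ _
      (resIndep_w1 (M := M) (ι := Fin 1) B hB)
    have e : (fun _ : Fin 1 => (W2 hqM).toRingEquiv.symm (1 : Fb (M * q * q))) =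
        fun _ : Fin 1 => (1 : Fb (M * q * q)) := by
      funext _
      exact map_one _
    rw [e] at h
    exact h
  · have h := @resIndep_comap (Fb (M * q)) (Fb (M * q * q)) (Fb (M * q)) (Fb (M * q * q)) _ _
      (algebraAlong (alpha2 M q)) _ _ (algebraAlong (beta2 M q)) (Wq hqM).toRingEquiv
      (W2 hqM).toRingEquiv (W2_algebraMap_beta2 hqM) _ _ _ _ _
      (resIndep_xAll B hB hqM hζ (some (midW B hB hqM hζ i)))
    have e : (fun k : Fin (fAll B hB hqM hζ (some (midW B hB hqM hζ i))) =>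
        (W2 hqM).toRingEquiv.symm (xAll B hB hqM hζ (some (midW B hB hqM hζ i)) k)) =
        xAllB B hB hqM hζ (some i) := by
      funext k
      apply (W2 hqM).toRingEquiv.injective
      rw [RingEquiv.apply_symm_apply]
      exact (W2_W2 hqM _).symm
    rw [e] at h
    have h2 : (OAll B hB hqM hζ (some (midW B hB hqM hζ i))).comap
        (((W2 hqM).toRingEquiv : Fb (M * q * q) ≃+* Fb (M * q * q)) :
          Fb (M * q * q) →+* Fb (M * q * q)) = OAllB B hB hqM hζ (some i) :=
      comap_W2_midW B hB hqM hζ i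
    rw [h2] at h
    exact h

/-- **(b-et)** the full situation over `et` along `β₂`: `cZero` (`f = 1`) and the middle
valuations (`f = fMid` each) exhaust the degree `q`. -/
def fullAllBeta :
    letI := algebraAlong (beta2 M q)
    MultiVal.Full (O2 B hB hqM) (OAllB B hB hqM hζ) (fun v => Fin (fAll B hB hqM hζ v)) :=
  letI := algebraAlong (beta2 M q)
  { setup := setupAllBeta B hB hqM hζ
    x := xAllB B hB hqM hζ
    hx := resIndep_xAllB B hB hqM hζ
    card_eq := by
      rw [sum_fAll, card_mid_mul B hB hqM hζ,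
        show Module.finrank (Fb (M * q)) (Fb (M * q * q)) = q from finrankAlong_beta2]
      have := hq.out.two_le
      omega }

end AllBeta

/-! ### purely inseparable, at the level of the valuation rings -/

section Insep

open Fermat.Agent.BR.ConstRedTwo Fermat.Agent.Hecke Fermat.Agent.BR2.NormResidueModular

include hqM in
/-- **`w₁` is purely inseparable over `can` along `β₂`**: the `q`-th power of an element of `w₁` is
congruent modulo the maximal ideal to an element of `β₂ (O1)`. -/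
theorem exists_beta2_sub_pow_mem_nonunits {y : Fb (M * q * q)} (hy : y ∈ w1 M B hB) :
    ∃ c ∈ O1 M B hB, y ^ q - beta2 M q c ∈ (w1 M B hB).nonunits := by
  haveI : CharP kB q := charP_kB B hB
  haveI : PerfectField kB := Fermat.Agent.BR2.ResInst.perfectField_res B
  obtain ⟨c₁, hc₁, h1⟩ := CInfRes.exists_alpha2_sub_mem_nonunits B hB hqM hy
  obtain ⟨c, hcres⟩ := (constRedW1 B hB hqM).res_surjective
    (frobAutFullC kB M q • (constRedW1 B hB hqM).res ⟨c₁, hc₁⟩)
  have hc : (c : Fb (M * q)) ∈ O1 M B hB := c.2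
  refine ⟨(c : Fb (M * q)), hc, ?_⟩
  have hα : alpha2 M q c₁ ∈ w1 M B hB := (alpha2_mem_w1_iff B hB _).2 hc₁
  have hβ : beta2 M q (c : Fb (M * q)) ∈ w1 M B hB := (beta2_mem_w1_iff B hB _).2 hc
  -- the residue of `y`
  have hresy : resw1 M B hB ⟨y, hy⟩ = res1 M B hB ⟨c₁, hc₁⟩ := by
    have hmem : y - alpha2 M q c₁ ∈ w1 M B hB := (w1 M B hB).sub_mem hy hα
    have h2 := (mem_nonunits_O1_iff (M := M * q) B hB hmem).1 h1
    have e : (⟨y - alpha2 M q c₁, hmem⟩ : w1 M B hB) = ⟨y, hy⟩ - ⟨alpha2 M q c₁, hα⟩ := rfl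
    have h3 : resw1 M B hB (⟨y, hy⟩ - ⟨alpha2 M q c₁, hα⟩) = 0 := by rw [← e]; exact h2
    rw [map_sub, sub_eq_zero] at h3
    rw [h3, resw1_alpha2 B hB _ hc₁]
  -- the residue of `β₂ c`
  have hresc : resw1 M B hB ⟨beta2 M q (c : Fb (M * q)), hβ⟩ = res1 M B hB ⟨c₁, hc₁⟩ ^ q := by
    rw [resw1_beta2 B hB _ hc]
    have e1 : res1 M B hB ⟨(c : Fb (M * q)), hc⟩ =
        ((frobAutFullC kB M q • (constRedW1 B hB hqM).res ⟨c₁, hc₁⟩ :
          modularFunctionFieldFullC kB M) : LaurentSeries kB) := by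
      rw [← hcres]
      rfl
    rw [e1, ← coe_qExpandFullC, qExpandFullC_frobAut]
    rfl
  have hmem2 : y ^ q - beta2 M q (c : Fb (M * q)) ∈ w1 M B hB :=
    (w1 M B hB).sub_mem (pow_mem hy q) hβ
  refine (mem_nonunits_O1_iff (M := M * q) B hB hmem2).2 ?_
  have e2 : (⟨y ^ q - beta2 M q (c : Fb (M * q)), hmem2⟩ : w1 M B hB) =
      ⟨y, hy⟩ ^ q - ⟨beta2 M q (c : Fb (M * q)), hβ⟩ := rfl
  show resw1 M B hB ⟨y ^ q - beta2 M q (c : Fb (M * q)), hmem2⟩ = 0
  rw [e2, map_sub, map_pow, hresy, hresc, sub_self]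

include hqM in
/-- **`cZero` is purely inseparable over `et` along `α₂`**: the `q`-th power of an element of
`cZero` is congruent modulo the maximal ideal to an element of `α₂ (O2)`. -/
theorem exists_alpha2_sub_pow_mem_nonunits {y : Fb (M * q * q)} (hy : y ∈ cZero B hB hqM) :
    ∃ c ∈ O2 B hB hqM, y ^ q - alpha2 M q c ∈ (cZero B hB hqM).nonunits := by
  obtain ⟨c, hc, h⟩ := exists_beta2_sub_pow_mem_nonunits B hB hqM ((mem_cZero_iff B hB hqM).1 hy)
  refine ⟨Wq hqM c, (Wq_mem_O2_iff B hB hqM).2 hc, ?_⟩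
  rw [mem_nonunits_cZero_iff_W2, map_sub, map_pow, W2_alpha2, Wq_Wq]
  exact h

end Insep

end Fermat.Agent.BR3.FullHoriz
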