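import Fermat.Agent.BR3.FibreProdMidGal
import Fermat.Agent.BR3.EquivInert
import Fermat.Agent.BR3.GalTrace
import Fermat.Agent.BR3.GeoAb
import Fermat.Agent.BR2.G4Modular
import Fermat.Agent.S05.Val
import Fermat.Agent.BR3.PushGlue

/-!
# Program C (S36), node (I9-MID): the action of the inertia group on the middle components

Residue layer on top of `BR3/FibreProdMidGal` (valuation level).  `S` a semistable setup on
`F̄_{Mq²}` over `B` whose components `mid i` have the middle valuation rings `i.ring`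
(`hO : ∀ i, S.O (mid i) = i.ring`); nothing else is assumed on `S`.  `gal N s` is the same term as
`Jac.galAut N s` (both abbreviate `arithmeticGalois (modularFunctionFieldFull N) s`).

* §0 `apply_normAlong_eq_prod_of_injective` : `φ' (N_φ z) = ∏ t, σ t z` for `[E : L₀]` pairwise
  distinct `L₀`-isomorphisms `σ t : E ≃ E'`;
* §1 `isInertial_gal`, `baseResTrivial_gal` : elements of the inertia group of `B` are inertial;
* §2 `gal_smul_U`, `gal_smul_Utilde` : `σ • Ũ_z = Ũ_{σ z}`; `eq_of_resw2_Utilde_eq` : the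
  residues of the `Ũ_t` at a middle valuation are pairwise distinct;
* §3 (consumer G4) `actsTrivially_w2`, `actsTrivially_mid` (inertia elements fixing `ζ`),
  `actsTrivially_w1`, `actsTrivially_O1` (all inertia elements) : `EquivInert.ActsTrivially`;
* §4 `mapsComp_refl_mid`; `exists_mapsComp_of_mem_iff`; (consumer G6) `exists_perm_mid` : every
  inertia element permutes the middle components, inducing `k`-isomorphisms (the `maps` field of
  `TorGlue.ActsOn` on the middle components); `gal_smul_mem_midOf_iff`;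
* §5 (consumer G5) `ClassOf j`, `card_classOf`, `exists_mapsComp_class`, `mapsComp_res_Utilde`,
  `eq_of_mapsComp_eq`, `mapsComp_phi`, **`exists_sigma_mid`** : the data `(σ, hmaps, hnorm,
  hcard)` of `GeoAb.smul_abRes_eq_zero_of_mid` with `T i := ClassOf j`;
* `fMid_coprime`, `along_of_finrank`, **`smul_abRes_mid_eq_zero`** : a class of the finite part
  fixed by the inertia group with push-forward sum zero on the middle components has abelian
  parts on the middle components killed by `q - 1`.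
-/

set_option autoImplicit false
set_option linter.style.haveILetI false
set_option linter.unusedSectionVars false
set_option linter.unusedVariables false

noncomputable section

set_option synthInstance.maxHeartbeats 400000

namespace Fermat.Agent.BR3.MidGal

open ModularCurve AlgebraicCurve HahnSeries Polynomial Fermat.Agent.X0 Fermat.Agent.Val
open Fermat.Agent.Hecke.AL Fermat.Agent.Igusa Fermat.Agent.BR.Kron Fermat.Agent.BR3.IgSq
open Fermat.Agent.BR.TwoVal Fermat.Agent.BR.ResGen Fermat.Agent.Jac Fermat.Agent.Jac.ALF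
open Fermat.Agent.BR.TwoValInst Fermat.Agent.BR.ValTwo Fermat.Agent.BR3.FibreProd
open Fermat.Agent.Red Fermat.Agent.BR.SS Fermat.Agent.BR3.FiltPerm Fermat.Agent.BR3.EquivUnique
open Fermat.Agent.BR3.EquivInert Fermat.Agent.BR3.InvFiniteTheta Fermat.Agent.BR.InertiaRed
open Fermat.Agent.Jac

/-! ### §0 the norm as a product over enough isomorphisms -/

section Norm

variable {k L₀ E E' : Type*} [Field k] [Field L₀] [Field E] [Field E'] [Algebra k L₀]
  [Algebra k E] [Algebra k E']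

/-- **The norm is the product over `[E : L₀]` distinct `L₀`-isomorphisms `E ≃ E'`.** -/
theorem apply_normAlong_eq_prod_of_injective (φ : L₀ →ₐ[k] E) (φ' : L₀ →ₐ[k] E')
    {T : Type*} [Fintype T] (σ : T → (E ≃ₐ[k] E')) (hσ : ∀ t c, σ t (φ c) = φ' c)
    (hinj : Function.Injective σ) (hcard : Fintype.card T = finrankAlong k φ) [hT : Nonempty T]
    (z : E) : φ' (normAlong φ z) = ∏ t, σ t z := by
  classical
  letI := algebraAlong φ
  have hpos : 0 < Module.finrank L₀ E := by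
    have : Module.finrank L₀ E = Fintype.card T := hcard.symm
    rw [this]
    exact Fintype.card_pos
  haveI : FiniteDimensional L₀ E := Module.finite_of_finrank_pos hpos
  obtain ⟨t₀⟩ := hT
  -- the `L₀`-automorphisms `(σ t₀)⁻¹ ∘ σ t`
  let τ : T → (E ≃ₐ[L₀] E) := fun t =>
    AlgEquiv.ofRingEquiv (f := ((σ t).trans (σ t₀).symm).toRingEquiv) (fun c => by
      show (σ t₀).symm (σ t (φ c)) = φ c
      rw [hσ t c, ← hσ t₀ c, AlgEquiv.symm_apply_apply])
  have hτ : ∀ t x, σ t₀ (τ t x) = σ t x := fun t x => by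
    show σ t₀ ((σ t₀).symm (σ t x)) = σ t x
    rw [AlgEquiv.apply_symm_apply]
  have hτinj : Function.Injective τ := by
    intro t t' h
    apply hinj
    ext x
    rw [← hτ t x, ← hτ t' x, h]
  have hcardle : Fintype.card (E ≃ₐ[L₀] E) ≤ Module.finrank L₀ E := by
    convert AlgEquiv.card_le (F := L₀) (K := E)
  have hcardT : Fintype.card T = Fintype.card (E ≃ₐ[L₀] E) := by
    apply le_antisymm (Fintype.card_le_of_injective τ hτinj)
    rw [hcard]
    exact hcardle
  have hbij : Function.Bijective τ :=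
    (Fintype.bijective_iff_injective_and_card τ).mpr ⟨hτinj, hcardT⟩
  haveI : IsGalois L₀ E := by
    apply IsGalois.of_card_aut_eq_finrank
    rw [Nat.card_eq_fintype_card, ← hcardT, hcard]
    rfl
  have hnorm : algebraMap L₀ E (Algebra.norm L₀ z) = ∏ s : E ≃ₐ[L₀] E, s z :=
    Algebra.norm_eq_prod_automorphisms L₀ z
  have h1 : φ' (normAlong φ z) = σ t₀ (algebraMap L₀ E (Algebra.norm L₀ z)) :=
    (hσ t₀ _).symm
  rw [h1, hnorm, map_prod]
  rw [← Fintype.prod_equiv (Equiv.ofBijective τ hbij) (fun t => σ t z)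
    (fun s => σ t₀ (s z)) (fun t => (hτ t z).symm)]

end Norm

/-! ### §1 inertia elements are inertial -/

section Inertial

variable (B : ValuationSubring (AlgebraicClosure ℚ))

/-- **elements of the inertia group of `B` are inertial** in the sense of `InvFiniteTheta`. -/
theorem isInertial_gal (N : ℕ) {s : Kb ≃ₐ[ℚ] Kb} (hs : s ∈ B.inertiaSubgroupIn ℚ) :
    IsInertial B (SemilinearAut.baseAut (gal N s)) := by
  refine ⟨fun x => ?_, fun x hx => ?_⟩
  · show B.valuation (s x) = B.valuation x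
    exact Fermat.Agent.S05.valuation_apply_eq_of_mem_inertia B hs x
  · show resOf B (s x) = resOf B x
    have hsx : s x ∈ B := by
      rw [← B.valuation_le_one_iff, Fermat.Agent.S05.valuation_apply_eq_of_mem_inertia B hs x,
        B.valuation_le_one_iff]
      exact hx
    exact Fermat.Agent.BR2.G4Modular.resOf_eq_of_valuation_sub_lt_one B hsx hx
      (Fermat.Agent.S05.valuation_apply_sub_lt_one B hs ((B.valuation_le_one_iff x).mpr hx))

/-- the base automorphism of an inertia element acts trivially on the residue field of `B` -/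
theorem baseResTrivial_gal (N : ℕ) {s : Kb ≃ₐ[ℚ] Kb}
    (hs : s ∈ B.inertiaSubgroupIn ℚ) :
    BaseResTrivial (IsLocalRing.residue B) (gal N s) := by
  intro c hc
  have hg := isInertial_gal B N hs
  have hmem : SemilinearAut.baseAut (gal N s) c ∈ B := by
    rw [← B.valuation_le_one_iff, hg.val, B.valuation_le_one_iff]
    exact hc
  refine ⟨hmem, ?_⟩
  have h1 := hg.res c hc
  rwa [resOf_of_mem B hmem, resOf_of_mem B hc] at h1

end Inertial

/-! ### §2 the Galois action on `U` and `Ũ` -/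

section GalU

variable {M q : ℕ} [NeZero M] [hq : Fact q.Prime]

/-- `U = j(s^{q²}) - α₂ j` is defined over `ℚ`. -/
theorem gal_smul_U (σ : Kb ≃ₐ[ℚ] Kb) : gal (M * q * q) σ • U M q = U M q := by
  haveI : NeZero (M * q) := ⟨Nat.mul_ne_zero (NeZero.ne M) hq.out.ne_zero⟩
  unfold U
  rw [smul_sub, gal_smul_jqq, gal_smul_alpha2]
  congr 2
  exact Subtype.ext (by
    rw [coe_arithmeticGalois_smul, Fermat.Agent.X0.coe_jBar]
    exact coeffMap_coeffEmb σ _)

/-- `σ • Ũ_z = Ũ_{σ z}`. -/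
theorem gal_smul_Utilde (σ : Kb ≃ₐ[ℚ] Kb) (z : Kb) :
    gal (M * q * q) σ • Utilde M q z = Utilde M q (σ z) := by
  unfold Utilde
  rw [smul_mul', gal_smul_U, SemilinearAut.smul_algebraMap]
  congr 2
  show σ (z - 1)⁻¹ = (σ z - 1)⁻¹
  rw [map_inv₀, map_sub, map_one]

end GalU

/-! ### §3 trivial action of the inertia elements fixing `ζ` -/

section Trivial

variable {M q : ℕ} [NeZero M] [hq : Fact q.Prime]
variable (B : ValuationSubring (AlgebraicClosure ℚ)) (hB : B.LiesOverPrime q)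
variable (hqM : ¬ q ∣ M) {ζ : Kbˣ} (hζ : IsPrimitiveRoot ζ q)

local notation "kB" => IsLocalRing.ResidueField B

/-- an inertia element fixing `ζ^{b+1}` acts trivially on `w₂ b` -/
theorem actsTrivially_w2 {s : Kb ≃ₐ[ℚ] Kb} (hs : s ∈ B.inertiaSubgroupIn ℚ) {b : ℕ}
    (hb : b < q - 1) (h : s ((ζ ^ (b + 1) : Kbˣ) : Kb) = ((ζ ^ (b + 1) : Kbˣ) : Kb)) :
    ActsTrivially (w2 B hB hqM hζ hb) (gal (M * q * q) s) := by
  refine ActsTrivially.of_res (resw2 B hB hqM hζ hb) ?_
    (fun y => gal_smul_mem_w2_iff B hB hqM hζ (mem_decomposition_of_mem_inertiaIn hs) hb hb h) ?_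
  · intro x hx
    have h1 := (resw2_eq_zero_iff B hB hqM hζ hb x).mp hx
    exact (ValuationSubring.valuation_lt_one_iff _ _).mp h1
  · intro y hy
    exact resw2_gal_smul_of_mem_inertia B hB hqM hζ hs hb hb h ⟨y, hy⟩

/-- an inertia element fixing `ζ` fixes all the powers of `ζ` -/
theorem apply_zeta_pow {s : Kb ≃ₐ[ℚ] Kb} (h : s (ζ : Kb) = (ζ : Kb)) (n : ℕ) :
    s ((ζ ^ n : Kbˣ) : Kb) = ((ζ ^ n : Kbˣ) : Kb) := by
  rw [Units.val_pow_eq_pow_val, map_pow, h]

/-- **(ii)** an inertia element fixing `ζ` acts trivially on every middle valuation ring -/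
theorem actsTrivially_mid {s : Kb ≃ₐ[ℚ] Kb} (hs : s ∈ B.inertiaSubgroupIn ℚ)
    (h : s (ζ : Kb) = (ζ : Kb)) (i : Mid B hB hqM hζ) :
    ActsTrivially (i.ring B hB hqM hζ) (gal (M * q * q) s) := by
  rw [← i.w2_rep]
  exact actsTrivially_w2 B hB hqM hζ hs _ (apply_zeta_pow h _)

/-- every inertia element acts trivially on `w₁` -/
theorem actsTrivially_w1 {s : Kb ≃ₐ[ℚ] Kb} (hs : s ∈ B.inertiaSubgroupIn ℚ) :
    ActsTrivially (w1 M B hB) (gal (M * q * q) s) := by
  refine ActsTrivially.of_res (resw1 M B hB) ?_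
    (fun y => gal_smul_mem_w1_iff B hB (mem_decomposition_of_mem_inertiaIn hs)) ?_
  · intro x hx
    have h1 : (x : Fb (M * q * q)) ∈ (w1 M B hB).nonunits :=
      (Fermat.Agent.BR.TwoValInst.mem_nonunits_O1_iff (M := M * q) B hB x.2).2 hx
    exact (w1 M B hB).mem_nonunits_iff.mp h1
  · intro y hy
    exact resw1_gal_smul_of_mem_inertia B hB hs ⟨y, hy⟩

/-- every inertia element acts trivially on `O1` (the component `can` at the level `M q`) -/
theorem actsTrivially_O1 {s : Kb ≃ₐ[ℚ] Kb} (hs : s ∈ B.inertiaSubgroupIn ℚ) :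
    ActsTrivially (O1 M B hB) (gal (M * q) s) := by
  refine ActsTrivially.of_res (res1 M B hB) ?_
    (fun y => Fermat.Agent.BR.GaloisTwo.gal_smul_mem_O1_iff (M := M) B hB
      (mem_decomposition_of_mem_inertiaIn hs)) ?_
  · intro x hx
    have h1 : (x : Fb (M * q)) ∈ (O1 M B hB).nonunits :=
      (Fermat.Agent.BR.TwoValInst.mem_nonunits_O1_iff (M := M) B hB x.2).2 hx
    exact (O1 M B hB).mem_nonunits_iff.mp h1
  · intro y hy
    exact Fermat.Agent.BR.GaloisTwo.res1_gal_smul_of_mem_inertia (M := M) B hB hs ⟨y, hy⟩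

end Trivial

/-! ### §2' the residues of the `Ũ_t` at a middle valuation are pairwise distinct -/

section Distinct

variable {M q : ℕ} [NeZero M] [hq : Fact q.Prime]
variable (B : ValuationSubring (AlgebraicClosure ℚ)) (hB : B.LiesOverPrime q)
variable (hqM : ¬ q ∣ M) {ζ : Kbˣ} (hζ : IsPrimitiveRoot ζ q)

local notation "kB" => IsLocalRing.ResidueField B

include hB in
/-- **the residues of the `Ũ_t` at `w₂ b` are pairwise distinct** -/
theorem eq_of_resw2_Utilde_eq {b : ℕ} (hb : b < q - 1) {t t' : ℕ} (ht : t < q - 1)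
    (ht' : t' < q - 1)
    (hmem : Utilde M q ((ζ ^ (t + 1) : Kbˣ) : Kb) ∈ w2 B hB hqM hζ hb)
    (hmem' : Utilde M q ((ζ ^ (t' + 1) : Kbˣ) : Kb) ∈ w2 B hB hqM hζ hb)
    (h : resw2 B hB hqM hζ hb ⟨_, hmem⟩ = resw2 B hB hqM hζ hb ⟨_, hmem'⟩) : t = t' := by
  haveI := charP_kB B hB
  haveI : NeZero q := ⟨hq.out.ne_zero⟩
  have hprim : ∀ {u : ℕ}, u < q - 1 → IsPrimitiveRoot (ζ ^ (u + 1)) q := by
    intro u hu
    refine hζ.pow_of_coprime (u + 1) ?_
    rw [Nat.coprime_comm]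
    refine (Nat.Prime.coprime_iff_not_dvd hq.out).2 fun h => ?_
    have := Nat.le_of_dvd (Nat.succ_pos u) h
    omega
  have hex : ∀ {u : ℕ}, u < q - 1 → ∃ m : ℕ, ζ ^ (b + 1) = (ζ ^ (u + 1)) ^ m := by
    intro u hu
    obtain ⟨i, -, hi⟩ := (hprim hu).eq_pow_of_mem_rootsOfUnity
      ((mem_rootsOfUnity q _).mpr (zeta_pow_pow hζ (b := b)))
    exact ⟨i, hi.symm⟩
  obtain ⟨m, hm⟩ := hex ht
  obtain ⟨m', hm'⟩ := hex ht'
  obtain ⟨h1, hr1⟩ := resw2_Utilde_of_pow B hB hqM hζ (b := t) hb m hm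
  obtain ⟨h2, hr2⟩ := resw2_Utilde_of_pow B hB hqM hζ (b := t') hb m' hm'
  rw [hr1, hr2] at h
  have h3 : HahnSeries.C ((m : ℕ) : kB) = HahnSeries.C ((m' : ℕ) : kB) :=
    mul_left_cancel₀ (thetaL_jqModC_ne_zero B) h
  have h4 : ((m : ℕ) : kB) = ((m' : ℕ) : kB) := HahnSeries.C_injective h3
  have h5 : m ≡ m' [MOD q] := (CharP.natCast_eq_natCast kB q).1 h4
  -- `q ∤ m`
  have hqm : ¬ q ∣ m := by
    rintro ⟨c, rfl⟩
    rw [pow_mul, (hprim ht).pow_eq_one, one_pow] at hm
    exact zeta_pow_ne_one hζ hb hm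
  have hcop : Nat.Coprime q m := (Nat.Prime.coprime_iff_not_dvd hq.out).2 hqm
  have h6 : (ζ ^ (t' + 1)) ^ m' = (ζ ^ (t' + 1)) ^ m := by
    rw [pow_eq_pow_iff_modEq, ← (hprim ht').eq_orderOf]
    exact h5.symm
  have h7 : ζ ^ ((t + 1) * m) = ζ ^ ((t' + 1) * m) := by
    rw [pow_mul, pow_mul, ← hm, hm', h6]
  rw [pow_eq_pow_iff_modEq, ← hζ.eq_orderOf] at h7
  have h8 : t + 1 ≡ t' + 1 [MOD q] := Nat.ModEq.cancel_right_of_coprime hcop h7
  have h9 := Nat.ModEq.eq_of_lt_of_lt h8 (by omega) (by omega)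
  omega

end Distinct

/-! ### §4 the inertia group permutes the middle components -/

section Maps

variable {M q : ℕ} [NeZero M] [hq : Fact q.Prime]
variable (B : ValuationSubring (AlgebraicClosure ℚ)) (hB : B.LiesOverPrime q)
variable (hqM : ¬ q ∣ M) {ζ : Kbˣ} (hζ : IsPrimitiveRoot ζ q)

local notation "kB" => IsLocalRing.ResidueField B

variable {ι : Type*} {Ft : ι → Type*} [∀ v, Field (Ft v)]
  [∀ v, Algebra (IsLocalRing.ResidueField B) (Ft v)] {ν : Type*}
  (S : SemistableSetup (F := Fb (M * q * q)) B (IsLocalRing.residue B) ι Ft ν)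
  (mid : Mid B hB hqM hζ → ι) (hO : ∀ i, S.O (mid i) = i.ring B hB hqM hζ)

include hO in
/-- **(ii)** an inertia element fixing `ζ` maps every middle component to itself and induces the
identity on its residue field. -/
theorem mapsComp_refl_mid {s : Kb ≃ₐ[ℚ] Kb} (hs : s ∈ B.inertiaSubgroupIn ℚ)
    (h : s (ζ : Kb) = (ζ : Kb)) (i : Mid B hB hqM hζ) :
    MapsComp S (gal (M * q * q) s) (mid i) (mid i) AlgEquiv.refl :=
  mapsComp_refl_of_actsTrivially S _ (mid i) (by
    rw [hO i]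
    exact actsTrivially_mid B hB hqM hζ hs h i)

include hO in
/-- an inertia element which maps the ring of `i` onto the ring of `j` induces a
`k`-isomorphism of the residue fields -/
theorem exists_mapsComp_of_mem_iff {s : Kb ≃ₐ[ℚ] Kb} (hs : s ∈ B.inertiaSubgroupIn ℚ)
    (i j : Mid B hB hqM hζ)
    (hmem : ∀ y : Fb (M * q * q),
      gal (M * q * q) s • y ∈ j.ring B hB hqM hζ ↔ y ∈ i.ring B hB hqM hζ) :
    ∃ a : Ft (mid i) ≃ₐ[kB] Ft (mid j), MapsComp S (gal (M * q * q) s) (mid i) (mid j) a :=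
  exists_mapsComp S IsLocalRing.residue_surjective (gal (M * q * q) s)
    (baseResTrivial_gal B _ hs) (mid i) (mid j) (by
      intro y
      rw [hO i, hO j]
      exact hmem y)

include hO in
/-- **(iii)** every inertia element permutes the middle components, inducing `k`-isomorphisms of
the residue fields: the `maps` field of `TorGlue.ActsOn` on the middle components.  The
permutation `P` is characterised by `s • y ∈ (P i).ring ↔ y ∈ i.ring`. -/
theorem exists_perm_mid {s : Kb ≃ₐ[ℚ] Kb} (hs : s ∈ B.inertiaSubgroupIn ℚ) :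
    ∃ (P : Equiv.Perm (Mid B hB hqM hζ)) (a : ∀ i, Ft (mid i) ≃ₐ[kB] Ft (mid (P i))),
      (∀ i, MapsComp S (gal (M * q * q) s) (mid i) (mid (P i)) (a i)) ∧
      ∀ (i : Mid B hB hqM hζ) (y : Fb (M * q * q)),
        gal (M * q * q) s • y ∈ (P i).ring B hB hqM hζ ↔ y ∈ i.ring B hB hqM hζ := by
  have h1 := fun i => exists_mid_gal B hB hqM hζ (mem_decomposition_of_mem_inertiaIn hs) i
  choose P hP using h1
  have hinj : Function.Injective P := by
    intro i i' h
    apply Mid.ring_injective B hB hqM hζ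
    ext y
    rw [← hP i y, ← hP i' y, h]
  have hbij : Function.Bijective P := Finite.injective_iff_bijective.mp hinj
  have h2 := fun i => exists_mapsComp_of_mem_iff B hB hqM hζ S mid hO hs i (P i) (hP i)
  choose a ha using h2
  exact ⟨Equiv.ofBijective P hbij, a, ha, hP⟩

/-- the permutation of the middle components induced by an element of the decomposition group is
determined by the index: if `s (ζ^{rep i + 1}) = ζ^{b + 1}` then `s` maps `i` to `midOf b` -/
theorem gal_smul_mem_midOf_iff {s : Kb ≃ₐ[ℚ] Kb} (hs : s ∈ B.decompositionSubgroup ℚ)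
    (i : Mid B hB hqM hζ) {b : ℕ} (hb : b < q - 1)
    (h : s ((ζ ^ (((i.rep B hB hqM hζ : Fin (q - 1)) : ℕ) + 1) : Kbˣ) : Kb) =
      ((ζ ^ (b + 1) : Kbˣ) : Kb)) (y : Fb (M * q * q)) :
    gal (M * q * q) s • y ∈ (midOf B hB hqM hζ ⟨b, hb⟩).ring B hB hqM hζ ↔
      y ∈ i.ring B hB hqM hζ := by
  rw [← i.w2_rep, midOf_ring]
  exact gal_smul_mem_w2_iff B hB hqM hζ hs hb (i.rep B hB hqM hζ).2 h

end Maps

/-! ### §5 the family of isomorphisms of the norm formula -/

section Family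

variable {M q : ℕ} [NeZero M] [hq : Fact q.Prime]
variable (B : ValuationSubring (AlgebraicClosure ℚ)) (hB : B.LiesOverPrime q)
variable (hqM : ¬ q ∣ M) {ζ : Kbˣ} (hζ : IsPrimitiveRoot ζ q)

local notation "kB" => IsLocalRing.ResidueField B

/-- the indices `t` whose middle valuation ring `w₂ t` is the ring of `j` -/
def ClassOf (j : Mid B hB hqM hζ) : Type :=
  {t : Fin (q - 1) // w2 B hB hqM hζ t.2 = j.ring B hB hqM hζ}

instance (j : Mid B hB hqM hζ) : Finite (ClassOf B hB hqM hζ j) :=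
  inferInstanceAs (Finite {t : Fin (q - 1) // w2 B hB hqM hζ t.2 = j.ring B hB hqM hζ})

instance (j : Mid B hB hqM hζ) : Fintype (ClassOf B hB hqM hζ j) := Fintype.ofFinite _

instance (j : Mid B hB hqM hζ) : Nonempty (ClassOf B hB hqM hζ j) :=
  ⟨⟨j.rep B hB hqM hζ, j.w2_rep B hB hqM hζ⟩⟩

include hB in
/-- every class has `fMid` elements -/
theorem card_classOf (j : Mid B hB hqM hζ) :
    Fintype.card (ClassOf B hB hqM hζ j) = fMid M B hB := by
  classical
  rw [← Nat.card_eq_fintype_card, ← card_class_eq B hB hqM hζ (j.rep B hB hqM hζ).2,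
    ← Nat.card_eq_finsetCard]
  refine Nat.card_congr (Equiv.subtypeEquivRight fun t => ?_)
  rw [Finset.mem_filter, j.w2_rep]
  exact ⟨fun h => ⟨Finset.mem_univ _, h⟩, fun h => h.2⟩

variable {ι : Type*} {Ft : ι → Type*} [∀ v, Field (Ft v)]
  [∀ v, Algebra (IsLocalRing.ResidueField B) (Ft v)] {ν : Type*}
  (S : SemistableSetup (F := Fb (M * q * q)) B (IsLocalRing.residue B) ι Ft ν)
  (mid : Mid B hB hqM hζ → ι) (hO : ∀ i, S.O (mid i) = i.ring B hB hqM hζ)

include hO in
theorem O_mid_eq_w2 (i : Mid B hB hqM hζ) :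
    S.O (mid i) = w2 B hB hqM hζ (i.rep B hB hqM hζ).2 :=
  (hO i).trans (i.w2_rep B hB hqM hζ).symm

include hO in
theorem O_mid_eq_of_class (j : Mid B hB hqM hζ) (t : ClassOf B hB hqM hζ j) :
    S.O (mid j) = w2 B hB hqM hζ t.1.2 :=
  (hO j).trans t.2.symm

include hO in
/-- equal residues on the component `mid j` are equal residues for `res_{w₂ (rep j)}` -/
theorem resw2_eq_of_res_eq (j : Mid B hB hqM hζ) {y y' : Fb (M * q * q)}
    (hy : y ∈ S.O (mid j)) (hy' : y' ∈ S.O (mid j))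
    (h : S.res (mid j) ⟨y, hy⟩ = S.res (mid j) ⟨y', hy'⟩)
    (hw : y ∈ w2 B hB hqM hζ (j.rep B hB hqM hζ).2)
    (hw' : y' ∈ w2 B hB hqM hζ (j.rep B hB hqM hζ).2) :
    resw2 B hB hqM hζ (j.rep B hB hqM hζ).2 ⟨y, hw⟩ =
      resw2 B hB hqM hζ (j.rep B hB hqM hζ).2 ⟨y', hw'⟩ := by
  have h1 : S.res (mid j) (⟨y, hy⟩ - ⟨y', hy'⟩) = 0 := by rw [map_sub, h, sub_self]
  rw [S.res_eq_zero_iff] at h1
  have h2 : y - y' ∈ (S.O (mid j)).nonunits := by
    have h3 : ((⟨y, hy⟩ - ⟨y', hy'⟩ : S.O (mid j)) : Fb (M * q * q)) ∈ (S.O (mid j)).nonunits := by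
      rw [ValuationSubring.coe_mem_nonunits_iff, IsLocalRing.mem_maximalIdeal, mem_nonunits_iff]
      exact h1
    exact h3
  rw [O_mid_eq_w2 B hB hqM hζ S mid hO j] at h2
  have h4 := (mem_nonunits_w2_iff B hB hqM hζ (j.rep B hB hqM hζ).2 (sub_mem hw hw')).1 h2
  have h5 : (⟨y - y', sub_mem hw hw'⟩ :
      w2 B hB hqM hζ (j.rep B hB hqM hζ).2) = ⟨y, hw⟩ - ⟨y', hw'⟩ := rfl
  rw [h5, map_sub, sub_eq_zero] at h4
  exact h4

include hO in
/-- for every index `t` of the class of `j` an inertia element maps the component `mid i` to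
`mid j`, with `s (ζ^{rep i + 1}) = ζ^{t + 1}` -/
theorem exists_mapsComp_class (i j : Mid B hB hqM hζ) (t : ClassOf B hB hqM hζ j) :
    ∃ (s : Kb ≃ₐ[ℚ] Kb) (a : Ft (mid i) ≃ₐ[kB] Ft (mid j)), s ∈ B.inertiaSubgroupIn ℚ ∧
      s ((ζ ^ (((i.rep B hB hqM hζ : Fin (q - 1)) : ℕ) + 1) : Kbˣ) : Kb) =
        ((ζ ^ ((t.1 : ℕ) + 1) : Kbˣ) : Kb) ∧
      MapsComp S (gal (M * q * q) s) (mid i) (mid j) a := by
  obtain ⟨s, hs, hsζ, -⟩ := exists_inertia_index B hB hζ t.1.2 (i.rep B hB hqM hζ).2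
  obtain ⟨a, ha⟩ := exists_mapsComp_of_mem_iff B hB hqM hζ S mid hO hs i j (by
    intro y
    rw [← t.2, ← i.w2_rep]
    exact gal_smul_mem_w2_iff B hB hqM hζ (mem_decomposition_of_mem_inertiaIn hs) t.1.2
      (i.rep B hB hqM hζ).2 hsζ)
  exact ⟨s, a, hs, hsζ, ha⟩

include hB hO in
/-- `Ũ_t ∈ S.O (mid j)` for `t` in the class of `j` -/
theorem Utilde_mem_O_mid (j : Mid B hB hqM hζ) (t : ClassOf B hB hqM hζ j) :
    Utilde M q ((ζ ^ ((t.1 : ℕ) + 1) : Kbˣ) : Kb) ∈ S.O (mid j) := by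
  rw [O_mid_eq_of_class B hB hqM hζ S mid hO j t]
  exact Utilde_mem_w2 B hB hqM hζ t.1.2

/-- the representative index of `i` as an element of its class -/
def repClass (i : Mid B hB hqM hζ) : ClassOf B hB hqM hζ i :=
  ⟨i.rep B hB hqM hζ, i.w2_rep B hB hqM hζ⟩

include hO in
/-- the isomorphism induced by `s` with `s (ζ^{rep i + 1}) = ζ^{t + 1}` maps the residue of
`Ũ_{rep i}` to the residue of `Ũ_t` -/
theorem mapsComp_res_Utilde {s : Kb ≃ₐ[ℚ] Kb} {i j : Mid B hB hqM hζ}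
    {a : Ft (mid i) ≃ₐ[kB] Ft (mid j)} (t : ClassOf B hB hqM hζ j)
    (hsζ : s ((ζ ^ (((i.rep B hB hqM hζ : Fin (q - 1)) : ℕ) + 1) : Kbˣ) : Kb) =
      ((ζ ^ ((t.1 : ℕ) + 1) : Kbˣ) : Kb))
    (ha : MapsComp S (gal (M * q * q) s) (mid i) (mid j) a) :
    a (S.res (mid i) ⟨_, Utilde_mem_O_mid B hB hqM hζ S mid hO i (repClass B hB hqM hζ i)⟩) =
      S.res (mid j) ⟨_, Utilde_mem_O_mid B hB hqM hζ S mid hO j t⟩ := by
  have hmem := Utilde_mem_O_mid B hB hqM hζ S mid hO i (repClass B hB hqM hζ i)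
  rw [← ha.res_smul _ hmem (ha.smul_mem _ hmem)]
  congr 1
  apply Subtype.ext
  show gal (M * q * q) s • Utilde M q _ = _
  rw [gal_smul_Utilde]
  exact congrArg (Utilde M q) hsζ

include hB hO in
/-- distinct indices of the class of `j` give distinct isomorphisms -/
theorem eq_of_mapsComp_eq {s s' : Kb ≃ₐ[ℚ] Kb} {i j : Mid B hB hqM hζ}
    {a : Ft (mid i) ≃ₐ[kB] Ft (mid j)} (t t' : ClassOf B hB hqM hζ j)
    (hsζ : s ((ζ ^ (((i.rep B hB hqM hζ : Fin (q - 1)) : ℕ) + 1) : Kbˣ) : Kb) =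
      ((ζ ^ ((t.1 : ℕ) + 1) : Kbˣ) : Kb))
    (hsζ' : s' ((ζ ^ (((i.rep B hB hqM hζ : Fin (q - 1)) : ℕ) + 1) : Kbˣ) : Kb) =
      ((ζ ^ ((t'.1 : ℕ) + 1) : Kbˣ) : Kb))
    (ha : MapsComp S (gal (M * q * q) s) (mid i) (mid j) a)
    (ha' : MapsComp S (gal (M * q * q) s') (mid i) (mid j) a) : t = t' := by
  have h1 := mapsComp_res_Utilde B hB hqM hζ S mid hO t hsζ ha
  have h2 := mapsComp_res_Utilde B hB hqM hζ S mid hO t' hsζ' ha'
  have h3 := h1.symm.trans h2
  have hw : ∀ u : ClassOf B hB hqM hζ j, Utilde M q ((ζ ^ ((u.1 : ℕ) + 1) : Kbˣ) : Kb) ∈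
      w2 B hB hqM hζ (j.rep B hB hqM hζ).2 := fun u => by
    rw [← O_mid_eq_w2 B hB hqM hζ S mid hO j]
    exact Utilde_mem_O_mid B hB hqM hζ S mid hO j u
  have h4 := resw2_eq_of_res_eq B hB hqM hζ S mid hO j _ _ h3 (hw t) (hw t')
  have h5 := eq_of_resw2_Utilde_eq B hB hqM hζ (j.rep B hB hqM hζ).2 t.1.2 t'.1.2 (hw t) (hw t') h4
  exact Subtype.ext (Fin.ext h5)

/-! #### linearity over the residue field of `can` -/

variable {ι₀ : Type*} {Ft₀ : ι₀ → Type*} [∀ v, Field (Ft₀ v)]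
  [∀ v, Algebra (IsLocalRing.ResidueField B) (Ft₀ v)] {ν₀ : Type*}
  (S₀ : SemistableSetup (F := Fb (M * q)) B (IsLocalRing.residue B) ι₀ Ft₀ ν₀) (can : ι₀)
  (hO₀ : S₀.O can = O1 M B hB)
  (φ : ∀ i, Ft₀ can →ₐ[IsLocalRing.ResidueField B] Ft (mid i))
  (hcompat : ∀ (i : Mid B hB hqM hζ) (c : S₀.O can)
    (h : alpha2 M q (c : Fb (M * q)) ∈ S.O (mid i)),
    S.res (mid i) ⟨alpha2 M q (c : Fb (M * q)), h⟩ = φ i (S₀.res can c))

include hO hO₀ in
theorem alpha2_mem_O_mid (i : Mid B hB hqM hζ) (c : S₀.O can) :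
    alpha2 M q (c : Fb (M * q)) ∈ S.O (mid i) := by
  rw [O_mid_eq_w2 B hB hqM hζ S mid hO i, alpha2_mem_w2_iff, ← hO₀]
  exact c.2

include hO hO₀ hcompat in
/-- the isomorphisms induced by inertia elements are linear over the residue field of `can` -/
theorem mapsComp_phi {s : Kb ≃ₐ[ℚ] Kb} (hs : s ∈ B.inertiaSubgroupIn ℚ)
    {i j : Mid B hB hqM hζ} {a : Ft (mid i) ≃ₐ[kB] Ft (mid j)}
    (ha : MapsComp S (gal (M * q * q) s) (mid i) (mid j) a) (c : Ft₀ can) :
    a (φ i c) = φ j c := by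
  obtain ⟨x, rfl⟩ := S₀.res_surjective can c
  have hx := alpha2_mem_O_mid B hB hqM hζ S mid hO S₀ can hO₀ i x
  have htriv : MapsComp S₀ (gal (M * q) s) can can AlgEquiv.refl :=
    mapsComp_refl_of_actsTrivially S₀ _ can (by
      rw [hO₀]
      exact actsTrivially_O1 B hB hs)
  have hx' : gal (M * q) s • (x : Fb (M * q)) ∈ S₀.O can := htriv.smul_mem _ x.2
  have h1 := htriv.res_smul _ x.2 hx'
  have h2 : gal (M * q * q) s • alpha2 M q (x : Fb (M * q)) =
      alpha2 M q (gal (M * q) s • (x : Fb (M * q))) := gal_smul_alpha2 s _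
  rw [← hcompat i x hx, ← ha.res_smul _ hx (ha.smul_mem _ hx)]
  have h3 : (⟨gal (M * q * q) s • alpha2 M q (x : Fb (M * q)), ha.smul_mem _ hx⟩ :
      S.O (mid j)) = ⟨alpha2 M q ((⟨gal (M * q) s • (x : Fb (M * q)), hx'⟩ : S₀.O can) :
        Fb (M * q)), alpha2_mem_O_mid B hB hqM hζ S mid hO S₀ can hO₀ j ⟨_, hx'⟩⟩ :=
    Subtype.ext h2
  rw [h3, hcompat j ⟨_, hx'⟩, h1]
  rfl

include hB hO hO₀ hcompat in
/-- **(i) the data `(σ, hmaps, hnorm, hcard)` of `GeoAb.smul_abRes_eq_zero_of_mid`** with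
`T i := ClassOf j`: the `fMid` isomorphisms `Ft (mid i) ≃ Ft (mid j)` induced by the inertia
elements `s_t` with `s_t (ζ^{rep i + 1}) = ζ^{t + 1}`, `t` in the class of `j`. -/
theorem exists_sigma_mid (hfr : ∀ i, finrankAlong kB (φ i) = fMid M B hB)
    (j : Mid B hB hqM hζ) :
    ∃ σ : ∀ i : Mid B hB hqM hζ, ClassOf B hB hqM hζ j → (Ft (mid i) ≃ₐ[kB] Ft (mid j)),
      (∀ (i : Mid B hB hqM hζ) (t : ClassOf B hB hqM hζ j),
        ∃ g ∈ {g : SemilinearAut Kb (Fb (M * q * q)) |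
            ∃ s ∈ B.inertiaSubgroupIn ℚ, g = gal (M * q * q) s},
          MapsComp S g (mid i) (mid j) (σ i t)) ∧
      (∀ (i : Mid B hB hqM hζ) (z : Ft (mid i)),
        φ j (normAlong (φ i) z) = ∏ t, σ i t z) ∧
      ∀ _i : Mid B hB hqM hζ,
        Fintype.card (ClassOf B hB hqM hζ j) = finrankAlong kB (φ j) := by
  have h1 := fun (i : Mid B hB hqM hζ) (t : ClassOf B hB hqM hζ j) =>
    exists_mapsComp_class B hB hqM hζ S mid hO i j t
  choose s a hs hsζ ha using h1
  refine ⟨a, fun i t => ⟨_, ⟨s i t, hs i t, rfl⟩, ha i t⟩, fun i z => ?_, fun _ => ?_⟩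
  · refine apply_normAlong_eq_prod_of_injective (φ i) (φ j) (a i)
      (fun t c => mapsComp_phi B hB hqM hζ S mid hO S₀ can hO₀ φ hcompat (hs i t) (ha i t) c)
      (fun t t' h => ?_) ?_ z
    · refine eq_of_mapsComp_eq B hB hqM hζ S mid hO t t' (hsζ i t) (hsζ i t') (ha i t) ?_
      rw [h]
      exact ha i t'
    · rw [card_classOf B hB hqM hζ j, hfr i]
  · rw [card_classOf B hB hqM hζ j, hfr j]

end Family

/-! ### the closed corollary: `(q - 1)` kills the abelian parts on the middle components -/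

section Kill

open Fermat.Agent.BR2.Filt Fermat.Agent.BR3.FiltMaps Fermat.Agent.BR.PicFunct

variable {M q : ℕ} [NeZero M] [hq : Fact q.Prime]
variable (B : ValuationSubring (AlgebraicClosure ℚ)) (hB : B.LiesOverPrime q)
variable (hqM : ¬ q ∣ M) {ζ : Kbˣ} (hζ : IsPrimitiveRoot ζ q)

local notation "kB" => IsLocalRing.ResidueField B

variable {ι : Type*} {Ft : ι → Type*} [∀ v, Field (Ft v)]
  [∀ v, Algebra (IsLocalRing.ResidueField B) (Ft v)] {ν : Type*}
  (S : SemistableSetup (F := Fb (M * q * q)) B (IsLocalRing.residue B) ι Ft ν)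
  (mid : Mid B hB hqM hζ → ι) (hO : ∀ i, S.O (mid i) = i.ring B hB hqM hζ)
  {ι₀ : Type*} {Ft₀ : ι₀ → Type*} [∀ v, Field (Ft₀ v)]
  [∀ v, Algebra (IsLocalRing.ResidueField B) (Ft₀ v)] {ν₀ : Type*}
  (S₀ : SemistableSetup (F := Fb (M * q)) B (IsLocalRing.residue B) ι₀ Ft₀ ν₀) (can : ι₀)
  (hO₀ : S₀.O can = O1 M B hB)
  (φ : ∀ i, Ft₀ can →ₐ[IsLocalRing.ResidueField B] Ft (mid i))
  (hcompat : ∀ (i : Mid B hB hqM hζ) (c : S₀.O can)
    (h : alpha2 M q (c : Fb (M * q)) ∈ S.O (mid i)),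
    S.res (mid i) ⟨alpha2 M q (c : Fb (M * q)), h⟩ = φ i (S₀.res can c))
  [∀ v, HasPrincipalDivisors (IsLocalRing.ResidueField B) (Ft v)]
  [HasPrincipalDivisors (IsLocalRing.ResidueField B) (Ft₀ can)]

include hB hqM hζ in
/-- the residue degree of the middle components is prime to `q` -/
theorem fMid_coprime : (fMid M B hB).Coprime q := by
  have hdvd := fMid_dvd B hB hqM hζ
  rw [Nat.coprime_comm]
  refine (Nat.Prime.coprime_iff_not_dvd hq.out).2 fun h => ?_
  have h1 : q ∣ q - 1 := dvd_trans h hdvd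
  have h2 := Nat.le_of_dvd (by have := hq.out.two_le; omega) h1
  have := hq.out.two_le
  omega

include hB hqM hζ in
/-- **the `Along`-hypotheses of the residue extensions of the middle components** from the degree
alone: finite, integral, norm formula, fundamental identity (degree `fMid ∣ q - 1`, prime to the
characteristic). -/
theorem along_of_finrank (hfr : ∀ i, finrankAlong kB (φ i) = fMid M B hB)
    (i : Mid B hB hqM hζ) :
    ∃ (hfin : FiniteAlong kB (φ i)) (hφ : (φ i).toRingHom.IsIntegral),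
      NormFormulaAlong kB (φ i) hfin ∧ FundamentalIdentityAlong kB (φ i) hφ := by
  haveI := charP_kB B hB
  haveI : CharP (Ft₀ can) q :=
    charP_of_injective_algebraMap (algebraMap kB (Ft₀ can)).injective q
  haveI : ExpChar (Ft₀ can) q := ExpChar.prime hq.out
  have hfin : FiniteAlong kB (φ i) := by
    unfold FiniteAlong
    letI := algebraAlong (φ i)
    apply Module.finite_of_finrank_pos
    have h1 : Module.finrank (Ft₀ can) (Ft (mid i)) = fMid M B hB := hfr i
    rw [h1]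
    exact fMid_pos B hB hqM
  have hcop : (finrankAlong kB (φ i)).Coprime q := by
    rw [hfr i]
    exact fMid_coprime B hB hqM hζ
  have hφ := Fermat.Agent.Hecke.isIntegral_of_finiteAlong (φ i) hfin
  exact ⟨hfin, hφ, Fermat.Agent.BR3.PushGlue.normFormulaAlong_of_coprime (φ i) hfin q hcop,
    Fermat.Agent.BR3.PushGlue.fundamentalIdentityAlong_of_coprime (φ i) hfin q hcop hφ⟩

include hB hO hO₀ hcompat in
/-- **(H2) on the middle components**: a class of the finite part fixed by the inertia group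
whose abelian parts on the middle components have push-forward sum zero has abelian parts on
the middle components killed by `q - 1`. -/
theorem smul_abRes_mid_eq_zero (hφ : ∀ i, (φ i).toRingHom.IsIntegral)
    (hfin : ∀ i, FiniteAlong kB (φ i)) (hN : ∀ i, NormFormulaAlong kB (φ i) (hfin i))
    (hFI : ∀ i, FundamentalIdentityAlong kB (φ i) (hφ i))
    (hfr : ∀ i, finrankAlong kB (φ i) = fMid M B hB)
    (hF : RiemannPkg Kb (Fb (M * q * q))) (hFt : ∀ v, RiemannPkg kB (Ft v))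
    {m : ℕ} (hm : m ≠ 0) (j : Mid B hB hqM hζ) (y : natSub S m)
    (hfix : ∀ s ∈ B.inertiaSubgroupIn ℚ,
      gal (M * q * q) s • (y : Pic0 Kb (Fb (M * q * q))) = y)
    (hsum : ∑ i, pic0Push (φ i) (hφ i) (hfin i) (hN i) (abRes hF hFt hm (mid i) y) = 0) :
    (q - 1) • abRes hF hFt hm (mid j) y = 0 := by
  obtain ⟨σ, hmaps, hnorm, hcard⟩ :=
    exists_sigma_mid B hB hqM hζ S mid hO S₀ can hO₀ φ hcompat hfr j
  have h := Fermat.Agent.BR3.GeoAb.smul_abRes_eq_zero_of_mid mid φ hφ hfin hN hFI hF hFt hm j σ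
    hnorm hcard {g : SemilinearAut Kb (Fb (M * q * q)) |
      ∃ s ∈ B.inertiaSubgroupIn ℚ, g = gal (M * q * q) s} hmaps y
    (by rintro g ⟨s, hs, rfl⟩; exact hfix s hs) hsum
  rwa [hfr j, card_mid_mul B hB hqM hζ] at h

end Kill

end Fermat.Agent.BR3.MidGal
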