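import Fermat.Agent.BR3.FullB
import Fermat.Agent.BR3.MidGal
import Fermat.Agent.BR3.GeoAbFinal

/-!
# Program C (S36), node (I7-FULL), the plug into (G5): `hkind` from ring identifications

`S₀` a semistable setup on `Fb (M q)` with components `vcan`, `vet` whose valuation rings are
`O1 = can`, `O2 = et`; `S` a semistable setup on `Fb (M q q)` presented by
`eι : (Bool ⊕ Mid) ⊕ SSp ≃ ι`, `Mid = FibreProd.Mid B hB hqM hζ`, whose horizontal and middle
components have the valuation rings `w₁` (`cInf`), `cZero`, `i.ring` (`mid i`).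

* `fullCanA`, `fullEtA`, `pow_mem_range_fullEtA` : the data `Da`, `Dz`, `hpiz` along `α₂`
  (`Full.congr` of helper6's `fullAll` and of `FullHoriz.fullZeroAlpha`);
* `along_fullCanA` : `hNψ`, `hFI` (degrees `1` and `fMid`, prime to `q`);
* `exists_sigma_fullCanA` : `σ`, `hnorm`, `hcard`, `hmaps` with `T j i := MidGal.ClassOf j`
  (helper11's `MidGal.exists_sigma_mid` at `φ i := resHom`);
* **`hkind_of_rings`** : the binder `hkind` of `GeoFinal.newInvBoundedLevel_of_geo` /
  `SDD.newInvBoundedLevel_of_input` VERBATIM for `N₁ = M * q`, with `e₁ = q - 1`, from the ring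
  identifications and the vertical hypothesis `hvert` of `GeoAbFinal.hkind_of_data` alone.
-/

set_option autoImplicit false
set_option linter.style.haveILetI false
set_option linter.unusedSectionVars false
set_option linter.unusedVariables false

open ModularCurve AlgebraicCurve

noncomputable section

set_option synthInstance.maxHeartbeats 400000

namespace Fermat.Agent.BR3.FullPlug

open IsLocalRing Fermat.Agent.Jac Fermat.Agent.X0 Fermat.Agent.Val Fermat.Agent.Red
  Fermat.Agent.BR.SS Fermat.Agent.BR Fermat.Agent.BR.TwoVal Fermat.Agent.BR.PicFunct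
  Fermat.Agent.BR2.Filt Fermat.Agent.BR3.FiltMaps Fermat.Agent.BR3.FiltPerm
  Fermat.Agent.BR.LevelTransfer Fermat.Agent.BR2.LevelMaps Fermat.Agent.BR3.G5Multi
  Fermat.Agent.BR3.PushGlue Fermat.Agent.BR3.FibreProd Fermat.Agent.BR3.CZero
  Fermat.Agent.BR3.FullGlue Fermat.Agent.BR3.FullHoriz Fermat.Agent.BR3.FullB
  Fermat.Agent.BR3.MidGal Fermat.Agent.BR3.GeoAbFinal Fermat.Agent.BR.ResGen

variable {M q : ℕ} [NeZero M] [hq : Fact q.Prime]
variable (B : ValuationSubring (AlgebraicClosure ℚ)) (hB : B.LiesOverPrime q) (hqM : ¬ q ∣ M)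
  {ζ : Kbˣ} (hζ : IsPrimitiveRoot ζ q)

local notation "kB" => IsLocalRing.ResidueField B

variable {ι₀ : Type*} {Ft₀ : ι₀ → Type*} [∀ v, Field (Ft₀ v)]
  [∀ v, Algebra (IsLocalRing.ResidueField B) (Ft₀ v)]
  {ν₀ : Type*} {ι : Type*} {Ft : ι → Type*} [∀ w, Field (Ft w)]
  [∀ w, Algebra (IsLocalRing.ResidueField B) (Ft w)]
  {ν : Type*}
  (S₀ : SemistableSetup (F := Fb (M * q)) B (residue B) ι₀ Ft₀ ν₀)
  (S : SemistableSetup (F := Fb (M * q * q)) B (residue B) ι Ft ν)

/-! ### the data along `α₂` -/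

section Alpha

variable (vcan : ι₀) (hOcan : S₀.O vcan = O1 M B hB) (w : Option (Mid B hB hqM hζ) → ι)
  (hw : ∀ v, S.O (w v) = OAll B hB hqM hζ v)

/-- **(a-can)** in the shape of the setups: `Da`. -/
def fullCanA :
    letI := algebraAlong (alpha2 M q)
    MultiVal.Full (S₀.O vcan) (fun v => S.O (w v)) (fun v => Fin (fAll B hB hqM hζ v)) :=
  letI := algebraAlong (alpha2 M q)
  Full.congr hOcan hw (fullAll B hB hqM hζ)

theorem card_fullCanA_some (i : Mid B hB hqM hζ) :
    Fintype.card (Fin (fAll B hB hqM hζ (some i))) = fMid M B hB := Fintype.card_fin _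

theorem card_fullCanA_none : Fintype.card (Fin (fAll B hB hqM hζ none)) = 1 := Fintype.card_fin 1

include hB hqM hζ in
/-- the residue degrees of `Da` are prime to `q` -/
theorem coprime_card_fullCanA (v : Option (Mid B hB hqM hζ)) :
    (Fintype.card (Fin (fAll B hB hqM hζ v))).Coprime q := by
  rcases v with _ | i
  · rw [card_fullCanA_none]
    exact Nat.coprime_one_left q
  · rw [card_fullCanA_some]
    exact fMid_coprime B hB hqM hζ

include hB in
/-- the characteristic exponent of the residue function fields -/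
theorem expChar_Ft₀ (v : ι₀) : ExpChar (Ft₀ v) q := by
  haveI := charP_kB B hB
  haveI : CharP (Ft₀ v) q :=
    charP_of_injective_algebraMap (algebraMap kB (Ft₀ v)).injective q
  exact ExpChar.prime hq.out

/-- **`hNψ` of `GeoAbFinal.hkind_of_data`** for `Da := fullCanA`. -/
theorem normFormulaAlong_fullCanA (v : Option (Mid B hB hqM hζ)) :
    NormFormulaAlong kB
      (resHom (residue_surjective (R := B))
        (liesOverAlong_of_full (fullCanA B hB hqM hζ S₀ S vcan hOcan w hw) v))
      (finiteAlong_resHom (Fermat.Agent.BR2.LevelGen.finiteAlong_fb (alpha2 M q))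
        (residue_surjective (R := B)) (fullCanA B hB hqM hζ S₀ S vcan hOcan w hw) v) := by
  haveI := expChar_Ft₀ B hB (Ft₀ := Ft₀) vcan
  refine normFormulaAlong_of_coprime _ _ q ?_
  rw [finrankAlong_resHom (Fermat.Agent.BR2.LevelGen.finiteAlong_fb (alpha2 M q))
    (residue_surjective (R := B)) (fullCanA B hB hqM hζ S₀ S vcan hOcan w hw) v]
  exact coprime_card_fullCanA B hB hqM hζ v

/-- **`hFI` of `GeoAbFinal.hkind_of_data`** for `Da := fullCanA`. -/
theorem fundamentalIdentityAlong_fullCanA [∀ v, HasPrincipalDivisors kB (Ft v)]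
    (v : Option (Mid B hB hqM hζ)) :
    FundamentalIdentityAlong kB
      (resHom (residue_surjective (R := B))
        (liesOverAlong_of_full (fullCanA B hB hqM hζ S₀ S vcan hOcan w hw) v))
      (isIntegral_resHom (Fermat.Agent.BR2.LevelGen.finiteAlong_fb (alpha2 M q))
        (residue_surjective (R := B)) (fullCanA B hB hqM hζ S₀ S vcan hOcan w hw) v) := by
  haveI := expChar_Ft₀ B hB (Ft₀ := Ft₀) vcan
  refine fundamentalIdentityAlong_of_coprime _
    (finiteAlong_resHom (Fermat.Agent.BR2.LevelGen.finiteAlong_fb (alpha2 M q))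
      (residue_surjective (R := B)) (fullCanA B hB hqM hζ S₀ S vcan hOcan w hw) v) q ?_ _
  rw [finrankAlong_resHom (Fermat.Agent.BR2.LevelGen.finiteAlong_fb (alpha2 M q))
    (residue_surjective (R := B)) (fullCanA B hB hqM hζ S₀ S vcan hOcan w hw) v]
  exact coprime_card_fullCanA B hB hqM hζ v

include hB in
/-- **`σ`, `hnorm`, `hcard`, `hmaps` of `GeoAbFinal.hkind_of_data`** for `Da := fullCanA`, with
`T j i := MidGal.ClassOf j`. -/
theorem exists_sigma_fullCanA :
    ∃ σ : ∀ j i : Mid B hB hqM hζ, ClassOf B hB hqM hζ j →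
        (Ft (w (some i)) ≃ₐ[kB] Ft (w (some j))),
      (∀ (j i : Mid B hB hqM hζ) (z : Ft (w (some i))),
        resHom (residue_surjective (R := B))
            (liesOverAlong_of_full (fullCanA B hB hqM hζ S₀ S vcan hOcan w hw) (some j))
          (normAlong (resHom (residue_surjective (R := B))
            (liesOverAlong_of_full (fullCanA B hB hqM hζ S₀ S vcan hOcan w hw) (some i))) z) =
          ∏ t, σ j i t z) ∧
      (∀ j _i : Mid B hB hqM hζ, Fintype.card (ClassOf B hB hqM hζ j) = fMid M B hB) ∧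
      ∀ (j i : Mid B hB hqM hζ) (t : ClassOf B hB hqM hζ j), ∃ s ∈ B.inertiaSubgroupIn ℚ,
        MapsComp S (galAut (M * q * q) s) (w (some i)) (w (some j)) (σ j i t) := by
  have hfr : ∀ i : Mid B hB hqM hζ,
      finrankAlong kB (resHom (residue_surjective (R := B))
        (liesOverAlong_of_full (fullCanA B hB hqM hζ S₀ S vcan hOcan w hw) (some i))) =
        fMid M B hB := fun i => by
    rw [finrankAlong_resHom (Fermat.Agent.BR2.LevelGen.finiteAlong_fb (alpha2 M q))
      (residue_surjective (R := B)) (fullCanA B hB hqM hζ S₀ S vcan hOcan w hw) (some i)]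
    exact card_fullCanA_some B hB hqM hζ i
  have h := fun j => exists_sigma_mid B hB hqM hζ S (fun i => w (some i)) (fun i => hw (some i))
    S₀ vcan hOcan
    (fun i => resHom (residue_surjective (R := B))
      (liesOverAlong_of_full (fullCanA B hB hqM hζ S₀ S vcan hOcan w hw) (some i)))
    (fun i c h => resHom_res (residue_surjective (R := B)) _ c h) hfr j
  choose σ hmaps hnorm hcard using h
  refine ⟨σ, hnorm, fun j _ => card_classOf B hB hqM hζ j, fun j i t => ?_⟩
  obtain ⟨g, ⟨s, hs, rfl⟩, hmap⟩ := hmaps j i t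
  exact ⟨s, hs, hmap⟩

end Alpha

section Et

variable (vet : ι₀) (hOet : S₀.O vet = O2 B hB hqM) (wz : ι) (hwz : S.O wz = cZero B hB hqM)

/-- **(a-et)** in the shape of the setups: `Dz`. -/
def fullEtA :
    letI := algebraAlong (alpha2 M q)
    MultiVal.Full (S₀.O vet) (fun _ : Unit => S.O wz) (fun _ => Fin q) :=
  letI := algebraAlong (alpha2 M q)
  Full.congr hOet (fun _ => hwz) (fullZeroAlpha B hB hqM)

include hqM in
/-- **`hpiz`**: the residue extension of `cZero` over `et` along `α₂` is purely inseparable of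
exponent one. -/
theorem pow_mem_range_fullEtA (g : Ft wz) :
    g ^ q ^ 1 ∈ (resHom (residue_surjective (R := B))
      (liesOverAlong_of_full (fullEtA B hB hqM S₀ S vet hOet wz hwz) ())).toRingHom.range := by
  rw [pow_one]
  refine pow_mem_range_resHom _ _ q (fun y hy => ?_) g
  rw [hwz] at hy
  obtain ⟨c, hc, h⟩ := exists_alpha2_sub_pow_mem_nonunits B hB hqM hy
  refine ⟨c, by rw [hOet]; exact hc, ?_⟩
  rw [hwz]
  exact h

end Et

/-! ### the plug -/

section Plug

local notation "Qb" => AlgebraicClosure ℚ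

variable [NeZero q] (lam : ℕ)

include hB hqM hζ in
/-- **(G5) from ring identifications**: the binder `hkind` of
`GeoFinal.newInvBoundedLevel_of_geo` / `SDD.newInvBoundedLevel_of_input` VERBATIM at `N₁ = M * q`,
with `e₁ = q - 1`: the components `cInf`, `cZero`, `mid i` of `S` have the valuation rings `w₁`,
`cZero`, `i.ring`, the components `vcan`, `vet` of `S₀` the valuation rings `O1`, `O2`; the vertical
components are handled by the hypothesis `hvert` of `GeoAbFinal.hkind_of_data`. -/
theorem hkind_of_rings (hlam : lam.Prime) (hqlam : q ≠ lam)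
    (hF : RiemannPkg Qb (Fb (M * q * q))) (hFt : ∀ v, RiemannPkg kB (Ft v))
    (hFt₀ : ∀ v, RiemannPkg kB (Ft₀ v)) (hlam0 : lam ≠ 0)
    {SSp : Type*} (eι : (Bool ⊕ Mid B hB hqM hζ) ⊕ SSp ≃ ι)
    (vcan vet : ι₀) (hOcan : S₀.O vcan = O1 M B hB) (hOet : S₀.O vet = O2 B hB hqM)
    (hInf : S.O (eι (Sum.inl (Sum.inl false))) = w1 M B hB)
    (hZero : S.O (eι (Sum.inl (Sum.inl true))) = cZero B hB hqM)
    (hMid : ∀ i, S.O (eι (Sum.inl (Sum.inr i))) = i.ring B hB hqM hζ)
    (e₂ : ℕ)
    (hvert : ∀ e : SSp, ∃ s ∈ B.inertiaSubgroupIn ℚ,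
      ∃ a : Ft (eι (Sum.inr e)) ≃ₐ[kB] Ft (eι (Sum.inr e)),
        MapsComp S (galAut (M * q * q) s) (eι (Sum.inr e)) (eι (Sum.inr e)) a ∧
        ∀ x : Pic0 kB (Ft (eι (Sum.inr e))), SemilinearAut.ofAlgAut a • x = x → e₂ • x = 0) :
    ∀ (m : ℕ) (y : natSub S (lam ^ m)),
      (∀ s ∈ B.inertiaSubgroupIn ℚ, galAut (M * q * q) s • (y : JZero (M * q * q)) = y) →
      alphaDown (M * q) q (y : JZero (M * q * q)) = 0 →
      betaDown (M * q) q (y : JZero (M * q * q)) = 0 → ∀ v,
        abRes hF hFt (pow_ne_zero m hlam0) v y = 0 ∨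
        (q - 1) • abRes hF hFt (pow_ne_zero m hlam0) v y = 0 ∨
        e₂ • abRes hF hFt (pow_ne_zero m hlam0) v y = 0 := by
  haveI : ∀ v, HasPrincipalDivisors kB (Ft v) := fun v => (hFt v).principal
  haveI : ∀ v, HasPrincipalDivisors kB (Ft₀ v) := fun v => (hFt₀ v).principal
  haveI : ∀ v, ExpChar (Ft₀ v) q := fun v => expChar_Ft₀ B hB v
  have hw : ∀ v, S.O (overCan eι v) = OAll B hB hqM hζ v := by
    rintro (_ | i)
    · exact hInf
    · exact hMid i
  obtain ⟨σ, hnorm, hcard, hmaps⟩ :=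
    exists_sigma_fullCanA B hB hqM hζ S₀ S vcan hOcan (overCan eι) hw
  have h := hkind_of_data (M * q) q lam B (residue_surjective (R := B)) S S₀
    (Fermat.Agent.Val.riemannPkg_bar (M * q)) hF hFt hlam0 S₀ eι
    vcan (fullCanB B hB S₀ S vcan hOcan _ hInf) q 1
    (pow_mem_range_fullCanB B hB hqM S₀ S vcan hOcan _ hInf) (card_fin_coprime hlam hqlam)
    vet (fullEtA B hB hqM S₀ S vet hOet _ hZero) q 1
    (pow_mem_range_fullEtA B hB hqM S₀ S vet hOet _ hZero) (card_fin_coprime hlam hqlam)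
    hFt₀ vcan (fullCanA B hB hqM hζ S₀ S vcan hOcan (overCan eι) hw)
    (normFormulaAlong_fullCanA B hB hqM hζ S₀ S vcan hOcan (overCan eι) hw)
    (fun i => fundamentalIdentityAlong_fullCanA B hB hqM hζ S₀ S vcan hOcan (overCan eι) hw
      (some i))
    (fMid M B hB) (card_fullCanA_some B hB hqM hζ) σ hnorm hcard hmaps e₂ hvert
  rw [card_mid_mul B hB hqM hζ] at h
  exact h

end Plug

end Fermat.Agent.BR3.FullPlug
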