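import Mathlib
import Fermat.Agent.BR3.PushShapes
import Fermat.Agent.BR3.SDD.Cases
import Fermat.Agent.BR3.SDD.PartitionSRef
import Fermat.Agent.BR3.SDD.NodeFibres
import Fermat.Agent.BR3.SRef.OneLevel

/-!
# Program C (S36), node (G6-PUSH-MOD): the push-forward relations `hpa` of
`GeoTorFinal.hcoch_of_rel` for the stable model `S''` over a one-level refinement `S'ref`

`S'` a semistable setup of `F₀ / K` whose nodes are the supersingular points `e : SSp`, with annulus
charts `I' : CircleInputsN S'` and gauges `a₀` (`S₀ := SRef.sref I' a₀ hadm`; in Program C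
`S' = setup (DtM B hB hqM)`, `S₀ = SDD.Modular.SA`), `X : SDD.CaseInput A Mid SSp KP Ft` the named
inputs of the stable model `S := X.toInput.setup` of `F / K`, and `φ : F₀ →ₐ[K] F`
(`heckeAlphaBar = alpha2`).

* `horRef` : the orientation flags of `S'ref` (`outer e ↦ true`, `inner e ↦ false`);
  `horBranch_outer`, `verBranch_outer`, `horBranch_inner`, `verBranch_inner`, `horEnd_outer`, … :
  the branches of the nodes of `S'ref`; `horBranch_nT`, … : the branches of the nodes of `S''`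
  (`rfl`); `horBranch_injective`, `verBranch_injective`;
* `wtA q d`, `TOut e`, `TInn e`, `TA` : the weights and the nodes of `S''` over the nodes of `S'ref`
  along `a` (`outer e ↦ {nT e} ∪ {nk e s}`, `inner e ↦ {nW e}`);
* **`hpa_of_normFibre`** : `hpa` of `GeoTorFinal.hcoch_of_rel` VERBATIM (with
  `a := PicFunct.pic0Push φ hφ hfin hN`, `ιa := ι' ⊕ levels`, `vWa := old vet`, `vTa := old vcan`,
  `vEa e := exc e`) from `hNR`, `hsm` and the FOUR families of weighted product formulas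
  (`PushShapes.NormFibre`) at the branches of the outer and inner nodes;
* `normFibre_outer_hor`, `normFibre_outer_ver`, `normFibre_inner_ver` (fundamental identity:
  SIGMA-EQUALITIES + RAMIFICATION INDICES + exhaustion), `normFibre_inner_hor` (power map);
* **`hpa_of_enum`** : the composition;
* `hsm_of_under` : the hypothesis `hsm` from the dictionary `Partition.Under` of the points.
-/

set_option autoImplicit false
set_option linter.unusedVariables false
set_option linter.unusedSectionVars false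
set_option linter.style.haveILetI false

noncomputable section

namespace Fermat.Agent.BR3.PushMod

open AlgebraicCurve IsLocalRing Fermat.Agent.Red Fermat.Agent.BR.SS Fermat.Agent.Jac
  Fermat.Agent.BR Fermat.Agent.BR2.Filt Fermat.Agent.BR2.G5 Fermat.Agent.BR3.FiltMaps
  Fermat.Agent.X0 Fermat.Agent.BR3.G5Multi Fermat.Agent.BR3.TorGlue Fermat.Agent.BR3.GeoTor
  Fermat.Agent.BR3.GeoTorPush Fermat.Agent.BR3.PushGlue Fermat.Agent.BR3.PushShapes
  Fermat.Agent.BR.P1 Fermat.Agent.BR.Refine Fermat.Agent.BR.Circle Fermat.Agent.BR3.CircleN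

/-! ### the branches of a node determine the node -/

section Inj

variable {K F k : Type*} [Field K] [Field F] [Algebra K F] [Field k]
  {A : ValuationSubring K} {π : A →+* k} {ι : Type*} {Ft : ι → Type*}
  [∀ v, Field (Ft v)] [∀ v, Algebra k (Ft v)] {ν : Type*}
  (S : SemistableSetup (F := F) A π ι Ft ν) (hor : ν → Bool)

theorem horBranch_injective : Function.Injective (horBranch S hor) := by
  intro e e' h
  have key := S.branch_injective
  by_cases h1 : hor e = true <;> by_cases h2 : hor e' = true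
  · rw [horBranch_of_hor h1, horBranch_of_hor h2] at h
    exact Sum.inl.inj (key (a₁ := Sum.inl e) (a₂ := Sum.inl e') h)
  · rw [horBranch_of_hor h1, horBranch_of_not h2] at h
    exact absurd (key (a₁ := Sum.inl e) (a₂ := Sum.inr e') h) (by simp)
  · rw [horBranch_of_not h1, horBranch_of_hor h2] at h
    exact absurd (key (a₁ := Sum.inr e) (a₂ := Sum.inl e') h) (by simp)
  · rw [horBranch_of_not h1, horBranch_of_not h2] at h
    exact Sum.inr.inj (key (a₁ := Sum.inr e) (a₂ := Sum.inr e') h)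

theorem verBranch_injective : Function.Injective (verBranch S hor) := by
  intro e e' h
  have key := S.branch_injective
  by_cases h1 : hor e = true <;> by_cases h2 : hor e' = true
  · rw [verBranch_of_hor h1, verBranch_of_hor h2] at h
    exact Sum.inr.inj (key (a₁ := Sum.inr e) (a₂ := Sum.inr e') h)
  · rw [verBranch_of_hor h1, verBranch_of_not h2] at h
    exact absurd (key (a₁ := Sum.inr e) (a₂ := Sum.inl e') h) (by simp)
  · rw [verBranch_of_not h1, verBranch_of_hor h2] at h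
    exact absurd (key (a₁ := Sum.inl e) (a₂ := Sum.inr e') h) (by simp)
  · rw [verBranch_of_not h1, verBranch_of_not h2] at h
    exact Sum.inl.inj (key (a₁ := Sum.inl e) (a₂ := Sum.inl e') h)

end Inj

/-! ### the branches of the nodes of `S'ref` -/

section SRefBranches

open Fermat.Agent.BR3.SRef

variable {K : Type} {F₀ : Type*} [Field K] [Field F₀] [Algebra K F₀]
  {A : ValuationSubring K} [IsAlgClosed (ResidueField A)]
  {ι' : Type} {Ft' : ι' → Type} [∀ v, Field (Ft' v)] [∀ v, Algebra (ResidueField A) (Ft' v)]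
  {SSp : Type}
  {S' : SemistableSetup (F := F₀) A (residue A) ι' Ft' SSp}
  (I' : CircleInputsN S') (a₀ : SSp → K) (hadm : ∀ e, I'.adm e (a₀ e))

local notation "k" => ResidueField A

/-- **The orientation flags of `S'ref`**: the source of the outer node is its horizontal end (an old
component), the source of the inner node is its vertical end (the exceptional component). -/
def horRef {α β : Type*} : α ⊕ β → Bool := Sum.isLeft

@[simp] theorem horRef_inl {α β : Type*} (a : α) : horRef (Sum.inl a : α ⊕ β) = true := rfl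

@[simp] theorem horRef_inr {α β : Type*} (b : β) : horRef (Sum.inr b : α ⊕ β) = false := rfl

theorem horBranch_outer (e : SSp) :
    horBranch (sref I' a₀ hadm) horRef (outer I' a₀ hadm e) =
      (⟨old I' a₀ hadm (S'.src e), S'.s₁ e⟩ : (oneLevel I' a₀ hadm).PtR) :=
  horBranch_of_hor (S := sref I' a₀ hadm) (hor := horRef) (e := outer I' a₀ hadm e) rfl

theorem verBranch_outer (e : SSp) :
    verBranch (sref I' a₀ hadm) horRef (outer I' a₀ hadm e) =
      (⟨exc I' a₀ hadm e, placeInfty k⟩ : (oneLevel I' a₀ hadm).PtR) :=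
  (verBranch_of_hor (S := sref I' a₀ hadm) (hor := horRef) (e := outer I' a₀ hadm e) rfl).trans
    (sref_tgtPt_outer I' a₀ hadm e)

theorem horBranch_inner (e : SSp) :
    horBranch (sref I' a₀ hadm) horRef (inner I' a₀ hadm e) =
      (⟨old I' a₀ hadm (S'.tgt e), S'.s₂ e⟩ : (oneLevel I' a₀ hadm).PtR) :=
  (horBranch_of_not (S := sref I' a₀ hadm) (hor := horRef) (e := inner I' a₀ hadm e)
    (show ¬ (false = true) from Bool.false_ne_true)).trans (sref_tgtPt_inner I' a₀ hadm e)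

theorem verBranch_inner (e : SSp) :
    verBranch (sref I' a₀ hadm) horRef (inner I' a₀ hadm e) =
      (⟨exc I' a₀ hadm e, placeAt k 0⟩ : (oneLevel I' a₀ hadm).PtR) :=
  verBranch_of_not (S := sref I' a₀ hadm) (hor := horRef) (e := inner I' a₀ hadm e)
    (show ¬ (false = true) from Bool.false_ne_true)

theorem horEnd_outer (e : SSp) :
    horEnd (sref I' a₀ hadm) horRef (outer I' a₀ hadm e) = old I' a₀ hadm (S'.src e) := by
  rw [← horBranch_fst, horBranch_outer]

theorem verEnd_outer (e : SSp) :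
    verEnd (sref I' a₀ hadm) horRef (outer I' a₀ hadm e) = exc I' a₀ hadm e := by
  rw [← verBranch_fst, verBranch_outer]

theorem horEnd_inner (e : SSp) :
    horEnd (sref I' a₀ hadm) horRef (inner I' a₀ hadm e) = old I' a₀ hadm (S'.tgt e) := by
  rw [← horBranch_fst, horBranch_inner]

theorem verEnd_inner (e : SSp) :
    verEnd (sref I' a₀ hadm) horRef (inner I' a₀ hadm e) = exc I' a₀ hadm e := by
  rw [← verBranch_fst, verBranch_inner]

end SRefBranches

/-! ### the branches of the nodes of `S''` -/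

section UpperBranches

open Fermat.Agent.BR3.SDD

variable {K : Type} {F : Type*} [Field K] [Field F] [Algebra K F]
  {A : ValuationSubring K} {Mid SSp KP : Type} {Ft : Comp Mid SSp → Type}
  [∀ v, Field (Ft v)] [∀ v, Algebra (ResidueField A) (Ft v)]
  (X : CaseInput (F := F) A Mid SSp KP Ft)

local notation "k" => ResidueField A

theorem horBranch_nT (e : SSp) :
    horBranch X.toInput.setup hor (nT e) = (⟨cInf, X.pInf e⟩ : Σ v, Place k (Ft v)) := rfl

theorem verBranch_nT (e : SSp) :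
    verBranch X.toInput.setup hor (nT e) = (⟨ze e, X.zT e⟩ : Σ v, Place k (Ft v)) := rfl

theorem horBranch_nk (e : SSp) (s : KP) :
    horBranch X.toInput.setup hor (nk e s) =
      (⟨mid (X.comp e s), X.pMid e s⟩ : Σ v, Place k (Ft v)) := rfl

theorem verBranch_nk (e : SSp) (s : KP) :
    verBranch X.toInput.setup hor (nk e s) = (⟨ze e, X.zK e s⟩ : Σ v, Place k (Ft v)) := rfl

theorem horBranch_nW (e : SSp) :
    horBranch X.toInput.setup hor (nW e) = (⟨cZero, X.pZero e⟩ : Σ v, Place k (Ft v)) := rfl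

theorem verBranch_nW (e : SSp) :
    verBranch X.toInput.setup hor (nW e) = (⟨ze e, X.zW e⟩ : Σ v, Place k (Ft v)) := rfl

end UpperBranches

/-! ### the nodes of `S''` over the nodes of `S'ref` along `a`, and their weights -/

section Combinatorics

open Fermat.Agent.BR3.SDD

variable {SSp KP : Type} [Fintype KP]

/-- the weights along `a`: `nW e ↦ q`, `nT e ↦ 1`, `nk e s ↦ d` -/
def wtA (q d : ℕ) : Node SSp KP → ℕ
  | (_, Sum.inl true) => q
  | (_, Sum.inl false) => 1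
  | (_, Sum.inr _) => d

@[simp] theorem wtA_nW (q d : ℕ) (e : SSp) : wtA (KP := KP) q d (nW e) = q := rfl

@[simp] theorem wtA_nT (q d : ℕ) (e : SSp) : wtA (KP := KP) q d (nT e) = 1 := rfl

@[simp] theorem wtA_nk (q d : ℕ) (e : SSp) (s : KP) : wtA q d (nk e s) = d := rfl

open Classical in
/-- the nodes of `S''` over the outer node of `e` along `a` -/
def TOut (e : SSp) : Finset (Node SSp KP) := insert (nT e) (Finset.univ.image (nk e))

/-- the node of `S''` over the inner node of `e` along `a` -/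
def TInn (e : SSp) : Finset (Node SSp KP) := {nW e}

theorem mem_TOut {e : SSp} {n : Node SSp KP} : n ∈ TOut e ↔ n = nT e ∨ ∃ s, n = nk e s := by
  classical
  rw [TOut, Finset.mem_insert, Finset.mem_image]
  constructor
  · rintro (h | ⟨s, -, hs⟩)
    · exact Or.inl h
    · exact Or.inr ⟨s, hs.symm⟩
  · rintro (h | ⟨s, hs⟩)
    · exact Or.inl h
    · exact Or.inr ⟨s, Finset.mem_univ s, hs.symm⟩

theorem mem_TInn {e : SSp} {n : Node SSp KP} : n ∈ TInn e ↔ n = nW e := by
  rw [TInn, Finset.mem_singleton]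

theorem nk_injective (e : SSp) : Function.Injective (nk (KP := KP) e) := fun s s' h => by
  simpa [nk] using h

theorem nT_ne_nk (e : SSp) (s : KP) : nT e ≠ nk e s := by
  simp [nT, nk]

theorem nW_ne_nk (e : SSp) (s : KP) : nW e ≠ nk e s := by
  simp [nW, nk]

/-- the nodes of `S''` over a node of `S'ref` along `a` (`X'` = the levels, `x.1` the node of `S'`
of the level `x`) -/
def TA {X' : Type*} (fst : X' → SSp) : SSp ⊕ X' → Finset (Node SSp KP)
  | Sum.inl e => TOut e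
  | Sum.inr x => TInn (fst x)

end Combinatorics

/-! ### `hpa` from the four families of weighted product formulas -/

section Main

open Fermat.Agent.BR3.SRef Fermat.Agent.BR3.SDD

variable {K : Type} {F₀ F : Type*} [Field K] [Field F₀] [Algebra K F₀] [Field F] [Algebra K F]
  {A : ValuationSubring K} [IsAlgClosed (ResidueField A)]
  {ι' : Type} {Ft' : ι' → Type} [∀ v, Field (Ft' v)] [∀ v, Algebra (ResidueField A) (Ft' v)]
  {SSp : Type}
  {S' : SemistableSetup (F := F₀) A (residue A) ι' Ft' SSp}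
  (I' : CircleInputsN S') (a₀ : SSp → K) (hadm : ∀ e, I'.adm e (a₀ e))
  {Mid KP : Type} [Fintype KP] {Ft : Comp Mid SSp → Type}
  [∀ v, Field (Ft v)] [∀ v, Algebra (ResidueField A) (Ft v)]
  (X : CaseInput (F := F) A Mid SSp KP Ft)
  {J : ι' ⊕ (oneLevel I' a₀ hadm).X → Type*} [∀ v, Fintype (J v)]
  {w : ∀ v, J v → Comp Mid SSp}
  {ψ : ∀ v (j : J v), FtR Ft' A (oneLevel I' a₀ hadm).X v →ₐ[ResidueField A] Ft (w v j)}

local notation "k" => ResidueField A

/-- **(G6-PUSH-MOD), core.**  The hypothesis `hpa` of `GeoTorFinal.hcoch_of_rel`, VERBATIM, for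
`S := X.toInput.setup` over `S₀ := sref I' a₀ hadm` along `φ`, from the residue norm data `hNR`,
the compatibility `hsm` of the smooth places and the weighted product formulas at the branches of
the outer nodes (`{nT e} ∪ {nk e s}` above, weights `1`, `d`) and of the inner nodes (`{nW e}`
above, weight `q`). -/
theorem hpa_of_normFibre [HasPrincipalDivisors K F₀] [HasPrincipalDivisors K F]
    (hF₀ : RiemannPkg K F₀) (hFt' : ∀ v, RiemannPkg k (Ft' v))
    (φ : F₀ →ₐ[K] F) (hφ : φ.toRingHom.IsIntegral) (hfin : FiniteAlong K φ)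
    (hN : NormFormulaAlong K φ hfin)
    (hNR : ∀ v, NormRes (sref I' a₀ hadm) X.toInput.setup φ v (w v) (ψ v))
    (v₀ : ι' ⊕ (oneLevel I' a₀ hadm).X)
    (hsm : ∀ P : Place K F, X.toInput.setup.IsSmoothPlace P →
      (sref I' a₀ hadm).IsSmoothPlace (P.restrictAlong φ hφ))
    (lam : ℕ) (hlam : lam ≠ 0) (q d : ℕ)
    (vcan vet : ι') (hsrc : ∀ e, S'.src e = vcan) (htgt : ∀ e, S'.tgt e = vet)
    (hHout : ∀ e, NormFibre w ψ
      (⟨old I' a₀ hadm (S'.src e), S'.s₁ e⟩ : (oneLevel I' a₀ hadm).PtR) (TOut e)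
      (horBranch X.toInput.setup hor) (wtA q d))
    (hVout : ∀ e, NormFibre w ψ
      (⟨exc I' a₀ hadm e, placeInfty k⟩ : (oneLevel I' a₀ hadm).PtR) (TOut e)
      (verBranch X.toInput.setup hor) (wtA q d))
    (hHinn : ∀ e, NormFibre w ψ
      (⟨old I' a₀ hadm (S'.tgt e), S'.s₂ e⟩ : (oneLevel I' a₀ hadm).PtR) (TInn e)
      (horBranch X.toInput.setup hor) (wtA q d))
    (hVinn : ∀ e, NormFibre w ψ
      (⟨exc I' a₀ hadm e, placeAt k 0⟩ : (oneLevel I' a₀ hadm).PtR) (TInn e)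
      (verBranch X.toInput.setup hor) (wtA q d)) :
    ∀ (m : ℕ) (z : Pic0 K F) (D : Divisor.degZero (K := K) (F := F)) (f : F)
      (u : ∀ v, Ft v), IsGood X.toInput.setup (lam ^ m) z D f u →
      PicFunct.pic0Push φ hφ hfin hN z = 0 →
      ∀ (av bv : Node SSp KP → k) (ha0 : ∀ e, av e ≠ 0) (hb0 : ∀ e, bv e ≠ 0),
      (∀ e, IsValueAt (X.toInput.setup.s₁ e) (u (X.toInput.setup.src e)) (av e)) →
      (∀ e, IsValueAt (X.toInput.setup.s₂ e) (u (X.toInput.setup.tgt e)) (bv e)) →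
      ∃ κ₀ : ι' ⊕ (oneLevel I' a₀ hadm).X → k, (∀ v, κ₀ v ≠ 0) ∧
        (∀ e, valH hor av bv (nW e) ^ q * κ₀ (exc I' a₀ hadm e) =
          valV hor av bv (nW e) ^ q * κ₀ (old I' a₀ hadm vet)) ∧
        ∀ e, (valH hor av bv (nT e) * ∏ s, valH hor av bv (nk e s) ^ d) *
            κ₀ (exc I' a₀ hadm e) =
          (valV hor av bv (nT e) * ∏ s, valV hor av bv (nk e s) ^ d) *
            κ₀ (old I' a₀ hadm vcan) := by
  intro m z D f u hG h0 av bv ha0 hb0 ha hb
  refine push_relations (S₀ := sref I' a₀ hadm) (S := X.toInput.setup) (w := w) (ψ := ψ) hF₀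
    (riemannPkg_sref I' a₀ hadm hFt') φ hφ hfin hN hNR v₀ (pow_ne_zero m hlam) hG h0 hsm
    horRef hor (TA (KP := KP) (fun x : (oneLevel I' a₀ hadm).X => x.1)) (wtA q d) ?_ ?_
    av bv ha0 hb0 ha hb nW nT nk q d (fun e => inner I' a₀ hadm e) (fun e => outer I' a₀ hadm e)
    (old I' a₀ hadm vet) (old I' a₀ hadm vcan) (fun e => exc I' a₀ hadm e)
    (fun e n => mem_TInn) (fun e n => mem_TOut) nk_injective nT_ne_nk (fun e => rfl)
    (fun e => rfl) (fun e s => rfl) ?_ ?_ ?_ ?_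
  · -- `hH`
    rintro (e | x)
    · show NormFibre w ψ (horBranch (sref I' a₀ hadm) horRef (outer I' a₀ hadm e)) (TOut e) _ _
      rw [horBranch_outer]
      exact hHout e
    · obtain ⟨e, rfl⟩ : ∃ e, x = lvl I' a₀ hadm e := ⟨x.1, eq_lvl I' a₀ hadm x⟩
      show NormFibre w ψ (horBranch (sref I' a₀ hadm) horRef (inner I' a₀ hadm e)) (TInn e) _ _
      rw [horBranch_inner]
      exact hHinn e
  · -- `hV`
    rintro (e | x)
    · show NormFibre w ψ (verBranch (sref I' a₀ hadm) horRef (outer I' a₀ hadm e)) (TOut e) _ _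
      rw [verBranch_outer]
      exact hVout e
    · obtain ⟨e, rfl⟩ : ∃ e, x = lvl I' a₀ hadm e := ⟨x.1, eq_lvl I' a₀ hadm x⟩
      show NormFibre w ψ (verBranch (sref I' a₀ hadm) horRef (inner I' a₀ hadm e)) (TInn e) _ _
      rw [verBranch_inner]
      exact hVinn e
  · intro e
    rw [horEnd_inner, htgt]
  · intro e
    exact verEnd_inner I' a₀ hadm e
  · intro e
    rw [horEnd_outer, hsrc]
  · intro e
    exact verEnd_outer I' a₀ hadm e

/-! ### the four producers of the weighted product formulas -/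

section Producers

variable [∀ w', HasPrincipalDivisors (ResidueField A) (Ft w')]
  (hFt' : ∀ v, RiemannPkg (ResidueField A) (Ft' v))
  (hFt : ∀ w', RiemannPkg (ResidueField A) (Ft w'))
  (hψ : ∀ v j, (ψ v j).toRingHom.IsIntegral)
  (hfinψ : ∀ v j, FiniteAlong (ResidueField A) (ψ v j))

include hFt' hFt hfinψ in
/-- **The product formula at the horizontal branch of the outer node**: over the branch `s₁ e` of
`S'` lie the point `pInf e` of `cInf` (ramification index `1`) and the Kummer points `pMid e s`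
(ramification index `d`). -/
theorem normFibre_outer_hor (q d : ℕ) (e : SSp)
    (hFI : ∀ j, FundamentalIdentityAlong k (ψ (old I' a₀ hadm (S'.src e)) j)
      (hψ (old I' a₀ hadm (S'.src e)) j))
    (hwinj : Function.Injective (w (old I' a₀ hadm (S'.src e))))
    (hInf : ∃ (j : J (old I' a₀ hadm (S'.src e)))
      (Q : Place k (Ft (w (old I' a₀ hadm (S'.src e)) j))),
      (⟨cInf, X.pInf e⟩ : Σ v, Place k (Ft v)) = ⟨w (old I' a₀ hadm (S'.src e)) j, Q⟩ ∧
      Q.restrictAlong (ψ (old I' a₀ hadm (S'.src e)) j) (hψ (old I' a₀ hadm (S'.src e)) j) =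
        S'.s₁ e ∧
      Q.ramificationIndexAlong (ψ (old I' a₀ hadm (S'.src e)) j) = 1)
    (hMid : ∀ s, ∃ (j : J (old I' a₀ hadm (S'.src e)))
      (Q : Place k (Ft (w (old I' a₀ hadm (S'.src e)) j))),
      (⟨mid (X.comp e s), X.pMid e s⟩ : Σ v, Place k (Ft v)) =
        ⟨w (old I' a₀ hadm (S'.src e)) j, Q⟩ ∧
      Q.restrictAlong (ψ (old I' a₀ hadm (S'.src e)) j) (hψ (old I' a₀ hadm (S'.src e)) j) =
        S'.s₁ e ∧
      Q.ramificationIndexAlong (ψ (old I' a₀ hadm (S'.src e)) j) = d)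
    (hexh : ∀ (j : J (old I' a₀ hadm (S'.src e)))
      (Q : Place k (Ft (w (old I' a₀ hadm (S'.src e)) j))),
      Q.restrictAlong (ψ (old I' a₀ hadm (S'.src e)) j) (hψ (old I' a₀ hadm (S'.src e)) j) =
        S'.s₁ e →
      (⟨w (old I' a₀ hadm (S'.src e)) j, Q⟩ : Σ v, Place k (Ft v)) = ⟨cInf, X.pInf e⟩ ∨
        ∃ s, (⟨w (old I' a₀ hadm (S'.src e)) j, Q⟩ : Σ v, Place k (Ft v)) =
          ⟨mid (X.comp e s), X.pMid e s⟩) :
    NormFibre w ψ (⟨old I' a₀ hadm (S'.src e), S'.s₁ e⟩ : (oneLevel I' a₀ hadm).PtR) (TOut e)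
      (horBranch X.toInput.setup hor) (wtA q d) := by
  refine normFibre_of_enum (riemannPkg_sref I' a₀ hadm hFt') hFt hψ hfinψ
    (⟨old I' a₀ hadm (S'.src e), S'.s₁ e⟩ : (oneLevel I' a₀ hadm).PtR) hFI hwinj (TOut e) _ _
    ((horBranch_injective X.toInput.setup hor).injOn) ?_ ?_
  · intro n hn
    rcases mem_TOut.mp hn with rfl | ⟨s, rfl⟩
    · obtain ⟨j, Q, h1, h2, h3⟩ := hInf
      exact ⟨j, Q, h1, h2, h3⟩
    · obtain ⟨j, Q, h1, h2, h3⟩ := hMid s
      exact ⟨j, Q, h1, h2, h3⟩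
  · intro j Q hQ
    rcases hexh j Q hQ with h | ⟨s, h⟩
    · exact ⟨nT e, mem_TOut.mpr (Or.inl rfl), h.symm⟩
    · exact ⟨nk e s, mem_TOut.mpr (Or.inr ⟨s, rfl⟩), h.symm⟩

include hFt' hFt hfinψ in
/-- **The product formula at the vertical branch of the outer node**: over the point `X = ∞` of
the exceptional component lie the point `zT e` of `ze e` (ramification index `1`) and the points
`zK e s` (ramification index `d`). -/
theorem normFibre_outer_ver (q d : ℕ) (e : SSp)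
    (hFI : ∀ j, FundamentalIdentityAlong k (ψ (exc I' a₀ hadm e) j) (hψ (exc I' a₀ hadm e) j))
    (hwinj : Function.Injective (w (exc I' a₀ hadm e)))
    (hZT : ∃ (j : J (exc I' a₀ hadm e)) (Q : Place k (Ft (w (exc I' a₀ hadm e) j))),
      (⟨ze e, X.zT e⟩ : Σ v, Place k (Ft v)) = ⟨w (exc I' a₀ hadm e) j, Q⟩ ∧
      Q.restrictAlong (ψ (exc I' a₀ hadm e) j) (hψ (exc I' a₀ hadm e) j) = placeInfty k ∧
      Q.ramificationIndexAlong (ψ (exc I' a₀ hadm e) j) = 1)
    (hZK : ∀ s, ∃ (j : J (exc I' a₀ hadm e)) (Q : Place k (Ft (w (exc I' a₀ hadm e) j))),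
      (⟨ze e, X.zK e s⟩ : Σ v, Place k (Ft v)) = ⟨w (exc I' a₀ hadm e) j, Q⟩ ∧
      Q.restrictAlong (ψ (exc I' a₀ hadm e) j) (hψ (exc I' a₀ hadm e) j) = placeInfty k ∧
      Q.ramificationIndexAlong (ψ (exc I' a₀ hadm e) j) = d)
    (hexh : ∀ (j : J (exc I' a₀ hadm e)) (Q : Place k (Ft (w (exc I' a₀ hadm e) j))),
      Q.restrictAlong (ψ (exc I' a₀ hadm e) j) (hψ (exc I' a₀ hadm e) j) = placeInfty k →
      (⟨w (exc I' a₀ hadm e) j, Q⟩ : Σ v, Place k (Ft v)) = ⟨ze e, X.zT e⟩ ∨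
        ∃ s, (⟨w (exc I' a₀ hadm e) j, Q⟩ : Σ v, Place k (Ft v)) = ⟨ze e, X.zK e s⟩) :
    NormFibre w ψ (⟨exc I' a₀ hadm e, placeInfty k⟩ : (oneLevel I' a₀ hadm).PtR) (TOut e)
      (verBranch X.toInput.setup hor) (wtA q d) := by
  refine normFibre_of_enum (riemannPkg_sref I' a₀ hadm hFt') hFt hψ hfinψ
    (⟨exc I' a₀ hadm e, placeInfty k⟩ : (oneLevel I' a₀ hadm).PtR) hFI hwinj (TOut e) _ _
    ((verBranch_injective X.toInput.setup hor).injOn) ?_ ?_
  · intro n hn
    rcases mem_TOut.mp hn with rfl | ⟨s, rfl⟩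
    · obtain ⟨j, Q, h1, h2, h3⟩ := hZT
      exact ⟨j, Q, h1, h2, h3⟩
    · obtain ⟨j, Q, h1, h2, h3⟩ := hZK s
      exact ⟨j, Q, h1, h2, h3⟩
  · intro j Q hQ
    rcases hexh j Q hQ with h | ⟨s, h⟩
    · exact ⟨nT e, mem_TOut.mpr (Or.inl rfl), h.symm⟩
    · exact ⟨nk e s, mem_TOut.mpr (Or.inr ⟨s, rfl⟩), h.symm⟩

include hFt' hFt hfinψ in
/-- **The product formula at the vertical branch of the inner node**: over the point `X = 0` of
the exceptional component lies only the point `zW e` of `ze e` (ramification index `q`). -/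
theorem normFibre_inner_ver (q d : ℕ) (e : SSp)
    (hFI : ∀ j, FundamentalIdentityAlong k (ψ (exc I' a₀ hadm e) j) (hψ (exc I' a₀ hadm e) j))
    (hwinj : Function.Injective (w (exc I' a₀ hadm e)))
    (hZW : ∃ (j : J (exc I' a₀ hadm e)) (Q : Place k (Ft (w (exc I' a₀ hadm e) j))),
      (⟨ze e, X.zW e⟩ : Σ v, Place k (Ft v)) = ⟨w (exc I' a₀ hadm e) j, Q⟩ ∧
      Q.restrictAlong (ψ (exc I' a₀ hadm e) j) (hψ (exc I' a₀ hadm e) j) = placeAt k 0 ∧
      Q.ramificationIndexAlong (ψ (exc I' a₀ hadm e) j) = q)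
    (hexh : ∀ (j : J (exc I' a₀ hadm e)) (Q : Place k (Ft (w (exc I' a₀ hadm e) j))),
      Q.restrictAlong (ψ (exc I' a₀ hadm e) j) (hψ (exc I' a₀ hadm e) j) = placeAt k 0 →
      (⟨w (exc I' a₀ hadm e) j, Q⟩ : Σ v, Place k (Ft v)) = ⟨ze e, X.zW e⟩) :
    NormFibre w ψ (⟨exc I' a₀ hadm e, placeAt k 0⟩ : (oneLevel I' a₀ hadm).PtR) (TInn e)
      (verBranch X.toInput.setup hor) (wtA q d) := by
  refine normFibre_of_enum (riemannPkg_sref I' a₀ hadm hFt') hFt hψ hfinψ
    (⟨exc I' a₀ hadm e, placeAt k 0⟩ : (oneLevel I' a₀ hadm).PtR) hFI hwinj (TInn e) _ _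
    ((verBranch_injective X.toInput.setup hor).injOn) ?_ ?_
  · intro n hn
    rw [mem_TInn.mp hn]
    obtain ⟨j, Q, h1, h2, h3⟩ := hZW
    exact ⟨j, Q, h1, h2, h3⟩
  · intro j Q hQ
    exact ⟨nW e, mem_TInn.mpr rfl, (hexh j Q hQ).symm⟩

/-- **The product formula at the horizontal branch of the inner node**, from a power map: ONE
component (`cZero`) over the component `tgt e` of `S'`, with `ψ (N g) = g ^ q` (purely inseparable
residue extension of degree `q`); `pZero e` lies over the branch `s₂ e`. -/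
theorem normFibre_inner_hor (q d : ℕ) (e : SSp)
    (j₀ : J (old I' a₀ hadm (S'.tgt e))) (hsub : ∀ j : J (old I' a₀ hadm (S'.tgt e)), j = j₀)
    (Q : Place k (Ft (w (old I' a₀ hadm (S'.tgt e)) j₀)))
    (hbr : (⟨cZero, X.pZero e⟩ : Σ v, Place k (Ft v)) = ⟨w (old I' a₀ hadm (S'.tgt e)) j₀, Q⟩)
    (hQ : Q.restrictAlong (ψ (old I' a₀ hadm (S'.tgt e)) j₀)
      (hψ (old I' a₀ hadm (S'.tgt e)) j₀) = S'.s₂ e)
    (hpow : ∀ g : Ft (w (old I' a₀ hadm (S'.tgt e)) j₀),
      ψ (old I' a₀ hadm (S'.tgt e)) j₀ (normAlong (ψ (old I' a₀ hadm (S'.tgt e)) j₀) g) =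
        g ^ q) :
    NormFibre w ψ (⟨old I' a₀ hadm (S'.tgt e), S'.s₂ e⟩ : (oneLevel I' a₀ hadm).PtR) (TInn e)
      (horBranch X.toInput.setup hor) (wtA q d) :=
  normFibre_of_pow hψ (⟨old I' a₀ hadm (S'.tgt e), S'.s₂ e⟩ : (oneLevel I' a₀ hadm).PtR) j₀ hsub
    (nW e) (horBranch X.toInput.setup hor) (wtA q d) Q hbr hQ hpow

end Producers

/-! ### the composition -/

/-- **(G6-PUSH-MOD), enumeration form.**  `hpa` of `GeoTorFinal.hcoch_of_rel`, VERBATIM, from the
residue norm data, `hsm` and, kind by kind, SIGMA-EQUALITIES + RAMIFICATION INDICES + exhaustion: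

* over the branch `s₁ e` of the component `src e = vcan` of `S'`: `pInf e` (index `1`), `pMid e s`
  (index `d`);
* over `X = ∞` of the exceptional component: `zT e` (index `1`), `zK e s` (index `d`);
* over `X = 0` of the exceptional component: `zW e` (index `q`);
* over the branch `s₂ e` of the component `tgt e = vet` of `S'`: `pZero e`, the only component
  `cZero` above being purely inseparable of degree `q` (`hpow`). -/
theorem hpa_of_enum [HasPrincipalDivisors K F₀] [HasPrincipalDivisors K F]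
    [∀ w', HasPrincipalDivisors k (Ft w')]
    (hF₀ : RiemannPkg K F₀) (hFt' : ∀ v, RiemannPkg k (Ft' v)) (hFt : ∀ w', RiemannPkg k (Ft w'))
    (φ : F₀ →ₐ[K] F) (hφ : φ.toRingHom.IsIntegral) (hfin : FiniteAlong K φ)
    (hN : NormFormulaAlong K φ hfin)
    (hNR : ∀ v, NormRes (sref I' a₀ hadm) X.toInput.setup φ v (w v) (ψ v))
    (hψ : ∀ v j, (ψ v j).toRingHom.IsIntegral) (hfinψ : ∀ v j, FiniteAlong k (ψ v j))
    (v₀ : ι' ⊕ (oneLevel I' a₀ hadm).X)
    (hsm : ∀ P : Place K F, X.toInput.setup.IsSmoothPlace P →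
      (sref I' a₀ hadm).IsSmoothPlace (P.restrictAlong φ hφ))
    (lam : ℕ) (hlam : lam ≠ 0) (q d : ℕ)
    (vcan vet : ι') (hsrc : ∀ e, S'.src e = vcan) (htgt : ∀ e, S'.tgt e = vet)
    -- the component `vcan`
    (hFIcan : ∀ e j, FundamentalIdentityAlong k (ψ (old I' a₀ hadm (S'.src e)) j)
      (hψ (old I' a₀ hadm (S'.src e)) j))
    (hwcan : ∀ e, Function.Injective (w (old I' a₀ hadm (S'.src e))))
    (hInf : ∀ e, ∃ (j : J (old I' a₀ hadm (S'.src e)))
      (Q : Place k (Ft (w (old I' a₀ hadm (S'.src e)) j))),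
      (⟨cInf, X.pInf e⟩ : Σ v, Place k (Ft v)) = ⟨w (old I' a₀ hadm (S'.src e)) j, Q⟩ ∧
      Q.restrictAlong (ψ (old I' a₀ hadm (S'.src e)) j) (hψ (old I' a₀ hadm (S'.src e)) j) =
        S'.s₁ e ∧
      Q.ramificationIndexAlong (ψ (old I' a₀ hadm (S'.src e)) j) = 1)
    (hMid : ∀ e s, ∃ (j : J (old I' a₀ hadm (S'.src e)))
      (Q : Place k (Ft (w (old I' a₀ hadm (S'.src e)) j))),
      (⟨mid (X.comp e s), X.pMid e s⟩ : Σ v, Place k (Ft v)) =
        ⟨w (old I' a₀ hadm (S'.src e)) j, Q⟩ ∧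
      Q.restrictAlong (ψ (old I' a₀ hadm (S'.src e)) j) (hψ (old I' a₀ hadm (S'.src e)) j) =
        S'.s₁ e ∧
      Q.ramificationIndexAlong (ψ (old I' a₀ hadm (S'.src e)) j) = d)
    (hexhCan : ∀ e (j : J (old I' a₀ hadm (S'.src e)))
      (Q : Place k (Ft (w (old I' a₀ hadm (S'.src e)) j))),
      Q.restrictAlong (ψ (old I' a₀ hadm (S'.src e)) j) (hψ (old I' a₀ hadm (S'.src e)) j) =
        S'.s₁ e →
      (⟨w (old I' a₀ hadm (S'.src e)) j, Q⟩ : Σ v, Place k (Ft v)) = ⟨cInf, X.pInf e⟩ ∨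
        ∃ s, (⟨w (old I' a₀ hadm (S'.src e)) j, Q⟩ : Σ v, Place k (Ft v)) =
          ⟨mid (X.comp e s), X.pMid e s⟩)
    -- the exceptional components
    (hFIexc : ∀ e j, FundamentalIdentityAlong k (ψ (exc I' a₀ hadm e) j)
      (hψ (exc I' a₀ hadm e) j))
    (hwexc : ∀ e, Function.Injective (w (exc I' a₀ hadm e)))
    (hZT : ∀ e, ∃ (j : J (exc I' a₀ hadm e)) (Q : Place k (Ft (w (exc I' a₀ hadm e) j))),
      (⟨ze e, X.zT e⟩ : Σ v, Place k (Ft v)) = ⟨w (exc I' a₀ hadm e) j, Q⟩ ∧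
      Q.restrictAlong (ψ (exc I' a₀ hadm e) j) (hψ (exc I' a₀ hadm e) j) = placeInfty k ∧
      Q.ramificationIndexAlong (ψ (exc I' a₀ hadm e) j) = 1)
    (hZK : ∀ e s, ∃ (j : J (exc I' a₀ hadm e)) (Q : Place k (Ft (w (exc I' a₀ hadm e) j))),
      (⟨ze e, X.zK e s⟩ : Σ v, Place k (Ft v)) = ⟨w (exc I' a₀ hadm e) j, Q⟩ ∧
      Q.restrictAlong (ψ (exc I' a₀ hadm e) j) (hψ (exc I' a₀ hadm e) j) = placeInfty k ∧
      Q.ramificationIndexAlong (ψ (exc I' a₀ hadm e) j) = d)
    (hexhInf : ∀ e (j : J (exc I' a₀ hadm e)) (Q : Place k (Ft (w (exc I' a₀ hadm e) j))),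
      Q.restrictAlong (ψ (exc I' a₀ hadm e) j) (hψ (exc I' a₀ hadm e) j) = placeInfty k →
      (⟨w (exc I' a₀ hadm e) j, Q⟩ : Σ v, Place k (Ft v)) = ⟨ze e, X.zT e⟩ ∨
        ∃ s, (⟨w (exc I' a₀ hadm e) j, Q⟩ : Σ v, Place k (Ft v)) = ⟨ze e, X.zK e s⟩)
    (hZW : ∀ e, ∃ (j : J (exc I' a₀ hadm e)) (Q : Place k (Ft (w (exc I' a₀ hadm e) j))),
      (⟨ze e, X.zW e⟩ : Σ v, Place k (Ft v)) = ⟨w (exc I' a₀ hadm e) j, Q⟩ ∧
      Q.restrictAlong (ψ (exc I' a₀ hadm e) j) (hψ (exc I' a₀ hadm e) j) = placeAt k 0 ∧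
      Q.ramificationIndexAlong (ψ (exc I' a₀ hadm e) j) = q)
    (hexhZero : ∀ e (j : J (exc I' a₀ hadm e)) (Q : Place k (Ft (w (exc I' a₀ hadm e) j))),
      Q.restrictAlong (ψ (exc I' a₀ hadm e) j) (hψ (exc I' a₀ hadm e) j) = placeAt k 0 →
      (⟨w (exc I' a₀ hadm e) j, Q⟩ : Σ v, Place k (Ft v)) = ⟨ze e, X.zW e⟩)
    -- the component `vet`
    (jet : ∀ e, J (old I' a₀ hadm (S'.tgt e)))
    (hsubet : ∀ e (j : J (old I' a₀ hadm (S'.tgt e))), j = jet e)
    (hZero : ∀ e, ∃ Q : Place k (Ft (w (old I' a₀ hadm (S'.tgt e)) (jet e))),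
      (⟨cZero, X.pZero e⟩ : Σ v, Place k (Ft v)) = ⟨w (old I' a₀ hadm (S'.tgt e)) (jet e), Q⟩ ∧
      Q.restrictAlong (ψ (old I' a₀ hadm (S'.tgt e)) (jet e))
        (hψ (old I' a₀ hadm (S'.tgt e)) (jet e)) = S'.s₂ e)
    (hpow : ∀ e (g : Ft (w (old I' a₀ hadm (S'.tgt e)) (jet e))),
      ψ (old I' a₀ hadm (S'.tgt e)) (jet e)
        (normAlong (ψ (old I' a₀ hadm (S'.tgt e)) (jet e)) g) = g ^ q) :
    ∀ (m : ℕ) (z : Pic0 K F) (D : Divisor.degZero (K := K) (F := F)) (f : F)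
      (u : ∀ v, Ft v), IsGood X.toInput.setup (lam ^ m) z D f u →
      PicFunct.pic0Push φ hφ hfin hN z = 0 →
      ∀ (av bv : Node SSp KP → k) (ha0 : ∀ e, av e ≠ 0) (hb0 : ∀ e, bv e ≠ 0),
      (∀ e, IsValueAt (X.toInput.setup.s₁ e) (u (X.toInput.setup.src e)) (av e)) →
      (∀ e, IsValueAt (X.toInput.setup.s₂ e) (u (X.toInput.setup.tgt e)) (bv e)) →
      ∃ κ₀ : ι' ⊕ (oneLevel I' a₀ hadm).X → k, (∀ v, κ₀ v ≠ 0) ∧
        (∀ e, valH hor av bv (nW e) ^ q * κ₀ (exc I' a₀ hadm e) =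
          valV hor av bv (nW e) ^ q * κ₀ (old I' a₀ hadm vet)) ∧
        ∀ e, (valH hor av bv (nT e) * ∏ s, valH hor av bv (nk e s) ^ d) *
            κ₀ (exc I' a₀ hadm e) =
          (valV hor av bv (nT e) * ∏ s, valV hor av bv (nk e s) ^ d) *
            κ₀ (old I' a₀ hadm vcan) := by
  refine hpa_of_normFibre I' a₀ hadm X hF₀ hFt' φ hφ hfin hN hNR v₀ hsm lam hlam q d vcan vet
    hsrc htgt (fun e => ?_) (fun e => ?_) (fun e => ?_) (fun e => ?_)
  · exact normFibre_outer_hor I' a₀ hadm X hFt' hFt hψ hfinψ q d e (hFIcan e) (hwcan e) (hInf e)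
      (hMid e) (hexhCan e)
  · exact normFibre_outer_ver I' a₀ hadm X hFt' hFt hψ hfinψ q d e (hFIexc e) (hwexc e) (hZT e)
      (hZK e) (hexhInf e)
  · obtain ⟨Q, hbr, hQ⟩ := hZero e
    exact normFibre_inner_hor I' a₀ hadm X hψ q d e (jet e) (hsubet e) Q hbr hQ (hpow e)
  · exact normFibre_inner_ver I' a₀ hadm X hFt' hFt hψ hfinψ q d e (hFIexc e) (hwexc e) (hZW e)
      (hexhZero e)

/-! ### `hsm` from the fibres over the nodes of `S'ref` -/

open Fermat.Agent.BR3.SDD.Partition Fermat.Agent.BR3.SDD.NodeFibres in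
/-- **The hypothesis `hsm`** from the node half of (W4): the points of `S''` over the source
branches of the outer and inner nodes of `S'ref` (`NodeFibres.fibreOver_outer_along`,
`fibreOver_inner_along` with `S₀ := sref I' a₀ hadm`, `n := outer e` resp. `inner e`). -/
theorem hsm_of_fibreOver (φ : F₀ →ₐ[K] F) (hφ : φ.toRingHom.IsIntegral)
    (hOut : ∀ e, FibreOver (sref I' a₀ hadm) (fun P => P.restrictAlong φ hφ)
      (tubeOf X.TH X.TM X.TZ)
      ⟨(sref I' a₀ hadm).src (outer I' a₀ hadm e), (sref I' a₀ hadm).s₁ (outer I' a₀ hadm e)⟩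
      (outerFib X.comp X.pInf X.pMid e : Set (Σ v, Place k (Ft v))))
    (hInn : ∀ e, FibreOver (sref I' a₀ hadm) (fun P => P.restrictAlong φ hφ)
      (tubeOf X.TH X.TM X.TZ)
      ⟨(sref I' a₀ hadm).src (inner I' a₀ hadm e), (sref I' a₀ hadm).s₁ (inner I' a₀ hadm e)⟩
      (innerFib X.zW e : Set (Σ v, Place k (Ft v))))
    (P : Place K F) (hP : X.toInput.setup.IsSmoothPlace P) :
    (sref I' a₀ hadm).IsSmoothPlace (P.restrictAlong φ hφ) := by
  rintro ⟨n, hn | hn⟩
  · -- a source branch: `P` lies in the tube of a node of `S''`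
    have key : ∀ x : Σ v, Place k (Ft v), X.toInput.setup.IsBranch x →
        P ∈ tubeOf X.TH X.TM X.TZ x → False := fun x hx hPx =>
      hP (by rw [(X.toInput.setup_r_eq_iff (P := P) (y := x)).mpr hPx]; exact hx)
    rcases SRef.node_cases I' a₀ hadm n with ⟨e, rfl⟩ | ⟨e, rfl⟩
    · obtain ⟨x, hx, hPx⟩ := (hOut e).exh P hn
      rcases (mem_outerFib X.comp X.pInf X.pMid).mp (Finset.mem_coe.mp hx) with rfl | ⟨s, rfl⟩
      · exact key _ ⟨nT e, Or.inl rfl⟩ hPx
      · exact key _ ⟨nk e s, Or.inl rfl⟩ hPx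
    · obtain ⟨x, hx, hPx⟩ := (hInn e).exh P hn
      rw [(mem_innerFib X.zW).mp (Finset.mem_coe.mp hx)] at hPx
      exact key _ ⟨nW e, Or.inl rfl⟩ hPx
  · exact (sref I' a₀ hadm).r_ne_tgt _ n hn

end Main

end Fermat.Agent.BR3.PushMod
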