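import Mathlib
import Fermat.Agent.BR3.PushMod

/-!
# Program C (S36), node (G6-PUSH-MOD), b-half: the push-forward relations `hpb` of
`GeoTorFinal.hcoch_of_rel` for the stable model `S''` over a one-level refinement `S'ref_b`

Twin of `BR3/PushMod.lean` along `b` (`φ = heckeBetaBar = beta2`, `S₀ := SRef.sref I' a₀ hadm` with
the gauges of `S'ref_b`; in Program C `S₀ = SDD.Modular.SB`).  The crossing `e` of `S''` lies over
the crossing `φe e` of `S'` (`φe : SSp ≃ SSp`, the Frobenius twist of the supersingular points).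
The roles of `nW`, `nT` are exchanged:

* over the OUTER node of `φe e` (`'can' → E^b`) lies the single node `nT e`, of weight `q`
  (horizontal branch: `cInf` is purely inseparable over `'can'` along `b`, power map; vertical
  branch: `zT e` is the only point of `ze e` over `X = ∞`, ramification index `q`);
* over the INNER node of `φe e` (`E^b → 'et'`) lie `nW e` (weight `1`) and the Kummer nodes
  `nk e s` (weight `d`).

* `wtB q d`, `TOutB e`, `TInnB e`;
* **`hpb_of_normFibre`** : `hpb` of `GeoTorFinal.hcoch_of_rel` VERBATIM (with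
  `b := PicFunct.pic0Push φ hφ hfin hN`, `ιb := ι' ⊕ levels`, `vWb := old vcan`, `vTb := old vet`,
  `vEb e' := exc e'`, `φ := φe`) from the four families of weighted product formulas;
* `normFibre_can_pow`, `normFibre_infty_single`, `normFibre_et_enum`, `normFibre_zero_enum` : the
  four producers (power map resp. SIGMA-EQUALITIES + RAMIFICATION INDICES + exhaustion);
* **`hpb_of_enum`** : the composition;
* `hsm_of_exh` : the hypothesis `hsm` from the exhaustion of the tubes of the nodes of the base by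
  tubes of branch points of `S''` (both sides).
-/

set_option autoImplicit false
set_option linter.unusedVariables false
set_option linter.unusedSectionVars false
set_option linter.style.haveILetI false

noncomputable section

namespace Fermat.Agent.BR3.PushModB

open AlgebraicCurve IsLocalRing Fermat.Agent.Red Fermat.Agent.BR.SS Fermat.Agent.Jac
  Fermat.Agent.BR Fermat.Agent.BR2.Filt Fermat.Agent.BR2.G5 Fermat.Agent.BR3.FiltMaps
  Fermat.Agent.X0 Fermat.Agent.BR3.G5Multi Fermat.Agent.BR3.TorGlue Fermat.Agent.BR3.GeoTor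
  Fermat.Agent.BR3.GeoTorPush Fermat.Agent.BR3.PushGlue Fermat.Agent.BR3.PushShapes
  Fermat.Agent.BR.P1 Fermat.Agent.BR.Refine Fermat.Agent.BR.Circle Fermat.Agent.BR3.CircleN
  Fermat.Agent.BR3.PushMod

/-! ### the nodes of `S''` over the nodes of `S'ref_b` along `b`, and their weights -/

section Combinatorics

open Fermat.Agent.BR3.SDD

variable {SSp KP : Type} [Fintype KP]

/-- the weights along `b`: `nT e ↦ q`, `nW e ↦ 1`, `nk e s ↦ d` -/
def wtB (q d : ℕ) : Node SSp KP → ℕ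
  | (_, Sum.inl true) => 1
  | (_, Sum.inl false) => q
  | (_, Sum.inr _) => d

@[simp] theorem wtB_nW (q d : ℕ) (e : SSp) : wtB (KP := KP) q d (nW e) = 1 := rfl

@[simp] theorem wtB_nT (q d : ℕ) (e : SSp) : wtB (KP := KP) q d (nT e) = q := rfl

@[simp] theorem wtB_nk (q d : ℕ) (e : SSp) (s : KP) : wtB q d (nk e s) = d := rfl

/-- the node of `S''` over the outer node of `φe e` along `b` -/
def TOutB (e : SSp) : Finset (Node SSp KP) := {nT e}

open Classical in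
/-- the nodes of `S''` over the inner node of `φe e` along `b` -/
def TInnB (e : SSp) : Finset (Node SSp KP) := insert (nW e) (Finset.univ.image (nk e))

theorem mem_TOutB {e : SSp} {n : Node SSp KP} : n ∈ TOutB e ↔ n = nT e := by
  rw [TOutB, Finset.mem_singleton]

theorem mem_TInnB {e : SSp} {n : Node SSp KP} : n ∈ TInnB e ↔ n = nW e ∨ ∃ s, n = nk e s := by
  classical
  rw [TInnB, Finset.mem_insert, Finset.mem_image]
  constructor
  · rintro (h | ⟨s, -, hs⟩)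
    · exact Or.inl h
    · exact Or.inr ⟨s, hs.symm⟩
  · rintro (h | ⟨s, hs⟩)
    · exact Or.inl h
    · exact Or.inr ⟨s, Finset.mem_univ s, hs.symm⟩

/-- the nodes of `S''` over a node of `S'ref_b` along `b` -/
def TB {X' : Type*} (fst : X' → SSp) (φe : SSp ≃ SSp) : SSp ⊕ X' → Finset (Node SSp KP)
  | Sum.inl e' => TOutB (φe.symm e')
  | Sum.inr x => TInnB (φe.symm (fst x))

end Combinatorics

/-! ### `hpb` from the four families of weighted product formulas -/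

section Main

open Fermat.Agent.BR3.SRef Fermat.Agent.BR3.SDD

variable {K : Type} {F₀ F : Type*} [Field K] [Field F₀] [Algebra K F₀] [Field F] [Algebra K F]
  {A : ValuationSubring K} [IsAlgClosed (ResidueField A)]
  {ι' : Type} {Ft' : ι' → Type} [∀ v, Field (Ft' v)] [∀ v, Algebra (ResidueField A) (Ft' v)]
  {SSp : Type}
  {S' : SemistableSetup (F := F₀) A (residue A) ι' Ft' SSp}
  (I' : CircleInputsN S') (a₀ : SSp → K) (hadm : ∀ e, I'.adm e (a₀ e))
  {Mid KP : Type} [Fintype KP] {Ft : Comp Mid SSp → Type}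
  [∀ v, Field (Ft v)] [∀ v, Algebra (ResidueField A) (Ft v)]
  (X : CaseInput (F := F) A Mid SSp KP Ft)
  {J : ι' ⊕ (oneLevel I' a₀ hadm).X → Type*} [∀ v, Fintype (J v)]
  {w : ∀ v, J v → Comp Mid SSp}
  {ψ : ∀ v (j : J v), FtR Ft' A (oneLevel I' a₀ hadm).X v →ₐ[ResidueField A] Ft (w v j)}

local notation "k" => ResidueField A

/-- **(G6-PUSH-MOD), b-half, core.**  The hypothesis `hpb` of `GeoTorFinal.hcoch_of_rel`,
VERBATIM, for `S := X.toInput.setup` over `S₀ := sref I' a₀ hadm` along `φ`, the crossing `e` of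
`S''` lying over the crossing `φe e` of `S'`. -/
theorem hpb_of_normFibre [HasPrincipalDivisors K F₀] [HasPrincipalDivisors K F]
    (hF₀ : RiemannPkg K F₀) (hFt' : ∀ v, RiemannPkg k (Ft' v))
    (φ : F₀ →ₐ[K] F) (hφ : φ.toRingHom.IsIntegral) (hfin : FiniteAlong K φ)
    (hN : NormFormulaAlong K φ hfin)
    (hNR : ∀ v, NormRes (sref I' a₀ hadm) X.toInput.setup φ v (w v) (ψ v))
    (v₀ : ι' ⊕ (oneLevel I' a₀ hadm).X)
    (hsm : ∀ P : Place K F, X.toInput.setup.IsSmoothPlace P →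
      (sref I' a₀ hadm).IsSmoothPlace (P.restrictAlong φ hφ))
    (lam : ℕ) (hlam : lam ≠ 0) (q d : ℕ) (φe : SSp ≃ SSp)
    (vcan vet : ι') (hsrc : ∀ e, S'.src e = vcan) (htgt : ∀ e, S'.tgt e = vet)
    (hHout : ∀ e, NormFibre w ψ
      (⟨old I' a₀ hadm (S'.src (φe e)), S'.s₁ (φe e)⟩ : (oneLevel I' a₀ hadm).PtR) (TOutB e)
      (horBranch X.toInput.setup hor) (wtB q d))
    (hVout : ∀ e, NormFibre w ψ
      (⟨exc I' a₀ hadm (φe e), placeInfty k⟩ : (oneLevel I' a₀ hadm).PtR) (TOutB e)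
      (verBranch X.toInput.setup hor) (wtB q d))
    (hHinn : ∀ e, NormFibre w ψ
      (⟨old I' a₀ hadm (S'.tgt (φe e)), S'.s₂ (φe e)⟩ : (oneLevel I' a₀ hadm).PtR) (TInnB e)
      (horBranch X.toInput.setup hor) (wtB q d))
    (hVinn : ∀ e, NormFibre w ψ
      (⟨exc I' a₀ hadm (φe e), placeAt k 0⟩ : (oneLevel I' a₀ hadm).PtR) (TInnB e)
      (verBranch X.toInput.setup hor) (wtB q d)) :
    ∀ (m : ℕ) (z : Pic0 K F) (D : Divisor.degZero (K := K) (F := F)) (f : F)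
      (u : ∀ v, Ft v), IsGood X.toInput.setup (lam ^ m) z D f u →
      PicFunct.pic0Push φ hφ hfin hN z = 0 →
      ∀ (av bv : Node SSp KP → k) (ha0 : ∀ e, av e ≠ 0) (hb0 : ∀ e, bv e ≠ 0),
      (∀ e, IsValueAt (X.toInput.setup.s₁ e) (u (X.toInput.setup.src e)) (av e)) →
      (∀ e, IsValueAt (X.toInput.setup.s₂ e) (u (X.toInput.setup.tgt e)) (bv e)) →
      ∃ κ₀ : ι' ⊕ (oneLevel I' a₀ hadm).X → k, (∀ v, κ₀ v ≠ 0) ∧
        (∀ e, valH hor av bv (nT e) ^ q * κ₀ (exc I' a₀ hadm (φe e)) =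
          valV hor av bv (nT e) ^ q * κ₀ (old I' a₀ hadm vcan)) ∧
        ∀ e, (valH hor av bv (nW e) * ∏ s, valH hor av bv (nk e s) ^ d) *
            κ₀ (exc I' a₀ hadm (φe e)) =
          (valV hor av bv (nW e) * ∏ s, valV hor av bv (nk e s) ^ d) *
            κ₀ (old I' a₀ hadm vet) := by
  intro m z D f u hG h0 av bv ha0 hb0 ha hb
  refine push_relations (S₀ := sref I' a₀ hadm) (S := X.toInput.setup) (w := w) (ψ := ψ) hF₀
    (riemannPkg_sref I' a₀ hadm hFt') φ hφ hfin hN hNR v₀ (pow_ne_zero m hlam) hG h0 hsm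
    horRef hor (TB (KP := KP) (fun x : (oneLevel I' a₀ hadm).X => x.1) φe) (wtB q d) ?_ ?_
    av bv ha0 hb0 ha hb nT nW nk q d (fun e => outer I' a₀ hadm (φe e))
    (fun e => inner I' a₀ hadm (φe e))
    (old I' a₀ hadm vcan) (old I' a₀ hadm vet) (fun e => exc I' a₀ hadm (φe e))
    (fun e n => ?_) (fun e n => ?_) PushMod.nk_injective PushMod.nW_ne_nk (fun e => rfl)
    (fun e => rfl) (fun e s => rfl) ?_ ?_ ?_ ?_
  · -- `hH`
    rintro (e' | x)
    · obtain ⟨e, rfl⟩ := φe.surjective e'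
      show NormFibre w ψ (horBranch (sref I' a₀ hadm) horRef (outer I' a₀ hadm (φe e)))
        (TOutB (φe.symm (φe e))) _ _
      rw [horBranch_outer, Equiv.symm_apply_apply]
      exact hHout e
    · obtain ⟨e', rfl⟩ : ∃ e', x = lvl I' a₀ hadm e' := ⟨x.1, eq_lvl I' a₀ hadm x⟩
      obtain ⟨e, rfl⟩ := φe.surjective e'
      show NormFibre w ψ (horBranch (sref I' a₀ hadm) horRef (inner I' a₀ hadm (φe e)))
        (TInnB (φe.symm (φe e))) _ _
      rw [horBranch_inner, Equiv.symm_apply_apply]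
      exact hHinn e
  · -- `hV`
    rintro (e' | x)
    · obtain ⟨e, rfl⟩ := φe.surjective e'
      show NormFibre w ψ (verBranch (sref I' a₀ hadm) horRef (outer I' a₀ hadm (φe e)))
        (TOutB (φe.symm (φe e))) _ _
      rw [verBranch_outer, Equiv.symm_apply_apply]
      exact hVout e
    · obtain ⟨e', rfl⟩ : ∃ e', x = lvl I' a₀ hadm e' := ⟨x.1, eq_lvl I' a₀ hadm x⟩
      obtain ⟨e, rfl⟩ := φe.surjective e'
      show NormFibre w ψ (verBranch (sref I' a₀ hadm) horRef (inner I' a₀ hadm (φe e)))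
        (TInnB (φe.symm (φe e))) _ _
      rw [verBranch_inner, Equiv.symm_apply_apply]
      exact hVinn e
  · show n ∈ TOutB (φe.symm (φe e)) ↔ n = nT e
    rw [Equiv.symm_apply_apply]
    exact mem_TOutB
  · show n ∈ TInnB (φe.symm (φe e)) ↔ n = nW e ∨ ∃ s, n = nk e s
    rw [Equiv.symm_apply_apply]
    exact mem_TInnB
  · intro e
    rw [horEnd_outer, hsrc]
  · intro e
    exact verEnd_outer I' a₀ hadm (φe e)
  · intro e
    rw [horEnd_inner, htgt]
  · intro e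
    exact verEnd_inner I' a₀ hadm (φe e)

/-! ### the four producers of the weighted product formulas along `b` -/

section Producers

variable [∀ w', HasPrincipalDivisors (ResidueField A) (Ft w')]
  (hFt' : ∀ v, RiemannPkg (ResidueField A) (Ft' v))
  (hFt : ∀ w', RiemannPkg (ResidueField A) (Ft w'))
  (hψ : ∀ v j, (ψ v j).toRingHom.IsIntegral)
  (hfinψ : ∀ v j, FiniteAlong (ResidueField A) (ψ v j))

/-- **The product formula at the horizontal branch of the outer node along `b`**, from a power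
map: ONE component (`cInf`) over the component `src e'` of `S'`, with `ψ (N g) = g ^ q` (purely
inseparable residue extension of degree `q`); `pInf e` lies over the branch `s₁ e'`. -/
theorem normFibre_can_pow (q d : ℕ) (e' e : SSp)
    (j₀ : J (old I' a₀ hadm (S'.src e'))) (hsub : ∀ j : J (old I' a₀ hadm (S'.src e')), j = j₀)
    (Q : Place k (Ft (w (old I' a₀ hadm (S'.src e')) j₀)))
    (hbr : (⟨cInf, X.pInf e⟩ : Σ v, Place k (Ft v)) = ⟨w (old I' a₀ hadm (S'.src e')) j₀, Q⟩)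
    (hQ : Q.restrictAlong (ψ (old I' a₀ hadm (S'.src e')) j₀)
      (hψ (old I' a₀ hadm (S'.src e')) j₀) = S'.s₁ e')
    (hpow : ∀ g : Ft (w (old I' a₀ hadm (S'.src e')) j₀),
      ψ (old I' a₀ hadm (S'.src e')) j₀ (normAlong (ψ (old I' a₀ hadm (S'.src e')) j₀) g) =
        g ^ q) :
    NormFibre w ψ (⟨old I' a₀ hadm (S'.src e'), S'.s₁ e'⟩ : (oneLevel I' a₀ hadm).PtR) (TOutB e)
      (horBranch X.toInput.setup hor) (wtB q d) :=
  normFibre_of_pow hψ (⟨old I' a₀ hadm (S'.src e'), S'.s₁ e'⟩ : (oneLevel I' a₀ hadm).PtR) j₀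
    hsub (nT e) (horBranch X.toInput.setup hor) (wtB q d) Q hbr hQ hpow

include hFt' hFt hfinψ in
/-- **The product formula at the vertical branch of the outer node along `b`**: over the point
`X = ∞` of the exceptional component of `e'` lies only the point `zT e` of `ze e` (ramification
index `q`). -/
theorem normFibre_infty_single (q d : ℕ) (e' e : SSp)
    (hFI : ∀ j, FundamentalIdentityAlong k (ψ (exc I' a₀ hadm e') j) (hψ (exc I' a₀ hadm e') j))
    (hwinj : Function.Injective (w (exc I' a₀ hadm e')))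
    (hZT : ∃ (j : J (exc I' a₀ hadm e')) (Q : Place k (Ft (w (exc I' a₀ hadm e') j))),
      (⟨ze e, X.zT e⟩ : Σ v, Place k (Ft v)) = ⟨w (exc I' a₀ hadm e') j, Q⟩ ∧
      Q.restrictAlong (ψ (exc I' a₀ hadm e') j) (hψ (exc I' a₀ hadm e') j) = placeInfty k ∧
      Q.ramificationIndexAlong (ψ (exc I' a₀ hadm e') j) = q)
    (hexh : ∀ (j : J (exc I' a₀ hadm e')) (Q : Place k (Ft (w (exc I' a₀ hadm e') j))),
      Q.restrictAlong (ψ (exc I' a₀ hadm e') j) (hψ (exc I' a₀ hadm e') j) = placeInfty k →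
      (⟨w (exc I' a₀ hadm e') j, Q⟩ : Σ v, Place k (Ft v)) = ⟨ze e, X.zT e⟩) :
    NormFibre w ψ (⟨exc I' a₀ hadm e', placeInfty k⟩ : (oneLevel I' a₀ hadm).PtR) (TOutB e)
      (verBranch X.toInput.setup hor) (wtB q d) := by
  refine normFibre_of_enum (riemannPkg_sref I' a₀ hadm hFt') hFt hψ hfinψ
    (⟨exc I' a₀ hadm e', placeInfty k⟩ : (oneLevel I' a₀ hadm).PtR) hFI hwinj (TOutB e) _ _
    ((verBranch_injective X.toInput.setup hor).injOn) ?_ ?_
  · intro n hn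
    rw [mem_TOutB.mp hn]
    obtain ⟨j, Q, h1, h2, h3⟩ := hZT
    exact ⟨j, Q, h1, h2, h3⟩
  · intro j Q hQ
    exact ⟨nT e, mem_TOutB.mpr rfl, (hexh j Q hQ).symm⟩

include hFt' hFt hfinψ in
/-- **The product formula at the horizontal branch of the inner node along `b`**: over the branch
`s₂ e'` of the component `tgt e'` of `S'` lie the point `pZero e` of `cZero` (ramification index
`1`) and the Kummer points `pMid e s` (ramification index `d`). -/
theorem normFibre_et_enum (q d : ℕ) (e' e : SSp)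
    (hFI : ∀ j, FundamentalIdentityAlong k (ψ (old I' a₀ hadm (S'.tgt e')) j)
      (hψ (old I' a₀ hadm (S'.tgt e')) j))
    (hwinj : Function.Injective (w (old I' a₀ hadm (S'.tgt e'))))
    (hZero : ∃ (j : J (old I' a₀ hadm (S'.tgt e')))
      (Q : Place k (Ft (w (old I' a₀ hadm (S'.tgt e')) j))),
      (⟨cZero, X.pZero e⟩ : Σ v, Place k (Ft v)) = ⟨w (old I' a₀ hadm (S'.tgt e')) j, Q⟩ ∧
      Q.restrictAlong (ψ (old I' a₀ hadm (S'.tgt e')) j) (hψ (old I' a₀ hadm (S'.tgt e')) j) =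
        S'.s₂ e' ∧
      Q.ramificationIndexAlong (ψ (old I' a₀ hadm (S'.tgt e')) j) = 1)
    (hMid : ∀ s, ∃ (j : J (old I' a₀ hadm (S'.tgt e')))
      (Q : Place k (Ft (w (old I' a₀ hadm (S'.tgt e')) j))),
      (⟨mid (X.comp e s), X.pMid e s⟩ : Σ v, Place k (Ft v)) =
        ⟨w (old I' a₀ hadm (S'.tgt e')) j, Q⟩ ∧
      Q.restrictAlong (ψ (old I' a₀ hadm (S'.tgt e')) j) (hψ (old I' a₀ hadm (S'.tgt e')) j) =
        S'.s₂ e' ∧
      Q.ramificationIndexAlong (ψ (old I' a₀ hadm (S'.tgt e')) j) = d)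
    (hexh : ∀ (j : J (old I' a₀ hadm (S'.tgt e')))
      (Q : Place k (Ft (w (old I' a₀ hadm (S'.tgt e')) j))),
      Q.restrictAlong (ψ (old I' a₀ hadm (S'.tgt e')) j) (hψ (old I' a₀ hadm (S'.tgt e')) j) =
        S'.s₂ e' →
      (⟨w (old I' a₀ hadm (S'.tgt e')) j, Q⟩ : Σ v, Place k (Ft v)) = ⟨cZero, X.pZero e⟩ ∨
        ∃ s, (⟨w (old I' a₀ hadm (S'.tgt e')) j, Q⟩ : Σ v, Place k (Ft v)) =
          ⟨mid (X.comp e s), X.pMid e s⟩) :
    NormFibre w ψ (⟨old I' a₀ hadm (S'.tgt e'), S'.s₂ e'⟩ : (oneLevel I' a₀ hadm).PtR) (TInnB e)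
      (horBranch X.toInput.setup hor) (wtB q d) := by
  refine normFibre_of_enum (riemannPkg_sref I' a₀ hadm hFt') hFt hψ hfinψ
    (⟨old I' a₀ hadm (S'.tgt e'), S'.s₂ e'⟩ : (oneLevel I' a₀ hadm).PtR) hFI hwinj (TInnB e) _ _
    ((horBranch_injective X.toInput.setup hor).injOn) ?_ ?_
  · intro n hn
    rcases mem_TInnB.mp hn with rfl | ⟨s, rfl⟩
    · obtain ⟨j, Q, h1, h2, h3⟩ := hZero
      exact ⟨j, Q, h1, h2, h3⟩
    · obtain ⟨j, Q, h1, h2, h3⟩ := hMid s
      exact ⟨j, Q, h1, h2, h3⟩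
  · intro j Q hQ
    rcases hexh j Q hQ with h | ⟨s, h⟩
    · exact ⟨nW e, mem_TInnB.mpr (Or.inl rfl), h.symm⟩
    · exact ⟨nk e s, mem_TInnB.mpr (Or.inr ⟨s, rfl⟩), h.symm⟩

include hFt' hFt hfinψ in
/-- **The product formula at the vertical branch of the inner node along `b`**: over the point
`X = 0` of the exceptional component of `e'` lie the point `zW e` of `ze e` (ramification index
`1`) and the points `zK e s` (ramification index `d`). -/
theorem normFibre_zero_enum (q d : ℕ) (e' e : SSp)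
    (hFI : ∀ j, FundamentalIdentityAlong k (ψ (exc I' a₀ hadm e') j) (hψ (exc I' a₀ hadm e') j))
    (hwinj : Function.Injective (w (exc I' a₀ hadm e')))
    (hZW : ∃ (j : J (exc I' a₀ hadm e')) (Q : Place k (Ft (w (exc I' a₀ hadm e') j))),
      (⟨ze e, X.zW e⟩ : Σ v, Place k (Ft v)) = ⟨w (exc I' a₀ hadm e') j, Q⟩ ∧
      Q.restrictAlong (ψ (exc I' a₀ hadm e') j) (hψ (exc I' a₀ hadm e') j) = placeAt k 0 ∧
      Q.ramificationIndexAlong (ψ (exc I' a₀ hadm e') j) = 1)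
    (hZK : ∀ s, ∃ (j : J (exc I' a₀ hadm e')) (Q : Place k (Ft (w (exc I' a₀ hadm e') j))),
      (⟨ze e, X.zK e s⟩ : Σ v, Place k (Ft v)) = ⟨w (exc I' a₀ hadm e') j, Q⟩ ∧
      Q.restrictAlong (ψ (exc I' a₀ hadm e') j) (hψ (exc I' a₀ hadm e') j) = placeAt k 0 ∧
      Q.ramificationIndexAlong (ψ (exc I' a₀ hadm e') j) = d)
    (hexh : ∀ (j : J (exc I' a₀ hadm e')) (Q : Place k (Ft (w (exc I' a₀ hadm e') j))),
      Q.restrictAlong (ψ (exc I' a₀ hadm e') j) (hψ (exc I' a₀ hadm e') j) = placeAt k 0 →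
      (⟨w (exc I' a₀ hadm e') j, Q⟩ : Σ v, Place k (Ft v)) = ⟨ze e, X.zW e⟩ ∨
        ∃ s, (⟨w (exc I' a₀ hadm e') j, Q⟩ : Σ v, Place k (Ft v)) = ⟨ze e, X.zK e s⟩) :
    NormFibre w ψ (⟨exc I' a₀ hadm e', placeAt k 0⟩ : (oneLevel I' a₀ hadm).PtR) (TInnB e)
      (verBranch X.toInput.setup hor) (wtB q d) := by
  refine normFibre_of_enum (riemannPkg_sref I' a₀ hadm hFt') hFt hψ hfinψ
    (⟨exc I' a₀ hadm e', placeAt k 0⟩ : (oneLevel I' a₀ hadm).PtR) hFI hwinj (TInnB e) _ _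
    ((verBranch_injective X.toInput.setup hor).injOn) ?_ ?_
  · intro n hn
    rcases mem_TInnB.mp hn with rfl | ⟨s, rfl⟩
    · obtain ⟨j, Q, h1, h2, h3⟩ := hZW
      exact ⟨j, Q, h1, h2, h3⟩
    · obtain ⟨j, Q, h1, h2, h3⟩ := hZK s
      exact ⟨j, Q, h1, h2, h3⟩
  · intro j Q hQ
    rcases hexh j Q hQ with h | ⟨s, h⟩
    · exact ⟨nW e, mem_TInnB.mpr (Or.inl rfl), h.symm⟩
    · exact ⟨nk e s, mem_TInnB.mpr (Or.inr ⟨s, rfl⟩), h.symm⟩

end Producers

/-! ### the composition -/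

/-- **(G6-PUSH-MOD), b-half, enumeration form.**  `hpb` of `GeoTorFinal.hcoch_of_rel`, VERBATIM,
from the residue norm data, `hsm` and, kind by kind (the crossing `e` of `S''` over the crossing
`φe e` of `S'`):

* over the branch `s₁ (φe e)` of `src (φe e) = vcan`: `pInf e`, the only component `cInf` above
  being purely inseparable of degree `q` (`hpow`);
* over `X = ∞` of the exceptional component of `φe e`: `zT e` only (index `q`);
* over `X = 0`: `zW e` (index `1`), `zK e s` (index `d`);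
* over the branch `s₂ (φe e)` of `tgt (φe e) = vet`: `pZero e` (index `1`), `pMid e s`
  (index `d`). -/
theorem hpb_of_enum [HasPrincipalDivisors K F₀] [HasPrincipalDivisors K F]
    [∀ w', HasPrincipalDivisors k (Ft w')]
    (hF₀ : RiemannPkg K F₀) (hFt' : ∀ v, RiemannPkg k (Ft' v)) (hFt : ∀ w', RiemannPkg k (Ft w'))
    (φ : F₀ →ₐ[K] F) (hφ : φ.toRingHom.IsIntegral) (hfin : FiniteAlong K φ)
    (hN : NormFormulaAlong K φ hfin)
    (hNR : ∀ v, NormRes (sref I' a₀ hadm) X.toInput.setup φ v (w v) (ψ v))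
    (hψ : ∀ v j, (ψ v j).toRingHom.IsIntegral) (hfinψ : ∀ v j, FiniteAlong k (ψ v j))
    (v₀ : ι' ⊕ (oneLevel I' a₀ hadm).X)
    (hsm : ∀ P : Place K F, X.toInput.setup.IsSmoothPlace P →
      (sref I' a₀ hadm).IsSmoothPlace (P.restrictAlong φ hφ))
    (lam : ℕ) (hlam : lam ≠ 0) (q d : ℕ) (φe : SSp ≃ SSp)
    (vcan vet : ι') (hsrc : ∀ e, S'.src e = vcan) (htgt : ∀ e, S'.tgt e = vet)
    -- the component `vcan`
    (jcan : ∀ e, J (old I' a₀ hadm (S'.src (φe e))))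
    (hsubcan : ∀ e (j : J (old I' a₀ hadm (S'.src (φe e)))), j = jcan e)
    (hInf : ∀ e, ∃ Q : Place k (Ft (w (old I' a₀ hadm (S'.src (φe e))) (jcan e))),
      (⟨cInf, X.pInf e⟩ : Σ v, Place k (Ft v)) =
        ⟨w (old I' a₀ hadm (S'.src (φe e))) (jcan e), Q⟩ ∧
      Q.restrictAlong (ψ (old I' a₀ hadm (S'.src (φe e))) (jcan e))
        (hψ (old I' a₀ hadm (S'.src (φe e))) (jcan e)) = S'.s₁ (φe e))
    (hpow : ∀ e (g : Ft (w (old I' a₀ hadm (S'.src (φe e))) (jcan e))),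
      ψ (old I' a₀ hadm (S'.src (φe e))) (jcan e)
        (normAlong (ψ (old I' a₀ hadm (S'.src (φe e))) (jcan e)) g) = g ^ q)
    -- the exceptional components
    (hFIexc : ∀ e j, FundamentalIdentityAlong k (ψ (exc I' a₀ hadm (φe e)) j)
      (hψ (exc I' a₀ hadm (φe e)) j))
    (hwexc : ∀ e, Function.Injective (w (exc I' a₀ hadm (φe e))))
    (hZT : ∀ e, ∃ (j : J (exc I' a₀ hadm (φe e)))
      (Q : Place k (Ft (w (exc I' a₀ hadm (φe e)) j))),
      (⟨ze e, X.zT e⟩ : Σ v, Place k (Ft v)) = ⟨w (exc I' a₀ hadm (φe e)) j, Q⟩ ∧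
      Q.restrictAlong (ψ (exc I' a₀ hadm (φe e)) j) (hψ (exc I' a₀ hadm (φe e)) j) =
        placeInfty k ∧
      Q.ramificationIndexAlong (ψ (exc I' a₀ hadm (φe e)) j) = q)
    (hexhInf : ∀ e (j : J (exc I' a₀ hadm (φe e)))
      (Q : Place k (Ft (w (exc I' a₀ hadm (φe e)) j))),
      Q.restrictAlong (ψ (exc I' a₀ hadm (φe e)) j) (hψ (exc I' a₀ hadm (φe e)) j) =
        placeInfty k →
      (⟨w (exc I' a₀ hadm (φe e)) j, Q⟩ : Σ v, Place k (Ft v)) = ⟨ze e, X.zT e⟩)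
    (hZW : ∀ e, ∃ (j : J (exc I' a₀ hadm (φe e)))
      (Q : Place k (Ft (w (exc I' a₀ hadm (φe e)) j))),
      (⟨ze e, X.zW e⟩ : Σ v, Place k (Ft v)) = ⟨w (exc I' a₀ hadm (φe e)) j, Q⟩ ∧
      Q.restrictAlong (ψ (exc I' a₀ hadm (φe e)) j) (hψ (exc I' a₀ hadm (φe e)) j) =
        placeAt k 0 ∧
      Q.ramificationIndexAlong (ψ (exc I' a₀ hadm (φe e)) j) = 1)
    (hZK : ∀ e s, ∃ (j : J (exc I' a₀ hadm (φe e)))
      (Q : Place k (Ft (w (exc I' a₀ hadm (φe e)) j))),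
      (⟨ze e, X.zK e s⟩ : Σ v, Place k (Ft v)) = ⟨w (exc I' a₀ hadm (φe e)) j, Q⟩ ∧
      Q.restrictAlong (ψ (exc I' a₀ hadm (φe e)) j) (hψ (exc I' a₀ hadm (φe e)) j) =
        placeAt k 0 ∧
      Q.ramificationIndexAlong (ψ (exc I' a₀ hadm (φe e)) j) = d)
    (hexhZero : ∀ e (j : J (exc I' a₀ hadm (φe e)))
      (Q : Place k (Ft (w (exc I' a₀ hadm (φe e)) j))),
      Q.restrictAlong (ψ (exc I' a₀ hadm (φe e)) j) (hψ (exc I' a₀ hadm (φe e)) j) =
        placeAt k 0 →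
      (⟨w (exc I' a₀ hadm (φe e)) j, Q⟩ : Σ v, Place k (Ft v)) = ⟨ze e, X.zW e⟩ ∨
        ∃ s, (⟨w (exc I' a₀ hadm (φe e)) j, Q⟩ : Σ v, Place k (Ft v)) = ⟨ze e, X.zK e s⟩)
    -- the component `vet`
    (hFIet : ∀ e j, FundamentalIdentityAlong k (ψ (old I' a₀ hadm (S'.tgt (φe e))) j)
      (hψ (old I' a₀ hadm (S'.tgt (φe e))) j))
    (hwet : ∀ e, Function.Injective (w (old I' a₀ hadm (S'.tgt (φe e)))))
    (hZero : ∀ e, ∃ (j : J (old I' a₀ hadm (S'.tgt (φe e))))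
      (Q : Place k (Ft (w (old I' a₀ hadm (S'.tgt (φe e))) j))),
      (⟨cZero, X.pZero e⟩ : Σ v, Place k (Ft v)) =
        ⟨w (old I' a₀ hadm (S'.tgt (φe e))) j, Q⟩ ∧
      Q.restrictAlong (ψ (old I' a₀ hadm (S'.tgt (φe e))) j)
        (hψ (old I' a₀ hadm (S'.tgt (φe e))) j) = S'.s₂ (φe e) ∧
      Q.ramificationIndexAlong (ψ (old I' a₀ hadm (S'.tgt (φe e))) j) = 1)
    (hMid : ∀ e s, ∃ (j : J (old I' a₀ hadm (S'.tgt (φe e))))
      (Q : Place k (Ft (w (old I' a₀ hadm (S'.tgt (φe e))) j))),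
      (⟨mid (X.comp e s), X.pMid e s⟩ : Σ v, Place k (Ft v)) =
        ⟨w (old I' a₀ hadm (S'.tgt (φe e))) j, Q⟩ ∧
      Q.restrictAlong (ψ (old I' a₀ hadm (S'.tgt (φe e))) j)
        (hψ (old I' a₀ hadm (S'.tgt (φe e))) j) = S'.s₂ (φe e) ∧
      Q.ramificationIndexAlong (ψ (old I' a₀ hadm (S'.tgt (φe e))) j) = d)
    (hexhEt : ∀ e (j : J (old I' a₀ hadm (S'.tgt (φe e))))
      (Q : Place k (Ft (w (old I' a₀ hadm (S'.tgt (φe e))) j))),
      Q.restrictAlong (ψ (old I' a₀ hadm (S'.tgt (φe e))) j)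
        (hψ (old I' a₀ hadm (S'.tgt (φe e))) j) = S'.s₂ (φe e) →
      (⟨w (old I' a₀ hadm (S'.tgt (φe e))) j, Q⟩ : Σ v, Place k (Ft v)) =
          ⟨cZero, X.pZero e⟩ ∨
        ∃ s, (⟨w (old I' a₀ hadm (S'.tgt (φe e))) j, Q⟩ : Σ v, Place k (Ft v)) =
          ⟨mid (X.comp e s), X.pMid e s⟩) :
    ∀ (m : ℕ) (z : Pic0 K F) (D : Divisor.degZero (K := K) (F := F)) (f : F)
      (u : ∀ v, Ft v), IsGood X.toInput.setup (lam ^ m) z D f u →
      PicFunct.pic0Push φ hφ hfin hN z = 0 →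
      ∀ (av bv : Node SSp KP → k) (ha0 : ∀ e, av e ≠ 0) (hb0 : ∀ e, bv e ≠ 0),
      (∀ e, IsValueAt (X.toInput.setup.s₁ e) (u (X.toInput.setup.src e)) (av e)) →
      (∀ e, IsValueAt (X.toInput.setup.s₂ e) (u (X.toInput.setup.tgt e)) (bv e)) →
      ∃ κ₀ : ι' ⊕ (oneLevel I' a₀ hadm).X → k, (∀ v, κ₀ v ≠ 0) ∧
        (∀ e, valH hor av bv (nT e) ^ q * κ₀ (exc I' a₀ hadm (φe e)) =
          valV hor av bv (nT e) ^ q * κ₀ (old I' a₀ hadm vcan)) ∧
        ∀ e, (valH hor av bv (nW e) * ∏ s, valH hor av bv (nk e s) ^ d) *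
            κ₀ (exc I' a₀ hadm (φe e)) =
          (valV hor av bv (nW e) * ∏ s, valV hor av bv (nk e s) ^ d) *
            κ₀ (old I' a₀ hadm vet) := by
  refine hpb_of_normFibre I' a₀ hadm X hF₀ hFt' φ hφ hfin hN hNR v₀ hsm lam hlam q d φe vcan vet
    hsrc htgt (fun e => ?_) (fun e => ?_) (fun e => ?_) (fun e => ?_)
  · obtain ⟨Q, hbr, hQ⟩ := hInf e
    exact normFibre_can_pow I' a₀ hadm X hψ q d (φe e) e (jcan e) (hsubcan e) Q hbr hQ (hpow e)
  · exact normFibre_infty_single I' a₀ hadm X hFt' hFt hψ hfinψ q d (φe e) e (hFIexc e)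
      (hwexc e) (hZT e) (hexhInf e)
  · exact normFibre_et_enum I' a₀ hadm X hFt' hFt hψ hfinψ q d (φe e) e (hFIet e) (hwet e)
      (hZero e) (hMid e) (hexhEt e)
  · exact normFibre_zero_enum I' a₀ hadm X hFt' hFt hψ hfinψ q d (φe e) e (hFIexc e) (hwexc e)
      (hZW e) (hZK e) (hexhZero e)

/-! ### `hsm` from the exhaustion of the tubes of the nodes of the base -/

/-- **The hypothesis `hsm`** (both sides): every place of `F` over the tube of a node of `S'ref`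
lies in the tube of a branch point of `S''`. -/
theorem hsm_of_exh (φ : F₀ →ₐ[K] F) (hφ : φ.toRingHom.IsIntegral)
    (hexh : ∀ (n : SSp ⊕ (oneLevel I' a₀ hadm).X) (P : Place K F),
      (sref I' a₀ hadm).r (P.restrictAlong φ hφ) =
        ⟨(sref I' a₀ hadm).src n, (sref I' a₀ hadm).s₁ n⟩ →
      ∃ x : Σ v, Place k (Ft v), X.toInput.setup.IsBranch x ∧ P ∈ tubeOf X.TH X.TM X.TZ x)
    (P : Place K F) (hP : X.toInput.setup.IsSmoothPlace P) :
    (sref I' a₀ hadm).IsSmoothPlace (P.restrictAlong φ hφ) := by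
  rintro ⟨n, hn | hn⟩
  · obtain ⟨x, hx, hPx⟩ := hexh n P hn
    exact hP (by rw [(X.toInput.setup_r_eq_iff (P := P) (y := x)).mpr hPx]; exact hx)
  · exact (sref I' a₀ hadm).r_ne_tgt _ n hn

end Main

end Fermat.Agent.BR3.PushModB
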