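import Mathlib
import Fermat.Agent.BR3.PushMod
import Fermat.Agent.BR3.PushModB
import Fermat.Agent.BR3.SRef.Modular

/-!
# Program C (S36), node (G6-PUSH-MOD), the residue norm data from the `Full` families

`Dt : ModularData M q B hB hqM`, `S' = setup Dt` (components `0 = 'can'`, `1 = 'et'`, nodes the
crossings), `S₀ = srefM Dt a₀ hadm` a one-level refinement (`S'ref_a` or `S'ref_b`),
`X : SDD.CaseInput B Mid (crossings) KP Ft` the named inputs of `S''`, `φ : Fb (M q) →ₐ Fb (M q²)`.

## Along `a` (`φ = α₂`)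

From the three `MultiVal.Full` families
* `Dcan` over `'can'` (components `cInf`, `mid i`, index type `Option Mid`: `FullA.fullCan` /
  `FullPlug.fullCanA`),
* `Det` over `'et'` (the single component `cZero`: `FullA.fullEt` / `FullPlug.fullEtA`),
* `Dexc x` over the exceptional component of the level `x` (the single component `ze x.1`),

the dependent family `JA`, `wA`, `kapA`, `fullA`, the residue extensions
`psiA v j = PushGlue.resHom _ _` and `normResA : ∀ v, NormRes S₀ S'' φ v (wA v) (psiA v)`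
(`PushGlue.normRes_of_full_resHom`), `isIntegral_psiA`, `finiteAlong_psiA`, and
**`hpa_of_fulls`** : `PushMod.hpa_of_enum` for this family (the injectivity hypotheses and the
uniqueness of the component over `'et'` discharged).

## Along `b` (`φ = β₂`)

The mirror (`Dcan` over `'can'` is the single component `cInf`, `Det` over `'et'` has the components
`cZero`, `mid i`, `Dexc x` over the exceptional component of the level `x` is `ze (φe.symm x.1)`)
is the file `BR3/PushModNRB.lean` (helper11); the index types `JB`, `wB`, `kapB` (with their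
`Fintype` instances) are provided here, in the section `Index`, for it.
-/

set_option autoImplicit false
set_option linter.unusedVariables false
set_option linter.unusedSectionVars false
set_option linter.style.haveILetI false
set_option synthInstance.maxHeartbeats 400000

noncomputable section

/- S36 build-time patch: file-local shortcut instances. They only shorten instance search;
each is the instance that the search finds anyway (reducible, same terms after unfolding). -/
local instance (priority := 100000) Fermat.Agent.BR3.FastInst.instAlgFullC_PushModFull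
    {k : Type*} [Field k] (N : ℕ) :
    Algebra k ↥(ModularCurve.modularFunctionFieldFullC k N) := inferInstance
local instance (priority := 100000) Fermat.Agent.BR3.FastInst.instFieldFullC_PushModFull
    {k : Type*} [Field k] (N : ℕ) :
    Field ↥(ModularCurve.modularFunctionFieldFullC k N) := inferInstance
local instance (priority := 100000) Fermat.Agent.BR3.FastInst.instAlgLaurent_PushModFull
    {k : Type*} [Field k] : Algebra k (LaurentSeries k) := inferInstance


namespace Fermat.Agent.BR3.PushModFull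

open ModularCurve AlgebraicCurve IsLocalRing
open Fermat.Agent.Red Fermat.Agent.Val Fermat.Agent.X0 Fermat.Agent.BR.SS Fermat.Agent.BR.Refine
open Fermat.Agent.BR.Circle Fermat.Agent.BR.S0 Fermat.Agent.BR.P1
open Fermat.Agent.BR.S0.PointDict Fermat.Agent.BR.S0.RedModular Fermat.Agent.BR.Final
open Fermat.Agent.BR2.SetupOfData Fermat.Agent.BR3.CircleN Fermat.Agent.BR3.SRef
open Fermat.Agent.BR3.SRef.Modular Fermat.Agent.BR3.SDD Fermat.Agent.Jac Fermat.Agent.BR
open Fermat.Agent.BR2.Filt Fermat.Agent.BR3.G5Multi Fermat.Agent.BR3.TorGlue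
open Fermat.Agent.BR3.GeoTor Fermat.Agent.BR3.GeoTorPush Fermat.Agent.BR3.PushGlue
open Fermat.Agent.BR3.PushShapes Fermat.Agent.BR3.MultiVal

/-! ### the index types -/

section Index

variable (Mid X' : Type)

/-- the components of `S''` over a component of `S'ref_a` -/
def JA : Fin 2 ⊕ X' → Type
  | Sum.inl 0 => Option Mid
  | Sum.inl 1 => Unit
  | Sum.inr _ => Unit

instance instFintypeJA [Fintype Mid] : ∀ v, Fintype (JA Mid X' v)
  | Sum.inl 0 => inferInstanceAs (Fintype (Option Mid))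
  | Sum.inl 1 => inferInstanceAs (Fintype Unit)
  | Sum.inr _ => inferInstanceAs (Fintype Unit)

/-- the components of `S''` over a component of `S'ref_b` -/
def JB : Fin 2 ⊕ X' → Type
  | Sum.inl 0 => Unit
  | Sum.inl 1 => Option Mid
  | Sum.inr _ => Unit

instance instFintypeJB [Fintype Mid] : ∀ v, Fintype (JB Mid X' v)
  | Sum.inl 0 => inferInstanceAs (Fintype Unit)
  | Sum.inl 1 => inferInstanceAs (Fintype (Option Mid))
  | Sum.inr _ => inferInstanceAs (Fintype Unit)

variable {Mid X'} {SSp : Type}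

/-- `none ↦ c`, `some i ↦ mid i` -/
def wOpt (c : Comp Mid SSp) : Option Mid → Comp Mid SSp
  | none => c
  | some i => mid i

theorem wOpt_injective {c : Comp Mid SSp} (hc : ∀ i, c ≠ mid i) :
    Function.Injective (wOpt c) := by
  rintro (_ | i) (_ | j) h
  · rfl
  · exact absurd h (hc j)
  · exact absurd h.symm (hc i)
  · have h1 : (mid i : Comp Mid SSp) = mid j := h
    simp only [mid, Sum.inl.injEq, Sum.inr.injEq] at h1
    rw [h1]

theorem cInf_ne_mid (i : Mid) : (cInf : Comp Mid SSp) ≠ mid i := by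
  simp [cInf, mid]

theorem cZero_ne_mid (i : Mid) : (cZero : Comp Mid SSp) ≠ mid i := by
  simp [cZero, mid]

/-- the component of `S''` of an index, along `a` -/
def wA (fst : X' → SSp) : ∀ v : Fin 2 ⊕ X', JA Mid X' v → Comp Mid SSp
  | Sum.inl 0 => wOpt cInf
  | Sum.inl 1 => fun _ => cZero
  | Sum.inr x => fun _ => ze (fst x)

/-- the component of `S''` of an index, along `b` -/
def wB (fst : X' → SSp) : ∀ v : Fin 2 ⊕ X', JB Mid X' v → Comp Mid SSp
  | Sum.inl 0 => fun _ => cInf
  | Sum.inl 1 => wOpt cZero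
  | Sum.inr x => fun _ => ze (fst x)

/-- the residue degrees, along `a` -/
def kapA (κc : Option Mid → Type) (κz : Type) (κe : X' → Type) :
    ∀ v : Fin 2 ⊕ X', JA Mid X' v → Type
  | Sum.inl 0 => κc
  | Sum.inl 1 => fun _ => κz
  | Sum.inr x => fun _ => κe x

instance instFintypeKapA (κc : Option Mid → Type) (κz : Type) (κe : X' → Type)
    [∀ j, Fintype (κc j)] [Fintype κz] [∀ x, Fintype (κe x)] :
    ∀ v j, Fintype (kapA κc κz κe v j)
  | Sum.inl 0 => fun j => inferInstanceAs (Fintype (κc j))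
  | Sum.inl 1 => fun _ => inferInstanceAs (Fintype κz)
  | Sum.inr x => fun _ => inferInstanceAs (Fintype (κe x))

/-- the residue degrees, along `b` -/
def kapB (κc : Type) (κz : Option Mid → Type) (κe : X' → Type) :
    ∀ v : Fin 2 ⊕ X', JB Mid X' v → Type
  | Sum.inl 0 => fun _ => κc
  | Sum.inl 1 => κz
  | Sum.inr x => fun _ => κe x

instance instFintypeKapB (κc : Type) (κz : Option Mid → Type) (κe : X' → Type)
    [Fintype κc] [∀ j, Fintype (κz j)] [∀ x, Fintype (κe x)] :
    ∀ v j, Fintype (kapB κc κz κe v j)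
  | Sum.inl 0 => fun _ => inferInstanceAs (Fintype κc)
  | Sum.inl 1 => fun j => inferInstanceAs (Fintype (κz j))
  | Sum.inr x => fun _ => inferInstanceAs (Fintype (κe x))

end Index

/-! ### the residue norm data along `a` -/

section AlongA

variable {M q : ℕ} [NeZero M] [hq : Fact q.Prime]
variable {B : ValuationSubring (AlgebraicClosure ℚ)} {hB : B.LiesOverPrime q} {hqM : ¬ q ∣ M}
variable [IsAlgClosed (ResidueField B)]

local notation "kB" => IsLocalRing.ResidueField B
local notation "FtM" => modularFunctionFieldFullC (IsLocalRing.ResidueField B) M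
local notation "Kb" => AlgebraicClosure ℚ

/-- (shortcut instance) -/
local instance (priority := 100000) instAlgebraFtMShortcutP :
    Algebra (IsLocalRing.ResidueField B)
      (modularFunctionFieldFullC (IsLocalRing.ResidueField B) M) :=
  inferInstance

variable (Dt : ModularData M q B hB hqM)
  (a₀ : Crossing (chartDataModular B hB hqM) → Kb) (hadm : ∀ e, (inputs Dt).adm e (a₀ e))
  {Mid KP : Type} [Fintype Mid] [Fintype KP]
  {Ft : Comp Mid (Crossing (chartDataModular B hB hqM)) → Type}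
  [∀ v, Field (Ft v)] [∀ v, Algebra (ResidueField B) (Ft v)]
  (X : CaseInput (F := Fb (M * q * q)) B Mid (Crossing (chartDataModular B hB hqM)) KP Ft)
  (φ : Fb (M * q) →ₐ[Kb] Fb (M * q * q))
  {κc : Option Mid → Type} [∀ j, Fintype (κc j)] {κz : Type} [Fintype κz]
  {κe : (oneLevel (inputs Dt) a₀ hadm).X → Type} [∀ x, Fintype (κe x)]
  (Dcan : letI := algebraAlong φ
    MultiVal.Full ((setup Dt).O 0) (fun j : Option Mid => X.toInput.setup.O (wOpt cInf j)) κc)
  (Det : letI := algebraAlong φ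
    MultiVal.Full ((setup Dt).O 1) (fun _ : Unit => X.toInput.setup.O cZero) (fun _ => κz))
  (Dexc : ∀ x : (oneLevel (inputs Dt) a₀ hadm).X, letI := algebraAlong φ
    MultiVal.Full ((srefM Dt a₀ hadm).O (Sum.inr x))
      (fun _ : Unit => X.toInput.setup.O (ze x.1)) (fun _ => κe x))

/-- **the `Full` family along `a`**, component by component of `S'ref_a` -/
def fullA : ∀ v : Fin 2 ⊕ (oneLevel (inputs Dt) a₀ hadm).X, letI := algebraAlong φ
    MultiVal.Full ((srefM Dt a₀ hadm).O v)
      (fun j => X.toInput.setup.O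
        (wA (fun x : (oneLevel (inputs Dt) a₀ hadm).X => x.1) v j))
      (kapA κc κz κe v)
  | Sum.inl 0 => Dcan
  | Sum.inl 1 => Det
  | Sum.inr x => Dexc x

theorem residue_surjective_B : Function.Surjective (residue B) := IsLocalRing.residue_surjective

/-- **the residue extensions along `a`** -/
def psiA (v : Fin 2 ⊕ (oneLevel (inputs Dt) a₀ hadm).X)
    (j : JA Mid (oneLevel (inputs Dt) a₀ hadm).X v) :
    FtR (fun _ : Fin 2 => FtM) B (oneLevel (inputs Dt) a₀ hadm).X v →ₐ[kB]
      Ft (wA (fun x : (oneLevel (inputs Dt) a₀ hadm).X => x.1) v j) :=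
  resHom (S₀ := srefM Dt a₀ hadm) (S := X.toInput.setup) (φ := φ) residue_surjective_B
    (liesOverAlong_of_full (fullA Dt a₀ hadm X φ Dcan Det Dexc v) j)

/-- **`hNR` along `a`** -/
theorem normResA (hfin : FiniteAlong Kb φ)
    (v : Fin 2 ⊕ (oneLevel (inputs Dt) a₀ hadm).X) :
    NormRes (srefM Dt a₀ hadm) X.toInput.setup φ v
      (wA (fun x : (oneLevel (inputs Dt) a₀ hadm).X => x.1) v)
      (psiA Dt a₀ hadm X φ Dcan Det Dexc v) :=
  normRes_of_full_resHom (srefM Dt a₀ hadm) X.toInput.setup φ hfin residue_surjective_B v _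
    (fullA Dt a₀ hadm X φ Dcan Det Dexc v)

theorem isIntegral_psiA (hfin : FiniteAlong Kb φ)
    (v : Fin 2 ⊕ (oneLevel (inputs Dt) a₀ hadm).X)
    (j : JA Mid (oneLevel (inputs Dt) a₀ hadm).X v) :
    (psiA Dt a₀ hadm X φ Dcan Det Dexc v j).toRingHom.IsIntegral :=
  isIntegral_resHom hfin residue_surjective_B (fullA Dt a₀ hadm X φ Dcan Det Dexc v) j

theorem finiteAlong_psiA (hfin : FiniteAlong Kb φ)
    (v : Fin 2 ⊕ (oneLevel (inputs Dt) a₀ hadm).X)
    (j : JA Mid (oneLevel (inputs Dt) a₀ hadm).X v) :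
    FiniteAlong kB (psiA Dt a₀ hadm X φ Dcan Det Dexc v j) :=
  finiteAlong_resHom hfin residue_surjective_B (fullA Dt a₀ hadm X φ Dcan Det Dexc v) j

/-- **(G6-PUSH-MOD) along `a`, from the `Full` families.**  `hpa` of
`GeoTorFinal.hcoch_of_rel`, VERBATIM, for `S'' = X.toInput.setup` over `S'ref_a = srefM Dt a₀ hadm`
along `φ`: the residue norm data come from the `Full` families `Dcan`, `Det`, `Dexc`; what is left
are `hsm`, the fundamental identities of the separable residue extensions and the enumerations of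
the points over the branches, kind by kind. -/
theorem hpa_of_fulls (hF₀ : RiemannPkg Kb (Fb (M * q))) (hFtM : RiemannPkg kB FtM)
    (hFt : ∀ w', RiemannPkg kB (Ft w'))
    [HasPrincipalDivisors Kb (Fb (M * q))] [HasPrincipalDivisors Kb (Fb (M * q * q))]
    [∀ w', HasPrincipalDivisors kB (Ft w')]
    (hφ : φ.toRingHom.IsIntegral) (hfin : FiniteAlong Kb φ) (hN : NormFormulaAlong Kb φ hfin)
    (hsm : ∀ P : Place Kb (Fb (M * q * q)), X.toInput.setup.IsSmoothPlace P →
      (srefM Dt a₀ hadm).IsSmoothPlace (P.restrictAlong φ hφ))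
    (lam : ℕ) (hlam : lam ≠ 0) (d : ℕ)
    -- the component `'can'`
    (hFIcan : ∀ j : Option Mid, FundamentalIdentityAlong kB
      (psiA Dt a₀ hadm X φ Dcan Det Dexc (Sum.inl 0) j)
      (isIntegral_psiA Dt a₀ hadm X φ Dcan Det Dexc hfin (Sum.inl 0) j))
    (hInf : ∀ e, (X.pInf e).restrictAlong (psiA Dt a₀ hadm X φ Dcan Det Dexc (Sum.inl 0) none)
        (isIntegral_psiA Dt a₀ hadm X φ Dcan Det Dexc hfin (Sum.inl 0) none) =
        (setup Dt).s₁ e ∧
      (X.pInf e).ramificationIndexAlong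
        (psiA Dt a₀ hadm X φ Dcan Det Dexc (Sum.inl 0) none) = 1)
    (hMid : ∀ e s, (X.pMid e s).restrictAlong
        (psiA Dt a₀ hadm X φ Dcan Det Dexc (Sum.inl 0) (some (X.comp e s)))
        (isIntegral_psiA Dt a₀ hadm X φ Dcan Det Dexc hfin (Sum.inl 0) (some (X.comp e s))) =
        (setup Dt).s₁ e ∧
      (X.pMid e s).ramificationIndexAlong
        (psiA Dt a₀ hadm X φ Dcan Det Dexc (Sum.inl 0) (some (X.comp e s))) = d)
    (hexhInf' : ∀ e (Q : Place kB (Ft cInf)),
      Q.restrictAlong (psiA Dt a₀ hadm X φ Dcan Det Dexc (Sum.inl 0) none)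
        (isIntegral_psiA Dt a₀ hadm X φ Dcan Det Dexc hfin (Sum.inl 0) none) =
        (setup Dt).s₁ e → Q = X.pInf e)
    (hexhMid : ∀ e (i : Mid) (Q : Place kB (Ft (mid i))),
      Q.restrictAlong (psiA Dt a₀ hadm X φ Dcan Det Dexc (Sum.inl 0) (some i))
        (isIntegral_psiA Dt a₀ hadm X φ Dcan Det Dexc hfin (Sum.inl 0) (some i)) =
        (setup Dt).s₁ e →
      ∃ s, (⟨mid i, Q⟩ : Σ v, Place kB (Ft v)) = ⟨mid (X.comp e s), X.pMid e s⟩)
    -- the exceptional components
    (hFIexc : ∀ e, FundamentalIdentityAlong kB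
      (psiA Dt a₀ hadm X φ Dcan Det Dexc (exc (inputs Dt) a₀ hadm e) ())
      (isIntegral_psiA Dt a₀ hadm X φ Dcan Det Dexc hfin (exc (inputs Dt) a₀ hadm e) ()))
    (hZT : ∀ e, (X.zT e).restrictAlong
        (psiA Dt a₀ hadm X φ Dcan Det Dexc (exc (inputs Dt) a₀ hadm e) ())
        (isIntegral_psiA Dt a₀ hadm X φ Dcan Det Dexc hfin (exc (inputs Dt) a₀ hadm e) ()) =
        placeInfty kB ∧
      (X.zT e).ramificationIndexAlong
        (psiA Dt a₀ hadm X φ Dcan Det Dexc (exc (inputs Dt) a₀ hadm e) ()) = 1)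
    (hZK : ∀ e s, (X.zK e s).restrictAlong
        (psiA Dt a₀ hadm X φ Dcan Det Dexc (exc (inputs Dt) a₀ hadm e) ())
        (isIntegral_psiA Dt a₀ hadm X φ Dcan Det Dexc hfin (exc (inputs Dt) a₀ hadm e) ()) =
        placeInfty kB ∧
      (X.zK e s).ramificationIndexAlong
        (psiA Dt a₀ hadm X φ Dcan Det Dexc (exc (inputs Dt) a₀ hadm e) ()) = d)
    (hexhInf : ∀ e (Q : Place kB (Ft (ze e))), Q.restrictAlong
        (psiA Dt a₀ hadm X φ Dcan Det Dexc (exc (inputs Dt) a₀ hadm e) ())
        (isIntegral_psiA Dt a₀ hadm X φ Dcan Det Dexc hfin (exc (inputs Dt) a₀ hadm e) ()) =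
        placeInfty kB → Q = X.zT e ∨ ∃ s, Q = X.zK e s)
    (hZW : ∀ e, (X.zW e).restrictAlong
        (psiA Dt a₀ hadm X φ Dcan Det Dexc (exc (inputs Dt) a₀ hadm e) ())
        (isIntegral_psiA Dt a₀ hadm X φ Dcan Det Dexc hfin (exc (inputs Dt) a₀ hadm e) ()) =
        placeAt kB 0 ∧
      (X.zW e).ramificationIndexAlong
        (psiA Dt a₀ hadm X φ Dcan Det Dexc (exc (inputs Dt) a₀ hadm e) ()) = q)
    (hexhZero : ∀ e (Q : Place kB (Ft (ze e))), Q.restrictAlong
        (psiA Dt a₀ hadm X φ Dcan Det Dexc (exc (inputs Dt) a₀ hadm e) ())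
        (isIntegral_psiA Dt a₀ hadm X φ Dcan Det Dexc hfin (exc (inputs Dt) a₀ hadm e) ()) =
        placeAt kB 0 → Q = X.zW e)
    -- the component `'et'`
    (hZero : ∀ e, (X.pZero e).restrictAlong
        (psiA Dt a₀ hadm X φ Dcan Det Dexc (Sum.inl 1) ())
        (isIntegral_psiA Dt a₀ hadm X φ Dcan Det Dexc hfin (Sum.inl 1) ()) = (setup Dt).s₂ e)
    (hpow : ∀ g : Ft cZero, psiA Dt a₀ hadm X φ Dcan Det Dexc (Sum.inl 1) ()
      (normAlong (psiA Dt a₀ hadm X φ Dcan Det Dexc (Sum.inl 1) ()) g) = g ^ q) :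
    ∀ (m : ℕ) (z : Pic0 Kb (Fb (M * q * q)))
      (D : Divisor.degZero (K := Kb) (F := Fb (M * q * q))) (f : Fb (M * q * q))
      (u : ∀ v, Ft v), IsGood X.toInput.setup (lam ^ m) z D f u →
      PicFunct.pic0Push φ hφ hfin hN z = 0 →
      ∀ (av bv : Node (Crossing (chartDataModular B hB hqM)) KP → kB)
        (ha0 : ∀ e, av e ≠ 0) (hb0 : ∀ e, bv e ≠ 0),
      (∀ e, IsValueAt (X.toInput.setup.s₁ e) (u (X.toInput.setup.src e)) (av e)) →
      (∀ e, IsValueAt (X.toInput.setup.s₂ e) (u (X.toInput.setup.tgt e)) (bv e)) →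
      ∃ κ₀ : Fin 2 ⊕ (oneLevel (inputs Dt) a₀ hadm).X → kB, (∀ v, κ₀ v ≠ 0) ∧
        (∀ e, valH hor av bv (nW e) ^ q * κ₀ (exc (inputs Dt) a₀ hadm e) =
          valV hor av bv (nW e) ^ q * κ₀ (old (inputs Dt) a₀ hadm 1)) ∧
        ∀ e, (valH hor av bv (nT e) * ∏ s, valH hor av bv (nk e s) ^ d) *
            κ₀ (exc (inputs Dt) a₀ hadm e) =
          (valV hor av bv (nT e) * ∏ s, valV hor av bv (nk e s) ^ d) *
            κ₀ (old (inputs Dt) a₀ hadm 0) := by
  refine Fermat.Agent.BR3.PushMod.hpa_of_enum (inputs Dt) a₀ hadm X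
    (w := wA (fun x : (oneLevel (inputs Dt) a₀ hadm).X => x.1))
    (ψ := psiA Dt a₀ hadm X φ Dcan Det Dexc) hF₀ (fun _ => hFtM) hFt φ hφ hfin hN
    (normResA Dt a₀ hadm X φ Dcan Det Dexc hfin)
    (isIntegral_psiA Dt a₀ hadm X φ Dcan Det Dexc hfin)
    (finiteAlong_psiA Dt a₀ hadm X φ Dcan Det Dexc hfin) (Sum.inl 0) hsm lam hlam q d 0 1
    (fun _ => rfl) (fun _ => rfl) (fun e j => hFIcan j)
    (fun e => wOpt_injective cInf_ne_mid) ?_ ?_ ?_ (fun e j => hFIexc e)
    (fun e a b _ => Subsingleton.elim (α := Unit) a b) ?_ ?_ ?_ ?_ ?_ (fun _ => ())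
    (fun _ _ => rfl) ?_ (fun e g => hpow g)
  · exact fun e => ⟨none, X.pInf e, rfl, (hInf e).1, (hInf e).2⟩
  · exact fun e s => ⟨some (X.comp e s), X.pMid e s, rfl, (hMid e s).1, (hMid e s).2⟩
  · intro e (j : Option Mid)
    rcases j with _ | i
    · intro Q hQ
      exact Or.inl (by rw [hexhInf' e Q hQ]; rfl)
    · intro Q hQ
      exact Or.inr (hexhMid e i Q hQ)
  · exact fun e => ⟨(), X.zT e, rfl, (hZT e).1, (hZT e).2⟩
  · exact fun e s => ⟨(), X.zK e s, rfl, (hZK e s).1, (hZK e s).2⟩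
  · intro e j Q hQ
    rcases hexhInf e Q hQ with h | ⟨s, h⟩
    · exact Or.inl (by rw [h]; rfl)
    · exact Or.inr ⟨s, by rw [h]; rfl⟩
  · exact fun e => ⟨(), X.zW e, rfl, (hZW e).1, (hZW e).2⟩
  · intro e j Q hQ
    rw [hexhZero e Q hQ]
    rfl
  · exact fun e => ⟨X.pZero e, rfl, hZero e⟩

end AlongA

end Fermat.Agent.BR3.PushModFull
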