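import Mathlib
import Fermat.Agent.BR3.PushModFull
import Fermat.Agent.BR3.FullGlue

/-!
# Program C (S36), node (G6-PUSH-MOD), b-half: the residue norm data from the `Full` families along
`b`, and `hpb` with only the per-kind inputs left

Mirror of `BR3/PushModFull.lean` (section `AlongA`), with the index types `JB`, `wB`, `kapB` of its
section `Index`.  `Dt : ModularData M q B hB hqM`, `S' = setup Dt`, `S₀ = srefM Dt a₀ hadm`
(`S'ref_b`), `X : SDD.CaseInput B Mid (crossings) KP Ft`, `φ : Fb (M q) →ₐ Fb (M q²)` (`β₂`),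
`φe : crossings ≃ crossings` (the crossing `e` of `S''` lies over the crossing `φe e` of `S'`).

From the three `MultiVal.Full` families (all under `letI := algebraAlong φ`)
* `Dcan` over `'can'` (the single component `cInf`: `FullB.fullCanB`),
* `Det` over `'et'` (components `cZero`, `mid i`, index type `Option Mid`: `FullB.fullEtB`),
* `Dexc x` over the exceptional component of the level `x` (the single component
  `ze (φe.symm x.1)`: helper25's b-exc `FullExcB.fullExcOfMirror`; `dexcOfCrossing` converts a family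
  indexed by the crossings `e` of `S''`, over `exc (φe e)`),

the dependent family `fullB`, the residue extensions `psiB v j = PushGlue.resHom _ _`,
`normResB : ∀ v, NormRes S₀ S'' φ v (wB v) (psiB v)`, `isIntegral_psiB`, `finiteAlong_psiB`, and
**`hpb_of_fulls`** : `PushModB.hpb_of_enum` for this family: `J / w / ψ / hNR / hψ / hfinψ / jcan /
hsubcan / hwexc / hwet / hsrc / htgt` and all `Σ`-equalities discharged; what is left are `hsm`, the
fundamental identities and the per-kind `Place` statements (the exceptional ones indexed by the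
crossing `e'` of `S'`, the component above being `ze (φe.symm e')`).
-/

set_option autoImplicit false
set_option linter.unusedVariables false
set_option linter.unusedSectionVars false
set_option linter.style.haveILetI false
set_option synthInstance.maxHeartbeats 400000
set_option maxHeartbeats 1600000

noncomputable section

/- S36 build-time patch: file-local shortcut instances. They only shorten instance search;
each is the instance that the search finds anyway (reducible, same terms after unfolding). -/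
local instance (priority := 100000) Fermat.Agent.BR3.FastInst.instAlgFullC_PushModNRB
    {k : Type*} [Field k] (N : ℕ) :
    Algebra k ↥(ModularCurve.modularFunctionFieldFullC k N) := inferInstance
local instance (priority := 100000) Fermat.Agent.BR3.FastInst.instFieldFullC_PushModNRB
    {k : Type*} [Field k] (N : ℕ) :
    Field ↥(ModularCurve.modularFunctionFieldFullC k N) := inferInstance
local instance (priority := 100000) Fermat.Agent.BR3.FastInst.instAlgLaurent_PushModNRB
    {k : Type*} [Field k] : Algebra k (LaurentSeries k) := inferInstance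


namespace Fermat.Agent.BR3.PushModNRB

open ModularCurve AlgebraicCurve IsLocalRing
open Fermat.Agent.Red Fermat.Agent.Val Fermat.Agent.X0 Fermat.Agent.BR.SS Fermat.Agent.BR.Refine
open Fermat.Agent.BR.Circle Fermat.Agent.BR.S0 Fermat.Agent.BR.P1
open Fermat.Agent.BR.S0.PointDict Fermat.Agent.BR.S0.RedModular Fermat.Agent.BR.Final
open Fermat.Agent.BR2.SetupOfData Fermat.Agent.BR3.CircleN Fermat.Agent.BR3.SRef
open Fermat.Agent.BR3.SRef.Modular Fermat.Agent.BR3.SDD Fermat.Agent.Jac Fermat.Agent.BR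
open Fermat.Agent.BR2.Filt Fermat.Agent.BR3.G5Multi Fermat.Agent.BR3.TorGlue
open Fermat.Agent.BR3.GeoTor Fermat.Agent.BR3.GeoTorPush Fermat.Agent.BR3.PushGlue
open Fermat.Agent.BR3.PushShapes Fermat.Agent.BR3.MultiVal Fermat.Agent.BR3.PushModFull

section AlongB

variable {M q : ℕ} [NeZero M] [hq : Fact q.Prime]
variable {B : ValuationSubring (AlgebraicClosure ℚ)} {hB : B.LiesOverPrime q} {hqM : ¬ q ∣ M}
variable [IsAlgClosed (ResidueField B)]

local notation "kB" => IsLocalRing.ResidueField B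
local notation "FtM" => modularFunctionFieldFullC (IsLocalRing.ResidueField B) M
local notation "Kb" => AlgebraicClosure ℚ

/-- (shortcut instance) -/
local instance (priority := 100000) instAlgebraFtMShortcutPB :
    Algebra (IsLocalRing.ResidueField B)
      (modularFunctionFieldFullC (IsLocalRing.ResidueField B) M) :=
  inferInstance

variable (Dt : ModularData M q B hB hqM)
  (a₀ : Crossing (chartDataModular B hB hqM) → Kb) (hadm : ∀ e, (inputs Dt).adm e (a₀ e))
  {Mid KP : Type} [Fintype Mid] [Fintype KP]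
  {Ft : Comp Mid (Crossing (chartDataModular B hB hqM)) → Type}
  [∀ v, Field (Ft v)] [∀ v, Algebra (ResidueField B) (Ft v)]
  (X : CaseInput (F := Fb (M * q * q)) B Mid (Crossing (chartDataModular B hB hqM)) KP Ft)
  (φ : Fb (M * q) →ₐ[Kb] Fb (M * q * q))
  (φe : Crossing (chartDataModular B hB hqM) ≃ Crossing (chartDataModular B hB hqM))

/-- the crossing of `S''` over the level `x` of `S'ref_b` -/
def fstB (x : (oneLevel (inputs Dt) a₀ hadm).X) : Crossing (chartDataModular B hB hqM) :=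
  φe.symm x.1

@[simp] theorem fstB_lvl (e' : Crossing (chartDataModular B hB hqM)) :
    fstB Dt a₀ hadm φe (lvl (inputs Dt) a₀ hadm e') = φe.symm e' := rfl

/-- the level `x` is the level of the crossing `φe (fstB x)` -/
theorem inr_eq_exc (x : (oneLevel (inputs Dt) a₀ hadm).X) :
    (Sum.inr x : Fin 2 ⊕ (oneLevel (inputs Dt) a₀ hadm).X) =
      exc (inputs Dt) a₀ hadm (φe (fstB Dt a₀ hadm φe x)) := by
  show Sum.inr x = Sum.inr (lvl (inputs Dt) a₀ hadm (φe (φe.symm x.1)))
  rw [Equiv.apply_symm_apply]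
  exact congrArg Sum.inr (eq_lvl (inputs Dt) a₀ hadm x)

/-- **`Dexc` from a family indexed by the crossings of `S''`**: `D' e` over the exceptional
component of the crossing `φe e` of `S'`, with the single component `ze e` above (the shape of
helper25's b-exc `FullExcB.fullExcOfMirror` at `e`, `Fr e = φe e`). -/
def dexcOfCrossing {κ : Crossing (chartDataModular B hB hqM) → Type} [∀ e, Fintype (κ e)]
    (D' : ∀ e : Crossing (chartDataModular B hB hqM), letI := algebraAlong φ
      MultiVal.Full ((srefM Dt a₀ hadm).O (exc (inputs Dt) a₀ hadm (φe e)))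
        (fun _ : Unit => X.toInput.setup.O (ze e)) (fun _ => κ e))
    (x : (oneLevel (inputs Dt) a₀ hadm).X) :
    letI := algebraAlong φ
    MultiVal.Full ((srefM Dt a₀ hadm).O (Sum.inr x))
      (fun _ : Unit => X.toInput.setup.O (ze (fstB Dt a₀ hadm φe x)))
      (fun _ => κ (fstB Dt a₀ hadm φe x)) :=
  letI := algebraAlong φ
  Fermat.Agent.BR3.FullGlue.Full.congr
    (congrArg (srefM Dt a₀ hadm).O (inr_eq_exc Dt a₀ hadm φe x)) (fun _ => rfl)
    (D' (fstB Dt a₀ hadm φe x))

variable {κc : Type} [Fintype κc] {κz : Option Mid → Type} [∀ j, Fintype (κz j)]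
  {κe : (oneLevel (inputs Dt) a₀ hadm).X → Type} [∀ x, Fintype (κe x)]
  (Dcan : letI := algebraAlong φ
    MultiVal.Full ((setup Dt).O 0) (fun _ : Unit => X.toInput.setup.O cInf) (fun _ => κc))
  (Det : letI := algebraAlong φ
    MultiVal.Full ((setup Dt).O 1) (fun j : Option Mid => X.toInput.setup.O (wOpt cZero j)) κz)
  (Dexc : ∀ x : (oneLevel (inputs Dt) a₀ hadm).X, letI := algebraAlong φ
    MultiVal.Full ((srefM Dt a₀ hadm).O (Sum.inr x))
      (fun _ : Unit => X.toInput.setup.O (ze (fstB Dt a₀ hadm φe x))) (fun _ => κe x))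

/-- **the `Full` family along `b`**, component by component of `S'ref_b` -/
def fullB : ∀ v : Fin 2 ⊕ (oneLevel (inputs Dt) a₀ hadm).X, letI := algebraAlong φ
    MultiVal.Full ((srefM Dt a₀ hadm).O v)
      (fun j => X.toInput.setup.O (wB (fstB Dt a₀ hadm φe) v j))
      (kapB κc κz κe v)
  | Sum.inl 0 => Dcan
  | Sum.inl 1 => Det
  | Sum.inr x => Dexc x

/-- **the residue extensions along `b`** -/
def psiB (v : Fin 2 ⊕ (oneLevel (inputs Dt) a₀ hadm).X)
    (j : JB Mid (oneLevel (inputs Dt) a₀ hadm).X v) :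
    FtR (fun _ : Fin 2 => FtM) B (oneLevel (inputs Dt) a₀ hadm).X v →ₐ[kB]
      Ft (wB (fstB Dt a₀ hadm φe) v j) :=
  resHom (S₀ := srefM Dt a₀ hadm) (S := X.toInput.setup) (φ := φ) residue_surjective_B
    (liesOverAlong_of_full (fullB Dt a₀ hadm X φ φe Dcan Det Dexc v) j)

/-- **`hNR` along `b`** -/
theorem normResB (hfin : FiniteAlong Kb φ)
    (v : Fin 2 ⊕ (oneLevel (inputs Dt) a₀ hadm).X) :
    NormRes (srefM Dt a₀ hadm) X.toInput.setup φ v
      (wB (fstB Dt a₀ hadm φe) v)
      (psiB Dt a₀ hadm X φ φe Dcan Det Dexc v) :=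
  normRes_of_full_resHom (srefM Dt a₀ hadm) X.toInput.setup φ hfin residue_surjective_B v _
    (fullB Dt a₀ hadm X φ φe Dcan Det Dexc v)

theorem isIntegral_psiB (hfin : FiniteAlong Kb φ)
    (v : Fin 2 ⊕ (oneLevel (inputs Dt) a₀ hadm).X)
    (j : JB Mid (oneLevel (inputs Dt) a₀ hadm).X v) :
    (psiB Dt a₀ hadm X φ φe Dcan Det Dexc v j).toRingHom.IsIntegral :=
  isIntegral_resHom hfin residue_surjective_B (fullB Dt a₀ hadm X φ φe Dcan Det Dexc v) j

theorem finiteAlong_psiB (hfin : FiniteAlong Kb φ)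
    (v : Fin 2 ⊕ (oneLevel (inputs Dt) a₀ hadm).X)
    (j : JB Mid (oneLevel (inputs Dt) a₀ hadm).X v) :
    FiniteAlong kB (psiB Dt a₀ hadm X φ φe Dcan Det Dexc v j) :=
  finiteAlong_resHom hfin residue_surjective_B (fullB Dt a₀ hadm X φ φe Dcan Det Dexc v) j

/-- **(G6-PUSH-MOD) along `b`, from the `Full` families.**  `hpb` of
`GeoTorFinal.hcoch_of_rel`, VERBATIM, for `S'' = X.toInput.setup` over `S'ref_b = srefM Dt a₀ hadm`
along `φ`: the residue norm data come from the `Full` families `Dcan`, `Det`, `Dexc`; what is left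
are `hsm`, the fundamental identities of the separable residue extensions and the enumerations of
the points over the branches, kind by kind (the exceptional ones indexed by the crossing `e'` of
`S'`; the vertical component above is `ze (φe.symm e')`). -/
theorem hpb_of_fulls (hF₀ : RiemannPkg Kb (Fb (M * q))) (hFtM : RiemannPkg kB FtM)
    (hFt : ∀ w', RiemannPkg kB (Ft w'))
    [HasPrincipalDivisors Kb (Fb (M * q))] [HasPrincipalDivisors Kb (Fb (M * q * q))]
    [∀ w', HasPrincipalDivisors kB (Ft w')]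
    (hφ : φ.toRingHom.IsIntegral) (hfin : FiniteAlong Kb φ) (hN : NormFormulaAlong Kb φ hfin)
    (hsm : ∀ P : Place Kb (Fb (M * q * q)), X.toInput.setup.IsSmoothPlace P →
      (srefM Dt a₀ hadm).IsSmoothPlace (P.restrictAlong φ hφ))
    (lam : ℕ) (hlam : lam ≠ 0) (d : ℕ)
    -- the component `'can'`
    (hInf : ∀ e, (X.pInf e).restrictAlong
        (psiB Dt a₀ hadm X φ φe Dcan Det Dexc (Sum.inl 0) ())
        (isIntegral_psiB Dt a₀ hadm X φ φe Dcan Det Dexc hfin (Sum.inl 0) ()) =
        (setup Dt).s₁ (φe e))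
    (hpow : ∀ g : Ft cInf, psiB Dt a₀ hadm X φ φe Dcan Det Dexc (Sum.inl 0) ()
      (normAlong (psiB Dt a₀ hadm X φ φe Dcan Det Dexc (Sum.inl 0) ()) g) = g ^ q)
    -- the exceptional components (`e'` a crossing of `S'`, above it `ze (φe.symm e')`)
    (hFIexc : ∀ e', FundamentalIdentityAlong kB
      (psiB Dt a₀ hadm X φ φe Dcan Det Dexc (exc (inputs Dt) a₀ hadm e') ())
      (isIntegral_psiB Dt a₀ hadm X φ φe Dcan Det Dexc hfin (exc (inputs Dt) a₀ hadm e') ()))
    (hZT : ∀ e', (X.zT (φe.symm e')).restrictAlong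
        (psiB Dt a₀ hadm X φ φe Dcan Det Dexc (exc (inputs Dt) a₀ hadm e') ())
        (isIntegral_psiB Dt a₀ hadm X φ φe Dcan Det Dexc hfin (exc (inputs Dt) a₀ hadm e') ()) =
        placeInfty kB ∧
      (X.zT (φe.symm e')).ramificationIndexAlong
        (psiB Dt a₀ hadm X φ φe Dcan Det Dexc (exc (inputs Dt) a₀ hadm e') ()) = q)
    (hexhInf : ∀ e' (Q : Place kB (Ft (ze (φe.symm e')))), Q.restrictAlong
        (psiB Dt a₀ hadm X φ φe Dcan Det Dexc (exc (inputs Dt) a₀ hadm e') ())
        (isIntegral_psiB Dt a₀ hadm X φ φe Dcan Det Dexc hfin (exc (inputs Dt) a₀ hadm e') ()) =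
        placeInfty kB → Q = X.zT (φe.symm e'))
    (hZW : ∀ e', (X.zW (φe.symm e')).restrictAlong
        (psiB Dt a₀ hadm X φ φe Dcan Det Dexc (exc (inputs Dt) a₀ hadm e') ())
        (isIntegral_psiB Dt a₀ hadm X φ φe Dcan Det Dexc hfin (exc (inputs Dt) a₀ hadm e') ()) =
        placeAt kB 0 ∧
      (X.zW (φe.symm e')).ramificationIndexAlong
        (psiB Dt a₀ hadm X φ φe Dcan Det Dexc (exc (inputs Dt) a₀ hadm e') ()) = 1)
    (hZK : ∀ e' s, (X.zK (φe.symm e') s).restrictAlong
        (psiB Dt a₀ hadm X φ φe Dcan Det Dexc (exc (inputs Dt) a₀ hadm e') ())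
        (isIntegral_psiB Dt a₀ hadm X φ φe Dcan Det Dexc hfin (exc (inputs Dt) a₀ hadm e') ()) =
        placeAt kB 0 ∧
      (X.zK (φe.symm e') s).ramificationIndexAlong
        (psiB Dt a₀ hadm X φ φe Dcan Det Dexc (exc (inputs Dt) a₀ hadm e') ()) = d)
    (hexhZero : ∀ e' (Q : Place kB (Ft (ze (φe.symm e')))), Q.restrictAlong
        (psiB Dt a₀ hadm X φ φe Dcan Det Dexc (exc (inputs Dt) a₀ hadm e') ())
        (isIntegral_psiB Dt a₀ hadm X φ φe Dcan Det Dexc hfin (exc (inputs Dt) a₀ hadm e') ()) =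
        placeAt kB 0 → Q = X.zW (φe.symm e') ∨ ∃ s, Q = X.zK (φe.symm e') s)
    -- the component `'et'`
    (hFIet : ∀ j : Option Mid, FundamentalIdentityAlong kB
      (psiB Dt a₀ hadm X φ φe Dcan Det Dexc (Sum.inl 1) j)
      (isIntegral_psiB Dt a₀ hadm X φ φe Dcan Det Dexc hfin (Sum.inl 1) j))
    (hZero : ∀ e, (X.pZero e).restrictAlong
        (psiB Dt a₀ hadm X φ φe Dcan Det Dexc (Sum.inl 1) none)
        (isIntegral_psiB Dt a₀ hadm X φ φe Dcan Det Dexc hfin (Sum.inl 1) none) =
        (setup Dt).s₂ (φe e) ∧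
      (X.pZero e).ramificationIndexAlong
        (psiB Dt a₀ hadm X φ φe Dcan Det Dexc (Sum.inl 1) none) = 1)
    (hMid : ∀ e s, (X.pMid e s).restrictAlong
        (psiB Dt a₀ hadm X φ φe Dcan Det Dexc (Sum.inl 1) (some (X.comp e s)))
        (isIntegral_psiB Dt a₀ hadm X φ φe Dcan Det Dexc hfin (Sum.inl 1) (some (X.comp e s))) =
        (setup Dt).s₂ (φe e) ∧
      (X.pMid e s).ramificationIndexAlong
        (psiB Dt a₀ hadm X φ φe Dcan Det Dexc (Sum.inl 1) (some (X.comp e s))) = d)
    (hexhZero' : ∀ e (Q : Place kB (Ft cZero)),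
      Q.restrictAlong (psiB Dt a₀ hadm X φ φe Dcan Det Dexc (Sum.inl 1) none)
        (isIntegral_psiB Dt a₀ hadm X φ φe Dcan Det Dexc hfin (Sum.inl 1) none) =
        (setup Dt).s₂ (φe e) → Q = X.pZero e)
    (hexhMid : ∀ e (i : Mid) (Q : Place kB (Ft (mid i))),
      Q.restrictAlong (psiB Dt a₀ hadm X φ φe Dcan Det Dexc (Sum.inl 1) (some i))
        (isIntegral_psiB Dt a₀ hadm X φ φe Dcan Det Dexc hfin (Sum.inl 1) (some i)) =
        (setup Dt).s₂ (φe e) →
      ∃ s, (⟨mid i, Q⟩ : Σ v, Place kB (Ft v)) = ⟨mid (X.comp e s), X.pMid e s⟩) :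
    ∀ (m : ℕ) (z : Pic0 Kb (Fb (M * q * q)))
      (D : Divisor.degZero (K := Kb) (F := Fb (M * q * q))) (f : Fb (M * q * q))
      (u : ∀ v, Ft v), IsGood X.toInput.setup (lam ^ m) z D f u →
      PicFunct.pic0Push φ hφ hfin hN z = 0 →
      ∀ (av bv : Node (Crossing (chartDataModular B hB hqM)) KP → kB)
        (ha0 : ∀ e, av e ≠ 0) (hb0 : ∀ e, bv e ≠ 0),
      (∀ e, IsValueAt (X.toInput.setup.s₁ e) (u (X.toInput.setup.src e)) (av e)) →
      (∀ e, IsValueAt (X.toInput.setup.s₂ e) (u (X.toInput.setup.tgt e)) (bv e)) →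
      ∃ κ₀ : Fin 2 ⊕ (oneLevel (inputs Dt) a₀ hadm).X → kB, (∀ v, κ₀ v ≠ 0) ∧
        (∀ e, valH hor av bv (nT e) ^ q * κ₀ (exc (inputs Dt) a₀ hadm (φe e)) =
          valV hor av bv (nT e) ^ q * κ₀ (old (inputs Dt) a₀ hadm 0)) ∧
        ∀ e, (valH hor av bv (nW e) * ∏ s, valH hor av bv (nk e s) ^ d) *
            κ₀ (exc (inputs Dt) a₀ hadm (φe e)) =
          (valV hor av bv (nW e) * ∏ s, valV hor av bv (nk e s) ^ d) *
            κ₀ (old (inputs Dt) a₀ hadm 1) := by
  -- the vertical component over `exc (φe e)` is `ze e`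
  have hsig : ∀ (e : Crossing (chartDataModular B hB hqM))
      (p : ∀ e₁, Place kB (Ft (ze e₁))),
      (⟨ze e, p e⟩ : Σ v, Place kB (Ft v)) = ⟨ze (φe.symm (φe e)), p (φe.symm (φe e))⟩ := by
    intro e p
    rw [Equiv.symm_apply_apply]
  refine Fermat.Agent.BR3.PushModB.hpb_of_enum (inputs Dt) a₀ hadm X
    (w := wB (fstB Dt a₀ hadm φe))
    (ψ := psiB Dt a₀ hadm X φ φe Dcan Det Dexc) hF₀ (fun _ => hFtM) hFt φ hφ hfin hN
    (normResB Dt a₀ hadm X φ φe Dcan Det Dexc hfin)
    (isIntegral_psiB Dt a₀ hadm X φ φe Dcan Det Dexc hfin)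
    (finiteAlong_psiB Dt a₀ hadm X φ φe Dcan Det Dexc hfin) (Sum.inl 0) hsm lam hlam q d φe 0 1
    (fun _ => rfl) (fun _ => rfl) (fun _ => ()) (fun _ _ => rfl) ?_ (fun e g => hpow g)
    (fun e j => hFIexc (φe e)) (fun e a b _ => Subsingleton.elim (α := Unit) a b) ?_ ?_ ?_ ?_ ?_
    (fun e j => hFIet j) (fun e => wOpt_injective cZero_ne_mid) ?_ ?_ ?_
  · exact fun e => ⟨X.pInf e, rfl, hInf e⟩
  · exact fun e => ⟨(), X.zT (φe.symm (φe e)), hsig e X.zT, (hZT (φe e)).1, (hZT (φe e)).2⟩
  · intro e j Q hQ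
    have h := hexhInf (φe e) Q hQ
    subst h
    exact (hsig e X.zT).symm
  · exact fun e => ⟨(), X.zW (φe.symm (φe e)), hsig e X.zW, (hZW (φe e)).1, (hZW (φe e)).2⟩
  · exact fun e s => ⟨(), X.zK (φe.symm (φe e)) s, hsig e (fun e₁ => X.zK e₁ s),
      (hZK (φe e) s).1, (hZK (φe e) s).2⟩
  · intro e j Q hQ
    rcases hexhZero (φe e) Q hQ with h | ⟨s, h⟩
    · subst h
      exact Or.inl (hsig e X.zW).symm
    · subst h
      exact Or.inr ⟨s, (hsig e (fun e₁ => X.zK e₁ s)).symm⟩
  · exact fun e => ⟨none, X.pZero e, rfl, (hZero e).1, (hZero e).2⟩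
  · exact fun e s => ⟨some (X.comp e s), X.pMid e s, rfl, (hMid e s).1, (hMid e s).2⟩
  · intro e (j : Option Mid)
    rcases j with _ | i
    · intro Q hQ
      exact Or.inl (by rw [hexhZero' e Q hQ]; rfl)
    · intro Q hQ
      exact Or.inr (hexhMid e i Q hQ)

end AlongB

end Fermat.Agent.BR3.PushModNRB
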