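import Mathlib
import Fermat.Agent.BR3.FullPlug
import Fermat.Agent.BR3.PushModNRB

/-!
# Program C (S36), nodes (I7-FULL) / (G6-PUSH-MOD), b-half: the kinds `'et'` and `'can'` of
`PushModNRB.hpb_of_fulls` for the `Full` families of `BR3/FullB`

Everything ALONG `beta2 M q`.

GENERIC (arbitrary setups `S₀` on `Fb (M q)`, `S` on `Fb (M q q)`, ring identifications only; mirror
of the section `Alpha` of `BR3/FullPlug`):

* `coprime_card_fullEtB`, `finrankAlong_fullEtB`, `normFormulaAlong_fullEtB`,
  **`fundamentalIdentityAlong_fullEtB`** : the residue extensions of `cZero` and `mid i` over `et`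
  along `β₂` have the degrees `1` and `fMid`, prime to `q`: separable, hence `NormFormulaAlong` and
  `FundamentalIdentityAlong`;
* **`resHom_norm_fullCanB`** : `ψ (N_ψ g) = g ^ q` for the (purely inseparable) residue extension
  `ψ` of `cInf` over `can` along `β₂`.

ADAPTERS (setting of `BR3/PushModNRB`, `Mid := FibreProd.Mid B hB hqM hζ`, `φ := beta2 M q`):

* **`hFIet_psiB`** : the hypothesis `hFIet` of `PushModNRB.hpb_of_fulls` (and of
  `PushModExcPlugB.hpb_of_fulls_vert`) for `Det := FullB.fullEtB … (setup Dt) … 1 hOe (wOpt cZero) hw`;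
* **`hpow_psiB`** : the hypothesis `hpow` for `Dcan := FullB.fullCanB … (setup Dt) … 0 hOb cInf hwb`;
* `finrankAlong_psiB_et` : the degrees `1`, `fMid` of `psiB … (Sum.inl 1) j`.
-/

set_option autoImplicit false
set_option linter.style.haveILetI false
set_option linter.unusedSectionVars false
set_option linter.unusedVariables false
set_option synthInstance.maxHeartbeats 400000
set_option maxHeartbeats 1600000

open ModularCurve AlgebraicCurve

noncomputable section

/- S36 build-time patch: file-local shortcut instances. They only shorten instance search;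
each is the instance that the search finds anyway (reducible, same terms after unfolding). -/
local instance (priority := 100000) Fermat.Agent.BR3.FastInst.instAlgFullC_FullPlugB
    {k : Type*} [Field k] (N : ℕ) :
    Algebra k ↥(ModularCurve.modularFunctionFieldFullC k N) := inferInstance
local instance (priority := 100000) Fermat.Agent.BR3.FastInst.instFieldFullC_FullPlugB
    {k : Type*} [Field k] (N : ℕ) :
    Field ↥(ModularCurve.modularFunctionFieldFullC k N) := inferInstance
local instance (priority := 100000) Fermat.Agent.BR3.FastInst.instAlgLaurent_FullPlugB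
    {k : Type*} [Field k] : Algebra k (LaurentSeries k) := inferInstance


namespace Fermat.Agent.BR3.FullPlugB

open IsLocalRing Fermat.Agent.Jac Fermat.Agent.X0 Fermat.Agent.Val Fermat.Agent.Red
  Fermat.Agent.BR.SS Fermat.Agent.BR Fermat.Agent.BR.TwoVal Fermat.Agent.BR.PicFunct
  Fermat.Agent.BR3.PushGlue Fermat.Agent.BR3.FibreProd Fermat.Agent.BR3.CZero
  Fermat.Agent.BR3.FullGlue Fermat.Agent.BR3.FullHoriz Fermat.Agent.BR3.FullB
  Fermat.Agent.BR3.FullPlug Fermat.Agent.BR3.MidGal

/-! ### generic setups -/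

section Generic

variable {M q : ℕ} [NeZero M] [hq : Fact q.Prime]
variable (B : ValuationSubring (AlgebraicClosure ℚ)) (hB : B.LiesOverPrime q) (hqM : ¬ q ∣ M)
  {ζ : Kbˣ} (hζ : IsPrimitiveRoot ζ q)

local notation "kB" => IsLocalRing.ResidueField B

variable {ι₀ : Type*} {Ft₀ : ι₀ → Type*} [∀ v, Field (Ft₀ v)]
  [∀ v, Algebra (IsLocalRing.ResidueField B) (Ft₀ v)]
  {ν₀ : Type*} {ι : Type*} {Ft : ι → Type*} [∀ w, Field (Ft w)]
  [∀ w, Algebra (IsLocalRing.ResidueField B) (Ft w)]
  {ν : Type*}
  (S₀ : SemistableSetup (F := Fb (M * q)) B (residue B) ι₀ Ft₀ ν₀)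
  (S : SemistableSetup (F := Fb (M * q * q)) B (residue B) ι Ft ν)

section Et

variable (ve : ι₀) (hOe : S₀.O ve = O2 B hB hqM) (w : Option (Mid B hB hqM hζ) → ι)
  (hw : ∀ v, S.O (w v) = OAllB B hB hqM hζ v)

include hB hqM hζ in
/-- the residue degrees of `fullEtB` are prime to `q` -/
theorem coprime_card_fullEtB (v : Option (Mid B hB hqM hζ)) :
    (Fintype.card (Fin (fAll B hB hqM hζ v))).Coprime q :=
  coprime_card_fullCanA B hB hqM hζ v

/-- the degrees of the residue extensions of `fullEtB` -/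
theorem finrankAlong_fullEtB (hfin : FiniteAlong Kb (beta2 M q))
    (v : Option (Mid B hB hqM hζ)) :
    finrankAlong kB (resHom (residue_surjective (R := B))
      (liesOverAlong_of_full (fullEtB B hB hqM S₀ S hζ ve hOe w hw) v)) =
      Fintype.card (Fin (fAll B hB hqM hζ v)) :=
  finrankAlong_resHom hfin (residue_surjective (R := B))
    (fullEtB B hB hqM S₀ S hζ ve hOe w hw) v

/-- **`NormFormulaAlong`** for the residue extensions of `Det := fullEtB`. -/
theorem normFormulaAlong_fullEtB (hfin : FiniteAlong Kb (beta2 M q))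
    (v : Option (Mid B hB hqM hζ)) :
    NormFormulaAlong kB
      (resHom (residue_surjective (R := B))
        (liesOverAlong_of_full (fullEtB B hB hqM S₀ S hζ ve hOe w hw) v))
      (finiteAlong_resHom hfin (residue_surjective (R := B))
        (fullEtB B hB hqM S₀ S hζ ve hOe w hw) v) := by
  haveI := expChar_Ft₀ B hB (Ft₀ := Ft₀) ve
  refine normFormulaAlong_of_coprime _ _ q ?_
  rw [finrankAlong_fullEtB B hB hqM hζ S₀ S ve hOe w hw hfin v]
  exact coprime_card_fullEtB B hB hqM hζ v

/-- **`FundamentalIdentityAlong`** for the residue extensions of `Det := fullEtB`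
(`hFIet` of `PushModNRB.hpb_of_fulls`). -/
theorem fundamentalIdentityAlong_fullEtB [∀ v, HasPrincipalDivisors kB (Ft v)]
    (hfin : FiniteAlong Kb (beta2 M q)) (v : Option (Mid B hB hqM hζ)) :
    FundamentalIdentityAlong kB
      (resHom (residue_surjective (R := B))
        (liesOverAlong_of_full (fullEtB B hB hqM S₀ S hζ ve hOe w hw) v))
      (isIntegral_resHom hfin (residue_surjective (R := B))
        (fullEtB B hB hqM S₀ S hζ ve hOe w hw) v) := by
  haveI := expChar_Ft₀ B hB (Ft₀ := Ft₀) ve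
  refine fundamentalIdentityAlong_of_coprime _
    (finiteAlong_resHom hfin (residue_surjective (R := B))
      (fullEtB B hB hqM S₀ S hζ ve hOe w hw) v) q ?_ _
  rw [finrankAlong_fullEtB B hB hqM hζ S₀ S ve hOe w hw hfin v]
  exact coprime_card_fullEtB B hB hqM hζ v

end Et

section Can

variable (vb : ι₀) (hOb : S₀.O vb = O1 M B hB) (wb : ι) (hwb : S.O wb = w1 M B hB)

include hqM in
/-- **`hpow` of `PushModNRB.hpb_of_fulls`**, generic form: `ψ (N_ψ g) = g ^ q` for the residue
extension `ψ` of `cInf` over `can` along `β₂` (purely inseparable of degree `q`). -/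
theorem resHom_norm_fullCanB (hfin : FiniteAlong Kb (beta2 M q)) (g : Ft wb) :
    resHom (residue_surjective (R := B))
        (liesOverAlong_of_full (fullCanB B hB S₀ S vb hOb wb hwb) ())
      (normAlong (resHom (residue_surjective (R := B))
        (liesOverAlong_of_full (fullCanB B hB S₀ S vb hOb wb hwb) ())) g) = g ^ q := by
  haveI := expChar_Ft₀ B hB (Ft₀ := Ft₀) vb
  have h := resHom_norm_of_insep hfin (residue_surjective (R := B))
    (fullCanB B hB S₀ S vb hOb wb hwb) () q 1 g
    (pow_mem_range_fullCanB B hB hqM S₀ S vb hOb wb hwb g)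
  rw [Fintype.card_fin] at h
  exact h

/-- the degree of the residue extension of `cInf` over `can` along `β₂` -/
theorem finrankAlong_fullCanB (hfin : FiniteAlong Kb (beta2 M q)) :
    finrankAlong kB (resHom (residue_surjective (R := B))
      (liesOverAlong_of_full (fullCanB B hB S₀ S vb hOb wb hwb) ())) = q := by
  rw [finrankAlong_resHom hfin (residue_surjective (R := B))
    (fullCanB B hB S₀ S vb hOb wb hwb) (), Fintype.card_fin]

end Can

end Generic

/-! ### the adapters for `PushModNRB.psiB` -/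

section Adapters

open Fermat.Agent.BR.Refine Fermat.Agent.BR.Circle Fermat.Agent.BR.S0 Fermat.Agent.BR.P1
open Fermat.Agent.BR.S0.PointDict Fermat.Agent.BR.S0.RedModular Fermat.Agent.BR.Final
open Fermat.Agent.BR2.SetupOfData Fermat.Agent.BR3.CircleN Fermat.Agent.BR3.SRef
open Fermat.Agent.BR3.SRef.Modular Fermat.Agent.BR3.SDD
open Fermat.Agent.BR3.MultiVal Fermat.Agent.BR3.PushModFull Fermat.Agent.BR3.PushModNRB

variable {M q : ℕ} [NeZero M] [hq : Fact q.Prime]
variable {B : ValuationSubring (AlgebraicClosure ℚ)} {hB : B.LiesOverPrime q} {hqM : ¬ q ∣ M}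
variable [IsAlgClosed (ResidueField B)]

local notation "kB" => IsLocalRing.ResidueField B
local notation "FtM" => modularFunctionFieldFullC (IsLocalRing.ResidueField B) M
local notation "Kb" => AlgebraicClosure ℚ

/-- (shortcut instance) -/
local instance (priority := 100000) instAlgebraFtMShortcutFPB :
    Algebra (IsLocalRing.ResidueField B)
      (modularFunctionFieldFullC (IsLocalRing.ResidueField B) M) :=
  inferInstance

variable (Dt : ModularData M q B hB hqM)
  (a₀ : Crossing (chartDataModular B hB hqM) → Kb) (hadm : ∀ e, (inputs Dt).adm e (a₀ e))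

/-! #### any `Full` families -/

section AnyFull

variable {Mid KP : Type} [Fintype Mid] [Fintype KP]
  {Ft : Comp Mid (Crossing (chartDataModular B hB hqM)) → Type}
  [∀ v, Field (Ft v)] [∀ v, Algebra (ResidueField B) (Ft v)]
  (X : CaseInput (F := Fb (M * q * q)) B Mid (Crossing (chartDataModular B hB hqM)) KP Ft)
  (φ : Fb (M * q) →ₐ[Kb] Fb (M * q * q))
  (φe : Crossing (chartDataModular B hB hqM) ≃ Crossing (chartDataModular B hB hqM))
  {κc : Type} [Fintype κc] {κz : Option Mid → Type} [∀ j, Fintype (κz j)]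
  {κe : (oneLevel (inputs Dt) a₀ hadm).X → Type} [∀ x, Fintype (κe x)]
  (Dcan : letI := algebraAlong φ
    MultiVal.Full ((setup Dt).O 0) (fun _ : Unit => X.toInput.setup.O cInf) (fun _ => κc))
  (Det : letI := algebraAlong φ
    MultiVal.Full ((setup Dt).O 1) (fun j : Option Mid => X.toInput.setup.O (wOpt cZero j)) κz)
  (Dexc : ∀ x : (oneLevel (inputs Dt) a₀ hadm).X, letI := algebraAlong φ
    MultiVal.Full ((srefM Dt a₀ hadm).O (Sum.inr x))
      (fun _ : Unit => X.toInput.setup.O (ze (fstB Dt a₀ hadm φe x))) (fun _ => κe x))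

/-- the degree of `psiB … (Sum.inl 1) j` (over `'et'`) -/
theorem finrankAlong_psiB_et (hfin : FiniteAlong Kb φ) (j : Option Mid) :
    finrankAlong kB (psiB Dt a₀ hadm X φ φe Dcan Det Dexc (Sum.inl 1) j) =
      Fintype.card (κz j) :=
  finrankAlong_resHom hfin residue_surjective_B
    (fullB Dt a₀ hadm X φ φe Dcan Det Dexc (Sum.inl 1)) j

/-- the degree of `psiB … (Sum.inl 0) ()` (over `'can'`) -/
theorem finrankAlong_psiB_can (hfin : FiniteAlong Kb φ) :
    finrankAlong kB (psiB Dt a₀ hadm X φ φe Dcan Det Dexc (Sum.inl 0) ()) =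
      Fintype.card κc :=
  finrankAlong_resHom hfin residue_surjective_B
    (fullB Dt a₀ hadm X φ φe Dcan Det Dexc (Sum.inl 0)) ()

/-- the degree of `psiB … (Sum.inr x) ()` (over the exceptional component of the level `x`) -/
theorem finrankAlong_psiB_exc (hfin : FiniteAlong Kb φ)
    (x : (oneLevel (inputs Dt) a₀ hadm).X) :
    finrankAlong kB (psiB Dt a₀ hadm X φ φe Dcan Det Dexc (Sum.inr x) ()) =
      Fintype.card (κe x) :=
  finrankAlong_resHom hfin residue_surjective_B
    (fullB Dt a₀ hadm X φ φe Dcan Det Dexc (Sum.inr x)) ()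

/-- **`hFIet` of `PushModNRB.hpb_of_fulls`** for ANY `Det` whose residue degrees are prime to
`q`. -/
theorem hFIet_of_coprime [∀ w', HasPrincipalDivisors kB (Ft w')] (hfin : FiniteAlong Kb φ)
    (hcop : ∀ j : Option Mid, (Fintype.card (κz j)).Coprime q) (j : Option Mid) :
    FundamentalIdentityAlong kB
      (psiB Dt a₀ hadm X φ φe Dcan Det Dexc (Sum.inl 1) j)
      (isIntegral_psiB Dt a₀ hadm X φ φe Dcan Det Dexc hfin (Sum.inl 1) j) := by
  haveI : ExpChar (FtR (fun _ : Fin 2 => FtM) B (oneLevel (inputs Dt) a₀ hadm).X (Sum.inl 1)) q :=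
    expChar_Ft₀ B hB (Ft₀ := FtR (fun _ : Fin 2 => FtM) B (oneLevel (inputs Dt) a₀ hadm).X)
      (Sum.inl 1)
  refine fundamentalIdentityAlong_of_coprime _
    (finiteAlong_psiB Dt a₀ hadm X φ φe Dcan Det Dexc hfin (Sum.inl 1) j) q ?_ _
  rw [finrankAlong_psiB_et Dt a₀ hadm X φ φe Dcan Det Dexc hfin j]
  exact hcop j

/-- **`hpow` of `PushModNRB.hpb_of_fulls`** for ANY `Dcan` of residue degree `q` whose residue
extension is purely inseparable of exponent one. -/
theorem hpow_of_pow_mem_range (hfin : FiniteAlong Kb φ) (hcard : Fintype.card κc = q)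
    (hrange : ∀ g : Ft cInf, g ^ q ^ 1 ∈
      (psiB Dt a₀ hadm X φ φe Dcan Det Dexc (Sum.inl 0) ()).toRingHom.range)
    (g : Ft cInf) :
    psiB Dt a₀ hadm X φ φe Dcan Det Dexc (Sum.inl 0) ()
      (normAlong (psiB Dt a₀ hadm X φ φe Dcan Det Dexc (Sum.inl 0) ()) g) = g ^ q := by
  haveI : ExpChar (FtR (fun _ : Fin 2 => FtM) B (oneLevel (inputs Dt) a₀ hadm).X (Sum.inl 0)) q :=
    expChar_Ft₀ B hB (Ft₀ := FtR (fun _ : Fin 2 => FtM) B (oneLevel (inputs Dt) a₀ hadm).X)
      (Sum.inl 0)
  have h := resHom_norm_of_insep (S₀ := srefM Dt a₀ hadm) (S := X.toInput.setup) (φ := φ) hfin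
    residue_surjective_B (fullB Dt a₀ hadm X φ φe Dcan Det Dexc (Sum.inl 0)) () q 1 g (hrange g)
  exact h.trans (congrArg (fun n : ℕ => g ^ n) hcard)

end AnyFull

/-! #### the `Full` families of `BR3/FullB` -/

section FullBFamilies

variable {ζ : Kbˣ} (hζ : IsPrimitiveRoot ζ q) {KP : Type} [Fintype KP]
  {Ft : Comp (Mid B hB hqM hζ) (Crossing (chartDataModular B hB hqM)) → Type}
  [∀ v, Field (Ft v)] [∀ v, Algebra (ResidueField B) (Ft v)]
  (X : CaseInput (F := Fb (M * q * q)) B (Mid B hB hqM hζ)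
    (Crossing (chartDataModular B hB hqM)) KP Ft)
  (φe : Crossing (chartDataModular B hB hqM) ≃ Crossing (chartDataModular B hB hqM))
  (hOb : (setup Dt).O 0 = O1 M B hB) (hwb : X.toInput.setup.O cInf = w1 M B hB)
  (hOe : (setup Dt).O 1 = O2 B hB hqM)
  (hw : ∀ v, X.toInput.setup.O (wOpt cZero v) = OAllB B hB hqM hζ v)
  {κe : (oneLevel (inputs Dt) a₀ hadm).X → Type} [∀ x, Fintype (κe x)]
  (Dexc : ∀ x : (oneLevel (inputs Dt) a₀ hadm).X, letI := algebraAlong (beta2 M q)
    MultiVal.Full ((srefM Dt a₀ hadm).O (Sum.inr x))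
      (fun _ : Unit => X.toInput.setup.O (ze (fstB Dt a₀ hadm φe x))) (fun _ => κe x))

/-- **`hFIet` of `PushModNRB.hpb_of_fulls` / `PushModExcPlugB.hpb_of_fulls_vert`** for
`Det := FullB.fullEtB` (any `Dcan`, `Dexc`). -/
theorem hFIet_psiB [∀ w', HasPrincipalDivisors kB (Ft w')] {κc : Type} [Fintype κc]
    (Dcan : letI := algebraAlong (beta2 M q)
      MultiVal.Full ((setup Dt).O 0) (fun _ : Unit => X.toInput.setup.O cInf) (fun _ => κc))
    (hfin : FiniteAlong Kb (beta2 M q)) (j : Option (Mid B hB hqM hζ)) :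
    FundamentalIdentityAlong kB
      (psiB Dt a₀ hadm X (beta2 M q) φe Dcan
        (fullEtB B hB hqM (setup Dt) X.toInput.setup hζ 1 hOe (wOpt cZero) hw) Dexc (Sum.inl 1) j)
      (isIntegral_psiB Dt a₀ hadm X (beta2 M q) φe Dcan
        (fullEtB B hB hqM (setup Dt) X.toInput.setup hζ 1 hOe (wOpt cZero) hw) Dexc hfin
        (Sum.inl 1) j) :=
  hFIet_of_coprime Dt a₀ hadm X (beta2 M q) φe Dcan
    (fullEtB B hB hqM (setup Dt) X.toInput.setup hζ 1 hOe (wOpt cZero) hw) Dexc hfin
    (coprime_card_fullEtB B hB hqM hζ) j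

/-- **`hpow` of `PushModNRB.hpb_of_fulls` / `PushModExcPlugB.hpb_of_fulls_vert`** for
`Dcan := FullB.fullCanB` (any `Det`, `Dexc`). -/
theorem hpow_psiB {κz : Option (Mid B hB hqM hζ) → Type} [∀ j, Fintype (κz j)]
    (Det : letI := algebraAlong (beta2 M q)
      MultiVal.Full ((setup Dt).O 1)
        (fun j : Option (Mid B hB hqM hζ) => X.toInput.setup.O (wOpt cZero j)) κz)
    (hfin : FiniteAlong Kb (beta2 M q)) (g : Ft cInf) :
    psiB Dt a₀ hadm X (beta2 M q) φe
        (fullCanB B hB (setup Dt) X.toInput.setup 0 hOb cInf hwb) Det Dexc (Sum.inl 0) ()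
      (normAlong (psiB Dt a₀ hadm X (beta2 M q) φe
        (fullCanB B hB (setup Dt) X.toInput.setup 0 hOb cInf hwb) Det Dexc (Sum.inl 0) ()) g) =
      g ^ q :=
  hpow_of_pow_mem_range Dt a₀ hadm X (beta2 M q) φe
    (fullCanB B hB (setup Dt) X.toInput.setup 0 hOb cInf hwb) Det Dexc hfin (Fintype.card_fin q)
    (fun g => pow_mem_range_fullCanB B hB hqM (srefM Dt a₀ hadm) X.toInput.setup (Sum.inl 0) hOb
      cInf hwb g) g

end FullBFamilies

end Adapters

end Fermat.Agent.BR3.FullPlugB
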