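import Fermat.Agent.BR3.FullPlug
import Fermat.Agent.BR3.S36Plug

/-!
# Program C (S36), (G5) for the named inputs of `S''`: `S36Plug.HkindProp` from ring identifications

`I : SDD.Input (F := Fb (M * q * q)) B (FibreProd.Mid B hB hqM hζ) SSp KP Ft` (the middle components
are indexed by helper6's middle valuations, as in `SDD/ModularC.lean`), `S₀` a semistable setup on
`Fb (M * q)` with components `vcan`, `vet` of valuation rings `O1`, `O2` (`S' = SetupOfData.setup Dt`
with `vcan = 0`, `vet = 1`, or `S'ref`).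

* **`hkindProp_of_input`** : `S36Plug.HkindProp M q lam B I hFt (q - 1) e₂` (the argument `hkind` of
  `S36Plug.modelAt_of_input`) from `(I.C cInf).O = w₁`, `(I.C cZero).O = cZero`,
  `(I.C (mid i)).O = i.ring` and the vertical hypothesis `hvert`.
-/

set_option autoImplicit false
set_option linter.style.haveILetI false
set_option linter.unusedSectionVars false
set_option linter.unusedVariables false

open ModularCurve AlgebraicCurve

noncomputable section

set_option synthInstance.maxHeartbeats 400000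

namespace Fermat.Agent.BR3.FullPlugSDD

open IsLocalRing Fermat.Agent.Jac Fermat.Agent.X0 Fermat.Agent.Val Fermat.Agent.Red
  Fermat.Agent.BR.SS Fermat.Agent.BR Fermat.Agent.BR2.Filt Fermat.Agent.BR3.FiltMaps
  Fermat.Agent.BR3.FiltPerm Fermat.Agent.BR.LevelTransfer Fermat.Agent.BR2.LevelMaps
  Fermat.Agent.BR3.FibreProd Fermat.Agent.BR3.CZero Fermat.Agent.BR3.SDD
  Fermat.Agent.BR.TwoVal

local notation "Qb" => AlgebraicClosure ℚ

variable {M q : ℕ} [NeZero M] [hq : Fact q.Prime] [NeZero q]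
variable (B : ValuationSubring (AlgebraicClosure ℚ)) (hB : B.LiesOverPrime q) (hqM : ¬ q ∣ M)
  {ζ : Kbˣ} (hζ : IsPrimitiveRoot ζ q) [IsAlgClosed (ResidueField B)]

variable {ι₀ : Type*} {Ft₀ : ι₀ → Type*} [∀ v, Field (Ft₀ v)]
  [∀ v, Algebra (IsLocalRing.ResidueField B) (Ft₀ v)] {ν₀ : Type*}
  (S₀ : SemistableSetup (F := Fb (M * q)) B (residue B) ι₀ Ft₀ ν₀)
  {SSp KP : Type} [Fintype SSp] [Fintype KP]
  {Ft : Comp (Mid B hB hqM hζ) SSp → Type} [∀ v, Field (Ft v)]
  [∀ v, Algebra (IsLocalRing.ResidueField B) (Ft v)]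
  (I : Input (F := Fb (M * q * q)) B (Mid B hB hqM hζ) SSp KP Ft)

include hB hqM hζ in
/-- **(G5) for `S'' = I.setup`**, in the form of `S36Plug.modelAt_of_input`. -/
theorem hkindProp_of_input (lam : ℕ) (hlam : lam.Prime) (hqlam : q ≠ lam)
    (hFt : ∀ v, RiemannPkg (ResidueField B) (Ft v))
    (hFt₀ : ∀ v, RiemannPkg (ResidueField B) (Ft₀ v))
    (vcan vet : ι₀) (hOcan : S₀.O vcan = O1 M B hB) (hOet : S₀.O vet = O2 B hB hqM)
    (hInf : (I.C cInf).O = w1 M B hB) (hZero : (I.C SDD.cZero).O = CZero.cZero B hB hqM)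
    (hMid : ∀ i, (I.C (mid i)).O = i.ring B hB hqM hζ)
    (e₂ : ℕ)
    (hvert : ∀ e : SSp, ∃ s ∈ B.inertiaSubgroupIn ℚ,
      ∃ a : Ft (ze e) ≃ₐ[ResidueField B] Ft (ze e),
        MapsComp I.setup (galAut (M * q * q) s) (ze e) (ze e) a ∧
        ∀ x : Pic0 (ResidueField B) (Ft (ze e)), SemilinearAut.ofAlgAut a • x = x → e₂ • x = 0) :
    S36Plug.HkindProp M q lam B I hFt (q - 1) e₂ := by
  intro m hm y hinv ha hb v
  exact FullPlug.hkind_of_rings B hB hqM hζ S₀ I.setup lam hlam hqlam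
    (Fermat.Agent.Val.riemannPkg_bar (M * q * q)) hFt hFt₀ hlam.ne_zero
    (Equiv.refl (Comp (Mid B hB hqM hζ) SSp)) vcan vet hOcan hOet hInf hZero hMid e₂ hvert
    m y hinv ha hb v

end Fermat.Agent.BR3.FullPlugSDD
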