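import Mathlib
import Fermat.Agent.BR3.G5Multi

/-!
# Program C (S36), node (C-G5M), file 2: the graph part of a push-forward

Setting of `BR3/G5Multi`: `S₀` a semistable setup on `F₀ / K`, `S` a semistable setup on `F / K`,
`φ : F₀ →ₐ[K] F` finite, `φ_* := PicFunct.pic0Push φ`.  Fix a node `e'` of `S₀`, with source
component `v = S₀.src e'` and source branch `Q' = S₀.s₁ e'`; the components of `S` over `v` are
the `w j` (`w` injective) with residue extensions `ψ j`, and `NormRes S₀ S φ v w ψ` holds.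

* `PlaceOver ψ Q Q'` : the place `Q` of `L` lies over the place `Q'` of `L₀` along `ψ : L₀ →ₐ[k] L`
  (`placeOver_iff_restrict`);
* `ord_normAlong_eq_sum` : `ord_{Q'} (N_ψ g) = ∑_{Q over Q'} ord_Q g` (all places of degree one);
* **`graphOrd_push`** : if the branch points of `S` over `(v, Q')` are exactly, each once, the
  SOURCE branches of the nodes `nd n` (`n : N`) of `S`, then for an `m`-torsion class `x`
  `graphOrd S₀ m (φ_* x) e' = ∑ n, graphOrd S m x (nd n)`.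
-/

set_option autoImplicit false
set_option linter.unusedVariables false
set_option linter.unusedSectionVars false
set_option linter.style.haveILetI false

noncomputable section

namespace Fermat.Agent.BR3.G5MultiGraph

open AlgebraicCurve Fermat.Agent.Red Fermat.Agent.BR.SS Fermat.Agent.Jac Fermat.Agent.BR
  Fermat.Agent.BR2.Filt Fermat.Agent.BR2.G5 Fermat.Agent.BR3.FiltMaps Fermat.Agent.X0
  Fermat.Agent.BR3.G5Multi

section Places

variable {k L₀ L : Type*} [Field k] [Field L₀] [Field L] [Algebra k L₀] [Algebra k L]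

/-- the place `Q` of `L` lies over the place `Q'` of `L₀` along `ψ` -/
def PlaceOver (ψ : L₀ →ₐ[k] L) (Q : Place k L) (Q' : Place k L₀) : Prop :=
  Q.toValuationSubring.comap ψ.toRingHom = Q'.toValuationSubring

theorem placeOver_iff_restrict (ψ : L₀ →ₐ[k] L) (hψ : ψ.toRingHom.IsIntegral) (Q : Place k L)
    (Q' : Place k L₀) :
    letI := algebraAlong ψ
    haveI := isScalarTower_along ψ
    haveI := isIntegral_along ψ hψ
    PlaceOver ψ Q Q' ↔ Q.restrict L₀ = Q' := by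
  letI := algebraAlong ψ
  haveI := isScalarTower_along ψ
  haveI := isIntegral_along ψ hψ
  constructor
  · intro h
    exact Place.ext h
  · intro h
    exact congrArg Place.toValuationSubring h

/-- **the order of a norm at a place** is the sum of the orders at the places above, when all
places have degree one -/
theorem ord_normAlong_eq_sum [HasPrincipalDivisors k L₀] [HasPrincipalDivisors k L]
    (ψ : L₀ →ₐ[k] L) (hψ : ψ.toRingHom.IsIntegral) (hfin : FiniteAlong k ψ)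
    (hN : NormFormulaAlong k ψ hfin) (hdeg₀ : ∀ P : Place k L₀, P.deg = 1)
    (hdeg : ∀ P : Place k L, P.deg = 1) {g : L} (hg : g ≠ 0) (Q' : Place k L₀)
    [DecidablePred fun Q : Place k L => PlaceOver ψ Q Q'] :
    Q'.ord (normAlong ψ g) =
      ∑ Q ∈ (divOf k g).support.filter (fun Q => PlaceOver ψ Q Q'), Q.ord g := by
  classical
  rw [← divOf_apply (normAlong ψ g) Q', ← pushforwardAlong_divOf ψ hψ hfin hN hg]
  letI := algebraAlong ψ
  haveI := isScalarTower_along ψ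
  haveI := isIntegral_along ψ hψ
  show Divisor.pushforward L₀ (divOf k g) Q' = _
  rw [Divisor.pushforward_apply, Finset.sum_filter]
  refine Finset.sum_congr rfl fun Q _ => ?_
  have hi : Q.inertiaDeg L₀ = 1 := by
    have h1 := Q.deg_restrict_mul_inertiaDeg (F := L₀)
    rwa [hdeg₀, hdeg, one_mul] at h1
  by_cases h : Q.restrict L₀ = Q'
  · rw [if_pos h, if_pos ((placeOver_iff_restrict ψ hψ Q Q').mpr h), hi, divOf_apply]
    simp
  · rw [if_neg h, if_neg (fun h' => h ((placeOver_iff_restrict ψ hψ Q Q').mp h'))]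

end Places

variable {K k : Type*} [Field K] [Field k] {A : ValuationSubring K} {π : A →+* k}
  {F₀ F : Type*} [Field F₀] [Algebra K F₀] [Field F] [Algebra K F]
  {ι₀ : Type*} {Ft₀ : ι₀ → Type*} [∀ v, Field (Ft₀ v)] [∀ v, Algebra k (Ft₀ v)] {ν₀ : Type*}
  {ι : Type*} {Ft : ι → Type*} [∀ w, Field (Ft w)] [∀ w, Algebra k (Ft w)] {ν : Type*}
  {S₀ : SemistableSetup (F := F₀) A π ι₀ Ft₀ ν₀} {S : SemistableSetup (F := F) A π ι Ft ν}
  [HasPrincipalDivisors K F₀] [HasPrincipalDivisors K F]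

/-- **(C-G5M), graph version.** The graph part of `φ_* x` at the node `e'` of `S₀` is the sum of
the graph parts of `x` at the nodes of `S` over `e'` (orientations compatible: the branch points
of `S` over the source branch of `e'` are the source branches of the nodes `nd n`). -/
theorem graphOrd_push
    (hF₀ : RiemannPkg K F₀) (hFt₀ : ∀ v, RiemannPkg k (Ft₀ v))
    (hF : RiemannPkg K F) (hFt : ∀ w, RiemannPkg k (Ft w))
    (φ : F₀ →ₐ[K] F) (hφ : φ.toRingHom.IsIntegral) (hfin : FiniteAlong K φ)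
    (hN : NormFormulaAlong K φ hfin)
    (e' : ν₀) {J : Type*} [Fintype J] {w : J → ι} (hw : Function.Injective w)
    {ψ : ∀ j, Ft₀ (S₀.src e') →ₐ[k] Ft (w j)}
    (hNR : NormRes S₀ S φ (S₀.src e') w ψ)
    (hψ : ∀ j, (ψ j).toRingHom.IsIntegral) (hfinψ : ∀ j, FiniteAlong k (ψ j))
    (hNψ : ∀ j, NormFormulaAlong k (ψ j) (hfinψ j))
    {N : Type*} [Fintype N] (nd : N → ν) (hnd : Function.Injective nd)
    (hover : ∀ n, ∃ j, ∃ Q : Place k (Ft (w j)), PlaceOver (ψ j) Q (S₀.s₁ e') ∧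
      (⟨S.src (nd n), S.s₁ (nd n)⟩ : Σ w, Place k (Ft w)) = ⟨w j, Q⟩)
    (hall : ∀ j (Q : Place k (Ft (w j))), PlaceOver (ψ j) Q (S₀.s₁ e') →
      S.IsBranch ⟨w j, Q⟩ →
      ∃ n, (⟨S.src (nd n), S.s₁ (nd n)⟩ : Σ w, Place k (Ft w)) = ⟨w j, Q⟩)
    {m : ℕ} {x : Pic0 K F} (hx : m • x = 0) :
    graphOrd S₀ m (PicFunct.pic0Push φ hφ hfin hN x) e' = ∑ n, graphOrd S m x (nd n) := by
  classical
  haveI := fun w => (hFt w).principal
  haveI := fun v => (hFt₀ v).principal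
  obtain ⟨D, f, hR⟩ := exists_isRep (K := K) (F := F) hx
  have hf : f ≠ 0 := hR.2.1
  choose gg hgg using fun w' : ι => exists_isResidue (S := S) w' hf
  have hgg0 : ∀ w', gg w' ≠ 0 := fun w' => (hgg w').ne_zero
  -- the value function on the points of the special fibre of `S`
  obtain ⟨val, hval⟩ : ∃ val : (Σ w', Place k (Ft w')) → ZMod m,
      ∀ X, val X = ((X.2.ord (gg X.1) : ℤ) : ZMod m) := ⟨_, fun _ => rfl⟩
  -- non-branch points have value zero
  have hval0 : ∀ X : Σ w', Place k (Ft w'), ¬ S.IsBranch X → val X = 0 := by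
    rintro ⟨w', Q⟩ hX
    rw [hval]
    show ((Q.ord (gg w') : ℤ) : ZMod m) = 0
    rw [ord_residue_eq hR (hgg w') hX]
    simp
  -- the right hand side
  have hRn : ∀ n, graphOrd S m x (nd n) = val ⟨S.src (nd n), S.s₁ (nd n)⟩ := fun n => by
    rw [hval]
    exact graphOrd_eq hF hR (hgg (S.src (nd n)))
  -- the left hand side
  have hL : graphOrd S₀ m (PicFunct.pic0Push φ hφ hfin hN x) e' =
      (((S₀.s₁ e').ord (∏ j, normAlong (ψ j) (gg (w j))) : ℤ) : ZMod m) :=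
    graphOrd_eq hF₀ (isRep_push φ hφ hfin hN hR)
      (hNR f (fun j => gg (w j)) (fun j => hgg (w j)))
  have hne : ∀ j, normAlong (ψ j) (gg (w j)) ≠ 0 :=
    fun j => normAlong_ne_zero (ψ j) (hfinψ j) (hgg0 (w j))
  have hprod : (S₀.s₁ e').ord (∏ j, normAlong (ψ j) (gg (w j))) =
      ∑ j, (S₀.s₁ e').ord (normAlong (ψ j) (gg (w j))) := by
    rw [← divOf_apply, divOf_prod Finset.univ _ (fun j _ => hne j), Finsupp.finsetSum_apply]
    exact Finset.sum_congr rfl fun j _ => divOf_apply _ _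
  obtain ⟨Afin, hAfin⟩ : ∃ Afin : ∀ j, Finset (Place k (Ft (w j))), ∀ j,
      Afin j = (divOf k (gg (w j))).support.filter (fun Q => PlaceOver (ψ j) Q (S₀.s₁ e')) :=
    ⟨_, fun _ => rfl⟩
  have hj : ∀ j, (S₀.s₁ e').ord (normAlong (ψ j) (gg (w j))) =
      ∑ Q ∈ Afin j, Q.ord (gg (w j)) := fun j => by
    rw [hAfin]
    exact ord_normAlong_eq_sum (ψ j) (hψ j) (hfinψ j) (hNψ j) (hFt₀ _).deg_one
      (hFt (w j)).deg_one (hgg0 (w j)) (S₀.s₁ e')
  have hsig : (((S₀.s₁ e').ord (∏ j, normAlong (ψ j) (gg (w j))) : ℤ) : ZMod m) =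
      ∑ X ∈ Finset.univ.sigma Afin, val ⟨w X.1, X.2⟩ := by
    have h1 : ∑ X ∈ Finset.univ.sigma Afin, val ⟨w X.1, X.2⟩ =
        ∑ j, ∑ Q ∈ Afin j, val ⟨w j, Q⟩ :=
      Finset.sum_sigma Finset.univ Afin (fun X => val ⟨w X.1, X.2⟩)
    have h2 : ∀ j, ((∑ Q ∈ Afin j, Q.ord (gg (w j)) : ℤ) : ZMod m) =
        ∑ Q ∈ Afin j, val ⟨w j, Q⟩ := fun j => by
      rw [Int.cast_sum]
      exact Finset.sum_congr rfl fun Q _ => (hval ⟨w j, Q⟩).symm
    rw [h1, hprod, Int.cast_sum]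
    exact Finset.sum_congr rfl fun j _ => by rw [hj j, h2 j]
  rw [hL, hsig, Finset.sum_congr rfl (fun n _ => hRn n)]
  -- the membership in `Afin`
  have hmemA : ∀ j (Q : Place k (Ft (w j))), Q ∈ Afin j ↔
      Q.ord (gg (w j)) ≠ 0 ∧ PlaceOver (ψ j) Q (S₀.s₁ e') := by
    intro j Q
    rw [hAfin, Finset.mem_filter, Finsupp.mem_support_iff, divOf_apply]
  have hvalne : ∀ j (Q : Place k (Ft (w j))), val ⟨w j, Q⟩ ≠ 0 → Q.ord (gg (w j)) ≠ 0 := by
    intro j Q h h0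
    apply h
    rw [hval]
    show ((Q.ord (gg (w j)) : ℤ) : ZMod m) = 0
    rw [h0, Int.cast_zero]
  -- the bijection
  have key : ∀ X : Σ j, Place k (Ft (w j)), X ∈ Finset.univ.sigma Afin →
      val ⟨w X.1, X.2⟩ ≠ 0 →
      ∃ n, (⟨S.src (nd n), S.s₁ (nd n)⟩ : Σ w, Place k (Ft w)) = ⟨w X.1, X.2⟩ := by
    rintro ⟨j, Q⟩ hX hv
    rw [Finset.mem_sigma] at hX
    have hover' := ((hmemA j Q).mp hX.2).2
    refine hall j Q hover' ?_
    by_contra hbr
    exact hv (hval0 _ hbr)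
  choose i hi using key
  have hbinj : ∀ n₁ n₂ : N, (⟨S.src (nd n₁), S.s₁ (nd n₁)⟩ : Σ w, Place k (Ft w)) =
      ⟨S.src (nd n₂), S.s₁ (nd n₂)⟩ → n₁ = n₂ := by
    intro n₁ n₂ h
    have h1 := S.branch_injective (a₁ := Sum.inl (nd n₁)) (a₂ := Sum.inl (nd n₂)) h
    exact hnd (Sum.inl.inj h1)
  refine Finset.sum_bij_ne_zero i (fun _ _ _ => Finset.mem_univ _) ?_ ?_ ?_
  · rintro ⟨j₁, Q₁⟩ h₁₁ h₁₂ ⟨j₂, Q₂⟩ h₂₁ h₂₂ h
    have e1 := hi ⟨j₁, Q₁⟩ h₁₁ h₁₂
    have e2 := hi ⟨j₂, Q₂⟩ h₂₁ h₂₂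
    rw [h] at e1
    have e3 : (⟨w j₁, Q₁⟩ : Σ w, Place k (Ft w)) = ⟨w j₂, Q₂⟩ := e1.symm.trans e2
    obtain ⟨h4, h5⟩ := Sigma.mk.inj_iff.mp e3
    have h6 : j₁ = j₂ := hw h4
    subst h6
    rw [eq_of_heq h5]
  · intro n _ hn
    obtain ⟨j, Q, hQ, heq⟩ := hover n
    have hv : val ⟨w j, Q⟩ ≠ 0 := by rwa [← heq]
    have hmem : (⟨j, Q⟩ : Σ j, Place k (Ft (w j))) ∈ Finset.univ.sigma Afin := by
      rw [Finset.mem_sigma]
      exact ⟨Finset.mem_univ _, (hmemA j Q).mpr ⟨hvalne j Q hv, hQ⟩⟩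
    refine ⟨⟨j, Q⟩, hmem, hv, ?_⟩
    exact hbinj _ _ ((hi ⟨j, Q⟩ hmem hv).trans heq.symm)
  · intro X h₁ h₂
    rw [hi X h₁ h₂]

end Fermat.Agent.BR3.G5MultiGraph
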