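import Fermat.Agent.BR.GaussCompare

/-!
# Program C, node A10 (APPROX), part 2a: the Gauss valuation pulled back along an embedding

`σ : F →+* L((q))` a ring homomorphism from a field `F` such that every nonzero `σ x` has content
(`Val.HasContent`).  Then

* `embVal A π σ hσ : ValuationSubring F` — the elements with Gauss-integral image;
* `embRes A π σ hσ : embVal →+* k((q))` — the residue map, kernel = non-units
  (`embRes_eq_zero_iff`), constants (`algebraMap_mem_embVal_iff`, `embRes_algebraMap`);
* `compare_emb` — **Compare**: if every `σ x` lies in `fracFieldOver A (locKToA A K)` for all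
  sufficiently large number fields `K ⊆ L`, the unit ball of a finite-dimensional `L`-subspace of
  `F` is bounded in coordinates (the proof of `GaussCompare.compare_bar` with the modular input
  replaced by this hypothesis); `hasContent_of_frac` — the same hypothesis gives content.

Application (part 2b): `σ := FibreProd.sigmaB`, the conjugate embeddings of `F̄_{Mq²}` over
`α₂ F̄_{Mq}`: the middle components.
-/

set_option autoImplicit false
set_option linter.style.haveILetI false
set_option linter.unusedSectionVars false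

noncomputable section

namespace Fermat.Agent.BR3.GaussEmb

open Fermat.Agent.Val ModularCurve Fermat.Agent.BR.GaussCompare

section Basic

variable {L : Type*} [Field L] (A : ValuationSubring L) {k : Type*} [Field k] (π : A →+* k)
variable {F : Type*} [Field F] (σ : F →+* LaurentSeries L)
  (hσ : ∀ x : F, x ≠ 0 → ∃ c, HasContent A π (σ x) c)

/-- The Gauss valuation subring of `F` along `σ`. -/
def embVal : ValuationSubring F :=
  { (gaussRingA A π).comap σ with
    mem_or_inv_mem' := fun x => by
      by_cases hx0 : x = 0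
      · left
        show σ x ∈ gaussRingA A π
        rw [hx0, map_zero]
        exact (gaussRingA A π).zero_mem
      obtain ⟨c, hc⟩ := hσ x hx0
      rcases A.mem_or_inv_mem c with h | h
      · left
        exact hc.mem_gaussRingA_of_mem h
      · right
        show σ x⁻¹ ∈ gaussRingA A π
        rw [map_inv₀]
        exact hc.inv.mem_gaussRingA_of_mem h }

theorem mem_embVal_iff {x : F} : x ∈ embVal A π σ hσ ↔ σ x ∈ gaussRingA A π := Iff.rfl

/-- The residue map of `embVal`, with values in `k((q))`. -/
def embRes : embVal A π σ hσ →+* LaurentSeries k :=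
  (gaussResA A π).comp
    { toFun := fun x => ⟨σ (x : F), x.2⟩
      map_one' := Subtype.ext (map_one σ)
      map_mul' := fun x y => Subtype.ext (map_mul σ (x : F) (y : F))
      map_zero' := Subtype.ext (map_zero σ)
      map_add' := fun x y => Subtype.ext (map_add σ (x : F) (y : F)) }

theorem embRes_apply (x : embVal A π σ hσ) :
    embRes A π σ hσ x = gaussResA A π ⟨σ (x : F), x.2⟩ := rfl

theorem isUnit_iff_embRes_ne_zero (x : embVal A π σ hσ) :
    IsUnit x ↔ embRes A π σ hσ x ≠ 0 := by
  constructor
  · intro hx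
    exact (hx.map (embRes A π σ hσ)).ne_zero
  · intro hx
    have hx0 : (x : F) ≠ 0 := by
      intro h
      apply hx
      have : x = 0 := Subtype.ext h
      rw [this, map_zero]
    have hinv : ((x : F)⁻¹) ∈ embVal A π σ hσ := by
      show σ (x : F)⁻¹ ∈ gaussRingA A π
      rw [map_inv₀]
      exact inv_mem_gaussRingA_of_gaussResA_ne_zero A π ⟨σ (x : F), x.2⟩ hx
    refine ⟨⟨x, ⟨(x : F)⁻¹, hinv⟩, ?_, ?_⟩, rfl⟩
    · exact Subtype.ext (mul_inv_cancel₀ hx0)
    · exact Subtype.ext (inv_mul_cancel₀ hx0)

/-- The kernel of the residue map consists of the non-units. -/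
theorem embRes_eq_zero_iff (x : embVal A π σ hσ) : embRes A π σ hσ x = 0 ↔ ¬ IsUnit x := by
  rw [isUnit_iff_embRes_ne_zero, not_not]

section Const

variable [Algebra L F] (hC : ∀ c : L, σ (algebraMap L F c) = HahnSeries.C c)
  (hπ : ∀ a : A, a ∈ IsLocalRing.maximalIdeal A → π a = 0)

include hC hπ in
theorem algebraMap_mem_embVal_iff (c : L) : algebraMap L F c ∈ embVal A π σ hσ ↔ c ∈ A := by
  rw [mem_embVal_iff, hC]
  rcases eq_or_ne c 0 with rfl | hc
  · rw [map_zero]
    exact ⟨fun _ => A.zero_mem, fun _ => (gaussRingA A π).zero_mem⟩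
  · exact (hasContent_C A π hc).mem_gaussRingA_iff hπ

include hC in
theorem embRes_algebraMap (c : L) (hc : c ∈ A) (h : algebraMap L F c ∈ embVal A π σ hσ) :
    embRes A π σ hσ ⟨algebraMap L F c, h⟩ = HahnSeries.C (π ⟨c, hc⟩) := by
  obtain ⟨h', he⟩ := gaussResA_C A π ⟨c, hc⟩
  rw [embRes_apply]
  have : (⟨σ (algebraMap L F c), h⟩ : gaussRingA A π) = ⟨HahnSeries.C c, h'⟩ :=
    Subtype.ext (hC c)
  rw [this]
  exact he

include hC in
theorem smul_eq (c : L) (f : F) : σ (c • f) = HahnSeries.C c * σ f := by
  rw [Algebra.smul_def, map_mul, hC]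

end Const

end Basic

/-! ### Compare -/

section Compare

variable {L : Type*} [Field L] [Algebra ℚ L] (A : ValuationSubring L)
variable [Algebra.IsAlgebraic ℚ L] {k : Type*} [Field k] (π : A →+* k)
variable {F : Type*} [Field F] [Algebra L F] (σ : F →+* LaurentSeries L)

/-- `σ x` is a quotient of series over the local ring of every sufficiently large number field. -/
def IsFracAt (y : LaurentSeries L) : Prop :=
  ∃ K₀ : IntermediateField ℚ L, FiniteDimensional ℚ K₀ ∧
    ∀ K : IntermediateField ℚ L, K₀ ≤ K → ∀ _ : FiniteDimensional ℚ K,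
      y ∈ fracFieldOver A (locKToA A K)

variable {A} in
theorem IsFracAt.exists_hasContent {ℓ : ℕ} (hℓ : ℓ ≠ 0) (hA : A.LiesOverPrime ℓ)
    {y : LaurentSeries L} (hy : IsFracAt A y) (hy0 : y ≠ 0) : ∃ c, HasContent A π y c := by
  obtain ⟨K₀, hK₀, h⟩ := hy
  haveI := hK₀
  haveI := locK_isDVR A K₀ hℓ hA
  exact exists_hasContent_of_mem_fracFieldOver A π (locKToA A K₀) (locKToA_injective A K₀)
    (h K₀ le_rfl hK₀) hy0

variable {A} in
/-- finitely many `IsFracAt` series have a common number field -/
theorem exists_common {m : ℕ} {y : Fin m → LaurentSeries L} (hy : ∀ i, IsFracAt A (y i)) :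
    ∃ K : IntermediateField ℚ L, ∃ _ : FiniteDimensional ℚ K,
      ∀ i, y i ∈ fracFieldOver A (locKToA A K) := by
  choose K₀ hK₀ h using hy
  haveI := hK₀
  refine ⟨⨆ i, K₀ i, IntermediateField.finiteDimensional_iSup_of_finite, fun i => ?_⟩
  exact h i _ (le_iSup K₀ i) _

/-- **Compare** for the Gauss valuation along `σ`: the unit ball of a finite-dimensional
`L`-subspace of `F` is bounded in coordinates. -/
theorem compare_emb (hπ : ∀ a : A, a ∈ IsLocalRing.maximalIdeal A → π a = 0)
    {ℓ : ℕ} (hℓ : ℓ ≠ 0) (hA : A.LiesOverPrime ℓ)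
    (hC : ∀ c : L, σ (algebraMap L F c) = HahnSeries.C c)
    (hfrac : ∀ x : F, IsFracAt A (σ x)) {m : ℕ} (v : Fin m → F) (hv : LinearIndependent L v) :
    ∃ c : L, c ≠ 0 ∧ ∀ a : Fin m → L,
      σ (∑ i, a i • v i) ∈ gaussRingA A π → ∀ i, c * a i ∈ A := by
  classical
  obtain ⟨K', hK', hfr⟩ := exists_common (fun i => hfrac (v i))
  haveI := hK'
  haveI := locK_isDVR A K' hℓ hA
  choose s t hst using fun i => (mem_fracFieldOver_iff A _).1 (hfr i)
  have hv0 : ∀ i, σ (v i) ≠ 0 := fun i h =>
    hv.ne_zero i ((map_eq_zero σ).1 h)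
  have ht0 : ∀ i, oIota A (locKToA A K') (t i) ≠ 0 := by
    intro i h
    have := hst i
    rw [h, div_zero] at this
    exact hv0 i this.symm
  let T : LaurentSeries (locK A K') := ∏ i, t i
  let τ : Fin m → LaurentSeries (locK A K') := fun i => s i * ∏ j ∈ Finset.univ.erase i, t j
  have hT0 : oIota A (locKToA A K') T ≠ 0 := by
    show oIota A (locKToA A K') (∏ i, t i) ≠ 0
    rw [map_prod]
    exact Finset.prod_ne_zero_iff.2 fun i _ => ht0 i
  have hτ : ∀ i, σ (v i) * oIota A (locKToA A K') T = oIota A (locKToA A K') (τ i) := by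
    intro i
    show _ * oIota A (locKToA A K') (∏ i, t i) =
      oIota A (locKToA A K') (s i * ∏ j ∈ Finset.univ.erase i, t j)
    rw [← hst i, ← Finset.mul_prod_erase Finset.univ t (Finset.mem_univ i), map_mul, map_mul]
    have := ht0 i
    field_simp
  haveI : IsPrincipalIdealRing (locK A K') := IsDiscreteValuationRing.toIsPrincipalIdealRing
  haveI : IsNoetherianRing (locK A K') := PrincipalIdealRing.isNoetherianRing
  let ψ : ℤ → F →ₗ[L] L := fun n =>
    { toFun := fun f => (σ f * oIota A (locKToA A K') T).coeff n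
      map_add' := fun f g => by
        rw [map_add, add_mul, HahnSeries.coeff_add]
      map_smul' := fun c f => by
        rw [smul_eq σ hC, mul_assoc, HahnSeries.C_mul_eq_smul, HahnSeries.coeff_smul,
          RingHom.id_apply] }
  have hψ : ∀ n f, ψ n f = (σ f * oIota A (locKToA A K') T).coeff n := fun _ _ => rfl
  have hsep : ∀ f : F, (∀ n, ψ n f = 0) → f = 0 := by
    intro f hf
    have h1 : σ f * oIota A (locKToA A K') T = 0 :=
      HahnSeries.ext (funext fun n => hf n)
    exact (map_eq_zero σ).1 ((mul_eq_zero.1 h1).resolve_right hT0)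
  obtain ⟨c, hc0, hc⟩ := coord_bound A ψ hsep v hv
  refine ⟨c, hc0, fun a ha => hc a fun n => ?_⟩
  have hser : σ (∑ i, a i • v i) * oIota A (locKToA A K') T =
      ∑ i, HahnSeries.C (a i) * oIota A (locKToA A K') (τ i) := by
    rw [map_sum, Finset.sum_mul]
    refine Finset.sum_congr rfl fun i _ => ?_
    rw [smul_eq σ hC, mul_assoc, hτ i]
  have hmem : (∑ i, HahnSeries.C (a i) * oIota A (locKToA A K') (τ i)) ∈ gaussRingA A π := by
    rw [← hser]
    exact (gaussRingA A π).mul_mem ha (aIota_mem_gaussRingA A π _)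
  rw [hψ, hser]
  exact coeff_mem_of_mem_gaussRingA A π (locKToA A K') hπ τ a hmem n

end Compare

end Fermat.Agent.BR3.GaussEmb
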