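import Fermat.Agent.BR3.GaussEmb
import Fermat.Agent.Val.Approx

/-!
# Program C, node A10 (APPROX), part 2c: best approximation for a Gauss valuation along an embedding

Setting of `BR3/GaussEmb.lean`: `σ : F →+* L((q))` with contents, `embVal`, `embRes`.  If `F` is the
fraction field of an `L`-subalgebra `R` whose image under `σ` consists of `L`-linear combinations
of series with coefficients in (the image of) a Noetherian ring `O → A` (`intSpan A φ`), then
`(embVal, embRes)` has best approximations (`approx_emb`): verbatim the field `approx` of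
`Val.ConstRed`.  No `MultiVal.Full`, no counting of residue degrees.

* `intSpan A φ` — the `L`-subalgebra of `L((q))` generated by the series over `O`;
* `exists_comb_of_mem_intSpan` — its elements are finite combinations `∑ C (a i) * oIota (τ i)`;
* `attainsMax_of_comb` — such a nonzero combination attains the maximum of its coefficient
  valuations (Noetherian argument of `GaussCompare.coeff_mem_of_mem_gaussRingA`);
* `approx_emb` — the conclusion, from `Val.approx_of_coeff`.
-/

set_option autoImplicit false
set_option linter.style.haveILetI false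
set_option linter.unusedSectionVars false

noncomputable section

namespace Fermat.Agent.BR3.GaussEmb

open Fermat.Agent.Val ModularCurve

section IntSpan

variable {L : Type*} [Field L] (A : ValuationSubring L)
variable {O : Type*} [CommRing O] (φ : O →+* A)

/-- The `L`-subalgebra of `L((q))` generated by the series with coefficients in the image of `O`. -/
def intSpan : Subalgebra L (LaurentSeries L) :=
  Algebra.adjoin L (Set.range (oIota A φ))

theorem oIota_mem_intSpan (t : LaurentSeries O) : oIota A φ t ∈ intSpan A φ :=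
  Algebra.subset_adjoin ⟨t, rfl⟩

theorem C_mul_eq (c : L) (y : LaurentSeries L) (n : ℤ) :
    (HahnSeries.C c * y).coeff n = c * y.coeff n := by
  rw [HahnSeries.C_mul_eq_smul, HahnSeries.coeff_smul, smul_eq_mul]

/-- elements of `intSpan` are finite combinations -/
theorem exists_comb_of_mem_intSpan {y : LaurentSeries L} (hy : y ∈ intSpan A φ) :
    ∃ (ι : Type) (_ : Fintype ι) (a : ι → L) (τ : ι → LaurentSeries O),
      y = ∑ i, HahnSeries.C (a i) * oIota A φ (τ i) := by
  classical
  induction hy using Algebra.adjoin_induction with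
  | mem y hy =>
      obtain ⟨t, rfl⟩ := hy
      exact ⟨Unit, inferInstance, fun _ => 1, fun _ => t, by simp⟩
  | algebraMap r =>
      refine ⟨Unit, inferInstance, fun _ => r, fun _ => 1, ?_⟩
      rw [Finset.univ_unique, Finset.sum_singleton, map_one, mul_one,
        algebraMap_laurentSeries_eq_single]
      rfl
  | add x y _ _ hx hy =>
      obtain ⟨ι, _, a, τ, rfl⟩ := hx
      obtain ⟨ι', _, a', τ', rfl⟩ := hy
      refine ⟨ι ⊕ ι', inferInstance, Sum.elim a a', Sum.elim τ τ', ?_⟩
      rw [Fintype.sum_sum_type]
      rfl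
  | mul x y _ _ hx hy =>
      obtain ⟨ι, _, a, τ, rfl⟩ := hx
      obtain ⟨ι', _, a', τ', rfl⟩ := hy
      refine ⟨ι × ι', inferInstance, fun p => a p.1 * a' p.2, fun p => τ p.1 * τ' p.2, ?_⟩
      rw [Finset.sum_mul_sum, Fintype.sum_prod_type]
      refine Finset.sum_congr rfl fun i _ => Finset.sum_congr rfl fun j _ => ?_
      rw [map_mul, map_mul]
      ring

variable [IsNoetherianRing O]

/-- **(BS)** a nonzero finite `L`-combination of series over a Noetherian ring attains the
maximum of its coefficient valuations. -/
theorem attainsMax_of_comb {ι : Type} [Fintype ι] (a : ι → L) (τ : ι → LaurentSeries O)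
    (hy : (∑ i, HahnSeries.C (a i) * oIota A φ (τ i)) ≠ 0) :
    AttainsMax A fun n : ℤ => (∑ i, HahnSeries.C (a i) * oIota A φ (τ i)).coeff n := by
  classical
  set g : LaurentSeries L := ∑ i, HahnSeries.C (a i) * oIota A φ (τ i) with hgdef
  let Λ : (ι → O) → L := fun x => ∑ i, a i * ((φ (x i) : A) : L)
  have hΛadd : ∀ x y, Λ (x + y) = Λ x + Λ y := by
    intro x y
    show (∑ i, a i * ((φ ((x + y) i) : A) : L)) = _
    rw [← Finset.sum_add_distrib]
    refine Finset.sum_congr rfl fun i _ => ?_
    rw [Pi.add_apply, map_add]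
    push_cast
    ring
  have hΛsmul : ∀ (o : O) x, Λ (o • x) = ((φ o : A) : L) * Λ x := by
    intro o x
    show (∑ i, a i * ((φ ((o • x) i) : A) : L)) = _
    rw [Finset.mul_sum]
    refine Finset.sum_congr rfl fun i _ => ?_
    rw [Pi.smul_apply, smul_eq_mul, map_mul]
    push_cast
    ring
  have hΛzero : Λ 0 = 0 := by
    show (∑ i, a i * ((φ ((0 : ι → O) i) : A) : L)) = 0
    simp
  let s : ℤ → (ι → O) := fun n i => (τ i).coeff n
  have hcoeff : ∀ n, g.coeff n = Λ (s n) := by
    intro n
    rw [hgdef, HahnSeries.coeff_sum]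
    refine Finset.sum_congr rfl fun i _ => ?_
    rw [C_mul_eq, oIota_coeff]
  have hfg : (Submodule.span O (Set.range s)).FG := IsNoetherian.noetherian _
  obtain ⟨S', hS'sub, hS'span⟩ := (Submodule.fg_span_iff_fg_span_finset_subset _).1 hfg
  rcases S'.eq_empty_or_nonempty with hempty | hne
  · exfalso
    apply hy
    apply HahnSeries.ext
    funext n
    have h0 : s n = 0 := by
      have h1 : s n ∈ Submodule.span O (Set.range s) := Submodule.subset_span ⟨n, rfl⟩
      rw [hS'span, hempty, Finset.coe_empty, Submodule.span_empty] at h1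
      exact (Submodule.mem_bot O).1 h1
    rw [hcoeff, h0, hΛzero]
    rfl
  obtain ⟨x₀, hx₀S, hmax⟩ := Finset.exists_max_image S' (fun x => A.valuation (Λ x)) hne
  have hle : ∀ x ∈ Submodule.span O (Set.range s),
      A.valuation (Λ x) ≤ A.valuation (Λ x₀) := by
    intro x hx
    rw [hS'span] at hx
    induction hx using Submodule.span_induction with
    | mem x hx => exact hmax x hx
    | zero => rw [hΛzero, map_zero]; exact zero_le
    | add x y _ _ hx hy =>
      rw [hΛadd]
      exact (A.valuation.map_add _ _).trans (max_le hx hy)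
    | smul o x _ hx =>
      rw [hΛsmul, map_mul]
      calc A.valuation ((φ o : A) : L) * A.valuation (Λ x)
          ≤ 1 * A.valuation (Λ x) :=
            mul_le_mul' ((A.valuation_le_one_iff _).2 (φ o).2) le_rfl
        _ = A.valuation (Λ x) := one_mul _
        _ ≤ _ := hx
  obtain ⟨n₀, hn₀⟩ : x₀ ∈ Set.range s := hS'sub hx₀S
  have hlen : ∀ n, A.valuation (g.coeff n) ≤ A.valuation (g.coeff n₀) := fun n => by
    rw [hcoeff, hcoeff, hn₀]
    exact hle _ (Submodule.subset_span ⟨n, rfl⟩)
  refine ⟨n₀, fun h0 => hy ?_, hlen⟩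
  apply HahnSeries.ext
  funext n
  have h1 := hlen n
  rw [show g.coeff n₀ = 0 from h0, map_zero] at h1
  exact (Valuation.zero_iff _).1 (le_antisymm h1 zero_le)

end IntSpan

/-! ### best approximation -/

section Approx

variable {L : Type*} [Field L] (A : ValuationSubring L) {k : Type*} [Field k] (π : A →+* k)
variable {F : Type*} [Field F] [Algebra L F] (σ : F →+* LaurentSeries L)
  (hσ : ∀ x : F, x ≠ 0 → ∃ c, HasContent A π (σ x) c)
variable {O : Type*} [CommRing O] [IsNoetherianRing O] (φ : O →+* A)

/-- **A10, part 2c.**  Best approximation for the Gauss valuation along `σ`, when `F` is the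
fraction field of a subalgebra `R` with `σ R ⊆ intSpan A φ`. -/
theorem approx_emb (hπ : ∀ a : A, a ∈ IsLocalRing.maximalIdeal A → π a = 0)
    (hC : ∀ c : L, σ (algebraMap L F c) = HahnSeries.C c)
    (R : Subalgebra L F) (hR : ∀ x ∈ R, σ x ∈ intSpan A φ)
    (hfrac : ∀ y : F, ∃ a b : R, b ≠ 0 ∧ y * (b : F) = (a : F))
    (V : Submodule L F) (hV : Module.Finite L V) (y : F) (hy : y ∉ V) :
    ∃ w ∈ V, ∃ c : L, c ≠ 0 ∧ ∃ h : c • (y - w) ∈ embVal A π σ hσ,
      ∀ z : embVal A π σ hσ, (z : F) ∈ V →
        embRes A π σ hσ z ≠ embRes A π σ hσ ⟨c • (y - w), h⟩ := by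
  classical
  -- the coefficient map
  let co : R →ₗ[L] (ℤ → L) :=
    { toFun := fun x n => (σ (x : F)).coeff n
      map_add' := fun x x' => by
        funext n
        show (σ ((x : F) + (x' : F))).coeff n = _
        rw [map_add, HahnSeries.coeff_add]
        rfl
      map_smul' := fun c x => by
        funext n
        show (σ (c • (x : F))).coeff n = _
        rw [smul_eq σ hC, C_mul_eq]
        rfl }
  have hco : ∀ (x : R) n, co x n = (σ (x : F)).coeff n := fun _ _ => rfl
  -- attaining the maximum
  have hmax : ∀ x : R, x ≠ 0 → AttainsMax A (co x) := by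
    intro x hx
    have hx0 : σ (x : F) ≠ 0 := (map_ne_zero σ).2 fun h => hx (Subtype.ext h)
    obtain ⟨ι, _, a, τ, hcomb⟩ := exists_comb_of_mem_intSpan A φ (hR x x.2)
    have := attainsMax_of_comb A φ a τ (hcomb ▸ hx0)
    rw [← hcomb] at this
    exact this
  -- integral coefficients
  have hint : ∀ x : R, (∀ n, co x n ∈ A) → ∃ a : LaurentSeries A, aIota A a = σ (x : F) :=
    fun x h => exists_aIota_eq_of_coeff_mem A h
  have hO : ∀ x : R, (∀ n, co x n ∈ A) → (x : F) ∈ embVal A π σ hσ := by
    intro x h
    obtain ⟨a, ha⟩ := hint x h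
    rw [mem_embVal_iff, ← ha]
    exact aIota_mem_gaussRingA A π a
  have hres0 : ∀ (x : R) (hx : (x : F) ∈ embVal A π σ hσ),
      embRes A π σ hσ ⟨x, hx⟩ = 0 ↔ ∀ n, A.valuation (co x n) < 1 := by
    intro x hx
    constructor
    · intro h0
      by_cases hx0 : x = 0
      · intro n
        rw [hco, hx0]
        simp
      obtain ⟨n₀, hn₀, hle⟩ := hmax x hx0
      set c : L := co x n₀ with hc
      have hr : ∀ n, co x n / c ∈ A := by
        intro n
        rw [← A.valuation_le_one_iff, map_div₀]
        exact div_le_one_of_le₀ (hle n) zero_le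
      let g₀ : LaurentSeries A := hahnOfFunA (σ (x : F)) (fun n => (⟨co x n / c, hr n⟩ : A))
        (fun n hn => Subtype.ext (by show co x n / c = 0; rw [hco, hn, zero_div]))
      have hgg₀ : σ (x : F) = HahnSeries.C c * aIota A g₀ := by
        apply HahnSeries.ext
        funext n
        rw [C_mul_eq, aIota_coeff]
        show (σ (x : F)).coeff n = c * (co x n / c)
        rw [hco]
        field_simp
      have hred : aRed π g₀ ≠ 0 := by
        intro h
        have h1 := congrArg (fun x => x.coeff n₀) h
        simp only [aRed_coeff, HahnSeries.coeff_zero] at h1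
        have h2 : g₀.coeff n₀ = 1 := by
          apply Subtype.ext
          show co x n₀ / c = 1
          exact div_self hn₀
        rw [h2, map_one] at h1
        exact one_ne_zero h1
      have hcont : HasContent A π (σ (x : F)) (c * 1) := by
        rw [hgg₀]
        exact (hasContent_aIota A π hred).C_mul hn₀
      rw [mul_one] at hcont
      have hcA : c ∈ A := (hcont.mem_gaussRingA_iff hπ).1 hx
      have hne := (hcont.gaussResA_ne_zero_iff hπ hx).not
      rw [not_not] at hne
      have hc1 : A.valuation c ≠ 1 := hne.1 (by rw [← embRes_apply A π σ hσ ⟨x, hx⟩]; exact h0)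
      have hclt : A.valuation c < 1 :=
        lt_of_le_of_ne ((A.valuation_le_one_iff _).2 hcA) hc1
      intro n
      exact lt_of_le_of_lt (hle n) hclt
    · intro h
      have hA : ∀ n, co x n ∈ A := fun n => (A.valuation_le_one_iff _).1 (h n).le
      obtain ⟨a, ha⟩ := hint x hA
      have hred : aRed π a = 0 := by
        apply HahnSeries.ext
        funext n
        rw [aRed_coeff, HahnSeries.coeff_zero]
        apply hπ
        rw [ValuationSubring.valuation_lt_one_iff]
        have : ((a.coeff n : A) : L) = co x n := by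
          rw [hco, ← ha]
          rfl
        rw [this]
        exact h n
      rw [embRes_apply]
      have h2 : (⟨σ ((⟨x, hx⟩ : embVal A π σ hσ) : F), hx⟩ : gaussRingA A π) =
          ⟨aIota A a, aIota_mem_gaussRingA A π a⟩ := Subtype.ext ha.symm
      rw [h2, gaussResA_aIota, hred]
  exact approx_of_coeff A (embVal A π σ hσ) (embRes A π σ hσ)
    (fun x hx => (isUnit_iff_embRes_ne_zero A π σ hσ x).2 hx) R co hmax hO hres0 hfrac V hV y hy

end Approx

end Fermat.Agent.BR3.GaussEmb
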