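import Mathlib
import Fermat.Agent.BR.GenusAuxLevel
import Fermat.Agent.X0.Count.CardP1
import Fermat.Agent.BR.S0.Genus

/-!
# Program C, node I8 (GENUS `hg`), part I8-ARITH: the numerics of the genus hypothesis for `S″`

Pure arithmetic of the Prelude numerics, no model needed.

* `cuspCount_mul_of_coprime`, `cuspCount_prime_sq` : `c(mn) = c(m)c(n)`, `c(q²) = q + 1`;
* `genusFormula_prime_sq_mul` : for a prime `q ∤ M` with `ν₂(M) = ν₃(M) = 0`,
  `g(M q q) = (q+1) g(M) + (q+1) s − q`, `s = nodeCount q M = (q−1)ψ(M)/12`;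
* `genusFormula_two_levels` : the same with `s` ELIMINATED through `g(M q) = 2 g(M) + s − 1`;
* `genus_le_stable` : ONE abstract inequality in `ℤ` with named inputs: the genus of the generic fibre
  is at most the arithmetic genus of the configuration `cInf, cZero, (mid i)_{i ∈ Mid}, (z e)_{e ∈ SS}`
  with `|Mid| + 2` nodes on every `z e`;
* `hle_of_inputs` : the literal hypothesis `hle` of `SS.SemistableSetup.genus_eq_of_le`
  (`BR/SS/GenusIneq`) from the bookkeeping of the components and nodes of `S″`;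
* `hle_of_comp_node` : the same for the index types `(Bool ⊕ Mid) ⊕ SSp`, `SSp × (Bool ⊕ KP)` of
  `BR3/SDD/Skeleton`;
* the `kap`-versions (referee report of helper1): `genus_le_stable2`, `hle_of_inputs2`,
  `hmid_of_places`, `hmid_of_comp`, `hle_of_comp_node2`, `hz_of_kap`, `hz_odd`, `hz_two` keep the
  number `kap = card KP` of Kummer nodes on one vertical component apart from the number
  `mid = card Mid` of middle components (no relation between the two is needed);
* `genusFF_two_levels`, `card_eq_of_nodeCount`, `genusFF_modL_eq_genusFF_bar` : the inputs `h₂`,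
  `hs`, `hZero`/`hInf` for the function fields `Fb M`, `Fb (M q)`, `Fb (M q q)`.
-/

set_option autoImplicit false

namespace Fermat.Agent.BR3.GenusHg

open ModularCurve Fermat.Agent.BR.GenusCount

/-! ### `cuspCount` is multiplicative -/

section Cusps

/-- For `a ∣ m`, `b ∣ n`, `m ⊥ n`: `gcd(ab, mn/(ab)) = gcd(a, m/a)·gcd(b, n/b)`. -/
theorem gcd_mul_div_mul {m n a b : ℕ} (h : m.Coprime n) (ha : a ∣ m) (hb : b ∣ n) :
    Nat.gcd (a * b) (m * n / (a * b)) = Nat.gcd a (m / a) * Nat.gcd b (n / b) := by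
  have hdiv : m * n / (a * b) = m / a * (n / b) := Nat.mul_div_mul_comm ha hb
  have hma : m / a ∣ m := Nat.div_dvd_of_dvd ha
  have hnb : n / b ∣ n := Nat.div_dvd_of_dvd hb
  have hcop1 : (m / a).Coprime (n / b) :=
    Nat.Coprime.coprime_dvd_left hma (Nat.Coprime.coprime_dvd_right hnb h)
  have hcop2 : b.Coprime (m / a) :=
    (Nat.Coprime.coprime_dvd_left hma (Nat.Coprime.coprime_dvd_right hb h)).symm
  have hcop3 : a.Coprime (n / b) :=
    Nat.Coprime.coprime_dvd_left ha (Nat.Coprime.coprime_dvd_right hnb h)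
  rw [hdiv, Nat.Coprime.gcd_mul _ hcop1, Nat.Coprime.gcd_mul_right_cancel _ hcop2,
    Nat.Coprime.gcd_mul_left_cancel _ hcop3]

/-- `cuspCount` is multiplicative. -/
theorem cuspCount_mul_of_coprime {m n : ℕ} (h : m.Coprime n) :
    cuspCount (m * n) = cuspCount m * cuspCount n := by
  unfold cuspCount
  rw [Nat.divisors_mul, Finset.mul_def, Finset.sum_image, Finset.sum_product, Finset.sum_mul_sum]
  · refine Finset.sum_congr rfl fun a ha => Finset.sum_congr rfl fun b hb => ?_
    have ha' : a ∣ m := Nat.dvd_of_mem_divisors ha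
    have hb' : b ∣ n := Nat.dvd_of_mem_divisors hb
    show Nat.totient (Nat.gcd (a * b) (m * n / (a * b))) = _
    rw [gcd_mul_div_mul h ha' hb']
    refine Nat.totient_mul ?_
    exact Nat.Coprime.coprime_dvd_left ((Nat.gcd_dvd_left _ _).trans ha')
      (Nat.Coprime.coprime_dvd_right ((Nat.gcd_dvd_left _ _).trans hb') h)
  · intro x hx y hy hxy
    exact h.mul_injOn_divisors hx hy hxy

/-- `c(q²) = q + 1`. -/
theorem cuspCount_prime_sq {q : ℕ} (hq : q.Prime) : cuspCount (q ^ 2) = q + 1 := by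
  unfold cuspCount
  rw [Nat.sum_divisors_prime_pow hq]
  simp only [Finset.sum_range_succ, Finset.sum_range_zero, zero_add, pow_zero, pow_one]
  have h1 : q ^ 2 / 1 = q ^ 2 := Nat.div_one _
  have h2 : q ^ 2 / q = q := by rw [pow_two, Nat.mul_div_cancel _ hq.pos]
  have h3 : q ^ 2 / q ^ 2 = 1 := Nat.div_self (pow_pos hq.pos 2)
  rw [h1, h2, h3, Nat.gcd_one_left, Nat.gcd_self, Nat.gcd_one_right, Nat.totient_one,
    Nat.totient_prime hq]
  have := hq.two_le
  omega

end Cusps

/-! ### The genus formula at level `M q q` -/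

section Genus

/-- `ψ(M q q) = q (q + 1) ψ(M)` for a prime `q ∤ M`. -/
theorem dedekindPsi_mul_prime_sq {q M : ℕ} (hq : q.Prime) (hqM : ¬ q ∣ M) :
    dedekindPsi (M * q * q) = dedekindPsi M * (q * (q + 1)) := by
  have hcop : M.Coprime (q ^ 2) :=
    Nat.Coprime.pow_right 2 ((Nat.Prime.coprime_iff_not_dvd hq).mpr hqM).symm
  have e : M * q * q = M * q ^ 2 := by ring
  rw [e, dedekindPsi_mul_of_coprime hcop,
    Fermat.Agent.X0.Count.dedekindPsi_prime_pow hq (k := 2) (by norm_num)]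
  congr 1
  simp only [Nat.add_one_sub_one, pow_one]
  ring

/-- `c(M q q) = (q + 1) c(M)` for a prime `q ∤ M`. -/
theorem cuspCount_mul_prime_sq {q M : ℕ} (hq : q.Prime) (hqM : ¬ q ∣ M) :
    cuspCount (M * q * q) = cuspCount M * (q + 1) := by
  have hcop : M.Coprime (q ^ 2) :=
    Nat.Coprime.pow_right 2 ((Nat.Prime.coprime_iff_not_dvd hq).mpr hqM).symm
  have e : M * q * q = M * q ^ 2 := by ring
  rw [e, cuspCount_mul_of_coprime hcop, cuspCount_prime_sq hq]

theorem nuTwo_mul_prime_sq {q M : ℕ} (hq : q.Prime) (hqM : ¬ q ∣ M) (h2 : nuTwo M = 0) :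
    nuTwo (M * q * q) = 0 := by
  have hcop : M.Coprime (q ^ 2) :=
    Nat.Coprime.pow_right 2 ((Nat.Prime.coprime_iff_not_dvd hq).mpr hqM).symm
  have e : M * q * q = M * q ^ 2 := by ring
  rw [e, nuTwo_mul_of_coprime hcop, h2, zero_mul]

theorem nuThree_mul_prime_sq {q M : ℕ} (hq : q.Prime) (hqM : ¬ q ∣ M) (h3 : nuThree M = 0) :
    nuThree (M * q * q) = 0 := by
  have hcop : M.Coprime (q ^ 2) :=
    Nat.Coprime.pow_right 2 ((Nat.Prime.coprime_iff_not_dvd hq).mpr hqM).symm
  have e : M * q * q = M * q ^ 2 := by ring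
  rw [e, nuThree_mul_of_coprime hcop, h3, zero_mul]

/-- **Genus at level `M q q`** (no elliptic points at level `M`):
`g(M q q) = (q+1) g(M) + (q+1) s − q` with `s = nodeCount q M` the number of supersingular points. -/
theorem genusFormula_prime_sq_mul {q M : ℕ} (hq : q.Prime) (hqM : ¬ q ∣ M)
    (h2 : nuTwo M = 0) (h3 : nuThree M = 0) :
    genusFormula (M * q * q) =
      ((q : ℚ) + 1) * genusFormula M + ((q : ℚ) + 1) * nodeCount q M - q := by
  rw [nodeCount_of_no_elliptic q h2 h3]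
  unfold genusFormula
  rw [dedekindPsi_mul_prime_sq hq hqM, cuspCount_mul_prime_sq hq hqM,
    nuTwo_mul_prime_sq hq hqM h2, nuThree_mul_prime_sq hq hqM h3, h2, h3]
  push_cast
  ring

/-- **The three levels** `M`, `M q`, `M q q` (no elliptic points at level `M`), with the number of
supersingular points eliminated: `g₂ = (q+1) g₀ + (q+1)(g₁ − 2 g₀ + 1) − q`. -/
theorem genusFormula_two_levels {q M : ℕ} (hq : q.Prime) (hM : 0 < M) (hqM : ¬ q ∣ M)
    (h2 : nuTwo M = 0) (h3 : nuThree M = 0) :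
    genusFormula (M * q * q) =
      ((q : ℚ) + 1) * genusFormula M +
        ((q : ℚ) + 1) * (genusFormula (M * q) - 2 * genusFormula M + 1) - q := by
  have h1 := genusFormula_prime_mul hq hM hqM
  rw [mul_comm q M] at h1
  rw [genusFormula_prime_sq_mul hq hqM h2 h3, h1]
  ring

end Genus

/-! ### The abstract inequality -/

section Abstract

/-- **I8-ARITH, the inequality.**  Integers: `gM` = genus of `cInf` and of `cZero`, `s` = number of
supersingular points, `g₂` = genus of the generic fibre, `mid` = number of middle components,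
`Gmid` = the sum of their genera, `gz` = genus of every vertical component `z e`.  Inputs:
* `h₂` : `g₂ = (q+1) gM + (q+1) s − q` (`genusFormula_prime_sq_mul`);
* `hmid` : Riemann–Hurwitz inequality summed over the middle components (A12): the `mid i` have
  degrees `dᵢ` over `cInf`, `Σ dᵢ = q − 1`, totally ramified over the `s` supersingular points:
  `2 Gmid − 2 mid ≥ (q−1)(2 gM − 2) + s (q − 1 − mid)`;
* `hz` : `2 gz + mid ≥ q + 1` (`q` odd: `mid = 2`, `gz = (q−1)/2`; `q = 2`: `mid = 1`, `gz = 1`).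
Then `g₂ ≤ Σ genera + #nodes − #components + 1` for `2 + mid + s` components and `(2 + mid) s`
nodes. -/
theorem genus_le_stable {q gM s g₂ mid Gmid gz : ℤ} (hs : 0 ≤ s)
    (h₂ : g₂ = (q + 1) * gM + (q + 1) * s - q)
    (hmid : (q - 1) * (2 * gM - 2) + s * (q - 1 - mid) ≤ 2 * Gmid - 2 * mid)
    (hz : q + 1 ≤ 2 * gz + mid) :
    g₂ ≤ (2 * gM + Gmid + s * gz) + (2 + mid) * s - (2 + mid + s) + 1 := by
  have h := mul_le_mul_of_nonneg_left hz hs
  rw [h₂]
  nlinarith

/-- The same with the sum over the components and the cardinalities as named inputs: the literal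
shape of the hypothesis `hle` of `SS.SemistableSetup.genus_eq_of_le`. -/
theorem hle_of_inputs {ι ν : Type*} [Fintype ι] [Fintype ν] (g : ι → ℤ)
    {q gM s g₂ mid Gmid gz : ℤ} (hs : 0 ≤ s)
    (h₂ : g₂ = (q + 1) * gM + (q + 1) * s - q)
    (hmid : (q - 1) * (2 * gM - 2) + s * (q - 1 - mid) ≤ 2 * Gmid - 2 * mid)
    (hz : q + 1 ≤ 2 * gz + mid)
    (hsum : ∑ v, g v = 2 * gM + Gmid + s * gz)
    (hν : (Fintype.card ν : ℤ) = (2 + mid) * s)
    (hι : (Fintype.card ι : ℤ) = 2 + mid + s) :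
    g₂ ≤ ∑ v, g v + Fintype.card ν - Fintype.card ι + 1 := by
  rw [hsum, hν, hι]
  exact genus_le_stable hs h₂ hmid hz

/-- `hmid` from the Riemann–Hurwitz inequality of every middle component (A12): degrees `d i` with
`Σ d i = q − 1`, every `mid i` totally ramified over the `s` supersingular points. -/
theorem hmid_of_components {Mid : Type*} [Fintype Mid] (d g : Mid → ℤ) {q gM s : ℤ}
    (hd : ∑ i, d i = q - 1)
    (hRH : ∀ i, d i * (2 * gM - 2) + s * (d i - 1) ≤ 2 * g i - 2) :
    (q - 1) * (2 * gM - 2) + s * (q - 1 - (Fintype.card Mid : ℤ)) ≤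
      2 * ∑ i, g i - 2 * (Fintype.card Mid : ℤ) := by
  have h := Finset.sum_le_sum fun i (_ : i ∈ Finset.univ) => hRH i
  simp only [Finset.sum_add_distrib, Finset.sum_sub_distrib, ← Finset.sum_mul, ← Finset.mul_sum,
    Finset.sum_const, Finset.card_univ, nsmul_eq_mul, mul_one, hd] at h
  linarith

/-- `hz` in the uniform bookkeeping of finding #1030: `m = midCard q ∈ {1, 2}` middle components of
degree `d = midDeg q`, `d m + 1 = q`, and `g(z e) = d`. -/
theorem hz_of_mid {q d m : ℤ} (hdm : d * m + 1 = q) (hm : m = 1 ∨ m = 2) (hq : 2 ≤ q) :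
    q + 1 ≤ 2 * d + m := by
  rcases hm with rfl | rfl <;> linarith

/-- `hmid` when all middle components have the same degree `d` and genus `gmid` (uniform
bookkeeping: `m = midCard q`, `d = midDeg q`, `d m + 1 = q`). -/
theorem hmid_of_uniform {q d m gM s gmid : ℤ} (hdm : d * m + 1 = q) (hm : 0 ≤ m)
    (hRH : d * (2 * gM - 2) + s * (d - 1) ≤ 2 * gmid - 2) :
    (q - 1) * (2 * gM - 2) + s * (q - 1 - m) ≤ 2 * (m * gmid) - 2 * m := by
  have h := mul_le_mul_of_nonneg_left hRH hm
  have hq : q - 1 = d * m := by linarith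
  rw [hq]
  nlinarith

/-- **The plug for the index types of the I7 integrator** (`BR3/SDD/Skeleton`):
components `Comp Mid SSp = (Bool ⊕ Mid) ⊕ SSp` (`cZero = inl (inl true)`, `cInf = inl (inl false)`,
`mid i = inl (inr i)`, `ze e = inr e`), nodes `Node SSp KP = SSp × (Bool ⊕ KP)`, with as many Kummer
places over every supersingular point as middle components.  The conclusion is literally the
hypothesis `hle` of `SS.SemistableSetup.genus_eq_of_le` for `g v := (genusFF k (Ft v) : ℤ)`. -/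
theorem hle_of_comp_node {Mid SSp KP : Type} [Fintype Mid] [Fintype SSp] [Fintype KP]
    (g : (Bool ⊕ Mid) ⊕ SSp → ℤ) {q gM g₂ gz : ℤ}
    (hKP : Fintype.card KP = Fintype.card Mid)
    (hZero : g (Sum.inl (Sum.inl true)) = gM) (hInf : g (Sum.inl (Sum.inl false)) = gM)
    (hze : ∀ e : SSp, g (Sum.inr e) = gz)
    (h₂ : g₂ = (q + 1) * gM + (q + 1) * (Fintype.card SSp : ℤ) - q)
    (hmid : (q - 1) * (2 * gM - 2) +
        (Fintype.card SSp : ℤ) * (q - 1 - (Fintype.card Mid : ℤ)) ≤
      2 * ∑ i : Mid, g (Sum.inl (Sum.inr i)) - 2 * (Fintype.card Mid : ℤ))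
    (hz : q + 1 ≤ 2 * gz + (Fintype.card Mid : ℤ)) :
    g₂ ≤ ∑ v, g v + (Fintype.card (SSp × (Bool ⊕ KP)) : ℤ) -
      (Fintype.card ((Bool ⊕ Mid) ⊕ SSp) : ℤ) + 1 := by
  refine hle_of_inputs g (s := (Fintype.card SSp : ℤ)) (mid := (Fintype.card Mid : ℤ))
    (Gmid := ∑ i : Mid, g (Sum.inl (Sum.inr i))) (gz := gz) (Nat.cast_nonneg _) h₂ hmid hz ?_ ?_ ?_
  · rw [Fintype.sum_sum_type, Fintype.sum_sum_type, Fintype.sum_bool, hZero, hInf]
    simp only [hze, Finset.sum_const, Finset.card_univ, nsmul_eq_mul]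
    ring
  · rw [Fintype.card_prod, Fintype.card_sum, Fintype.card_bool, hKP]
    push_cast
    ring
  · rw [Fintype.card_sum, Fintype.card_sum, Fintype.card_bool]
    push_cast
    ring

/-! ### The `kap`-version (referee report of helper1): Kummer nodes per vertical component -/

/-- **I8-ARITH, the inequality, `kap`-version.**  As `genus_le_stable`, but with the number `kap`
of Kummer nodes on ONE vertical component `z e` (`= card KP`) kept apart from the number `mid` of
middle components.  `hmid` is then the SUM over the middle components of the Riemann–Hurwitz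
inequalities `2 gᵢ − 2 ≥ dᵢ (2 gM − 2) + Σ_e (dᵢ − n i e)`, `n i e` the number of places of `mid i`
over `e`, `Σᵢ n i e = kap`, `Σ dᵢ = q − 1` (`hmid_of_places`).  For `kap = mid` this is
`genus_le_stable`. -/
theorem genus_le_stable2 {q gM s g₂ mid kap Gmid gz : ℤ} (hs : 0 ≤ s)
    (h₂ : g₂ = (q + 1) * gM + (q + 1) * s - q)
    (hmid : (q - 1) * (2 * gM - 2) + s * (q - 1 - kap) ≤ 2 * Gmid - 2 * mid)
    (hz : q + 1 ≤ 2 * gz + kap) :
    g₂ ≤ (2 * gM + Gmid + s * gz) + (2 + kap) * s - (2 + mid + s) + 1 := by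
  have h := mul_le_mul_of_nonneg_left hz hs
  rw [h₂]
  nlinarith

/-- The `kap`-version of `hle_of_inputs`. -/
theorem hle_of_inputs2 {ι ν : Type*} [Fintype ι] [Fintype ν] (g : ι → ℤ)
    {q gM s g₂ mid kap Gmid gz : ℤ} (hs : 0 ≤ s)
    (h₂ : g₂ = (q + 1) * gM + (q + 1) * s - q)
    (hmid : (q - 1) * (2 * gM - 2) + s * (q - 1 - kap) ≤ 2 * Gmid - 2 * mid)
    (hz : q + 1 ≤ 2 * gz + kap)
    (hsum : ∑ v, g v = 2 * gM + Gmid + s * gz)
    (hν : (Fintype.card ν : ℤ) = (2 + kap) * s)
    (hι : (Fintype.card ι : ℤ) = 2 + mid + s) :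
    g₂ ≤ ∑ v, g v + Fintype.card ν - Fintype.card ι + 1 := by
  rw [hsum, hν, hι]
  exact genus_le_stable2 hs h₂ hmid hz

/-- `hmid` (`kap`-version) from the Riemann–Hurwitz inequality of every middle component: degrees
`d i` with `Σ d i = q − 1`, `n i e` places of `mid i` over the supersingular point `e` (each of
ramification index `d i / n i e`, nothing else needed), `Σᵢ n i e = kap` for every `e`. -/
theorem hmid_of_places {Mid SSp : Type*} [Fintype Mid] [Fintype SSp] (d g : Mid → ℤ)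
    (n : Mid → SSp → ℤ) {q gM kap : ℤ} (hd : ∑ i, d i = q - 1) (hn : ∀ e, ∑ i, n i e = kap)
    (hRH : ∀ i, d i * (2 * gM - 2) + ∑ e, (d i - n i e) ≤ 2 * g i - 2) :
    (q - 1) * (2 * gM - 2) + (Fintype.card SSp : ℤ) * (q - 1 - kap) ≤
      2 * ∑ i, g i - 2 * (Fintype.card Mid : ℤ) := by
  have h := Finset.sum_le_sum fun i (_ : i ∈ Finset.univ) => hRH i
  have h1 : ∑ i, ∑ e, n i e = (Fintype.card SSp : ℤ) * kap := by
    rw [Finset.sum_comm]
    simp only [hn, Finset.sum_const, Finset.card_univ, nsmul_eq_mul]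
  have h2 : ∑ i, ∑ _e : SSp, d i = (Fintype.card SSp : ℤ) * (q - 1) := by
    simp only [Finset.sum_const, Finset.card_univ, nsmul_eq_mul, ← Finset.mul_sum, hd]
  have h3 : ∑ i, d i * (2 * gM - 2) = (q - 1) * (2 * gM - 2) := by
    rw [← Finset.sum_mul, hd]
  have h4 : ∑ i, (2 * g i - 2) = 2 * ∑ i, g i - 2 * (Fintype.card Mid : ℤ) := by
    simp only [Finset.sum_sub_distrib, ← Finset.mul_sum, Finset.sum_const, Finset.card_univ,
      nsmul_eq_mul]
    ring
  rw [h4] at h
  simp only [Finset.sum_add_distrib, Finset.sum_sub_distrib] at h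
  rw [h1, h2, h3] at h
  linarith

/-- The fibres of `comp e : KP → Mid` partition `KP`: `Σᵢ #{s // comp e s = i} = card KP`. -/
theorem sum_card_fiber {Mid KP : Type*} [Fintype Mid] [Fintype KP] [DecidableEq Mid]
    (c : KP → Mid) :
    ∑ i, ((Fintype.card {s : KP // c s = i} : ℕ) : ℤ) = (Fintype.card KP : ℤ) := by
  rw [← Nat.cast_sum]
  congr 1
  rw [← Fintype.card_sigma]
  exact Fintype.card_congr (Equiv.sigmaFiberEquiv c)

/-- `hmid` (`kap`-version) for the skeleton of the I7 integrator: `comp e s` is the middle component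
carrying the Kummer place `s` over `e`, so `n i e = #{s // comp e s = i}`. -/
theorem hmid_of_comp {Mid SSp KP : Type*} [Fintype Mid] [Fintype SSp] [Fintype KP]
    [DecidableEq Mid] (comp : SSp → KP → Mid) (d g : Mid → ℤ) {q gM : ℤ}
    (hd : ∑ i, d i = q - 1)
    (hRH : ∀ i, d i * (2 * gM - 2) +
        ∑ e, (d i - (Fintype.card {s : KP // comp e s = i} : ℤ)) ≤ 2 * g i - 2) :
    (q - 1) * (2 * gM - 2) + (Fintype.card SSp : ℤ) * (q - 1 - (Fintype.card KP : ℤ)) ≤
      2 * ∑ i, g i - 2 * (Fintype.card Mid : ℤ) :=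
  hmid_of_places d g (fun i e => (Fintype.card {s : KP // comp e s = i} : ℤ)) hd
    (fun e => sum_card_fiber (comp e)) hRH

/-- **The plug for the index types of the I7 integrator, `kap`-version**: `card KP` Kummer nodes on
every vertical component, `card Mid` middle components, no relation between the two. -/
theorem hle_of_comp_node2 {Mid SSp KP : Type} [Fintype Mid] [Fintype SSp] [Fintype KP]
    (g : (Bool ⊕ Mid) ⊕ SSp → ℤ) {q gM g₂ gz : ℤ}
    (hZero : g (Sum.inl (Sum.inl true)) = gM) (hInf : g (Sum.inl (Sum.inl false)) = gM)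
    (hze : ∀ e : SSp, g (Sum.inr e) = gz)
    (h₂ : g₂ = (q + 1) * gM + (q + 1) * (Fintype.card SSp : ℤ) - q)
    (hmid : (q - 1) * (2 * gM - 2) +
        (Fintype.card SSp : ℤ) * (q - 1 - (Fintype.card KP : ℤ)) ≤
      2 * ∑ i : Mid, g (Sum.inl (Sum.inr i)) - 2 * (Fintype.card Mid : ℤ))
    (hz : q + 1 ≤ 2 * gz + (Fintype.card KP : ℤ)) :
    g₂ ≤ ∑ v, g v + (Fintype.card (SSp × (Bool ⊕ KP)) : ℤ) -
      (Fintype.card ((Bool ⊕ Mid) ⊕ SSp) : ℤ) + 1 := by
  refine hle_of_inputs2 g (s := (Fintype.card SSp : ℤ)) (mid := (Fintype.card Mid : ℤ))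
    (kap := (Fintype.card KP : ℤ))
    (Gmid := ∑ i : Mid, g (Sum.inl (Sum.inr i))) (gz := gz) (Nat.cast_nonneg _) h₂ hmid hz ?_ ?_ ?_
  · rw [Fintype.sum_sum_type, Fintype.sum_sum_type, Fintype.sum_bool, hZero, hInf]
    simp only [hze, Finset.sum_const, Finset.card_univ, nsmul_eq_mul]
    ring
  · rw [Fintype.card_prod, Fintype.card_sum, Fintype.card_bool]
    push_cast
    ring
  · rw [Fintype.card_sum, Fintype.card_sum, Fintype.card_bool]
    push_cast
    ring

/-- `hz` (`kap`-version): `kap ∈ {1, 2}` Kummer nodes on `z e`, `d kap + 1 = q`, `g(z e) = d`. -/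
theorem hz_of_kap {q d kap : ℤ} (hdk : d * kap + 1 = q) (hk : kap = 1 ∨ kap = 2) (hq : 2 ≤ q) :
    q + 1 ≤ 2 * d + kap := by
  rcases hk with rfl | rfl <;> linarith

/-- `hz` for an odd prime `q`: `g(z e) = (q − 1) / 2` (`VertResField.genusFF_vertBar`) and two
Kummer nodes on `z e` (`VertPtsDef.ptK` at `c`, `−c`). -/
theorem hz_odd {q : ℕ} (hq : q.Prime) (hq2 : q ≠ 2) {gz kap : ℕ} (hgz : gz = (q - 1) / 2)
    (hkap : kap = 2) : (q : ℤ) + 1 ≤ 2 * (gz : ℤ) + (kap : ℤ) := by
  rcases hq.eq_two_or_odd' with h | h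
  · exact absurd h hq2
  · obtain ⟨m, rfl⟩ := h
    subst hgz hkap
    have : (2 * m + 1 - 1) / 2 = m := by omega
    rw [this]
    push_cast
    omega

/-- `hz` for `q = 2`: `g(z e) = 1` (`VertResField.genusFF_vertBar_two`) and one Kummer node on
`z e` (`VertPtsDef.ptK₂`). -/
theorem hz_two {gz kap : ℕ} (hgz : gz = 1) (hkap : kap = 1) :
    ((2 : ℕ) : ℤ) + 1 ≤ 2 * (gz : ℤ) + (kap : ℤ) := by
  subst hgz hkap
  norm_num

end Abstract

/-! ### The function fields `Fb M`, `Fb (M q)`, `Fb (M q q)` -/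

section FunctionFields

open AlgebraicCurve Fermat.Agent.X0 IsLocalRing

variable (M q : ℕ) [NeZero M] [hq : Fact q.Prime]

/-- **`h₂` for the modular function fields**: with `s := g(Fb (M q)) − 2 g(Fb M) + 1` (the number of
nodes of the semistable model `S′` of `X₀(M q)`, by its genus hypothesis),
`g(Fb (M q q)) = (q+1) g(Fb M) + (q+1) s − q`, for a prime `q ∤ M` and `ν₂(M) = ν₃(M) = 0`. -/
theorem genusFF_two_levels (hqM : ¬ q ∣ M) (h2 : nuTwo M = 0) (h3 : nuThree M = 0) :
    haveI : NeZero (M * q) := ⟨Nat.mul_ne_zero (NeZero.ne M) hq.out.ne_zero⟩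
    haveI : NeZero (M * q * q) :=
      ⟨Nat.mul_ne_zero (Nat.mul_ne_zero (NeZero.ne M) hq.out.ne_zero) hq.out.ne_zero⟩
    (genusFF Kb (Fb (M * q * q)) : ℤ) =
      ((q : ℤ) + 1) * (genusFF Kb (Fb M) : ℤ) +
        ((q : ℤ) + 1) * ((genusFF Kb (Fb (M * q)) : ℤ) - 2 * (genusFF Kb (Fb M) : ℤ) + 1) - q := by
  have : NeZero (M * q) := ⟨Nat.mul_ne_zero (NeZero.ne M) hq.out.ne_zero⟩
  have : NeZero (M * q * q) :=
    ⟨Nat.mul_ne_zero (Nat.mul_ne_zero (NeZero.ne M) hq.out.ne_zero) hq.out.ne_zero⟩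
  have h0 : (genusFF Kb (Fb M) : ℚ) = genusFormula M := Fermat.Agent.Jac.DictC.genusFF_bar M
  have h1 : (genusFF Kb (Fb (M * q)) : ℚ) = genusFormula (M * q) :=
    Fermat.Agent.Jac.DictC.genusFF_bar (M * q)
  have h2' : (genusFF Kb (Fb (M * q * q)) : ℚ) = genusFormula (M * q * q) :=
    Fermat.Agent.Jac.DictC.genusFF_bar (M * q * q)
  have key := genusFormula_two_levels hq.out (Nat.pos_of_ne_zero (NeZero.ne M)) hqM h2 h3
  rw [← h0, ← h1, ← h2'] at key
  exact_mod_cast key

/-- **`hs` for the modular function fields**: a finite set with `nodeCount q M` elements (the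
supersingular points = the crossings of the model `S′` of `X₀(M q)`) has
`g(Fb (M q)) − 2 g(Fb M) + 1` elements. -/
theorem card_eq_of_nodeCount (hqM : ¬ q ∣ M) {s : ℕ} (hs : (s : ℚ) = nodeCount q M) :
    (s : ℤ) = (genusFF Kb (Fb (M * q)) : ℤ) - 2 * (genusFF Kb (Fb M) : ℤ) + 1 := by
  have : NeZero (M * q) := ⟨Nat.mul_ne_zero (NeZero.ne M) hq.out.ne_zero⟩
  have h0 : (genusFF Kb (Fb M) : ℚ) = genusFormula M := Fermat.Agent.Jac.DictC.genusFF_bar M
  have h1 : (genusFF Kb (Fb (M * q)) : ℚ) = genusFormula (M * q) :=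
    Fermat.Agent.Jac.DictC.genusFF_bar (M * q)
  have h := genusFormula_prime_mul hq.out (Nat.pos_of_ne_zero (NeZero.ne M)) hqM
  rw [mul_comm q M, ← h0, ← h1, ← hs] at h
  have key : ((s : ℤ) : ℚ) =
      (((genusFF Kb (Fb (M * q)) : ℤ) - 2 * (genusFF Kb (Fb M) : ℤ) + 1 : ℤ) : ℚ) := by
    push_cast
    linarith
  exact_mod_cast key

set_option synthInstance.maxHeartbeats 400000 in
/-- The genus of the residue function field of the two horizontal components `cInf`, `cZero`
(`X₀(M)` in characteristic `q`) equals the genus of `Fb M`. -/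
theorem genusFF_modL_eq_genusFF_bar (B : ValuationSubring (AlgebraicClosure ℚ))
    (hB : B.LiesOverPrime q) (hqM : ¬ q ∣ M) :
    (genusFF (ResidueField B) (ModularCurve.modularFunctionFieldFullC (ResidueField B) M) : ℤ) =
      (genusFF Kb (Fb M) : ℤ) := by
  have h0 : (genusFF Kb (Fb M) : ℚ) = genusFormula M := Fermat.Agent.Jac.DictC.genusFF_bar M
  have h1 := Fermat.Agent.BR.S0.genusFF_modL_eq_genusFormula M q B hB hqM
  rw [← h0] at h1
  exact_mod_cast h1

end FunctionFields

end Fermat.Agent.BR3.GenusHg
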