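import Mathlib
import Fermat.Agent.BR3.GenusHg
import Fermat.Agent.BR3.SDD.Skeleton
import Fermat.Agent.BR.SS.GenusLe
import Fermat.Agent.BR.SS.InputsLattice

/-!
# Program C, node I8 (GENUS `hg`), the final plug: input (G7) of `SDD.newInvBoundedLevel_of_input`

For `I : SDD.Input A Mid SSp KP Ft` (the named inputs of the stable model `S″ = I.setup`):

* `hg_of_le` : the genus hypothesis `hg` of `SS.mainStatement` for `I.setup` from the INEQUALITY
  `g(F) ≤ Σ g_v + #nodes − #components + 1` (the opposite inequality is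
  `SS.SemistableSetup.arithGenus_le` of `BR/SS/GenusLe`, the lattice input `ResRank` being
  `I.setup.resRank residue_surjective`; NB `BR/SS/GenusIneq` must NOT be imported together with
  `BR/SS/GenusLe`: both declare `SemistableSetup.card_nodes_le`);
* `hg_of_genera` : `hg` from the genera of the components:
  `g(cZero) = g(cInf) = gM`, `g(ze e) = gz`, `g(F) = (q+1) gM + (q+1) #SSp − q`,
  the Riemann–Hurwitz inequality of every middle component
  `dᵢ (2 gM − 2) + Σ_e (dᵢ − #{s // I.comp e s = i}) ≤ 2 g(mid i) − 2` with `Σ dᵢ = q − 1`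
  (`hRH_of_totally_ramified` : it follows from the inequality for total ramification over all
  supersingular points when every `I.comp e` is surjective), and
  `q + 1 ≤ 2 gz + #KP`;
* `hg_of_input_modular` : the same for `F = Fb (M * q * q)` over `Qb`, the generic genus and the
  number of supersingular points being expressed through the genera of `Fb M`, `Fb (M * q)`
  (`GenusHg.genusFF_two_levels`): literally input (G7) of `SDD.newInvBoundedLevel_of_input` with
  `N₁ = M * q`.
-/

set_option autoImplicit false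
set_option linter.unusedSectionVars false

namespace Fermat.Agent.BR3.GenusHgPlug

open AlgebraicCurve IsLocalRing Fermat.Agent.Red Fermat.Agent.BR.SS Fermat.Agent.BR3.SDD
  Fermat.Agent.BR3.GenusHg

section General

variable {K : Type} {F : Type*} [Field K] [Field F] [Algebra K F]
  {A : ValuationSubring K} {Mid SSp KP : Type} [Fintype Mid] [Fintype SSp] [Fintype KP]
  {Ft : Comp Mid SSp → Type} [∀ v, Field (Ft v)] [∀ v, Algebra (ResidueField A) (Ft v)]
  (I : Input (F := F) A Mid SSp KP Ft)

include I in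
/-- **(G7) from the inequality** `g(F) ≤ p_a(special fibre)`. -/
theorem hg_of_le (hF : RiemannPkg K F) (hFt : ∀ v, RiemannPkg (ResidueField A) (Ft v))
    (hle : (genusFF K F : ℤ) ≤ ∑ v, (genusFF (ResidueField A) (Ft v) : ℤ) +
      Fintype.card (Node SSp KP) - Fintype.card (Comp Mid SSp) + 1) :
    (genusFF K F : ℤ) = ∑ v, (genusFF (ResidueField A) (Ft v) : ℤ) +
      Fintype.card (Node SSp KP) - Fintype.card (Comp Mid SSp) + 1 :=
  le_antisymm hle (I.setup.arithGenus_le hF hFt (I.setup.resRank residue_surjective))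

/-- **(G7) from the genera of the components** (`kap`-version: `card KP` Kummer nodes on every
vertical component, no relation between `card KP` and `card Mid` needed).  The number of Kummer
places of `mid i` over `e` is `Nat.card {s : KP // I.comp e s = i}` (no decidability instance). -/
theorem hg_of_genera (hF : RiemannPkg K F)
    (hFt : ∀ v, RiemannPkg (ResidueField A) (Ft v)) {q gM gz : ℤ}
    (hZero : (genusFF (ResidueField A) (Ft cZero) : ℤ) = gM)
    (hInf : (genusFF (ResidueField A) (Ft cInf) : ℤ) = gM)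
    (hze : ∀ e : SSp, (genusFF (ResidueField A) (Ft (ze e)) : ℤ) = gz)
    (h₂ : (genusFF K F : ℤ) = (q + 1) * gM + (q + 1) * (Fintype.card SSp : ℤ) - q)
    (d : Mid → ℤ) (hd : ∑ i, d i = q - 1)
    (hRH : ∀ i, d i * (2 * gM - 2) +
        ∑ e, (d i - (Nat.card {s : KP // I.comp e s = i} : ℤ)) ≤
      2 * (genusFF (ResidueField A) (Ft (mid i)) : ℤ) - 2)
    (hz : q + 1 ≤ 2 * gz + (Fintype.card KP : ℤ)) :
    (genusFF K F : ℤ) = ∑ v, (genusFF (ResidueField A) (Ft v) : ℤ) +
      Fintype.card (Node SSp KP) - Fintype.card (Comp Mid SSp) + 1 := by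
  classical
  refine hg_of_le I hF hFt
    (hle_of_comp_node2 (fun v => (genusFF (ResidueField A) (Ft v) : ℤ)) hZero hInf hze h₂
      (hmid_of_comp I.comp d (fun i => (genusFF (ResidueField A) (Ft (mid i)) : ℤ)) hd ?_) hz)
  intro i
  have h := hRH i
  simpa only [Nat.card_eq_fintype_card] using h

/-- The Riemann–Hurwitz input of `hg_of_genera` from the inequality for TOTAL ramification over the
supersingular points (`KummerGenus.riemann_hurwitz_ge*` with `T` = the supersingular points:
`dᵢ (2 gM − 2) + #SSp (dᵢ − 1) ≤ 2 g(mid i) − 2`), as soon as every middle component carries a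
Kummer place over every supersingular point. -/
theorem hRH_of_totally_ramified (comp : SSp → KP → Mid)
    (hsurj : ∀ e i, ∃ s, comp e s = i) {gM : ℤ} (d g : Mid → ℤ)
    (hRH : ∀ i, d i * (2 * gM - 2) + (Fintype.card SSp : ℤ) * (d i - 1) ≤ 2 * g i - 2) (i : Mid) :
    d i * (2 * gM - 2) + ∑ e, (d i - (Nat.card {s : KP // comp e s = i} : ℤ)) ≤
      2 * g i - 2 := by
  have h1 : ∀ e, (1 : ℤ) ≤ (Nat.card {s : KP // comp e s = i} : ℤ) := by
    intro e
    obtain ⟨s, hs⟩ := hsurj e i
    have : Nonempty {s : KP // comp e s = i} := ⟨⟨s, hs⟩⟩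
    have : 0 < Nat.card {s : KP // comp e s = i} := Nat.card_pos
    exact_mod_cast this
  have h2 : ∑ e : SSp, (d i - (Nat.card {s : KP // comp e s = i} : ℤ)) ≤
      ∑ _e : SSp, (d i - 1) :=
    Finset.sum_le_sum fun e _ => by have := h1 e; linarith
  rw [Finset.sum_const, Finset.card_univ, nsmul_eq_mul] at h2
  have := hRH i
  linarith

end General

section Modular

open ModularCurve Fermat.Agent.X0

local notation "Qb" => AlgebraicClosure ℚ

variable (M q : ℕ) [NeZero M] [hq : Fact q.Prime]
  {B : ValuationSubring Qb} {Mid SSp KP : Type} [Fintype Mid] [Fintype SSp] [Fintype KP]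
  {Ft : Comp Mid SSp → Type} [∀ v, Field (Ft v)] [∀ v, Algebra (ResidueField B) (Ft v)]
  (I : Input (F := Fb (M * q * q)) B Mid SSp KP Ft)

/-- **(G7) for `S″` at the level `M q q`**: input `hg` of `SDD.newInvBoundedLevel_of_input`
(`N₁ = M * q`).  Inputs: `q ∤ M`, no elliptic points at level `M`; the horizontal components have
the genus of `Fb M`; the number of supersingular points is `g(Fb (M q)) − 2 g(Fb M) + 1` (the genus
hypothesis of the model `S′` of `X₀(M q)`); every vertical component has genus `gz` with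
`q + 1 ≤ 2 gz + card KP`; Riemann–Hurwitz for the middle components. -/
theorem hg_of_input_modular (hqM : ¬ q ∣ M)
    (h2 : nuTwo M = 0) (h3 : nuThree M = 0)
    (hF : RiemannPkg Qb (Fb (M * q * q)))
    (hFt : ∀ v, RiemannPkg (ResidueField B) (Ft v)) {gz : ℤ}
    (hZero : (genusFF (ResidueField B) (Ft cZero) : ℤ) = (genusFF Qb (Fb M) : ℤ))
    (hInf : (genusFF (ResidueField B) (Ft cInf) : ℤ) = (genusFF Qb (Fb M) : ℤ))
    (hze : ∀ e : SSp, (genusFF (ResidueField B) (Ft (ze e)) : ℤ) = gz)
    (hs : (Fintype.card SSp : ℤ) =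
      (genusFF Qb (Fb (M * q)) : ℤ) - 2 * (genusFF Qb (Fb M) : ℤ) + 1)
    (d : Mid → ℤ) (hd : ∑ i, d i = (q : ℤ) - 1)
    (hRH : ∀ i, d i * (2 * (genusFF Qb (Fb M) : ℤ) - 2) +
        ∑ e, (d i - (Nat.card {s : KP // I.comp e s = i} : ℤ)) ≤
      2 * (genusFF (ResidueField B) (Ft (mid i)) : ℤ) - 2)
    (hz : (q : ℤ) + 1 ≤ 2 * gz + (Fintype.card KP : ℤ)) :
    (genusFF Qb (Fb (M * q * q)) : ℤ) = ∑ v, (genusFF (ResidueField B) (Ft v) : ℤ) +
      Fintype.card (Node SSp KP) - Fintype.card (Comp Mid SSp) + 1 := by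
  refine hg_of_genera I hF hFt hZero hInf hze ?_ d hd hRH hz
  rw [hs]
  exact genusFF_two_levels M q hqM h2 h3

/-- **(G7) for `S″` at the level `M q q`, total-ramification form**: the Riemann–Hurwitz input in
the shape of `KummerGenus.riemann_hurwitz_ge*` (`T` = all supersingular points), every middle
component carrying a Kummer place over every supersingular point. -/
theorem hg_of_input_modular_tot (hqM : ¬ q ∣ M)
    (h2 : nuTwo M = 0) (h3 : nuThree M = 0)
    (hF : RiemannPkg Qb (Fb (M * q * q)))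
    (hFt : ∀ v, RiemannPkg (ResidueField B) (Ft v)) {gz : ℤ}
    (hZero : (genusFF (ResidueField B) (Ft cZero) : ℤ) = (genusFF Qb (Fb M) : ℤ))
    (hInf : (genusFF (ResidueField B) (Ft cInf) : ℤ) = (genusFF Qb (Fb M) : ℤ))
    (hze : ∀ e : SSp, (genusFF (ResidueField B) (Ft (ze e)) : ℤ) = gz)
    (hs : (Fintype.card SSp : ℤ) =
      (genusFF Qb (Fb (M * q)) : ℤ) - 2 * (genusFF Qb (Fb M) : ℤ) + 1)
    (hsurj : ∀ e i, ∃ s, I.comp e s = i)
    (d : Mid → ℤ) (hd : ∑ i, d i = (q : ℤ) - 1)
    (hRH : ∀ i, d i * (2 * (genusFF Qb (Fb M) : ℤ) - 2) + (Fintype.card SSp : ℤ) * (d i - 1) ≤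
      2 * (genusFF (ResidueField B) (Ft (mid i)) : ℤ) - 2)
    (hz : (q : ℤ) + 1 ≤ 2 * gz + (Fintype.card KP : ℤ)) :
    (genusFF Qb (Fb (M * q * q)) : ℤ) = ∑ v, (genusFF (ResidueField B) (Ft v) : ℤ) +
      Fintype.card (Node SSp KP) - Fintype.card (Comp Mid SSp) + 1 :=
  hg_of_input_modular M q I hqM h2 h3 hF hFt hZero hInf hze hs d hd
    (hRH_of_totally_ramified I.comp hsurj d
      (fun i => (genusFF (ResidueField B) (Ft (mid i)) : ℤ)) hRH) hz

end Modular

end Fermat.Agent.BR3.GenusHgPlug
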