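import Fermat.Agent.BR3.GeoRich
import Fermat.Agent.Val.ResidueFieldA

/-!
# Program C (S36), node (I9-σ0): the tame generator `σ0` and its action on the `q`-th roots of unity

`B` a valuation subring of `ℚ̄` over the prime `q`.

* `valuation_sub_cast_lt_one` : **the cyclotomic character modulo `q` is the tame character of
  level one**: if `σ` lies in the inertia group, `π₀ ^ (q - 1) = q`, `σ π₀ = η * π₀` and
  `σ ζ = ζ ^ i` for a primitive `q`-th root of unity `ζ`, then `|η - i| < 1`;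
* `orderOf_cast_eq` : if moreover the residue of `η` is a primitive `(q - 1)`-th root of unity,
  then `i` generates `(ℤ/q)ˣ` : `orderOf (i : ZMod q) = q - 1`;
* `exists_tame_generator` : for `ϖ ^ ((q - 1) * (q + 1)) = q` there is `σ0` in the inertia group
  with `σ0 ϖ = ζ₀ * ϖ`, `ζ₀` a primitive `(q - 1) * (q + 1)`-th root of unity (also modulo the
  maximal ideal), fixing the roots of unity of order prime to `q`; consequently
  `σ0 (ϖ ^ (q - 1)) = ζ₀ ^ (q - 1) * ϖ ^ (q - 1)` with `ζ₀ ^ (q - 1)` of exact order `q + 1` (also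
  modulo the maximal ideal: the rotation of the vertical components has exact order `q + 1`), and
  `σ0 ζ = ζ ^ i` on the `q`-th roots of unity with `i` a generator of `(ℤ/q)ˣ` (`σ0` permutes the
  middle components transitively).
-/

set_option autoImplicit false
set_option linter.style.haveILetI false

namespace Fermat.Agent.BR3.GeoSigma

open Fermat.Agent.BR.UnramCyclo Fermat.Agent.BR.InertiaRed IsLocalRing Fermat.Agent.BR3.TameSurj
  Fermat.Agent.BR3.GeoRich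

local notation "Qb" => AlgebraicClosure ℚ

variable {q : ℕ} (B : ValuationSubring Qb)

/-- `|q| < 1` -/
theorem valuation_cast_lt_one (hB : B.LiesOverPrime q) : B.valuation (q : Qb) < 1 :=
  (B.valuation_lt_one_iff _).mp
    ((B.mem_nonunits_iff_exists_mem_maximalIdeal).mp hB).choose_spec

/-- a natural number has valuation at most one -/
theorem valuation_natCast_le_one (n : ℕ) : B.valuation (n : Qb) ≤ 1 := by
  rw [B.valuation_le_one_iff]
  exact natCast_mem B n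

/-- `|ζ - 1| < 1` for a primitive `q`-th root of unity -/
theorem valuation_sub_one_lt_one (hq : q.Prime) (hB : B.LiesOverPrime q) {ζ : Qb}
    (hζ : IsPrimitiveRoot ζ q) : B.valuation (ζ - 1) < 1 := by
  have h1 := valuation_sub_one_pow B hq hζ
  have h2 := valuation_cast_lt_one B hB
  rw [← h1] at h2
  by_contra h
  have h3 : 1 ≤ B.valuation (ζ - 1) := not_lt.mp h
  exact absurd h2 (not_lt.mpr (one_le_pow_of_one_le' h3 _))

/-- `|1 + ζ + ⋯ + ζ ^ (i - 1) - i| < 1` -/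
theorem valuation_geom_sum_sub_lt_one (hq : q.Prime) (hB : B.LiesOverPrime q) {ζ : Qb}
    (hζ : IsPrimitiveRoot ζ q) (i : ℕ) :
    B.valuation (∑ j ∈ Finset.range i, ζ ^ j - (i : Qb)) < 1 := by
  have hv : B.valuation ζ = 1 := valuation_eq_one_of_pow_eq_one B hq.ne_zero hζ.pow_eq_one
  have h1 : ∑ j ∈ Finset.range i, ζ ^ j - (i : Qb) = ∑ j ∈ Finset.range i, (ζ ^ j - 1) := by
    rw [Finset.sum_sub_distrib, Finset.sum_const, Finset.card_range, nsmul_eq_mul, mul_one]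
  rw [h1]
  refine Valuation.map_sum_lt _ one_ne_zero fun j _ => ?_
  exact lt_of_le_of_lt (valuation_pow_sub_one_le B hv j) (valuation_sub_one_lt_one B hq hB hζ)

/-- **The cyclotomic character modulo `q` is the tame character of level one.** -/
theorem valuation_sub_cast_lt_one (hq : q.Prime) (hB : B.LiesOverPrime q) {σ : Qb ≃ₐ[ℚ] Qb}
    (hσ : σ ∈ B.inertiaSubgroupIn ℚ) {π₀ η : Qb} (hπ₀ : π₀ ^ (q - 1) = (q : Qb))
    (hση : σ π₀ = η * π₀) {ζ : Qb} (hζ : IsPrimitiveRoot ζ q) {i : ℕ} (hi : σ ζ = ζ ^ i) :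
    B.valuation (η - (i : Qb)) < 1 := by
  have hv : B.valuation ζ = 1 := valuation_eq_one_of_pow_eq_one B hq.ne_zero hζ.pow_eq_one
  have hq1 : q - 1 ≠ 0 := by have := hq.two_le; omega
  have hπ0 : π₀ ≠ 0 := by
    rintro rfl
    rw [zero_pow hq1] at hπ₀
    exact (Nat.cast_ne_zero.2 hq.ne_zero) hπ₀.symm
  have hvπ : B.valuation (ζ - 1) = B.valuation π₀ := by
    have h1 := valuation_sub_one_pow B hq hζ
    rw [← hπ₀, map_pow] at h1
    exact (pow_left_inj hq1).mp h1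
  have hvπ0 : B.valuation π₀ ≠ 0 := (Valuation.ne_zero_iff _).mpr hπ0
  -- `η ^ (q - 1) = 1`
  have hη1 : η ^ (q - 1) = 1 := by
    have h1 : (σ π₀) ^ (q - 1) = (q : Qb) := by rw [← map_pow, hπ₀, map_natCast]
    rw [hση, mul_pow, hπ₀] at h1
    have hq0 : (q : Qb) ≠ 0 := Nat.cast_ne_zero.2 hq.ne_zero
    exact mul_right_cancel₀ hq0 (by rw [h1, one_mul])
  have hvη : B.valuation η = 1 := valuation_eq_one_of_pow_eq_one B hq1 hη1
  have hη0 : η ≠ 0 := by
    rintro rfl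
    rw [map_zero] at hvη
    exact zero_ne_one hvη
  -- the unit `y = (ζ - 1) / π₀`
  have hvy : B.valuation ((ζ - 1) / π₀) = 1 := by rw [map_div₀, hvπ, div_self hvπ0]
  have h1 := Fermat.Agent.S05.valuation_apply_sub_lt_one B hσ hvy.le
  set G : Qb := ∑ j ∈ Finset.range i, ζ ^ j with hG
  have hGmul : G * (ζ - 1) = ζ ^ i - 1 := geom_sum_mul ζ i
  have h2 : σ ((ζ - 1) / π₀) - (ζ - 1) / π₀ = (ζ - 1) / π₀ * ((G - η) / η) := by
    rw [map_div₀, map_sub, map_one, hση, hi, ← hGmul]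
    field_simp
  rw [h2, map_mul, hvy, one_mul, map_div₀, hvη, div_one] at h1
  have h3 := valuation_geom_sum_sub_lt_one B hq hB hζ i
  have h4 : η - (i : Qb) = (G - (i : Qb)) - (G - η) := by ring
  rw [h4]
  exact lt_of_le_of_lt (Valuation.map_sub _ _ _) (max_lt h3 h1)

/-- If the residue of `η` is a primitive `(q - 1)`-th root of unity and `|η - i| < 1`, then `i`
generates `(ℤ/q)ˣ`. -/
theorem orderOf_cast_eq (hq : q.Prime) (hB : B.LiesOverPrime q) {η : Qb} (hηB : η ∈ B)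
    (hη : IsPrimitiveRoot (resOf B η) (q - 1)) {i : ℕ} (hi : B.valuation (η - (i : Qb)) < 1) :
    orderOf (i : ZMod q) = q - 1 := by
  haveI : Fact q.Prime := ⟨hq⟩
  haveI : CharP (ResidueField B) q := Fermat.Agent.Val.charP_residueField_of_liesOverPrime B hB
  -- the residue of `η` is the image of `i`
  have h1 : resOf B η = ((i : ℕ) : ResidueField B) := by
    have hiB : (i : Qb) ∈ B := natCast_mem B i
    have h2 : η = (η - (i : Qb)) + (i : Qb) := by ring
    have hsub : η - (i : Qb) ∈ B := B.sub_mem hηB hiB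
    rw [h2, resOf_add B hsub hiB, resOf_eq_zero B hi, zero_add, resOf_of_mem B hiB]
    have : (⟨(i : Qb), hiB⟩ : B) = ((i : ℕ) : B) := Subtype.ext (by simp)
    rw [this, map_natCast]
  have h3 : ((i : ℕ) : ResidueField B) = ZMod.castHom (dvd_refl q) (ResidueField B) (i : ZMod q) := by
    rw [map_natCast]
  rw [h1, h3] at hη
  have hinj : Function.Injective (ZMod.castHom (dvd_refl q) (ResidueField B)) :=
    RingHom.injective _
  rw [← orderOf_injective (ZMod.castHom (dvd_refl q) (ResidueField B)).toMonoidHom hinj]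
  exact hη.eq_orderOf.symm

/-- **The tame generator `σ0`.** -/
theorem exists_tame_generator (hq : q.Prime) (hB : B.LiesOverPrime q) {ϖ : Qb}
    (hϖ : ϖ ^ ((q - 1) * (q + 1)) = (q : Qb)) :
    ∃ σ ∈ B.inertiaSubgroupIn ℚ, ∃ ζ₀ : Qb, IsPrimitiveRoot ζ₀ ((q - 1) * (q + 1)) ∧
      σ ϖ = ζ₀ * ϖ ∧ (∀ a ∈ cycloField Qb q, σ a = a) ∧
      IsPrimitiveRoot (resOf B ζ₀) ((q - 1) * (q + 1)) ∧
      σ (ϖ ^ (q - 1)) = ζ₀ ^ (q - 1) * ϖ ^ (q - 1) ∧ IsPrimitiveRoot (ζ₀ ^ (q - 1)) (q + 1) ∧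
      IsPrimitiveRoot (resOf B (ζ₀ ^ (q - 1))) (q + 1) ∧
      ∃ i : ℕ, (∀ ζ : Qb, ζ ^ q = 1 → σ ζ = ζ ^ i) ∧ orderOf (i : ZMod q) = q - 1 := by
  have hq2 := hq.two_le
  have hq1 : 0 < q - 1 := by omega
  have hn : 0 < (q - 1) * (q + 1) := Nat.mul_pos hq1 (by omega)
  have hqn : ¬ q ∣ (q - 1) * (q + 1) := by
    intro h
    rcases hq.dvd_mul.mp h with h1 | h1
    · exact absurd (Nat.le_of_dvd hq1 h1) (by omega)
    · have h2 : q ∣ 1 := (Nat.dvd_add_right (dvd_refl q)).mp h1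
      exact absurd (Nat.le_of_dvd one_pos h2) (by omega)
  obtain ⟨σ, hσI, ζ₀, hζ₀, hσϖ, hσK, -, hres⟩ :=
    exists_inertia_smul_root_primitive B hq hB hqn hϖ
  have hζ₀B : ζ₀ ∈ B := mem_of_pow_eq_one B hn hζ₀.pow_eq_one
  have hrespow : ∀ n : ℕ, resOf B (ζ₀ ^ n) = resOf B ζ₀ ^ n := by
    intro n
    rw [resOf_of_mem B (B.pow_mem hζ₀B n), resOf_of_mem B hζ₀B, ← map_pow]
    rfl
  refine ⟨σ, hσI, ζ₀, hζ₀, hσϖ, hσK, hres, ?_, ?_, ?_, ?_⟩
  · rw [map_pow, hσϖ, mul_pow]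
  · exact hζ₀.pow hn rfl
  · rw [hrespow]
    exact hres.pow hn rfl
  · -- the action on the `q`-th roots of unity
    haveI : NeZero q := ⟨hq.ne_zero⟩
    haveI : NeZero (q : Qb) := ⟨Nat.cast_ne_zero.2 hq.ne_zero⟩
    obtain ⟨ζq, hζq⟩ := HasEnoughRootsOfUnity.exists_primitiveRoot Qb q
    obtain ⟨i, -, hi⟩ := hζq.eq_pow_of_pow_eq_one
      (show (σ ζq) ^ q = 1 by rw [← map_pow, hζq.pow_eq_one, map_one])
    refine ⟨i, fun ζ hζ => ?_, ?_⟩
    · obtain ⟨j, -, rfl⟩ := hζq.eq_pow_of_pow_eq_one hζ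
      rw [map_pow, ← hi, ← pow_mul, ← pow_mul, mul_comm]
    · -- `π₀ = ϖ ^ (q + 1)`, `η = ζ₀ ^ (q + 1)`
      have hπ₀ : (ϖ ^ (q + 1)) ^ (q - 1) = (q : Qb) := by rw [← pow_mul, mul_comm, hϖ]
      have hση : σ (ϖ ^ (q + 1)) = ζ₀ ^ (q + 1) * ϖ ^ (q + 1) := by rw [map_pow, hσϖ, mul_pow]
      have h1 := valuation_sub_cast_lt_one B hq hB hσI hπ₀ hση hζq hi.symm
      refine orderOf_cast_eq B hq hB (B.pow_mem hζ₀B _) ?_ h1
      rw [hrespow]
      exact hres.pow hn (mul_comm _ _)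

end Fermat.Agent.BR3.GeoSigma
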