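import Fermat.Agent.BR3.GeoFinal
import Fermat.Agent.BR3.GeoTorPush
import Fermat.Agent.BR3.PushShapes

/-!
# Program C (S36), node (I11-H3): the hypothesis `H3` of `GeoFinal.newInvBoundedLevel_of_geo`

`S` a semistable setup on `Fb (N₁ * q) / Kb` over `B` (the stable model `S″` of `X₀(M q²)`), with
the graph data of `GeoTor.h3_of_graph`.

* `h3_of_relations` : `H3` (with `e₃ = q (q+1) (d |KP|)`) from the moving lemma
  `TorGood S (lam ^ m)`, the push-forward relations `(rWa)`, `(rTa)` along `α` and `(rWb)`, `(rTb)`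
  along `β` (in the shape of the conclusion of `PushShapes.push_relations`), and the action
  `TorGlue.ActsOn S (galAut (N₁ * q) σ0) pι a'` of one inertia element `σ0` (the tame generator);
* `h3_of_data` : the same with the push-forward relations discharged by
  `PushShapes.push_relations` for `(Sa, heckeAlphaBar Kb N₁ q)` and `(Sb, heckeBetaBar Kb N₁ q)`.
-/

set_option autoImplicit false
set_option linter.style.haveILetI false
set_option linter.unusedSectionVars false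
set_option linter.unusedVariables false

open ModularCurve AlgebraicCurve

noncomputable section

namespace Fermat.Agent.BR3.GeoTorData

open IsLocalRing Fermat.Agent.Jac Fermat.Agent.X0 Fermat.Agent.Red Fermat.Agent.BR.SS
  Fermat.Agent.BR Fermat.Agent.BR.PicFunct
  Fermat.Agent.BR2.Filt Fermat.Agent.BR3.FiltMaps Fermat.Agent.BR3.FiltPerm
  Fermat.Agent.BR.LevelTransfer Fermat.Agent.BR2.LevelMaps Fermat.Agent.BR3.G5Multi
  Fermat.Agent.BR3.TorGlue Fermat.Agent.BR3.GeoTor Fermat.Agent.BR3.GeoTorPush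
  Fermat.Agent.BR3.GeoFinal

local notation "Qb" => AlgebraicClosure ℚ

variable (N₁ q lam : ℕ) [NeZero N₁] [NeZero q] (B : ValuationSubring Qb)
  {k : Type*} [Field k] {π : B →+* k}
  {ι : Type*} {Ft : ι → Type*} [∀ v, Field (Ft v)] [∀ v, Algebra k (Ft v)] {ν : Type*}
  (S : SemistableSetup (F := Fb (N₁ * q)) B π ι Ft ν)

/-- **(I11-H3), relation form.** -/
theorem h3_of_relations {SSp Mid KP : Type*} [Fintype KP]
    (hNTK : NoTorsionInKernel S) (hF : RiemannPkg Qb (Fb (N₁ * q)))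
    (hFt : ∀ v, RiemannPkg k (Ft v)) (hlam : (lam : k) ≠ 0)
    (hTG : ∀ m : ℕ, TorGood S (lam ^ m))
    -- the graph
    (hor : ν → Bool)
    (eι : (Bool ⊕ Mid) ⊕ SSp ≃ ι) (nW nT : SSp → ν) (nk : SSp → KP → ν) (comp : SSp → KP → Mid)
    (hnodes : ∀ e'' : ν, (∃ e, nW e = e'') ∨ (∃ e, nT e = e'') ∨ ∃ e s, nk e s = e'')
    (hW : ∀ e, horEnd S hor (nW e) = eι (Sum.inl (Sum.inl true)) ∧
      verEnd S hor (nW e) = eι (Sum.inr e))
    (hT : ∀ e, horEnd S hor (nT e) = eι (Sum.inl (Sum.inl false)) ∧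
      verEnd S hor (nT e) = eι (Sum.inr e))
    (hK : ∀ e s, horEnd S hor (nk e s) = eι (Sum.inl (Sum.inr (comp e s))) ∧
      verEnd S hor (nk e s) = eι (Sum.inr e))
    (d : ℕ) (hd : d * Fintype.card KP + 1 = q) (φ : SSp → SSp) (P : Equiv.Perm Mid)
    (p : SSp → Equiv.Perm KP) (hp : ∀ e s s', ∃ n : ℕ, ((p e) ^ n) s = s')
    (hcomp : ∀ e s, comp e (p e s) = P (comp e s))
    -- the push-forward relations along `α`
    {ιa : Type*} (vWa vTa : ιa) (vEa : SSp → ιa)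
    (hpa : ∀ (m : ℕ) (z : JZero (N₁ * q)) (D : Divisor.degZero (K := Qb) (F := Fb (N₁ * q)))
      (f : Fb (N₁ * q)) (u : ∀ v, Ft v), IsGood S (lam ^ m) z D f u → alphaDown N₁ q z = 0 →
      ∀ (av bv : ν → k) (ha0 : ∀ e, av e ≠ 0) (hb0 : ∀ e, bv e ≠ 0),
      (∀ e, IsValueAt (S.s₁ e) (u (S.src e)) (av e)) →
      (∀ e, IsValueAt (S.s₂ e) (u (S.tgt e)) (bv e)) →
      ∃ κ₀ : ιa → k, (∀ v, κ₀ v ≠ 0) ∧
        (∀ e, valH hor av bv (nW e) ^ q * κ₀ (vEa e) = valV hor av bv (nW e) ^ q * κ₀ vWa) ∧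
        ∀ e, (valH hor av bv (nT e) * ∏ s, valH hor av bv (nk e s) ^ d) * κ₀ (vEa e) =
          (valV hor av bv (nT e) * ∏ s, valV hor av bv (nk e s) ^ d) * κ₀ vTa)
    -- the push-forward relations along `β`
    {ιb : Type*} (vWb vTb : ιb) (vEb : SSp → ιb)
    (hpb : ∀ (m : ℕ) (z : JZero (N₁ * q)) (D : Divisor.degZero (K := Qb) (F := Fb (N₁ * q)))
      (f : Fb (N₁ * q)) (u : ∀ v, Ft v), IsGood S (lam ^ m) z D f u → betaDown N₁ q z = 0 →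
      ∀ (av bv : ν → k) (ha0 : ∀ e, av e ≠ 0) (hb0 : ∀ e, bv e ≠ 0),
      (∀ e, IsValueAt (S.s₁ e) (u (S.src e)) (av e)) →
      (∀ e, IsValueAt (S.s₂ e) (u (S.tgt e)) (bv e)) →
      ∃ κ₀ : ιb → k, (∀ v, κ₀ v ≠ 0) ∧
        (∀ e, valH hor av bv (nT e) ^ q * κ₀ (vEb (φ e)) =
          valV hor av bv (nT e) ^ q * κ₀ vWb) ∧
        ∀ e, (valH hor av bv (nW e) * ∏ s, valH hor av bv (nk e s) ^ d) * κ₀ (vEb (φ e)) =
          (valV hor av bv (nW e) * ∏ s, valV hor av bv (nk e s) ^ d) * κ₀ vTb)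
    -- the tame generator
    (σ0 : GQ) (hσ0 : σ0 ∈ B.inertiaSubgroupIn ℚ) (pι : Equiv.Perm ι)
    (a' : ∀ v, Ft v ≃ₐ[k] Ft (pι v)) (hAct : ActsOn S (galAut (N₁ * q) σ0) pι a')
    (pν : ν → ν)
    (hs₁ : ∀ e, (⟨S.src (pν e), S.s₁ (pν e)⟩ : Σ v, Place k (Ft v)) =
      sigmaMap pι a' ⟨S.src e, S.s₁ e⟩)
    (hs₂ : ∀ e, (⟨S.tgt (pν e), S.s₂ (pν e)⟩ : Σ v, Place k (Ft v)) =
      sigmaMap pι a' ⟨S.tgt e, S.s₂ e⟩)
    (hpor : ∀ e, hor (pν e) = hor e)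
    (hpW : ∀ e, pν (nW e) = nW e) (hpk : ∀ e s, pν (nk e s) = nk e (p e s)) (v₀ : ι) :
    ∀ (m : ℕ) (z : JZero (N₁ * q)), z ∈ torSub S (lam ^ m) → lam ^ m • z = 0 →
      Inv N₁ q B z → alphaDown N₁ q z = 0 → betaDown N₁ q z = 0 →
      (q * (q + 1) * (d * Fintype.card KP)) • z = 0 := by
  have hlam0 : lam ≠ 0 := fun h0 => hlam (by rw [h0, Nat.cast_zero])
  refine h3_of_graph (S := S) hNTK hFt lam hlam hTG (Inv N₁ q B) (alphaDown N₁ q)
    (betaDown N₁ q) hor eι nW nT nk comp hnodes hW hT hK q d hd φ P p hp hcomp ?_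
  intro m z D f u hG hinv haz hbz av bv ha0 hb0 ha hb
  obtain ⟨κa, hκa, rWa, rTa⟩ := hpa m z D f u hG haz av bv ha0 hb0 ha hb
  obtain ⟨κb, hκb, rWb, rTb⟩ := hpb m z D f u hG hbz av bv ha0 hb0 ha hb
  have hz : galAut (N₁ * q) σ0 • z = z := hinv σ0 hσ0
  have hinv' := exists_inv_shapes (S := S) hF hFt v₀ (pow_ne_zero m hlam0) hAct hG hz pν hs₁ hs₂
    hor hpor av bv ha0 hb0 ha hb eι nW nk comp hW hK P p hcomp hpW hpk
  exact hcoch_of_parts hor av bv ha0 hb0 nW nT nk comp p q d φ κa hκa vWa vTa vEa rWa rTa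
    κb hκb vWb vTb vEb rWb rTb hinv'

/-- **(I11-H3), data form**: the push-forward relations are discharged by
`PushShapes.push_relations` along `α` (lower setup `Sa`) and along `β` (lower setup `Sb`, the roles
of `nW`, `nT` exchanged, the chain component under `z e` is `vEb (φ e)`). -/
theorem h3_of_data {SSp Mid KP : Type*} [Fintype KP]
    (hNTK : NoTorsionInKernel S) (hF₀ : RiemannPkg Qb (Fb N₁))
    (hF : RiemannPkg Qb (Fb (N₁ * q)))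
    (hFt : ∀ v, RiemannPkg k (Ft v)) (hlam : (lam : k) ≠ 0)
    (hTG : ∀ m : ℕ, TorGood S (lam ^ m))
    -- the graph
    (hor : ν → Bool)
    (eι : (Bool ⊕ Mid) ⊕ SSp ≃ ι) (nW nT : SSp → ν) (nk : SSp → KP → ν) (comp : SSp → KP → Mid)
    (hnodes : ∀ e'' : ν, (∃ e, nW e = e'') ∨ (∃ e, nT e = e'') ∨ ∃ e s, nk e s = e'')
    (hW : ∀ e, horEnd S hor (nW e) = eι (Sum.inl (Sum.inl true)) ∧
      verEnd S hor (nW e) = eι (Sum.inr e))
    (hT : ∀ e, horEnd S hor (nT e) = eι (Sum.inl (Sum.inl false)) ∧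
      verEnd S hor (nT e) = eι (Sum.inr e))
    (hK : ∀ e s, horEnd S hor (nk e s) = eι (Sum.inl (Sum.inr (comp e s))) ∧
      verEnd S hor (nk e s) = eι (Sum.inr e))
    (d : ℕ) (hd : d * Fintype.card KP + 1 = q) (φ : SSp → SSp) (P : Equiv.Perm Mid)
    (p : SSp → Equiv.Perm KP) (hp : ∀ e s s', ∃ n : ℕ, ((p e) ^ n) s = s')
    (hcomp : ∀ e s, comp e (p e s) = P (comp e s))
    (hnk : ∀ e, Function.Injective (nk e)) (hnTk : ∀ e s, nT e ≠ nk e s)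
    (hnWk : ∀ e s, nW e ≠ nk e s)
    -- along `α`
    {ιa : Type*} {Fta : ιa → Type*} [∀ v, Field (Fta v)] [∀ v, Algebra k (Fta v)] {νa : Type*}
    (Sa : SemistableSetup (F := Fb N₁) B π ιa Fta νa) (hFta : ∀ v, RiemannPkg k (Fta v))
    {Ja : ιa → Type*} [∀ v, Fintype (Ja v)] (wa : ∀ v, Ja v → ι)
    (ψa : ∀ v (j : Ja v), Fta v →ₐ[k] Ft (wa v j))
    (hNRa : ∀ v, NormRes Sa S (heckeAlphaBar Kb N₁ q) v (wa v) (ψa v)) (va₀ : ιa)
    (hsma : ∀ P : Place Qb (Fb (N₁ * q)), S.IsSmoothPlace P →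
      Sa.IsSmoothPlace (P.restrictAlong (heckeAlphaBar Kb N₁ q)
        (Fermat.Agent.BR2.LevelGen.isIntegral_fb _)))
    (hora : νa → Bool) (Ta : νa → Finset ν) (wta : ν → ℕ)
    (hHa : ∀ e', PushShapes.NormFibre wa ψa (horBranch Sa hora e') (Ta e') (horBranch S hor) wta)
    (hVa : ∀ e', PushShapes.NormFibre wa ψa (verBranch Sa hora e') (Ta e') (verBranch S hor) wta)
    (mWa mTa : SSp → νa) (vWa vTa : ιa) (vEa : SSp → ιa)
    (hTWa : ∀ e n, n ∈ Ta (mWa e) ↔ n = nW e)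
    (hTTa : ∀ e n, n ∈ Ta (mTa e) ↔ n = nT e ∨ ∃ s, n = nk e s)
    (hwtWa : ∀ e, wta (nW e) = q) (hwtTa : ∀ e, wta (nT e) = 1)
    (hwtka : ∀ e s, wta (nk e s) = d)
    (hWha : ∀ e, horEnd Sa hora (mWa e) = vWa) (hWva : ∀ e, verEnd Sa hora (mWa e) = vEa e)
    (hTha : ∀ e, horEnd Sa hora (mTa e) = vTa) (hTva : ∀ e, verEnd Sa hora (mTa e) = vEa e)
    -- along `β`
    {ιb : Type*} {Ftb : ιb → Type*} [∀ v, Field (Ftb v)] [∀ v, Algebra k (Ftb v)] {νb : Type*}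
    (Sb : SemistableSetup (F := Fb N₁) B π ιb Ftb νb) (hFtb : ∀ v, RiemannPkg k (Ftb v))
    {Jb : ιb → Type*} [∀ v, Fintype (Jb v)] (wb : ∀ v, Jb v → ι)
    (ψb : ∀ v (j : Jb v), Ftb v →ₐ[k] Ft (wb v j))
    (hNRb : ∀ v, NormRes Sb S (heckeBetaBar Kb N₁ q) v (wb v) (ψb v)) (vb₀ : ιb)
    (hsmb : ∀ P : Place Qb (Fb (N₁ * q)), S.IsSmoothPlace P →
      Sb.IsSmoothPlace (P.restrictAlong (heckeBetaBar Kb N₁ q)
        (Fermat.Agent.BR2.LevelGen.isIntegral_fb _)))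
    (horb : νb → Bool) (Tb : νb → Finset ν) (wtb : ν → ℕ)
    (hHb : ∀ e', PushShapes.NormFibre wb ψb (horBranch Sb horb e') (Tb e') (horBranch S hor) wtb)
    (hVb : ∀ e', PushShapes.NormFibre wb ψb (verBranch Sb horb e') (Tb e') (verBranch S hor) wtb)
    (mWb mTb : SSp → νb) (vWb vTb : ιb) (vEb : SSp → ιb)
    (hTWb : ∀ e n, n ∈ Tb (mWb e) ↔ n = nT e)
    (hTTb : ∀ e n, n ∈ Tb (mTb e) ↔ n = nW e ∨ ∃ s, n = nk e s)
    (hwtWb : ∀ e, wtb (nT e) = q) (hwtTb : ∀ e, wtb (nW e) = 1)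
    (hwtkb : ∀ e s, wtb (nk e s) = d)
    (hWhb : ∀ e, horEnd Sb horb (mWb e) = vWb)
    (hWvb : ∀ e, verEnd Sb horb (mWb e) = vEb (φ e))
    (hThb : ∀ e, horEnd Sb horb (mTb e) = vTb)
    (hTvb : ∀ e, verEnd Sb horb (mTb e) = vEb (φ e))
    -- the tame generator
    (σ0 : GQ) (hσ0 : σ0 ∈ B.inertiaSubgroupIn ℚ) (pι : Equiv.Perm ι)
    (a' : ∀ v, Ft v ≃ₐ[k] Ft (pι v)) (hAct : ActsOn S (galAut (N₁ * q) σ0) pι a')
    (pν : ν → ν)
    (hs₁ : ∀ e, (⟨S.src (pν e), S.s₁ (pν e)⟩ : Σ v, Place k (Ft v)) =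
      sigmaMap pι a' ⟨S.src e, S.s₁ e⟩)
    (hs₂ : ∀ e, (⟨S.tgt (pν e), S.s₂ (pν e)⟩ : Σ v, Place k (Ft v)) =
      sigmaMap pι a' ⟨S.tgt e, S.s₂ e⟩)
    (hpor : ∀ e, hor (pν e) = hor e)
    (hpW : ∀ e, pν (nW e) = nW e) (hpk : ∀ e s, pν (nk e s) = nk e (p e s)) (v₀ : ι) :
    ∀ (m : ℕ) (z : JZero (N₁ * q)), z ∈ torSub S (lam ^ m) → lam ^ m • z = 0 →
      Inv N₁ q B z → alphaDown N₁ q z = 0 → betaDown N₁ q z = 0 →
      (q * (q + 1) * (d * Fintype.card KP)) • z = 0 := by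
  have hlam0 : lam ≠ 0 := fun h0 => hlam (by rw [h0, Nat.cast_zero])
  haveI := hF₀.principal
  haveI := hF.principal
  refine h3_of_relations N₁ q lam B S hNTK hF hFt hlam hTG hor eι nW nT nk comp hnodes hW hT hK d
    hd φ P p hp hcomp vWa vTa vEa ?_ vWb vTb vEb ?_ σ0 hσ0 pι a' hAct pν hs₁ hs₂ hpor hpW hpk v₀
  · intro m z D f u hG haz av bv ha0 hb0 ha hb
    exact PushShapes.push_relations (S₀ := Sa) (S := S) (w := wa) (ψ := ψa) hF₀ hFta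
      (heckeAlphaBar Kb N₁ q) (Fermat.Agent.BR2.LevelGen.isIntegral_fb _)
      (Fermat.Agent.BR2.LevelGen.finiteAlong_fb _) (Fermat.Agent.BR2.LevelGen.normFormulaAlong_fb _)
      hNRa va₀ (pow_ne_zero m hlam0) hG haz hsma hora hor Ta wta hHa hVa av bv ha0 hb0 ha hb
      nW nT nk q d mWa mTa vWa vTa vEa hTWa hTTa hnk hnTk hwtWa hwtTa hwtka hWha hWva hTha hTva
  · intro m z D f u hG hbz av bv ha0 hb0 ha hb
    exact PushShapes.push_relations (S₀ := Sb) (S := S) (w := wb) (ψ := ψb) hF₀ hFtb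
      (heckeBetaBar Kb N₁ q) (Fermat.Agent.BR2.LevelGen.isIntegral_fb _)
      (Fermat.Agent.BR2.LevelGen.finiteAlong_fb _) (Fermat.Agent.BR2.LevelGen.normFormulaAlong_fb _)
      hNRb vb₀ (pow_ne_zero m hlam0) hG hbz hsmb horb hor Tb wtb hHb hVb av bv ha0 hb0 ha hb
      nT nW nk q d mWb mTb vWb vTb (fun e => vEb (φ e)) hTWb hTTb hnk hnWk hwtWb hwtTb hwtkb
      hWhb hWvb hThb hTvb

end Fermat.Agent.BR3.GeoTorData
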