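import Mathlib
import Fermat.Agent.BR3.GeoTorPush

/-!
# Program C (S36), node I11-H3: the hypothesis `hcoch` from its three sources

`hcoch_of_rel` : the hypothesis `hcoch` of `GeoTor.h3_of_graph` (verbatim also the hypothesis `hcoch`
of `SDD.newInvBoundedLevel_of_input`) from

* `hpa` : the relations `(rW)`, `(rT)` along `a` (`PushShapes.push_relations` for `S'ref_a`, the
  class being killed by `a`), with ONE potential on the graph of `S'ref_a`;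
* `hpb` : the same along `b` (`PushShapes.push_relations` for `S'ref_b`, roles of `nW`, `nT`
  exchanged, chain component `vEb (φ e)`);
* `hinv` : the invariance shapes (`GeoTor.exists_inv_shapes` for the tame generator).
-/

set_option autoImplicit false
set_option linter.unusedVariables false
set_option linter.unusedSectionVars false

namespace Fermat.Agent.BR3.GeoTorFinal

open AlgebraicCurve Fermat.Agent.Red Fermat.Agent.BR.SS Fermat.Agent.BR2.Filt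
  Fermat.Agent.BR3.TorGlue Fermat.Agent.X0 Fermat.Agent.BR3.GeoTor Fermat.Agent.BR3.GeoTorPush

variable {K F k : Type*} [Field K] [Field F] [Algebra K F] [Field k]
  {A : ValuationSubring K} {π : A →+* k} {ι : Type*} {Ft : ι → Type*}
  [∀ v, Field (Ft v)] [∀ v, Algebra k (Ft v)] {ν : Type*}
  {S : SemistableSetup (F := F) A π ι Ft ν}

/-- **`hcoch` from the push-forward relations along `a`, `b` and the invariance.** -/
theorem hcoch_of_rel {SSp Mid KP : Type*} [Fintype KP] (lam : ℕ)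
    (Inv : Pic0 K F → Prop) {X₀ : Type*} [AddCommGroup X₀] (a b : Pic0 K F →+ X₀)
    (hor : ν → Bool) (nW nT : SSp → ν) (nk : SSp → KP → ν) (comp : SSp → KP → Mid)
    (p : SSp → Equiv.Perm KP) (q d : ℕ) (φ : SSp → SSp)
    {ιa : Type*} (vWa vTa : ιa) (vEa : SSp → ιa)
    (hpa : ∀ (m : ℕ) (z : Pic0 K F) (D : Divisor.degZero (K := K) (F := F)) (f : F)
      (u : ∀ v, Ft v), IsGood S (lam ^ m) z D f u → a z = 0 →
      ∀ (av bv : ν → k) (ha0 : ∀ e, av e ≠ 0) (hb0 : ∀ e, bv e ≠ 0),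
      (∀ e, IsValueAt (S.s₁ e) (u (S.src e)) (av e)) →
      (∀ e, IsValueAt (S.s₂ e) (u (S.tgt e)) (bv e)) →
      ∃ κ₀ : ιa → k, (∀ v, κ₀ v ≠ 0) ∧
        (∀ e, valH hor av bv (nW e) ^ q * κ₀ (vEa e) = valV hor av bv (nW e) ^ q * κ₀ vWa) ∧
        ∀ e, (valH hor av bv (nT e) * ∏ s, valH hor av bv (nk e s) ^ d) * κ₀ (vEa e) =
          (valV hor av bv (nT e) * ∏ s, valV hor av bv (nk e s) ^ d) * κ₀ vTa)
    {ιb : Type*} (vWb vTb : ιb) (vEb : SSp → ιb)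
    (hpb : ∀ (m : ℕ) (z : Pic0 K F) (D : Divisor.degZero (K := K) (F := F)) (f : F)
      (u : ∀ v, Ft v), IsGood S (lam ^ m) z D f u → b z = 0 →
      ∀ (av bv : ν → k) (ha0 : ∀ e, av e ≠ 0) (hb0 : ∀ e, bv e ≠ 0),
      (∀ e, IsValueAt (S.s₁ e) (u (S.src e)) (av e)) →
      (∀ e, IsValueAt (S.s₂ e) (u (S.tgt e)) (bv e)) →
      ∃ κ₀ : ιb → k, (∀ v, κ₀ v ≠ 0) ∧
        (∀ e, valH hor av bv (nT e) ^ q * κ₀ (vEb (φ e)) =
          valV hor av bv (nT e) ^ q * κ₀ vWb) ∧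
        ∀ e, (valH hor av bv (nW e) * ∏ s, valH hor av bv (nk e s) ^ d) * κ₀ (vEb (φ e)) =
          (valV hor av bv (nW e) * ∏ s, valV hor av bv (nk e s) ^ d) * κ₀ vTb)
    (hinv : ∀ (m : ℕ) (z : Pic0 K F) (D : Divisor.degZero (K := K) (F := F)) (f : F)
      (u : ∀ v, Ft v), IsGood S (lam ^ m) z D f u → Inv z →
      ∀ (av bv : ν → k) (ha0 : ∀ e, av e ≠ 0) (hb0 : ∀ e, bv e ≠ 0),
      (∀ e, IsValueAt (S.s₁ e) (u (S.src e)) (av e)) →
      (∀ e, IsValueAt (S.s₂ e) (u (S.tgt e)) (bv e)) →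
      ∃ (r1 : kˣ) (ρm : Mid → kˣ) (ρ' : SSp → kˣ),
        (∀ e, xi hor av bv ha0 hb0 (nW e) = xi hor av bv ha0 hb0 (nW e) * r1 / ρ' e) ∧
        ∀ e s, xi hor av bv ha0 hb0 (nk e (p e s)) =
          xi hor av bv ha0 hb0 (nk e s) * ρm (comp e s) / ρ' e) :
    ∀ (m : ℕ) (z : Pic0 K F) (D : Divisor.degZero (K := K) (F := F)) (f : F)
      (u : ∀ v, Ft v), IsGood S (lam ^ m) z D f u → Inv z → a z = 0 → b z = 0 →
      ∀ (av bv : ν → k) (ha0 : ∀ e, av e ≠ 0) (hb0 : ∀ e, bv e ≠ 0),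
      (∀ e, IsValueAt (S.s₁ e) (u (S.src e)) (av e)) →
      (∀ e, IsValueAt (S.s₂ e) (u (S.tgt e)) (bv e)) →
      ∃ (A1 A2 : kˣ) (α : SSp → kˣ) (B1 B2 : kˣ) (β : SSp → kˣ) (r1 : kˣ) (ρm : Mid → kˣ)
        (ρ' : SSp → kˣ),
        (∀ e, xi hor av bv ha0 hb0 (nW e) ^ q = A1 / α e) ∧
        (∀ e, xi hor av bv ha0 hb0 (nT e) * (∏ s, xi hor av bv ha0 hb0 (nk e s)) ^ d =
          A2 / α e) ∧
        (∀ e, xi hor av bv ha0 hb0 (nT e) ^ q = B1 / β (φ e)) ∧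
        (∀ e, xi hor av bv ha0 hb0 (nW e) * (∏ s, xi hor av bv ha0 hb0 (nk e s)) ^ d =
          B2 / β (φ e)) ∧
        (∀ e, xi hor av bv ha0 hb0 (nW e) = xi hor av bv ha0 hb0 (nW e) * r1 / ρ' e) ∧
        ∀ e s, xi hor av bv ha0 hb0 (nk e (p e s)) =
          xi hor av bv ha0 hb0 (nk e s) * ρm (comp e s) / ρ' e := by
  intro m z D f u hG hI haz hbz av bv ha0 hb0 ha hb
  obtain ⟨κa, hκa, rWa, rTa⟩ := hpa m z D f u hG haz av bv ha0 hb0 ha hb
  obtain ⟨κb, hκb, rWb, rTb⟩ := hpb m z D f u hG hbz av bv ha0 hb0 ha hb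
  exact hcoch_of_parts hor av bv ha0 hb0 nW nT nk comp p q d φ κa hκa vWa vTa vEa rWa rTa
    κb hκb vWb vTb vEb rWb rTb (hinv m z D f u hG hI av bv ha0 hb0 ha hb)

end Fermat.Agent.BR3.GeoTorFinal
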