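import Mathlib

/-!
# Program C (S36), node A4 (GRAPH): the gluing cochain on the bipartite graph of `S''`

`Γ''` is the complete bipartite graph on `SS ⊔ HC`, `HC = {c1, c3} ⊔ Mid` (the vertical components
`z e`, `e ∈ SS`, against the horizontal components).  A *gluing cochain* is a function `ξ` on the
edges `(e, h)` with values in an abelian group; it is a *coboundary* if `ξ (e, h) = κ h - κ' e`.
Here `ξ` is given by its three restrictions `ξ1 e = ξ (e, c1)`, `ξ3 e = ξ (e, c3)`,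
`ξm e i = ξ (e, mid i)`.

The push-forward of `ξ` to the graph of `S'ref` (vertices `can`, `et`, `E_e`) along `a` is
`(e, can) ↦ q • ξ1 e`, `(e, et) ↦ ξ3 e + d • ∑ i, ξm e i` (values of norms at branch points carry
the ramification indices `q`, `1`, `d`, `d * |Mid| + 1 = q`), along `b` the mirror image composed
with `φ : SS → SS`.

* `exists_coboundary_of_push_eq_zero` : if both push-forwards are coboundaries and the class of `ξ`
  is invariant under a permutation `p` of `Mid` acting transitively, then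
  `(q (q + 1) (q - 1)) • ξ` is a coboundary.
* `exists_coboundary_of_push_eq_one` : the multiplicative form.
* `card_smul_eq_zero_of_push_eq_zero` : the chain version (orders at the branch points, all
  weights `1`).
-/

set_option autoImplicit false

namespace Fermat.Agent.BR3.GraphKill

variable {SS Mid G : Type*} [Fintype Mid]

omit [Fintype Mid] in
/-- a function on `Mid` invariant under a transitive permutation is constant -/
theorem eq_of_perm_invariant {X : Type*} (p : Equiv.Perm Mid)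
    (hp : ∀ i j, ∃ n : ℕ, (p ^ n) i = j) (f : Mid → X) (hf : ∀ i, f (p i) = f i) (i j : Mid) :
    f i = f j := by
  have hpow : ∀ (n : ℕ) (i : Mid), f ((p ^ n) i) = f i := by
    intro n
    induction n with
    | zero => intro i; rfl
    | succ n ih =>
      intro i
      rw [pow_succ', Equiv.Perm.mul_apply, hf, ih]
  obtain ⟨n, hn⟩ := hp i j
  rw [← hn, hpow]

section Additive

variable [AddCommGroup G]

/-- **the chain version**: orders at the branch points. -/
theorem card_smul_eq_zero_of_push_eq_zero (p : Equiv.Perm Mid)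
    (hp : ∀ i j, ∃ n : ℕ, (p ^ n) i = j) (n1 n3 : SS → G) (nm : SS → Mid → G)
    (_ha1 : ∀ e, n1 e = 0) (ha2 : ∀ e, n3 e + ∑ i, nm e i = 0) (hb1 : ∀ e, n3 e = 0)
    (hinv : ∀ e i, nm e (p i) = nm e i) (e : SS) (i : Mid) :
    Fintype.card Mid • nm e i = 0 := by
  have h1 : ∑ j, nm e j = 0 := by
    have := ha2 e
    rwa [hb1 e, zero_add] at this
  have h2 : ∀ j, nm e j = nm e i := fun j => eq_of_perm_invariant p hp (nm e) (hinv e) j i
  rw [Finset.sum_congr rfl (fun j _ => h2 j), Finset.sum_const, Finset.card_univ] at h1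
  exact h1

/-- **the gluing-cochain lemma**, additive form. -/
theorem exists_coboundary_of_push_eq_zero (q d : ℕ) (hd : d * Fintype.card Mid + 1 = q)
    (φ : SS → SS) (p : Equiv.Perm Mid) (hp : ∀ i j, ∃ n : ℕ, (p ^ n) i = j)
    (ξ1 ξ3 : SS → G) (ξm : SS → Mid → G)
    (A1 A2 : G) (α : SS → G) (ha1 : ∀ e, q • ξ1 e = A1 - α e)
    (ha2 : ∀ e, ξ3 e + d • ∑ i, ξm e i = A2 - α e)
    (B1 B2 : G) (β : SS → G) (hb1 : ∀ e, q • ξ3 e = B1 - β (φ e))
    (hb2 : ∀ e, ξ1 e + d • ∑ i, ξm e i = B2 - β (φ e))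
    (r1 : G) (ρm : Mid → G) (ρ' : SS → G) (hinv1 : ∀ e, ξ1 e = ξ1 e + r1 - ρ' e)
    (hinvm : ∀ e i, ξm e (p i) = ξm e i + ρm i - ρ' e) :
    ∃ (κ1 κ3 : G) (κm : Mid → G) (κ' : SS → G), ∀ e,
      (q * (q + 1) * (d * Fintype.card Mid)) • ξ1 e = κ1 - κ' e ∧
      (q * (q + 1) * (d * Fintype.card Mid)) • ξ3 e = κ3 - κ' e ∧
      ∀ i, (q * (q + 1) * (d * Fintype.card Mid)) • ξm e i = κm i - κ' e := by
  subst hd
  set n : ℕ := Fintype.card Mid with hn
  rcases isEmpty_or_nonempty SS with hSS | ⟨⟨e₀⟩⟩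
  · exact ⟨0, 0, 0, 0, fun e => (hSS.false e).elim⟩
  -- `ρ'` is constant
  have hρ : ∀ e, ρ' e = r1 := by
    intro e
    have := hinv1 e
    have h0 : r1 - ρ' e = 0 := by
      have h' : ξ1 e + (r1 - ρ' e) = ξ1 e := by rw [← add_sub_assoc]; exact this.symm
      exact add_eq_left.mp h'
    exact (sub_eq_zero.mp h0).symm
  -- the differences `ξm e i - ξm e₀ i` do not depend on `i`
  have hΔ : ∀ e i j, ξm e i - ξm e₀ i = ξm e j - ξm e₀ j := by
    intro e
    refine eq_of_perm_invariant p hp (fun i => ξm e i - ξm e₀ i) (fun i => ?_)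
    show ξm e (p i) - ξm e₀ (p i) = ξm e i - ξm e₀ i
    rw [hinvm e i, hinvm e₀ i, hρ e, hρ e₀]
    abel
  -- the two consequences of the push-forward conditions
  have hstar : ∀ e, ((d * n + 1) * d) • ∑ i, ξm e i =
      (d * n + 1) • A2 - (d * n + 1) • α e - B1 + β (φ e) := by
    intro e
    linear_combination (norm := module) ((d * n + 1 : ℕ) : ℤ) • ha2 e - hb1 e
  have hstar2 : ∀ e, ((d * n + 1) * d) • ∑ i, ξm e i =
      (d * n + 1) • B2 - (d * n + 1) • β (φ e) - A1 + α e := by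
    intro e
    linear_combination (norm := module) ((d * n + 1 : ℕ) : ℤ) • hb2 e - ha1 e
  set c₀ : G := (d * n + 1) • B2 - A1 - (d * n + 1) • A2 + B1 with hc₀
  have hβα : ∀ e, (d * n + 1 + 1) • (β (φ e) - α e) = c₀ := by
    intro e
    rw [hc₀]
    linear_combination (norm := module) hstar2 e - hstar e
  rcases isEmpty_or_nonempty Mid with hMid | ⟨⟨i₀⟩⟩
  · -- `Mid` empty: the constant is zero
    have hn0 : n = 0 := by rw [hn]; exact Fintype.card_eq_zero
    refine ⟨0, 0, 0, 0, fun e => ?_⟩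
    rw [hn0]
    simp
  -- the sum over `Mid`
  have hsum : ∀ e, ∑ i, ξm e i = ∑ i, ξm e₀ i + n • (ξm e i₀ - ξm e₀ i₀) := by
    intro e
    have h1 : ∀ i, ξm e i = ξm e₀ i + (ξm e i₀ - ξm e₀ i₀) := fun i => by
      rw [← hΔ e i i₀]; abel
    rw [Finset.sum_congr rfl (fun i _ => h1 i), Finset.sum_add_distrib, Finset.sum_const,
      Finset.card_univ]
  set S₀ : G := ∑ i, ξm e₀ i with hS₀
  set c₂ : G := (d * n + 1 + 1) • ((d * n + 1) • A2 - B1) + c₀ -
    ((d * n + 1 + 1) * (d * n + 1) * d) • S₀ with hc₂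
  have hkey : ∀ e, ((d * n + 1) * (d * n + 1 + 1) * (d * n)) • (ξm e i₀ - ξm e₀ i₀) +
      ((d * n + 1 + 1) * (d * n)) • α e = c₂ := by
    intro e
    have h1 := hstar e
    rw [hsum e] at h1
    rw [hc₂]
    linear_combination (norm := module) ((d * n + 1 + 1 : ℕ) : ℤ) • h1 + hβα e
  refine ⟨((d * n + 1 + 1) * (d * n)) • A1,
    ((d * n + 1 + 1) * (d * n)) • B1 - (d * n) • c₀,
    fun i => ((d * n + 1) * (d * n + 1 + 1) * (d * n)) • ξm e₀ i + c₂,
    fun e => ((d * n + 1 + 1) * (d * n)) • α e, fun e => ⟨?_, ?_, fun i => ?_⟩⟩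
  · linear_combination (norm := module) (((d * n + 1 + 1) * (d * n) : ℕ) : ℤ) • ha1 e
  · linear_combination (norm := module) (((d * n + 1 + 1) * (d * n) : ℕ) : ℤ) • hb1 e -
      ((d * n : ℕ) : ℤ) • hβα e
  · have h1 : ξm e i = ξm e₀ i + (ξm e i₀ - ξm e₀ i₀) := by
      rw [← hΔ e i i₀]; abel
    rw [h1]
    linear_combination (norm := module) hkey e

end Additive

section Multiplicative

variable [CommGroup G]

/-- **the gluing-cochain lemma**, multiplicative form. -/
theorem exists_coboundary_of_push_eq_one (q d : ℕ) (hd : d * Fintype.card Mid + 1 = q)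
    (φ : SS → SS) (p : Equiv.Perm Mid) (hp : ∀ i j, ∃ n : ℕ, (p ^ n) i = j)
    (ξ1 ξ3 : SS → G) (ξm : SS → Mid → G)
    (A1 A2 : G) (α : SS → G) (ha1 : ∀ e, ξ1 e ^ q = A1 / α e)
    (ha2 : ∀ e, ξ3 e * (∏ i, ξm e i) ^ d = A2 / α e)
    (B1 B2 : G) (β : SS → G) (hb1 : ∀ e, ξ3 e ^ q = B1 / β (φ e))
    (hb2 : ∀ e, ξ1 e * (∏ i, ξm e i) ^ d = B2 / β (φ e))
    (r1 : G) (ρm : Mid → G) (ρ' : SS → G) (hinv1 : ∀ e, ξ1 e = ξ1 e * r1 / ρ' e)
    (hinvm : ∀ e i, ξm e (p i) = ξm e i * ρm i / ρ' e) :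
    ∃ (κ1 κ3 : G) (κm : Mid → G) (κ' : SS → G), ∀ e,
      ξ1 e ^ (q * (q + 1) * (d * Fintype.card Mid)) = κ1 / κ' e ∧
      ξ3 e ^ (q * (q + 1) * (d * Fintype.card Mid)) = κ3 / κ' e ∧
      ∀ i, ξm e i ^ (q * (q + 1) * (d * Fintype.card Mid)) = κm i / κ' e := by
  obtain ⟨κ1, κ3, κm, κ', h⟩ := exists_coboundary_of_push_eq_zero (G := Additive G) q d hd φ p hp
    (fun e => Additive.ofMul (ξ1 e)) (fun e => Additive.ofMul (ξ3 e))
    (fun e i => Additive.ofMul (ξm e i))
    (Additive.ofMul A1) (Additive.ofMul A2) (fun e => Additive.ofMul (α e))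
    (fun e => congrArg Additive.ofMul (ha1 e))
    (fun e => by
      have := congrArg Additive.ofMul (ha2 e)
      rw [ofMul_mul, ofMul_pow, ofMul_prod, ofMul_div] at this
      exact this)
    (Additive.ofMul B1) (Additive.ofMul B2) (fun e => Additive.ofMul (β e))
    (fun e => congrArg Additive.ofMul (hb1 e))
    (fun e => by
      have := congrArg Additive.ofMul (hb2 e)
      rw [ofMul_mul, ofMul_pow, ofMul_prod, ofMul_div] at this
      exact this)
    (Additive.ofMul r1) (fun i => Additive.ofMul (ρm i)) (fun e => Additive.ofMul (ρ' e))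
    (fun e => congrArg Additive.ofMul (hinv1 e))
    (fun e i => congrArg Additive.ofMul (hinvm e i))
  exact ⟨Additive.toMul κ1, Additive.toMul κ3, fun i => Additive.toMul (κm i),
    fun e => Additive.toMul (κ' e), fun e =>
      ⟨congrArg Additive.toMul (h e).1, congrArg Additive.toMul (h e).2.1,
        fun i => congrArg Additive.toMul ((h e).2.2 i)⟩⟩

end Multiplicative

end Fermat.Agent.BR3.GraphKill
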