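/-
Program C (S36), cheap abstract piece (b) (helper8): bookkeeping for towers of torsion groups.
Mathlib only.

PART A — the COUNT-FREE bounded-exponent calculus (no finiteness, no cardinalities):
* `KilledBy n S` (`S : AddSubgroup W` is killed by `n`), `InjUpTo e f` (the kernel of `f` is killed
  by `e`), `ExactUpTo e f g`;
* `IsUnip τ` (`(τ - 1)² = 0`), `IsUnip.iterate` (`τ^k = 1 + k (τ - 1)`), `IsUnip.eq_of_coprime`
  (an operator of order prime to the exponent acts trivially: wild inertia),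
  `IsUnip.killedBy_sq` (fixed points killed by `n` ⇒ everything killed by `n²`),
  `killedBy_of_unipotent_comm` (the same for a commuting family, exponent `2 n²`);
* `not_forall_killedBy_of_order` (a tower containing elements of order `l ^ m` is not killed by a
  fixed nonzero integer).

PART B — cardinalities of finite groups and growth predicates:
* `card_eq_card_ker_mul_card_range`, `card_le_card_fixedSub_sq`, `card_le_of_injUpTo`,
  `card_sup_le`;
* `GrowthLE l d a`, `GrowthGE l d a` (`a m ≲ l ^ (m d)`, `a m ≳ l ^ (m d)`), products,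
  `rank_le_of_growth`, `GrowthGE.of_le_sq`, `not_bounded_of_growthGE`.
-/
import Mathlib

set_option autoImplicit false

namespace Fermat.Agent.BR3.GrowthRank

/-! ## Part A: the bounded-exponent calculus -/

section Exponent

variable {W W' W'' : Type*} [AddCommGroup W] [AddCommGroup W'] [AddCommGroup W'']

/-- The subgroup `S` is killed by `n`. -/
def KilledBy (n : ℕ) (S : AddSubgroup W) : Prop := ∀ x ∈ S, n • x = 0

theorem KilledBy.mono {n : ℕ} {S T : AddSubgroup W} (h : S ≤ T) (hT : KilledBy n T) :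
    KilledBy n S := fun x hx => hT x (h hx)

theorem KilledBy.of_dvd {n n' : ℕ} {S : AddSubgroup W} (h : n ∣ n') (hS : KilledBy n S) :
    KilledBy n' S := by
  obtain ⟨c, rfl⟩ := h
  intro x hx
  rw [mul_comm, mul_smul, hS x hx, smul_zero]

theorem killedBy_bot (n : ℕ) : KilledBy n (⊥ : AddSubgroup W) := by
  intro x hx
  rw [AddSubgroup.mem_bot.mp hx, smul_zero]

theorem killedBy_zero (S : AddSubgroup W) : KilledBy 0 S := fun x _ => zero_smul ℕ x

theorem killedBy_top_iff {n : ℕ} : KilledBy n (⊤ : AddSubgroup W) ↔ ∀ x : W, n • x = 0 :=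
  ⟨fun h x => h x trivial, fun h x _ => h x⟩

theorem KilledBy.sup {a b : ℕ} {S T : AddSubgroup W} (hS : KilledBy a S) (hT : KilledBy b T) :
    KilledBy (a * b) (S ⊔ T) := by
  intro x hx
  obtain ⟨s, hs, t, ht, rfl⟩ := AddSubgroup.mem_sup.mp hx
  have h1 : (a * b) • s = 0 := by rw [mul_comm, mul_smul, hS s hs, smul_zero]
  have h2 : (a * b) • t = 0 := by rw [mul_smul, hT t ht, smul_zero]
  rw [smul_add, h1, h2, add_zero]

theorem KilledBy.map {n : ℕ} {S : AddSubgroup W} (f : W →+ W') (hS : KilledBy n S) :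
    KilledBy n (S.map f) := by
  rintro _ ⟨x, hx, rfl⟩
  rw [← map_nsmul, hS x hx, map_zero]

/-- `f` is injective up to the exponent `e`: its kernel is killed by `e`. -/
def InjUpTo (e : ℕ) (f : W →+ W') : Prop := ∀ x, f x = 0 → e • x = 0

theorem injUpTo_iff_killedBy_ker {e : ℕ} {f : W →+ W'} : InjUpTo e f ↔ KilledBy e f.ker :=
  ⟨fun h x hx => h x (AddMonoidHom.mem_ker.mp hx), fun h x hx => h x (AddMonoidHom.mem_ker.mpr hx)⟩

theorem injUpTo_one_iff {f : W →+ W'} : InjUpTo 1 f ↔ Function.Injective f := by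
  rw [injective_iff_map_eq_zero]
  exact ⟨fun h x hx => by simpa using h x hx, fun h x hx => by simpa using h x hx⟩

theorem InjUpTo.of_dvd {e e' : ℕ} {f : W →+ W'} (h : e ∣ e') (hf : InjUpTo e f) : InjUpTo e' f := by
  obtain ⟨c, rfl⟩ := h
  intro x hx
  rw [mul_comm, mul_smul, hf x hx, smul_zero]

theorem InjUpTo.comp {e e' : ℕ} {f : W →+ W'} {g : W' →+ W''} (hf : InjUpTo e f)
    (hg : InjUpTo e' g) : InjUpTo (e * e') (g.comp f) := by
  intro x hx
  have h1 : e' • f x = 0 := hg (f x) hx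
  rw [← map_nsmul] at h1
  have h2 := hf _ h1
  rwa [← mul_smul] at h2

theorem InjUpTo.of_comp {e : ℕ} {f : W →+ W'} (g : W' →+ W'') (h : InjUpTo e (g.comp f)) :
    InjUpTo e f := fun x hx => h x (by rw [AddMonoidHom.comp_apply, hx, map_zero])

/-- A map with a left inverse up to multiplication by `d` (`α_* α^* = deg α`) is injective up to
`d`. -/
theorem injUpTo_of_comp_eq_nsmul {d : ℕ} {f : W →+ W'} (g : W' →+ W) (h : ∀ x, g (f x) = d • x) :
    InjUpTo d f := fun x hx => by rw [← h x, hx, map_zero]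

theorem killedBy_of_injUpTo {e n : ℕ} {f : W →+ W'} (hf : InjUpTo e f) {S : AddSubgroup W}
    (hS : KilledBy n (S.map f)) : KilledBy (e * n) S := by
  intro x hx
  have h1 : n • f x = 0 := hS (f x) ⟨x, hx, rfl⟩
  rw [← map_nsmul] at h1
  have h2 := hf _ h1
  rwa [← mul_smul] at h2

/-- The pair `(f₁, f₂)` is jointly injective up to `e` (`α_* x = 0 = β_* x ⇒ e x = 0`). -/
theorem killedBy_of_joint {e : ℕ} {W₁ W₂ : Type*} [AddCommGroup W₁] [AddCommGroup W₂]
    {f₁ : W →+ W₁} {f₂ : W →+ W₂} (h : ∀ x, f₁ x = 0 → f₂ x = 0 → e • x = 0)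
    {n₁ n₂ : ℕ} {S : AddSubgroup W} (h₁ : KilledBy n₁ (S.map f₁)) (h₂ : KilledBy n₂ (S.map f₂)) :
    KilledBy (e * (n₁ * n₂)) S := by
  intro x hx
  have a1 : f₁ ((n₁ * n₂) • x) = 0 := by
    rw [map_nsmul, mul_comm, mul_smul, h₁ (f₁ x) ⟨x, hx, rfl⟩, smul_zero]
  have a2 : f₂ ((n₁ * n₂) • x) = 0 := by
    rw [map_nsmul, mul_smul, h₂ (f₂ x) ⟨x, hx, rfl⟩, smul_zero]
  have := h _ a1 a2
  rwa [← mul_smul] at this

/-- `W → W' → W''` is exact up to the exponent `e`. -/
def ExactUpTo (e : ℕ) (f : W →+ W') (g : W' →+ W'') : Prop :=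
  (∀ x, g (f x) = 0) ∧ ∀ y, g y = 0 → ∃ x, f x = e • y

theorem ExactUpTo.killedBy {e n : ℕ} {f : W →+ W'} {g : W' →+ W''} (h : ExactUpTo e f g)
    (hW : ∀ x : W, n • x = 0) : KilledBy (n * e) g.ker := by
  intro y hy
  obtain ⟨x, hx⟩ := h.2 y (AddMonoidHom.mem_ker.mp hy)
  rw [mul_smul, ← hx, ← map_nsmul, hW x, map_zero]

/-! ### Unipotent operators -/

/-- `(τ - 1)² = 0`, in the shape `τ (τ x - x) = τ x - x` of `BR.Nodal.unipInertia…`. -/
def IsUnip (τ : W →+ W) : Prop := ∀ x, τ (τ x - x) = τ x - x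

theorem isUnip_iff_secondDiff {τ : W →+ W} :
    IsUnip τ ↔ ∀ x, τ (τ x) - (2 : ℕ) • τ x + x = 0 := by
  refine forall_congr' fun x => ?_
  rw [map_sub, two_smul]
  constructor
  · intro h
    have : τ (τ x) = τ x - x + τ x := by rw [← h]; abel
    rw [this]; abel
  · intro h
    have : τ (τ x) = τ x + τ x - x := by
      have h' := h
      rw [sub_add_eq_add_sub, sub_eq_zero] at h'
      rw [eq_sub_iff_add_eq]; exact h'
    rw [this]; abel

theorem isUnip_id : IsUnip (AddMonoidHom.id W) := fun x => by simp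

/-- `τ^k = 1 + k (τ - 1)`. -/
theorem IsUnip.iterate {τ : W →+ W} (h : IsUnip τ) (k : ℕ) (x : W) :
    (τ^[k]) x = x + k • (τ x - x) := by
  induction k with
  | zero => simp
  | succ k ih =>
    rw [Function.iterate_succ_apply', ih, map_add, map_nsmul, h x, succ_nsmul]
    abel

/-- **Wild inertia acts trivially**: a unipotent operator which has finite order `b` on `x`, with
`b` prime to an exponent `a` of `τ x - x`, fixes `x`. -/
theorem IsUnip.eq_of_coprime {τ : W →+ W} (h : IsUnip τ) {a b : ℕ} (hab : a.Coprime b) {x : W}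
    (ha : a • (τ x - x) = 0) (hb : (τ^[b]) x = x) : τ x = x := by
  have h1 : b • (τ x - x) = 0 := by
    have := h.iterate b x
    rw [hb] at this
    exact (add_eq_left.mp this.symm)
  have h2 : addOrderOf (τ x - x) ∣ Nat.gcd a b :=
    Nat.dvd_gcd (addOrderOf_dvd_of_nsmul_eq_zero ha) (addOrderOf_dvd_of_nsmul_eq_zero h1)
  rw [hab.gcd_eq_one, Nat.dvd_one, AddMonoid.addOrderOf_eq_one_iff] at h2
  exact sub_eq_zero.mp h2

/-- **Unipotent ⇒ killed** (one operator): if the fixed points of a unipotent `τ` are killed by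
`n`, then everything is killed by `n²`. -/
theorem IsUnip.killedBy_sq {τ : W →+ W} (h : IsUnip τ) {n : ℕ}
    (hfix : ∀ x, τ x = x → n • x = 0) (x : W) : (n * n) • x = 0 := by
  have h1 : n • (τ x - x) = 0 := hfix _ (h x)
  have h2 : τ (n • x) = n • x := by
    rw [map_nsmul]
    rw [smul_sub] at h1
    exact sub_eq_zero.mp h1
  have h3 := hfix _ h2
  rwa [← mul_smul] at h3

/-- The relative form: on a `τ`-stable subgroup. -/
theorem IsUnip.killedBy_sq_on {τ : W →+ W} {S : AddSubgroup W} (hS : ∀ x ∈ S, τ x ∈ S)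
    (h : ∀ x ∈ S, τ (τ x - x) = τ x - x) {n : ℕ}
    (hfix : ∀ x ∈ S, τ x = x → n • x = 0) : KilledBy (n * n) S := by
  intro x hx
  have hd : τ x - x ∈ S := S.sub_mem (hS x hx) hx
  have h1 : n • (τ x - x) = 0 := hfix _ hd (h x hx)
  have h2 : τ (n • x) = n • x := by
    rw [map_nsmul]
    rw [smul_sub] at h1
    exact sub_eq_zero.mp h1
  have h3 := hfix _ (S.nsmul_mem hx n) h2
  rwa [← mul_smul] at h3

private theorem two_nsmul_mul_eq_zero {R : Type*} [Ring R] {A B : R} (hBA : B * A = A * B)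
    (hA : A * A = 0) (hB : B * B = 0) (h : (A + B + A * B) * (A + B + A * B) = 0) :
    (2 : ℕ) • (A * B) = 0 := by
  have hA' : ∀ x : R, A * (A * x) = 0 := fun x => by rw [← mul_assoc, hA, zero_mul]
  have hBA' : ∀ x : R, B * (A * x) = A * (B * x) := fun x => by
    rw [← mul_assoc, hBA, mul_assoc]
  have e : (A + B + A * B) * (A + B + A * B) = A * B + A * B := by
    simp only [mul_add, add_mul, mul_assoc, hA, hB, hBA, hA', hBA', mul_zero,
      add_zero, zero_add]
  rw [two_smul, ← e, h]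

/-- **Unipotent ⇒ killed** (commuting family): if `G` acts on `W` through pairwise commuting
unipotent operators and the `G`-fixed points are killed by `n`, then `W` is killed by `2 n²`
(`(gh - 1)² = 2 (g - 1)(h - 1)`). -/
theorem killedBy_of_unipotent_comm {G : Type*} [Monoid G] [DistribMulAction G W]
    (hcomm : ∀ (g h : G) (x : W), g • h • x = h • g • x)
    (huni : ∀ (g : G) (x : W), g • (g • x - x) = g • x - x)
    {n : ℕ} (hfix : ∀ x : W, (∀ g : G, g • x = x) → n • x = 0) (x : W) :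
    (2 * n * n) • x = 0 := by
  -- the operators `g - 1` in the endomorphism ring
  let T : G → AddMonoid.End W := fun g => DistribMulAction.toAddMonoidEnd G W g
  have hT : ∀ g x, T g x = g • x := fun g x => rfl
  have mul_ap : ∀ (E E' : AddMonoid.End W) (z : W), (E * E') z = E (E' z) := fun _ _ _ => rfl
  have sub_ap : ∀ (E E' : AddMonoid.End W) (z : W), (E - E') z = E z - E' z := fun _ _ _ => rfl
  have add_ap : ∀ (E E' : AddMonoid.End W) (z : W), (E + E') z = E z + E' z := fun _ _ _ => rfl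
  have one_ap : ∀ z : W, (1 : AddMonoid.End W) z = z := fun _ => rfl
  have zero_ap : ∀ z : W, (0 : AddMonoid.End W) z = 0 := fun _ => rfl
  have nsmul_ap : ∀ (k : ℕ) (E : AddMonoid.End W) (z : W), (k • E) z = k • E z :=
    fun _ _ _ => rfl
  have key : ∀ (g h : G) (y : W), (2 : ℕ) • (g • (h • y - y) - (h • y - y)) = 0 := by
    intro g h y
    have hBA : (T h - 1) * (T g - 1) = (T g - 1) * (T h - 1) := by
      ext z
      simp only [mul_ap, sub_ap, one_ap, hT, smul_sub, hcomm h g z]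
      abel
    have hA : (T g - 1) * (T g - 1) = 0 := by
      ext z
      simp only [mul_ap, sub_ap, one_ap, hT, zero_ap]
      rw [huni g z, sub_self]
    have hB : (T h - 1) * (T h - 1) = 0 := by
      ext z
      simp only [mul_ap, sub_ap, one_ap, hT, zero_ap]
      rw [huni h z, sub_self]
    have hgh : (T g - 1) + (T h - 1) + (T g - 1) * (T h - 1) = T (g * h) - 1 := by
      ext z
      simp only [mul_ap, sub_ap, one_ap, add_ap, hT, mul_smul, smul_sub]
      abel
    have hAB : ((T g - 1) + (T h - 1) + (T g - 1) * (T h - 1)) *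
        ((T g - 1) + (T h - 1) + (T g - 1) * (T h - 1)) = 0 := by
      rw [hgh]
      ext z
      simp only [mul_ap, sub_ap, one_ap, hT, zero_ap]
      rw [huni (g * h) z, sub_self]
    have h2 := two_nsmul_mul_eq_zero hBA hA hB hAB
    have h3 := congrArg (fun E : AddMonoid.End W => E y) h2
    simpa only [mul_ap, sub_ap, one_ap, hT, zero_ap, nsmul_ap] using h3
  -- `2 (h - 1) y` is fixed by `G`
  have fix1 : ∀ (h : G) (y : W), ∀ g : G, g • ((2 : ℕ) • (h • y - y)) = (2 : ℕ) • (h • y - y) := by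
    intro h y g
    have := key g h y
    rw [smul_sub, sub_eq_zero] at this
    rw [smul_comm]
    exact this
  have h1 : ∀ (h : G) (y : W), (n * 2) • (h • y - y) = 0 := fun h y => by
    rw [mul_smul]
    exact hfix _ (fix1 h y)
  -- `2 n x` is fixed by `G`
  have fix2 : ∀ h : G, h • ((n * 2) • x) = (n * 2) • x := by
    intro h
    have := h1 h x
    rw [smul_sub, sub_eq_zero] at this
    rw [smul_comm]
    exact this
  have h3 := hfix _ fix2
  rw [← mul_smul] at h3
  have e : 2 * n * n = n * (n * 2) := by ring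
  rw [e]
  exact h3

/-- A tower of subgroups containing elements of exact order `l ^ m` is not killed by a fixed
nonzero integer. -/
theorem not_forall_killedBy_of_order {l : ℕ} (hl : 2 ≤ l) (Wm : ℕ → AddSubgroup W)
    (hord : ∀ m, ∃ x ∈ Wm m, addOrderOf x = l ^ m) :
    ¬ ∃ n : ℕ, n ≠ 0 ∧ ∀ m, KilledBy n (Wm m) := by
  rintro ⟨n, hn, h⟩
  obtain ⟨x, hx, ho⟩ := hord n
  have hdvd : l ^ n ∣ n := ho ▸ addOrderOf_dvd_of_nsmul_eq_zero (h n x hx)
  have hle := Nat.le_of_dvd (Nat.pos_of_ne_zero hn) hdvd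
  have h2 : n < 2 ^ n := Nat.lt_two_pow_self
  have h3 : 2 ^ n ≤ l ^ n := Nat.pow_le_pow_left hl n
  omega

end Exponent

/-! ## Part B: cardinalities and growth -/

section Card

variable {W W' : Type*} [AddCommGroup W] [AddCommGroup W']

theorem card_eq_card_ker_mul_card_range (f : W →+ W') :
    Nat.card W = Nat.card f.ker * Nat.card f.range := by
  rw [← AddSubgroup.index_ker, AddSubgroup.card_mul_index]

/-- The subgroup of fixed points of `τ`. -/
def fixedSub (τ : W →+ W) : AddSubgroup W := (τ - AddMonoidHom.id W).ker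

theorem mem_fixedSub {τ : W →+ W} {x : W} : x ∈ fixedSub τ ↔ τ x = x := by
  rw [fixedSub, AddMonoidHom.mem_ker, AddMonoidHom.sub_apply, AddMonoidHom.id_apply, sub_eq_zero]

/-- For a unipotent `τ` on a finite group: `|W| ≤ |W^τ|²`. -/
theorem card_le_card_fixedSub_sq [Finite W] {τ : W →+ W} (h : IsUnip τ) :
    Nat.card W ≤ Nat.card (fixedSub τ) ^ 2 := by
  have hle : (τ - AddMonoidHom.id W).range ≤ fixedSub τ := by
    rintro _ ⟨x, rfl⟩
    rw [mem_fixedSub, AddMonoidHom.sub_apply, AddMonoidHom.id_apply]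
    exact h x
  rw [card_eq_card_ker_mul_card_range (τ - AddMonoidHom.id W), sq]
  exact Nat.mul_le_mul_left _ (AddSubgroup.card_le_of_le hle)

/-- The `e`-torsion subgroup. -/
def torsionSub (e : ℕ) : AddSubgroup W := (nsmulAddMonoidHom e : W →+ W).ker

theorem mem_torsionSub {e : ℕ} {x : W} : x ∈ (torsionSub e : AddSubgroup W) ↔ e • x = 0 := by
  rw [torsionSub, AddMonoidHom.mem_ker, nsmulAddMonoidHom_apply]

/-- Bounded kernel: `|W| ≤ |W[e]| · |W'|`. -/
theorem card_le_of_injUpTo [Finite W] [Finite W'] {e : ℕ} {f : W →+ W'} (hf : InjUpTo e f) :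
    Nat.card W ≤ Nat.card (torsionSub e : AddSubgroup W) * Nat.card W' := by
  rw [card_eq_card_ker_mul_card_range f]
  have h1 : f.ker ≤ torsionSub e := fun x hx =>
    mem_torsionSub.mpr (hf x (AddMonoidHom.mem_ker.mp hx))
  exact Nat.mul_le_mul (AddSubgroup.card_le_of_le h1) (AddSubgroup.card_le_card_addGroup _)

theorem card_sup_le (A B : AddSubgroup W) [Finite A] [Finite B] :
    Nat.card (A ⊔ B : AddSubgroup W) ≤ Nat.card A * Nat.card B := by
  have hsurj : Function.Surjective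
      (fun p : A × B => (⟨(p.1 : W) + (p.2 : W),
        (A ⊔ B).add_mem (le_sup_left (a := A) (b := B) p.1.2)
          (le_sup_right (a := A) (b := B) p.2.2)⟩ : (A ⊔ B : AddSubgroup W))) := by
    rintro ⟨x, hx⟩
    obtain ⟨a, ha, b, hb, rfl⟩ := AddSubgroup.mem_sup.mp hx
    exact ⟨(⟨a, ha⟩, ⟨b, hb⟩), rfl⟩
  calc Nat.card (A ⊔ B : AddSubgroup W) ≤ Nat.card (A × B) := Nat.card_le_card_of_surjective _ hsurj
    _ = Nat.card A * Nat.card B := Nat.card_prod _ _

end Card

section Growth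

/-- `a m ≤ C · l ^ (m d)`. -/
def GrowthLE (l d : ℕ) (a : ℕ → ℕ) : Prop := ∃ C : ℕ, ∀ m, a m ≤ C * l ^ (m * d)

/-- `l ^ (m d) ≤ C · a m`. -/
def GrowthGE (l d : ℕ) (a : ℕ → ℕ) : Prop := ∃ C : ℕ, ∀ m, l ^ (m * d) ≤ C * a m

theorem GrowthLE.mono {l d : ℕ} {a b : ℕ → ℕ} (h : ∀ m, a m ≤ b m) (hb : GrowthLE l d b) :
    GrowthLE l d a := by
  obtain ⟨C, hC⟩ := hb
  exact ⟨C, fun m => (h m).trans (hC m)⟩

theorem GrowthGE.mono {l d : ℕ} {a b : ℕ → ℕ} (h : ∀ m, a m ≤ b m) (ha : GrowthGE l d a) :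
    GrowthGE l d b := by
  obtain ⟨C, hC⟩ := ha
  exact ⟨C, fun m => (hC m).trans (Nat.mul_le_mul_left _ (h m))⟩

theorem GrowthLE.mul {l d d' : ℕ} {a b : ℕ → ℕ} (ha : GrowthLE l d a) (hb : GrowthLE l d' b) :
    GrowthLE l (d + d') (fun m => a m * b m) := by
  obtain ⟨C, hC⟩ := ha
  obtain ⟨C', hC'⟩ := hb
  refine ⟨C * C', fun m => ?_⟩
  calc a m * b m ≤ (C * l ^ (m * d)) * (C' * l ^ (m * d')) := Nat.mul_le_mul (hC m) (hC' m)
    _ = C * C' * l ^ (m * (d + d')) := by rw [mul_add, pow_add]; ring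

theorem GrowthGE.mul {l d d' : ℕ} {a b : ℕ → ℕ} (ha : GrowthGE l d a) (hb : GrowthGE l d' b) :
    GrowthGE l (d + d') (fun m => a m * b m) := by
  obtain ⟨C, hC⟩ := ha
  obtain ⟨C', hC'⟩ := hb
  refine ⟨C * C', fun m => ?_⟩
  calc l ^ (m * (d + d')) = l ^ (m * d) * l ^ (m * d') := by rw [mul_add, pow_add]
    _ ≤ (C * a m) * (C' * b m) := Nat.mul_le_mul (hC m) (hC' m)
    _ = C * C' * (a m * b m) := by ring

theorem GrowthLE.const_mul {l d : ℕ} {a : ℕ → ℕ} (c : ℕ) (ha : GrowthLE l d a) :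
    GrowthLE l d (fun m => c * a m) := by
  obtain ⟨C, hC⟩ := ha
  exact ⟨c * C, fun m => by rw [mul_assoc]; exact Nat.mul_le_mul_left _ (hC m)⟩

/-- The growth rank is well defined: a lower bound of rank `d` and an upper bound of rank `d'`
force `d ≤ d'`. -/
theorem rank_le_of_growth {l d d' : ℕ} (hl : 2 ≤ l) {a : ℕ → ℕ} (h1 : GrowthGE l d a)
    (h2 : GrowthLE l d' a) : d ≤ d' := by
  by_contra hlt
  rw [not_le] at hlt
  obtain ⟨C, hC⟩ := h1
  obtain ⟨C', hC'⟩ := h2
  -- `l ^ (m d) ≤ C C' l ^ (m d')` for all `m`; take `m = C C'`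
  set m := C * C' with hm
  have h3 : l ^ (m * d) ≤ C * C' * l ^ (m * d') := by
    calc l ^ (m * d) ≤ C * a m := hC m
      _ ≤ C * (C' * l ^ (m * d')) := Nat.mul_le_mul_left _ (hC' m)
      _ = C * C' * l ^ (m * d') := by ring
  have hlpos : 0 < l := by omega
  have h4 : l ^ (m * d) = l ^ (m * d') * l ^ (m * (d - d')) := by
    rw [← pow_add, ← mul_add]
    congr 2
    omega
  have h5 : l ^ (m * (d - d')) ≤ C * C' := by
    rw [h4, mul_comm] at h3
    exact Nat.le_of_mul_le_mul_right h3 (pow_pos hlpos _)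
  have h6 : m < 2 ^ m := Nat.lt_two_pow_self
  have h7 : 2 ^ m ≤ l ^ (m * (d - d')) := by
    calc 2 ^ m ≤ l ^ m := Nat.pow_le_pow_left hl m
      _ ≤ l ^ (m * (d - d')) := Nat.pow_le_pow_right hlpos (Nat.le_mul_of_pos_right m (by omega))
  omega

/-- From `a m ≤ (b m)²` (`|W| ≤ |W^τ|²`): a lower bound of rank `2 d` for `a` gives one of rank
`d` for `b`. -/
theorem GrowthGE.of_le_sq {l d : ℕ} {a b : ℕ → ℕ} (h : ∀ m, a m ≤ b m ^ 2)
    (ha : GrowthGE l (2 * d) a) : GrowthGE l d b := by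
  obtain ⟨C, hC⟩ := ha
  refine ⟨C, fun m => ?_⟩
  -- `(l ^ (m d))² ≤ C (b m)² ≤ (C b m)²`
  have h1 : (l ^ (m * d)) ^ 2 ≤ (C * b m) ^ 2 := by
    calc (l ^ (m * d)) ^ 2 = l ^ (m * (2 * d)) := by rw [← pow_mul]; congr 1; ring
      _ ≤ C * a m := hC m
      _ ≤ C * b m ^ 2 := Nat.mul_le_mul_left _ (h m)
      _ ≤ (C * b m) ^ 2 := by
        rw [mul_pow]
        rcases Nat.eq_zero_or_pos C with hC0 | hC0
        · simp [hC0]
        · exact Nat.mul_le_mul_right _ (Nat.le_self_pow (by omega) C)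
  exact (Nat.pow_le_pow_iff_left (by omega)).mp h1

theorem not_bounded_of_growthGE {l d : ℕ} (hl : 2 ≤ l) (hd : 0 < d) {a : ℕ → ℕ}
    (h : GrowthGE l d a) : ¬ ∃ C, ∀ m, a m ≤ C := by
  rintro ⟨C, hC⟩
  have h2 : GrowthLE l 0 a := ⟨C, fun m => by simpa using hC m⟩
  have := rank_le_of_growth hl h h2
  omega

end Growth

end Fermat.Agent.BR3.GrowthRank
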