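import Mathlib
import Fermat.Agent.BR3.HeckePolyDescent
import Fermat.Agent.BR3.ALSq
import Fermat.Agent.BR3.VertTaylorAt

/-!
# Program C (S36), node (N3-INST), file 1: the Hecke polynomial along `β₂` (the `b`-mirror of
`BR3/HeckePoly`)

`g ∈ Fb M`; `PBt g := P_g.map α ∈ F₁[X]` (`F₁ = Fb (M q)`) is the Hecke polynomial with coefficients
through `α`; its root in `F₁` is `β g` (Cayley–Hamilton), and through `β₂` (`β₂ ∘ α = mid`) it is
`P_g.map mid`, with the second root `α₂ (α g) = β₂ (β g) + (-U_g)`.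

* `PBt_monic`, `PBt_natDegree`, `PBt_eval_beta`, `PBt_map_beta2`, `PBt_map_beta2_eq`,
  `PBt_map_beta2_eval_alpha`, `PBt_aeval`;
* `W2_Ug` : `W_{q²} U_g = -U_g`; `Ug_notMem_range_beta2` : `U_g ∉ α₂ F₁ → U_g ∉ β₂ F₁`;
* `minpoly_neg_Ug_div_beta2` : along `β₂`, the minimal polynomial of `(-U_g) / β₂ c` over `F₁` is
  `vertScaledAt (PBt g) q (β g) c`, and `(-U_g) / β₂ c` generates `F₂`;
  `minpoly_Ug_div_beta2` : for `c = -(β g - (α g')^q)` the generator is
  `U_g / β₂ (β g - (α g')^q)`;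
* `exists_kronecker_PBt_q` : **the twisted Kronecker congruence modulo `q` for `PBt g`**:
  `PBt g = (X^q - C (α g''))(X - C ((α g')^q)) + C q · Ψ₁`, `Ψ₁ ∈ CQ₀[X]`
  (`x₁ = α g'`, `x₂ = α g''`, `y = β g` in `SplitCoordTw.sheetHyp_of_vertScaledAt`).
-/

set_option autoImplicit false
set_option linter.style.haveILetI false
set_option linter.unusedSectionVars false

noncomputable section

set_option synthInstance.maxHeartbeats 400000

namespace Fermat.Agent.BR3.HeckePolyB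

open ModularCurve AlgebraicCurve Polynomial Fermat.Agent.X0 Fermat.Agent.Hecke
open Fermat.Agent.BR.TwoVal Fermat.Agent.Jac Fermat.Agent.BR3.FibreProd
open Fermat.Agent.BR3.HeckePoly Fermat.Agent.BR3.ALSq Fermat.Agent.BR3.VertTaylorAt

section Def

variable {M q : ℕ} [NeZero M] [hq : Fact q.Prime]

variable (M q) in
/-- `P_g` with coefficients through `α`, a polynomial over `F₁ = Fb (M q)` with the root `β g`. -/
def PBt (g : Fb M) : (Fb (M * q))[X] :=
  (heckePoly M q g).map (heckeAlphaBar Kb M q : Fb M →+* Fb (M * q))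

theorem PBt_monic (g : Fb M) : (PBt M q g).Monic := (heckePoly_monic M q g).map _

theorem PBt_natDegree (hqM : ¬ q ∣ M) (g : Fb M) : (PBt M q g).natDegree = q + 1 := by
  rw [PBt, (heckePoly_monic M q g).natDegree_map, heckePoly_natDegree_of_prime M q hq.out hqM]

/-- Cayley–Hamilton: `β g` is a root of `PBt g`. -/
theorem PBt_eval_beta (g : Fb M) : (PBt M q g).eval (heckeBetaBar Kb M q g) = 0 :=
  heckePoly_map_alpha_eval M q g

/-- `PBt g` through `β₂` is `P_g.map mid`. -/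
theorem PBt_map_beta2 (g : Fb M) :
    (PBt M q g).map (beta2 M q : Fb (M * q) →+* Fb (M * q * q)) =
      (heckePoly M q g).map (mid M q : Fb M →+* Fb (M * q * q)) := by
  rw [PBt, Polynomial.map_map, beta2_comp_alpha]

/-- `PBt g` through `β₂` is `PAt g` through `α₂`. -/
theorem PBt_map_beta2_eq (g : Fb M) :
    (PBt M q g).map (beta2 M q : Fb (M * q) →+* Fb (M * q * q)) =
      (PAt M q g).map (alpha2 M q : Fb (M * q) →+* Fb (M * q * q)) := by
  rw [PBt_map_beta2, PAt_map_alpha2]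

/-- `α₂ (α g)` is a root of `PBt g` through `β₂`. -/
theorem PBt_map_beta2_eval_alpha (hqM : ¬ q ∣ M) (g : Fb M) :
    ((PBt M q g).map (beta2 M q : Fb (M * q) →+* Fb (M * q * q))).eval
      (alpha2 M q (heckeAlphaBar Kb M q g)) = 0 := by
  rw [PBt_map_beta2]
  exact heckePoly_map_mid_eval_alpha hqM g

/-- the second root along `β₂`: `β₂ (β g) + (-U_g) = α₂ (α g)` -/
theorem PBt_aeval (hqM : ¬ q ∣ M) (g : Fb M) :
    letI := algebraAlong (beta2 M q)
    aeval (algebraMap (Fb (M * q)) (Fb (M * q * q)) (heckeBetaBar Kb M q g) + -Ug M q g)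
      (PBt M q g) = 0 := by
  letI := algebraAlong (beta2 M q)
  have e : algebraMap (Fb (M * q)) (Fb (M * q * q)) (heckeBetaBar Kb M q g) + -Ug M q g =
      alpha2 M q (heckeAlphaBar Kb M q g) := by
    show beta2 M q (heckeBetaBar Kb M q g) + -Ug M q g = _
    rw [Ug]
    ring
  rw [e, Polynomial.aeval_def, Polynomial.eval₂_eq_eval_map]
  exact PBt_map_beta2_eval_alpha hqM g

/-- `W_{q²} U_g = -U_g`. -/
theorem W2_Ug (hqM : ¬ q ∣ M) (g : Fb M) : W2 hqM (Ug M q g) = -Ug M q g := by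
  rw [Ug, map_sub, W2_beta2, W2_alpha2, Wq_beta, Wq_alpha]
  ring

/-- `U_g ∉ α₂ F₁ → U_g ∉ β₂ F₁` (Atkin–Lehner `W_{q²}`). -/
theorem Ug_notMem_range_beta2 (hqM : ¬ q ∣ M) {g : Fb M}
    (h : Ug M q g ∉ Set.range (alpha2 M q)) : Ug M q g ∉ Set.range (beta2 M q) := by
  rintro ⟨y, hy⟩
  apply h
  refine ⟨-Wq hqM y, ?_⟩
  have h1 := congrArg (W2 hqM) hy
  rw [W2_beta2, W2_Ug] at h1
  rw [map_neg, h1, neg_neg]

theorem neg_Ug_notMem_range_beta2 (hqM : ¬ q ∣ M) {g : Fb M}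
    (h : Ug M q g ∉ Set.range (alpha2 M q)) : -Ug M q g ∉ Set.range (beta2 M q) := by
  rintro ⟨y, hy⟩
  exact Ug_notMem_range_beta2 hqM h ⟨-y, by rw [map_neg, hy, neg_neg]⟩

/-- **Along `β₂`, the minimal polynomial of `(-U_g) / β₂ c` is the scaled vertical polynomial of
`PBt g` at `β g`.** -/
theorem minpoly_neg_Ug_div_beta2 (hqM : ¬ q ∣ M) {g : Fb M}
    (h : Ug M q g ∉ Set.range (alpha2 M q)) {c : Fb (M * q)} (hc : c ≠ 0) :
    letI := algebraAlong (beta2 M q)
    minpoly (Fb (M * q)) (-Ug M q g / beta2 M q c) =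
        vertScaledAt (PBt M q g) q (heckeBetaBar Kb M q g) c ∧
      IntermediateField.adjoin (Fb (M * q)) {-Ug M q g / beta2 M q c} = ⊤ := by
  letI := algebraAlong (beta2 M q)
  haveI : Module.Finite (Fb (M * q)) (Fb (M * q * q)) :=
    Fermat.Agent.Hecke.finiteAlong_heckeBetaBar (M * q) q
  have hfd : Module.finrank (Fb (M * q)) (Fb (M * q * q)) = q := finrankAlong_beta2
  exact minpoly_theta_at hq.out hfd (PBt_monic g) (PBt_natDegree hqM g) (PBt_eval_beta g)
    (PBt_aeval hqM g) (neg_Ug_notMem_range_beta2 hqM h) hc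

/-- the same for `c = -(β g - (α g')^q)`: the generator is `U_g / β₂ (β g - (α g')^q)`. -/
theorem minpoly_Ug_div_beta2 (hqM : ¬ q ∣ M) {g : Fb M}
    (h : Ug M q g ∉ Set.range (alpha2 M q)) (g' : Fb M)
    (hc : heckeBetaBar Kb M q g - heckeAlphaBar Kb M q g' ^ q ≠ 0) :
    letI := algebraAlong (beta2 M q)
    minpoly (Fb (M * q))
        (Ug M q g / beta2 M q (heckeBetaBar Kb M q g - heckeAlphaBar Kb M q g' ^ q)) =
        vertScaledAt (PBt M q g) q (heckeBetaBar Kb M q g)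
          (-(heckeBetaBar Kb M q g - heckeAlphaBar Kb M q g' ^ q)) ∧
      IntermediateField.adjoin (Fb (M * q))
        {Ug M q g / beta2 M q (heckeBetaBar Kb M q g - heckeAlphaBar Kb M q g' ^ q)} = ⊤ := by
  have e : Ug M q g / beta2 M q (heckeBetaBar Kb M q g - heckeAlphaBar Kb M q g' ^ q) =
      -Ug M q g / beta2 M q (-(heckeBetaBar Kb M q g - heckeAlphaBar Kb M q g' ^ q)) := by
    rw [map_neg, neg_div_neg_eq]
  rw [e]
  exact minpoly_neg_Ug_div_beta2 hqM h (neg_ne_zero.mpr hc)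

end Def

/-! ### The Kronecker congruence modulo `q` -/

section Base

open Fermat.Agent.Val Fermat.Agent.BR.ResGen Fermat.Agent.BR.Inst.SpecIso
  Fermat.Agent.BR.Inst.LevelsInst Fermat.Agent.BR3.HeckePolyModel
  Fermat.Agent.BR.S0.ThickFinal Fermat.Agent.BR3.HeckePolyDescent

variable {M q : ℕ} [NeZero M] [hq : Fact q.Prime]
variable (B : ValuationSubring Kb) (hB : B.LiesOverPrime q) (hqM : ¬ q ∣ M)

local notation "kB" => IsLocalRing.ResidueField B

variable [CharP (IsLocalRing.ResidueField B) q] [PerfectField (IsLocalRing.ResidueField B)]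

/-- **The twisted Kronecker congruence MODULO `q` for `PBt g = P_g.map α`** at the unramified base
level: `PBt g = (X^q - C (α g'')) (X - C ((α g')^q)) + C q · Ψ₁` with `Ψ₁` over the level `M q`
model. -/
theorem exists_kronecker_PBt_q {g g' g'' : Fb M}
    (hg : g ∈ CMod M (W0 B q) (K0 q)) (hg' : g' ∈ CMod M (W0 B q) (K0 q))
    (hg'' : g'' ∈ CMod M (W0 B q) (K0 q))
    (h' : redMF B hB hqM ⟨g, mem_OM_of_mem_CMod (levelHyp_base B hB hqM) hg⟩ =
      frobAutFullC kB M q •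
        redMF B hB hqM ⟨g', mem_OM_of_mem_CMod (levelHyp_base B hB hqM) hg'⟩)
    (h'' : redMF B hB hqM ⟨g'', mem_OM_of_mem_CMod (levelHyp_base B hB hqM) hg''⟩ =
      frobAutFullC kB M q •
        redMF B hB hqM ⟨g, mem_OM_of_mem_CMod (levelHyp_base B hB hqM) hg⟩) :
    ∃ Ψ₁ : (Fb (M * q))[X], (∀ k, Ψ₁.coeff k ∈ CQ M q (W0 B q) (K0 q)) ∧
      PBt M q g =
        (X ^ q - C (heckeAlphaBar Kb M q g'')) * (X - C ((heckeAlphaBar Kb M q g') ^ q)) +
          C ((q : ℕ) : Fb (M * q)) * Ψ₁ := by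
  obtain ⟨Ψ, hΨ, e⟩ := exists_kronecker_CMod_q B hB hqM hg hg' hg'' h' h''
  refine ⟨Ψ.map (heckeAlphaBar Kb M q : Fb M →+* Fb (M * q)), fun k => ?_, ?_⟩
  · rw [coeff_map]
    exact Fermat.Agent.BR.Inst.DegenModel.alpha_mem_model M q (isModel_CMod M (W0 B q) (K0 q))
      (isModel_CQ M q (W0 B q) (K0 q)) (hΨ k)
  · rw [PBt, e]
    simp only [Polynomial.map_add, Polynomial.map_sub, Polynomial.map_mul, Polynomial.map_pow,
      Polynomial.map_X, Polynomial.map_C, RingHom.coe_coe, map_pow]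
    rw [map_natCast (heckeAlphaBar Kb M q)]
    ring

end Base

end Fermat.Agent.BR3.HeckePolyB

end
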