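import Fermat.Agent.Pseudo.TraceAbstract

/-!
# Program C (S36), piece (F3), part 2: inertia invariants and the Hecke cofactor at one level

`D : TraceData G Lam X I` (the universal trace modulo `M`; `D.span` = the `G`-span of the image of the
Kummer map), `Iq ≤ G` an inertia group at a prime `q` with `d ≡ 1` on `Iq` (so that the relation of
a Frobenius index of `s ∈ Iq` reads `s + s⁻¹ = T_{i(s)}` on `D.span`).

`TameStructure D Iq q` : the structure of `Iq` acting on `D.span`: wild inertia `Pw` (normalised by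
`Iq` and by a Frobenius lift `φ`), a generator `τ` of the tame image, the tame relation
`φ τ = τ ^ q w φ` (`w ∈ Pw`), and a finite set `F ⊆ Pw` of representatives of the image of `Pw`
(closed under inverses and translations as far as the action on `D.span` is concerned).

`kill_of_invariants` : if `e • PX` kills every `Iq`-invariant element of `D.span` (`PX` commuting with
`G` and preserving `D.span`), then for Frobenius indices `iτ` of `τ` and `iw w` of `w ∈ F` and a
cofactor `Fq` of `X - 2` in `D_q - X` (`D_q` the Dickson polynomial):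

  `e • PX (e • PX (Fq (T_{iτ}) (∑ w ∈ F, T_{iw w} x))) = 0`  for all `x ∈ D.span`.

Mechanism: `E = ∑ T_{iw w} = ∑ (w + w⁻¹)` maps `D.span` into the `Pw`-invariants, on which
`T_{iτ} = φ T_{iτ} φ⁻¹ = τ^q + τ^{-q} = D_q (T_{iτ})`; so `(T_{iτ} - 2) Fq (T_{iτ}) = 0` there, i.e.
`(τ - 1)² = 0` on the image of `Fq (T_{iτ}) E`, where `Iq` acts through `⟨τ⟩`.
-/

set_option autoImplicit false
set_option linter.unusedSectionVars false

open Polynomial

namespace Fermat.Agent.BR3.InertiaKill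

open Fermat.Agent.Pseudo

variable {G Lam X I : Type*} [Group G] [AddCommGroup Lam] [AddCommGroup X] [DistribMulAction G X]

/-! ### Polynomials in a Hecke operator -/

section Aeval

variable (D : TraceData G Lam X I)

theorem T_pow_smul (i : I) (n : ℕ) (g : G) (x : X) :
    (D.T i ^ n) (g • x) = g • (D.T i ^ n) x := by
  induction n generalizing x with
  | zero => simp
  | succ n ih => rw [pow_succ, Module.End.mul_apply, Module.End.mul_apply, D.T_smul, ih]

theorem T_pow_mem (i : I) (n : ℕ) {x : X} (hx : x ∈ D.span) : (D.T i ^ n) x ∈ D.span := by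
  induction n generalizing x with
  | zero => simpa using hx
  | succ n ih =>
    rw [pow_succ, Module.End.mul_apply]
    exact ih (D.T_mem i hx)

/-- polynomials in a Hecke operator commute with the group -/
theorem aeval_T_smul (i : I) (p : ℤ[X]) (g : G) (x : X) :
    aeval (D.T i) p (g • x) = g • aeval (D.T i) p x := by
  induction p using Polynomial.induction_on' with
  | add p r hp hr => rw [map_add, LinearMap.add_apply, LinearMap.add_apply, hp, hr, smul_add]
  | monomial n a =>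
    rw [aeval_monomial, Module.End.mul_apply, Module.End.mul_apply, Module.algebraMap_end_apply,
      Module.algebraMap_end_apply, T_pow_smul, smul_comm]

/-- polynomials in a Hecke operator preserve the span -/
theorem aeval_T_mem (i : I) (p : ℤ[X]) {x : X} (hx : x ∈ D.span) :
    aeval (D.T i) p x ∈ D.span := by
  induction p using Polynomial.induction_on' with
  | add p r hp hr =>
    rw [map_add, LinearMap.add_apply]
    exact D.span.add_mem hp hr
  | monomial n a =>
    rw [aeval_monomial, Module.End.mul_apply, Module.algebraMap_end_apply]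
    exact D.span.zsmul_mem (T_pow_mem D i n hx) a

end Aeval

/-! ### The structure of an inertia group on the span -/

/-- The structure of an inertia group `Iq` at `q` acting on `D.span`. -/
structure TameStructure (D : TraceData G Lam X I) (Iq : Subgroup G) (q : ℕ) where
  /-- wild inertia -/
  Pw : Subgroup G
  Pw_le : Pw ≤ Iq
  /-- a generator of the tame image -/
  τ : G
  τ_mem : τ ∈ Iq
  /-- a Frobenius lift -/
  φ : G
  conj_Iq : ∀ s ∈ Iq, ∀ w ∈ Pw, s⁻¹ * w * s ∈ Pw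
  conj_φ : ∀ w ∈ Pw, φ⁻¹ * w * φ ∈ Pw
  conj_φ' : ∀ w ∈ Pw, φ * w * φ⁻¹ ∈ Pw
  gen : ∀ s ∈ Iq, ∃ (k : ℕ) (w : G), w ∈ Pw ∧ ∀ x ∈ D.span, s • x = (τ ^ k) • w • x
  rel : ∃ w ∈ Pw, ∀ x ∈ D.span, φ • τ • x = (τ ^ q) • w • φ • x
  /-- representatives of the image of wild inertia -/
  F : Finset G
  F_mem : ∀ w ∈ F, w ∈ Pw
  F_inv : ∀ x ∈ D.span, ∑ w ∈ F, w⁻¹ • x = ∑ w ∈ F, w • x
  F_avg : ∀ x ∈ D.span, ∀ u ∈ Pw, u • ∑ w ∈ F, w • x = ∑ w ∈ F, w • x

section Main

variable {D : TraceData G Lam X I} {Iq : Subgroup G} {q : ℕ} (S : TameStructure D Iq q)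

/-- `x` is fixed by wild inertia. -/
def WInv (x : X) : Prop := ∀ u ∈ S.Pw, u • x = x

theorem winv_smul_of_conj {g : G} (hg : ∀ w ∈ S.Pw, g⁻¹ * w * g ∈ S.Pw) {x : X}
    (hx : WInv S x) : WInv S (g • x) := by
  intro u hu
  have h1 := hx _ (hg u hu)
  calc u • g • x = g • (g⁻¹ * u * g) • x := by
        rw [← mul_smul, ← mul_smul, mul_assoc, mul_inv_cancel_left]
    _ = g • x := by rw [h1]

theorem winv_of_commute {A : X → X} (hA : ∀ (g : G) (x : X), A (g • x) = g • A x) {x : X}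
    (hx : WInv S x) : WInv S (A x) := by
  intro u hu
  rw [← hA, hx u hu]

theorem winv_sub {x y : X} (hx : WInv S x) (hy : WInv S y) : WInv S (x - y) := by
  intro u hu
  rw [smul_sub, hx u hu, hy u hu]

theorem winv_nsmul (n : ℕ) {x : X} (hx : WInv S x) : WInv S (n • x) := by
  intro u hu
  rw [smul_comm, hx u hu]

theorem winv_tau {x : X} (hx : WInv S x) : WInv S (S.τ • x) :=
  winv_smul_of_conj S (S.conj_Iq S.τ S.τ_mem) hx

theorem winv_tau_inv {x : X} (hx : WInv S x) : WInv S (S.τ⁻¹ • x) :=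
  winv_smul_of_conj S (fun w hw => by
    have := S.conj_Iq S.τ⁻¹ (Iq.inv_mem S.τ_mem) w hw
    exact this) hx

theorem winv_phi {x : X} (hx : WInv S x) : WInv S (S.φ • x) :=
  winv_smul_of_conj S S.conj_φ hx

theorem winv_phi_inv {x : X} (hx : WInv S x) : WInv S (S.φ⁻¹ • x) :=
  winv_smul_of_conj S (fun w hw => by
    have := S.conj_φ' w hw
    rwa [inv_inv]) hx

theorem pow_smul_eq_of_smul_eq {g : G} {x : X} (h : g • x = x) (k : ℕ) : (g ^ k) • x = x := by
  induction k with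
  | zero => rw [pow_zero, one_smul]
  | succ k ih => rw [pow_succ, mul_smul, h, ih]

/-- an element of the span fixed by wild inertia and by `τ` is fixed by `Iq` -/
theorem inv_of_winv_of_tau {x : X} (hx : x ∈ D.span) (hw : WInv S x) (hτ : S.τ • x = x) :
    ∀ s ∈ Iq, s • x = x := by
  intro s hs
  obtain ⟨k, w, hwP, h⟩ := S.gen s hs
  rw [h x hx, hw w hwP, pow_smul_eq_of_smul_eq hτ]

/-- the trace of `s ∈ Iq` on the span -/
theorem T_apply_of_mem (hd : ∀ s ∈ Iq, (D.M : ℤ) ∣ D.d s - 1) {s : G} (hs : s ∈ Iq) {i : I}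
    (hi : D.IsFrobIndex s i) {x : X} (hx : x ∈ D.span) : D.T i x = s • x + s⁻¹ • x := by
  rw [hi.apply D hx, D.zsmul_congr (hd s hs) (D.smul_mem s⁻¹ hx), one_zsmul]

/-- the Dickson polynomial of the trace of `τ` -/
theorem aeval_dickson_apply (hd : ∀ s ∈ Iq, (D.M : ℤ) ∣ D.d s - 1) {iτ : I}
    (hiτ : D.IsFrobIndex S.τ iτ) (n : ℕ) {x : X} (hx : x ∈ D.span) :
    aeval (D.T iτ) (dickson 1 (1 : ℤ) n) x = (S.τ ^ n) • x + (S.τ⁻¹ ^ n) • x := by
  have key : ∀ n : ℕ, (∀ x ∈ D.span,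
      aeval (D.T iτ) (dickson 1 (1 : ℤ) n) x = (S.τ ^ n) • x + (S.τ⁻¹ ^ n) • x) ∧
      (∀ x ∈ D.span, aeval (D.T iτ) (dickson 1 (1 : ℤ) (n + 1)) x =
        (S.τ ^ (n + 1)) • x + (S.τ⁻¹ ^ (n + 1)) • x) := by
    intro n
    induction n with
    | zero =>
      refine ⟨fun x _ => ?_, fun x hx => ?_⟩
      · rw [dickson_zero, pow_zero, pow_zero, one_smul]
        simp only [map_sub, map_ofNat, Nat.cast_one, map_one]
        rw [LinearMap.sub_apply]
        simp only [Module.End.ofNat_apply, Module.End.one_apply]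
        abel
      · rw [zero_add, dickson_one, aeval_X, pow_one, pow_one]
        exact T_apply_of_mem hd S.τ_mem hiτ hx
    | succ n ih =>
      refine ⟨ih.2, fun x hx => ?_⟩
      rw [dickson_add_two, map_sub, map_mul, map_mul, aeval_X, aeval_C, LinearMap.sub_apply,
        Module.End.mul_apply, Module.End.mul_apply, Module.algebraMap_end_apply, one_smul,
        ih.1 x hx, ih.2 x hx, map_add,
        T_apply_of_mem hd S.τ_mem hiτ (D.smul_mem _ hx),
        T_apply_of_mem hd S.τ_mem hiτ (D.smul_mem _ hx)]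
      have e1 : S.τ • (S.τ ^ (n + 1)) • x = (S.τ ^ (n + 1 + 1)) • x := by
        rw [← mul_smul, ← pow_succ']
      have e2 : S.τ⁻¹ • (S.τ ^ (n + 1)) • x = (S.τ ^ n) • x := by
        rw [← mul_smul, pow_succ', inv_mul_cancel_left]
      have e3 : S.τ • (S.τ⁻¹ ^ (n + 1)) • x = (S.τ⁻¹ ^ n) • x := by
        rw [← mul_smul, pow_succ', mul_inv_cancel_left]
      have e4 : S.τ⁻¹ • (S.τ⁻¹ ^ (n + 1)) • x = (S.τ⁻¹ ^ (n + 1 + 1)) • x := by
        rw [← mul_smul, ← pow_succ']
      rw [e1, e2, e3, e4]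
      abel
  exact (key n).1 x hx

/-- **the tame relation on the wild invariants**: the trace of `τ` is the trace of `τ ^ q` -/
theorem T_apply_of_winv (hd : ∀ s ∈ Iq, (D.M : ℤ) ∣ D.d s - 1) {iτ : I}
    (hiτ : D.IsFrobIndex S.τ iτ) {z : X} (hz : z ∈ D.span) (hzw : WInv S z) :
    D.T iτ z = (S.τ ^ q) • z + (S.τ⁻¹ ^ q) • z := by
  obtain ⟨w, hw, hrel⟩ := S.rel
  set y := S.φ⁻¹ • z with hy
  have hys : y ∈ D.span := D.smul_mem _ hz
  have hyw : WInv S y := winv_phi_inv S hzw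
  have hφy : S.φ • y = z := smul_inv_smul _ _
  -- `φ τ y = τ^q z`
  have h1 : S.φ • S.τ • y = (S.τ ^ q) • z := by
    rw [hrel y hys, hφy, hzw w hw]
  -- `φ τ⁻¹ y = τ^{-q} z`
  have h2 : S.φ • S.τ⁻¹ • y = (S.τ⁻¹ ^ q) • z := by
    have h3 := hrel (S.τ⁻¹ • y) (D.smul_mem _ hys)
    rw [smul_inv_smul, hφy] at h3
    have h4 : WInv S (S.φ • S.τ⁻¹ • y) := winv_phi S (winv_tau_inv S hyw)
    rw [h4 w hw] at h3
    have h5 : (S.τ⁻¹ ^ q) • z = S.φ • S.τ⁻¹ • y := by
      conv_lhs => rw [h3]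
      rw [inv_pow, inv_smul_smul]
    exact h5.symm
  calc D.T iτ z = D.T iτ (S.φ • y) := by rw [hφy]
    _ = S.φ • D.T iτ y := D.T_smul _ _ _
    _ = S.φ • (S.τ • y + S.τ⁻¹ • y) := by rw [T_apply_of_mem hd S.τ_mem hiτ hys]
    _ = (S.τ ^ q) • z + (S.τ⁻¹ ^ q) • z := by rw [smul_add, h1, h2]

/-- **The Hecke cofactor**: on the wild invariants of the span, `Fq (T_τ)` maps into the kernel of
`T_τ - 2`. -/
theorem T_aeval_cofactor (hd : ∀ s ∈ Iq, (D.M : ℤ) ∣ D.d s - 1) {iτ : I}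
    (hiτ : D.IsFrobIndex S.τ iτ) (Fq : ℤ[X]) (hFq : (Polynomial.X - C 2) * Fq = dickson 1 (1 : ℤ) q - Polynomial.X)
    {z : X} (hz : z ∈ D.span) (hzw : WInv S z) :
    D.T iτ (aeval (D.T iτ) Fq z) = (2 : ℤ) • aeval (D.T iτ) Fq z := by
  have h1 := congrArg (fun p => aeval (D.T iτ) p z) hFq
  simp only [map_mul, map_sub, aeval_X, aeval_C, Module.End.mul_apply, LinearMap.sub_apply,
    Module.algebraMap_end_apply] at h1
  rw [aeval_dickson_apply S hd hiτ q hz, T_apply_of_winv S hd hiτ hz hzw, sub_self] at h1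
  exact sub_eq_zero.mp h1

/-- **(F3), level `m`.**  If `e • PX` kills the `Iq`-invariants of the span, then
`(e • PX)² ∘ Fq (T_τ) ∘ ∑_{w ∈ F} T_w` kills the span. -/
theorem kill_of_invariants (hd : ∀ s ∈ Iq, (D.M : ℤ) ∣ D.d s - 1)
    (PX : Module.End ℤ X) (hPXG : ∀ (g : G) (x : X), PX (g • x) = g • PX x)
    (hPXspan : ∀ x ∈ D.span, PX x ∈ D.span) (e : ℕ)
    (hkill : ∀ x ∈ D.span, (∀ s ∈ Iq, s • x = x) → e • PX x = 0)
    (iτ : I) (hiτ : D.IsFrobIndex S.τ iτ) (iw : G → I)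
    (hiw : ∀ w ∈ S.F, D.IsFrobIndex w (iw w))
    (Fq : ℤ[X]) (hFq : (Polynomial.X - C 2) * Fq = dickson 1 (1 : ℤ) q - Polynomial.X) {x : X} (hx : x ∈ D.span) :
    e • PX (e • PX (aeval (D.T iτ) Fq (∑ w ∈ S.F, D.T (iw w) x))) = 0 := by
  -- `z = E x` is fixed by wild inertia
  set z := ∑ w ∈ S.F, D.T (iw w) x with hzdef
  have hz : z ∈ D.span := D.span.sum_mem fun w _ => D.T_mem _ hx
  have hzE : z = (2 : ℕ) • ∑ w ∈ S.F, w • x := by
    have h1 : z = ∑ w ∈ S.F, (w • x + w⁻¹ • x) :=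
      Finset.sum_congr rfl fun w hw =>
        T_apply_of_mem hd (S.Pw_le (S.F_mem w hw)) (hiw w hw) hx
    rw [h1, Finset.sum_add_distrib, S.F_inv x hx, two_nsmul]
  have hzw : WInv S z := by
    rw [hzE]
    exact winv_nsmul S 2 fun u hu => S.F_avg x hx u hu
  -- `z' = Fq (T_τ) z`
  set z' := aeval (D.T iτ) Fq z with hz'def
  have hz' : z' ∈ D.span := aeval_T_mem D iτ Fq hz
  have hz'w : WInv S z' := winv_of_commute S (aeval_T_smul D iτ Fq) hzw
  have hT : S.τ • z' + S.τ⁻¹ • z' = (2 : ℤ) • z' := by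
    rw [← T_apply_of_mem hd S.τ_mem hiτ hz']
    exact T_aeval_cofactor S hd hiτ Fq hFq hz hzw
  -- `u = τ z' - z'` is fixed by `τ`
  have hτu : S.τ • (S.τ • z' - z') = S.τ • z' - z' := by
    have h1 := congrArg (fun y => S.τ • y) hT
    simp only [smul_add, smul_inv_smul] at h1
    rw [smul_sub]
    have h2 : S.τ • S.τ • z' = S.τ • (2 : ℤ) • z' - z' := by rw [← h1]; abel
    rw [h2, smul_comm S.τ (2 : ℤ) z', two_zsmul]
    abel
  have hu : S.τ • z' - z' ∈ D.span := D.span.sub_mem (D.smul_mem _ hz') hz'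
  have huw : WInv S (S.τ • z' - z') := winv_sub S (winv_tau S hz'w) hz'w
  have h1 := hkill _ hu (inv_of_winv_of_tau S hu huw hτu)
  -- hence `v = e • PX z'` is fixed by `τ`
  set v := e • PX z' with hvdef
  have hv : v ∈ D.span := D.span.nsmul_mem (hPXspan _ hz') e
  have hvw : WInv S v := winv_nsmul S e (winv_of_commute S hPXG hz'w)
  have hτv : S.τ • v = v := by
    rw [map_sub, smul_sub, hPXG, sub_eq_zero] at h1
    rw [hvdef, smul_comm, h1]
  exact hkill _ hv (inv_of_winv_of_tau S hv hvw hτv)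

end Main

end Fermat.Agent.BR3.InertiaKill
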