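import Fermat.Agent.Pseudo.TraceLimit
import Fermat.Agent.BR3.DicksonCofactor
import Fermat.Agent.BR3.InertiaKill

/-!
# Program C (S36), piece (F3), part 3: the trace of inertia is not identically `2`

`Y : TraceSystem G Lam X I`, `D : TraceLimitInput Y R J` (`R` a domain, `J`-adically complete,
`p ∈ J`, `p ≠ 2`), `Iq ≤ G` an inertia group at a prime `q ≠ p` (`d ≡ 1` on `Iq`) with a
`TameStructure` on every level `Y.data m`, `P` an element of the Hecke algebra of `Lam` with
`Φ P ≠ 0` and counterpart `PX` on `X`.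

`exists_t_ne_two` : if for every `m` the operator `e • PX` (`e ≠ 0` in `R`) kills the `Iq`-invariants
of the level-`m` span, then the limit trace is not identically `2` on `Iq`:
`∃ s ∈ Iq, D.t s ≠ 2`.

Only the easy transfer `D.sat` is used: the Hecke element
`e² P² Fq (T_τ) ∑_{w ∈ F} T_w` is `≡ 0 mod p^m` on `Lam` by `InertiaKill.kill_of_invariants`, and its
eigenvalue is `≡ e² Φ(P)² (q² - 1) 2 |F|` if `t ≡ 2` on `Iq`.
-/

set_option autoImplicit false
set_option linter.unusedSectionVars false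

open Polynomial

namespace Fermat.Agent.BR3.InertiaLimit

open Fermat.Agent.Pseudo Fermat.Agent.BR3.InertiaKill

/-! ### `Intertwined` for polynomials and sums -/

section Inter

variable {Lam Xs : Type*} [AddCommGroup Lam] [AddCommGroup Xs] {rho : Lam →+ Xs}

theorem intertwined_aeval {A : Module.End ℤ Lam} {B : Module.End ℤ Xs} (h : Intertwined rho A B)
    (p : ℤ[X]) : Intertwined rho (aeval A p) (aeval B p) := by
  induction p using Polynomial.induction_on' with
  | add p r hp hr =>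
    rw [map_add, map_add]
    exact hp.add hr
  | monomial n a =>
    rw [aeval_monomial, aeval_monomial, Algebra.algebraMap_eq_smul_one,
      Algebra.algebraMap_eq_smul_one, smul_mul_assoc, smul_mul_assoc, one_mul, one_mul]
    exact (h.pow n).zsmul a

theorem intertwined_sum {ι : Type*} (s : Finset ι) (A : ι → Module.End ℤ Lam)
    (B : ι → Module.End ℤ Xs) (h : ∀ i ∈ s, Intertwined rho (A i) (B i)) :
    Intertwined rho (∑ i ∈ s, A i) (∑ i ∈ s, B i) := by
  classical
  induction s using Finset.induction_on with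
  | empty =>
    rw [Finset.sum_empty, Finset.sum_empty]
    exact Intertwined.zero
  | insert a s ha ih =>
    rw [Finset.sum_insert ha, Finset.sum_insert ha]
    exact (h a (Finset.mem_insert_self a s)).add
      (ih fun i hi => h i (Finset.mem_insert_of_mem hi))

end Inter

/-! ### The limit step -/

section Main

variable {G Lam Xs I : Type*} [Group G] [AddCommGroup Lam] [AddCommGroup Xs]
  [DistribMulAction G Xs] {Y : TraceSystem G Lam Xs I}
  {R : Type*} [CommRing R] [IsDomain R] {J : Ideal R} [IsAdicComplete J R]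

/-- `PX` preserves the level `m` span. -/
theorem PX_mem_span (m : ℕ) {P : Module.End ℤ Lam} {PX : Module.End ℤ Xs}
    (hPX : Intertwined (Y.rho m) P PX) (hPXG : ∀ (g : G) (x : Xs), PX (g • x) = g • PX x)
    {x : Xs} (hx : x ∈ (Y.data m).span) : PX x ∈ (Y.data m).span := by
  refine (Y.data m).span_induction (P := fun x => PX x ∈ (Y.data m).span) ?_ ?_ ?_ ?_ hx
  · rw [map_zero]; exact (Y.data m).span.zero_mem
  · intro y z hy hz; rw [map_add]; exact (Y.data m).span.add_mem hy hz
  · intro y hy; rw [map_neg]; exact (Y.data m).span.neg_mem hy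
  · intro a lam
    rw [hPXG]
    have h1 : PX ((Y.data m).rho lam) = (Y.data m).rho (P lam) := (hPX lam).symm
    rw [h1]
    exact (Y.data m).smul_rho_mem a _

/-- **(F3) The trace of inertia is not identically `2`.** -/
theorem exists_t_ne_two (D : TraceLimitInput Y R J) (hp2 : Y.p ≠ 2) (hpp : Y.p.Prime)
    (hpJ : (Y.p : R) ∈ J) (Iq : Subgroup G) (q : ℕ) (hq1 : ((q : R) ^ 2 - 1) ≠ 0)
    (S : ∀ m, TameStructure (Y.data m) Iq q) (hcard : ∀ m, ((S m).F.card).Coprime Y.p)
    (hd : ∀ m, ∀ s ∈ Iq, ((Y.p ^ m : ℕ) : ℤ) ∣ Y.d m s - 1)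
    (P : D.A) (PX : Module.End ℤ Xs)
    (hPX : ∀ m, Intertwined (Y.rho m) (P : Module.End ℤ Lam) PX)
    (hPXG : ∀ (g : G) (x : Xs), PX (g • x) = g • PX x) (hΦP : D.Φ P ≠ 0)
    (e : ℕ) (he : (e : R) ≠ 0)
    (hkill : ∀ m, ∀ x ∈ (Y.data m).span, (∀ s ∈ Iq, s • x = x) → e • PX x = 0) :
    ∃ s ∈ Iq, D.t s ≠ 2 := by
  by_contra hcon
  push Not at hcon
  obtain ⟨Fq, hFq, hFq2⟩ := Dickson.exists_cofactor q
  have hmain : ∀ m : ℕ,
      (e : R) * (D.Φ P * ((e : R) * (D.Φ P * ((q : R) ^ 2 - 1)))) ∈ J ^ (m - D.c) := by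
    intro m
    set τ := (S m).τ with hτ
    set iτ := Y.idx m τ with hiτdef
    have hiτ : (Y.data m).IsFrobIndex τ iτ := Y.isFrobIndex_idx le_rfl τ
    let iw : G → I := fun w => Y.idx m w
    have hiw : ∀ w ∈ (S m).F, (Y.data m).IsFrobIndex w (iw w) :=
      fun w _ => Y.isFrobIndex_idx le_rfl w
    -- the element of the Hecke algebra of `Lam`
    let EL : D.A := ∑ w ∈ (S m).F, D.tl (iw w)
    let ZL : D.A := aeval (D.tl iτ) Fq
    let AL : D.A := e • (P * (e • (P * (ZL * EL))))
    have hcoe : (AL : Module.End ℤ Lam) =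
        e • ((P : Module.End ℤ Lam) * (e • ((P : Module.End ℤ Lam) *
          (aeval (Y.TL iτ) Fq * ∑ w ∈ (S m).F, Y.TL (iw w))))) := by
      simp only [AL, ZL, EL, AddSubmonoidClass.coe_nsmul, Subalgebra.coe_mul,
        AddSubmonoidClass.coe_finsetSum, TraceLimitInput.coe_tl, Polynomial.aeval_subalgebra_coe]
    have hint : Intertwined (Y.rho m) (AL : Module.End ℤ Lam)
        (e • (PX * (e • (PX * (aeval (Y.T iτ) Fq * ∑ w ∈ (S m).F, Y.T (iw w)))))) := by
      rw [hcoe]
      have hT : ∀ i : I, Intertwined (Y.rho m) (Y.TL i) (Y.T i) := fun i lam => Y.rho_TL m i lam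
      have hZ := intertwined_aeval (hT iτ) Fq
      have hE := intertwined_sum (S m).F (fun w => Y.TL (iw w)) (fun w => Y.T (iw w))
        fun w _ => hT (iw w)
      exact (((hPX m).mul (((hPX m).mul (hZ.mul hE)).nsmul e))).nsmul e
    have hzero : ModEq (Y.p ^ m) (AL : Module.End ℤ Lam) 0 := by
      refine hint.modEq_zero (fun lam h => (Y.ker_rho m lam).mp h) fun lam => ?_
      rw [LinearMap.smul_apply, Module.End.mul_apply, LinearMap.smul_apply, Module.End.mul_apply,
        Module.End.mul_apply, LinearMap.sum_apply]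
      exact kill_of_invariants (S m) (hd m) PX hPXG
        (fun x hx => PX_mem_span m (hPX m) hPXG hx) e (hkill m) iτ hiτ iw hiw Fq hFq
        ((Y.data m).rho_mem lam)
    have hsat := D.sat m AL hzero
    -- compute `Φ AL` modulo `J ^ (m - c)`
    have h2 : ∀ g ∈ Iq, Ideal.Quotient.mk (J ^ (m - D.c)) (D.hecke (Y.idx m g)) = 2 := by
      intro g hg
      have h := D.mk_t m g
      rw [hcon g hg, map_ofNat] at h
      exact h.symm
    have hΦZ : Ideal.Quotient.mk (J ^ (m - D.c)) (D.Φ ZL) =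
        Ideal.Quotient.mk (J ^ (m - D.c)) ((q : R) ^ 2 - 1) := by
      have e1 : D.Φ ZL = aeval (D.hecke iτ) Fq := by
        show D.Φ.toIntAlgHom (aeval (D.tl iτ) Fq) = _
        rw [← Polynomial.aeval_algHom_apply]
        rfl
      have e2 : Ideal.Quotient.mk (J ^ (m - D.c)) (aeval (D.hecke iτ) Fq) =
          aeval (Ideal.Quotient.mk (J ^ (m - D.c)) (D.hecke iτ)) Fq := by
        show (Ideal.Quotient.mk (J ^ (m - D.c))).toIntAlgHom (aeval (D.hecke iτ) Fq) = _
        rw [← Polynomial.aeval_algHom_apply]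
        rfl
      rw [e1, e2, h2 τ (S m).τ_mem]
      have e3 : (2 : R ⧸ J ^ (m - D.c)) = algebraMap ℤ (R ⧸ J ^ (m - D.c)) 2 := by
        rw [map_ofNat]
      rw [e3, Polynomial.aeval_algebraMap_apply_eq_algebraMap_eval, hFq2]
      simp
    have hΦE : Ideal.Quotient.mk (J ^ (m - D.c)) (D.Φ EL) =
        Ideal.Quotient.mk (J ^ (m - D.c)) (((2 * (S m).F.card : ℕ) : R)) := by
      have e1 : D.Φ EL = ∑ w ∈ (S m).F, D.hecke (iw w) := by
        simp only [EL, map_sum]
        rfl
      rw [e1, map_sum, Finset.sum_congr rfl fun w hw => h2 w ((S m).Pw_le ((S m).F_mem w hw))]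
      simp only [Finset.sum_const, nsmul_eq_mul, Nat.cast_mul, Nat.cast_ofNat, map_mul, map_natCast,
        map_ofNat]
      ring
    have hu : IsUnit (((2 * (S m).F.card : ℕ) : R)) := by
      refine isUnit_natCast_of_coprime_of_mem J hpJ (Nat.Coprime.mul_left ?_ (hcard m))
      rw [Nat.coprime_comm, Nat.Prime.coprime_iff_not_dvd hpp]
      intro h
      exact hp2 ((Nat.prime_dvd_prime_iff_eq hpp Nat.prime_two).mp h)
    have hΦ : D.Φ AL = (e : R) * (D.Φ P * ((e : R) * (D.Φ P * (D.Φ ZL * D.Φ EL)))) := by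
      simp only [AL, map_mul, nsmul_eq_mul, map_natCast]
    rw [hΦ, ← Ideal.Quotient.eq_zero_iff_mem] at hsat
    simp only [map_mul] at hsat
    rw [hΦZ, hΦE] at hsat
    simp only [← map_mul] at hsat
    rw [Ideal.Quotient.eq_zero_iff_mem] at hsat
    obtain ⟨u, hu⟩ := hu
    have h3 : (e : R) * (D.Φ P * ((e : R) * (D.Φ P * ((q : R) ^ 2 - 1)))) =
        ((e : R) * (D.Φ P * ((e : R) * (D.Φ P *
          (((q : R) ^ 2 - 1) * ((2 * (S m).F.card : ℕ) : R)))))) * ↑u⁻¹ := by
      rw [← hu]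
      have : (u : R) * ↑u⁻¹ = 1 := Units.mul_inv u
      linear_combination (-(e : R) * (D.Φ P * ((e : R) * (D.Φ P * ((q : R) ^ 2 - 1))))) * this
    rw [h3]
    exact Ideal.mul_mem_right _ _ hsat
  have hzero := eq_zero_of_forall_mem_pow_sub J D.c hmain
  rcases mul_eq_zero.mp hzero with h | h
  · exact he h
  rcases mul_eq_zero.mp h with h | h
  · exact hΦP h
  rcases mul_eq_zero.mp h with h | h
  · exact he h
  rcases mul_eq_zero.mp h with h | h
  · exact hΦP h
  · exact hq1 h

end Main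

end Fermat.Agent.BR3.InertiaLimit
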