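import Fermat.Agent.Val.ResidueFieldA
import Fermat.Agent.BR2.TameChar
import Fermat.Agent.BR2.TameDisc
import Fermat.Agent.BR2.TameRho
import Fermat.Agent.BR3.InertiaKill

/-!
# Program C (S36), piece (F3), `G_ℚ` layer: the tame structure of an inertia group at finite level

`B` a valuation ring of `ℚ̄` over the prime `q`, `Iq` its inertia group, `φ` a Frobenius element,
`D : TraceData G_ℚ Lam X I` whose span is fixed pointwise by the absolute Galois group of a finite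
extension `L₀ / ℚ` (`L` its normal closure).

`exists_tameStructure` : a `TameStructure D Iq q` (`BR3/InertiaKill.lean`) whose set `F` of
representatives of "wild inertia" has cardinality a power of `q`.

Here "wild inertia" is `Pw := ker θ`, `θ : Iq → kˣ` the tame character `g ↦ g π / π mod 𝔪` of a
uniformizer `π` of `L` (`BR2/TameChar`, `BR2/TameDisc`): the image of `θ` is a finite subgroup of
`kˣ`, hence cyclic (generator `θ τ`); `θ (φ g φ⁻¹) = θ g ^ q` gives the tame relation and the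
stability of `Pw` under `φ`; the image of `Pw` in `Gal(L/ℚ)` is a `q`-group
(`TameCore.apply_eq_of_tame_trivial`).
-/

set_option autoImplicit false
set_option linter.unusedSectionVars false
set_option linter.style.haveILetI false

namespace Fermat.Agent.BR3.TameStructGQ

open Fermat.Agent.Pseudo Fermat.Agent.BR3.InertiaKill Fermat.Agent.BR2.TameCore
  Fermat.Agent.BR2.TameChar IsLocalRing

/-- In a field of characteristic `q`, a unit with `x ^ q = 1` is `1`. -/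
theorem units_eq_one_of_pow_char {k : Type*} [Field k] (q : ℕ) [Fact q.Prime] [CharP k q]
    {x : kˣ} (h : x ^ q = 1) : x = 1 := by
  apply Units.ext
  have h1 : (x : k) ^ q = 1 := by rw [← Units.val_pow_eq_pow_val, h, Units.val_one]
  have h2 : ((x : k) - 1) ^ q = 0 := by rw [sub_pow_char, h1, one_pow, sub_self]
  rw [Units.val_one]
  exact sub_eq_zero.mp (pow_eq_zero_iff (Fact.out : q.Prime).ne_zero |>.mp h2)

section General

variable {K Ω : Type*} [Field K] [Field Ω] [Algebra K Ω] (A : ValuationSubring Ω)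
  [Algebra.IsAlgebraic K Ω]

/-- **The kernel of the tame character is a `q`-group at finite level**: an element `c` of the
inertia group with trivial tame character has a `q`-power acting trivially on `L`. -/
theorem exists_pow_apply_eq_of_tameChar_eq_one {q : ℕ} (hq : q.Prime) (hA : A.LiesOverPrime q)
    (L : IntermediateField K Ω) [Normal K L] [FiniteDimensional K L] {π : Ω}
    (hd : DiscreteOn A L.toSubfield π) {c : Ω ≃ₐ[K] Ω} (hcI : c ∈ A.inertiaSubgroupIn K)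
    (hθc : tameChar A π hd.2.1 ⟨c, hcI⟩ = 1) :
    ∃ a : ℕ, ∀ x ∈ L, (c ^ (q ^ a)) x = x := by
  classical
  have hπ0 : π ≠ 0 := hd.2.1
  have hstab : ∀ g : Ω ≃ₐ[K] Ω, ∀ x ∈ L, g x ∈ L := by
    intro g x hx
    have := AlgEquiv.restrictNormal_commutes g L ⟨x, hx⟩
    rw [show algebraMap L Ω ⟨x, hx⟩ = x from rfl] at this
    rw [← this]
    exact (g.restrictNormal L ⟨x, hx⟩).2
  have : Finite (L ≃ₐ[K] L) := inferInstance
  set N := Nat.card (L ≃ₐ[K] L) with hN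
  have hN0 : N ≠ 0 := Nat.card_pos.ne'
  have hcN : ∀ x ∈ L, (c ^ N) x = x := by
    intro x hx
    have h1 : (AlgEquiv.restrictNormalHom L c) ^ N = 1 := pow_card_eq_one'
    rw [← map_pow] at h1
    have h2 := AlgEquiv.restrictNormal_commutes (c ^ N) L ⟨x, hx⟩
    have h3 : (c ^ N).restrictNormal L = 1 := h1
    rw [h3] at h2
    exact h2.symm
  obtain ⟨a, m, hqm, hNam⟩ := Nat.exists_eq_pow_mul_and_not_dvd hN0 q hq.ne_one
  refine ⟨a, ?_⟩
  set c₁ : Ω ≃ₐ[K] Ω := c ^ (q ^ a) with hc₁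
  have hc₁I : c₁ ∈ A.inertiaSubgroupIn K := pow_mem hcI _
  have hθc₁ : tameChar A π hπ0 ⟨c₁, hc₁I⟩ = 1 := by
    have e : (⟨c₁, hc₁I⟩ : ↥(A.inertiaSubgroupIn K)) = ⟨c, hcI⟩ ^ (q ^ a) := rfl
    rw [e, map_pow, hθc, one_pow]
  have hc₁D := ((mem_inertia_iff A c₁).mp hc₁I)
  have hvm : A.valuation (m : Ω) = 1 := by
    have h := Fermat.Agent.S05.valuation_intCast_eq_one_of_not_dvd A hq hA (n := (m : ℤ))
      (by exact_mod_cast hqm)
    simpa using h
  have hc₁m : ∀ x ∈ L, (c₁ : Ω →+* Ω)^[m] x = x := by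
    intro x hx
    have h1 : (c₁ ^ m) x = x := by
      rw [hc₁, ← pow_mul, ← hNam]
      exact hcN x hx
    have h2 : ((c₁ : Ω →+* Ω) : Ω → Ω)^[m] = ⇑(c₁ ^ m) := by
      rw [AlgEquiv.coe_pow]
      rfl
    rw [h2]
    exact h1
  intro x hx
  exact apply_eq_of_tame_trivial hd (c₁ : Ω →+* Ω) (fun y hy => hstab c₁ y hy)
    (fun y => val_apply hc₁D.1 y)
    (fun y _ hy1 => hc₁D.2 y ((A.valuation_le_one_iff y).mp hy1))
    ((tameChar_eq_one_iff A π hπ0 ⟨c₁, hc₁I⟩).mp hθc₁) hvm hc₁m x hx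

end General

section MainGeneral

variable {K Ω : Type*} [Field K] [Field Ω] [Algebra K Ω] [Algebra.IsAlgebraic K Ω]
variable {Lam X I : Type*} [AddCommGroup Lam] [AddCommGroup X] [DistribMulAction (Ω ≃ₐ[K] Ω) X]

/-- **The tame structure of the inertia group at `q` on a finite level.** -/
theorem exists_tameStructure_of_discreteOn (D : TraceData (Ω ≃ₐ[K] Ω) Lam X I)
    (B : ValuationSubring Ω) {q : ℕ}
    (hq : q.Prime) (hB : B.LiesOverPrime q) [CharP (ResidueField B) q]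
    {φ : Ω ≃ₐ[K] Ω} (hφ : B.IsFrobeniusAt φ q)
    (L : IntermediateField K Ω) [Normal K L] [FiniteDimensional K L] {π : Ω}
    (hd : DiscreteOn B L.toSubfield π)
    (hfix : ∀ g : Ω ≃ₐ[K] Ω, (∀ a ∈ L, g a = a) → ∀ x ∈ D.span, g • x = x) :
    ∃ S : TameStructure D (B.inertiaSubgroupIn K) q, ∃ r : ℕ, S.F.card = q ^ r := by
  classical
  haveI : Fact q.Prime := ⟨hq⟩
  have hπ0 : π ≠ 0 := hd.2.1
  have hπL : π ∈ L := hd.1
  have hφD : φ ∈ B.decompositionSubgroup K := hφ.mem_decompositionSubgroup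
  set θ : ↥(B.inertiaSubgroupIn K) →* (ResidueField B)ˣ := tameChar B π hπ0 with hθ
  -- `θ` only depends on the value at `π`
  have hθ_congr : ∀ g h : ↥(B.inertiaSubgroupIn K), (g : (Ω ≃ₐ[K] Ω)) π = (h : (Ω ≃ₐ[K] Ω)) π → θ g = θ h := by
    intro g h e
    apply Units.ext
    rw [hθ, coe_tameChar, coe_tameChar]
    congr 1
    apply Subtype.ext
    show (g : (Ω ≃ₐ[K] Ω)) π / π = (h : (Ω ≃ₐ[K] Ω)) π / π
    rw [e]
  -- restriction to `L`
  let r : (Ω ≃ₐ[K] Ω) →* (L ≃ₐ[K] L) := AlgEquiv.restrictNormalHom L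
  have hr_apply : ∀ (g : (Ω ≃ₐ[K] Ω)) (a : Ω) (ha : a ∈ L), ((r g ⟨a, ha⟩ : L) : Ω) = g a := by
    intro g a ha
    exact AlgEquiv.restrictNormal_commutes g L ⟨a, ha⟩
  have hr : ∀ g h : (Ω ≃ₐ[K] Ω), r g = r h → ∀ a ∈ L, g a = h a := by
    intro g h e a ha
    rw [← hr_apply g a ha, ← hr_apply h a ha, e]
  have hr_one : ∀ g : (Ω ≃ₐ[K] Ω), (∀ a ∈ L, g a = a) → r g = 1 := by
    intro g hg
    ext ⟨a, ha⟩
    rw [hr_apply g a ha, hg a ha]
    rfl
  -- the action on the span factors through `L`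
  have hfac : ∀ g h : (Ω ≃ₐ[K] Ω), r g = r h → ∀ x ∈ D.span, g • x = h • x := by
    intro g h e x hx
    have h1 : ∀ a ∈ L, (h⁻¹ * g) a = a := by
      intro a ha
      show h⁻¹ (g a) = a
      rw [hr g h e a ha]
      exact h.symm_apply_apply a
    have h2 := hfix (h⁻¹ * g) h1 x hx
    rw [mul_smul, inv_smul_eq_iff] at h2
    exact h2
  -- the image of `θ` is finite, hence cyclic
  have hfin : Finite ↥θ.range := by
    let f : ↥θ.range → (L ≃ₐ[K] L) := fun y => r ((Classical.choose y.2 :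
      ↥(B.inertiaSubgroupIn K)) : (Ω ≃ₐ[K] Ω))
    refine Finite.of_injective f ?_
    intro y y' hyy'
    have h1 := Classical.choose_spec y.2
    have h2 := Classical.choose_spec y'.2
    apply Subtype.ext
    rw [← h1, ← h2]
    exact hθ_congr _ _ (hr _ _ hyy' π hπL)
  haveI : IsCyclic ↥θ.range := inferInstance
  obtain ⟨⟨y₀, hy₀⟩, hgen⟩ := IsCyclic.exists_generator (α := ↥θ.range)
  obtain ⟨τ₀, hτ₀⟩ := hy₀
  have hpowers : ∀ s : ↥(B.inertiaSubgroupIn K), ∃ k : ℕ, θ τ₀ ^ k = θ s := by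
    intro s
    have h1 := hgen ⟨θ s, ⟨s, rfl⟩⟩
    rw [← mem_powers_iff_mem_zpowers] at h1
    obtain ⟨k, hk⟩ := h1
    refine ⟨k, ?_⟩
    have h2 := congrArg (fun z : ↥θ.range => (z : (ResidueField B)ˣ)) hk
    simp only [SubmonoidClass.coe_pow] at h2
    rw [hτ₀]
    exact h2
  -- the kernel of `θ` as a subgroup of `G_K`
  let Pw : Subgroup (Ω ≃ₐ[K] Ω) := θ.ker.map (B.inertiaSubgroupIn K).subtype
  have hPw : ∀ g : (Ω ≃ₐ[K] Ω), g ∈ Pw ↔ ∃ hg : g ∈ B.inertiaSubgroupIn K, θ ⟨g, hg⟩ = 1 := by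
    intro g
    constructor
    · rintro ⟨x, hx, rfl⟩
      exact ⟨x.2, MonoidHom.mem_ker.mp hx⟩
    · rintro ⟨hg, h⟩
      exact ⟨⟨g, hg⟩, MonoidHom.mem_ker.mpr h, rfl⟩
  -- the image of `Pw` in `Gal(L/K)` and its representatives
  let H : Subgroup (L ≃ₐ[K] L) := Pw.map r
  haveI : Finite ↥H := inferInstance
  letI : Fintype ↥H := Fintype.ofFinite ↥H
  let rep : ↥H → (Ω ≃ₐ[K] Ω) := fun h => Classical.choose h.2
  have hrep_mem : ∀ h : ↥H, rep h ∈ Pw := fun h => (Classical.choose_spec h.2).1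
  have hrep : ∀ h : ↥H, r (rep h) = h := fun h => (Classical.choose_spec h.2).2
  have hrep_inj : Function.Injective rep := by
    intro h h' e
    apply Subtype.ext
    rw [← hrep h, ← hrep h', e]
  -- `H` is a `q`-group
  have hpg : IsPGroup q ↥H := by
    intro h
    obtain ⟨w, hw, hwh⟩ := h.2
    obtain ⟨hwI, hθw⟩ := (hPw w).mp hw
    obtain ⟨a, ha⟩ := exists_pow_apply_eq_of_tameChar_eq_one B hq hB L hd hwI hθw
    refine ⟨a, ?_⟩
    apply Subtype.ext
    rw [SubmonoidClass.coe_pow, ← hwh, ← map_pow]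
    exact hr_one _ ha
  obtain ⟨n, hn⟩ := (IsPGroup.iff_card (p := q) (G := ↥H)).mp hpg
  let τ : (Ω ≃ₐ[K] Ω) := (τ₀ : (Ω ≃ₐ[K] Ω))
  have hτI : τ ∈ B.inertiaSubgroupIn K := τ₀.2
  refine ⟨{ Pw := Pw
            Pw_le := ?_
            τ := τ
            τ_mem := hτI
            φ := φ
            conj_Iq := ?_
            conj_φ := ?_
            conj_φ' := ?_
            gen := ?_
            rel := ?_
            F := Finset.univ.image rep
            F_mem := ?_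
            F_inv := ?_
            F_avg := ?_ }, n, ?_⟩
  · -- Pw_le
    intro g hg
    exact ((hPw g).mp hg).1
  · -- conj_Iq
    intro s hs w hw
    obtain ⟨hwI, hθw⟩ := (hPw w).mp hw
    refine (hPw _).mpr ⟨mul_mem (mul_mem (inv_mem hs) hwI) hs, ?_⟩
    have e : (⟨s⁻¹ * w * s, mul_mem (mul_mem (inv_mem hs) hwI) hs⟩ :
        ↥(B.inertiaSubgroupIn K)) = (⟨s, hs⟩)⁻¹ * ⟨w, hwI⟩ * ⟨s, hs⟩ := rfl
    rw [e, map_mul, map_mul, map_inv, hθw, mul_one, inv_mul_cancel]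
  · -- conj_φ
    intro w hw
    obtain ⟨hwI, hθw⟩ := (hPw w).mp hw
    have huI : φ⁻¹ * w * φ ∈ B.inertiaSubgroupIn K := by
      have := conj_mem_inertia (σ := φ⁻¹) (inv_mem hφD) hwI
      rwa [inv_inv] at this
    refine (hPw _).mpr ⟨huI, ?_⟩
    have h1 := tameChar_conj_frob B π hπ0 hφ ⟨φ⁻¹ * w * φ, huI⟩
    have e : (⟨φ * (φ⁻¹ * w * φ) * φ⁻¹, conj_mem_inertia hφ.mem_decompositionSubgroup huI⟩ :
        ↥(B.inertiaSubgroupIn K)) = ⟨w, hwI⟩ := Subtype.ext (by group)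
    rw [e] at h1
    have h2 : θ ⟨φ⁻¹ * w * φ, huI⟩ ^ q = 1 := by rw [← hθw]; exact h1.symm
    exact units_eq_one_of_pow_char q h2
  · -- conj_φ'
    intro w hw
    obtain ⟨hwI, hθw⟩ := (hPw w).mp hw
    refine (hPw _).mpr ⟨conj_mem_inertia hφD hwI, ?_⟩
    have h1 := tameChar_conj_frob B π hπ0 hφ ⟨w, hwI⟩
    rw [hθ]
    rw [h1]
    show θ ⟨w, hwI⟩ ^ q = 1
    rw [hθw, one_pow]
  · -- gen
    intro s hs
    obtain ⟨k, hk⟩ := hpowers ⟨s, hs⟩
    have hwI : (τ ^ k)⁻¹ * s ∈ B.inertiaSubgroupIn K := mul_mem (inv_mem (pow_mem hτI k)) hs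
    refine ⟨k, (τ ^ k)⁻¹ * s, (hPw _).mpr ⟨hwI, ?_⟩, fun x _ => ?_⟩
    · have e : (⟨(τ ^ k)⁻¹ * s, hwI⟩ : ↥(B.inertiaSubgroupIn K)) = (τ₀ ^ k)⁻¹ * ⟨s, hs⟩ := rfl
      rw [e, map_mul, map_inv, map_pow, hk, inv_mul_cancel]
    · rw [← mul_smul, mul_inv_cancel_left]
  · -- rel
    have hcI : φ * τ * φ⁻¹ ∈ B.inertiaSubgroupIn K := conj_mem_inertia hφD hτI
    have hwI : (τ ^ q)⁻¹ * (φ * τ * φ⁻¹) ∈ B.inertiaSubgroupIn K :=
      mul_mem (inv_mem (pow_mem hτI q)) hcI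
    refine ⟨(τ ^ q)⁻¹ * (φ * τ * φ⁻¹), (hPw _).mpr ⟨hwI, ?_⟩, fun x _ => ?_⟩
    · have e : (⟨(τ ^ q)⁻¹ * (φ * τ * φ⁻¹), hwI⟩ : ↥(B.inertiaSubgroupIn K)) =
          (τ₀ ^ q)⁻¹ * ⟨φ * τ * φ⁻¹, hcI⟩ := rfl
      have h1 := tameChar_conj_frob B π hπ0 hφ τ₀
      rw [e, map_mul, map_inv, map_pow]
      show (θ τ₀ ^ q)⁻¹ * tameChar B π hπ0 ⟨φ * (τ₀ : (Ω ≃ₐ[K] Ω)) * φ⁻¹, _⟩ = 1
      rw [h1, inv_mul_cancel]
    · rw [← mul_smul, ← mul_smul, ← mul_smul]
      congr 1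
      group
  · -- F_mem
    intro w hw
    obtain ⟨h, -, rfl⟩ := Finset.mem_image.mp hw
    exact hrep_mem h
  · -- F_inv
    intro x hx
    rw [Finset.sum_image (fun a _ b _ e => hrep_inj e),
      Finset.sum_image (fun a _ b _ e => hrep_inj e)]
    have h1 : ∀ h : ↥H, (rep h)⁻¹ • x = rep h⁻¹ • x := by
      intro h
      refine hfac _ _ ?_ x hx
      rw [map_inv, hrep, hrep]
      rfl
    rw [Finset.sum_congr rfl fun h _ => h1 h]
    exact Equiv.sum_comp (Equiv.inv ↥H) fun h => rep h • x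
  · -- F_avg
    intro x hx u hu
    rw [Finset.sum_image (fun a _ b _ e => hrep_inj e), Finset.smul_sum]
    let uH : ↥H := ⟨r u, Subgroup.mem_map_of_mem r hu⟩
    have h1 : ∀ h : ↥H, u • rep h • x = rep (uH * h) • x := by
      intro h
      rw [← mul_smul]
      refine hfac _ _ ?_ x hx
      rw [map_mul, hrep, hrep]
      rfl
    rw [Finset.sum_congr rfl fun h _ => h1 h]
    exact Equiv.sum_comp (Equiv.mulLeft uH) fun h => rep h • x
  · -- the cardinality
    rw [Finset.card_image_of_injective _ hrep_inj, Finset.card_univ, ← Nat.card_eq_fintype_card, hn]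

end MainGeneral


local notation "Qb" => AlgebraicClosure ℚ
local notation "GQ" => (AlgebraicClosure ℚ ≃ₐ[ℚ] AlgebraicClosure ℚ)

section Main

variable {Lam X I : Type*} [AddCommGroup Lam] [AddCommGroup X] [DistribMulAction GQ X]

/-- **The tame structure of the inertia group at `q` on a finite level**, over `ℚ`. -/
theorem exists_tameStructure (D : TraceData GQ Lam X I) (B : ValuationSubring Qb) {q : ℕ}
    (hq : q.Prime) (hB : B.LiesOverPrime q) {φ : GQ} (hφ : B.IsFrobeniusAt φ q)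
    (L₀ : IntermediateField ℚ Qb) (hL₀ : FiniteDimensional ℚ L₀)
    (hfix₀ : ∀ g : GQ, (∀ a ∈ L₀, g a = a) → ∀ x ∈ D.span, g • x = x) :
    ∃ S : TameStructure D (B.inertiaSubgroupIn ℚ) q, ∃ r : ℕ, S.F.card = q ^ r := by
  haveI := Fermat.Agent.BR2.TameRho.isAlgebraic_Qbar
  haveI := Fermat.Agent.BR2.TameRho.normal_Qbar
  haveI := hL₀
  haveI : Fact q.Prime := ⟨hq⟩
  haveI : CharP (ResidueField B) q := Fermat.Agent.Val.charP_residueField_of_liesOverPrime B hB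
  set L := IntermediateField.normalClosure ℚ L₀ Qb with hL
  have hL₀L : L₀ ≤ L := IntermediateField.le_normalClosure L₀
  obtain ⟨π, hd⟩ := Fermat.Agent.BR2.TameDisc.exists_discreteOn B hq hB L
  exact exists_tameStructure_of_discreteOn D B hq hB hφ L hd
    fun g hg => hfix₀ g fun a ha => hg a (hL₀L ha)

end Main

end Fermat.Agent.BR3.TameStructGQ
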