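import Fermat.Agent.BR2.LimitGQ
import Fermat.Agent.BR3.InertiaLimit
import Fermat.Agent.BR3.TameStructGQ

/-!
# Program C (S36), piece (F3), `G_ℚ` layer: the trace is not identically `2` on inertia

`exists_t_ne_two_GQ` : the `G_ℚ`-instance of `InertiaLimit.exists_t_ne_two`, in the language of
`BR2/LimitSpan.t_sq_eq_GQ_span`: `t` an adically continuous function on `G_ℚ` with
`t (Frob_ℓ) = ξ (T_ℓ)` (`ℓ ∉ S`), `B` a valuation ring of `ℚ̄` over a prime `q ≠ p` (`p ≠ 2`) with a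
Frobenius element `φ`, `P` an element of the Hecke algebra of `Lam` with `ξ (Ψ P) ≠ 0` and
counterpart `PX` on `X`.  If for every `m` the operator `e • PX` kills the inertia invariants of
the subgroup `W_m ≤ X` generated by the `G_ℚ`-translates of the image of the Kummer map
`rho (p ^ m)`, then `t s ≠ 2` for some `s` in the inertia group of `B`.

The tame structures at the finite levels come from `TameStructGQ.exists_tameStructure`.
-/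

set_option autoImplicit false
set_option linter.style.haveILetI false
set_option linter.unusedSectionVars false

open ModularCurve CuspForm

namespace Fermat.Agent.BR3.InertiaGQ

open Fermat.Agent.Pseudo Fermat.Agent.Pseudo.GQSys Fermat.Agent.BR2.LimitGQ
  Fermat.Agent.BR3.InertiaKill

local notation "Qb" => AlgebraicClosure ℚ
local notation "GQ" => (AlgebraicClosure ℚ ≃ₐ[ℚ] AlgebraicClosure ℚ)

section Main

variable {N p : ℕ} [NeZero N] [hp : Fact p.Prime] {S : Finset ℕ}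
variable {X : Type*} [AddCommGroup X] [Module HeckeAlg X] [DistribMulAction GQ X]
  [SMulCommClass GQ HeckeAlg X]
variable {Lam : Type*} [AddCommGroup Lam] [Module.Free ℤ Lam] [Module.Finite ℤ Lam]
  {TLam : Nat.Primes → Module.End ℤ Lam}
variable {R : Type*} [CommRing R] [IsDomain R] [CharZero R] (𝔞 : Ideal R) [IsAdicComplete 𝔞 R]

/-- **The trace is not identically `2` on the inertia group at `q`**, `G_ℚ`-language. -/
theorem exists_t_ne_two_GQ (hpS : p ∈ S) (hNS : ∀ q : ℕ, q.Prime → q ∣ N → q ∈ S)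
    (hFQ : FrobeniusQuadratic (K := ℚ) (L := Qb) N p X)
    (hcheb : Fermat.Agent.Cheb.ChebExact)
    (hstab : ∀ x : X, ∃ L : IntermediateField ℚ Qb, FiniteDimensional ℚ L ∧
      ∀ σ : GQ, (∀ a ∈ L, σ a = a) → σ • x = x)
    (rho : ℕ → Lam →+ X)
    (hker : ∀ M : ℕ, 0 < M → ∀ lam, rho M lam = 0 ↔ ∃ mu, lam = M • mu)
    (hTL : ∀ M : ℕ, 0 < M → ∀ (ℓ : Nat.Primes) (lam : Lam),
      rho M (TLam ℓ lam) = heckeGen ℓ • rho M lam)
    (A : Subalgebra ℤ (Module.End ℤ Lam)) (hA : ∀ i : Idx S, TLam i.1 ∈ A)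
    (Ψ : A →+* heckeAlgebra N 2 (↑S : Set ℕ))
    (hΨ : ∀ (ℓ : ℕ) (hℓ : ℓ.Prime) (hℓN : ¬ ℓ ∣ N) (hℓS : ℓ ∉ (↑S : Set ℕ)),
      Ψ ⟨TLam ⟨ℓ, hℓ⟩, hA ⟨⟨ℓ, hℓ⟩, hℓS⟩⟩ = heckeAlgebra.T hℓ hℓN hℓS)
    (hp𝔞 : (p : R) ∈ 𝔞) (ξ : heckeAlgebra N 2 (↑S : Set ℕ) →+* R)
    (t : GQ → R)
    (ht_cont : ∀ n : ℕ, ∃ L : IntermediateField ℚ Qb, FiniteDimensional ℚ L ∧
      ∀ g g' : GQ, (∀ x ∈ L, g x = g' x) → t g - t g' ∈ 𝔞 ^ n)
    (ht_frob : ∀ (ℓ : ℕ) (hℓ : ℓ.Prime) (hℓN : ¬ ℓ ∣ N) (hℓS : ℓ ∉ (↑S : Set ℕ))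
      (V : ValuationSubring Qb), V.LiesOverPrime ℓ → ∀ φ : GQ, V.IsFrobeniusAt φ ℓ →
        t φ = ξ (heckeAlgebra.T hℓ hℓN hℓS))
    (hp2 : p ≠ 2)
    {q : ℕ} (hq : q.Prime) (hqp : q ≠ p) (B : ValuationSubring Qb) (hB : B.LiesOverPrime q)
    {φ : GQ} (hφ : B.IsFrobeniusAt φ q)
    (P : A) (PX : Module.End ℤ X)
    (hPX : ∀ M : ℕ, 0 < M → Intertwined (rho M) (P : Module.End ℤ Lam) PX)
    (hPXG : ∀ (g : GQ) (x : X), PX (g • x) = g • PX x)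
    (hΦP : ξ (Ψ P) ≠ 0) (e : ℕ) (he : (e : R) ≠ 0)
    (hkill : ∀ (m : ℕ) (W : AddSubgroup X),
      W = AddSubgroup.closure {x | ∃ (a : GQ) (l : Lam), x = a • rho (p ^ m) l} →
      (∀ (g : GQ), ∀ x ∈ W, g • x ∈ W) →
      (∀ i : Idx S, ∀ x ∈ W, heckeGen i.1 • x ∈ W) → (∀ x ∈ W, PX x ∈ W) →
      (∀ x ∈ W, (p ^ m) • x = 0) →
      ∀ x ∈ W, (∀ s ∈ B.inertiaSubgroupIn ℚ, s • x = x) → e • PX x = 0) :
    ∃ s ∈ B.inertiaSubgroupIn ℚ, t s ≠ 2 := by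
  have hfg := GQLimit.fg_top_of_moduleFinite Lam
  let Y : TraceSystem GQ Lam X (Idx S) :=
    traceSystemOfRho N p S X TLam hpS hNS hFQ hcheb hstab rho hker hTL hfg
  have htf : ∀ (n : ℕ) (x : heckeAlgebra N 2 (↑S : Set ℕ)), n ≠ 0 → n • x = 0 → x = 0 :=
    fun n x hn hx => nsmul_right_injective hn (by simpa using hx)
  let D : TraceLimitInput Y R 𝔞 :=
    TraceLimitInput.ofHecke Y 𝔞 A hA Ψ ξ htf hp.out hp𝔞
      (fun g => ((Cyc.cycR 𝔞 hp𝔞 g : Rˣ) : R))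
      (fun m g => Cyc.cycR_sub_cycloLift_mem 𝔞 hp𝔞 m g)
  -- the limit trace of `D` is `t`
  have htD : ∀ σ : GQ, t σ = D.t σ := by
    intro σ
    refine trace_eq_of_frob 𝔞 hcheb t D.t ht_cont ?_ S ?_ σ
    · intro n
      obtain ⟨L, hL, h⟩ := exists_finite_of_mem_openSubgroups (Y.level_mem (n + D.c))
      exact ⟨L, hL, fun g g' hgg' => D.t_level n (h g g' hgg')⟩
    · intro ℓ hℓ hℓS V hV φ' hφ'
      have hℓS' : ℓ ∉ (↑S : Set ℕ) := fun h => hℓS (Finset.mem_coe.mp h)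
      have hℓN : ¬ ℓ ∣ N := fun h => hℓS (hNS ℓ hℓ h)
      have hF : Y.FrobAt φ' ⟨⟨ℓ, hℓ⟩, hℓS'⟩ := ⟨V, hV, hφ'⟩
      rw [ht_frob ℓ hℓ hℓN hℓS' V hV φ' hφ', D.t_frobAt hF]
      show _ = ξ (Ψ ⟨TLam ⟨ℓ, hℓ⟩, hA ⟨⟨ℓ, hℓ⟩, hℓS'⟩⟩)
      rw [hΨ ℓ hℓ hℓN hℓS']
  -- the tame structures
  have hS : ∀ m : ℕ, ∃ Sm : TameStructure (Y.data m) (B.inertiaSubgroupIn ℚ) q,
      ∃ r : ℕ, Sm.F.card = q ^ r := by
    intro m
    obtain ⟨L₀, hL₀, h⟩ := exists_finite_of_mem_openSubgroups (Y.level_mem m)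
    refine TameStructGQ.exists_tameStructure (Y.data m) B hq hB hφ L₀ hL₀ ?_
    intro g hg x hx
    have h1 : g⁻¹ * 1 ∈ Y.level m := h g 1 fun a ha => by
      rw [hg a ha]
      rfl
    rw [mul_one] at h1
    have h2 : g ∈ Y.level m := by
      have := (Y.level m).inv_mem h1
      rwa [inv_inv] at this
    exact Y.level_fix_span m h2 hx
  choose Sm hSm using hS
  have hcard : ∀ m, ((Sm m).F.card).Coprime Y.p := by
    intro m
    obtain ⟨r, hr⟩ := hSm m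
    rw [hr]
    exact Nat.Coprime.pow_left r ((Nat.coprime_primes hq hp.out).mpr hqp)
  have hd : ∀ m, ∀ s ∈ B.inertiaSubgroupIn ℚ, ((Y.p ^ m : ℕ) : ℤ) ∣ Y.d m s - 1 := by
    intro m s hs
    have hqpm : ¬ q ∣ p ^ m := fun h =>
      hqp ((Nat.prime_dvd_prime_iff_eq hq hp.out).mp (hq.dvd_of_dvd_pow h))
    exact Cyclo.cycloLift_of_cycloN_eq_one (p ^ m)
      (Cyclo.cycloN_eq_one_of_mem_inertia (p ^ m) hq hqpm B hB hs)
  have hq1 : ((q : R) ^ 2 - 1) ≠ 0 := by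
    have h1 : ((q ^ 2 - 1 : ℕ) : R) ≠ 0 := by
      rw [Nat.cast_ne_zero]
      have := hq.two_le
      have : 4 ≤ q ^ 2 := by nlinarith
      omega
    have h2 : ((q ^ 2 - 1 : ℕ) : R) = (q : R) ^ 2 - 1 := by
      rw [Nat.cast_sub (Nat.one_le_pow _ _ hq.pos), Nat.cast_pow, Nat.cast_one]
    rwa [h2] at h1
  have hΦP' : D.Φ P ≠ 0 := hΦP
  obtain ⟨s, hs, hts⟩ := InertiaLimit.exists_t_ne_two D hp2 hp.out hp𝔞 (B.inertiaSubgroupIn ℚ) q
    hq1 Sm hcard hd P PX (fun m => hPX (p ^ m) (pow_pos hp.out.pos m)) hPXG hΦP' e he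
    (fun m x hx hinv =>
      hkill m (Y.data m).span rfl (fun g x hx => (Y.data m).smul_mem g hx)
        (fun i x hx => (Y.data m).T_mem i hx)
        (fun x hx => InertiaLimit.PX_mem_span m (hPX (p ^ m) (pow_pos hp.out.pos m)) hPXG hx)
        (fun x hx => (Y.data m).M_smul_eq_zero hx) x hx hinv)
  exact ⟨s, hs, by rw [htD s]; exact hts⟩

end Main

end Fermat.Agent.BR3.InertiaGQ
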