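import Fermat.Agent.BR2.GeoPlug

/-!
# Program C (S36), node (C-PLUG): the deliverable `InertiaInputSpan` and its assembly

The twin of `BR2/S35Span.GeoInputSpan` / `BR2/GeoPlug.geoInputSpan_of_nodes` for S36.

* `InertiaInputSpan M lam S' χ' B` : the input of the limit step `BR3/InertiaLimit.exists_t_ne_two`
  in `G_ℚ`-language, for a valuation ring `B` of `ℚ̄` over a prime `q` with `q² ∥ M`: Kummer maps
  `rho K`, the Hecke comparison `Ψ`, a separator `P` with `χ' (Ψ P) ≠ 0` and counterpart `PX` on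
  `J₀(M)`, and `e ≠ 0` such that `e • PX x = 0` for every `x` in the `G_ℚ`-span `W_m` of the image
  of `rho (lam ^ m)` which is fixed by the inertia group of `B`;
* `NewInvBounded` : the geometric contract **(A')** in the form for the correspondences
  `EαN`, `EβN` at the auxiliary level;
* `newInvBounded_of_down` : the correspondence form from the form for the push-forwards
  (`down ∘ up = c`);
* `inertiaInputSpan_of_nodes` : **(C-PLUG)** `InertiaInputSpan` from (E7'-OUT) at the level `M`,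
  the level maps (M1-OUT) and (A') at the auxiliary level `N`.
-/

set_option autoImplicit false
set_option linter.style.haveILetI false
set_option linter.unusedSectionVars false

open ModularCurve CuspForm

namespace Fermat.Agent.BR3.InertiaInput

open Fermat.Agent.Pseudo Fermat.Agent.Pseudo.GQSys Fermat.Agent.Pseudo.JZ Fermat.Agent.Jac
  Fermat.Agent.BR2

local notation "Qb" => AlgebraicClosure ℚ
local notation "GQ" => (AlgebraicClosure ℚ ≃ₐ[ℚ] AlgebraicClosure ℚ)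

/-- **The deliverable of the geometric and Hecke nodes of Program C** at a valuation ring `B` of
`ℚ̄` (over a prime `q` with `q² ∥ M`), span form. -/
def InertiaInputSpan (M lam : ℕ) [NeZero M] (S' : Finset ℕ) {O' : Type} [CommRing O']
    (χ' : heckeAlgebra M 2 (↑S' : Set ℕ) →+* O') (B : ValuationSubring Qb) : Prop :=
  letI := heckeModuleBar M
  ∃ (rho : ℕ → Lam M →+ JZero M) (A : Subalgebra ℤ (Module.End ℤ (Lam M)))
    (hA : ∀ i : Idx S', TLam M i.1 ∈ A) (Ψ : A →+* heckeAlgebra M 2 (↑S' : Set ℕ))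
    (P : A) (PX : Module.End ℤ (JZero M)) (e : ℕ),
    (∀ K : ℕ, 0 < K → ∀ x, rho K x = 0 ↔ ∃ mu, x = K • mu) ∧
    (∀ K : ℕ, 0 < K → ∀ (ℓ : Nat.Primes) (x : Lam M),
      rho K (TLam M ℓ x) = heckeGen ℓ • rho K x) ∧
    (∀ (ℓ : ℕ) (hℓ : ℓ.Prime) (hℓM : ¬ ℓ ∣ M) (hℓS : ℓ ∉ (↑S' : Set ℕ)),
      Ψ ⟨TLam M ⟨ℓ, hℓ⟩, hA ⟨⟨ℓ, hℓ⟩, hℓS⟩⟩ = heckeAlgebra.T hℓ hℓM hℓS) ∧
    (∀ K : ℕ, 0 < K → Intertwined (rho K) (P : Module.End ℤ (Lam M)) PX) ∧
    (∀ (g : GQ) (x : JZero M), PX (g • x) = g • PX x) ∧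
    χ' (Ψ P) ≠ 0 ∧ e ≠ 0 ∧
    ∀ (m : ℕ) (W : AddSubgroup (JZero M)),
      W = AddSubgroup.closure {x | ∃ (a : GQ) (l : Lam M), x = a • rho (lam ^ m) l} →
      (∀ (g : GQ), ∀ x ∈ W, g • x ∈ W) →
      (∀ i : Idx S', ∀ x ∈ W, heckeGen i.1 • x ∈ W) → (∀ x ∈ W, PX x ∈ W) →
      (∀ x ∈ W, (lam ^ m) • x = 0) →
      ∀ x ∈ W, (∀ s ∈ B.inertiaSubgroupIn ℚ, s • x = x) → e • PX x = 0

/-- **(A')**, correspondence form, on an abstract `G_ℚ`-module `X` with two endomorphisms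
`Eα`, `Eβ`: the `lam`-primary torsion fixed by the inertia group of `B` and killed by `Eα`, `Eβ` has
bounded exponent. -/
def NewInvBounded (X : Type*) [AddCommGroup X] [DistribMulAction GQ X] (lam : ℕ)
    (B : ValuationSubring Qb) (Eα Eβ : X →+ X) : Prop :=
  ∃ e₀ : ℕ, e₀ ≠ 0 ∧ ∀ (m : ℕ) (y : X), (lam ^ m) • y = 0 →
    (∀ s ∈ B.inertiaSubgroupIn ℚ, s • y = y) → Eα y = 0 → Eβ y = 0 → e₀ • y = 0

/-- (A') for the correspondences `ua ∘ a`, `ub ∘ b` from (A') for the push-forwards `a`, `b`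
(`a ∘ ua = c = b ∘ ub`). -/
theorem newInvBounded_of_down {X X₀ : Type*} [AddCommGroup X] [DistribMulAction GQ X]
    [AddCommGroup X₀] (lam : ℕ) (B : ValuationSubring Qb)
    (a b : X →+ X₀) (ua ub : X₀ →+ X) (c : ℕ) (hc : c ≠ 0)
    (hua : ∀ z, a (ua z) = c • z) (hub : ∀ z, b (ub z) = c • z)
    (h : ∃ e₀ : ℕ, e₀ ≠ 0 ∧ ∀ (m : ℕ) (y : X), (lam ^ m) • y = 0 →
      (∀ s ∈ B.inertiaSubgroupIn ℚ, s • y = y) → a y = 0 → b y = 0 → e₀ • y = 0) :
    NewInvBounded X lam B (ua.comp a) (ub.comp b) := by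
  obtain ⟨e₀, he₀, h⟩ := h
  refine ⟨e₀ * c, Nat.mul_ne_zero he₀ hc, ?_⟩
  intro m y hy hI hα hβ
  have hα' : ua (a y) = 0 := hα
  have hβ' : ub (b y) = 0 := hβ
  have h1 : a (c • y) = 0 := by
    rw [map_nsmul, ← hua, hα', map_zero]
  have h2 : b (c • y) = 0 := by
    rw [map_nsmul, ← hub, hβ', map_zero]
  have h3 : (lam ^ m) • (c • y) = 0 := by
    rw [smul_comm, hy, smul_zero]
  have h4 : ∀ s ∈ B.inertiaSubgroupIn ℚ, s • (c • y) = c • y := fun s hs => by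
    rw [smul_comm, hI s hs]
  have h5 := h m (c • y) h3 h4 h1 h2
  rwa [← mul_nsmul, mul_comm] at h5

section Plug

variable {M N : ℕ} [NeZero M] [NeZero N] (lam : ℕ) (S' : Finset ℕ)
  {O' : Type} [CommRing O'] (χ' : heckeAlgebra M 2 (↑S' : Set ℕ) →+* O')
  (B : ValuationSubring Qb)

/-- **(C-PLUG)** -/
theorem inertiaInputSpan_of_nodes (hlam : lam ≠ 0)
    -- (E7'-OUT)
    (rho : ℕ → Lam M →+ JZero M) (A : Subalgebra ℤ (Module.End ℤ (Lam M)))
    (hA : ∀ i : Idx S', TLam M i.1 ∈ A) (Ψ : A →+* heckeAlgebra M 2 (↑S' : Set ℕ))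
    (P : A) (Q : HeckeAlg)
    (hker : ∀ K : ℕ, 0 < K → ∀ x, rho K x = 0 ↔ ∃ mu, x = K • mu)
    (hTL : letI := heckeModuleBar M
      ∀ K : ℕ, 0 < K → ∀ (ℓ : Nat.Primes) (x : Lam M), rho K (TLam M ℓ x) = heckeGen ℓ • rho K x)
    (hΨ : ∀ (ℓ : ℕ) (hℓ : ℓ.Prime) (hℓM : ¬ ℓ ∣ M) (hℓS : ℓ ∉ (↑S' : Set ℕ)),
      Ψ ⟨TLam M ⟨ℓ, hℓ⟩, hA ⟨⟨ℓ, hℓ⟩, hℓS⟩⟩ = heckeAlgebra.T hℓ hℓM hℓS)
    (hPQ : letI := heckeModuleBar M
      ∀ K : ℕ, 0 < K → Intertwined (rho K) (P : Module.End ℤ (Lam M)) (heckeEnd (JZero M) Q))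
    (hχ : χ' (Ψ P) ≠ 0)
    (EαM EβM : JZero M →+ JZero M)
    (hEαM : ∀ (g : GQ) x, EαM (g • x) = g • EαM x) (hEβM : ∀ (g : GQ) x, EβM (g • x) = g • EβM x)
    (hE7 : letI := heckeModuleBar M
      ∀ K : ℕ, 0 < K → ∀ x : Lam M, EαM (Q • rho K x) = 0 ∧ EβM (Q • rho K x) = 0)
    -- (M1-OUT)
    (pull : JZero M →+ JZero N) (push : JZero N →+ JZero M) (d : ℕ) (hd : d ≠ 0)
    (hpp : ∀ x, push (pull x) = d • x)
    (hpull_smul : ∀ (g : GQ) x, pull (g • x) = g • pull x)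
    (EαN EβN : JZero N →+ JZero N)
    (hsqα : ∀ x, EαN (pull x) = pull (EαM x)) (hsqβ : ∀ x, EβN (pull x) = pull (EβM x))
    -- (A') at level `N`
    (hA' : NewInvBounded (JZero N) lam B EαN EβN) :
    InertiaInputSpan M lam S' χ' B := by
  letI := heckeModuleBar M
  haveI := smulCommClass_GQ_heckeAlg M
  obtain ⟨e₀, he₀, hA'⟩ := hA'
  have hPXG : ∀ (g : GQ) (x : JZero M), heckeEnd (JZero M) Q (g • x) = g • heckeEnd (JZero M) Q x :=
    fun g x => by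
      rw [heckeEnd_apply, heckeEnd_apply]
      exact (smul_comm g Q x).symm
  refine ⟨rho, A, hA, Ψ, P, heckeEnd (JZero M) Q, d * e₀, hker, hTL, hΨ, hPQ, hPXG, hχ,
    Nat.mul_ne_zero hd he₀, ?_⟩
  intro m W hW _ _ _ hWkill x hx hxI
  have hlamm : 0 < lam ^ m := pow_pos (Nat.pos_of_ne_zero hlam) m
  -- `Q • W` is killed by the degeneracy correspondences
  have hαP : ∀ x ∈ W, EαM (Q • x) = 0 := by
    intro x hx
    rw [hW] at hx
    induction hx using AddSubgroup.closure_induction with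
    | mem y hy =>
      obtain ⟨a, l, rfl⟩ := hy
      rw [← smul_comm a Q, hEαM, (hE7 _ hlamm l).1]
      exact smul_zero (A := JZero M) a
    | zero => rw [smul_zero, map_zero]
    | add y z _ _ hy hz => rw [smul_add, map_add, hy, hz, add_zero]
    | neg y _ hy => rw [smul_neg, map_neg, hy, neg_zero]
  have hβP : ∀ x ∈ W, EβM (Q • x) = 0 := by
    intro x hx
    rw [hW] at hx
    induction hx using AddSubgroup.closure_induction with
    | mem y hy =>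
      obtain ⟨a, l, rfl⟩ := hy
      rw [← smul_comm a Q, hEβM, (hE7 _ hlamm l).2]
      exact smul_zero (A := JZero M) a
    | zero => rw [smul_zero, map_zero]
    | add y z _ _ hy hz => rw [smul_add, map_add, hy, hz, add_zero]
    | neg y _ hy => rw [smul_neg, map_neg, hy, neg_zero]
  -- apply (A') to `y := pull (Q • x)`
  have h1 : (lam ^ m) • pull (Q • x) = 0 := by
    rw [← map_nsmul, ← smul_comm Q (lam ^ m) x, hWkill x hx, smul_zero, map_zero]
  have h2 : ∀ s ∈ B.inertiaSubgroupIn ℚ, s • pull (Q • x) = pull (Q • x) := fun s hs => by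
    rw [← hpull_smul, smul_comm s Q x, hxI s hs]
  have h3 : EαN (pull (Q • x)) = 0 := by rw [hsqα, hαP x hx, map_zero]
  have h4 : EβN (pull (Q • x)) = 0 := by rw [hsqβ, hβP x hx, map_zero]
  have h5 := hA' m (pull (Q • x)) h1 h2 h3 h4
  have h6 : push (e₀ • pull (Q • x)) = 0 := by rw [h5, map_zero]
  rw [map_nsmul, hpp, ← mul_nsmul] at h6
  rw [heckeEnd_apply]
  exact h6

end Plug

end Fermat.Agent.BR3.InertiaInput
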