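import Mathlib

/-!
# Program C (S36), node (C-ALG): the kill form

For a polynomial `K ∈ ℤ[X]`, `symNorm K ∈ ℤ[X]` is the norm of `K(z)` from
`ℤ[Y][z]/(z² − Y z + 1)` down to `ℤ[Y]`: if `s`, `s'` are mutually inverse elements of a ring
(not necessarily commutative) then

`K(s) · K(s') = (symNorm K)(s + s')`    (`aeval_mul_aeval_inv`)

and `(symNorm K)(2) = K(1)²` (`symNorm_eval_two`).

`killPoly q = N1 q * N2 q ^ 3` with `N1 q = Σ_{j < q+1} X^j`, `N2 q = Σ_{j < q−1} X^j` is the kill
form of the blueprint; `(symNorm (killPoly q))(2) = ((q+1)(q−1)³)² ≠ 0` for `q ≥ 2`.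

Application lemmas: `smul_aeval_symNorm_eq_zero` (`e • K(σ) x = 0 ⇒ e • R(σ + σ⁻¹) x = 0` on an
additive group) and `ne_two_of_aeval_symNorm_eq_zero` (`R(t) = 0` in a domain of characteristic
zero `⇒ t ≠ 2`).
-/

set_option autoImplicit false

noncomputable section

namespace Fermat.Agent.BR3.KillForm

open Polynomial

/-- the modulus `Z² − Y Z + 1 ∈ ℤ[Y][Z]` -/
def modulus : (ℤ[X])[X] := X ^ 2 - C X * X + 1

theorem modulus_eq : modulus = X ^ 2 + (C (-X) * X + C 1) := by
  unfold modulus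
  rw [C_neg, C_1]
  ring

theorem modulus_monic : modulus.Monic := by
  rw [modulus_eq]
  refine monic_X_pow_add ?_
  refine lt_of_le_of_lt (degree_linear_le (a := (-X : ℤ[X])) (b := 1)) ?_
  norm_num

/-- the remainder of `K` modulo `Z² − Y Z + 1` -/
def rem (K : ℤ[X]) : (ℤ[X])[X] := (K.map (C : ℤ →+* ℤ[X])) %ₘ modulus

theorem degree_rem_le (K : ℤ[X]) : (rem K).degree ≤ 1 := by
  have h : (rem K).degree < modulus.degree :=
    degree_modByMonic_lt (K.map (C : ℤ →+* ℤ[X])) modulus_monic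
  have h2 : modulus.degree = ((2 : ℕ) : WithBot ℕ) := by
    rw [modulus_eq, add_comm, degree_add_eq_right_of_degree_lt, degree_X_pow]
    rw [degree_X_pow]
    refine lt_of_le_of_lt (degree_linear_le (a := (-X : ℤ[X])) (b := 1)) ?_
    norm_num
  rw [h2] at h
  have hc := (degree_lt_iff_coeff_zero (rem K) 2).mp h
  refine (degree_le_iff_coeff_zero (rem K) 1).mpr fun m hm => hc m ?_
  have : 1 < m := by exact_mod_cast hm
  exact this

theorem rem_eq (K : ℤ[X]) : rem K = C ((rem K).coeff 1) * X + C ((rem K).coeff 0) :=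
  eq_X_add_C_of_degree_le_one (degree_rem_le K)

/-- **the symmetric norm**: the norm of `K(z)` from `ℤ[Y][z]/(z² − Yz + 1)` to `ℤ[Y]`. -/
def symNorm (K : ℤ[X]) : ℤ[X] :=
  (rem K).coeff 0 ^ 2 + (rem K).coeff 0 * (rem K).coeff 1 * X + (rem K).coeff 1 ^ 2

section Ring

variable {E : Type*} [Ring E]

theorem commute_aeval_of_commute {y s : E} (h : Commute y s) (a : ℤ[X]) :
    Commute (aeval y a) s := by
  induction a using Polynomial.induction_on with
  | C n =>
    rw [aeval_C]
    exact (Int.cast_commute n s)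
  | add p r hp hr =>
    rw [map_add]
    exact hp.add_left hr
  | monomial n a ih =>
    rw [pow_succ, ← mul_assoc, map_mul, aeval_X]
    exact ih.mul_left h

/-- the value of `K` at a root `s` of the modulus, in terms of the remainder -/
theorem aeval_eq_of_root {y s : E} (h : Commute y s) (hroot : s * s - y * s + 1 = 0) (K : ℤ[X]) :
    aeval s K = aeval y ((rem K).coeff 0) + aeval y ((rem K).coeff 1) * s := by
  have hf : ∀ a, Commute ((aeval y : ℤ[X] →ₐ[ℤ] E).toRingHom a) s :=
    fun a => commute_aeval_of_commute h a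
  have hψC : ∀ a : ℤ[X], eval₂RingHom' (aeval y : ℤ[X] →ₐ[ℤ] E).toRingHom s hf (C a) =
      aeval y a := fun a => eval₂_C _ _
  have hψX : eval₂RingHom' (aeval y : ℤ[X] →ₐ[ℤ] E).toRingHom s hf X = s := eval₂_X _ _
  have h1 : eval₂RingHom' (aeval y : ℤ[X] →ₐ[ℤ] E).toRingHom s hf (K.map (C : ℤ →+* ℤ[X])) =
      aeval s K := by
    show eval₂ _ s (K.map (C : ℤ →+* ℤ[X])) = aeval s K
    rw [eval₂_map, aeval_def]
    congr 1
    exact RingHom.ext_int _ _
  have h2 : eval₂RingHom' (aeval y : ℤ[X] →ₐ[ℤ] E).toRingHom s hf modulus = 0 := by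
    unfold modulus
    rw [map_add, map_sub, map_pow, map_mul, map_one, hψC, hψX, aeval_X, pow_two]
    exact hroot
  have h3 : eval₂RingHom' (aeval y : ℤ[X] →ₐ[ℤ] E).toRingHom s hf (rem K) =
      aeval y ((rem K).coeff 0) + aeval y ((rem K).coeff 1) * s := by
    conv_lhs => rw [rem_eq K]
    rw [map_add, map_mul, hψC, hψC, hψX, add_comm]
  have h4 : rem K + modulus * (K.map (C : ℤ →+* ℤ[X]) /ₘ modulus) = K.map (C : ℤ →+* ℤ[X]) := by
    unfold rem
    exact modByMonic_add_div (K.map (C : ℤ →+* ℤ[X])) modulus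
  calc aeval s K
      = eval₂RingHom' (aeval y : ℤ[X] →ₐ[ℤ] E).toRingHom s hf (K.map (C : ℤ →+* ℤ[X])) := h1.symm
    _ = eval₂RingHom' (aeval y : ℤ[X] →ₐ[ℤ] E).toRingHom s hf
          (rem K + modulus * (K.map (C : ℤ →+* ℤ[X]) /ₘ modulus)) := by rw [h4]
    _ = aeval y ((rem K).coeff 0) + aeval y ((rem K).coeff 1) * s := by
        rw [map_add, map_mul, h2, zero_mul, add_zero, h3]

/-- **the kill-form identity**: `K(s) · K(s') = (symNorm K)(s + s')` for mutually inverse
elements `s`, `s'` of a ring. -/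
theorem aeval_mul_aeval_inv (s s' : E) (h : s * s' = 1) (h' : s' * s = 1) (K : ℤ[X]) :
    aeval s K * aeval s' K = aeval (s + s') (symNorm K) := by
  set y : E := s + s' with hy
  have hc : Commute y s := by
    show (s + s') * s = s * (s + s')
    rw [add_mul, mul_add, h, h']
  have hc' : Commute y s' := by
    show (s + s') * s' = s' * (s + s')
    rw [add_mul, mul_add, h, h', add_comm]
  have hr : s * s - y * s + 1 = 0 := by
    rw [hy, add_mul, h']
    abel
  have hr' : s' * s' - y * s' + 1 = 0 := by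
    rw [hy, add_mul, h]
    abel
  set u : E := aeval y ((rem K).coeff 0) with hu
  set v : E := aeval y ((rem K).coeff 1) with hv
  have huv : u * v = v * u := by
    rw [hu, hv, ← map_mul, ← map_mul, mul_comm]
  have hsu : s * u = u * s := (commute_aeval_of_commute hc _).symm.eq
  have hsv : s * v = v * s := (commute_aeval_of_commute hc _).symm.eq
  rw [aeval_eq_of_root hc hr K, aeval_eq_of_root hc' hr' K]
  unfold symNorm
  rw [map_add, map_add, map_pow, map_pow, map_mul, map_mul, aeval_X, ← hu, ← hv]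
  have e1 : (u + v * s) * (u + v * s') = u * u + u * v * s' + v * (s * u) + v * (s * v) * s' := by
    noncomm_ring
  rw [e1, hsu, hsv]
  have e2 : v * (v * s) * s' = v * v * (s * s') := by noncomm_ring
  have e3 : v * (u * s) = u * v * s := by rw [← mul_assoc, ← huv]
  rw [e2, h, e3, hy, pow_two, pow_two, mul_add, mul_one]
  abel

end Ring

/-- `(symNorm K)(2) = K(1)²` -/
theorem symNorm_eval_two (K : ℤ[X]) : (symNorm K).eval 2 = (K.eval 1) ^ 2 := by
  have h := aeval_mul_aeval_inv (1 : ℤ) 1 (one_mul 1) (one_mul 1) K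
  have e : aeval (1 : ℤ) K = K.eval 1 := by rw [aeval_def, eval₂_eq_eval_map, algebraMap_int_eq,
    Int.castRingHom_int, map_id]
  have e' : aeval ((1 : ℤ) + 1) (symNorm K) = (symNorm K).eval 2 := by
    rw [aeval_def, eval₂_eq_eval_map, algebraMap_int_eq, Int.castRingHom_int, map_id]
    norm_num
  rw [e, e'] at h
  rw [← h, pow_two]

/-! ### the kill form of the blueprint -/

/-- `N1 q = Σ_{j < q+1} X^j` -/
def N1 (q : ℕ) : ℤ[X] := ∑ j ∈ Finset.range (q + 1), X ^ j

/-- `N2 q = Σ_{j < q−1} X^j` -/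
def N2 (q : ℕ) : ℤ[X] := ∑ j ∈ Finset.range (q - 1), X ^ j

/-- the kill form `K = N1 · N2³` -/
def killPoly (q : ℕ) : ℤ[X] := N1 q * N2 q ^ 3

theorem eval_one_geomSum (n : ℕ) : (∑ j ∈ Finset.range n, (X : ℤ[X]) ^ j).eval 1 = n := by
  rw [eval_finsetSum]
  simp

theorem N1_eval_one (q : ℕ) : (N1 q).eval 1 = (q : ℤ) + 1 := by
  unfold N1
  rw [eval_one_geomSum]
  push_cast
  rfl

theorem N2_eval_one (q : ℕ) : (N2 q).eval 1 = ((q - 1 : ℕ) : ℤ) := by
  unfold N2
  rw [eval_one_geomSum]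

theorem killPoly_eval_one (q : ℕ) :
    (killPoly q).eval 1 = ((q : ℤ) + 1) * ((q - 1 : ℕ) : ℤ) ^ 3 := by
  unfold killPoly
  rw [eval_mul, eval_pow, N1_eval_one, N2_eval_one]

theorem symNorm_killPoly_eval_two (q : ℕ) :
    (symNorm (killPoly q)).eval 2 = (((q : ℤ) + 1) * ((q - 1 : ℕ) : ℤ) ^ 3) ^ 2 := by
  rw [symNorm_eval_two, killPoly_eval_one]

theorem symNorm_killPoly_eval_two_ne_zero {q : ℕ} (hq : 2 ≤ q) :
    (symNorm (killPoly q)).eval 2 ≠ 0 := by
  rw [symNorm_killPoly_eval_two]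
  have h1 : ((q : ℤ) + 1) ≠ 0 := by positivity
  have h2 : ((q - 1 : ℕ) : ℤ) ≠ 0 := by
    have : q - 1 ≠ 0 := by omega
    exact_mod_cast this
  exact pow_ne_zero _ (mul_ne_zero h1 (pow_ne_zero _ h2))

/-! ### application lemmas -/

/-- On an additive group with an automorphism `s` and an endomorphism `y = s + s⁻¹`:
`e • K(s) x = 0 ⇒ e • (symNorm K)(y) x = 0`. -/
theorem smul_aeval_symNorm_eq_zero {A : Type*} [AddCommGroup A] (s : A ≃+ A)
    (y : AddMonoid.End A) (hy : ∀ x, s x + s.symm x = y x) (K : ℤ[X]) (e : ℕ) (x : A)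
    (hx : e • (aeval (R := ℤ) (A := AddMonoid.End A) s.toAddMonoidHom K) x = 0) :
    e • (aeval (R := ℤ) (A := AddMonoid.End A) y (symNorm K)) x = 0 := by
  set S : AddMonoid.End A := s.toAddMonoidHom with hS
  set S' : AddMonoid.End A := s.symm.toAddMonoidHom with hS'
  have h : S * S' = 1 := by
    ext a
    show s (s.symm a) = a
    exact s.apply_symm_apply a
  have h' : S' * S = 1 := by
    ext a
    show s.symm (s a) = a
    exact s.symm_apply_apply a
  have hyS : y = S' + S := by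
    ext a
    show y a = s.symm a + s a
    rw [← hy a, add_comm]
  have key := aeval_mul_aeval_inv S' S h' h K
  rw [hyS, ← key]
  show e • (aeval S' K) ((aeval S K) x) = 0
  rw [← map_nsmul, hx, map_zero]

/-- `R(t) = 0` for `R = symNorm (killPoly q)` in a ring of characteristic zero forces `t ≠ 2`. -/
theorem ne_two_of_aeval_symNorm_eq_zero {O : Type*} [CommRing O] [CharZero O] {q : ℕ}
    (hq : 2 ≤ q) (t : O) (ht : aeval t (symNorm (killPoly q)) = 0) : t ≠ 2 := by
  intro h2
  rw [h2] at ht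
  have e : aeval (2 : O) (symNorm (killPoly q)) =
      (((symNorm (killPoly q)).eval 2 : ℤ) : O) := by
    rw [aeval_def, eval₂_eq_eval_map, algebraMap_int_eq]
    have : (2 : O) = Int.castRingHom O 2 := by simp
    rw [this, eval_map_apply]
    simp
  rw [e] at ht
  exact symNorm_killPoly_eval_two_ne_zero hq (by exact_mod_cast ht)

end Fermat.Agent.BR3.KillForm
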