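import Mathlib

/-!
# Program C (S36), cheap piece (a): Kolchin in dimension two

A group of `2 × 2` matrices over a domain all of whose elements have characteristic polynomial
`(X - 1) ^ 2` has a common nonzero fixed vector.

* `mul_eq_zero_of_rel` : the algebraic core.  For trace-zero, determinant-zero matrices
  `T = !![p, r; s, -p]`, `N = !![x, y; z, -x]` with `tr (T N) = 0` one has `T N = 0`.
* `exists_fixed_vec` : matrix form, for a monoid homomorphism `M : G →* Matrix (Fin 2) (Fin 2) A`
  and a subgroup `H` of `G`.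
* `exists_fixed_of_charpoly` : linear form, for `ρ : G →* Module.End A V`, `V` free of rank two.
* `exists_fixed_unit_coord` / `exists_fixed_primitive` : over a local principal ideal domain the
  fixed vector may be chosen primitive (one coordinate a unit / not in `𝔪 • ⊤`).
-/

set_option autoImplicit false
set_option linter.unusedSectionVars false

namespace Fermat.Agent.BR3.Kolchin2

open Matrix Polynomial

variable {A : Type*} [CommRing A] [IsDomain A]

/-- **Algebraic core.** -/
theorem mul_eq_zero_of_rel (x y z p r s : A) (hN : x ^ 2 + y * z = 0) (hT : p ^ 2 + r * s = 0)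
    (hTN : 2 * p * x + r * z + s * y = 0) :
    p * x + r * z = 0 ∧ p * y - r * x = 0 ∧ s * x - p * z = 0 ∧ s * y + p * x = 0 := by
  have hvu' : (p * y - r * x) * (s * x - p * z) = 0 := by
    linear_combination (r * s) * hN - (2 * x ^ 2 + y * z) * hT + (p * x) * hTN
  have hu2 : (p * x + r * z) ^ 2 = 0 := by
    linear_combination (p * x + r * z) * hTN - hvu' - (p ^ 2 + r * s) * hN
  have hu : p * x + r * z = 0 := by
    exact pow_eq_zero_iff (two_ne_zero) |>.mp hu2
  have hw : s * y + p * x = 0 := by linear_combination hTN - hu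
  have hxv : x * (p * y - r * x) = 0 := by linear_combination y * hu - r * hN
  have hzv : z * (p * y - r * x) = 0 := by linear_combination (-x) * hu + p * hN
  have hyu' : y * (s * x - p * z) = 0 := by linear_combination x * hw - p * hN
  have hxu' : x * (s * x - p * z) = 0 := by linear_combination (-z) * hw + s * hN
  have hv : p * y - r * x = 0 := by
    by_contra hv
    have hx : x = 0 := (mul_eq_zero.mp hxv).resolve_right hv
    have hz : z = 0 := (mul_eq_zero.mp hzv).resolve_right hv
    subst hx hz
    have hpy : p * y ≠ 0 := by simpa using hv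
    have hy : y ≠ 0 := right_ne_zero_of_mul hpy
    have hp : p ≠ 0 := left_ne_zero_of_mul hpy
    have hsy : s * y = 0 := by linear_combination hTN
    have hs : s = 0 := (mul_eq_zero.mp hsy).resolve_right hy
    subst hs
    have : p ^ 2 = 0 := by linear_combination hT
    exact hp (pow_eq_zero_iff two_ne_zero |>.mp this)
  have hu' : s * x - p * z = 0 := by
    by_contra hu'
    have hx : x = 0 := (mul_eq_zero.mp hxu').resolve_right hu'
    have hy : y = 0 := (mul_eq_zero.mp hyu').resolve_right hu'
    subst hx hy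
    have hpz : p * z ≠ 0 := by
      intro h
      apply hu'
      linear_combination -h
    have hz : z ≠ 0 := right_ne_zero_of_mul hpz
    have hp : p ≠ 0 := left_ne_zero_of_mul hpz
    have hrz : r * z = 0 := by linear_combination hTN
    have hr : r = 0 := (mul_eq_zero.mp hrz).resolve_right hz
    subst hr
    have : p ^ 2 = 0 := by linear_combination hT
    exact hp (pow_eq_zero_iff two_ne_zero |>.mp this)
  exact ⟨hu, hv, hu', hw⟩

/-- Trace and determinant of a matrix with characteristic polynomial `(X - 1) ^ 2`. -/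
theorem trace_det_of_charpoly {M : Matrix (Fin 2) (Fin 2) A} (h : M.charpoly = (X - 1) ^ 2) :
    M.trace = 2 ∧ M.det = 1 := by
  rw [Matrix.charpoly_fin_two] at h
  have e : ((X : A[X]) - 1) ^ 2 = X ^ 2 - C 2 * X + C 1 := by
    simp only [map_ofNat, map_one]
    ring
  rw [e] at h
  have h1 := congrArg (fun q : A[X] => q.coeff 1) h
  have h0 := congrArg (fun q : A[X] => q.coeff 0) h
  simp only [coeff_add, coeff_sub, coeff_X_pow, coeff_C_mul, coeff_X_one, coeff_C_zero,
    coeff_X_zero, mul_one, mul_zero, coeff_C_succ] at h1 h0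
  norm_num at h1 h0
  exact ⟨h1, h0⟩

/-- Entrywise description of `M - 1` for `M` with characteristic polynomial `(X - 1) ^ 2`. -/
theorem sub_one_entries {M : Matrix (Fin 2) (Fin 2) A} (h : M.charpoly = (X - 1) ^ 2) :
    (M - 1) 1 1 = -(M - 1) 0 0 ∧ ((M - 1) 0 0) ^ 2 + (M - 1) 0 1 * (M - 1) 1 0 = 0 := by
  obtain ⟨ht, hd⟩ := trace_det_of_charpoly h
  rw [Matrix.trace_fin_two] at ht
  rw [Matrix.det_fin_two] at hd
  simp only [Matrix.sub_apply, Matrix.one_apply_eq, Matrix.one_apply_ne, ne_eq, Fin.isValue,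
    zero_ne_one, one_ne_zero, not_false_eq_true, sub_zero]
  constructor
  · linear_combination ht
  · linear_combination (-1 : A) * hd + (M 0 0) * ht

section Group

variable {G : Type*} [Group G]

/-- **Kolchin, key step**: `(M τ - 1) * (M σ - 1) = 0` for `σ, τ` in a subgroup of unipotent
elements. -/
theorem sub_one_mul_sub_one (M : G →* Matrix (Fin 2) (Fin 2) A) (H : Subgroup G)
    (hH : ∀ σ ∈ H, (M σ).charpoly = (X - 1) ^ 2) {σ τ : G} (hσ : σ ∈ H) (hτ : τ ∈ H) :
    (M τ - 1) * (M σ - 1) = 0 := by
  obtain ⟨hN1, hN2⟩ := sub_one_entries (hH σ hσ)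
  obtain ⟨hT1, hT2⟩ := sub_one_entries (hH τ hτ)
  obtain ⟨htr, -⟩ := trace_det_of_charpoly (hH (τ * σ) (H.mul_mem hτ hσ))
  obtain ⟨htrσ, -⟩ := trace_det_of_charpoly (hH σ hσ)
  obtain ⟨htrτ, -⟩ := trace_det_of_charpoly (hH τ hτ)
  rw [map_mul] at htr
  set N := M σ - 1 with hNdef
  set T := M τ - 1 with hTdef
  have eσ : M σ = 1 + N := by rw [hNdef]; abel
  have eτ : M τ = 1 + T := by rw [hTdef]; abel
  have htrN : N.trace = 0 := by
    rw [hNdef, Matrix.trace_sub, htrσ, Matrix.trace_one]; simp
  have htrT : T.trace = 0 := by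
    rw [hTdef, Matrix.trace_sub, htrτ, Matrix.trace_one]; simp
  have htrTN : (T * N).trace = 0 := by
    have : (M τ * M σ).trace = 2 + T.trace + N.trace + (T * N).trace := by
      rw [eσ, eτ]
      simp only [add_mul, mul_add, one_mul, mul_one, Matrix.trace_add, Matrix.trace_one]
      simp
      ring
    rw [this, htrN, htrT] at htr
    linear_combination htr
  rw [Matrix.trace_fin_two, Matrix.mul_apply, Matrix.mul_apply, Fin.sum_univ_two,
    Fin.sum_univ_two] at htrTN
  have key := mul_eq_zero_of_rel (N 0 0) (N 0 1) (N 1 0) (T 0 0) (T 0 1) (T 1 0) hN2 hT2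
    (by rw [hN1, hT1] at htrTN; linear_combination htrTN)
  obtain ⟨k1, k2, k3, k4⟩ := key
  ext i j
  fin_cases i <;> fin_cases j <;>
    simp only [Fin.zero_eta, Fin.mk_one, Fin.isValue, Matrix.mul_apply, Fin.sum_univ_two,
      Matrix.zero_apply, hN1, hT1]
  · linear_combination k1
  · linear_combination k2
  · linear_combination k3
  · linear_combination k4

/-- **Kolchin in dimension two, matrix form.** -/
theorem exists_fixed_vec (M : G →* Matrix (Fin 2) (Fin 2) A) (H : Subgroup G)
    (hH : ∀ σ ∈ H, (M σ).charpoly = (X - 1) ^ 2) :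
    ∃ w : Fin 2 → A, w ≠ 0 ∧ ∀ σ ∈ H, (M σ) *ᵥ w = w := by
  by_cases hall : ∀ σ ∈ H, M σ = 1
  · refine ⟨![1, 0], ?_, fun σ hσ => ?_⟩
    · intro h
      have := congrFun h 0
      simp at this
    · rw [hall σ hσ, Matrix.one_mulVec]
  · push Not at hall
    obtain ⟨σ₀, hσ₀, hne⟩ := hall
    have hN : M σ₀ - 1 ≠ 0 := sub_ne_zero.mpr hne
    obtain ⟨i, j, hij⟩ : ∃ i j, (M σ₀ - 1) i j ≠ 0 := by
      by_contra hcon
      push Not at hcon
      exact hN (Matrix.ext fun i j => by simpa using hcon i j)
    refine ⟨fun i' => (M σ₀ - 1) i' j, ?_, fun τ hτ => ?_⟩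
    · intro h
      exact hij (congrFun h i)
    · have h0 := sub_one_mul_sub_one M H hH hσ₀ hτ
      have h1 : (M τ - 1) *ᵥ (fun i' => (M σ₀ - 1) i' j) = 0 := by
        funext i'
        have := congrFun (congrFun h0 i') j
        simpa [Matrix.mul_apply, Matrix.mulVec, dotProduct] using this
      rw [Matrix.sub_mulVec, Matrix.one_mulVec, sub_eq_zero] at h1
      exact h1

end Group

section Primitive

variable {G : Type*} [Group G] [IsLocalRing A] [IsPrincipalIdealRing A]

/-- Over a local principal ideal domain the common fixed vector may be chosen with a unit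
coordinate. -/
theorem exists_fixed_unit_coord (M : G →* Matrix (Fin 2) (Fin 2) A) (H : Subgroup G)
    (hH : ∀ σ ∈ H, (M σ).charpoly = (X - 1) ^ 2) :
    ∃ w : Fin 2 → A, (∃ i, IsUnit (w i)) ∧ ∀ σ ∈ H, (M σ) *ᵥ w = w := by
  obtain ⟨w, hw0, hw⟩ := exists_fixed_vec M H hH
  set I : Ideal A := Ideal.span {w 0, w 1} with hI
  set c := Submodule.IsPrincipal.generator I with hc
  have hIc : Ideal.span {c} = I := Ideal.span_singleton_generator I
  have hmem : ∀ i, w i ∈ I := by
    intro i
    fin_cases i
    · exact Ideal.subset_span (by simp)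
    · exact Ideal.subset_span (by simp)
  have hdiv : ∀ i, ∃ a, w i = c * a := by
    intro i
    have := hmem i
    rw [← hIc, Ideal.mem_span_singleton'] at this
    obtain ⟨a, ha⟩ := this
    exact ⟨a, by rw [← ha, mul_comm]⟩
  choose w' hw' using hdiv
  have hc0 : c ≠ 0 := by
    intro h0
    apply hw0
    funext i
    rw [hw' i, h0, zero_mul, Pi.zero_apply]
  have hcI : c ∈ I := Submodule.IsPrincipal.generator_mem I
  rw [hI, Ideal.mem_span_pair] at hcI
  obtain ⟨s, t, hst⟩ := hcI
  have hone : s * w' 0 + t * w' 1 = 1 := by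
    have : c * (s * w' 0 + t * w' 1) = c * 1 := by
      rw [mul_one]
      conv_rhs => rw [← hst, hw' 0, hw' 1]
      ring
    exact mul_left_cancel₀ hc0 this
  refine ⟨w', ?_, fun σ hσ => ?_⟩
  · by_contra hcon
    push Not at hcon
    have h0 : w' 0 ∈ IsLocalRing.maximalIdeal A := (IsLocalRing.mem_maximalIdeal _).mpr (hcon 0)
    have h1 : w' 1 ∈ IsLocalRing.maximalIdeal A := (IsLocalRing.mem_maximalIdeal _).mpr (hcon 1)
    have : (1 : A) ∈ IsLocalRing.maximalIdeal A := by
      rw [← hone]
      exact Ideal.add_mem _ (Ideal.mul_mem_left _ _ h0) (Ideal.mul_mem_left _ _ h1)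
    exact (IsLocalRing.mem_maximalIdeal _).mp this isUnit_one
  · have hwc : w = c • w' := by
      funext i
      rw [hw' i, Pi.smul_apply, smul_eq_mul]
    have h1 := hw σ hσ
    rw [hwc, Matrix.mulVec_smul] at h1
    funext i
    have h2 := congrFun h1 i
    simp only [Pi.smul_apply, smul_eq_mul] at h2
    exact mul_left_cancel₀ hc0 h2

end Primitive

section Linear

variable {G : Type*} [Group G] {V : Type*} [AddCommGroup V] [Module A V] [Module.Free A V]
  [Module.Finite A V]

/-- The matrix representation attached to `ρ` and a basis. -/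
noncomputable def matRep (b : Module.Basis (Fin 2) A V) (ρ : G →* Module.End A V) :
    G →* Matrix (Fin 2) (Fin 2) A :=
  (MonoidHomClass.toMonoidHom (LinearMap.toMatrixAlgEquiv b)).comp ρ

theorem matRep_apply (b : Module.Basis (Fin 2) A V) (ρ : G →* Module.End A V) (σ : G) :
    matRep b ρ σ = LinearMap.toMatrix b b (ρ σ) := rfl

theorem matRep_charpoly (b : Module.Basis (Fin 2) A V) (ρ : G →* Module.End A V) (σ : G) :
    (matRep b ρ σ).charpoly = LinearMap.charpoly (ρ σ) := by
  rw [matRep_apply]
  exact LinearMap.charpoly_toMatrix (ρ σ) b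

/-- A fixed coordinate vector gives a fixed vector. -/
theorem fixed_of_mulVec (b : Module.Basis (Fin 2) A V) (ρ : G →* Module.End A V) (σ : G)
    (w : Fin 2 → A) (h : matRep b ρ σ *ᵥ w = w) :
    ρ σ (b.equivFun.symm w) = b.equivFun.symm w := by
  apply b.equivFun.injective
  have h1 := LinearMap.toMatrix_mulVec_repr b b (ρ σ) (b.equivFun.symm w)
  have h2 : (⇑(b.repr (b.equivFun.symm w)) : Fin 2 → A) = w := by
    have := b.equivFun.apply_symm_apply w
    rw [Module.Basis.equivFun_apply] at this
    exact this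
  rw [h2, ← matRep_apply, h] at h1
  rw [Module.Basis.equivFun_apply, ← h1, LinearEquiv.apply_symm_apply]

/-- **Kolchin in dimension two, linear form**: a subgroup acting on a free module of rank two
over a domain through elements of characteristic polynomial `(X - 1) ^ 2` has a common nonzero
fixed vector. -/
theorem exists_fixed_of_charpoly (h2 : Module.finrank A V = 2) (ρ : G →* Module.End A V)
    (H : Subgroup G) (hH : ∀ σ ∈ H, LinearMap.charpoly (ρ σ) = (X - 1) ^ 2) :
    ∃ v : V, v ≠ 0 ∧ ∀ σ ∈ H, ρ σ v = v := by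
  let b : Module.Basis (Fin 2) A V := Module.finBasisOfFinrankEq A V h2
  obtain ⟨w, hw0, hw⟩ := exists_fixed_vec (matRep b ρ) H
    (fun σ hσ => by rw [matRep_charpoly]; exact hH σ hσ)
  refine ⟨b.equivFun.symm w, ?_, fun σ hσ => fixed_of_mulVec b ρ σ w (hw σ hσ)⟩
  intro h
  apply hw0
  have := congrArg b.equivFun h
  rwa [LinearEquiv.apply_symm_apply, map_zero] at this

/-- **Primitive form** over a local principal ideal domain (e.g. a discrete valuation ring): the
common fixed vector may be chosen outside `𝔪 • ⊤`. -/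
theorem exists_fixed_primitive [IsLocalRing A] [IsPrincipalIdealRing A]
    (h2 : Module.finrank A V = 2) (ρ : G →* Module.End A V)
    (H : Subgroup G) (hH : ∀ σ ∈ H, LinearMap.charpoly (ρ σ) = (X - 1) ^ 2) :
    ∃ v : V, v ∉ (IsLocalRing.maximalIdeal A) • (⊤ : Submodule A V) ∧ ∀ σ ∈ H, ρ σ v = v := by
  let b : Module.Basis (Fin 2) A V := Module.finBasisOfFinrankEq A V h2
  obtain ⟨w, ⟨i, hi⟩, hw⟩ := exists_fixed_unit_coord (matRep b ρ) H
    (fun σ hσ => by rw [matRep_charpoly]; exact hH σ hσ)
  refine ⟨b.equivFun.symm w, ?_, fun σ hσ => fixed_of_mulVec b ρ σ w (hw σ hσ)⟩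
  intro hmem
  have hcoord : ∀ x ∈ (IsLocalRing.maximalIdeal A) • (⊤ : Submodule A V),
      b.equivFun x i ∈ IsLocalRing.maximalIdeal A := by
    intro x hx
    refine Submodule.smul_induction_on hx ?_ ?_
    · intro a ha y _
      rw [map_smul, Pi.smul_apply, smul_eq_mul]
      exact Ideal.mul_mem_right _ _ ha
    · intro x y hx hy
      rw [map_add, Pi.add_apply]
      exact Ideal.add_mem _ hx hy
  have := hcoord _ hmem
  rw [LinearEquiv.apply_symm_apply] at this
  exact (IsLocalRing.mem_maximalIdeal _).mp this hi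

end Linear

end Fermat.Agent.BR3.Kolchin2
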