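/-
Program C (S36), node (I7-N-KUM), layer 1.9 (helper8): THE CONSUMER-READY OUTPUTS OF A KUMMER SHEET.

`H : KummerLevels.KummerHyp L X Y θ U c₀ κ₀ thick₂ d 𝒪₁ 𝒪₂ O₁ O₂` (`BR3/KummerLevels`): `O₁` the
valuation ring of the component where `X` vanishes (the vertical component `z e`, TARGET of the
Kummer node), `O₂` the one where `Y` vanishes (the middle component, SOURCE of the node), `𝒪₁`, `𝒪₂`
the composite valuation rings of the two branch points (`CompVal.compVal O res hres Q.adicValuation`).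

* `mem_nonunits₁`, `mem_nonunits₂` : the non-units of the local rings `H.ring i` lie in the maximal
  ideals of `𝒪₁` and `𝒪₂`;
* `dom_of_eq_compVal` : the domination hypothesis `hdom` below from `𝒪 = compVal O res hres Q.adic`;
* `branchComp₁ : BranchComp π O₁ res₁ Q₁ H.levels`, `branchComp₂ : BranchComp π O₂ res₂ Q₂ H.levels`
  (helper19's `SplitBranch.BranchComp`);
* `nodeChart : S0.NodeChart A O₂ O₁ res₂ res₁ Q₂ Q₁ (kummerTube A T X Y θ c₀)` (the field `chart` of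
  `SDD.Input` at a Kummer node, first branch on the middle component);
* `levelsOn H hT : AnnulusLevels A T' ι` for `hT : T' = kummerTube A T X Y θ c₀` (transport to the tube
  of a node of a setup), with `rfl`-type lemmas;
* `branchDataN : CircleN.BranchDataN S₀ e (levelsOn H hT)` for a node `e` of a semistable setup `S₀`
  with `O₁ = S₀.O (S₀.tgt e)`, `O₂ = S₀.O (S₀.src e)` (the field `X` of `SDD.CircleData`).
-/
import Mathlib
import Fermat.Agent.BR3.KummerLevels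
import Fermat.Agent.BR3.CompVal
import Fermat.Agent.BR3.SplitNodeChart

set_option autoImplicit false
set_option linter.unusedSectionVars false
set_option linter.style.haveILetI false

noncomputable section

namespace Fermat.Agent.BR3.KummerNode

open Polynomial IsLocalRing AlgebraicCurve Fermat.Agent.Red Fermat.Agent.BR.Centre
  Fermat.Agent.BR.S0 Fermat.Agent.BR3.KummerEnd Fermat.Agent.BR3.KummerLevels
  Fermat.Agent.BR3.SplitBranch Fermat.Agent.BR3.SplitNodeChart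

/-! ### Domination by a composite valuation ring -/

section Dom

variable {F k Ft : Type*} [Field F] [Field k] [Field Ft] [Algebra k Ft]

/-- the non-units of the composite valuation ring of `(O, res)` at `Q` reduce to functions vanishing
at `Q` -/
theorem dom_of_eq_compVal {𝒪 O : ValuationSubring F} (res : O →+* Ft)
    (hres : ∀ x : O, res x = 0 ↔ (x : F) ∈ O.nonunits) (Q : Place k Ft)
    (h𝒪 : 𝒪 = CompVal.compVal O res hres Q.adicValuation) :
    ∀ x ∈ 𝒪.nonunits, ∀ h : x ∈ O, Q.adicValuation (res ⟨x, h⟩) < 1 := by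
  intro x hx h
  rw [h𝒪] at hx
  obtain ⟨_, h1⟩ := (CompVal.mem_nonunits_compVal_iff O res hres Q.adicValuation).mp hx
  exact h1

end Dom

/-! ### The branch data on the two components and the node chart -/

section Abstract

variable {K F F₂ k : Type*} [Field K] [Field F] [Field F₂] [Field k] [Algebra K F] [Algebra K F₂]
  [Algebra F F₂] [IsScalarTower K F F₂] [Algebra.IsIntegral F F₂] [CharZero F₂]
  {Ft₁ Ft₂ : Type*} [Field Ft₁] [Algebra k Ft₁] [Field Ft₂] [Algebra k Ft₂]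
  {A : ValuationSubring K} {T : Set (Place K F)} {ι : Type*}
  {L : AnnulusLevels A T ι} {X Y θ U : F₂} {c₀ : A} {κ₀ thick₂ : K} {d : ℕ}
  {𝒪₁ 𝒪₂ O₁ O₂ : ValuationSubring F₂} (H : KummerHyp L X Y θ U c₀ κ₀ thick₂ d 𝒪₁ 𝒪₂ O₁ O₂)

include H

/-- the non-units of the local rings of the Kummer sheet lie in the maximal ideal of `𝒪₁` -/
theorem mem_nonunits₁ (i : ι) (y : H.ring i) (hy : ¬ IsUnit y) : (y : F₂) ∈ 𝒪₁.nonunits :=
  (not_isUnit_iff_mem_nonunits 𝒪₁ (H.mem₁ i) y).mp hy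

/-- the non-units of the local rings of the Kummer sheet lie in the maximal ideal of `𝒪₂` -/
theorem mem_nonunits₂ (i : ι) (y : H.ring i) (hy : ¬ IsUnit y) : (y : F₂) ∈ 𝒪₂.nonunits := by
  have hy2 : (y : F₂) ∈ kummerRing 𝒪₂ (H.mem₂ i) := by
    rw [← H.ring_eq₂ i]
    exact y.2
  refine (not_isUnit_iff_mem_nonunits 𝒪₂ (H.mem₂ i) ⟨y, hy2⟩).mp ?_
  intro hu
  apply hy
  rw [isUnit_subring_iff] at hu
  have hinv : (y : F₂)⁻¹ ∈ H.ring i := by
    have h2 := hu.2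
    rw [← H.ring_eq₂ i] at h2
    exact h2
  have : IsUnit (⟨(y : F₂), y.2⟩ : H.ring i) := (isUnit_subring_iff y.2).mpr ⟨hu.1, hinv⟩
  exact this

/-- **The branch data of the Kummer sheet on the component `O₁`** (where `X` vanishes: the vertical
component). -/
theorem branchComp₁ (π : A →+* k) (res₁ : O₁ →+* Ft₁) (Q₁ : Place k Ft₁)
    (hdom : ∀ x ∈ 𝒪₁.nonunits, ∀ h : x ∈ O₁, Q₁.adicValuation (res₁ ⟨x, h⟩) < 1)
    (const_mem : ∀ a : A, algebraMap K F₂ (a : K) ∈ O₁)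
    (const : ∀ a : A, res₁ ⟨algebraMap K F₂ (a : K), const_mem a⟩ = algebraMap k Ft₁ (π a)) :
    BranchComp π O₁ res₁ Q₁ H.levels where
  le i _ hy := H.ring_le₁ i hy
  branch i y hy := hdom _ (mem_nonunits₁ H i y hy) _
  const_mem := const_mem
  const := const

/-- **The branch data of the Kummer sheet on the component `O₂`** (where `Y` vanishes: the middle
component). -/
theorem branchComp₂ (π : A →+* k) (res₂ : O₂ →+* Ft₂) (Q₂ : Place k Ft₂)
    (hdom : ∀ x ∈ 𝒪₂.nonunits, ∀ h : x ∈ O₂, Q₂.adicValuation (res₂ ⟨x, h⟩) < 1)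
    (const_mem : ∀ a : A, algebraMap K F₂ (a : K) ∈ O₂)
    (const : ∀ a : A, res₂ ⟨algebraMap K F₂ (a : K), const_mem a⟩ = algebraMap k Ft₂ (π a)) :
    BranchComp π O₂ res₂ Q₂ H.levels where
  le i _ hy := H.ring_le₂ i hy
  branch i y hy := hdom _ (mem_nonunits₂ H i y hy) _
  const_mem := const_mem
  const := const

/-- **The node chart of the Kummer node**, first branch on the component `O₂` (the middle
component, source of the node), second branch on `O₁` (the vertical component). -/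
def nodeChart (π : A →+* k) (hπ0 : ∀ a : A, A.valuation (a : K) < 1 → π a = 0)
    (res₁ : O₁ →+* Ft₁) (Q₁ : Place k Ft₁) (res₂ : O₂ →+* Ft₂) (Q₂ : Place k Ft₂)
    (hdom₁ : ∀ x ∈ 𝒪₁.nonunits, ∀ h : x ∈ O₁, Q₁.adicValuation (res₁ ⟨x, h⟩) < 1)
    (hdom₂ : ∀ x ∈ 𝒪₂.nonunits, ∀ h : x ∈ O₂, Q₂.adicValuation (res₂ ⟨x, h⟩) < 1)
    (const_mem₁ : ∀ a : A, algebraMap K F₂ (a : K) ∈ O₁)
    (const₁ : ∀ a : A, res₁ ⟨algebraMap K F₂ (a : K), const_mem₁ a⟩ = algebraMap k Ft₁ (π a))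
    (const_mem₂ : ∀ a : A, algebraMap K F₂ (a : K) ∈ O₂)
    (const₂ : ∀ a : A, res₂ ⟨algebraMap K F₂ (a : K), const_mem₂ a⟩ = algebraMap k Ft₂ (π a)) :
    NodeChart A O₂ O₁ res₂ res₁ Q₂ Q₁ (kummerTube A T X Y θ c₀) :=
  nodeChartOfComps (branchComp₂ H π res₂ Q₂ hdom₂ const_mem₂ const₂)
    (branchComp₁ H π res₁ Q₁ hdom₁ const_mem₁ const₁) hπ0 H.X_notMem₂ H.Y_notMem₁

/-! ### Transport to another name of the tube -/

/-- the level data of the Kummer sheet, on a tube given by another expression -/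
def levelsOn {T' : Set (Place K F₂)} (hT : T' = kummerTube A T X Y θ c₀) : AnnulusLevels A T' ι :=
  hT ▸ H.levels

omit H in
@[simp] theorem levelsOn_u (H : KummerHyp L X Y θ U c₀ κ₀ thick₂ d 𝒪₁ 𝒪₂ O₁ O₂)
    {T' : Set (Place K F₂)} (hT : T' = kummerTube A T X Y θ c₀) : (levelsOn H hT).u = X := by
  subst hT
  rfl

omit H in
@[simp] theorem levelsOn_v (H : KummerHyp L X Y θ U c₀ κ₀ thick₂ d 𝒪₁ 𝒪₂ O₁ O₂)
    {T' : Set (Place K F₂)} (hT : T' = kummerTube A T X Y θ c₀) : (levelsOn H hT).v = Y := by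
  subst hT
  rfl

omit H in
@[simp] theorem levelsOn_ε₀ (H : KummerHyp L X Y θ U c₀ κ₀ thick₂ d 𝒪₁ 𝒪₂ O₁ O₂)
    {T' : Set (Place K F₂)} (hT : T' = kummerTube A T X Y θ c₀) : (levelsOn H hT).ε₀ = 1 := by
  subst hT
  rfl

omit H in
@[simp] theorem levelsOn_thick (H : KummerHyp L X Y θ U c₀ κ₀ thick₂ d 𝒪₁ 𝒪₂ O₁ O₂)
    {T' : Set (Place K F₂)} (hT : T' = kummerTube A T X Y θ c₀) :
    (levelsOn H hT).thick = thick₂ := by
  subst hT
  rfl

omit H in
theorem levelsOn_R (H : KummerHyp L X Y θ U c₀ κ₀ thick₂ d 𝒪₁ 𝒪₂ O₁ O₂)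
    {T' : Set (Place K F₂)} (hT : T' = kummerTube A T X Y θ c₀) (i : ι) :
    ((levelsOn H hT).level i).R = H.ring i := by
  subst hT
  rfl

omit H in
theorem levelsOn_K' (H : KummerHyp L X Y θ U c₀ κ₀ thick₂ d 𝒪₁ 𝒪₂ O₁ O₂)
    {T' : Set (Place K F₂)} (hT : T' = kummerTube A T X Y θ c₀) (i : ι) :
    ((levelsOn H hT).level i).K' = (L.level i).K' := by
  subst hT
  rfl

omit H in
theorem levelsOn_ϖ (H : KummerHyp L X Y θ U c₀ κ₀ thick₂ d 𝒪₁ 𝒪₂ O₁ O₂)
    {T' : Set (Place K F₂)} (hT : T' = kummerTube A T X Y θ c₀) (i : ι) :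
    ((levelsOn H hT).level i).ϖ = (L.level i).ϖ := by
  subst hT
  rfl

end Abstract

/-! ### The branch data for a node of a semistable setup -/

section Setup

open Fermat.Agent.BR.SS Fermat.Agent.BR.Refine Fermat.Agent.BR3.CircleN

variable {K : Type} {F F₂ : Type*} [Field K] [Field F] [Field F₂] [Algebra K F] [Algebra K F₂]
  [Algebra F F₂] [IsScalarTower K F F₂] [Algebra.IsIntegral F F₂] [CharZero F₂]
  {A : ValuationSubring K} [IsAlgClosed (ResidueField A)]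
  {ι₀ : Type} {Ft₀ : ι₀ → Type} [∀ v, Field (Ft₀ v)] [∀ v, Algebra (ResidueField A) (Ft₀ v)]
  {ν₀ : Type} {S₀ : SemistableSetup (F := F₂) A (residue A) ι₀ Ft₀ ν₀} {e : ν₀}
  {T : Set (Place K F)} {ι : Type*}
  {L : AnnulusLevels A T ι} {X Y θ U : F₂} {c₀ : A} {κ₀ thick₂ : K} {d : ℕ}
  {𝒪₁ 𝒪₂ : ValuationSubring F₂}

/-- **The branch data of the Kummer sheet at a node `e` of a semistable setup** whose tube is the
tube of the sheet, `tgt e` the component where `X` vanishes, `src e` the component where `Y`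
vanishes; `X` reduces to a uniformizer at the branch on `src e`, `Y` at the branch on `tgt e`. -/
theorem branchDataN [Nonempty ι]
    (H : KummerHyp L X Y θ U c₀ κ₀ thick₂ d 𝒪₁ 𝒪₂ (S₀.O (S₀.tgt e)) (S₀.O (S₀.src e)))
    (hT : tube S₀ e = kummerTube A T X Y θ c₀)
    (hdom₁ : ∀ x ∈ 𝒪₁.nonunits, ∀ h : x ∈ S₀.O (S₀.tgt e),
      (S₀.s₂ e).adicValuation (S₀.res (S₀.tgt e) ⟨x, h⟩) < 1)
    (hdom₂ : ∀ x ∈ 𝒪₂.nonunits, ∀ h : x ∈ S₀.O (S₀.src e),
      (S₀.s₁ e).adicValuation (S₀.res (S₀.src e) ⟨x, h⟩) < 1)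
    (hX : ∀ h : X ∈ S₀.O (S₀.src e), (S₀.s₁ e).ord (S₀.res (S₀.src e) ⟨X, h⟩) = 1)
    (hY : ∀ h : Y ∈ S₀.O (S₀.tgt e), (S₀.s₂ e).ord (S₀.res (S₀.tgt e) ⟨Y, h⟩) = 1)
    (sep_comp : ∀ w, w ≠ S₀.src e → w ≠ S₀.tgt e → SepComp S₀ e w) :
    BranchDataN S₀ e (levelsOn H hT) := by
  have X₁ : BranchComp (residue A) (S₀.O (S₀.src e)) (S₀.res (S₀.src e)) (S₀.s₁ e)
      (levelsOn H hT) :=
    (branchComp₂ H (residue A) (S₀.res (S₀.src e)) (S₀.s₁ e) hdom₂
      (fun a => (S₀.algebraMap_mem_iff _ _).mpr a.2)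
      (fun a => S₀.res_algebraMap _ a a.2 _)).of_ring_eq (levelsOn H hT) id
      (fun i => levelsOn_R H hT i)
  have X₂ : BranchComp (residue A) (S₀.O (S₀.tgt e)) (S₀.res (S₀.tgt e)) (S₀.s₂ e)
      (levelsOn H hT) :=
    (branchComp₁ H (residue A) (S₀.res (S₀.tgt e)) (S₀.s₂ e) hdom₁
      (fun a => (S₀.algebraMap_mem_iff _ _).mpr a.2)
      (fun a => S₀.res_algebraMap _ a a.2 _)).of_ring_eq (levelsOn H hT) id
      (fun i => levelsOn_R H hT i)
  obtain ⟨i⟩ := ‹Nonempty ι›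
  refine branchDataN_of_comps X₁ X₂ ?_ ?_ ?_ ?_ sep_comp
  · rw [levelsOn_v]
    exact H.Y_mem₂
  · rw [levelsOn_u]
    exact H.X_mem₁
  · have hXR : X ∈ ((levelsOn H hT).level i).R := by
      rw [levelsOn_R]
      exact X_mem_kummerRing 𝒪₁ (H.mem₁ i)
    exact ⟨i, ⟨X, hXR⟩, hX _⟩
  · have hYR : Y ∈ ((levelsOn H hT).level i).R := by
      rw [levelsOn_R]
      exact Y_mem_kummerRing 𝒪₁ (H.mem₁ i)
    exact ⟨i, ⟨Y, hYR⟩, hY _⟩

end Setup

end Fermat.Agent.BR3.KummerNode
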