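/-
Program C (S36), node (I7-N-KUM), layer 1.5 (helper8): THE TWO IDENTITIES OF THE KUMMER NODE FROM
THE EXACT VERTICAL POLYNOMIAL.

`Ψ(T) = T^q + Bc T^(q-1) + A₀ + q H(T)` (helper9's `VertTaylor.vertPoly_eq`), `Ψ(U) = 0`,
`A₀ Bc = - q R` (`R` a unit: thickness one), `q = 2 d + 1`.  Coordinates of the Kummer node:
`X = ϖ₂ / U`, `Y = U / ϖ₁`, with constants `q = γ₂ ϖ₂^(q-1)`, `ϖ₁ = κ₁ (X Y)^d` (`X Y = ϖ₂ / ϖ₁`);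
downstairs `Bc = u' η₁` (`u'` the coordinate of the sub-annulus, `η₁` a unit), `θ := u' / X^d`.

* `theta_sq_sub_eq` : **(K3)** `θ² - γ₂ R η₁⁻² = b X + e Y` with explicit `b, e` (polynomial in
  `θ, η₁⁻¹, γ₂, κ₁, X, Y, H(U)`), i.e. `P := T² - ρ'`, `ρ' := γ₂ R η₁⁻²`, satisfies the field `K3` of
  `KummerLevels.KummerHyp`;
* `exists_deriv_mul_eq` : **`hΨ`** `Ψ'(U) · w = (X Y)^d ϖ₂^(q-2)` for some `w ∈ D`
  (`Ψ'(U) = (q-1) θ η₁ X^d U^(q-2) (1 + s_X X + s_Y Y)`), the field `hΨ` of `KummerHyp` once the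
  constant `(ϖ₂/ϖ₁)^d ϖ₂^(q-2)` divides a power of the uniformizer.

Pure field algebra (Mathlib only).
-/
import Mathlib

set_option autoImplicit false

namespace Fermat.Agent.BR3.KummerVert

open IsLocalRing

/-- **(K3) from the vertical polynomial** (field identity).  `Ψ(U) = U^q + Bc U^(q-1) + A₀ + q H(U) = 0`,
`A₀ Bc = - q R`, `q = 2 d + 1 = γ₂ ϖ₂^(q-1)`, `X U = ϖ₂`, `ϖ₁ Y = U`, `ϖ₁ = κ₁ (X Y)^d`,
`Bc = u' η₁`, `u' = θ X^d`.  Then `θ² - ρ' ∈ (X, Y)` with `ρ' = γ₂ R / η₁²`, explicitly. -/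
theorem theta_sq_sub_eq {F : Type*} [Field F] {U X Y θ u' Bc A₀ Rr HU η₁ ϖ₁ ϖ₂ κ₁ γ₂ qq : F}
    {q d : ℕ} (hq : q = 2 * d + 1) (hd : 1 ≤ d)
    (hX : X * U = ϖ₂) (hY : ϖ₁ * Y = U) (hϖ₂0 : ϖ₂ ≠ 0)
    (hη : η₁ ≠ 0)
    (hBc : Bc = u' * η₁) (hK1 : u' = θ * X ^ d)
    (hAB : A₀ * Bc = - qq * Rr)
    (hΨ : U ^ q + Bc * U ^ (q - 1) + A₀ + qq * HU = 0)
    (hγ₂ : qq = γ₂ * ϖ₂ ^ (q - 1)) (hκ₁ : ϖ₁ = κ₁ * (X * Y) ^ d) :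
    θ ^ 2 - γ₂ * Rr * (η₁⁻¹) ^ 2 =
      (-(θ * η₁⁻¹ * γ₂ * X ^ (d - 1) * HU)) * X + (-(θ * η₁⁻¹ * κ₁ * Y ^ d)) * Y := by
  have hX0 : X ≠ 0 := fun h => hϖ₂0 (by rw [← hX, h, zero_mul])
  have hU0 : U ≠ 0 := fun h => hϖ₂0 (by rw [← hX, h, mul_zero])
  have hq1 : q - 1 = 2 * d := by omega
  rw [hq1] at hΨ hγ₂
  rw [hq, pow_succ] at hΨ
  -- multiply by `Bc`
  have h1 : Bc * U * U ^ (2 * d) + Bc ^ 2 * U ^ (2 * d) - qq * Rr + qq * HU * Bc = 0 := by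
    have := congrArg (· * Bc) hΨ
    simp only [zero_mul] at this
    linear_combination this - hAB
  -- `qq = γ₂ X^(2d) U^(2d)`
  have h2 : qq = γ₂ * X ^ (2 * d) * U ^ (2 * d) := by
    rw [hγ₂, ← hX, mul_pow]
    ring
  rw [h2] at h1
  have h3 : U ^ (2 * d) * (Bc * U + Bc ^ 2 - γ₂ * X ^ (2 * d) * Rr +
      γ₂ * X ^ (2 * d) * HU * Bc) = 0 := by
    linear_combination h1
  have h4 : Bc * U + Bc ^ 2 - γ₂ * X ^ (2 * d) * Rr + γ₂ * X ^ (2 * d) * HU * Bc = 0 :=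
    (mul_eq_zero.mp h3).resolve_left (pow_ne_zero _ hU0)
  -- substitute
  have hBc' : Bc = θ * X ^ d * η₁ := by rw [hBc, hK1]
  have hU' : U = κ₁ * X ^ d * Y ^ d * Y := by
    rw [← hY, hκ₁, mul_pow]
    ring
  have h5 : X ^ (2 * d) * (θ * η₁ * κ₁ * Y ^ d * Y + θ ^ 2 * η₁ ^ 2 - γ₂ * Rr +
      γ₂ * HU * θ * X ^ d * η₁) = 0 := by
    have e : X ^ (2 * d) = X ^ d * X ^ d := by rw [two_mul, pow_add]
    rw [hBc'] at h4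
    rw [e] at h4 ⊢
    have h6 : θ * X ^ d * η₁ * U = θ * X ^ d * η₁ * (κ₁ * X ^ d * Y ^ d * Y) := by
      rw [← hU']
    linear_combination h4 - h6
  have h7 := (mul_eq_zero.mp h5).resolve_left (pow_ne_zero _ hX0)
  obtain ⟨e, rfl⟩ : ∃ e, d = e + 1 := ⟨d - 1, by omega⟩
  rw [Nat.add_sub_cancel]
  field_simp
  linear_combination h7

/-- **`hΨ` from the vertical polynomial**: in a local ring `D ∋ X, Y` (non-units), the derivative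
`Ψ'(U) = q U^(q-1) + (q-1) Bc U^(q-2) + q H'(U)` is `(q-1) θ η₁ X^d U^(q-2)` times a unit of `D`, hence
divides the constant `(X Y)^d ϖ₂^(q-2)` in `D`. -/
theorem exists_deriv_mul_eq {F : Type*} [Field F] (D : Subring F) [IsLocalRing D]
    {U X Y θ u' Bc H'U η₁ ϖ₁ ϖ₂ κ₁ γ₂ qq : F} {q d : ℕ} (hq : q = 2 * d + 1) (hd : 1 ≤ d)
    (hX : X * U = ϖ₂) (hY : ϖ₁ * Y = U) (hϖ₂0 : ϖ₂ ≠ 0) (hη : η₁ ≠ 0) (hθ0 : θ ≠ 0)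
    (hq1 : qq - 1 ≠ 0)
    (hBc : Bc = u' * η₁) (hK1 : u' = θ * X ^ d)
    (hγ₂ : qq = γ₂ * ϖ₂ ^ (q - 1)) (hκ₁ : ϖ₁ = κ₁ * (X * Y) ^ d)
    (hXD : X ∈ D) (hYD : Y ∈ D) (hUD : U ∈ D) (hHD : H'U ∈ D) (hκD : κ₁ ∈ D) (hγD : γ₂ ∈ D)
    (hqD : qq ∈ D) (hθi : θ⁻¹ ∈ D) (hηi : η₁⁻¹ ∈ D) (hq1i : (qq - 1)⁻¹ ∈ D)
    (hXnu : ¬ IsUnit (⟨X, hXD⟩ : D)) (hYnu : ¬ IsUnit (⟨Y, hYD⟩ : D)) :
    ∃ w ∈ D, (qq * U ^ (q - 1) + (qq - 1) * Bc * U ^ (q - 2) + qq * H'U) * w =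
      (X * Y) ^ d * ϖ₂ ^ (q - 2) := by
  have hX0 : X ≠ 0 := fun h => hϖ₂0 (by rw [← hX, h, zero_mul])
  have hU0 : U ≠ 0 := fun h => hϖ₂0 (by rw [← hX, h, mul_zero])
  obtain ⟨e, rfl⟩ : ∃ e, d = e + 1 := ⟨d - 1, by omega⟩
  have hq1' : q - 1 = 2 * e + 2 := by omega
  have hq2' : q - 2 = 2 * e + 1 := by omega
  rw [hq1'] at hγ₂
  rw [hq1', hq2']
  -- the small element
  set sX : F := (qq - 1)⁻¹ * θ⁻¹ * η₁⁻¹ * γ₂ * X ^ e * U * H'U with hsX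
  set sY : F := (qq - 1)⁻¹ * θ⁻¹ * η₁⁻¹ * qq * κ₁ * Y ^ (e + 1) with hsY
  have hsXD : sX ∈ D := by
    rw [hsX]
    exact D.mul_mem (D.mul_mem (D.mul_mem (D.mul_mem (D.mul_mem (D.mul_mem hq1i hθi) hηi) hγD)
      (D.pow_mem hXD _)) hUD) hHD
  have hsYD : sY ∈ D := by
    rw [hsY]
    exact D.mul_mem (D.mul_mem (D.mul_mem (D.mul_mem (D.mul_mem hq1i hθi) hηi) hqD) hκD)
      (D.pow_mem hYD _)
  have hs : (⟨sX, hsXD⟩ : D) * ⟨X, hXD⟩ + ⟨sY, hsYD⟩ * ⟨Y, hYD⟩ ∈ maximalIdeal D :=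
    (maximalIdeal D).add_mem
      ((maximalIdeal D).mul_mem_left _ ((mem_maximalIdeal _).mpr hXnu))
      ((maximalIdeal D).mul_mem_left _ ((mem_maximalIdeal _).mpr hYnu))
  have hunit : IsUnit ((1 : D) + ((⟨sX, hsXD⟩ : D) * ⟨X, hXD⟩ + ⟨sY, hsYD⟩ * ⟨Y, hYD⟩)) := by
    by_contra h
    have h1 := (mem_maximalIdeal _).mpr h
    have h2 := (maximalIdeal D).sub_mem h1 hs
    rw [add_sub_cancel_right] at h2
    exact (mem_maximalIdeal _).mp h2 isUnit_one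
  obtain ⟨v, hv⟩ := hunit.exists_right_inv
  have hv' : (1 + (sX * X + sY * Y)) * (v : F) = 1 := congrArg Subtype.val hv
  refine ⟨(v : F) * (qq - 1)⁻¹ * θ⁻¹ * η₁⁻¹ * Y ^ (e + 1) * X ^ (2 * e + 1), ?_, ?_⟩
  · exact D.mul_mem (D.mul_mem (D.mul_mem (D.mul_mem (D.mul_mem v.2 hq1i) hθi) hηi)
      (D.pow_mem hYD _)) (D.pow_mem hXD _)
  · -- the factorisation of the derivative
    have hBc' : Bc = θ * X ^ (e + 1) * η₁ := by rw [hBc, hK1]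
    have hU' : U = κ₁ * X ^ (e + 1) * Y ^ (e + 1) * Y := by
      rw [← hY, hκ₁, mul_pow]
      ring
    have hqq : qq = γ₂ * X ^ (2 * e + 2) * U ^ (2 * e + 2) := by
      rw [hγ₂, ← hX, mul_pow]
      ring
    have hsX' : (qq - 1) * θ * η₁ * sX = γ₂ * X ^ e * U * H'U := by
      rw [hsX]
      field_simp
    have hsY' : (qq - 1) * θ * η₁ * sY = qq * κ₁ * Y ^ (e + 1) := by
      rw [hsY]
      field_simp
    have hfac : qq * U ^ (2 * e + 2) + (qq - 1) * Bc * U ^ (2 * e + 1) + qq * H'U =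
        (qq - 1) * θ * η₁ * X ^ (e + 1) * U ^ (2 * e + 1) * (1 + (sX * X + sY * Y)) := by
      linear_combination (qq - 1) * U ^ (2 * e + 1) * hBc' + qq * U ^ (2 * e + 1) * hU' -
        X ^ (e + 1) * U ^ (2 * e + 1) * Y * hsY' + H'U * hqq -
        X ^ (e + 1) * U ^ (2 * e + 1) * X * hsX'
    rw [hfac]
    have hX' : X ^ (2 * e + 1) * U ^ (2 * e + 1) = ϖ₂ ^ (2 * e + 1) := by
      rw [← mul_pow, hX]
    calc (qq - 1) * θ * η₁ * X ^ (e + 1) * U ^ (2 * e + 1) * (1 + (sX * X + sY * Y)) *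
          ((v : F) * (qq - 1)⁻¹ * θ⁻¹ * η₁⁻¹ * Y ^ (e + 1) * X ^ (2 * e + 1))
        = ((1 + (sX * X + sY * Y)) * (v : F)) * ((qq - 1) * (qq - 1)⁻¹) * (θ * θ⁻¹) * (η₁ * η₁⁻¹) *
            ((X * Y) ^ (e + 1)) * (X ^ (2 * e + 1) * U ^ (2 * e + 1)) := by
          rw [mul_pow]
          ring
      _ = (X * Y) ^ (e + 1) * ϖ₂ ^ (2 * e + 1) := by
          rw [hv', mul_inv_cancel₀ hq1, mul_inv_cancel₀ hθ0, mul_inv_cancel₀ hη, hX']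
          ring

end Fermat.Agent.BR3.KummerVert
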