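/-
Program C (S36), node (I7-N-KUM), layer 2a (helper8): THE HYPOTHESES OF A KUMMER SHEET FROM THE
VERTICAL POLYNOMIAL (abstract frame) and the field `horiz` in the modular frame.

* `KummerPre L X Y θ U c₀ κ₀ thick₂ d 𝒪₁ 𝒪₂ O₁ O₂` : the hypotheses `KummerLevels.KummerHyp` WITHOUT the
  field `horiz`; `KummerPre.toHyp` (add `horiz`); `KummerPre.level_nonunit_small`,
  **`KummerPre.mem_kummerTube_of_centredAt`** (the converse of `centred`, available BEFORE `horiz`: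
  this is the input `hT` of `HorizProvider.horiz_smooth_frame`);
* `const_dvd` : a nonzero constant of `A ∩ K'` of a level divides a power of the uniformizer of the
  level in `A ∩ K'`;
* coordinates `xOf ϖ₂ U = ϖ₂ / U`, `yOf ϖ₁ U = U / ϖ₁`, `thetaOf u ϖ₂ U d = u / (ϖ₂ / U) ^ d`;
* **`KummerPre.of_vert`** : `minpoly F U = T^q + Bc T^(q-1) + A₀ + q H(T)` over the levels, `q = 2 d + 1`,
  `Bc = L.u η₁` (`η₁` a unit of the levels), `A₀ Bc = - q Rr`, `q = γ₂ ϖ₂^(q-1)`,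
  `L.thick = κ₀ (ϖ₂ / L.thick)^d`, `c₀² ≡ γ₂ Rr η₁⁻²` modulo the maximal ideals of the levels, and the
  valuation-theoretic facts on `𝒪₁ 𝒪₂ O₁ O₂` ⇒ `KummerPre` with `X = ϖ₂ / U`, `Y = U / L.thick`,
  `θ = L.u / X^d`, `thick₂ = ϖ₂ / L.thick` ((K3), `hΨ` from `BR3/KummerVert`, `den_*`, `U_int`,
  `U_mem`, `K1`, `XY` discharged);
* `KummerPre.horiz_frame`, `KummerPre.toHyp_frame` : in the modular frame `F₂ = F̄_{N₂}` the field
  `horiz` from `HorizProvider.horiz_smooth_frame` (twin of `SplitHoriz.horiz_splitRing_frame`).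
-/
import Mathlib
import Fermat.Agent.BR3.KummerLevels
import Fermat.Agent.BR3.KummerVert
import Fermat.Agent.BR3.SplitLevel
import Fermat.Agent.BR3.SubAnnChart.Horiz
import Fermat.Agent.BR.S0.HorizProvider

set_option autoImplicit false
set_option linter.unusedSectionVars false
set_option linter.style.haveILetI false

noncomputable section

namespace Fermat.Agent.BR3.KummerOfVert

open Polynomial IsLocalRing AlgebraicCurve Fermat.Agent.Red Fermat.Agent.BR.Centre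
  Fermat.Agent.BR.S0 Fermat.Agent.BR.Inst.LocSub Fermat.Agent.BR3.KummerEnd
  Fermat.Agent.BR3.KummerLevels Fermat.Agent.BR3.CoverSmooth
open Fermat.Agent.BR.Inst.LevelsAnnulus (nonunits_add nonunits_sub mem_mul_nonunits
  nonunits_mul_mem zero_mem_nonunits one_notMem_nonunits)

attribute [local instance] NodeLevel.isLocal NodeLevel.noeth NodeLevel.intClosed

variable {K F F₂ : Type*} [Field K] [Field F] [Field F₂] [Algebra K F] [Algebra K F₂]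
  [Algebra F F₂] [IsScalarTower K F F₂] [Algebra.IsIntegral F F₂] [CharZero F₂]
  {A : ValuationSubring K} {T : Set (Place K F)} {ι : Type*}

/-! ### The hypotheses without `horiz` -/

/-- **The hypotheses of a Kummer sheet, without the K-point existence lemma `horiz`.** -/
structure KummerPre (L : AnnulusLevels A T ι) (X Y θ U : F₂) (c₀ : A) (κ₀ thick₂ : K) (d : ℕ)
    (𝒪₁ 𝒪₂ O₁ O₂ : ValuationSubring F₂) : Prop where
  d_pos : 1 ≤ d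
  thick₂_ne : thick₂ ≠ 0
  thick₂_lt : A.valuation thick₂ < 1
  XY : X * Y = algebraMap K F₂ thick₂
  thick_eq : L.thick = κ₀ * thick₂ ^ d
  κ₀_mem : κ₀ ∈ A
  X_ne : X ≠ 0
  K1 : algebraMap F F₂ L.u = θ * X ^ d
  c₀_unit : A.valuation (c₀ : K) = 1
  c₀_mem : ∀ i, (c₀ : K) ∈ (L.level i).K'
  κ₀_memK : ∀ i, κ₀ ∈ (L.level i).K'
  thick₂_mem : ∀ i, thick₂ ∈ (L.level i).K'
  le₁ : 𝒪₁ ≤ O₁
  le₂ : 𝒪₂ ≤ O₂
  mem₁ : ∀ i, ∀ x ∈ kummerAdj (L.level i).R X Y θ, x ∈ 𝒪₁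
  mem₂ : ∀ i, ∀ x ∈ kummerAdj (L.level i).R X Y θ, x ∈ 𝒪₂
  unif_mem₁ : ∀ i, algebraMap K F₂ (L.level i).ϖ ∈ O₁.nonunits
  unif_mem₂ : ∀ i, algebraMap K F₂ (L.level i).ϖ ∈ O₂.nonunits
  X_mem₁ : X ∈ O₁.nonunits
  Y_notMem₁ : Y ∉ O₁.nonunits
  Y_mem₂ : Y ∈ O₂.nonunits
  X_notMem₂ : X ∉ O₂.nonunits
  Y_small₁ : Y ∈ 𝒪₁.nonunits
  X_small₂ : X ∈ 𝒪₂.nonunits
  θ_small₁ : θ - algebraMap K F₂ (c₀ : K) ∈ 𝒪₁.nonunits
  θ_small₂ : θ - algebraMap K F₂ (c₀ : K) ∈ 𝒪₂.nonunits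
  K3 : ∀ i, ∃ P : (L.level i).R[X],
    P.eval (⟨algebraMap K F (c₀ : K), (L.level i).const_mem _ (c₀_mem i) c₀.2⟩ : (L.level i).R) ∈
      maximalIdeal (L.level i).R ∧
    IsUnit (P.derivative.eval
      (⟨algebraMap K F (c₀ : K), (L.level i).const_mem _ (c₀_mem i) c₀.2⟩ : (L.level i).R)) ∧
    ∃ a ∈ kummerRing 𝒪₁ (mem₁ i), ∃ b ∈ kummerRing 𝒪₁ (mem₁ i), ∃ e ∈ kummerRing 𝒪₁ (mem₁ i),
      aeval θ P = a * algebraMap K F₂ (L.level i).ϖ + b * X + e * Y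
  U_int : ∀ i, IsIntegral (L.level i).R U
  U_mem : ∀ i, U ∈ kummerRing 𝒪₁ (mem₁ i)
  den_X : ∀ i, KummerEuler.HasDen (L.level i).R U (algebraMap K F₂ (L.level i).ϖ)
    (kummerRing 𝒪₁ (mem₁ i)) X
  den_Y : ∀ i, KummerEuler.HasDen (L.level i).R U (algebraMap K F₂ (L.level i).ϖ)
    (kummerRing 𝒪₁ (mem₁ i)) Y
  den_θ : ∀ i, KummerEuler.HasDen (L.level i).R U (algebraMap K F₂ (L.level i).ϖ)
    (kummerRing 𝒪₁ (mem₁ i)) θ
  hΨ : ∀ i, ∃ w ∈ kummerRing 𝒪₁ (mem₁ i), ∃ r : ℕ,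
    aeval U (derivative (minpoly (L.level i).R U)) * w = algebraMap K F₂ (L.level i).ϖ ^ r
  gen : ∀ y : F₂, ∃ p : F[X], aeval U p = y
  finite_div : ∀ y : F₂, y ≠ 0 → {P : Place K F₂ | P.ord y ≠ 0}.Finite

namespace KummerPre

variable {L : AnnulusLevels A T ι} {X Y θ U : F₂} {c₀ : A} {κ₀ thick₂ : K} {d : ℕ}
  {𝒪₁ 𝒪₂ O₁ O₂ : ValuationSubring F₂} (H : KummerPre L X Y θ U c₀ κ₀ thick₂ d 𝒪₁ 𝒪₂ O₁ O₂)

include H

/-- add the K-point existence lemma -/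
theorem toHyp
    (horiz : ∀ i, ∀ Q : Ideal (kummerRing 𝒪₁ (H.mem₁ i)), Q.IsPrime → Q.height = 1 →
      toKummer 𝒪₁ (H.mem₁ i) (piL L i) ∉ Q →
      ∃ P ∈ kummerTube A T X Y θ c₀,
        ∀ x : kummerRing 𝒪₁ (H.mem₁ i), x ∈ Q ↔ evalAt P (x : F₂) = 0) :
    KummerHyp L X Y θ U c₀ κ₀ thick₂ d 𝒪₁ 𝒪₂ O₁ O₂ where
  d_pos := H.d_pos
  thick₂_ne := H.thick₂_ne
  thick₂_lt := H.thick₂_lt
  XY := H.XY
  thick_eq := H.thick_eq
  κ₀_mem := H.κ₀_mem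
  X_ne := H.X_ne
  K1 := H.K1
  c₀_unit := H.c₀_unit
  c₀_mem := H.c₀_mem
  κ₀_memK := H.κ₀_memK
  thick₂_mem := H.thick₂_mem
  le₁ := H.le₁
  le₂ := H.le₂
  mem₁ := H.mem₁
  mem₂ := H.mem₂
  unif_mem₁ := H.unif_mem₁
  unif_mem₂ := H.unif_mem₂
  X_mem₁ := H.X_mem₁
  Y_notMem₁ := H.Y_notMem₁
  Y_mem₂ := H.Y_mem₂
  X_notMem₂ := H.X_notMem₂
  Y_small₁ := H.Y_small₁
  X_small₂ := H.X_small₂
  θ_small₁ := H.θ_small₁
  θ_small₂ := H.θ_small₂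
  K3 := H.K3
  U_int := H.U_int
  U_mem := H.U_mem
  den_X := H.den_X
  den_Y := H.den_Y
  den_θ := H.den_θ
  hΨ := H.hΨ
  gen := H.gen
  finite_div := H.finite_div
  horiz := horiz

theorem X_small₁ : X ∈ 𝒪₁.nonunits :=
  (ValuationSubring.nonunits_le_nonunits.mpr H.le₁) H.X_mem₁

theorem unif_small₁ (i : ι) : algebraMap K F₂ (L.level i).ϖ ∈ 𝒪₁.nonunits :=
  (ValuationSubring.nonunits_le_nonunits.mpr H.le₁) (H.unif_mem₁ i)

theorem level_mem₁ (i : ι) {y : F} (hy : y ∈ (L.level i).R) : algebraMap F F₂ y ∈ 𝒪₁ :=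
  H.mem₁ i _ (algebraMap_mem_kummerAdj (L.level i).R X Y θ (⟨y, hy⟩ : (L.level i).R))

theorem c₀_mem₁ : algebraMap K F₂ (c₀ : K) ∈ 𝒪₁ := by
  obtain ⟨i, -⟩ := L.const 0
  rw [IsScalarTower.algebraMap_apply K F F₂]
  exact H.level_mem₁ i ((L.level i).const_mem _ (H.c₀_mem i) c₀.2)

theorem θ_unit₁ : 𝒪₁.valuation θ = 1 := by
  have hc : 𝒪₁.valuation (algebraMap K F₂ (c₀ : K)) = 1 := by
    have hc0 : (c₀ : K) ≠ 0 := by
      intro h0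
      have := H.c₀_unit
      rw [h0, map_zero] at this
      exact zero_ne_one this
    have hinvA : (c₀ : K)⁻¹ ∈ A := by
      rw [← A.valuation_le_one_iff, map_inv₀, H.c₀_unit, inv_one]
    obtain ⟨i, -⟩ := L.const 0
    have h1 : algebraMap K F₂ ((c₀ : K)⁻¹) ∈ 𝒪₁ := by
      rw [IsScalarTower.algebraMap_apply K F F₂]
      exact H.level_mem₁ i ((L.level i).const_mem _ (inv_mem (H.c₀_mem i)) hinvA)
    have h2 := (𝒪₁.valuation_le_one_iff _).mpr H.c₀_mem₁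
    have h3 := (𝒪₁.valuation_le_one_iff _).mpr h1
    rw [map_inv₀, map_inv₀] at h3
    have hne : 𝒪₁.valuation (algebraMap K F₂ (c₀ : K)) ≠ 0 := by
      rw [ne_eq, map_eq_zero, map_eq_zero]
      exact hc0
    exact le_antisymm h2 ((inv_le_one₀ (zero_lt_iff.mpr hne)).mp h3)
  have h1 := H.θ_small₁
  rw [𝒪₁.mem_nonunits_iff] at h1
  have e : θ = (θ - algebraMap K F₂ (c₀ : K)) + algebraMap K F₂ (c₀ : K) := by ring
  rw [e]
  rw [Valuation.map_add_eq_of_lt_right]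
  · exact hc
  · rw [hc]
    exact h1

theorem θ_ne : θ ≠ 0 := by
  intro h
  have := H.θ_unit₁
  rw [h, map_zero] at this
  exact zero_ne_one this

theorem θ_mem₁ : θ ∈ 𝒪₁ := (𝒪₁.valuation_le_one_iff _).mp H.θ_unit₁.le

theorem θ_inv_mem₁ : θ⁻¹ ∈ 𝒪₁ := by
  rw [← 𝒪₁.valuation_le_one_iff, map_inv₀, H.θ_unit₁, inv_one]

theorem X_mem𝒪₁ : X ∈ 𝒪₁ := H.mem₁ (Classical.choice ⟨(L.const 0).choose⟩) _
  (X_mem_kummerAdj _ X Y θ)

theorem Y_mem𝒪₁ : Y ∈ 𝒪₁ := H.mem₁ (Classical.choice ⟨(L.const 0).choose⟩) _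
  (Y_mem_kummerAdj _ X Y θ)

/-- the first coordinate of the base is small on `𝒪₁` -/
theorem u_small₁ : algebraMap F F₂ L.u ∈ 𝒪₁.nonunits := by
  rw [H.K1]
  obtain ⟨e, he⟩ : ∃ e, d = e + 1 := ⟨d - 1, by have := H.d_pos; omega⟩
  rw [he, pow_succ, ← mul_assoc]
  exact mem_mul_nonunits 𝒪₁ (𝒪₁.mul_mem _ _ H.θ_mem₁ (pow_mem H.X_mem𝒪₁ _)) H.X_small₁

/-- the second coordinate of the base is small on `𝒪₁` -/
theorem v_small₁ : algebraMap F F₂ L.v ∈ 𝒪₁.nonunits := by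
  obtain ⟨i, -⟩ := L.const 0
  have K2 : algebraMap F F₂ L.v * algebraMap F F₂ L.u =
      algebraMap F F₂ (algebraMap K F κ₀ * L.ε₀) * (X * Y) ^ d := by
    have e1 : algebraMap F F₂ (L.thick • L.ε₀) =
        algebraMap K F₂ L.thick * algebraMap F F₂ L.ε₀ := by
      rw [Algebra.smul_def, map_mul, ← IsScalarTower.algebraMap_apply]
    have e2 : algebraMap F F₂ (algebraMap K F κ₀ * L.ε₀) =
        algebraMap K F₂ κ₀ * algebraMap F F₂ L.ε₀ := by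
      rw [map_mul, ← IsScalarTower.algebraMap_apply]
    rw [← map_mul, mul_comm L.v L.u, L.uv, e1, e2, H.XY, H.thick_eq, map_mul, map_pow]
    ring
  rw [eq_mul_of_kummer H.d_pos H.X_ne H.θ_ne H.K1 K2]
  refine mem_mul_nonunits 𝒪₁ ?_ H.Y_small₁
  refine 𝒪₁.mul_mem _ _ (𝒪₁.mul_mem _ _ H.θ_inv_mem₁ ?_) (pow_mem H.Y_mem𝒪₁ _)
  exact H.level_mem₁ i ((L.level i).R.mul_mem
    ((L.level i).const_mem _ (H.κ₀_memK i) H.κ₀_mem) (L.level i).ε₀_mem)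

/-- **non-units of the base levels are small on `𝒪₁`** -/
theorem level_nonunit_small (i : ι) {r : (L.level i).R} (hr : ¬ IsUnit r) :
    algebraMap F F₂ (r : F) ∈ 𝒪₁.nonunits := by
  have h1 := (L.level i).nonunit_mem r hr
  rw [Ideal.mem_span_insert] at h1
  obtain ⟨a, z, hz, hrz⟩ := h1
  rw [Ideal.mem_span_pair] at hz
  obtain ⟨b, c, hbc⟩ := hz
  have e : (r : F) = (a : F) * algebraMap K F (L.level i).ϖ + ((b : F) * L.u + (c : F) * L.v) := by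
    have h2 : (r : F) = ((a * ⟨algebraMap K F (L.level i).ϖ, (L.level i).unif_memR⟩ + z :
        (L.level i).R) : F) := congrArg (fun t : (L.level i).R => (t : F)) hrz
    rw [h2, ← hbc]
    rfl
  rw [e, map_add, map_add, map_mul, map_mul, map_mul, ← IsScalarTower.algebraMap_apply K F F₂]
  refine nonunits_add 𝒪₁ (mem_mul_nonunits 𝒪₁ (H.level_mem₁ i a.2) (H.unif_small₁ i))
    (nonunits_add 𝒪₁ (mem_mul_nonunits 𝒪₁ (H.level_mem₁ i b.2) H.u_small₁)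
      (mem_mul_nonunits 𝒪₁ (H.level_mem₁ i c.2) H.v_small₁))

/-- **the places centred at a level of the Kummer sheet are the places of the sheet** (converse of
`centred`), WITHOUT the field `horiz` -/
theorem mem_kummerTube_of_centredAt (i : ι)
    (hT : ∀ P : Place K F, CentredAt A (L.level i).R P → P ∈ T) {P₂ : Place K F₂}
    (hP₂ : CentredAt A (kummerRing 𝒪₁ (H.mem₁ i)) P₂) : P₂ ∈ kummerTube A T X Y θ c₀ := by
  obtain ⟨hint, hcen⟩ := hP₂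
  haveI := isLocalRing_kummerRing 𝒪₁ (H.mem₁ i)
  have hsmall : ∀ z : kummerRing 𝒪₁ (H.mem₁ i), ¬ IsUnit z →
      ∃ e : K, IsValueAt P₂ (z : F₂) e ∧ A.valuation e < 1 := fun z hz =>
    ⟨evalAt P₂ (z : F₂), hint.isValueAt_evalAt z.2, (mem_centre_iff hint z).mp (hcen z hz)⟩
  have hmemR : ∀ r : (L.level i).R, algebraMap F F₂ (r : F) ∈ kummerRing 𝒪₁ (H.mem₁ i) :=
    fun r => algebraMap_mem_kummerRing 𝒪₁ (H.mem₁ i) r
  have hval : ∀ r : (L.level i).R, IsValueAt (P₂.restrict F) (r : F)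
      (evalAt P₂ (algebraMap F F₂ (r : F))) := fun r =>
    (isValueAt_restrict_iff P₂ (r : F) _).mpr (hint.isValueAt_evalAt (hmemR r))
  have hint' : IntegralAt A (L.level i).R (P₂.restrict F) := fun y hy =>
    ⟨_, hint.evalAt_mem (hmemR ⟨y, hy⟩), hval ⟨y, hy⟩⟩
  have hcL : algebraMap K F₂ (c₀ : K) ∈ kummerRing 𝒪₁ (H.mem₁ i) := by
    rw [IsScalarTower.algebraMap_apply K F F₂]
    exact hmemR ⟨_, (L.level i).const_mem _ (H.c₀_mem i) c₀.2⟩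
  refine ⟨hT _ ⟨hint', fun r hr => ?_⟩, ?_, ?_, ?_⟩
  · rw [mem_centre_iff, evalAt_eq_of_isValueAt (hval r)]
    exact (mem_centre_iff hint (toKummer 𝒪₁ (H.mem₁ i) r)).mp
      (hcen _ ((not_isUnit_iff_mem_nonunits 𝒪₁ (H.mem₁ i) _).mpr (H.level_nonunit_small i hr)))
  · exact hsmall (XK 𝒪₁ (H.mem₁ i))
      ((not_isUnit_iff_mem_nonunits 𝒪₁ (H.mem₁ i) _).mpr H.X_small₁)
  · exact hsmall (YK 𝒪₁ (H.mem₁ i))
      ((not_isUnit_iff_mem_nonunits 𝒪₁ (H.mem₁ i) _).mpr H.Y_small₁)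
  · obtain ⟨e, he, hlt⟩ := hsmall
      (θK 𝒪₁ (H.mem₁ i) - (⟨algebraMap K F₂ (c₀ : K), hcL⟩ : kummerRing 𝒪₁ (H.mem₁ i)))
      ((not_isUnit_iff_mem_nonunits 𝒪₁ (H.mem₁ i)
        (θK 𝒪₁ (H.mem₁ i) -
          (⟨algebraMap K F₂ (c₀ : K), hcL⟩ : kummerRing 𝒪₁ (H.mem₁ i)))).mpr H.θ_small₁)
    refine ⟨e + (c₀ : K), ?_, by rwa [add_sub_cancel_right]⟩
    have h1 : IsValueAt P₂ (θ - algebraMap K F₂ (c₀ : K)) e := he
    have := h1.add (isValueAt_algebraMap P₂ (c₀ : K))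
    rwa [sub_add_cancel] at this

end KummerPre

/-! ### Divisibility of the constants of a level -/

/-- a nonzero constant of `A ∩ K'` divides a power of the uniformizer of the level, in `A ∩ K'` -/
theorem const_dvd {u v ε₀ : F} {thick : K} (NL : NodeLevel A T u v ε₀ thick) {c : K}
    (hc0 : c ≠ 0) (hcA : c ∈ A) (hcK : c ∈ NL.K') :
    ∃ r : ℕ, ∃ t ∈ NL.K', t ∈ A ∧ c * t = NL.ϖ ^ r := by
  rcases lt_or_eq_of_le ((A.valuation_le_one_iff _).mpr hcA) with h | h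
  · obtain ⟨n, -, η, hηK, hη1, hcn⟩ := SubAnnChart.exists_eq_unif_pow_mul NL hc0 h hcK
    have hη0 : η ≠ 0 := by
      intro h0
      rw [h0, map_zero] at hη1
      exact zero_ne_one hη1
    refine ⟨n, η⁻¹, NL.K'.inv_mem hηK, ?_, ?_⟩
    · rw [← A.valuation_le_one_iff, map_inv₀, hη1, inv_one]
    · rw [hcn, mul_assoc, mul_inv_cancel₀ hη0, mul_one]
  · refine ⟨0, c⁻¹, NL.K'.inv_mem hcK, ?_, ?_⟩
    · rw [← A.valuation_le_one_iff, map_inv₀, h, inv_one]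
    · rw [mul_inv_cancel₀ hc0, pow_zero]

/-! ### The coordinates of the Kummer sheet -/

/-- `X = ϖ₂ / U` -/
def xOf (ϖ₂ : K) (U : F₂) : F₂ := algebraMap K F₂ ϖ₂ * U⁻¹

/-- `Y = U / ϖ₁` -/
def yOf (ϖ₁ : K) (U : F₂) : F₂ := U * (algebraMap K F₂ ϖ₁)⁻¹

/-- `θ = u / X ^ d` -/
def thetaOf (u : F) (ϖ₂ : K) (U : F₂) (d : ℕ) : F₂ := algebraMap F F₂ u * (xOf ϖ₂ U ^ d)⁻¹

theorem xOf_mul {ϖ₂ : K} {U : F₂} (hU : U ≠ 0) : xOf ϖ₂ U * U = algebraMap K F₂ ϖ₂ := by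
  rw [xOf, mul_assoc, inv_mul_cancel₀ hU, mul_one]

theorem mul_yOf {ϖ₁ : K} {U : F₂} (h : ϖ₁ ≠ 0) : algebraMap K F₂ ϖ₁ * yOf ϖ₁ U = U := by
  have h1 : algebraMap K F₂ ϖ₁ ≠ 0 := (_root_.map_ne_zero _).mpr h
  rw [yOf]
  field_simp

theorem xOf_ne {ϖ₂ : K} {U : F₂} (hU : U ≠ 0) (h : ϖ₂ ≠ 0) : xOf ϖ₂ U ≠ 0 :=
  mul_ne_zero ((_root_.map_ne_zero _).mpr h) (inv_ne_zero hU)

theorem xOf_mul_yOf {ϖ₁ ϖ₂ : K} {U : F₂} (hU : U ≠ 0) :
    xOf ϖ₂ U * yOf ϖ₁ U = algebraMap K F₂ (ϖ₂ / ϖ₁) := by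
  rw [xOf, yOf, map_div₀]
  field_simp

theorem thetaOf_mul (u : F) {ϖ₂ : K} {U : F₂} (d : ℕ) (hU : U ≠ 0) (h : ϖ₂ ≠ 0) :
    algebraMap F F₂ u = thetaOf u ϖ₂ U d * xOf ϖ₂ U ^ d := by
  rw [thetaOf, mul_assoc, inv_mul_cancel₀ (pow_ne_zero _ (xOf_ne hU h)), mul_one]

/-! ### The data of the vertical polynomial -/

/-- **The data of a Kummer sheet from the vertical polynomial.** -/
structure VertData (L : AnnulusLevels A T ι) (U : F₂) (c₀ : A) (κ₀ ϖ₂ γ₂ : K) (q d : ℕ)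
    (Bc A₀ Rr η₁ : F) (Hp : F[X]) (𝒪₁ 𝒪₂ O₁ O₂ : ValuationSubring F₂) : Prop where
  hq : q = 2 * d + 1
  hd : 1 ≤ d
  U_ne : U ≠ 0
  ϖ₂_ne : ϖ₂ ≠ 0
  thick₂_lt : A.valuation (ϖ₂ / L.thick) < 1
  thick_eq : L.thick = κ₀ * (ϖ₂ / L.thick) ^ d
  κ₀_mem : κ₀ ∈ A
  κ₀_memK : ∀ i, κ₀ ∈ (L.level i).K'
  ϖ₂_mem : ϖ₂ ∈ A
  ϖ₂_memK : ∀ i, ϖ₂ ∈ (L.level i).K'
  hγ₂ : (q : K) = γ₂ * ϖ₂ ^ (q - 1)
  γ₂_mem : γ₂ ∈ A
  γ₂_memK : ∀ i, γ₂ ∈ (L.level i).K'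
  q_lt : A.valuation (q : K) < 1
  two_unit : A.valuation (2 : K) = 1
  c₀_unit : A.valuation (c₀ : K) = 1
  c₀_mem : ∀ i, (c₀ : K) ∈ (L.level i).K'
  hmin : minpoly F U = X ^ q + C Bc * X ^ (q - 1) + C A₀ + C (q : F) * Hp
  hBc : Bc = L.u * η₁
  hAB : A₀ * Bc = -(q : F) * Rr
  η₁_ne : η₁ ≠ 0
  η₁_mem : ∀ i, η₁ ∈ (L.level i).R
  η₁_inv_mem : ∀ i, η₁⁻¹ ∈ (L.level i).R
  Rr_mem : ∀ i, Rr ∈ (L.level i).R
  A₀_mem : ∀ i, A₀ ∈ (L.level i).R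
  Hp_mem : ∀ i n, Hp.coeff n ∈ (L.level i).R
  hc₀ : ∀ i, ∀ h : algebraMap K F ((c₀ : K) ^ 2) - algebraMap K F γ₂ * Rr * η₁⁻¹ ^ 2 ∈
    (L.level i).R, ¬ IsUnit (⟨_, h⟩ : (L.level i).R)
  le₁ : 𝒪₁ ≤ O₁
  le₂ : 𝒪₂ ≤ O₂
  level_mem₁ : ∀ i, ∀ y ∈ (L.level i).R, algebraMap F F₂ y ∈ 𝒪₁
  level_mem₂ : ∀ i, ∀ y ∈ (L.level i).R, algebraMap F F₂ y ∈ 𝒪₂
  const₁ : ∀ c : K, A.valuation c < 1 → algebraMap K F₂ c ∈ O₁.nonunits
  const₂ : ∀ c : K, A.valuation c < 1 → algebraMap K F₂ c ∈ O₂.nonunits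
  X_mem₁ : xOf ϖ₂ U ∈ O₁.nonunits
  Y_notMem₁ : yOf L.thick U ∉ O₁.nonunits
  Y_mem₂ : yOf L.thick U ∈ O₂.nonunits
  X_notMem₂ : xOf ϖ₂ U ∉ O₂.nonunits
  Y_small₁ : yOf L.thick U ∈ 𝒪₁.nonunits
  X_small₂ : xOf ϖ₂ U ∈ 𝒪₂.nonunits
  θ_small₁ : thetaOf L.u ϖ₂ U d - algebraMap K F₂ (c₀ : K) ∈ 𝒪₁.nonunits
  θ_small₂ : thetaOf L.u ϖ₂ U d - algebraMap K F₂ (c₀ : K) ∈ 𝒪₂.nonunits
  gen : ∀ y : F₂, ∃ p : F[X], aeval U p = y
  finite_div : ∀ y : F₂, y ≠ 0 → {P : Place K F₂ | P.ord y ≠ 0}.Finite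

namespace VertData

variable {L : AnnulusLevels A T ι} {U : F₂} {c₀ : A} {κ₀ ϖ₂ γ₂ : K} {q d : ℕ}
  {Bc A₀ Rr η₁ : F} {Hp : F[X]} {𝒪₁ 𝒪₂ O₁ O₂ : ValuationSubring F₂}
  (V : VertData L U c₀ κ₀ ϖ₂ γ₂ q d Bc A₀ Rr η₁ Hp 𝒪₁ 𝒪₂ O₁ O₂)

include V

theorem thick₂_ne : ϖ₂ / L.thick ≠ 0 := div_ne_zero V.ϖ₂_ne L.thick_ne

theorem X_small₁ : xOf ϖ₂ U ∈ 𝒪₁.nonunits :=
  (ValuationSubring.nonunits_le_nonunits.mpr V.le₁) V.X_mem₁

theorem Y_small₂ : yOf L.thick U ∈ 𝒪₂.nonunits :=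
  (ValuationSubring.nonunits_le_nonunits.mpr V.le₂) V.Y_mem₂

theorem c₀_mem𝒪₁ : algebraMap K F₂ (c₀ : K) ∈ 𝒪₁ := by
  obtain ⟨i, -⟩ := L.const 0
  rw [IsScalarTower.algebraMap_apply K F F₂]
  exact V.level_mem₁ i _ ((L.level i).const_mem _ (V.c₀_mem i) c₀.2)

theorem c₀_mem𝒪₂ : algebraMap K F₂ (c₀ : K) ∈ 𝒪₂ := by
  obtain ⟨i, -⟩ := L.const 0
  rw [IsScalarTower.algebraMap_apply K F F₂]
  exact V.level_mem₂ i _ ((L.level i).const_mem _ (V.c₀_mem i) c₀.2)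

theorem θ_mem𝒪₁ : thetaOf L.u ϖ₂ U d ∈ 𝒪₁ := by
  have h := 𝒪₁.add_mem _ _ (ValuationSubring.nonunits_subset V.θ_small₁) V.c₀_mem𝒪₁
  rwa [sub_add_cancel] at h

theorem θ_mem𝒪₂ : thetaOf L.u ϖ₂ U d ∈ 𝒪₂ := by
  have h := 𝒪₂.add_mem _ _ (ValuationSubring.nonunits_subset V.θ_small₂) V.c₀_mem𝒪₂
  rwa [sub_add_cancel] at h

/-- the field `mem₁` -/
theorem mem₁ (i : ι) :
    ∀ x ∈ kummerAdj (L.level i).R (xOf ϖ₂ U) (yOf L.thick U) (thetaOf L.u ϖ₂ U d), x ∈ 𝒪₁ :=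
  kummerAdj_le (S := 𝒪₁.toSubring) (fun r => V.level_mem₁ i _ r.2)
    (ValuationSubring.nonunits_subset V.X_small₁) (ValuationSubring.nonunits_subset V.Y_small₁)
    V.θ_mem𝒪₁

/-- the field `mem₂` -/
theorem mem₂ (i : ι) :
    ∀ x ∈ kummerAdj (L.level i).R (xOf ϖ₂ U) (yOf L.thick U) (thetaOf L.u ϖ₂ U d), x ∈ 𝒪₂ :=
  kummerAdj_le (S := 𝒪₂.toSubring) (fun r => V.level_mem₂ i _ r.2)
    (ValuationSubring.nonunits_subset V.X_small₂) (ValuationSubring.nonunits_subset V.Y_small₂)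
    V.θ_mem𝒪₂

/-! #### The local rings -/

/-- the local ring of the Kummer sheet over the level `i` -/
abbrev ring (i : ι) : Subring F₂ := kummerRing 𝒪₁ (V.mem₁ i)

theorem level_mem_ring (i : ι) {y : F} (hy : y ∈ (L.level i).R) :
    algebraMap F F₂ y ∈ V.ring i :=
  algebraMap_mem_kummerRing 𝒪₁ (V.mem₁ i) (⟨y, hy⟩ : (L.level i).R)

theorem const_mem_ring (i : ι) {c : K} (hc : c ∈ (L.level i).K') (hcA : c ∈ A) :
    algebraMap K F₂ c ∈ V.ring i := by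
  rw [IsScalarTower.algebraMap_apply K F F₂]
  exact V.level_mem_ring i ((L.level i).const_mem c hc hcA)

theorem thick_mem_A : L.thick ∈ A := (A.valuation_le_one_iff _).mp L.thick_lt.le

theorem X_mem_ring (i : ι) : xOf ϖ₂ U ∈ V.ring i := X_mem_kummerRing 𝒪₁ (V.mem₁ i)

theorem Y_mem_ring (i : ι) : yOf L.thick U ∈ V.ring i := Y_mem_kummerRing 𝒪₁ (V.mem₁ i)

theorem θ_mem_ring (i : ι) : thetaOf L.u ϖ₂ U d ∈ V.ring i := θ_mem_kummerRing 𝒪₁ (V.mem₁ i)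

theorem U_mem_ring (i : ι) : U ∈ V.ring i := by
  have h := (V.ring i).mul_mem (V.const_mem_ring i (L.level i).thick_mem V.thick_mem_A)
    (V.Y_mem_ring i)
  rwa [mul_yOf L.thick_ne] at h

theorem aeval_mem_ring (i : ι) {p : F[X]} (hp : ∀ n, p.coeff n ∈ (L.level i).R) :
    aeval U p ∈ V.ring i := by
  rw [aeval_eq_sum_range]
  refine Subring.sum_mem _ fun n _ => ?_
  rw [Algebra.smul_def]
  exact (V.ring i).mul_mem (V.level_mem_ring i (hp n)) ((V.ring i).pow_mem (V.U_mem_ring i) n)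

theorem c₀_ne : (c₀ : K) ≠ 0 := by
  intro h0
  have := V.c₀_unit
  rw [h0, map_zero] at this
  exact zero_ne_one this

theorem cL_isUnit (i : ι) :
    IsUnit (⟨algebraMap K F (c₀ : K), (L.level i).const_mem _ (V.c₀_mem i) c₀.2⟩ :
      (L.level i).R) := by
  have hinvA : (c₀ : K)⁻¹ ∈ A := by
    rw [← A.valuation_le_one_iff, map_inv₀, V.c₀_unit, inv_one]
  refine IsUnit.of_mul_eq_one (⟨algebraMap K F ((c₀ : K)⁻¹),
    (L.level i).const_mem _ (inv_mem (V.c₀_mem i)) hinvA⟩ : (L.level i).R) ?_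
  apply Subtype.ext
  show algebraMap K F (c₀ : K) * algebraMap K F ((c₀ : K)⁻¹) = 1
  rw [← map_mul, mul_inv_cancel₀ V.c₀_ne, map_one]

theorem θ_notMem₁ : thetaOf L.u ϖ₂ U d ∉ 𝒪₁.nonunits := by
  obtain ⟨i, -⟩ := L.const 0
  refine theta_notMem_nonunits 𝒪₁ (V.mem₁ i) (V.cL_isUnit i) ?_
  have e : algebraMap (L.level i).R F₂
      (⟨algebraMap K F (c₀ : K), (L.level i).const_mem _ (V.c₀_mem i) c₀.2⟩ : (L.level i).R) =
      algebraMap K F₂ (c₀ : K) := (IsScalarTower.algebraMap_apply K F F₂ _).symm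
  rw [e]
  exact V.θ_small₁

theorem θ_ne : thetaOf L.u ϖ₂ U d ≠ 0 := fun h => V.θ_notMem₁ (h ▸ zero_mem_nonunits 𝒪₁)

theorem θ_inv_mem_ring (i : ι) : (thetaOf L.u ϖ₂ U d)⁻¹ ∈ V.ring i :=
  inv_theta_mem_kummerRing 𝒪₁ (V.mem₁ i) V.θ_notMem₁

theorem η₁_inv_mem_ring (i : ι) : (algebraMap F F₂ η₁)⁻¹ ∈ V.ring i := by
  rw [← map_inv₀]
  exact V.level_mem_ring i (V.η₁_inv_mem i)

/-! #### The relations in the cover -/

theorem hX : xOf ϖ₂ U * U = algebraMap K F₂ ϖ₂ := xOf_mul V.U_ne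

theorem hY : algebraMap K F₂ L.thick * yOf L.thick U = U := mul_yOf L.thick_ne

theorem XY : xOf ϖ₂ U * yOf L.thick U = algebraMap K F₂ (ϖ₂ / L.thick) := xOf_mul_yOf V.U_ne

theorem K1 : algebraMap F F₂ L.u = thetaOf L.u ϖ₂ U d * xOf ϖ₂ U ^ d :=
  thetaOf_mul L.u d V.U_ne V.ϖ₂_ne

theorem hBc' : algebraMap F F₂ Bc = algebraMap F F₂ L.u * algebraMap F F₂ η₁ := by
  rw [V.hBc, map_mul]

theorem hAB' : algebraMap F F₂ A₀ * algebraMap F F₂ Bc = -(q : F₂) * algebraMap F F₂ Rr := by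
  rw [← map_mul, V.hAB, map_mul, map_neg, map_natCast]

theorem hγ₂' : (q : F₂) = algebraMap K F₂ γ₂ * algebraMap K F₂ ϖ₂ ^ (q - 1) := by
  rw [← map_pow, ← map_mul, ← V.hγ₂, map_natCast]

theorem hκ₁' : algebraMap K F₂ L.thick =
    algebraMap K F₂ κ₀ * (xOf ϖ₂ U * yOf L.thick U) ^ d := by
  rw [V.XY, ← map_pow, ← map_mul, ← V.thick_eq]

theorem hroot : U ^ q + algebraMap F F₂ Bc * U ^ (q - 1) + algebraMap F F₂ A₀ +
    (q : F₂) * aeval U Hp = 0 := by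
  have h := minpoly.aeval F U
  rw [V.hmin] at h
  simpa [map_natCast] using h

/-- **(K3)** -/
theorem K3 (i : ι) : ∃ P : (L.level i).R[X],
    P.eval (⟨algebraMap K F (c₀ : K), (L.level i).const_mem _ (V.c₀_mem i) c₀.2⟩ :
      (L.level i).R) ∈ maximalIdeal (L.level i).R ∧
    IsUnit (P.derivative.eval
      (⟨algebraMap K F (c₀ : K), (L.level i).const_mem _ (V.c₀_mem i) c₀.2⟩ : (L.level i).R)) ∧
    ∃ a ∈ V.ring i, ∃ b ∈ V.ring i, ∃ e ∈ V.ring i,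
      aeval (thetaOf L.u ϖ₂ U d) P =
        a * algebraMap K F₂ (L.level i).ϖ + b * xOf ϖ₂ U + e * yOf L.thick U := by
  have hρmem : algebraMap K F γ₂ * Rr * η₁⁻¹ ^ 2 ∈ (L.level i).R :=
    (L.level i).R.mul_mem ((L.level i).R.mul_mem
      ((L.level i).const_mem _ (V.γ₂_memK i) V.γ₂_mem) (V.Rr_mem i))
      ((L.level i).R.pow_mem (V.η₁_inv_mem i) 2)
  have hcmem : algebraMap K F (c₀ : K) ∈ (L.level i).R :=
    (L.level i).const_mem _ (V.c₀_mem i) c₀.2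
  have key := KummerVert.theta_sq_sub_eq (U := U) (X := xOf ϖ₂ U) (Y := yOf L.thick U)
    (θ := thetaOf L.u ϖ₂ U d) (u' := algebraMap F F₂ L.u) (Bc := algebraMap F F₂ Bc)
    (A₀ := algebraMap F F₂ A₀) (Rr := algebraMap F F₂ Rr) (HU := aeval U Hp)
    (η₁ := algebraMap F F₂ η₁) (ϖ₁ := algebraMap K F₂ L.thick) (ϖ₂ := algebraMap K F₂ ϖ₂)
    (κ₁ := algebraMap K F₂ κ₀) (γ₂ := algebraMap K F₂ γ₂) (qq := (q : F₂)) V.hq V.hd V.hX V.hY
    ((_root_.map_ne_zero _).mpr V.ϖ₂_ne) ((_root_.map_ne_zero _).mpr V.η₁_ne) V.hBc' V.K1 V.hAB'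
    V.hroot V.hγ₂' V.hκ₁'
  refine ⟨X * X - C (⟨_, hρmem⟩ : (L.level i).R), ?_, ?_, 0, (V.ring i).zero_mem,
    -(thetaOf L.u ϖ₂ U d * (algebraMap F F₂ η₁)⁻¹ * algebraMap K F₂ γ₂ * xOf ϖ₂ U ^ (d - 1) *
      aeval U Hp), ?_,
    -(thetaOf L.u ϖ₂ U d * (algebraMap F F₂ η₁)⁻¹ * algebraMap K F₂ κ₀ * yOf L.thick U ^ d), ?_,
    ?_⟩
  · rw [eval_sub, eval_mul, eval_X, eval_C, mem_maximalIdeal, mem_nonunits_iff]
    have hmem : algebraMap K F ((c₀ : K) ^ 2) - algebraMap K F γ₂ * Rr * η₁⁻¹ ^ 2 ∈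
        (L.level i).R :=
      (L.level i).R.sub_mem ((L.level i).const_mem _ (pow_mem (V.c₀_mem i) 2) (pow_mem c₀.2 2))
        hρmem
    have h1 := V.hc₀ i hmem
    have e : (⟨algebraMap K F (c₀ : K), hcmem⟩ : (L.level i).R) * ⟨algebraMap K F (c₀ : K), hcmem⟩ -
        ⟨_, hρmem⟩ = ⟨_, hmem⟩ := by
      apply Subtype.ext
      show algebraMap K F (c₀ : K) * algebraMap K F (c₀ : K) -
        algebraMap K F γ₂ * Rr * η₁⁻¹ ^ 2 =
        algebraMap K F ((c₀ : K) ^ 2) - algebraMap K F γ₂ * Rr * η₁⁻¹ ^ 2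
      rw [map_pow]
      ring
    rw [e]
    exact h1
  · have hder : derivative (X * X - C (⟨_, hρmem⟩ : (L.level i).R)) = X + X := by
      rw [derivative_sub, derivative_C, sub_zero, derivative_mul, derivative_X, one_mul, mul_one]
    rw [hder, eval_add, eval_X]
    have h2c : (c₀ : K) + (c₀ : K) ≠ 0 := by
      intro h0
      have h1 : A.valuation ((c₀ : K) + (c₀ : K)) = 1 := by
        rw [← two_mul, map_mul, V.two_unit, V.c₀_unit, one_mul]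
      rw [h0, map_zero] at h1
      exact zero_ne_one h1
    have hinvA : ((c₀ : K) + (c₀ : K))⁻¹ ∈ A := by
      rw [← A.valuation_le_one_iff, map_inv₀, ← two_mul, map_mul, V.two_unit, V.c₀_unit, one_mul,
        inv_one]
    refine IsUnit.of_mul_eq_one (⟨algebraMap K F (((c₀ : K) + (c₀ : K))⁻¹),
      (L.level i).const_mem _ (inv_mem (add_mem (V.c₀_mem i) (V.c₀_mem i))) hinvA⟩ :
        (L.level i).R) ?_
    apply Subtype.ext
    show (algebraMap K F (c₀ : K) + algebraMap K F (c₀ : K)) *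
      algebraMap K F (((c₀ : K) + (c₀ : K))⁻¹) = 1
    rw [← map_add, ← map_mul, mul_inv_cancel₀ h2c, map_one]
  · refine (V.ring i).neg_mem ((V.ring i).mul_mem ((V.ring i).mul_mem ((V.ring i).mul_mem
      ((V.ring i).mul_mem (V.θ_mem_ring i) (V.η₁_inv_mem_ring i))
      (V.const_mem_ring i (V.γ₂_memK i) V.γ₂_mem)) ((V.ring i).pow_mem (V.X_mem_ring i) _)) ?_)
    exact V.aeval_mem_ring i (V.Hp_mem i)
  · exact (V.ring i).neg_mem ((V.ring i).mul_mem ((V.ring i).mul_mem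
      ((V.ring i).mul_mem (V.θ_mem_ring i) (V.η₁_inv_mem_ring i))
      (V.const_mem_ring i (V.κ₀_memK i) V.κ₀_mem)) ((V.ring i).pow_mem (V.Y_mem_ring i) _))
  · have e1 : aeval (thetaOf L.u ϖ₂ U d) (X * X - C (⟨_, hρmem⟩ : (L.level i).R)) =
        thetaOf L.u ϖ₂ U d ^ 2 -
          algebraMap K F₂ γ₂ * algebraMap F F₂ Rr * (algebraMap F F₂ η₁)⁻¹ ^ 2 := by
      rw [map_sub, map_mul, aeval_X, aeval_C, ← pow_two]
      congr 1
      show algebraMap F F₂ (algebraMap K F γ₂ * Rr * η₁⁻¹ ^ 2) = _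
      rw [map_mul, map_mul, map_pow, map_inv₀, ← IsScalarTower.algebraMap_apply K F F₂]
    rw [e1, key, zero_mul, zero_add]

/-! #### Integrality and the different -/

theorem isIntegral_U : IsIntegral F U := Algebra.IsIntegral.isIntegral U

theorem Bc_mem (i : ι) : Bc ∈ (L.level i).R := by
  rw [V.hBc]
  exact (L.level i).R.mul_mem (L.level i).u_mem (V.η₁_mem i)

/-- the vertical polynomial over the level `i` -/
theorem exists_lift (i : ι) :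
    ∃ P : (L.level i).R[X], P.Monic ∧ P.map (L.level i).R.subtype = minpoly F U := by
  have hHp : Hp ∈ lifts (L.level i).R.subtype :=
    (lifts_iff_coeff_lifts _).mpr fun n => ⟨⟨Hp.coeff n, V.Hp_mem i n⟩, rfl⟩
  have hC : ∀ a : F, a ∈ (L.level i).R → C a ∈ lifts (L.level i).R.subtype := fun a ha =>
    C_mem_lifts (L.level i).R.subtype (⟨a, ha⟩ : (L.level i).R)
  have hl : minpoly F U ∈ lifts (L.level i).R.subtype := by
    rw [V.hmin]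
    refine add_mem (add_mem (add_mem (pow_mem (X_mem_lifts _) q)
      (mul_mem (hC _ (V.Bc_mem i)) (pow_mem (X_mem_lifts _) (q - 1)))) (hC _ (V.A₀_mem i)))
      (mul_mem (hC _ (natCast_mem _ q)) hHp)
  obtain ⟨P, hP, -, hPm⟩ := lifts_and_natDegree_eq_and_monic hl (minpoly.monic V.isIntegral_U)
  exact ⟨P, hPm, hP⟩

theorem eval₂_lift (i : ι) (P : (L.level i).R[X]) :
    aeval U P = aeval U (P.map (L.level i).R.subtype) := by
  rw [aeval_def, aeval_def, eval₂_map]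
  rfl

/-- the field `U_int` -/
theorem U_int (i : ι) : IsIntegral (L.level i).R U := by
  obtain ⟨P, hPm, hP⟩ := V.exists_lift i
  refine ⟨P, hPm, ?_⟩
  rw [← aeval_def, V.eval₂_lift i P, hP]
  exact minpoly.aeval F U

theorem minpoly_level (i : ι) :
    (minpoly (L.level i).R U).map (L.level i).R.subtype = minpoly F U := by
  obtain ⟨P, hPm, hP⟩ := V.exists_lift i
  have h1 : minpoly (L.level i).R U = P := by
    apply EtaleLocal.minpoly_eq_of_irreducible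
      (SplitLevel.algebraMap_subring_injective (F₂ := F₂) (L.level i).R) hPm
    · apply Polynomial.Monic.irreducible_of_irreducible_map (L.level i).R.subtype _ hPm
      rw [hP]
      exact minpoly.irreducible V.isIntegral_U
    · rw [V.eval₂_lift i P, hP]
      exact minpoly.aeval F U
  rw [h1, hP]

theorem q_pos : 0 < q := by
  have := V.hq
  omega

theorem aeval_derivative_minpoly (i : ι) :
    aeval U (derivative (minpoly (L.level i).R U)) =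
      (q : F₂) * U ^ (q - 1) + ((q : F₂) - 1) * algebraMap F F₂ Bc * U ^ (q - 2) +
        (q : F₂) * aeval U (derivative Hp) := by
  rw [V.eval₂_lift i, ← derivative_map, V.minpoly_level i, V.hmin]
  have e : derivative (X ^ q + C Bc * X ^ (q - 1) + C A₀ + C (q : F) * Hp) =
      C (q : F) * X ^ (q - 1) + C Bc * (C ((q - 1 : ℕ) : F) * X ^ (q - 1 - 1)) +
        C (q : F) * derivative Hp := by
    rw [derivative_add, derivative_add, derivative_add, derivative_X_pow, derivative_C_mul,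
      derivative_X_pow, derivative_C, derivative_C_mul, add_zero]
  rw [e]
  have h1 : ((q - 1 : ℕ) : F₂) = (q : F₂) - 1 := Nat.cast_pred V.q_pos
  have h2 : q - 1 - 1 = q - 2 := by omega
  simp only [map_add, map_mul, map_pow, aeval_X, aeval_C, map_natCast, h1, h2]
  ring

theorem valuation_q_sub_one : A.valuation ((q : K) - 1) = 1 := by
  have h : A.valuation (q : K) < A.valuation (-1 : K) := by
    rw [Valuation.map_neg, map_one]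
    exact V.q_lt
  rw [sub_eq_add_neg, Valuation.map_add_eq_of_lt_right _ h, Valuation.map_neg, map_one]

theorem natCast_memK (i : ι) (n : ℕ) : (n : K) ∈ (L.level i).K' := natCast_mem _ n

/-- the constant `(ϖ₂ / thick)^d ϖ₂^(q-2)` -/
theorem hΨ (i : ι) : ∃ w ∈ V.ring i, ∃ r : ℕ,
    aeval U (derivative (minpoly (L.level i).R U)) * w = algebraMap K F₂ (L.level i).ϖ ^ r := by
  haveI := isLocalRing_kummerRing 𝒪₁ (V.mem₁ i)
  have hq1 : (q : F₂) - 1 ≠ 0 := by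
    rw [← Nat.cast_pred V.q_pos]
    have : q - 1 ≠ 0 := by
      have := V.hq
      have := V.hd
      omega
    exact Nat.cast_ne_zero.mpr this
  have hq1K : (q : K) - 1 ≠ 0 := by
    intro h0
    have := V.valuation_q_sub_one
    rw [h0, map_zero] at this
    exact zero_ne_one this
  have hq1i : ((q : F₂) - 1)⁻¹ ∈ V.ring i := by
    have e : ((q : F₂) - 1)⁻¹ = algebraMap K F₂ (((q : K) - 1)⁻¹) := by
      rw [map_inv₀, map_sub, map_natCast, map_one]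
    rw [e]
    refine V.const_mem_ring i (inv_mem (sub_mem (V.natCast_memK i q) (one_mem _))) ?_
    rw [← A.valuation_le_one_iff, map_inv₀, V.valuation_q_sub_one, inv_one]
  have hHD : aeval U (derivative Hp) ∈ V.ring i := by
    refine V.aeval_mem_ring i fun n => ?_
    rw [coeff_derivative]
    exact (L.level i).R.mul_mem (V.Hp_mem i _)
      (add_mem (natCast_mem _ n) (one_mem _))
  obtain ⟨w₁, hw₁, hw₁e⟩ := KummerVert.exists_deriv_mul_eq (V.ring i) (U := U)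
    (X := xOf ϖ₂ U) (Y := yOf L.thick U) (θ := thetaOf L.u ϖ₂ U d)
    (u' := algebraMap F F₂ L.u) (Bc := algebraMap F F₂ Bc) (H'U := aeval U (derivative Hp))
    (η₁ := algebraMap F F₂ η₁) (ϖ₁ := algebraMap K F₂ L.thick) (ϖ₂ := algebraMap K F₂ ϖ₂)
    (κ₁ := algebraMap K F₂ κ₀) (γ₂ := algebraMap K F₂ γ₂) (qq := (q : F₂)) V.hq V.hd V.hX V.hY
    ((_root_.map_ne_zero _).mpr V.ϖ₂_ne) ((_root_.map_ne_zero _).mpr V.η₁_ne) V.θ_ne hq1 V.hBc'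
    V.K1 V.hγ₂' V.hκ₁' (V.X_mem_ring i) (V.Y_mem_ring i) (V.U_mem_ring i) hHD
    (V.const_mem_ring i (V.κ₀_memK i) V.κ₀_mem) (V.const_mem_ring i (V.γ₂_memK i) V.γ₂_mem)
    (natCast_mem _ q) (V.θ_inv_mem_ring i) (V.η₁_inv_mem_ring i) hq1i
    ((not_isUnit_iff_mem_nonunits 𝒪₁ (V.mem₁ i) ⟨_, V.X_mem_ring i⟩).mpr V.X_small₁)
    ((not_isUnit_iff_mem_nonunits 𝒪₁ (V.mem₁ i) ⟨_, V.Y_mem_ring i⟩).mpr V.Y_small₁)
  -- the constant
  have hcK : (ϖ₂ / L.thick) ^ d * ϖ₂ ^ (q - 2) ∈ (L.level i).K' :=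
    mul_mem (pow_mem (div_mem (V.ϖ₂_memK i) (L.level i).thick_mem) d)
      (pow_mem (V.ϖ₂_memK i) _)
  have hcA : (ϖ₂ / L.thick) ^ d * ϖ₂ ^ (q - 2) ∈ A :=
    A.mul_mem _ _ (pow_mem ((A.valuation_le_one_iff _).mp V.thick₂_lt.le) d)
      (pow_mem V.ϖ₂_mem _)
  have hc0 : (ϖ₂ / L.thick) ^ d * ϖ₂ ^ (q - 2) ≠ 0 :=
    mul_ne_zero (pow_ne_zero _ V.thick₂_ne) (pow_ne_zero _ V.ϖ₂_ne)
  obtain ⟨r, t, htK, htA, hct⟩ := const_dvd (L.level i) hc0 hcA hcK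
  refine ⟨w₁ * algebraMap K F₂ t, (V.ring i).mul_mem hw₁ (V.const_mem_ring i htK htA), r, ?_⟩
  rw [V.aeval_derivative_minpoly i, ← mul_assoc, hw₁e, V.XY, ← map_pow, ← map_pow, ← map_mul,
    ← map_mul, hct, map_pow]

/-! #### Denominators -/

theorem const_mem_adjoin (i : ι) {c : K} (hc : c ∈ (L.level i).K') (hcA : c ∈ A) :
    algebraMap K F₂ c ∈ Algebra.adjoin (L.level i).R ({U} : Set F₂) := by
  have e : algebraMap K F₂ c = algebraMap (L.level i).R F₂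
      (⟨algebraMap K F c, (L.level i).const_mem c hc hcA⟩ : (L.level i).R) :=
    IsScalarTower.algebraMap_apply K F F₂ c
  rw [e]
  exact Subalgebra.algebraMap_mem _ _

theorem U_mem_adjoin (i : ι) : U ∈ Algebra.adjoin (L.level i).R ({U} : Set F₂) :=
  Algebra.subset_adjoin (Set.mem_singleton U)

theorem ϖ₂_dvd (i : ι) : ∃ r : ℕ, ∃ t ∈ (L.level i).K', t ∈ A ∧ ϖ₂ * t = (L.level i).ϖ ^ r :=
  const_dvd (L.level i) V.ϖ₂_ne V.ϖ₂_mem (V.ϖ₂_memK i)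

theorem den_X (i : ι) : KummerEuler.HasDen (L.level i).R U (algebraMap K F₂ (L.level i).ϖ)
    (V.ring i) (xOf ϖ₂ U) := by
  obtain ⟨r, t, htK, htA, ht⟩ := V.ϖ₂_dvd i
  refine ⟨U, V.U_mem_adjoin i, V.U_ne, ?_, xOf ϖ₂ U * algebraMap K F₂ t,
    (V.ring i).mul_mem (V.X_mem_ring i) (V.const_mem_ring i htK htA), r, ?_⟩
  · rw [mul_comm, V.hX]
    exact V.const_mem_adjoin i (V.ϖ₂_memK i) V.ϖ₂_mem
  · rw [← mul_assoc, mul_comm U, V.hX, ← map_mul, ht, map_pow]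

theorem den_Y (i : ι) : KummerEuler.HasDen (L.level i).R U (algebraMap K F₂ (L.level i).ϖ)
    (V.ring i) (yOf L.thick U) := by
  obtain ⟨r, t, htK, htA, ht⟩ := const_dvd (L.level i) L.thick_ne V.thick_mem_A
    (L.level i).thick_mem
  refine ⟨algebraMap K F₂ L.thick, V.const_mem_adjoin i (L.level i).thick_mem V.thick_mem_A,
    (_root_.map_ne_zero _).mpr L.thick_ne, ?_, algebraMap K F₂ t, V.const_mem_ring i htK htA, r, ?_⟩
  · rw [V.hY]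
    exact V.U_mem_adjoin i
  · rw [← map_mul, ht, map_pow]

theorem den_θ (i : ι) : KummerEuler.HasDen (L.level i).R U (algebraMap K F₂ (L.level i).ϖ)
    (V.ring i) (thetaOf L.u ϖ₂ U d) := by
  obtain ⟨r, t, htK, htA, ht⟩ := V.ϖ₂_dvd i
  have hθe : algebraMap K F₂ ϖ₂ ^ d * thetaOf L.u ϖ₂ U d = algebraMap F F₂ L.u * U ^ d := by
    have h1 := V.K1
    have h2 := V.hX
    rw [h1, ← h2, mul_pow]
    ring
  refine ⟨algebraMap K F₂ ϖ₂ ^ d,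
    Subalgebra.pow_mem _ (V.const_mem_adjoin i (V.ϖ₂_memK i) V.ϖ₂_mem) d,
    pow_ne_zero _ ((_root_.map_ne_zero _).mpr V.ϖ₂_ne), ?_, algebraMap K F₂ t ^ d,
    (V.ring i).pow_mem (V.const_mem_ring i htK htA) d, r * d, ?_⟩
  · rw [hθe]
    refine Subalgebra.mul_mem _ ?_ (Subalgebra.pow_mem _ (V.U_mem_adjoin i) d)
    exact Subalgebra.algebraMap_mem _ (⟨L.u, (L.level i).u_mem⟩ : (L.level i).R)
  · rw [← mul_pow, ← map_mul, ht, map_pow, ← pow_mul]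

/-! #### The output -/

/-- **The hypotheses of the Kummer sheet (without `horiz`) from the vertical polynomial.** -/
theorem kummerPre : KummerPre L (xOf ϖ₂ U) (yOf L.thick U) (thetaOf L.u ϖ₂ U d) U c₀ κ₀
    (ϖ₂ / L.thick) d 𝒪₁ 𝒪₂ O₁ O₂ where
  d_pos := V.hd
  thick₂_ne := V.thick₂_ne
  thick₂_lt := V.thick₂_lt
  XY := V.XY
  thick_eq := V.thick_eq
  κ₀_mem := V.κ₀_mem
  X_ne := xOf_ne V.U_ne V.ϖ₂_ne
  K1 := V.K1
  c₀_unit := V.c₀_unit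
  c₀_mem := V.c₀_mem
  κ₀_memK := V.κ₀_memK
  thick₂_mem := fun i => div_mem (V.ϖ₂_memK i) (L.level i).thick_mem
  le₁ := V.le₁
  le₂ := V.le₂
  mem₁ := V.mem₁
  mem₂ := V.mem₂
  unif_mem₁ := fun i => V.const₁ _ (L.level i).unif_lt
  unif_mem₂ := fun i => V.const₂ _ (L.level i).unif_lt
  X_mem₁ := V.X_mem₁
  Y_notMem₁ := V.Y_notMem₁
  Y_mem₂ := V.Y_mem₂
  X_notMem₂ := V.X_notMem₂
  Y_small₁ := V.Y_small₁
  X_small₂ := V.X_small₂
  θ_small₁ := V.θ_small₁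
  θ_small₂ := V.θ_small₂
  K3 := V.K3
  U_int := V.U_int
  U_mem := V.U_mem_ring
  den_X := V.den_X
  den_Y := V.den_Y
  den_θ := V.den_θ
  hΨ := V.hΨ
  gen := V.gen
  finite_div := V.finite_div

end VertData

/-! ### The field `horiz` in the modular frame -/

section Frame

open ModularCurve Fermat.Agent.X0 Fermat.Agent.BR.Inst.FKCover Fermat.Agent.BR.S0.HorizProvider

variable {N₂ : ℕ} [NeZero N₂] {F : Type*} [Field F] [Algebra Kb F] [Algebra F (Fb N₂)]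
  [IsScalarTower Kb F (Fb N₂)] [Algebra.IsIntegral F (Fb N₂)]
  {A : ValuationSubring Kb} {T : Set (Place Kb F)} {ι : Type*}
  {L : AnnulusLevels A T ι} {X Y θ U : Fb N₂} {c₀ : A} {κ₀ thick₂ : Kb} {d : ℕ}
  {𝒪₁ 𝒪₂ O₁ O₂ : ValuationSubring (Fb N₂)}

/-- **The K-point existence lemma for the local rings of the Kummer sheet, in the modular frame**:
`F₂ = F̄_{N₂}`, the level rings and `X`, `Y`, `θ` lie in the function fields `FKs N₂ K'` of the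
levels, and the converse of `centred` holds downstairs. -/
theorem KummerPre.horiz_frame (H : KummerPre L X Y θ U c₀ κ₀ thick₂ d 𝒪₁ 𝒪₂ O₁ O₂) (i : ι)
    (hRFK : ∀ y ∈ (L.level i).R, algebraMap F (Fb N₂) y ∈ FKs N₂ (L.level i).K')
    (hX : X ∈ FKs N₂ (L.level i).K') (hY : Y ∈ FKs N₂ (L.level i).K')
    (hθ : θ ∈ FKs N₂ (L.level i).K')
    (hT : ∀ P : Place Kb F, CentredAt A (L.level i).R P → P ∈ T) :
    ∀ Q : Ideal (kummerRing 𝒪₁ (H.mem₁ i)), Q.IsPrime → Q.height = 1 →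
      toKummer 𝒪₁ (H.mem₁ i) (piL L i) ∉ Q →
      ∃ P ∈ kummerTube A T X Y θ c₀,
        ∀ x : kummerRing 𝒪₁ (H.mem₁ i), x ∈ Q ↔ evalAt P (x : Fb N₂) = 0 := by
  haveI := isLocalRing_kummerRing 𝒪₁ (H.mem₁ i)
  have hconst : ∀ c ∈ (L.level i).K', c ∈ A →
      algebraMap Kb (Fb N₂) c ∈ kummerRing 𝒪₁ (H.mem₁ i) := by
    intro c hc hcA
    rw [IsScalarTower.algebraMap_apply Kb F (Fb N₂)]
    exact algebraMap_mem_kummerRing 𝒪₁ (H.mem₁ i)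
      (⟨algebraMap Kb F c, (L.level i).const_mem c hc hcA⟩ : (L.level i).R)
  have hϖR : algebraMap Kb (Fb N₂) (L.level i).ϖ ∈ kummerRing 𝒪₁ (H.mem₁ i) :=
    hconst _ (L.level i).unif_mem ((A.valuation_le_one_iff _).mp (L.level i).unif_lt.le)
  have hϖeq : (⟨algebraMap Kb (Fb N₂) (L.level i).ϖ, hϖR⟩ : kummerRing 𝒪₁ (H.mem₁ i)) =
      toKummer 𝒪₁ (H.mem₁ i) (piL L i) :=
    Subtype.ext (IsScalarTower.algebraMap_apply Kb F (Fb N₂) (L.level i).ϖ)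
  have hϖnu : ¬ IsUnit (⟨algebraMap Kb (Fb N₂) (L.level i).ϖ, hϖR⟩ :
      kummerRing 𝒪₁ (H.mem₁ i)) :=
    (not_isUnit_iff_mem_nonunits 𝒪₁ (H.mem₁ i) _).mpr (H.unif_small₁ i)
  have hle : ∀ y ∈ kummerRing 𝒪₁ (H.mem₁ i), y ∈ FKs N₂ (L.level i).K' := fun y hy =>
    KummerEndPlaces.kummerRing_le_subfield 𝒪₁ (H.mem₁ i) (FKs N₂ (L.level i).K')
      (fun r => hRFK r r.2) hX hY hθ hy
  have key := horiz_smooth_frame (A := A) (K' := ofSubfield (L.level i).K')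
    (R := kummerRing 𝒪₁ (H.mem₁ i)) hle hconst (L.level i).unif_mem (L.level i).unif_ne
    (L.level i).unif_lt
    (fun x hx hx0 => SubAnnChart.exists_zpow_of_mem_K' (L.level i) hx hx0) hϖR hϖnu
    (T := kummerTube A T X Y θ c₀)
    (fun P hP => H.mem_kummerTube_of_centredAt i hT hP)
  intro Q hQ hht hϖQ
  rw [← hϖeq] at hϖQ
  exact key Q hQ hht hϖQ

/-- **The hypotheses of the Kummer sheet in the modular frame**, `horiz` discharged. -/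
theorem KummerPre.toHyp_frame (H : KummerPre L X Y θ U c₀ κ₀ thick₂ d 𝒪₁ 𝒪₂ O₁ O₂)
    (hRFK : ∀ i, ∀ y ∈ (L.level i).R, algebraMap F (Fb N₂) y ∈ FKs N₂ (L.level i).K')
    (hX : ∀ i, X ∈ FKs N₂ (L.level i).K') (hY : ∀ i, Y ∈ FKs N₂ (L.level i).K')
    (hθ : ∀ i, θ ∈ FKs N₂ (L.level i).K')
    (hT : ∀ i, ∀ P : Place Kb F, CentredAt A (L.level i).R P → P ∈ T) :
    KummerHyp L X Y θ U c₀ κ₀ thick₂ d 𝒪₁ 𝒪₂ O₁ O₂ :=
  H.toHyp fun i => H.horiz_frame i (hRFK i) (hX i) (hY i) (hθ i) (hT i)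

end Frame

end Fermat.Agent.BR3.KummerOfVert
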