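/-
Program C (S36), node (I7-N-KUM), layer 2b-1 (helper8): THE VALUATION-THEORETIC HALF OF THE DATA OF A
KUMMER SHEET, from the two components of the cover through the node.

Base: `L : AnnulusLevels A T ι` the levels of a node of (a model of) `F`, with branch data
`X₁ : BranchComp π O₁b res₁b Q₁b L` on the component where `L.u` vanishes (for the outer node of
`S'ref_a`: the circle component `E`) and `X₂ : BranchComp π O₂b res₂b Q₂b L` on the component where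
`L.v` vanishes (`'can'`).  Cover: `(O₁, res₁, Q₁)` over `(O₁b, res₁b, Q₁b)` (the vertical component
`z e` with its Kummer point), `(O₂, res₂, Q₂)` over `(O₂b, res₂b, Q₂b)` (a middle component with its
place over `e`): `OverComp`.

* `OverComp` ; `OverComp.level_mem` (the levels of the base lie in the composite valuation ring of
  the point of the cover), `OverComp.const_nonunits`, `OverComp.ofCoverComp`;
* `VertAlg L U c₀ κ₀ ϖ₂ γ₂ q d Bc A₀ Rr η₁ Hp` : the ALGEBRAIC half of `KummerOfVert.VertData`;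
* **`VertAlg.vertData`** : `VertData … 𝒪₁ 𝒪₂ O₁ O₂` with
  `𝒪ⱼ := CompVal.compVal Oⱼ resⱼ _ Qⱼ.adicValuation`, from FOUR residue facts:
  `Y = U / L.thick` reduces on `O₁` to a nonzero function vanishing at `Q₁`, `X = ϖ₂ / U` reduces on
  `O₂` to a nonzero function vanishing at `Q₂`, and `θ - c₀` reduces to functions vanishing at `Q₁`
  resp. `Q₂`;
* **`VertAlg.kummerHyp_frame`** : in the modular frame, `KummerLevels.KummerHyp` for these data.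
-/
import Mathlib
import Fermat.Agent.BR3.KummerOfVert
import Fermat.Agent.BR3.KummerNode

set_option autoImplicit false
set_option linter.unusedSectionVars false
set_option linter.style.haveILetI false

noncomputable section

namespace Fermat.Agent.BR3.KummerComps

open Polynomial IsLocalRing AlgebraicCurve Fermat.Agent.Red Fermat.Agent.BR.Centre
  Fermat.Agent.BR.S0 Fermat.Agent.BR3.KummerEnd Fermat.Agent.BR3.KummerLevels
  Fermat.Agent.BR3.KummerOfVert Fermat.Agent.BR3.SplitBranch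

/-! ### A component of the cover over a component of the base -/

section Over

variable {K F F₂ k : Type*} [Field K] [Field F] [Field F₂] [Field k] [Algebra K F]
  [Algebra K F₂] [Algebra F F₂] [IsScalarTower K F F₂]
  {Ft Ft₂ : Type*} [Field Ft] [Field Ft₂] [Algebra k Ft] [Algebra k Ft₂] [Algebra Ft Ft₂]
  [IsScalarTower k Ft Ft₂]
  {A : ValuationSubring K} {T : Set (Place K F)} {ι : Type*}

/-- A component `(O₂, res₂)` of the cover over the component `(O, res)` of the base, with a point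
`Q₂` over the point `Q`. -/
structure OverComp (O : ValuationSubring F) (res : O →+* Ft) (Q : Place k Ft)
    (O₂ : ValuationSubring F₂) (res₂ : O₂ →+* Ft₂) (Q₂ : Place k Ft₂) : Prop where
  map_mem : ∀ y : F, y ∈ O → algebraMap F F₂ y ∈ O₂
  res_map : ∀ (y : F) (hy : y ∈ O),
    res₂ ⟨algebraMap F F₂ y, map_mem y hy⟩ = algebraMap Ft Ft₂ (res ⟨y, hy⟩)
  res_eq_zero : ∀ x : O₂, res₂ x = 0 ↔ (x : F₂) ∈ O₂.nonunits
  regular : ∀ g : Ft, Q.adicValuation g ≤ 1 → Q₂.adicValuation (algebraMap Ft Ft₂ g) ≤ 1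

namespace OverComp

variable {π : A →+* k} {O : ValuationSubring F} {res : O →+* Ft} {Q : Place k Ft}
  {O₂ : ValuationSubring F₂} {res₂ : O₂ →+* Ft₂} {Q₂ : Place k Ft₂}
  (C : OverComp O res Q O₂ res₂ Q₂) {L : AnnulusLevels A T ι} (X : BranchComp π O res Q L)

include C X

/-- the levels of the base lie in the composite valuation ring of the point of the cover -/
theorem level_mem (i : ι) {y : F} (hy : y ∈ (L.level i).R) :
    algebraMap F F₂ y ∈ CompVal.compVal O₂ res₂ C.res_eq_zero Q₂.adicValuation := by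
  refine ⟨C.map_mem y (X.le i y hy), ?_⟩
  rw [C.res_map y (X.le i y hy)]
  exact C.regular _ (X.regular i ⟨y, hy⟩)

/-- the small constants are non-units of the component of the cover -/
theorem const_nonunits (hπ0 : ∀ a : A, A.valuation (a : K) < 1 → π a = 0) (c : K)
    (hc : A.valuation c < 1) : algebraMap K F₂ c ∈ O₂.nonunits := by
  have hcA : c ∈ A := (A.valuation_le_one_iff _).mp hc.le
  have hmem : algebraMap F F₂ (algebraMap K F c) ∈ O₂ := C.map_mem _ (X.const_mem ⟨c, hcA⟩)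
  have h1 : res₂ ⟨algebraMap F F₂ (algebraMap K F c), hmem⟩ = 0 := by
    rw [C.res_map _ (X.const_mem ⟨c, hcA⟩), X.const ⟨c, hcA⟩, hπ0 ⟨c, hcA⟩ hc, map_zero,
      map_zero]
  have h2 := (C.res_eq_zero _).mp h1
  rw [IsScalarTower.algebraMap_apply K F F₂]
  exact h2

end OverComp

end Over

/-! ### The algebraic half of the data -/

section Alg

variable {K F F₂ : Type*} [Field K] [Field F] [Field F₂] [Algebra K F] [Algebra K F₂]
  [Algebra F F₂] [IsScalarTower K F F₂] [Algebra.IsIntegral F F₂] [CharZero F₂]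
  {A : ValuationSubring K} {T : Set (Place K F)} {ι : Type*}

/-- **The algebraic half of the data of a Kummer sheet from the vertical polynomial**
(`KummerOfVert.VertData` without the valuation rings). -/
structure VertAlg (L : AnnulusLevels A T ι) (U : F₂) (c₀ : A) (κ₀ ϖ₂ γ₂ : K) (q d : ℕ)
    (Bc A₀ Rr η₁ : F) (Hp : F[X]) : Prop where
  hq : q = 2 * d + 1
  hd : 1 ≤ d
  U_ne : U ≠ 0
  ϖ₂_ne : ϖ₂ ≠ 0
  thick₂_lt : A.valuation (ϖ₂ / L.thick) < 1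
  thick_eq : L.thick = κ₀ * (ϖ₂ / L.thick) ^ d
  κ₀_mem : κ₀ ∈ A
  κ₀_memK : ∀ i, κ₀ ∈ (L.level i).K'
  ϖ₂_mem : ϖ₂ ∈ A
  ϖ₂_memK : ∀ i, ϖ₂ ∈ (L.level i).K'
  hγ₂ : (q : K) = γ₂ * ϖ₂ ^ (q - 1)
  γ₂_mem : γ₂ ∈ A
  γ₂_memK : ∀ i, γ₂ ∈ (L.level i).K'
  q_lt : A.valuation (q : K) < 1
  two_unit : A.valuation (2 : K) = 1
  c₀_unit : A.valuation (c₀ : K) = 1
  c₀_mem : ∀ i, (c₀ : K) ∈ (L.level i).K'
  hmin : minpoly F U = X ^ q + C Bc * X ^ (q - 1) + C A₀ + C (q : F) * Hp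
  hBc : Bc = L.u * η₁
  hAB : A₀ * Bc = -(q : F) * Rr
  η₁_ne : η₁ ≠ 0
  η₁_mem : ∀ i, η₁ ∈ (L.level i).R
  η₁_inv_mem : ∀ i, η₁⁻¹ ∈ (L.level i).R
  Rr_mem : ∀ i, Rr ∈ (L.level i).R
  A₀_mem : ∀ i, A₀ ∈ (L.level i).R
  Hp_mem : ∀ i n, Hp.coeff n ∈ (L.level i).R
  hc₀ : ∀ i, ∀ h : algebraMap K F ((c₀ : K) ^ 2) - algebraMap K F γ₂ * Rr * η₁⁻¹ ^ 2 ∈
    (L.level i).R, ¬ IsUnit (⟨_, h⟩ : (L.level i).R)
  gen : ∀ y : F₂, ∃ p : F[X], aeval U p = y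
  finite_div : ∀ y : F₂, y ≠ 0 → {P : Place K F₂ | P.ord y ≠ 0}.Finite

variable {k : Type*} [Field k]
  {Ft₁b Ft₂b Ft₁ Ft₂ : Type*} [Field Ft₁b] [Field Ft₂b] [Field Ft₁] [Field Ft₂]
  [Algebra k Ft₁b] [Algebra k Ft₂b] [Algebra k Ft₁] [Algebra k Ft₂]
  [Algebra Ft₁b Ft₁] [Algebra Ft₂b Ft₂] [IsScalarTower k Ft₁b Ft₁] [IsScalarTower k Ft₂b Ft₂]
  {L : AnnulusLevels A T ι} {U : F₂} {c₀ : A} {κ₀ ϖ₂ γ₂ : K} {q d : ℕ}
  {Bc A₀ Rr η₁ : F} {Hp : F[X]}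
  {π : A →+* k} {O₁b O₂b : ValuationSubring F} {res₁b : O₁b →+* Ft₁b} {res₂b : O₂b →+* Ft₂b}
  {Q₁b : Place k Ft₁b} {Q₂b : Place k Ft₂b}
  {O₁ O₂ : ValuationSubring F₂} {res₁ : O₁ →+* Ft₁} {res₂ : O₂ →+* Ft₂}
  {Q₁ : Place k Ft₁} {Q₂ : Place k Ft₂}

/-- `x * y = c` with `c` a non-unit constant of `O` and `y` a unit of `O`: `x` is a non-unit. -/
theorem mem_nonunits_of_mul_eq {O : ValuationSubring F₂} {x y c : F₂} (hxy : x * y = c)
    (hc : c ∈ O.nonunits) (hy : y ∈ O) (hyu : y ∉ O.nonunits) : x ∈ O.nonunits := by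
  rw [O.mem_nonunits_iff] at hc hyu ⊢
  have hy1 : O.valuation y = 1 :=
    le_antisymm ((O.valuation_le_one_iff _).mpr hy) (not_lt.mp hyu)
  have := congrArg O.valuation hxy
  rw [map_mul, hy1, mul_one] at this
  rw [this]
  exact hc

/-- **The data of the Kummer sheet from its algebraic half and the two components of the cover
through the node.** -/
theorem VertAlg.vertData (V : VertAlg L U c₀ κ₀ ϖ₂ γ₂ q d Bc A₀ Rr η₁ Hp)
    (hπ0 : ∀ a : A, A.valuation (a : K) < 1 → π a = 0)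
    (X₁ : BranchComp π O₁b res₁b Q₁b L) (X₂ : BranchComp π O₂b res₂b Q₂b L)
    (C₁ : OverComp O₁b res₁b Q₁b O₁ res₁ Q₁) (C₂ : OverComp O₂b res₂b Q₂b O₂ res₂ Q₂)
    (hY₁ : ∃ h : yOf L.thick U ∈ O₁,
      Q₁.adicValuation (res₁ ⟨_, h⟩) < 1 ∧ res₁ ⟨_, h⟩ ≠ 0)
    (hX₂ : ∃ h : xOf ϖ₂ U ∈ O₂,
      Q₂.adicValuation (res₂ ⟨_, h⟩) < 1 ∧ res₂ ⟨_, h⟩ ≠ 0)
    (hθ₁ : ∃ h : thetaOf L.u ϖ₂ U d - algebraMap K F₂ (c₀ : K) ∈ O₁,
      Q₁.adicValuation (res₁ ⟨_, h⟩) < 1)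
    (hθ₂ : ∃ h : thetaOf L.u ϖ₂ U d - algebraMap K F₂ (c₀ : K) ∈ O₂,
      Q₂.adicValuation (res₂ ⟨_, h⟩) < 1) :
    VertData L U c₀ κ₀ ϖ₂ γ₂ q d Bc A₀ Rr η₁ Hp
      (CompVal.compVal O₁ res₁ C₁.res_eq_zero Q₁.adicValuation)
      (CompVal.compVal O₂ res₂ C₂.res_eq_zero Q₂.adicValuation) O₁ O₂ := by
  obtain ⟨hYm, hYlt, hYne⟩ := hY₁
  obtain ⟨hXm, hXlt, hXne⟩ := hX₂
  obtain ⟨hθm₁, hθlt₁⟩ := hθ₁
  obtain ⟨hθm₂, hθlt₂⟩ := hθ₂
  have hYu : yOf L.thick U ∉ O₁.nonunits := fun h => hYne ((C₁.res_eq_zero _).mpr h)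
  have hXu : xOf ϖ₂ U ∉ O₂.nonunits := fun h => hXne ((C₂.res_eq_zero _).mpr h)
  have hXY : xOf ϖ₂ U * yOf L.thick U = algebraMap K F₂ (ϖ₂ / L.thick) := xOf_mul_yOf V.U_ne
  have hYX : yOf L.thick U * xOf ϖ₂ U = algebraMap K F₂ (ϖ₂ / L.thick) := by
    rw [mul_comm]
    exact hXY
  exact
    { hq := V.hq
      hd := V.hd
      U_ne := V.U_ne
      ϖ₂_ne := V.ϖ₂_ne
      thick₂_lt := V.thick₂_lt
      thick_eq := V.thick_eq
      κ₀_mem := V.κ₀_mem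
      κ₀_memK := V.κ₀_memK
      ϖ₂_mem := V.ϖ₂_mem
      ϖ₂_memK := V.ϖ₂_memK
      hγ₂ := V.hγ₂
      γ₂_mem := V.γ₂_mem
      γ₂_memK := V.γ₂_memK
      q_lt := V.q_lt
      two_unit := V.two_unit
      c₀_unit := V.c₀_unit
      c₀_mem := V.c₀_mem
      hmin := V.hmin
      hBc := V.hBc
      hAB := V.hAB
      η₁_ne := V.η₁_ne
      η₁_mem := V.η₁_mem
      η₁_inv_mem := V.η₁_inv_mem
      Rr_mem := V.Rr_mem
      A₀_mem := V.A₀_mem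
      Hp_mem := V.Hp_mem
      hc₀ := V.hc₀
      le₁ := CompVal.compVal_le _ _ _ _
      le₂ := CompVal.compVal_le _ _ _ _
      level_mem₁ := fun i _ hy => C₁.level_mem X₁ i hy
      level_mem₂ := fun i _ hy => C₂.level_mem X₂ i hy
      const₁ := C₁.const_nonunits X₁ hπ0
      const₂ := C₂.const_nonunits X₂ hπ0
      X_mem₁ := mem_nonunits_of_mul_eq hXY (C₁.const_nonunits X₁ hπ0 _ V.thick₂_lt) hYm hYu
      Y_notMem₁ := hYu
      Y_mem₂ := mem_nonunits_of_mul_eq hYX (C₂.const_nonunits X₂ hπ0 _ V.thick₂_lt) hXm hXu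
      X_notMem₂ := hXu
      Y_small₁ := (CompVal.mem_nonunits_compVal_iff _ _ _ _).mpr ⟨hYm, hYlt⟩
      X_small₂ := (CompVal.mem_nonunits_compVal_iff _ _ _ _).mpr ⟨hXm, hXlt⟩
      θ_small₁ := (CompVal.mem_nonunits_compVal_iff _ _ _ _).mpr ⟨hθm₁, hθlt₁⟩
      θ_small₂ := (CompVal.mem_nonunits_compVal_iff _ _ _ _).mpr ⟨hθm₂, hθlt₂⟩
      gen := V.gen
      finite_div := V.finite_div }

end Alg

/-! ### The modular frame -/

section Frame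

open ModularCurve Fermat.Agent.X0 Fermat.Agent.BR.Inst.FKCover

variable {N₂ : ℕ} [NeZero N₂] {F : Type*} [Field F] [Algebra Kb F] [Algebra F (Fb N₂)]
  [IsScalarTower Kb F (Fb N₂)] [Algebra.IsIntegral F (Fb N₂)]
  {A : ValuationSubring Kb} {T : Set (Place Kb F)} {ι : Type*}
  {k : Type*} [Field k]
  {Ft₁b Ft₂b Ft₁ Ft₂ : Type*} [Field Ft₁b] [Field Ft₂b] [Field Ft₁] [Field Ft₂]
  [Algebra k Ft₁b] [Algebra k Ft₂b] [Algebra k Ft₁] [Algebra k Ft₂]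
  [Algebra Ft₁b Ft₁] [Algebra Ft₂b Ft₂] [IsScalarTower k Ft₁b Ft₁] [IsScalarTower k Ft₂b Ft₂]
  {L : AnnulusLevels A T ι} {U : Fb N₂} {c₀ : A} {κ₀ ϖ₂ γ₂ : Kb} {q d : ℕ}
  {Bc A₀ Rr η₁ : F} {Hp : F[X]}
  {π : A →+* k} {O₁b O₂b : ValuationSubring F} {res₁b : O₁b →+* Ft₁b} {res₂b : O₂b →+* Ft₂b}
  {Q₁b : Place k Ft₁b} {Q₂b : Place k Ft₂b}
  {O₁ O₂ : ValuationSubring (Fb N₂)} {res₁ : O₁ →+* Ft₁} {res₂ : O₂ →+* Ft₂}
  {Q₁ : Place k Ft₁} {Q₂ : Place k Ft₂}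

/-- **The hypotheses of the Kummer sheet in the modular frame**, from the algebraic data, the two
components of the cover through the node, the four residue facts and the fields of definition. -/
theorem VertAlg.kummerHyp_frame (V : VertAlg L U c₀ κ₀ ϖ₂ γ₂ q d Bc A₀ Rr η₁ Hp)
    (hπ0 : ∀ a : A, A.valuation (a : Kb) < 1 → π a = 0)
    (X₁ : BranchComp π O₁b res₁b Q₁b L) (X₂ : BranchComp π O₂b res₂b Q₂b L)
    (C₁ : OverComp O₁b res₁b Q₁b O₁ res₁ Q₁) (C₂ : OverComp O₂b res₂b Q₂b O₂ res₂ Q₂)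
    (hY₁ : ∃ h : yOf L.thick U ∈ O₁,
      Q₁.adicValuation (res₁ ⟨_, h⟩) < 1 ∧ res₁ ⟨_, h⟩ ≠ 0)
    (hX₂ : ∃ h : xOf ϖ₂ U ∈ O₂,
      Q₂.adicValuation (res₂ ⟨_, h⟩) < 1 ∧ res₂ ⟨_, h⟩ ≠ 0)
    (hθ₁ : ∃ h : thetaOf L.u ϖ₂ U d - algebraMap Kb (Fb N₂) (c₀ : Kb) ∈ O₁,
      Q₁.adicValuation (res₁ ⟨_, h⟩) < 1)
    (hθ₂ : ∃ h : thetaOf L.u ϖ₂ U d - algebraMap Kb (Fb N₂) (c₀ : Kb) ∈ O₂,
      Q₂.adicValuation (res₂ ⟨_, h⟩) < 1)
    (hRFK : ∀ i, ∀ y ∈ (L.level i).R, algebraMap F (Fb N₂) y ∈ FKs N₂ (L.level i).K')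
    (hU : ∀ i, U ∈ FKs N₂ (L.level i).K')
    (hT : ∀ i, ∀ P : Place Kb F, CentredAt A (L.level i).R P → P ∈ T) :
    KummerHyp L (xOf ϖ₂ U) (yOf L.thick U) (thetaOf L.u ϖ₂ U d) U c₀ κ₀ (ϖ₂ / L.thick) d
      (CompVal.compVal O₁ res₁ C₁.res_eq_zero Q₁.adicValuation)
      (CompVal.compVal O₂ res₂ C₂.res_eq_zero Q₂.adicValuation) O₁ O₂ := by
  have hconst : ∀ i, ∀ c ∈ (L.level i).K', algebraMap Kb (Fb N₂) c ∈ FKs N₂ (L.level i).K' :=
    fun i c hc => Subfield.subset_closure (Or.inl ⟨c, hc, rfl⟩)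
  have hXF : ∀ i, xOf ϖ₂ U ∈ FKs N₂ (L.level i).K' := fun i =>
    mul_mem (hconst i _ (V.ϖ₂_memK i)) (inv_mem (hU i))
  have hYF : ∀ i, yOf L.thick U ∈ FKs N₂ (L.level i).K' := fun i =>
    mul_mem (hU i) (inv_mem (hconst i _ (L.level i).thick_mem))
  have hθF : ∀ i, thetaOf L.u ϖ₂ U d ∈ FKs N₂ (L.level i).K' := fun i =>
    mul_mem (hRFK i _ (L.level i).u_mem) (inv_mem (pow_mem (hXF i) d))
  exact (V.vertData hπ0 X₁ X₂ C₁ C₂ hY₁ hX₂ hθ₁ hθ₂).kummerPre.toHyp_frame hRFK hXF hYF hθF hT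

end Frame

end Fermat.Agent.BR3.KummerComps
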