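/-
Program C (S36), node (I7-N-KUM), layer 2b-2 (helper8): THE ALGEBRAIC HALF OF THE DATA OF A KUMMER
SHEET FROM A TWISTED KRONECKER CONGRUENCE.

`F₂ / F` of prime degree `q = 2 d + 1`, `P = (X^q - x₂)(X - x₁^q) + q Ψ₁ ∈ F[X]` monic of degree
`q + 1` (the Hecke polynomial `PAt M q g` of helper15's node (I5-KRON-Q)), `P(y) = 0`,
`P(y + U) = 0`, `U ∉ F`.  Then `minpoly F U = vertPolyAt P y
  = X^q + (y - x₁^q) X^(q-1) + (y^q - x₂) + q (vertH₁ q x₁ y + vertPolyAt Ψ₁ y)`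
(`VertTaylorTw.vertPolyAt_eq_tw`), and `(y^q - x₂)(y - x₁^q) = - q Ψ₁(y)`.

* `vertAlg_of_kronecker` : `KummerComps.VertAlg L U c₀ κ₀ ϖ₂ γ₂ q d (y - x₁^q) (y^q - x₂) (Ψ₁(y)) η₁
  (vertH₁ q x₁ y + vertPolyAt Ψ₁ y)` from `x₁ x₂ y ∈ R_i`, `Ψ₁ ∈ R_i[X]` for all levels,
  `y - x₁^q = L.u η₁` with `η₁` a unit of the levels, the constants and `c₀`.
-/
import Mathlib
import Fermat.Agent.BR3.KummerComps
import Fermat.Agent.BR3.VertTaylorTw
import Fermat.Agent.BR3.MidKummerAbs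
import Fermat.Agent.BR3.SplitPoly
import Fermat.Agent.BR3.HeckePoly

set_option autoImplicit false
set_option linter.unusedSectionVars false
set_option linter.style.haveILetI false

noncomputable section

namespace Fermat.Agent.BR3.KummerAlgMod

open Polynomial IsLocalRing AlgebraicCurve Fermat.Agent.Red Fermat.Agent.BR.Centre
  Fermat.Agent.BR.S0 Fermat.Agent.BR3.KummerOfVert Fermat.Agent.BR3.KummerComps
  Fermat.Agent.BR3.VertTaylor Fermat.Agent.BR3.VertTaylorAt Fermat.Agent.BR3.VertTaylorTw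
  Fermat.Agent.BR3.VertGlueAbs Fermat.Agent.BR3.SplitPoly

section Abstract

variable {K F F₂ : Type*} [Field K] [Field F] [Field F₂] [Algebra K F] [Algebra K F₂]
  [Algebra F F₂] [IsScalarTower K F F₂] [Algebra.IsIntegral F F₂] [CharZero F₂]
  [FiniteDimensional F F₂]
  {A : ValuationSubring K} {T : Set (Place K F)} {ι : Type*}

/-- the coefficients of `vertH₁ q x₁ y + vertPolyAt Ψ₁ y` lie in every subring containing `x₁`, `y`
and the coefficients of `Ψ₁` -/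
theorem coeff_Hp_mem (R : Subring F) {q : ℕ} {x₁ y : F} {Ψ₁ : F[X]} (hx₁ : x₁ ∈ R) (hy : y ∈ R)
    (hΨ₁ : ∀ k, Ψ₁.coeff k ∈ R) (n : ℕ) :
    (vertH₁ q x₁ y + vertPolyAt Ψ₁ y).coeff n ∈ R := by
  have hC : ∀ a : F, a ∈ R → C a ∈ lifts R.subtype := fun a ha =>
    C_mem_lifts R.subtype (⟨a, ha⟩ : R)
  have hΨl : Ψ₁ ∈ lifts R.subtype :=
    (lifts_iff_coeff_lifts _).mpr fun k => ⟨⟨Ψ₁.coeff k, hΨ₁ k⟩, rfl⟩
  have h1 : vertH₁ q x₁ y ∈ lifts R.subtype := by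
    rw [vertH₁]
    refine mul_mem (mul_mem (hC _ hy) ?_) (add_mem (X_mem_lifts _) (hC _ ?_))
    · exact binomCof_mem_lifts R.subtype q (⟨y, hy⟩ : R)
    · exact R.sub_mem hy (R.pow_mem hx₁ q)
  have h2 : vertPolyAt Ψ₁ y ∈ lifts R.subtype := by
    rw [vertPolyAt]
    exact divX_mem_lifts _ (comp_mem_lifts _ hΨl (add_mem (X_mem_lifts _) (hC _ hy)))
  obtain ⟨r, hr⟩ := (lifts_iff_coeff_lifts _).mp (add_mem h1 h2) n
  rw [← hr]
  exact r.2

theorem eval_mem (R : Subring F) {y : F} {Ψ₁ : F[X]} (hy : y ∈ R) (hΨ₁ : ∀ k, Ψ₁.coeff k ∈ R) :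
    Ψ₁.eval y ∈ R := by
  rw [eval_eq_sum_range]
  exact Subring.sum_mem _ fun k _ => R.mul_mem (hΨ₁ k) (R.pow_mem hy k)

/-- **The algebraic half of the data of a Kummer sheet from a twisted Kronecker congruence.** -/
theorem vertAlg_of_kronecker (L : AnnulusLevels A T ι) {U : F₂} {c₀ : A} {κ₀ ϖ₂ γ₂ : K}
    {q d : ℕ} {P Ψ₁ : F[X]} {x₁ x₂ y η₁ : F}
    (hqp : q.Prime) (hq : q = 2 * d + 1) (hd : 1 ≤ d) (hfin : Module.finrank F F₂ = q)
    (hP : P = (X ^ q - C x₂) * (X - C (x₁ ^ q)) + C (q : F) * Ψ₁)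
    (hmon : P.Monic) (hdeg : P.natDegree = q + 1) (h0 : P.eval y = 0)
    (h1 : aeval (algebraMap F F₂ y + U) P = 0) (hU : U ∉ Set.range (algebraMap F F₂))
    (ϖ₂_ne : ϖ₂ ≠ 0) (thick₂_lt : A.valuation (ϖ₂ / L.thick) < 1)
    (thick_eq : L.thick = κ₀ * (ϖ₂ / L.thick) ^ d)
    (κ₀_mem : κ₀ ∈ A) (κ₀_memK : ∀ i, κ₀ ∈ (L.level i).K')
    (ϖ₂_mem : ϖ₂ ∈ A) (ϖ₂_memK : ∀ i, ϖ₂ ∈ (L.level i).K')
    (hγ₂ : (q : K) = γ₂ * ϖ₂ ^ (q - 1)) (γ₂_mem : γ₂ ∈ A) (γ₂_memK : ∀ i, γ₂ ∈ (L.level i).K')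
    (q_lt : A.valuation (q : K) < 1) (two_unit : A.valuation (2 : K) = 1)
    (c₀_unit : A.valuation (c₀ : K) = 1) (c₀_mem : ∀ i, (c₀ : K) ∈ (L.level i).K')
    (hx₁ : ∀ i, x₁ ∈ (L.level i).R) (hx₂ : ∀ i, x₂ ∈ (L.level i).R)
    (hy : ∀ i, y ∈ (L.level i).R) (hΨ₁ : ∀ i k, Ψ₁.coeff k ∈ (L.level i).R)
    (hη : y - x₁ ^ q = L.u * η₁) (η₁_ne : η₁ ≠ 0) (η₁_mem : ∀ i, η₁ ∈ (L.level i).R)
    (η₁_inv_mem : ∀ i, η₁⁻¹ ∈ (L.level i).R)
    (hc₀ : ∀ i, ∀ h : algebraMap K F ((c₀ : K) ^ 2) - algebraMap K F γ₂ * Ψ₁.eval y * η₁⁻¹ ^ 2 ∈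
      (L.level i).R, ¬ IsUnit (⟨_, h⟩ : (L.level i).R))
    (finite_div : ∀ z : F₂, z ≠ 0 → {Q : Place K F₂ | Q.ord z ≠ 0}.Finite) :
    VertAlg L U c₀ κ₀ ϖ₂ γ₂ q d (y - x₁ ^ q) (y ^ q - x₂) (Ψ₁.eval y) η₁
      (vertH₁ q x₁ y + vertPolyAt Ψ₁ y) := by
  have hU0 : U ≠ 0 := by
    rintro rfl
    exact hU ⟨0, map_zero _⟩
  have hroot : aeval U (vertPolyAt P y) = 0 :=
    MidKummerAbs.aeval_vertPolyAt_eq_zero_tw hP h0 h1 hU0
  obtain ⟨hmin, htop⟩ := minpoly_eq_of_prime_finrank hqp hfin hU (vertPolyAt_monic hmon hdeg y)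
    (vertPolyAt_natDegree hdeg y) hroot
  refine
    { hq := hq
      hd := hd
      U_ne := hU0
      ϖ₂_ne := ϖ₂_ne
      thick₂_lt := thick₂_lt
      thick_eq := thick_eq
      κ₀_mem := κ₀_mem
      κ₀_memK := κ₀_memK
      ϖ₂_mem := ϖ₂_mem
      ϖ₂_memK := ϖ₂_memK
      hγ₂ := hγ₂
      γ₂_mem := γ₂_mem
      γ₂_memK := γ₂_memK
      q_lt := q_lt
      two_unit := two_unit
      c₀_unit := c₀_unit
      c₀_mem := c₀_mem
      hmin := ?_
      hBc := hη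
      hAB := ?_
      η₁_ne := η₁_ne
      η₁_mem := η₁_mem
      η₁_inv_mem := η₁_inv_mem
      Rr_mem := fun i => eval_mem _ (hy i) (hΨ₁ i)
      A₀_mem := fun i => (L.level i).R.sub_mem ((L.level i).R.pow_mem (hy i) q) (hx₂ i)
      Hp_mem := fun i n => coeff_Hp_mem _ (hx₁ i) (hy i) (hΨ₁ i) n
      hc₀ := hc₀
      gen := ?_
      finite_div := finite_div }
  · rw [hmin, vertPolyAt_eq_tw hqp hP y, mul_add]
    ring
  · have h := h0
    rw [hP] at h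
    simp only [eval_add, eval_mul, eval_sub, eval_pow, eval_X, eval_C] at h
    linear_combination h
  · intro z
    have hz : z ∈ IntermediateField.adjoin F {U} := by
      rw [htop]
      exact IntermediateField.mem_top
    have hint : IsIntegral F U := Algebra.IsIntegral.isIntegral U
    have hz' : z ∈ (IntermediateField.adjoin F {U}).toSubalgebra := hz
    rw [IntermediateField.adjoin_simple_toSubalgebra_of_isAlgebraic hint.isAlgebraic,
      Algebra.adjoin_singleton_eq_range_aeval] at hz'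
    obtain ⟨p, hp⟩ := hz'
    exact ⟨p, hp⟩

end Abstract

/-! ### The root of `AdjoinRoot` is not a constant -/

section Root

variable {k : Type*} [Field k]

/-- the root of a polynomial of degree `≥ 2` is not in the image of the base field -/
theorem root_notMem_range_of {f : k[X]} (hf : 2 ≤ f.natDegree) :
    AdjoinRoot.root f ∉ Set.range (AdjoinRoot.of f) := by
  rintro ⟨c, hc⟩
  have h1 : AdjoinRoot.mk f (X - C c) = 0 := by
    rw [map_sub, AdjoinRoot.mk_X, AdjoinRoot.mk_C, hc, sub_self]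
  rw [AdjoinRoot.mk_eq_zero] at h1
  have h2 : f.natDegree ≤ (X - C c : k[X]).natDegree :=
    natDegree_le_of_dvd h1 (X_sub_C_ne_zero c)
  rw [natDegree_X_sub_C] at h2
  omega

end Root

/-! ### The modular frame -/

section Modular

open ModularCurve Fermat.Agent.X0 Fermat.Agent.BR3.FibreProd Fermat.Agent.BR3.HeckePoly

variable {M q : ℕ} [NeZero M] [hq : Fact q.Prime]
  [Algebra (Fb (M * q)) (Fb (M * q * q))]
  (halg : ∀ x, algebraMap (Fb (M * q)) (Fb (M * q * q)) x = alpha2 M q x)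

include halg

/-- `α₂ (α g) + U_g = β₂ (β g)` is a root of the Hecke polynomial `PAt g` -/
theorem aeval_PAt_add_Ug (g : Fb M) :
    aeval (algebraMap (Fb (M * q)) (Fb (M * q * q)) (heckeAlphaBar Kb M q g) + Ug M q g)
      (PAt M q g) = 0 := by
  have hmap : (algebraMap (Fb (M * q)) (Fb (M * q * q)) : Fb (M * q) →+* Fb (M * q * q)) =
      (alpha2 M q : Fb (M * q) →+* Fb (M * q * q)) := RingHom.ext halg
  have e : algebraMap (Fb (M * q)) (Fb (M * q * q)) (heckeAlphaBar Kb M q g) + Ug M q g =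
      beta2 M q (heckeBetaBar Kb M q g) := by
    rw [halg, Ug, add_sub_cancel]
  rw [e, aeval_def, eval₂_eq_eval_map, hmap, PAt_map_alpha2]
  exact heckePoly_map_mid_eval_beta g

/-- `α₂ (u / a₀) = U_g / α₂ a₀` when `α₂ u = U_g` -/
theorem alpha2_div_const {g : Fb M} {a₀ : Kb} (u : Fb (M * q))
    (hu : alpha2 M q u = Ug M q g) :
    alpha2 M q (u / algebraMap Kb (Fb (M * q)) a₀) =
      Ug M q g / alpha2 M q (algebraMap Kb (Fb (M * q)) a₀) := by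
  rw [map_div₀, hu]

theorem mem_of_comap_alpha2 (O : ValuationSubring (Fb (M * q)))
    (Z : ValuationSubring (Fb (M * q * q)))
    (hcomap : Z.comap (alpha2 M q : Fb (M * q) →+* Fb (M * q * q)) = O) (x : Fb (M * q))
    (hm : alpha2 M q x ∈ Z) : x ∈ O := by
  rw [← hcomap]
  exact ValuationSubring.mem_comap.mpr hm

theorem res_congr {κ : Type*} [Field κ] {f : κ[X]}
    (Z : ValuationSubring (Fb (M * q * q))) (resZ : Z →+* AdjoinRoot f)
    (x y : Fb (M * q * q)) (hx : x ∈ Z) (hy : y ∈ Z) (h : x = y) :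
    resZ ⟨x, hx⟩ = resZ ⟨y, hy⟩ := by
  subst h; rfl

/-- **`U_g` does not come from level `M q`**, from the vertical component: `U_g / a₀` reduces on `Z`
to the root of a polynomial of degree `q ≥ 2` over the residue field of the circle. -/
theorem Ug_notMem_range_of_vertComponent {g : Fb M} {a₀ : Kb} {κ : Type*} [Field κ]
    {f : κ[X]} (hf : 2 ≤ f.natDegree) (O : ValuationSubring (Fb (M * q))) (resO : O →+* κ)
    (Z : ValuationSubring (Fb (M * q * q))) (resZ : Z →+* AdjoinRoot f)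
    (hcomap : Z.comap (alpha2 M q : Fb (M * q) →+* Fb (M * q * q)) = O)
    (hcompat : ∀ (y : O) (h : alpha2 M q (y : Fb (M * q)) ∈ Z),
      resZ ⟨alpha2 M q (y : Fb (M * q)), h⟩ = AdjoinRoot.of f (resO y))
    (hθ : ∃ hθ : Ug M q g / alpha2 M q (algebraMap Kb (Fb (M * q)) a₀) ∈ Z,
      resZ ⟨Ug M q g / alpha2 M q (algebraMap Kb (Fb (M * q)) a₀), hθ⟩ = AdjoinRoot.root f) :
    Ug M q g ∉ Set.range (algebraMap (Fb (M * q)) (Fb (M * q * q))) := by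
  rintro ⟨u, hu⟩
  obtain ⟨hθm, hθr⟩ := hθ
  have hu2 : alpha2 M q u = Ug M q g := (halg u).symm.trans hu
  have e := alpha2_div_const halg (a₀ := a₀) u hu2
  have hm : alpha2 M q (u / algebraMap Kb (Fb (M * q)) a₀) ∈ Z := by
    rw [e]; exact hθm
  have hu' : u / algebraMap Kb (Fb (M * q)) a₀ ∈ O := mem_of_comap_alpha2 halg O Z hcomap _ hm
  have h1 := hcompat ⟨_, hu'⟩ hm
  apply root_notMem_range_of hf
  refine ⟨resO ⟨_, hu'⟩, ?_⟩
  rw [← h1, ← hθr]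
  exact res_congr halg Z resZ _ _ _ _ e

end Modular

end Fermat.Agent.BR3.KummerAlgMod
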