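/-
Program C (S36), node (I7-N-KUM) / (W4-ANN, Kummer nodes) (helper8): THE ANNULUS SHEET OF A KUMMER
NODE.

`H : KummerLevels.KummerHyp L X Y θ U c₀ κ₀ thick₂ d 𝒪₁ 𝒪₂ O₁ O₂` over the levels `L` of an annulus of
the base (coordinate `L.u`, thickness `L.thick = κ₀ thick₂^d`).  On the tube `kummerTube A T X Y θ c₀`
of the sheet the image of the coordinate of the base is `L.u = θ X^d = c₀ X^d · (θ / c₀)` with
`θ / c₀ ≡ 1`:

* `tubeUnit : Circle.TubeUnit A (kummerTube A T X Y θ c₀) (algebraMap F F₂ L.u * (c₀ • X ^ d)⁻¹)`;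
* `annSheet H hκ : SDD.Partition.AnnSheet A (kummerTube A T X Y θ c₀) (algebraMap F F₂ L.u) L.thick d`
  (`hκ : |κ₀| = 1`), with core `H.levels.core` (`annSheet_u : … = X`, `annSheet_c₀`, `rfl`).
-/
import Mathlib
import Fermat.Agent.BR3.KummerLevels
import Fermat.Agent.BR3.SDD.Partition

set_option autoImplicit false
set_option linter.unusedSectionVars false

noncomputable section

namespace Fermat.Agent.BR3.KummerAnnSheet

open AlgebraicCurve Fermat.Agent.Red Fermat.Agent.BR.Centre Fermat.Agent.BR.S0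
  Fermat.Agent.BR.Circle Fermat.Agent.BR3.KummerLevels Fermat.Agent.BR3.SDD.Partition

variable {K F F₂ : Type*} [Field K] [Field F] [Field F₂] [Algebra K F] [Algebra K F₂]
  [Algebra F F₂] [IsScalarTower K F F₂] [Algebra.IsIntegral F F₂] [CharZero F₂]
  {A : ValuationSubring K} {T : Set (Place K F)} {ι : Type*}
  {L : AnnulusLevels A T ι} {X Y θ U : F₂} {c₀ : A} {κ₀ thick₂ : K} {d : ℕ}
  {𝒪₁ 𝒪₂ O₁ O₂ : ValuationSubring F₂} (H : KummerHyp L X Y θ U c₀ κ₀ thick₂ d 𝒪₁ 𝒪₂ O₁ O₂)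

include H

theorem c₀_ne : (c₀ : K) ≠ 0 := by
  intro h0
  have := H.c₀_unit
  rw [h0, map_zero] at this
  exact zero_ne_one this

/-- **on the tube of the Kummer sheet the coordinate of the base is `c₀ X^d` times a tube unit** -/
theorem tubeUnit :
    TubeUnit A (kummerTube A T X Y θ c₀) (algebraMap F F₂ L.u * ((c₀ : K) • X ^ d)⁻¹) := by
  rintro P ⟨-, -, -, d', hd', hlt⟩
  have hc0 := c₀_ne H
  have e : algebraMap F F₂ L.u * ((c₀ : K) • X ^ d)⁻¹ = θ * algebraMap K F₂ ((c₀ : K)⁻¹) := by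
    have hX : X ^ d ≠ 0 := pow_ne_zero _ H.X_ne
    have hc : algebraMap K F₂ (c₀ : K) ≠ 0 := (map_ne_zero _).mpr hc0
    rw [H.K1, Algebra.smul_def, map_inv₀]
    field_simp
  rw [e]
  refine ⟨d' * (c₀ : K)⁻¹, hd'.mul (isValueAt_algebraMap P _), ?_⟩
  have e2 : d' * (c₀ : K)⁻¹ - 1 = (d' - (c₀ : K)) * (c₀ : K)⁻¹ := by
    field_simp
  rw [e2, map_mul, map_inv₀, H.c₀_unit, inv_one, mul_one]
  exact hlt

/-- **The annulus sheet of the Kummer node**: degree `d`, leading constant `c₀`. -/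
def annSheet (hκ : A.valuation κ₀ = 1) :
    AnnSheet A (kummerTube A T X Y θ c₀) (algebraMap F F₂ L.u) L.thick d :=
  AnnSheet.ofLevels H.levels (y₀ := algebraMap F F₂ L.u) (thick' := L.thick) (b₀ := d)
    (c₀ := (c₀ : K)) H.d_pos (c₀_ne H) (tubeUnit H)
    (by
      show A.valuation (c₀ : K) * A.valuation thick₂ ^ d ≤ A.valuation L.thick
      rw [H.thick_eq, map_mul, map_pow, hκ, H.c₀_unit])
    (by rw [H.c₀_unit])

omit H in
@[simp] theorem annSheet_c₀ (H : KummerHyp L X Y θ U c₀ κ₀ thick₂ d 𝒪₁ 𝒪₂ O₁ O₂)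
    (hκ : A.valuation κ₀ = 1) : (annSheet H hκ).c₀ = (c₀ : K) := rfl

omit H in
@[simp] theorem annSheet_core (H : KummerHyp L X Y θ U c₀ κ₀ thick₂ d 𝒪₁ 𝒪₂ O₁ O₂)
    (hκ : A.valuation κ₀ = 1) : (annSheet H hκ).core = H.levels.core := rfl

end Fermat.Agent.BR3.KummerAnnSheet
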