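import Mathlib
import Fermat.Agent.BR3.SSParam
import Fermat.Agent.BR3.MidKummerFinal
import Fermat.Agent.BR3.IgSq.Uniform

/-!
# Program C (S36), node (I5-MID), hand-off: the Kummer witness from the shared input `IsSSParam`

* `exists_kummer_witness_of_param` : `BR3/MidKummerFinal.exists_kummer_witness_final` against the
  shared structure `SSParam.IsSSParam B hB hqM e g g' g''` (producer: node (I5-SZ));
* `exists_local_witness_of_param` : the same in the LITERAL shape of the local witnesses of
  `KummerGenus.riemann_hurwitz_ge_of_local` / `isCoprime_ord_of_pow` with `n := IgSq.midDeg q`,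
  `m := IgSq.midCard q` (`n * m = q - 1`): for every middle valuation `w₂ b` there are
  `y ∈ range (res_{w₂ b})`, `c ∈ F̃_M`, `a : ℤ` with `y ≠ 0`, `y ^ (n * m) = c`,
  `ord_{z₁ e} c = m * a`, `IsCoprime a n`.
-/

set_option autoImplicit false
set_option linter.unusedSectionVars false
set_option linter.style.haveILetI false
set_option synthInstance.maxHeartbeats 400000

noncomputable section

/- S36 build-time patch: file-local shortcut instances. They only shorten instance search;
each is the instance that the search finds anyway (reducible, same terms after unfolding). -/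
local instance (priority := 100000) Fermat.Agent.BR3.FastInst.instAlgFullC_MidKummerParam
    {k : Type*} [Field k] (N : ℕ) :
    Algebra k ↥(ModularCurve.modularFunctionFieldFullC k N) := inferInstance
local instance (priority := 100000) Fermat.Agent.BR3.FastInst.instFieldFullC_MidKummerParam
    {k : Type*} [Field k] (N : ℕ) :
    Field ↥(ModularCurve.modularFunctionFieldFullC k N) := inferInstance
local instance (priority := 100000) Fermat.Agent.BR3.FastInst.instAlgLaurent_MidKummerParam
    {k : Type*} [Field k] : Algebra k (LaurentSeries k) := inferInstance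


namespace Fermat.Agent.BR3.MidKummerParam

open AlgebraicCurve ModularCurve IsLocalRing
open Fermat.Agent.X0 Fermat.Agent.Val Fermat.Agent.Hecke
open Fermat.Agent.BR.S0.RedModular Fermat.Agent.BR.S0.PointDict Fermat.Agent.BR.S0.ThickFinal
open Fermat.Agent.BR3.FibreProd Fermat.Agent.BR3.HeckePoly Fermat.Agent.BR3.MidKummerAbs
open Fermat.Agent.BR3.SSParam Fermat.Agent.BR3.MidKummerFinal Fermat.Agent.BR3.IgSq

variable {M q : ℕ} [NeZero M] [hq : Fact q.Prime]
variable (B : ValuationSubring Kb) (hB : B.LiesOverPrime q) (hqM : ¬ q ∣ M)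
variable [IsAlgClosed (ResidueField B)] [CharP (IsLocalRing.ResidueField B) q]
  (e : Crossing (chartDataModular B hB hqM))
variable {ζ : Kbˣ} (hζ : IsPrimitiveRoot ζ q) {b : ℕ} (hb : b < q - 1)

local notation "kB" => IsLocalRing.ResidueField B
local notation "FtM" => modularFunctionFieldFullC (IsLocalRing.ResidueField B) M

/-- **(I5-MID) against the shared input.** -/
theorem exists_kummer_witness_of_param (h2 : nuTwo M = 0) (h3 : nuThree M = 0)
    {g g' g'' : Fb M} (P : IsSSParam B hB hqM e g g' g'') :
    ∃ (t : LaurentSeries kB) (c : FtM), t ≠ 0 ∧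
      Red (w2 B hB hqM hζ hb) (resw2 B hB hqM hζ hb)
        (Ug M q g / algebraMap Kb (Fb (M * q * q)) ((ζ : Kb) - 1)) t ∧
      t ^ (q - 1) = (c : LaurentSeries kB) ∧ c ≠ 0 ∧
      (z₁ (chartDataModular B hB hqM) e).ord c = -2 :=
  exists_kummer_witness_final B hB hqM e hζ hb h2 h3 P.hg P.hg' P.hg'' P.untwist P.twist
    P.nonconst P.hxord P.hyord

/-- **The local witness of `KummerGenus.riemann_hurwitz_ge_of_local`** (`n = midDeg q`,
`m = midCard q`) at the crossing `e`, on the middle component `w₂ b`. -/
theorem exists_local_witness_of_param (h2 : nuTwo M = 0) (h3 : nuThree M = 0)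
    {g g' g'' : Fb M} (P : IsSSParam B hB hqM e g g' g'') :
    ∃ (y : LaurentSeries kB) (c : FtM) (a : ℤ), y ∈ Set.range (resw2 B hB hqM hζ hb) ∧ y ≠ 0 ∧
      y ^ (midDeg q * midCard q) = (c : LaurentSeries kB) ∧
      (z₁ (chartDataModular B hB hqM) e).ord c = (midCard q : ℤ) * a ∧
      IsCoprime a (midDeg q : ℤ) := by
  obtain ⟨t, c, ht0, htred, htc, -, hord⟩ :=
    exists_kummer_witness_of_param B hB hqM e hζ hb h2 h3 P
  have hnm : midDeg q * midCard q = q - 1 := by
    have := midDeg_mul_midCard hq.out
    omega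
  obtain ⟨hmem, hres⟩ := htred
  by_cases hq2 : q = 2
  · refine ⟨t, c, -2, ⟨⟨_, hmem⟩, hres⟩, ht0, by rw [hnm]; exact htc, ?_, ?_⟩
    · rw [hord, midCard, if_pos hq2]
      norm_num
    · rw [midDeg, if_pos hq2]
      exact isCoprime_one_right
  · refine ⟨t, c, -1, ⟨⟨_, hmem⟩, hres⟩, ht0, by rw [hnm]; exact htc, ?_, ?_⟩
    · rw [hord, midCard, if_neg hq2]
      norm_num
    · exact (isCoprime_one_left).neg_left

end Fermat.Agent.BR3.MidKummerParam
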