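import Mathlib
import Fermat.Agent.BR3.MidKummerParam
import Fermat.Agent.BR3.SSParamAll
import Fermat.Agent.BR3.KummerGenus.MidInst

/-!
# Program C (S36), nodes (I5-MID) → (W3-MID)/(G2-MID): the Kummer witness INSIDE `FMid M B` and the
Kummer place of the middle components over EVERY supersingular point `z₁ e`

`BR3/MidKummerParam.exists_kummer_witness_of_param` gives, at the crossing `e`, a residue
`t = res_{w₂ b}(U_g/ϖ₀) ∈ k((s))` with `t ≠ 0`, `t^(q−1) = c ∈ F̃_M`, `ord_{z₁ e} c = −2`.  Since the
residues of `w₂ b` lie in `FMid M B = F̃_M(θ j̃)` (`FibreProd.resw2_mem_FMid`, helper6), `t` is an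
element of `FMid M B`: this is the LOCAL witness consumed by helper5's
`KummerGenus.MidInst.isCoprime_ord_deltaMid_of_ord_neg_two` / `fMid_eq_midDeg_of_ord_neg_two`.

* `exists_FMid_witness_of_param` : the witness `y : FMid M B`, `c : F̃_M` from `SSParam.IsSSParam`;
* `exists_FMid_witness` : the same at EVERY crossing, no parameter hypothesis
  (`SSParamAll.exists_isSSParam`, helper7);
* **`isCoprime_ord_deltaMid_z₁`** : `IsCoprime (ord_{z₁ e} δ) fMid` at every crossing `e`
  (`hv` of `pMidOver`, `hT` of `two_genus_ge_mid` for `T ⊆ {z₁ e}`);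
* **`fMid_eq_midDeg`** : `fMid M B hB = midDeg q` (given one crossing) — closes the gap #1084;
  `card_mid_eq_midCard`-type consequences are left to `FibreProdMidGal.card_mid_mul`;
* `pMidSS e : Place kB (FMid M B)` := `pMidOver (z₁ e) _`, THE place of the middle component over
  `z₁ e`: `pMidSS_restrict`, `eq_pMidSS` (uniqueness), `pMidSS_injective`,
  `ramificationIndex_pMidSS = fMid`, `ord_pMidSS_algebraMap`;
* `two_genus_ge_mid_ss` : `fMid (2 g(F̃_M) − 2) + |T| (fMid − 1) ≤ 2 g(FMid) − 2` for every finite
  set `T` of crossings (`z₁` injective is an argument).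
-/

set_option autoImplicit false
set_option linter.unusedSectionVars false
set_option linter.style.haveILetI false
set_option synthInstance.maxHeartbeats 400000

noncomputable section

/- S36 build-time patch: file-local shortcut instances. They only shorten instance search;
each is the instance that the search finds anyway (reducible, same terms after unfolding). -/
local instance (priority := 100000) Fermat.Agent.BR3.FastInst.instAlgFullC_MidKummerPlaces
    {k : Type*} [Field k] (N : ℕ) :
    Algebra k ↥(ModularCurve.modularFunctionFieldFullC k N) := inferInstance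
local instance (priority := 100000) Fermat.Agent.BR3.FastInst.instFieldFullC_MidKummerPlaces
    {k : Type*} [Field k] (N : ℕ) :
    Field ↥(ModularCurve.modularFunctionFieldFullC k N) := inferInstance
local instance (priority := 100000) Fermat.Agent.BR3.FastInst.instAlgLaurent_MidKummerPlaces
    {k : Type*} [Field k] : Algebra k (LaurentSeries k) := inferInstance


namespace Fermat.Agent.BR3.MidKummerPlaces

open AlgebraicCurve ModularCurve IsLocalRing
open Fermat.Agent.X0 Fermat.Agent.Val Fermat.Agent.Hecke
open Fermat.Agent.BR.S0.RedModular Fermat.Agent.BR.S0.PointDict Fermat.Agent.BR.S0.ThickFinal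
open Fermat.Agent.BR3.FibreProd Fermat.Agent.BR3.HeckePoly Fermat.Agent.BR3.MidKummerAbs
open Fermat.Agent.BR3.SSParam Fermat.Agent.BR3.MidKummerFinal Fermat.Agent.BR3.IgSq
open Fermat.Agent.BR3.MidKummerParam Fermat.Agent.BR3.KummerGenus.MidInst

variable {M q : ℕ} [NeZero M] [hq : Fact q.Prime]
variable (B : ValuationSubring Kb) (hB : B.LiesOverPrime q) (hqM : ¬ q ∣ M)
variable [IsAlgClosed (ResidueField B)] [CharP (IsLocalRing.ResidueField B) q]
  (e : Crossing (chartDataModular B hB hqM))

local notation "kB" => IsLocalRing.ResidueField B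
local notation "FtM" => modularFunctionFieldFullC (IsLocalRing.ResidueField B) M

/-- (shortcut instances, as in `KummerGenus.MidInst`) -/
local instance (priority := 100000) instAlgKFt' : Algebra kB FtM := inferInstance
local instance (priority := 100000) instAlgKFMid' : Algebra kB (FMid M B) := inferInstance
local instance (priority := 100000) instAlgFtFMid' : Algebra FtM (FMid M B) := inferInstance
local instance (priority := 100000) instTowerMid' : IsScalarTower kB FtM (FMid M B) :=
  inferInstance

/-- **The Kummer witness inside `FMid M B`**, from the shared input `IsSSParam`. -/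
theorem exists_FMid_witness_of_param (h2 : nuTwo M = 0) (h3 : nuThree M = 0)
    {g g' g'' : Fb M} (P : IsSSParam B hB hqM e g g' g'') :
    ∃ (y : FMid M B) (c : FtM), y ≠ 0 ∧ y ^ (q - 1) = algebraMap FtM (FMid M B) c ∧
      (z₁ (chartDataModular B hB hqM) e).ord c = -2 := by
  obtain ⟨ζ₀, hζ₀⟩ := HasEnoughRootsOfUnity.exists_primitiveRoot Kb q
  have hζu : IsPrimitiveRoot (hζ₀.isUnit (NeZero.ne q)).unit q := by
    rw [← IsPrimitiveRoot.coe_units_iff]
    exact hζ₀
  have hb : 0 < q - 1 := by have := hq.out.two_le; omega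
  obtain ⟨t, c, ht0, ⟨hmem, hres⟩, htc, -, hord⟩ :=
    exists_kummer_witness_of_param B hB hqM e hζu hb h2 h3 P
  have htF : t ∈ FMid M B := by
    rw [← hres]
    exact resw2_mem_FMid B hB hqM hζu hb _
  refine ⟨⟨t, htF⟩, c, fun h => ht0 (congrArg Subtype.val h), Subtype.ext ?_, hord⟩
  exact htc

/-- **The Kummer witness inside `FMid M B` at EVERY crossing** (no parameter hypothesis). -/
theorem exists_FMid_witness (h2 : nuTwo M = 0) (h3 : nuThree M = 0) :
    ∃ (y : FMid M B) (c : FtM), y ≠ 0 ∧ y ^ (q - 1) = algebraMap FtM (FMid M B) c ∧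
      (z₁ (chartDataModular B hB hqM) e).ord c = -2 := by
  obtain ⟨g, g', g'', P⟩ := Fermat.Agent.BR3.SSParamAll.exists_isSSParam B hB hqM e
  exact exists_FMid_witness_of_param B hB hqM e h2 h3 P

/-- **`(ord_{z₁ e} δ, fMid) = 1` at every supersingular point `z₁ e`**: the hypothesis `hv` of
`pMidOver` and `hT` of `two_genus_ge_mid`. -/
theorem isCoprime_ord_deltaMid_z₁ (h2 : nuTwo M = 0) (h3 : nuThree M = 0) :
    IsCoprime ((z₁ (chartDataModular B hB hqM) e).ord (deltaMid B hB hqM))
      (fMid M B hB : ℤ) := by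
  obtain ⟨y, c, hy0, hy, hord⟩ := exists_FMid_witness B hB hqM e h2 h3
  exact isCoprime_ord_deltaMid_of_ord_neg_two B hB hqM _ hy0 hy hord

include hqM e in
/-- **`fMid = midDeg q`** (one crossing suffices): there are exactly `midCard q` middle components,
each of degree `midDeg q` over `F̃_M`. -/
theorem fMid_eq_midDeg (h2 : nuTwo M = 0) (h3 : nuThree M = 0) :
    fMid M B hB = midDeg q := by
  obtain ⟨y, c, hy0, hy, hord⟩ := exists_FMid_witness B hB hqM e h2 h3
  exact fMid_eq_midDeg_of_ord_neg_two B hB hqM _ hy0 hy hord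

set_option maxHeartbeats 4000000 in
/-- **THE place of the middle component `FMid M B` over the supersingular point `z₁ e`.** -/
def pMidSS (h2 : nuTwo M = 0) (h3 : nuThree M = 0) : Place kB (FMid M B) :=
  pMidOver B hB hqM (z₁ (chartDataModular B hB hqM) e)
    (isCoprime_ord_deltaMid_z₁ B hB hqM e h2 h3)

theorem pMidSS_restrict [FiniteDimensional FtM (FMid M B)] (h2 : nuTwo M = 0)
    (h3 : nuThree M = 0) :
    (pMidSS B hB hqM e h2 h3).restrict FtM = z₁ (chartDataModular B hB hqM) e :=
  pMidOver_restrict B hB hqM _ _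

/-- uniqueness: every place of `FMid M B` over `z₁ e` is `pMidSS e` (so `n_{i,e} = 1`) -/
theorem eq_pMidSS [FiniteDimensional FtM (FMid M B)] (h2 : nuTwo M = 0) (h3 : nuThree M = 0)
    {w : Place kB (FMid M B)} (hw : w.restrict FtM = z₁ (chartDataModular B hB hqM) e) :
    w = pMidSS B hB hqM e h2 h3 :=
  eq_pMidOver B hB hqM _ _ hw

theorem pMidSS_injective (h2 : nuTwo M = 0) (h3 : nuThree M = 0)
    {e e' : Crossing (chartDataModular B hB hqM)}
    (h : pMidSS B hB hqM e h2 h3 = pMidSS B hB hqM e' h2 h3) :
    z₁ (chartDataModular B hB hqM) e = z₁ (chartDataModular B hB hqM) e' :=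
  pMidOver_injective B hB hqM _ _ h

/-- total ramification at the supersingular points: `e = fMid` -/
theorem ramificationIndex_pMidSS [FiniteDimensional FtM (FMid M B)] (h2 : nuTwo M = 0)
    (h3 : nuThree M = 0) :
    (pMidSS B hB hqM e h2 h3).ramificationIndex FtM = fMid M B hB :=
  ramificationIndex_pMidOver B hB hqM _ _

theorem ord_pMidSS_algebraMap (h2 : nuTwo M = 0) (h3 : nuThree M = 0) (x : FtM) :
    (pMidSS B hB hqM e h2 h3).ord (algebraMap FtM (FMid M B) x) =
      (fMid M B hB : ℤ) * (z₁ (chartDataModular B hB hqM) e).ord x :=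
  ord_pMidOver_algebraMap B hB hqM _ _ x

theorem ord_pMidSS_thetaMid (h2 : nuTwo M = 0) (h3 : nuThree M = 0) :
    (pMidSS B hB hqM e h2 h3).ord (thetaMid B) =
      (z₁ (chartDataModular B hB hqM) e).ord (deltaMid B hB hqM) :=
  ord_pMidOver_thetaMid B hB hqM _ _

/-- **(G2-MID) at the supersingular points**: for every finite set `T` of crossings,
`fMid (2 g(F̃_M) − 2) + |T| (fMid − 1) ≤ 2 g(FMid) − 2`. -/
theorem two_genus_ge_mid_ss (h2 : nuTwo M = 0) (h3 : nuThree M = 0)
    (hinj : Function.Injective (z₁ (chartDataModular B hB hqM)))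
    (T : Finset (Crossing (chartDataModular B hB hqM))) :
    (fMid M B hB : ℤ) * (2 * (genusFF kB FtM : ℤ) - 2) +
        (T.card : ℤ) * ((fMid M B hB : ℤ) - 1) ≤
      2 * (genusFF kB (FMid M B) : ℤ) - 2 := by
  classical
  have h := two_genus_ge_mid B hB hqM (T.image (z₁ (chartDataModular B hB hqM))) (by
    intro v hv
    obtain ⟨e', -, rfl⟩ := Finset.mem_image.1 hv
    exact isCoprime_ord_deltaMid_z₁ B hB hqM e' h2 h3)
  rwa [Finset.card_image_of_injective _ hinj] at h

end Fermat.Agent.BR3.MidKummerPlaces
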