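/-
Program C (S36), node I7, piece (c): the number of middle components (helper12).

`card Mid * fMid = q - 1` (helper6, `FibreProd.card_mid_mul`) and `fMid = midDeg q` (helper5
`KummerGenus.MidInst.fMid_eq_midDeg_of_ord_neg_two` + helper29 `MidKummerPlaces.fMid_eq_midDeg`,
from the Kummer witness at ONE supersingular crossing) give

* `card_mid_eq_midCard_of_fMid`, `card_mid_eq_midCard` : **`card Mid = midCard q`** (`1` for
  `q = 2`, `2` for `q` odd): the phantom case "one middle component with two points over every
  supersingular point" does not occur;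
* `card_mid_eq_card` : `card Mid = card KP` for every index type `KP` of the Kummer points of a
  vertical component with `card KP = midCard q` (the hypothesis `hcard` of
  `SepNComp.bijective_of_surjective_of_card`).
-/
import Mathlib
import Fermat.Agent.BR3.MidKummerPlaces

set_option autoImplicit false
set_option linter.style.haveILetI false
set_option linter.unusedSectionVars false
set_option synthInstance.maxHeartbeats 400000

namespace Fermat.Agent.BR3.MidCard

open ModularCurve AlgebraicCurve IsLocalRing
open Fermat.Agent.X0 Fermat.Agent.BR.S0.PointDict Fermat.Agent.BR.S0.RedModular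
open Fermat.Agent.BR3.FibreProd Fermat.Agent.BR3.IgSq

variable {M q : ℕ} [NeZero M] [hq : Fact q.Prime]
variable (B : ValuationSubring (AlgebraicClosure ℚ)) (hB : B.LiesOverPrime q) (hqM : ¬ q ∣ M)
variable {ζ : (AlgebraicClosure ℚ)ˣ} (hζ : IsPrimitiveRoot ζ q)

/-- `card Mid = midCard q` once `fMid = midDeg q`. -/
theorem card_mid_eq_midCard_of_fMid (h : fMid M B hB = midDeg q) :
    Fintype.card (Mid B hB hqM hζ) = midCard q := by
  have h1 := card_mid_mul B hB hqM hζ
  have h2 := midDeg_mul_midCard hq.out
  have hpos := midDeg_pos hq.out
  rw [h] at h1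
  have h3 : Fintype.card (Mid B hB hqM hζ) * midDeg q = midCard q * midDeg q := by
    rw [h1, mul_comm (midCard q)]
    omega
  exact Nat.eq_of_mul_eq_mul_right hpos h3

/-- there is a middle component -/
theorem nonempty_mid : Nonempty (Mid B hB hqM hζ) := by
  have h1 := card_mid_mul B hB hqM hζ
  have hq2 := hq.out.two_le
  have hpos : 0 < Fintype.card (Mid B hB hqM hζ) := by
    rcases Nat.eq_zero_or_pos (Fintype.card (Mid B hB hqM hζ)) with h0 | h0
    · rw [h0, zero_mul] at h1
      omega
    · exact h0
  exact Fintype.card_pos_iff.mp hpos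

variable [IsAlgClosed (ResidueField B)] [CharP (IsLocalRing.ResidueField B) q]

/-- **`card Mid = midCard q`** (one supersingular crossing suffices; `M` without elliptic
points). -/
theorem card_mid_eq_midCard (e : Crossing (chartDataModular B hB hqM)) (h2 : nuTwo M = 0)
    (h3 : nuThree M = 0) : Fintype.card (Mid B hB hqM hζ) = midCard q :=
  card_mid_eq_midCard_of_fMid B hB hqM hζ
    (Fermat.Agent.BR3.MidKummerPlaces.fMid_eq_midDeg B hB hqM e h2 h3)

/-- `card Mid = card KP` for an index type `KP` of the Kummer points with `card KP = midCard q`. -/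
theorem card_mid_eq_card {KP : Type} [Fintype KP] (hKP : Fintype.card KP = midCard q)
    (e : Crossing (chartDataModular B hB hqM)) (h2 : nuTwo M = 0) (h3 : nuThree M = 0) :
    Fintype.card (Mid B hB hqM hζ) = Fintype.card KP :=
  (card_mid_eq_midCard B hB hqM hζ e h2 h3).trans hKP.symm

end Fermat.Agent.BR3.MidCard
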