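/-
Program C (S36), node I7, piece (c), part 3: the value / component layer of the Kummer nodes
(helper12; assigned by helper17, 21:37Z).

`CM j` the constant reductions of the middle components, `pK e` THE place of a middle component
over the supersingular point `e` (ONE residue field for all middle components), `θ e` the Kummer
function of the vertical component `z e`, `r e s` its value at the Kummer point `s` of `z e`
(`s ↦ r e s` injective).

* `ValAt CM pK θ r e j s` : `θ e` lies in the valuation ring of `mid j` and its residue has the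
  value `r e s` at `pK e` (helper17's named input `hθval`: `hex : ∀ e j, ∃ s, ValAt … e j s`);
  `valAt_unique`; `valAt_of_root` (from `v` a root + exhaustion of the roots by `r e`);
* `cLift r e s : A` a lift of `r e s`, `valAt_iff_hasValue : ValAt … e j s ↔
  SepNCompRel.HasValue (CM j) (pK e) (θ e) (cLift r e s)` (the shape `hθ₂` of
  `KummerComps.VertAlg.kummerHyp_frame`);
* `val`, `comp := SepNComp.compOf val hval`, **`comp_eq_iff : comp e s = j ↔ ValAt … e j s`**
  (the architect's (U2)), `valAt_comp`, **`hasValue_comp`** (`hθ₂` at the node `nk e s`),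
  `comp_hall` (`hsurj` of `SDD.Modular.modelAt_of_casesAll`), `comp_surj` (field `comp_surj`),
  `comp_injective`, `comp_hcomp` (hypothesis `hcomp` of (G6));
* `bijective_val_of_equivariant` / `bijective_val_of_attained` : `hval` from `card Mid = card KP`
  and either the equivariance of `ValAt` under `σ₀` or "every value is attained on some middle
  component";
* modular instance (`Mid B hB hqM hζ`, `FMid M B`) : `card_mid_eq_card_KP`,
  `bijective_val_modular_of_equivariant`, `bijective_val_modular_of_attained` with
  `card Mid = card KP` from `MidCard.card_mid_eq_card`.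
-/
import Mathlib
import Fermat.Agent.BR3.SepNCompRel
import Fermat.Agent.BR3.MidCard

set_option autoImplicit false
set_option linter.unusedSectionVars false
set_option linter.style.haveILetI false
set_option synthInstance.maxHeartbeats 400000

noncomputable section

/- S36 build-time patch: file-local shortcut instances. They only shorten instance search;
each is the instance that the search finds anyway (reducible, same terms after unfolding). -/
local instance (priority := 100000) Fermat.Agent.BR3.FastInst.instAlgFullC_KummerCompMod
    {k : Type*} [Field k] (N : ℕ) :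
    Algebra k ↥(ModularCurve.modularFunctionFieldFullC k N) := inferInstance
local instance (priority := 100000) Fermat.Agent.BR3.FastInst.instFieldFullC_KummerCompMod
    {k : Type*} [Field k] (N : ℕ) :
    Field ↥(ModularCurve.modularFunctionFieldFullC k N) := inferInstance
local instance (priority := 100000) Fermat.Agent.BR3.FastInst.instAlgLaurent_KummerCompMod
    {k : Type*} [Field k] : Algebra k (LaurentSeries k) := inferInstance


namespace Fermat.Agent.BR3.KummerCompMod

open AlgebraicCurve IsLocalRing Fermat.Agent.Val Fermat.Agent.Red Fermat.Agent.BR3.SepNComp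
  Fermat.Agent.BR3.SepNCompRel

/-! ### The abstract layer -/

section Abstract

variable {K : Type} {F : Type*} [Field K] [Field F] [Algebra K F] {A : ValuationSubring K}
  {Ft : Type*} [Field Ft] [Algebra (ResidueField A) Ft]
  {Mid SSp KP : Type} (CM : Mid → ConstRed (F := F) (Ft := Ft) A (residue A))
  (pK : SSp → Place (ResidueField A) Ft) (θ : SSp → F) (r : SSp → KP → ResidueField A)

/-- **The Kummer function `θ e` has the value `r e s` at THE place of `mid j` over `e`.** -/
def ValAt (e : SSp) (j : Mid) (s : KP) : Prop :=
  ∃ h : θ e ∈ (CM j).O, IsValueAt (pK e) ((CM j).res ⟨θ e, h⟩) (r e s)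

variable {CM pK θ r}

theorem valAt_unique (hr : ∀ e, Function.Injective (r e)) (e : SSp) (j : Mid) (s s' : KP)
    (h : ValAt CM pK θ r e j s) (h' : ValAt CM pK θ r e j s') : s = s' := by
  obtain ⟨hm, hv⟩ := h
  obtain ⟨hm', hv'⟩ := h'
  exact hr e (hv.unique hv')

/-- `ValAt` from a value which is a "root" and the exhaustion of the roots by `r e`. -/
theorem valAt_of_root (isRoot : SSp → ResidueField A → Prop)
    (hroot : ∀ e v, isRoot e v → ∃ s, r e s = v) {e : SSp} {j : Mid}
    (h : ∃ (h : θ e ∈ (CM j).O) (v : ResidueField A),
      IsValueAt (pK e) ((CM j).res ⟨θ e, h⟩) v ∧ isRoot e v) :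
    ∃ s, ValAt CM pK θ r e j s := by
  obtain ⟨hm, v, hv, hv2⟩ := h
  obtain ⟨s, rfl⟩ := hroot e v hv2
  exact ⟨s, hm, hv⟩

variable (r)

/-- a lift to `A` of the value `r e s` -/
def cLift (e : SSp) (s : KP) : A := Classical.choose (residue_surjective (r e s))

@[simp] theorem residue_cLift (e : SSp) (s : KP) : residue A (cLift r e s) = r e s :=
  Classical.choose_spec (residue_surjective (r e s))

variable {r}

/-- `ValAt` in the shape `hθ₂` of `KummerComps.VertAlg.kummerHyp_frame`. -/
theorem valAt_iff_hasValue {e : SSp} {j : Mid} {s : KP} :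
    ValAt CM pK θ r e j s ↔ HasValue (CM j) (pK e) (θ e) (cLift r e s) := by
  have hc : algebraMap K F ((cLift r e s : A) : K) ∈ (CM j).O :=
    ((CM j).algebraMap_mem_iff _).mpr (cLift r e s).2
  have hcres : (CM j).res ⟨algebraMap K F ((cLift r e s : A) : K), hc⟩ =
      algebraMap (ResidueField A) Ft (r e s) := by
    rw [(CM j).res_algebraMap _ (cLift r e s).2 hc]
    exact congrArg _ (residue_cLift r e s)
  constructor
  · rintro ⟨hm, hv⟩
    refine ⟨sub_mem hm hc, ?_⟩
    have hres : (CM j).res ⟨θ e - algebraMap K F ((cLift r e s : A) : K), sub_mem hm hc⟩ =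
        (CM j).res ⟨θ e, hm⟩ - algebraMap (ResidueField A) Ft (r e s) := by
      rw [← hcres, ← map_sub]
      rfl
    rw [hres, ← isValueAt_zero_iff]
    simpa using hv.sub (isValueAt_algebraMap (pK e) (r e s))
  · rintro ⟨hm, hlt⟩
    have hθ : θ e ∈ (CM j).O := by
      have := add_mem hm hc
      rwa [sub_add_cancel] at this
    refine ⟨hθ, ?_⟩
    have hres : (CM j).res ⟨θ e, hθ⟩ =
        (CM j).res ⟨θ e - algebraMap K F ((cLift r e s : A) : K), hm⟩ +
          algebraMap (ResidueField A) Ft (r e s) := by
      rw [← hcres, ← map_add]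
      congr 1
      exact Subtype.ext (sub_add_cancel _ _).symm
    rw [hres]
    simpa using (isValueAt_zero_iff.mpr hlt).add (isValueAt_algebraMap (pK e) (r e s))

variable (hr : ∀ e, Function.Injective (r e)) (hex : ∀ e j, ∃ s, ValAt CM pK θ r e j s)

/-- the value map: the Kummer point of `z e` through which `mid j` passes -/
def val : SSp → Mid → KP := valOf (ValAt CM pK θ r) hex

theorem valAt_val (e : SSp) (j : Mid) : ValAt CM pK θ r e j (val hex e j) :=
  valOf_spec (ValAt CM pK θ r) hex e j

include hr in
theorem val_eq_iff {e : SSp} {j : Mid} {s : KP} : val hex e j = s ↔ ValAt CM pK θ r e j s :=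
  valOf_eq_iff (ValAt CM pK θ r) hex (valAt_unique hr)

include hr in
/-- `hval` from the equivariance of `ValAt` under the tame generator. -/
theorem bijective_val_of_equivariant [Fintype Mid] [Fintype KP] [Nonempty Mid]
    (hcard : Fintype.card Mid = Fintype.card KP) (P : Equiv.Perm Mid) (p : SSp → Equiv.Perm KP)
    (hp : ∀ e s s', ∃ n : ℕ, ((p e) ^ n) s = s')
    (hP : ∀ e j s, ValAt CM pK θ r e j s → ValAt CM pK θ r e (P j) (p e s)) (e : SSp) :
    Function.Bijective (val hex e) :=
  bijective_valOf (ValAt CM pK θ r) hex (valAt_unique hr) hcard P p hp hP e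

include hr in
/-- `hval` when every value is attained on some middle component. -/
theorem bijective_val_of_attained [Fintype Mid] [Fintype KP]
    (hcard : Fintype.card Mid = Fintype.card KP)
    (hatt : ∀ e s, ∃ j, ValAt CM pK θ r e j s) (e : SSp) : Function.Bijective (val hex e) := by
  refine bijective_of_surjective_of_card (fun s => ?_) hcard
  obtain ⟨j, hj⟩ := hatt e s
  exact ⟨j, (val_eq_iff hr hex).mpr hj⟩

variable (hval : ∀ e, Function.Bijective (val hex e))

/-- **The middle component through the Kummer point `s` of `z e`.** -/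
def comp : SSp → KP → Mid := compOf (val hex) hval

include hr in
/-- **(U2)** `comp e s = j` iff `θ e` has the value `r e s` at the place of `mid j` over `e`. -/
theorem comp_eq_iff {e : SSp} {s : KP} {j : Mid} :
    comp hex hval e s = j ↔ ValAt CM pK θ r e j s :=
  compOf_eq_iff_rel (ValAt CM pK θ r) hex (valAt_unique hr) hval

include hr in
theorem eq_comp_iff {e : SSp} {s : KP} {j : Mid} :
    j = comp hex hval e s ↔ ValAt CM pK θ r e j s := by
  rw [eq_comm, comp_eq_iff hr hex hval]

theorem valAt_comp (e : SSp) (s : KP) : ValAt CM pK θ r e (comp hex hval e s) s :=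
  rel_compOf (ValAt CM pK θ r) hex hval e s

/-- **`hθ₂` at the node `nk e s`**: on the component `comp e s`, `θ e - c₀` has a residue vanishing
at `pK e`, `c₀ := cLift r e s`. -/
theorem hasValue_comp (e : SSp) (s : KP) :
    HasValue (CM (comp hex hval e s)) (pK e) (θ e) (cLift r e s) :=
  valAt_iff_hasValue.mp (valAt_comp hex hval e s)

theorem comp_bijective (e : SSp) : Function.Bijective (comp hex hval e) :=
  compOf_bijective (val hex) hval e

theorem comp_injective (e : SSp) : Function.Injective (comp hex hval e) :=
  (comp_bijective hex hval e).1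

/-- `hsurj` of `SDD.Modular.modelAt_of_casesAll` -/
theorem comp_hall (e : SSp) (i : Mid) : ∃ s, comp hex hval e s = i :=
  compOf_hall (val hex) hval e i

/-- the field `comp_surj` of `SDD.CaseInput` -/
theorem comp_surj [Nonempty SSp] (i : Mid) : ∃ e s, comp hex hval e s = i :=
  compOf_surj (val hex) hval i

include hr in
/-- the hypothesis `hcomp` of (G6) -/
theorem comp_hcomp (P : Equiv.Perm Mid) (p : SSp → Equiv.Perm KP)
    (hP : ∀ e j s, ValAt CM pK θ r e j s → ValAt CM pK θ r e (P j) (p e s)) (e : SSp) (s : KP) :
    comp hex hval e (p e s) = P (comp hex hval e s) :=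
  compOf_hcomp (val hex) hval P p
    (valOf_equivariant (ValAt CM pK θ r) hex (valAt_unique hr) P p hP) e s

end Abstract

/-! ### The modular instance -/

section Modular

open ModularCurve Fermat.Agent.X0 Fermat.Agent.BR.S0.PointDict Fermat.Agent.BR.S0.RedModular
  Fermat.Agent.BR3.FibreProd Fermat.Agent.BR3.IgSq Fermat.Agent.BR.ResGen

variable {M q : ℕ} [NeZero M] [hq : Fact q.Prime]
variable (B : ValuationSubring (AlgebraicClosure ℚ)) (hB : B.LiesOverPrime q) (hqM : ¬ q ∣ M)
variable [IsAlgClosed (ResidueField B)]
variable {ζ : (AlgebraicClosure ℚ)ˣ} (hζ : IsPrimitiveRoot ζ q)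
variable {KP : Type} [Fintype KP]

/-- `card Mid = card KP` for the index type of the Kummer points (`card KP = midCard q`). -/
theorem card_mid_eq_card_KP (hKP : Fintype.card KP = midCard q)
    (e₀ : Crossing (chartDataModular B hB hqM)) (h2 : nuTwo M = 0) (h3 : nuThree M = 0) :
    Fintype.card (Mid B hB hqM hζ) = Fintype.card KP := by
  haveI := charP_kB B hB
  exact Fermat.Agent.BR3.MidCard.card_mid_eq_card B hB hqM hζ hKP e₀ h2 h3

variable {CM : Mid B hB hqM hζ →
    ConstRed (F := Fb (M * q * q)) (Ft := FMid M B) B (residue B)}
  {pK : Crossing (chartDataModular B hB hqM) → Place (ResidueField B) (FMid M B)}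
  {θ : Crossing (chartDataModular B hB hqM) → Fb (M * q * q)}
  {r : Crossing (chartDataModular B hB hqM) → KP → ResidueField B}
  (hr : ∀ e, Function.Injective (r e)) (hex : ∀ e j, ∃ s, ValAt CM pK θ r e j s)

include hr in
/-- **`hval` in the modular frame, from the equivariance under the tame generator.** -/
theorem bijective_val_modular_of_equivariant (hKP : Fintype.card KP = midCard q)
    (h2 : nuTwo M = 0) (h3 : nuThree M = 0) (P : Equiv.Perm (Mid B hB hqM hζ))
    (p : Crossing (chartDataModular B hB hqM) → Equiv.Perm KP)
    (hp : ∀ e s s', ∃ n : ℕ, ((p e) ^ n) s = s')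
    (hP : ∀ e j s, ValAt CM pK θ r e j s → ValAt CM pK θ r e (P j) (p e s))
    (e : Crossing (chartDataModular B hB hqM)) : Function.Bijective (val hex e) := by
  haveI := Fermat.Agent.BR3.MidCard.nonempty_mid B hB hqM hζ
  exact bijective_val_of_equivariant hr hex (card_mid_eq_card_KP B hB hqM hζ hKP e h2 h3) P p hp hP e

include hr in
/-- **`hval` in the modular frame, when every value is attained on some middle component.** -/
theorem bijective_val_modular_of_attained (hKP : Fintype.card KP = midCard q)
    (h2 : nuTwo M = 0) (h3 : nuThree M = 0) (hatt : ∀ e s, ∃ j, ValAt CM pK θ r e j s)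
    (e : Crossing (chartDataModular B hB hqM)) : Function.Bijective (val hex e) :=
  bijective_val_of_attained hr hex (card_mid_eq_card_KP B hB hqM hζ hKP e h2 h3) hatt e

end Modular

end Fermat.Agent.BR3.KummerCompMod
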