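/-
Program C (S36), node I7, piece (c), part 4: glue between the two presentations of the Kummer
relation (helper12).

* `SepNCompRel.KummerRel CM pK θ c` (lifts `c e s : A` of the values; used by the architect's
  `EquivActsKummerRel.kummerRel_equivariant` / `comp_equivariant`);
* `KummerCompMod.ValAt CM pK θ r` (the values `r e s` in the residue field; used by
  `KummerCompMod.comp`, `comp_eq_iff`, `hasValue_comp`).

For `r e s := residue A (c e s)` they coincide: `hasValue_congr`, `valAt_iff_kummerRel`,
`valAt_equivariant_of_kummerRel` (the hypothesis `hP` of `KummerCompMod` from (I3)),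
`kummerRel_ex_of_valAt` / `valAt_ex_of_kummerRel` (the two forms of (I1) `hex`), and the two
definitions of `comp` agree: `comp_eq_compOf_kummerRel`.
-/
import Mathlib
import Fermat.Agent.BR3.KummerCompMod

set_option autoImplicit false
set_option linter.unusedSectionVars false

namespace Fermat.Agent.BR3.KummerCompGlue

open AlgebraicCurve IsLocalRing Fermat.Agent.Val Fermat.Agent.Red Fermat.Agent.BR3.SepNComp
  Fermat.Agent.BR3.SepNCompRel Fermat.Agent.BR3.KummerCompMod

variable {K : Type} {F : Type*} [Field K] [Field F] [Algebra K F] {A : ValuationSubring K}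
  {Ft : Type*} [Field Ft] [Algebra (ResidueField A) Ft]

/-- `HasValue` depends only on the residue class of the constant. -/
theorem hasValue_congr {C : ConstRed (F := F) (Ft := Ft) A (residue A)}
    {Q : Place (ResidueField A) Ft} {θ : F} {c c' : A} (hcc : residue A c = residue A c')
    (h : HasValue C Q θ c) : HasValue C Q θ c' := by
  obtain ⟨hm, hlt⟩ := h
  have hd : algebraMap K F ((c - c' : A) : K) ∈ C.O := (C.algebraMap_mem_iff _).mpr (c - c').2
  have hsplit : θ - algebraMap K F (c' : K) =
      (θ - algebraMap K F (c : K)) + algebraMap K F ((c - c' : A) : K) := by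
    rw [show ((c - c' : A) : K) = (c : K) - (c' : K) from rfl, map_sub]
    ring
  have hm' : θ - algebraMap K F (c' : K) ∈ C.O := by
    rw [hsplit]
    exact add_mem hm hd
  refine ⟨hm', ?_⟩
  have hres : C.res ⟨θ - algebraMap K F (c' : K), hm'⟩ =
      C.res ⟨θ - algebraMap K F (c : K), hm⟩ + C.res ⟨algebraMap K F ((c - c' : A) : K), hd⟩ := by
    rw [← map_add]
    congr 1
    exact Subtype.ext hsplit
  have h0 : C.res ⟨algebraMap K F ((c - c' : A) : K), hd⟩ = 0 := by
    rw [C.res_algebraMap _ (c - c').2 hd]
    have h1 : residue A (c - c') = 0 := by rw [map_sub, hcc, sub_self]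
    have h2 : residue A ⟨((c - c' : A) : K), (c - c').2⟩ = 0 := h1
    rw [h2, map_zero]
  rw [hres, h0, add_zero]
  exact hlt

theorem hasValue_congr_iff {C : ConstRed (F := F) (Ft := Ft) A (residue A)}
    {Q : Place (ResidueField A) Ft} {θ : F} {c c' : A} (hcc : residue A c = residue A c') :
    HasValue C Q θ c ↔ HasValue C Q θ c' :=
  ⟨hasValue_congr hcc, hasValue_congr hcc.symm⟩

variable {Mid SSp KP : Type} {CM : Mid → ConstRed (F := F) (Ft := Ft) A (residue A)}
  {pK : SSp → Place (ResidueField A) Ft} {θ : SSp → F} (c : SSp → KP → A)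

/-- the two presentations of the Kummer relation coincide for `r e s := residue A (c e s)` -/
theorem valAt_iff_kummerRel {e : SSp} {j : Mid} {s : KP} :
    ValAt CM pK θ (fun e s => residue A (c e s)) e j s ↔ KummerRel CM pK θ c e j s := by
  rw [valAt_iff_hasValue]
  exact hasValue_congr_iff (residue_cLift (fun e s => residue A (c e s)) e s)

/-- (I1) in the two forms -/
theorem valAt_ex_of_kummerRel (hex : ∀ e j, ∃ s, KummerRel CM pK θ c e j s) (e : SSp) (j : Mid) :
    ∃ s, ValAt CM pK θ (fun e s => residue A (c e s)) e j s := by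
  obtain ⟨s, hs⟩ := hex e j
  exact ⟨s, (valAt_iff_kummerRel c).mpr hs⟩

theorem kummerRel_ex_of_valAt
    (hex : ∀ e j, ∃ s, ValAt CM pK θ (fun e s => residue A (c e s)) e j s) (e : SSp) (j : Mid) :
    ∃ s, KummerRel CM pK θ c e j s := by
  obtain ⟨s, hs⟩ := hex e j
  exact ⟨s, (valAt_iff_kummerRel c).mp hs⟩

/-- the hypothesis `hP` of `KummerCompMod` from (I3) `EquivActsKummerRel.kummerRel_equivariant` -/
theorem valAt_equivariant_of_kummerRel (P : Equiv.Perm Mid) (p : SSp → Equiv.Perm KP)
    (hP : ∀ e j s, KummerRel CM pK θ c e j s → KummerRel CM pK θ c e (P j) (p e s))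
    (e : SSp) (j : Mid) (s : KP) (h : ValAt CM pK θ (fun e s => residue A (c e s)) e j s) :
    ValAt CM pK θ (fun e s => residue A (c e s)) e (P j) (p e s) :=
  (valAt_iff_kummerRel c).mpr (hP e j s ((valAt_iff_kummerRel c).mp h))

/-- **The two definitions of `comp` agree.** -/
theorem comp_eq_compOf_kummerRel
    (hcinj : ∀ e s s', residue A (c e s) = residue A (c e s') → s = s')
    (hex : ∀ e j, ∃ s, ValAt CM pK θ (fun e s => residue A (c e s)) e j s)
    (hval : ∀ e, Function.Bijective (val hex e))
    (hex' : ∀ e j, ∃ s, KummerRel CM pK θ c e j s)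
    (hval' : ∀ e, Function.Bijective (valOf (KummerRel CM pK θ c) hex' e)) :
    comp hex hval = compOf (valOf (KummerRel CM pK θ c) hex') hval' := by
  funext e s
  have hr : ∀ e, Function.Injective ((fun e s => residue A (c e s)) e : KP → ResidueField A) :=
    fun e s s' h => hcinj e s s' h
  rw [comp_eq_iff hr hex hval, valAt_iff_kummerRel]
  exact rel_compOf (KummerRel CM pK θ c) hex' hval' e s

end Fermat.Agent.BR3.KummerCompGlue
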