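/-
Program C (S36), node I7, piece (c), part 5: the map `comp`, uniformly in the prime `q`
(helper12; helper17 msg 21:47Z (i)).

For `q` odd `comp e s` is the middle component through the Kummer point `s` of `z e`
(`KummerCompMod.comp`, from the named inputs `hex`, `hval` which make sense for `q ≠ 2` only); for
`q = 2` there is ONE middle component and ONE Kummer point.

* `compU hex hval : SSp → KP → Mid` := `if q = 2 then the middle component else comp …`;
  `compU_of_two`, `compU_of_ne_two`;
* `compU_hall` (`hsurj` of `SDD.Modular.modelAt_of_casesAll`), `compU_surj` (field `comp_surj`),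
  `compU_injective`, `compU_bijective`, `compU_hcomp` (hypothesis `hcomp` of (G6));
* for `q ≠ 2` : `compU_eq_iff` (U2), `valAt_compU`, `hasValue_compU` (`hθ₂` at `nk e s`);
* modular frame: `subsingleton_mid_of_two : q = 2 → Subsingleton (Mid B hB hqM hζ)`
  (`card Mid * fMid = q - 1 = 1`).
-/
import Mathlib
import Fermat.Agent.BR3.KummerCompMod

set_option autoImplicit false
set_option linter.unusedSectionVars false
set_option linter.style.haveILetI false
set_option synthInstance.maxHeartbeats 400000

noncomputable section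

namespace Fermat.Agent.BR3.KummerCompUnif

open AlgebraicCurve IsLocalRing Fermat.Agent.Val Fermat.Agent.Red Fermat.Agent.BR3.SepNComp
  Fermat.Agent.BR3.SepNCompRel Fermat.Agent.BR3.KummerCompMod

section Abstract

variable {K : Type} {F : Type*} [Field K] [Field F] [Algebra K F] {A : ValuationSubring K}
  {Ft : Type*} [Field Ft] [Algebra (ResidueField A) Ft]
  {Mid SSp KP : Type} {CM : Mid → ConstRed (F := F) (Ft := Ft) A (residue A)}
  {pK : SSp → Place (ResidueField A) Ft} {θ : SSp → F} {r : SSp → KP → ResidueField A}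
  {q : ℕ} [Nonempty Mid]
  (hex : q ≠ 2 → ∀ e j, ∃ s, ValAt CM pK θ r e j s)
  (hval : ∀ hq2 : q ≠ 2, ∀ e, Function.Bijective (val (hex hq2) e))

open Classical in
/-- **The middle component through the Kummer point `s` of `z e`, uniformly in `q`.** -/
def compU : SSp → KP → Mid := fun e s =>
  if hq2 : q = 2 then Classical.arbitrary Mid else comp (hex hq2) (hval hq2) e s

theorem compU_of_two (hq2 : q = 2) (e : SSp) (s : KP) :
    compU hex hval e s = Classical.arbitrary Mid := by
  unfold compU
  rw [dif_pos hq2]

theorem compU_of_ne_two (hq2 : q ≠ 2) (e : SSp) (s : KP) :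
    compU hex hval e s = comp (hex hq2) (hval hq2) e s := by
  unfold compU
  rw [dif_neg hq2]

variable (hM : q = 2 → Subsingleton Mid) (hKP : q = 2 → Subsingleton KP) [Nonempty KP]

include hM in
/-- `hsurj` of `SDD.Modular.modelAt_of_casesAll` -/
theorem compU_hall (e : SSp) (i : Mid) : ∃ s, compU hex hval e s = i := by
  by_cases hq2 : q = 2
  · haveI := hM hq2
    exact ⟨Classical.arbitrary KP, Subsingleton.elim _ _⟩
  · obtain ⟨s, hs⟩ := comp_hall (hex hq2) (hval hq2) e i
    exact ⟨s, (compU_of_ne_two hex hval hq2 e s).trans hs⟩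

include hM in
/-- the field `comp_surj` of `SDD.CaseInput` -/
theorem compU_surj [Nonempty SSp] (i : Mid) : ∃ e s, compU hex hval e s = i := by
  obtain ⟨e⟩ := ‹Nonempty SSp›
  exact ⟨e, compU_hall hex hval hM e i⟩

include hKP in
theorem compU_injective (e : SSp) : Function.Injective (compU hex hval e) := by
  intro s s' h
  by_cases hq2 : q = 2
  · haveI := hKP hq2
    exact Subsingleton.elim _ _
  · rw [compU_of_ne_two hex hval hq2, compU_of_ne_two hex hval hq2] at h
    exact comp_injective (hex hq2) (hval hq2) e h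

include hM hKP in
theorem compU_bijective (e : SSp) : Function.Bijective (compU hex hval e) :=
  ⟨compU_injective hex hval hKP e, fun i => compU_hall hex hval hM e i⟩

include hM in
/-- the hypothesis `hcomp` of (G6) -/
theorem compU_hcomp (hr : ∀ e, Function.Injective (r e)) (P : Equiv.Perm Mid)
    (p : SSp → Equiv.Perm KP)
    (hP : q ≠ 2 → ∀ e j s, ValAt CM pK θ r e j s → ValAt CM pK θ r e (P j) (p e s))
    (e : SSp) (s : KP) : compU hex hval e (p e s) = P (compU hex hval e s) := by
  by_cases hq2 : q = 2
  · haveI := hM hq2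
    exact Subsingleton.elim _ _
  · rw [compU_of_ne_two hex hval hq2, compU_of_ne_two hex hval hq2]
    exact comp_hcomp hr (hex hq2) (hval hq2) P p (hP hq2) e s

/-- **(U2)** for `q` odd -/
theorem compU_eq_iff (hr : ∀ e, Function.Injective (r e)) (hq2 : q ≠ 2) {e : SSp} {s : KP}
    {j : Mid} : compU hex hval e s = j ↔ ValAt CM pK θ r e j s := by
  rw [compU_of_ne_two hex hval hq2]
  exact comp_eq_iff hr (hex hq2) (hval hq2)

theorem valAt_compU (hq2 : q ≠ 2) (e : SSp) (s : KP) :
    ValAt CM pK θ r e (compU hex hval e s) s := by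
  rw [compU_of_ne_two hex hval hq2]
  exact valAt_comp (hex hq2) (hval hq2) e s

/-- **`hθ₂` at the node `nk e s`** (`q` odd) -/
theorem hasValue_compU (hq2 : q ≠ 2) (e : SSp) (s : KP) :
    HasValue (CM (compU hex hval e s)) (pK e) (θ e) (cLift r e s) :=
  valAt_iff_hasValue.mp (valAt_compU hex hval hq2 e s)

end Abstract

/-! ### The modular frame -/

section Modular

open ModularCurve Fermat.Agent.X0 Fermat.Agent.BR3.FibreProd

variable {M q : ℕ} [NeZero M] [hq : Fact q.Prime]
variable (B : ValuationSubring (AlgebraicClosure ℚ)) (hB : B.LiesOverPrime q) (hqM : ¬ q ∣ M)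
variable {ζ : (AlgebraicClosure ℚ)ˣ} (hζ : IsPrimitiveRoot ζ q)

/-- for `q = 2` there is exactly one middle component -/
theorem card_mid_of_two (hq2 : q = 2) : Fintype.card (Mid B hB hqM hζ) = 1 := by
  have h1 := card_mid_mul B hB hqM hζ
  have h2 : q - 1 = 1 := by omega
  rw [h2] at h1
  exact Nat.eq_one_of_mul_eq_one_right h1

theorem subsingleton_mid_of_two (hq2 : q = 2) : Subsingleton (Mid B hB hqM hζ) :=
  Fintype.card_le_one_iff_subsingleton.mp (card_mid_of_two B hB hqM hζ hq2).le

end Modular

end Fermat.Agent.BR3.KummerCompUnif
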