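import Mathlib
import Fermat.Agent.BR3.MidKummerPlaces
import Fermat.Agent.BR3.KummerGenus.MidOrd

/-!
# Program C (S36), node (I7-N-KUM) layer 2b, the MIDDLE-COMPONENT side of a Kummer node: the orders
at the Kummer place of the residues of `U_g / (ζ - 1)` and of `X = ϖ₂ · U_g⁻¹`

For EVERY middle valuation `w₂ b` (`hζ : IsPrimitiveRoot ζ q`, `hb : b < q - 1`), every crossing `e`
and every twisted triple `P : SSParam.IsSSParam B hB hqM e g g' g''`:

* `exists_FMid_witness_red` : `y : FMid M B`, `c : F̃_M` with `y ≠ 0`,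
  `Red (w₂ b) (resMid b) (U_g / (ζ - 1)) y`, `y^(q-1) = c`, `ord_{z₁ e} c = −2`
  (the witness of `MidKummerPlaces.exists_FMid_witness_of_param` for ANY `b`, WITH its `Red` relation);
* `mul_ord_resMid_Ug_div` : `(q-1) · ord_w (res (U_g/(ζ-1))) = −2 fMid` at the Kummer place
  `w = pMidOver (z₁ e) hv` (all `q`); **`ord_resMid_Ug_div`** : `= −1` for `q` odd;
* `red_xOf` : `Red (w₂ b) (resMid b) (ϖ₂ · U_g⁻¹) (res(ϖ₂/(ζ-1)) · y⁻¹)` for every constant `ϖ₂` with
  `|ϖ₂|^(q-1) = |q|`;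
* `mul_ord_resMid_xOf` : `(q-1) · ord_w (res X) = 2 fMid` (all `q`);
  **`ord_resMid_xOf`** : `ord_w (res X) = 1` for `q` odd — `X = KummerOfVert.xOf ϖ₂ U_g` reduces to a
  LOCAL PARAMETER at the branch `s₁` of the Kummer node on the middle component (`hX` of
  `KummerNode.branchDataN`);
* `adicValuation_resMid_xOf_lt_one` : the residue of `X` vanishes at the Kummer place (all `q`).
-/

set_option autoImplicit false
set_option linter.unusedSectionVars false
set_option linter.style.haveILetI false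
set_option synthInstance.maxHeartbeats 400000

noncomputable section

/- S36 build-time patch: file-local shortcut instances. They only shorten instance search;
each is the instance that the search finds anyway (reducible, same terms after unfolding). -/
local instance (priority := 100000) Fermat.Agent.BR3.FastInst.instAlgFullC_MidKummerNodeOrd
    {k : Type*} [Field k] (N : ℕ) :
    Algebra k ↥(ModularCurve.modularFunctionFieldFullC k N) := inferInstance
local instance (priority := 100000) Fermat.Agent.BR3.FastInst.instFieldFullC_MidKummerNodeOrd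
    {k : Type*} [Field k] (N : ℕ) :
    Field ↥(ModularCurve.modularFunctionFieldFullC k N) := inferInstance
local instance (priority := 100000) Fermat.Agent.BR3.FastInst.instAlgLaurent_MidKummerNodeOrd
    {k : Type*} [Field k] : Algebra k (LaurentSeries k) := inferInstance


namespace Fermat.Agent.BR3.MidKummerNodeOrd

open AlgebraicCurve ModularCurve IsLocalRing
open Fermat.Agent.X0 Fermat.Agent.Val Fermat.Agent.Hecke
open Fermat.Agent.BR.S0.RedModular Fermat.Agent.BR.S0.PointDict Fermat.Agent.BR.S0.ThickFinal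
open Fermat.Agent.BR3.FibreProd Fermat.Agent.BR3.HeckePoly Fermat.Agent.BR3.MidKummerAbs
open Fermat.Agent.BR3.SSParam Fermat.Agent.BR3.MidKummerFinal Fermat.Agent.BR3.IgSq
open Fermat.Agent.BR3.MidKummerParam Fermat.Agent.BR3.KummerGenus.MidInst
open Fermat.Agent.BR3.MidKummerMod

variable {M q : ℕ} [NeZero M] [hq : Fact q.Prime]
variable (B : ValuationSubring Kb) (hB : B.LiesOverPrime q) (hqM : ¬ q ∣ M)
variable [IsAlgClosed (ResidueField B)] [CharP (IsLocalRing.ResidueField B) q]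
  (e : Crossing (chartDataModular B hB hqM))
variable {ζ : Kbˣ} (hζ : IsPrimitiveRoot ζ q) {b : ℕ} (hb : b < q - 1)

local notation "kB" => IsLocalRing.ResidueField B
local notation "FtM" => modularFunctionFieldFullC (IsLocalRing.ResidueField B) M

/-- (shortcut instances, as in `KummerGenus.MidInst`) -/
local instance (priority := 100000) instAlgKFt'' : Algebra kB FtM := inferInstance
local instance (priority := 100000) instAlgKFMid'' : Algebra kB (FMid M B) := inferInstance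
local instance (priority := 100000) instAlgFtFMid'' : Algebra FtM (FMid M B) := inferInstance
local instance (priority := 100000) instTowerMid'' : IsScalarTower kB FtM (FMid M B) :=
  inferInstance

theorem resMid_eq_zero_iff_not_isUnit (z : w2 B hB hqM hζ hb) :
    resMid B hB hqM hζ hb z = 0 ↔ ¬ IsUnit z :=
  resMid_eq_zero_iff B hB hqM hζ hb z

/-- a `resw2`-reduction is a `resMid`-reduction -/
theorem red_resMid_of_red {z : Fb (M * q * q)} {t : LaurentSeries kB}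
    (h : Red (w2 B hB hqM hζ hb) (resw2 B hB hqM hζ hb) z t) :
    ∃ ht : t ∈ FMid M B, Red (w2 B hB hqM hζ hb) (resMid B hB hqM hζ hb) z ⟨t, ht⟩ := by
  obtain ⟨hz, hzt⟩ := h
  have ht : t ∈ FMid M B := hzt ▸ resw2_mem_FMid B hB hqM hζ hb _
  exact ⟨ht, hz, Subtype.ext hzt⟩

/-- **The Kummer witness inside `FMid M B` for ANY middle valuation `w₂ b`, with its `Red`
relation.** -/
theorem exists_FMid_witness_red (h2 : nuTwo M = 0) (h3 : nuThree M = 0)
    {g g' g'' : Fb M} (P : IsSSParam B hB hqM e g g' g'') :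
    ∃ (y : FMid M B) (c : FtM), y ≠ 0 ∧
      Red (w2 B hB hqM hζ hb) (resMid B hB hqM hζ hb)
        (Ug M q g / algebraMap Kb (Fb (M * q * q)) ((ζ : Kb) - 1)) y ∧
      y ^ (q - 1) = algebraMap FtM (FMid M B) c ∧
      (z₁ (chartDataModular B hB hqM) e).ord c = -2 := by
  obtain ⟨t, c, ht0, htred, htc, -, hord⟩ :=
    exists_kummer_witness_of_param B hB hqM e hζ hb h2 h3 P
  obtain ⟨htF, hred⟩ := red_resMid_of_red B hB hqM hζ hb htred
  exact ⟨⟨t, htF⟩, c, fun h => ht0 (congrArg Subtype.val h), hred, Subtype.ext htc, hord⟩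

/-- `(q-1) · ord_w (res (U_g/(ζ-1))) = −2 fMid` at the Kummer place `w` over `z₁ e` (all `q`). -/
theorem mul_ord_resMid_Ug_div (h2 : nuTwo M = 0) (h3 : nuThree M = 0)
    {g g' g'' : Fb M} (P : IsSSParam B hB hqM e g g' g'')
    (hv : IsCoprime ((z₁ (chartDataModular B hB hqM) e).ord (deltaMid B hB hqM))
      (fMid M B hB : ℤ))
    (h : Ug M q g / algebraMap Kb (Fb (M * q * q)) ((ζ : Kb) - 1) ∈ w2 B hB hqM hζ hb) :
    ((q - 1 : ℕ) : ℤ) * (pMidOver B hB hqM (z₁ (chartDataModular B hB hqM) e) hv).ord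
        (resMid B hB hqM hζ hb ⟨_, h⟩) = (fMid M B hB : ℤ) * (-2) := by
  obtain ⟨y, c, hy0, ⟨h', hy⟩, hyc, hord⟩ :=
    exists_FMid_witness_red B hB hqM e hζ hb h2 h3 P
  rw [hy, mul_ord_pMidOver_of_pow B hB hqM _ hv hyc, hord]

/-- **`ord_w (res (U_g/(ζ-1))) = −1` at the Kummer place over `z₁ e`** (`q` odd): the residue of
`U_g/(ζ-1)` on the middle component has a SIMPLE POLE there. -/
theorem ord_resMid_Ug_div (hq2 : q ≠ 2) (h2 : nuTwo M = 0) (h3 : nuThree M = 0)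
    {g g' g'' : Fb M} (P : IsSSParam B hB hqM e g g' g'')
    (hv : IsCoprime ((z₁ (chartDataModular B hB hqM) e).ord (deltaMid B hB hqM))
      (fMid M B hB : ℤ))
    (h : Ug M q g / algebraMap Kb (Fb (M * q * q)) ((ζ : Kb) - 1) ∈ w2 B hB hqM hζ hb) :
    (pMidOver B hB hqM (z₁ (chartDataModular B hB hqM) e) hv).ord
      (resMid B hB hqM hζ hb ⟨_, h⟩) = -1 := by
  obtain ⟨y, c, hy0, ⟨h', hy⟩, hyc, hord⟩ :=
    exists_FMid_witness_red B hB hqM e hζ hb h2 h3 P
  rw [hy]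
  exact ord_pMidOver_eq_neg_one B hB hqM hq2 _ hv hy0 hyc hord

include hζ in
/-- constants `ϖ₂` with `|ϖ₂|^(q-1) = |q|` have the valuation of `ζ - 1` -/
theorem valuation_eq_of_pow {ϖ₂ : Kb} (hϖ₂ : B.valuation ϖ₂ ^ (q - 1) = B.valuation (q : Kb)) :
    B.valuation ϖ₂ = B.valuation ((ζ : Kb) - 1) := by
  have hq1 : q - 1 ≠ 0 := by have := hq.out.two_le; omega
  rw [← valuation_zeta_sub_one_pow_B B hζ] at hϖ₂
  exact (pow_left_inj₀ zero_le zero_le hq1).mp hϖ₂

/-- **`X = ϖ₂ · U_g⁻¹` reduces on `w₂ b` to `res(ϖ₂/(ζ-1)) · y⁻¹`** where `y = res (U_g/(ζ-1))`. -/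
theorem red_xOf {ϖ₂ : Kb} (hϖ₂ : B.valuation ϖ₂ ^ (q - 1) = B.valuation (q : Kb))
    {U : Fb (M * q * q)} {y : FMid M B} (hy0 : y ≠ 0)
    (hy : Red (w2 B hB hqM hζ hb) (resMid B hB hqM hζ hb)
      (U / algebraMap Kb (Fb (M * q * q)) ((ζ : Kb) - 1)) y) :
    ∃ a : kB, a ≠ 0 ∧ Red (w2 B hB hqM hζ hb) (resMid B hB hqM hζ hb)
      (algebraMap Kb (Fb (M * q * q)) ϖ₂ * U⁻¹) (algebraMap kB (FMid M B) a * y⁻¹) := by
  have hz0 : (ζ : Kb) - 1 ≠ 0 := zeta_sub_one_ne_zero B hζ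
  have hval : B.valuation (ϖ₂ / ((ζ : Kb) - 1)) = 1 := by
    rw [map_div₀, valuation_eq_of_pow B hζ hϖ₂]
    exact div_self ((_root_.map_ne_zero _).mpr hz0)
  have hmem : ϖ₂ / ((ζ : Kb) - 1) ∈ B := (B.valuation_le_one_iff _).mp hval.le
  refine ⟨IsLocalRing.residue B ⟨ϖ₂ / ((ζ : Kb) - 1), hmem⟩, ?_, ?_⟩
  · rw [Ne, IsLocalRing.residue_eq_zero_iff, IsLocalRing.mem_maximalIdeal, mem_nonunits_iff,
      not_not]
    exact (B.valuation_eq_one_iff _).mpr hval
  · have hc : Red (w2 B hB hqM hζ hb) (resMid B hB hqM hζ hb)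
        (algebraMap Kb (Fb (M * q * q)) (ϖ₂ / ((ζ : Kb) - 1)))
        (algebraMap kB (FMid M B) (IsLocalRing.residue B ⟨ϖ₂ / ((ζ : Kb) - 1), hmem⟩)) :=
      ⟨(algebraMap_mem_w2_iff B hB hqM hζ hb _).2 hmem, resMid_algebraMap B hB hqM hζ hb _ hmem _⟩
    have hinv := Red.inv (resMid_eq_zero_iff_not_isUnit B hB hqM hζ hb) hy hy0
    refine Red.congr (Red.mul hc hinv) ?_
    have hz0' : algebraMap Kb (Fb (M * q * q)) ((ζ : Kb) - 1) ≠ 0 :=
      (_root_.map_ne_zero _).mpr hz0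
    rw [map_div₀, inv_div]
    field_simp

/-- `(q-1) · ord_w (res X) = 2 fMid` at the Kummer place `w` over `z₁ e` (all `q`),
`X = ϖ₂ · U_g⁻¹`. -/
theorem mul_ord_resMid_xOf (h2 : nuTwo M = 0) (h3 : nuThree M = 0)
    {g g' g'' : Fb M} (P : IsSSParam B hB hqM e g g' g'')
    (hv : IsCoprime ((z₁ (chartDataModular B hB hqM) e).ord (deltaMid B hB hqM))
      (fMid M B hB : ℤ))
    {ϖ₂ : Kb} (hϖ₂ : B.valuation ϖ₂ ^ (q - 1) = B.valuation (q : Kb))
    (h : algebraMap Kb (Fb (M * q * q)) ϖ₂ * (Ug M q g)⁻¹ ∈ w2 B hB hqM hζ hb) :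
    ((q - 1 : ℕ) : ℤ) * (pMidOver B hB hqM (z₁ (chartDataModular B hB hqM) e) hv).ord
        (resMid B hB hqM hζ hb ⟨_, h⟩) = (fMid M B hB : ℤ) * 2 := by
  obtain ⟨y, c, hy0, hyred, hyc, hord⟩ :=
    exists_FMid_witness_red B hB hqM e hζ hb h2 h3 P
  obtain ⟨a, ha0, h', hX⟩ := red_xOf B hB hqM hζ hb hϖ₂ hy0 hyred
  rw [hX, Place.ord_mul _ ((_root_.map_ne_zero _).mpr ha0) (inv_ne_zero hy0),
    ord_algebraMap_of_ne_zero _ ha0, zero_add, Place.ord_inv, mul_neg,
    mul_ord_pMidOver_of_pow B hB hqM _ hv hyc, hord]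
  ring

/-- **`X = ϖ₂ · U_g⁻¹` reduces to a LOCAL PARAMETER at the Kummer place over `z₁ e`** (`q` odd):
`hX` of `KummerNode.branchDataN` on the middle component. -/
theorem ord_resMid_xOf (hq2 : q ≠ 2) (h2 : nuTwo M = 0) (h3 : nuThree M = 0)
    {g g' g'' : Fb M} (P : IsSSParam B hB hqM e g g' g'')
    (hv : IsCoprime ((z₁ (chartDataModular B hB hqM) e).ord (deltaMid B hB hqM))
      (fMid M B hB : ℤ))
    {ϖ₂ : Kb} (hϖ₂ : B.valuation ϖ₂ ^ (q - 1) = B.valuation (q : Kb))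
    (h : algebraMap Kb (Fb (M * q * q)) ϖ₂ * (Ug M q g)⁻¹ ∈ w2 B hB hqM hζ hb) :
    (pMidOver B hB hqM (z₁ (chartDataModular B hB hqM) e) hv).ord
      (resMid B hB hqM hζ hb ⟨_, h⟩) = 1 := by
  obtain ⟨y, c, hy0, hyred, hyc, hord⟩ :=
    exists_FMid_witness_red B hB hqM e hζ hb h2 h3 P
  obtain ⟨a, ha0, h', hX⟩ := red_xOf B hB hqM hζ hb hϖ₂ hy0 hyred
  rw [hX, Place.ord_mul _ ((_root_.map_ne_zero _).mpr ha0) (inv_ne_zero hy0),
    ord_algebraMap_of_ne_zero _ ha0, zero_add]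
  exact ord_pMidOver_inv_eq_one B hB hqM hq2 _ hv hy0 hyc hord

/-- the residue of `X = ϖ₂ · U_g⁻¹` VANISHES at the Kummer place over `z₁ e` (all `q`) -/
theorem adicValuation_resMid_xOf_lt_one (h2 : nuTwo M = 0) (h3 : nuThree M = 0)
    {g g' g'' : Fb M} (P : IsSSParam B hB hqM e g g' g'')
    (hv : IsCoprime ((z₁ (chartDataModular B hB hqM) e).ord (deltaMid B hB hqM))
      (fMid M B hB : ℤ))
    {ϖ₂ : Kb} (hϖ₂ : B.valuation ϖ₂ ^ (q - 1) = B.valuation (q : Kb))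
    (h : algebraMap Kb (Fb (M * q * q)) ϖ₂ * (Ug M q g)⁻¹ ∈ w2 B hB hqM hζ hb) :
    (pMidOver B hB hqM (z₁ (chartDataModular B hB hqM) e) hv).adicValuation
      (resMid B hB hqM hζ hb ⟨_, h⟩) < 1 := by
  have hmul := mul_ord_resMid_xOf B hB hqM e hζ hb h2 h3 P hv hϖ₂ h
  have hf : (0 : ℤ) < (fMid M B hB : ℤ) := by exact_mod_cast fMid_pos B hB hqM
  have hq1 : (0 : ℤ) < ((q - 1 : ℕ) : ℤ) := by
    have := hq.out.two_le
    exact_mod_cast (by omega : 0 < q - 1)
  refine adicValuation_lt_one_of_ord_pos _ ?_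
  by_contra hcon
  have := mul_nonpos_of_nonneg_of_nonpos hq1.le (not_lt.mp hcon)
  linarith

end Fermat.Agent.BR3.MidKummerNodeOrd
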