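import Mathlib
import Fermat.Agent.BR3.MidKummerNodeOrd
import Fermat.Agent.BR3.KummerComps

/-!
# Program C (S36), node (I7-N-KUM) layer 2b, inputs (C₂) + (D₂, `hX₂`) of
`KummerComps.VertAlg.vertData` / `kummerHyp_frame`: the MIDDLE-COMPONENT side of a Kummer node

For EVERY middle valuation `w₂ b` and every crossing `e`, with `Q₂ := pMidOver (z₁ e) hv`
(the Kummer place of `FMid M B = F̃_M(θ j̃)` over the supersingular point `z₁ e`; helper5's
`KummerGenus.MidInst.pMidOver`, `hv` arbitrary, e.g. `MidKummerPlaces.isCoprime_ord_deltaMid_z₁`):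

* **`overComp_mid`** : `KummerComps.OverComp (constRedW1 …).O (constRedW1 …).res (z₁ e) (w₂ b)
  (resMid b) Q₂` along `α₂` (`Algebra F̄_{Mq} F̄_{Mq²} := algebraAlong (alpha2 M q)`): the component
  `mid` of the cover over the component `'can'` of the base, `Q₂` over `z₁ e`  [= `C₂`];
* **`hX₂_mid`** : `∃ h : xOf ϖ₂ (Ug M q g) ∈ w₂ b, Q₂.adicValuation (resMid b ⟨_, h⟩) < 1 ∧
  resMid b ⟨_, h⟩ ≠ 0` for the twisted triple `P : IsSSParam B hB hqM e g g' g''` and every constant
  `ϖ₂` with `|ϖ₂|^(q-1) = |q|` (all `q`)  [= `hX₂`];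
* `xOf_mem_w2`, `ord_resMid_xOf'` (`= 1` for `q` odd, in the `xOf` form: `hX` of
  `KummerNode.branchDataN`).
-/

set_option autoImplicit false
set_option linter.unusedSectionVars false
set_option linter.style.haveILetI false
set_option synthInstance.maxHeartbeats 400000

noncomputable section

/- S36 build-time patch: file-local shortcut instances. They only shorten instance search;
each is the instance that the search finds anyway (reducible, same terms after unfolding). -/
local instance (priority := 100000) Fermat.Agent.BR3.FastInst.instAlgFullC_KummerMidSide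
    {k : Type*} [Field k] (N : ℕ) :
    Algebra k ↥(ModularCurve.modularFunctionFieldFullC k N) := inferInstance
local instance (priority := 100000) Fermat.Agent.BR3.FastInst.instFieldFullC_KummerMidSide
    {k : Type*} [Field k] (N : ℕ) :
    Field ↥(ModularCurve.modularFunctionFieldFullC k N) := inferInstance
local instance (priority := 100000) Fermat.Agent.BR3.FastInst.instAlgLaurent_KummerMidSide
    {k : Type*} [Field k] : Algebra k (LaurentSeries k) := inferInstance


namespace Fermat.Agent.BR3.KummerMidSide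

open AlgebraicCurve ModularCurve IsLocalRing
open Fermat.Agent.X0 Fermat.Agent.Val Fermat.Agent.Hecke
open Fermat.Agent.BR.S0.RedModular Fermat.Agent.BR.S0.PointDict Fermat.Agent.BR.S0.ThickFinal
open Fermat.Agent.BR3.FibreProd Fermat.Agent.BR3.HeckePoly Fermat.Agent.BR3.MidKummerAbs
open Fermat.Agent.BR3.SSParam Fermat.Agent.BR3.IgSq
open Fermat.Agent.BR3.KummerGenus.MidInst Fermat.Agent.BR3.MidKummerNodeOrd
open Fermat.Agent.BR3.KummerComps Fermat.Agent.BR3.KummerOfVert
open Fermat.Agent.BR.ConstRedTwo Fermat.Agent.BR.TwoValInst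

variable {M q : ℕ} [NeZero M] [hq : Fact q.Prime]
variable (B : ValuationSubring Kb) (hB : B.LiesOverPrime q) (hqM : ¬ q ∣ M)
variable [IsAlgClosed (ResidueField B)] [CharP (IsLocalRing.ResidueField B) q]
  (e : Crossing (chartDataModular B hB hqM))
variable {ζ : Kbˣ} (hζ : IsPrimitiveRoot ζ q) {b : ℕ} (hb : b < q - 1)

local notation "kB" => IsLocalRing.ResidueField B
local notation "FtM" => modularFunctionFieldFullC (IsLocalRing.ResidueField B) M

/-- (shortcut instances, as in `KummerGenus.MidInst`) -/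
local instance (priority := 100000) instAlgKFt₃ : Algebra kB FtM := inferInstance
local instance (priority := 100000) instAlgKFMid₃ : Algebra kB (FMid M B) := inferInstance
local instance (priority := 100000) instAlgFtFMid₃ : Algebra FtM (FMid M B) := inferInstance
local instance (priority := 100000) instTowerMid₃ : IsScalarTower kB FtM (FMid M B) :=
  inferInstance

/-- **(C₂)** the middle component `(w₂ b, resMid b)` of `F̄_{Mq²}` over the component `'can'` of
`F̄_{Mq}` along `α₂`, with the Kummer place over the supersingular point `z₁ e`. -/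
theorem overComp_mid (v : Place kB FtM)
    (hv : IsCoprime (v.ord (deltaMid B hB hqM)) (fMid M B hB : ℤ)) :
    letI := algebraAlong (alpha2 M q)
    haveI := isScalarTower_along (alpha2 M q)
    OverComp (constRedW1 B hB hqM).O (constRedW1 B hB hqM).res v
      (w2 B hB hqM hζ hb) (resMid B hB hqM hζ hb) (pMidOver B hB hqM v hv) := by
  letI := algebraAlong (alpha2 M q)
  haveI := isScalarTower_along (alpha2 M q)
  refine
    { map_mem := fun y hy => (alpha2_mem_w2_iff B hB hqM hζ hb y).2 hy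
      res_map := fun y hy => resMid_alpha2 B hB hqM hζ hb y hy
      res_eq_zero := fun x => resMid_eq_zero_iff_mem_nonunits B hB hqM hζ hb x
      regular := ?_ }
  intro g hg
  rw [Place.adicValuation_le_one_iff] at hg ⊢
  rcases hg with rfl | hg
  · left
    exact map_zero _
  · right
    rw [ord_pMidOver_algebraMap B hB hqM v hv g]
    exact mul_nonneg (by exact_mod_cast (fMid_pos B hB hqM).le) hg

/-- `X = xOf ϖ₂ U_g = ϖ₂ · U_g⁻¹` lies in every `w₂ b` -/
theorem xOf_mem_w2 (h2 : nuTwo M = 0) (h3 : nuThree M = 0)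
    {g g' g'' : Fb M} (P : IsSSParam B hB hqM e g g' g'')
    {ϖ₂ : Kb} (hϖ₂ : B.valuation ϖ₂ ^ (q - 1) = B.valuation (q : Kb)) :
    xOf ϖ₂ (Ug M q g) ∈ w2 B hB hqM hζ hb := by
  obtain ⟨y, c, hy0, hyred, hyc, hord⟩ :=
    exists_FMid_witness_red B hB hqM e hζ hb h2 h3 P
  obtain ⟨a, ha0, h', hX⟩ := red_xOf B hB hqM hζ hb hϖ₂ hy0 hyred
  exact h'

/-- **(D₂, `hX₂`)** `X = xOf ϖ₂ U_g` reduces on the middle component `w₂ b` to a nonzero function
vanishing at the Kummer place over `z₁ e` (all `q`). -/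
theorem hX₂_mid (h2 : nuTwo M = 0) (h3 : nuThree M = 0)
    {g g' g'' : Fb M} (P : IsSSParam B hB hqM e g g' g'')
    (hv : IsCoprime ((z₁ (chartDataModular B hB hqM) e).ord (deltaMid B hB hqM))
      (fMid M B hB : ℤ))
    {ϖ₂ : Kb} (hϖ₂ : B.valuation ϖ₂ ^ (q - 1) = B.valuation (q : Kb)) :
    ∃ h : xOf ϖ₂ (Ug M q g) ∈ w2 B hB hqM hζ hb,
      (pMidOver B hB hqM (z₁ (chartDataModular B hB hqM) e) hv).adicValuation
          (resMid B hB hqM hζ hb ⟨_, h⟩) < 1 ∧
        resMid B hB hqM hζ hb ⟨_, h⟩ ≠ 0 := by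
  obtain ⟨y, c, hy0, hyred, hyc, hord⟩ :=
    exists_FMid_witness_red B hB hqM e hζ hb h2 h3 P
  obtain ⟨a, ha0, h', hX⟩ := red_xOf B hB hqM hζ hb hϖ₂ hy0 hyred
  have hmem : xOf ϖ₂ (Ug M q g) ∈ w2 B hB hqM hζ hb := h'
  have hX' : resMid B hB hqM hζ hb ⟨xOf ϖ₂ (Ug M q g), hmem⟩ =
      algebraMap kB (FMid M B) a * y⁻¹ := hX
  refine ⟨hmem, adicValuation_resMid_xOf_lt_one B hB hqM e hζ hb h2 h3 P hv hϖ₂ h', ?_⟩
  rw [hX']
  exact mul_ne_zero ((_root_.map_ne_zero _).mpr ha0) (inv_ne_zero hy0)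

/-- **`X = xOf ϖ₂ U_g` reduces to a LOCAL PARAMETER at the Kummer place over `z₁ e`** (`q` odd):
`hX` of `KummerNode.branchDataN`, in the `xOf` form. -/
theorem ord_resMid_xOf' (hq2 : q ≠ 2) (h2 : nuTwo M = 0) (h3 : nuThree M = 0)
    {g g' g'' : Fb M} (P : IsSSParam B hB hqM e g g' g'')
    (hv : IsCoprime ((z₁ (chartDataModular B hB hqM) e).ord (deltaMid B hB hqM))
      (fMid M B hB : ℤ))
    {ϖ₂ : Kb} (hϖ₂ : B.valuation ϖ₂ ^ (q - 1) = B.valuation (q : Kb))
    (h : xOf ϖ₂ (Ug M q g) ∈ w2 B hB hqM hζ hb) :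
    (pMidOver B hB hqM (z₁ (chartDataModular B hB hqM) e) hv).ord
      (resMid B hB hqM hζ hb ⟨_, h⟩) = 1 :=
  ord_resMid_xOf B hB hqM e hζ hb hq2 h2 h3 P hv hϖ₂ h

end Fermat.Agent.BR3.KummerMidSide
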