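import Mathlib
import Fermat.Agent.BR3.KummerComps

/-!
# Program C (S36), node (I7-N-KUM) layer 2b, input (I1) of `SepNCompRel` / `hθ₂` of
`KummerComps.VertAlg.vertData`: THE VALUE OF `θ` ON THE COMPONENT WHERE `X` IS A UNIT IS `± c₀`

Abstract frame of `BR3/KummerComps` (helper8): `V : VertAlg L U c₀ κ₀ ϖ₂ γ₂ q d Bc A₀ Rr η₁ Hp` (the
algebraic data of the vertical polynomial, `c₀² ≡ γ₂ Rr η₁⁻²` modulo the maximal ideals of the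
levels), `X₂ : BranchComp π O₂b res₂b Q₂b L` (the component of the base where `L.v` vanishes),
`C₂ : OverComp O₂b res₂b Q₂b O₂ res₂ Q₂` (a component of the cover over it, with a point `Q₂` over
`Q₂b`), `hX₂` (`X = ϖ₂/U` is a unit of `O₂` whose residue vanishes at `Q₂`) and
`hlies : Q₂b.adic g < 1 → Q₂.adic (alg g) < 1` (`Q₂` lies over `Q₂b`, strict form).

From the field identity (K3) `θ² − γ₂ Rr η₁⁻² = b X + e Y` (`KummerVert.theta_sq_sub_eq`):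

* `theta_mem_and_sq_of_vertAlg` : `θ = thetaOf L.u ϖ₂ U d` lies in the composite valuation ring
  `𝒪₂ = compVal O₂ res₂ _ Q₂.adic` (it is a root of a monic quadratic over `𝒪₂`) and
  `θ² − c₀² ∈ 𝔪(𝒪₂)`;
* **`hθ₂_or_of_vertAlg`** : `hθ₂` of `VertAlg.vertData` holds for `c₀` OR for `−c₀`:
  `(∃ h : θ − c₀ ∈ O₂, Q₂.adic (res₂ ⟨_, h⟩) < 1) ∨ (∃ h : θ + c₀ ∈ O₂, Q₂.adic (res₂ ⟨_, h⟩) < 1)`.

So on EVERY middle component the residue of `θ_e` has a value at the Kummer place over `e`, and this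
value is one of the two square roots `± c̄₀` of the residue of `γ₂ Rr η₁⁻²` at the node: this is
(I1) `hex : ∀ e j, ∃ s, HasValue (CM j) (pMid e) (θ e) (c e s)` of `SepNCompRel.bijective_valOf`
(with `c e (rev s) ≡ − c e s`).
-/

set_option autoImplicit false
set_option linter.unusedSectionVars false
set_option linter.style.haveILetI false

noncomputable section

namespace Fermat.Agent.BR3.KummerThetaValue

open Polynomial IsLocalRing AlgebraicCurve Fermat.Agent.Red Fermat.Agent.BR.Centre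
  Fermat.Agent.BR.S0 Fermat.Agent.BR3.KummerEnd Fermat.Agent.BR3.KummerLevels
  Fermat.Agent.BR3.KummerOfVert Fermat.Agent.BR3.SplitBranch Fermat.Agent.BR3.KummerComps

variable {K F F₂ : Type*} [Field K] [Field F] [Field F₂] [Algebra K F] [Algebra K F₂]
  [Algebra F F₂] [IsScalarTower K F F₂] [Algebra.IsIntegral F F₂] [CharZero F₂]
  {A : ValuationSubring K} {T : Set (Place K F)} {ι : Type*}

variable {k : Type*} [Field k]
  {Ft₂b Ft₂ : Type*} [Field Ft₂b] [Field Ft₂]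
  [Algebra k Ft₂b] [Algebra k Ft₂]
  [Algebra Ft₂b Ft₂] [IsScalarTower k Ft₂b Ft₂]
  {L : AnnulusLevels A T ι} {U : F₂} {c₀ : A} {κ₀ ϖ₂ γ₂ : K} {q d : ℕ}
  {Bc A₀ Rr η₁ : F} {Hp : F[X]}
  {π : A →+* k} {O₂b : ValuationSubring F} {res₂b : O₂b →+* Ft₂b}
  {Q₂b : Place k Ft₂b}
  {O₂ : ValuationSubring F₂} {res₂ : O₂ →+* Ft₂}
  {Q₂ : Place k Ft₂}

/-- the key consequences of (K3) on the composite valuation ring of `(O₂, Q₂)`:
`θ ∈ 𝒪₂` and `θ² − c₀² ∈ 𝔪(𝒪₂)`. -/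
theorem theta_mem_and_sq_of_vertAlg (V : VertAlg L U c₀ κ₀ ϖ₂ γ₂ q d Bc A₀ Rr η₁ Hp)
    (hπ0 : ∀ a : A, A.valuation (a : K) < 1 → π a = 0)
    (X₂ : BranchComp π O₂b res₂b Q₂b L)
    (C₂ : OverComp O₂b res₂b Q₂b O₂ res₂ Q₂)
    (hlies : ∀ g : Ft₂b, Q₂b.adicValuation g < 1 →
      Q₂.adicValuation (algebraMap Ft₂b Ft₂ g) < 1)
    (hX₂ : ∃ h : xOf ϖ₂ U ∈ O₂,
      Q₂.adicValuation (res₂ ⟨_, h⟩) < 1 ∧ res₂ ⟨_, h⟩ ≠ 0) :
    thetaOf L.u ϖ₂ U d ∈ CompVal.compVal O₂ res₂ C₂.res_eq_zero Q₂.adicValuation ∧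
      thetaOf L.u ϖ₂ U d ^ 2 - algebraMap K F₂ (c₀ : K) ^ 2 ∈
        (CompVal.compVal O₂ res₂ C₂.res_eq_zero Q₂.adicValuation).nonunits := by
  set 𝒪 := CompVal.compVal O₂ res₂ C₂.res_eq_zero Q₂.adicValuation with h𝒪
  set X := xOf ϖ₂ U with hXdef
  set Y := yOf L.thick U with hYdef
  set θ := thetaOf L.u ϖ₂ U d with hθdef
  obtain ⟨hXm, hXlt, hXne⟩ := hX₂
  obtain ⟨i, -⟩ := L.const 0
  have hlev : ∀ y ∈ (L.level i).R, algebraMap F F₂ y ∈ 𝒪 := fun y hy => C₂.level_mem X₂ i hy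
  have hconst : ∀ c ∈ (L.level i).K', c ∈ A → algebraMap K F₂ c ∈ 𝒪 := fun c hc hcA => by
    rw [IsScalarTower.algebraMap_apply K F F₂]
    exact hlev _ ((L.level i).const_mem c hc hcA)
  have hXu : X ∉ O₂.nonunits := fun h => hXne ((C₂.res_eq_zero _).mpr h)
  have hXs : X ∈ 𝒪.nonunits := (CompVal.mem_nonunits_compVal_iff _ _ _ _).mpr ⟨hXm, hXlt⟩
  have hXY : X * Y = algebraMap K F₂ (ϖ₂ / L.thick) := xOf_mul_yOf V.U_ne
  have hYX : Y * X = algebraMap K F₂ (ϖ₂ / L.thick) := by rw [mul_comm]; exact hXY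
  have hYn : Y ∈ O₂.nonunits :=
    mem_nonunits_of_mul_eq hYX (C₂.const_nonunits X₂ hπ0 _ V.thick₂_lt) hXm hXu
  have hYs : Y ∈ 𝒪.nonunits := CompVal.mem_nonunits_compVal_of_mem_nonunits _ _ _ _ hYn
  have hthickA : L.thick ∈ A := (A.valuation_le_one_iff _).mp L.thick_lt.le
  have hU𝒪 : U ∈ 𝒪 := by
    have h := 𝒪.mul_mem _ _ (hconst _ (L.level i).thick_mem hthickA)
      (ValuationSubring.nonunits_subset hYs)
    rwa [mul_yOf L.thick_ne] at h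
  have hHp : aeval U Hp ∈ 𝒪 := by
    rw [aeval_eq_sum_range]
    refine Subring.sum_mem 𝒪.toSubring fun n _ => ?_
    rw [Algebra.smul_def]
    exact 𝒪.mul_mem _ _ (hlev _ (V.Hp_mem i n)) (pow_mem hU𝒪 n)
  have hηinv : (algebraMap F F₂ η₁)⁻¹ ∈ 𝒪 := by
    rw [← map_inv₀]
    exact hlev _ (V.η₁_inv_mem i)
  have hγ𝒪 : algebraMap K F₂ γ₂ ∈ 𝒪 := hconst _ (V.γ₂_memK i) V.γ₂_mem
  have hκ𝒪 : algebraMap K F₂ κ₀ ∈ 𝒪 := hconst _ (V.κ₀_memK i) V.κ₀_mem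
  have hc𝒪 : algebraMap K F₂ (c₀ : K) ∈ 𝒪 := hconst _ (V.c₀_mem i) c₀.2
  -- the relations in the cover
  have hX : X * U = algebraMap K F₂ ϖ₂ := xOf_mul V.U_ne
  have hY : algebraMap K F₂ L.thick * Y = U := mul_yOf L.thick_ne
  have hK1 : algebraMap F F₂ L.u = θ * X ^ d := thetaOf_mul L.u d V.U_ne V.ϖ₂_ne
  have hBc' : algebraMap F F₂ Bc = algebraMap F F₂ L.u * algebraMap F F₂ η₁ := by
    rw [V.hBc, map_mul]
  have hAB' : algebraMap F F₂ A₀ * algebraMap F F₂ Bc = -(q : F₂) * algebraMap F F₂ Rr := by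
    rw [← map_mul, V.hAB, map_mul, map_neg, map_natCast]
  have hγ₂' : (q : F₂) = algebraMap K F₂ γ₂ * algebraMap K F₂ ϖ₂ ^ (q - 1) := by
    rw [← map_pow, ← map_mul, ← V.hγ₂, map_natCast]
  have hκ₁' : algebraMap K F₂ L.thick = algebraMap K F₂ κ₀ * (X * Y) ^ d := by
    rw [hXY, ← map_pow, ← map_mul, ← V.thick_eq]
  have hroot : U ^ q + algebraMap F F₂ Bc * U ^ (q - 1) + algebraMap F F₂ A₀ +
      (q : F₂) * aeval U Hp = 0 := by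
    have h := minpoly.aeval F U
    rw [V.hmin] at h
    simpa [map_natCast] using h
  have key := KummerVert.theta_sq_sub_eq (U := U) (X := X) (Y := Y)
    (θ := θ) (u' := algebraMap F F₂ L.u) (Bc := algebraMap F F₂ Bc)
    (A₀ := algebraMap F F₂ A₀) (Rr := algebraMap F F₂ Rr) (HU := aeval U Hp)
    (η₁ := algebraMap F F₂ η₁) (ϖ₁ := algebraMap K F₂ L.thick) (ϖ₂ := algebraMap K F₂ ϖ₂)
    (κ₁ := algebraMap K F₂ κ₀) (γ₂ := algebraMap K F₂ γ₂) (qq := (q : F₂)) V.hq V.hd hX hY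
    ((_root_.map_ne_zero _).mpr V.ϖ₂_ne) ((_root_.map_ne_zero _).mpr V.η₁_ne) hBc' hK1 hAB'
    hroot hγ₂' hκ₁'
  -- `ρ' = γ₂ Rr η₁⁻²` and the small element `m`
  set ρ' : F₂ := algebraMap K F₂ γ₂ * algebraMap F F₂ Rr * (algebraMap F F₂ η₁)⁻¹ ^ 2 with hρ'
  set m : F₂ := (algebraMap F F₂ η₁)⁻¹ * algebraMap K F₂ γ₂ * X ^ (d - 1) * aeval U Hp * X +
    (algebraMap F F₂ η₁)⁻¹ * algebraMap K F₂ κ₀ * Y ^ d * Y with hm
  have hρ𝒪 : ρ' ∈ 𝒪 :=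
    𝒪.mul_mem _ _ (𝒪.mul_mem _ _ hγ𝒪 (hlev _ (V.Rr_mem i))) (pow_mem hηinv 2)
  have hmn : m ∈ 𝒪.nonunits := by
    have hXo := ValuationSubring.nonunits_subset hXs
    have hYo := ValuationSubring.nonunits_subset hYs
    have h1 : (algebraMap F F₂ η₁)⁻¹ * algebraMap K F₂ γ₂ * X ^ (d - 1) * aeval U Hp ∈ 𝒪 :=
      𝒪.mul_mem _ _ (𝒪.mul_mem _ _ (𝒪.mul_mem _ _ hηinv hγ𝒪) (pow_mem hXo _)) hHp
    have h2 : (algebraMap F F₂ η₁)⁻¹ * algebraMap K F₂ κ₀ * Y ^ d ∈ 𝒪 :=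
      𝒪.mul_mem _ _ (𝒪.mul_mem _ _ hηinv hκ𝒪) (pow_mem hYo _)
    rw [𝒪.mem_nonunits_iff] at hXs hYs ⊢
    have e1 := (𝒪.valuation_le_one_iff _).mpr h1
    have e2 := (𝒪.valuation_le_one_iff _).mpr h2
    refine lt_of_le_of_lt (𝒪.valuation.map_add _ _) (max_lt ?_ ?_)
    · rw [map_mul]
      exact lt_of_le_of_lt (mul_le_of_le_one_left' e1) hXs
    · rw [map_mul]
      exact lt_of_le_of_lt (mul_le_of_le_one_left' e2) hYs
  have hθeq : θ ^ 2 = ρ' - θ * m := by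
    have : θ ^ 2 - ρ' = -(θ * m) := by
      rw [hρ', key, hm]
      ring
    linear_combination this
  -- `θ ∈ 𝒪`
  have hθ𝒪 : θ ∈ 𝒪 := by
    rw [← 𝒪.valuation_le_one_iff]
    by_contra hcon
    rw [not_le] at hcon
    have hv := congrArg 𝒪.valuation hθeq
    rw [map_pow] at hv
    have hρv := (𝒪.valuation_le_one_iff _).mpr hρ𝒪
    have hmv : 𝒪.valuation m < 1 := (𝒪.mem_nonunits_iff).mp hmn
    have h1 : 𝒪.valuation (ρ' - θ * m) ≤ 𝒪.valuation θ := by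
      refine le_trans (𝒪.valuation.map_sub _ _) (max_le (hρv.trans hcon.le) ?_)
      rw [map_mul]
      exact mul_le_of_le_one_right' hmv.le
    rw [← hv] at h1
    have h2 : 𝒪.valuation θ * 1 < 𝒪.valuation θ * 𝒪.valuation θ :=
      mul_lt_mul_of_pos_left hcon (lt_trans zero_lt_one hcon)
    rw [mul_one, ← pow_two] at h2
    exact absurd h1 (not_le.mpr h2)
  refine ⟨hθ𝒪, ?_⟩
  -- `c₀² ≡ ρ'`
  have hρmem : algebraMap K F γ₂ * Rr * η₁⁻¹ ^ 2 ∈ (L.level i).R :=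
    (L.level i).R.mul_mem ((L.level i).R.mul_mem
      ((L.level i).const_mem _ (V.γ₂_memK i) V.γ₂_mem) (V.Rr_mem i))
      ((L.level i).R.pow_mem (V.η₁_inv_mem i) 2)
  have hzmem : algebraMap K F ((c₀ : K) ^ 2) - algebraMap K F γ₂ * Rr * η₁⁻¹ ^ 2 ∈
      (L.level i).R :=
    (L.level i).R.sub_mem ((L.level i).const_mem _ (pow_mem (V.c₀_mem i) 2) (pow_mem c₀.2 2))
      hρmem
  have hznu := V.hc₀ i hzmem
  have hzb := X₂.branch i ⟨_, hzmem⟩ hznu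
  have hzO : algebraMap F F₂
      (algebraMap K F ((c₀ : K) ^ 2) - algebraMap K F γ₂ * Rr * η₁⁻¹ ^ 2) ∈ O₂ :=
    C₂.map_mem _ (X₂.le i _ hzmem)
  have hzs : algebraMap F F₂
      (algebraMap K F ((c₀ : K) ^ 2) - algebraMap K F γ₂ * Rr * η₁⁻¹ ^ 2) ∈ 𝒪.nonunits := by
    refine (CompVal.mem_nonunits_compVal_iff _ _ _ _).mpr ⟨hzO, ?_⟩
    rw [C₂.res_map _ (X₂.le i _ hzmem)]
    exact hlies _ hzb
  have hzeq : algebraMap F F₂
      (algebraMap K F ((c₀ : K) ^ 2) - algebraMap K F γ₂ * Rr * η₁⁻¹ ^ 2) =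
      algebraMap K F₂ (c₀ : K) ^ 2 - ρ' := by
    rw [hρ']
    simp only [map_sub, map_mul, map_pow, map_inv₀]
    rw [← IsScalarTower.algebraMap_apply K F F₂, ← IsScalarTower.algebraMap_apply K F F₂]
  rw [hzeq] at hzs
  have hfin : θ ^ 2 - algebraMap K F₂ (c₀ : K) ^ 2 =
      -(algebraMap K F₂ (c₀ : K) ^ 2 - ρ') - θ * m := by
    rw [hθeq]
    ring
  rw [hfin, 𝒪.mem_nonunits_iff]
  rw [𝒪.mem_nonunits_iff] at hzs hmn
  refine lt_of_le_of_lt (𝒪.valuation.map_sub _ _) (max_lt ?_ ?_)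
  · rwa [Valuation.map_neg]
  · rw [map_mul]
    exact lt_of_le_of_lt (mul_le_of_le_one_left' ((𝒪.valuation_le_one_iff _).mpr hθ𝒪)) hmn

/-- **`hθ₂` holds for `c₀` or for `−c₀`**: on the component `(O₂, res₂)` of the cover where `X` is a
unit vanishing at `Q₂`, the residue of `θ` has the value `c̄₀` or `−c̄₀` at `Q₂`. -/
theorem hθ₂_or_of_vertAlg (V : VertAlg L U c₀ κ₀ ϖ₂ γ₂ q d Bc A₀ Rr η₁ Hp)
    (hπ0 : ∀ a : A, A.valuation (a : K) < 1 → π a = 0)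
    (X₂ : BranchComp π O₂b res₂b Q₂b L)
    (C₂ : OverComp O₂b res₂b Q₂b O₂ res₂ Q₂)
    (hlies : ∀ g : Ft₂b, Q₂b.adicValuation g < 1 →
      Q₂.adicValuation (algebraMap Ft₂b Ft₂ g) < 1)
    (hX₂ : ∃ h : xOf ϖ₂ U ∈ O₂,
      Q₂.adicValuation (res₂ ⟨_, h⟩) < 1 ∧ res₂ ⟨_, h⟩ ≠ 0) :
    (∃ h : thetaOf L.u ϖ₂ U d - algebraMap K F₂ (c₀ : K) ∈ O₂,
        Q₂.adicValuation (res₂ ⟨_, h⟩) < 1) ∨
      (∃ h : thetaOf L.u ϖ₂ U d + algebraMap K F₂ (c₀ : K) ∈ O₂,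
        Q₂.adicValuation (res₂ ⟨_, h⟩) < 1) := by
  obtain ⟨hθ𝒪, hsq⟩ := theta_mem_and_sq_of_vertAlg V hπ0 X₂ C₂ hlies hX₂
  set 𝒪 := CompVal.compVal O₂ res₂ C₂.res_eq_zero Q₂.adicValuation with h𝒪
  obtain ⟨i, -⟩ := L.const 0
  have hc𝒪 : algebraMap K F₂ (c₀ : K) ∈ 𝒪 := by
    rw [IsScalarTower.algebraMap_apply K F F₂]
    exact C₂.level_mem X₂ i ((L.level i).const_mem _ (V.c₀_mem i) c₀.2)
  have hfac : thetaOf L.u ϖ₂ U d ^ 2 - algebraMap K F₂ (c₀ : K) ^ 2 =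
      (thetaOf L.u ϖ₂ U d - algebraMap K F₂ (c₀ : K)) *
        (thetaOf L.u ϖ₂ U d + algebraMap K F₂ (c₀ : K)) := by ring
  rw [hfac, 𝒪.mem_nonunits_iff, map_mul] at hsq
  have h1 := (𝒪.valuation_le_one_iff _).mpr (sub_mem hθ𝒪 hc𝒪)
  have h2 := (𝒪.valuation_le_one_iff _).mpr (add_mem hθ𝒪 hc𝒪)
  by_cases hlt : 𝒪.valuation (thetaOf L.u ϖ₂ U d - algebraMap K F₂ (c₀ : K)) < 1
  · left
    exact (CompVal.mem_nonunits_compVal_iff _ _ _ _).mp ((𝒪.mem_nonunits_iff).mpr hlt)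
  · right
    have he : 𝒪.valuation (thetaOf L.u ϖ₂ U d - algebraMap K F₂ (c₀ : K)) = 1 :=
      le_antisymm h1 (not_lt.mp hlt)
    rw [he, one_mul] at hsq
    exact (CompVal.mem_nonunits_compVal_iff _ _ _ _).mp ((𝒪.mem_nonunits_iff).mpr hsq)

end Fermat.Agent.BR3.KummerThetaValue
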