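import Mathlib
import Fermat.Agent.BR3.KummerMidSide
import Fermat.Agent.BR3.KummerThetaValue

/-!
# Program C (S36), node (I7-N-KUM) layer 2b: (I1) on the middle components — the value of `θ_e` at the
Kummer place of EVERY middle component over `z₁ e` is `± c̄₀`

Modular instance of `KummerThetaValue.hθ₂_or_of_vertAlg` with `C₂ := KummerMidSide.overComp_mid`,
`hX₂ := KummerMidSide.hX₂_mid`:

* `adicValuation_pMidOver_algebraMap_lt_one` : the strict form of "`pMidOver v hv` lies over `v`";
* **`hθ₂_or_mid`** : for EVERY middle valuation `w₂ b`, every crossing `e`, the twisted triple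
  `P : IsSSParam B hB hqM e g g' g''`, ANY levels `L` of `F̄_{Mq}` with
  `V : VertAlg L (Ug M q g) c₀ κ₀ ϖ₂ γ₂ q d Bc A₀ Rr η₁ Hp` (along `α₂`) and
  `X₂ : BranchComp (residue B) 'can' (z₁ e) L`:
  `(∃ h : θ − c₀ ∈ w₂ b, Q.adic (resMid b ⟨_, h⟩) < 1) ∨ (∃ h : θ + c₀ ∈ w₂ b, Q.adic (…) < 1)`,
  `θ = thetaOf L.u ϖ₂ (Ug M q g) d`, `Q = pMidOver (z₁ e) hv` — i.e.
  `SepNCompRel.HasValue (constRedMid b) Q θ c₀ ∨ HasValue (constRedMid b) Q θ (−c₀)`.
-/

set_option autoImplicit false
set_option linter.unusedSectionVars false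
set_option linter.style.haveILetI false
set_option synthInstance.maxHeartbeats 400000

noncomputable section

/- S36 build-time patch: file-local shortcut instances. They only shorten instance search;
each is the instance that the search finds anyway (reducible, same terms after unfolding). -/
local instance (priority := 100000) Fermat.Agent.BR3.FastInst.instAlgFullC_KummerMidValue
    {k : Type*} [Field k] (N : ℕ) :
    Algebra k ↥(ModularCurve.modularFunctionFieldFullC k N) := inferInstance
local instance (priority := 100000) Fermat.Agent.BR3.FastInst.instFieldFullC_KummerMidValue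
    {k : Type*} [Field k] (N : ℕ) :
    Field ↥(ModularCurve.modularFunctionFieldFullC k N) := inferInstance
local instance (priority := 100000) Fermat.Agent.BR3.FastInst.instAlgLaurent_KummerMidValue
    {k : Type*} [Field k] : Algebra k (LaurentSeries k) := inferInstance


namespace Fermat.Agent.BR3.KummerMidValue

open AlgebraicCurve ModularCurve IsLocalRing Polynomial
open Fermat.Agent.X0 Fermat.Agent.Val Fermat.Agent.Hecke
open Fermat.Agent.BR.S0 Fermat.Agent.BR.S0.RedModular Fermat.Agent.BR.S0.PointDict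
open Fermat.Agent.BR.S0.ThickFinal
open Fermat.Agent.BR3.FibreProd Fermat.Agent.BR3.HeckePoly
open Fermat.Agent.BR3.SSParam Fermat.Agent.BR3.IgSq
open Fermat.Agent.BR3.KummerGenus.MidInst Fermat.Agent.BR3.MidKummerNodeOrd
open Fermat.Agent.BR3.KummerComps Fermat.Agent.BR3.KummerOfVert Fermat.Agent.BR3.SplitBranch
open Fermat.Agent.BR3.KummerMidSide Fermat.Agent.BR3.KummerThetaValue
open Fermat.Agent.BR.ConstRedTwo Fermat.Agent.BR.TwoValInst

variable {M q : ℕ} [NeZero M] [hq : Fact q.Prime]
variable (B : ValuationSubring Kb) (hB : B.LiesOverPrime q) (hqM : ¬ q ∣ M)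
variable [IsAlgClosed (ResidueField B)] [CharP (IsLocalRing.ResidueField B) q]
  (e : Crossing (chartDataModular B hB hqM))
variable {ζ : Kbˣ} (hζ : IsPrimitiveRoot ζ q) {b : ℕ} (hb : b < q - 1)

local notation "kB" => IsLocalRing.ResidueField B
local notation "FtM" => modularFunctionFieldFullC (IsLocalRing.ResidueField B) M

/-- (shortcut instances, as in `KummerGenus.MidInst`) -/
local instance (priority := 100000) instAlgKFt₄ : Algebra kB FtM := inferInstance
local instance (priority := 100000) instAlgKFMid₄ : Algebra kB (FMid M B) := inferInstance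
local instance (priority := 100000) instAlgFtFMid₄ : Algebra FtM (FMid M B) := inferInstance
local instance (priority := 100000) instTowerMid₄ : IsScalarTower kB FtM (FMid M B) :=
  inferInstance

/-- the Kummer place over `v` lies over `v`, strict form: functions vanishing at `v` vanish at
`pMidOver v hv` -/
theorem adicValuation_pMidOver_algebraMap_lt_one (v : Place kB FtM)
    (hv : IsCoprime (v.ord (deltaMid B hB hqM)) (fMid M B hB : ℤ)) (g : FtM)
    (hg : v.adicValuation g < 1) :
    (pMidOver B hB hqM v hv).adicValuation (algebraMap FtM (FMid M B) g) < 1 := by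
  rw [Fermat.Agent.Red.adicValuation_lt_one_iff] at hg ⊢
  rcases hg with rfl | hpos
  · left
    exact map_zero _
  · right
    rw [ord_pMidOver_algebraMap B hB hqM v hv g]
    exact mul_pos (by exact_mod_cast fMid_pos B hB hqM) hpos

/-- **(I1) on the middle components**: the residue of `θ_e` on `w₂ b` has the value `c̄₀` or `−c̄₀`
at the Kummer place over `z₁ e`. -/
theorem hθ₂_or_mid (h2 : nuTwo M = 0) (h3 : nuThree M = 0)
    {g g' g'' : Fb M} (P : IsSSParam B hB hqM e g g' g'')
    (hv : IsCoprime ((z₁ (chartDataModular B hB hqM) e).ord (deltaMid B hB hqM))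
      (fMid M B hB : ℤ))
    {T : Set (Place Kb (Fb (M * q)))} {ι : Type*} {L : AnnulusLevels B T ι}
    {c₀ : B} {κ₀ ϖ₂ γ₂ : Kb} {d : ℕ} {Bc A₀ Rr η₁ : Fb (M * q)} {Hp : (Fb (M * q))[X]}
    (hϖ₂ : B.valuation ϖ₂ ^ (q - 1) = B.valuation (q : Kb))
    (X₂ : BranchComp (IsLocalRing.residue B) (constRedW1 B hB hqM).O (constRedW1 B hB hqM).res
      (z₁ (chartDataModular B hB hqM) e) L) :
    letI := algebraAlong (alpha2 M q)
    haveI := isScalarTower_along (alpha2 M q)
    ∀ [Algebra.IsIntegral (Fb (M * q)) (Fb (M * q * q))],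
    VertAlg L (Ug M q g) c₀ κ₀ ϖ₂ γ₂ q d Bc A₀ Rr η₁ Hp →
    ((∃ h : thetaOf L.u ϖ₂ (Ug M q g) d - algebraMap Kb (Fb (M * q * q)) (c₀ : Kb) ∈
          w2 B hB hqM hζ hb,
        (pMidOver B hB hqM (z₁ (chartDataModular B hB hqM) e) hv).adicValuation
          (resMid B hB hqM hζ hb ⟨_, h⟩) < 1) ∨
      (∃ h : thetaOf L.u ϖ₂ (Ug M q g) d + algebraMap Kb (Fb (M * q * q)) (c₀ : Kb) ∈
          w2 B hB hqM hζ hb,
        (pMidOver B hB hqM (z₁ (chartDataModular B hB hqM) e) hv).adicValuation
          (resMid B hB hqM hζ hb ⟨_, h⟩) < 1)) := by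
  letI := algebraAlong (alpha2 M q)
  haveI := isScalarTower_along (alpha2 M q)
  intro _ V
  have hπ0 : ∀ a : B, B.valuation (a : Kb) < 1 → IsLocalRing.residue B a = 0 := by
    intro a ha
    rw [IsLocalRing.residue_eq_zero_iff, IsLocalRing.mem_maximalIdeal, mem_nonunits_iff]
    intro hu
    have := (B.valuation_eq_one_iff a).mp hu
    exact absurd this ha.ne
  exact hθ₂_or_of_vertAlg V hπ0 X₂
    (overComp_mid B hB hqM hζ hb (z₁ (chartDataModular B hB hqM) e) hv)
    (adicValuation_pMidOver_algebraMap_lt_one B hB hqM _ hv)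
    (hX₂_mid B hB hqM e hζ hb h2 h3 P hv hϖ₂)

end Fermat.Agent.BR3.KummerMidValue
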