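/-
Program C (S36), node (I7-N-KUM), layer 2b-3 (helper8): ABSTRACT TOOLS FOR THE MODULAR INSTANCE OF
THE KUMMER NODE.

* `levelsRestrict L p hp` : the restriction of a family of levels to a COFINAL sub-family of indices
  (`hp : ∀ i, ∃ l, p l ∧ R_i ≤ R_l ∧ K'_i ≤ K'_l`), same tube, same coordinates, same rings;
  `exists_const_cofinal` : the indices whose constant field contains a finite set of constants are
  cofinal; `levelsConst L S` : the restriction to them, `mem_K'_levelsConst`;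
  `BranchComp.restrictLevels`;
* `coord_inv_mul_mem` : the twin of helper19's `SplitCoord.coord_mul_inv_mem`: `x * u⁻¹ ∈ R_i` (so
  that `η₁ = x / u` is a unit of the level with inverse `u / x`);
* `hc₀_of_value` : the hypothesis `hc₀` of `KummerComps.VertAlg` (`c₀² ≡ γ₂ Rr η₁⁻²` modulo the
  maximal ideal of every level) FROM the value `θ ≡ c₀` at the point `Q₁` of the component `O₁` of
  the cover where `X` vanishes (`hθ₁`), by the field identity (K3) `KummerVert.theta_sq_sub_eq`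
  read in the composite valuation ring of `(O₁, Q₁)`;
* `vertAlg_of_kronecker_value` : `KummerAlgMod.vertAlg_of_kronecker` with `hc₀` discharged this way.
-/
import Mathlib
import Fermat.Agent.BR3.KummerAlgMod
import Fermat.Agent.BR3.SplitCoord

set_option autoImplicit false
set_option linter.unusedSectionVars false
set_option linter.style.haveILetI false

noncomputable section

namespace Fermat.Agent.BR3.KummerModAbs

open Polynomial IsLocalRing AlgebraicCurve Fermat.Agent.Red Fermat.Agent.BR.Centre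
  Fermat.Agent.BR.S0 Fermat.Agent.BR3.KummerOfVert Fermat.Agent.BR3.KummerComps
  Fermat.Agent.BR3.SplitBranch Fermat.Agent.BR3.SplitCoord Fermat.Agent.BR3.SplitNodeChart

/-! ### Restriction of a family of levels to a cofinal sub-family -/

section Restrict

variable {K F : Type*} [Field K] [Field F] [Algebra K F]
  {A : ValuationSubring K} {T : Set (Place K F)} {ι : Type*}

/-- **The restriction of a family of levels to a cofinal sub-family of indices.** -/
def levelsRestrict (L : AnnulusLevels A T ι) (p : ι → Prop)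
    (hp : ∀ i, ∃ l, p l ∧ (L.level i).R ≤ (L.level l).R ∧ (L.level i).K' ≤ (L.level l).K') :
    AnnulusLevels A T {i : ι // p i} where
  u := L.u
  v := L.v
  ε₀ := L.ε₀
  thick := L.thick
  thick_ne := L.thick_ne
  thick_lt := L.thick_lt
  uv := L.uv
  level i := L.level i.1
  directed i j := by
    obtain ⟨l, h1, h2, h3, h4⟩ := L.directed i.1 j.1
    obtain ⟨l', hl', h5, h6⟩ := hp l
    exact ⟨⟨l', hl'⟩, h1.trans h5, h2.trans h5, h3.trans h6, h4.trans h6⟩
  frac y := by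
    obtain ⟨i, a, b, hb, h⟩ := L.frac y
    obtain ⟨l, hl, h5, _⟩ := hp i
    refine ⟨⟨l, hl⟩, ⟨a, h5 a.2⟩, ⟨b, h5 b.2⟩, ?_, h⟩
    intro h0
    exact hb (Subtype.ext (congrArg (fun z : (L.level l).R => (z : F)) h0))
  const c := by
    obtain ⟨i, hi⟩ := L.const c
    obtain ⟨l, hl, _, h6⟩ := hp i
    exact ⟨⟨l, hl⟩, h6 hi⟩
  finite_div := L.finite_div

variable (L : AnnulusLevels A T ι) (p : ι → Prop)
  (hp : ∀ i, ∃ l, p l ∧ (L.level i).R ≤ (L.level l).R ∧ (L.level i).K' ≤ (L.level l).K')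

@[simp] theorem levelsRestrict_u : (levelsRestrict L p hp).u = L.u := rfl
@[simp] theorem levelsRestrict_v : (levelsRestrict L p hp).v = L.v := rfl
@[simp] theorem levelsRestrict_ε₀ : (levelsRestrict L p hp).ε₀ = L.ε₀ := rfl
@[simp] theorem levelsRestrict_thick : (levelsRestrict L p hp).thick = L.thick := rfl
@[simp] theorem levelsRestrict_level (i : {i : ι // p i}) :
    (levelsRestrict L p hp).level i = L.level i.1 := rfl

/-- the indices whose constant field contains a given finite set of constants are cofinal -/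
theorem exists_const_cofinal (S : Finset K) (i : ι) :
    ∃ l, (∀ c ∈ S, c ∈ (L.level l).K') ∧ (L.level i).R ≤ (L.level l).R ∧
      (L.level i).K' ≤ (L.level l).K' := by
  classical
  induction S using Finset.induction_on with
  | empty => exact ⟨i, fun c hc => absurd hc (Finset.notMem_empty c), le_rfl, le_rfl⟩
  | insert a S _ ih =>
    obtain ⟨l, hl, h1, h2⟩ := ih
    obtain ⟨j, hj⟩ := L.const a
    obtain ⟨m, hm1, _, hm3, hm4⟩ := L.directed l j
    refine ⟨m, ?_, h1.trans hm1, h2.trans hm3⟩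
    intro c hc
    rcases Finset.mem_insert.mp hc with rfl | hc
    · exact hm4 hj
    · exact hm3 (hl c hc)

/-- **The levels whose constant field contains a given finite set of constants.** -/
def levelsConst (S : Finset K) :
    AnnulusLevels A T {i : ι // ∀ c ∈ S, c ∈ (L.level i).K'} :=
  levelsRestrict L (fun i => ∀ c ∈ S, c ∈ (L.level i).K') (exists_const_cofinal L S)

@[simp] theorem levelsConst_u (S : Finset K) : (levelsConst L S).u = L.u := rfl
@[simp] theorem levelsConst_v (S : Finset K) : (levelsConst L S).v = L.v := rfl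
@[simp] theorem levelsConst_ε₀ (S : Finset K) : (levelsConst L S).ε₀ = L.ε₀ := rfl
@[simp] theorem levelsConst_thick (S : Finset K) : (levelsConst L S).thick = L.thick := rfl
@[simp] theorem levelsConst_level (S : Finset K) (i : {i : ι // ∀ c ∈ S, c ∈ (L.level i).K'}) :
    (levelsConst L S).level i = L.level i.1 := rfl

theorem mem_K'_levelsConst {S : Finset K} {c : K} (hc : c ∈ S)
    (i : {i : ι // ∀ c ∈ S, c ∈ (L.level i).K'}) : c ∈ ((levelsConst L S).level i).K' :=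
  i.2 c hc

end Restrict

section RestrictBranch

variable {K F k : Type*} [Field K] [Field F] [Field k] [Algebra K F]
  {Ft : Type*} [Field Ft] [Algebra k Ft]
  {A : ValuationSubring K} {T : Set (Place K F)} {ι : Type*}
  {π : A →+* k} {O : ValuationSubring F} {res : O →+* Ft} {Q : Place k Ft}
  {L : AnnulusLevels A T ι}

/-- the branch data of a restricted family -/
theorem branchComp_levelsRestrict (X : BranchComp π O res Q L) (p : ι → Prop)
    (hp : ∀ i, ∃ l, p l ∧ (L.level i).R ≤ (L.level l).R ∧ (L.level i).K' ≤ (L.level l).K') :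
    BranchComp π O res Q (levelsRestrict L p hp) where
  le i := X.le i.1
  branch i := X.branch i.1
  const_mem := X.const_mem
  const := X.const

theorem branchComp_levelsConst (X : BranchComp π O res Q L) (S : Finset K) :
    BranchComp π O res Q (levelsConst L S) :=
  branchComp_levelsRestrict X _ _

end RestrictBranch

/-! ### The coordinate of a thickness-one tube, the other quotient -/

section Coord

variable {K F k : Type*} [Field K] [Field F] [Field k] [Algebra K F]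
  {Ft₁ Ft₂ : Type*} [Field Ft₁] [Algebra k Ft₁] [Field Ft₂] [Algebra k Ft₂]
  {A : ValuationSubring K} {T : Set (Place K F)} {ι : Type*}
  {π : A →+* k} {O₁ O₂ : ValuationSubring F} {res₁ : O₁ →+* Ft₁} {res₂ : O₂ →+* Ft₂}
  {Q₁ : Place k Ft₁} {Q₂ : Place k Ft₂}
  {L : AnnulusLevels A T ι} (X₁ : BranchComp π O₁ res₁ Q₁ L)
  (X₂ : BranchComp π O₂ res₂ Q₂ L)

include X₁ X₂ in
/-- **The coordinate of a thickness-one tube at a finite level, the other quotient**: in the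
situation of `SplitCoord.coord_mul_inv_mem`, also `x * u⁻¹ ∈ R_i`; hence `x = u * η` with `η` a
unit of the level. -/
theorem coord_inv_mul_mem (hπ0 : ∀ a : A, A.valuation (a : K) < 1 → π a = 0)
    (hu₁ : L.u ∉ O₁.nonunits) (hv₂ : L.v ∉ O₂.nonunits) (i : ι) {x y z : F} {κ : K}
    (hx : x ∈ (L.level i).R) (hy : y ∈ (L.level i).R) (hz : z ∈ (L.level i).R)
    (hzu : IsUnit (⟨z, hz⟩ : (L.level i).R)) (hxyz : x * y = κ • z)
    (hκ : A.valuation κ = A.valuation L.thick) (hy₂ : y ∉ O₂.nonunits) :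
    x * L.u⁻¹ ∈ (L.level i).R := by
  have N := nodeLevelsOfComps X₁ X₂ hπ0 hu₁ hv₂
  have hu0 : L.u ≠ 0 := ne_zero_of_notMem_nonunits hu₁
  have hκ0 : κ ≠ 0 := by
    rintro rfl
    rw [map_zero] at hκ
    exact L.thick_ne ((map_eq_zero _).mp hκ.symm)
  obtain ⟨hz0, hzinv⟩ := (Fermat.Agent.BR.S0.isUnit_subring_iff hz).mp hzu
  have hb : (⟨L.u, (L.level i).u_mem⟩ : (L.level i).R) ≠ 0 :=
    fun h => hu0 (congrArg Subtype.val h)
  refine mem_level_of_regular N i (a := ⟨x, hx⟩) (b := ⟨L.u, (L.level i).u_mem⟩) hb ?_ ?_ ?_ ?_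
  · show x * L.u⁻¹ * L.u = x
    rw [mul_assoc, inv_mul_cancel₀ hu0, mul_one]
  · -- on the first component `u` is a unit
    exact O₁.mul_mem _ _ (X₁.le i _ hx)
      (inv_mem_of_mem_of_notMem_nonunits (X₁.le i _ (L.level i).u_mem) hu₁)
  · -- on the second component `u` and `x` have the same valuation
    rw [← ValuationSubring.valuation_le_one_iff, map_mul, map_inv₀]
    have hv1 : O₂.valuation L.v = 1 :=
      valuation_eq_one_of_mem_of_notMem_nonunits (X₂.le i _ (L.level i).v_mem) hv₂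
    have hy1 : O₂.valuation y = 1 :=
      valuation_eq_one_of_mem_of_notMem_nonunits (X₂.le i _ hy) hy₂
    have hz1 : O₂.valuation z = 1 :=
      valuation_eq_one_of_mem_of_inv_mem hz0 (X₂.le i _ hz) (X₂.le i _ hzinv)
    have hε1 : O₂.valuation L.ε₀ = 1 := by
      have hε0 : L.ε₀ ≠ 0 := by
        intro h0
        have := L.uv
        rw [h0, smul_zero] at this
        rcases mul_eq_zero.mp this with h | h
        · exact hu0 h
        · exact hv₂ (by rw [h, ValuationSubring.mem_nonunits_iff, map_zero]; exact zero_lt_one)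
      exact valuation_eq_one_of_mem_of_inv_mem hε0 (X₂.le i _ (L.level i).ε₀_mem)
        (X₂.le i _ (L.level i).ε₀_inv_mem)
    have hu : O₂.valuation L.u = O₂.valuation (algebraMap K F L.thick) := by
      have h := congrArg O₂.valuation L.uv
      rwa [map_mul, hv1, mul_one, Algebra.smul_def, map_mul, hε1, mul_one] at h
    have hxv : O₂.valuation x = O₂.valuation (algebraMap K F κ) := by
      have h := congrArg O₂.valuation hxyz
      rwa [map_mul, hy1, mul_one, Algebra.smul_def, map_mul, hz1, mul_one] at h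
    have hd : A.valuation (κ / L.thick) = 1 := by
      rw [map_div₀, hκ]
      exact div_self ((_root_.map_ne_zero _).mpr L.thick_ne)
    have hd1 := valuation_const_eq_one X₂ hd
    rw [hu, hxv, ← map_inv₀, ← map_mul, ← map_inv₀, ← map_mul, ← div_eq_mul_inv, hd1]
  · -- on the tube `u` has no zero
    intro P hP
    have hint := ((L.level i).centred P hP).choose
    have huinv : L.u⁻¹ = L.v * ((algebraMap K F L.thick)⁻¹ * L.ε₀⁻¹) := by
      have hth : algebraMap K F L.thick ≠ 0 := (_root_.map_ne_zero _).mpr L.thick_ne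
      have hε0 : L.ε₀ ≠ 0 := by
        intro h0
        have := L.uv
        rw [h0, smul_zero] at this
        rcases mul_eq_zero.mp this with h | h
        · exact hu0 h
        · exact hv₂ (by rw [h, ValuationSubring.mem_nonunits_iff, map_zero]; exact zero_lt_one)
      have huv := L.uv
      rw [Algebra.smul_def] at huv
      field_simp
      rw [huv]
    rw [huinv]
    refine P.toValuationSubring.mul_mem _ _ (hint.mem_toValuationSubring hx)
      (P.toValuationSubring.mul_mem _ _ (hint.mem_toValuationSubring (L.level i).v_mem)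
        (P.toValuationSubring.mul_mem _ _ ?_ (hint.mem_toValuationSubring (L.level i).ε₀_inv_mem)))
    rw [← map_inv₀]
    exact P.algebraMap_mem' _

end Coord

/-! ### The constant of the Kummer sheet from the value of `θ` on the component where `X` vanishes -/

section Value

theorem add_mem_nonunits {F : Type*} [Field F] {O : ValuationSubring F} {x y : F}
    (hx : x ∈ O.nonunits) (hy : y ∈ O.nonunits) : x + y ∈ O.nonunits := by
  rw [O.mem_nonunits_iff] at hx hy ⊢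
  exact Valuation.map_add_lt _ hx hy

theorem mul_mem_nonunits {F : Type*} [Field F] {O : ValuationSubring F} {x y : F}
    (hx : x ∈ O) (hy : y ∈ O.nonunits) : x * y ∈ O.nonunits := by
  rw [O.mem_nonunits_iff] at hy ⊢
  rw [map_mul]
  calc O.valuation x * O.valuation y ≤ 1 * O.valuation y :=
        mul_le_mul_left ((O.valuation_le_one_iff _).mpr hx) _
    _ = O.valuation y := one_mul _
    _ < 1 := hy

theorem mem_of_mem_nonunits {F : Type*} [Field F] {O : ValuationSubring F} {x : F}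
    (hx : x ∈ O.nonunits) : x ∈ O :=
  (O.valuation_le_one_iff x).mp ((O.mem_nonunits_iff).mp hx).le

theorem neg_mem_nonunits {F : Type*} [Field F] {O : ValuationSubring F} {x : F}
    (hx : x ∈ O.nonunits) : -x ∈ O.nonunits := by
  rw [O.mem_nonunits_iff] at hx ⊢
  rwa [Valuation.map_neg]

variable {K F F₂ : Type*} [Field K] [Field F] [Field F₂] [Algebra K F] [Algebra K F₂]
  [Algebra F F₂] [IsScalarTower K F F₂] [Algebra.IsIntegral F F₂] [CharZero F₂]
  {A : ValuationSubring K} {T : Set (Place K F)} {ι : Type*}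
  {k : Type*} [Field k]
  {Ft₁b Ft₁ : Type*} [Field Ft₁b] [Field Ft₁] [Algebra k Ft₁b] [Algebra k Ft₁]
  [Algebra Ft₁b Ft₁] [IsScalarTower k Ft₁b Ft₁]
  {π : A →+* k} {O₁b : ValuationSubring F} {res₁b : O₁b →+* Ft₁b} {Q₁b : Place k Ft₁b}
  {O₁ : ValuationSubring F₂} {res₁ : O₁ →+* Ft₁} {Q₁ : Place k Ft₁}

/-- **The constant of the Kummer sheet from the value of `θ`**: if `θ ≡ c₀` at the point `Q₁` of the
component `O₁` of the cover where `X` vanishes and `Y` is a parameter, then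
`c₀² ≡ γ₂ Rr η₁⁻²` modulo the maximal ideal of every level (the field `hc₀` of
`KummerComps.VertAlg`). -/
theorem hc₀_of_value (L : AnnulusLevels A T ι) {U : F₂} {c₀ : A} {κ₀ ϖ₂ γ₂ : K} {q d : ℕ}
    {Bc A₀ Rr η₁ : F} {Hp : F[X]}
    (hq : q = 2 * d + 1) (hd : 1 ≤ d) (U_ne : U ≠ 0) (ϖ₂_ne : ϖ₂ ≠ 0)
    (thick₂_lt : A.valuation (ϖ₂ / L.thick) < 1)
    (thick_eq : L.thick = κ₀ * (ϖ₂ / L.thick) ^ d)
    (κ₀_mem : κ₀ ∈ A) (hγ₂ : (q : K) = γ₂ * ϖ₂ ^ (q - 1)) (γ₂_mem : γ₂ ∈ A)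
    (hmin : minpoly F U = X ^ q + C Bc * X ^ (q - 1) + C A₀ + C (q : F) * Hp)
    (hBc : Bc = L.u * η₁) (hAB : A₀ * Bc = -(q : F) * Rr) (η₁_ne : η₁ ≠ 0)
    (η₁_inv_mem : ∀ i, η₁⁻¹ ∈ (L.level i).R) (Hp_mem : ∀ i n, Hp.coeff n ∈ (L.level i).R)
    (hπ0 : ∀ a : A, A.valuation (a : K) < 1 → π a = 0)
    (X₁ : BranchComp π O₁b res₁b Q₁b L) (C₁ : OverComp O₁b res₁b Q₁b O₁ res₁ Q₁)
    (hY₁ : ∃ h : yOf L.thick U ∈ O₁, Q₁.adicValuation (res₁ ⟨_, h⟩) < 1 ∧ res₁ ⟨_, h⟩ ≠ 0)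
    (hθ₁ : ∃ h : thetaOf L.u ϖ₂ U d - algebraMap K F₂ (c₀ : K) ∈ O₁,
      Q₁.adicValuation (res₁ ⟨_, h⟩) < 1) :
    ∀ i, ∀ h : algebraMap K F ((c₀ : K) ^ 2) - algebraMap K F γ₂ * Rr * η₁⁻¹ ^ 2 ∈ (L.level i).R,
      ¬ IsUnit (⟨_, h⟩ : (L.level i).R) := by
  intro i h hu
  obtain ⟨hYm, hYlt, hYne⟩ := hY₁
  obtain ⟨hθm, hθlt⟩ := hθ₁
  have hXY : xOf ϖ₂ U * yOf L.thick U = algebraMap K F₂ (ϖ₂ / L.thick) := xOf_mul_yOf U_ne
  have hYu : yOf L.thick U ∉ O₁.nonunits := fun h => hYne ((C₁.res_eq_zero _).mpr h)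
  have hXn : xOf ϖ₂ U ∈ O₁.nonunits :=
    mem_nonunits_of_mul_eq hXY (C₁.const_nonunits X₁ hπ0 _ thick₂_lt) hYm hYu
  -- the composite valuation ring
  have hX𝒪 : xOf ϖ₂ U ∈
      (CompVal.compVal O₁ res₁ C₁.res_eq_zero Q₁.adicValuation).nonunits :=
    CompVal.mem_nonunits_compVal_of_mem_nonunits _ _ _ _ hXn
  have hY𝒪 : yOf L.thick U ∈
      (CompVal.compVal O₁ res₁ C₁.res_eq_zero Q₁.adicValuation).nonunits :=
    (CompVal.mem_nonunits_compVal_iff _ _ _ _).mpr ⟨hYm, hYlt⟩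
  have hθc𝒪 : thetaOf L.u ϖ₂ U d - algebraMap K F₂ (c₀ : K) ∈
      (CompVal.compVal O₁ res₁ C₁.res_eq_zero Q₁.adicValuation).nonunits :=
    (CompVal.mem_nonunits_compVal_iff _ _ _ _).mpr ⟨hθm, hθlt⟩
  have hlev : ∀ {y : F}, y ∈ (L.level i).R → algebraMap F F₂ y ∈
      CompVal.compVal O₁ res₁ C₁.res_eq_zero Q₁.adicValuation := fun hy => C₁.level_mem X₁ i hy
  have hconst : ∀ a : K, a ∈ A → algebraMap K F₂ a ∈
      CompVal.compVal O₁ res₁ C₁.res_eq_zero Q₁.adicValuation := by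
    intro a ha
    rw [IsScalarTower.algebraMap_apply K F F₂]
    refine ⟨C₁.map_mem _ (X₁.const_mem ⟨a, ha⟩), ?_⟩
    rw [C₁.res_map _ (X₁.const_mem ⟨a, ha⟩), X₁.const ⟨a, ha⟩]
    exact C₁.regular _ (Q₁b.adicValuation_algebraMap_le_one _)
  have hθ𝒪 : thetaOf L.u ϖ₂ U d ∈
      CompVal.compVal O₁ res₁ C₁.res_eq_zero Q₁.adicValuation := by
    have e : thetaOf L.u ϖ₂ U d =
        (thetaOf L.u ϖ₂ U d - algebraMap K F₂ (c₀ : K)) + algebraMap K F₂ (c₀ : K) := by ring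
    rw [e]
    exact add_mem (mem_of_mem_nonunits hθc𝒪) (hconst _ c₀.2)
  have hthickA : L.thick ∈ A := (A.valuation_le_one_iff _).mp L.thick_lt.le
  have hU𝒪 : U ∈ CompVal.compVal O₁ res₁ C₁.res_eq_zero Q₁.adicValuation := by
    rw [← mul_yOf (U := U) L.thick_ne]
    exact mul_mem (hconst _ hthickA) (mem_of_mem_nonunits hY𝒪)
  have hHU𝒪 : aeval U Hp ∈ CompVal.compVal O₁ res₁ C₁.res_eq_zero Q₁.adicValuation := by
    rw [aeval_def, eval₂_eq_sum_range]
    exact sum_mem fun n _ => mul_mem (hlev (Hp_mem i n)) (pow_mem hU𝒪 n)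
  have hη𝒪 : (algebraMap F F₂ η₁)⁻¹ ∈
      CompVal.compVal O₁ res₁ C₁.res_eq_zero Q₁.adicValuation := by
    rw [← map_inv₀]
    exact hlev (η₁_inv_mem i)
  -- (K3)
  have hroot : U ^ q + algebraMap F F₂ Bc * U ^ (q - 1) + algebraMap F F₂ A₀ +
      (q : F₂) * aeval U Hp = 0 := by
    have h := minpoly.aeval F U
    rw [hmin] at h
    simpa [map_natCast] using h
  have key := KummerVert.theta_sq_sub_eq (U := U) (X := xOf ϖ₂ U) (Y := yOf L.thick U)
    (θ := thetaOf L.u ϖ₂ U d) (u' := algebraMap F F₂ L.u) (Bc := algebraMap F F₂ Bc)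
    (A₀ := algebraMap F F₂ A₀) (Rr := algebraMap F F₂ Rr) (HU := aeval U Hp)
    (η₁ := algebraMap F F₂ η₁) (ϖ₁ := algebraMap K F₂ L.thick) (ϖ₂ := algebraMap K F₂ ϖ₂)
    (κ₁ := algebraMap K F₂ κ₀) (γ₂ := algebraMap K F₂ γ₂) (qq := (q : F₂)) hq hd
    (xOf_mul U_ne) (mul_yOf L.thick_ne) ((_root_.map_ne_zero _).mpr ϖ₂_ne)
    ((_root_.map_ne_zero _).mpr η₁_ne) (by rw [hBc, map_mul])
    (thetaOf_mul L.u d U_ne ϖ₂_ne)
    (by rw [← map_mul, hAB, map_mul, map_neg, map_natCast]) hroot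
    (by rw [← map_pow, ← map_mul, ← hγ₂, map_natCast])
    (by rw [hXY, ← map_pow, ← map_mul, ← thick_eq])
  -- `θ² - ρ'` is small
  have h1 : thetaOf L.u ϖ₂ U d ^ 2 -
      algebraMap K F₂ γ₂ * algebraMap F F₂ Rr * (algebraMap F F₂ η₁)⁻¹ ^ 2 ∈
      (CompVal.compVal O₁ res₁ C₁.res_eq_zero Q₁.adicValuation).nonunits := by
    rw [key]
    refine add_mem_nonunits (mul_mem_nonunits ?_ hX𝒪) (mul_mem_nonunits ?_ hY𝒪)
    · exact neg_mem (mul_mem (mul_mem (mul_mem (mul_mem hθ𝒪 hη𝒪) (hconst _ γ₂_mem))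
        (pow_mem (mem_of_mem_nonunits hX𝒪) _)) hHU𝒪)
    · exact neg_mem (mul_mem (mul_mem (mul_mem hθ𝒪 hη𝒪) (hconst _ κ₀_mem))
        (pow_mem (mem_of_mem_nonunits hY𝒪) _))
  -- `θ² - c₀²` is small
  have h2 : thetaOf L.u ϖ₂ U d ^ 2 - algebraMap K F₂ (c₀ : K) ^ 2 ∈
      (CompVal.compVal O₁ res₁ C₁.res_eq_zero Q₁.adicValuation).nonunits := by
    have e : thetaOf L.u ϖ₂ U d ^ 2 - algebraMap K F₂ (c₀ : K) ^ 2 =
        (thetaOf L.u ϖ₂ U d + algebraMap K F₂ (c₀ : K)) *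
          (thetaOf L.u ϖ₂ U d - algebraMap K F₂ (c₀ : K)) := by ring
    rw [e]
    exact mul_mem_nonunits (add_mem hθ𝒪 (hconst _ c₀.2)) hθc𝒪
  -- the image of the element of the level is small
  have h3 : algebraMap F F₂
      (algebraMap K F ((c₀ : K) ^ 2) - algebraMap K F γ₂ * Rr * η₁⁻¹ ^ 2) ∈
      (CompVal.compVal O₁ res₁ C₁.res_eq_zero Q₁.adicValuation).nonunits := by
    have e : algebraMap F F₂
        (algebraMap K F ((c₀ : K) ^ 2) - algebraMap K F γ₂ * Rr * η₁⁻¹ ^ 2) =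
        (thetaOf L.u ϖ₂ U d ^ 2 -
          algebraMap K F₂ γ₂ * algebraMap F F₂ Rr * (algebraMap F F₂ η₁)⁻¹ ^ 2) +
        -(thetaOf L.u ϖ₂ U d ^ 2 - algebraMap K F₂ (c₀ : K) ^ 2) := by
      have e1 : ∀ x : K, algebraMap F F₂ (algebraMap K F x) = algebraMap K F₂ x :=
        fun x => (IsScalarTower.algebraMap_apply K F F₂ x).symm
      simp only [map_sub, map_mul, map_pow, map_inv₀, e1]
      ring
    rw [e]
    exact add_mem_nonunits h1 (neg_mem_nonunits h2)
  -- but it is a unit of the level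
  obtain ⟨h0, hinv⟩ := (Fermat.Agent.BR.S0.isUnit_subring_iff h).mp hu
  have h4 := hlev hinv
  rw [map_inv₀] at h4
  rw [ValuationSubring.mem_nonunits_iff] at h3
  have h5 := (ValuationSubring.valuation_le_one_iff _ _).mpr h4
  rw [map_inv₀] at h5
  have hpos : 0 < (CompVal.compVal O₁ res₁ C₁.res_eq_zero Q₁.adicValuation).valuation
      (algebraMap F F₂
        (algebraMap K F ((c₀ : K) ^ 2) - algebraMap K F γ₂ * Rr * η₁⁻¹ ^ 2)) :=
    zero_lt_iff.mpr ((_root_.map_ne_zero _).mpr ((_root_.map_ne_zero _).mpr h0))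
  exact absurd ((inv_le_one₀ hpos).mp h5) (not_le.mpr h3)

end Value

/-! ### The algebraic half of the data, the constant from the value of `θ` -/

section Kron

open Fermat.Agent.BR3.VertTaylor Fermat.Agent.BR3.VertTaylorAt Fermat.Agent.BR3.VertTaylorTw
  Fermat.Agent.BR3.VertGlueAbs Fermat.Agent.BR3.SplitPoly Fermat.Agent.BR3.KummerAlgMod

variable {K F F₂ : Type*} [Field K] [Field F] [Field F₂] [Algebra K F] [Algebra K F₂]
  [Algebra F F₂] [IsScalarTower K F F₂] [Algebra.IsIntegral F F₂] [CharZero F₂]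
  [FiniteDimensional F F₂]
  {A : ValuationSubring K} {T : Set (Place K F)} {ι : Type*}
  {k : Type*} [Field k]
  {Ft₁b Ft₁ : Type*} [Field Ft₁b] [Field Ft₁] [Algebra k Ft₁b] [Algebra k Ft₁]
  [Algebra Ft₁b Ft₁] [IsScalarTower k Ft₁b Ft₁]
  {π : A →+* k} {O₁b : ValuationSubring F} {res₁b : O₁b →+* Ft₁b} {Q₁b : Place k Ft₁b}
  {O₁ : ValuationSubring F₂} {res₁ : O₁ →+* Ft₁} {Q₁ : Place k Ft₁}

/-- **`KummerAlgMod.vertAlg_of_kronecker` with the constant `c₀` given by the value of `θ`** at the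
point `Q₁` of the component `O₁` of the cover where `X` vanishes: the hypothesis `hc₀` is replaced
by the branch data `X₁`, the component `C₁` and the two residue facts `hY₁`, `hθ₁` of
`KummerComps.VertAlg.vertData`. -/
theorem vertAlg_of_kronecker_value (L : AnnulusLevels A T ι) {U : F₂} {c₀ : A} {κ₀ ϖ₂ γ₂ : K}
    {q d : ℕ} {P Ψ₁ : F[X]} {x₁ x₂ y η₁ : F}
    (hqp : q.Prime) (hq : q = 2 * d + 1) (hd : 1 ≤ d) (hfin : Module.finrank F F₂ = q)
    (hP : P = (X ^ q - C x₂) * (X - C (x₁ ^ q)) + C (q : F) * Ψ₁)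
    (hmon : P.Monic) (hdeg : P.natDegree = q + 1) (h0 : P.eval y = 0)
    (h1 : aeval (algebraMap F F₂ y + U) P = 0) (hU : U ∉ Set.range (algebraMap F F₂))
    (ϖ₂_ne : ϖ₂ ≠ 0) (thick₂_lt : A.valuation (ϖ₂ / L.thick) < 1)
    (thick_eq : L.thick = κ₀ * (ϖ₂ / L.thick) ^ d)
    (κ₀_mem : κ₀ ∈ A) (κ₀_memK : ∀ i, κ₀ ∈ (L.level i).K')
    (ϖ₂_mem : ϖ₂ ∈ A) (ϖ₂_memK : ∀ i, ϖ₂ ∈ (L.level i).K')
    (hγ₂ : (q : K) = γ₂ * ϖ₂ ^ (q - 1)) (γ₂_mem : γ₂ ∈ A) (γ₂_memK : ∀ i, γ₂ ∈ (L.level i).K')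
    (q_lt : A.valuation (q : K) < 1) (two_unit : A.valuation (2 : K) = 1)
    (c₀_unit : A.valuation (c₀ : K) = 1) (c₀_mem : ∀ i, (c₀ : K) ∈ (L.level i).K')
    (hx₁ : ∀ i, x₁ ∈ (L.level i).R) (hx₂ : ∀ i, x₂ ∈ (L.level i).R)
    (hy : ∀ i, y ∈ (L.level i).R) (hΨ₁ : ∀ i k, Ψ₁.coeff k ∈ (L.level i).R)
    (hη : y - x₁ ^ q = L.u * η₁) (η₁_ne : η₁ ≠ 0) (η₁_mem : ∀ i, η₁ ∈ (L.level i).R)
    (η₁_inv_mem : ∀ i, η₁⁻¹ ∈ (L.level i).R)
    (hπ0 : ∀ a : A, A.valuation (a : K) < 1 → π a = 0)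
    (X₁ : BranchComp π O₁b res₁b Q₁b L) (C₁ : OverComp O₁b res₁b Q₁b O₁ res₁ Q₁)
    (hY₁ : ∃ h : yOf L.thick U ∈ O₁, Q₁.adicValuation (res₁ ⟨_, h⟩) < 1 ∧ res₁ ⟨_, h⟩ ≠ 0)
    (hθ₁ : ∃ h : thetaOf L.u ϖ₂ U d - algebraMap K F₂ (c₀ : K) ∈ O₁,
      Q₁.adicValuation (res₁ ⟨_, h⟩) < 1)
    (finite_div : ∀ z : F₂, z ≠ 0 → {Q : Place K F₂ | Q.ord z ≠ 0}.Finite) :
    VertAlg L U c₀ κ₀ ϖ₂ γ₂ q d (y - x₁ ^ q) (y ^ q - x₂) (Ψ₁.eval y) η₁
      (vertH₁ q x₁ y + vertPolyAt Ψ₁ y) := by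
  have hU0 : U ≠ 0 := by
    rintro rfl
    exact hU ⟨0, map_zero _⟩
  have hroot : aeval U (vertPolyAt P y) = 0 :=
    MidKummerAbs.aeval_vertPolyAt_eq_zero_tw hP h0 h1 hU0
  obtain ⟨hmin, htop⟩ := minpoly_eq_of_prime_finrank hqp hfin hU (vertPolyAt_monic hmon hdeg y)
    (vertPolyAt_natDegree hdeg y) hroot
  have hmin' : minpoly F U = X ^ q + C (y - x₁ ^ q) * X ^ (q - 1) + C (y ^ q - x₂) +
      C (q : F) * (vertH₁ q x₁ y + vertPolyAt Ψ₁ y) := by
    rw [hmin, vertPolyAt_eq_tw hqp hP y, mul_add]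
    ring
  have hAB : (y ^ q - x₂) * (y - x₁ ^ q) = -(q : F) * Ψ₁.eval y := by
    have h := h0
    rw [hP] at h
    simp only [eval_add, eval_mul, eval_sub, eval_pow, eval_X, eval_C] at h
    linear_combination h
  have Hp_mem : ∀ i n, (vertH₁ q x₁ y + vertPolyAt Ψ₁ y).coeff n ∈ (L.level i).R :=
    fun i n => coeff_Hp_mem _ (hx₁ i) (hy i) (hΨ₁ i) n
  have hc₀ := hc₀_of_value L (c₀ := c₀) hq hd hU0 ϖ₂_ne thick₂_lt thick_eq κ₀_mem hγ₂ γ₂_mem hmin'
    hη hAB η₁_ne η₁_inv_mem Hp_mem hπ0 X₁ C₁ hY₁ hθ₁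
  exact vertAlg_of_kronecker L hqp hq hd hfin hP hmon hdeg h0 h1 hU ϖ₂_ne thick₂_lt thick_eq κ₀_mem
    κ₀_memK ϖ₂_mem ϖ₂_memK hγ₂ γ₂_mem γ₂_memK q_lt two_unit c₀_unit c₀_mem hx₁ hx₂ hy hΨ₁ hη η₁_ne
    η₁_mem η₁_inv_mem hc₀ finite_div

end Kron

end Fermat.Agent.BR3.KummerModAbs
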