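import Mathlib
import Fermat.Agent.BR3.VertSheet.Sheet
import Fermat.Agent.BR3.VertPtsDef
import Fermat.Agent.BR3.KummerComps

/-!
# Program C (S36), node (I7-N-KUM), inputs (C₁) + (D₁): the vertical side of the Kummer node

Setting of `BR3/VertSheet/Sheet.lean`: `H : VertComp C a₀ ha1 ha2 Z resZ θ` (the conclusion of
`exists_vertComponent…`: `Z` the valuation ring of the vertical component `z e` over the circle
ring of gauge `a₀`, `resZ` onto `k(T)[Ũ]/(vertBar q β ρ)`, `resZ θ = Ũ`), `q` an odd prime,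
`c ^ 2 = ρ`, `Q₁ := ptKBar q hq2 hβ hρ c hc` the Kummer point `Ũ = 0`, `b̃ Ũ ^ d ≡ c` of `z e`.
The inputs of `KummerComps.VertAlg.kummerHyp_frame` on the side of `z e`:

* `ptKBar_restrict` : the Kummer point lies over `T = ∞`;
* `overComp_ptK` : **(C₁)** `OverComp (circleRing …) (circleRes …) (placeInfty k) Z resZ Q₁`;
* `hY_ptK` : **(D₁, `hY₁`)** `Y = U / a₀` (`= θ`) lies in `Z`, its residue `Ũ` is
  non-zero and vanishes at `Q₁`;
* `yOf_eq_div`, `thetaOf_eq` : `θ_K = thetaOf C.u ϖ₂ U d = α₂(u / a₀) · θ ^ d` when `ϖ₂ ^ d = a₀ ^ (d+1)`;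
* `hθ_ptK` : **(D₁, `hθ₁`)** `θ_K - c₀ ∈ Z` and its residue `T Ũ ^ d - c / β` vanishes at
  `Q₁`, for every lift `c₀` of `c / β`.
-/

set_option autoImplicit false
set_option linter.unusedSectionVars false

noncomputable section

/- S36 build-time patch: file-local shortcut instances. They only shorten instance search;
each is the instance that the search finds anyway (reducible, same terms after unfolding). -/
local instance (priority := 100000) Fermat.Agent.BR3.FastInst.instAlgFullC_KummerVertSide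
    {k : Type*} [Field k] (N : ℕ) :
    Algebra k ↥(ModularCurve.modularFunctionFieldFullC k N) := inferInstance
local instance (priority := 100000) Fermat.Agent.BR3.FastInst.instFieldFullC_KummerVertSide
    {k : Type*} [Field k] (N : ℕ) :
    Field ↥(ModularCurve.modularFunctionFieldFullC k N) := inferInstance
local instance (priority := 100000) Fermat.Agent.BR3.FastInst.instAlgLaurent_KummerVertSide
    {k : Type*} [Field k] : Algebra k (LaurentSeries k) := inferInstance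


namespace Fermat.Agent.BR3.KummerVertSide

open AlgebraicCurve Polynomial IsLocalRing
open Fermat.Agent.Red Fermat.Agent.X0
open Fermat.Agent.BR.Circle Fermat.Agent.BR.S0 Fermat.Agent.BR.P1 Fermat.Agent.BR.InertiaRed
open Fermat.Agent.BR3.VertResidue Fermat.Agent.BR3.VertResField Fermat.Agent.BR3.VertPtsDef
open Fermat.Agent.BR3.VertSheet Fermat.Agent.BR3.KummerComps Fermat.Agent.BR3.KummerOfVert

/-! ### the Kummer point lies over `T = ∞` -/

section Points

variable {k : Type*} [Field k] [IsAlgClosed k] (q : ℕ) [hqF : Fact q.Prime] [CharP k q]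
  {β ρ : k} [hP : Fact (Irreducible (vertBar q β ρ))]

set_option maxHeartbeats 1600000 in
/-- **The Kummer points of `z e` lie over `T = ∞`.** -/
theorem ptKBar_restrict (hq2 : q ≠ 2) (hβ : β ≠ 0) (hρ : ρ ≠ 0) {c : k} (hc : c ^ 2 = ρ) :
    (ptKBar q hq2 hβ hρ c hc).restrict (RatFunc k) = placeInfty k := by
  apply eq_placeInfty
  have h1 := (ptKBar q hq2 hβ hρ c hc).ord_restrict (F := RatFunc k) (RatFunc.C β * RatFunc.X)
  rw [AdjoinRoot.algebraMap_eq] at h1
  have h2 : (ptKBar q hq2 hβ hρ c hc).ord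
      (AdjoinRoot.of (vertBar q β ρ) (RatFunc.C β * RatFunc.X)) = -(((q - 1) / 2 : ℕ) : ℤ) :=
    ord_b_ptK q hq2 hρ (vertBar_hb (q := q) (ρ := ρ) hβ) (vertBar_heq hβ) (vertBar_hgen hβ) hc
  have hd1 : (1 : ℤ) ≤ (((q - 1) / 2 : ℕ) : ℤ) := by
    have h1 : 1 ≤ (q - 1) / 2 := by
      obtain ⟨j, hj⟩ := hqF.out.odd_of_ne_two hq2
      have := hqF.out.two_le
      omega
    exact_mod_cast h1
  have he : (0 : ℤ) < (Place.ramificationIndex (F := RatFunc k) (ptKBar q hq2 hβ hρ c hc) : ℤ) := by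
    exact_mod_cast (ptKBar q hq2 hβ hρ c hc).ramificationIndex_pos (F := RatFunc k)
  have hC : (RatFunc.C β : RatFunc k) ≠ 0 := by
    rw [← RatFunc.algebraMap_eq_C]
    exact (_root_.map_ne_zero _).mpr hβ
  rw [h2, Place.ord_mul _ hC RatFunc.X_ne_zero, ← RatFunc.algebraMap_eq_C,
    Place.ord_algebraMap, zero_add] at h1
  by_contra hcon
  push Not at hcon
  have := mul_nonneg he.le hcon
  omega

end Points

section Sheet

variable {K F' F'' : Type*} [Field K] [Field F'] [Field F''] [Algebra K F'] [Algebra K F'']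
  [Algebra F' F''] [IsScalarTower K F' F''] {A : ValuationSubring K}
  [IsAlgClosed (ResidueField A)] {T' : Set (Place K F')}

variable {q : ℕ} [hqF : Fact q.Prime] [CharP (ResidueField A) q] {β ρ : ResidueField A}
  [hP : Fact (Irreducible (vertBar q β ρ))]
  {C : AnnulusCore A T'} {a₀ : K} {ha1 : A.valuation C.thick < A.valuation a₀}
  {ha2 : A.valuation a₀ < 1} {Z : ValuationSubring F''}
  {resZ : Z →+* AdjoinRoot (vertBar q β ρ)} {θ : F''} (H : VertComp C a₀ ha1 ha2 Z resZ θ)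

include H

/-- **(C₁) The vertical component with its Kummer point, over the circle component with its point
`T = ∞`.** -/
theorem overComp_ptK (hq2 : q ≠ 2) (hβ : β ≠ 0) (hρ : ρ ≠ 0) {c : ResidueField A}
    (hc : c ^ 2 = ρ) :
    OverComp (circleRing C a₀ ha1 ha2) (circleRes C a₀ ha1 ha2) (placeInfty (ResidueField A))
      Z resZ (ptKBar q hq2 hβ hρ c hc) where
  map_mem := fun _ hy => H.map_mem hy
  res_map := fun y hy => by rw [H.compat ⟨y, hy⟩ _, AdjoinRoot.algebraMap_eq]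
  res_eq_zero := fun x => by
    rw [H.ker x, ValuationSubring.coe_mem_nonunits_iff, IsLocalRing.mem_maximalIdeal,
      mem_nonunits_iff]
  regular := fun g hg => by
    have hmem : g ∈ (placeInfty (ResidueField A)).toValuationSubring := by
      rcases (Place.adicValuation_le_one_iff _).mp hg with rfl | h0
      · exact zero_mem _
      · exact Place.mem_of_ord_nonneg _ h0
    rw [← ptKBar_restrict q hq2 hβ hρ hc] at hmem
    exact AlgebraicCurve.Place.adicValuation_le_one_of_mem _ hmem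

set_option maxHeartbeats 1600000 in
/-- **(D₁), `hY₁`**: `Y = U / a₀` is integral on the vertical component, its residue `Ũ` is
non-zero and vanishes at the Kummer point. -/
theorem hY_ptK (hq2 : q ≠ 2) (hβ : β ≠ 0) (hρ : ρ ≠ 0) {c : ResidueField A} (hc : c ^ 2 = ρ)
    {U : F''} (hU : yOf a₀ U = θ) :
    ∃ h : yOf a₀ U ∈ Z,
      (ptKBar q hq2 hβ hρ c hc).adicValuation (resZ ⟨_, h⟩) < 1 ∧ resZ ⟨_, h⟩ ≠ 0 := by
  have hord : (ptKBar q hq2 hβ hρ c hc).ord (AdjoinRoot.root (vertBar q β ρ)) = 1 :=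
    ord_U_ptK q hq2 hρ (vertBar_hb (q := q) (ρ := ρ) hβ) (vertBar_heq hβ) (vertBar_hgen hβ) hc
  have hne : AdjoinRoot.root (vertBar q β ρ) ≠ 0 := by
    intro h0
    rw [h0, Place.ord_zero] at hord
    exact zero_ne_one hord
  have hmem : yOf a₀ U ∈ Z := by rw [hU]; exact H.θ_mem
  have e : (⟨yOf a₀ U, hmem⟩ : Z) = ⟨θ, H.θ_mem⟩ := Subtype.ext hU
  refine ⟨hmem, ?_, ?_⟩
  · rw [e, H.res_θ, adicValuation_lt_one_iff]
    exact Or.inr (by rw [hord]; exact one_pos)
  · rw [e, H.res_θ]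
    exact hne

omit H in
/-- `Y = U / a₀` in the shape of the generator `θ = U / α₂ a₀` of `exists_vertComponent…`
(`algebraMap F' F'' = α₂`). -/
theorem yOf_eq_div (a₀ : K) (U : F'') :
    yOf a₀ U = U / algebraMap F' F'' (algebraMap K F' a₀) := by
  rw [yOf, div_eq_mul_inv, ← IsScalarTower.algebraMap_apply]

omit H in
/-- `θ_K = u / X ^ d = α₂(u / a₀) · (U / a₀) ^ d` when `ϖ₂ ^ d = a₀ ^ (d + 1)`. -/
theorem thetaOf_eq {U : F''} {ϖ₂ : K} {d : ℕ} (ha₀ : a₀ ≠ 0) (hU0 : U ≠ 0)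
    (hϖ : ϖ₂ ^ d = a₀ ^ (d + 1)) :
    thetaOf C.u ϖ₂ U d = algebraMap F' F'' (a₀⁻¹ • C.u) * yOf a₀ U ^ d := by
  have hA : algebraMap K F'' a₀ ≠ 0 := (_root_.map_ne_zero _).mpr ha₀
  have hW : algebraMap K F'' ϖ₂ ^ d = algebraMap K F'' a₀ ^ (d + 1) := by
    rw [← map_pow, hϖ, map_pow]
  rw [thetaOf, xOf, yOf, Algebra.smul_def, map_mul, ← IsScalarTower.algebraMap_apply, map_inv₀,
    mul_pow, mul_pow, inv_pow, inv_pow, hW, pow_succ]
  field_simp

set_option maxHeartbeats 1600000 in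
/-- **(D₁), `hθ₁`**: `θ_K - c₀` is integral on the vertical component and its residue
`T Ũ ^ d - c / β` vanishes at the Kummer point `b̃ Ũ ^ d ≡ c`, for every lift `c₀` of `c / β`. -/
theorem hθ_ptK (hq2 : q ≠ 2) (hβ : β ≠ 0) (hρ : ρ ≠ 0) {c : ResidueField A} (hc : c ^ 2 = ρ)
    {U : F''} (hU : yOf a₀ U = θ) (hU0 : U ≠ 0) {ϖ₂ : K} {d : ℕ} (hqd : q = 2 * d + 1)
    (hϖ : ϖ₂ ^ d = a₀ ^ (d + 1)) {c₀ : A} (hc₀ : residue A c₀ = c / β) :
    ∃ h : thetaOf C.u ϖ₂ U d - algebraMap K F'' (c₀ : K) ∈ Z,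
      (ptKBar q hq2 hβ hρ c hc).adicValuation (resZ ⟨_, h⟩) < 1 := by
  have ha₀ : a₀ ≠ 0 := gauge_ne_zero ha1
  have hm1 : algebraMap F' F'' (a₀⁻¹ • C.u) ∈ Z := H.map_mem (coord_mem_circleRing C a₀ ha1 ha2)
  have hm2 : θ ^ d ∈ Z := pow_mem H.θ_mem d
  have hc₀R : algebraMap K F' (c₀ : K) ∈ circleRing C a₀ ha1 ha2 :=
    (algebraMap_mem_circleRing_iff C a₀ ha1 ha2 _).mpr c₀.2
  have hm3 : algebraMap K F'' (c₀ : K) ∈ Z := by
    rw [IsScalarTower.algebraMap_apply K F' F'']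
    exact H.map_mem hc₀R
  have hθK : thetaOf C.u ϖ₂ U d = algebraMap F' F'' (a₀⁻¹ • C.u) * θ ^ d := by
    rw [thetaOf_eq ha₀ hU0 hϖ, hU]
  have hmem : thetaOf C.u ϖ₂ U d - algebraMap K F'' (c₀ : K) ∈ Z := by
    rw [hθK]
    exact sub_mem (mul_mem hm1 hm2) hm3
  refine ⟨hmem, ?_⟩
  have e : (⟨thetaOf C.u ϖ₂ U d - algebraMap K F'' (c₀ : K), hmem⟩ : Z) =
      ⟨algebraMap F' F'' (a₀⁻¹ • C.u), hm1⟩ * ⟨θ, H.θ_mem⟩ ^ d -
        ⟨algebraMap F' F'' (algebraMap K F' (c₀ : K)), H.map_mem hc₀R⟩ := by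
    apply Subtype.ext
    show thetaOf C.u ϖ₂ U d - algebraMap K F'' (c₀ : K) =
      algebraMap F' F'' (a₀⁻¹ • C.u) * θ ^ d - algebraMap F' F'' (algebraMap K F' (c₀ : K))
    rw [hθK, ← IsScalarTower.algebraMap_apply]
  have hres : resZ ⟨thetaOf C.u ϖ₂ U d - algebraMap K F'' (c₀ : K), hmem⟩ =
      AdjoinRoot.of (vertBar q β ρ) RatFunc.X * AdjoinRoot.root (vertBar q β ρ) ^ d -
        algebraMap (ResidueField A) (AdjoinRoot (vertBar q β ρ)) (c / β) := by
    rw [e, map_sub, map_mul, map_pow, H.res_θ,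
      H.compat ⟨a₀⁻¹ • C.u, coord_mem_circleRing C a₀ ha1 ha2⟩ hm1, circleRes_coord,
      H.compat ⟨algebraMap K F' (c₀ : K), hc₀R⟩ (H.map_mem hc₀R),
      (constHyp_circle C a₀ ha1 ha2).res_const (c₀ : K) c₀.2 hc₀R]
    have e2 : (⟨(c₀ : K), c₀.2⟩ : A) = c₀ := rfl
    rw [e2, hc₀, ← AdjoinRoot.algebraMap_eq, ← IsScalarTower.algebraMap_apply]
  rw [hres]
  have hval := isValueAt_theta_ptK q hq2 hρ (vertBar_hb (q := q) (ρ := ρ) hβ) (vertBar_heq hβ)
    (vertBar_hgen hβ) hc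
  have hd : (q - 1) / 2 = d := by omega
  rw [hd] at hval
  have hβinv : IsValueAt (ptKBar q hq2 hβ hρ c hc)
      (algebraMap (ResidueField A) (AdjoinRoot (vertBar q β ρ)) β⁻¹) β⁻¹ :=
    isValueAt_algebraMap _ _
  have h3 := hβinv.mul hval
  have e3 : algebraMap (ResidueField A) (AdjoinRoot (vertBar q β ρ)) β⁻¹ *
      (AdjoinRoot.of (vertBar q β ρ) (RatFunc.C β * RatFunc.X) *
        AdjoinRoot.root (vertBar q β ρ) ^ d) =
      AdjoinRoot.of (vertBar q β ρ) RatFunc.X * AdjoinRoot.root (vertBar q β ρ) ^ d := by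
    have e4 : AdjoinRoot.of (vertBar q β ρ) (RatFunc.C β) =
        algebraMap (ResidueField A) (AdjoinRoot (vertBar q β ρ)) β := by
      rw [← RatFunc.algebraMap_eq_C, ← AdjoinRoot.algebraMap_eq,
        ← IsScalarTower.algebraMap_apply]
    rw [map_mul, e4, ← mul_assoc, ← mul_assoc, ← map_mul, inv_mul_cancel₀ hβ, map_one, one_mul]
  rw [e3, inv_mul_eq_div] at h3
  exact h3

end Sheet

end Fermat.Agent.BR3.KummerVertSide
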