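import Mathlib
import Fermat.Agent.BR3.KummerModAbs
import Fermat.Agent.BR3.KummerVertSide
import Fermat.Agent.BR3.KummerMidSide
import Fermat.Agent.BR3.SplitNode.ModFinal

/-!
# Program C (S36), node (N2-INST) (helper7, second seat of helper8): the hypotheses `KummerHyp` of
the Kummer node `nk e s` of `S''` at `q` odd, in the modular frame

The inputs of helper8's `KummerComps.VertAlg.kummerHyp_frame` discharged at the frame of the
integrator (`DtM`, `gaugeA`, `admA`, levels `SplitNode.levelsOutA` of the outer node of `S'ref_a`):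

* `vg_mul_u_inv_mem` : `v_g · u⁻¹` lies in every level of the tube of `e` (the twin of helper19's
  `SplitModularTw.u_mul_vg_inv_mem`; `η₁ = v_g / u` is a unit of every level);
* `Ug_mem_FKs`, `valuation_two_eq_one`;
* `exists_vertAlg_outer` : **(A)** `∃ Bc A₀ Rr η₁ Hp, VertAlg L' (Ug M q g) c₀ 1 ϖ₂ 1 q d Bc A₀ Rr η₁ Hp`
  for ANY levels `L'` with `H : SplitModular.OuterHyp … L' idx ρ`, `L'.thick = ρ`,
  `ϖ₂ ^ (q - 1) = q`, `ϖ₂ ^ d = ρ ^ (d + 1)` (so `κ₀ = γ₂ = 1`);
* `kummerHyp_outer` : `KummerHyp L' X Y θ U c₀ 1 (ϖ₂ / L'.thick) d …` from the two components of the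
  cover (`BranchComp`, `OverComp`) and the four residue facts;
* `pi2 q := unifSDD q ^ (q + 1)` (`ϖ₂`), `pi2_pow`, `pi2_pow_d`; `outerHyp_levelsConst`;
* **`kummerHyp_modular`** : the instance at `L' := levelsConst (levelsOutA …) {ϖ₂, c₀}`,
  `(O₁, res₁, Q₁) := (Z, resZ, ptKBar c)` (the vertical component `z e`: `VertComp`),
  `(O₂, res₂, Q₂) := (w₂ b, resMid b, pMidOver (z₁ e) hv)`; the only remaining named hypothesis is
  `hθ₂` (the value of `θ` at the Kummer place of the middle component `b = comp e s`).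
-/

set_option autoImplicit false
set_option linter.unusedSectionVars false
set_option linter.style.haveILetI false
set_option synthInstance.maxHeartbeats 400000
set_option maxHeartbeats 1600000

noncomputable section

/- S36 build-time patch: file-local shortcut instances. They only shorten instance search;
each is the instance that the search finds anyway (reducible, same terms after unfolding). -/
local instance (priority := 100000) Fermat.Agent.BR3.FastInst.instAlgFullC_KummerNodeInputs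
    {k : Type*} [Field k] (N : ℕ) :
    Algebra k ↥(ModularCurve.modularFunctionFieldFullC k N) := inferInstance
local instance (priority := 100000) Fermat.Agent.BR3.FastInst.instFieldFullC_KummerNodeInputs
    {k : Type*} [Field k] (N : ℕ) :
    Field ↥(ModularCurve.modularFunctionFieldFullC k N) := inferInstance
local instance (priority := 100000) Fermat.Agent.BR3.FastInst.instAlgLaurent_KummerNodeInputs
    {k : Type*} [Field k] : Algebra k (LaurentSeries k) := inferInstance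


namespace Fermat.Agent.BR3.KummerNodeInputs

open Polynomial ModularCurve AlgebraicCurve IsLocalRing
open Fermat.Agent.X0 Fermat.Agent.Val Fermat.Agent.Red Fermat.Agent.BR.Kron
open Fermat.Agent.BR.Centre Fermat.Agent.BR.SS Fermat.Agent.BR.Refine
open Fermat.Agent.BR.S0 Fermat.Agent.BR.S0.RedModular Fermat.Agent.BR.S0.PointDict
open Fermat.Agent.BR.Inst.AnnulusInstFinal Fermat.Agent.BR.Inst.NodeInstFinal
open Fermat.Agent.BR.Inst.Levels
open Fermat.Agent.BR.Inst.FKCover Fermat.Agent.BR.Final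
open Fermat.Agent.BR3.FibreProd Fermat.Agent.BR3.VertTaylor Fermat.Agent.BR3.VertTaylorAt
open Fermat.Agent.BR3.CircleN
open Fermat.Agent.BR3.SplitBranch Fermat.Agent.BR3.SplitNodeChart Fermat.Agent.BR3.SplitCoord
open Fermat.Agent.BR3.CoverSmooth Fermat.Agent.Good.Bridge
open Fermat.Agent.BR3.SplitModular Fermat.Agent.BR3.SplitModularTw Fermat.Agent.BR3.HeckePoly
open Fermat.Agent.BR3.SSParam
open Fermat.Agent.BR3.KummerComps Fermat.Agent.BR3.KummerOfVert Fermat.Agent.BR3.KummerLevels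
open Fermat.Agent.BR3.KummerModAbs

section Final

open Fermat.Agent.BR3.VertAll Fermat.Agent.BR3.VertAllParam Fermat.Agent.BR3.VertAllLevels
open Fermat.Agent.BR3.HeckePolyDescent Fermat.Agent.BR3.HeckePolyModel
open Fermat.Agent.BR3.ThickOneFinal Fermat.Agent.BR3.ThickOneUnit Fermat.Agent.BR3.VertTube
open Fermat.Agent.BR3.VertSheet Fermat.Agent.BR3.VertFinal Fermat.Agent.BR.S0.ThickFinal
open Fermat.Agent.BR.Circle Fermat.Agent.BR.ResGen

variable {M q : ℕ} [NeZero M] [hq : Fact q.Prime]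

/-- the cover along `α₂` -/
local instance instAlgAlpha2KNI : Algebra (Fb (M * q)) (Fb (M * q * q)) :=
  algebraAlong (alpha2 M q)

local instance instTowerAlpha2KNI : IsScalarTower Kb (Fb (M * q)) (Fb (M * q * q)) :=
  isScalarTower_along (alpha2 M q)

local instance instFiniteAlpha2KNI : Module.Finite (Fb (M * q)) (Fb (M * q * q)) :=
  Fermat.Agent.Hecke.finiteAlong_heckeAlphaBar (M * q) q

variable (B : ValuationSubring Kb) (hB : B.LiesOverPrime q) (hqM : ¬ q ∣ M)
  [IsAlgClosed (ResidueField B)] [CharP (ResidueField B) q]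
  (hne : Nonempty (Crossing (chartDataModular B hB hqM)))
  (e : Crossing (chartDataModular B hB hqM))

local notation "kB" => ResidueField B

/-- (shortcut instance) -/
local instance (priority := 100000) instAlgebraFtMShortcutKNI :
    Algebra kB (modularFunctionFieldFullC kB M) :=
  inferInstance

variable (h2 : nuTwo M = 0) (h3 : nuThree M = 0) {g g' g'' : Fb M}
  (Hp : IsSSParam B hB hqM e g g' g'')

include Hp h2 h3 in
set_option maxHeartbeats 4000000 in
/-- **the coordinate `u` of the tube of `e` divides `v_g` in every level** (thickness one; the twin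
of `SplitModularTw.u_mul_vg_inv_mem`). -/
theorem vg_mul_u_inv_mem (S : Finset Kb) :
    (heckeAlphaBar Kb M q g - heckeBetaBar Kb M q g' ^ q) *
        (annulusLevels_modular_final B hB hqM hne e).u⁻¹ ∈
      ((annulusLevels_modular_final B hB hqM hne e).level S).R := by
  obtain ⟨Ψ₁, hΨR, hP, hz, hR⟩ := exists_frameData B hB hqM hne e h2 h3 Hp
  have hαR := alpha_mem_level B hB hqM hne e Hp.hg
  have hβ'R := beta_mem_level B hB hqM hne e Hp.hg'
  have hβ''R := beta_mem_level B hB hqM hne e Hp.hg''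
  have hx : heckeAlphaBar Kb M q g - (heckeBetaBar Kb M q g') ^ q ∈
      ((annulusLevels_modular_final B hB hqM hne e).level (∅ : Finset Kb)).R :=
    sub_mem hαR (pow_mem hβ'R q)
  have hy : heckeBetaBar Kb M q g'' - (heckeAlphaBar Kb M q g) ^ q ∈
      ((annulusLevels_modular_final B hB hqM hne e).level (∅ : Finset Kb)).R :=
    sub_mem hβ''R (pow_mem hαR q)
  have hxyz := vg_mul_ug (M := M) (q := q) hqM hP
  have X := branchDataN_final B hB hqM hne e
  refine level_mono B hB hqM hne e (Finset.empty_subset S) ?_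
  exact coord_inv_mul_mem (branchComp_src X) (branchComp_tgt X) residue_eq_zero_of_lt
    (u_notMem_nonunits_of_unif (branchComp_src X) (res_eq_zero_of_nonunits _)
      residue_eq_zero_of_lt X.v_src X.unif₁)
    (v_notMem_nonunits_of_unif (branchComp_tgt X) (res_eq_zero_of_nonunits _)
      residue_eq_zero_of_lt X.u_tgt X.unif₂) ∅ hx hy hz hR hxyz
    (valuation_thick_levels_final B hB hqM h2 h3 hne e).symm
    (ug_notMem_nonunits B hB hqM e Hp)


/-! ### The fields of definition -/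

include Hp in
/-- `U_g` lies in the function field of every field of constants containing `K₀` -/
theorem Ug_mem_FKs {E : Subfield Kb} (hE : K0 q ≤ E) : Ug M q g ∈ FKs (M * q * q) E := by
  have hg := mem_FKs_of_mem_CMod B Hp.hg hE
  have hα : heckeAlphaBar Kb M q g ∈ FKs (M * q) E := heckeAlpha_mem_FKs M q E hg
  have hβ : heckeBetaBar Kb M q g ∈ FKs (M * q) E := heckeBeta_mem_FKs M q E hg
  exact sub_mem (heckeBeta_mem_FKs (M * q) q E hβ) (heckeAlpha_mem_FKs (M * q) q E hα)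

/-! ### Small lemmas on the constants -/

include hB in
omit [IsAlgClosed (ResidueField B)] [CharP (ResidueField B) q] [NeZero M] in
/-- `2` is a unit of `B` for `q` odd -/
theorem valuation_two_eq_one {d : ℕ} (hqd : q = 2 * d + 1) : B.valuation (2 : Kb) = 1 := by
  have h2le : B.valuation (2 : Kb) ≤ 1 := by
    have e : (2 : Kb) = ((2 : ℕ) : Kb) := by norm_num
    rw [e, ValuationSubring.valuation_le_one_iff]
    exact natCast_mem _ 2
  refine le_antisymm h2le (not_lt.mp ?_)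
  intro h2lt
  have hqlt : B.valuation ((q : ℕ) : Kb) < 1 := (B.mem_nonunits_iff).mp hB
  have hdle : B.valuation ((d : ℕ) : Kb) ≤ 1 := by
    rw [ValuationSubring.valuation_le_one_iff]
    exact natCast_mem _ d
  have h1 : (1 : Kb) = ((q : ℕ) : Kb) - 2 * ((d : ℕ) : Kb) := by
    rw [hqd]; push_cast; ring
  have h3 : B.valuation (2 * ((d : ℕ) : Kb)) < 1 := by
    rw [map_mul]
    calc B.valuation (2 : Kb) * B.valuation ((d : ℕ) : Kb)
        ≤ B.valuation (2 : Kb) * 1 := mul_le_mul_right hdle _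
      _ = B.valuation (2 : Kb) := mul_one _
      _ < 1 := h2lt
  have h4 : B.valuation (1 : Kb) < 1 := by
    rw [h1]
    exact lt_of_le_of_lt (Valuation.map_sub _ _ _) (max_lt hqlt h3)
  rw [map_one] at h4
  exact lt_irrefl _ h4

/-! ### The Kummer sheet over the outer sub-annulus -/

section Outer

variable {T' : Set (Place Kb (Fb (M * q)))} {ι' : Type*}
variable {B hB hqM hne e}
variable {L' : AnnulusLevels B T' ι'} {idx : ι' → Finset Kb} {ρ : Kb}
  (H : OuterHyp B hB hqM hne e L' idx ρ) (hK0 : ∀ i', K0 q ≤ (L'.level i').K')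
  {Ft₁b Ft₂b Ft₁ Ft₂ : Type*} [Field Ft₁b] [Field Ft₂b] [Field Ft₁] [Field Ft₂]
  [Algebra (ResidueField B) Ft₁b] [Algebra (ResidueField B) Ft₂b]
  [Algebra (ResidueField B) Ft₁] [Algebra (ResidueField B) Ft₂]
  [Algebra Ft₁b Ft₁] [Algebra Ft₂b Ft₂] [IsScalarTower (ResidueField B) Ft₁b Ft₁]
  [IsScalarTower (ResidueField B) Ft₂b Ft₂]
  {O₁b O₂b : ValuationSubring (Fb (M * q))} {res₁b : O₁b →+* Ft₁b} {res₂b : O₂b →+* Ft₂b}
  {Q₁b : Place (ResidueField B) Ft₁b} {Q₂b : Place (ResidueField B) Ft₂b}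
  {O₁ O₂ : ValuationSubring (Fb (M * q * q))} {res₁ : O₁ →+* Ft₁} {res₂ : O₂ →+* Ft₂}
  {Q₁ : Place (ResidueField B) Ft₁} {Q₂ : Place (ResidueField B) Ft₂}

include H Hp h2 h3 in
set_option maxHeartbeats 4000000 in
/-- **(A) The algebraic half of the data of the Kummer sheet over the outer sub-annulus of the
crossing `e`** (`κ₀ = γ₂ = 1`), the constant `c₀` being given by the value of `θ` on the component
`O₁` of the cover where `X` vanishes. -/
theorem exists_vertAlg_outer (hthick : L'.thick = ρ) {ϖ₂ : Kb} {d : ℕ} (hqd : q = 2 * d + 1)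
    (hd : 1 ≤ d) (hϖq : ((q : ℕ) : Kb) = ϖ₂ ^ (q - 1)) (hϖρ : ϖ₂ ^ d = ρ ^ (d + 1))
    (hϖK : ∀ i', ϖ₂ ∈ (L'.level i').K') {c₀ : B} (hc₀u : B.valuation (c₀ : Kb) = 1)
    (hc₀K : ∀ i', (c₀ : Kb) ∈ (L'.level i').K')
    (X₁ : BranchComp (IsLocalRing.residue B) O₁b res₁b Q₁b L')
    (C₁ : OverComp O₁b res₁b Q₁b O₁ res₁ Q₁)
    (hY₁ : ∃ h : yOf L'.thick (Ug M q g) ∈ O₁,
      Q₁.adicValuation (res₁ ⟨_, h⟩) < 1 ∧ res₁ ⟨_, h⟩ ≠ 0)
    (hθ₁ : ∃ h : thetaOf L'.u ϖ₂ (Ug M q g) d - algebraMap Kb (Fb (M * q * q)) (c₀ : Kb) ∈ O₁,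
      Q₁.adicValuation (res₁ ⟨_, h⟩) < 1) :
    ∃ (Bc A₀ Rr η₁ : Fb (M * q)) (Hpol : (Fb (M * q))[X]),
      VertAlg L' (Ug M q g) c₀ 1 ϖ₂ 1 q d Bc A₀ Rr η₁ Hpol := by
  obtain ⟨Ψ₁, hΨR, hP, hz, hR⟩ := exists_frameData B hB hqM hne e h2 h3 Hp
  have hmono : ∀ i', ((annulusLevels_modular_final B hB hqM hne e).level (∅ : Finset Kb)).R ≤
      (L'.level i').R := fun i' =>
    le_trans (level_mono B hB hqM hne e (Finset.empty_subset (idx i'))) (H.le i')
  have hu0 : (annulusLevels_modular_final B hB hqM hne e).u ≠ 0 :=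
    (annulusLevels_modular_final B hB hqM hne e).u_ne_zero
  have hv0 := vg_ne_zero B hB hqM e Hp
  have hq0 : ((q : ℕ) : Kb) ≠ 0 := Nat.cast_ne_zero.mpr hq.out.ne_zero
  have hqlt : B.valuation ((q : ℕ) : Kb) < 1 := (B.mem_nonunits_iff).mp hB
  have hq1 : q - 1 ≠ 0 := by have := hq.out.two_le; omega
  have hϖ0 : ϖ₂ ≠ 0 := by
    rintro rfl
    rw [zero_pow hq1] at hϖq
    exact hq0 hϖq
  have hϖlt : B.valuation ϖ₂ < 1 := by
    by_contra hcon
    push Not at hcon
    have h1 : 1 ≤ B.valuation ϖ₂ ^ (q - 1) := one_le_pow₀ hcon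
    rw [← map_pow, ← hϖq] at h1
    exact absurd hqlt (not_lt.mpr h1)
  have hρ0 : ρ ≠ 0 := H.rho_ne_zero
  have hρlt : B.valuation ρ < 1 := by rw [← hthick]; exact L'.thick_lt
  have hth_eq : ρ = 1 * (ϖ₂ / ρ) ^ d := by
    rw [one_mul, div_pow, hϖρ, pow_succ]
    field_simp
  have hth_lt : B.valuation (ϖ₂ / ρ) < 1 := by
    by_contra hcon
    push Not at hcon
    have h1 : 1 ≤ B.valuation (ϖ₂ / ρ) ^ d := one_le_pow₀ hcon
    rw [← map_pow] at h1
    have h2' : (ϖ₂ / ρ) ^ d = ρ := by rw [one_mul] at hth_eq; exact hth_eq.symm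
    rw [h2'] at h1
    exact absurd hρlt (not_lt.mpr h1)
  have hone : ∀ i', (1 : Kb) ∈ (L'.level i').K' := fun i' => one_mem _
  refine ⟨_, _, _, (heckeAlphaBar Kb M q g - heckeBetaBar Kb M q g' ^ q) *
      (annulusLevels_modular_final B hB hqM hne e).u⁻¹, _,
    vertAlg_of_kronecker_value L' (c₀ := c₀) (κ₀ := 1) (ϖ₂ := ϖ₂) (γ₂ := 1) hq.out hqd hd
      (finrankAlong_alpha2 (M := M) (q := q)) hP (PAt_monic g) (PAt_natDegree hqM g)
      (PAt_eval_alpha hqM g) (KummerAlgMod.aeval_PAt_add_Ug (fun _ => rfl) g)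
      (Ug_notMem_range_alpha2' B hB hqM hne e h2 h3 Hp) hϖ0
      (by rw [hthick]; exact hth_lt) (by rw [hthick]; exact hth_eq) (one_mem _) hone
      ((B.valuation_le_one_iff _).mp hϖlt.le) hϖK (by rw [one_mul]; exact hϖq) (one_mem _) hone
      hqlt (valuation_two_eq_one B hB hqd) hc₀u hc₀K
      (fun i' => hmono i' (beta_mem_level B hB hqM hne e Hp.hg'))
      (fun i' => hmono i' (beta_mem_level B hB hqM hne e Hp.hg''))
      (fun i' => hmono i' (alpha_mem_level B hB hqM hne e Hp.hg))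
      (fun i' n => hmono i' (hΨR n))
      (by rw [H.u_eq, mul_comm (heckeAlphaBar Kb M q g - heckeBetaBar Kb M q g' ^ q) _,
        mul_inv_cancel_left₀ hu0])
      (mul_ne_zero hv0 (inv_ne_zero hu0))
      (fun i' => H.le i' (vg_mul_u_inv_mem B hB hqM hne e h2 h3 Hp (idx i')))
      (fun i' => by
        rw [mul_inv_rev, inv_inv]
        exact H.le i' (u_mul_vg_inv_mem B hB hqM hne e h2 h3 Hp (idx i')))
      residue_eq_zero_of_lt X₁ C₁ hY₁ hθ₁
      (Fermat.Agent.BR.Inst.AnnulusInstAux.finite_div_modular (M * q * q))⟩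

include H hK0 Hp h2 h3 in
set_option maxHeartbeats 4000000 in
/-- **The hypotheses of the Kummer sheet over the outer sub-annulus of the crossing `e`** from the
two components of the cover through the node and the four residue facts. -/
theorem kummerHyp_outer (hthick : L'.thick = ρ) {ϖ₂ : Kb} {d : ℕ} (hqd : q = 2 * d + 1)
    (hd : 1 ≤ d) (hϖq : ((q : ℕ) : Kb) = ϖ₂ ^ (q - 1)) (hϖρ : ϖ₂ ^ d = ρ ^ (d + 1))
    (hϖK : ∀ i', ϖ₂ ∈ (L'.level i').K') {c₀ : B} (hc₀u : B.valuation (c₀ : Kb) = 1)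
    (hc₀K : ∀ i', (c₀ : Kb) ∈ (L'.level i').K')
    (X₁ : BranchComp (IsLocalRing.residue B) O₁b res₁b Q₁b L')
    (X₂ : BranchComp (IsLocalRing.residue B) O₂b res₂b Q₂b L')
    (C₁ : OverComp O₁b res₁b Q₁b O₁ res₁ Q₁) (C₂ : OverComp O₂b res₂b Q₂b O₂ res₂ Q₂)
    (hY₁ : ∃ h : yOf L'.thick (Ug M q g) ∈ O₁,
      Q₁.adicValuation (res₁ ⟨_, h⟩) < 1 ∧ res₁ ⟨_, h⟩ ≠ 0)
    (hX₂ : ∃ h : xOf ϖ₂ (Ug M q g) ∈ O₂,
      Q₂.adicValuation (res₂ ⟨_, h⟩) < 1 ∧ res₂ ⟨_, h⟩ ≠ 0)
    (hθ₁ : ∃ h : thetaOf L'.u ϖ₂ (Ug M q g) d - algebraMap Kb (Fb (M * q * q)) (c₀ : Kb) ∈ O₁,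
      Q₁.adicValuation (res₁ ⟨_, h⟩) < 1)
    (hθ₂ : ∃ h : thetaOf L'.u ϖ₂ (Ug M q g) d - algebraMap Kb (Fb (M * q * q)) (c₀ : Kb) ∈ O₂,
      Q₂.adicValuation (res₂ ⟨_, h⟩) < 1) :
    KummerHyp L' (xOf ϖ₂ (Ug M q g)) (yOf L'.thick (Ug M q g))
      (thetaOf L'.u ϖ₂ (Ug M q g) d) (Ug M q g) c₀ 1 (ϖ₂ / L'.thick) d
      (CompVal.compVal O₁ res₁ C₁.res_eq_zero Q₁.adicValuation)
      (CompVal.compVal O₂ res₂ C₂.res_eq_zero Q₂.adicValuation) O₁ O₂ := by
  obtain ⟨Bc, A₀, Rr, η₁, Hpol, V⟩ := exists_vertAlg_outer h2 h3 Hp H hthick hqd hd hϖq hϖρ hϖK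
    hc₀u hc₀K X₁ C₁ hY₁ hθ₁
  exact V.kummerHyp_frame residue_eq_zero_of_lt X₁ X₂ C₁ C₂ hY₁ hX₂ hθ₁ hθ₂
    (fun i' y hy => alpha2_mem_FKs _ (H.hRK i' y hy))
    (fun i' => Ug_mem_FKs B hB hqM e Hp (hK0 i')) H.hT

end Outer


/-! ### The constants of the modular frame -/

section Consts

open Fermat.Agent.BR3.ThickSDDPlug

/-- **The constant `ϖ₂ = ϖ ^ (q + 1)` of the Kummer nodes** (`ϖ = unifSDD q`):
`ϖ₂ ^ (q - 1) = q`, so that `γ₂ = 1`. -/
def pi2 (q : ℕ) : Kb := unifSDD q ^ (q + 1)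

theorem pi2_pow {q : ℕ} (hq1 : 1 < q) : pi2 q ^ (q - 1) = ((q : ℕ) : Kb) := by
  unfold pi2
  rw [← pow_mul, mul_comm]
  exact unifSDD_pow hq1

/-- `ϖ₂ ^ d = a₀ ^ (d + 1)` for `q = 2 d + 1`, `a₀ = gaugeSDD q`: `κ₀ = 1`. -/
theorem pi2_pow_d {q d : ℕ} (hqd : q = 2 * d + 1) : pi2 q ^ d = gaugeSDD q ^ (d + 1) := by
  unfold pi2 gaugeSDD
  rw [← pow_mul, ← pow_mul]
  congr 1
  subst hqd
  have : 2 * d + 1 - 1 = 2 * d := by omega
  rw [this]
  ring

end Consts

/-! ### The restriction of the levels to a cofinal family keeps `OuterHyp` -/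

section Restrict

variable {T' : Set (Place Kb (Fb (M * q)))} {ι' : Type*}
variable {B hB hqM hne e}
variable {L' : AnnulusLevels B T' ι'} {idx : ι' → Finset Kb} {ρ : Kb}

omit [CharP (ResidueField B) q] in
theorem outerHyp_levelsConst (H : OuterHyp B hB hqM hne e L' idx ρ) (S : Finset Kb) :
    OuterHyp B hB hqM hne e (levelsConst L' S) (fun i => idx i.1) ρ where
  le i' := H.le i'.1
  u_eq := H.u_eq
  v_eq := H.v_eq
  rho_mem i' := H.rho_mem i'.1
  gauge := H.gauge
  hT i' := H.hT i'.1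
  hRK i' := H.hRK i'.1

end Restrict

end Final


/-! ### The modular instance: the Kummer node `nk e s` of `S''` -/

section Modular

open Fermat.Agent.BR3.SDD.Modular Fermat.Agent.BR3.SplitNode Fermat.Agent.BR3.SplitModularRef
open Fermat.Agent.BR3.SRef Fermat.Agent.BR3.SRef.Modular Fermat.Agent.BR2.SetupOfData
open Fermat.Agent.BR3.VertResidue Fermat.Agent.BR3.VertPtsDef Fermat.Agent.BR3.VertSheet
open Fermat.Agent.BR3.KummerVertSide Fermat.Agent.BR3.KummerMidSide
open Fermat.Agent.BR3.KummerGenus.MidInst Fermat.Agent.BR3.MidKummerNodeOrd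
open Fermat.Agent.BR.ConstRedTwo Fermat.Agent.BR.TwoValInst Fermat.Agent.BR.P1
open Fermat.Agent.BR.Circle Fermat.Agent.BR3.ThickSDDPlug Fermat.Agent.BR.S0.ThickFinal

variable {M q : ℕ} [NeZero M] [hq : Fact q.Prime]

/-- the cover along `α₂` -/
local instance instAlgAlpha2KNI' : Algebra (Fb (M * q)) (Fb (M * q * q)) :=
  algebraAlong (alpha2 M q)

local instance instTowerAlpha2KNI' : IsScalarTower Kb (Fb (M * q)) (Fb (M * q * q)) :=
  isScalarTower_along (alpha2 M q)

local instance instFiniteAlpha2KNI' : Module.Finite (Fb (M * q)) (Fb (M * q * q)) :=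
  Fermat.Agent.Hecke.finiteAlong_heckeAlphaBar (M * q) q

variable (B : ValuationSubring Kb) (hB : B.LiesOverPrime q) (hqM : ¬ q ∣ M)
  [IsAlgClosed (ResidueField B)] [CharP (ResidueField B) q]

local notation "kB" => ResidueField B
local notation "FtM" => modularFunctionFieldFullC (IsLocalRing.ResidueField B) M

/-- (shortcut instances) -/
local instance (priority := 100000) instAlgKFtKNI : Algebra kB FtM := inferInstance
local instance (priority := 100000) instAlgKFMidKNI : Algebra kB (FMid M B) := inferInstance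
local instance (priority := 100000) instAlgFtFMidKNI : Algebra FtM (FMid M B) := inferInstance
local instance (priority := 100000) instTowerMidKNI : IsScalarTower kB FtM (FMid M B) :=
  inferInstance

variable (h2 : nuTwo M = 0) (h3 : nuThree M = 0) (e : Crossing (chartDataModular B hB hqM))
  {g g' g'' : Fb M} (P : IsSSParam B hB hqM e g g' g'')
  {β ρ : ResidueField B} [Fact (Irreducible (vertBar q β ρ))]
  {Z : ValuationSubring (Fb (M * q * q))} {resZ : Z →+* AdjoinRoot (vertBar q β ρ)}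
  (Hv : VertComp (core (DtM B hB hqM) e) (gaugeA q B hB hqM e) (admA B hB hqM h2 h3 e).1
    (admA B hB hqM h2 h3 e).2 Z resZ
    (Ug M q g / alpha2 M q (algebraMap Kb (Fb (M * q)) (gaugeA q B hB hqM e))))
  (hq2 : q ≠ 2) (hβ : β ≠ 0) (hρ : ρ ≠ 0) {c : ResidueField B} (hc : c ^ 2 = ρ)
  {c₀ : B} (hc₀ : IsLocalRing.residue B c₀ = c / β)
  {ζ : Kbˣ} (hζ : IsPrimitiveRoot ζ q) {b : ℕ} (hb : b < q - 1)
  (hv : IsCoprime ((z₁ (chartDataModular B hB hqM) e).ord (deltaMid B hB hqM))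
    (fMid M B hB : ℤ))
  {d : ℕ} (hqd : q = 2 * d + 1)

include hc hρ hβ hc₀ in
omit [IsAlgClosed (ResidueField B)] [CharP (ResidueField B) q] [NeZero M] hq in
/-- a lift of `c / β` is a unit of `B` -/
theorem valuation_lift_eq_one : B.valuation (c₀ : Kb) = 1 := by
  have hc0 : c ≠ 0 := by
    rintro rfl
    rw [zero_pow two_ne_zero] at hc
    exact hρ hc.symm
  have hne : IsLocalRing.residue B c₀ ≠ 0 := by
    rw [hc₀]
    exact div_ne_zero hc0 hβ
  have hu : IsUnit c₀ := by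
    by_contra hnu
    exact hne ((IsLocalRing.residue_eq_zero_iff _).mpr ((IsLocalRing.mem_maximalIdeal _).mpr hnu))
  exact (B.valuation_eq_one_iff c₀).mp hu

include P Hv hc₀ hqd in
set_option maxHeartbeats 4000000 in
/-- **(N2-INST) The hypotheses of the Kummer sheet at the node `nk e s` of `S''`** (`q` odd): over
the levels of the outer node of `S'ref_a` at `e` (restricted to the constant fields containing
`ϖ₂` and `c₀`), `U = U_g`, `X = ϖ₂ / U`, `Y = U / a₀`, `θ = α₂ u_e / X ^ d`, the component `O₁` of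
the cover where `X` vanishes being the vertical component `z e` with its Kummer point `ptKBar c`
(`c ^ 2 = ρ`, `c₀` a lift of `c / β`), the component `O₂` where `Y` vanishes the middle component
`w₂ b` with the Kummer place over `z₁ e`.  The ONLY remaining named hypothesis is `hθ₂`: the value
of `θ` at the Kummer place of the middle component `b = comp e s` (helper12's
`KummerCompUnif.hasValue_compU`). -/
theorem kummerHyp_modular
    (hθ₂ : ∃ h : thetaOf (annulusCoord (DtM B hB hqM) e) (pi2 q) (Ug M q g) d -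
        algebraMap Kb (Fb (M * q * q)) (c₀ : Kb) ∈ w2 B hB hqM hζ hb,
      (pMidOver B hB hqM (z₁ (chartDataModular B hB hqM) e) hv).adicValuation
        (resMid B hB hqM hζ hb ⟨_, h⟩) < 1) :
    KummerHyp (levelsConst (levelsOutA B hB hqM h2 h3 e) {pi2 q, (c₀ : Kb)})
      (xOf (pi2 q) (Ug M q g)) (yOf (gaugeA q B hB hqM e) (Ug M q g))
      (thetaOf (annulusCoord (DtM B hB hqM) e) (pi2 q) (Ug M q g) d) (Ug M q g) c₀ 1
      (pi2 q / gaugeA q B hB hqM e) d
      (CompVal.compVal Z resZ (overComp_ptK Hv hq2 hβ hρ hc).res_eq_zero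
        (ptKBar q hq2 hβ hρ c hc).adicValuation)
      (CompVal.compVal (w2 B hB hqM hζ hb) (resMid B hB hqM hζ hb)
        (overComp_mid B hB hqM hζ hb (z₁ (chartDataModular B hB hqM) e) hv).res_eq_zero
        (pMidOver B hB hqM (z₁ (chartDataModular B hB hqM) e) hv).adicValuation)
      Z (w2 B hB hqM hζ hb) := by
  have hq1 := hq.out.one_lt
  have hd : 1 ≤ d := by omega
  have H0 := outerHyp_outerLevelsRef B hB hqM (gaugeA q B hB hqM) (admA B hB hqM h2 h3) e
    (hg_of_isGaugeA B hB hqM (gaugeA q B hB hqM) e (isGaugeA B hB hqM h2 h3))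
  have H := outerHyp_levelsConst H0 {pi2 q, (c₀ : Kb)}
  have hK0 : ∀ i', K0 q ≤
      ((levelsConst (levelsOutA B hB hqM h2 h3 e) {pi2 q, (c₀ : Kb)}).level i').K' :=
    fun i' => hK0_outerLevelsRef B hB hqM (gaugeA q B hB hqM) (admA B hB hqM h2 h3) e i'.1
  have OB := outerBranchA B hB hqM h2 h3 e
  have X₁ := branchComp_levelsConst OB.X₂ {pi2 q, (c₀ : Kb)}
  have X₂ := branchComp_levelsConst OB.X₁ {pi2 q, (c₀ : Kb)}
  have hUr := Ug_notMem_range_alpha2' B hB hqM (nonempty_crossing (DtM B hB hqM)) e h2 h3 P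
  have hU0 : Ug M q g ≠ 0 := fun h => hUr ⟨0, by rw [map_zero, h]⟩
  have hY₁ := hY_ptK Hv hq2 hβ hρ hc (yOf_eq_div (gaugeA q B hB hqM e) (Ug M q g))
  have hθ₁ := hθ_ptK Hv hq2 hβ hρ hc (yOf_eq_div (gaugeA q B hB hqM e) (Ug M q g)) hU0 hqd
    (pi2_pow_d hqd) hc₀
  have hX₂ := hX₂_mid B hB hqM e hζ hb h2 h3 P hv (ϖ₂ := pi2 q)
    (by rw [← map_pow, pi2_pow hq1])
  exact kummerHyp_outer h2 h3 P H hK0 rfl hqd hd (pi2_pow hq1).symm (pi2_pow_d hqd)
    (fun i' => mem_K'_levelsConst _ (by simp) i')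
    (valuation_lift_eq_one B hβ hρ hc hc₀)
    (fun i' => mem_K'_levelsConst _ (by simp) i') X₁ X₂
    (overComp_ptK Hv hq2 hβ hρ hc)
    (overComp_mid B hB hqM hζ hb (z₁ (chartDataModular B hB hqM) e) hv) hY₁ hX₂ hθ₁ hθ₂

end Modular

end Fermat.Agent.BR3.KummerNodeInputs
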