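import Mathlib
import Fermat.Agent.BR3.KummerNodeInputs
import Fermat.Agent.BR3.SDD.ModularZePts

/-!
# Program C (S36), node (N2-INST) (helper7): THE NAMES of the Kummer node `nk e s` of `S''` at the
frame of the integrator (board ruling 23:25Z: one `θ` and one `c` for everybody)

Per-`e` data: helper5's `zePackM B hB hqM h2 h3 e` (`g_e`, `β_e`, `ρ_e`, `Z_e`, `resZ_e`);
`KP := VertPtsU.KPq q`; `ϖ₂ := pi2 q = unifSDD q ^ (q + 1)` (`BR3/KummerNodeInputs.lean`);
`d := IgSq.midDeg q`.

* `kumU e := Ug M q g_e`, `kumX e := ϖ₂ · (kumU e)⁻¹` (`= xOf`), `kumY e := kumU e · a₀⁻¹` (`= yOf`,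
  `a₀ = gaugeA e = gaugeSDD q`), `kumTheta e := α₂ u_e · (kumX e ^ d)⁻¹` (`= thetaOf`, `rfl` along
  `α₂`: `kumTheta_eq`);
* `kumC0 e s : B` : a lift of `rootsK q ρ_e s / β_e` (`residue_kumC0`, `valuation_kumC0`,
  `residue_kumC0_injective`, `residue_kumC0_rev`);
* `kumTube e s := kummerTube B (tube S'ref_a (outer e)) (kumX e) (kumY e) (kumTheta e) (kumC0 e s)`
  (along `α₂`), `mem_kumTube_iff`;
* `two_mul_midDeg` : `q = 2 * midDeg q + 1` for `q` odd;
* **`kummerHyp_kum`** : `KummerNodeInputs.kummerHyp_modular` at these names, first component of the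
  cover `(Z_e, resZ_e)` at `zKM e s` (`= ptKFam s`), second `(w₂ b, resMid b)` at
  `pMidOver (z₁ e) hv`; the only named hypothesis is `hθ₂`.
-/

set_option autoImplicit false
set_option linter.unusedSectionVars false
set_option linter.style.haveILetI false
set_option synthInstance.maxHeartbeats 400000
set_option maxHeartbeats 1600000

noncomputable section

/- S36 build-time patch: file-local shortcut instances. They only shorten instance search;
each is the instance that the search finds anyway (reducible, same terms after unfolding). -/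
local instance (priority := 100000) Fermat.Agent.BR3.FastInst.instAlgFullC_KummerNodeNames
    {k : Type*} [Field k] (N : ℕ) :
    Algebra k ↥(ModularCurve.modularFunctionFieldFullC k N) := inferInstance
local instance (priority := 100000) Fermat.Agent.BR3.FastInst.instFieldFullC_KummerNodeNames
    {k : Type*} [Field k] (N : ℕ) :
    Field ↥(ModularCurve.modularFunctionFieldFullC k N) := inferInstance
local instance (priority := 100000) Fermat.Agent.BR3.FastInst.instAlgLaurent_KummerNodeNames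
    {k : Type*} [Field k] : Algebra k (LaurentSeries k) := inferInstance


namespace Fermat.Agent.BR3.KummerNodeInputs

open Polynomial ModularCurve AlgebraicCurve IsLocalRing
open Fermat.Agent.X0 Fermat.Agent.Val Fermat.Agent.Red Fermat.Agent.Hecke
open Fermat.Agent.BR.SS Fermat.Agent.BR.Refine Fermat.Agent.BR.Circle Fermat.Agent.BR.S0
open Fermat.Agent.BR.S0.RedModular Fermat.Agent.BR.S0.PointDict Fermat.Agent.BR.P1
open Fermat.Agent.BR.Final
open Fermat.Agent.BR2.SetupOfData Fermat.Agent.BR3.CircleN Fermat.Agent.BR3.SRef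
open Fermat.Agent.BR3.SRef.Modular Fermat.Agent.BR3.SDD.Modular Fermat.Agent.BR3.SplitNode
open Fermat.Agent.BR3.FibreProd Fermat.Agent.BR3.HeckePoly Fermat.Agent.BR3.SSParam
open Fermat.Agent.BR3.VertResidue Fermat.Agent.BR3.VertPtsDef Fermat.Agent.BR3.VertPtsU
open Fermat.Agent.BR3.VertSheet Fermat.Agent.BR3.IgSq Fermat.Agent.BR3.ThickSDDPlug
open Fermat.Agent.BR3.KummerComps Fermat.Agent.BR3.KummerOfVert Fermat.Agent.BR3.KummerLevels
open Fermat.Agent.BR3.KummerModAbs Fermat.Agent.BR3.KummerVertSide Fermat.Agent.BR3.KummerMidSide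
open Fermat.Agent.BR3.KummerGenus.MidInst

variable {M q : ℕ} [NeZero M] [hq : Fact q.Prime]
variable (B : ValuationSubring Kb) (hB : B.LiesOverPrime q) (hqM : ¬ q ∣ M)
  [IsAlgClosed (ResidueField B)] [CharP (ResidueField B) q]
  (h2 : nuTwo M = 0) (h3 : nuThree M = 0) (e : Crossing (chartDataModular B hB hqM))

local notation "kB" => ResidueField B
local notation "FtM" => modularFunctionFieldFullC (IsLocalRing.ResidueField B) M

/-- (shortcut instances) -/
local instance (priority := 100000) instAlgKFtKNN : Algebra kB FtM := inferInstance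
local instance (priority := 100000) instAlgKFMidKNN : Algebra kB (FMid M B) := inferInstance
local instance (priority := 100000) instAlgFtFMidKNN : Algebra FtM (FMid M B) := inferInstance
local instance (priority := 100000) instTowerMidKNN : IsScalarTower kB FtM (FMid M B) :=
  inferInstance

/-! ### The functions -/

/-- **`U_e = U_{g_e}`** : the generator of `F̄_{Mq²}` over `α₂ F̄_{Mq}` at the crossing `e`. -/
def kumU : Fb (M * q * q) := Ug M q (zePackM B hB hqM h2 h3 e).g

/-- **`X_e = ϖ₂ / U_e`** -/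
def kumX : Fb (M * q * q) :=
  algebraMap Kb (Fb (M * q * q)) (pi2 q) * (kumU B hB hqM h2 h3 e)⁻¹

/-- **`Y_e = U_e / a₀`**, `a₀ = gaugeA e = gaugeSDD q` -/
def kumY : Fb (M * q * q) :=
  kumU B hB hqM h2 h3 e * (algebraMap Kb (Fb (M * q * q)) (gaugeA q B hB hqM e))⁻¹

/-- **`θ_e = α₂ u_e / X_e ^ d`**, `d = midDeg q` -/
def kumTheta : Fb (M * q * q) :=
  alpha2 M q (annulusCoord (DtM B hB hqM) e) * (kumX B hB hqM h2 h3 e ^ midDeg q)⁻¹

theorem kumX_eq : kumX B hB hqM h2 h3 e = xOf (pi2 q) (kumU B hB hqM h2 h3 e) := rfl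

theorem kumY_eq :
    kumY B hB hqM h2 h3 e = yOf (gaugeA q B hB hqM e) (kumU B hB hqM h2 h3 e) := rfl

theorem kumTheta_eq :
    letI := algebraAlong (alpha2 M q)
    kumTheta B hB hqM h2 h3 e =
      thetaOf (annulusCoord (DtM B hB hqM) e) (pi2 q) (kumU B hB hqM h2 h3 e) (midDeg q) := rfl

/-! ### The constants -/

/-- **`c₀ e s`** : a lift to `B` of `rootsK q ρ_e s / β_e`, the value of the residue of `θ_e` at
the Kummer point `zKM e s` of `z e`. -/
def kumC0 (s : KPq q) : B :=
  Classical.choose (IsLocalRing.residue_surjective (R := B)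
    (rootsK q (zePackM B hB hqM h2 h3 e).ρ s / (zePackM B hB hqM h2 h3 e).β))

theorem residue_kumC0 (s : KPq q) :
    IsLocalRing.residue B (kumC0 B hB hqM h2 h3 e s) =
      rootsK q (zePackM B hB hqM h2 h3 e).ρ s / (zePackM B hB hqM h2 h3 e).β :=
  Classical.choose_spec (IsLocalRing.residue_surjective (R := B)
    (rootsK q (zePackM B hB hqM h2 h3 e).ρ s / (zePackM B hB hqM h2 h3 e).β))

theorem valuation_kumC0 (s : KPq q) :
    B.valuation ((kumC0 B hB hqM h2 h3 e s : B) : Kb) = 1 :=
  valuation_lift_eq_one B (zePackM B hB hqM h2 h3 e).hβ (zePackM B hB hqM h2 h3 e).hρ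
    (rootsK_sq q (zePackM B hB hqM h2 h3 e).ρ s) (residue_kumC0 B hB hqM h2 h3 e s)

/-- the residues of the constants `c₀ e s` are pairwise distinct -/
theorem residue_kumC0_injective :
    Function.Injective fun s : KPq q => IsLocalRing.residue B (kumC0 B hB hqM h2 h3 e s) := by
  intro s s' h
  simp only [residue_kumC0] at h
  have hβ := (zePackM B hB hqM h2 h3 e).hβ
  exact rootsK_injective q (zePackM B hB hqM h2 h3 e).hρ
    (by rwa [div_left_inj' hβ] at h)

/-- `c₀ e (rev s) ≡ - c₀ e s` -/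
theorem residue_kumC0_rev (s : KPq q) :
    IsLocalRing.residue B (kumC0 B hB hqM h2 h3 e (rev q s)) =
      -IsLocalRing.residue B (kumC0 B hB hqM h2 h3 e s) := by
  rw [residue_kumC0, residue_kumC0, rootsK_rev, neg_div]

/-! ### The tube -/

/-- **The raw tube of the Kummer node `nk e s`** (`q` odd): the places over the tube of the outer
node of `S'ref_a` at `e` (along `α₂`) at which `X_e`, `Y_e` and `θ_e - c₀ e s` are small. -/
def kumTube (s : KPq q) : Set (Place Kb (Fb (M * q * q))) :=
  letI := algebraAlong (alpha2 M q)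
  haveI := isScalarTower_along (alpha2 M q)
  haveI : Module.Finite (Fb (M * q)) (Fb (M * q * q)) :=
    Fermat.Agent.Hecke.finiteAlong_heckeAlphaBar (M * q) q
  kummerTube B
    (tube (srefM (DtM B hB hqM) (gaugeA q B hB hqM) (admA B hB hqM h2 h3))
      (outer (inputs (DtM B hB hqM)) (gaugeA q B hB hqM) (admA B hB hqM h2 h3) e))
    (kumX B hB hqM h2 h3 e) (kumY B hB hqM h2 h3 e) (kumTheta B hB hqM h2 h3 e)
    (kumC0 B hB hqM h2 h3 e s)

theorem mem_kumTube_iff (s : KPq q) (P : Place Kb (Fb (M * q * q))) :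
    letI := algebraAlong (alpha2 M q)
    haveI := isScalarTower_along (alpha2 M q)
    haveI : Module.Finite (Fb (M * q)) (Fb (M * q * q)) :=
      Fermat.Agent.Hecke.finiteAlong_heckeAlphaBar (M * q) q
    P ∈ kumTube B hB hqM h2 h3 e s ↔
      P.restrict (Fb (M * q)) ∈
          tube (srefM (DtM B hB hqM) (gaugeA q B hB hqM) (admA B hB hqM h2 h3))
            (outer (inputs (DtM B hB hqM)) (gaugeA q B hB hqM) (admA B hB hqM h2 h3) e) ∧
        (∃ d : Kb, IsValueAt P (kumX B hB hqM h2 h3 e) d ∧ B.valuation d < 1) ∧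
        (∃ d : Kb, IsValueAt P (kumY B hB hqM h2 h3 e) d ∧ B.valuation d < 1) ∧
        ∃ d : Kb, IsValueAt P (kumTheta B hB hqM h2 h3 e) d ∧
          B.valuation (d - ((kumC0 B hB hqM h2 h3 e s : B) : Kb)) < 1 := Iff.rfl

/-! ### The degree -/

omit [NeZero M] in
/-- `q = 2 d + 1`, `d = midDeg q`, for `q` odd -/
theorem two_mul_midDeg (hq2 : q ≠ 2) : q = 2 * midDeg q + 1 := by
  have h := hd_KPq hq.out
  rw [card_KPq_of_ne_two hq2] at h
  omega

/-! ### The hypotheses of the Kummer sheet at these names -/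

/-- the kernel of the residue map of `z e` -/
theorem kum_res_eq_zero (x : (zePackM B hB hqM h2 h3 e).Z) :
    (zePackM B hB hqM h2 h3 e).resZ x = 0 ↔
      (x : Fb (M * q * q)) ∈ (zePackM B hB hqM h2 h3 e).Z.nonunits := by
  rw [(zePackM B hB hqM h2 h3 e).ker x, ValuationSubring.coe_mem_nonunits_iff,
    IsLocalRing.mem_maximalIdeal, mem_nonunits_iff]

variable {ζ : Kbˣ} (hζ : IsPrimitiveRoot ζ q) {b : ℕ} (hb : b < q - 1)
  (hv : IsCoprime ((z₁ (chartDataModular B hB hqM) e).ord (deltaMid B hB hqM))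
    (fMid M B hB : ℤ))

set_option maxHeartbeats 4000000 in
/-- **(N2-INST) The hypotheses of the Kummer sheet at the node `nk e s`** (`q` odd) at the names of
the frame: the vertical component `(Z_e, resZ_e)` at its Kummer point `zKM e s`, the middle
component `(w₂ b, resMid b)` at the Kummer place over `z₁ e`.  Only named hypothesis: `hθ₂`. -/
theorem kummerHyp_kum (hq2 : q ≠ 2) (s : KPq q)
    (hθ₂ : ∃ h : kumTheta B hB hqM h2 h3 e -
        algebraMap Kb (Fb (M * q * q)) ((kumC0 B hB hqM h2 h3 e s : B) : Kb) ∈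
          w2 B hB hqM hζ hb,
      (pMidOver B hB hqM (z₁ (chartDataModular B hB hqM) e) hv).adicValuation
        (resMid B hB hqM hζ hb ⟨_, h⟩) < 1) :
    letI := algebraAlong (alpha2 M q)
    haveI := isScalarTower_along (alpha2 M q)
    haveI : Module.Finite (Fb (M * q)) (Fb (M * q * q)) :=
      Fermat.Agent.Hecke.finiteAlong_heckeAlphaBar (M * q) q
    KummerHyp
      (levelsConst (levelsOutA B hB hqM h2 h3 e)
        {pi2 q, ((kumC0 B hB hqM h2 h3 e s : B) : Kb)})
      (kumX B hB hqM h2 h3 e) (kumY B hB hqM h2 h3 e) (kumTheta B hB hqM h2 h3 e)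
      (kumU B hB hqM h2 h3 e) (kumC0 B hB hqM h2 h3 e s) 1 (pi2 q / gaugeA q B hB hqM e)
      (midDeg q)
      (CompVal.compVal (zePackM B hB hqM h2 h3 e).Z (zePackM B hB hqM h2 h3 e).resZ
        (kum_res_eq_zero B hB hqM h2 h3 e) (zKM B hB hqM h2 h3 e s).adicValuation)
      (CompVal.compVal (w2 B hB hqM hζ hb) (resMid B hB hqM hζ hb)
        (overComp_mid B hB hqM hζ hb (z₁ (chartDataModular B hB hqM) e) hv).res_eq_zero
        (pMidOver B hB hqM (z₁ (chartDataModular B hB hqM) e) hv).adicValuation)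
      (zePackM B hB hqM h2 h3 e).Z (w2 B hB hqM hζ hb) := by
  letI := algebraAlong (alpha2 M q)
  haveI := isScalarTower_along (alpha2 M q)
  haveI : Module.Finite (Fb (M * q)) (Fb (M * q * q)) :=
    Fermat.Agent.Hecke.finiteAlong_heckeAlphaBar (M * q) q
  have key := kummerHyp_modular B hB hqM h2 h3 e (zePackM B hB hqM h2 h3 e).P
    (vertCompM B hB hqM h2 h3 e) hq2 (zePackM B hB hqM h2 h3 e).hβ
    (zePackM B hB hqM h2 h3 e).hρ (rootsK_sq q (zePackM B hB hqM h2 h3 e).ρ s)
    (residue_kumC0 B hB hqM h2 h3 e s) hζ hb hv (two_mul_midDeg hq2) hθ₂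
  rw [zKM_eq, ptKFam_eq_ptKBar q (zePackM B hB hqM h2 h3 e).hβ (zePackM B hB hqM h2 h3 e).hρ
    hq2 s]
  exact key

end Fermat.Agent.BR3.KummerNodeInputs
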