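import Mathlib
import Fermat.Agent.BR3.KummerNodeNames
import Fermat.Agent.BR3.SDD.ModularC
import Fermat.Agent.BR3.KummerCompUnif
import Fermat.Agent.BR3.KummerCompGlue
import Fermat.Agent.BR3.KummerGenus.MidFamily

/-!
# Program C (S36), node (N2-ODD FAMILY) (helper7): the hypotheses `KummerHyp` of the Kummer nodes
`nk e s` of `S''` (`q` odd) for THE map `comp` of the final call, hypothesis-free

`comp := KummerCompUnif.compU hex hval` (helper12) for the family `CM i = constRedMid … (i.rep).2`
of the constant reductions of the middle components, the Kummer places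
`pK e := MidFamily.pMid … z₁ hcop e = pMidOver (z₁ e) (hcop e)`, THE Kummer function
`θ e := kumTheta … e` and THE values `r e s := residue B (kumC0 … e s)`
(`BR3/KummerNodeNames.lean`); `hex`, `hval` are the two inputs of `compU` (variables here: the
final call instantiates them at `ModularCompFinal.hex_modular` / `ModularComp.hval_modular`).

* `hθ₂_compU hq2 e s` : the residue fact `hθ₂` of `kummerHyp_kum` at the middle component
  `b := (compU hex hval e s).rep` (from `KummerCompUnif.hasValue_compU` +
  `KummerCompGlue.hasValue_congr`);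
* **`kummerHypM hq2 e s`** : `KummerHyp (levelsConst (levelsOutA … e) {pi2 q, kumC0 e s}) (kumX e)
  (kumY e) (kumTheta e) (kumU e) (kumC0 e s) 1 (pi2 q / gaugeA e) (midDeg q) 𝒪₁ 𝒪₂ Z_e
  (w₂ (comp e s).rep)` with NO hypothesis besides `q ≠ 2`.
-/

set_option autoImplicit false
set_option linter.unusedSectionVars false
set_option linter.style.haveILetI false
set_option synthInstance.maxHeartbeats 400000
set_option maxHeartbeats 1600000

noncomputable section

namespace Fermat.Agent.BR3.KummerNodeFam

open Polynomial ModularCurve AlgebraicCurve IsLocalRing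
open Fermat.Agent.X0 Fermat.Agent.Val Fermat.Agent.Red Fermat.Agent.Hecke
open Fermat.Agent.BR.SS Fermat.Agent.BR.S0 Fermat.Agent.BR.S0.RedModular
open Fermat.Agent.BR.S0.PointDict
open Fermat.Agent.BR3.SDD.Modular Fermat.Agent.BR3.SplitNode
open Fermat.Agent.BR3.FibreProd Fermat.Agent.BR3.VertPtsU Fermat.Agent.BR3.IgSq
open Fermat.Agent.BR3.KummerComps Fermat.Agent.BR3.KummerOfVert Fermat.Agent.BR3.KummerLevels
open Fermat.Agent.BR3.KummerModAbs Fermat.Agent.BR3.KummerMidSide
open Fermat.Agent.BR3.KummerGenus Fermat.Agent.BR3.KummerGenus.MidInst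
open Fermat.Agent.BR3.SepNComp Fermat.Agent.BR3.SepNCompRel Fermat.Agent.BR3.KummerCompMod
open Fermat.Agent.BR3.KummerCompUnif Fermat.Agent.BR3.KummerCompGlue
open Fermat.Agent.BR3.KummerNodeInputs

variable {M q : ℕ} [NeZero M] [hq : Fact q.Prime]
variable (B : ValuationSubring Kb) (hB : B.LiesOverPrime q) (hqM : ¬ q ∣ M)
  [IsAlgClosed (ResidueField B)] [CharP (ResidueField B) q]
  (h2 : nuTwo M = 0) (h3 : nuThree M = 0)
  {ζ : Kbˣ} (hζ : IsPrimitiveRoot ζ q)

local notation "kB" => ResidueField B
local notation "FtM" => modularFunctionFieldFullC (IsLocalRing.ResidueField B) M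

/-- (shortcut instances) -/
local instance (priority := 100000) instAlgKFtKNF : Algebra kB FtM := inferInstance
local instance (priority := 100000) instAlgKFMidKNF : Algebra kB (FMid M B) := inferInstance
local instance (priority := 100000) instAlgFtFMidKNF : Algebra FtM (FMid M B) := inferInstance
local instance (priority := 100000) instTowerMidKNF : IsScalarTower kB FtM (FMid M B) :=
  inferInstance

omit [CharP (ResidueField B) q] [IsAlgClosed (ResidueField B)] in
/-- there is a middle component -/
theorem nonempty_MidM : Nonempty (MidM B hB hqM hζ) := by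
  rw [← Fintype.card_pos_iff]
  by_contra h0
  have h1 : Fintype.card (MidM B hB hqM hζ) = 0 := by omega
  have h2' := card_mid_mul B hB hqM hζ
  rw [h1, zero_mul] at h2'
  have := hq.out.two_le
  omega

variable [Nonempty (MidM B hB hqM hζ)]
  (hcop : ∀ e : SSpM B hB hqM,
    IsCoprime ((z₁ (chartDataModular B hB hqM) e).ord (deltaMid B hB hqM)) (fMid M B hB : ℤ))
  (hex : q ≠ 2 → ∀ e j, ∃ s, ValAt (CM B hB hqM hζ)
    (MidFamily.pMid B hB hqM (z₁ (chartDataModular B hB hqM)) hcop)
    (kumTheta B hB hqM h2 h3)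
    (fun e s => IsLocalRing.residue B (kumC0 B hB hqM h2 h3 e s)) e j s)
  (hval : ∀ hq2 : q ≠ 2, ∀ e, Function.Bijective (val (hex hq2) e))

set_option maxHeartbeats 4000000 in
/-- **`hθ₂` at the node `nk e s`** (`q` odd): the residue of `θ_e - c₀ e s` on the middle component
`comp e s` vanishes at its Kummer place over `z₁ e`. -/
theorem hθ₂_compU (hq2 : q ≠ 2) (e : SSpM B hB hqM) (s : KPq q) :
    ∃ h : kumTheta B hB hqM h2 h3 e -
        algebraMap Kb (Fb (M * q * q)) ((kumC0 B hB hqM h2 h3 e s : B) : Kb) ∈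
          w2 B hB hqM hζ ((compU hex hval e s).rep B hB hqM hζ).2,
      (pMidOver B hB hqM (z₁ (chartDataModular B hB hqM) e) (hcop e)).adicValuation
        (resMid B hB hqM hζ ((compU hex hval e s).rep B hB hqM hζ).2 ⟨_, h⟩) < 1 := by
  have h1 := hasValue_compU hex hval hq2 e s
  have h2' : HasValue (CM B hB hqM hζ (compU hex hval e s))
      (MidFamily.pMid B hB hqM (z₁ (chartDataModular B hB hqM)) hcop e)
      (kumTheta B hB hqM h2 h3 e) (kumC0 B hB hqM h2 h3 e s) :=
    hasValue_congr
      (residue_cLift (fun e s => IsLocalRing.residue B (kumC0 B hB hqM h2 h3 e s)) e s) h1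
  exact h2'

set_option maxHeartbeats 4000000 in
/-- **(N2-ODD FAMILY) The hypotheses of the Kummer sheet at the node `nk e s` of `S''`** (`q` odd),
for `comp := compU hex hval`: hypothesis-free. -/
theorem kummerHypM (hq2 : q ≠ 2) (e : SSpM B hB hqM) (s : KPq q) :
    letI := algebraAlong (alpha2 M q)
    haveI := isScalarTower_along (alpha2 M q)
    haveI : Module.Finite (Fb (M * q)) (Fb (M * q * q)) :=
      Fermat.Agent.Hecke.finiteAlong_heckeAlphaBar (M * q) q
    KummerHyp
      (levelsConst (levelsOutA B hB hqM h2 h3 e)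
        {pi2 q, ((kumC0 B hB hqM h2 h3 e s : B) : Kb)})
      (kumX B hB hqM h2 h3 e) (kumY B hB hqM h2 h3 e) (kumTheta B hB hqM h2 h3 e)
      (kumU B hB hqM h2 h3 e) (kumC0 B hB hqM h2 h3 e s) 1 (pi2 q / gaugeA q B hB hqM e)
      (midDeg q)
      (CompVal.compVal (zePackM B hB hqM h2 h3 e).Z (zePackM B hB hqM h2 h3 e).resZ
        (kum_res_eq_zero B hB hqM h2 h3 e) (zKM B hB hqM h2 h3 e s).adicValuation)
      (CompVal.compVal (w2 B hB hqM hζ ((compU hex hval e s).rep B hB hqM hζ).2)
        (resMid B hB hqM hζ ((compU hex hval e s).rep B hB hqM hζ).2)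
        (overComp_mid B hB hqM hζ ((compU hex hval e s).rep B hB hqM hζ).2
          (z₁ (chartDataModular B hB hqM) e) (hcop e)).res_eq_zero
        (pMidOver B hB hqM (z₁ (chartDataModular B hB hqM) e) (hcop e)).adicValuation)
      (zePackM B hB hqM h2 h3 e).Z
      (w2 B hB hqM hζ ((compU hex hval e s).rep B hB hqM hζ).2) :=
  kummerHyp_kum B hB hqM h2 h3 e hζ ((compU hex hval e s).rep B hB hqM hζ).2 (hcop e) hq2 s
    (hθ₂_compU B hB hqM h2 h3 hζ hcop hex hval hq2 e s)

end Fermat.Agent.BR3.KummerNodeFam
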