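import Mathlib
import Fermat.Agent.BR3.KummerNodeFam

/-!
# Program C (S36), node (N2-ODD FAMILY) (helper7, second seat of helper22): the uniformizer and
constant facts of the Kummer nodes `nk e s` of `S''` (`q` odd) at the names of the frame

The inputs `hX`, `hY`, `const_mem₁`, `const₁`, `const_mem₂`, `const₂` of helper22's
`KummerNodeOut.nodeOutK` (and of helper8's `KummerNode.nodeChart` / `branchComp₁` / `branchComp₂`)
at `H := KummerNodeFam.kummerHypM …` (`Z_e := zePackM B hB hqM h2 h3 e`):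

* `kumY_eq_theta` : `kumY e = U_{g_e} / α₂ a₀` (the generator `θ_e` of the vertical component);
* **`hY_kum`** : `Y_e` reduces on `z e` to a uniformizer at the Kummer point `zKM e s`;
* **`hX_kum`** : `X_e` reduces on EVERY middle component `w₂ b` to a uniformizer at the Kummer place
  `pMidOver (z₁ e) hv`;
* `const_mem_Z`, `const_Z`, `const_mem_w2`, `const_w2` : the constants of `B` on `(Z_e, resZ_e)` and
  on `(w₂ b, resMid b)`;
* `hdom_Z`, `hdom_w2` : the domination hypotheses `hdom₁`, `hdom₂` for the composite valuation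
  rings of `kummerHyp_kum` / `kummerHypM`.
-/

set_option autoImplicit false
set_option linter.unusedSectionVars false
set_option linter.style.haveILetI false
set_option synthInstance.maxHeartbeats 400000
set_option maxHeartbeats 1600000

noncomputable section

namespace Fermat.Agent.BR3.KummerNodeFam

open Polynomial ModularCurve AlgebraicCurve IsLocalRing
open Fermat.Agent.X0 Fermat.Agent.Val Fermat.Agent.Red Fermat.Agent.Hecke
open Fermat.Agent.BR.SS Fermat.Agent.BR.S0 Fermat.Agent.BR.S0.RedModular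
open Fermat.Agent.BR.S0.PointDict
open Fermat.Agent.BR3.SDD.Modular Fermat.Agent.BR3.SplitNode
open Fermat.Agent.BR3.FibreProd Fermat.Agent.BR3.VertPtsU Fermat.Agent.BR3.IgSq
open Fermat.Agent.BR3.HeckePoly Fermat.Agent.BR3.VertResidue
open Fermat.Agent.BR3.KummerComps Fermat.Agent.BR3.KummerOfVert Fermat.Agent.BR3.KummerLevels
open Fermat.Agent.BR3.KummerModAbs Fermat.Agent.BR3.KummerMidSide
open Fermat.Agent.BR3.KummerGenus Fermat.Agent.BR3.KummerGenus.MidInst
open Fermat.Agent.BR3.KummerNodeInputs Fermat.Agent.BR3.ThickSDDPlug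

variable {M q : ℕ} [NeZero M] [hq : Fact q.Prime]
variable (B : ValuationSubring Kb) (hB : B.LiesOverPrime q) (hqM : ¬ q ∣ M)
  [IsAlgClosed (ResidueField B)] [CharP (ResidueField B) q]
  (h2 : nuTwo M = 0) (h3 : nuThree M = 0)

local notation "kB" => ResidueField B
local notation "FtM" => modularFunctionFieldFullC (IsLocalRing.ResidueField B) M

/-- (shortcut instances) -/
local instance (priority := 100000) instAlgKFtKNO : Algebra kB FtM := inferInstance
local instance (priority := 100000) instAlgKFMidKNO : Algebra kB (FMid M B) := inferInstance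
local instance (priority := 100000) instAlgFtFMidKNO : Algebra FtM (FMid M B) := inferInstance
local instance (priority := 100000) instTowerMidKNO : IsScalarTower kB FtM (FMid M B) :=
  inferInstance

/-! ### The vertical component -/

/-- `Y_e = U_{g_e} / α₂ a₀` : the generator `θ_e` of the vertical component `z e` -/
theorem kumY_eq_theta (e : SSpM B hB hqM) :
    kumY B hB hqM h2 h3 e =
      Ug M q (zePackM B hB hqM h2 h3 e).g /
        alpha2 M q (algebraMap Kb (Fb (M * q)) (gaugeSDD q)) := by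
  have e1 : alpha2 M q (algebraMap Kb (Fb (M * q)) (gaugeSDD q)) =
      algebraMap Kb (Fb (M * q * q)) (gaugeSDD q) := (alpha2 M q).commutes _
  rw [e1, div_eq_mul_inv]
  rfl

/-- **`hY`** : `Y_e` reduces on the vertical component `z e` to a uniformizer at the Kummer point
`zKM e s` (`q` odd). -/
theorem hY_kum (hq2 : q ≠ 2) (e : SSpM B hB hqM) (s : KPq q)
    (h : kumY B hB hqM h2 h3 e ∈ (zePackM B hB hqM h2 h3 e).Z) :
    (zKM B hB hqM h2 h3 e s).ord
      ((zePackM B hB hqM h2 h3 e).resZ ⟨kumY B hB hqM h2 h3 e, h⟩) = 1 := by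
  have e2 : (⟨kumY B hB hqM h2 h3 e, h⟩ : (zePackM B hB hqM h2 h3 e).Z) =
      ⟨_, (zePackM B hB hqM h2 h3 e).θ_mem⟩ := Subtype.ext (kumY_eq_theta B hB hqM h2 h3 e)
  rw [e2, (zePackM B hB hqM h2 h3 e).res_θ, zKM_eq, ord_U_ptKFam, if_neg hq2]

/-- `Y_e` lies in the valuation ring of the vertical component -/
theorem kumY_mem_Z (e : SSpM B hB hqM) :
    kumY B hB hqM h2 h3 e ∈ (zePackM B hB hqM h2 h3 e).Z := by
  rw [kumY_eq_theta]
  exact (zePackM B hB hqM h2 h3 e).θ_mem

/-- the constants of `B` lie in the valuation ring of the vertical component -/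
theorem const_mem_Z (e : SSpM B hB hqM) (a : B) :
    algebraMap Kb (Fb (M * q * q)) (a : Kb) ∈ (zePackM B hB hqM h2 h3 e).Z :=
  ((CZM B hB hqM h2 h3 e).algebraMap_mem_iff (a : Kb)).mpr a.2

/-- the residues of the constants of `B` on the vertical component -/
theorem const_Z (e : SSpM B hB hqM) (a : B) :
    (zePackM B hB hqM h2 h3 e).resZ
        ⟨algebraMap Kb (Fb (M * q * q)) (a : Kb), const_mem_Z B hB hqM h2 h3 e a⟩ =
      algebraMap kB (FZM B hB hqM h2 h3 e) (IsLocalRing.residue B a) :=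
  (CZM B hB hqM h2 h3 e).res_algebraMap (a : Kb) a.2 _

/-- **`hdom₁`** for the composite valuation ring of `(Z_e, resZ_e)` at `zKM e s` -/
theorem hdom_Z (e : SSpM B hB hqM) (s : KPq q) :
    ∀ x ∈ (CompVal.compVal (zePackM B hB hqM h2 h3 e).Z (zePackM B hB hqM h2 h3 e).resZ
        (kum_res_eq_zero B hB hqM h2 h3 e) (zKM B hB hqM h2 h3 e s).adicValuation).nonunits,
      ∀ h : x ∈ (zePackM B hB hqM h2 h3 e).Z,
        (zKM B hB hqM h2 h3 e s).adicValuation ((zePackM B hB hqM h2 h3 e).resZ ⟨x, h⟩) < 1 :=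
  Fermat.Agent.BR3.KummerNode.dom_of_eq_compVal _ _ _ rfl

/-! ### The middle components -/

variable {ζ : Kbˣ} (hζ : IsPrimitiveRoot ζ q) {b : ℕ} (hb : b < q - 1)
  (e : SSpM B hB hqM)
  (hv : IsCoprime ((z₁ (chartDataModular B hB hqM) e).ord (deltaMid B hB hqM))
    (fMid M B hB : ℤ))

/-- **`hX`** : `X_e` reduces on every middle component `w₂ b` to a uniformizer at the Kummer place
over `z₁ e` (`q` odd). -/
theorem hX_kum (hq2 : q ≠ 2) (h : kumX B hB hqM h2 h3 e ∈ w2 B hB hqM hζ hb) :
    (pMidOver B hB hqM (z₁ (chartDataModular B hB hqM) e) hv).ord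
      (resMid B hB hqM hζ hb ⟨kumX B hB hqM h2 h3 e, h⟩) = 1 :=
  ord_resMid_xOf' B hB hqM e hζ hb hq2 h2 h3 (zePackM B hB hqM h2 h3 e).P hv
    (ϖ₂ := pi2 q) (by rw [← map_pow, pi2_pow hq.out.one_lt]) h

/-- `X_e` lies in every middle valuation ring -/
theorem kumX_mem_w2 : kumX B hB hqM h2 h3 e ∈ w2 B hB hqM hζ hb :=
  xOf_mem_w2 B hB hqM e hζ hb h2 h3 (zePackM B hB hqM h2 h3 e).P
    (ϖ₂ := pi2 q) (by rw [← map_pow, pi2_pow hq.out.one_lt])

omit [CharP (ResidueField B) q] [IsAlgClosed (ResidueField B)] in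
/-- the constants of `B` lie in the middle valuation rings -/
theorem const_mem_w2 (a : B) :
    algebraMap Kb (Fb (M * q * q)) (a : Kb) ∈ w2 B hB hqM hζ hb :=
  ((constRedMid B hB hqM hζ hb).algebraMap_mem_iff (a : Kb)).mpr a.2

omit [CharP (ResidueField B) q] [IsAlgClosed (ResidueField B)] in
/-- the residues of the constants of `B` on the middle components -/
theorem const_w2 (a : B) :
    resMid B hB hqM hζ hb
        ⟨algebraMap Kb (Fb (M * q * q)) (a : Kb), const_mem_w2 B hB hqM hζ hb a⟩ =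
      algebraMap kB (FMid M B) (IsLocalRing.residue B a) :=
  (constRedMid B hB hqM hζ hb).res_algebraMap (a : Kb) a.2 _

/-- **`hdom₂`** for the composite valuation ring of `(w₂ b, resMid b)` at `pMidOver (z₁ e) hv` -/
theorem hdom_w2 :
    ∀ x ∈ (CompVal.compVal (w2 B hB hqM hζ hb) (resMid B hB hqM hζ hb)
        (fun x => resMid_eq_zero_iff_mem_nonunits B hB hqM hζ hb x)
        (pMidOver B hB hqM (z₁ (chartDataModular B hB hqM) e) hv).adicValuation).nonunits,
      ∀ h : x ∈ w2 B hB hqM hζ hb,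
        (pMidOver B hB hqM (z₁ (chartDataModular B hB hqM) e) hv).adicValuation
          (resMid B hB hqM hζ hb ⟨x, h⟩) < 1 :=
  Fermat.Agent.BR3.KummerNode.dom_of_eq_compVal _ _ _ rfl

end Fermat.Agent.BR3.KummerNodeFam
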