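import Mathlib
import Fermat.Agent.BR3.KummerNode
import Fermat.Agent.BR3.KummerAnnSheet
import Fermat.Agent.BR3.SplitNode.Node

/-!
# Program C (S36), node (N2-ODD), second engine, part 1 (abstract): the bundle `SplitNode.NodeOut`
of a KUMMER node, from `H : KummerLevels.KummerHyp …`

`H : KummerHyp L X Y θ U c₀ κ₀ thick₂ d 𝒪₁ 𝒪₂ O₁ O₂` (helper8's `BR3/KummerLevels`): `O₁` the
valuation ring of the component where `X` vanishes (the vertical component `z e`, TARGET of the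
Kummer node `nk e s`), `O₂` the one where `Y` vanishes (the middle component, SOURCE of the node).
The bundle of helper16 (`BR3/SplitNode/Node.lean`) has its FIRST component where `L.v` vanishes and
its SECOND where `L.u` vanishes; for the levels `H.levels` (`u = X`, `v = Y`) the first component is
`(O₂, res₂, Q₂)` (middle) and the second `(O₁, res₁, Q₁)` (vertical) — the order of
`Partition.caseInputOfRaw` (`chK e s : NodeChart B (mid …).O (ze e).O …`).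

* `nodeOutK H π res₁ Q₁ res₂ Q₂ hdom₁ hdom₂ … hX hY :
    NodeOut A π O₂ res₂ Q₂ O₁ res₁ Q₁ (kummerTube A T X Y θ c₀) ι` with `hX : ord_{Q₂} (res₂ X) = 1`,
  `hY : ord_{Q₁} (res₁ Y) = 1` (the coordinates reduce to local parameters at the two branches);
* `nodeOutK_L / _u / _v / _thick / _R / _K' / _ϖ` (`rfl`), `nodeOutK_chart` (the chart of the bundle is
  helper8's `KummerNode.nodeChart`, `rfl`);
* `hK_nodeOutK` : **(G3) `hK`** `L.thick = κ₀ * (nodeOutK …).L.thick ^ d`;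
* `annSheetK` : the annulus sheet of degree `d` of the bundle (helper8's `KummerAnnSheet.annSheet`);
* `nodeOutK_comp` : the same bundle when `𝒪ⱼ = CompVal.compVal Oⱼ resⱼ _ Qⱼ.adicValuation` (the shape
  of `KummerComps.VertAlg.kummerHyp_frame`): `hdom₁`, `hdom₂` discharged.
-/

set_option autoImplicit false
set_option linter.unusedSectionVars false
set_option linter.style.haveILetI false

noncomputable section

namespace Fermat.Agent.BR3.KummerNodeOut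

open Polynomial IsLocalRing AlgebraicCurve Fermat.Agent.Red Fermat.Agent.BR.Centre
  Fermat.Agent.BR.S0 Fermat.Agent.BR3.KummerEnd Fermat.Agent.BR3.KummerLevels
  Fermat.Agent.BR3.SplitBranch Fermat.Agent.BR3.SplitNodeChart Fermat.Agent.BR3.SplitNode
  Fermat.Agent.BR3.KummerNode

section Abstract

variable {K F F₂ k : Type*} [Field K] [Field F] [Field F₂] [Field k] [Algebra K F] [Algebra K F₂]
  [Algebra F F₂] [IsScalarTower K F F₂] [Algebra.IsIntegral F F₂] [CharZero F₂]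
  {Ft₁ Ft₂ : Type*} [Field Ft₁] [Algebra k Ft₁] [Field Ft₂] [Algebra k Ft₂]
  {A : ValuationSubring K} {T : Set (Place K F)} {ι : Type*}
  {L : AnnulusLevels A T ι} {X Y θ U : F₂} {c₀ : A} {κ₀ thick₂ : K} {d : ℕ}
  {𝒪₁ 𝒪₂ O₁ O₂ : ValuationSubring F₂}

/-- **The data of a Kummer node** (`SplitNode.NodeOut`), first branch on the component `O₂` where
`Y` vanishes (the middle component, source of the node), second branch on `O₁` where `X` vanishes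
(the vertical component). -/
def nodeOutK (H : KummerHyp L X Y θ U c₀ κ₀ thick₂ d 𝒪₁ 𝒪₂ O₁ O₂)
    (π : A →+* k) (res₁ : O₁ →+* Ft₁) (Q₁ : Place k Ft₁) (res₂ : O₂ →+* Ft₂) (Q₂ : Place k Ft₂)
    (hdom₁ : ∀ x ∈ 𝒪₁.nonunits, ∀ h : x ∈ O₁, Q₁.adicValuation (res₁ ⟨x, h⟩) < 1)
    (hdom₂ : ∀ x ∈ 𝒪₂.nonunits, ∀ h : x ∈ O₂, Q₂.adicValuation (res₂ ⟨x, h⟩) < 1)
    (const_mem₁ : ∀ a : A, algebraMap K F₂ (a : K) ∈ O₁)
    (const₁ : ∀ a : A, res₁ ⟨algebraMap K F₂ (a : K), const_mem₁ a⟩ = algebraMap k Ft₁ (π a))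
    (const_mem₂ : ∀ a : A, algebraMap K F₂ (a : K) ∈ O₂)
    (const₂ : ∀ a : A, res₂ ⟨algebraMap K F₂ (a : K), const_mem₂ a⟩ = algebraMap k Ft₂ (π a))
    (hX : ∀ h : X ∈ O₂, Q₂.ord (res₂ ⟨X, h⟩) = 1)
    (hY : ∀ h : Y ∈ O₁, Q₁.ord (res₁ ⟨Y, h⟩) = 1) :
    NodeOut A π O₂ res₂ Q₂ O₁ res₁ Q₁ (kummerTube A T X Y θ c₀) ι where
  L := H.levels
  X₁ := branchComp₂ H π res₂ Q₂ hdom₂ const_mem₂ const₂
  X₂ := branchComp₁ H π res₁ Q₁ hdom₁ const_mem₁ const₁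
  v_src := H.Y_mem₂
  u_tgt := H.X_mem₁
  unif₁ := by
    obtain ⟨i, -⟩ := L.const 0
    exact ⟨i, ⟨X, X_mem_kummerRing 𝒪₁ (H.mem₁ i)⟩, hX _⟩
  unif₂ := by
    obtain ⟨i, -⟩ := L.const 0
    exact ⟨i, ⟨Y, Y_mem_kummerRing 𝒪₁ (H.mem₁ i)⟩, hY _⟩

section Lemmas

variable (H : KummerHyp L X Y θ U c₀ κ₀ thick₂ d 𝒪₁ 𝒪₂ O₁ O₂)
  (π : A →+* k) (res₁ : O₁ →+* Ft₁) (Q₁ : Place k Ft₁) (res₂ : O₂ →+* Ft₂) (Q₂ : Place k Ft₂)
  (hdom₁ : ∀ x ∈ 𝒪₁.nonunits, ∀ h : x ∈ O₁, Q₁.adicValuation (res₁ ⟨x, h⟩) < 1)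
  (hdom₂ : ∀ x ∈ 𝒪₂.nonunits, ∀ h : x ∈ O₂, Q₂.adicValuation (res₂ ⟨x, h⟩) < 1)
  (const_mem₁ : ∀ a : A, algebraMap K F₂ (a : K) ∈ O₁)
  (const₁ : ∀ a : A, res₁ ⟨algebraMap K F₂ (a : K), const_mem₁ a⟩ = algebraMap k Ft₁ (π a))
  (const_mem₂ : ∀ a : A, algebraMap K F₂ (a : K) ∈ O₂)
  (const₂ : ∀ a : A, res₂ ⟨algebraMap K F₂ (a : K), const_mem₂ a⟩ = algebraMap k Ft₂ (π a))
  (hX : ∀ h : X ∈ O₂, Q₂.ord (res₂ ⟨X, h⟩) = 1)
  (hY : ∀ h : Y ∈ O₁, Q₁.ord (res₁ ⟨Y, h⟩) = 1)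

theorem nodeOutK_L :
    (nodeOutK H π res₁ Q₁ res₂ Q₂ hdom₁ hdom₂ const_mem₁ const₁ const_mem₂ const₂ hX hY).L =
      H.levels := rfl

/-- the first coordinate of the Kummer node is `X` -/
theorem nodeOutK_u :
    (nodeOutK H π res₁ Q₁ res₂ Q₂ hdom₁ hdom₂ const_mem₁ const₁ const_mem₂ const₂ hX hY).L.u =
      X := rfl

/-- the second coordinate of the Kummer node is `Y` -/
theorem nodeOutK_v :
    (nodeOutK H π res₁ Q₁ res₂ Q₂ hdom₁ hdom₂ const_mem₁ const₁ const_mem₂ const₂ hX hY).L.v =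
      Y := rfl

/-- the thickness of the Kummer node is `thick₂` -/
theorem nodeOutK_thick :
    (nodeOutK H π res₁ Q₁ res₂ Q₂ hdom₁ hdom₂ const_mem₁ const₁ const_mem₂ const₂ hX hY).L.thick =
      thick₂ := rfl

theorem nodeOutK_R (i : ι) :
    ((nodeOutK H π res₁ Q₁ res₂ Q₂ hdom₁ hdom₂ const_mem₁ const₁ const_mem₂ const₂ hX hY).L.level
      i).R = H.ring i := rfl

theorem nodeOutK_K' (i : ι) :
    ((nodeOutK H π res₁ Q₁ res₂ Q₂ hdom₁ hdom₂ const_mem₁ const₁ const_mem₂ const₂ hX hY).L.level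
      i).K' = (L.level i).K' := rfl

theorem nodeOutK_ϖ (i : ι) :
    ((nodeOutK H π res₁ Q₁ res₂ Q₂ hdom₁ hdom₂ const_mem₁ const₁ const_mem₂ const₂ hX hY).L.level
      i).ϖ = (L.level i).ϖ := rfl

/-- **(G3) `hK`** : the thickness of the base annulus is `κ₀` times the `d`-th power of the
thickness of the Kummer node. -/
theorem hK_nodeOutK :
    L.thick = κ₀ *
      (nodeOutK H π res₁ Q₁ res₂ Q₂ hdom₁ hdom₂ const_mem₁ const₁ const_mem₂ const₂ hX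
        hY).L.thick ^ d :=
  H.thick_eq

/-- the chart of the bundle of the Kummer node is helper8's `KummerNode.nodeChart` -/
theorem nodeOutK_chart (hπ0 : ∀ a : A, A.valuation (a : K) < 1 → π a = 0)
    (hres0₁ : ∀ x : O₁, (x : F₂) ∈ O₁.nonunits → res₁ x = 0)
    (hres0₂ : ∀ x : O₂, (x : F₂) ∈ O₂.nonunits → res₂ x = 0) :
    (nodeOutK H π res₁ Q₁ res₂ Q₂ hdom₁ hdom₂ const_mem₁ const₁ const_mem₂ const₂ hX hY).chart
        hπ0 hres0₂ hres0₁ =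
      nodeChart H π hπ0 res₁ Q₁ res₂ Q₂ hdom₁ hdom₂ const_mem₁ const₁ const_mem₂ const₂ := rfl

/-- **the annulus sheet of degree `d` of the Kummer node** over the annulus of the base
(coordinate `L.u`, thickness `L.thick`), helper8's `KummerAnnSheet.annSheet`. -/
def annSheetK (hκ : A.valuation κ₀ = 1) :
    Fermat.Agent.BR3.SDD.Partition.AnnSheet A (kummerTube A T X Y θ c₀) (algebraMap F F₂ L.u)
      L.thick d :=
  Fermat.Agent.BR3.KummerAnnSheet.annSheet H hκ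

end Lemmas

end Abstract

/-! ### The composite valuation rings of the two branch points -/

section Comp

variable {K F F₂ k : Type*} [Field K] [Field F] [Field F₂] [Field k] [Algebra K F] [Algebra K F₂]
  [Algebra F F₂] [IsScalarTower K F F₂] [Algebra.IsIntegral F F₂] [CharZero F₂]
  {Ft₁ Ft₂ : Type*} [Field Ft₁] [Algebra k Ft₁] [Field Ft₂] [Algebra k Ft₂]
  {A : ValuationSubring K} {T : Set (Place K F)} {ι : Type*}
  {L : AnnulusLevels A T ι} {X Y θ U : F₂} {c₀ : A} {κ₀ thick₂ : K} {d : ℕ}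
  {O₁ O₂ : ValuationSubring F₂}

/-- **The data of a Kummer node when `𝒪ⱼ` is the composite valuation ring of the branch point
`Qⱼ` of the component `(Oⱼ, resⱼ)`** (the shape of `KummerComps.VertAlg.kummerHyp_frame`). -/
def nodeOutK_comp (π : A →+* k) (res₁ : O₁ →+* Ft₁) (Q₁ : Place k Ft₁) (res₂ : O₂ →+* Ft₂)
    (Q₂ : Place k Ft₂)
    (hres₁ : ∀ x : O₁, res₁ x = 0 ↔ (x : F₂) ∈ O₁.nonunits)
    (hres₂ : ∀ x : O₂, res₂ x = 0 ↔ (x : F₂) ∈ O₂.nonunits)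
    (H : KummerHyp L X Y θ U c₀ κ₀ thick₂ d
      (CompVal.compVal O₁ res₁ hres₁ Q₁.adicValuation)
      (CompVal.compVal O₂ res₂ hres₂ Q₂.adicValuation) O₁ O₂)
    (const_mem₁ : ∀ a : A, algebraMap K F₂ (a : K) ∈ O₁)
    (const₁ : ∀ a : A, res₁ ⟨algebraMap K F₂ (a : K), const_mem₁ a⟩ = algebraMap k Ft₁ (π a))
    (const_mem₂ : ∀ a : A, algebraMap K F₂ (a : K) ∈ O₂)
    (const₂ : ∀ a : A, res₂ ⟨algebraMap K F₂ (a : K), const_mem₂ a⟩ = algebraMap k Ft₂ (π a))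
    (hX : ∀ h : X ∈ O₂, Q₂.ord (res₂ ⟨X, h⟩) = 1)
    (hY : ∀ h : Y ∈ O₁, Q₁.ord (res₁ ⟨Y, h⟩) = 1) :
    NodeOut A π O₂ res₂ Q₂ O₁ res₁ Q₁ (kummerTube A T X Y θ c₀) ι :=
  nodeOutK H π res₁ Q₁ res₂ Q₂ (dom_of_eq_compVal res₁ hres₁ Q₁ rfl)
    (dom_of_eq_compVal res₂ hres₂ Q₂ rfl) const_mem₁ const₁ const_mem₂ const₂ hX hY

end Comp

end Fermat.Agent.BR3.KummerNodeOut
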