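import Mathlib
import Fermat.Agent.BR3.KummerNodeOut
import Fermat.Agent.BR3.KummerNodeInputs
import Fermat.Agent.BR3.VertEquivUg

/-!
# Program C (S36), node (N2-ODD), second engine, part 2 (modular): the bundle `SplitNode.NodeOut`
of the Kummer node `nk e s` of `S''` at `q` odd, from helper7's `kummerHyp_modular`

In the generic shape of `KummerNodeInputs.kummerHyp_modular` (`P : IsSSParam e g g' g''`,
`Hv : VertComp …` the vertical component over the circle of gauge `gaugeA e`, `c ^ 2 = ρ`, `c₀` a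
lift of `c / β`, `b < q - 1` a middle component, `q = 2 d + 1`, the named hypothesis `hθ₂`):

* `const_mem_of_vertComp`, `res_const_of_vertComp`, `ord_res_yOf_ptK` (abstract, on a `VertComp`):
  the constants on the vertical component; `Y = U / a₀` reduces to a LOCAL PARAMETER at the Kummer
  point (`hY` of `KummerNodeOut.nodeOutK`);
* `idxKM` : the index type of the levels; **`nodeOutKM`** : the bundle
  `NodeOut B (residue B) (w₂ b) (resMid b) (pMidOver (z₁ e) hv) Z resZ (ptKBar c) (kummerTube …) _`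
  (first component = the middle component, second = the vertical component: the order of `chK`);
* `nodeOutKM_u` (`= X = ϖ₂ / U_g`), `nodeOutKM_v` (`= Y = U_g / a₀`), `nodeOutKM_thick`
  (`= ϖ₂ / a₀`), **`hK_nodeOutKM`** ((G3) `hK`, `κ₀ = 1`), `annSheetKM` (degree `d`),
  `chartKM` (the node chart);
* `galAut_smul_xOf` : **(G4)** the coordinate `X` is fixed by the inertia elements fixing
  `unifSDD q`.
-/

set_option autoImplicit false
set_option linter.unusedSectionVars false
set_option linter.style.haveILetI false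
set_option synthInstance.maxHeartbeats 400000
set_option maxHeartbeats 1600000

noncomputable section

/- S36 build-time patch: file-local shortcut instances. They only shorten instance search;
each is the instance that the search finds anyway (reducible, same terms after unfolding). -/
local instance (priority := 100000) Fermat.Agent.BR3.FastInst.instAlgFullC_KummerNodeOutMod
    {k : Type*} [Field k] (N : ℕ) :
    Algebra k ↥(ModularCurve.modularFunctionFieldFullC k N) := inferInstance
local instance (priority := 100000) Fermat.Agent.BR3.FastInst.instFieldFullC_KummerNodeOutMod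
    {k : Type*} [Field k] (N : ℕ) :
    Field ↥(ModularCurve.modularFunctionFieldFullC k N) := inferInstance
local instance (priority := 100000) Fermat.Agent.BR3.FastInst.instAlgLaurent_KummerNodeOutMod
    {k : Type*} [Field k] : Algebra k (LaurentSeries k) := inferInstance


namespace Fermat.Agent.BR3.KummerNodeOutMod

open Polynomial ModularCurve AlgebraicCurve IsLocalRing
open Fermat.Agent.X0 Fermat.Agent.Val Fermat.Agent.Red Fermat.Agent.Jac
open Fermat.Agent.BR.Centre Fermat.Agent.BR.SS Fermat.Agent.BR.Refine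
open Fermat.Agent.BR.S0 Fermat.Agent.BR.S0.RedModular Fermat.Agent.BR.S0.PointDict
open Fermat.Agent.BR.Final
open Fermat.Agent.BR3.FibreProd Fermat.Agent.BR3.CircleN
open Fermat.Agent.BR3.SplitBranch Fermat.Agent.BR3.SplitNodeChart
open Fermat.Agent.BR3.HeckePoly Fermat.Agent.BR3.SSParam
open Fermat.Agent.BR3.KummerComps Fermat.Agent.BR3.KummerOfVert Fermat.Agent.BR3.KummerLevels
open Fermat.Agent.BR3.KummerModAbs Fermat.Agent.BR3.KummerNodeInputs
open Fermat.Agent.BR3.KummerNodeOut

/-! ### The constants and the coordinate `Y` on a vertical component -/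

section Vert

open Fermat.Agent.BR.Circle Fermat.Agent.BR.P1
open Fermat.Agent.BR3.VertResidue Fermat.Agent.BR3.VertResField Fermat.Agent.BR3.VertPtsDef
open Fermat.Agent.BR3.VertSheet

variable {K F' F'' : Type*} [Field K] [Field F'] [Field F''] [Algebra K F'] [Algebra K F'']
  [Algebra F' F''] [IsScalarTower K F' F''] {A : ValuationSubring K}
  [IsAlgClosed (ResidueField A)] {T' : Set (Place K F')}

variable {q : ℕ} [hqF : Fact q.Prime] [CharP (ResidueField A) q] {β ρ : ResidueField A}
  [hP : Fact (Irreducible (vertBar q β ρ))]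
  {C : AnnulusCore A T'} {a₀ : K} {ha1 : A.valuation C.thick < A.valuation a₀}
  {ha2 : A.valuation a₀ < 1} {Z : ValuationSubring F''}
  {resZ : Z →+* AdjoinRoot (vertBar q β ρ)} {θ : F''} (H : VertComp C a₀ ha1 ha2 Z resZ θ)

include H

/-- the integral constants lie in the valuation ring of the vertical component -/
theorem const_mem_of_vertComp (a : A) : algebraMap K F'' (a : K) ∈ Z := by
  rw [IsScalarTower.algebraMap_apply K F' F'']
  exact H.map_mem ((algebraMap_mem_circleRing_iff C a₀ ha1 ha2 _).mpr a.2)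

/-- the residue map of the vertical component on the integral constants -/
theorem res_const_of_vertComp (a : A) :
    resZ ⟨algebraMap K F'' (a : K), const_mem_of_vertComp H a⟩ =
      algebraMap (ResidueField A) (AdjoinRoot (vertBar q β ρ)) (residue A a) := by
  have hR : algebraMap K F' (a : K) ∈ circleRing C a₀ ha1 ha2 :=
    (algebraMap_mem_circleRing_iff C a₀ ha1 ha2 _).mpr a.2
  have e : (⟨algebraMap K F'' (a : K), const_mem_of_vertComp H a⟩ : Z) =
      ⟨algebraMap F' F'' (algebraMap K F' (a : K)), H.map_mem hR⟩ :=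
    Subtype.ext (IsScalarTower.algebraMap_apply K F' F'' _)
  rw [e, H.compat ⟨algebraMap K F' (a : K), hR⟩ (H.map_mem hR),
    (constHyp_circle C a₀ ha1 ha2).res_const (a : K) a.2 hR]
  have e2 : (⟨(a : K), a.2⟩ : A) = a := rfl
  rw [e2, ← AdjoinRoot.algebraMap_eq, ← IsScalarTower.algebraMap_apply]

/-- `Y = U / a₀` reduces on the vertical component to the generator `Ũ` of its residue field -/
theorem res_yOf_of_vertComp {U : F''} (hU : yOf a₀ U = θ) (h : yOf a₀ U ∈ Z) :
    resZ ⟨yOf a₀ U, h⟩ = AdjoinRoot.root (vertBar q β ρ) := by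
  have e : (⟨yOf a₀ U, h⟩ : Z) = ⟨θ, H.θ_mem⟩ := Subtype.ext hU
  rw [e, H.res_θ]

/-- **`Y = U / a₀` reduces to a local parameter at the Kummer point of the vertical component**
(`q` odd): `hY` of `KummerNodeOut.nodeOutK`. -/
theorem ord_res_yOf_ptK (hq2 : q ≠ 2) (hβ : β ≠ 0) (hρ : ρ ≠ 0) {c : ResidueField A}
    (hc : c ^ 2 = ρ) {U : F''} (hU : yOf a₀ U = θ) (h : yOf a₀ U ∈ Z) :
    (ptKBar q hq2 hβ hρ c hc).ord (resZ ⟨yOf a₀ U, h⟩) = 1 := by
  rw [res_yOf_of_vertComp H hU h]
  exact ord_U_ptK q hq2 hρ (vertBar_hb (q := q) (ρ := ρ) hβ) (vertBar_heq hβ) (vertBar_hgen hβ) hc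

end Vert

/-! ### The modular instance -/

section Modular

open Fermat.Agent.BR3.SDD.Modular Fermat.Agent.BR3.SplitNode Fermat.Agent.BR3.SplitModularRef
open Fermat.Agent.BR3.SRef Fermat.Agent.BR3.SRef.Modular Fermat.Agent.BR2.SetupOfData
open Fermat.Agent.BR3.VertResidue Fermat.Agent.BR3.VertPtsDef Fermat.Agent.BR3.VertSheet
open Fermat.Agent.BR3.KummerVertSide Fermat.Agent.BR3.KummerMidSide
open Fermat.Agent.BR3.KummerGenus.MidInst Fermat.Agent.BR3.MidKummerNodeOrd
open Fermat.Agent.BR.ConstRedTwo Fermat.Agent.BR.TwoValInst Fermat.Agent.BR.P1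
open Fermat.Agent.BR.Circle Fermat.Agent.BR3.ThickSDDPlug Fermat.Agent.BR.S0.ThickFinal

variable {M q : ℕ} [NeZero M] [hq : Fact q.Prime]

/-- the cover along `α₂` -/
local instance instAlgAlpha2KNO : Algebra (Fb (M * q)) (Fb (M * q * q)) :=
  algebraAlong (alpha2 M q)

local instance instTowerAlpha2KNO : IsScalarTower Kb (Fb (M * q)) (Fb (M * q * q)) :=
  isScalarTower_along (alpha2 M q)

local instance instFiniteAlpha2KNO : Module.Finite (Fb (M * q)) (Fb (M * q * q)) :=
  Fermat.Agent.Hecke.finiteAlong_heckeAlphaBar (M * q) q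

variable (B : ValuationSubring Kb) (hB : B.LiesOverPrime q) (hqM : ¬ q ∣ M)
  [IsAlgClosed (ResidueField B)] [CharP (ResidueField B) q]

local notation "kB" => ResidueField B
local notation "FtM" => modularFunctionFieldFullC (IsLocalRing.ResidueField B) M

/-- (shortcut instances) -/
local instance (priority := 100000) instAlgKFtKNO : Algebra kB FtM := inferInstance
local instance (priority := 100000) instAlgKFMidKNO : Algebra kB (FMid M B) := inferInstance
local instance (priority := 100000) instAlgFtFMidKNO : Algebra FtM (FMid M B) := inferInstance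
local instance (priority := 100000) instTowerMidKNO : IsScalarTower kB FtM (FMid M B) :=
  inferInstance

variable (h2 : nuTwo M = 0) (h3 : nuThree M = 0) (e : Crossing (chartDataModular B hB hqM))
  {g g' g'' : Fb M} (P : IsSSParam B hB hqM e g g' g'')
  {β ρ : ResidueField B} [Fact (Irreducible (vertBar q β ρ))]
  {Z : ValuationSubring (Fb (M * q * q))} {resZ : Z →+* AdjoinRoot (vertBar q β ρ)}
  (Hv : VertComp (core (DtM B hB hqM) e) (gaugeA q B hB hqM e) (admA B hB hqM h2 h3 e).1
    (admA B hB hqM h2 h3 e).2 Z resZ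
    (Ug M q g / alpha2 M q (algebraMap Kb (Fb (M * q)) (gaugeA q B hB hqM e))))
  (hq2 : q ≠ 2) (hβ : β ≠ 0) (hρ : ρ ≠ 0) {c : ResidueField B} (hc : c ^ 2 = ρ)
  {c₀ : B} (hc₀ : IsLocalRing.residue B c₀ = c / β)
  {ζ : Kbˣ} (hζ : IsPrimitiveRoot ζ q) {b : ℕ} (hb : b < q - 1)
  (hv : IsCoprime ((z₁ (chartDataModular B hB hqM) e).ord (deltaMid B hB hqM))
    (fMid M B hB : ℤ))
  {d : ℕ} (hqd : q = 2 * d + 1)

/-- the index type of the levels of the Kummer node `nk e s`: the levels of the outer node of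
`S'ref_a` at `e` whose constant field contains `ϖ₂` and `c₀` -/
abbrev idxKM (c₀ : B) : Type :=
  {i : idxOutA B hB hqM h2 h3 e //
    ∀ x ∈ ({pi2 q, (c₀ : Kb)} : Finset Kb), x ∈ ((levelsOutA B hB hqM h2 h3 e).level i).K'}

set_option maxHeartbeats 4000000 in
/-- **(N2-ODD) The data of the Kummer node `nk e s` of `S''`** (`q` odd): the middle component
`w₂ b` at the Kummer place over `z₁ e` —— the vertical component `z e` at its Kummer point
`ptKBar c`, on the raw tube `kummerTube B (tube S'ref_a (outer e)) X Y θ c₀` of the Kummer sheet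
(`X = ϖ₂ / U_g`, `Y = U_g / a₀`, `θ = α₂ u_e / X ^ d`). -/
def nodeOutKM
    (hθ₂ : ∃ h : thetaOf (annulusCoord (DtM B hB hqM) e) (pi2 q) (Ug M q g) d -
        algebraMap Kb (Fb (M * q * q)) (c₀ : Kb) ∈ w2 B hB hqM hζ hb,
      (pMidOver B hB hqM (z₁ (chartDataModular B hB hqM) e) hv).adicValuation
        (resMid B hB hqM hζ hb ⟨_, h⟩) < 1) :
    NodeOut B (residue B) (w2 B hB hqM hζ hb) (resMid B hB hqM hζ hb)
      (pMidOver B hB hqM (z₁ (chartDataModular B hB hqM) e) hv)
      Z resZ (ptKBar q hq2 hβ hρ c hc)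
      (kummerTube B
        (tube (srefM (DtM B hB hqM) (gaugeA q B hB hqM) (admA B hB hqM h2 h3))
          (outer (inputs (DtM B hB hqM)) (gaugeA q B hB hqM) (admA B hB hqM h2 h3) e))
        (xOf (pi2 q) (Ug M q g)) (yOf (gaugeA q B hB hqM e) (Ug M q g))
        (thetaOf (annulusCoord (DtM B hB hqM) e) (pi2 q) (Ug M q g) d) c₀)
      (idxKM B hB hqM h2 h3 e c₀) :=
  nodeOutK_comp (residue B) resZ (ptKBar q hq2 hβ hρ c hc) (resMid B hB hqM hζ hb)
    (pMidOver B hB hqM (z₁ (chartDataModular B hB hqM) e) hv)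
    (overComp_ptK Hv hq2 hβ hρ hc).res_eq_zero
    (overComp_mid B hB hqM hζ hb (z₁ (chartDataModular B hB hqM) e) hv).res_eq_zero
    (kummerHyp_modular B hB hqM h2 h3 e P Hv hq2 hβ hρ hc hc₀ hζ hb hv hqd hθ₂)
    (const_mem_of_vertComp Hv) (res_const_of_vertComp Hv)
    (fun a => ((constRedMid B hB hqM hζ hb).algebraMap_mem_iff _).mpr a.2)
    (fun a => (constRedMid B hB hqM hζ hb).res_algebraMap _ a.2 _)
    (fun h => ord_resMid_xOf' B hB hqM e hζ hb hq2 h2 h3 P hv
      (by rw [← map_pow, pi2_pow hq.out.one_lt]) h)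
    (fun h => ord_res_yOf_ptK Hv hq2 hβ hρ hc (yOf_eq_div (gaugeA q B hB hqM e) (Ug M q g)) h)

section Lemmas

variable
    (hθ₂ : ∃ h : thetaOf (annulusCoord (DtM B hB hqM) e) (pi2 q) (Ug M q g) d -
        algebraMap Kb (Fb (M * q * q)) (c₀ : Kb) ∈ w2 B hB hqM hζ hb,
      (pMidOver B hB hqM (z₁ (chartDataModular B hB hqM) e) hv).adicValuation
        (resMid B hB hqM hζ hb ⟨_, h⟩) < 1)

set_option maxHeartbeats 4000000 in
/-- the first coordinate of the Kummer node is `X = ϖ₂ / U_g` -/
theorem nodeOutKM_u :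
    (nodeOutKM B hB hqM h2 h3 e P Hv hq2 hβ hρ hc hc₀ hζ hb hv hqd hθ₂).L.u =
      xOf (pi2 q) (Ug M q g) := rfl

set_option maxHeartbeats 4000000 in
/-- the second coordinate of the Kummer node is `Y = U_g / a₀` -/
theorem nodeOutKM_v :
    (nodeOutKM B hB hqM h2 h3 e P Hv hq2 hβ hρ hc hc₀ hζ hb hv hqd hθ₂).L.v =
      yOf (gaugeA q B hB hqM e) (Ug M q g) := rfl

set_option maxHeartbeats 4000000 in
/-- the thickness of the Kummer node is `ϖ₂ / a₀` -/
theorem nodeOutKM_thick :
    (nodeOutKM B hB hqM h2 h3 e P Hv hq2 hβ hρ hc hc₀ hζ hb hv hqd hθ₂).L.thick =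
      pi2 q / gaugeA q B hB hqM e := rfl

set_option maxHeartbeats 4000000 in
/-- **(G3) `hK`** at `q` odd: `gaugeA e = κ₀ * thick ^ d` with `κ₀ = 1`. -/
theorem hK_nodeOutKM :
    gaugeA q B hB hqM e = 1 *
      (nodeOutKM B hB hqM h2 h3 e P Hv hq2 hβ hρ hc hc₀ hζ hb hv hqd hθ₂).L.thick ^ d :=
  (kummerHyp_modular B hB hqM h2 h3 e P Hv hq2 hβ hρ hc hc₀ hζ hb hv hqd hθ₂).thick_eq

set_option maxHeartbeats 4000000 in
/-- **the annulus sheet of degree `d` of the Kummer node** over the outer sub-annulus of `e`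
(coordinate `α₂ u_e`, thickness `gaugeA e`): `XK` of `hOuter_modular`. -/
def annSheetKM :
    Fermat.Agent.BR3.SDD.Partition.AnnSheet B
      (kummerTube B
        (tube (srefM (DtM B hB hqM) (gaugeA q B hB hqM) (admA B hB hqM h2 h3))
          (outer (inputs (DtM B hB hqM)) (gaugeA q B hB hqM) (admA B hB hqM h2 h3) e))
        (xOf (pi2 q) (Ug M q g)) (yOf (gaugeA q B hB hqM e) (Ug M q g))
        (thetaOf (annulusCoord (DtM B hB hqM) e) (pi2 q) (Ug M q g) d) c₀)
      (alpha2 M q (annulusCoord (DtM B hB hqM) e)) (gaugeA q B hB hqM e) d :=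
  annSheetK (kummerHyp_modular B hB hqM h2 h3 e P Hv hq2 hβ hρ hc hc₀ hζ hb hv hqd hθ₂)
    (map_one _)

set_option maxHeartbeats 4000000 in
/-- **the node chart of the Kummer node** (`chK e s` of `caseInputOfRaw`) -/
def chartKM :
    NodeChart B (w2 B hB hqM hζ hb) Z (resMid B hB hqM hζ hb) resZ
      (pMidOver B hB hqM (z₁ (chartDataModular B hB hqM) e) hv) (ptKBar q hq2 hβ hρ c hc)
      (kummerTube B
        (tube (srefM (DtM B hB hqM) (gaugeA q B hB hqM) (admA B hB hqM h2 h3))
          (outer (inputs (DtM B hB hqM)) (gaugeA q B hB hqM) (admA B hB hqM h2 h3) e))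
        (xOf (pi2 q) (Ug M q g)) (yOf (gaugeA q B hB hqM e) (Ug M q g))
        (thetaOf (annulusCoord (DtM B hB hqM) e) (pi2 q) (Ug M q g) d) c₀) :=
  (nodeOutKM B hB hqM h2 h3 e P Hv hq2 hβ hρ hc hc₀ hζ hb hv hqd hθ₂).chart
    residue_eq_zero_of_lt
    (fun x hx => ((overComp_mid B hB hqM hζ hb (z₁ (chartDataModular B hB hqM) e)
      hv).res_eq_zero x).mpr hx)
    (fun x hx => ((overComp_ptK Hv hq2 hβ hρ hc).res_eq_zero x).mpr hx)

end Lemmas

/-! ### (G4) the coordinate is fixed by the rich inertia elements -/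

section Equiv

open Fermat.Agent.BR3.VertEquivUg Fermat.Agent.BR.InertiaRed Fermat.Agent.BR.Inst.LevelsInst

omit [IsAlgClosed (ResidueField B)] [CharP (ResidueField B) q] in
include hB in
/-- **(G4)** the coordinate `X = ϖ₂ / U_g` of the Kummer nodes is fixed by the elements of the
inertia group fixing the uniformizer `unifSDD q`. -/
theorem galAut_smul_xOf {σ : GQ} (hσ : σ ∈ B.inertiaSubgroupIn ℚ)
    (hu : σ (unifSDD q) = unifSDD q) {g : Fb M} (hg : g ∈ CMod M (W0 B q) (K0 q)) :
    galAut (M * q * q) σ • xOf (pi2 q) (Ug M q g) = xOf (pi2 q) (Ug M q g) := by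
  haveI : NeZero q := ⟨hq.out.ne_zero⟩
  have h1 : SemilinearAut.baseAut (galAut (M * q * q) σ) (pi2 q) = pi2 q := by
    show σ (pi2 q) = pi2 q
    unfold pi2
    rw [map_pow, hu]
  unfold xOf
  rw [smul_mul', smul_inv'', SemilinearAut.smul_algebraMap, h1, galAut_smul_Ug B hB hσ hg]

end Equiv

end Modular

end Fermat.Agent.BR3.KummerNodeOutMod
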