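import Mathlib
import Fermat.Agent.BR3.KummerNodeOutMod
import Fermat.Agent.BR3.KummerNodeFam

/-!
# Program C (S36), node (N2-ODD), second engine, part 3 (family): the Kummer nodes `nk e s` of
`S''` at `q` odd, at the names of the frame, in the shape of `ModularNodeK.NodePkg`

With helper5's ONE choice `Z_e := zePackM B hB hqM h2 h3 e` per crossing and helper7's names
(`kumU`, `kumX`, `kumY`, `kumTheta`, `kumC0`, `kumTube`: `BR3/KummerNodeNames.lean`):

* `idxKum … e s` : the index type of the levels of `nk e s`;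
* **`nodeKum … e hζ hb hv hq2 s hθ₂`** : the bundle
  `NodeOut B (residue B) (w₂ b) (resMid b) (pMidOver (z₁ e) hv) Z_e.Z Z_e.resZ (zKM e s)
    (kumTube e s) (idxKum e s)` from helper7's `kummerHyp_kum` (named hypothesis `hθ₂`, any `b`);
* `nodeKum_u` (`= kumX e`), `nodeKum_v` (`= kumY e`), `nodeKum_thick` (`= pi2 q / gaugeA e`),
  **`hK_nodeKum`** : `gaugeA e = 1 * thick ^ midDeg q` ((G3) `hK`, `κ₀ = 1`), `annSheetKum`
  (degree `midDeg q`: `XK` of `hOuter_modular`), `chartKum` (the node chart `chK e s`);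
* **`galAut_smul_kumX`** : (G4) the coordinate `kumX e` is fixed by the inertia elements fixing
  `unifSDD q`;
* **`nodePkg_kum`** : the package of `ModularNodeK.NodePkg` (unfolded) at ANY middle component `i`
  with the residue fact `hθ₂` at `b := i.rep`;
* **`nodePkg_compU`** : the same at `i := compU hex hval e s`, hypothesis-free besides `q ≠ 2`
  (`hθ₂` from helper7's `KummerNodeFam.hθ₂_compU`): the producer of `ModularNodeK.NodeKOdd` at
  `comp := compU hex hval`, `tubeKodd := kumTube`.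
-/

set_option autoImplicit false
set_option linter.unusedSectionVars false
set_option linter.style.haveILetI false
set_option synthInstance.maxHeartbeats 400000
set_option maxHeartbeats 1600000

noncomputable section

/- S36 build-time patch: file-local shortcut instances. They only shorten instance search;
each is the instance that the search finds anyway (reducible, same terms after unfolding). -/
local instance (priority := 100000) Fermat.Agent.BR3.FastInst.instAlgFullC_KummerNodeOutFam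
    {k : Type*} [Field k] (N : ℕ) :
    Algebra k ↥(ModularCurve.modularFunctionFieldFullC k N) := inferInstance
local instance (priority := 100000) Fermat.Agent.BR3.FastInst.instFieldFullC_KummerNodeOutFam
    {k : Type*} [Field k] (N : ℕ) :
    Field ↥(ModularCurve.modularFunctionFieldFullC k N) := inferInstance
local instance (priority := 100000) Fermat.Agent.BR3.FastInst.instAlgLaurent_KummerNodeOutFam
    {k : Type*} [Field k] : Algebra k (LaurentSeries k) := inferInstance


namespace Fermat.Agent.BR3.KummerNodeOutFam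

open Polynomial ModularCurve AlgebraicCurve IsLocalRing
open Fermat.Agent.X0 Fermat.Agent.Val Fermat.Agent.Red Fermat.Agent.Hecke Fermat.Agent.Jac
open Fermat.Agent.BR.SS Fermat.Agent.BR.Refine Fermat.Agent.BR.Circle Fermat.Agent.BR.S0
open Fermat.Agent.BR.S0.RedModular Fermat.Agent.BR.S0.PointDict Fermat.Agent.BR.P1
open Fermat.Agent.BR.Final Fermat.Agent.BR.InertiaRed Fermat.Agent.BR.UnramCyclo
open Fermat.Agent.BR2.SetupOfData Fermat.Agent.BR3.CircleN Fermat.Agent.BR3.SRef
open Fermat.Agent.BR3.SRef.Modular Fermat.Agent.BR3.SDD.Modular Fermat.Agent.BR3.SplitNode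
open Fermat.Agent.BR3.FibreProd Fermat.Agent.BR3.HeckePoly Fermat.Agent.BR3.SSParam
open Fermat.Agent.BR3.VertResidue Fermat.Agent.BR3.VertPtsDef Fermat.Agent.BR3.VertPtsU
open Fermat.Agent.BR3.VertSheet Fermat.Agent.BR3.IgSq Fermat.Agent.BR3.ThickSDDPlug
open Fermat.Agent.BR3.KummerComps Fermat.Agent.BR3.KummerOfVert Fermat.Agent.BR3.KummerLevels
open Fermat.Agent.BR3.KummerModAbs Fermat.Agent.BR3.KummerVertSide Fermat.Agent.BR3.KummerMidSide
open Fermat.Agent.BR3.KummerGenus Fermat.Agent.BR3.KummerGenus.MidInst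
open Fermat.Agent.BR3.SplitBranch Fermat.Agent.BR3.SplitNodeChart
open Fermat.Agent.BR3.SepNComp Fermat.Agent.BR3.SepNCompRel Fermat.Agent.BR3.KummerCompMod
open Fermat.Agent.BR3.KummerCompUnif Fermat.Agent.BR3.KummerCompGlue
open Fermat.Agent.BR3.KummerNodeInputs Fermat.Agent.BR3.KummerNodeFam
open Fermat.Agent.BR3.KummerNodeOut Fermat.Agent.BR3.KummerNodeOutMod

variable {M q : ℕ} [NeZero M] [hq : Fact q.Prime]

/-- the cover along `α₂` -/
local instance instAlgAlpha2KNOF : Algebra (Fb (M * q)) (Fb (M * q * q)) :=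
  algebraAlong (alpha2 M q)

local instance instTowerAlpha2KNOF : IsScalarTower Kb (Fb (M * q)) (Fb (M * q * q)) :=
  isScalarTower_along (alpha2 M q)

local instance instFiniteAlpha2KNOF : Module.Finite (Fb (M * q)) (Fb (M * q * q)) :=
  Fermat.Agent.Hecke.finiteAlong_heckeAlphaBar (M * q) q

variable (B : ValuationSubring Kb) (hB : B.LiesOverPrime q) (hqM : ¬ q ∣ M)
  [IsAlgClosed (ResidueField B)] [CharP (ResidueField B) q]
  (h2 : nuTwo M = 0) (h3 : nuThree M = 0)

local notation "kB" => ResidueField B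
local notation "FtM" => modularFunctionFieldFullC (IsLocalRing.ResidueField B) M

/-- (shortcut instances) -/
local instance (priority := 100000) instAlgKFtKNOF : Algebra kB FtM := inferInstance
local instance (priority := 100000) instAlgKFMidKNOF : Algebra kB (FMid M B) := inferInstance
local instance (priority := 100000) instAlgFtFMidKNOF : Algebra FtM (FMid M B) := inferInstance
local instance (priority := 100000) instTowerMidKNOF : IsScalarTower kB FtM (FMid M B) :=
  inferInstance

section Node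

variable (e : Crossing (chartDataModular B hB hqM))
  {ζ : Kbˣ} (hζ : IsPrimitiveRoot ζ q) {b : ℕ} (hb : b < q - 1)
  (hv : IsCoprime ((z₁ (chartDataModular B hB hqM) e).ord (deltaMid B hB hqM))
    (fMid M B hB : ℤ))

/-- the index type of the levels of the Kummer node `nk e s`: the levels of the outer node of
`S'ref_a` at `e` whose constant field contains `ϖ₂ = pi2 q` and `c₀ e s` -/
abbrev idxKum (s : KPq q) : Type :=
  {i : idxOutA B hB hqM h2 h3 e //
    ∀ x ∈ ({pi2 q, ((kumC0 B hB hqM h2 h3 e s : B) : Kb)} : Finset Kb),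
      x ∈ ((levelsOutA B hB hqM h2 h3 e).level i).K'}

set_option maxHeartbeats 4000000 in
/-- `Y_e = U_e / a₀` reduces on `z e` to a local parameter at the Kummer points (`q` odd) -/
theorem ord_res_kumY (hq2 : q ≠ 2) (s : KPq q)
    (h : kumY B hB hqM h2 h3 e ∈ (zePackM B hB hqM h2 h3 e).Z) :
    (zKM B hB hqM h2 h3 e s).ord
      ((zePackM B hB hqM h2 h3 e).resZ ⟨kumY B hB hqM h2 h3 e, h⟩) = 1 := by
  have h1 : (zePackM B hB hqM h2 h3 e).resZ ⟨kumY B hB hqM h2 h3 e, h⟩ =
      AdjoinRoot.root (vertBar q (zePackM B hB hqM h2 h3 e).β (zePackM B hB hqM h2 h3 e).ρ) :=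
    res_yOf_of_vertComp (vertCompM B hB hqM h2 h3 e)
      (yOf_eq_div (gaugeA q B hB hqM e) (kumU B hB hqM h2 h3 e)) h
  rw [h1, zKM_eq, ord_U_ptKFam, if_neg hq2]

set_option maxHeartbeats 4000000 in
/-- `X_e = ϖ₂ / U_e` reduces on the middle component `w₂ b` to a local parameter at the Kummer
place over `z₁ e` (`q` odd) -/
theorem ord_res_kumX (hq2 : q ≠ 2) (h : kumX B hB hqM h2 h3 e ∈ w2 B hB hqM hζ hb) :
    (pMidOver B hB hqM (z₁ (chartDataModular B hB hqM) e) hv).ord
      (resMid B hB hqM hζ hb ⟨kumX B hB hqM h2 h3 e, h⟩) = 1 :=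
  ord_resMid_xOf' B hB hqM e hζ hb hq2 h2 h3 (zePackM B hB hqM h2 h3 e).P hv
    (by rw [← map_pow, pi2_pow hq.out.one_lt]) h

variable (hq2 : q ≠ 2) (s : KPq q)
  (hθ₂ : ∃ h : kumTheta B hB hqM h2 h3 e -
      algebraMap Kb (Fb (M * q * q)) ((kumC0 B hB hqM h2 h3 e s : B) : Kb) ∈
        w2 B hB hqM hζ hb,
    (pMidOver B hB hqM (z₁ (chartDataModular B hB hqM) e) hv).adicValuation
      (resMid B hB hqM hζ hb ⟨_, h⟩) < 1)

set_option maxHeartbeats 4000000 in
/-- **(N2-ODD) The data of the Kummer node `nk e s` of `S''`** (`q` odd) at the names of the frame: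
the middle component `w₂ b` at the Kummer place over `z₁ e` —— the vertical component `z e` at its
Kummer point `zKM e s`, on the raw tube `kumTube e s`. -/
def nodeKum :
    NodeOut B (residue B) (w2 B hB hqM hζ hb) (resMid B hB hqM hζ hb)
      (pMidOver B hB hqM (z₁ (chartDataModular B hB hqM) e) hv)
      (zePackM B hB hqM h2 h3 e).Z (zePackM B hB hqM h2 h3 e).resZ (zKM B hB hqM h2 h3 e s)
      (kumTube B hB hqM h2 h3 e s) (idxKum B hB hqM h2 h3 e s) :=
  nodeOutK_comp (residue B) (zePackM B hB hqM h2 h3 e).resZ (zKM B hB hqM h2 h3 e s)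
    (resMid B hB hqM hζ hb) (pMidOver B hB hqM (z₁ (chartDataModular B hB hqM) e) hv)
    (kum_res_eq_zero B hB hqM h2 h3 e)
    (overComp_mid B hB hqM hζ hb (z₁ (chartDataModular B hB hqM) e) hv).res_eq_zero
    (kummerHyp_kum B hB hqM h2 h3 e hζ hb hv hq2 s hθ₂)
    (const_mem_of_vertComp (vertCompM B hB hqM h2 h3 e))
    (res_const_of_vertComp (vertCompM B hB hqM h2 h3 e))
    (fun a => ((constRedMid B hB hqM hζ hb).algebraMap_mem_iff _).mpr a.2)
    (fun a => (constRedMid B hB hqM hζ hb).res_algebraMap _ a.2 _)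
    (fun h => ord_res_kumX B hB hqM h2 h3 e hζ hb hv hq2 h)
    (fun h => ord_res_kumY B hB hqM h2 h3 e hq2 s h)

set_option maxHeartbeats 4000000 in
/-- the first coordinate of `nk e s` is `X_e = ϖ₂ / U_e` -/
theorem nodeKum_u :
    (nodeKum B hB hqM h2 h3 e hζ hb hv hq2 s hθ₂).L.u = kumX B hB hqM h2 h3 e := rfl

set_option maxHeartbeats 4000000 in
/-- the second coordinate of `nk e s` is `Y_e = U_e / a₀` -/
theorem nodeKum_v :
    (nodeKum B hB hqM h2 h3 e hζ hb hv hq2 s hθ₂).L.v = kumY B hB hqM h2 h3 e := rfl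

set_option maxHeartbeats 4000000 in
/-- the thickness of `nk e s` is `ϖ₂ / a₀` -/
theorem nodeKum_thick :
    (nodeKum B hB hqM h2 h3 e hζ hb hv hq2 s hθ₂).L.thick = pi2 q / gaugeA q B hB hqM e := rfl

set_option maxHeartbeats 4000000 in
/-- **(G3) `hK`** at `q` odd: `gaugeA e = κ₀ * thick ^ midDeg q` with `κ₀ = 1`. -/
theorem hK_nodeKum :
    gaugeA q B hB hqM e =
      1 * (nodeKum B hB hqM h2 h3 e hζ hb hv hq2 s hθ₂).L.thick ^ midDeg q :=
  (kummerHyp_kum B hB hqM h2 h3 e hζ hb hv hq2 s hθ₂).thick_eq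

set_option maxHeartbeats 4000000 in
/-- **the annulus sheet of degree `midDeg q` of `nk e s`** over the outer sub-annulus of `e`
(coordinate `α₂ u_e`, thickness `gaugeA e`): `XK` of `hOuter_modular`. -/
def annSheetKum :
    Fermat.Agent.BR3.SDD.Partition.AnnSheet B (kumTube B hB hqM h2 h3 e s)
      (alpha2 M q (annulusCoord (DtM B hB hqM) e)) (gaugeA q B hB hqM e) (midDeg q) :=
  annSheetK (kummerHyp_kum B hB hqM h2 h3 e hζ hb hv hq2 s hθ₂) (map_one _)

set_option maxHeartbeats 4000000 in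
/-- **the node chart of `nk e s`** (`chK e s` of `caseInputOfRaw`) -/
def chartKum :
    NodeChart B (w2 B hB hqM hζ hb) (zePackM B hB hqM h2 h3 e).Z (resMid B hB hqM hζ hb)
      (zePackM B hB hqM h2 h3 e).resZ
      (pMidOver B hB hqM (z₁ (chartDataModular B hB hqM) e) hv) (zKM B hB hqM h2 h3 e s)
      (kumTube B hB hqM h2 h3 e s) :=
  (nodeKum B hB hqM h2 h3 e hζ hb hv hq2 s hθ₂).chart residue_eq_zero_of_lt
    (fun x hx => ((overComp_mid B hB hqM hζ hb (z₁ (chartDataModular B hB hqM) e)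
      hv).res_eq_zero x).mpr hx)
    (fun x hx => (kum_res_eq_zero B hB hqM h2 h3 e x).mpr hx)

end Node

/-! ### (G4) -/

section Equiv

variable (e : Crossing (chartDataModular B hB hqM))

/-- **(G4)** the coordinate `X_e` of the Kummer nodes is fixed by the elements of the inertia group
fixing the uniformizer `unifSDD q`. -/
theorem galAut_smul_kumX {σ : GQ} (hσ : σ ∈ B.inertiaSubgroupIn ℚ)
    (hu : σ (unifSDD q) = unifSDD q) :
    galAut (M * q * q) σ • kumX B hB hqM h2 h3 e = kumX B hB hqM h2 h3 e :=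
  galAut_smul_xOf B hB hσ hu (zePackM B hB hqM h2 h3 e).P.hg

end Equiv

/-! ### The package of `ModularNodeK.NodePkg` -/

section Pkg

variable {ζ : Kbˣ} (hζ : IsPrimitiveRoot ζ q)

set_option maxHeartbeats 4000000 in
/-- **The package of the Kummer node `nk e s` at `q` odd** in the shape of
`ModularNodeK.NodePkg` (unfolded), at ANY middle component `i` at whose Kummer place over `z₁ e`
the function `θ_e` takes the value `c₀ e s` (`hθ₂`): the bundle on the components
`(CM i).O`, `z e`, `κ = 1`, `gaugeA e = κ * thick ^ midDeg q`, and the coordinate is fixed by the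
rich inertia elements. -/
theorem nodePkg_kum (hq2 : q ≠ 2) (e : SSpM B hB hqM) (s : KPq q) (i : MidM B hB hqM hζ)
    (hv : IsCoprime ((z₁ (chartDataModular B hB hqM) e).ord (deltaMid B hB hqM))
      (fMid M B hB : ℤ))
    (hθ₂ : ∃ h : kumTheta B hB hqM h2 h3 e -
        algebraMap Kb (Fb (M * q * q)) ((kumC0 B hB hqM h2 h3 e s : B) : Kb) ∈
          w2 B hB hqM hζ (i.rep B hB hqM hζ).2,
      (pMidOver B hB hqM (z₁ (chartDataModular B hB hqM) e) hv).adicValuation
        (resMid B hB hqM hζ (i.rep B hB hqM hζ).2 ⟨_, h⟩) < 1) :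
    ∃ (ι : Type) (N : NodeOut B (residue B) (CM B hB hqM hζ i).O (CM B hB hqM hζ i).res
        (pMidOver B hB hqM (z₁ (chartDataModular B hB hqM) e) hv)
        (zePackM B hB hqM h2 h3 e).Z (zePackM B hB hqM h2 h3 e).resZ (zKM B hB hqM h2 h3 e s)
        (kumTube B hB hqM h2 h3 e s) ι) (κ : Kb),
      B.valuation κ = 1 ∧ gaugeA q B hB hqM e = κ * N.L.thick ^ midDeg q ∧
      ∀ σ ∈ B.inertiaSubgroupIn ℚ, σ (unifSDD q) = unifSDD q →
        (∀ a ∈ cycloField Kb q, σ a = a) → (∀ ζ' : Kb, ζ' ^ q = 1 → σ ζ' = ζ') →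
        galAut (M * q * q) σ • N.L.u = N.L.u :=
  ⟨idxKum B hB hqM h2 h3 e s,
    nodeKum B hB hqM h2 h3 e hζ (i.rep B hB hqM hζ).2 hv hq2 s hθ₂, 1, map_one _,
    hK_nodeKum B hB hqM h2 h3 e hζ (i.rep B hB hqM hζ).2 hv hq2 s hθ₂,
    fun _ hσ hu _ _ => galAut_smul_kumX B hB hqM h2 h3 e hσ hu⟩

variable [Nonempty (MidM B hB hqM hζ)]
  (hcop : ∀ e : SSpM B hB hqM,
    IsCoprime ((z₁ (chartDataModular B hB hqM) e).ord (deltaMid B hB hqM)) (fMid M B hB : ℤ))
  (hex : q ≠ 2 → ∀ e j, ∃ s, ValAt (CM B hB hqM hζ)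
    (MidFamily.pMid B hB hqM (z₁ (chartDataModular B hB hqM)) hcop)
    (kumTheta B hB hqM h2 h3)
    (fun e s => IsLocalRing.residue B (kumC0 B hB hqM h2 h3 e s)) e j s)
  (hval : ∀ hq2 : q ≠ 2, ∀ e, Function.Bijective (val (hex hq2) e))

set_option maxHeartbeats 4000000 in
/-- **The Kummer nodes at `q` odd for THE map `comp := compU hex hval` of the final call**,
hypothesis-free besides `q ≠ 2`: the producer of `ModularNodeK.NodeKOdd` at
`tubeKodd := kumTube`. -/
theorem nodePkg_compU (hq2 : q ≠ 2) (e : SSpM B hB hqM) (s : KPq q) :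
    ∃ (ι : Type) (N : NodeOut B (residue B) (CM B hB hqM hζ (compU hex hval e s)).O
        (CM B hB hqM hζ (compU hex hval e s)).res
        (pMidOver B hB hqM (z₁ (chartDataModular B hB hqM) e) (hcop e))
        (zePackM B hB hqM h2 h3 e).Z (zePackM B hB hqM h2 h3 e).resZ (zKM B hB hqM h2 h3 e s)
        (kumTube B hB hqM h2 h3 e s) ι) (κ : Kb),
      B.valuation κ = 1 ∧ gaugeA q B hB hqM e = κ * N.L.thick ^ midDeg q ∧
      ∀ σ ∈ B.inertiaSubgroupIn ℚ, σ (unifSDD q) = unifSDD q →
        (∀ a ∈ cycloField Kb q, σ a = a) → (∀ ζ' : Kb, ζ' ^ q = 1 → σ ζ' = ζ') →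
        galAut (M * q * q) σ • N.L.u = N.L.u :=
  nodePkg_kum B hB hqM h2 h3 hζ hq2 e s (compU hex hval e s) (hcop e)
    (hθ₂_compU B hB hqM h2 h3 hζ hcop hex hval hq2 e s)

end Pkg

end Fermat.Agent.BR3.KummerNodeOutFam
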