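import Mathlib
import Fermat.Agent.BR3.SplitModularTw
import Fermat.Agent.BR3.KummerModAbs
import Fermat.Agent.BR3.SubAnnPlaces.Branch

/-!
# Program C (S36), node (I7-N-KUM), layer 2b-4 (helper8): THE KUMMER SHEETS OF
`X₀(M q²) → X₀(M q)` (ALONG `α₂`) OVER THE OUTER SUB-ANNULUS OF A SUPERSINGULAR CROSSING, `g`-FRAME

The Kummer twin of helper19's `BR3/SplitModularTw` (the split sheet `nT e`): at EVERY supersingular
crossing `e` of main's two-component model of `X₀(M q)`, for a twisted triple `(g, g', g'')` with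
simple zeros at `e` (`SSParam.IsSSParam`), over levels `L'` of the outer sub-annulus
`{|ρ| < |u| < 1}` with `H : SplitModular.OuterHyp … L' idx ρ`:

* `branchComp_outer_can`, `branchComp_outer_circle` : the branch data of helper5's
  `SubAnnChart.outerLevels` on the component `'can'` at `z₁ e` and on the critical circle at `∞`
  (the inputs `X₂`, `X₁` of `KummerComps.VertAlg.kummerHyp_frame`);
* `eta_mem`, `eta_inv_mem` : `η₁ = v_g / u` is a unit of every level (`v_g = α g - (β g')^q`);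
* `Ug_mem_FKs`;
* **`exists_vertAlgTw`** : the algebraic half `KummerComps.VertAlg L' (Ug M q g) c₀ κ₀ ϖ₂ γ₂ q d …`
  of the data of the Kummer sheet `θ ≡ c₀`, the constant `c₀` being given by the value of `θ` at
  the Kummer point `Q₁` of the vertical component (`hθ₁`; `KummerModAbs.hc₀_of_value`);
* **`kummerHypTw`** : `KummerLevels.KummerHyp L' X Y θ (Ug M q g) c₀ κ₀ (ϖ₂ / L'.thick) d …`.
-/

set_option autoImplicit false
set_option linter.unusedSectionVars false
set_option linter.style.haveILetI false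
set_option synthInstance.maxHeartbeats 400000
set_option maxHeartbeats 1600000

noncomputable section

namespace Fermat.Agent.BR3.KummerNodeTw

open Polynomial ModularCurve AlgebraicCurve IsLocalRing
open Fermat.Agent.X0 Fermat.Agent.Val Fermat.Agent.Red Fermat.Agent.BR.Kron
open Fermat.Agent.BR.Centre Fermat.Agent.BR.SS Fermat.Agent.BR.Refine
open Fermat.Agent.BR.S0 Fermat.Agent.BR.S0.RedModular Fermat.Agent.BR.S0.PointDict
open Fermat.Agent.BR.Inst.AnnulusInstFinal Fermat.Agent.BR.Inst.NodeInstFinal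
open Fermat.Agent.BR.Inst.Levels
open Fermat.Agent.BR.Inst.FKCover Fermat.Agent.BR.Final
open Fermat.Agent.BR3.FibreProd Fermat.Agent.BR3.VertTaylor Fermat.Agent.BR3.VertTaylorAt
open Fermat.Agent.BR3.CircleN
open Fermat.Agent.BR3.SplitBranch Fermat.Agent.BR3.SplitNodeChart Fermat.Agent.BR3.SplitCoord
open Fermat.Agent.Good.Bridge
open Fermat.Agent.BR3.SplitModular Fermat.Agent.BR3.SplitModularTw Fermat.Agent.BR3.HeckePoly
open Fermat.Agent.BR3.SSParam Fermat.Agent.BR.Circle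
open Fermat.Agent.BR3.KummerOfVert Fermat.Agent.BR3.KummerComps Fermat.Agent.BR3.KummerLevels
open Fermat.Agent.BR3.KummerModAbs Fermat.Agent.BR3.SubAnnChart Fermat.Agent.BR3.SubAnnPlaces
open Fermat.Agent.BR.P1 Fermat.Agent.BR.S0.ThickFinal
open Fermat.Agent.BR3.VertAll Fermat.Agent.BR3.VertAllParam Fermat.Agent.BR3.VertAllLevels

variable {M q : ℕ} [NeZero M] [hq : Fact q.Prime]

/-- the cover along `α₂` -/
local instance instAlgAlpha2K : Algebra (Fb (M * q)) (Fb (M * q * q)) :=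
  algebraAlong (alpha2 M q)

local instance instTowerAlpha2K : IsScalarTower Kb (Fb (M * q)) (Fb (M * q * q)) :=
  isScalarTower_along (alpha2 M q)

local instance instFiniteAlpha2K : Module.Finite (Fb (M * q)) (Fb (M * q * q)) :=
  Fermat.Agent.Hecke.finiteAlong_heckeAlphaBar (M * q) q

variable (B : ValuationSubring Kb) (hB : B.LiesOverPrime q) (hqM : ¬ q ∣ M)
  [IsAlgClosed (ResidueField B)] [CharP (ResidueField B) q]
  (hne : Nonempty (Crossing (chartDataModular B hB hqM)))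
  (e : Crossing (chartDataModular B hB hqM))

local notation "kB" => ResidueField B

/-- (shortcut instance: the search through the generic instances costs seconds per declaration) -/
local instance (priority := 100000) instAlgebraFtMShortcutK :
    Algebra kB (modularFunctionFieldFullC kB M) :=
  inferInstance

/-! ### The branch data of the levels of the outer half on the two components of the base -/

section Branch

variable {ρ : Kb}
  (h1 : B.valuation (annulusLevels_modular_final B hB hqM hne e).thick < B.valuation ρ)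
  (h2' : B.valuation ρ < 1)

omit [CharP (ResidueField B) q] in
set_option maxHeartbeats 4000000 in
/-- the branch data of helper5's levels of the outer half on the component `'can'` at `z₁ e` -/
theorem branchComp_outer_can :
    BranchComp (residue B) (compW B hB hqM 0).O (compW B hB hqM 0).res
      (z₁ (chartDataModular B hB hqM) e) (outerLevels B hB hqM hne e h1 h2') := by
  have X := branchDataN_final B hB hqM hne e
  have X0 := branchComp_src X
  refine { le := ?_, branch := ?_, const_mem := X0.const_mem, const := X0.const }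
  · intro i y hy
    exact ((outer_src X ρ h1 h2' i.2).1 y hy).1
  · intro i y hy
    obtain ⟨_, hlt⟩ := (outer_src X ρ h1 h2' i.2).2 y hy
    exact hlt

omit [CharP (ResidueField B) q] in
set_option maxHeartbeats 4000000 in
/-- the branch data of helper5's levels of the outer half on the critical circle at `∞` -/
theorem branchComp_outer_circle
    (ha1 : B.valuation (annulusLevels_modular_final B hB hqM hne e).core.thick < B.valuation ρ) :
    BranchComp (residue B)
      (circleRing (annulusLevels_modular_final B hB hqM hne e).core ρ ha1 h2')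
      (circleRes (annulusLevels_modular_final B hB hqM hne e).core ρ ha1 h2')
      (placeInfty kB) (outerLevels B hB hqM hne e h1 h2') := by
  have key := fun i : {S : Finset Kb //
      ρ ∈ ((annulusLevels_modular_final B hB hqM hne e).level S).K'} =>
    outer_circle (annulusLevels_modular_final B hB hqM hne e)
      (annulusLevels_modular_final B hB hqM hne e).core rfl ρ ha1 h2' h1 i.2
  refine { le := ?_, branch := ?_, const_mem := ?_, const := ?_ }
  · intro i y hy
    exact ((key i).1 y hy).1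
  · intro i y hy
    obtain ⟨_, hlt⟩ := (key i).2 y hy
    exact hlt
  · intro a
    exact (algebraMap_mem_circleRing_iff _ ρ ha1 h2' (a : Kb)).mpr a.2
  · intro a
    exact circleRes_algebraMap _ ρ ha1 h2' (a : Kb) a.2 _

end Branch

/-! ### The unit `η₁ = v_g / u` -/

section Eta

open Fermat.Agent.BR3.VertAll Fermat.Agent.BR3.VertAllParam Fermat.Agent.BR3.VertAllLevels
open Fermat.Agent.BR3.HeckePolyDescent Fermat.Agent.BR3.HeckePolyModel
open Fermat.Agent.BR3.ThickOneFinal Fermat.Agent.BR3.ThickOneUnit Fermat.Agent.BR3.VertTube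
open Fermat.Agent.BR3.VertFinal Fermat.Agent.BR.S0.ThickFinal

variable (h2 : nuTwo M = 0) (h3 : nuThree M = 0) {g g' g'' : Fb M}
  (Hp : IsSSParam B hB hqM e g g' g'')

include Hp h2 h3 in
set_option maxHeartbeats 4000000 in
/-- **The coordinate `u` of the tube of `e` divides `v_g` in every level** (with helper19's
`SplitModularTw.u_mul_vg_inv_mem`: `η₁ = v_g / u` is a unit of every level). -/
theorem vg_mul_u_inv_mem (S : Finset Kb) :
    (heckeAlphaBar Kb M q g - heckeBetaBar Kb M q g' ^ q) *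
        (annulusLevels_modular_final B hB hqM hne e).u⁻¹ ∈
      ((annulusLevels_modular_final B hB hqM hne e).level S).R := by
  obtain ⟨Ψ₁, hΨR, hP, hz, hR⟩ := exists_frameData B hB hqM hne e h2 h3 Hp
  have hαR := alpha_mem_level B hB hqM hne e Hp.hg
  have hβ'R := beta_mem_level B hB hqM hne e Hp.hg'
  have hβ''R := beta_mem_level B hB hqM hne e Hp.hg''
  have hx : heckeAlphaBar Kb M q g - (heckeBetaBar Kb M q g') ^ q ∈
      ((annulusLevels_modular_final B hB hqM hne e).level (∅ : Finset Kb)).R :=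
    sub_mem hαR (pow_mem hβ'R q)
  have hy : heckeBetaBar Kb M q g'' - (heckeAlphaBar Kb M q g) ^ q ∈
      ((annulusLevels_modular_final B hB hqM hne e).level (∅ : Finset Kb)).R :=
    sub_mem hβ''R (pow_mem hαR q)
  have hxyz := vg_mul_ug (M := M) (q := q) hqM hP
  have X := branchDataN_final B hB hqM hne e
  refine level_mono B hB hqM hne e (Finset.empty_subset S) ?_
  exact coord_inv_mul_mem (branchComp_src X) (branchComp_tgt X) residue_eq_zero_of_lt
    (u_notMem_nonunits_of_unif (branchComp_src X) (res_eq_zero_of_nonunits _)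
      residue_eq_zero_of_lt X.v_src X.unif₁)
    (v_notMem_nonunits_of_unif (branchComp_tgt X) (res_eq_zero_of_nonunits _)
      residue_eq_zero_of_lt X.u_tgt X.unif₂) ∅ hx hy hz hR hxyz
    (valuation_thick_levels_final B hB hqM h2 h3 hne e).symm
    (ug_notMem_nonunits B hB hqM e Hp)

end Eta

/-! ### The Kummer sheets over the outer sub-annulus, `g`-frame -/

section Outer

variable (h2 : nuTwo M = 0) (h3 : nuThree M = 0) {g g' g'' : Fb M}
  (Hp : IsSSParam B hB hqM e g g' g'')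

variable {T' : Set (Place Kb (Fb (M * q)))} {ι' : Type*}
variable {B hB hqM hne e}
variable {L' : AnnulusLevels B T' ι'} {idx : ι' → Finset Kb} {ρ : Kb}
  (H : OuterHyp B hB hqM hne e L' idx ρ) (hK0 : ∀ i', K0 q ≤ (L'.level i').K')

include Hp in
/-- `U_g` lies in the function field of every field of constants containing `K₀` -/
theorem Ug_mem_FKs {E : Subfield Kb} (hE : K0 q ≤ E) : Ug M q g ∈ FKs (M * q * q) E := by
  have hg := mem_FKs_of_mem_CMod B Hp.hg hE
  have hα : heckeAlphaBar Kb M q g ∈ FKs (M * q) E := heckeAlpha_mem_FKs M q E hg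
  have hβ : heckeBetaBar Kb M q g ∈ FKs (M * q) E := heckeBeta_mem_FKs M q E hg
  exact sub_mem (heckeBeta_mem_FKs (M * q) q E hβ) (heckeAlpha_mem_FKs (M * q) q E hα)

variable {k : Type*} [Field k]
  {Ft₁b Ft₂b Ft₁ Ft₂ : Type*} [Field Ft₁b] [Field Ft₂b] [Field Ft₁] [Field Ft₂]
  [Algebra k Ft₁b] [Algebra k Ft₂b] [Algebra k Ft₁] [Algebra k Ft₂]
  [Algebra Ft₁b Ft₁] [Algebra Ft₂b Ft₂] [IsScalarTower k Ft₁b Ft₁] [IsScalarTower k Ft₂b Ft₂]
  {π : B →+* k} {O₁b O₂b : ValuationSubring (Fb (M * q))} {res₁b : O₁b →+* Ft₁b}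
  {res₂b : O₂b →+* Ft₂b} {Q₁b : Place k Ft₁b} {Q₂b : Place k Ft₂b}
  {O₁ O₂ : ValuationSubring (Fb (M * q * q))} {res₁ : O₁ →+* Ft₁} {res₂ : O₂ →+* Ft₂}
  {Q₁ : Place k Ft₁} {Q₂ : Place k Ft₂}

include H Hp h2 h3 in
set_option maxHeartbeats 4000000 in
/-- **(N2, `g`-frame) The algebraic half of the data of the Kummer sheet `θ ≡ c₀` of
`X₀(M q²) → X₀(M q)` (along `α₂`) over the outer sub-annulus of the crossing `e`, at EVERY
supersingular crossing**: the constant `c₀` is the value of `θ` at the Kummer point `Q₁` of the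
vertical component (`hθ₁`). -/
theorem exists_vertAlgTw {c₀ : B} {κ₀ ϖ₂ γ₂ : Kb} {d : ℕ} (hqd : q = 2 * d + 1) (hd : 1 ≤ d)
    (ϖ₂_ne : ϖ₂ ≠ 0) (thick₂_lt : B.valuation (ϖ₂ / L'.thick) < 1)
    (thick_eq : L'.thick = κ₀ * (ϖ₂ / L'.thick) ^ d)
    (κ₀_mem : κ₀ ∈ B) (κ₀_memK : ∀ i, κ₀ ∈ (L'.level i).K')
    (ϖ₂_mem : ϖ₂ ∈ B) (ϖ₂_memK : ∀ i, ϖ₂ ∈ (L'.level i).K')
    (hγ₂ : ((q : ℕ) : Kb) = γ₂ * ϖ₂ ^ (q - 1)) (γ₂_mem : γ₂ ∈ B)
    (γ₂_memK : ∀ i, γ₂ ∈ (L'.level i).K')
    (q_lt : B.valuation ((q : ℕ) : Kb) < 1) (two_unit : B.valuation (2 : Kb) = 1)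
    (c₀_unit : B.valuation (c₀ : Kb) = 1) (c₀_mem : ∀ i, (c₀ : Kb) ∈ (L'.level i).K')
    (hπ0 : ∀ a : B, B.valuation (a : Kb) < 1 → π a = 0)
    (X₁ : BranchComp π O₁b res₁b Q₁b L') (C₁ : OverComp O₁b res₁b Q₁b O₁ res₁ Q₁)
    (hY₁ : ∃ h : yOf L'.thick (Ug M q g) ∈ O₁,
      Q₁.adicValuation (res₁ ⟨_, h⟩) < 1 ∧ res₁ ⟨_, h⟩ ≠ 0)
    (hθ₁ : ∃ h : thetaOf L'.u ϖ₂ (Ug M q g) d - algebraMap Kb (Fb (M * q * q)) (c₀ : Kb) ∈ O₁,
      Q₁.adicValuation (res₁ ⟨_, h⟩) < 1) :
    ∃ (Bc A₀ Rr η₁ : Fb (M * q)) (Hp' : (Fb (M * q))[X]),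
      VertAlg L' (Ug M q g) c₀ κ₀ ϖ₂ γ₂ q d Bc A₀ Rr η₁ Hp' := by
  obtain ⟨Ψ₁, hΨR, hP, hz, hR⟩ := exists_frameData B hB hqM hne e h2 h3 Hp
  have hmono : ∀ i', ((annulusLevels_modular_final B hB hqM hne e).level (∅ : Finset Kb)).R ≤
      (L'.level i').R := fun i' =>
    le_trans (level_mono B hB hqM hne e (Finset.empty_subset (idx i'))) (H.le i')
  have hu0 : (annulusLevels_modular_final B hB hqM hne e).u ≠ 0 :=
    (annulusLevels_modular_final B hB hqM hne e).u_ne_zero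
  have hv0 := vg_ne_zero B hB hqM e Hp
  have hη : heckeAlphaBar Kb M q g - heckeBetaBar Kb M q g' ^ q =
      L'.u * ((heckeAlphaBar Kb M q g - heckeBetaBar Kb M q g' ^ q) *
        (annulusLevels_modular_final B hB hqM hne e).u⁻¹) := by
    rw [H.u_eq]
    field_simp
  have hηinv : ((heckeAlphaBar Kb M q g - heckeBetaBar Kb M q g' ^ q) *
      (annulusLevels_modular_final B hB hqM hne e).u⁻¹)⁻¹ =
      (annulusLevels_modular_final B hB hqM hne e).u *
        (heckeAlphaBar Kb M q g - heckeBetaBar Kb M q g' ^ q)⁻¹ := by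
    rw [mul_inv, inv_inv]
    exact mul_comm _ _
  have hUr : Ug M q g ∉ Set.range (algebraMap (Fb (M * q)) (Fb (M * q * q))) := by
    rintro ⟨u, hu⟩
    exact Ug_notMem_range_alpha2' B hB hqM hne e h2 h3 Hp ⟨u, hu⟩
  have hfin : Module.finrank (Fb (M * q)) (Fb (M * q * q)) = q := finrankAlong_alpha2
  refine ⟨_, _, _, _, _, vertAlg_of_kronecker_value L' (P := PAt M q g) (Ψ₁ := Ψ₁)
    (x₁ := heckeBetaBar Kb M q g') (x₂ := heckeBetaBar Kb M q g'') (y := heckeAlphaBar Kb M q g)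
    (η₁ := (heckeAlphaBar Kb M q g - heckeBetaBar Kb M q g' ^ q) *
      (annulusLevels_modular_final B hB hqM hne e).u⁻¹)
    hq.out hqd hd hfin hP (PAt_monic g) (PAt_natDegree hqM g) (PAt_eval_alpha hqM g)
    (Fermat.Agent.BR3.KummerAlgMod.aeval_PAt_add_Ug (fun _ => rfl) g) hUr ϖ₂_ne thick₂_lt thick_eq
    κ₀_mem κ₀_memK ϖ₂_mem ϖ₂_memK hγ₂ γ₂_mem γ₂_memK q_lt two_unit c₀_unit c₀_mem
    (fun i' => hmono i' (beta_mem_level B hB hqM hne e Hp.hg'))
    (fun i' => hmono i' (beta_mem_level B hB hqM hne e Hp.hg''))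
    (fun i' => hmono i' (alpha_mem_level B hB hqM hne e Hp.hg))
    (fun i' n => hmono i' (hΨR n)) hη (mul_ne_zero hv0 (inv_ne_zero hu0))
    (fun i' => H.le i' (vg_mul_u_inv_mem B hB hqM hne e h2 h3 Hp (idx i')))
    (fun i' => by
      rw [hηinv]
      exact H.le i' (u_mul_vg_inv_mem B hB hqM hne e h2 h3 Hp (idx i')))
    hπ0 X₁ C₁ hY₁ hθ₁ (Fermat.Agent.BR.Inst.AnnulusInstAux.finite_div_modular (M * q * q))⟩

include H hK0 Hp in
set_option maxHeartbeats 4000000 in
/-- **(N2, `g`-frame) The hypotheses of the Kummer sheet `θ ≡ c₀` of `X₀(M q²) → X₀(M q)` (along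
`α₂`) over the outer sub-annulus of the crossing `e`**, from the algebraic half (`exists_vertAlgTw`),
the branch data of the levels on the two components of the base, the two components of the cover
through the node and the four residue facts (the inputs (C₁, D₁, C₂, D₂)). -/
theorem kummerHypTw {c₀ : B} {κ₀ ϖ₂ γ₂ : Kb} {d : ℕ} {Bc A₀ Rr η₁ : Fb (M * q)}
    {Hp' : (Fb (M * q))[X]}
    (V : VertAlg L' (Ug M q g) c₀ κ₀ ϖ₂ γ₂ q d Bc A₀ Rr η₁ Hp')
    (hπ0 : ∀ a : B, B.valuation (a : Kb) < 1 → π a = 0)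
    (X₁ : BranchComp π O₁b res₁b Q₁b L') (X₂ : BranchComp π O₂b res₂b Q₂b L')
    (C₁ : OverComp O₁b res₁b Q₁b O₁ res₁ Q₁) (C₂ : OverComp O₂b res₂b Q₂b O₂ res₂ Q₂)
    (hY₁ : ∃ h : yOf L'.thick (Ug M q g) ∈ O₁,
      Q₁.adicValuation (res₁ ⟨_, h⟩) < 1 ∧ res₁ ⟨_, h⟩ ≠ 0)
    (hX₂ : ∃ h : xOf ϖ₂ (Ug M q g) ∈ O₂,
      Q₂.adicValuation (res₂ ⟨_, h⟩) < 1 ∧ res₂ ⟨_, h⟩ ≠ 0)
    (hθ₁ : ∃ h : thetaOf L'.u ϖ₂ (Ug M q g) d - algebraMap Kb (Fb (M * q * q)) (c₀ : Kb) ∈ O₁,
      Q₁.adicValuation (res₁ ⟨_, h⟩) < 1)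
    (hθ₂ : ∃ h : thetaOf L'.u ϖ₂ (Ug M q g) d - algebraMap Kb (Fb (M * q * q)) (c₀ : Kb) ∈ O₂,
      Q₂.adicValuation (res₂ ⟨_, h⟩) < 1) :
    KummerHyp L' (xOf ϖ₂ (Ug M q g)) (yOf L'.thick (Ug M q g))
      (thetaOf L'.u ϖ₂ (Ug M q g) d) (Ug M q g) c₀ κ₀ (ϖ₂ / L'.thick) d
      (CompVal.compVal O₁ res₁ C₁.res_eq_zero Q₁.adicValuation)
      (CompVal.compVal O₂ res₂ C₂.res_eq_zero Q₂.adicValuation) O₁ O₂ :=
  V.kummerHyp_frame hπ0 X₁ X₂ C₁ C₂ hY₁ hX₂ hθ₁ hθ₂
    (fun i' y hy => alpha2_mem_FKs _ (H.hRK i' y hy))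
    (fun i' => Ug_mem_FKs Hp (hK0 i')) H.hT

end Outer

end Fermat.Agent.BR3.KummerNodeTw
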