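/-
Program C (S36), node (N2-TUBES), family layer (helper8): THE SIGN OF THE TAME GENERATOR ON THE
CONSTANT OF THE KUMMER SHEETS.

`q = 2 d + 1`, `ϖ` with `σ ϖ = ζ₀ ϖ`, `ζ₀` a primitive `(q-1)(q+1)`-th root of unity (the tame
generator `σ0` of `GeoSigma.exists_tame_generator`), `ϖ₂ = ϖ^(q+1)`:

* `pow_succ_pow_eq_neg_one` : `(ζ₀^(q+1))^d = -1`;
* `map_pi2_div_pow` : `(σ ϖ₂ / ϖ₂)^d = -1`;
* `valuation_tame_const` : for `c₀ c₁ : A` with `residue c₁ = - residue c₀`,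
  `|((σ ϖ₂ / ϖ₂)^d)⁻¹ * c₁ - c₀| < 1` — the hypothesis `hc` of helper26's
  `KummerTubeClauses.smul_mem_kummerTube_frame` / `KummerTubeClausesMod.smul_mem_tubeKM_tame` with
  `c₁ := c₀ e (rev s)`.
-/
import Mathlib

set_option autoImplicit false

namespace Fermat.Agent.BR3.KummerSigmaSign

/-- `(ζ₀^(q+1))^d = -1` for a primitive `(q-1)(q+1)`-th root of unity, `q = 2 d + 1`, `1 ≤ d`. -/
theorem pow_succ_pow_eq_neg_one {K : Type*} [Field K] {q d : ℕ} (hq : q = 2 * d + 1) (hd : 1 ≤ d)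
    {ζ₀ : K} (hζ₀ : IsPrimitiveRoot ζ₀ ((q - 1) * (q + 1))) : (ζ₀ ^ (q + 1)) ^ d = -1 := by
  have hn : (q - 1) * (q + 1) = ((q + 1) * d) * 2 := by
    subst hq
    have : 2 * d + 1 - 1 = 2 * d := by omega
    rw [this]
    ring
  have h2 : IsPrimitiveRoot (ζ₀ ^ ((q + 1) * d)) 2 := by
    refine hζ₀.pow (Nat.mul_pos (by omega) (by omega)) hn
  rw [← pow_mul]
  exact h2.eq_neg_one_of_two_right

/-- `(σ ϖ₂ / ϖ₂)^d = -1` for `ϖ₂ = ϖ^(q+1)`, `σ ϖ = ζ₀ ϖ`. -/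
theorem map_pi2_div_pow {K F : Type*} [Field K] [FunLike F K K] [MonoidHomClass F K K]
    {q d : ℕ} (hq : q = 2 * d + 1) (hd : 1 ≤ d) {ζ₀ ϖ : K}
    (hζ₀ : IsPrimitiveRoot ζ₀ ((q - 1) * (q + 1))) (hϖ0 : ϖ ≠ 0) (σ : F) (hσ : σ ϖ = ζ₀ * ϖ) :
    (σ (ϖ ^ (q + 1)) / ϖ ^ (q + 1)) ^ d = -1 := by
  rw [map_pow, hσ, mul_pow, mul_div_assoc, div_self (pow_ne_zero _ hϖ0), mul_one]
  exact pow_succ_pow_eq_neg_one hq hd hζ₀

/-- **The constant of the image sheet under the tame generator**: `c₁ ≡ - c₀` modulo the maximal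
ideal gives `|((σ ϖ₂ / ϖ₂)^d)⁻¹ * c₁ - c₀| < 1`. -/
theorem valuation_tame_const {K F : Type*} [Field K] [FunLike F K K] [MonoidHomClass F K K]
    (A : ValuationSubring K) {q d : ℕ} (hq : q = 2 * d + 1) (hd : 1 ≤ d) {ζ₀ ϖ : K}
    (hζ₀ : IsPrimitiveRoot ζ₀ ((q - 1) * (q + 1))) (hϖ0 : ϖ ≠ 0) (σ : F) (hσ : σ ϖ = ζ₀ * ϖ)
    {c₀ c₁ : A} (hc : IsLocalRing.residue A c₁ = -IsLocalRing.residue A c₀) :
    A.valuation (((σ (ϖ ^ (q + 1)) / ϖ ^ (q + 1)) ^ d)⁻¹ * (c₁ : K) - (c₀ : K)) < 1 := by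
  rw [map_pi2_div_pow hq hd hζ₀ hϖ0 σ hσ]
  have e : ((-1 : K))⁻¹ * (c₁ : K) - (c₀ : K) = -(((c₁ + c₀ : A) : A) : K) := by
    rw [inv_neg, inv_one]
    push_cast
    ring
  rw [e, Valuation.map_neg]
  have h0 : IsLocalRing.residue A (c₁ + c₀) = 0 := by
    rw [map_add, hc, neg_add_cancel]
  rw [IsLocalRing.residue_eq_zero_iff, IsLocalRing.mem_maximalIdeal, mem_nonunits_iff] at h0
  by_contra hlt
  apply h0
  have h1 : A.valuation (((c₁ + c₀ : A) : A) : K) = 1 :=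
    le_antisymm (A.valuation_le_one _) (not_lt.mp hlt)
  exact (A.valuation_eq_one_iff _).mpr h1

end Fermat.Agent.BR3.KummerSigmaSign
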