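/-
Program C (S36), node I7, piece (W7), tubes cut out by a congruence (helper12): two sets of places
on which ONE function `θ` is congruent to two constants `c`, `c'` with `|c' - c| = 1` are
separated by `θ - c` (the shape of helper8's `kummerTube A T X Y θ c₀` and of the sheets
`coverTube A T' θ u` over one base tube); and such a set is separated from every valuation ring in
which `θ - c` is a unit.

* `sepSets_of_values`, `sepSetVal_of_value` (set level, `SepN.SepSets` / `SepN.SepSetVal`);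
* `separated_of_values`, `sepComp_of_value` (for the tubes of the nodes of a semistable setup).
-/
import Mathlib
import Fermat.Agent.BR3.SepN

set_option autoImplicit false
set_option linter.unusedSectionVars false

namespace Fermat.Agent.BR3.SepNValues

open AlgebraicCurve IsLocalRing Fermat.Agent.Red Fermat.Agent.BR.SS Fermat.Agent.BR.Refine
  Fermat.Agent.BR.Circle Fermat.Agent.BR3.CircleN Fermat.Agent.BR3.SepN

section Sets

variable {K F : Type*} [Field K] [Field F] [Algebra K F] {A : ValuationSubring K}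

/-- `θ ≡ c` on `T₁`, `θ ≡ c'` on `T₂`, `|c' - c| = 1`: then `θ - c` separates `T₁` from `T₂`. -/
theorem sepSets_of_values {T₁ T₂ : Set (Place K F)} (θ : F) (c c' : K)
    (hcc : A.valuation (c' - c) = 1)
    (h₁ : ∀ P ∈ T₁, ∃ d : K, IsValueAt P θ d ∧ A.valuation (d - c) < 1)
    (h₂ : ∀ P ∈ T₂, ∃ d : K, IsValueAt P θ d ∧ A.valuation (d - c') < 1) :
    SepSets A T₁ T₂ := by
  refine ⟨θ - algebraMap K F c, fun P hP => ?_, fun P hP => ?_⟩
  · obtain ⟨d, hd, hlt⟩ := h₁ P hP
    exact ⟨d - c, hd.sub (isValueAt_algebraMap P c), hlt⟩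
  · obtain ⟨d, hd, hlt⟩ := h₂ P hP
    refine ⟨d - c, hd.sub (isValueAt_algebraMap P c), ?_⟩
    have h1 : d - c = (d - c') + (c' - c) := by ring
    rw [h1, Valuation.map_add_eq_of_lt_right _ (by rw [hcc]; exact hlt), hcc]

/-- `θ ≡ c` on `T`, `θ - c` a unit of `O`: then `θ - c` separates `T` from `O`. -/
theorem sepSetVal_of_value {T : Set (Place K F)} {O : ValuationSubring F} (θ : F) (c : K)
    (h₁ : ∀ P ∈ T, ∃ d : K, IsValueAt P θ d ∧ A.valuation (d - c) < 1)
    (hmem : θ - algebraMap K F c ∈ O) (hu : θ - algebraMap K F c ∉ O.nonunits) :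
    SepSetVal A T O := by
  refine ⟨θ - algebraMap K F c, fun P hP => ?_, hmem, (isUnit_subtype_iff hmem).mpr hu⟩
  obtain ⟨d, hd, hlt⟩ := h₁ P hP
  exact ⟨d - c, hd.sub (isValueAt_algebraMap P c), hlt⟩

end Sets

section Setup

variable {K : Type} {F : Type*} [Field K] [Field F] [Algebra K F]
  {A : ValuationSubring K}
  {ι₀ : Type} {Ft₀ : ι₀ → Type} [∀ v, Field (Ft₀ v)] [∀ v, Algebra (ResidueField A) (Ft₀ v)]
  {ν₀ : Type} {S₀ : SemistableSetup (F := F) A (residue A) ι₀ Ft₀ ν₀}

/-- Two nodes on whose tubes `θ` is congruent to constants `c`, `c'` with `|c' - c| = 1` are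
separated. -/
theorem separated_of_values {n n' : ν₀} (θ : F) (c c' : K) (hcc : A.valuation (c' - c) = 1)
    (h₁ : ∀ P ∈ tube S₀ n, ∃ d : K, IsValueAt P θ d ∧ A.valuation (d - c) < 1)
    (h₂ : ∀ P ∈ tube S₀ n', ∃ d : K, IsValueAt P θ d ∧ A.valuation (d - c') < 1) :
    Separated S₀ n n' :=
  sepSets_of_values θ c c' hcc h₁ h₂

/-- A node on whose tube `θ ≡ c` is separated from every component on which the residue of
`θ - c` is nonzero. -/
theorem sepComp_of_value {n : ν₀} {w : ι₀} (θ : F) (c : K)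
    (h₁ : ∀ P ∈ tube S₀ n, ∃ d : K, IsValueAt P θ d ∧ A.valuation (d - c) < 1)
    (hmem : θ - algebraMap K F c ∈ S₀.O w)
    (hres : S₀.res w ⟨θ - algebraMap K F c, hmem⟩ ≠ 0) : SepComp S₀ n w := by
  refine sepSetVal_of_value θ c h₁ hmem fun hn => hres ?_
  rw [S₀.res_eq_zero_iff]
  exact fun hu => ((isUnit_subtype_iff hmem).mp hu) hn

end Setup

end Fermat.Agent.BR3.SepNValues
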