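/-
Program C (S36), node I7, piece (W7), the Kummer fields from helper8's Kummer sheets (helper12).

The tube of a Kummer node is `KummerLevels.kummerTube A T X Y θ c₀` (… and `θ ≡ c₀`); the two Kummer
nodes over one supersingular point use the SAME functions `X`, `Y`, `θ` and constants `c₀`, `c₀'`
with `|c₀' - c₀| = 1` (`c₀' = -c₀`, `q` odd).

* `sepComp_of_value_other` : a node on whose tube `θ ≡ c` is separated from a component `w` on which
  the residue of `θ - c'` vanishes at some point (`|c' - c| = 1`);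
* `separated_of_kummerTubes` : the field `sep_nk` of `SepNSDD.SepInput` from the two equalities
  `tube S₀ n = kummerTube …` (the hypothesis `hT` of `KummerNode.branchDataN`);
* `sepComp_src_of_kummerHyp` : the field `sepComp_nk` from `hT` at the node `n` and the hypotheses
  `H'`, `hdom₂` of `KummerNode.branchDataN` at the other Kummer node `n'`.
-/
import Mathlib
import Fermat.Agent.BR3.SepNValues
import Fermat.Agent.BR3.KummerLevels

set_option autoImplicit false
set_option linter.unusedSectionVars false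

namespace Fermat.Agent.BR3.SepNKummerTube

open AlgebraicCurve IsLocalRing Fermat.Agent.Red Fermat.Agent.BR.SS Fermat.Agent.BR.Refine
  Fermat.Agent.BR.Circle Fermat.Agent.BR.S0 Fermat.Agent.BR3.CircleN Fermat.Agent.BR3.SepN
  Fermat.Agent.BR3.SepNValues Fermat.Agent.BR3.KummerLevels

section Setup

variable {K : Type} {F₂ : Type*} [Field K] [Field F₂] [Algebra K F₂]
  {A : ValuationSubring K}
  {ι₀ : Type} {Ft₀ : ι₀ → Type} [∀ v, Field (Ft₀ v)] [∀ v, Algebra (ResidueField A) (Ft₀ v)]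
  {ν₀ : Type} {S₀ : SemistableSetup (F := F₂) A (residue A) ι₀ Ft₀ ν₀}

/-- A node on whose tube `θ ≡ c` is separated from every component `w` on which the residue of
`θ - c'` vanishes at some point, `|c' - c| = 1`. -/
theorem sepComp_of_value_other {n : ν₀} {w : ι₀} (θ : F₂) (c c' : K) (hc : c ∈ A) (hc' : c' ∈ A)
    (hcc : A.valuation (c' - c) = 1)
    (h₁ : ∀ P ∈ tube S₀ n, ∃ d : K, IsValueAt P θ d ∧ A.valuation (d - c) < 1)
    (hmem : θ - algebraMap K F₂ c' ∈ S₀.O w) (Q : Place (ResidueField A) (Ft₀ w))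
    (hQ : Q.adicValuation (S₀.res w ⟨θ - algebraMap K F₂ c', hmem⟩) < 1) : SepComp S₀ n w := by
  have hcA : c' - c ∈ A := sub_mem hc' hc
  have hcm : algebraMap K F₂ (c' - c) ∈ S₀.O w := (S₀.algebraMap_mem_iff w _).mpr hcA
  have hsplit : θ - algebraMap K F₂ c = (θ - algebraMap K F₂ c') + algebraMap K F₂ (c' - c) := by
    rw [map_sub]; ring
  have hmem' : θ - algebraMap K F₂ c ∈ S₀.O w := by
    rw [hsplit]; exact add_mem hmem hcm
  refine sepComp_of_value θ c h₁ hmem' ?_
  intro h0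
  -- the value at `Q` of the residue is `π (c' - c) ≠ 0`
  have hres : S₀.res w ⟨θ - algebraMap K F₂ c, hmem'⟩ =
      S₀.res w ⟨θ - algebraMap K F₂ c', hmem⟩ +
        algebraMap (ResidueField A) (Ft₀ w) (residue A ⟨c' - c, hcA⟩) := by
    rw [← S₀.res_algebraMap w (c' - c) hcA hcm, ← map_add]
    congr 1
    exact Subtype.ext hsplit
  have hv : IsValueAt Q (S₀.res w ⟨θ - algebraMap K F₂ c, hmem'⟩) (residue A ⟨c' - c, hcA⟩) := by
    rw [hres]
    have h1 : IsValueAt Q (S₀.res w ⟨θ - algebraMap K F₂ c', hmem⟩) 0 := isValueAt_zero_iff.mpr hQ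
    simpa using h1.add (isValueAt_algebraMap Q (residue A ⟨c' - c, hcA⟩))
  rw [h0] at hv
  have h2 : residue A ⟨c' - c, hcA⟩ = 0 := (hv.unique (isValueAt_zero Q))
  rw [residue_eq_zero_iff] at h2
  have h3 : A.valuation (c' - c) < 1 := (A.valuation_lt_one_iff _).mp h2
  rw [hcc] at h3
  exact lt_irrefl _ h3

end Setup

section Kummer

variable {K : Type} {F F' F₂ : Type*} [Field K] [Field F] [Field F'] [Field F₂] [Algebra K F]
  [Algebra K F'] [Algebra K F₂]
  [Algebra F F₂] [IsScalarTower K F F₂] [Algebra.IsIntegral F F₂]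
  [Algebra F' F₂] [IsScalarTower K F' F₂] [Algebra.IsIntegral F' F₂] [CharZero F₂]
  {A : ValuationSubring K}
  {ι₀ : Type} {Ft₀ : ι₀ → Type} [∀ v, Field (Ft₀ v)] [∀ v, Algebra (ResidueField A) (Ft₀ v)]
  {ν₀ : Type} {S₀ : SemistableSetup (F := F₂) A (residue A) ι₀ Ft₀ ν₀}
  {T : Set (Place K F)} {T' : Set (Place K F')} {X Y X' Y' θ : F₂} {c₀ c₀' : A}

/-- The values of `θ` on a Kummer tube. -/
theorem value_of_mem_kummerTube {P : Place K F₂} (hP : P ∈ kummerTube A T X Y θ c₀) :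
    ∃ d : K, IsValueAt P θ d ∧ A.valuation (d - (c₀ : K)) < 1 := hP.2.2.2

/-- **The field `sep_nk`**: two Kummer nodes with the same `θ` and constants `c₀`, `c₀'`,
`|c₀' - c₀| = 1`, are separated. -/
theorem separated_of_kummerTubes {n n' : ν₀} (hT : tube S₀ n = kummerTube A T X Y θ c₀)
    (hT' : tube S₀ n' = kummerTube A T' X' Y' θ c₀')
    (hcc : A.valuation ((c₀' : K) - (c₀ : K)) = 1) : Separated S₀ n n' :=
  separated_of_values θ (c₀ : K) (c₀' : K) hcc
    (fun P hP => value_of_mem_kummerTube (by rw [← hT]; exact hP))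
    (fun P hP => value_of_mem_kummerTube (by rw [← hT']; exact hP))

variable {ι' : Type*} {L' : AnnulusLevels A T' ι'} {U' : F₂} {κ₀' thick₂' : K} {d' : ℕ}
  {𝒪₁' 𝒪₂' : ValuationSubring F₂}

/-- **The field `sepComp_nk`**: a Kummer node `n` is separated from the middle component of
another Kummer node `n'` with the same `θ` and `|c₀' - c₀| = 1` (hypotheses `H'`, `hdom₂` as in
`KummerNode.branchDataN` at `n'`). -/
theorem sepComp_src_of_kummerHyp {n n' : ν₀} (hT : tube S₀ n = kummerTube A T X Y θ c₀)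
    (H' : KummerHyp L' X' Y' θ U' c₀' κ₀' thick₂' d' 𝒪₁' 𝒪₂' (S₀.O (S₀.tgt n'))
      (S₀.O (S₀.src n')))
    (hdom₂ : ∀ x ∈ 𝒪₂'.nonunits, ∀ h : x ∈ S₀.O (S₀.src n'),
      (S₀.s₁ n').adicValuation (S₀.res (S₀.src n') ⟨x, h⟩) < 1)
    (hcc : A.valuation ((c₀' : K) - (c₀ : K)) = 1) : SepComp S₀ n (S₀.src n') := by
  have hmem𝒪 : θ - algebraMap K F₂ (c₀' : K) ∈ 𝒪₂' := by
    have h := H'.θ_small₂
    rw [ValuationSubring.mem_nonunits_iff_or] at h
    by_contra hn
    rcases h with h0 | h0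
    · exact hn (h0 ▸ 𝒪₂'.zero_mem)
    · have := (𝒪₂'.mem_or_inv_mem (θ - algebraMap K F₂ (c₀' : K))).resolve_left hn
      exact h0 this
  have hmem : θ - algebraMap K F₂ (c₀' : K) ∈ S₀.O (S₀.src n') := H'.le₂ hmem𝒪
  exact sepComp_of_value_other θ (c₀ : K) (c₀' : K) c₀.2 c₀'.2 hcc
    (fun P hP => value_of_mem_kummerTube (by rw [← hT]; exact hP)) hmem (S₀.s₁ n')
    (hdom₂ _ H'.θ_small₂ hmem)

end Kummer

end Fermat.Agent.BR3.SepNKummerTube
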