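import Mathlib
import Fermat.Agent.BR3.KummerOfVert
import Fermat.Agent.BR3.SepNKummerTube
import Fermat.Agent.BR3.SDD.NodeDisjoint
import Fermat.Agent.BR3.EquivTubes

/-!
# Program C (S36), node (N2-TUBES), abstract part: the tube clauses of a Kummer node

`F₂ / F` a finite extension of function fields over `K`, `A ⊆ K` a valuation ring, `T` a tube of
`F`, and the tube `KummerLevels.kummerTube A T X Y θ c₀` of a Kummer sheet (the places over `T` at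
which `X`, `Y` and `θ - c₀` are small); in helper8's frame `X = xOf ϖ₂ U = ϖ₂ / U`,
`Y = yOf ϖ₁ U = U / ϖ₁`, `θ = thetaOf u ϖ₂ U d = u / X ^ d`.

* (i) `restrict_mem_of_mem_kummerTube` : the points of the tube lie over `T` (`subK`, `tube_a_nk`);
* (ii) `eq_of_mem_kummerTubes` : the tubes of a family `c₀ s` with `|c₀ s' - c₀ s| = 1` (`s ≠ s'`)
  and the same `θ` are pairwise disjoint (`dKK`);
* (iii) `value_U_of_mem_kummerTube` : on the tube `U` has a value of absolute value `< |ϖ₁|`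
  (the input of `TubesBFinal.tube_b_nk_of_value`); `not_mem_kummerTube_of_value_U` : a place at
  which `U` has a value of absolute value `≥ |ϖ₁|` is not in the tube (`dTK`);
* (iv) `ord_theta_nonneg_of_mem_kummerTube` (`hpole`), `ord_X_nonneg_…`, `ord_Y_nonneg_…`;
* (vi) `smul_xOf`, `smul_yOf`, `smul_thetaOf`, `smul_mem_kummerTube_frame` : a semilinear
  automorphism `g₂` over an inertial `σ` fixing `U` and `u` maps the tube with constant `c₀` into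
  the tube with constant `c₁` as soon as `(σ ϖ₂ / ϖ₂)^(-d) c₁ ≡ c₀`;
  `smul_mem_kummerTube_frame_fixed` : the tube is stable if moreover `σ ϖ₁ = ϖ₁`, `σ ϖ₂ = ϖ₂`.
-/

set_option autoImplicit false
set_option linter.unusedSectionVars false
set_option linter.unusedVariables false
set_option linter.style.haveILetI false

noncomputable section

namespace Fermat.Agent.BR3.KummerTubeClauses

open AlgebraicCurve IsLocalRing Fermat.Agent.Red Fermat.Agent.BR.SS Fermat.Agent.BR.Circle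
  Fermat.Agent.BR.S0 Fermat.Agent.BR3.KummerLevels Fermat.Agent.BR3.KummerOfVert
  Fermat.Agent.BR3.SepNKummerTube Fermat.Agent.BR.InertiaRed Fermat.Agent.BR3.InvFiniteTheta
  Fermat.Agent.BR3.EquivTubes

section Abstract

variable {K F F₂ : Type*} [Field K] [Field F] [Field F₂] [Algebra K F] [Algebra K F₂]
  [Algebra F F₂] [IsScalarTower K F F₂] [Algebra.IsIntegral F F₂]
  {A : ValuationSubring K} {T T' : Set (Place K F)} {X Y θ X' Y' U : F₂} {c₀ : A}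
  {P : Place K F₂}

/-- (i) the points of a Kummer tube lie over the tube of the base -/
theorem restrict_mem_of_mem_kummerTube (hP : P ∈ kummerTube A T X Y θ c₀) :
    P.restrict F ∈ T := hP.1

/-- the value of `X` on a Kummer tube is small -/
theorem value_X_of_mem_kummerTube (hP : P ∈ kummerTube A T X Y θ c₀) :
    ∃ d : K, IsValueAt P X d ∧ A.valuation d < 1 := hP.2.1

/-- the value of `Y` on a Kummer tube is small -/
theorem value_Y_of_mem_kummerTube (hP : P ∈ kummerTube A T X Y θ c₀) :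
    ∃ d : K, IsValueAt P Y d ∧ A.valuation d < 1 := hP.2.2.1

/-- the value of `θ` on a Kummer tube is congruent to `c₀` -/
theorem value_theta_of_mem_kummerTube (hP : P ∈ kummerTube A T X Y θ c₀) :
    ∃ d : K, IsValueAt P θ d ∧ A.valuation (d - (c₀ : K)) < 1 := hP.2.2.2

/-- (iv) `θ` has no pole on a Kummer tube (`hpole`) -/
theorem ord_theta_nonneg_of_mem_kummerTube (hP : P ∈ kummerTube A T X Y θ c₀) :
    0 ≤ P.ord θ := by
  obtain ⟨d, hd, -⟩ := value_theta_of_mem_kummerTube hP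
  exact ord_nonneg_of_isValueAt hd

theorem ord_X_nonneg_of_mem_kummerTube (hP : P ∈ kummerTube A T X Y θ c₀) : 0 ≤ P.ord X := by
  obtain ⟨d, hd, -⟩ := value_X_of_mem_kummerTube hP
  exact ord_nonneg_of_isValueAt hd

theorem ord_Y_nonneg_of_mem_kummerTube (hP : P ∈ kummerTube A T X Y θ c₀) : 0 ≤ P.ord Y := by
  obtain ⟨d, hd, -⟩ := value_Y_of_mem_kummerTube hP
  exact ord_nonneg_of_isValueAt hd

/-- (ii) **The Kummer tubes of a family of constants with `|c₀ s' - c₀ s| = 1` (`s ≠ s'`) and the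
same `θ` are pairwise disjoint** (`dKK`). -/
theorem eq_of_mem_kummerTubes {KP : Type*} (c : KP → A)
    (hcc : ∀ s s', s ≠ s' → A.valuation ((c s' : K) - (c s : K)) = 1) {s s' : KP}
    (h : P ∈ kummerTube A T X Y θ (c s)) (h' : P ∈ kummerTube A T' X' Y' θ (c s')) : s = s' := by
  by_contra hne
  exact Fermat.Agent.BR3.SDD.NodeFibres.not_mem_of_values (A := A)
    (T₁ := kummerTube A T X Y θ (c s)) (T₂ := kummerTube A T' X' Y' θ (c s')) θ (c s : K)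
    (c s' : K) (hcc s s' hne) (fun _ hQ => value_theta_of_mem_kummerTube hQ)
    (fun _ hQ => value_theta_of_mem_kummerTube hQ) h h'

/-- (iii) on the tube of a Kummer sheet with `Y = U / ϖ₁` the function `U` has a value of
absolute value `< |ϖ₁|` -/
theorem value_U_of_mem_kummerTube {ϖ₁ : K} (h1 : ϖ₁ ≠ 0)
    (hP : P ∈ kummerTube A T X (yOf ϖ₁ U) θ c₀) :
    ∃ cU : K, IsValueAt P U cU ∧ A.valuation cU < A.valuation ϖ₁ := by
  obtain ⟨d, hd, hlt⟩ := value_Y_of_mem_kummerTube hP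
  refine ⟨ϖ₁ * d, ?_, ?_⟩
  · have h := (isValueAt_algebraMap P ϖ₁).mul hd
    have e : algebraMap K F₂ ϖ₁ * yOf ϖ₁ U = U := by
      have h0 : algebraMap K F₂ ϖ₁ ≠ 0 := (_root_.map_ne_zero _).mpr h1
      rw [yOf, mul_comm, mul_assoc, inv_mul_cancel₀ h0, mul_one]
    rwa [e] at h
  · rw [map_mul]
    exact mul_lt_of_lt_one_right (zero_lt_iff.mpr ((_root_.map_ne_zero _).mpr h1)) hlt

/-- (iii) a place at which `U` has a value of absolute value `≥ |ϖ₁|` does not lie on the tube of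
a Kummer sheet with `Y = U / ϖ₁` (`dTK`) -/
theorem not_mem_kummerTube_of_value_U {ϖ₁ : K} (h1 : ϖ₁ ≠ 0) {cU : K} (hU : IsValueAt P U cU)
    (hle : A.valuation ϖ₁ ≤ A.valuation cU) : P ∉ kummerTube A T X (yOf ϖ₁ U) θ c₀ := by
  intro hP
  obtain ⟨cU', hU', hlt⟩ := value_U_of_mem_kummerTube h1 hP
  rw [hU'.unique hU] at hlt
  exact absurd hlt (not_lt.mpr hle)

/-! ### (vi) the Galois action in helper8's frame -/

variable (g₂ : SemilinearAut K F₂) (g : SemilinearAut K F)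

theorem smul_xOf (ϖ₂ : K) (hU : g₂ • U = U) :
    g₂ • xOf ϖ₂ U = xOf (SemilinearAut.baseAut g₂ ϖ₂) U := by
  rw [xOf, xOf, smul_mul', smul_inv'', hU, SemilinearAut.smul_algebraMap]

theorem smul_yOf (ϖ₁ : K) (hU : g₂ • U = U) :
    g₂ • yOf ϖ₁ U = yOf (SemilinearAut.baseAut g₂ ϖ₁) U := by
  rw [yOf, yOf, smul_mul', smul_inv'', hU, SemilinearAut.smul_algebraMap]

theorem smul_thetaOf (hcomm : ∀ y : F, g₂ • algebraMap F F₂ y = algebraMap F F₂ (g • y))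
    {u : F} (hu : g • u = u) (ϖ₂ : K) (d : ℕ) (hU : g₂ • U = U) :
    g₂ • thetaOf u ϖ₂ U d = thetaOf u (SemilinearAut.baseAut g₂ ϖ₂) U d := by
  rw [thetaOf, thetaOf, smul_mul', smul_inv'', smul_pow', smul_xOf g₂ ϖ₂ hU, hcomm, hu]

theorem xOf_mul_const (c ϖ₂ : K) : xOf (c * ϖ₂) U = c • xOf ϖ₂ U := by
  rw [xOf, xOf, map_mul, Algebra.smul_def, mul_assoc]

theorem yOf_mul_const {c : K} (hc : c ≠ 0) (ϖ₁ : K) : yOf (c * ϖ₁) U = c⁻¹ • yOf ϖ₁ U := by
  have h : algebraMap K F₂ c ≠ 0 := (_root_.map_ne_zero _).mpr hc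
  rw [yOf, yOf, map_mul, Algebra.smul_def, map_inv₀, mul_inv]
  ring

theorem thetaOf_mul_const {c : K} (hc : c ≠ 0) (u : F) (ϖ₂ : K) (d : ℕ) :
    thetaOf u (c * ϖ₂) U d = (c ^ d)⁻¹ • thetaOf u ϖ₂ U d := by
  have h : algebraMap K F₂ c ≠ 0 := (_root_.map_ne_zero _).mpr hc
  rw [thetaOf, thetaOf, xOf_mul_const, Algebra.smul_def, Algebra.smul_def, mul_pow, mul_inv,
    map_inv₀, map_pow]
  ring

/-- (vi) **Transport of the tube of a Kummer sheet in helper8's frame** by `g₂` over an inertial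
`σ`, with `g₂ U = U`, `g u = u`: the tube with constant `c₀` goes into the tube with constant `c₁`
as soon as `(σ ϖ₂ / ϖ₂)^(-d) c₁ ≡ c₀`. -/
theorem smul_mem_kummerTube_frame
    (hcomm : ∀ y : F, g₂ • algebraMap F F₂ y = algebraMap F F₂ (g • y))
    (hg : IsInertial A (SemilinearAut.baseAut g₂))
    {T₂ : Set (Place K F)} (hT : ∀ P ∈ T, g • P ∈ T₂) {ϖ₁ ϖ₂ : K} (h1 : ϖ₁ ≠ 0) (h2 : ϖ₂ ≠ 0)
    {u : F} (hu : g • u = u) (hU : g₂ • U = U) (d : ℕ) {c₁ : A}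
    (hc : A.valuation (((SemilinearAut.baseAut g₂ ϖ₂ / ϖ₂) ^ d)⁻¹ * (c₁ : K) - (c₀ : K)) < 1)
    (hP : P ∈ kummerTube A T (xOf ϖ₂ U) (yOf ϖ₁ U) (thetaOf u ϖ₂ U d) c₀) :
    g₂ • P ∈ kummerTube A T₂ (xOf ϖ₂ U) (yOf ϖ₁ U) (thetaOf u ϖ₂ U d) c₁ := by
  have hv1 : A.valuation (SemilinearAut.baseAut g₂ ϖ₁ / ϖ₁) = 1 := valuation_apply_div hg h1
  have hv2 : A.valuation (SemilinearAut.baseAut g₂ ϖ₂ / ϖ₂) = 1 := valuation_apply_div hg h2
  have hn1 : SemilinearAut.baseAut g₂ ϖ₁ / ϖ₁ ≠ 0 := by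
    intro h0; rw [h0, map_zero] at hv1; exact zero_ne_one hv1
  have hn2 : SemilinearAut.baseAut g₂ ϖ₂ / ϖ₂ ≠ 0 := by
    intro h0; rw [h0, map_zero] at hv2; exact zero_ne_one hv2
  have e1 : SemilinearAut.baseAut g₂ ϖ₁ = (SemilinearAut.baseAut g₂ ϖ₁ / ϖ₁) * ϖ₁ := by
    rw [div_mul_cancel₀ _ h1]
  have e2 : SemilinearAut.baseAut g₂ ϖ₂ = (SemilinearAut.baseAut g₂ ϖ₂ / ϖ₂) * ϖ₂ := by
    rw [div_mul_cancel₀ _ h2]
  refine smul_mem_kummerTube_of_smul_eq A g₂ g hcomm hg hT hv2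
    (cY := (SemilinearAut.baseAut g₂ ϖ₁ / ϖ₁)⁻¹)
    (cθ := ((SemilinearAut.baseAut g₂ ϖ₂ / ϖ₂) ^ d)⁻¹) ?_ ?_ ?_ ?_ ?_ hc hP
  · rw [map_inv₀, hv1, inv_one]
  · rw [map_inv₀, map_pow, hv2, one_pow, inv_one]
  · rw [smul_xOf g₂ ϖ₂ hU, e2, xOf_mul_const, ← e2]
  · rw [smul_yOf g₂ ϖ₁ hU, e1, yOf_mul_const hn1, ← e1]
  · rw [smul_thetaOf g₂ g hcomm hu ϖ₂ d hU, e2, thetaOf_mul_const hn2, ← e2]

/-- (vi) the tube of a Kummer sheet in helper8's frame is stable under `g₂` over an inertial `σ`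
fixing `ϖ₁`, `ϖ₂`, with `g₂ U = U`, `g u = u`. -/
theorem smul_mem_kummerTube_frame_fixed
    (hcomm : ∀ y : F, g₂ • algebraMap F F₂ y = algebraMap F F₂ (g • y))
    (hg : IsInertial A (SemilinearAut.baseAut g₂))
    {T₂ : Set (Place K F)} (hT : ∀ P ∈ T, g • P ∈ T₂) {ϖ₁ ϖ₂ : K}
    (h1 : SemilinearAut.baseAut g₂ ϖ₁ = ϖ₁) (h2 : SemilinearAut.baseAut g₂ ϖ₂ = ϖ₂)
    {u : F} (hu : g • u = u) (hU : g₂ • U = U) (d : ℕ)
    (hP : P ∈ kummerTube A T (xOf ϖ₂ U) (yOf ϖ₁ U) (thetaOf u ϖ₂ U d) c₀) :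
    g₂ • P ∈ kummerTube A T₂ (xOf ϖ₂ U) (yOf ϖ₁ U) (thetaOf u ϖ₂ U d) c₀ :=
  smul_mem_kummerTube_of_fixed A g₂ g hcomm hg hT
    (by rw [smul_xOf g₂ ϖ₂ hU, h2]) (by rw [smul_yOf g₂ ϖ₁ hU, h1])
    (by rw [smul_thetaOf g₂ g hcomm hu ϖ₂ d hU, h2]) c₀ hP

end Abstract

end Fermat.Agent.BR3.KummerTubeClauses
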