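import Mathlib
import Fermat.Agent.BR3.KummerTubeClauses
import Fermat.Agent.BR3.SDD.TubesBFinal
import Fermat.Agent.BR3.EquivTubesNode
import Fermat.Agent.BR3.VertEquivUg
import Fermat.Agent.BR3.SplitCompsCInf

/-!
# Program C (S36), node (N2-TUBES), modular part: the tube clauses of the Kummer nodes `nk e s`

Frame: `SA := srefM (DtM B hB hqM) (gaugeA ..) (admA ..)`, `T_e := tube SA (outer .. e)` (the outer
sub-annulus `|a₀| < |u_e| < 1` of the tube of the crossing `e`), cover `Fb (M q) → Fb (M q²)` along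
`α₂`, `U := Ug M q g`.

* `tubeKM B hB hqM h2 h3 e g ϖ₂ d c₀` : the raw tube of a Kummer node over `e` in helper8's frame:
  `kummerTube B T_e (xOf ϖ₂ U) (yOf (gaugeA e) U) (thetaOf u_e ϖ₂ U d) c₀` (`tubeKM_eq`, `rfl`);
  `tubeTM B hB hqM h2 h3 e g g'` : the raw tube of the split node `nT e`
  (`coverTube B T_e (splitW M q g g') 1`, the tube of `SplitNode.nodeT`);
* (i) `tube_a_nk` : `P ∈ tubeKM → P.restrictAlong α₂ hα ∈ T_e` (`subK` of `hOuter_modular` with
  `hα := isIntegral_alpha2 M q`, `tube_a_nk` of `ModularSep`); `tube_a_nT` twin;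
* (ii) `dKK` : the tubes of constants `c s` with `|c s' - c s| = 1` are pairwise disjoint;
* (iii) `dTK` : `tubeTM ∩ tubeKM = ∅` (on the split sheet `|U_g(P)| = |u_e(P)| > |a₀|`, on the Kummer
  sheets `|U_g(P)| < |a₀|`);
* (iv) `hpole` : `0 ≤ P.ord θ_e` on `tubeKM`;
* (v) `value_Ug_of_mem_tubeKM`, `tube_b_nk` : `P.restrictAlong β₂ hβ` lies in the tube of the inner
  node of `S'ref_b` over `Fr e`;
* (vi) `smul_mem_tubeKM_rich` (rich inertia elements: stable), `smul_mem_tubeKM_tame` (any inertia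
  element `σ`: the tube of `c₀` goes into the tube of `c₁` as soon as
  `(σ ϖ₂ / ϖ₂)^(-d) c₁ ≡ c₀`), `smul_mem_tubeTM`.
-/

set_option autoImplicit false
set_option linter.unusedSectionVars false
set_option linter.unusedVariables false
set_option linter.style.haveILetI false
set_option synthInstance.maxHeartbeats 400000

noncomputable section

/- S36 build-time patch: file-local shortcut instances. They only shorten instance search;
each is the instance that the search finds anyway (reducible, same terms after unfolding). -/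
local instance (priority := 100000) Fermat.Agent.BR3.FastInst.instAlgFullC_KummerTubeClausesMod
    {k : Type*} [Field k] (N : ℕ) :
    Algebra k ↥(ModularCurve.modularFunctionFieldFullC k N) := inferInstance
local instance (priority := 100000) Fermat.Agent.BR3.FastInst.instFieldFullC_KummerTubeClausesMod
    {k : Type*} [Field k] (N : ℕ) :
    Field ↥(ModularCurve.modularFunctionFieldFullC k N) := inferInstance
local instance (priority := 100000) Fermat.Agent.BR3.FastInst.instAlgLaurent_KummerTubeClausesMod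
    {k : Type*} [Field k] : Algebra k (LaurentSeries k) := inferInstance


namespace Fermat.Agent.BR3.KummerTubeClausesMod

open AlgebraicCurve ModularCurve IsLocalRing Polynomial
open Fermat.Agent.Red Fermat.Agent.Val Fermat.Agent.X0 Fermat.Agent.BR.SS Fermat.Agent.BR.Refine
open Fermat.Agent.BR.Centre Fermat.Agent.BR.Circle
open Fermat.Agent.BR.S0 Fermat.Agent.BR.S0.RedModular Fermat.Agent.BR.S0.PointDict
open Fermat.Agent.BR.Final Fermat.Agent.BR.ValTwo Fermat.Agent.BR.InertiaRed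
open Fermat.Agent.BR3.FibreProd Fermat.Agent.BR3.HeckePoly Fermat.Agent.Hecke
open Fermat.Agent.BR3.SSParam
open Fermat.Agent.BR2.SetupOfData Fermat.Agent.BR3.CircleN Fermat.Agent.BR3.SRef
open Fermat.Agent.BR3.SRef.Modular Fermat.Agent.BR3.SDD.Modular Fermat.Agent.BR3.ThickSDDPlug
open Fermat.Agent.BR3.KummerLevels Fermat.Agent.BR3.KummerOfVert Fermat.Agent.BR3.CoverSmooth
open Fermat.Agent.BR3.SplitCompsCInf Fermat.Agent.BR3.KummerTubeClauses
open Fermat.Agent.BR3.EquivSRefModular Fermat.Agent.BR3.EquivSRefRotFibre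
open Fermat.Agent.BR3.VertBetaFr Fermat.Agent.BR3.EquivFixed

local notation "Kb" => AlgebraicClosure ℚ

variable {M q : ℕ} [NeZero M] [hq : Fact q.Prime]
variable (B : ValuationSubring (AlgebraicClosure ℚ)) (hB : B.LiesOverPrime q) (hqM : ¬ q ∣ M)
variable [IsAlgClosed (ResidueField B)]

local notation "kB" => IsLocalRing.ResidueField B

/-- (shortcut instance) -/
local instance (priority := 100000) instAlgebraFtMShortcutKTC :
    Algebra (IsLocalRing.ResidueField B)
      (modularFunctionFieldFullC (IsLocalRing.ResidueField B) M) :=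
  inferInstance

variable (h2 : nuTwo M = 0) (h3 : nuThree M = 0) (e : Crossing (chartDataModular B hB hqM))

/-- **The raw tube of a Kummer node over `e`** (helper8's frame): over the outer node of `S'ref_a`
at `e`, `X = ϖ₂ / U_g`, `Y = U_g / a₀`, `θ = α₂ u_e / X ^ d`, constant `c₀`. -/
def tubeKM (g : Fb M) (ϖ₂ : Kb) (d : ℕ) (c₀ : B) : Set (Place Kb (Fb (M * q * q))) :=
  letI := algebraAlong (alpha2 M q)
  haveI := isScalarTower_along (alpha2 M q)
  haveI : Module.Finite (Fb (M * q)) (Fb (M * q * q)) :=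
    Fermat.Agent.Hecke.finiteAlong_heckeAlphaBar (M * q) q
  kummerTube B
    (tube (srefM (DtM B hB hqM) (gaugeA q B hB hqM) (admA B hB hqM h2 h3))
      (outer (inputs (DtM B hB hqM)) (gaugeA q B hB hqM) (admA B hB hqM h2 h3) e))
    (xOf ϖ₂ (Ug M q g)) (yOf (gaugeA q B hB hqM e) (Ug M q g))
    (thetaOf (annulusCoord (DtM B hB hqM) e) ϖ₂ (Ug M q g) d) c₀

theorem tubeKM_eq (g : Fb M) (ϖ₂ : Kb) (d : ℕ) (c₀ : B) :
    letI := algebraAlong (alpha2 M q)
    haveI := isScalarTower_along (alpha2 M q)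
    haveI : Module.Finite (Fb (M * q)) (Fb (M * q * q)) :=
      Fermat.Agent.Hecke.finiteAlong_heckeAlphaBar (M * q) q
    tubeKM B hB hqM h2 h3 e g ϖ₂ d c₀ =
      kummerTube B
        (tube (srefM (DtM B hB hqM) (gaugeA q B hB hqM) (admA B hB hqM h2 h3))
          (outer (inputs (DtM B hB hqM)) (gaugeA q B hB hqM) (admA B hB hqM h2 h3) e))
        (xOf ϖ₂ (Ug M q g)) (yOf (gaugeA q B hB hqM e) (Ug M q g))
        (thetaOf (annulusCoord (DtM B hB hqM) e) ϖ₂ (Ug M q g) d) c₀ :=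
  rfl

/-- **The raw tube of the split node `nT e`** (the tube of `SplitNode.nodeT`). -/
def tubeTM (g g' : Fb M) : Set (Place Kb (Fb (M * q * q))) :=
  letI := algebraAlong (alpha2 M q)
  haveI := isScalarTower_along (alpha2 M q)
  haveI : Module.Finite (Fb (M * q)) (Fb (M * q * q)) :=
    Fermat.Agent.Hecke.finiteAlong_heckeAlphaBar (M * q) q
  coverTube B
    (tube (srefM (DtM B hB hqM) (gaugeA q B hB hqM) (admA B hB hqM h2 h3))
      (outer (inputs (DtM B hB hqM)) (gaugeA q B hB hqM) (admA B hB hqM h2 h3) e))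
    (splitW M q g g') (1 : B)

theorem tubeTM_eq (g g' : Fb M) :
    letI := algebraAlong (alpha2 M q)
    haveI := isScalarTower_along (alpha2 M q)
    haveI : Module.Finite (Fb (M * q)) (Fb (M * q * q)) :=
      Fermat.Agent.Hecke.finiteAlong_heckeAlphaBar (M * q) q
    tubeTM B hB hqM h2 h3 e g g' =
      coverTube B
        (tube (srefM (DtM B hB hqM) (gaugeA q B hB hqM) (admA B hB hqM h2 h3))
          (outer (inputs (DtM B hB hqM)) (gaugeA q B hB hqM) (admA B hB hqM h2 h3) e))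
        (splitW M q g g') (1 : B) :=
  rfl

/-- the gauge is not zero -/
theorem gaugeA_ne_zero' : gaugeA q B hB hqM e ≠ 0 := by
  show gaugeSDD q ≠ 0
  intro h
  have h1 := gaugeSDD_pow (q := q) hq.out.one_lt
  rw [h, zero_pow (Nat.succ_ne_zero q)] at h1
  exact (Nat.cast_ne_zero.mpr hq.out.ne_zero) h1.symm

variable {g g' g'' : Fb M} {ϖ₂ : Kb} {d : ℕ} {c₀ : B} {P : Place Kb (Fb (M * q * q))}

/-! ### (i) the `a`-side inclusions -/

/-- (i) **`tube_a_nk` / `subK`**: the points of the Kummer tube lie over the outer node of `S'ref_a`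
at `e`. -/
theorem tube_a_nk (hα : (alpha2 M q).toRingHom.IsIntegral)
    (hP : P ∈ tubeKM B hB hqM h2 h3 e g ϖ₂ d c₀) :
    P.restrictAlong (alpha2 M q) hα ∈
      tube (srefM (DtM B hB hqM) (gaugeA q B hB hqM) (admA B hB hqM h2 h3))
        (outer (inputs (DtM B hB hqM)) (gaugeA q B hB hqM) (admA B hB hqM h2 h3) e) :=
  hP.1

/-- (i) **`tube_a_nT` / `subT`**: the points of the split tube lie over the outer node of `S'ref_a`
at `e`. -/
theorem tube_a_nT (hα : (alpha2 M q).toRingHom.IsIntegral)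
    (hP : P ∈ tubeTM B hB hqM h2 h3 e g g') :
    P.restrictAlong (alpha2 M q) hα ∈
      tube (srefM (DtM B hB hqM) (gaugeA q B hB hqM) (admA B hB hqM h2 h3))
        (outer (inputs (DtM B hB hqM)) (gaugeA q B hB hqM) (admA B hB hqM h2 h3) e) :=
  hP.1

/-! ### (ii) the Kummer tubes are pairwise disjoint -/

/-- (ii) **`dKK`**: the Kummer tubes over `e` of constants with `|c s' - c s| = 1` (`s ≠ s'`) are
pairwise disjoint. -/
theorem dKK {KP : Type*} (c : KP → B)
    (hcc : ∀ s s', s ≠ s' → B.valuation ((c s' : Kb) - (c s : Kb)) = 1) {s s' : KP}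
    (h : P ∈ tubeKM B hB hqM h2 h3 e g ϖ₂ d (c s))
    (h' : P ∈ tubeKM B hB hqM h2 h3 e g ϖ₂ d (c s')) : s = s' := by
  letI := algebraAlong (alpha2 M q)
  haveI := isScalarTower_along (alpha2 M q)
  haveI : Module.Finite (Fb (M * q)) (Fb (M * q * q)) :=
    Fermat.Agent.Hecke.finiteAlong_heckeAlphaBar (M * q) q
  exact eq_of_mem_kummerTubes c hcc h h'

/-! ### (iv) no pole of `θ` on the Kummer tubes -/

/-- (iv) **`hpole`**: the Kummer generator `θ_e` has no pole on the Kummer tubes. -/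
theorem hpole (hP : P ∈ tubeKM B hB hqM h2 h3 e g ϖ₂ d c₀) :
    letI := algebraAlong (alpha2 M q)
    0 ≤ P.ord (thetaOf (annulusCoord (DtM B hB hqM) e) ϖ₂ (Ug M q g) d) := by
  letI := algebraAlong (alpha2 M q)
  haveI := isScalarTower_along (alpha2 M q)
  haveI : Module.Finite (Fb (M * q)) (Fb (M * q * q)) :=
    Fermat.Agent.Hecke.finiteAlong_heckeAlphaBar (M * q) q
  exact ord_theta_nonneg_of_mem_kummerTube hP

/-- the value of `θ_e` on the Kummer tube of `c₀` -/
theorem value_theta_of_mem_tubeKM (hP : P ∈ tubeKM B hB hqM h2 h3 e g ϖ₂ d c₀) :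
    letI := algebraAlong (alpha2 M q)
    ∃ c : Kb, IsValueAt P (thetaOf (annulusCoord (DtM B hB hqM) e) ϖ₂ (Ug M q g) d) c ∧
      B.valuation (c - (c₀ : Kb)) < 1 :=
  hP.2.2.2

/-! ### (v) the value of `U_g` and the `b`-side inclusion -/

/-- (v) on the Kummer tubes `U_g` has a value of absolute value `< |gaugeSDD q|` -/
theorem value_Ug_of_mem_tubeKM (hP : P ∈ tubeKM B hB hqM h2 h3 e g ϖ₂ d c₀) :
    ∃ cU : Kb, IsValueAt P (Ug M q g) cU ∧ B.valuation cU < B.valuation (gaugeSDD q) := by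
  letI := algebraAlong (alpha2 M q)
  haveI := isScalarTower_along (alpha2 M q)
  haveI : Module.Finite (Fb (M * q)) (Fb (M * q * q)) :=
    Fermat.Agent.Hecke.finiteAlong_heckeAlphaBar (M * q) q
  exact value_U_of_mem_kummerTube (gaugeA_ne_zero' B hB hqM e) hP

variable [CharP (ResidueField B) q]

set_option maxHeartbeats 4000000 in
/-- (v) **`tube_b_nk`**: the points of the Kummer tubes over `e` lie, along `β₂`, over the inner
node of `S'ref_b` at `Fr e`. -/
theorem tube_b_nk (H : IsSSParam B hB hqM e g g' g'')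
    (hα : (alpha2 M q).toRingHom.IsIntegral) (hβ : (beta2 M q).toRingHom.IsIntegral)
    (hadmb : ∀ e, (inputs (DtM B hB hqM)).adm e (gaugeB q B hB hqM e))
    (hP : P ∈ tubeKM B hB hqM h2 h3 e g ϖ₂ d c₀) :
    P.restrictAlong (beta2 M q) hβ ∈
      tube (srefM (DtM B hB hqM) (gaugeB q B hB hqM) hadmb)
        (inner (inputs (DtM B hB hqM)) (gaugeB q B hB hqM) hadmb (Fr B hB hqM e)) := by
  obtain ⟨cU, hU, hlt⟩ := value_Ug_of_mem_tubeKM B hB hqM h2 h3 e hP
  exact Fermat.Agent.BR3.SDD.TubesBFinal.tube_b_nk_of_value B hB hqM e h2 h3 H hα hβ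
    (admA B hB hqM h2 h3) hadmb (tube_a_nk B hB hqM h2 h3 e hα hP) hU hlt

/-! ### (iii) the split tube and the Kummer tubes are disjoint -/

set_option maxHeartbeats 4000000 in
/-- (iii) **`dTK`**: the tube of the split node `nT e` does not meet the Kummer tubes over `e`:
on the split sheet `|U_g(P)| = |u_e(P)| > |a₀|`, on the Kummer sheets `|U_g(P)| < |a₀|`. -/
theorem dTK (H : IsSSParam B hB hqM e g g' g'')
    (hT : P ∈ tubeTM B hB hqM h2 h3 e g g')
    (hK : P ∈ tubeKM B hB hqM h2 h3 e g ϖ₂ d c₀) : False := by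
  have hα : (alpha2 M q).toRingHom.IsIntegral :=
    Fermat.Agent.BR2.LevelGen.isIntegral_fb (alpha2 M q)
  have hPa := tube_a_nT B hB hqM h2 h3 e hα hT
  rw [tube_outerM] at hPa
  obtain ⟨hPa1, hlt⟩ := hPa
  obtain ⟨w, hw, hw1⟩ := hT.2
  -- `|w| = 1`
  have hwv : B.valuation w = 1 := by
    have e1 : w = (w - ((1 : B) : Kb)) + 1 := by
      rw [show ((1 : B) : Kb) = 1 from rfl]; ring
    rw [e1]
    exact Valuation.map_add_eq_of_lt_right _ (by rw [map_one]; exact hw1) |>.trans (map_one _)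
  -- `U_g = W · α₂ (-x)`
  have hWU : Ug M q g = splitW M q g g' *
      alpha2 M q (-(heckeAlphaBar Kb M q g - heckeBetaBar Kb M q g' ^ q)) := by
    by_cases h0 : alpha2 M q (-(heckeAlphaBar Kb M q g - heckeBetaBar Kb M q g' ^ q)) = 0
    · -- then `W = 0` has the value `0 ≠ w`
      exfalso
      have hW0 : splitW M q g g' = 0 := by
        unfold splitW
        rw [h0, div_zero]
      rw [hW0] at hw
      have := hw.unique (isValueAt_zero P)
      rw [this, map_zero] at hwv
      exact zero_ne_one hwv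
    · unfold splitW
      rw [div_mul_cancel₀ _ h0]
  obtain ⟨cU, hU, hUv⟩ := Fermat.Agent.BR3.SDD.TubesB.exists_value_Ug_of_unit B hB hqM e h2 h3 H
    hα hPa1 hw hwv hWU
  obtain ⟨cU', hU', hlt'⟩ := value_Ug_of_mem_tubeKM B hB hqM h2 h3 e hK
  rw [hU'.unique hU, hUv] at hlt'
  exact absurd hlt' (not_lt.mpr hlt.le)

/-! ### (vi) the Galois action -/

variable {σ : Kb ≃ₐ[ℚ] Kb}

/-- (vi) **the Kummer tubes under ANY inertia element** `σ` with `gal M σ • g = g`: the tube of
`c₀` goes into the tube of `c₁` as soon as `(σ ϖ₂ / ϖ₂)^(-d) c₁ ≡ c₀`. -/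
theorem smul_mem_tubeKM_tame (hσ : σ ∈ B.inertiaSubgroupIn ℚ) (hg : gal M σ • g = g)
    (hϖ₂ : ϖ₂ ≠ 0) {c₁ : B}
    (hc : B.valuation (((σ ϖ₂ / ϖ₂) ^ d)⁻¹ * (c₁ : Kb) - (c₀ : Kb)) < 1)
    (hP : P ∈ tubeKM B hB hqM h2 h3 e g ϖ₂ d c₀) :
    gal (M * q * q) σ • P ∈ tubeKM B hB hqM h2 h3 e g ϖ₂ d c₁ := by
  letI := algebraAlong (alpha2 M q)
  haveI := isScalarTower_along (alpha2 M q)
  haveI : Module.Finite (Fb (M * q)) (Fb (M * q * q)) :=
    Fermat.Agent.Hecke.finiteAlong_heckeAlphaBar (M * q) q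
  exact smul_mem_kummerTube_frame (gal (M * q * q) σ) (gal (M * q) σ)
    (fun y => heckeAlphaBar_comm q σ y)
    (Fermat.Agent.BR3.EquivHoriz.isInertial_gal (M * q * q) B hσ)
    (fun P' hP' => (smul_mem_outer_srefM_iff (DtM B hB hqM) (gaugeA q B hB hqM)
      (admA B hB hqM h2 h3) hσ e P').mpr hP')
    (gaugeA_ne_zero' B hB hqM e) hϖ₂ (annulusCoord_smul (DtM B hB hqM) hσ e)
    (Fermat.Agent.BR3.VertEquivUg.galAut_smul_Ug_of_fixed hg) d hc hP

/-- (vi) **the Kummer tubes are stable under the rich inertia elements** (fixing `unifSDD q` and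
`ϖ₂`). -/
theorem smul_mem_tubeKM_rich (hσ : σ ∈ B.inertiaSubgroupIn ℚ) (hg : gal M σ • g = g)
    (hs1 : σ (unifSDD q) = unifSDD q) (hϖ₂ : σ ϖ₂ = ϖ₂)
    (hP : P ∈ tubeKM B hB hqM h2 h3 e g ϖ₂ d c₀) :
    gal (M * q * q) σ • P ∈ tubeKM B hB hqM h2 h3 e g ϖ₂ d c₀ := by
  letI := algebraAlong (alpha2 M q)
  haveI := isScalarTower_along (alpha2 M q)
  haveI : Module.Finite (Fb (M * q)) (Fb (M * q * q)) :=
    Fermat.Agent.Hecke.finiteAlong_heckeAlphaBar (M * q) q
  have h1 : σ (gaugeA q B hB hqM e) = gaugeA q B hB hqM e := by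
    show σ (gaugeSDD q) = gaugeSDD q
    unfold gaugeSDD
    rw [map_pow, hs1]
  exact smul_mem_kummerTube_frame_fixed (gal (M * q * q) σ) (gal (M * q) σ)
    (fun y => heckeAlphaBar_comm q σ y)
    (Fermat.Agent.BR3.EquivHoriz.isInertial_gal (M * q * q) B hσ)
    (fun P' hP' => (smul_mem_outer_srefM_iff (DtM B hB hqM) (gaugeA q B hB hqM)
      (admA B hB hqM h2 h3) hσ e P').mpr hP')
    h1 hϖ₂ (annulusCoord_smul (DtM B hB hqM) hσ e)
    (Fermat.Agent.BR3.VertEquivUg.galAut_smul_Ug_of_fixed hg) d hP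

end Fermat.Agent.BR3.KummerTubeClausesMod
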