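import Mathlib
import Fermat.Agent.BR3.KummerLevels
import Fermat.Agent.BR3.VertPtsU
import Fermat.Agent.BR3.SDD.ModularNodeT
import Fermat.Agent.BR3.KummerNodeNames

/-!
# Program C (S36), node (N2-ODD TUBES): the two disjointness clauses of the Kummer tubes

The Kummer sheet of the node `nk e s` (`q` odd) is cut out of the tube of the outer node of
`S'ref_a` at `e` (along `α₂`) by `KummerLevels.kummerTube B T X Y θ c₀`: `X`, `Y` small and
`θ ≡ c₀`.

* generic: `residue_eq_of_mem_kummerTube` (a place in the Kummer tubes of `c₀` and `c₀'` forces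
  `c₀ ≡ c₀'`), `eq_of_mem_kummerTube` (**`dKK`** for a family `c₀ : KP → A` with pairwise distinct
  residues), `eq_of_mem_kummerTube_roots` (the residues `rootsK q ρ s / β` of helper7's `kumC0`);
* modular: `valuation_Ug_of_mem_tubeTM` (on the raw tube of `nT e`: `|U_g(P)| = |u_e(P ∘ α₂)|
  > |a₀|`), `valuation_Ug_of_mem_kummerTube` (on a Kummer tube with `Y = U_g / a₀`:
  `|U_g(P)| < |a₀|`), **`dTK_modular`** (the raw tube `tubeTM` of `nT e` is disjoint from every Kummer
  tube with `Y = U_{g_e} · a₀⁻¹` — helper7's `kumY`, `rfl`), `dKK_modular`;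
* family (helper7's names, `BR3/KummerNodeNames.lean`): **`dTK_fam`** (`tubeTM e` against
  `kumTube e s`), **`dKK_fam`** (`kumTube e s` against `kumTube e s'`), and the two clauses in the
  shapes `∀ e s P, …` of `partition_modular` / `ModularNodeK` (`dTK_kum`, `dKK_kum`).
-/

set_option autoImplicit false
set_option linter.unusedSectionVars false
set_option linter.style.haveILetI false
set_option synthInstance.maxHeartbeats 400000

noncomputable section

/- S36 build-time patch: file-local shortcut instances. They only shorten instance search;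
each is the instance that the search finds anyway (reducible, same terms after unfolding). -/
local instance (priority := 100000) Fermat.Agent.BR3.FastInst.instAlgFullC_KummerTubeDisj
    {k : Type*} [Field k] (N : ℕ) :
    Algebra k ↥(ModularCurve.modularFunctionFieldFullC k N) := inferInstance
local instance (priority := 100000) Fermat.Agent.BR3.FastInst.instFieldFullC_KummerTubeDisj
    {k : Type*} [Field k] (N : ℕ) :
    Field ↥(ModularCurve.modularFunctionFieldFullC k N) := inferInstance
local instance (priority := 100000) Fermat.Agent.BR3.FastInst.instAlgLaurent_KummerTubeDisj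
    {k : Type*} [Field k] : Algebra k (LaurentSeries k) := inferInstance


namespace Fermat.Agent.BR3.KummerTubeDisj

open AlgebraicCurve IsLocalRing Fermat.Agent.Red Fermat.Agent.BR3.KummerLevels

/-! ### generic: the value of `θ` separates the Kummer tubes -/

section Generic

variable {K F F₂ : Type*} [Field K] [Field F] [Field F₂] [Algebra K F] [Algebra K F₂]
  [Algebra F F₂] [IsScalarTower K F F₂] [Algebra.IsIntegral F F₂]
  {A : ValuationSubring K} {T : Set (Place K F)} {X Y θ : F₂}

/-- A place in the Kummer tubes of the constants `c`, `c'` forces `c ≡ c'`. -/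
theorem residue_eq_of_mem_kummerTube {X' Y' : F₂} {c c' : A} {P : Place K F₂}
    (h : P ∈ kummerTube A T X Y θ c) (h' : P ∈ kummerTube A T X' Y' θ c') :
    residue A c = residue A c' := by
  obtain ⟨-, -, -, d, hd, hlt⟩ := h
  obtain ⟨-, -, -, d', hd', hlt'⟩ := h'
  have hdd : d = d' := hd.unique hd'
  subst hdd
  have h1 : A.valuation ((c : K) - (c' : K)) < 1 := by
    have e : (c : K) - (c' : K) = (d - (c' : K)) - (d - (c : K)) := by ring
    rw [e]
    exact lt_of_le_of_lt (Valuation.map_sub _ _ _) (max_lt hlt' hlt)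
  have h2 : residue A (c - c') = 0 := by
    rw [residue_eq_zero_iff]
    exact (A.valuation_lt_one_iff _).mpr (by simpa using h1)
  rw [map_sub, sub_eq_zero] at h2
  exact h2

/-- **`dKK`, generic**: the Kummer tubes of a family of constants with pairwise distinct residues
are pairwise disjoint. -/
theorem eq_of_mem_kummerTube {KP : Type*} (c₀ : KP → A)
    (hinj : Function.Injective fun s => residue A (c₀ s)) {s s' : KP} {P : Place K F₂}
    (h : P ∈ kummerTube A T X Y θ (c₀ s)) (h' : P ∈ kummerTube A T X Y θ (c₀ s')) : s = s' :=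
  hinj (residue_eq_of_mem_kummerTube h h')

end Generic

section Roots

open Fermat.Agent.BR3.VertPtsU

variable {K F F₂ : Type*} [Field K] [Field F] [Field F₂] [Algebra K F] [Algebra K F₂]
  [Algebra F F₂] [IsScalarTower K F F₂] [Algebra.IsIntegral F F₂]
  {A : ValuationSubring K} [IsAlgClosed (ResidueField A)] {T : Set (Place K F)} {X Y θ : F₂}
  (q : ℕ) [hq : Fact q.Prime] [CharP (ResidueField A) q]

/-- the residues `rootsK q ρ s / β` are pairwise distinct -/
theorem injective_of_residue_eq {β ρ : ResidueField A} (hβ : β ≠ 0) (hρ : ρ ≠ 0)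
    (c₀ : KPq q → A) (hres : ∀ s, residue A (c₀ s) = rootsK q ρ s / β) :
    Function.Injective fun s => residue A (c₀ s) := by
  intro s s' h
  simp only [hres] at h
  exact rootsK_injective q hρ ((div_left_inj' hβ).mp h)

/-- **`dKK`** for constants lifting `rootsK q ρ s / β` (helper7's `kumC0`). -/
theorem eq_of_mem_kummerTube_roots {β ρ : ResidueField A} (hβ : β ≠ 0) (hρ : ρ ≠ 0)
    (c₀ : KPq q → A) (hres : ∀ s, residue A (c₀ s) = rootsK q ρ s / β) {s s' : KPq q}
    {P : Place K F₂} (h : P ∈ kummerTube A T X Y θ (c₀ s))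
    (h' : P ∈ kummerTube A T X Y θ (c₀ s')) : s = s' :=
  eq_of_mem_kummerTube c₀ (injective_of_residue_eq q hβ hρ c₀ hres) h h'

end Roots

/-! ### modular: the raw tube of `nT e` against the Kummer tubes over the same outer node -/

section Modular

open ModularCurve Fermat.Agent.X0 Fermat.Agent.Val Fermat.Agent.Hecke
  Fermat.Agent.BR.SS Fermat.Agent.BR.Refine Fermat.Agent.BR.S0 Fermat.Agent.BR.S0.PointDict
  Fermat.Agent.BR.S0.RedModular Fermat.Agent.BR2.SetupOfData Fermat.Agent.BR3.CircleN
  Fermat.Agent.BR3.SRef Fermat.Agent.BR3.SRef.Modular Fermat.Agent.BR3.FibreProd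
  Fermat.Agent.BR3.HeckePoly Fermat.Agent.BR3.SSParam Fermat.Agent.BR3.SplitCompsCInf
  Fermat.Agent.BR3.SplitNode Fermat.Agent.BR3.SDD.Modular Fermat.Agent.BR3.VertPtsU
  Fermat.Agent.BR3.ThickSDDPlug

local notation "Kb" => AlgebraicClosure ℚ

variable {M q : ℕ} [NeZero M] [hq : Fact q.Prime]
variable (B : ValuationSubring (AlgebraicClosure ℚ)) (hB : B.LiesOverPrime q) (hqM : ¬ q ∣ M)
variable [IsAlgClosed (ResidueField B)] [CharP (ResidueField B) q]
  [PerfectField (ResidueField B)]
variable (h2 : nuTwo M = 0) (h3 : nuThree M = 0) (e : Crossing (chartDataModular B hB hqM))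

set_option maxHeartbeats 4000000 in
/-- On the raw tube of the node `nT e` the function `U_{g_e}` has a value of absolute value
`|u_e(P ∘ α₂)| > |a₀|`. -/
theorem valuation_Ug_of_mem_tubeTM (hα : (alpha2 M q).toRingHom.IsIntegral)
    {P : Place Kb (Fb (M * q * q))} (hP : P ∈ tubeTM B hB hqM h2 h3 e) :
    ∃ cU : Kb, IsValueAt P (Ug M q (zePackM B hB hqM h2 h3 e).g) cU ∧
      B.valuation (gaugeA q B hB hqM e) < B.valuation cU := by
  have hPa := tube_a_nTM B hB hqM h2 h3 e hα hP
  have hPa' : P.restrictAlong (alpha2 M q) hα ∈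
      tube (sref (inputs (DtM B hB hqM)) (gaugeA q B hB hqM) (admA B hB hqM h2 h3))
        (outer (inputs (DtM B hB hqM)) (gaugeA q B hB hqM) (admA B hB hqM h2 h3) e) := hPa
  rw [tube_outer] at hPa'
  obtain ⟨d, hd, -, hd1⟩ := value_tubeTM B hB hqM h2 h3 e hP
  obtain ⟨cU, hcU, hv⟩ := Fermat.Agent.BR3.SDD.TubesB.exists_value_Ug_of_unit B hB hqM e h2 h3
    (zePackM B hB hqM h2 h3 e).P hα hPa'.1 hd hd1
    (Ug_eq_splitW_mul B hB hqM e (zePackM B hB hqM h2 h3 e).P)
  refine ⟨cU, hcU, ?_⟩
  rw [hv]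
  exact hPa'.2

/-- On a Kummer tube with `Y = U_g · a₀⁻¹` the function `U_g` has a value of absolute value
`< |a₀|`. -/
theorem valuation_Ug_of_mem_kummerTube {F : Type*} [Field F] [Algebra Kb F]
    [Algebra F (Fb (M * q * q))] [IsScalarTower Kb F (Fb (M * q * q))]
    [Algebra.IsIntegral F (Fb (M * q * q))] {T : Set (Place Kb F)}
    {g : Fb M} {a₀ : Kb} (ha₀ : a₀ ≠ 0) {X Y θ : Fb (M * q * q)} {c₀ : B}
    (hY : Y = Ug M q g * (algebraMap Kb (Fb (M * q * q)) a₀)⁻¹)
    {P : Place Kb (Fb (M * q * q))} (hP : P ∈ kummerTube B T X Y θ c₀) :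
    ∃ cU : Kb, IsValueAt P (Ug M q g) cU ∧ B.valuation cU < B.valuation a₀ := by
  obtain ⟨-, -, ⟨d, hd, hlt⟩, -⟩ := hP
  have h0 : algebraMap Kb (Fb (M * q * q)) a₀ ≠ 0 := (_root_.map_ne_zero _).mpr ha₀
  exact Fermat.Agent.BR3.SDD.TubesB.exists_value_Ug_of_small B hd hlt ha₀
    (by rw [hY, inv_mul_cancel_right₀ h0])

set_option maxHeartbeats 4000000 in
/-- **`dTK`** (`q` odd): the raw tube of `nT e` is disjoint from every Kummer tube over the outer
node of `S'ref_a` at `e` whose function `Y` is `U_{g_e} · a₀⁻¹` (helper7's `kumY`: `rfl`). -/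
theorem dTK_modular (hα : (alpha2 M q).toRingHom.IsIntegral)
    {X Y θ : Fb (M * q * q)} {c₀ : B}
    (hY : Y = Ug M q (zePackM B hB hqM h2 h3 e).g *
      (algebraMap Kb (Fb (M * q * q)) (gaugeA q B hB hqM e))⁻¹)
    {P : Place Kb (Fb (M * q * q))} (hT : P ∈ tubeTM B hB hqM h2 h3 e)
    (hK : P ∈ (letI := algebraAlong (alpha2 M q)
      haveI := isScalarTower_along (alpha2 M q)
      haveI : Module.Finite (Fb (M * q)) (Fb (M * q * q)) :=
        Fermat.Agent.Hecke.finiteAlong_heckeAlphaBar (M * q) q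
      kummerTube B
        (tube (srefM (DtM B hB hqM) (gaugeA q B hB hqM) (admA B hB hqM h2 h3))
          (outer (inputs (DtM B hB hqM)) (gaugeA q B hB hqM) (admA B hB hqM h2 h3) e))
        X Y θ c₀)) : False := by
  letI := algebraAlong (alpha2 M q)
  haveI := isScalarTower_along (alpha2 M q)
  haveI : Module.Finite (Fb (M * q)) (Fb (M * q * q)) :=
    Fermat.Agent.Hecke.finiteAlong_heckeAlphaBar (M * q) q
  obtain ⟨cU, hcU, hgt⟩ := valuation_Ug_of_mem_tubeTM B hB hqM h2 h3 e hα hT
  obtain ⟨cU', hcU', hlt⟩ := valuation_Ug_of_mem_kummerTube B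
    (Fermat.Agent.BR.Circle.gauge_ne_zero (admA B hB hqM h2 h3 e).1) hY hK
  have hcc : cU = cU' := hcU.unique hcU'
  subst hcc
  exact lt_irrefl _ (hgt.trans hlt)

/-- **`dKK`** (`q` odd): the Kummer tubes of the constants `c₀ s` lifting `rootsK q ρ_e s / β_e`
(helper7's `kumC0 e`) are pairwise disjoint. -/
theorem dKK_modular {F : Type*} [Field F] [Algebra Kb F]
    [Algebra F (Fb (M * q * q))] [IsScalarTower Kb F (Fb (M * q * q))]
    [Algebra.IsIntegral F (Fb (M * q * q))] {T : Set (Place Kb F)}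
    {X Y θ : Fb (M * q * q)} (c₀ : KPq q → B)
    (hres : ∀ s, residue B (c₀ s) =
      rootsK q (zePackM B hB hqM h2 h3 e).ρ s / (zePackM B hB hqM h2 h3 e).β)
    {s s' : KPq q} {P : Place Kb (Fb (M * q * q))}
    (h : P ∈ kummerTube B T X Y θ (c₀ s)) (h' : P ∈ kummerTube B T X Y θ (c₀ s')) : s = s' :=
  eq_of_mem_kummerTube_roots q (zePackM B hB hqM h2 h3 e).hβ (zePackM B hB hqM h2 h3 e).hρ c₀ hres
    h h'

/-! ### the family at helper7's names -/

section Family

open Fermat.Agent.BR3.KummerNodeInputs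

set_option maxHeartbeats 4000000 in
/-- **`dTK`, family form**: the raw tube of `nT e` is disjoint from the Kummer tubes
`kumTube e s`. -/
theorem dTK_fam (hα : (alpha2 M q).toRingHom.IsIntegral) (s : KPq q)
    {P : Place Kb (Fb (M * q * q))} (hT : P ∈ tubeTM B hB hqM h2 h3 e)
    (hK : P ∈ kumTube B hB hqM h2 h3 e s) : False :=
  dTK_modular B hB hqM h2 h3 e hα (X := kumX B hB hqM h2 h3 e) (Y := kumY B hB hqM h2 h3 e)
    (θ := kumTheta B hB hqM h2 h3 e) (c₀ := kumC0 B hB hqM h2 h3 e s) rfl hT hK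

set_option maxHeartbeats 4000000 in
/-- **`dKK`, family form**: the Kummer tubes `kumTube e s`, `kumTube e s'` meet only if
`s = s'`. -/
theorem dKK_fam {s s' : KPq q} {P : Place Kb (Fb (M * q * q))}
    (h : P ∈ kumTube B hB hqM h2 h3 e s) (h' : P ∈ kumTube B hB hqM h2 h3 e s') : s = s' := by
  letI := algebraAlong (alpha2 M q)
  haveI := isScalarTower_along (alpha2 M q)
  haveI : Module.Finite (Fb (M * q)) (Fb (M * q * q)) :=
    Fermat.Agent.Hecke.finiteAlong_heckeAlphaBar (M * q) q
  exact eq_of_mem_kummerTube (kumC0 B hB hqM h2 h3 e)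
    (residue_kumC0_injective B hB hqM h2 h3 e) h h'

end Family

/-- **`dTK`** in the shape of `partition_modular` / `ModularNodeK` at `tubeT := tubeTM`,
`tubeK := kumTube`. -/
theorem dTK_kum (hα : (alpha2 M q).toRingHom.IsIntegral) :
    ∀ (e : Crossing (chartDataModular B hB hqM)) (s : KPq q) (P : Place Kb (Fb (M * q * q))),
      P ∈ tubeTM B hB hqM h2 h3 e →
      P ∈ Fermat.Agent.BR3.KummerNodeInputs.kumTube B hB hqM h2 h3 e s → False :=
  fun e s _ hT hK => dTK_fam B hB hqM h2 h3 e hα s hT hK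

/-- **`dKK`** in the shape of `partition_modular` / `ModularNodeK` at `tubeK := kumTube`. -/
theorem dKK_kum :
    ∀ (e : Crossing (chartDataModular B hB hqM)) (s s' : KPq q)
      (P : Place Kb (Fb (M * q * q))),
      P ∈ Fermat.Agent.BR3.KummerNodeInputs.kumTube B hB hqM h2 h3 e s →
      P ∈ Fermat.Agent.BR3.KummerNodeInputs.kumTube B hB hqM h2 h3 e s' → s = s' :=
  fun e _ _ _ h h' => dKK_fam B hB hqM h2 h3 e h h'

end Modular

end Fermat.Agent.BR3.KummerTubeDisj
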