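import Mathlib
import Fermat.Agent.BR3.KummerNodeNames
import Fermat.Agent.BR3.SDD.TubesBFinal

/-!
# Program C (S36), node (N2-ODD TUBES, F2), part 1: the inclusion clauses of the Kummer tubes

The raw tube of the Kummer node `nk e s` (`q` odd) is helper7's
`KummerNodeInputs.kumTube B hB hqM h2 h3 e s` (`BR3/KummerNodeNames.lean`): the places over the tube
of the outer node of `S'ref_a` at `e` (along `α₂`) at which `kumX e`, `kumY e` and
`kumTheta e - kumC0 e s` are small.  The clauses below are the `q`-odd named hypotheses of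
helper15's `SDD/ModularNodeK.lean` at `tubeKodd := kumTube B hB hqM h2 h3`, in their literal shapes:

* `tube_a_nk_fam` (`subK`, `tube_a_nk`; `hoddA`) : `P.restrictAlong α₂ hα` lies in the tube of the
  outer node of `S'ref_a` at `e`;
* `value_kumU_fam` : on the tube `U_e` has a value of absolute value `< |gaugeSDD q|`;
* `tube_b_nk_fam` (`tube_b_nk`; `hoddB`) : `P.restrictAlong β₂ hβ` lies in the tube of the inner
  node of `S'ref_b` at `Fr e`;
* `value_theta_fam`, `hpole_fam` (`hpole`) : `kumTheta e` has a value `≡ kumC0 e s` on the tube, in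
  particular no pole;
* `tube_a_nk_kum`, `tube_b_nk_kum`, `hpole_kum` : the same in the shapes `∀ e s, ∀ P ∈ …`.
-/

set_option autoImplicit false
set_option linter.unusedSectionVars false
set_option linter.unusedVariables false
set_option linter.style.haveILetI false
set_option synthInstance.maxHeartbeats 400000

noncomputable section

namespace Fermat.Agent.BR3.KummerTubeFam

open ModularCurve AlgebraicCurve IsLocalRing
open Fermat.Agent.Red Fermat.Agent.Val Fermat.Agent.X0 Fermat.Agent.Hecke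
open Fermat.Agent.BR.SS Fermat.Agent.BR.Refine Fermat.Agent.BR.S0 Fermat.Agent.BR.S0.PointDict
open Fermat.Agent.BR.S0.RedModular Fermat.Agent.BR2.SetupOfData Fermat.Agent.BR3.CircleN
open Fermat.Agent.BR3.SRef Fermat.Agent.BR3.SRef.Modular Fermat.Agent.BR3.FibreProd
open Fermat.Agent.BR3.HeckePoly Fermat.Agent.BR3.SSParam Fermat.Agent.BR3.SDD.Modular
open Fermat.Agent.BR3.VertPtsU Fermat.Agent.BR3.VertBetaFr Fermat.Agent.BR3.ThickSDDPlug
open Fermat.Agent.BR3.KummerLevels Fermat.Agent.BR3.KummerNodeInputs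

local notation "Kb" => AlgebraicClosure ℚ

variable {M q : ℕ} [NeZero M] [hq : Fact q.Prime]
variable (B : ValuationSubring (AlgebraicClosure ℚ)) (hB : B.LiesOverPrime q) (hqM : ¬ q ∣ M)
variable [IsAlgClosed (ResidueField B)] [CharP (ResidueField B) q]

/-- (shortcut instance) -/
local instance (priority := 100000) instAlgebraFtMShortcutKTF :
    Algebra (IsLocalRing.ResidueField B)
      (modularFunctionFieldFullC (IsLocalRing.ResidueField B) M) :=
  inferInstance

variable (h2 : nuTwo M = 0) (h3 : nuThree M = 0) (e : Crossing (chartDataModular B hB hqM))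

set_option maxHeartbeats 4000000 in
/-- (i) **`tube_a_nk` / `subK`**: the points of the Kummer tube `kumTube e s` lie, along `α₂`, over
the outer node of `S'ref_a` at `e`. -/
theorem tube_a_nk_fam (hα : (alpha2 M q).toRingHom.IsIntegral) (s : KPq q)
    {P : Place Kb (Fb (M * q * q))} (hP : P ∈ kumTube B hB hqM h2 h3 e s) :
    P.restrictAlong (alpha2 M q) hα ∈
      Fermat.Agent.BR.Refine.tube
        (srefM (DtM B hB hqM) (gaugeA q B hB hqM) (admA B hB hqM h2 h3))
        (outer (inputs (DtM B hB hqM)) (gaugeA q B hB hqM) (admA B hB hqM h2 h3) e) :=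
  ((mem_kumTube_iff B hB hqM h2 h3 e s P).mp hP).1

set_option maxHeartbeats 4000000 in
/-- On the Kummer tube `kumTube e s` the function `U_e = U_{g_e}` has a value of absolute value
`< |gaugeSDD q|`. -/
theorem value_kumU_fam (s : KPq q) {P : Place Kb (Fb (M * q * q))}
    (hP : P ∈ kumTube B hB hqM h2 h3 e s) :
    ∃ cU : Kb, IsValueAt P (kumU B hB hqM h2 h3 e) cU ∧
      B.valuation cU < B.valuation (gaugeSDD q) := by
  obtain ⟨-, -, ⟨d, hd, hlt⟩, -⟩ := (mem_kumTube_iff B hB hqM h2 h3 e s P).mp hP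
  have ha₀ : gaugeA q B hB hqM e ≠ 0 :=
    Fermat.Agent.BR.Circle.gauge_ne_zero (admA B hB hqM h2 h3 e).1
  have h0 : algebraMap Kb (Fb (M * q * q)) (gaugeA q B hB hqM e) ≠ 0 :=
    (_root_.map_ne_zero _).mpr ha₀
  have hYU : Ug M q (zePackM B hB hqM h2 h3 e).g =
      kumY B hB hqM h2 h3 e * algebraMap Kb (Fb (M * q * q)) (gaugeA q B hB hqM e) := by
    unfold kumY kumU
    rw [inv_mul_cancel_right₀ h0]
  exact Fermat.Agent.BR3.SDD.TubesB.exists_value_Ug_of_small B hd hlt ha₀ hYU

set_option maxHeartbeats 4000000 in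
/-- (v) **`tube_b_nk`**: the points of the Kummer tube `kumTube e s` lie, along `β₂`, over the inner
node of `S'ref_b` at `Fr e`. -/
theorem tube_b_nk_fam (hα : (alpha2 M q).toRingHom.IsIntegral)
    (hβ : (beta2 M q).toRingHom.IsIntegral) (s : KPq q)
    {P : Place Kb (Fb (M * q * q))} (hP : P ∈ kumTube B hB hqM h2 h3 e s) :
    P.restrictAlong (beta2 M q) hβ ∈
      Fermat.Agent.BR.Refine.tube
        (srefM (DtM B hB hqM) (gaugeB q B hB hqM) (admB B hB hqM h2 h3))
        (inner (inputs (DtM B hB hqM)) (gaugeB q B hB hqM) (admB B hB hqM h2 h3)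
          (Fr B hB hqM e)) := by
  obtain ⟨cU, hU, hlt⟩ := value_kumU_fam B hB hqM h2 h3 e s hP
  exact Fermat.Agent.BR3.SDD.TubesBFinal.tube_b_nk_of_value B hB hqM e h2 h3
    (zePackM B hB hqM h2 h3 e).P hα hβ (admA B hB hqM h2 h3) (admB B hB hqM h2 h3)
    (tube_a_nk_fam B hB hqM h2 h3 e hα s hP) hU hlt

/-- (iv) the value of the Kummer function `kumTheta e` on the Kummer tube `kumTube e s` is
congruent to `kumC0 e s`. -/
theorem value_theta_fam (s : KPq q) {P : Place Kb (Fb (M * q * q))}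
    (hP : P ∈ kumTube B hB hqM h2 h3 e s) :
    ∃ c : Kb, IsValueAt P (kumTheta B hB hqM h2 h3 e) c ∧
      B.valuation (c - ((kumC0 B hB hqM h2 h3 e s : B) : Kb)) < 1 :=
  ((mem_kumTube_iff B hB hqM h2 h3 e s P).mp hP).2.2.2

/-- (iv) **`hpole`**: the Kummer function `kumTheta e` has no pole on the Kummer tubes
`kumTube e s`. -/
theorem hpole_fam (s : KPq q) {P : Place Kb (Fb (M * q * q))}
    (hP : P ∈ kumTube B hB hqM h2 h3 e s) : 0 ≤ P.ord (kumTheta B hB hqM h2 h3 e) := by
  obtain ⟨c, hc, -⟩ := value_theta_fam B hB hqM h2 h3 e s hP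
  rcases (P.adicValuation_le_one_iff).1 hc.adicValuation_le_one with h0 | h0
  · rw [h0, Place.ord_zero]
  · exact h0

/-! ### the shapes `∀ e s, ∀ P ∈ kumTube e s, …` of `SDD/ModularNodeK.lean` -/

/-- **`hoddA`** of `ModularNodeK.tube_a_nkM` at `tubeKodd := kumTube B hB hqM h2 h3`. -/
theorem tube_a_nk_kum (hα : (alpha2 M q).toRingHom.IsIntegral) :
    ∀ (e : Crossing (chartDataModular B hB hqM)) (s : KPq q),
      ∀ P ∈ kumTube B hB hqM h2 h3 e s,
        P.restrictAlong (alpha2 M q) hα ∈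
          Fermat.Agent.BR.Refine.tube
            (srefM (DtM B hB hqM) (gaugeA q B hB hqM) (admA B hB hqM h2 h3))
            (outer (inputs (DtM B hB hqM)) (gaugeA q B hB hqM) (admA B hB hqM h2 h3) e) :=
  fun e s _ hP => tube_a_nk_fam B hB hqM h2 h3 e hα s hP

/-- **`hoddB`** of `ModularNodeK.tube_b_nkM` at `tubeKodd := kumTube B hB hqM h2 h3`. -/
theorem tube_b_nk_kum (hα : (alpha2 M q).toRingHom.IsIntegral)
    (hβ : (beta2 M q).toRingHom.IsIntegral) :
    ∀ (e : Crossing (chartDataModular B hB hqM)) (s : KPq q),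
      ∀ P ∈ kumTube B hB hqM h2 h3 e s,
        P.restrictAlong (beta2 M q) hβ ∈
          Fermat.Agent.BR.Refine.tube
            (srefM (DtM B hB hqM) (gaugeB q B hB hqM) (admB B hB hqM h2 h3))
            (inner (inputs (DtM B hB hqM)) (gaugeB q B hB hqM) (admB B hB hqM h2 h3)
              (Fr B hB hqM e)) :=
  fun e s _ hP => tube_b_nk_fam B hB hqM h2 h3 e hα hβ s hP

/-- **`hpole`** of `ModularSep.sepInputRaw` on the Kummer tubes, `Θ := kumTheta B hB hqM h2 h3`. -/
theorem hpole_kum :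
    ∀ (e : Crossing (chartDataModular B hB hqM)) (s : KPq q),
      ∀ P ∈ kumTube B hB hqM h2 h3 e s, 0 ≤ P.ord (kumTheta B hB hqM h2 h3 e) :=
  fun e s _ hP => hpole_fam B hB hqM h2 h3 e s hP

/-- the value clause of the Kummer tubes in the shape `∀ e s, ∀ P ∈ …` (input of
`ModularTheta.hpole_of_value`). -/
theorem value_theta_kum :
    ∀ (e : Crossing (chartDataModular B hB hqM)) (s : KPq q),
      ∀ P ∈ kumTube B hB hqM h2 h3 e s,
        ∃ c : Kb, IsValueAt P (kumTheta B hB hqM h2 h3 e) c ∧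
          B.valuation (c - ((kumC0 B hB hqM h2 h3 e s : B) : Kb)) < 1 :=
  fun e s _ hP => value_theta_fam B hB hqM h2 h3 e s hP

end Fermat.Agent.BR3.KummerTubeFam
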