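import Mathlib
import Fermat.Agent.BR3.KummerNodeNames
import Fermat.Agent.BR3.EquivTubes
import Fermat.Agent.BR3.EquivSRefRotFibre
import Fermat.Agent.BR3.VertEquivUg
import Fermat.Agent.BR3.VertEquivMod
import Fermat.Agent.BR3.KummerSigmaSign

/-!
# Program C (S36), node (N2-ODD TUBES, F2), part 2: the Kummer tubes under the inertia group

The raw tube of the Kummer node `nk e s` (`q` odd) is helper7's
`KummerNodeInputs.kumTube B hB hqM h2 h3 e s` (`BR3/KummerNodeNames.lean`), cut out over the tube of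
the outer node of `S'ref_a` at `e` (along `α₂`) by `X = ϖ₂ / U`, `Y = U / ϖ₁`,
`θ = α₂ u_e / X ^ d ≡ c₀ e s` with `U = U_{g_e}`, `ϖ₁ = gaugeSDD q = ϖ ^ (q - 1)`,
`ϖ₂ = pi2 q = ϖ ^ (q + 1)`, `d = midDeg q`, `ϖ = unifSDD q`.

* abstract (`K`, `F`, `F₂`): `smul_X_form`, `smul_Y_form`, `smul_theta_form_base` (a semilinear
  automorphism `g₂` over `σ` fixing `U` and `u` multiplies `X`, `Y`, `θ` by `σ ϖ₂ / ϖ₂`,
  `(σ ϖ₁ / ϖ₁)⁻¹`, `((σ ϖ₂ / ϖ₂) ^ d)⁻¹`), `smul_mem_kummerTube_of_base` (the tube of `c₀` goes into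
  the tube of `c₁` as soon as `((σ ϖ₂ / ϖ₂) ^ d)⁻¹ c₁ ≡ c₀`), `smul_mem_kummerTube_of_base_fixed`;
* family: **`smul_mem_kumTube_rich`** (`σ` in the inertia group with `σ ϖ = ϖ`: every `kumTube e s`
  is stable; the `q`-odd hypothesis `hoddS` of `ModularNodeK.smul_mem_tubeKM_rich`, clause `hnK` of
  `EquivRestM.hrestM`) and **`smul_mem_kumTube_tame`** (`σ` in the inertia group with
  `σ ϖ = ζ₀ ϖ`, `ζ₀` primitive of order `(q - 1) (q + 1)` — the tame generator of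
  `GeoSigma.exists_tame_generator`: `kumTube e s` goes into `kumTube e (rev q s)`; `hoddS` of
  `ModularNodeK.smul_mem_tubeKM` at `p e := rev q`, clause `hnK` of `tameProp_of_rawTubes`);
  `smul_mem_kumTube_rich_kum`, `smul_mem_kumTube_tame_kum` : the shapes `∀ e s, ∀ P ∈ …`.
-/

set_option autoImplicit false
set_option linter.unusedSectionVars false
set_option linter.unusedVariables false
set_option linter.style.haveILetI false
set_option synthInstance.maxHeartbeats 400000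

noncomputable section

namespace Fermat.Agent.BR3.KummerTubeFam

open AlgebraicCurve IsLocalRing

/-! ### abstract: the coordinates of a Kummer sheet under a semilinear automorphism -/

section Abstract

open Fermat.Agent.Red Fermat.Agent.BR3.KummerLevels Fermat.Agent.BR3.InvFiniteTheta
  Fermat.Agent.BR3.EquivTubes

variable {K F F₂ : Type*} [Field K] [Field F] [Field F₂] [Algebra K F] [Algebra K F₂]
  [Algebra F F₂]
  (g₂ : SemilinearAut K F₂) (g : SemilinearAut K F)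

/-- `g₂ (ϖ₂ / U) = (σ ϖ₂ / ϖ₂) • (ϖ₂ / U)` if `g₂` fixes `U`. -/
theorem smul_X_form {U : F₂} (hU : g₂ • U = U) {ϖ₂ : K} (h2 : ϖ₂ ≠ 0) :
    g₂ • (algebraMap K F₂ ϖ₂ * U⁻¹) =
      (SemilinearAut.baseAut g₂ ϖ₂ / ϖ₂) • (algebraMap K F₂ ϖ₂ * U⁻¹) := by
  have h : g₂ • (algebraMap K F₂ ϖ₂ * U⁻¹) =
      algebraMap K F₂ (SemilinearAut.baseAut g₂ ϖ₂) * U⁻¹ := by
    rw [smul_mul', smul_inv'', hU, SemilinearAut.smul_algebraMap]
  rw [h, Algebra.smul_def, ← mul_assoc, ← map_mul, div_mul_cancel₀ _ h2]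

/-- `g₂ (U / ϖ₁) = (σ ϖ₁ / ϖ₁)⁻¹ • (U / ϖ₁)` if `g₂` fixes `U`. -/
theorem smul_Y_form {U : F₂} (hU : g₂ • U = U) {ϖ₁ : K} (h1 : ϖ₁ ≠ 0) :
    g₂ • (U * (algebraMap K F₂ ϖ₁)⁻¹) =
      (SemilinearAut.baseAut g₂ ϖ₁ / ϖ₁)⁻¹ • (U * (algebraMap K F₂ ϖ₁)⁻¹) := by
  have h : g₂ • (U * (algebraMap K F₂ ϖ₁)⁻¹) =
      U * (algebraMap K F₂ (SemilinearAut.baseAut g₂ ϖ₁))⁻¹ := by
    rw [smul_mul', smul_inv'', hU, SemilinearAut.smul_algebraMap]
  have hs1 : SemilinearAut.baseAut g₂ ϖ₁ ≠ 0 :=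
    (_root_.map_ne_zero (SemilinearAut.baseAut g₂)).mpr h1
  have hne : algebraMap K F₂ ϖ₁ ≠ 0 := (_root_.map_ne_zero _).mpr h1
  have hne' : algebraMap K F₂ (SemilinearAut.baseAut g₂ ϖ₁) ≠ 0 :=
    (_root_.map_ne_zero _).mpr hs1
  rw [h, Algebra.smul_def, inv_div, map_div₀]
  field_simp

/-- `g₂ (u / X ^ d) = ((σ ϖ₂ / ϖ₂) ^ d)⁻¹ • (u / X ^ d)`, `X = ϖ₂ / U`, if `g₂` fixes `U` and `u`. -/
theorem smul_theta_form_base
    (hcomm : ∀ y : F, g₂ • algebraMap F F₂ y = algebraMap F F₂ (g • y))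
    {u : F} (hu : g • u = u) {U : F₂} (hU : g₂ • U = U) {ϖ₂ : K} (h2 : ϖ₂ ≠ 0) (d : ℕ) :
    g₂ • (algebraMap F F₂ u * ((algebraMap K F₂ ϖ₂ * U⁻¹) ^ d)⁻¹) =
      ((SemilinearAut.baseAut g₂ ϖ₂ / ϖ₂) ^ d)⁻¹ •
        (algebraMap F F₂ u * ((algebraMap K F₂ ϖ₂ * U⁻¹) ^ d)⁻¹) := by
  have hX := smul_X_form g₂ hU h2
  have h : g₂ • (algebraMap F F₂ u * ((algebraMap K F₂ ϖ₂ * U⁻¹) ^ d)⁻¹) =
      algebraMap F F₂ u *
        (((SemilinearAut.baseAut g₂ ϖ₂ / ϖ₂) • (algebraMap K F₂ ϖ₂ * U⁻¹)) ^ d)⁻¹ := by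
    rw [smul_mul', smul_inv'', smul_pow', hX, hcomm, hu]
  rw [h, Algebra.smul_def, Algebra.smul_def, map_inv₀, map_pow]
  ring

variable [IsScalarTower K F F₂] [Algebra.IsIntegral F F₂]
  {A : ValuationSubring K} {T T₂ : Set (Place K F)} {c₀ : A} {P : Place K F₂}

/-- **Transport of the tube of a Kummer sheet** `X = ϖ₂ / U`, `Y = U / ϖ₁`, `θ = u / X ^ d` by a
semilinear automorphism `g₂` over an inertial `σ` with `g₂ U = U`, `g u = u`: the tube of the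
constant `c₀` goes into the tube of `c₁` as soon as `((σ ϖ₂ / ϖ₂) ^ d)⁻¹ c₁ ≡ c₀`. -/
theorem smul_mem_kummerTube_of_base
    (hcomm : ∀ y : F, g₂ • algebraMap F F₂ y = algebraMap F F₂ (g • y))
    (hg : IsInertial A (SemilinearAut.baseAut g₂))
    (hT : ∀ P ∈ T, g • P ∈ T₂) (ϖ₁ ϖ₂ : K) (h1 : ϖ₁ ≠ 0) (h2 : ϖ₂ ≠ 0)
    (u : F) (hu : g • u = u) (U : F₂) (hU : g₂ • U = U) (d : ℕ) {c₁ : A}
    (hc : A.valuation (((SemilinearAut.baseAut g₂ ϖ₂ / ϖ₂) ^ d)⁻¹ * (c₁ : K) - (c₀ : K)) < 1)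
    (hP : P ∈ kummerTube A T (algebraMap K F₂ ϖ₂ * U⁻¹) (U * (algebraMap K F₂ ϖ₁)⁻¹)
      (algebraMap F F₂ u * ((algebraMap K F₂ ϖ₂ * U⁻¹) ^ d)⁻¹) c₀) :
    g₂ • P ∈ kummerTube A T₂ (algebraMap K F₂ ϖ₂ * U⁻¹) (U * (algebraMap K F₂ ϖ₁)⁻¹)
      (algebraMap F F₂ u * ((algebraMap K F₂ ϖ₂ * U⁻¹) ^ d)⁻¹) c₁ := by
  have hv1 : A.valuation (SemilinearAut.baseAut g₂ ϖ₁ / ϖ₁) = 1 := valuation_apply_div hg h1
  have hv2 : A.valuation (SemilinearAut.baseAut g₂ ϖ₂ / ϖ₂) = 1 := valuation_apply_div hg h2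
  refine smul_mem_kummerTube_of_smul_eq A g₂ g hcomm hg hT hv2
    (cY := (SemilinearAut.baseAut g₂ ϖ₁ / ϖ₁)⁻¹)
    (cθ := ((SemilinearAut.baseAut g₂ ϖ₂ / ϖ₂) ^ d)⁻¹) ?_ ?_ (smul_X_form g₂ hU h2)
    (smul_Y_form g₂ hU h1) (smul_theta_form_base g₂ g hcomm hu hU h2 d) hc hP
  · rw [map_inv₀, hv1, inv_one]
  · rw [map_inv₀, map_pow, hv2, one_pow, inv_one]

/-- The tube of a Kummer sheet `X = ϖ₂ / U`, `Y = U / ϖ₁`, `θ = u / X ^ d` is stable under a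
semilinear automorphism `g₂` over an inertial `σ` fixing `ϖ₁`, `ϖ₂`, with `g₂ U = U`, `g u = u`. -/
theorem smul_mem_kummerTube_of_base_fixed
    (hcomm : ∀ y : F, g₂ • algebraMap F F₂ y = algebraMap F F₂ (g • y))
    (hg : IsInertial A (SemilinearAut.baseAut g₂))
    (hT : ∀ P ∈ T, g • P ∈ T₂) (ϖ₁ ϖ₂ : K)
    (h1 : SemilinearAut.baseAut g₂ ϖ₁ = ϖ₁) (h2 : SemilinearAut.baseAut g₂ ϖ₂ = ϖ₂)
    (u : F) (hu : g • u = u) (U : F₂) (hU : g₂ • U = U) (d : ℕ)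
    (hP : P ∈ kummerTube A T (algebraMap K F₂ ϖ₂ * U⁻¹) (U * (algebraMap K F₂ ϖ₁)⁻¹)
      (algebraMap F F₂ u * ((algebraMap K F₂ ϖ₂ * U⁻¹) ^ d)⁻¹) c₀) :
    g₂ • P ∈ kummerTube A T₂ (algebraMap K F₂ ϖ₂ * U⁻¹) (U * (algebraMap K F₂ ϖ₁)⁻¹)
      (algebraMap F F₂ u * ((algebraMap K F₂ ϖ₂ * U⁻¹) ^ d)⁻¹) c₀ := by
  have hX : g₂ • (algebraMap K F₂ ϖ₂ * U⁻¹) = algebraMap K F₂ ϖ₂ * U⁻¹ := by
    rw [smul_mul', smul_inv'', hU, SemilinearAut.smul_algebraMap, h2]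
  have hY : g₂ • (U * (algebraMap K F₂ ϖ₁)⁻¹) = U * (algebraMap K F₂ ϖ₁)⁻¹ := by
    rw [smul_mul', smul_inv'', hU, SemilinearAut.smul_algebraMap, h1]
  have hθ : g₂ • (algebraMap F F₂ u * ((algebraMap K F₂ ϖ₂ * U⁻¹) ^ d)⁻¹) =
      algebraMap F F₂ u * ((algebraMap K F₂ ϖ₂ * U⁻¹) ^ d)⁻¹ := by
    rw [smul_mul', smul_inv'', smul_pow', hX, hcomm, hu]
  exact smul_mem_kummerTube_of_fixed A g₂ g hcomm hg hT hX hY hθ c₀ hP

end Abstract

/-! ### the family at helper7's names -/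

section Modular

open ModularCurve
open Fermat.Agent.Red Fermat.Agent.Val Fermat.Agent.X0 Fermat.Agent.Hecke Fermat.Agent.Jac
open Fermat.Agent.BR.SS Fermat.Agent.BR.Refine Fermat.Agent.BR.S0 Fermat.Agent.BR.S0.PointDict
open Fermat.Agent.BR.S0.RedModular Fermat.Agent.BR.Final Fermat.Agent.BR2.SetupOfData
open Fermat.Agent.BR3.CircleN Fermat.Agent.BR3.SRef Fermat.Agent.BR3.SRef.Modular
open Fermat.Agent.BR3.FibreProd Fermat.Agent.BR3.HeckePoly Fermat.Agent.BR3.SSParam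
open Fermat.Agent.BR3.SDD.Modular Fermat.Agent.BR3.VertPtsU Fermat.Agent.BR3.IgSq
open Fermat.Agent.BR3.ThickSDDPlug Fermat.Agent.BR3.KummerLevels
open Fermat.Agent.BR3.KummerNodeInputs Fermat.Agent.BR3.EquivSRefModular
open Fermat.Agent.BR3.EquivSRefRotFibre Fermat.Agent.BR3.VertEquivUg
open Fermat.Agent.BR3.VertEquivMod

local notation "Kb" => AlgebraicClosure ℚ

/-- the uniformizing constant `ϖ = unifSDD q` is not zero -/
theorem unifSDD_ne_zero {q : ℕ} (hq : q.Prime) : unifSDD q ≠ 0 := by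
  intro h
  have h1 := unifSDD_pow (q := q) hq.one_lt
  have hpos : (q - 1) * (q + 1) ≠ 0 :=
    Nat.mul_ne_zero (by have := hq.two_le; omega) (Nat.succ_ne_zero q)
  rw [h, zero_pow hpos] at h1
  exact (Nat.cast_ne_zero.mpr hq.ne_zero) h1.symm

/-- `ϖ₂ = pi2 q` is not zero -/
theorem pi2_ne_zero {q : ℕ} (hq : q.Prime) : pi2 q ≠ 0 :=
  pow_ne_zero _ (unifSDD_ne_zero hq)

variable {M q : ℕ} [NeZero M] [hq : Fact q.Prime]
variable (B : ValuationSubring (AlgebraicClosure ℚ)) (hB : B.LiesOverPrime q) (hqM : ¬ q ∣ M)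
variable [IsAlgClosed (ResidueField B)] [CharP (ResidueField B) q]

/-- (shortcut instance) -/
local instance (priority := 100000) instAlgebraFtMShortcutKTFE :
    Algebra (IsLocalRing.ResidueField B)
      (modularFunctionFieldFullC (IsLocalRing.ResidueField B) M) :=
  inferInstance

variable (h2 : nuTwo M = 0) (h3 : nuThree M = 0) (e : Crossing (chartDataModular B hB hqM))
  {σ : GQ}

set_option maxHeartbeats 4000000 in
/-- (vi) **The Kummer tubes are stable under the rich inertia elements** (those fixing the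
uniformizing constant `unifSDD q`). -/
theorem smul_mem_kumTube_rich (hσ : σ ∈ B.inertiaSubgroupIn ℚ)
    (hs1 : σ (unifSDD q) = unifSDD q) (s : KPq q) {P : Place Kb (Fb (M * q * q))}
    (hP : P ∈ kumTube B hB hqM h2 h3 e s) :
    galAut (M * q * q) σ • P ∈ kumTube B hB hqM h2 h3 e s := by
  letI := algebraAlong (alpha2 M q)
  haveI := isScalarTower_along (alpha2 M q)
  haveI : Module.Finite (Fb (M * q)) (Fb (M * q * q)) :=
    Fermat.Agent.Hecke.finiteAlong_heckeAlphaBar (M * q) q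
  have h1 : SemilinearAut.baseAut (galAut (M * q * q) σ) (gaugeA q B hB hqM e) =
      gaugeA q B hB hqM e := by
    show σ (gaugeSDD q) = gaugeSDD q
    unfold gaugeSDD
    rw [map_pow, hs1]
  have h2' : SemilinearAut.baseAut (galAut (M * q * q) σ) (pi2 q) = pi2 q := by
    show σ (pi2 q) = pi2 q
    unfold pi2
    rw [map_pow, hs1]
  exact smul_mem_kummerTube_of_base_fixed (galAut (M * q * q) σ) (galAut (M * q) σ)
    (alpha2_galAut σ) (isInertial_galAut (M * q * q) B hσ)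
    (fun P' hP' => (smul_mem_outer_srefM_iff (DtM B hB hqM) (gaugeA q B hB hqM)
      (admA B hB hqM h2 h3) hσ e P').mpr hP')
    (gaugeA q B hB hqM e) (pi2 q) h1 h2' (annulusCoord (DtM B hB hqM) e)
    (annulusCoord_smul (DtM B hB hqM) hσ e) (Ug M q (zePackM B hB hqM h2 h3 e).g)
    (galAut_smul_Ug B hB hσ (zePackM B hB hqM h2 h3 e).P.hg) (midDeg q) hP

set_option maxHeartbeats 4000000 in
/-- (vi) **The Kummer tubes under the tame generator**: an inertia element `σ` with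
`σ ϖ = ζ₀ ϖ`, `ζ₀` primitive of order `(q - 1) (q + 1)`, maps the tube of `nk e s` into the tube of
`nk e (rev q s)` (`q` odd): `θ` is multiplied by `((σ ϖ₂ / ϖ₂) ^ d)⁻¹ = -1` and
`c₀ e (rev q s) ≡ - c₀ e s`. -/
theorem smul_mem_kumTube_tame (hq2 : q ≠ 2) (hσ : σ ∈ B.inertiaSubgroupIn ℚ) {ζ₀ : Kb}
    (hζ₀ : IsPrimitiveRoot ζ₀ ((q - 1) * (q + 1))) (hσϖ : σ (unifSDD q) = ζ₀ * unifSDD q)
    (s : KPq q) {P : Place Kb (Fb (M * q * q))} (hP : P ∈ kumTube B hB hqM h2 h3 e s) :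
    galAut (M * q * q) σ • P ∈ kumTube B hB hqM h2 h3 e (rev q s) := by
  letI := algebraAlong (alpha2 M q)
  haveI := isScalarTower_along (alpha2 M q)
  haveI : Module.Finite (Fb (M * q)) (Fb (M * q * q)) :=
    Fermat.Agent.Hecke.finiteAlong_heckeAlphaBar (M * q) q
  have hd : q = 2 * midDeg q + 1 := two_mul_midDeg hq2
  have hd1 : 1 ≤ midDeg q := by
    have := hq.out.two_le
    omega
  have hc : B.valuation
      (((SemilinearAut.baseAut (galAut (M * q * q) σ) (pi2 q) / pi2 q) ^ midDeg q)⁻¹ *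
        ((kumC0 B hB hqM h2 h3 e (rev q s) : B) : Kb) -
          ((kumC0 B hB hqM h2 h3 e s : B) : Kb)) < 1 :=
    Fermat.Agent.BR3.KummerSigmaSign.valuation_tame_const B hd hd1 hζ₀
      (unifSDD_ne_zero hq.out) σ hσϖ (residue_kumC0_rev B hB hqM h2 h3 e s)
  exact smul_mem_kummerTube_of_base (galAut (M * q * q) σ) (galAut (M * q) σ)
    (alpha2_galAut σ) (isInertial_galAut (M * q * q) B hσ)
    (fun P' hP' => (smul_mem_outer_srefM_iff (DtM B hB hqM) (gaugeA q B hB hqM)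
      (admA B hB hqM h2 h3) hσ e P').mpr hP')
    (gaugeA q B hB hqM e) (pi2 q)
    (Fermat.Agent.BR.Circle.gauge_ne_zero (admA B hB hqM h2 h3 e).1) (pi2_ne_zero hq.out)
    (annulusCoord (DtM B hB hqM) e) (annulusCoord_smul (DtM B hB hqM) hσ e)
    (Ug M q (zePackM B hB hqM h2 h3 e).g)
    (galAut_smul_Ug B hB hσ (zePackM B hB hqM h2 h3 e).P.hg) (midDeg q) hc hP

/-! ### the shapes `∀ e s, ∀ P ∈ kumTube e s, …` of `SDD/ModularNodeK.lean` -/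

/-- **`hoddS`** of `ModularNodeK.smul_mem_tubeKM_rich` (clause `hnK` of `EquivRestM.hrestM`) at
`tubeKodd := kumTube B hB hqM h2 h3`. -/
theorem smul_mem_kumTube_rich_kum (hσ : σ ∈ B.inertiaSubgroupIn ℚ)
    (hs1 : σ (unifSDD q) = unifSDD q) :
    ∀ (e : Crossing (chartDataModular B hB hqM)) (s : KPq q),
      ∀ P ∈ kumTube B hB hqM h2 h3 e s,
        galAut (M * q * q) σ • P ∈ kumTube B hB hqM h2 h3 e s :=
  fun e s _ hP => smul_mem_kumTube_rich B hB hqM h2 h3 e hσ hs1 s hP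

/-- **`hoddS`** of `ModularNodeK.smul_mem_tubeKM` at `p e := rev q` (clause `hnK` of
`tameProp_of_rawTubes`) at `tubeKodd := kumTube B hB hqM h2 h3`, for the tame generator. -/
theorem smul_mem_kumTube_tame_kum (hσ : σ ∈ B.inertiaSubgroupIn ℚ) {ζ₀ : Kb}
    (hζ₀ : IsPrimitiveRoot ζ₀ ((q - 1) * (q + 1))) (hσϖ : σ (unifSDD q) = ζ₀ * unifSDD q) :
    q ≠ 2 → ∀ (e : Crossing (chartDataModular B hB hqM)) (s : KPq q),
      ∀ P ∈ kumTube B hB hqM h2 h3 e s,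
        galAut (M * q * q) σ • P ∈ kumTube B hB hqM h2 h3 e (rev q s) :=
  fun hq2 e s _ hP => smul_mem_kumTube_tame B hB hqM h2 h3 e hq2 hσ hζ₀ hσϖ s hP

end Modular

end Fermat.Agent.BR3.KummerTubeFam
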