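import Mathlib
import Fermat.Agent.BR2.LevelSquares
import Fermat.Agent.BR2.LevelPlug

/-!
# Program C, node (C-LEVEL), part L1: the down maps commute with `T_p` for EVERY step `ℓ`

`BR2/LevelMaps` proves `alphaDown_hecke`, `betaDown_hecke` only for a prime step `ℓ ∤ N`.  Program C
needs them between `N₁ = N₀ q` and `N₂ = N₀ q²`, i.e. `ℓ = q ∣ N`.  Here: for ALL `N, ℓ ≠ 0` and every
prime `p ∤ N ℓ`,

* `alphaDown_heckeAlong_gen`, `betaDown_heckeAlong_gen` (for `heckeOperatorAlong`),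
* `alphaDown_hecke_gen`, `betaDown_hecke_gen` (for the Prelude's `heckeOperatorBar`),
* `Ealpha_hecke_gen`, `Ebeta_hecke_gen`.

Method: the base-change square `Fb N → Fb (N ℓ)`, `Fb (N p) → Fb (N ℓ p)` is a tensor square because
`Fb (N ℓ p)` is generated over `β_p (Fb (N ℓ))` by `j(q) ∈ Fb (N p)` (primitive element at the prime
`p`, which IS coprime to the level; `LevelGen.mem_span_degBar_of_prime`) and the spanning condition
is symmetric (`mem_span_swap`); the degrees are `ψ(N ℓ)/ψ(N)` and `ψ(N ℓ p)/ψ(N p)`.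
-/

set_option autoImplicit false
set_option linter.style.haveILetI false
set_option linter.unusedSectionVars false

noncomputable section

namespace Fermat.Agent.BR3.LevelDownGen

open AlgebraicCurve ModularCurve HahnSeries Fermat.Agent.X0 Fermat.Agent.Red
  Fermat.Agent.Hecke Fermat.Agent.Jac Fermat.Agent.ES Fermat.Agent.BR.PicFunct
  Fermat.Agent.BR2.PicFunct2 Fermat.Agent.BR2.LevelGen Fermat.Agent.BR.LevelTransfer
  Fermat.Agent.BR2.LevelMaps Fermat.Agent.BR2.LevelSquares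

/-! ### The spanning condition of a tensor square is symmetric -/

section Swap

variable {A' B B' : Type*} [CommRing A'] [CommRing B] [CommRing B']

/-- Multiplication by `g b` preserves the `A'`-span of the image of `g`. -/
theorem mul_mem_span_range (i' : A' →+* B') (g : B →+* B') (b : B) {w : B'}
    (hw : w ∈ (letI := i'.toAlgebra; Submodule.span A' (Set.range g))) :
    g b * w ∈ (letI := i'.toAlgebra; Submodule.span A' (Set.range g)) := by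
  letI := i'.toAlgebra
  induction hw using Submodule.span_induction with
  | mem s hs =>
    obtain ⟨b', rfl⟩ := hs
    exact Submodule.subset_span ⟨b * b', map_mul g b b'⟩
  | zero => rw [mul_zero]; exact Submodule.zero_mem _
  | add x y _ _ hx hy => rw [mul_add]; exact Submodule.add_mem _ hx hy
  | smul a x _ hx => rw [mul_smul_comm]; exact Submodule.smul_mem _ _ hx

/-- If `B'` is spanned over `g B` by the image of `i'`, it is spanned over `i' A'` by the image of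
`g`. -/
theorem mem_span_swap (i' : A' →+* B') (g : B →+* B') {z : B'}
    (hz : z ∈ (letI := g.toAlgebra; Submodule.span B (Set.range i'))) :
    z ∈ (letI := i'.toAlgebra; Submodule.span A' (Set.range g)) := by
  letI iB := g.toAlgebra
  induction hz using Submodule.span_induction with
  | mem s hs =>
    obtain ⟨a, rfl⟩ := hs
    letI := i'.toAlgebra
    have h1 : i' a = a • g 1 := by
      rw [Algebra.smul_def, map_one, mul_one]
      rfl
    rw [h1]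
    exact Submodule.smul_mem _ _ (Submodule.subset_span ⟨1, rfl⟩)
  | zero => exact Submodule.zero_mem _
  | add x y _ _ hx hy => exact Submodule.add_mem _ hx hy
  | smul b x _ hx =>
    have h1 : b • x = g b * x := by
      rw [Algebra.smul_def]
      rfl
    rw [h1]
    exact mul_mem_span_range i' g b hx

end Swap

/-! ### Degrees of inclusions -/

section Degree

variable {N' N'' : ℕ} [NeZero N'] [NeZero N'']

theorem inclBar_jBar (h : N' ∣ N'') : inclBar h (jBar N') = jBar N'' :=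
  Subtype.ext (by rw [coe_inclBar]; rfl)

/-- `[Fb N'' : Fb N'] · ψ(N') = ψ(N'')`. -/
theorem dedekindPsi_mul_finrankAlong_inclBar (h : N' ∣ N'') :
    dedekindPsi N' * finrankAlong Kb (inclBar h) = dedekindPsi N'' := by
  have h1 := Deg.finrank_mul_finrankAlong (inclBar h) (jBar N')
  rw [inclBar_jBar, (jBar_isSepVar N').finrank_eq, (jBar_isSepVar N'').finrank_eq] at h1
  exact h1

/-- Two inclusions with proportional `ψ` have the same degree. -/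
theorem finrankAlong_inclBar_eq {A B A' B' : ℕ} [NeZero A] [NeZero B] [NeZero A'] [NeZero B']
    (h : A ∣ B) (h' : A' ∣ B') (hψ : dedekindPsi A * dedekindPsi B' = dedekindPsi A' * dedekindPsi B) :
    finrankAlong Kb (inclBar h) = finrankAlong Kb (inclBar h') := by
  have h1 := dedekindPsi_mul_finrankAlong_inclBar h
  have h2 := dedekindPsi_mul_finrankAlong_inclBar h'
  have hA : 0 < dedekindPsi A := Deg.dedekindPsi_pos A
  have hA' : 0 < dedekindPsi A' := Deg.dedekindPsi_pos A'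
  rw [← h1, ← h2] at hψ
  -- ψA · (ψA' · d') = ψA' · (ψA · d)
  have : dedekindPsi A * dedekindPsi A' * finrankAlong Kb (inclBar h') =
      dedekindPsi A * dedekindPsi A' * finrankAlong Kb (inclBar h) := by
    calc dedekindPsi A * dedekindPsi A' * finrankAlong Kb (inclBar h')
        = dedekindPsi A * (dedekindPsi A' * finrankAlong Kb (inclBar h')) := by ring
      _ = dedekindPsi A' * (dedekindPsi A * finrankAlong Kb (inclBar h)) := hψ
      _ = dedekindPsi A * dedekindPsi A' * finrankAlong Kb (inclBar h) := by ring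
  exact (Nat.eq_of_mul_eq_mul_left (Nat.mul_pos hA hA') this).symm

/-- `ψ(N ℓ)·ψ(N p) = ψ(N)·ψ(N ℓ p)` for `p` coprime to `N ℓ`. -/
theorem dedekindPsi_square (N ℓ p : ℕ) (hp : p.Prime) (hpN : ¬ p ∣ N * ℓ) :
    dedekindPsi N * dedekindPsi (N * ℓ * p) = dedekindPsi (N * p) * dedekindPsi (N * ℓ) := by
  have hcop1 : (N * ℓ).Coprime p := ((Nat.Prime.coprime_iff_not_dvd hp).mpr hpN).symm
  have hcop2 : N.Coprime p := Nat.Coprime.coprime_dvd_left (dvd_mul_right N ℓ) hcop1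
  rw [Fermat.Agent.X0.Count.dedekindPsi_mul hcop1, Fermat.Agent.X0.Count.dedekindPsi_mul hcop2]
  ring

/-- The degree of `y(q) ↦ y(q^ℓ)`, `Fb N' → Fb (N' ℓ)`, equals the degree of the inclusion. -/
theorem finrankAlong_degBar_eq_inclBar {ℓ : ℕ} [NeZero ℓ] (e : N'' = N' * ℓ)
    (h : N' * ℓ ∣ N'') (h' : N' ∣ N'') :
    finrankAlong Kb (degBar ℓ h) = finrankAlong Kb (inclBar h') := by
  subst e
  have h1 : degBar ℓ h = heckeBetaBar Kb N' ℓ := (heckeBetaBar_eq_degBar ℓ).symm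
  rw [finrankAlong_congr h1, finrankAlong_heckeBetaBar_eq]
  rfl

end Degree

/-! ### The spanning condition at the prime `p` coprime to the level -/

section Gen

variable {N₁ : ℕ} [NeZero N₁]

/-- For a prime `p ∤ N₁`, `Fb (N₁ p)` is spanned over ANY subfield `i' (Fb A')` whose image contains
some `j(q^c)`, `c ∣ N₁`, by the image of `g = β_p : Fb N₁ → Fb (N₁ p)`. -/
theorem mem_span_range_beta {A' p : ℕ} [NeZero A'] [NeZero p] (hp : p.Prime) (hpN : ¬ p ∣ N₁)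
    (i' : Fb A' →ₐ[Kb] Fb (N₁ * p)) (g : Fb N₁ →ₐ[Kb] Fb (N₁ * p))
    (hg : g = heckeBetaBar Kb N₁ p) {c : ℕ} (hc : c ∣ N₁) (x : Fb A')
    (hx : ((i' x : Fb (N₁ * p)) : LaurentSeries Kb) = Jz 1 c) (z : Fb (N₁ * p)) :
    z ∈ (letI := algebraAlong i'; Submodule.span (Fb A') (Set.range g)) := by
  subst hg
  have h := mem_span_degBar_of_prime (N' := N₁) (N'' := N₁ * p) rfl hp hpN (dvd_refl _)
    i'.toRingHom hc x hx z
  rw [show degBar p (dvd_refl (N₁ * p)) = heckeBetaBar Kb N₁ p from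
    (heckeBetaBar_eq_degBar p).symm] at h
  exact mem_span_swap i'.toRingHom (heckeBetaBar Kb N₁ p).toRingHom h

/-- For a prime `p ∤ N₁`, `Fb (N₁ p)` is spanned over ANY subfield `i' (Fb A')` whose image contains
some `j(q^{p d})`, `d ∣ N₁`, by the image of the inclusion `g = α_p : Fb N₁ → Fb (N₁ p)`. -/
theorem mem_span_range_alpha {A' p : ℕ} [NeZero A'] [NeZero p] (hp : p.Prime) (hpN : ¬ p ∣ N₁)
    (i' : Fb A' →ₐ[Kb] Fb (N₁ * p)) (g : Fb N₁ →ₐ[Kb] Fb (N₁ * p))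
    (hg : g = heckeAlphaBar Kb N₁ p) {d : ℕ} (hd : d ∣ N₁) (x : Fb A')
    (hx : ((i' x : Fb (N₁ * p)) : LaurentSeries Kb) = Jz 1 (p * d)) (z : Fb (N₁ * p)) :
    z ∈ (letI := algebraAlong i'; Submodule.span (Fb A') (Set.range g)) := by
  subst hg
  have h := mem_span_inclBar_of_prime (N' := N₁) (N'' := N₁ * p) rfl hp hpN (dvd_mul_right _ _)
    i'.toRingHom hd x hx z
  exact mem_span_swap i'.toRingHom (heckeAlphaBar Kb N₁ p).toRingHom h

end Gen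

/-! ### The down maps commute with `T_p` -/

section Hecke

variable (N ℓ : ℕ) [NeZero N] [NeZero ℓ]

/-- **`α_*` commutes with `T_p`** for EVERY `ℓ ≠ 0` and every prime `p ∤ N ℓ`. -/
theorem alphaDown_heckeAlong_gen (p : ℕ) [NeZero p] (hp : p.Prime) (hpN : ¬ p ∣ N * ℓ)
    (y : JZero (N * ℓ)) :
    alphaDown N ℓ (heckeOperatorAlong Kb (N * ℓ) p y) =
      heckeOperatorAlong Kb N p (alphaDown N ℓ y) := by
  rw [heckeAlong_eq, heckeAlong_eq, alphaDown_eq_push, alphaDown_eq_push]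
  have hNp : N * p ∣ N * ℓ * p := ⟨ℓ, by ring⟩
  let i' : Fb (N * p) →ₐ[Kb] Fb (N * ℓ * p) := inclBar hNp
  have hBC := baseChange (heckeAlphaBar Kb N ℓ) i' (heckeBetaBar Kb N p)
    (heckeBetaBar Kb (N * ℓ) p)
    (algHom_ext_coe fun y => by
      simp only [AlgHom.comp_apply, coe_heckeAlphaBar, coe_heckeBetaBar, i', coe_inclBar])
    (finrankAlong_inclBar_eq (dvd_mul_right N ℓ) hNp (dedekindPsi_square N ℓ p hp hpN))
    (fun z => mem_span_range_beta hp hpN i' _ rfl (one_dvd _) (jGenZ (N * p) 1)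
      (by rw [coe_inclBar, coe_jGenZ (N * p) (one_dvd _)]) z)
    y
  rw [← hBC, ← push_comp, ← push_comp]
  refine push_congr (algHom_ext_coe fun y => ?_) _
  simp only [AlgHom.comp_apply, coe_heckeAlphaBar, i', coe_inclBar]

/-- **`β_*` commutes with `T_p`** for EVERY `ℓ ≠ 0` and every prime `p ∤ N ℓ`. -/
theorem betaDown_heckeAlong_gen (p : ℕ) [NeZero p] (hp : p.Prime) (hpN : ¬ p ∣ N * ℓ)
    (y : JZero (N * ℓ)) :
    betaDown N ℓ (heckeOperatorAlong Kb (N * ℓ) p y) =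
      heckeOperatorAlong Kb N p (betaDown N ℓ y) := by
  rw [heckeAlong_eq, heckeAlong_eq, betaDown_eq_push, betaDown_eq_push]
  have hNp : N * p * ℓ ∣ N * ℓ * p := ⟨1, by ring⟩
  have hNp' : N * p ∣ N * ℓ * p := ⟨ℓ, by ring⟩
  let i' : Fb (N * p) →ₐ[Kb] Fb (N * ℓ * p) := degBar ℓ hNp
  have e : N * ℓ * p = N * p * ℓ := by ring
  have hBC := baseChange (heckeBetaBar Kb N ℓ) i' (heckeBetaBar Kb N p)
    (heckeBetaBar Kb (N * ℓ) p)
    (algHom_ext_coe fun y => by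
      simp only [AlgHom.comp_apply, coe_heckeBetaBar, i', coe_degBar]
      rw [Fermat.Agent.ES.qExpand_qExpand, Fermat.Agent.ES.qExpand_qExpand]
      exact Fermat.Agent.BR2.LevelMaps.qExpand_congr (mul_comm _ _) _)
    (by
      rw [finrankAlong_heckeBetaBar_eq, finrankAlong_degBar_eq_inclBar e hNp hNp']
      exact finrankAlong_inclBar_eq (dvd_mul_right N ℓ) hNp' (dedekindPsi_square N ℓ p hp hpN))
    (fun z => mem_span_range_beta hp hpN i' _ rfl (dvd_mul_left ℓ N) (jGenZ (N * p) 1)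
      (by rw [coe_degBar, coe_jGenZ (N * p) (one_dvd _), qExpand_Jz ℓ 1 one_ne_zero, mul_one]) z)
    y
  rw [← hBC, ← push_comp, ← push_comp]
  refine push_congr (algHom_ext_coe fun y => ?_) _
  simp only [AlgHom.comp_apply, coe_heckeAlphaBar, coe_heckeBetaBar, i', coe_degBar]

end Hecke

/-! ### The statements for the Prelude's `heckeOperatorBar` -/

section HeckeBar

variable (N ℓ : ℕ) [NeZero N] [NeZero ℓ]

/-- **`α_*` commutes with `T_p`**, every `ℓ ≠ 0`, `p ∤ N ℓ`. -/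
theorem alphaDown_hecke_gen (p : Nat.Primes) (hp : ¬ (p : ℕ) ∣ N * ℓ) (y : JZero (N * ℓ)) :
    alphaDown N ℓ (heckeOperatorBar (N * ℓ) p y) = heckeOperatorBar N p (alphaDown N ℓ y) := by
  haveI : NeZero (p : ℕ) := ⟨p.2.ne_zero⟩
  exact alphaDown_heckeAlong_gen N ℓ p p.2 hp y

/-- **`β_*` commutes with `T_p`**, every `ℓ ≠ 0`, `p ∤ N ℓ`. -/
theorem betaDown_hecke_gen (p : Nat.Primes) (hp : ¬ (p : ℕ) ∣ N * ℓ) (y : JZero (N * ℓ)) :
    betaDown N ℓ (heckeOperatorBar (N * ℓ) p y) = heckeOperatorBar N p (betaDown N ℓ y) := by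
  haveI : NeZero (p : ℕ) := ⟨p.2.ne_zero⟩
  exact betaDown_heckeAlong_gen N ℓ p p.2 hp y

/-- `Ealpha = α^* α_*` commutes with `T_p`, `p ∤ N ℓ` (no hypothesis on `ℓ`). -/
theorem Ealpha_hecke_gen (p : Nat.Primes) (hp : ¬ (p : ℕ) ∣ N * ℓ) (x : JZero (N * ℓ)) :
    Ealpha N ℓ (heckeOperatorBar (N * ℓ) p x) = heckeOperatorBar (N * ℓ) p (Ealpha N ℓ x) := by
  rw [Ealpha_apply, Ealpha_apply, alphaDown_hecke_gen N ℓ p hp, alphaUp_hecke N ℓ p hp]

/-- `Ebeta = β^* β_*` commutes with `T_p`, `p ∤ N ℓ` (no hypothesis on `ℓ`). -/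
theorem Ebeta_hecke_gen (p : Nat.Primes) (hp : ¬ (p : ℕ) ∣ N * ℓ) (x : JZero (N * ℓ)) :
    Ebeta N ℓ (heckeOperatorBar (N * ℓ) p x) = heckeOperatorBar (N * ℓ) p (Ebeta N ℓ x) := by
  rw [Ebeta_apply, Ebeta_apply, betaDown_hecke_gen N ℓ p hp, betaUp_hecke N ℓ p hp]

end HeckeBar

/-! ### The base-change squares with an auxiliary prime `ℓ' ∤ M₀ q` (no hypothesis on `q`) -/

section Squares

variable (M₀ q ℓ' : ℕ) [NeZero M₀] [NeZero q] [NeZero ℓ']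

/-- `ψ(M₀)·ψ(M₀ q ℓ') = ψ(M₀ ℓ')·ψ(M₀ q)` for `ℓ'` coprime to `M₀ q`. -/
theorem dedekindPsi_square_aux (hℓ' : ℓ'.Prime) (hℓ'M : ¬ ℓ' ∣ M₀ * q) :
    dedekindPsi M₀ * dedekindPsi (M₀ * q * ℓ') = dedekindPsi (M₀ * ℓ') * dedekindPsi (M₀ * q) :=
  dedekindPsi_square M₀ q ℓ' hℓ' hℓ'M

/-- **`α`-square**, cast-free form, for ARBITRARY `q` and a prime `ℓ' ∤ M₀ q`:
`(incl)_* ∘ π^* = π₀^* ∘ α_{q*}`, `π = α_{ℓ'}`. -/
theorem alpha_square_push_gen (hℓ' : ℓ'.Prime) (hℓ'M : ¬ ℓ' ∣ M₀ * q)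
    (h : M₀ * ℓ' ∣ M₀ * q * ℓ') (x : JZero (M₀ * q)) :
    push (inclBar h) (alphaUp (M₀ * q) ℓ' x) = alphaUp M₀ ℓ' (alphaDown M₀ q x) := by
  rw [alphaUp_eq_pull, alphaUp_eq_pull, alphaDown_eq_push]
  exact baseChange (heckeAlphaBar Kb M₀ q) (inclBar h) (heckeAlphaBar Kb M₀ ℓ')
    (heckeAlphaBar Kb (M₀ * q) ℓ')
    (algHom_ext_coe fun y => by
      simp only [AlgHom.comp_apply, coe_heckeAlphaBar, coe_inclBar])
    (finrankAlong_inclBar_eq (dvd_mul_right M₀ q) h (dedekindPsi_square_aux M₀ q ℓ' hℓ' hℓ'M))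
    (fun z => mem_span_range_alpha hℓ' hℓ'M (inclBar h) _ rfl (one_dvd _)
      (jGenZ (M₀ * ℓ') ℓ')
      (by rw [coe_inclBar, coe_jGenZ (M₀ * ℓ') (dvd_mul_left ℓ' M₀), mul_one]) z)
    x

/-- **`α`-square** for arbitrary `q`: `α_{q*} ∘ π^* = π₀^* ∘ α_{q*}`, `π = α_{ℓ'}`. -/
theorem alpha_square_gen (hℓ' : ℓ'.Prime) (hℓ'M : ¬ ℓ' ∣ M₀ * q)
    (e : M₀ * q * ℓ' = M₀ * ℓ' * q) (x : JZero (M₀ * q)) :
    alphaDown (M₀ * ℓ') q (castJ e (alphaUp (M₀ * q) ℓ' x)) =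
      alphaUp M₀ ℓ' (alphaDown M₀ q x) := by
  have h : M₀ * ℓ' ∣ M₀ * q * ℓ' := ⟨q, by ring⟩
  rw [alphaDown_castJ e h, alpha_square_push_gen M₀ q ℓ' hℓ' hℓ'M h]

/-- **`β`-square**, cast-free form, for ARBITRARY `q` and a prime `ℓ' ∤ M₀ q`. -/
theorem beta_square_push_gen (hℓ' : ℓ'.Prime) (hℓ'M : ¬ ℓ' ∣ M₀ * q)
    (h : M₀ * ℓ' * q ∣ M₀ * q * ℓ') (x : JZero (M₀ * q)) :
    push (degBar q h) (alphaUp (M₀ * q) ℓ' x) = alphaUp M₀ ℓ' (betaDown M₀ q x) := by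
  have e : M₀ * q * ℓ' = M₀ * ℓ' * q := by ring
  have h' : M₀ * ℓ' ∣ M₀ * q * ℓ' := ⟨q, by ring⟩
  rw [alphaUp_eq_pull, alphaUp_eq_pull, betaDown_eq_push]
  exact baseChange (heckeBetaBar Kb M₀ q) (degBar q h) (heckeAlphaBar Kb M₀ ℓ')
    (heckeAlphaBar Kb (M₀ * q) ℓ')
    (algHom_ext_coe fun y => by
      simp only [AlgHom.comp_apply, coe_heckeAlphaBar, coe_heckeBetaBar, coe_degBar])
    (by
      rw [finrankAlong_heckeBetaBar_eq, finrankAlong_degBar_eq_inclBar e h h']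
      exact finrankAlong_inclBar_eq (dvd_mul_right M₀ q) h'
        (dedekindPsi_square_aux M₀ q ℓ' hℓ' hℓ'M))
    (fun z => mem_span_range_alpha hℓ' hℓ'M (degBar q h) _ rfl (dvd_mul_left q M₀)
      (jGenZ (M₀ * ℓ') ℓ')
      (by
        rw [coe_degBar, coe_jGenZ (M₀ * ℓ') (dvd_mul_left ℓ' M₀),
          qExpand_Jz q 1 (NeZero.ne ℓ'), mul_comm q ℓ']) z)
    x

/-- **`β`-square** for arbitrary `q`: `β_{q*} ∘ π^* = π₀^* ∘ β_{q*}`, `π = α_{ℓ'}`. -/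
theorem beta_square_gen (hℓ' : ℓ'.Prime) (hℓ'M : ¬ ℓ' ∣ M₀ * q)
    (e : M₀ * q * ℓ' = M₀ * ℓ' * q) (x : JZero (M₀ * q)) :
    betaDown (M₀ * ℓ') q (castJ e (alphaUp (M₀ * q) ℓ' x)) =
      alphaUp M₀ ℓ' (betaDown M₀ q x) := by
  have h : M₀ * ℓ' * q ∣ M₀ * q * ℓ' := ⟨1, by ring⟩
  rw [betaDown_castJ e h, beta_square_push_gen M₀ q ℓ' hℓ' hℓ'M h]

/-- **The `Ealpha`-square** for arbitrary `q`. -/
theorem Ealpha_square_gen (hℓ' : ℓ'.Prime) (hℓ'M : ¬ ℓ' ∣ M₀ * q)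
    (e : M₀ * q * ℓ' = M₀ * ℓ' * q) (x : JZero (M₀ * q)) :
    (castJ e).symm (Ealpha (M₀ * ℓ') q (castJ e (alphaUp (M₀ * q) ℓ' x))) =
      alphaUp (M₀ * q) ℓ' (Ealpha M₀ q x) := by
  have h : M₀ * ℓ' ∣ M₀ * q * ℓ' := ⟨q, by ring⟩
  rw [Ealpha_apply, Ealpha_apply, alpha_square_gen M₀ q ℓ' hℓ' hℓ'M e, castJ_symm_alphaUp e h,
    pull_inclBar_alphaUp]

/-- **The `Ebeta`-square** for arbitrary `q`. -/
theorem Ebeta_square_gen (hℓ' : ℓ'.Prime) (hℓ'M : ¬ ℓ' ∣ M₀ * q)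
    (e : M₀ * q * ℓ' = M₀ * ℓ' * q) (x : JZero (M₀ * q)) :
    (castJ e).symm (Ebeta (M₀ * ℓ') q (castJ e (alphaUp (M₀ * q) ℓ' x))) =
      alphaUp (M₀ * q) ℓ' (Ebeta M₀ q x) := by
  have h : M₀ * ℓ' * q ∣ M₀ * q * ℓ' := ⟨1, by ring⟩
  rw [Ebeta_apply, Ebeta_apply, beta_square_gen M₀ q ℓ' hℓ' hℓ'M e, castJ_symm_betaUp e h,
    pull_degBar_alphaUp]

end Squares

/-! ### The `LevelPlug` API without `q ∤ M₀` (Program C: `M₀ = M' q`) -/

section PlugC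

open Fermat.Agent.BR2.LevelPlug

variable (M₀ q ℓ' : ℕ) [NeZero M₀] [NeZero q] [NeZero ℓ'] (e : M₀ * q * ℓ' = M₀ * ℓ' * q)

/-- `deg α = q` for a prime `q ∣ M₀`. -/
theorem alphaDeg_eq_of_dvd (hq : q.Prime) (hqM₀ : q ∣ M₀) : alphaDeg M₀ q = q :=
  finrankAlong_heckeAlphaBar_of_dvd M₀ q hq hqM₀

/-- `α_{q*} ∘ π^* = π₀^* ∘ α_{q*}` in `pullN` form (arbitrary `q`). -/
theorem alphaDown_pullN (hℓ' : ℓ'.Prime) (hℓ'M : ¬ ℓ' ∣ M₀ * q) (x : JZero (M₀ * q)) :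
    alphaDown (M₀ * ℓ') q (pullN M₀ q ℓ' e x) = alphaUp M₀ ℓ' (alphaDown M₀ q x) := by
  rw [pullN_apply]
  exact alpha_square_gen M₀ q ℓ' hℓ' hℓ'M e x

/-- `β_{q*} ∘ π^* = π₀^* ∘ β_{q*}` in `pullN` form (arbitrary `q`). -/
theorem betaDown_pullN (hℓ' : ℓ'.Prime) (hℓ'M : ¬ ℓ' ∣ M₀ * q) (x : JZero (M₀ * q)) :
    betaDown (M₀ * ℓ') q (pullN M₀ q ℓ' e x) = alphaUp M₀ ℓ' (betaDown M₀ q x) := by
  rw [pullN_apply]
  exact beta_square_gen M₀ q ℓ' hℓ' hℓ'M e x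

/-- `hsqα` of `geoInputSpan_of_nodes`, for arbitrary `q`. -/
theorem EalphaN_pullN_gen (hℓ' : ℓ'.Prime) (hℓ'M : ¬ ℓ' ∣ M₀ * q) (x : JZero (M₀ * q)) :
    Ealpha (M₀ * ℓ') q (pullN M₀ q ℓ' e x) = pullN M₀ q ℓ' e (Ealpha M₀ q x) := by
  rw [pullN_apply, pullN_apply, ← Ealpha_square_gen M₀ q ℓ' hℓ' hℓ'M e x,
    AddEquiv.apply_symm_apply]

/-- `hsqβ` of `geoInputSpan_of_nodes`, for arbitrary `q`. -/
theorem EbetaN_pullN_gen (hℓ' : ℓ'.Prime) (hℓ'M : ¬ ℓ' ∣ M₀ * q) (x : JZero (M₀ * q)) :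
    Ebeta (M₀ * ℓ') q (pullN M₀ q ℓ' e x) = pullN M₀ q ℓ' e (Ebeta M₀ q x) := by
  rw [pullN_apply, pullN_apply, ← Ebeta_square_gen M₀ q ℓ' hℓ' hℓ'M e x,
    AddEquiv.apply_symm_apply]

/-- A class of level `M₀ q` killed by `α_{q*}` and `β_{q*}` pulls back to a class of the auxiliary
level killed by `α_{q*}` and `β_{q*}` (the `new` condition is stable under `π^*`). -/
theorem alphaDown_betaDown_pullN_eq_zero (hℓ' : ℓ'.Prime) (hℓ'M : ¬ ℓ' ∣ M₀ * q)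
    {x : JZero (M₀ * q)} (hα : alphaDown M₀ q x = 0) (hβ : betaDown M₀ q x = 0) :
    alphaDown (M₀ * ℓ') q (pullN M₀ q ℓ' e x) = 0 ∧
      betaDown (M₀ * ℓ') q (pullN M₀ q ℓ' e x) = 0 := by
  rw [alphaDown_pullN M₀ q ℓ' e hℓ' hℓ'M, betaDown_pullN M₀ q ℓ' e hℓ' hℓ'M, hα, hβ, map_zero]
  exact ⟨rfl, rfl⟩

end PlugC

end Fermat.Agent.BR3.LevelDownGen

end
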