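import Mathlib
import Fermat.Agent.BR3.FiltPerm

/-!
# Program C (S36), (I9-σ0): the residue isomorphism of `MapsComp` is unique

`MapsComp S g v w a` determines `a` (the residue map of `v` is surjective).  So the owners of the
different clauses on the SAME component (`MapsComp`, tubes, special points) may each produce their
own `a` by an existence statement: the `a`'s coincide.

* `mapsComp_algEquiv_unique` : `MapsComp S g v w a → MapsComp S g v w a' → a = a'`;
* `mapsComp_apply_res` : `a (res_v y) = res_w (g • y)`;
* `mapsComp_transfer` : a property proved for some `a'` with `MapsComp S g v w a'` holds for `a`.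
-/

set_option autoImplicit false
set_option linter.unusedVariables false

namespace Fermat.Agent.BR3.MapsCompUnique

open AlgebraicCurve Fermat.Agent.Red Fermat.Agent.BR.SS Fermat.Agent.BR2.Filt
  Fermat.Agent.BR3.PlaceIso Fermat.Agent.BR3.FiltPerm

variable {K F k : Type*} [Field K] [Field F] [Algebra K F] [Field k]
  {A : ValuationSubring K} {π : A →+* k} {ι : Type*} {Ft : ι → Type*}
  [∀ v, Field (Ft v)] [∀ v, Algebra k (Ft v)] {ν : Type*}
  {S : SemistableSetup (F := F) A π ι Ft ν}

theorem mapsComp_apply_res {g : SemilinearAut K F} {v w : ι} {a : Ft v ≃ₐ[k] Ft w}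
    (h : MapsComp S g v w a) (y : S.O v) :
    a (S.res v y) = S.res w ⟨g • (y : F), h.smul_mem y y.2⟩ :=
  (h.res_smul y y.2 (h.smul_mem y y.2)).symm

/-- **The residue isomorphism induced by `g` on a component is unique.** -/
theorem mapsComp_algEquiv_unique {g : SemilinearAut K F} {v w : ι} {a a' : Ft v ≃ₐ[k] Ft w}
    (h : MapsComp S g v w a) (h' : MapsComp S g v w a') : a = a' := by
  ext t
  obtain ⟨y, rfl⟩ := S.res_surjective v t
  rw [mapsComp_apply_res h y, mapsComp_apply_res h' y]

/-- A property of the residue isomorphism proved for SOME `a'` above `g` holds for EVERY `a`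
above `g`. -/
theorem mapsComp_transfer {g : SemilinearAut K F} {v w : ι} {a : Ft v ≃ₐ[k] Ft w}
    (h : MapsComp S g v w a) (p : (Ft v ≃ₐ[k] Ft w) → Prop)
    (hp : ∃ a', MapsComp S g v w a' ∧ p a') : p a := by
  obtain ⟨a', h', hpa'⟩ := hp
  rwa [mapsComp_algEquiv_unique h h']

end Fermat.Agent.BR3.MapsCompUnique
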