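import Fermat.Agent.BR3.MidUnitOrd
import Fermat.Agent.BR3.RegBaseModular
import Fermat.Agent.BR3.CoverK.Chart
import Fermat.Agent.BR3.VertSheet.Modular

/-!
# Program C, node (SC3), final: the charts of the middle components at the finite points

`H : AtlasHyp (chartDataModular B hB hqM) (jx M q)` the atlas of `S'`, `Q'` a non-crossing point of
`can`, `Q''` a place of `FMid M B = F̃_M(θ j̃)` (the residue field of the middle component
`w₂ b = (constRedMid b).O`).

* `MidSheet … H Q' hQ' Q''` : the data `(θ, Ψ, ψ, ψc, u)` of a `CoverK.CoverSheet` of `w₂ b` at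
  `Q''` over the ring of the regular chart `RegAtlas.regChartCan` of `can` at `Q'` (along `α₂`);
  `MidSheet.tube = coverTube B {P | H.r P = ⟨0, Q'⟩} θ u`, **`MidSheet.regChart`** (through
  `CoverK.coverRegChartOfConstRed`), **`MidSheet.smooth`** (the field `smMid` of `SDD.CaseInput`),
  `regChart_t`, `restrictAlong_mem_of_mem_tube`, `mem_tube_iff`; the sheet itself is the field
  `.sheet` (for `CoverK.Fibre.count_sheet`, `ord_map`, … of (W4-CAN-MOD)).
* named hypotheses: `HPsiRJ` (SC3 (iii): the coefficients of `Ψ_θ`, `θ = β₂ T' · U / (ζ^{b+1} - 1)`,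
  lie in the chart ring at the non-elliptic finite points) and `EllOrd` (the sheets at the
  elliptic ordinary points `j̃(Q') ∈ {0, 1728}`; finding #1231, node (ELL-PUR));
* `nonempty_midSheet_jBar` (non-elliptic points, from `MidUnitOrd.exists_coverSheet_mid_jBar`
  and helper4's `RegBase.hlift_regChartCan`), `nonempty_midSheet_fin`, **`midSheetFin`** : the
  sheet at EVERY place `Q''` over a finite non-crossing point `Q'` of `can`.
-/

set_option autoImplicit false
set_option linter.style.haveILetI false
set_option linter.unusedSectionVars false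

noncomputable section

/- S36 build-time patch: file-local shortcut instances. They only shorten instance search;
each is the instance that the search finds anyway (reducible, same terms after unfolding). -/
local instance (priority := 100000) Fermat.Agent.BR3.FastInst.instAlgFullC_MidChart
    {k : Type*} [Field k] (N : ℕ) :
    Algebra k ↥(ModularCurve.modularFunctionFieldFullC k N) := inferInstance
local instance (priority := 100000) Fermat.Agent.BR3.FastInst.instFieldFullC_MidChart
    {k : Type*} [Field k] (N : ℕ) :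
    Field ↥(ModularCurve.modularFunctionFieldFullC k N) := inferInstance
local instance (priority := 100000) Fermat.Agent.BR3.FastInst.instAlgLaurent_MidChart
    {k : Type*} [Field k] : Algebra k (LaurentSeries k) := inferInstance


set_option synthInstance.maxHeartbeats 400000

namespace Fermat.Agent.BR3.MidChart

open ModularCurve AlgebraicCurve HahnSeries Polynomial Fermat.Agent.X0 Fermat.Agent.Val
open Fermat.Agent.Hecke.AL Fermat.Agent.BR.TwoVal Fermat.Agent.BR.ResGen Fermat.Agent.Red
open Fermat.Agent.BR.TwoValInst Fermat.Agent.BR3.FibreProd Fermat.Agent.BR.ModUnit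
open Fermat.Agent.BR.ConstRedTwo Fermat.Agent.BR3.CoverK Fermat.Agent.BR3.CoverSheetInf
open Fermat.Agent.BR3.KummerGenus Fermat.Agent.BR3.KummerGenus.MidInst
open Fermat.Agent.BR.S0 Fermat.Agent.BR.S0.RedModular Fermat.Agent.BR.S0.PointDict
open Fermat.Agent.BR.S0.RedHyp Fermat.Agent.BR3.RegAtlas Fermat.Agent.BR3.MidUnitOrd

variable {M q : ℕ} [NeZero M] [hq : Fact q.Prime]
variable (B : ValuationSubring (AlgebraicClosure ℚ)) (hB : B.LiesOverPrime q) (hqM : ¬ q ∣ M)
variable {ζ : Kbˣ} (hζ : IsPrimitiveRoot ζ q) {b : ℕ} (hb : b < q - 1)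

local notation "kB" => IsLocalRing.ResidueField B
local notation "FtM" => modularFunctionFieldFullC (IsLocalRing.ResidueField B) M

/-- (shortcut instances: the search through the generic instances costs seconds per declaration) -/
local instance (priority := 100000) instAlgKFt : Algebra kB FtM := inferInstance
local instance (priority := 100000) instAlgKFMid : Algebra kB (FMid M B) := inferInstance
local instance (priority := 100000) instAlgFtFMid : Algebra FtM (FMid M B) := inferInstance
local instance (priority := 100000) instTowerMid : IsScalarTower kB FtM (FMid M B) :=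
  inferInstance

/-- **The data of a sheet of the middle component `w₂ b` at the place `Q''` of `F̃_M(θ j̃)` over the
regular chart of `can` at the non-crossing point `Q'`**: a generator `θ` of `F₂ / α₂ F₁` with its
minimal polynomial `Ψ`, the residue factorisation `ψ ψc` and the sheet constant `u`. -/
structure MidSheet (H : AtlasHyp (chartDataModular B hB hqM) (jx M q)) (Q' : Place kB FtM)
    (hQ' : ∀ e, Q' ≠ z₁ (chartDataModular B hB hqM) e) (Q'' : Place kB (FMid M B)) : Type where
  /-- the generator -/
  θ : Fb (M * q * q)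
  /-- its minimal polynomial over `α₂ F₁` -/
  Ψ : (Fb (M * q))[X]
  /-- the factor of `Ψ` at the point -/
  ψ : (Fb (M * q))[X]
  /-- the cofactor -/
  ψc : (Fb (M * q))[X]
  /-- the sheet constant -/
  u : B
  sheet :
    letI := algebraAlong (alpha2 M q)
    haveI := isScalarTower_along (alpha2 M q)
    CoverSheet B (IsLocalRing.residue B) (constRedW1 B hB hqM).O (constRedW1 B hB hqM).res Q'
      (constRedMid B hB hqM hζ hb).O (constRedMid B hB hqM hζ hb).res Q''
      (regChartCan B hB hqM H Q' hQ').chart.R θ Ψ ψ ψc u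

namespace MidSheet

variable {B hB hqM hζ hb}
variable {H : AtlasHyp (chartDataModular B hB hqM) (jx M q)}
  {Q' : Place (IsLocalRing.ResidueField B)
    (modularFunctionFieldFullC (IsLocalRing.ResidueField B) M)}
  {hQ' : ∀ e, Q' ≠ z₁ (chartDataModular B hB hqM) e}
  {Q'' : Place (IsLocalRing.ResidueField B) (FMid M B)}
  (S : MidSheet B hB hqM hζ hb H Q' hQ' Q'')

/-- the tube of the point `Q''` of the middle component: the places over the tube of `Q'` at which
`θ ≡ u` -/
def tube : Set (Place Kb (Fb (M * q * q))) :=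
  letI := algebraAlong (alpha2 M q)
  haveI := isScalarTower_along (alpha2 M q)
  haveI : Module.Finite (Fb (M * q)) (Fb (M * q * q)) :=
    Fermat.Agent.Hecke.finiteAlong_heckeAlphaBar (M * q) q
  coverTube B {P | H.r P = (⟨0, Q'⟩ : Σ _ : Fin 2, Place kB FtM)} S.θ S.u

/-- **the regular chart of the middle component at `Q''`** -/
def regChart :
    RegChart B (constRedMid B hB hqM hζ hb).O (constRedMid B hB hqM hζ hb).res Q'' S.tube := by
  letI := algebraAlong (alpha2 M q)
  haveI := isScalarTower_along (alpha2 M q)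
  haveI : Module.Finite (Fb (M * q)) (Fb (M * q * q)) :=
    Fermat.Agent.Hecke.finiteAlong_heckeAlphaBar (M * q) q
  exact coverRegChartOfConstRed (constRedW1 B hB hqM) (regChartCan B hB hqM H Q' hQ') S.sheet
    (Fermat.Agent.BR3.VertSheet.arch_of_isRankOne (Fermat.Agent.Val.isRankOne B hB))

/-- **the smooth chart of the middle component at `Q''`** (the field `smMid` of `SDD.CaseInput`) -/
def smooth :
    SmoothChart B (constRedMid B hB hqM hζ hb).O (constRedMid B hB hqM hζ hb).res Q'' S.tube :=
  S.regChart.chart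

theorem regChart_t : S.regChart.chart.t = alpha2 M q (regChartCan B hB hqM H Q' hQ').chart.t := rfl

/-- the places of the tube lie over the tube of `Q'` (along `α₂`) -/
theorem restrictAlong_mem_of_mem_tube (hα : (alpha2 M q).toRingHom.IsIntegral)
    {P : Place Kb (Fb (M * q * q))} (hP : P ∈ S.tube) :
    H.r (P.restrictAlong (alpha2 M q) hα) = ⟨0, Q'⟩ :=
  hP.1

theorem mem_tube_iff (hα : (alpha2 M q).toRingHom.IsIntegral) {P : Place Kb (Fb (M * q * q))} :
    P ∈ S.tube ↔ H.r (P.restrictAlong (alpha2 M q) hα) = ⟨0, Q'⟩ ∧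
      ∃ c : Kb, IsValueAt P S.θ c ∧ B.valuation (c - (S.u : B)) < 1 :=
  Iff.rfl

end MidSheet

/-! ### The named hypotheses and the sheets at the finite non-crossing points -/

/-- **(SC3 (iii), named hypothesis)**: at every finite non-crossing point `Q'` of `can` with
`j̃(Q') ≠ 0, 1728` the coefficients of the minimal polynomial of
`θ = β₂ T' · U / (ζ^{b+1} - 1)` lie in the ring of the regular chart of `can` at `Q'`
(regularity of `θ` on the tube). -/
def HPsiRJ (H : AtlasHyp (chartDataModular B hB hqM) (jx M q)) : Prop :=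
  ∀ (Q' : Place kB FtM) (hQ' : ∀ e, Q' ≠ z₁ (chartDataModular B hB hqM) e),
    jFullC kB M ∈ Q'.toValuationSubring → Q'.ord (jFullC kB M) = 0 →
    Q'.ord (jFullC kB M - 1728) = 0 →
    ∀ n, (CoverSheetMid.PsiOf M q
      (thetaGen hqM (TB' M q) (jBar (M * q)) 1 ((ζ ^ (b + 1) : Kbˣ) : Kb))).coeff n ∈
        (regChartCan B hB hqM H Q' hQ').chart.R

/-- **(EllOrd, named hypothesis; finding #1231, node (ELL-PUR))**: the sheets of the middle
component at the places over the ELLIPTIC ORDINARY points of `can` (`j̃(Q') ∈ {0, 1728}`, `Q'`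
finite, not a crossing). -/
def EllOrd (H : AtlasHyp (chartDataModular B hB hqM) (jx M q)) : Prop :=
  haveI := finiteDimensional_FMid B hB hqM
  ∀ (Q' : Place kB FtM) (hQ' : ∀ e, Q' ≠ z₁ (chartDataModular B hB hqM) e),
    jFullC kB M ∈ Q'.toValuationSubring →
    ¬ (Q'.ord (jFullC kB M) = 0 ∧ Q'.ord (jFullC kB M - 1728) = 0) →
    ∀ Q'' : Place kB (FMid M B), Q''.restrict FtM = Q' →
      Nonempty (MidSheet B hB hqM hζ hb H Q' hQ' Q'')

include hB in
/-- the sheet with `x = j` at the non-elliptic points -/
theorem nonempty_midSheet_jBar [FiniteDimensional FtM (FMid M B)]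
    (H : AtlasHyp (chartDataModular B hB hqM) (jx M q))
    (hΨ : HPsiRJ B hB hqM (ζ := ζ) (b := b) H) (Q' : Place kB FtM)
    (hQ' : ∀ e, Q' ≠ z₁ (chartDataModular B hB hqM) e)
    (hj : jFullC kB M ∈ Q'.toValuationSubring)
    (h0 : Q'.ord (jFullC kB M) = 0) (h1 : Q'.ord (jFullC kB M - 1728) = 0)
    {Q'' : Place kB (FMid M B)} (hQ : Q''.restrict FtM = Q') :
    Nonempty (MidSheet B hB hqM hζ hb H Q' hQ' Q'') := by
  obtain ⟨u, ψ, ψc, hS, -, -⟩ := exists_coverSheet_mid_jBar B hB hqM hζ hb Q' hQ' hj h0 h1 hQ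
    (regChartCan B hB hqM H Q' hQ').chart.R (regChartCan B hB hqM H Q' hQ').chart.le
    (hΨ Q' hQ' hj h0 h1) (Fermat.Agent.BR3.RegBase.hlift_regChartCan B hB hqM H Q' hQ')
  exact ⟨⟨_, _, ψ, ψc, u, hS⟩⟩

include hB in
theorem nonempty_midSheet_fin [FiniteDimensional FtM (FMid M B)]
    (H : AtlasHyp (chartDataModular B hB hqM) (jx M q))
    (hΨ : HPsiRJ B hB hqM (ζ := ζ) (b := b) H) (hE : EllOrd B hB hqM hζ hb H)
    (Q' : Place kB FtM) (hQ' : ∀ e, Q' ≠ z₁ (chartDataModular B hB hqM) e)
    (hj : jFullC kB M ∈ Q'.toValuationSubring)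
    {Q'' : Place kB (FMid M B)} (hQ : Q''.restrict FtM = Q') :
    Nonempty (MidSheet B hB hqM hζ hb H Q' hQ' Q'') := by
  by_cases h : Q'.ord (jFullC kB M) = 0 ∧ Q'.ord (jFullC kB M - 1728) = 0
  · exact nonempty_midSheet_jBar B hB hqM hζ hb H hΨ Q' hQ' hj h.1 h.2 hQ
  · exact hE Q' hQ' hj h Q'' hQ

/-- **The sheet of the middle component `w₂ b` at a place `Q''` over a finite non-crossing point
`Q'` of `can`** (hypotheses: `HPsiRJ`, `EllOrd`). -/
def midSheetFin [FiniteDimensional FtM (FMid M B)]
    (H : AtlasHyp (chartDataModular B hB hqM) (jx M q))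
    (hΨ : HPsiRJ B hB hqM (ζ := ζ) (b := b) H) (hE : EllOrd B hB hqM hζ hb H)
    (Q' : Place kB FtM) (hQ' : ∀ e, Q' ≠ z₁ (chartDataModular B hB hqM) e)
    (hj : jFullC kB M ∈ Q'.toValuationSubring)
    {Q'' : Place kB (FMid M B)} (hQ : Q''.restrict FtM = Q') :
    MidSheet B hB hqM hζ hb H Q' hQ' Q'' :=
  Classical.choice (nonempty_midSheet_fin B hB hqM hζ hb H hΨ hE Q' hQ' hj hQ)

end Fermat.Agent.BR3.MidChart
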