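import Fermat.Agent.BR3.MidChartFin

/-!
# Program C, node (ELL-PUR), last adapter: from cover sheets to `MidChart.EllOrd`

The end product of the purity plug at the elliptic ordinary points of `can` (helper4's
`EllPurity.ell_purity`, helper20's `EllPurityPoints.EtaleGen.exists_coverSheet`, helper1's
`EllPurity/Charts`) is, for every place `Q''` of `FMid M B` over `Q'`, a `CoverK.CoverSheet` of the
middle component `w₂ b` at `Q''` over the ring of `RegAtlas.regChartCan` at `Q'`.  This file turns
such sheets into `MidChart.MidSheet`s: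

* `midSheet_of_coverSheet` : a `CoverSheet` is a `MidSheet`;
* `EllSheets` (the cover sheets at the places over the elliptic ordinary points) and `FinSheets`
  (the same at every finite non-crossing point), `ellSheets_of_finSheets`;
* **`ellOrd_of_coverSheets`** : `EllSheets → MidChart.EllOrd`;
* **`midSheetFinOfSheets`** : the sheet at EVERY place over a finite non-crossing point of `can`
  from `EllSheets` alone, with `midSheetFinOfSheets_regChart_t`.
-/

set_option autoImplicit false
set_option linter.style.haveILetI false
set_option linter.unusedSectionVars false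

noncomputable section

/- S36 build-time patch: file-local shortcut instances. They only shorten instance search;
each is the instance that the search finds anyway (reducible, same terms after unfolding). -/
local instance (priority := 100000) Fermat.Agent.BR3.FastInst.instAlgFullC_MidChartEll
    {k : Type*} [Field k] (N : ℕ) :
    Algebra k ↥(ModularCurve.modularFunctionFieldFullC k N) := inferInstance
local instance (priority := 100000) Fermat.Agent.BR3.FastInst.instFieldFullC_MidChartEll
    {k : Type*} [Field k] (N : ℕ) :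
    Field ↥(ModularCurve.modularFunctionFieldFullC k N) := inferInstance
local instance (priority := 100000) Fermat.Agent.BR3.FastInst.instAlgLaurent_MidChartEll
    {k : Type*} [Field k] : Algebra k (LaurentSeries k) := inferInstance


set_option synthInstance.maxHeartbeats 400000

namespace Fermat.Agent.BR3.MidChartEll

open ModularCurve AlgebraicCurve HahnSeries Polynomial Fermat.Agent.X0 Fermat.Agent.Val
open Fermat.Agent.Hecke.AL Fermat.Agent.BR.TwoVal Fermat.Agent.BR.ResGen Fermat.Agent.Red
open Fermat.Agent.BR.TwoValInst Fermat.Agent.BR3.FibreProd Fermat.Agent.BR.ModUnit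
open Fermat.Agent.BR.ConstRedTwo Fermat.Agent.BR3.CoverK Fermat.Agent.BR3.CoverSheetInf
open Fermat.Agent.BR3.KummerGenus Fermat.Agent.BR3.KummerGenus.MidInst
open Fermat.Agent.BR.S0 Fermat.Agent.BR.S0.RedModular Fermat.Agent.BR.S0.PointDict
open Fermat.Agent.BR.S0.RedHyp Fermat.Agent.BR3.RegAtlas Fermat.Agent.BR3.MidUnitOrd
open Fermat.Agent.BR3.MidChart Fermat.Agent.BR3.MidChartFin

variable {M q : ℕ} [NeZero M] [hq : Fact q.Prime]
variable (B : ValuationSubring (AlgebraicClosure ℚ)) (hB : B.LiesOverPrime q) (hqM : ¬ q ∣ M)
variable {ζ : Kbˣ} (hζ : IsPrimitiveRoot ζ q) {b : ℕ} (hb : b < q - 1)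

local notation "kB" => IsLocalRing.ResidueField B
local notation "FtM" => modularFunctionFieldFullC (IsLocalRing.ResidueField B) M

/-- (shortcut instances) -/
local instance (priority := 100000) instAlgKFt : Algebra kB FtM := inferInstance
local instance (priority := 100000) instAlgKFMid : Algebra kB (FMid M B) := inferInstance
local instance (priority := 100000) instAlgFtFMid : Algebra FtM (FMid M B) := inferInstance
local instance (priority := 100000) instTowerMid : IsScalarTower kB FtM (FMid M B) :=
  inferInstance

/-- **A cover sheet of the middle component `w₂ b` at `Q''` over the ring of the regular chart of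
`can` at `Q'` is a `MidSheet`.** -/
theorem midSheet_of_coverSheet (H : AtlasHyp (chartDataModular B hB hqM) (jx M q))
    (Q' : Place kB FtM) (hQ' : ∀ e, Q' ≠ z₁ (chartDataModular B hB hqM) e)
    (Q'' : Place kB (FMid M B)) {θ : Fb (M * q * q)} {Ψ ψ ψc : (Fb (M * q))[X]} {u : B}
    (h : letI := algebraAlong (alpha2 M q)
      haveI := isScalarTower_along (alpha2 M q)
      CoverSheet B (IsLocalRing.residue B) (constRedW1 B hB hqM).O (constRedW1 B hB hqM).res Q'
        (constRedMid B hB hqM hζ hb).O (constRedMid B hB hqM hζ hb).res Q''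
        (regChartCan B hB hqM H Q' hQ').chart.R θ Ψ ψ ψc u) :
    Nonempty (MidSheet B hB hqM hζ hb H Q' hQ' Q'') :=
  ⟨⟨θ, Ψ, ψ, ψc, u, h⟩⟩

/-- **(named input, the end product of (ELL-PUR))**: the cover sheets of the middle component at
the places over the ELLIPTIC ORDINARY points of `can`. -/
def EllSheets (H : AtlasHyp (chartDataModular B hB hqM) (jx M q)) : Prop :=
  haveI := finiteDimensional_FMid B hB hqM
  ∀ (Q' : Place kB FtM) (hQ' : ∀ e, Q' ≠ z₁ (chartDataModular B hB hqM) e),
    jFullC kB M ∈ Q'.toValuationSubring →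
    ¬ (Q'.ord (jFullC kB M) = 0 ∧ Q'.ord (jFullC kB M - 1728) = 0) →
    ∀ Q'' : Place kB (FMid M B), Q''.restrict FtM = Q' →
      ∃ (θ : Fb (M * q * q)) (Ψ ψ ψc : (Fb (M * q))[X]) (u : B),
        letI := algebraAlong (alpha2 M q)
        haveI := isScalarTower_along (alpha2 M q)
        CoverSheet B (IsLocalRing.residue B) (constRedW1 B hB hqM).O (constRedW1 B hB hqM).res Q'
          (constRedMid B hB hqM hζ hb).O (constRedMid B hB hqM hζ hb).res Q''
          (regChartCan B hB hqM H Q' hQ').chart.R θ Ψ ψ ψc u

/-- the cover sheets of the middle component at the places over EVERY finite non-crossing point of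
`can` (what the purity plug produces: it does not see the ellipticity). -/
def FinSheets (H : AtlasHyp (chartDataModular B hB hqM) (jx M q)) : Prop :=
  haveI := finiteDimensional_FMid B hB hqM
  ∀ (Q' : Place kB FtM) (hQ' : ∀ e, Q' ≠ z₁ (chartDataModular B hB hqM) e),
    jFullC kB M ∈ Q'.toValuationSubring →
    ∀ Q'' : Place kB (FMid M B), Q''.restrict FtM = Q' →
      ∃ (θ : Fb (M * q * q)) (Ψ ψ ψc : (Fb (M * q))[X]) (u : B),
        letI := algebraAlong (alpha2 M q)
        haveI := isScalarTower_along (alpha2 M q)
        CoverSheet B (IsLocalRing.residue B) (constRedW1 B hB hqM).O (constRedW1 B hB hqM).res Q'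
          (constRedMid B hB hqM hζ hb).O (constRedMid B hB hqM hζ hb).res Q''
          (regChartCan B hB hqM H Q' hQ').chart.R θ Ψ ψ ψc u

theorem ellSheets_of_finSheets (H : AtlasHyp (chartDataModular B hB hqM) (jx M q))
    (h : FinSheets B hB hqM hζ hb H) : EllSheets B hB hqM hζ hb H :=
  fun Q' hQ' hj _ Q'' hQ => h Q' hQ' hj Q'' hQ

/-- **`EllOrd` from the cover sheets at the elliptic ordinary points.** -/
theorem ellOrd_of_coverSheets (H : AtlasHyp (chartDataModular B hB hqM) (jx M q))
    (h : EllSheets B hB hqM hζ hb H) : EllOrd B hB hqM hζ hb H := by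
  intro Q' hQ' hj hell Q'' hQ
  obtain ⟨θ, Ψ, ψ, ψc, u, hS⟩ := h Q' hQ' hj hell Q'' hQ
  exact midSheet_of_coverSheet B hB hqM hζ hb H Q' hQ' Q'' hS

/-- **The sheet of the middle component `w₂ b` at a place `Q''` over a finite non-crossing point
`Q'` of `can`**, from the cover sheets at the elliptic ordinary points alone. -/
def midSheetFinOfSheets [FiniteDimensional FtM (FMid M B)]
    (H : AtlasHyp (chartDataModular B hB hqM) (jx M q)) (hE : EllSheets B hB hqM hζ hb H)
    (Q' : Place kB FtM) (hQ' : ∀ e, Q' ≠ z₁ (chartDataModular B hB hqM) e)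
    (hj : jFullC kB M ∈ Q'.toValuationSubring)
    {Q'' : Place kB (FMid M B)} (hQ : Q''.restrict FtM = Q') :
    MidSheet B hB hqM hζ hb H Q' hQ' Q'' :=
  midSheetFinOfEll B hB hqM hζ hb H (ellOrd_of_coverSheets B hB hqM hζ hb H hE) Q' hQ' hj hQ

/-- the parameter of the chart of `midSheetFinOfSheets` is `α₂` of the parameter of the chart of
`can` at `Q'` -/
theorem midSheetFinOfSheets_regChart_t [FiniteDimensional FtM (FMid M B)]
    (H : AtlasHyp (chartDataModular B hB hqM) (jx M q)) (hE : EllSheets B hB hqM hζ hb H)
    (Q' : Place kB FtM) (hQ' : ∀ e, Q' ≠ z₁ (chartDataModular B hB hqM) e)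
    (hj : jFullC kB M ∈ Q'.toValuationSubring)
    {Q'' : Place kB (FMid M B)} (hQ : Q''.restrict FtM = Q') :
    (midSheetFinOfSheets B hB hqM hζ hb H hE Q' hQ' hj hQ).regChart.chart.t =
      alpha2 M q (regChartCan B hB hqM H Q' hQ').chart.t := rfl

end Fermat.Agent.BR3.MidChartEll
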