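import Fermat.Agent.BR3.MidChartAll
import Fermat.Agent.BR3.MidChartEll

/-!
# Program C, node (MID-FINAL), part 1: the named hypothesis `MidChartAll.MidFinHyp` discharged

helper13's one-function packaging of the charts of the middle components (`BR3/MidChartAll`) has
two named hypotheses.  The first, `MidFinHyp` (the sheet datum at the finite non-crossing points
with `j̃ ≠ 0, 1728`), is `MidChartFin.nonempty_midSheet_nonEll` (SC3: `MidUnitOrd`,
`CoverSheetMidReg`, `RegBaseModular`).  The second, `MidEllHyp`, follows from the named inputs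
`MidChart.EllOrd` / `MidChartEll.EllSheets` of (ELL-PUR).

* **`midFinHyp`** : `MidChartAll.MidFinHyp B hB hqM hζ H`, hypothesis-free;
* `hasMidSheet_of_midSheet` : a `MidChart.MidSheet` is a sheet datum `MidChartAll.HasMidSheet`;
* `midEllHyp_of_ellOrd`, `midEllHyp_of_ellSheets` : `MidEllHyp` from `EllOrd` / `EllSheets` (for
  every index `b₀`);
* `hasMidSheet_all_of_ellSheets` : the sheet datum at every point of every middle component not
  over a crossing point of `can`, from `EllSheets` alone.
-/

set_option autoImplicit false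
set_option linter.style.haveILetI false
set_option linter.unusedSectionVars false

noncomputable section

/- S36 build-time patch: file-local shortcut instances. They only shorten instance search;
each is the instance that the search finds anyway (reducible, same terms after unfolding). -/
local instance (priority := 100000) Fermat.Agent.BR3.FastInst.instAlgFullC_MidChartAllFin
    {k : Type*} [Field k] (N : ℕ) :
    Algebra k ↥(ModularCurve.modularFunctionFieldFullC k N) := inferInstance
local instance (priority := 100000) Fermat.Agent.BR3.FastInst.instFieldFullC_MidChartAllFin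
    {k : Type*} [Field k] (N : ℕ) :
    Field ↥(ModularCurve.modularFunctionFieldFullC k N) := inferInstance
local instance (priority := 100000) Fermat.Agent.BR3.FastInst.instAlgLaurent_MidChartAllFin
    {k : Type*} [Field k] : Algebra k (LaurentSeries k) := inferInstance


set_option synthInstance.maxHeartbeats 400000

namespace Fermat.Agent.BR3.MidChartAllFin

open ModularCurve AlgebraicCurve HahnSeries Polynomial Fermat.Agent.X0 Fermat.Agent.Val
open Fermat.Agent.Hecke.AL Fermat.Agent.BR.TwoVal Fermat.Agent.BR.ResGen Fermat.Agent.Red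
open Fermat.Agent.BR.TwoValInst Fermat.Agent.BR3.FibreProd Fermat.Agent.BR.ModUnit
open Fermat.Agent.BR.ConstRedTwo Fermat.Agent.BR3.CoverK Fermat.Agent.BR3.CoverSheetInf
open Fermat.Agent.BR3.KummerGenus Fermat.Agent.BR3.KummerGenus.MidInst
open Fermat.Agent.BR.S0 Fermat.Agent.BR.S0.RedModular Fermat.Agent.BR.S0.PointDict
open Fermat.Agent.BR.S0.RedHyp Fermat.Agent.BR3.RegAtlas Fermat.Agent.BR3.MidUnitOrd
open Fermat.Agent.BR3.MidChart Fermat.Agent.BR3.MidChartFin Fermat.Agent.BR3.MidChartEll
open Fermat.Agent.BR3.MidChartAll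

variable {M q : ℕ} [NeZero M] [hq : Fact q.Prime]
variable (B : ValuationSubring (AlgebraicClosure ℚ)) (hB : B.LiesOverPrime q) (hqM : ¬ q ∣ M)
variable {ζ : Kbˣ} (hζ : IsPrimitiveRoot ζ q)

local notation "kB" => IsLocalRing.ResidueField B
local notation "FtM" => modularFunctionFieldFullC (IsLocalRing.ResidueField B) M

/-- (shortcut instances) -/
local instance (priority := 100000) instAlgKFt : Algebra kB FtM := inferInstance
local instance (priority := 100000) instAlgKFMid : Algebra kB (FMid M B) := inferInstance
local instance (priority := 100000) instAlgFtFMid : Algebra FtM (FMid M B) := inferInstance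
local instance (priority := 100000) instTowerMid : IsScalarTower kB FtM (FMid M B) :=
  inferInstance

variable [FiniteDimensional (modularFunctionFieldFullC (IsLocalRing.ResidueField B) M) (FMid M B)]

/-- a `MidChart.MidSheet` at `Q''` over `Q' = Q''.restrict F̃_M` is a sheet datum of
`MidChartAll` -/
theorem hasMidSheet_of_midSheet {H : AtlasHyp (chartDataModular B hB hqM) (jx M q)}
    {b₀ : Fin (q - 1)} {Q'' : Place kB (FMid M B)}
    {hnc : ∀ e : Crossing (chartDataModular B hB hqM),
      Q''.restrict FtM ≠ z₁ (chartDataModular B hB hqM) e}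
    (S : MidSheet B hB hqM hζ b₀.2 H (Q''.restrict FtM) hnc Q'') :
    HasMidSheet B hB hqM hζ H b₀ Q'' hnc :=
  ⟨S.θ, S.Ψ, S.ψ, S.ψc, S.u, S.sheet⟩

include hB in
/-- **(hFin) discharged**: the sheet datum at the places over the finite non-crossing points of
`can` with `j̃ ≠ 0, 1728`. -/
theorem midFinHyp (H : AtlasHyp (chartDataModular B hB hqM) (jx M q)) :
    MidFinHyp B hB hqM hζ H := by
  intro b₀ Q'' hnc hj h0 h1
  obtain ⟨S⟩ := nonempty_midSheet_nonEll B hB hqM hζ b₀.2 H (Q''.restrict FtM) hnc hj h0 h1
    (Q'' := Q'') rfl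
  exact hasMidSheet_of_midSheet B hB hqM hζ S

/-- **(hEll) from `MidChart.EllOrd`** (for every index `b₀`) -/
theorem midEllHyp_of_ellOrd (H : AtlasHyp (chartDataModular B hB hqM) (jx M q))
    (hE : ∀ b₀ : Fin (q - 1), EllOrd B hB hqM hζ b₀.2 H) : MidEllHyp B hB hqM hζ H := by
  intro b₀ Q'' hnc hj hell
  obtain ⟨S⟩ := hE b₀ (Q''.restrict FtM) hnc hj hell Q'' rfl
  exact hasMidSheet_of_midSheet B hB hqM hζ S

/-- **(hEll) from the cover sheets of (ELL-PUR)** (for every index `b₀`) -/
theorem midEllHyp_of_ellSheets (H : AtlasHyp (chartDataModular B hB hqM) (jx M q))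
    (hE : ∀ b₀ : Fin (q - 1), EllSheets B hB hqM hζ b₀.2 H) : MidEllHyp B hB hqM hζ H :=
  midEllHyp_of_ellOrd B hB hqM hζ H fun b₀ => ellOrd_of_coverSheets B hB hqM hζ b₀.2 H (hE b₀)

include hB in
/-- **The sheet datum at EVERY point of every middle component not over a crossing point of
`can`**, from the cover sheets at the elliptic ordinary points alone. -/
theorem hasMidSheet_all_of_ellSheets (H : AtlasHyp (chartDataModular B hB hqM) (jx M q))
    (hE : ∀ b₀ : Fin (q - 1), EllSheets B hB hqM hζ b₀.2 H) (b₀ : Fin (q - 1))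
    (Q'' : Place kB (FMid M B))
    (hnc : ∀ e : Crossing (chartDataModular B hB hqM),
      Q''.restrict FtM ≠ z₁ (chartDataModular B hB hqM) e) :
    HasMidSheet B hB hqM hζ H b₀ Q'' hnc :=
  hasMidSheet_all B hB hqM hζ H (midFinHyp B hB hqM hζ H)
    (midEllHyp_of_ellSheets B hB hqM hζ H hE) b₀ Q'' hnc

end Fermat.Agent.BR3.MidChartAllFin
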