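import Fermat.Agent.BR3.MidChartAllFin
import Fermat.Agent.BR3.EllPurity.GenMid
import Fermat.Agent.BR3.EllPurity.ChartsGen

/-!
# Program C, node (MID-FINAL), part 3: the sheet datum at EVERY point of the middle components,
hypothesis-free (no elliptic points on `X₀(M)`)

From the étale generator of the purity plug with the separation of the `q` generic points
(`EllPurity.ell_etale_sep`, helper4/helper20/helper15), the generation statement
`SepU.gen_constRedMid` and helper1's `ChartsGen.etaleGen_exists_coverSheet`:

* **`finSheets`** : `MidChartEll.FinSheets B hB hqM hζ hb H` — the cover sheet of the middle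
  component `w₂ b` at EVERY place over EVERY finite non-crossing point of `can`, over the ring of
  `regChartCan`; `ellSheets` : `MidChartEll.EllSheets …`; `ellOrd` : `MidChart.EllOrd …`;
* **`midEllHyp`** : `MidChartAll.MidEllHyp B hB hqM hζ H`;
* **`hasMidSheetM`** : `MidChartAll.HasMidSheet B hB hqM hζ H b₀ Q'' hnc` at every point of every
  middle component not over a crossing point of `can` (the one named hypothesis `hSheet` of
  `SDD/ModularTubesMid`).

Hypotheses: `nuTwo M = 0`, `nuThree M = 0` (those of the purity plug).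
-/

set_option autoImplicit false
set_option linter.style.haveILetI false
set_option linter.unusedSectionVars false

noncomputable section

/- S36 build-time patch: file-local shortcut instances. They only shorten instance search;
each is the instance that the search finds anyway (reducible, same terms after unfolding). -/
local instance (priority := 100000) Fermat.Agent.BR3.FastInst.instAlgFullC_MidChartAllFinal
    {k : Type*} [Field k] (N : ℕ) :
    Algebra k ↥(ModularCurve.modularFunctionFieldFullC k N) := inferInstance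
local instance (priority := 100000) Fermat.Agent.BR3.FastInst.instFieldFullC_MidChartAllFinal
    {k : Type*} [Field k] (N : ℕ) :
    Field ↥(ModularCurve.modularFunctionFieldFullC k N) := inferInstance
local instance (priority := 100000) Fermat.Agent.BR3.FastInst.instAlgLaurent_MidChartAllFinal
    {k : Type*} [Field k] : Algebra k (LaurentSeries k) := inferInstance


set_option synthInstance.maxHeartbeats 400000

namespace Fermat.Agent.BR3.MidChartAllFinal

open ModularCurve AlgebraicCurve HahnSeries Polynomial Fermat.Agent.X0 Fermat.Agent.Val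
open Fermat.Agent.Hecke.AL Fermat.Agent.BR.TwoVal Fermat.Agent.BR.ResGen Fermat.Agent.Red
open Fermat.Agent.BR.TwoValInst Fermat.Agent.BR3.FibreProd Fermat.Agent.BR.ModUnit
open Fermat.Agent.BR.ConstRedTwo Fermat.Agent.BR3.CoverK Fermat.Agent.BR3.CoverSheetInf
open Fermat.Agent.BR3.KummerGenus Fermat.Agent.BR3.KummerGenus.MidInst
open Fermat.Agent.BR.S0 Fermat.Agent.BR.S0.RedModular Fermat.Agent.BR.S0.PointDict
open Fermat.Agent.BR.S0.RedHyp Fermat.Agent.BR3.RegAtlas Fermat.Agent.BR3.MidUnitOrd
open Fermat.Agent.BR3.MidChart Fermat.Agent.BR3.MidChartFin Fermat.Agent.BR3.MidChartEll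
open Fermat.Agent.BR3.MidChartAll Fermat.Agent.BR3.MidChartAllFin
open Fermat.Agent.BR3.EllPurity Fermat.Agent.BR3.EllPurityPoints

variable {M q : ℕ} [NeZero M] [hq : Fact q.Prime]
variable (B : ValuationSubring (AlgebraicClosure ℚ)) (hB : B.LiesOverPrime q) (hqM : ¬ q ∣ M)
variable {ζ : Kbˣ} (hζ : IsPrimitiveRoot ζ q) {b : ℕ} (hb : b < q - 1)

local notation "kB" => IsLocalRing.ResidueField B
local notation "FtM" => modularFunctionFieldFullC (IsLocalRing.ResidueField B) M

/-- (shortcut instances) -/
local instance (priority := 100000) instAlgKFt : Algebra kB FtM := inferInstance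
local instance (priority := 100000) instAlgKFMid : Algebra kB (FMid M B) := inferInstance
local instance (priority := 100000) instAlgFtFMid : Algebra FtM (FMid M B) := inferInstance
local instance (priority := 100000) instTowerMid : IsScalarTower kB FtM (FMid M B) :=
  inferInstance

set_option maxHeartbeats 1000000 in
include hB in
/-- **The cover sheet of the middle component `w₂ b` at a place `Q''` over a finite non-crossing
point `Q'` of `can`, from the purity plug** (elliptic or not). -/
theorem exists_coverSheet_mid_plug [FiniteDimensional FtM (FMid M B)]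
    (h2 : nuTwo M = 0) (h3 : nuThree M = 0)
    (H : AtlasHyp (chartDataModular B hB hqM) (jx M q)) (Q' : Place kB FtM)
    (hQ' : ∀ e, Q' ≠ z₁ (chartDataModular B hB hqM) e)
    (hj : jFullC kB M ∈ Q'.toValuationSubring)
    {Q'' : Place kB (FMid M B)} (hQ : Q''.restrict FtM = Q') :
    letI := algebraAlong (alpha2 M q)
    haveI := isScalarTower_along (alpha2 M q)
    ∃ (θ : Fb (M * q * q)) (Ψ ψ ψc : (Fb (M * q))[X]) (u : B),
      CoverSheet B (IsLocalRing.residue B) (constRedW1 B hB hqM).O (constRedW1 B hB hqM).res Q'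
        (constRedMid B hB hqM hζ hb).O (constRedMid B hB hqM hζ hb).res Q''
        (regChartCan B hB hqM H Q' hQ').chart.R θ Ψ ψ ψc u := by
  letI := algebraAlong (alpha2 M q)
  haveI := isScalarTower_along (alpha2 M q)
  have hfin : Q'.adicValuation (jFullC kB M) ≤ 1 := Q'.adicValuation_le_one_of_mem hj
  obtain ⟨u, v, Ψ, G, -, hsep⟩ := ell_etale_sep B hB hqM hζ h2 h3 H Q' hQ' hfin
  have comap_eq : (constRedMid B hB hqM hζ hb).O.comap
      (algebraMap (Fb (M * q)) (Fb (M * q * q))) = (constRedW1 B hB hqM).O :=
    comap_alpha2_w2 B hB hqM hζ hb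
  have res_map : ∀ (y : Fb (M * q)) (hy : y ∈ (constRedW1 B hB hqM).O)
      (hy' : algebraMap (Fb (M * q)) (Fb (M * q * q)) y ∈ (constRedMid B hB hqM hζ hb).O),
      (constRedMid B hB hqM hζ hb).res ⟨algebraMap (Fb (M * q)) (Fb (M * q * q)) y, hy'⟩ =
        algebraMap FtM (FMid M B) ((constRedW1 B hB hqM).res ⟨y, hy⟩) :=
    fun y hy _ => resMid_alpha2 B hB hqM hζ hb y hy
  have lies : ∀ g : FtM, algebraMap FtM (FMid M B) g ∈ Q''.toValuationSubring ↔
      g ∈ Q'.toValuationSubring := by
    intro g
    rw [← hQ]
    exact Iff.rfl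
  obtain ⟨c, ψ, ψc, hS, -, -⟩ := ChartsGen.etaleGen_exists_coverSheet
    (regChartCan B hB hqM H Q' hQ').chart
    (fun a ha h => (constRedW1 B hB hqM).res_algebraMap a ha h) comap_eq res_map
    (resMid_eq_zero_iff_mem_nonunits B hB hqM hζ hb) lies G
    ((riemannPkg_FMid B hB hqM).deg_one Q'') IsLocalRing.residue_surjective
    (fun y => hsep.gen_constRedMid hb _ y)
    (Fermat.Agent.BR3.RegBase.hlift_regChartCan B hB hqM H Q' hQ')
  exact ⟨u, Ψ, ψ, ψc, c, hS⟩

include hB in
/-- **(ELL-PUR, end product)** the cover sheets at every finite non-crossing point of `can` -/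
theorem finSheets (h2 : nuTwo M = 0) (h3 : nuThree M = 0)
    (H : AtlasHyp (chartDataModular B hB hqM) (jx M q)) : FinSheets B hB hqM hζ hb H := by
  haveI := finiteDimensional_FMid (M := M) B hB hqM
  intro Q' hQ' hj Q'' hQ
  exact exists_coverSheet_mid_plug B hB hqM hζ hb h2 h3 H Q' hQ' hj hQ

include hB in
theorem ellSheets (h2 : nuTwo M = 0) (h3 : nuThree M = 0)
    (H : AtlasHyp (chartDataModular B hB hqM) (jx M q)) : EllSheets B hB hqM hζ hb H :=
  ellSheets_of_finSheets B hB hqM hζ hb H (finSheets B hB hqM hζ hb h2 h3 H)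

include hB in
/-- **`MidChart.EllOrd` discharged** -/
theorem ellOrd (h2 : nuTwo M = 0) (h3 : nuThree M = 0)
    (H : AtlasHyp (chartDataModular B hB hqM) (jx M q)) : EllOrd B hB hqM hζ hb H :=
  ellOrd_of_coverSheets B hB hqM hζ hb H (ellSheets B hB hqM hζ hb h2 h3 H)

variable [FiniteDimensional (modularFunctionFieldFullC (IsLocalRing.ResidueField B) M) (FMid M B)]

include hB in
/-- **(hEll) discharged** -/
theorem midEllHyp (h2 : nuTwo M = 0) (h3 : nuThree M = 0)
    (H : AtlasHyp (chartDataModular B hB hqM) (jx M q)) : MidEllHyp B hB hqM hζ H :=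
  midEllHyp_of_ellSheets B hB hqM hζ H fun b₀ => ellSheets B hB hqM hζ b₀.2 h2 h3 H

include hB in
/-- **The sheet datum at EVERY point of every middle component not over a crossing point of
`can`**, hypothesis-free. -/
theorem hasMidSheetM (h2 : nuTwo M = 0) (h3 : nuThree M = 0)
    (H : AtlasHyp (chartDataModular B hB hqM) (jx M q)) (b₀ : Fin (q - 1))
    (Q'' : Place kB (FMid M B))
    (hnc : ∀ e : Crossing (chartDataModular B hB hqM),
      Q''.restrict FtM ≠ z₁ (chartDataModular B hB hqM) e) :
    HasMidSheet B hB hqM hζ H b₀ Q'' hnc :=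
  hasMidSheet_all B hB hqM hζ H (midFinHyp B hB hqM hζ H) (midEllHyp B hB hqM hζ h2 h3 H)
    b₀ Q'' hnc

end Fermat.Agent.BR3.MidChartAllFinal
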