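import Fermat.Agent.BR3.MidChartAll
import Fermat.Agent.BR3.CoverK.SheetCompat

/-!
# Program C, node (MID-ALL), part 2: the tube of a point of a middle component does not depend on
the chosen sheet; compatibility of the integral functions on the tube

Frame of `MidChartAll`.  `R' = (regChartCan B hB hqM H Q' hQnc).chart.R` the ring of the regular
chart of `can` at `Q' = Q''.restrict F̃_M`.

* `midTubeAll_eq_coverTube` / `midTubeAll_eq_coverTube'` : for ANY sheet `(θ, Ψ, ψ, ψc, u)` of
  `w₂ b₀` at `Q''` over `R'` the tube `midTubeAll` is the sheet `θ ≡ u`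
  (`SheetCompat.coverTube_eq_of_sheets`) — owners may use their own generator;
* `exists_monic_midTheta`, `ptValue_midTheta` : the chosen generator is integral over `R'` and takes
  the value `residue midU` at `Q''`;
* **`compat_of_mem_midTubeAll`** : every function of `F₂` integral over `R'` (root of a monic
  polynomial with coefficients in `R'`) has, at every place `P` of the tube, an integral value which
  reduces to the value at `Q''` of its reduction on `w₂ b₀` (`CoverDiv.Compat`);
* **`value_eq_of_mem_midTubeAll_inter`** : if the tubes of `(b₁, Q₁'')` and `(b₂, Q₂'')` over the same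
  `Q'` meet, then every function integral over `R'` has the same value at `Q₁''` on `w₂ b₁` and at
  `Q₂''` on `w₂ b₂` (the reduction of (dMM) to a separating function).
-/

set_option autoImplicit false
set_option linter.unusedSectionVars false
set_option linter.style.haveILetI false

noncomputable section

/- S36 build-time patch: file-local shortcut instances. They only shorten instance search;
each is the instance that the search finds anyway (reducible, same terms after unfolding). -/
local instance (priority := 100000) Fermat.Agent.BR3.FastInst.instAlgFullC_MidChartCompat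
    {k : Type*} [Field k] (N : ℕ) :
    Algebra k ↥(ModularCurve.modularFunctionFieldFullC k N) := inferInstance
local instance (priority := 100000) Fermat.Agent.BR3.FastInst.instFieldFullC_MidChartCompat
    {k : Type*} [Field k] (N : ℕ) :
    Field ↥(ModularCurve.modularFunctionFieldFullC k N) := inferInstance
local instance (priority := 100000) Fermat.Agent.BR3.FastInst.instAlgLaurent_MidChartCompat
    {k : Type*} [Field k] : Algebra k (LaurentSeries k) := inferInstance


namespace Fermat.Agent.BR3.MidChartCompat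

open ModularCurve AlgebraicCurve IsLocalRing Polynomial
open Fermat.Agent.X0 Fermat.Agent.Val Fermat.Agent.Red Fermat.Agent.BR.Centre
open Fermat.Agent.Hecke.AL Fermat.Agent.BR.TwoVal Fermat.Agent.BR.TwoValInst
open Fermat.Agent.BR.ConstRedTwo Fermat.Agent.BR.ResGen Fermat.Agent.BR.S0
open Fermat.Agent.BR.S0.RedModular Fermat.Agent.BR.S0.RedHyp Fermat.Agent.BR.S0.PointDict
open Fermat.Agent.BR3.CoverK Fermat.Agent.BR3.FibreProd Fermat.Agent.BR3.CInfRes
open Fermat.Agent.BR3.RegAtlas Fermat.Agent.BR3.CuspSheet Fermat.Agent.BR3.CoverDiv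
open Fermat.Agent.BR3.MidChartAll Fermat.Agent.BR3.CoverK.SheetCompat

set_option synthInstance.maxHeartbeats 400000

variable {M q : ℕ} [NeZero M] [hq : Fact q.Prime]
variable (B : ValuationSubring (AlgebraicClosure ℚ)) (hB : B.LiesOverPrime q) (hqM : ¬ q ∣ M)
variable {ζ : Kbˣ} (hζ : IsPrimitiveRoot ζ q)

local notation "kB" => IsLocalRing.ResidueField B
local notation "FtM" => modularFunctionFieldFullC (IsLocalRing.ResidueField B) M

/-- (shortcut instances) -/
local instance (priority := 100000) instAlgebraFtMShortcutMC :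
    Algebra (IsLocalRing.ResidueField B)
      (modularFunctionFieldFullC (IsLocalRing.ResidueField B) M) :=
  inferInstance
local instance (priority := 100000) instAlgKFMidMC :
    Algebra (IsLocalRing.ResidueField B) (FMid M B) := inferInstance
local instance (priority := 100000) instAlgFtFMidMC :
    Algebra (modularFunctionFieldFullC (IsLocalRing.ResidueField B) M) (FMid M B) := inferInstance
local instance (priority := 100000) instTowerMidMC :
    IsScalarTower (IsLocalRing.ResidueField B)
      (modularFunctionFieldFullC (IsLocalRing.ResidueField B) M) (FMid M B) :=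
  inferInstance

variable [FiniteDimensional (modularFunctionFieldFullC (IsLocalRing.ResidueField B) M) (FMid M B)]

local instance (priority := 100000) instIsIntegralMidMC :
    Algebra.IsIntegral (modularFunctionFieldFullC (IsLocalRing.ResidueField B) M) (FMid M B) :=
  Algebra.IsIntegral.of_finite _ _

set_option maxHeartbeats 1600000 in
/-- **The tube is the sheet of ANY sheet datum at the point.** -/
theorem midTubeAll_eq_coverTube (H : AtlasHyp (chartDataModular B hB hqM) (jx M q))
    (b₀ : Fin (q - 1)) (Q'' : Place kB (FMid M B))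
    (hnc : ∀ e : Crossing (chartDataModular B hB hqM),
      Q''.restrict FtM ≠ z₁ (chartDataModular B hB hqM) e)
    {θ : Fb (M * q * q)} {Ψ ψ ψc : (Fb (M * q))[X]} {u : B}
    (hS : letI := algebraAlong (alpha2 M q)
      haveI := isScalarTower_along (alpha2 M q)
      CoverSheet B (IsLocalRing.residue B) (constRedW1 B hB hqM).O (constRedW1 B hB hqM).res
        (Q''.restrict FtM) (constRedMid B hB hqM hζ b₀.2).O (constRedMid B hB hqM hζ b₀.2).res Q''
        (regChartCan B hB hqM H (Q''.restrict FtM) hnc).chart.R θ Ψ ψ ψc u) :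
    letI := algebraAlong (alpha2 M q)
    haveI : Module.Finite (Fb (M * q)) (Fb (M * q * q)) := finite_alpha2
    midTubeAll B hB hqM hζ H b₀ Q'' hnc =
      coverTube B {P | H.r P = ⟨0, Q''.restrict FtM⟩} θ u := by
  letI := algebraAlong (alpha2 M q)
  haveI := isScalarTower_along (alpha2 M q)
  haveI : Module.Finite (Fb (M * q)) (Fb (M * q * q)) := finite_alpha2
  haveI : Algebra.IsSeparable (Fb (M * q)) (Fb (M * q * q)) :=
    Algebra.IsAlgebraic.isSeparable_of_perfectField
  obtain ⟨Ψ₀, ψ₀, ψc₀, hS₀⟩ :=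
    exists_coverSheet_midTheta B hB hqM hζ H b₀ Q'' hnc ⟨θ, Ψ, ψ, ψc, u, hS⟩
  exact coverTube_eq_of_sheets (constRedW1 B hB hqM)
    (regChartCan B hB hqM H (Q''.restrict FtM) hnc)
    (arch_of_rankOne (Fermat.Agent.Val.isRankOne B hB)) hS₀ hS

/-- the same for a sheet stated over a free `Q'` -/
theorem midTubeAll_eq_coverTube' (H : AtlasHyp (chartDataModular B hB hqM) (jx M q))
    (b₀ : Fin (q - 1)) {Q'' : Place kB (FMid M B)} {Q' : Place kB FtM}
    (hQ'' : Q''.restrict FtM = Q')
    (hQnc : ∀ e : Crossing (chartDataModular B hB hqM), Q' ≠ z₁ (chartDataModular B hB hqM) e)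
    {θ : Fb (M * q * q)} {Ψ ψ ψc : (Fb (M * q))[X]} {u : B}
    (hS : letI := algebraAlong (alpha2 M q)
      haveI := isScalarTower_along (alpha2 M q)
      CoverSheet B (IsLocalRing.residue B) (constRedW1 B hB hqM).O (constRedW1 B hB hqM).res Q'
        (constRedMid B hB hqM hζ b₀.2).O (constRedMid B hB hqM hζ b₀.2).res Q''
        (regChartCan B hB hqM H Q' hQnc).chart.R θ Ψ ψ ψc u) :
    letI := algebraAlong (alpha2 M q)
    haveI : Module.Finite (Fb (M * q)) (Fb (M * q * q)) := finite_alpha2
    midTubeAll B hB hqM hζ H b₀ Q'' (by rw [hQ'']; exact hQnc) =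
      coverTube B {P | H.r P = ⟨0, Q'⟩} θ u := by
  subst hQ''
  exact midTubeAll_eq_coverTube B hB hqM hζ H b₀ Q'' hQnc hS

/-- the chosen generator is integral over the ring of the chart of `can` -/
theorem exists_monic_midTheta (H : AtlasHyp (chartDataModular B hB hqM) (jx M q))
    (b₀ : Fin (q - 1)) (Q'' : Place kB (FMid M B))
    (hnc : ∀ e : Crossing (chartDataModular B hB hqM),
      Q''.restrict FtM ≠ z₁ (chartDataModular B hB hqM) e)
    (h : HasMidSheet B hB hqM hζ H b₀ Q'' hnc) :
    letI := algebraAlong (alpha2 M q)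
    ∃ Ψ : (Fb (M * q))[X], Ψ.Monic ∧
      (∀ n, Ψ.coeff n ∈ (regChartCan B hB hqM H (Q''.restrict FtM) hnc).chart.R) ∧
      aeval (midTheta B hB hqM hζ H b₀ Q'' hnc) Ψ = 0 := by
  letI := algebraAlong (alpha2 M q)
  haveI := isScalarTower_along (alpha2 M q)
  obtain ⟨Ψ₀, ψ₀, ψc₀, hS₀⟩ := exists_coverSheet_midTheta B hB hqM hζ H b₀ Q'' hnc h
  exact ⟨Ψ₀, hS₀.monic, hS₀.coeff_mem, hS₀.root⟩

/-- the chosen generator takes the value `residue midU` at the point -/
theorem ptValue_midTheta (H : AtlasHyp (chartDataModular B hB hqM) (jx M q))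
    (b₀ : Fin (q - 1)) (Q'' : Place kB (FMid M B))
    (hnc : ∀ e : Crossing (chartDataModular B hB hqM),
      Q''.restrict FtM ≠ z₁ (chartDataModular B hB hqM) e)
    (h : HasMidSheet B hB hqM hζ H b₀ Q'' hnc) :
    PtValue (constRedMid B hB hqM hζ b₀.2).O (constRedMid B hB hqM hζ b₀.2).res Q''
      (midTheta B hB hqM hζ H b₀ Q'' hnc)
      (IsLocalRing.residue B (midU B hB hqM hζ H b₀ Q'' hnc)) := by
  letI := algebraAlong (alpha2 M q)
  haveI := isScalarTower_along (alpha2 M q)
  obtain ⟨Ψ₀, ψ₀, ψc₀, hS₀⟩ := exists_coverSheet_midTheta B hB hqM hζ H b₀ Q'' hnc h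
  exact ⟨hS₀.θ_mem, hS₀.value⟩

set_option maxHeartbeats 1600000 in
/-- **Compatibility on the tube**: a function integral over the ring of the chart of `can` has, at
every place of `midTubeAll`, an integral value which reduces to the value at `Q''` of its reduction
on `w₂ b₀`. -/
theorem compat_of_mem_midTubeAll (H : AtlasHyp (chartDataModular B hB hqM) (jx M q))
    (b₀ : Fin (q - 1)) (Q'' : Place kB (FMid M B))
    (hnc : ∀ e : Crossing (chartDataModular B hB hqM),
      Q''.restrict FtM ≠ z₁ (chartDataModular B hB hqM) e)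
    (h : HasMidSheet B hB hqM hζ H b₀ Q'' hnc) {y : Fb (M * q * q)} {p : (Fb (M * q))[X]}
    (hp : p.Monic)
    (hc : ∀ n, p.coeff n ∈ (regChartCan B hB hqM H (Q''.restrict FtM) hnc).chart.R)
    (hy : letI := algebraAlong (alpha2 M q); aeval y p = 0)
    {P : Place Kb (Fb (M * q * q))} (hP : P ∈ midTubeAll B hB hqM hζ H b₀ Q'' hnc) :
    Compat (IsLocalRing.residue B) (constRedMid B hB hqM hζ b₀.2).O
      (constRedMid B hB hqM hζ b₀.2).res Q'' P y := by
  letI := algebraAlong (alpha2 M q)
  haveI := isScalarTower_along (alpha2 M q)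
  haveI : Module.Finite (Fb (M * q)) (Fb (M * q * q)) := finite_alpha2
  haveI : Algebra.IsSeparable (Fb (M * q)) (Fb (M * q * q)) :=
    Algebra.IsAlgebraic.isSeparable_of_perfectField
  obtain ⟨Ψ₀, ψ₀, ψc₀, hS₀⟩ := exists_coverSheet_midTheta B hB hqM hζ H b₀ Q'' hnc h
  exact compat_of_root (constRedW1 B hB hqM) (regChartCan B hB hqM H (Q''.restrict FtM) hnc)
    (arch_of_rankOne (Fermat.Agent.Val.isRankOne B hB)) hS₀ hp hc hy hP

/-- the same over a free `Q'` -/
theorem compat_of_mem_midTubeAll' (H : AtlasHyp (chartDataModular B hB hqM) (jx M q))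
    (b₀ : Fin (q - 1)) {Q'' : Place kB (FMid M B)} {Q' : Place kB FtM}
    (hQ'' : Q''.restrict FtM = Q')
    (hQnc : ∀ e : Crossing (chartDataModular B hB hqM), Q' ≠ z₁ (chartDataModular B hB hqM) e)
    (h : HasMidSheet B hB hqM hζ H b₀ Q'' (by rw [hQ'']; exact hQnc))
    {y : Fb (M * q * q)} {p : (Fb (M * q))[X]} (hp : p.Monic)
    (hc : ∀ n, p.coeff n ∈ (regChartCan B hB hqM H Q' hQnc).chart.R)
    (hy : letI := algebraAlong (alpha2 M q); aeval y p = 0)
    {P : Place Kb (Fb (M * q * q))}
    (hP : P ∈ midTubeAll B hB hqM hζ H b₀ Q'' (by rw [hQ'']; exact hQnc)) :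
    Compat (IsLocalRing.residue B) (constRedMid B hB hqM hζ b₀.2).O
      (constRedMid B hB hqM hζ b₀.2).res Q'' P y := by
  subst hQ''
  exact compat_of_mem_midTubeAll B hB hqM hζ H b₀ Q'' hQnc h hp hc hy hP

/-- **Reduction of (dMM) to a separating function**: if the tubes of `(b₁, Q₁'')` and `(b₂, Q₂'')`
over the same point `Q'` of `can` meet, every function integral over the ring of the chart of `can`
at `Q'` has the same value at `Q₁''` on `w₂ b₁` and at `Q₂''` on `w₂ b₂`. -/
theorem value_eq_of_mem_midTubeAll_inter (H : AtlasHyp (chartDataModular B hB hqM) (jx M q))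
    (b₁ b₂ : Fin (q - 1)) {Q₁'' Q₂'' : Place kB (FMid M B)} {Q' : Place kB FtM}
    (hQ₁ : Q₁''.restrict FtM = Q') (hQ₂ : Q₂''.restrict FtM = Q')
    (hQnc : ∀ e : Crossing (chartDataModular B hB hqM), Q' ≠ z₁ (chartDataModular B hB hqM) e)
    (h₁ : HasMidSheet B hB hqM hζ H b₁ Q₁'' (by rw [hQ₁]; exact hQnc))
    (h₂ : HasMidSheet B hB hqM hζ H b₂ Q₂'' (by rw [hQ₂]; exact hQnc))
    {y : Fb (M * q * q)} {p : (Fb (M * q))[X]} (hp : p.Monic)
    (hc : ∀ n, p.coeff n ∈ (regChartCan B hB hqM H Q' hQnc).chart.R)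
    (hy : letI := algebraAlong (alpha2 M q); aeval y p = 0)
    {P : Place Kb (Fb (M * q * q))}
    (hP₁ : P ∈ midTubeAll B hB hqM hζ H b₁ Q₁'' (by rw [hQ₁]; exact hQnc))
    (hP₂ : P ∈ midTubeAll B hB hqM hζ H b₂ Q₂'' (by rw [hQ₂]; exact hQnc)) {c₁ c₂ : kB}
    (hv₁ : PtValue (constRedMid B hB hqM hζ b₁.2).O (constRedMid B hB hqM hζ b₁.2).res Q₁'' y c₁)
    (hv₂ : PtValue (constRedMid B hB hqM hζ b₂.2).O (constRedMid B hB hqM hζ b₂.2).res Q₂'' y c₂) :
    c₁ = c₂ := by
  obtain ⟨a₁, ha₁, hb₁⟩ := compat_of_mem_midTubeAll' B hB hqM hζ H b₁ hQ₁ hQnc h₁ hp hc hy hP₁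
  obtain ⟨a₂, ha₂, hb₂⟩ := compat_of_mem_midTubeAll' B hB hqM hζ H b₂ hQ₂ hQnc h₂ hp hc hy hP₂
  have e : (a₁ : Kb) = (a₂ : Kb) := ha₁.unique ha₂
  have e' : a₁ = a₂ := Subtype.ext e
  rw [hv₁.unique hb₁, hv₂.unique hb₂, e']

end Fermat.Agent.BR3.MidChartCompat
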