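import Fermat.Agent.BR3.MidChart
import Fermat.Agent.BR3.CoverSheetMidReg

/-!
# Program C, node (SC3), final: `HPsiRJ` discharged

helper2's `CoverSheetMidReg.hΨR_thetaGen_fin` (the coefficients of the minimal polynomial of
`θ = thetaGen hqM (TB' M q) j 1 (ζ^{b+1})` lie in the ring of `RegAtlas.regChartCan` at EVERY
finite non-crossing point of `can`) is the named hypothesis `MidChart.HPsiRJ`.  Hence the sheets
of the middle component `w₂ b` at every place `Q''` over a finite non-crossing point `Q'` of `can`
only depend on `MidChart.EllOrd` (the elliptic ordinary points; node (ELL-PUR)).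

* `hPsiRJ` : `MidChart.HPsiRJ B hB hqM H`;
* `nonempty_midSheet_nonEll` : the sheet at the finite non-crossing points with `j̃ ≠ 0, 1728`,
  hypothesis-free;
* `nonempty_midSheet_finOfEll`, **`midSheetFinOfEll`** : the sheet at every finite non-crossing
  point from `EllOrd` alone;
* `midSheetFinOfEll_regChart_t` : the parameter of its chart is `α₂` of the parameter of the chart
  of `can` (the compatibility asked by (W4-CAN-MOD), `fibreOver_can_of_charts`).
-/

set_option autoImplicit false
set_option linter.style.haveILetI false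
set_option linter.unusedSectionVars false

noncomputable section

/- S36 build-time patch: file-local shortcut instances. They only shorten instance search;
each is the instance that the search finds anyway (reducible, same terms after unfolding). -/
local instance (priority := 100000) Fermat.Agent.BR3.FastInst.instAlgFullC_MidChartFin
    {k : Type*} [Field k] (N : ℕ) :
    Algebra k ↥(ModularCurve.modularFunctionFieldFullC k N) := inferInstance
local instance (priority := 100000) Fermat.Agent.BR3.FastInst.instFieldFullC_MidChartFin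
    {k : Type*} [Field k] (N : ℕ) :
    Field ↥(ModularCurve.modularFunctionFieldFullC k N) := inferInstance
local instance (priority := 100000) Fermat.Agent.BR3.FastInst.instAlgLaurent_MidChartFin
    {k : Type*} [Field k] : Algebra k (LaurentSeries k) := inferInstance


set_option synthInstance.maxHeartbeats 400000

namespace Fermat.Agent.BR3.MidChartFin

open ModularCurve AlgebraicCurve HahnSeries Polynomial Fermat.Agent.X0 Fermat.Agent.Val
open Fermat.Agent.Hecke.AL Fermat.Agent.BR.TwoVal Fermat.Agent.BR.ResGen Fermat.Agent.Red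
open Fermat.Agent.BR.TwoValInst Fermat.Agent.BR3.FibreProd Fermat.Agent.BR.ModUnit
open Fermat.Agent.BR.ConstRedTwo Fermat.Agent.BR3.CoverK Fermat.Agent.BR3.CoverSheetInf
open Fermat.Agent.BR3.KummerGenus Fermat.Agent.BR3.KummerGenus.MidInst
open Fermat.Agent.BR.S0 Fermat.Agent.BR.S0.RedModular Fermat.Agent.BR.S0.PointDict
open Fermat.Agent.BR.S0.RedHyp Fermat.Agent.BR3.RegAtlas Fermat.Agent.BR3.MidUnitOrd
open Fermat.Agent.BR3.MidChart

variable {M q : ℕ} [NeZero M] [hq : Fact q.Prime]
variable (B : ValuationSubring (AlgebraicClosure ℚ)) (hB : B.LiesOverPrime q) (hqM : ¬ q ∣ M)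
variable {ζ : Kbˣ} (hζ : IsPrimitiveRoot ζ q) {b : ℕ} (hb : b < q - 1)

local notation "kB" => IsLocalRing.ResidueField B
local notation "FtM" => modularFunctionFieldFullC (IsLocalRing.ResidueField B) M

/-- (shortcut instances) -/
local instance (priority := 100000) instAlgKFt : Algebra kB FtM := inferInstance
local instance (priority := 100000) instAlgKFMid : Algebra kB (FMid M B) := inferInstance
local instance (priority := 100000) instAlgFtFMid : Algebra FtM (FMid M B) := inferInstance
local instance (priority := 100000) instTowerMid : IsScalarTower kB FtM (FMid M B) :=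
  inferInstance

include hζ hb in
/-- **(SC3 (iii)) discharged**: helper2's `hΨR_thetaGen_fin` is `MidChart.HPsiRJ`. -/
theorem hPsiRJ (H : AtlasHyp (chartDataModular B hB hqM) (jx M q)) :
    HPsiRJ B hB hqM (ζ := ζ) (b := b) H :=
  fun Q' hQ' hj _ _ n =>
    Fermat.Agent.BR3.CoverSheetMidReg.hΨR_thetaGen_fin B hB hqM hζ hb H Q' hQ' hj n

include hB in
/-- the sheet at the non-elliptic finite non-crossing points, hypothesis-free -/
theorem nonempty_midSheet_nonEll [FiniteDimensional FtM (FMid M B)]
    (H : AtlasHyp (chartDataModular B hB hqM) (jx M q)) (Q' : Place kB FtM)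
    (hQ' : ∀ e, Q' ≠ z₁ (chartDataModular B hB hqM) e)
    (hj : jFullC kB M ∈ Q'.toValuationSubring)
    (h0 : Q'.ord (jFullC kB M) = 0) (h1 : Q'.ord (jFullC kB M - 1728) = 0)
    {Q'' : Place kB (FMid M B)} (hQ : Q''.restrict FtM = Q') :
    Nonempty (MidSheet B hB hqM hζ hb H Q' hQ' Q'') :=
  nonempty_midSheet_jBar B hB hqM hζ hb H (hPsiRJ B hB hqM hζ hb H) Q' hQ' hj h0 h1 hQ

include hB in
/-- the sheet at every finite non-crossing point from `EllOrd` alone -/
theorem nonempty_midSheet_finOfEll [FiniteDimensional FtM (FMid M B)]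
    (H : AtlasHyp (chartDataModular B hB hqM) (jx M q)) (hE : EllOrd B hB hqM hζ hb H)
    (Q' : Place kB FtM) (hQ' : ∀ e, Q' ≠ z₁ (chartDataModular B hB hqM) e)
    (hj : jFullC kB M ∈ Q'.toValuationSubring)
    {Q'' : Place kB (FMid M B)} (hQ : Q''.restrict FtM = Q') :
    Nonempty (MidSheet B hB hqM hζ hb H Q' hQ' Q'') :=
  nonempty_midSheet_fin B hB hqM hζ hb H (hPsiRJ B hB hqM hζ hb H) hE Q' hQ' hj hQ

/-- **The sheet of the middle component `w₂ b` at a place `Q''` over a finite non-crossing point
`Q'` of `can`** (only hypothesis: `EllOrd`, the elliptic ordinary points). -/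
def midSheetFinOfEll [FiniteDimensional FtM (FMid M B)]
    (H : AtlasHyp (chartDataModular B hB hqM) (jx M q)) (hE : EllOrd B hB hqM hζ hb H)
    (Q' : Place kB FtM) (hQ' : ∀ e, Q' ≠ z₁ (chartDataModular B hB hqM) e)
    (hj : jFullC kB M ∈ Q'.toValuationSubring)
    {Q'' : Place kB (FMid M B)} (hQ : Q''.restrict FtM = Q') :
    MidSheet B hB hqM hζ hb H Q' hQ' Q'' :=
  midSheetFin B hB hqM hζ hb H (hPsiRJ B hB hqM hζ hb H) hE Q' hQ' hj hQ

/-- the parameter of the chart of `midSheetFinOfEll` is `α₂` of the parameter of the chart of `can`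
at `Q'` -/
theorem midSheetFinOfEll_regChart_t [FiniteDimensional FtM (FMid M B)]
    (H : AtlasHyp (chartDataModular B hB hqM) (jx M q)) (hE : EllOrd B hB hqM hζ hb H)
    (Q' : Place kB FtM) (hQ' : ∀ e, Q' ≠ z₁ (chartDataModular B hB hqM) e)
    (hj : jFullC kB M ∈ Q'.toValuationSubring)
    {Q'' : Place kB (FMid M B)} (hQ : Q''.restrict FtM = Q') :
    (midSheetFinOfEll B hB hqM hζ hb H hE Q' hQ' hj hQ).regChart.chart.t =
      alpha2 M q (regChartCan B hB hqM H Q' hQ').chart.t := rfl

/-- the parameter of the smooth chart `smMid` of any `MidSheet` is `α₂` of the parameter of the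
chart of `can` at `Q'` -/
theorem midSheet_smooth_t (H : AtlasHyp (chartDataModular B hB hqM) (jx M q)) (Q' : Place kB FtM)
    (hQ' : ∀ e, Q' ≠ z₁ (chartDataModular B hB hqM) e) (Q'' : Place kB (FMid M B))
    (S : MidSheet B hB hqM hζ hb H Q' hQ' Q'') :
    S.smooth.t = alpha2 M q (regChartCan B hB hqM H Q' hQ').chart.t := rfl

end Fermat.Agent.BR3.MidChartFin
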