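import Fermat.Agent.BR3.MidChartFin

/-!
# Program C, node (SC3) / (dMM): the value clause and the unramifiedness at the finite non-elliptic
points, with the EXPLICIT generator

For the disjointness of the tubes of two points of the middle components over the same point of
`can` (helper21's `mid_disj_fin`, generator `thetaGen hqM (TB' M q) (jBar (M*q)) 1 z`) one needs,
at the finite non-crossing points `Q'` with `j̃(Q') ≠ 0, 1728`:

* **`exists_coverSheet_thetaGen_nonEll`** : the cover sheet with the EXPLICIT generator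
  `θ = thetaGen hqM (TB' M q) (jBar (M*q)) 1 (ζ^{b+1})` over the ring of `regChartCan`, all
  hypotheses discharged, with `residue u ≠ 0` (the value clause is the field `.value` of the
  sheet: `u` is the residue value of `θ` at `Q''`);
* `isValueAt_of_coverSheet`, `MidSheet.isValueAt` : the value clause in helper21's shape
  (`∀ hmem, IsValueAt Q'' (resMid … ⟨θ, hmem⟩) (residue u)`);
* `ramificationIndex_eq_one_of_ord_map` (abstract), **`ramificationIndex_eq_one_of_dvd`**,
  `ramificationIndex_eq_one_nonEll` : the places of `F̃_M(θ j̃)` over `Q'` are unramified (`hunr`).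
-/

set_option autoImplicit false
set_option linter.style.haveILetI false
set_option linter.unusedSectionVars false

noncomputable section

set_option synthInstance.maxHeartbeats 400000

namespace Fermat.Agent.BR3.MidChartVal

open ModularCurve AlgebraicCurve HahnSeries Polynomial Fermat.Agent.X0 Fermat.Agent.Val
open Fermat.Agent.Hecke.AL Fermat.Agent.BR.TwoVal Fermat.Agent.BR.ResGen Fermat.Agent.Red
open Fermat.Agent.BR.TwoValInst Fermat.Agent.BR3.FibreProd Fermat.Agent.BR.ModUnit
open Fermat.Agent.BR.ConstRedTwo Fermat.Agent.BR3.CoverK Fermat.Agent.BR3.CoverSheetInf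
open Fermat.Agent.BR3.KummerGenus Fermat.Agent.BR3.KummerGenus.MidInst
open Fermat.Agent.BR.S0 Fermat.Agent.BR.S0.RedModular Fermat.Agent.BR.S0.PointDict
open Fermat.Agent.BR.S0.RedHyp Fermat.Agent.BR3.RegAtlas Fermat.Agent.BR3.MidUnitOrd
open Fermat.Agent.BR3.MidChart Fermat.Agent.BR3.MidChartFin

/-! ### abstract: `ord_map` gives `e = 1` -/

section Abstract

variable {k κ E : Type*} [Field k] [Field κ] [Field E] [Algebra k κ] [Algebra k E] [Algebra κ E]
  [IsScalarTower k κ E] [Algebra.IsIntegral κ E]

/-- a place whose order function restricts to the order function downstairs is unramified -/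
theorem ramificationIndex_eq_one_of_ord_map {w : Place k E} {v : Place k κ}
    (hwv : w.restrict κ = v) (hord : ∀ f : κ, w.ord (algebraMap κ E f) = v.ord f) :
    w.ramificationIndex κ = 1 := by
  obtain ⟨g, -, hge⟩ := w.exists_ord_eq_ramificationIndex (F := κ)
  have hpos := w.ramificationIndex_pos (F := κ)
  have h1 := w.ord_restrict (F := κ) g
  rw [hwv, ← hord g, hge] at h1
  have h2 : (w.ramificationIndex κ : ℤ) * 1 =
      (w.ramificationIndex κ : ℤ) * (w.ramificationIndex κ : ℤ) := by
    rw [mul_one]; exact h1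
  have h3 : (0 : ℤ) < (w.ramificationIndex κ : ℤ) := by exact_mod_cast hpos
  have h4 := mul_left_cancel₀ h3.ne' h2
  exact_mod_cast h4.symm

end Abstract

variable {M q : ℕ} [NeZero M] [hq : Fact q.Prime]
variable (B : ValuationSubring (AlgebraicClosure ℚ)) (hB : B.LiesOverPrime q) (hqM : ¬ q ∣ M)
variable {ζ : Kbˣ} (hζ : IsPrimitiveRoot ζ q) {b : ℕ} (hb : b < q - 1)

local notation "kB" => IsLocalRing.ResidueField B
local notation "FtM" => modularFunctionFieldFullC (IsLocalRing.ResidueField B) M

/-- (shortcut instances) -/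
local instance (priority := 100000) instAlgKFt : Algebra kB FtM := inferInstance
local instance (priority := 100000) instAlgKFMid : Algebra kB (FMid M B) := inferInstance
local instance (priority := 100000) instAlgFtFMid : Algebra FtM (FMid M B) := inferInstance
local instance (priority := 100000) instTowerMid : IsScalarTower kB FtM (FMid M B) :=
  inferInstance

/-! ### unramifiedness -/

include hB in
/-- **(hunr)** a finite non-crossing point `Q'` of `can` with `3 ∣ ord j̃` and
`2 ∣ ord (j̃ - 1728)` is unramified in `F̃_M(θ j̃)` -/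
theorem ramificationIndex_eq_one_of_dvd [FiniteDimensional FtM (FMid M B)] (Q' : Place kB FtM)
    (hnc : ∀ e : Crossing (chartDataModular B hB hqM), Q' ≠ z₁ (chartDataModular B hB hqM) e)
    (hj : jFullC kB M ∈ Q'.toValuationSubring)
    (h3 : (3 : ℤ) ∣ Q'.ord (jFullC kB M)) (h2 : (2 : ℤ) ∣ Q'.ord (jFullC kB M - 1728))
    (Q'' : Place kB (FMid M B)) (hQ : Q''.restrict FtM = Q') :
    Q''.ramificationIndex FtM = 1 :=
  ramificationIndex_eq_one_of_ord_map hQ
    (ord_algebraMap_mid_of_dvd B hB hqM Q' hnc hj h3 h2 hQ)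

include hB in
/-- **(hunr)** at the finite non-crossing points with `j̃ ≠ 0, 1728` -/
theorem ramificationIndex_eq_one_nonEll [FiniteDimensional FtM (FMid M B)] (Q' : Place kB FtM)
    (hnc : ∀ e : Crossing (chartDataModular B hB hqM), Q' ≠ z₁ (chartDataModular B hB hqM) e)
    (hj : jFullC kB M ∈ Q'.toValuationSubring)
    (h0 : Q'.ord (jFullC kB M) = 0) (h1 : Q'.ord (jFullC kB M - 1728) = 0)
    (Q'' : Place kB (FMid M B)) (hQ : Q''.restrict FtM = Q') :
    Q''.ramificationIndex FtM = 1 :=
  ramificationIndex_eq_one_of_dvd B hB hqM Q' hnc hj (by rw [h0]; exact dvd_zero _)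
    (by rw [h1]; exact dvd_zero _) Q'' hQ

/-! ### the explicit sheet and the value clause -/

include hB in
/-- **the cover sheet with the explicit generator at the finite non-elliptic points**, all
hypotheses discharged -/
theorem exists_coverSheet_thetaGen_nonEll [FiniteDimensional FtM (FMid M B)]
    (H : AtlasHyp (chartDataModular B hB hqM) (jx M q)) (Q' : Place kB FtM)
    (hQ' : ∀ e, Q' ≠ z₁ (chartDataModular B hB hqM) e)
    (hj : jFullC kB M ∈ Q'.toValuationSubring)
    (h0 : Q'.ord (jFullC kB M) = 0) (h1 : Q'.ord (jFullC kB M - 1728) = 0)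
    {Q'' : Place kB (FMid M B)} (hQ : Q''.restrict FtM = Q') :
    letI := algebraAlong (alpha2 M q)
    haveI := isScalarTower_along (alpha2 M q)
    ∃ (u : B) (ψ ψc : (Fb (M * q))[X]),
      CoverSheet B (IsLocalRing.residue B) (constRedW1 B hB hqM).O (constRedW1 B hB hqM).res Q'
        (constRedMid B hB hqM hζ hb).O (constRedMid B hB hqM hζ hb).res Q''
        (regChartCan B hB hqM H Q' hQ').chart.R
        (thetaGen hqM (TB' M q) (jBar (M * q)) 1 ((ζ ^ (b + 1) : Kbˣ) : Kb))
        (CoverSheetMid.PsiOf M q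
          (thetaGen hqM (TB' M q) (jBar (M * q)) 1 ((ζ ^ (b + 1) : Kbˣ) : Kb))) ψ ψc u ∧
      IsLocalRing.residue B u ≠ 0 := by
  obtain ⟨u, ψ, ψc, hS, hu0, -⟩ := exists_coverSheet_mid_jBar B hB hqM hζ hb Q' hQ' hj h0 h1 hQ
    (regChartCan B hB hqM H Q' hQ').chart.R (regChartCan B hB hqM H Q' hQ').chart.le
    (hPsiRJ B hB hqM hζ hb H Q' hQ' hj h0 h1)
    (Fermat.Agent.BR3.RegBase.hlift_regChartCan B hB hqM H Q' hQ')
  exact ⟨u, ψ, ψc, hS, hu0⟩

/-- **the value clause of a cover sheet of a middle component**, for any membership proof -/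
theorem isValueAt_of_coverSheet {Q' : Place kB FtM} {Q'' : Place kB (FMid M B)}
    {R' : Subring (Fb (M * q))} {θ : Fb (M * q * q)} {Ψ ψ ψc : (Fb (M * q))[X]} {u : B}
    (hS : letI := algebraAlong (alpha2 M q)
      haveI := isScalarTower_along (alpha2 M q)
      CoverSheet B (IsLocalRing.residue B) (constRedW1 B hB hqM).O (constRedW1 B hB hqM).res Q'
        (constRedMid B hB hqM hζ hb).O (constRedMid B hB hqM hζ hb).res Q'' R' θ Ψ ψ ψc u)
    (hmem : θ ∈ w2 B hB hqM hζ hb) :
    IsValueAt Q'' (resMid B hB hqM hζ hb ⟨θ, hmem⟩) (IsLocalRing.residue B u) := by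
  letI := algebraAlong (alpha2 M q)
  haveI := isScalarTower_along (alpha2 M q)
  exact hS.value

/-- the value clause of a `MidSheet` -/
theorem MidSheet.isValueAt {H : AtlasHyp (chartDataModular B hB hqM) (jx M q)} {Q' : Place kB FtM}
    {hQ' : ∀ e, Q' ≠ z₁ (chartDataModular B hB hqM) e} {Q'' : Place kB (FMid M B)}
    (S : MidSheet B hB hqM hζ hb H Q' hQ' Q'') (hmem : S.θ ∈ w2 B hB hqM hζ hb) :
    IsValueAt Q'' (resMid B hB hqM hζ hb ⟨S.θ, hmem⟩) (IsLocalRing.residue B S.u) :=
  isValueAt_of_coverSheet B hB hqM hζ hb S.sheet hmem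

end Fermat.Agent.BR3.MidChartVal
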