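import Fermat.Agent.BR3.SDD.FibreCanDisjMidAll
import Fermat.Agent.BR3.MidChartAllFinal
import Fermat.Agent.BR3.EllPurity.Charts
import Fermat.Agent.BR3.EllPurity.SepU

/-!
# Program C, node (dMM): the one-function tubes of two distinct points of the middle components over
the same point of `can` are disjoint

Against the tubes `MidChartAll.midTubeAll` (helper13). Sources:

* cusps and finite points with `j̃ ≠ 0, 1728` : helper21's `midTubeAll_disj_cusp`,
  `midTubeAll_disj_fin` (`BR3/SDD/FibreCanDisjMidAll`), hypothesis-free;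
* the finite non-crossing points (in particular the elliptic ordinary ones, `j̃ ∈ {0, 1728}`), when
  `X₀(M)` has no elliptic points: the étale generator `u` of the purity plug (helper4's
  `ell_etale_sep`) is integral over the ring of the chart of `can` and its values at the points of
  the middle components over `Q'` are pairwise distinct (helper1's `Charts.value_ne_mid_of_ring_ne`,
  `Charts.value_ne_mid_of_place_ne`); with `MidChartCompat.compat_of_mem_midTubeAll'` this gives
  the disjointness (`midDisj_of_sep`).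

Contents:

* `midDisj_of_sep` : (generic) from a function integral over the ring of the chart of `can` whose
  values separate the points of the middle components over `Q'`;
* `sep_etale` : the étale generator is such a function; **`midDisj_finite`** (every finite
  non-crossing point);
* `MidEllDisj` (the statement at the elliptic ordinary points), `midEllDisj`;
* **`midDisj_all_of`** (from `MidEllDisj`), **`midDisj_all`** (hypothesis-free up to
  `nuTwo M = 0`, `nuThree M = 0`) : `i = i' ∧ Q'' = Q'''` for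
  `P ∈ midTubeAll (i.rep) Q'' ∩ midTubeAll (i'.rep) Q'''`, `Q''.restrict = Q'''.restrict`.
-/

set_option autoImplicit false
set_option linter.style.haveILetI false
set_option linter.unusedSectionVars false

noncomputable section

set_option synthInstance.maxHeartbeats 400000

namespace Fermat.Agent.BR3.MidDisj

open ModularCurve AlgebraicCurve HahnSeries Polynomial Fermat.Agent.X0 Fermat.Agent.Val
open Fermat.Agent.Hecke.AL Fermat.Agent.BR.TwoVal Fermat.Agent.BR.ResGen Fermat.Agent.Red
open Fermat.Agent.BR.TwoValInst Fermat.Agent.BR3.FibreProd Fermat.Agent.BR.ConstRedTwo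
open Fermat.Agent.BR3.CoverK Fermat.Agent.BR3.IgSq Fermat.Agent.BR3.KummerGenus
open Fermat.Agent.BR3.KummerGenus.MidInst Fermat.Agent.BR.ModUnit
open Fermat.Agent.BR.S0 Fermat.Agent.BR.S0.PointDict Fermat.Agent.BR.S0.RedModular
open Fermat.Agent.BR.S0.RedHyp Fermat.Agent.BR3.RegAtlas Fermat.Agent.BR3.CoverDiv
open Fermat.Agent.BR3.MidChartAll Fermat.Agent.BR3.MidChartCompat
open Fermat.Agent.BR3.SDD.FibreCanDisjMid

variable {M q : ℕ} [NeZero M] [hq : Fact q.Prime]
variable (B : ValuationSubring (AlgebraicClosure ℚ)) (hB : B.LiesOverPrime q) (hqM : ¬ q ∣ M)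
variable {ζ : Kbˣ} (hζ : IsPrimitiveRoot ζ q)

local notation "kB" => IsLocalRing.ResidueField B
local notation "FtM" => modularFunctionFieldFullC (IsLocalRing.ResidueField B) M

/-- (shortcut instances) -/
local instance (priority := 100000) instAlgebraFtMShortcutMD :
    Algebra (IsLocalRing.ResidueField B)
      (modularFunctionFieldFullC (IsLocalRing.ResidueField B) M) :=
  inferInstance
local instance (priority := 100000) instAlgKFMidMD :
    Algebra (IsLocalRing.ResidueField B) (FMid M B) := inferInstance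
local instance (priority := 100000) instAlgFtFMidMD :
    Algebra (modularFunctionFieldFullC (IsLocalRing.ResidueField B) M) (FMid M B) := inferInstance
local instance (priority := 100000) instTowerMidMD :
    IsScalarTower (IsLocalRing.ResidueField B)
      (modularFunctionFieldFullC (IsLocalRing.ResidueField B) M) (FMid M B) :=
  inferInstance

variable [FiniteDimensional (modularFunctionFieldFullC (IsLocalRing.ResidueField B) M) (FMid M B)]

local instance (priority := 100000) instIsIntegralMidMD :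
    Algebra.IsIntegral (modularFunctionFieldFullC (IsLocalRing.ResidueField B) M) (FMid M B) :=
  Algebra.IsIntegral.of_finite _ _

/-! ### Generic: a separating integral function -/

/-- **(dMM) from a separating function**: if a function `y` integral over the ring of the chart of
`can` at `Q'` cannot take the same value at `Q''` on `w₂ (i.rep)` and at `Q'''` on `w₂ (i'.rep)`
unless `(i, Q'') = (i', Q''')`, the tubes are disjoint. -/
theorem midDisj_of_sep (H : AtlasHyp (chartDataModular B hB hqM) (jx M q))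
    (i i' : Mid B hB hqM hζ) {Q'' Q''' : Place kB (FMid M B)} {Q' : Place kB FtM}
    (hQ'' : Q''.restrict FtM = Q') (hQ''' : Q'''.restrict FtM = Q')
    (hQnc : ∀ e : Crossing (chartDataModular B hB hqM), Q' ≠ z₁ (chartDataModular B hB hqM) e)
    (h₁ : HasMidSheet B hB hqM hζ H (i.rep B hB hqM hζ) Q'' (by rw [hQ'']; exact hQnc))
    (h₂ : HasMidSheet B hB hqM hζ H (i'.rep B hB hqM hζ) Q''' (by rw [hQ''']; exact hQnc))
    {y : Fb (M * q * q)} {p : (Fb (M * q))[X]} (hp : p.Monic)
    (hc : ∀ n, p.coeff n ∈ (regChartCan B hB hqM H Q' hQnc).chart.R)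
    (hy : letI := algebraAlong (alpha2 M q); aeval y p = 0)
    (hsep : ∀ c : kB,
      PtValue (constRedMid B hB hqM hζ (i.rep B hB hqM hζ).2).O
        (constRedMid B hB hqM hζ (i.rep B hB hqM hζ).2).res Q'' y c →
      PtValue (constRedMid B hB hqM hζ (i'.rep B hB hqM hζ).2).O
        (constRedMid B hB hqM hζ (i'.rep B hB hqM hζ).2).res Q''' y c → i = i' ∧ Q'' = Q''')
    {P : Place Kb (Fb (M * q * q))}
    (hP : P ∈ midTubeAll B hB hqM hζ H (i.rep B hB hqM hζ) Q'' (by rw [hQ'']; exact hQnc))
    (hP' : P ∈ midTubeAll B hB hqM hζ H (i'.rep B hB hqM hζ) Q''' (by rw [hQ''']; exact hQnc)) :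
    i = i' ∧ Q'' = Q''' := by
  obtain ⟨a₁, ha₁, hb₁⟩ :=
    compat_of_mem_midTubeAll' B hB hqM hζ H (i.rep B hB hqM hζ) hQ'' hQnc h₁ hp hc hy hP
  obtain ⟨a₂, ha₂, hb₂⟩ :=
    compat_of_mem_midTubeAll' B hB hqM hζ H (i'.rep B hB hqM hζ) hQ''' hQnc h₂ hp hc hy hP'
  have e : (a₁ : Kb) = (a₂ : Kb) := ha₁.unique ha₂
  have e' : a₁ = a₂ := Subtype.ext e
  rw [← e'] at hb₂
  exact hsep _ hb₁ hb₂

/-! ### The étale generator of the purity plug separates -/

/-- **the values of the étale generator separate the points of the middle components over `Q'`** -/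
theorem sep_etale {Q' : Place kB FtM} {T' : Set (Place Kb (Fb (M * q)))}
    (C : SmoothChart B (constRedW1 B hB hqM).O (constRedW1 B hB hqM).res Q' T')
    {u v : Fb (M * q * q)} {Ψ : (Fb (M * q))[X]}
    (Ge : letI := algebraAlong (alpha2 M q)
      Fermat.Agent.BR3.EllPurityPoints.EtaleGen C.R u v Ψ)
    (hsep : Fermat.Agent.BR3.EllPurity.SepU B hB hqM hζ u)
    (i i' : Mid B hB hqM hζ) {Q'' Q''' : Place kB (FMid M B)}
    (hQ'' : Q''.restrict FtM = Q') (hQ''' : Q'''.restrict FtM = Q') (c : kB)
    (hv : PtValue (constRedMid B hB hqM hζ (i.rep B hB hqM hζ).2).O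
      (constRedMid B hB hqM hζ (i.rep B hB hqM hζ).2).res Q'' u c)
    (hv' : PtValue (constRedMid B hB hqM hζ (i'.rep B hB hqM hζ).2).O
      (constRedMid B hB hqM hζ (i'.rep B hB hqM hζ).2).res Q''' u c) :
    i = i' ∧ Q'' = Q''' := by
  letI := algebraAlong (alpha2 M q)
  haveI := isScalarTower_along (alpha2 M q)
  have hsep' : Fermat.Agent.BR3.EllPurity.Charts.SepU B hB hqM hζ u :=
    ⟨fun b b' _ _ hne => hsep.resw2_ne_resw2 hne, fun b _ _ => hsep.resw1_ne_resw2 b⟩
  obtain ⟨hm, hval⟩ := hv
  obtain ⟨hm', hval'⟩ := hv'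
  by_cases hw : w2 B hB hqM hζ (i.rep B hB hqM hζ).2 = w2 B hB hqM hζ (i'.rep B hB hqM hζ).2
  · have hii : i = i' := by
      apply Mid.ring_injective B hB hqM hζ
      rw [← i.w2_rep, ← i'.w2_rep]
      exact hw
    subst hii
    refine ⟨rfl, ?_⟩
    by_contra hne
    exact Fermat.Agent.BR3.EllPurity.Charts.value_ne_mid_of_place_ne B hB hqM hζ C Ge hsep'
      (i.rep B hB hqM hζ).2 hQ'' hQ''' hne hval hval' rfl
  · exact absurd rfl
      (Fermat.Agent.BR3.EllPurity.Charts.value_ne_mid_of_ring_ne B hB hqM hζ C Ge hsep'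
        (i.rep B hB hqM hζ).2 (i'.rep B hB hqM hζ).2 hw hQ'' hQ''' hval hval')

set_option maxHeartbeats 1600000 in
include hζ in
/-- **(dMM) over EVERY finite non-crossing point of `can`** (when `X₀(M)` has no elliptic points):
from the étale generator of the purity plug. -/
theorem midDisj_finite (h2 : nuTwo M = 0) (h3 : nuThree M = 0)
    (H : AtlasHyp (chartDataModular B hB hqM) (jx M q))
    (i i' : Mid B hB hqM hζ) {Q'' Q''' : Place kB (FMid M B)} {Q' : Place kB FtM}
    (hQ'' : Q''.restrict FtM = Q') (hQ''' : Q'''.restrict FtM = Q')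
    (hQnc : ∀ e : Crossing (chartDataModular B hB hqM), Q' ≠ z₁ (chartDataModular B hB hqM) e)
    (hj : jFullC kB M ∈ Q'.toValuationSubring)
    {P : Place Kb (Fb (M * q * q))}
    (hP : P ∈ midTubeAll B hB hqM hζ H (i.rep B hB hqM hζ) Q'' (by rw [hQ'']; exact hQnc))
    (hP' : P ∈ midTubeAll B hB hqM hζ H (i'.rep B hB hqM hζ) Q''' (by rw [hQ''']; exact hQnc)) :
    i = i' ∧ Q'' = Q''' := by
  letI := algebraAlong (alpha2 M q)
  haveI := isScalarTower_along (alpha2 M q)
  obtain ⟨u, v, Ψ, Ge, -, hsep⟩ :=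
    Fermat.Agent.BR3.EllPurity.ell_etale_sep B hB hqM hζ h2 h3 H Q' hQnc
      (Fermat.Agent.BR3.CoverSmooth.mem_iff_le_one.1 hj)
  exact midDisj_of_sep B hB hqM hζ H i i' hQ'' hQ''' hQnc
    (Fermat.Agent.BR3.MidChartAllFinal.hasMidSheetM B hB hqM hζ h2 h3 H _ Q'' _)
    (Fermat.Agent.BR3.MidChartAllFinal.hasMidSheetM B hB hqM hζ h2 h3 H _ Q''' _)
    Ge.monic Ge.coeff_mem Ge.root
    (fun c => sep_etale B hB hqM hζ (regChartCan B hB hqM H Q' hQnc).chart Ge hsep i i'
      hQ'' hQ''' c) hP hP'

/-! ### The elliptic ordinary points -/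

/-- **(hEllDisj) the disjointness at the elliptic ordinary points**, as a named statement. -/
def MidEllDisj (H : AtlasHyp (chartDataModular B hB hqM) (jx M q)) : Prop :=
  ∀ (i i' : Mid B hB hqM hζ) (Q'' Q''' : Place kB (FMid M B)) (Q' : Place kB FtM)
    (hQ'' : Q''.restrict FtM = Q') (hQ''' : Q'''.restrict FtM = Q')
    (hQnc : ∀ e : Crossing (chartDataModular B hB hqM), Q' ≠ z₁ (chartDataModular B hB hqM) e),
    jFullC kB M ∈ Q'.toValuationSubring →
    ¬ (Q'.ord (jFullC kB M) = 0 ∧ Q'.ord (jFullC kB M - 1728) = 0) →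
    ∀ P : Place Kb (Fb (M * q * q)),
      P ∈ midTubeAll B hB hqM hζ H (i.rep B hB hqM hζ) Q'' (by rw [hQ'']; exact hQnc) →
      P ∈ midTubeAll B hB hqM hζ H (i'.rep B hB hqM hζ) Q''' (by rw [hQ''']; exact hQnc) →
      i = i' ∧ Q'' = Q'''

include hζ in
/-- `MidEllDisj`, hypothesis-free when `X₀(M)` has no elliptic points -/
theorem midEllDisj (h2 : nuTwo M = 0) (h3 : nuThree M = 0)
    (H : AtlasHyp (chartDataModular B hB hqM) (jx M q)) : MidEllDisj B hB hqM hζ H :=
  fun i i' _ _ _ hQ'' hQ''' hQnc hj _ _ hP hP' =>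
    midDisj_finite B hB hqM hζ h2 h3 H i i' hQ'' hQ''' hQnc hj hP hP'

/-! ### All the points -/

include hB hζ in
/-- **(dMM) from the statement at the elliptic ordinary points.** -/
theorem midDisj_all_of (H : AtlasHyp (chartDataModular B hB hqM) (jx M q))
    (hEll : MidEllDisj B hB hqM hζ H)
    (i i' : Mid B hB hqM hζ) {Q'' Q''' : Place kB (FMid M B)}
    (hnc : ∀ e : Crossing (chartDataModular B hB hqM),
      Q''.restrict FtM ≠ z₁ (chartDataModular B hB hqM) e)
    (hnc' : ∀ e : Crossing (chartDataModular B hB hqM),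
      Q'''.restrict FtM ≠ z₁ (chartDataModular B hB hqM) e)
    (hQ : Q''.restrict FtM = Q'''.restrict FtM)
    {P : Place Kb (Fb (M * q * q))}
    (hP : P ∈ midTubeAll B hB hqM hζ H (i.rep B hB hqM hζ) Q'' hnc)
    (hP' : P ∈ midTubeAll B hB hqM hζ H (i'.rep B hB hqM hζ) Q''' hnc') :
    i = i' ∧ Q'' = Q''' := by
  by_cases hj : jFullC kB M ∈ (Q'''.restrict FtM).toValuationSubring
  · by_cases h01 : (Q'''.restrict FtM).ord (jFullC kB M) = 0 ∧
        (Q'''.restrict FtM).ord (jFullC kB M - 1728) = 0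
    · exact midTubeAll_disj_fin B hB hqM hζ H i i' hQ rfl hnc' hj h01.1 h01.2 hP hP'
    · exact hEll i i' Q'' Q''' _ hQ rfl hnc' hj h01 P hP hP'
  · exact midTubeAll_disj_cusp B hB hqM hζ H i i' hQ rfl hnc' (cusp_of_notMem B hj) hP hP'

include hB hζ in
/-- **(dMM) The tubes of two points of the middle components over the same non-crossing point of
`can` are disjoint unless the points are equal**, hypothesis-free when `X₀(M)` has no elliptic
points. -/
theorem midDisj_all (h2 : nuTwo M = 0) (h3 : nuThree M = 0)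
    (H : AtlasHyp (chartDataModular B hB hqM) (jx M q))
    (i i' : Mid B hB hqM hζ) {Q'' Q''' : Place kB (FMid M B)}
    (hnc : ∀ e : Crossing (chartDataModular B hB hqM),
      Q''.restrict FtM ≠ z₁ (chartDataModular B hB hqM) e)
    (hnc' : ∀ e : Crossing (chartDataModular B hB hqM),
      Q'''.restrict FtM ≠ z₁ (chartDataModular B hB hqM) e)
    (hQ : Q''.restrict FtM = Q'''.restrict FtM)
    {P : Place Kb (Fb (M * q * q))}
    (hP : P ∈ midTubeAll B hB hqM hζ H (i.rep B hB hqM hζ) Q'' hnc)
    (hP' : P ∈ midTubeAll B hB hqM hζ H (i'.rep B hB hqM hζ) Q''' hnc') :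
    i = i' ∧ Q'' = Q''' :=
  midDisj_all_of B hB hqM hζ H (midEllDisj B hB hqM hζ h2 h3 H) i i' hnc hnc' hQ hP hP'

end Fermat.Agent.BR3.MidDisj
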