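import Mathlib
import Fermat.Prelude.Def_AlgebraicCurve_BaseChangeGalois

/-!
# Program C (S36), node A9 (MULTI-INPUT), point/graph half: the reduction map of an
`n`-component model from a relation

The `n`-component version of `BR/S0/RedMap.lean` (two components).  The special fibre of the model
has components `v : ι` with residue function fields `Ft v / k` and nodes `e : ν`; the node `e` joins
the point `s₁ e` of the component `src e` to the point `s₂ e` of the component `tgt e`
(`NodeGraph`, the graph part of `SS.SemistableSetup`).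

The field `r : Place K F → Σ v, Place k (Ft v)` of a semistable setup is built from a *relation*
`Red v P Q` : "the point `Q` of the component `v` is a reduction of the place `P`" (in the
applications: `Centre.IsRedOf` on the charts of the model).  The inputs are

* `total` : every place reduces somewhere (properness of the model);
* `cross` : a place which reduces to the target branch `s₂ e` of a node also reduces to its source
  branch `s₁ e`;
* `sep` : a place with two different reductions sits in the tube of a node: the two reductions are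
  the two branches of a node (this contains the uniqueness of the reduction on each component).

The reduction map gives the priority to the points which are not target branches, so that the tube
of the node `e` is `{P | r P = ⟨src e, s₁ e⟩} = {P | Red (src e) P (s₁ e)}` and nothing is sent to
a target branch (`r_ne_tgt`).  `r_eq_iff` characterises the fibres of `r`; `r_smul` is the
equivariance under a semilinear automorphism which transports the relation (components and nodes
may be permuted).

The last section contains the graph lemmas giving the fields `branch_injective` and `connected` of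
a semistable setup for the shapes that occur in Program C (complete bipartite graphs).
-/

set_option autoImplicit false

namespace Fermat.Agent.BR3.RedGraph

open AlgebraicCurve

/-- The points of the normalisation of a special fibre with components `v : ι`. -/
abbrev Pt (k : Type*) [Field k] {ι : Type*} (Ft : ι → Type*) [∀ v, Field (Ft v)]
    [∀ v, Algebra k (Ft v)] : Type _ :=
  Σ v, Place k (Ft v)

/-- The dual graph of a nodal special fibre, with the branch points of the nodes: the graph part of
`SS.SemistableSetup`. -/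
structure NodeGraph (k : Type*) [Field k] {ι : Type*} (Ft : ι → Type*) [∀ v, Field (Ft v)]
    [∀ v, Algebra k (Ft v)] (ν : Type*) where
  /-- the source component of a node -/
  src : ν → ι
  /-- the target component of a node -/
  tgt : ν → ι
  /-- the branch of the node on its source component -/
  s₁ : ∀ e, Place k (Ft (src e))
  /-- the branch of the node on its target component -/
  s₂ : ∀ e, Place k (Ft (tgt e))
  /-- the `2 |ν|` branch points are pairwise distinct -/
  branch_injective : Function.Injective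
    (Sum.elim (fun e => (⟨src e, s₁ e⟩ : Σ v, Place k (Ft v))) (fun e => ⟨tgt e, s₂ e⟩))

section Graph

variable {k : Type*} [Field k] {ι : Type*} {Ft : ι → Type*} [∀ v, Field (Ft v)]
  [∀ v, Algebra k (Ft v)] {ν : Type*}

namespace NodeGraph

variable (G : NodeGraph k Ft ν)

/-- The source branch point of a node. -/
def srcPt (e : ν) : Pt k Ft := ⟨G.src e, G.s₁ e⟩

/-- The target branch point of a node. -/
def tgtPt (e : ν) : Pt k Ft := ⟨G.tgt e, G.s₂ e⟩

@[simp] theorem srcPt_fst (e : ν) : (G.srcPt e).1 = G.src e := rfl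

@[simp] theorem tgtPt_fst (e : ν) : (G.tgtPt e).1 = G.tgt e := rfl

theorem srcPt_injective : Function.Injective G.srcPt := fun e e' h =>
  Sum.inl_injective (@G.branch_injective (Sum.inl e) (Sum.inl e') h)

theorem tgtPt_injective : Function.Injective G.tgtPt := fun e e' h =>
  Sum.inr_injective (@G.branch_injective (Sum.inr e) (Sum.inr e') h)

theorem srcPt_ne_tgtPt (e e' : ν) : G.srcPt e ≠ G.tgtPt e' := fun h =>
  Sum.inl_ne_inr (@G.branch_injective (Sum.inl e) (Sum.inr e') h)

/-- The branch points of the nodes. -/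
def IsBranch (x : Pt k Ft) : Prop := ∃ e, x = G.srcPt e ∨ x = G.tgtPt e

/-- The dual graph is connected (the field `connected` of `SS.SemistableSetup`). -/
def Connected : Prop :=
  ∀ T : Set ι, T.Nonempty → (∀ e, G.src e ∈ T ↔ G.tgt e ∈ T) → T = Set.univ

end NodeGraph

end Graph

/-- A reduction relation for a model whose special fibre has the dual graph `G`. -/
structure RedRelG (K F : Type*) [Field K] [Field F] [Algebra K F] {k : Type*} [Field k]
    {ι : Type*} {Ft : ι → Type*} [∀ v, Field (Ft v)] [∀ v, Algebra k (Ft v)] {ν : Type*}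
    (G : NodeGraph k Ft ν) where
  /-- `Red v P Q` : the point `Q` of the component `v` is a reduction of `P` -/
  Red : ∀ v, Place K F → Place k (Ft v) → Prop
  /-- every place has a reduction -/
  total : ∀ P, ∃ v Q, Red v P Q
  /-- the target branch of a node is its source branch -/
  cross : ∀ P e, Red (G.tgt e) P (G.s₂ e) → Red (G.src e) P (G.s₁ e)
  /-- two different reductions of a place are the two branches of a node -/
  sep : ∀ P (x y : Pt k Ft), Red x.1 P x.2 → Red y.1 P y.2 → x ≠ y →
    ∃ e, (x = G.srcPt e ∧ y = G.tgtPt e) ∨ (x = G.tgtPt e ∧ y = G.srcPt e)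

namespace RedRelG

variable {K F : Type*} [Field K] [Field F] [Algebra K F] {k : Type*} [Field k]
  {ι : Type*} {Ft : ι → Type*} [∀ v, Field (Ft v)] [∀ v, Algebra k (Ft v)] {ν : Type*}
  {G : NodeGraph k Ft ν} (R : RedRelG K F G)

/-- `R.RedPt P x` : the point `x` of the normalisation of the special fibre is a reduction of
`P`. -/
def RedPt (P : Place K F) (x : Pt k Ft) : Prop := R.Red x.1 P x.2

theorem redPt_mk {P : Place K F} {v : ι} {Q : Place k (Ft v)} :
    R.RedPt P ⟨v, Q⟩ ↔ R.Red v P Q := Iff.rfl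

/-- Every place has a reduction which is not the target branch of a node. -/
theorem exists_redPt_not_tgt (P : Place K F) :
    ∃ x, R.RedPt P x ∧ ∀ e, x ≠ G.tgtPt e := by
  obtain ⟨v, Q, h⟩ := R.total P
  by_cases hx : ∃ e, (⟨v, Q⟩ : Pt k Ft) = G.tgtPt e
  · obtain ⟨e, he⟩ := hx
    refine ⟨G.srcPt e, ?_, fun e' => G.srcPt_ne_tgtPt e e'⟩
    have h' : R.RedPt P (G.tgtPt e) := by
      rw [← he]
      exact h
    exact R.cross P e h'
  · exact ⟨⟨v, Q⟩, h, fun e he => hx ⟨e, he⟩⟩

/-- The reduction which is not a target branch is unique. -/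
theorem redPt_unique_not_tgt {P : Place K F} {x y : Pt k Ft} (hx : R.RedPt P x)
    (hx' : ∀ e, x ≠ G.tgtPt e) (hy : R.RedPt P y) (hy' : ∀ e, y ≠ G.tgtPt e) : x = y := by
  by_contra hne
  obtain ⟨e, ⟨-, h⟩ | ⟨h, -⟩⟩ := R.sep P x y hx hy hne
  · exact hy' e h
  · exact hx' e h

/-- On a component, the reduction is unique up to the two branches of a self-node. -/
theorem red_unique_of_not_selfNode {P : Place K F} {v : ι} {Q Q' : Place k (Ft v)}
    (hself : ∀ e, G.src e ≠ G.tgt e) (h : R.Red v P Q) (h' : R.Red v P Q') : Q = Q' := by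
  by_contra hne
  have hne' : (⟨v, Q⟩ : Pt k Ft) ≠ ⟨v, Q'⟩ := fun e => hne (by simpa using e)
  obtain ⟨e, ⟨h1, h2⟩ | ⟨h1, h2⟩⟩ := R.sep P ⟨v, Q⟩ ⟨v, Q'⟩ h h' hne'
  · exact hself e ((congrArg Sigma.fst h1).symm.trans (congrArg Sigma.fst h2))
  · exact hself e ((congrArg Sigma.fst h2).symm.trans (congrArg Sigma.fst h1))

/-- **The reduction map**, with priority to the points which are not target branches. -/
noncomputable def r (P : Place K F) : Pt k Ft := (R.exists_redPt_not_tgt P).choose

theorem redPt_r (P : Place K F) : R.RedPt P (R.r P) := (R.exists_redPt_not_tgt P).choose_spec.1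

/-- **`r_ne_tgt`** : nothing is sent to the target branch of a node. -/
theorem r_ne_tgt (P : Place K F) (e : ν) : R.r P ≠ G.tgtPt e :=
  (R.exists_redPt_not_tgt P).choose_spec.2 e

/-- `r_ne_tgt` in the literal shape of `SS.SemistableSetup`. -/
theorem r_ne_tgt' (P : Place K F) (e : ν) : R.r P ≠ ⟨G.tgt e, G.s₂ e⟩ := R.r_ne_tgt P e

/-- **The fibres of the reduction map.** -/
theorem r_eq_iff {P : Place K F} {x : Pt k Ft} :
    R.r P = x ↔ R.RedPt P x ∧ ∀ e, x ≠ G.tgtPt e := by
  constructor
  · rintro rfl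
    exact ⟨R.redPt_r P, R.r_ne_tgt P⟩
  · rintro ⟨h, h'⟩
    exact R.redPt_unique_not_tgt (R.redPt_r P) (R.r_ne_tgt P) h h'

theorem r_eq_of_red {P : Place K F} {v : ι} {Q : Place k (Ft v)} (h : R.Red v P Q)
    (h' : ∀ e, (⟨v, Q⟩ : Pt k Ft) ≠ G.tgtPt e) : R.r P = ⟨v, Q⟩ :=
  R.r_eq_iff.2 ⟨h, h'⟩

/-- The tube of a node: the places which reduce to its source branch. -/
theorem r_eq_srcPt_iff {P : Place K F} {e : ν} :
    R.r P = G.srcPt e ↔ R.Red (G.src e) P (G.s₁ e) := by
  rw [R.r_eq_iff]
  exact ⟨fun h => h.1, fun h => ⟨h, fun e' => G.srcPt_ne_tgtPt e e'⟩⟩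

/-- The tube of the node `e`, in the literal shape used by `SS.SemistableSetup`. -/
theorem tube_node_eq (e : ν) :
    {P | R.r P = (⟨G.src e, G.s₁ e⟩ : Pt k Ft)} = {P | R.Red (G.src e) P (G.s₁ e)} := by
  ext P
  exact R.r_eq_srcPt_iff (e := e)

/-- A place which reduces to the target branch of a node lies in the tube of the node. -/
theorem r_eq_srcPt_of_red_tgt {P : Place K F} {e : ν} (h : R.Red (G.tgt e) P (G.s₂ e)) :
    R.r P = G.srcPt e :=
  R.r_eq_srcPt_iff.2 (R.cross P e h)

/-- The tube of a point which is not a target branch. -/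
theorem tube_eq (v : ι) (Q : Place k (Ft v)) (h : ∀ e, (⟨v, Q⟩ : Pt k Ft) ≠ G.tgtPt e) :
    {P | R.r P = (⟨v, Q⟩ : Pt k Ft)} = {P | R.Red v P Q} := by
  ext P
  show R.r P = ⟨v, Q⟩ ↔ R.Red v P Q
  rw [R.r_eq_iff]
  exact ⟨fun h' => h'.1, fun h' => ⟨h', h⟩⟩

/-- A place in the tube of a smooth point has no other reduction. -/
theorem eq_of_red_of_not_branch {P : Place K F} {x y : Pt k Ft} (hx : R.RedPt P x)
    (hx' : ¬ G.IsBranch x) (hy : R.RedPt P y) : y = x := by
  by_contra hne
  obtain ⟨e, ⟨h, -⟩ | ⟨h, -⟩⟩ := R.sep P x y hx hy (fun h => hne h.symm)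
  · exact hx' ⟨e, Or.inl h⟩
  · exact hx' ⟨e, Or.inr h⟩

/-- The reductions of a place in the tube of a node are the two branches of the node. -/
theorem eq_srcPt_or_tgtPt_of_red {P : Place K F} {e : ν} (h : R.r P = G.srcPt e) {y : Pt k Ft}
    (hy : R.RedPt P y) : y = G.srcPt e ∨ y = G.tgtPt e := by
  by_cases hne : y = G.srcPt e
  · exact Or.inl hne
  · right
    have hs : R.RedPt P (G.srcPt e) := R.r_eq_srcPt_iff.1 h
    obtain ⟨e', ⟨h1, h2⟩ | ⟨h1, h2⟩⟩ := R.sep P (G.srcPt e) y hs hy (fun h => hne h.symm)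
    · rw [h2, G.srcPt_injective h1]
    · exact absurd h1 (G.srcPt_ne_tgtPt e e')

/-- A place has the same image as any place with the same reductions. -/
theorem r_congr {P P' : Place K F} (h : ∀ x, R.RedPt P' x ↔ R.RedPt P x) : R.r P' = R.r P :=
  R.r_eq_iff.2 ⟨(h _).2 (R.redPt_r P), R.r_ne_tgt P⟩

/-- **Equivariance**: if the map `τ` on the points of the special fibre transports the reductions
of `P` to reductions of `P'` and does not create target branches, then `r P' = τ (r P)`.
(For `P' = g • P`, `g` a semilinear automorphism permuting the components and the nodes.) -/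
theorem r_eq_map {P P' : Place K F} (τ : Pt k Ft → Pt k Ft)
    (hτ : ∀ x, R.RedPt P x → R.RedPt P' (τ x))
    (htgt : ∀ x, (∀ e, x ≠ G.tgtPt e) → ∀ e, τ x ≠ G.tgtPt e) : R.r P' = τ (R.r P) :=
  R.r_eq_iff.2 ⟨hτ _ (R.redPt_r P), htgt _ (R.r_ne_tgt P)⟩

/-- **Equivariance** under a semilinear automorphism which preserves the relation (components and
nodes fixed): the hypothesis `hr₀` of `Refine.HasModularInput`. -/
theorem r_smul (g : SemilinearAut K F)
    (h : ∀ v P Q, R.Red v (g • P) Q ↔ R.Red v P Q) (P : Place K F) : R.r (g • P) = R.r P :=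
  R.r_congr fun x => h x.1 P x.2

/-- **Equivariance** under a semilinear automorphism which permutes the components and the
nodes. -/
theorem r_smul_map (g : SemilinearAut K F) (τ : Pt k Ft → Pt k Ft)
    (hτ : ∀ P x, R.RedPt P x → R.RedPt (g • P) (τ x))
    (htgt : ∀ x, (∀ e, x ≠ G.tgtPt e) → ∀ e, τ x ≠ G.tgtPt e) (P : Place K F) :
    R.r (g • P) = τ (R.r P) :=
  R.r_eq_map τ (hτ P) htgt

end RedRelG

/-! ### graph lemmas -/

section GraphLemmas

variable {ι ν : Type*}

/-- The field `branch_injective` of a semistable setup from its three constituents. -/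
theorem branch_injective_of {β : ι → Type*} (src tgt : ν → ι) (s₁ : ∀ e, β (src e))
    (s₂ : ∀ e, β (tgt e))
    (h₁ : Function.Injective fun e => (⟨src e, s₁ e⟩ : Σ v, β v))
    (h₂ : Function.Injective fun e => (⟨tgt e, s₂ e⟩ : Σ v, β v))
    (hne : ∀ e e', (⟨src e, s₁ e⟩ : Σ v, β v) ≠ ⟨tgt e', s₂ e'⟩) :
    Function.Injective
      (Sum.elim (fun e => (⟨src e, s₁ e⟩ : Σ v, β v)) (fun e => ⟨tgt e, s₂ e⟩)) := by
  rintro (e | e) (e' | e') h
  · exact congrArg Sum.inl (h₁ h)
  · exact absurd h (hne e e')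
  · exact absurd h.symm (hne e' e)
  · exact congrArg Sum.inr (h₂ h)

/-- A graph in which every vertex of `X` is joined to every vertex of `Y`, `X ∪ Y` everything and
`X`, `Y` nonempty, is connected (the field `connected` of `SS.SemistableSetup`). -/
theorem connected_of_complete_bipartite (src tgt : ν → ι) (X Y : Set ι)
    (hXY : ∀ v, v ∈ X ∨ v ∈ Y) (hX : X.Nonempty) (hY : Y.Nonempty)
    (hjoin : ∀ x ∈ X, ∀ y ∈ Y, ∃ e, (src e = x ∧ tgt e = y) ∨ (src e = y ∧ tgt e = x)) :
    ∀ T : Set ι, T.Nonempty → (∀ e, src e ∈ T ↔ tgt e ∈ T) → T = Set.univ := by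
  intro T hT hclosed
  -- adjacency transports membership
  have hadj : ∀ x ∈ X, ∀ y ∈ Y, (x ∈ T ↔ y ∈ T) := by
    intro x hx y hy
    obtain ⟨e, ⟨h1, h2⟩ | ⟨h1, h2⟩⟩ := hjoin x hx y hy
    · rw [← h1, ← h2]
      exact hclosed e
    · rw [← h1, ← h2]
      exact (hclosed e).symm
  obtain ⟨x₀, hx₀⟩ := hX
  obtain ⟨y₀, hy₀⟩ := hY
  have hboth : x₀ ∈ T ∧ y₀ ∈ T := by
    obtain ⟨t, ht⟩ := hT
    rcases hXY t with htX | htY
    · have h1 : y₀ ∈ T := (hadj t htX y₀ hy₀).1 ht
      exact ⟨(hadj x₀ hx₀ y₀ hy₀).2 h1, h1⟩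
    · have h1 : x₀ ∈ T := (hadj x₀ hx₀ t htY).2 ht
      exact ⟨h1, (hadj x₀ hx₀ y₀ hy₀).1 h1⟩
  ext v
  simp only [Set.mem_univ, iff_true]
  rcases hXY v with hv | hv
  · exact (hadj v hv y₀ hy₀).2 hboth.2
  · exact (hadj x₀ hx₀ v hv).1 hboth.1

/-- The complete bipartite shape of Program C: components `HC ⊕ SS`, one node for every pair
`(e, h) : SS × HC`, joining `inr e` and `inl h` (in either orientation). -/
theorem connected_sum_prod {HC SS : Type*} [Nonempty HC] [Nonempty SS]
    (src tgt : SS × HC → HC ⊕ SS)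
    (hjoin : ∀ e h, (src (e, h) = Sum.inr e ∧ tgt (e, h) = Sum.inl h) ∨
      (src (e, h) = Sum.inl h ∧ tgt (e, h) = Sum.inr e)) :
    ∀ T : Set (HC ⊕ SS), T.Nonempty → (∀ x, src x ∈ T ↔ tgt x ∈ T) → T = Set.univ := by
  refine connected_of_complete_bipartite src tgt (Set.range Sum.inl) (Set.range Sum.inr) ?_
    (Set.range_nonempty _) (Set.range_nonempty _) ?_
  · rintro (h | e)
    · exact Or.inl ⟨h, rfl⟩
    · exact Or.inr ⟨e, rfl⟩
  · rintro _ ⟨h, rfl⟩ _ ⟨e, rfl⟩
    rcases hjoin e h with ⟨h1, h2⟩ | ⟨h1, h2⟩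
    · exact ⟨(e, h), Or.inr ⟨h1, h2⟩⟩
    · exact ⟨(e, h), Or.inl ⟨h1, h2⟩⟩

end GraphLemmas

end Fermat.Agent.BR3.RedGraph
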