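import Mathlib
import Fermat.Agent.BR3.MultiInput
import Fermat.Agent.BR3.RedGraph

/-!
# Program C (S36), node A9, part 5: `MultiInput` from a reduction MAP

`MultiInput.ofR` : the inputs of the semistable setup of a model with any finite family of
components (`BR3/MultiInput`) when the tubes are the fibres of a reduction map
`r : Place K F → Σ v, Place k (Ft v)` which avoids the target branches (e.g. `RedRelG.r` of
`BR3/RedGraph`, helper23): `tube x = {P | r P = x}`, the charts being given on these literal sets.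

* `MultiInput.ofR`, `ofR_tube` (`rfl`), `ofR_r`, `ofR_toSetup_r`;
* `MultiInput.ofRedRel` : the same for the reduction map of a reduction RELATION
  `R : RedGraph.RedRelG K F G`, the charts being given on the tubes of the relation
  `{P | R.Red v P Q}`.
-/

set_option autoImplicit false

namespace Fermat.Agent.BR3

open AlgebraicCurve Fermat.Agent.Red Fermat.Agent.Val Fermat.Agent.BR.SS Fermat.Agent.BR.S0

namespace MultiInput

variable {K F k : Type*} [Field K] [Field F] [Algebra K F] [Field k]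
  {A : ValuationSubring K} {π : A →+* k} {ι : Type*} {Ft : ι → Type*}
  [∀ v, Field (Ft v)] [∀ v, Algebra k (Ft v)] {ν : Type*}

/-- **The inputs of the setup from a reduction map**: the tubes are the fibres of `r`. -/
def ofR (C : ∀ v, ConstRed (F := F) (Ft := Ft v) A π)
    (O_injective : Function.Injective fun v => (C v).O) (src tgt : ν → ι)
    (s₁ : ∀ e, Place k (Ft (src e))) (s₂ : ∀ e, Place k (Ft (tgt e)))
    (branch_injective : Function.Injective
      (Sum.elim (fun e => (⟨src e, s₁ e⟩ : Σ v, Place k (Ft v))) (fun e => ⟨tgt e, s₂ e⟩)))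
    (connected : ∀ T : Set ι, T.Nonempty → (∀ e, src e ∈ T ↔ tgt e ∈ T) → T = Set.univ)
    (r : Place K F → Σ v, Place k (Ft v))
    (r_ne_tgt : ∀ P e, r P ≠ ⟨tgt e, s₂ e⟩)
    (smooth : ∀ v (Q : Place k (Ft v)),
      (∀ e, (⟨v, Q⟩ : Σ v, Place k (Ft v)) ≠ ⟨src e, s₁ e⟩) →
      (∀ e, (⟨v, Q⟩ : Σ v, Place k (Ft v)) ≠ ⟨tgt e, s₂ e⟩) →
      SmoothChart A (C v).O (C v).res Q {P | r P = ⟨v, Q⟩})
    (chart : ∀ e, NodeChart A (C (src e)).O (C (tgt e)).O (C (src e)).res (C (tgt e)).res
      (s₁ e) (s₂ e) {P | r P = ⟨src e, s₁ e⟩}) :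
    MultiInput (F := F) A π ι Ft ν :=
  ofNodeCharts C O_injective src tgt s₁ s₂ branch_injective connected (fun x => {P | r P = x})
    (fun e => Set.eq_empty_iff_forall_notMem.mpr fun P hP => r_ne_tgt P e hP)
    (fun P => ⟨r P, rfl⟩) (fun _ _ _ h h' => h.symm.trans h') smooth chart

section OfR

variable (C : ∀ v, ConstRed (F := F) (Ft := Ft v) A π)
    (O_injective : Function.Injective fun v => (C v).O) (src tgt : ν → ι)
    (s₁ : ∀ e, Place k (Ft (src e))) (s₂ : ∀ e, Place k (Ft (tgt e)))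
    (branch_injective : Function.Injective
      (Sum.elim (fun e => (⟨src e, s₁ e⟩ : Σ v, Place k (Ft v))) (fun e => ⟨tgt e, s₂ e⟩)))
    (connected : ∀ T : Set ι, T.Nonempty → (∀ e, src e ∈ T ↔ tgt e ∈ T) → T = Set.univ)
    (r : Place K F → Σ v, Place k (Ft v))
    (r_ne_tgt : ∀ P e, r P ≠ ⟨tgt e, s₂ e⟩)
    (smooth : ∀ v (Q : Place k (Ft v)),
      (∀ e, (⟨v, Q⟩ : Σ v, Place k (Ft v)) ≠ ⟨src e, s₁ e⟩) →
      (∀ e, (⟨v, Q⟩ : Σ v, Place k (Ft v)) ≠ ⟨tgt e, s₂ e⟩) →
      SmoothChart A (C v).O (C v).res Q {P | r P = ⟨v, Q⟩})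
    (chart : ∀ e, NodeChart A (C (src e)).O (C (tgt e)).O (C (src e)).res (C (tgt e)).res
      (s₁ e) (s₂ e) {P | r P = ⟨src e, s₁ e⟩})

@[simp] theorem ofR_tube (x : Σ v, Place k (Ft v)) :
    (ofR C O_injective src tgt s₁ s₂ branch_injective connected r r_ne_tgt smooth chart).tube x =
      {P | r P = x} := rfl

@[simp] theorem ofR_C (v : ι) :
    (ofR C O_injective src tgt s₁ s₂ branch_injective connected r r_ne_tgt smooth chart).C v =
      C v := rfl

@[simp] theorem ofR_src (e : ν) :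
    (ofR C O_injective src tgt s₁ s₂ branch_injective connected r r_ne_tgt smooth chart).src e =
      src e := rfl

@[simp] theorem ofR_tgt (e : ν) :
    (ofR C O_injective src tgt s₁ s₂ branch_injective connected r r_ne_tgt smooth chart).tgt e =
      tgt e := rfl

@[simp] theorem ofR_s₁ (e : ν) :
    (ofR C O_injective src tgt s₁ s₂ branch_injective connected r r_ne_tgt smooth chart).s₁ e =
      s₁ e := rfl

@[simp] theorem ofR_s₂ (e : ν) :
    (ofR C O_injective src tgt s₁ s₂ branch_injective connected r r_ne_tgt smooth chart).s₂ e =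
      s₂ e := rfl

/-- The reduction map of `ofR` is the given map. -/
@[simp] theorem ofR_r :
    (ofR C O_injective src tgt s₁ s₂ branch_injective connected r r_ne_tgt smooth chart).r = r := by
  funext P
  exact (r_eq_iff _).mpr rfl

/-- The reduction map of the setup of `ofR` is the given map. -/
@[simp] theorem ofR_toSetup_r :
    (ofR C O_injective src tgt s₁ s₂ branch_injective connected r r_ne_tgt smooth
      chart).toSetup.r = r := by
  rw [toSetup_r, ofR_r]

end OfR

/-- **The inputs of the setup from a reduction relation** (`BR3/RedGraph`): the charts are given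
on the tubes `{P | R.Red v P Q}` of the relation. -/
noncomputable def ofRedRel (C : ∀ v, ConstRed (F := F) (Ft := Ft v) A π)
    (O_injective : Function.Injective fun v => (C v).O) (G : RedGraph.NodeGraph k Ft ν)
    (connected : ∀ T : Set ι, T.Nonempty → (∀ e, G.src e ∈ T ↔ G.tgt e ∈ T) → T = Set.univ)
    (R : RedGraph.RedRelG K F G)
    (smooth : ∀ v (Q : Place k (Ft v)),
      (∀ e, (⟨v, Q⟩ : Σ v, Place k (Ft v)) ≠ ⟨G.src e, G.s₁ e⟩) →
      (∀ e, (⟨v, Q⟩ : Σ v, Place k (Ft v)) ≠ ⟨G.tgt e, G.s₂ e⟩) →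
      SmoothChart A (C v).O (C v).res Q {P | R.Red v P Q})
    (chart : ∀ e, NodeChart A (C (G.src e)).O (C (G.tgt e)).O (C (G.src e)).res
      (C (G.tgt e)).res (G.s₁ e) (G.s₂ e) {P | R.Red (G.src e) P (G.s₁ e)}) :
    MultiInput (F := F) A π ι Ft ν :=
  ofR C O_injective G.src G.tgt G.s₁ G.s₂ G.branch_injective connected R.r R.r_ne_tgt'
    (fun v Q hs ht => by
      rw [R.tube_eq v Q ht]
      exact smooth v Q hs ht)
    (fun e => by
      rw [R.tube_node_eq e]
      exact chart e)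

/-- The tube of a node of `ofRedRel` is the tube of the relation. -/
theorem ofRedRel_tube_node (C : ∀ v, ConstRed (F := F) (Ft := Ft v) A π)
    (O_injective : Function.Injective fun v => (C v).O) (G : RedGraph.NodeGraph k Ft ν)
    (connected : ∀ T : Set ι, T.Nonempty → (∀ e, G.src e ∈ T ↔ G.tgt e ∈ T) → T = Set.univ)
    (R : RedGraph.RedRelG K F G)
    (smooth : ∀ v (Q : Place k (Ft v)),
      (∀ e, (⟨v, Q⟩ : Σ v, Place k (Ft v)) ≠ ⟨G.src e, G.s₁ e⟩) →
      (∀ e, (⟨v, Q⟩ : Σ v, Place k (Ft v)) ≠ ⟨G.tgt e, G.s₂ e⟩) →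
      SmoothChart A (C v).O (C v).res Q {P | R.Red v P Q})
    (chart : ∀ e, NodeChart A (C (G.src e)).O (C (G.tgt e)).O (C (G.src e)).res
      (C (G.tgt e)).res (G.s₁ e) (G.s₂ e) {P | R.Red (G.src e) P (G.s₁ e)}) (e : ν) :
    (ofRedRel C O_injective G connected R smooth chart).tube ⟨G.src e, G.s₁ e⟩ =
      {P | R.Red (G.src e) P (G.s₁ e)} :=
  R.tube_node_eq e

/-- The reduction map of `ofRedRel` is the reduction map of the relation. -/
theorem ofRedRel_r (C : ∀ v, ConstRed (F := F) (Ft := Ft v) A π)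
    (O_injective : Function.Injective fun v => (C v).O) (G : RedGraph.NodeGraph k Ft ν)
    (connected : ∀ T : Set ι, T.Nonempty → (∀ e, G.src e ∈ T ↔ G.tgt e ∈ T) → T = Set.univ)
    (R : RedGraph.RedRelG K F G)
    (smooth : ∀ v (Q : Place k (Ft v)),
      (∀ e, (⟨v, Q⟩ : Σ v, Place k (Ft v)) ≠ ⟨G.src e, G.s₁ e⟩) →
      (∀ e, (⟨v, Q⟩ : Σ v, Place k (Ft v)) ≠ ⟨G.tgt e, G.s₂ e⟩) →
      SmoothChart A (C v).O (C v).res Q {P | R.Red v P Q})
    (chart : ∀ e, NodeChart A (C (G.src e)).O (C (G.tgt e)).O (C (G.src e)).res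
      (C (G.tgt e)).res (G.s₁ e) (G.s₂ e) {P | R.Red (G.src e) P (G.s₁ e)}) :
    (ofRedRel C O_injective G connected R smooth chart).r = R.r :=
  ofR_r ..

end MultiInput

end Fermat.Agent.BR3
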