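/-
Program C (S36), node A8 / (C-ANN)(b), layer L4 (helper8): FROM THE EXPLICIT LEVELS OF A NODE TO
THE TWO CONSUMERS.

`H : NodeLevelFrac.FracLevels A T u v ε₀ thick R K' ϖ O₁ O₂` (a directed family of explicit local
rings, `𝔪 = (ϖ, u, v)`, `u ∈ 𝔪(O₁) ∌ v`, `v ∈ 𝔪(O₂) ∌ u`).  Conventions of `CircleN.BranchDataN`:
`O₂ = O (src e)` (where `v` vanishes, `u` is a unit), `O₁ = O (tgt e)`.

* `nodeChartOfFrac H res₁ res₂ Q₁ Q₂ branch₁ branch₂ const₂ :
    S0.NodeChart A O₂ O₁ res₂ res₁ Q₂ Q₁ T` — the input `chart e` of `MultiInput.ofNodeCharts` /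
  `MultiInput.ofR` (FIRST branch on `O₂ = O (src e)`); `nodeChartOfFrac'` : the other orientation;
* `res_eq_zero_iff_mem_nonunits` : `S₀.res w x = 0 ↔ x ∈ 𝔪(S₀.O w)` (the hypothesis `hres` of
  `CompVal.compVal` for a semistable setup);
* `branch_of_dominated` : domination of a subring by `CompVal.compVal O res hres Q.adicValuation`
  gives the branch condition;
* `branchDataN_of_frac : CircleN.BranchDataN S₀ e H.levels` for
  `H : FracLevels A (tube S₀ e) u v ε₀ thick R K' ϖ (S₀.O (S₀.tgt e)) (S₀.O (S₀.src e))`, from the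
  branch conditions, a uniformizer at each branch and the separation of the other components.
-/
import Mathlib
import Fermat.Agent.BR3.NodeChartOfLevels
import Fermat.Agent.BR3.NodeLevelFrac
import Fermat.Agent.BR3.CompVal
import Fermat.Agent.BR3.CircleN.OfLevels

set_option autoImplicit false
set_option linter.unusedSectionVars false

noncomputable section

namespace Fermat.Agent.BR3.NodeOfFrac

open AlgebraicCurve IsLocalRing Fermat.Agent.Red Fermat.Agent.BR.Centre Fermat.Agent.BR.SS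
  Fermat.Agent.BR.Refine Fermat.Agent.BR.Circle Fermat.Agent.BR.S0
  Fermat.Agent.BR3.NodeLevelFrac Fermat.Agent.BR3.NodeLevelExplicit Fermat.Agent.BR3.CircleN
open Fermat.Agent.BR.Inst.LevelsAnnulus (trace mem_trace_iff)

/-! ### The node chart -/

section Chart

variable {K F k : Type*} [Field K] [Field F] [Algebra K F] [Field k]
  {Ft₁ Ft₂ : Type*} [Field Ft₁] [Algebra k Ft₁] [Field Ft₂] [Algebra k Ft₂]
  {A : ValuationSubring K} {T : Set (Place K F)} {u v ε₀ : F} {thick : K} {ι : Type*}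
  {R : ι → Subring F} {K' : ι → Subfield K} {ϖ : ι → K} {O₁ O₂ : ValuationSubring F}
  (H : FracLevels A T u v ε₀ thick R K' ϖ O₁ O₂)

/-- **The node chart of a family of explicit levels**, first branch on `O₂` (`= O (src e)` in the
conventions of `CircleN.BranchDataN`). -/
def nodeChartOfFrac (res₁ : O₁ →+* Ft₁) (res₂ : O₂ →+* Ft₂) (Q₁ : Place k Ft₁) (Q₂ : Place k Ft₂)
    (branch₁ : ∀ i, ∀ y : R i, ¬ IsUnit y →
      Q₁.adicValuation (res₁ ⟨y, (H.level i).le₁ y y.2⟩) < 1)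
    (branch₂ : ∀ i, ∀ y : R i, ¬ IsUnit y →
      Q₂.adicValuation (res₂ ⟨y, (H.level i).le₂ y y.2⟩) < 1)
    (const₂ : ∀ (a : K) (_ : a ∈ A) (h : algebraMap K F a ∈ O₂),
      Q₂.adicValuation (res₂ ⟨algebraMap K F a, h⟩) ≤ 1) :
    NodeChart A O₂ O₁ res₂ res₁ Q₂ Q₁ T :=
  NodeChartOfLevels.nodeChartOfLevels H.levels O₂ O₁ res₂ res₁ Q₂ Q₁
    (fun i => (H.level i).le₂) (fun i => (H.level i).le₁)
    (fun _ => Or.inr ⟨fun _ => Iff.rfl, fun _ => Iff.rfl⟩) branch₂ branch₁ const₂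

/-- The node chart of a family of explicit levels, first branch on `O₁`. -/
def nodeChartOfFrac' (res₁ : O₁ →+* Ft₁) (res₂ : O₂ →+* Ft₂) (Q₁ : Place k Ft₁)
    (Q₂ : Place k Ft₂)
    (branch₁ : ∀ i, ∀ y : R i, ¬ IsUnit y →
      Q₁.adicValuation (res₁ ⟨y, (H.level i).le₁ y y.2⟩) < 1)
    (branch₂ : ∀ i, ∀ y : R i, ¬ IsUnit y →
      Q₂.adicValuation (res₂ ⟨y, (H.level i).le₂ y y.2⟩) < 1)
    (const₁ : ∀ (a : K) (_ : a ∈ A) (h : algebraMap K F a ∈ O₁),
      Q₁.adicValuation (res₁ ⟨algebraMap K F a, h⟩) ≤ 1) :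
    NodeChart A O₁ O₂ res₁ res₂ Q₁ Q₂ T :=
  NodeChartOfLevels.nodeChartOfLevels H.levels O₁ O₂ res₁ res₂ Q₁ Q₂
    (fun i => (H.level i).le₁) (fun i => (H.level i).le₂)
    (fun _ => Or.inl ⟨fun _ => Iff.rfl, fun _ => Iff.rfl⟩) branch₁ branch₂ const₁

/-- **Domination by the composite valuation ring gives the branch condition.** -/
theorem branch_of_dominated {O : ValuationSubring F} {Ft : Type*} [Field Ft] [Algebra k Ft]
    (res : O →+* Ft) (hres : ∀ x : O, res x = 0 ↔ (x : F) ∈ O.nonunits) (Q : Place k Ft)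
    {D : Subring F} (hle : ∀ y ∈ D, y ∈ O)
    (hdom : ∀ y : D, ¬ IsUnit y → (y : F) ∈ (CompVal.compVal O res hres Q.adicValuation).nonunits)
    (y : D) (hy : ¬ IsUnit y) : Q.adicValuation (res ⟨y, hle y y.2⟩) < 1 := by
  obtain ⟨_, h⟩ := (CompVal.mem_nonunits_compVal_iff O res hres Q.adicValuation).mp (hdom y hy)
  exact h

end Chart

/-! ### The branch data for a semistable setup -/

section Branch

variable {K : Type} {F : Type*} [Field K] [Field F] [Algebra K F]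
  {A : ValuationSubring K} [IsAlgClosed (ResidueField A)]
  {ι₀ : Type} {Ft₀ : ι₀ → Type} [∀ v, Field (Ft₀ v)] [∀ v, Algebra (ResidueField A) (Ft₀ v)]
  {ν₀ : Type} {S₀ : SemistableSetup (F := F) A (residue A) ι₀ Ft₀ ν₀}

/-- The residue map of a component of a semistable setup has kernel the maximal ideal (the
hypothesis `hres` of `CompVal.compVal`). -/
theorem res_eq_zero_iff_mem_nonunits (w : ι₀) (x : S₀.O w) :
    S₀.res w x = 0 ↔ (x : F) ∈ (S₀.O w).nonunits := by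
  rw [S₀.res_eq_zero_iff, ValuationSubring.mem_nonunits_iff_exists_mem_maximalIdeal]
  constructor
  · intro h
    exact ⟨x.2, (IsLocalRing.mem_maximalIdeal _).mpr h⟩
  · rintro ⟨_, h⟩
    exact (IsLocalRing.mem_maximalIdeal _).mp h

variable {e : ν₀} {u v ε₀ : F} {thick : K} {ι : Type*}
  {R : ι → Subring F} {K' : ι → Subfield K} {ϖ : ι → K}

/-- **The branch data of a family of explicit levels of the node `e`** (`O₁ = O (tgt e)`,
`O₂ = O (src e)`). -/
theorem branchDataN_of_frac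
    (H : FracLevels A (tube S₀ e) u v ε₀ thick R K' ϖ (S₀.O (S₀.tgt e)) (S₀.O (S₀.src e)))
    (branch₁ : ∀ i, ∀ y : R i, ¬ IsUnit y →
      (S₀.s₁ e).adicValuation (S₀.res (S₀.src e) ⟨y, (H.level i).le₂ y y.2⟩) < 1)
    (branch₂ : ∀ i, ∀ y : R i, ¬ IsUnit y →
      (S₀.s₂ e).adicValuation (S₀.res (S₀.tgt e) ⟨y, (H.level i).le₁ y y.2⟩) < 1)
    (unif₁ : ∃ i, ∃ t : R i,
      (S₀.s₁ e).ord (S₀.res (S₀.src e) ⟨t, (H.level i).le₂ t t.2⟩) = 1)
    (unif₂ : ∃ i, ∃ t : R i,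
      (S₀.s₂ e).ord (S₀.res (S₀.tgt e) ⟨t, (H.level i).le₁ t t.2⟩) = 1)
    (sep_comp : ∀ w, w ≠ S₀.src e → w ≠ S₀.tgt e → SepComp S₀ e w) :
    BranchDataN S₀ e H.levels where
  le₁ := fun i => (H.level i).le₂
  le₂ := fun i => (H.level i).le₁
  branch₁ := branch₁
  branch₂ := branch₂
  v_src := by
    obtain ⟨i, -⟩ := H.const 0
    exact (H.level i).v_mem₂
  u_tgt := by
    obtain ⟨i, -⟩ := H.const 0
    exact (H.level i).u_mem₁
  unif₁ := unif₁
  unif₂ := unif₂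
  sep_comp := sep_comp

end Branch

end Fermat.Agent.BR3.NodeOfFrac
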