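import Fermat.Agent.FF.NormFormula
import Fermat.Agent.Red.Values
import Fermat.Agent.X0.Alg.PlaceBasic

/-!
# Program C, node (dMM), abstract half: a generator with a simple value separates the places over a
point

`E/F` a finite separable extension of function fields over `k`, `v` a place of `F`, `x ∈ E` a
GENERATOR (`deg minpoly = [E : F]`) integral over `O_v`.

* `ord_eval_eq_ord_sub` : Taylor at a place `w`: if `p(x) = 0`, `p'(x)` is a unit at `w`, `a ≡ x`
  at `w`, all integral at `w`, then `ord_w p(a) = ord_w (a - x)`;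
* `norm_sub_algebraMap_eq` : `N_{E/F}(x - a) = (-1)^d · m(a)` for `a ∈ F`, `m` the minimal polynomial
  of the generator `x`;
* **`eq_of_isValueAt_eq`** (KD-SEP) : two places `w₁, w₂` of `E` over `v` at which `x` takes the
  SAME value `c ∈ k` and `m'(x)` is a unit coincide.  (Norm formula
  `FF.ord_norm_eq_sum_placesAbove`: `n = ord_v m(c) = ∑_{w | v} f_w ord_w (x - c) ≥ e₁ n + e₂ n`.)
-/

set_option autoImplicit false
set_option linter.unusedSectionVars false

namespace Fermat.Agent.BR3.PlaceSepValue

open AlgebraicCurve Polynomial IntermediateField Fermat.Agent.FF Fermat.Agent.Red Fermat.Agent.X0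

variable {k F E : Type*} [Field k] [Field F] [Field E] [Algebra k F] [Algebra F E] [Algebra k E]
  [IsScalarTower k F E]

/-- a root of a monic polynomial with coefficients in a valuation subring lies in it -/
theorem mem_of_monic_root' {L : Type*} [Field L] (V : ValuationSubring L) {p : L[X]}
    (hp : p.Monic) (hc : ∀ n, p.coeff n ∈ V) {x : L} (hx : p.eval x = 0) : x ∈ V := by
  have hlifts : p ∈ Polynomial.lifts (V.subtype) :=
    (Polynomial.lifts_iff_coeff_lifts _).mpr fun i => ⟨⟨p.coeff i, hc i⟩, rfl⟩
  obtain ⟨p', hp'p, -, hp'm⟩ := Polynomial.lifts_and_natDegree_eq_and_monic hlifts hp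
  have hint : IsIntegral V x := by
    refine ⟨p', hp'm, ?_⟩
    have e : algebraMap V L = V.subtype := rfl
    rw [e, ← Polynomial.eval_map, hp'p]
    exact hx
  obtain ⟨y, hy⟩ := IsIntegrallyClosed.isIntegral_iff.mp hint
  rw [← hy]
  exact y.2

/-- **Taylor at a place**: `p(x) = 0`, `p'(x)` a unit at `w`, `a ≡ x` at `w` (everything integral
at `w`) ⇒ `ord_w p(a) = ord_w (a - x)`. -/
theorem ord_eval_eq_ord_sub (w : Place k E) {p : E[X]}
    (hp : ∀ n, p.coeff n ∈ w.toValuationSubring) {x a : E} (hx : x ∈ w.toValuationSubring)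
    (ha : a ∈ w.toValuationSubring) (hroot : p.eval x = 0)
    (hd : w.ord (p.derivative.eval x) = 0) (hd0 : p.derivative.eval x ≠ 0)
    (hxa : 0 < w.ord (a - x)) (hne : a - x ≠ 0) :
    w.ord (p.eval a) = w.ord (a - x) := by
  set T : Subring E := w.toValuationSubring.toSubring with hT
  have hpT : (↑p.coeffs : Set E) ⊆ T := by
    intro c hc
    obtain ⟨n, -, rfl⟩ := Polynomial.mem_coeffs_iff.mp hc
    exact hp n
  set pT : T[X] := p.toSubring T hpT with hpTdef
  have hmap : pT.map T.subtype = p := Polynomial.map_toSubring p T hpT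
  let xT : T := ⟨x, hx⟩
  let aT : T := ⟨a, ha⟩
  obtain ⟨kk, hk⟩ := pT.binomExpansion xT (aT - xT)
  have hev : ∀ y : T, p.eval (y : E) = ((pT.eval y : T) : E) := by
    intro y
    conv_lhs => rw [← hmap]
    rw [Polynomial.eval_map]
    exact Polynomial.eval₂_at_apply T.subtype y
  have hev' : ∀ y : T, p.derivative.eval (y : E) = ((pT.derivative.eval y : T) : E) := by
    intro y
    conv_lhs => rw [← hmap, Polynomial.derivative_map]
    rw [Polynomial.eval_map]
    exact Polynomial.eval₂_at_apply T.subtype y
  have hsum : xT + (aT - xT) = aT := by ring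
  rw [hsum] at hk
  have hkE : p.eval a = p.eval x + p.derivative.eval x * (a - x) + (kk : E) * (a - x) ^ 2 := by
    have h1 : ((pT.eval aT : T) : E) = ((pT.eval xT + pT.derivative.eval xT * (aT - xT) +
        kk * (aT - xT) ^ 2 : T) : E) := congrArg (fun z : T => (z : E)) hk
    rw [← hev aT] at h1
    rw [h1]
    push_cast
    rw [← hev xT, ← hev' xT]
  rw [hroot, zero_add] at hkE
  have hfac : p.eval a = (a - x) * (p.derivative.eval x + (kk : E) * (a - x)) := by
    rw [hkE]; ring
  have hsecond : w.ord (p.derivative.eval x + (kk : E) * (a - x)) = 0 := by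
    by_cases hk0 : (kk : E) = 0
    · rw [hk0, zero_mul, add_zero, hd]
    · have hkk : 0 ≤ w.ord (kk : E) := Place.ord_nonneg_of_mem w kk.2
      have h2 : w.ord ((kk : E) * (a - x)) = w.ord (kk : E) + w.ord (a - x) :=
        w.ord_mul hk0 hne
      rw [Place.ord_add_eq_of_lt w hd0 (mul_ne_zero hk0 hne) (by rw [hd, h2]; omega), hd]
  have hsec0 : p.derivative.eval x + (kk : E) * (a - x) ≠ 0 := by
    intro h0
    by_cases hk0 : (kk : E) = 0
    · rw [hk0, zero_mul, add_zero] at h0
      exact hd0 h0
    · have hkk : 0 ≤ w.ord (kk : E) := Place.ord_nonneg_of_mem w kk.2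
      have h2 : w.ord ((kk : E) * (a - x)) = w.ord (kk : E) + w.ord (a - x) :=
        w.ord_mul hk0 hne
      have h3 : p.derivative.eval x = -((kk : E) * (a - x)) := eq_neg_of_add_eq_zero_left h0
      have h4 : w.ord (p.derivative.eval x) = w.ord ((kk : E) * (a - x)) := by
        rw [h3, Place.ord_neg]
      rw [hd, h2] at h4
      omega
  rw [hfac, w.ord_mul hne hsec0, hsecond, add_zero]

variable [FiniteDimensional F E]

/-- **The norm of `x - a`** for a generator `x` of `E/F` and `a ∈ F`. -/
theorem norm_sub_algebraMap_eq {x : E} (hgen : (minpoly F x).natDegree = Module.finrank F E)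
    (a : F) :
    Algebra.norm F (x - algebraMap F E a) =
      (-1) ^ Module.finrank F E * (minpoly F x).eval a := by
  set y : E := x - algebraMap F E a with hy
  have hyint : IsIntegral F y := Algebra.IsIntegral.isIntegral y
  have hmin : minpoly F y = (minpoly F x).comp (X + C a) := minpoly.sub_algebraMap x a
  have hdeg : (minpoly F y).natDegree = Module.finrank F E := by
    rw [hmin, Polynomial.natDegree_comp, Polynomial.natDegree_X_add_C, mul_one, hgen]
  have htop : F⟮y⟯ = ⊤ := (Field.primitive_element_iff_minpoly_natDegree_eq F y).mpr hdeg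
  let e : F⟮y⟯ ≃ₐ[F] E := (IntermediateField.equivOfEq htop).trans IntermediateField.topEquiv
  let pb : PowerBasis F E := (IntermediateField.adjoin.powerBasis hyint).map e
  have hgen' : pb.gen = y := by
    show e (IntermediateField.adjoin.powerBasis hyint).gen = y
    rw [IntermediateField.adjoin.powerBasis_gen]
    rfl
  have hdim : pb.dim = Module.finrank F E := by
    rw [← hdeg]
    show (IntermediateField.adjoin.powerBasis hyint).dim = _
    rw [IntermediateField.adjoin.powerBasis_dim]
  have h := Algebra.PowerBasis.norm_gen_eq_coeff_zero_minpoly pb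
  rw [hgen', hdim, hmin, Polynomial.coeff_zero_eq_eval_zero, Polynomial.eval_comp] at h
  rw [h]
  simp

variable [Algebra.IsSeparable F E]

set_option maxHeartbeats 1600000 in
/-- **(KD-SEP) A generator with a simple value separates the places over a point**: `x` a generator
of `E/F` integral over `O_v`; two places `w₁, w₂` of `E` over `v` (of degree one) at which `x` takes
the same value `c` and the derivative `m'(x)` of its minimal polynomial is a unit coincide. -/
theorem eq_of_isValueAt_eq (v : Place k F) {w₁ w₂ : Place k E} (h₁ : w₁.restrict F = v)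
    (h₂ : w₂.restrict F = v) (hdeg₁ : w₁.deg = 1) (hdeg₂ : w₂.deg = 1) {x : E}
    (hgen : (minpoly F x).natDegree = Module.finrank F E)
    (hint : ∀ n, (minpoly F x).coeff n ∈ v.toValuationSubring) {c : k}
    (hc₁ : IsValueAt w₁ x c) (hc₂ : IsValueAt w₂ x c)
    (hd₁ : w₁.ord (aeval x (derivative (minpoly F x))) = 0)
    (hd₂ : w₂.ord (aeval x (derivative (minpoly F x))) = 0) : w₁ = w₂ := by
  classical
  by_contra hne
  have hmem₁ : w₁ ∈ placesAbove v E := by
    rw [mem_placesAbove, ← restrict_eq_comapField]; exact h₁
  have hmem₂ : w₂ ∈ placesAbove v E := by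
    rw [mem_placesAbove, ← restrict_eq_comapField]; exact h₂
  set m := minpoly F x with hm
  set a : F := algebraMap k F c with ha
  have haE : algebraMap k E c = algebraMap F E a := IsScalarTower.algebraMap_apply k F E c
  by_cases hx0 : x - algebraMap F E a = 0
  · -- `x ∈ F`: then `E = F`
    have hx : x = algebraMap F E a := sub_eq_zero.mp hx0
    have h1 : m.natDegree = 1 := by
      rw [hm, hx, minpoly.eq_X_sub_C, Polynomial.natDegree_X_sub_C]
    have hcard := card_placesAbove_le v (F' := E)
    rw [← hgen, h1] at hcard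
    exact hne (Finset.card_le_one.mp hcard w₁ hmem₁ w₂ hmem₂)
  · set p : E[X] := m.map (algebraMap F E) with hp
    have hmonic : m.Monic := minpoly.monic (Algebra.IsIntegral.isIntegral x)
    have hroot : p.eval x = 0 := by
      rw [hp, Polynomial.eval_map, ← Polynomial.aeval_def, hm, minpoly.aeval]
    have hder : p.derivative.eval x = aeval x (derivative m) := by
      rw [hp, Polynomial.derivative_map, Polynomial.eval_map, ← Polynomial.aeval_def]
    have hsep : m.Separable := Algebra.IsSeparable.isSeparable F x
    have hder0 : aeval x (derivative m) ≠ 0 :=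
      hsep.aeval_derivative_ne_zero (minpoly.aeval F x)
    have hcoeff : ∀ w : Place k E, w.restrict F = v → ∀ n, p.coeff n ∈ w.toValuationSubring := by
      intro w hw n
      rw [hp, Polynomial.coeff_map]
      have h3 := hint n
      rw [← hw] at h3
      exact h3
    have haw : ∀ w : Place k E, algebraMap F E a ∈ w.toValuationSubring := by
      intro w
      rw [← haE]
      exact w.algebraMap_mem' c
    have hxw : ∀ w : Place k E, w.restrict F = v → x ∈ w.toValuationSubring := fun w hw =>
      mem_of_monic_root' w.toValuationSubring (hmonic.map _) (hcoeff w hw) hroot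
    have hg : p.eval (algebraMap F E a) = algebraMap F E (m.eval a) := by
      rw [hp, Polynomial.eval_map]
      exact Polynomial.eval₂_at_apply (algebraMap F E) a
    set g : F := m.eval a with hgdef
    have hnorm := norm_sub_algebraMap_eq hgen a
    have hN0 : Algebra.norm F (x - algebraMap F E a) ≠ 0 := Algebra.norm_ne_zero_iff.mpr hx0
    have hg0 : g ≠ 0 := by
      intro h0
      rw [← hm, ← hgdef, h0, mul_zero] at hnorm
      exact hN0 hnorm
    set n : ℤ := v.ord g with hn
    have hordN : v.ord (Algebra.norm F (x - algebraMap F E a)) = n := by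
      rw [hnorm, ← hm, ← hgdef]
      have h1 : ((-1 : F) ^ Module.finrank F E) ≠ 0 := pow_ne_zero _ (neg_ne_zero.mpr one_ne_zero)
      rw [v.ord_mul h1 hg0]
      have h2 : v.ord ((-1 : F) ^ Module.finrank F E) = 0 := by
        rw [Place.ord_pow, Place.ord_neg, v.ord_one, mul_zero]
      rw [h2, zero_add]
    -- the order of `x - a` at the two places
    have key : ∀ w : Place k E, w.restrict F = v → IsValueAt w x c →
        w.ord (aeval x (derivative m)) = 0 →
        0 < w.ord (x - algebraMap F E a) ∧
          w.ord (x - algebraMap F E a) = (w.ramificationIndex F : ℤ) * n := by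
      intro w hw hc hd
      have hpos : 0 < w.ord (x - algebraMap F E a) := by
        have h3 : w.adicValuation (x - algebraMap F E a) < 1 := by
          rw [← haE]; exact hc
        rcases (adicValuation_lt_one_iff w).mp h3 with h4 | h4
        · exact absurd h4 hx0
        · exact h4
      have hxa : algebraMap F E a - x ≠ 0 := fun h => hx0 (by rw [← neg_sub, h, neg_zero])
      have hpos' : 0 < w.ord (algebraMap F E a - x) := by
        rw [Place.ord_sub_comm]; exact hpos
      have h5 := ord_eval_eq_ord_sub w (hcoeff w hw) (hxw w hw) (haw w) hroot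
        (by rw [hder]; exact hd) (by rw [hder]; exact hder0) hpos' hxa
      rw [hg, w.ord_restrict (F := F) g, hw, Place.ord_sub_comm] at h5
      exact ⟨hpos, h5.symm⟩
    obtain ⟨hp₁, he₁⟩ := key w₁ h₁ hc₁ hd₁
    obtain ⟨hp₂, he₂⟩ := key w₂ h₂ hc₂ hd₂
    have hf : ∀ w : Place k E, w.restrict F = v → w.deg = 1 → w.inertiaDeg F = 1 := by
      intro w hw hdeg
      have h3 := w.deg_restrict_mul_inertiaDeg (F := F)
      rw [hdeg] at h3
      exact Nat.eq_one_of_mul_eq_one_left h3
    have hsum := ord_norm_eq_sum_placesAbove v (F' := E) hx0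
    rw [hordN] at hsum
    have hnonneg : ∀ w ∈ placesAbove v E,
        0 ≤ (w.inertiaDeg F : ℤ) * w.ord (x - algebraMap F E a) := by
      intro w hw
      have hw' : w.restrict F = v := by
        rw [restrict_eq_comapField]; exact (mem_placesAbove v).mp hw
      exact mul_nonneg (Int.natCast_nonneg _)
        (Place.ord_nonneg_of_mem w (sub_mem (hxw w hw') (haw w)))
    have hle := Finset.add_le_sum hnonneg hmem₁ hmem₂ hne
    rw [← hsum, hf w₁ h₁ hdeg₁, hf w₂ h₂ hdeg₂, he₁, he₂] at hle
    rw [he₁] at hp₁
    rw [he₂] at hp₂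
    have hn0 : 0 < n := by
      by_contra hneg
      have : (w₁.ramificationIndex F : ℤ) * n ≤ 0 :=
        mul_nonpos_of_nonneg_of_nonpos (Int.natCast_nonneg _) (not_lt.mp hneg)
      omega
    have hr₁ : (1 : ℤ) ≤ (w₁.ramificationIndex F : ℤ) := by
      by_contra hlt
      have h0 : (w₁.ramificationIndex F : ℤ) = 0 := by
        have := Int.natCast_nonneg (w₁.ramificationIndex F)
        omega
      rw [h0, zero_mul] at hp₁
      exact lt_irrefl _ hp₁
    have hr₂ : (1 : ℤ) ≤ (w₂.ramificationIndex F : ℤ) := by
      by_contra hlt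
      have h0 : (w₂.ramificationIndex F : ℤ) = 0 := by
        have := Int.natCast_nonneg (w₂.ramificationIndex F)
        omega
      rw [h0, zero_mul] at hp₂
      exact lt_irrefl _ hp₂
    push_cast at hle
    have h6 := mul_le_mul_of_nonneg_right hr₁ hn0.le
    have h7 := mul_le_mul_of_nonneg_right hr₂ hn0.le
    linarith

end Fermat.Agent.BR3.PlaceSepValue
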