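/-
Program C (S36), node (I7-PUR) = plug of A6p PURITY at the modular levels, part PUR-K (helper4):
the `K`-level consequences of a unit discriminant, in the vocabulary "orders in a field extension".

`F'' / F'` a finite extension of fields with a basis `b` whose structure constants lie in a local
ring `R ⊆ F'` with algebraically closed residue field (the `K`-level local ring of a smooth point,
`RegChart.chart.R`), and whose discriminant is a unit of `R` (from `Purity.isUnit_discr` at ONE
finite level). Then the order `spanAlg = Σ R b_i` is a finite free `R`-algebra of unit discriminant,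
and P3 of `PurityPrim` applies to it (no noetherian hypothesis): there are `n` points over the
closed point, and a primitive element `u` with `F'' = F'[u]`, `spanAlg = R[u]`, root of a monic
irreducible `Ψ` of degree `n` with coefficients in `R` such that `Ψ' (u)` is a unit of the order:
`exists_primitive_klevel`. Moreover the order is the integral closure of `R` in `F''` when `R` is
integrally closed in `F'`: `mem_spanAlg_of_isIntegral`.
-/
import Mathlib
import Fermat.Agent.BR3.PurityPrim

set_option autoImplicit false

namespace Fermat.Agent.BR3.PurityPlug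

open Module Polynomial IsLocalRing Fermat.Agent.BR3.Purity

section SpanAlg

variable {R : Type*} [CommRing R] {F' F'' : Type*} [Field F'] [Field F''] [Algebra F' F'']
  [Algebra R F'] [Algebra R F''] [IsScalarTower R F' F''] {n : ℕ} (b : Basis (Fin n) F' F'')

omit [Algebra R F'] [IsScalarTower R F' F''] in
/-- The `R`-span of a basis whose structure constants lie in `R` is closed under products. -/
theorem mul_mem_span (hmul : ∀ i j, b i * b j ∈ Submodule.span R (Set.range b)) {x y : F''}
    (hx : x ∈ Submodule.span R (Set.range b)) (hy : y ∈ Submodule.span R (Set.range b)) :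
    x * y ∈ Submodule.span R (Set.range b) := by
  obtain ⟨c, rfl⟩ := (Submodule.mem_span_range_iff_exists_fun R).1 hx
  obtain ⟨d, rfl⟩ := (Submodule.mem_span_range_iff_exists_fun R).1 hy
  rw [Finset.sum_mul_sum]
  refine Submodule.sum_mem _ fun i _ => Submodule.sum_mem _ fun j _ => ?_
  rw [smul_mul_smul_comm]
  exact Submodule.smul_mem _ _ (hmul i j)

/-- The order `Σ R b_i ⊆ F''`. -/
def spanAlg (h1 : (1 : F'') ∈ Submodule.span R (Set.range b))
    (hmul : ∀ i j, b i * b j ∈ Submodule.span R (Set.range b)) : Subalgebra R F'' :=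
  (Submodule.span R (Set.range b)).toSubalgebra h1 fun _ _ hx hy => mul_mem_span b hmul hx hy

omit [Algebra R F'] [IsScalarTower R F' F''] in
theorem mem_spanAlg {h1 : (1 : F'') ∈ Submodule.span R (Set.range b)}
    {hmul : ∀ i j, b i * b j ∈ Submodule.span R (Set.range b)} {x : F''} :
    x ∈ spanAlg b h1 hmul ↔ x ∈ Submodule.span R (Set.range b) := Iff.rfl

variable (hinj : Function.Injective (algebraMap R F'))
  (h1 : (1 : F'') ∈ Submodule.span R (Set.range b))
  (hmul : ∀ i j, b i * b j ∈ Submodule.span R (Set.range b))

include hinj in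
theorem linearIndependent_of_basis : LinearIndependent R b := by
  refine LinearIndependent.restrict_scalars (K := F') ?_ b.linearIndependent
  intro r s hrs
  apply hinj
  simpa [Algebra.smul_def] using hrs

/-- The basis of the order `Σ R b_i` given by the `b_i`. -/
noncomputable def spanBasis : Basis (Fin n) R (spanAlg b h1 hmul) :=
  (Basis.span (linearIndependent_of_basis b hinj)).map
    ((LinearEquiv.ofEq _ _ (Submodule.toSubalgebra_toSubmodule _ h1 _).symm).trans
      (Subalgebra.toSubmoduleEquiv (spanAlg b h1 hmul)))

theorem coe_spanBasis (i : Fin n) : ((spanBasis b hinj h1 hmul i : spanAlg b h1 hmul) : F'') = b i := by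
  simp only [spanBasis, Basis.map_apply, Basis.span_apply]
  rfl

/-- The coordinates in the order are the coordinates in the field. -/
theorem algebraMap_repr_spanBasis (y : spanAlg b h1 hmul) (i : Fin n) :
    algebraMap R F' ((spanBasis b hinj h1 hmul).repr y i) = b.repr (y : F'') i := by
  have h2 : ((y : spanAlg b h1 hmul) : F'') =
      ∑ j, algebraMap R F' ((spanBasis b hinj h1 hmul).repr y j) • b j := by
    conv_lhs => rw [← (spanBasis b hinj h1 hmul).sum_repr y]
    rw [AddSubmonoidClass.coe_finsetSum]
    refine Finset.sum_congr rfl fun j _ => ?_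
    rw [Subalgebra.coe_smul, coe_spanBasis, algebraMap_smul]
  rw [h2, Basis.repr_sum_self]

include hinj in
/-- The trace of the order is the trace of the field extension. -/
theorem algebraMap_trace_spanAlg (y : spanAlg b h1 hmul) :
    algebraMap R F' (Algebra.trace R (spanAlg b h1 hmul) y) = Algebra.trace F' F'' (y : F'') := by
  rw [Algebra.trace_eq_matrix_trace (spanBasis b hinj h1 hmul), Algebra.trace_eq_matrix_trace b,
    Matrix.trace, Matrix.trace, map_sum]
  refine Finset.sum_congr rfl fun i _ => ?_
  simp only [Matrix.diag_apply, Algebra.leftMulMatrix_eq_repr_mul]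
  rw [algebraMap_repr_spanBasis, Subalgebra.coe_mul, coe_spanBasis]

/-- The discriminant of the order is the discriminant of the basis of the field extension. -/
theorem algebraMap_discr_spanBasis :
    algebraMap R F' (Algebra.discr R (spanBasis b hinj h1 hmul)) = Algebra.discr F' b := by
  rw [Algebra.discr_def, Algebra.discr_def, RingHom.map_det]
  congr 1
  ext i j
  simp only [RingHom.mapMatrix_apply, Matrix.map_apply, Algebra.traceMatrix_apply,
    Algebra.traceForm_apply]
  rw [algebraMap_trace_spanAlg b hinj, Subalgebra.coe_mul, coe_spanBasis, coe_spanBasis]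

end SpanAlg

section Field

variable {F' F'' : Type*} [Field F'] [Field F''] [Algebra F' F''] {n : ℕ}

/-- An element whose first `n = [F'' : F']` powers span `F''` over `F'`, root of a monic
polynomial of degree `n`: the polynomial is its minimal polynomial, in particular irreducible,
and every element of `F''` is a polynomial in it. -/
theorem irreducible_of_span_pow (b : Basis (Fin n) F' F'') (u : F'') (Ψ : F'[X]) (hm : Ψ.Monic)
    (hdeg : Ψ.natDegree = n) (hroot : aeval u Ψ = 0)
    (hspan : ⊤ ≤ Submodule.span F' (Set.range fun j : Fin n => u ^ (j : ℕ))) :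
    Irreducible Ψ ∧ ∀ y : F'', ∃ p : F'[X], aeval u p = y := by
  have hli : LinearIndependent F' (fun j : Fin n => u ^ (j : ℕ)) :=
    linearIndependent_of_top_le_span_of_card_eq_finrank hspan
      (by rw [Module.finrank_eq_card_basis b])
  constructor
  · have hmin : Ψ = minpoly F' u := by
      refine minpoly.unique' F' u hm hroot fun q hq => ?_
      by_cases hq0 : q = 0
      · exact Or.inl hq0
      right
      intro h0
      apply hq0
      have hqn : q.natDegree < n := by
        rw [← hdeg]
        exact natDegree_lt_natDegree hq0 hq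
      rw [aeval_eq_sum_range' hqn, ← Fin.sum_univ_eq_sum_range (fun i => q.coeff i • u ^ i)] at h0
      have hc := Fintype.linearIndependent_iff.1 hli (fun j : Fin n => q.coeff j) h0
      ext i
      rw [coeff_zero]
      by_cases hi : i < n
      · exact hc ⟨i, hi⟩
      · exact coeff_eq_zero_of_natDegree_lt (lt_of_lt_of_le hqn (not_lt.1 hi))
    rw [hmin]
    exact minpoly.irreducible ⟨Ψ, hm, hroot⟩
  · intro y
    have hy : y ∈ Submodule.span F' (Set.range fun j : Fin n => u ^ (j : ℕ)) := hspan trivial
    obtain ⟨c, rfl⟩ := (Submodule.mem_span_range_iff_exists_fun F').1 hy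
    refine ⟨∑ j : Fin n, C (c j) * X ^ (j : ℕ), ?_⟩
    rw [map_sum]
    refine Finset.sum_congr rfl fun j _ => ?_
    rw [map_mul, aeval_C, map_pow, aeval_X, Algebra.smul_def]

end Field

section KLevel

variable {R : Type*} [CommRing R] {F' F'' : Type*} [Field F'] [Field F''] [Algebra F' F'']
  [Algebra R F'] [Algebra R F''] [IsScalarTower R F' F''] {n : ℕ} (b : Basis (Fin n) F' F'')
  (hinj : Function.Injective (algebraMap R F'))
  (h1 : (1 : F'') ∈ Submodule.span R (Set.range b))
  (hmul : ∀ i j, b i * b j ∈ Submodule.span R (Set.range b))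

include hinj in
/-- The discriminant of the order is a unit of `R` as soon as the discriminant of the basis of the
field extension is the image of a unit of `R`. -/
theorem isUnit_discr_spanBasis
    (hd : ∃ d : R, IsUnit d ∧ algebraMap R F' d = Algebra.discr F' b) :
    IsUnit (Algebra.discr R (spanBasis b hinj h1 hmul)) := by
  obtain ⟨d, hd, e⟩ := hd
  have h : Algebra.discr R (spanBasis b hinj h1 hmul) = d :=
    hinj (by rw [algebraMap_discr_spanBasis, e])
  rwa [h]

include hinj in
/-- **The order `Σ R b_i` is integrally closed** (unit discriminant), when `R` is integrally closed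
in `F'`. -/
theorem mem_spanAlg_of_isIntegral
    (hd : ∃ d : R, IsUnit d ∧ algebraMap R F' d = Algebra.discr F' b)
    (hR : ∀ y : F', IsIntegral R y → y ∈ Set.range (algebraMap R F'))
    {y : F''} (hy : IsIntegral R y) : y ∈ spanAlg b h1 hmul := by
  classical
  have hfd : FiniteDimensional F' F'' := Module.Finite.of_basis b
  have hntR : Nontrivial R := (algebraMap R F').domain_nontrivial
  have hdu := isUnit_discr_spanBasis b hinj h1 hmul hd
  set bK := spanBasis b hinj h1 hmul with hbK
  -- the traces `Tr (y b_j)` lie in `R`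
  have htr : ∀ j, ∃ r : R, algebraMap R F' r = Algebra.trace F' F'' (y * b j) := by
    intro j
    have hbj : IsIntegral R (b j) := by
      have : IsIntegral R ((bK j : spanAlg b h1 hmul) : F'') := by
        have hfin : Module.Finite R (spanAlg b h1 hmul) := Module.Finite.of_basis bK
        exact (Algebra.IsIntegral.isIntegral (R := R) (bK j)).map (spanAlg b h1 hmul).val
      rwa [coe_spanBasis] at this
    have h2 : IsIntegral R (Algebra.trace F' F'' (y * b j)) :=
      Algebra.isIntegral_trace (hy.mul hbj)
    exact hR _ h2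
  choose r hr using htr
  -- solve the linear system with the inverse of the trace matrix
  set Tm := Algebra.traceMatrix R bK with hTm
  have hTdet : IsUnit Tm.det := hdu
  set c : Fin n → R := Tm⁻¹.mulVec r with hc
  have hTc : Tm.mulVec c = r := by
    rw [hc, Matrix.mulVec_mulVec, Matrix.mul_nonsing_inv _ hTdet, Matrix.one_mulVec]
  set z : spanAlg b h1 hmul := ∑ i, c i • bK i with hz
  suffices h : y = (z : F'') by rw [h]; exact z.2
  -- compare traces against the basis
  have hnd : (Algebra.traceForm F' F'').Nondegenerate := by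
    rw [LinearMap.BilinForm.nondegenerate_iff_det_ne_zero b, ← Algebra.traceMatrix_of_basis,
      ← Algebra.discr_def]
    obtain ⟨d, hd, e⟩ := hd
    rw [← e]
    exact fun h0 => hd.ne_zero (hinj (by rw [h0, map_zero]))
  rw [← sub_eq_zero]
  refine hnd.1 _ fun w => ?_
  rw [← b.sum_repr w, map_sum]
  refine Finset.sum_eq_zero fun j _ => ?_
  rw [map_smul, smul_eq_mul]
  suffices h : Algebra.traceForm F' F'' (y - z) (b j) = 0 by rw [h, mul_zero]
  rw [Algebra.traceForm_apply, sub_mul, map_sub, sub_eq_zero, ← hr j]
  have h3 : ((z : spanAlg b h1 hmul) : F'') * b j = ((z * bK j : spanAlg b h1 hmul) : F'') := by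
    rw [Subalgebra.coe_mul, coe_spanBasis]
  rw [h3, ← algebraMap_trace_spanAlg b hinj h1 hmul]
  congr 1
  have h4 := congrFun hTc j
  rw [← h4, hz, Finset.sum_mul, map_sum]
  simp only [Matrix.mulVec, dotProduct, hTm, Algebra.traceMatrix_apply, Algebra.traceForm_apply]
  refine Finset.sum_congr rfl fun i _ => ?_
  rw [smul_mul_assoc, map_smul, smul_eq_mul, mul_comm (bK i) (bK j), mul_comm]

variable [IsLocalRing R] [IsAlgClosed (ResidueField R)]

include hinj in
/-- **(PUR-K)**: the `K`-level output of purity. -/
theorem exists_primitive_klevel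
    (hd : ∃ d : R, IsUnit d ∧ algebraMap R F' d = Algebra.discr F' b) :
    ∃ (χ : Fin n → spanAlg b h1 hmul →+* ResidueField R) (u v : F'') (Ψ : F'[X])
      (hu : u ∈ spanAlg b h1 hmul),
      Function.Injective χ ∧ (∀ i x, χ i (algebraMap R _ x) = residue R x) ∧
      Function.Injective (fun k => χ k ⟨u, hu⟩) ∧
      v ∈ spanAlg b h1 hmul ∧
      Ψ.Monic ∧ Ψ.natDegree = n ∧ (∀ i, Ψ.coeff i ∈ Set.range (algebraMap R F')) ∧
      aeval u Ψ = 0 ∧ Irreducible Ψ ∧ (∀ y : F'', ∃ p : F'[X], aeval u p = y) ∧
      aeval u (derivative Ψ) * v = 1 ∧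
      ∀ y ∈ spanAlg b h1 hmul, ∃ p : R[X], aeval u p = y := by
  have hdu := isUnit_discr_spanBasis b hinj h1 hmul hd
  obtain ⟨χ, u, Ψ, hχ, hφ, hsep, hmon, hdeg, hroot, -, hspan, hadj, hunit⟩ :=
    exists_primitive_of_isUnit_discr (spanBasis b hinj h1 hmul) hdu
  obtain ⟨w, hw⟩ := isUnit_iff_exists_inv.1 hunit
  have hcoe : ∀ p : R[X], aeval (u : F'') (p.map (algebraMap R F')) =
      ((aeval u p : spanAlg b h1 hmul) : F'') := by
    intro p
    rw [aeval_map_algebraMap, Subalgebra.aeval_coe]
  -- the powers of `u` span `F''` over `F'`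
  have hspanF : ⊤ ≤ Submodule.span F' (Set.range fun j : Fin n => (u : F'') ^ (j : ℕ)) := by
    rw [← b.span_eq, Submodule.span_le]
    rintro _ ⟨i, rfl⟩
    have h2 : spanBasis b hinj h1 hmul i ∈
        Submodule.span R (Set.range fun j : Fin n => u ^ (j : ℕ)) := by rw [hspan]; trivial
    obtain ⟨c, hc⟩ := (Submodule.mem_span_range_iff_exists_fun R).1 h2
    have h3 := congrArg (fun z : spanAlg b h1 hmul => (z : F'')) hc
    simp only [coe_spanBasis, AddSubmonoidClass.coe_finsetSum, Subalgebra.coe_smul,
      Subalgebra.coe_pow] at h3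
    rw [SetLike.mem_coe, ← h3]
    refine Submodule.sum_mem _ fun j _ => ?_
    rw [← algebraMap_smul F' (c j)]
    exact Submodule.smul_mem _ _ (Submodule.subset_span ⟨j, rfl⟩)
  have hmonF : (Ψ.map (algebraMap R F')).Monic := hmon.map _
  have hdegF : (Ψ.map (algebraMap R F')).natDegree = n := by rw [hmon.natDegree_map, hdeg]
  have hrootF : aeval (u : F'') (Ψ.map (algebraMap R F')) = 0 := by
    rw [hcoe, hroot, ZeroMemClass.coe_zero]
  obtain ⟨hirr, hgen⟩ := irreducible_of_span_pow b (u : F'') _ hmonF hdegF hrootF hspanF
  refine ⟨χ, (u : F''), (w : F''), Ψ.map (algebraMap R F'), u.2, hχ, hφ, hsep, w.2, hmonF, hdegF,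
    fun i => ⟨Ψ.coeff i, (coeff_map _ _).symm⟩, hrootF, hirr, hgen, ?_, ?_⟩
  · rw [derivative_map, hcoe, ← Subalgebra.coe_mul, hw, OneMemClass.coe_one]
  · intro y hy
    have h2 : (⟨y, hy⟩ : spanAlg b h1 hmul) ∈ Algebra.adjoin R {u} := by rw [hadj]; trivial
    rw [Algebra.adjoin_singleton_eq_range_aeval] at h2
    obtain ⟨p, hp⟩ := h2
    refine ⟨p, ?_⟩
    have h3 := congrArg (fun z : spanAlg b h1 hmul => (z : F'')) hp
    simp only at h3
    rw [← h3]
    exact (Subalgebra.aeval_coe _ u p)

end KLevel

end Fermat.Agent.BR3.PurityPlug
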