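import Mathlib
import Fermat.Agent.BR3.PushModFull
import Fermat.Agent.BR3.PushRam

/-!
# Program C (S36), node (G6-PUSH-MOD): the horizontal kinds of `PushModFull.hpa_of_fulls`
from the residue maps of the horizontal components

## generic

* `restrictAlong_eq_of_isValueAt` : a place `Q'` of `L₀` such that the values at `Q` of the
  functions `ψ g` are values of `g` at `Q'` is THE place under `Q` (all places of degree one);
* `restrictAlong_injective_of_surjective` : for a surjective `ψ` the place under `Q` determines `Q`;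
  `ramificationIndexAlong_of_surjective` : and it is unramified.

## the setting of `BR3/PushModFull`

* `psiA_et_apply`, `psiA_can_apply` : the residue extensions `psiA … (Sum.inl 1) ()` (of `cZero`
  over `'et'`) and `psiA … (Sum.inl 0) j` (of `cInf`, `mid i` over `'can'`) are given maps `V` as soon
  as the residue maps are compatible with `V` (`PushGlue.resHom_unique`; for `cZero` over `'et'`
  along `α₂` : `V = qExpandFullC`, `FibreInsepMod.res_cZero_alpha2`);
* **`hZero_of_value`** : the hypothesis `hZero` of `hpa_of_fulls` from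
  `IsValueAt (X.pZero e) (V g) c → IsValueAt (s₂ e) g c` (`FibreInsepMod.isValueAt_underFrob`);
* **`hpow_of_insep`** : the hypothesis `hpow` from `card κz = q` and `g ^ q ∈ range ψ`
  (`FullPlug.pow_mem_range_fullEtA`);
* **`hInf_of_value`**, **`hexhInf'_of_value`** : the hypotheses `hInf`, `hexhInf'` for a surjective
  residue extension of `cInf` over `'can'` (`card (κc none) = 1`).
-/

set_option autoImplicit false
set_option linter.unusedVariables false
set_option linter.unusedSectionVars false
set_option linter.style.haveILetI false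
set_option synthInstance.maxHeartbeats 400000

noncomputable section

/- S36 build-time patch: file-local shortcut instances. They only shorten instance search;
each is the instance that the search finds anyway (reducible, same terms after unfolding). -/
local instance (priority := 100000) Fermat.Agent.BR3.FastInst.instAlgFullC_PushModEtA
    {k : Type*} [Field k] (N : ℕ) :
    Algebra k ↥(ModularCurve.modularFunctionFieldFullC k N) := inferInstance
local instance (priority := 100000) Fermat.Agent.BR3.FastInst.instFieldFullC_PushModEtA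
    {k : Type*} [Field k] (N : ℕ) :
    Field ↥(ModularCurve.modularFunctionFieldFullC k N) := inferInstance
local instance (priority := 100000) Fermat.Agent.BR3.FastInst.instAlgLaurent_PushModEtA
    {k : Type*} [Field k] : Algebra k (LaurentSeries k) := inferInstance


namespace Fermat.Agent.BR3.PushModEtA

open ModularCurve AlgebraicCurve IsLocalRing
open Fermat.Agent.Red Fermat.Agent.Val Fermat.Agent.X0 Fermat.Agent.BR.SS Fermat.Agent.BR.Refine
open Fermat.Agent.BR.Circle Fermat.Agent.BR.S0 Fermat.Agent.BR.P1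
open Fermat.Agent.BR.S0.PointDict Fermat.Agent.BR.S0.RedModular Fermat.Agent.BR.Final
open Fermat.Agent.BR2.SetupOfData Fermat.Agent.BR3.CircleN Fermat.Agent.BR3.SRef
open Fermat.Agent.BR3.SRef.Modular Fermat.Agent.BR3.SDD Fermat.Agent.Jac Fermat.Agent.BR
open Fermat.Agent.BR2.Filt Fermat.Agent.BR3.G5Multi Fermat.Agent.BR3.TorGlue
open Fermat.Agent.BR3.GeoTor Fermat.Agent.BR3.GeoTorPush Fermat.Agent.BR3.PushGlue
open Fermat.Agent.BR3.PushShapes Fermat.Agent.BR3.MultiVal Fermat.Agent.BR3.PushModFull

/-! ### generic: the place under a place -/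

section Generic

variable {k L₀ L : Type*} [Field k] [Field L₀] [Field L] [Algebra k L₀] [Algebra k L]
  (ψ : L₀ →ₐ[k] L) (hψ : ψ.toRingHom.IsIntegral)

/-- **The place under `Q`** is characterised by the values. -/
theorem restrictAlong_eq_of_isValueAt (hdeg : ∀ P : Place k L₀, P.deg = 1) (Q : Place k L)
    (Q' : Place k L₀) (h : ∀ (g : L₀) (c : k), IsValueAt Q (ψ g) c → IsValueAt Q' g c) :
    Q.restrictAlong ψ hψ = Q' := by
  apply Place.toValuationSubring_injective
  ext g
  constructor
  · intro hg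
    obtain ⟨c, hc⟩ := exists_isValueAt (Q.restrictAlong ψ hψ) (hdeg _) hg
    exact (h g c ((isValueAt_restrictAlong_iff ψ hψ Q g c).mp hc)).mem
  · intro hg
    by_contra hcon
    have hg0 : g ≠ 0 := fun h0 => hcon (h0 ▸ zero_mem _)
    have hord : (Q.restrictAlong ψ hψ).ord g < 0 := by
      by_contra hnn
      exact hcon (Place.mem_of_ord_nonneg _ (not_lt.mp hnn))
    have hinv : IsValueAt (Q.restrictAlong ψ hψ) g⁻¹ 0 := by
      rw [isValueAt_zero_iff, adicValuation_lt_one_iff]
      right
      rw [Place.ord_inv]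
      omega
    have h2 : IsValueAt Q' g⁻¹ 0 :=
      h g⁻¹ 0 ((isValueAt_restrictAlong_iff ψ hψ Q g⁻¹ 0).mp hinv)
    rw [isValueAt_zero_iff, adicValuation_lt_one_iff] at h2
    rcases h2 with h2 | h2
    · exact hg0 (inv_eq_zero.mp h2)
    · rw [Place.ord_inv] at h2
      have := Place.ord_nonneg_of_mem _ hg
      omega

include hψ in
/-- a surjective residue extension is unramified -/
theorem ramificationIndexAlong_of_surjective (hsurj : Function.Surjective ψ) (Q : Place k L) :
    Q.ramificationIndexAlong ψ = 1 := by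
  obtain ⟨x, hx⟩ := Fermat.Agent.Red.NormalForm.exists_ord_eq_one Q
  obtain ⟨g, rfl⟩ := hsurj x
  have h := Place.ord_restrictAlong ψ hψ Q g
  rw [hx] at h
  have hpos := Fermat.Agent.BR3.PushRam.ramificationIndexAlong_pos ψ hψ Q
  have hdvd : (Q.ramificationIndexAlong ψ : ℤ) ∣ 1 := ⟨_, h⟩
  have h1 := Int.eq_one_of_dvd_one (by positivity) hdvd
  exact_mod_cast h1

/-- for a surjective residue extension the place under `Q` determines `Q` -/
theorem restrictAlong_injective_of_surjective (hsurj : Function.Surjective ψ) {Q₁ Q₂ : Place k L}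
    (h : Q₁.restrictAlong ψ hψ = Q₂.restrictAlong ψ hψ) : Q₁ = Q₂ := by
  apply Place.toValuationSubring_injective
  ext x
  obtain ⟨g, rfl⟩ := hsurj x
  rw [Place.mem_iff_ord_nonneg, Place.mem_iff_ord_nonneg, Place.ord_restrictAlong ψ hψ Q₁ g,
    Place.ord_restrictAlong ψ hψ Q₂ g, h, ramificationIndexAlong_of_surjective ψ hψ hsurj Q₁,
    ramificationIndexAlong_of_surjective ψ hψ hsurj Q₂]

end Generic

/-! ### the setting of `BR3/PushModFull` -/

section AlongA

variable {M q : ℕ} [NeZero M] [hq : Fact q.Prime]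
variable {B : ValuationSubring (AlgebraicClosure ℚ)} {hB : B.LiesOverPrime q} {hqM : ¬ q ∣ M}
variable [IsAlgClosed (ResidueField B)]

local notation "kB" => IsLocalRing.ResidueField B
local notation "FtM" => modularFunctionFieldFullC (IsLocalRing.ResidueField B) M
local notation "Kb" => AlgebraicClosure ℚ

/-- (shortcut instance) -/
local instance (priority := 100000) instAlgebraFtMShortcutE :
    Algebra (IsLocalRing.ResidueField B)
      (modularFunctionFieldFullC (IsLocalRing.ResidueField B) M) :=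
  inferInstance

variable (Dt : ModularData M q B hB hqM)
  (a₀ : Crossing (chartDataModular B hB hqM) → Kb) (hadm : ∀ e, (inputs Dt).adm e (a₀ e))
  {Mid KP : Type} [Fintype Mid] [Fintype KP]
  {Ft : Comp Mid (Crossing (chartDataModular B hB hqM)) → Type}
  [∀ v, Field (Ft v)] [∀ v, Algebra (ResidueField B) (Ft v)]
  (X : CaseInput (F := Fb (M * q * q)) B Mid (Crossing (chartDataModular B hB hqM)) KP Ft)
  (φ : Fb (M * q) →ₐ[Kb] Fb (M * q * q))
  {κc : Option Mid → Type} [∀ j, Fintype (κc j)] {κz : Type} [Fintype κz]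
  {κe : (oneLevel (inputs Dt) a₀ hadm).X → Type} [∀ x, Fintype (κe x)]
  (Dcan : letI := algebraAlong φ
    MultiVal.Full ((setup Dt).O 0) (fun j : Option Mid => X.toInput.setup.O (wOpt cInf j)) κc)
  (Det : letI := algebraAlong φ
    MultiVal.Full ((setup Dt).O 1) (fun _ : Unit => X.toInput.setup.O cZero) (fun _ => κz))
  (Dexc : ∀ x : (oneLevel (inputs Dt) a₀ hadm).X, letI := algebraAlong φ
    MultiVal.Full ((srefM Dt a₀ hadm).O (Sum.inr x))
      (fun _ : Unit => X.toInput.setup.O (ze x.1)) (fun _ => κe x))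

/-- **The residue extension of `cZero` over `'et'`** is `V` as soon as the residue map of `cZero`
is compatible with `V`. -/
theorem psiA_et_apply (V : FtM →+* Ft cZero)
    (hres : ∀ (y : (setup Dt).O 1) (h : φ (y : Fb (M * q)) ∈ (X.C cZero).O),
      (X.C cZero).res ⟨φ (y : Fb (M * q)), h⟩ = V ((setup Dt).res 1 y)) (g : FtM) :
    psiA Dt a₀ hadm X φ Dcan Det Dexc (Sum.inl 1) () g = V g :=
  (resHom_unique (S₀ := srefM Dt a₀ hadm) (S := X.toInput.setup) (φ := φ) residue_surjective_B
    (liesOverAlong_of_full (fullA Dt a₀ hadm X φ Dcan Det Dexc (Sum.inl 1)) ()) V hres g).symm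

/-- **The residue extensions of `cInf`, `mid i` over `'can'`** are `V` as soon as the residue map
is compatible with `V`. -/
theorem psiA_can_apply (j : Option Mid) (V : FtM →+* Ft (wOpt cInf j))
    (hres : ∀ (y : (setup Dt).O 0) (h : φ (y : Fb (M * q)) ∈ (X.C (wOpt cInf j)).O),
      (X.C (wOpt cInf j)).res ⟨φ (y : Fb (M * q)), h⟩ = V ((setup Dt).res 0 y)) (g : FtM) :
    psiA Dt a₀ hadm X φ Dcan Det Dexc (Sum.inl 0) j g = V g :=
  (resHom_unique (S₀ := srefM Dt a₀ hadm) (S := X.toInput.setup) (φ := φ) residue_surjective_B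
    (liesOverAlong_of_full (fullA Dt a₀ hadm X φ Dcan Det Dexc (Sum.inl 0)) j) V hres g).symm

/-- **`hZero`** of `hpa_of_fulls` from the values. -/
theorem hZero_of_value (hFtM : RiemannPkg kB FtM) (hfin : FiniteAlong Kb φ) (V : FtM →+* Ft cZero)
    (hres : ∀ (y : (setup Dt).O 1) (h : φ (y : Fb (M * q)) ∈ (X.C cZero).O),
      (X.C cZero).res ⟨φ (y : Fb (M * q)), h⟩ = V ((setup Dt).res 1 y))
    (hV : ∀ e (g : FtM) (c : kB), IsValueAt (X.pZero e) (V g) c →
      IsValueAt ((setup Dt).s₂ e) g c) :
    ∀ e, (X.pZero e).restrictAlong (psiA Dt a₀ hadm X φ Dcan Det Dexc (Sum.inl 1) ())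
      (isIntegral_psiA Dt a₀ hadm X φ Dcan Det Dexc hfin (Sum.inl 1) ()) = (setup Dt).s₂ e :=
  fun e => restrictAlong_eq_of_isValueAt _ _ (fun P => hFtM.deg_one P) _ _ (fun g c h =>
    hV e g c (by rw [← psiA_et_apply Dt a₀ hadm X φ Dcan Det Dexc V hres g]; exact h))

/-- **`hpow`** of `hpa_of_fulls` for a purely inseparable residue extension of degree `q`. -/
theorem hpow_of_insep [ExpChar FtM q] (hfin : FiniteAlong Kb φ) (hκz : Fintype.card κz = q)
    (hins : ∀ g : Ft cZero, g ^ q ^ 1 ∈
      (psiA Dt a₀ hadm X φ Dcan Det Dexc (Sum.inl 1) ()).toRingHom.range) :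
    ∀ g : Ft cZero, psiA Dt a₀ hadm X φ Dcan Det Dexc (Sum.inl 1) ()
      (normAlong (psiA Dt a₀ hadm X φ Dcan Det Dexc (Sum.inl 1) ()) g) = g ^ q := by
  intro g
  haveI : ExpChar (FtR (fun _ : Fin 2 => FtM) B (oneLevel (inputs Dt) a₀ hadm).X (Sum.inl 1)) q :=
    ‹ExpChar FtM q›
  have h := resHom_norm_of_insep (S₀ := srefM Dt a₀ hadm) (S := X.toInput.setup) (φ := φ) hfin
    residue_surjective_B (fullA Dt a₀ hadm X φ Dcan Det Dexc (Sum.inl 1)) () q 1 g (hins g)
  have hcard : Fintype.card (kapA κc κz κe (Sum.inl 1 : Fin 2 ⊕ (oneLevel (inputs Dt) a₀ hadm).X)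
      ()) = q := hκz
  rw [hcard] at h
  exact h

/-- **`hInf`** of `hpa_of_fulls` for a surjective residue extension of `cInf` over `'can'`. -/
theorem hInf_of_value (hFtM : RiemannPkg kB FtM) (hfin : FiniteAlong Kb φ)
    (V : FtM →+* Ft cInf)
    (hres : ∀ (y : (setup Dt).O 0) (h : φ (y : Fb (M * q)) ∈ (X.C cInf).O),
      (X.C cInf).res ⟨φ (y : Fb (M * q)), h⟩ = V ((setup Dt).res 0 y))
    (hVs : Function.Surjective V)
    (hV : ∀ e (g : FtM) (c : kB), IsValueAt (X.pInf e) (V g) c →
      IsValueAt ((setup Dt).s₁ e) g c) :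
    ∀ e, (X.pInf e).restrictAlong (psiA Dt a₀ hadm X φ Dcan Det Dexc (Sum.inl 0) none)
        (isIntegral_psiA Dt a₀ hadm X φ Dcan Det Dexc hfin (Sum.inl 0) none) =
        (setup Dt).s₁ e ∧
      (X.pInf e).ramificationIndexAlong
        (psiA Dt a₀ hadm X φ Dcan Det Dexc (Sum.inl 0) none) = 1 := by
  have hs : Function.Surjective (psiA Dt a₀ hadm X φ Dcan Det Dexc (Sum.inl 0) none) := fun x => by
    obtain ⟨g, rfl⟩ := hVs x
    exact ⟨g, psiA_can_apply Dt a₀ hadm X φ Dcan Det Dexc none V hres g⟩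
  have key : ∀ (e : Crossing (chartDataModular B hB hqM)) (c : kB) (x y : Ft cInf), x = y →
      IsValueAt (X.pInf e) x c → IsValueAt (X.pInf e) y c := fun e c x y hxy hx => hxy ▸ hx
  refine fun e => ⟨restrictAlong_eq_of_isValueAt _ _ (fun P => hFtM.deg_one P) _ _ (fun g c h =>
    hV e g c (key e c _ _ (psiA_can_apply Dt a₀ hadm X φ Dcan Det Dexc none V hres g) h)), ?_⟩
  exact ramificationIndexAlong_of_surjective _
    (isIntegral_psiA Dt a₀ hadm X φ Dcan Det Dexc hfin (Sum.inl 0) none) hs _

/-- **`hexhInf'`** of `hpa_of_fulls` for a surjective residue extension of `cInf` over `'can'`. -/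
theorem hexhInf'_of_value (hFtM : RiemannPkg kB FtM) (hfin : FiniteAlong Kb φ)
    (V : FtM →+* Ft cInf)
    (hres : ∀ (y : (setup Dt).O 0) (h : φ (y : Fb (M * q)) ∈ (X.C cInf).O),
      (X.C cInf).res ⟨φ (y : Fb (M * q)), h⟩ = V ((setup Dt).res 0 y))
    (hVs : Function.Surjective V)
    (hV : ∀ e (g : FtM) (c : kB), IsValueAt (X.pInf e) (V g) c →
      IsValueAt ((setup Dt).s₁ e) g c) :
    ∀ e (Q : Place kB (Ft cInf)),
      Q.restrictAlong (psiA Dt a₀ hadm X φ Dcan Det Dexc (Sum.inl 0) none)
        (isIntegral_psiA Dt a₀ hadm X φ Dcan Det Dexc hfin (Sum.inl 0) none) =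
        (setup Dt).s₁ e → Q = X.pInf e := by
  have hs : Function.Surjective (psiA Dt a₀ hadm X φ Dcan Det Dexc (Sum.inl 0) none) := fun x => by
    obtain ⟨g, rfl⟩ := hVs x
    exact ⟨g, psiA_can_apply Dt a₀ hadm X φ Dcan Det Dexc none V hres g⟩
  intro e Q hQ
  refine restrictAlong_injective_of_surjective _
    (isIntegral_psiA Dt a₀ hadm X φ Dcan Det Dexc hfin (Sum.inl 0) none) hs ?_
  rw [hQ]
  exact ((hInf_of_value Dt a₀ hadm X φ Dcan Det Dexc hFtM hfin V hres hVs hV e).1).symm

end AlongA

end Fermat.Agent.BR3.PushModEtA
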