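import Mathlib
import Fermat.Agent.BR3.FullExcB

/-!
# Program C (S36), node (G6-PUSH-MOD): the exceptional components — the points of the vertical
curve `z e` over the branches `X = 0`, `X = ∞` of the critical circle, along `a` and along `b`

Setting of `BR3/VertPts` (`L = k(b, U)`, `b U ^ q + b ^ 2 U ^ (q - 1) = ρ`, `char k = q`) and
`ψ : k(X) →ₐ[k] L` the residue extension of the exceptional component of `S'ref_a` resp. `S'ref_b`.

* `separable_trinomial` : `a₂ T ^ q + a₁ T ^ (q - 1) + a₀` is separable in characteristic `q`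
  (`a₁, a₀ ≠ 0`);
* `isSeparable_along_of_root`, `isSeparable_along_a` (`β ψ X = b`), `isSeparable_along_b`
  (`β' ψ X (U + b) = ω`) : `L` is separable over `ψ (k(X))`;
  `fundamentalIdentityAlong_a`, `fundamentalIdentityAlong_b` (the hypothesis `hFIexc` of
  `PushMod.hpa_of_enum` / `PushModB.hpb_of_enum`);
* the instances for `L = AdjoinRoot (vertBar q β ρ)` and ANY `ψ` with `β ψ X = b̃` resp. the mirror
  formula, in the shapes of the hypotheses `hZT`, `hZK`, `hexhInf`, `hZW`, `hexhZero` of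
  `PushModFull.hpa_of_fulls` (`zT = ptIBar`, `zW = ptZBar`, `zK s = ptKBar (c s)` resp. `ptKBar₂`):
  section `BarA` (`zT_a`, `zK_a`, `exhInf_a`, `zW_a`, `exhZero_a`, `q = 2`: `zK_a₂`, `exhInf_a₂`) and
  section `BarB` (`zT_b`, `exhInf_b`, `zW_b`, `zK_b`, `exhZero_b`, `zK_b₂`, `exhZero_b₂`);
* `hXa_of_eq` : `ψ = AdjoinRoot.of` pointwise gives `β ψ X = b̃`.
-/

set_option autoImplicit false
set_option linter.unusedVariables false
set_option linter.unusedSectionVars false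
set_option linter.style.haveILetI false

noncomputable section

open AlgebraicCurve Polynomial IntermediateField

namespace Fermat.Agent.BR3.PushModExcA

open Fermat.Agent.Red Fermat.Agent.X0 Fermat.Agent.BR.P1 Fermat.Agent.BR3.VertPts
  Fermat.Agent.BR3.VertPtsDef Fermat.Agent.BR3.VertPtsRam Fermat.Agent.BR3.VertResidue
  Fermat.Agent.BR3.VertResField Fermat.Agent.BR3.FullExcB

/-! ### a separable trinomial -/

section Trinomial

variable {F₁ : Type*} [Field F₁]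

/-- `a₂ T ^ q + a₁ T ^ (q - 1) + a₀` is separable when `q = 0` in `F₁` and `a₁, a₀ ≠ 0`. -/
theorem separable_trinomial (q : ℕ) (hq : 2 ≤ q) (hq0 : ((q : ℕ) : F₁) = 0) {a₂ a₁ a₀ : F₁}
    (h1 : a₁ ≠ 0) (h0 : a₀ ≠ 0) :
    (C a₂ * X ^ q + C a₁ * X ^ (q - 1) + C a₀ : F₁[X]).Separable := by
  have hq1 : (((q - 1 : ℕ)) : F₁) = -1 := by
    have h : ((q - 1 : ℕ) : F₁) + 1 = 0 := by
      have : ((q - 1 + 1 : ℕ) : F₁) = 0 := by
        rw [show q - 1 + 1 = q by omega]; exact hq0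
      rwa [Nat.cast_succ] at this
    exact eq_neg_of_add_eq_zero_left h
  have hder : derivative (C a₂ * X ^ q + C a₁ * X ^ (q - 1) + C a₀ : F₁[X]) =
      -(C a₁ * X ^ (q - 2)) := by
    have hq2 : q - 1 - 1 = q - 2 := by omega
    simp only [derivative_add, derivative_mul, derivative_C, derivative_X_pow, zero_mul, zero_add,
      add_zero, hq2]
    rw [hq0, hq1, C_0, zero_mul, mul_zero, zero_add]
    simp only [C_neg, C_1]
    ring
  rw [separable_def, hder]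
  refine ⟨C a₀⁻¹, C (a₀ * a₁)⁻¹ * (C a₂ * X ^ 2 + C a₁ * X), ?_⟩
  have e1 : q = (q - 2) + 2 := by omega
  have e2 : q - 1 = (q - 2) + 1 := by omega
  have e : (C a₂ * X ^ q + C a₁ * X ^ (q - 1) + C a₀ : F₁[X]) =
      X ^ (q - 2) * (C a₂ * X ^ 2 + C a₁ * X) + C a₀ := by
    nth_rewrite 1 [e1]
    rw [e2]
    ring
  rw [e]
  have h01 : a₀ * a₁ ≠ 0 := mul_ne_zero h0 h1
  have e3 : (C a₀⁻¹ : F₁[X]) * C a₀ = 1 := by
    rw [← C_mul, inv_mul_cancel₀ h0, C_1]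
  have e4 : (C (a₀ * a₁)⁻¹ : F₁[X]) * C a₁ = C a₀⁻¹ := by
    rw [← C_mul]
    congr 1
    field_simp
  calc C a₀⁻¹ * (X ^ (q - 2) * (C a₂ * X ^ 2 + C a₁ * X) + C a₀) +
        C (a₀ * a₁)⁻¹ * (C a₂ * X ^ 2 + C a₁ * X) * -(C a₁ * X ^ (q - 2))
      = C a₀⁻¹ * C a₀ + (C a₀⁻¹ - C (a₀ * a₁)⁻¹ * C a₁) *
          (X ^ (q - 2) * (C a₂ * X ^ 2 + C a₁ * X)) := by ring
    _ = 1 := by rw [e3, e4, sub_self, zero_mul, add_zero]

end Trinomial

/-! ### `L = k(b, U)` is separable over `ψ (k(X))` -/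

section Sep

variable {k L : Type*} [Field k] [Field L] [Algebra k L] (q : ℕ) [hq : Fact q.Prime] [CharP k q]
  {ρ : k} {b U : L}

/-- **The separability criterion**: `U` is a root of a separable trinomial over `ψ (k(X))` and
`b ∈ ψ (k(X)) (U)`. -/
theorem isSeparable_along_of_root (ψ : RatFunc k →ₐ[k] L) {a₂ a₁ a₀ : RatFunc k}
    (h1 : a₁ ≠ 0) (h0 : a₀ ≠ 0)
    (hroot : ψ a₂ * U ^ q + ψ a₁ * U ^ (q - 1) + ψ a₀ = 0)
    (hbU : ∃ y : RatFunc k, b = ψ y ∨ b = ψ y - U)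
    (hgen : IntermediateField.adjoin k {b, U} = ⊤) :
    letI := algebraAlong ψ
    Algebra.IsSeparable (RatFunc k) L := by
  letI := algebraAlong ψ
  haveI := isScalarTower_along ψ
  have hchar : CharP (RatFunc k) q :=
    charP_of_injective_algebraMap (algebraMap k (RatFunc k)).injective q
  have hf : (C a₂ * X ^ q + C a₁ * X ^ (q - 1) + C a₀ : (RatFunc k)[X]).Separable :=
    separable_trinomial q hq.out.two_le (CharP.cast_eq_zero _ q) h1 h0
  have hfU : aeval U (C a₂ * X ^ q + C a₁ * X ^ (q - 1) + C a₀ : (RatFunc k)[X]) = 0 := by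
    simp only [map_add, map_mul, map_pow, aeval_C, aeval_X]
    exact hroot
  have hsep : IsSeparable (RatFunc k) U := hf.of_dvd (minpoly.dvd _ _ hfU)
  have hE : Algebra.IsSeparable (RatFunc k) (IntermediateField.adjoin (RatFunc k) {U}) :=
    (IntermediateField.isSeparable_adjoin_simple_iff_isSeparable _ _).mpr hsep
  have htop : IntermediateField.adjoin (RatFunc k) {U} = ⊤ := by
    rw [eq_top_iff]
    intro x _
    have hU : U ∈ IntermediateField.adjoin (RatFunc k) {U} :=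
      IntermediateField.mem_adjoin_simple_self _ U
    have hb : b ∈ IntermediateField.adjoin (RatFunc k) {U} := by
      obtain ⟨y, rfl | rfl⟩ := hbU
      · exact (IntermediateField.adjoin (RatFunc k) {U}).algebraMap_mem y
      · exact sub_mem ((IntermediateField.adjoin (RatFunc k) {U}).algebraMap_mem y) hU
    have hle : IntermediateField.adjoin k {b, U} ≤
        (IntermediateField.adjoin (RatFunc k) {U}).restrictScalars k := by
      rw [IntermediateField.adjoin_le_iff]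
      rintro z (rfl | rfl)
      · exact hb
      · exact hU
    rw [hgen] at hle
    exact hle (IntermediateField.mem_top)
  rw [htop] at hE
  exact Algebra.IsSeparable.of_algHom (RatFunc k) (⊤ : IntermediateField (RatFunc k) L)
    (IntermediateField.topEquiv (F := RatFunc k) (E := L)).symm.toAlgHom

variable (hρ : ρ ≠ 0) (heq : b * U ^ q + b ^ 2 * U ^ (q - 1) = algebraMap k L ρ)
  (hgen : IntermediateField.adjoin k {b, U} = ⊤) (ψ : RatFunc k →ₐ[k] L)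

theorem psi_C (c : k) : ψ (RatFunc.C c) = algebraMap k L c := by
  rw [← RatFunc.algebraMap_eq_C, ψ.commutes]

include hρ heq hgen in
/-- a-side: `L` is separable over `ψ (k(X))`. -/
theorem isSeparable_along_a {β : k} (hβ : β ≠ 0) (hXa : algebraMap k L β * ψ RatFunc.X = b) :
    letI := algebraAlong ψ
    Algebra.IsSeparable (RatFunc k) L := by
  obtain ⟨hb0, -, -⟩ := ne_zero_of_heq hq.out.two_le hρ heq
  have hy : ψ (RatFunc.C β * RatFunc.X) = b := by rw [map_mul, psi_C, hXa]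
  have hy0 : (RatFunc.C β * RatFunc.X : RatFunc k) ≠ 0 := by
    intro h0
    rw [h0, map_zero] at hy
    exact hb0 hy.symm
  refine isSeparable_along_of_root q ψ (a₂ := RatFunc.C β * RatFunc.X)
    (a₁ := (RatFunc.C β * RatFunc.X) ^ 2) (a₀ := -RatFunc.C ρ) (pow_ne_zero 2 hy0)
    (neg_ne_zero.mpr ((_root_.map_ne_zero _).mpr hρ)) ?_ ⟨RatFunc.C β * RatFunc.X, Or.inl hy.symm⟩
    hgen
  rw [map_pow, hy, map_neg, psi_C, heq, add_neg_cancel]

include hρ heq hgen in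
/-- b-side: `L` is separable over `ψ (k(X))`. -/
theorem isSeparable_along_b {β' ω : k} (hβ' : β' ≠ 0) (hω : ω ≠ 0)
    (hXb : algebraMap k L β' * ψ RatFunc.X * (U + b) = algebraMap k L ω) :
    letI := algebraAlong ψ
    Algebra.IsSeparable (RatFunc k) L := by
  have hβL : algebraMap k L β' ≠ 0 := (_root_.map_ne_zero _).mpr hβ'
  have hωL : algebraMap k L ω ≠ 0 := (_root_.map_ne_zero _).mpr hω
  have hX0 : ψ (RatFunc.X : RatFunc k) ≠ 0 := (_root_.map_ne_zero _).mpr RatFunc.X_ne_zero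
  -- `t = U + b = ψ y`, `y = ω / (β' X)`
  have hy : ψ (RatFunc.C ω / (RatFunc.C β' * RatFunc.X)) = U + b := by
    rw [map_div₀, map_mul, psi_C, psi_C, div_eq_iff (mul_ne_zero hβL hX0), ← hXb]
    ring
  have hy0 : (RatFunc.C ω / (RatFunc.C β' * RatFunc.X) : RatFunc k) ≠ 0 :=
    div_ne_zero ((_root_.map_ne_zero _).mpr hω)
      (mul_ne_zero ((_root_.map_ne_zero _).mpr hβ') RatFunc.X_ne_zero)
  have hbt : b = ψ (RatFunc.C ω / (RatFunc.C β' * RatFunc.X)) - U := by rw [hy]; ring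
  refine isSeparable_along_of_root q ψ (a₂ := -(RatFunc.C ω / (RatFunc.C β' * RatFunc.X)))
    (a₁ := (RatFunc.C ω / (RatFunc.C β' * RatFunc.X)) ^ 2) (a₀ := -RatFunc.C ρ)
    (pow_ne_zero 2 hy0) (neg_ne_zero.mpr ((_root_.map_ne_zero _).mpr hρ)) ?_ ⟨_, Or.inr hbt⟩ hgen
  rw [map_neg, map_pow, hy, map_neg, psi_C, ← heq]
  have hq1 : q = (q - 1) + 1 := by have := hq.out.two_le; omega
  nth_rewrite 1 [hq1]
  nth_rewrite 3 [hq1]
  ring

include hρ heq hgen in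
/-- **`hFIexc` along `a`.** -/
theorem fundamentalIdentityAlong_a [HasPrincipalDivisors k L] (hψ : ψ.toRingHom.IsIntegral)
    {β : k} (hβ : β ≠ 0) (hXa : algebraMap k L β * ψ RatFunc.X = b) :
    FundamentalIdentityAlong k ψ hψ :=
  Fermat.Agent.Hecke.fundamentalIdentityAlong_of_finite ψ
    (finiteAlong_ratFunc hq.out.two_le hρ heq hgen ψ)
    (isSeparable_along_a q hρ heq hgen ψ hβ hXa) hψ

include hρ heq hgen in
/-- **`hFIexc` along `b`.** -/
theorem fundamentalIdentityAlong_b [HasPrincipalDivisors k L] (hψ : ψ.toRingHom.IsIntegral)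
    {β' ω : k} (hβ' : β' ≠ 0) (hω : ω ≠ 0)
    (hXb : algebraMap k L β' * ψ RatFunc.X * (U + b) = algebraMap k L ω) :
    FundamentalIdentityAlong k ψ hψ :=
  Fermat.Agent.Hecke.fundamentalIdentityAlong_of_finite ψ
    (finiteAlong_ratFunc hq.out.two_le hρ heq hgen ψ)
    (isSeparable_along_b q hρ heq hgen ψ hβ' hω hXb) hψ

end Sep

/-! ### the instances for `AdjoinRoot (vertBar q β ρ)`, along `a` -/

section BarA

variable {k : Type*} [Field k] [IsAlgClosed k] (q : ℕ) [hq : Fact q.Prime] [CharP k q] {β ρ : k}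
  [hP : Fact (Irreducible (vertBar q β ρ))] (hβ : β ≠ 0) (hρ : ρ ≠ 0)
  (ψ : RatFunc k →ₐ[k] AdjoinRoot (vertBar q β ρ)) (hψ : ψ.toRingHom.IsIntegral)

omit [IsAlgClosed k] hq [CharP k q] in
/-- `ψ = AdjoinRoot.of` pointwise gives the relation `β ψ X = b̃`. -/
theorem hXa_of_eq (hψeq : ∀ y, ψ y = AdjoinRoot.of (vertBar q β ρ) y) :
    algebraMap k (AdjoinRoot (vertBar q β ρ)) β * ψ RatFunc.X =
      AdjoinRoot.of (vertBar q β ρ) (RatFunc.C β * RatFunc.X) := by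
  rw [hψeq, algebraMap_adjoinRoot, ← map_mul]

include hβ hρ in
omit [IsAlgClosed k] [CharP k q] in
/-- every `ψ : k(X) →ₐ[k] AdjoinRoot (vertBar q β ρ)` is integral -/
theorem isIntegral_bar : ψ.toRingHom.IsIntegral :=
  isIntegral_ratFunc hq.out.two_le hρ (vertBar_heq hβ) (vertBar_hgen hβ) ψ

include hβ hρ in
omit [IsAlgClosed k] [CharP k q] in
/-- every `ψ : k(X) →ₐ[k] AdjoinRoot (vertBar q β ρ)` is finite -/
theorem finiteAlong_bar : FiniteAlong k ψ :=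
  finiteAlong_ratFunc hq.out.two_le hρ (vertBar_heq hβ) (vertBar_hgen hβ) ψ

variable (hXa : algebraMap k (AdjoinRoot (vertBar q β ρ)) β * ψ RatFunc.X =
    AdjoinRoot.of (vertBar q β ρ) (RatFunc.C β * RatFunc.X))

include hβ hρ hXa in
omit [IsAlgClosed k] in
/-- **`hFIexc`**, along `a`. -/
theorem fi_a [HasPrincipalDivisors k (AdjoinRoot (vertBar q β ρ))] :
    FundamentalIdentityAlong k ψ hψ :=
  fundamentalIdentityAlong_a q hρ (vertBar_heq hβ) (vertBar_hgen hβ) ψ hψ hβ hXa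

include hXa in
/-- **`hZT`**, along `a`: `ptIBar` lies over `X = ∞`, unramified. -/
theorem zT_a : (ptIBar q hβ hρ).restrictAlong ψ hψ = placeInfty k ∧
    (ptIBar q hβ hρ).ramificationIndexAlong ψ = 1 :=
  ptI_a (L := AdjoinRoot (vertBar q β ρ))
    (b := AdjoinRoot.of (vertBar q β ρ) (RatFunc.C β * RatFunc.X))
    (U := AdjoinRoot.root (vertBar q β ρ))
    q hρ (vertBar_hb hβ) (vertBar_heq hβ) (vertBar_hgen hβ) ψ hψ hβ hXa

include hXa in
/-- **`hZW`**, along `a`: `ptZBar` lies over `X = 0` with index `q`. -/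
theorem zW_a : (ptZBar q hβ hρ).restrictAlong ψ hψ = placeAt k 0 ∧
    (ptZBar q hβ hρ).ramificationIndexAlong ψ = q :=
  ptZ_a (L := AdjoinRoot (vertBar q β ρ))
    (b := AdjoinRoot.of (vertBar q β ρ) (RatFunc.C β * RatFunc.X))
    (U := AdjoinRoot.root (vertBar q β ρ))
    q hρ (vertBar_hb hβ) (vertBar_heq hβ) (vertBar_hgen hβ) ψ hψ hβ hXa

include hXa in
/-- **`hexhZero`**, along `a`: `ptZBar` is the only point over `X = 0`. -/
theorem exhZero_a {Q : Place k (AdjoinRoot (vertBar q β ρ))}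
    (hQ : Q.restrictAlong ψ hψ = placeAt k 0) : Q = ptZBar q hβ hρ :=
  eq_ptZ_of_restrict_a (L := AdjoinRoot (vertBar q β ρ))
    (b := AdjoinRoot.of (vertBar q β ρ) (RatFunc.C β * RatFunc.X))
    (U := AdjoinRoot.root (vertBar q β ρ))
    q hρ (vertBar_hb hβ) (vertBar_heq hβ) (vertBar_hgen hβ) ψ hψ hβ hXa hQ

include hXa in
/-- **`hZK`**, along `a` (`q` odd): `ptKBar c` lies over `X = ∞` with index `(q - 1) / 2`. -/
theorem zK_a (hq2 : q ≠ 2) {c : k} (hc : c ^ 2 = ρ) :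
    (ptKBar q hq2 hβ hρ c hc).restrictAlong ψ hψ = placeInfty k ∧
      (ptKBar q hq2 hβ hρ c hc).ramificationIndexAlong ψ = (q - 1) / 2 :=
  ptK_a (L := AdjoinRoot (vertBar q β ρ))
    (b := AdjoinRoot.of (vertBar q β ρ) (RatFunc.C β * RatFunc.X))
    (U := AdjoinRoot.root (vertBar q β ρ))
    q hq2 hρ (vertBar_hb hβ) (vertBar_heq hβ) (vertBar_hgen hβ) hc ψ hψ hβ hXa

theorem ptKBar_congr (hq2 : q ≠ 2) {c c' : k} (hc : c ^ 2 = ρ) (hc' : c' ^ 2 = ρ) (h : c = c') :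
    ptKBar q hq2 hβ hρ c hc = ptKBar q hq2 hβ hρ c' hc' := by
  subst h
  rfl

include hXa in
/-- **`hexhInf`**, along `a` (`q` odd): the points over `X = ∞` are `ptIBar` and the `ptKBar (c s)`,
for any enumeration `c` of the square roots of `ρ`. -/
theorem exhInf_a (hq2 : q ≠ 2) {KP : Type*} (c : KP → k) (hc : ∀ s, c s ^ 2 = ρ)
    (hsurj : ∀ c', c' ^ 2 = ρ → ∃ s, c s = c') {Q : Place k (AdjoinRoot (vertBar q β ρ))}
    (hQ : Q.restrictAlong ψ hψ = placeInfty k) :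
    Q = ptIBar q hβ hρ ∨ ∃ s, Q = ptKBar q hq2 hβ hρ (c s) (hc s) := by
  obtain ⟨c₀, hc₀⟩ := IsAlgClosed.exists_pow_nat_eq ρ (n := 2) (by norm_num)
  obtain ⟨s, hs⟩ := hsurj c₀ hc₀
  obtain ⟨s', hs'⟩ := hsurj (-c₀) (neg_sq_eq hc₀)
  rcases cases_of_restrict_a (L := AdjoinRoot (vertBar q β ρ))
    (b := AdjoinRoot.of (vertBar q β ρ) (RatFunc.C β * RatFunc.X))
    (U := AdjoinRoot.root (vertBar q β ρ))
    q hq2 hρ (vertBar_hb hβ) (vertBar_heq hβ) (vertBar_hgen hβ) hc₀ ψ hψ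
    hβ hXa hQ with h | h | h
  · exact Or.inl h
  · exact Or.inr ⟨s, h.trans (ptKBar_congr q hβ hρ hq2 hc₀ (hc s) hs.symm)⟩
  · exact Or.inr ⟨s', h.trans (ptKBar_congr q hβ hρ hq2 (neg_sq_eq hc₀) (hc s') hs'.symm)⟩

end BarA

/-! ### the instances for `AdjoinRoot (vertBar 2 β ρ)`, along `a` -/

section BarATwo

variable {k : Type*} [Field k] [IsAlgClosed k] [CharP k 2] {β ρ : k}
  [hP : Fact (Irreducible (vertBar 2 β ρ))] (hβ : β ≠ 0) (hρ : ρ ≠ 0)
  (ψ : RatFunc k →ₐ[k] AdjoinRoot (vertBar 2 β ρ)) (hψ : ψ.toRingHom.IsIntegral)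
  (hXa : algebraMap k (AdjoinRoot (vertBar 2 β ρ)) β * ψ RatFunc.X =
    AdjoinRoot.of (vertBar 2 β ρ) (RatFunc.C β * RatFunc.X))

include hXa in
/-- **`hZK`**, along `a`, `q = 2`: `ptKBar₂` lies over `X = ∞`, unramified. -/
theorem zK_a₂ : (ptKBar₂ hβ hρ).restrictAlong ψ hψ = placeInfty k ∧
    (ptKBar₂ hβ hρ).ramificationIndexAlong ψ = 1 :=
  ptK₂_a (L := AdjoinRoot (vertBar 2 β ρ))
    (b := AdjoinRoot.of (vertBar 2 β ρ) (RatFunc.C β * RatFunc.X))
    (U := AdjoinRoot.root (vertBar 2 β ρ))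
    hρ (vertBar_hb hβ) (vertBar_heq_two hβ) (vertBar_hgen hβ) ψ hψ hβ hXa

include hXa in
/-- **`hexhInf`**, along `a`, `q = 2`: the points over `X = ∞` are `ptIBar` and `ptKBar₂`. -/
theorem exhInf_a₂ {Q : Place k (AdjoinRoot (vertBar 2 β ρ))}
    (hQ : Q.restrictAlong ψ hψ = placeInfty k) :
    Q = ptIBar 2 hβ hρ ∨ Q = ptKBar₂ hβ hρ :=
  cases_of_restrict_a₂ (L := AdjoinRoot (vertBar 2 β ρ))
    (b := AdjoinRoot.of (vertBar 2 β ρ) (RatFunc.C β * RatFunc.X))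
    (U := AdjoinRoot.root (vertBar 2 β ρ))
    hρ (vertBar_hb hβ) (vertBar_heq_two hβ) (vertBar_hgen hβ) ψ hψ hβ hXa hQ

end BarATwo

/-! ### the instances for `AdjoinRoot (vertBar q β ρ)`, along `b` -/

section BarB

variable {k : Type*} [Field k] [IsAlgClosed k] (q : ℕ) [hq : Fact q.Prime] [CharP k q] {β ρ : k}
  [hP : Fact (Irreducible (vertBar q β ρ))] (hβ : β ≠ 0) (hρ : ρ ≠ 0)
  (ψ : RatFunc k →ₐ[k] AdjoinRoot (vertBar q β ρ)) (hψ : ψ.toRingHom.IsIntegral)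
  {β' ω : k} (hβ' : β' ≠ 0) (hω : ω ≠ 0)
  (hXb : algebraMap k (AdjoinRoot (vertBar q β ρ)) β' * ψ RatFunc.X *
      (AdjoinRoot.root (vertBar q β ρ) +
        AdjoinRoot.of (vertBar q β ρ) (RatFunc.C β * RatFunc.X)) =
    algebraMap k (AdjoinRoot (vertBar q β ρ)) ω)

include hβ hρ hβ' hω hXb in
omit [IsAlgClosed k] in
/-- **`hFIexc`**, along `b`. -/
theorem fi_b [HasPrincipalDivisors k (AdjoinRoot (vertBar q β ρ))] :
    FundamentalIdentityAlong k ψ hψ :=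
  fundamentalIdentityAlong_b q hρ (vertBar_heq hβ) (vertBar_hgen hβ) ψ hψ hβ' hω hXb

include hβ' hω hXb in
/-- **`hZT`**, along `b`: `ptIBar` lies over `X = ∞` with index `q`. -/
theorem zT_b : (ptIBar q hβ hρ).restrictAlong ψ hψ = placeInfty k ∧
    (ptIBar q hβ hρ).ramificationIndexAlong ψ = q :=
  ptI_b (L := AdjoinRoot (vertBar q β ρ))
    (b := AdjoinRoot.of (vertBar q β ρ) (RatFunc.C β * RatFunc.X))
    (U := AdjoinRoot.root (vertBar q β ρ))
    q hρ (vertBar_hb hβ) (vertBar_heq hβ) (vertBar_hgen hβ) ψ hψ hβ' hω hXb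

include hβ' hω hXb in
/-- **`hexhInf`**, along `b`: `ptIBar` is the only point over `X = ∞`. -/
theorem exhInf_b {Q : Place k (AdjoinRoot (vertBar q β ρ))}
    (hQ : Q.restrictAlong ψ hψ = placeInfty k) : Q = ptIBar q hβ hρ :=
  eq_ptI_of_restrict_b (L := AdjoinRoot (vertBar q β ρ))
    (b := AdjoinRoot.of (vertBar q β ρ) (RatFunc.C β * RatFunc.X))
    (U := AdjoinRoot.root (vertBar q β ρ))
    q hρ (vertBar_hb hβ) (vertBar_heq hβ) (vertBar_hgen hβ) ψ hψ hβ' hω hXb hQ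

include hβ' hω hXb in
/-- **`hZW`**, along `b`: `ptZBar` lies over `X = 0`, unramified. -/
theorem zW_b : (ptZBar q hβ hρ).restrictAlong ψ hψ = placeAt k 0 ∧
    (ptZBar q hβ hρ).ramificationIndexAlong ψ = 1 :=
  ptZ_b (L := AdjoinRoot (vertBar q β ρ))
    (b := AdjoinRoot.of (vertBar q β ρ) (RatFunc.C β * RatFunc.X))
    (U := AdjoinRoot.root (vertBar q β ρ))
    q hρ (vertBar_hb hβ) (vertBar_heq hβ) (vertBar_hgen hβ) ψ hψ hβ' hω hXb

include hβ' hω hXb in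
/-- **`hZK`**, along `b` (`q` odd): `ptKBar c` lies over `X = 0` with index `(q - 1) / 2`. -/
theorem zK_b (hq2 : q ≠ 2) {c : k} (hc : c ^ 2 = ρ) :
    (ptKBar q hq2 hβ hρ c hc).restrictAlong ψ hψ = placeAt k 0 ∧
      (ptKBar q hq2 hβ hρ c hc).ramificationIndexAlong ψ = (q - 1) / 2 :=
  ptK_b (L := AdjoinRoot (vertBar q β ρ))
    (b := AdjoinRoot.of (vertBar q β ρ) (RatFunc.C β * RatFunc.X))
    (U := AdjoinRoot.root (vertBar q β ρ))
    q hq2 hρ (vertBar_hb hβ) (vertBar_heq hβ) (vertBar_hgen hβ) hc ψ hψ hβ' hω hXb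

include hβ' hω hXb in
/-- **`hexhZero`**, along `b` (`q` odd): the points over `X = 0` are `ptZBar` and the
`ptKBar (c s)`. -/
theorem exhZero_b (hq2 : q ≠ 2) {KP : Type*} (c : KP → k) (hc : ∀ s, c s ^ 2 = ρ)
    (hsurj : ∀ c', c' ^ 2 = ρ → ∃ s, c s = c') {Q : Place k (AdjoinRoot (vertBar q β ρ))}
    (hQ : Q.restrictAlong ψ hψ = placeAt k 0) :
    Q = ptZBar q hβ hρ ∨ ∃ s, Q = ptKBar q hq2 hβ hρ (c s) (hc s) := by
  obtain ⟨c₀, hc₀⟩ := IsAlgClosed.exists_pow_nat_eq ρ (n := 2) (by norm_num)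
  obtain ⟨s, hs⟩ := hsurj c₀ hc₀
  obtain ⟨s', hs'⟩ := hsurj (-c₀) (neg_sq_eq hc₀)
  rcases cases_of_restrict_b (L := AdjoinRoot (vertBar q β ρ))
    (b := AdjoinRoot.of (vertBar q β ρ) (RatFunc.C β * RatFunc.X))
    (U := AdjoinRoot.root (vertBar q β ρ))
    q hq2 hρ (vertBar_hb hβ) (vertBar_heq hβ) (vertBar_hgen hβ) hc₀ ψ hψ
    hβ' hω hXb hQ with h | h | h
  · exact Or.inl h
  · exact Or.inr ⟨s, h.trans (ptKBar_congr q hβ hρ hq2 hc₀ (hc s) hs.symm)⟩
  · exact Or.inr ⟨s', h.trans (ptKBar_congr q hβ hρ hq2 (neg_sq_eq hc₀) (hc s') hs'.symm)⟩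

end BarB

/-! ### the instances for `AdjoinRoot (vertBar 2 β ρ)`, along `b` -/

section BarBTwo

variable {k : Type*} [Field k] [IsAlgClosed k] [CharP k 2] {β ρ : k}
  [hP : Fact (Irreducible (vertBar 2 β ρ))] (hβ : β ≠ 0) (hρ : ρ ≠ 0)
  (ψ : RatFunc k →ₐ[k] AdjoinRoot (vertBar 2 β ρ)) (hψ : ψ.toRingHom.IsIntegral)
  {β' ω : k} (hβ' : β' ≠ 0) (hω : ω ≠ 0)
  (hXb : algebraMap k (AdjoinRoot (vertBar 2 β ρ)) β' * ψ RatFunc.X *
      (AdjoinRoot.root (vertBar 2 β ρ) +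
        AdjoinRoot.of (vertBar 2 β ρ) (RatFunc.C β * RatFunc.X)) =
    algebraMap k (AdjoinRoot (vertBar 2 β ρ)) ω)

include hβ' hω hXb in
/-- **`hZK`**, along `b`, `q = 2`: `ptKBar₂` lies over `X = 0`, unramified. -/
theorem zK_b₂ : (ptKBar₂ hβ hρ).restrictAlong ψ hψ = placeAt k 0 ∧
    (ptKBar₂ hβ hρ).ramificationIndexAlong ψ = 1 :=
  ptK₂_b (L := AdjoinRoot (vertBar 2 β ρ))
    (b := AdjoinRoot.of (vertBar 2 β ρ) (RatFunc.C β * RatFunc.X))
    (U := AdjoinRoot.root (vertBar 2 β ρ))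
    hρ (vertBar_hb hβ) (vertBar_heq_two hβ) (vertBar_hgen hβ) ψ hψ hβ' hω hXb

include hβ' hω hXb in
/-- **`hexhZero`**, along `b`, `q = 2`: the points over `X = 0` are `ptZBar` and `ptKBar₂`. -/
theorem exhZero_b₂ {Q : Place k (AdjoinRoot (vertBar 2 β ρ))}
    (hQ : Q.restrictAlong ψ hψ = placeAt k 0) :
    Q = ptZBar 2 hβ hρ ∨ Q = ptKBar₂ hβ hρ :=
  cases_of_restrict_b₂ (L := AdjoinRoot (vertBar 2 β ρ))
    (b := AdjoinRoot.of (vertBar 2 β ρ) (RatFunc.C β * RatFunc.X))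
    (U := AdjoinRoot.root (vertBar 2 β ρ))
    hρ (vertBar_hb hβ) (vertBar_heq_two hβ) (vertBar_hgen hβ) ψ hψ hβ' hω hXb hQ

end BarBTwo

end Fermat.Agent.BR3.PushModExcA
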