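import Mathlib
import Fermat.Agent.BR3.PushModExcA

/-!
# Program C (S36), node (G6-PUSH-MOD): the exceptional kind, family version

`E` the crossings of the lower model (`S'ref_a` or `S'ref_b`), `L e` the residue field of the
vertical component of `S''` over the exceptional component of `e` (for `S'ref_a` : `Ft (ze e)`, for
`S'ref_b` : `Ft (ze (φe.symm e))`), with its structure `L e = k(b e, U e)` of `BR3/VertPts`, the
special points `zT e = ptI`, `zW e = ptZ`, `zK e s = ptK (c e s)` (`q` odd) resp. `ptK₂` (`q = 2`)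
and `ψ e : k(X) →ₐ[k] L e` the residue extension.

* **`exc_hyps_a`** (`q` odd), **`exc_hyps_a₂`** (`q = 2`) : from `β e ψ_e(X) = b e` the six hypotheses
  `hFIexc`, `hZT`, `hZK`, `hexhInf`, `hZW`, `hexhZero` of `PushModFull.hpa_of_fulls` (with
  `d = (q - 1) / 2` resp. `d = 1`);
* **`exc_hyps_b`**, **`exc_hyps_b₂`** : from the mirror formula `β' e ψ_e(X) (U e + b e) = ω e` the six
  hypotheses `hFIexc`, `hZT`, `hexhInf`, `hZW`, `hZK`, `hexhZero` of `PushModB.hpb_of_enum`.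
-/

set_option autoImplicit false
set_option linter.unusedVariables false
set_option linter.unusedSectionVars false
set_option linter.style.haveILetI false

noncomputable section

open AlgebraicCurve Polynomial IntermediateField

namespace Fermat.Agent.BR3.PushModExcFam

open Fermat.Agent.Red Fermat.Agent.X0 Fermat.Agent.BR.P1 Fermat.Agent.BR3.VertPts
  Fermat.Agent.BR3.VertPtsDef Fermat.Agent.BR3.VertPtsRam Fermat.Agent.BR3.PushModExcA
  Fermat.Agent.BR3.FullExcB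

variable {k : Type*} [Field k] [IsAlgClosed k] {E : Type*} {L : E → Type*} [∀ e, Field (L e)]
  [∀ e, Algebra k (L e)] {KP : Type*}

/-! ### `q` odd -/

section Odd

variable (q : ℕ) [hq : Fact q.Prime] [CharP k q] (hq2 : q ≠ 2)
  {ρ : E → k} {b U : ∀ e, L e} (hρ : ∀ e, ρ e ≠ 0) (hb : ∀ e, Transcendental k (b e))
  (heq : ∀ e, b e * U e ^ q + b e ^ 2 * U e ^ (q - 1) = algebraMap k (L e) (ρ e))
  (hgen : ∀ e, IntermediateField.adjoin k {b e, U e} = ⊤)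
  (c : ∀ e, KP → k) (hc : ∀ e s, c e s ^ 2 = ρ e)
  (hsurj : ∀ e c', c' ^ 2 = ρ e → ∃ s, c e s = c')
  {zT zW : ∀ e, Place k (L e)} {zK : ∀ e, KP → Place k (L e)}
  (hzT : ∀ e, zT e = ptI q (hρ e) (hb e) (heq e) (hgen e))
  (hzW : ∀ e, zW e = ptZ q (hρ e) (hb e) (heq e) (hgen e))
  (hzK : ∀ e s, zK e s = ptK q hq2 (hρ e) (hb e) (heq e) (hgen e) (c e s) (hc e s))
  (ψ : ∀ e, RatFunc k →ₐ[k] L e) (hψ : ∀ e, (ψ e).toRingHom.IsIntegral)

theorem ptK_congr (e : E) {c₁ c₂ : k} (h₁ : c₁ ^ 2 = ρ e) (h₂ : c₂ ^ 2 = ρ e) (h : c₁ = c₂) :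
    ptK q hq2 (hρ e) (hb e) (heq e) (hgen e) c₁ h₁ =
      ptK q hq2 (hρ e) (hb e) (heq e) (hgen e) c₂ h₂ := by
  subst h
  rfl

include hsurj hzT hzW hzK in
/-- **The exceptional kind along `a`, `q` odd**: the hypotheses `hFIexc`, `hZT`, `hZK`, `hexhInf`,
`hZW`, `hexhZero` of `PushModFull.hpa_of_fulls`, `d = (q - 1) / 2`. -/
theorem exc_hyps_a [∀ e, HasPrincipalDivisors k (L e)] {β : E → k} (hβ : ∀ e, β e ≠ 0)
    (hXa : ∀ e, algebraMap k (L e) (β e) * ψ e RatFunc.X = b e) :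
    (∀ e, FundamentalIdentityAlong k (ψ e) (hψ e)) ∧
    (∀ e, (zT e).restrictAlong (ψ e) (hψ e) = placeInfty k ∧
      (zT e).ramificationIndexAlong (ψ e) = 1) ∧
    (∀ e s, (zK e s).restrictAlong (ψ e) (hψ e) = placeInfty k ∧
      (zK e s).ramificationIndexAlong (ψ e) = (q - 1) / 2) ∧
    (∀ e (Q : Place k (L e)), Q.restrictAlong (ψ e) (hψ e) = placeInfty k →
      Q = zT e ∨ ∃ s, Q = zK e s) ∧
    (∀ e, (zW e).restrictAlong (ψ e) (hψ e) = placeAt k 0 ∧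
      (zW e).ramificationIndexAlong (ψ e) = q) ∧
    ∀ e (Q : Place k (L e)), Q.restrictAlong (ψ e) (hψ e) = placeAt k 0 → Q = zW e := by
  refine ⟨fun e => ?_, fun e => ?_, fun e s => ?_, fun e Q hQ => ?_, fun e => ?_, fun e Q hQ => ?_⟩
  · exact fundamentalIdentityAlong_a q (hρ e) (heq e) (hgen e) (ψ e) (hψ e) (hβ e) (hXa e)
  · rw [hzT e]
    exact ptI_a q (hρ e) (hb e) (heq e) (hgen e) (ψ e) (hψ e) (hβ e) (hXa e)
  · rw [hzK e s]
    exact ptK_a q hq2 (hρ e) (hb e) (heq e) (hgen e) (hc e s) (ψ e) (hψ e) (hβ e) (hXa e)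
  · obtain ⟨c₀, hc₀⟩ := IsAlgClosed.exists_pow_nat_eq (ρ e) (n := 2) (by norm_num)
    obtain ⟨s, hs⟩ := hsurj e c₀ hc₀
    obtain ⟨s', hs'⟩ := hsurj e (-c₀) (neg_sq_eq hc₀)
    rcases cases_of_restrict_a q hq2 (hρ e) (hb e) (heq e) (hgen e) hc₀ (ψ e) (hψ e) (hβ e)
      (hXa e) hQ with h | h | h
    · exact Or.inl (h.trans (hzT e).symm)
    · exact Or.inr ⟨s, h.trans ((ptK_congr q hq2 hρ hb heq hgen e hc₀ (hc e s) hs.symm).trans
        (hzK e s).symm)⟩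
    · exact Or.inr ⟨s', h.trans ((ptK_congr q hq2 hρ hb heq hgen e (neg_sq_eq hc₀) (hc e s')
        hs'.symm).trans (hzK e s').symm)⟩
  · rw [hzW e]
    exact ptZ_a q (hρ e) (hb e) (heq e) (hgen e) (ψ e) (hψ e) (hβ e) (hXa e)
  · rw [hzW e]
    exact eq_ptZ_of_restrict_a q (hρ e) (hb e) (heq e) (hgen e) (ψ e) (hψ e) (hβ e) (hXa e) hQ

include hsurj hzT hzW hzK in
/-- **The exceptional kind along `b`, `q` odd**: the hypotheses `hFIexc`, `hZT`, `hexhInf`, `hZW`,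
`hZK`, `hexhZero` of `PushModB.hpb_of_enum`, `d = (q - 1) / 2`. -/
theorem exc_hyps_b [∀ e, HasPrincipalDivisors k (L e)] {β' ω : E → k} (hβ' : ∀ e, β' e ≠ 0)
    (hω : ∀ e, ω e ≠ 0)
    (hXb : ∀ e, algebraMap k (L e) (β' e) * ψ e RatFunc.X * (U e + b e) =
      algebraMap k (L e) (ω e)) :
    (∀ e, FundamentalIdentityAlong k (ψ e) (hψ e)) ∧
    (∀ e, (zT e).restrictAlong (ψ e) (hψ e) = placeInfty k ∧
      (zT e).ramificationIndexAlong (ψ e) = q) ∧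
    (∀ e (Q : Place k (L e)), Q.restrictAlong (ψ e) (hψ e) = placeInfty k → Q = zT e) ∧
    (∀ e, (zW e).restrictAlong (ψ e) (hψ e) = placeAt k 0 ∧
      (zW e).ramificationIndexAlong (ψ e) = 1) ∧
    (∀ e s, (zK e s).restrictAlong (ψ e) (hψ e) = placeAt k 0 ∧
      (zK e s).ramificationIndexAlong (ψ e) = (q - 1) / 2) ∧
    ∀ e (Q : Place k (L e)), Q.restrictAlong (ψ e) (hψ e) = placeAt k 0 →
      Q = zW e ∨ ∃ s, Q = zK e s := by
  refine ⟨fun e => ?_, fun e => ?_, fun e Q hQ => ?_, fun e => ?_, fun e s => ?_, fun e Q hQ => ?_⟩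
  · exact fundamentalIdentityAlong_b q (hρ e) (heq e) (hgen e) (ψ e) (hψ e) (hβ' e) (hω e) (hXb e)
  · rw [hzT e]
    exact ptI_b q (hρ e) (hb e) (heq e) (hgen e) (ψ e) (hψ e) (hβ' e) (hω e) (hXb e)
  · rw [hzT e]
    exact eq_ptI_of_restrict_b q (hρ e) (hb e) (heq e) (hgen e) (ψ e) (hψ e) (hβ' e) (hω e)
      (hXb e) hQ
  · rw [hzW e]
    exact ptZ_b q (hρ e) (hb e) (heq e) (hgen e) (ψ e) (hψ e) (hβ' e) (hω e) (hXb e)
  · rw [hzK e s]
    exact ptK_b q hq2 (hρ e) (hb e) (heq e) (hgen e) (hc e s) (ψ e) (hψ e) (hβ' e) (hω e) (hXb e)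
  · obtain ⟨c₀, hc₀⟩ := IsAlgClosed.exists_pow_nat_eq (ρ e) (n := 2) (by norm_num)
    obtain ⟨s, hs⟩ := hsurj e c₀ hc₀
    obtain ⟨s', hs'⟩ := hsurj e (-c₀) (neg_sq_eq hc₀)
    rcases cases_of_restrict_b q hq2 (hρ e) (hb e) (heq e) (hgen e) hc₀ (ψ e) (hψ e) (hβ' e)
      (hω e) (hXb e) hQ with h | h | h
    · exact Or.inl (h.trans (hzW e).symm)
    · exact Or.inr ⟨s, h.trans ((ptK_congr q hq2 hρ hb heq hgen e hc₀ (hc e s) hs.symm).trans
        (hzK e s).symm)⟩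
    · exact Or.inr ⟨s', h.trans ((ptK_congr q hq2 hρ hb heq hgen e (neg_sq_eq hc₀) (hc e s')
        hs'.symm).trans (hzK e s').symm)⟩

end Odd

/-! ### `q = 2` -/

section Two

variable [CharP k 2] {ρ : E → k} {b U : ∀ e, L e} (hρ : ∀ e, ρ e ≠ 0)
  (hb : ∀ e, Transcendental k (b e))
  (heq : ∀ e, b e * U e ^ 2 + b e ^ 2 * U e = algebraMap k (L e) (ρ e))
  (hgen : ∀ e, IntermediateField.adjoin k {b e, U e} = ⊤)
  {zT zW : ∀ e, Place k (L e)} {zK : ∀ e, KP → Place k (L e)}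
  (hzT : ∀ e, zT e = ptI 2 (hρ e) (hb e) (heq_two (heq e)) (hgen e))
  (hzW : ∀ e, zW e = ptZ 2 (hρ e) (hb e) (heq_two (heq e)) (hgen e))
  (hzK : ∀ e s, zK e s = ptK₂ (hρ e) (hb e) (heq e) (hgen e))
  (ψ : ∀ e, RatFunc k →ₐ[k] L e) (hψ : ∀ e, (ψ e).toRingHom.IsIntegral)

include hzT hzW hzK in
/-- **The exceptional kind along `a`, `q = 2`** (`d = 1`). -/
theorem exc_hyps_a₂ [Nonempty KP] [∀ e, HasPrincipalDivisors k (L e)] {β : E → k}
    (hβ : ∀ e, β e ≠ 0) (hXa : ∀ e, algebraMap k (L e) (β e) * ψ e RatFunc.X = b e) :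
    (∀ e, FundamentalIdentityAlong k (ψ e) (hψ e)) ∧
    (∀ e, (zT e).restrictAlong (ψ e) (hψ e) = placeInfty k ∧
      (zT e).ramificationIndexAlong (ψ e) = 1) ∧
    (∀ e s, (zK e s).restrictAlong (ψ e) (hψ e) = placeInfty k ∧
      (zK e s).ramificationIndexAlong (ψ e) = 1) ∧
    (∀ e (Q : Place k (L e)), Q.restrictAlong (ψ e) (hψ e) = placeInfty k →
      Q = zT e ∨ ∃ s, Q = zK e s) ∧
    (∀ e, (zW e).restrictAlong (ψ e) (hψ e) = placeAt k 0 ∧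
      (zW e).ramificationIndexAlong (ψ e) = 2) ∧
    ∀ e (Q : Place k (L e)), Q.restrictAlong (ψ e) (hψ e) = placeAt k 0 → Q = zW e := by
  refine ⟨fun e => ?_, fun e => ?_, fun e s => ?_, fun e Q hQ => ?_, fun e => ?_, fun e Q hQ => ?_⟩
  · exact fundamentalIdentityAlong_a 2 (hρ e) (heq_two (heq e)) (hgen e) (ψ e) (hψ e) (hβ e)
      (hXa e)
  · rw [hzT e]
    exact ptI_a 2 (hρ e) (hb e) (heq_two (heq e)) (hgen e) (ψ e) (hψ e) (hβ e) (hXa e)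
  · rw [hzK e s]
    exact ptK₂_a (hρ e) (hb e) (heq e) (hgen e) (ψ e) (hψ e) (hβ e) (hXa e)
  · rcases cases_of_restrict_a₂ (hρ e) (hb e) (heq e) (hgen e) (ψ e) (hψ e) (hβ e) (hXa e) hQ
      with h | h
    · exact Or.inl (h.trans (hzT e).symm)
    · exact Or.inr ⟨Classical.arbitrary KP, h.trans (hzK e _).symm⟩
  · rw [hzW e]
    exact ptZ_a 2 (hρ e) (hb e) (heq_two (heq e)) (hgen e) (ψ e) (hψ e) (hβ e) (hXa e)
  · rw [hzW e]
    exact eq_ptZ_of_restrict_a 2 (hρ e) (hb e) (heq_two (heq e)) (hgen e) (ψ e) (hψ e) (hβ e)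
      (hXa e) hQ

include hzT hzW hzK in
/-- **The exceptional kind along `b`, `q = 2`** (`d = 1`). -/
theorem exc_hyps_b₂ [Nonempty KP] [∀ e, HasPrincipalDivisors k (L e)] {β' ω : E → k}
    (hβ' : ∀ e, β' e ≠ 0) (hω : ∀ e, ω e ≠ 0)
    (hXb : ∀ e, algebraMap k (L e) (β' e) * ψ e RatFunc.X * (U e + b e) =
      algebraMap k (L e) (ω e)) :
    (∀ e, FundamentalIdentityAlong k (ψ e) (hψ e)) ∧
    (∀ e, (zT e).restrictAlong (ψ e) (hψ e) = placeInfty k ∧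
      (zT e).ramificationIndexAlong (ψ e) = 2) ∧
    (∀ e (Q : Place k (L e)), Q.restrictAlong (ψ e) (hψ e) = placeInfty k → Q = zT e) ∧
    (∀ e, (zW e).restrictAlong (ψ e) (hψ e) = placeAt k 0 ∧
      (zW e).ramificationIndexAlong (ψ e) = 1) ∧
    (∀ e s, (zK e s).restrictAlong (ψ e) (hψ e) = placeAt k 0 ∧
      (zK e s).ramificationIndexAlong (ψ e) = 1) ∧
    ∀ e (Q : Place k (L e)), Q.restrictAlong (ψ e) (hψ e) = placeAt k 0 →
      Q = zW e ∨ ∃ s, Q = zK e s := by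
  refine ⟨fun e => ?_, fun e => ?_, fun e Q hQ => ?_, fun e => ?_, fun e s => ?_, fun e Q hQ => ?_⟩
  · exact fundamentalIdentityAlong_b 2 (hρ e) (heq_two (heq e)) (hgen e) (ψ e) (hψ e) (hβ' e)
      (hω e) (hXb e)
  · rw [hzT e]
    exact ptI_b 2 (hρ e) (hb e) (heq_two (heq e)) (hgen e) (ψ e) (hψ e) (hβ' e) (hω e) (hXb e)
  · rw [hzT e]
    exact eq_ptI_of_restrict_b 2 (hρ e) (hb e) (heq_two (heq e)) (hgen e) (ψ e) (hψ e) (hβ' e)
      (hω e) (hXb e) hQ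
  · rw [hzW e]
    exact ptZ_b 2 (hρ e) (hb e) (heq_two (heq e)) (hgen e) (ψ e) (hψ e) (hβ' e) (hω e) (hXb e)
  · rw [hzK e s]
    exact ptK₂_b (hρ e) (hb e) (heq e) (hgen e) (ψ e) (hψ e) (hβ' e) (hω e) (hXb e)
  · rcases cases_of_restrict_b₂ (hρ e) (hb e) (heq e) (hgen e) (ψ e) (hψ e) (hβ' e) (hω e)
      (hXb e) hQ with h | h
    · exact Or.inl (h.trans (hzW e).symm)
    · exact Or.inr ⟨Classical.arbitrary KP, h.trans (hzK e _).symm⟩

end Two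

end Fermat.Agent.BR3.PushModExcFam
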