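import Mathlib
import Fermat.Agent.BR3.PushModFull
import Fermat.Agent.BR3.PushModExcFam

/-!
# Program C (S36), node (G6-PUSH-MOD): the exceptional kind of `PushModFull.hpa_of_fulls`
from the vertical data

Setting of `BR3/PushModFull` (section `AlongA`).

* `psiA_exc_apply` : the residue extension `psiA … (exc e) ()` of the exceptional component is the
  map `ψ₀ : k(X) → Ft (ze e)` as soon as `res_{z e} (φ y) = ψ₀ (circleRes y)` on the critical
  circle ring (`PushGlue.resHom_unique`; for the vertical data of `VertAllFinal` / `ZeData`,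
  `ψ₀ = AdjoinRoot.of`, the hypothesis is the clause `compat`);
* `hXa_of_compat` : the relation `β ψ(X) = b` of `BR3/VertPtsRam` for `ψ = psiA … (exc e) ()`;
* **`hpa_of_fulls_vert`** (`q` odd) : `PushModFull.hpa_of_fulls` with the six hypotheses of the
  exceptional kind discharged by `PushModExcFam.exc_hyps_a` from the vertical data
  (`Ft (ze e) = k(b e, U e)`, `X.zT e = ptI`, `X.zW e = ptZ`, `X.zK e s = ptK (c e s)`, `compat`);
  `d = (q - 1) / 2`;
* **`hpa_of_fulls_vert₂`** : the same for `q = 2` (`X.zK e s = ptK₂`, `d = 1`).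
-/

set_option autoImplicit false
set_option linter.unusedVariables false
set_option linter.unusedSectionVars false
set_option linter.style.haveILetI false
set_option synthInstance.maxHeartbeats 400000

noncomputable section

/- S36 build-time patch: file-local shortcut instances. They only shorten instance search;
each is the instance that the search finds anyway (reducible, same terms after unfolding). -/
local instance (priority := 100000) Fermat.Agent.BR3.FastInst.instAlgFullC_PushModExcPlug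
    {k : Type*} [Field k] (N : ℕ) :
    Algebra k ↥(ModularCurve.modularFunctionFieldFullC k N) := inferInstance
local instance (priority := 100000) Fermat.Agent.BR3.FastInst.instFieldFullC_PushModExcPlug
    {k : Type*} [Field k] (N : ℕ) :
    Field ↥(ModularCurve.modularFunctionFieldFullC k N) := inferInstance
local instance (priority := 100000) Fermat.Agent.BR3.FastInst.instAlgLaurent_PushModExcPlug
    {k : Type*} [Field k] : Algebra k (LaurentSeries k) := inferInstance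


namespace Fermat.Agent.BR3.PushModExcPlug

open ModularCurve AlgebraicCurve IsLocalRing
open Fermat.Agent.Red Fermat.Agent.Val Fermat.Agent.X0 Fermat.Agent.BR.SS Fermat.Agent.BR.Refine
open Fermat.Agent.BR.Circle Fermat.Agent.BR.S0 Fermat.Agent.BR.P1
open Fermat.Agent.BR.S0.PointDict Fermat.Agent.BR.S0.RedModular Fermat.Agent.BR.Final
open Fermat.Agent.BR2.SetupOfData Fermat.Agent.BR3.CircleN Fermat.Agent.BR3.SRef
open Fermat.Agent.BR3.SRef.Modular Fermat.Agent.BR3.SDD Fermat.Agent.Jac Fermat.Agent.BR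
open Fermat.Agent.BR2.Filt Fermat.Agent.BR3.G5Multi Fermat.Agent.BR3.TorGlue
open Fermat.Agent.BR3.GeoTor Fermat.Agent.BR3.GeoTorPush Fermat.Agent.BR3.PushGlue
open Fermat.Agent.BR3.PushShapes Fermat.Agent.BR3.MultiVal Fermat.Agent.BR3.PushModFull
open Fermat.Agent.BR3.VertPts Fermat.Agent.BR3.VertPtsDef

variable {M q : ℕ} [NeZero M] [hq : Fact q.Prime]
variable {B : ValuationSubring (AlgebraicClosure ℚ)} {hB : B.LiesOverPrime q} {hqM : ¬ q ∣ M}
variable [IsAlgClosed (ResidueField B)]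

local notation "kB" => IsLocalRing.ResidueField B
local notation "FtM" => modularFunctionFieldFullC (IsLocalRing.ResidueField B) M
local notation "Kb" => AlgebraicClosure ℚ

/-- (shortcut instance) -/
local instance (priority := 100000) instAlgebraFtMShortcutQ :
    Algebra (IsLocalRing.ResidueField B)
      (modularFunctionFieldFullC (IsLocalRing.ResidueField B) M) :=
  inferInstance

variable (Dt : ModularData M q B hB hqM)
  (a₀ : Crossing (chartDataModular B hB hqM) → Kb) (hadm : ∀ e, (inputs Dt).adm e (a₀ e))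
  {Mid KP : Type} [Fintype Mid] [Fintype KP]
  {Ft : Comp Mid (Crossing (chartDataModular B hB hqM)) → Type}
  [∀ v, Field (Ft v)] [∀ v, Algebra (ResidueField B) (Ft v)]
  (X : CaseInput (F := Fb (M * q * q)) B Mid (Crossing (chartDataModular B hB hqM)) KP Ft)
  (φ : Fb (M * q) →ₐ[Kb] Fb (M * q * q))
  {κc : Option Mid → Type} [∀ j, Fintype (κc j)] {κz : Type} [Fintype κz]
  {κe : (oneLevel (inputs Dt) a₀ hadm).X → Type} [∀ x, Fintype (κe x)]
  (Dcan : letI := algebraAlong φ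
    MultiVal.Full ((setup Dt).O 0) (fun j : Option Mid => X.toInput.setup.O (wOpt cInf j)) κc)
  (Det : letI := algebraAlong φ
    MultiVal.Full ((setup Dt).O 1) (fun _ : Unit => X.toInput.setup.O cZero) (fun _ => κz))
  (Dexc : ∀ x : (oneLevel (inputs Dt) a₀ hadm).X, letI := algebraAlong φ
    MultiVal.Full ((srefM Dt a₀ hadm).O (Sum.inr x))
      (fun _ : Unit => X.toInput.setup.O (ze x.1)) (fun _ => κe x))

/-- **The residue extension of the exceptional component** is `ψ₀` as soon as the residue map of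
`z e` is compatible with `ψ₀` on the critical circle ring. -/
theorem psiA_exc_apply (e : Crossing (chartDataModular B hB hqM)) (ψ₀ : RatFunc kB →+* Ft (ze e))
    (hcompat : ∀ (y : circleRing ((inputs Dt).ch e).toCore (a₀ e) (hadm e).1 (hadm e).2)
      (h : φ (y : Fb (M * q)) ∈ (X.C (ze e)).O),
      (X.C (ze e)).res ⟨φ (y : Fb (M * q)), h⟩ =
        ψ₀ (circleRes ((inputs Dt).ch e).toCore (a₀ e) (hadm e).1 (hadm e).2 y))
    (y : RatFunc kB) :
    psiA Dt a₀ hadm X φ Dcan Det Dexc (exc (inputs Dt) a₀ hadm e) () y = ψ₀ y :=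
  (resHom_unique (S₀ := srefM Dt a₀ hadm) (S := X.toInput.setup) (φ := φ) residue_surjective_B
    (liesOverAlong_of_full (fullA Dt a₀ hadm X φ Dcan Det Dexc (exc (inputs Dt) a₀ hadm e)) ())
    ψ₀ hcompat y).symm

/-- the residue extension of the exceptional component `exc e`, with its type in normal form -/
def psiExc (e : Crossing (chartDataModular B hB hqM)) : RatFunc kB →ₐ[kB] Ft (ze e) :=
  psiA Dt a₀ hadm X φ Dcan Det Dexc (exc (inputs Dt) a₀ hadm e) ()

theorem psiExc_eq (e : Crossing (chartDataModular B hB hqM)) :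
    psiExc Dt a₀ hadm X φ Dcan Det Dexc e =
      psiA Dt a₀ hadm X φ Dcan Det Dexc (exc (inputs Dt) a₀ hadm e) () := rfl

theorem isIntegral_psiExc (hfin : FiniteAlong Kb φ) (e : Crossing (chartDataModular B hB hqM)) :
    (psiExc Dt a₀ hadm X φ Dcan Det Dexc e).toRingHom.IsIntegral :=
  isIntegral_psiA Dt a₀ hadm X φ Dcan Det Dexc hfin (exc (inputs Dt) a₀ hadm e) ()

theorem psiExc_apply (e : Crossing (chartDataModular B hB hqM)) (ψ₀ : RatFunc kB →+* Ft (ze e))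
    (hcompat : ∀ (y : circleRing ((inputs Dt).ch e).toCore (a₀ e) (hadm e).1 (hadm e).2)
      (h : φ (y : Fb (M * q)) ∈ (X.C (ze e)).O),
      (X.C (ze e)).res ⟨φ (y : Fb (M * q)), h⟩ =
        ψ₀ (circleRes ((inputs Dt).ch e).toCore (a₀ e) (hadm e).1 (hadm e).2 y))
    (y : RatFunc kB) : psiExc Dt a₀ hadm X φ Dcan Det Dexc e y = ψ₀ y :=
  psiA_exc_apply Dt a₀ hadm X φ Dcan Det Dexc e ψ₀ hcompat y

/-- The relation `β ψ(X) = b` of `BR3/VertPtsRam` for `ψ = psiExc … e`. -/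
theorem hXa_of_compat (e : Crossing (chartDataModular B hB hqM)) (ψ₀ : RatFunc kB →+* Ft (ze e))
    (hcompat : ∀ (y : circleRing ((inputs Dt).ch e).toCore (a₀ e) (hadm e).1 (hadm e).2)
      (h : φ (y : Fb (M * q)) ∈ (X.C (ze e)).O),
      (X.C (ze e)).res ⟨φ (y : Fb (M * q)), h⟩ =
        ψ₀ (circleRes ((inputs Dt).ch e).toCore (a₀ e) (hadm e).1 (hadm e).2 y))
    {β : kB} {b : Ft (ze e)} (hψ₀ : algebraMap kB (Ft (ze e)) β * ψ₀ RatFunc.X = b) :
    algebraMap kB (Ft (ze e)) β * psiExc Dt a₀ hadm X φ Dcan Det Dexc e RatFunc.X = b := by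
  rw [psiExc_apply Dt a₀ hadm X φ Dcan Det Dexc e ψ₀ hcompat]
  exact hψ₀


/-- **(G6-PUSH-MOD) along `a`, `q` odd, with the exceptional kind discharged** from the vertical
data (`Ft (ze e) = k(b e, U e)`, the special points, the compatibility `compat` of the residue map
of `z e` with `ψ₀ e` on the critical circle ring and `β e ψ₀ e (X) = b e`); `d = (q - 1) / 2`. -/
theorem hpa_of_fulls_vert [CharP kB q] (hq2 : q ≠ 2)
    (hF₀ : RiemannPkg Kb (Fb (M * q))) (hFtM : RiemannPkg kB FtM)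
    (hFt : ∀ w', RiemannPkg kB (Ft w'))
    [HasPrincipalDivisors Kb (Fb (M * q))] [HasPrincipalDivisors Kb (Fb (M * q * q))]
    [∀ w', HasPrincipalDivisors kB (Ft w')]
    (hφ : φ.toRingHom.IsIntegral) (hfin : FiniteAlong Kb φ) (hN : NormFormulaAlong Kb φ hfin)
    (hsm : ∀ P : Place Kb (Fb (M * q * q)), X.toInput.setup.IsSmoothPlace P →
      (srefM Dt a₀ hadm).IsSmoothPlace (P.restrictAlong φ hφ))
    (lam : ℕ) (hlam : lam ≠ 0)
    -- the component `'can'`
    (hFIcan : ∀ j : Option Mid, FundamentalIdentityAlong kB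
      (psiA Dt a₀ hadm X φ Dcan Det Dexc (Sum.inl 0) j) (isIntegral_psiA Dt a₀ hadm X φ Dcan Det Dexc hfin (Sum.inl 0) j))
    (hInf : ∀ e, (X.pInf e).restrictAlong (psiA Dt a₀ hadm X φ Dcan Det Dexc (Sum.inl 0) none)
        (isIntegral_psiA Dt a₀ hadm X φ Dcan Det Dexc hfin (Sum.inl 0) none) = (setup Dt).s₁ e ∧
      (X.pInf e).ramificationIndexAlong (psiA Dt a₀ hadm X φ Dcan Det Dexc (Sum.inl 0) none) = 1)
    (hMid : ∀ e s, (X.pMid e s).restrictAlong
        (psiA Dt a₀ hadm X φ Dcan Det Dexc (Sum.inl 0) (some (X.comp e s)))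
        (isIntegral_psiA Dt a₀ hadm X φ Dcan Det Dexc hfin (Sum.inl 0) (some (X.comp e s))) = (setup Dt).s₁ e ∧
      (X.pMid e s).ramificationIndexAlong
        (psiA Dt a₀ hadm X φ Dcan Det Dexc (Sum.inl 0) (some (X.comp e s))) = ((q - 1) / 2))
    (hexhInf' : ∀ e (Q : Place kB (Ft cInf)),
      Q.restrictAlong (psiA Dt a₀ hadm X φ Dcan Det Dexc (Sum.inl 0) none) (isIntegral_psiA Dt a₀ hadm X φ Dcan Det Dexc hfin (Sum.inl 0) none) = (setup Dt).s₁ e →
        Q = X.pInf e)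
    (hexhMid : ∀ e (i : Mid) (Q : Place kB (Ft (mid i))),
      Q.restrictAlong (psiA Dt a₀ hadm X φ Dcan Det Dexc (Sum.inl 0) (some i)) (isIntegral_psiA Dt a₀ hadm X φ Dcan Det Dexc hfin (Sum.inl 0) (some i)) =
        (setup Dt).s₁ e →
      ∃ s, (⟨mid i, Q⟩ : Σ v, Place kB (Ft v)) = ⟨mid (X.comp e s), X.pMid e s⟩)
    -- the vertical data
    {ρ β : Crossing (chartDataModular B hB hqM) → kB} {b U : ∀ e, Ft (ze e)}
    (hρ : ∀ e, ρ e ≠ 0) (hβ : ∀ e, β e ≠ 0) (hb : ∀ e, Transcendental kB (b e))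
    (heq : ∀ e, b e * U e ^ q + b e ^ 2 * U e ^ (q - 1) = algebraMap kB (Ft (ze e)) (ρ e))
    (hgen : ∀ e, IntermediateField.adjoin kB {b e, U e} = ⊤)
    (c : Crossing (chartDataModular B hB hqM) → KP → kB) (hc : ∀ e s, c e s ^ 2 = ρ e)
    (hsurj : ∀ e c', c' ^ 2 = ρ e → ∃ s, c e s = c')
    (hzT : ∀ e, X.zT e = ptI q (hρ e) (hb e) (heq e) (hgen e))
    (hzW : ∀ e, X.zW e = ptZ q (hρ e) (hb e) (heq e) (hgen e))
    (hzK : ∀ e s, X.zK e s = ptK q hq2 (hρ e) (hb e) (heq e) (hgen e) (c e s) (hc e s))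
    (ψ₀ : ∀ e, RatFunc kB →+* Ft (ze e))
    (hcompat : ∀ e (y : circleRing ((inputs Dt).ch e).toCore (a₀ e) (hadm e).1 (hadm e).2)
      (h : φ (y : Fb (M * q)) ∈ (X.C (ze e)).O),
      (X.C (ze e)).res ⟨φ (y : Fb (M * q)), h⟩ =
        ψ₀ e (circleRes ((inputs Dt).ch e).toCore (a₀ e) (hadm e).1 (hadm e).2 y))
    (hψ₀ : ∀ e, algebraMap kB (Ft (ze e)) (β e) * ψ₀ e RatFunc.X = b e)
    -- the component `'et'`
    (hZero : ∀ e, (X.pZero e).restrictAlong (psiA Dt a₀ hadm X φ Dcan Det Dexc (Sum.inl 1) ())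
        (isIntegral_psiA Dt a₀ hadm X φ Dcan Det Dexc hfin (Sum.inl 1) ()) = (setup Dt).s₂ e)
    (hpow : ∀ g : Ft cZero, psiA Dt a₀ hadm X φ Dcan Det Dexc (Sum.inl 1) ()
      (normAlong (psiA Dt a₀ hadm X φ Dcan Det Dexc (Sum.inl 1) ()) g) = g ^ q) :
    ∀ (m : ℕ) (z : Pic0 Kb (Fb (M * q * q)))
      (D : Divisor.degZero (K := Kb) (F := Fb (M * q * q))) (f : Fb (M * q * q))
      (u : ∀ v, Ft v), IsGood X.toInput.setup (lam ^ m) z D f u →
      PicFunct.pic0Push φ hφ hfin hN z = 0 →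
      ∀ (av bv : Node (Crossing (chartDataModular B hB hqM)) KP → kB)
        (ha0 : ∀ e, av e ≠ 0) (hb0 : ∀ e, bv e ≠ 0),
      (∀ e, IsValueAt (X.toInput.setup.s₁ e) (u (X.toInput.setup.src e)) (av e)) →
      (∀ e, IsValueAt (X.toInput.setup.s₂ e) (u (X.toInput.setup.tgt e)) (bv e)) →
      ∃ κ₀ : Fin 2 ⊕ (oneLevel (inputs Dt) a₀ hadm).X → kB, (∀ v, κ₀ v ≠ 0) ∧
        (∀ e, valH hor av bv (nW e) ^ q * κ₀ (exc (inputs Dt) a₀ hadm e) =
          valV hor av bv (nW e) ^ q * κ₀ (old (inputs Dt) a₀ hadm 1)) ∧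
        ∀ e, (valH hor av bv (nT e) * ∏ s, valH hor av bv (nk e s) ^ ((q - 1) / 2)) *
            κ₀ (exc (inputs Dt) a₀ hadm e) =
          (valV hor av bv (nT e) * ∏ s, valV hor av bv (nk e s) ^ ((q - 1) / 2)) *
            κ₀ (old (inputs Dt) a₀ hadm 0) := by
  obtain ⟨h1, h2, h3, h4, h5, h6⟩ := Fermat.Agent.BR3.PushModExcFam.exc_hyps_a (k := kB)
    (L := fun e : Crossing (chartDataModular B hB hqM) => Ft (ze e)) q hq2 hρ hb heq hgen c hc hsurj
    hzT hzW hzK (psiExc Dt a₀ hadm X φ Dcan Det Dexc)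
    (isIntegral_psiExc Dt a₀ hadm X φ Dcan Det Dexc hfin) hβ
    (fun e => hXa_of_compat Dt a₀ hadm X φ Dcan Det Dexc e (ψ₀ e) (hcompat e) (hψ₀ e))
  exact hpa_of_fulls Dt a₀ hadm X φ Dcan Det Dexc hF₀ hFtM hFt hφ hfin hN hsm lam hlam ((q - 1) / 2)
    hFIcan hInf hMid hexhInf' hexhMid h1 h2 h3 h4 h5 h6 hZero hpow


/-- **(G6-PUSH-MOD) along `a`, `q = 2`, with the exceptional kind discharged**; `d = 1`. -/
theorem hpa_of_fulls_vert₂ [CharP kB 2] [Nonempty KP] (hq2 : q = 2)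
    (hF₀ : RiemannPkg Kb (Fb (M * q))) (hFtM : RiemannPkg kB FtM)
    (hFt : ∀ w', RiemannPkg kB (Ft w'))
    [HasPrincipalDivisors Kb (Fb (M * q))] [HasPrincipalDivisors Kb (Fb (M * q * q))]
    [∀ w', HasPrincipalDivisors kB (Ft w')]
    (hφ : φ.toRingHom.IsIntegral) (hfin : FiniteAlong Kb φ) (hN : NormFormulaAlong Kb φ hfin)
    (hsm : ∀ P : Place Kb (Fb (M * q * q)), X.toInput.setup.IsSmoothPlace P →
      (srefM Dt a₀ hadm).IsSmoothPlace (P.restrictAlong φ hφ))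
    (lam : ℕ) (hlam : lam ≠ 0)
    -- the component `'can'`
    (hFIcan : ∀ j : Option Mid, FundamentalIdentityAlong kB
      (psiA Dt a₀ hadm X φ Dcan Det Dexc (Sum.inl 0) j) (isIntegral_psiA Dt a₀ hadm X φ Dcan Det Dexc hfin (Sum.inl 0) j))
    (hInf : ∀ e, (X.pInf e).restrictAlong (psiA Dt a₀ hadm X φ Dcan Det Dexc (Sum.inl 0) none)
        (isIntegral_psiA Dt a₀ hadm X φ Dcan Det Dexc hfin (Sum.inl 0) none) = (setup Dt).s₁ e ∧
      (X.pInf e).ramificationIndexAlong (psiA Dt a₀ hadm X φ Dcan Det Dexc (Sum.inl 0) none) = 1)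
    (hMid : ∀ e s, (X.pMid e s).restrictAlong
        (psiA Dt a₀ hadm X φ Dcan Det Dexc (Sum.inl 0) (some (X.comp e s)))
        (isIntegral_psiA Dt a₀ hadm X φ Dcan Det Dexc hfin (Sum.inl 0) (some (X.comp e s))) = (setup Dt).s₁ e ∧
      (X.pMid e s).ramificationIndexAlong
        (psiA Dt a₀ hadm X φ Dcan Det Dexc (Sum.inl 0) (some (X.comp e s))) = 1)
    (hexhInf' : ∀ e (Q : Place kB (Ft cInf)),
      Q.restrictAlong (psiA Dt a₀ hadm X φ Dcan Det Dexc (Sum.inl 0) none) (isIntegral_psiA Dt a₀ hadm X φ Dcan Det Dexc hfin (Sum.inl 0) none) = (setup Dt).s₁ e →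
        Q = X.pInf e)
    (hexhMid : ∀ e (i : Mid) (Q : Place kB (Ft (mid i))),
      Q.restrictAlong (psiA Dt a₀ hadm X φ Dcan Det Dexc (Sum.inl 0) (some i)) (isIntegral_psiA Dt a₀ hadm X φ Dcan Det Dexc hfin (Sum.inl 0) (some i)) =
        (setup Dt).s₁ e →
      ∃ s, (⟨mid i, Q⟩ : Σ v, Place kB (Ft v)) = ⟨mid (X.comp e s), X.pMid e s⟩)
    -- the vertical data
    {ρ β : Crossing (chartDataModular B hB hqM) → kB} {b U : ∀ e, Ft (ze e)}
    (hρ : ∀ e, ρ e ≠ 0) (hβ : ∀ e, β e ≠ 0) (hb : ∀ e, Transcendental kB (b e))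
    (heq : ∀ e, b e * U e ^ 2 + b e ^ 2 * U e = algebraMap kB (Ft (ze e)) (ρ e))
    (hgen : ∀ e, IntermediateField.adjoin kB {b e, U e} = ⊤)
    (hzT : ∀ e, X.zT e = ptI 2 (hρ e) (hb e) (heq_two (heq e)) (hgen e))
    (hzW : ∀ e, X.zW e = ptZ 2 (hρ e) (hb e) (heq_two (heq e)) (hgen e))
    (hzK : ∀ e s, X.zK e s = ptK₂ (hρ e) (hb e) (heq e) (hgen e))
    (ψ₀ : ∀ e, RatFunc kB →+* Ft (ze e))
    (hcompat : ∀ e (y : circleRing ((inputs Dt).ch e).toCore (a₀ e) (hadm e).1 (hadm e).2)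
      (h : φ (y : Fb (M * q)) ∈ (X.C (ze e)).O),
      (X.C (ze e)).res ⟨φ (y : Fb (M * q)), h⟩ =
        ψ₀ e (circleRes ((inputs Dt).ch e).toCore (a₀ e) (hadm e).1 (hadm e).2 y))
    (hψ₀ : ∀ e, algebraMap kB (Ft (ze e)) (β e) * ψ₀ e RatFunc.X = b e)
    -- the component `'et'`
    (hZero : ∀ e, (X.pZero e).restrictAlong (psiA Dt a₀ hadm X φ Dcan Det Dexc (Sum.inl 1) ())
        (isIntegral_psiA Dt a₀ hadm X φ Dcan Det Dexc hfin (Sum.inl 1) ()) = (setup Dt).s₂ e)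
    (hpow : ∀ g : Ft cZero, psiA Dt a₀ hadm X φ Dcan Det Dexc (Sum.inl 1) ()
      (normAlong (psiA Dt a₀ hadm X φ Dcan Det Dexc (Sum.inl 1) ()) g) = g ^ q) :
    ∀ (m : ℕ) (z : Pic0 Kb (Fb (M * q * q)))
      (D : Divisor.degZero (K := Kb) (F := Fb (M * q * q))) (f : Fb (M * q * q))
      (u : ∀ v, Ft v), IsGood X.toInput.setup (lam ^ m) z D f u →
      PicFunct.pic0Push φ hφ hfin hN z = 0 →
      ∀ (av bv : Node (Crossing (chartDataModular B hB hqM)) KP → kB)
        (ha0 : ∀ e, av e ≠ 0) (hb0 : ∀ e, bv e ≠ 0),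
      (∀ e, IsValueAt (X.toInput.setup.s₁ e) (u (X.toInput.setup.src e)) (av e)) →
      (∀ e, IsValueAt (X.toInput.setup.s₂ e) (u (X.toInput.setup.tgt e)) (bv e)) →
      ∃ κ₀ : Fin 2 ⊕ (oneLevel (inputs Dt) a₀ hadm).X → kB, (∀ v, κ₀ v ≠ 0) ∧
        (∀ e, valH hor av bv (nW e) ^ q * κ₀ (exc (inputs Dt) a₀ hadm e) =
          valV hor av bv (nW e) ^ q * κ₀ (old (inputs Dt) a₀ hadm 1)) ∧
        ∀ e, (valH hor av bv (nT e) * ∏ s, valH hor av bv (nk e s) ^ 1) *
            κ₀ (exc (inputs Dt) a₀ hadm e) =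
          (valV hor av bv (nT e) * ∏ s, valV hor av bv (nk e s) ^ 1) *
            κ₀ (old (inputs Dt) a₀ hadm 0) := by
  obtain ⟨h1, h2, h3, h4, h5, h6⟩ := Fermat.Agent.BR3.PushModExcFam.exc_hyps_a₂ (k := kB)
    (L := fun e : Crossing (chartDataModular B hB hqM) => Ft (ze e)) hρ hb heq hgen
    hzT hzW hzK (psiExc Dt a₀ hadm X φ Dcan Det Dexc)
    (isIntegral_psiExc Dt a₀ hadm X φ Dcan Det Dexc hfin) hβ
    (fun e => hXa_of_compat Dt a₀ hadm X φ Dcan Det Dexc e (ψ₀ e) (hcompat e) (hψ₀ e))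
  exact hpa_of_fulls Dt a₀ hadm X φ Dcan Det Dexc hF₀ hFtM hFt hφ hfin hN hsm lam hlam 1
    hFIcan hInf hMid hexhInf' hexhMid h1 h2 h3 h4 (fun e => ⟨(h5 e).1, (h5 e).2.trans hq2.symm⟩) h6
    hZero hpow

end Fermat.Agent.BR3.PushModExcPlug
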