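import Mathlib
import Fermat.Agent.BR3.PushModNRB
import Fermat.Agent.BR3.PushModExcFam

/-!
# Program C (S36), node (G6-PUSH-MOD), b-half: the exceptional kind of `PushModNRB.hpb_of_fulls`
from the vertical data

Setting of `BR3/PushModNRB` (section `AlongB`): `S'' = X.toInput.setup` over
`S'ref_b = srefM Dt a₀ hadm` along `φ` (`β₂`), the crossing `e` of `S''` lies over the crossing
`φe e` of `S'`; the vertical component over the exceptional component `exc e'` is
`ze (φe.symm e')`.  Mirror of helper25's `BR3/PushModExcPlug.lean`.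

* `psiB_exc_apply` : the residue extension `psiB … (exc e') ()` is the map
  `ψ₀ : k(X) → Ft (ze (φe.symm e'))` as soon as `res_{z e} (φ y) = ψ₀ (circleRes y)` on the
  `b`-critical circle ring at `e'` (`PushGlue.resHom_unique`; for the vertical data of
  `VertBetaSS.exists_vertComponent_ss_gauge_beta`, `ψ₀` is the mirror map
  `FullExcB.mirrorAlgHom`);
* `psiExcB`, `isIntegral_psiExcB`, `psiExcB_apply`, `hXb_of_compat` : the mirror relation
  `β' ψ(X) (U + b) = ω` of `BR3/VertPtsRam` for `ψ = psiB … (exc e') ()`;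
* **`hpb_of_fulls_vert`** (`q` odd) : `PushModNRB.hpb_of_fulls` with the six hypotheses of the
  exceptional kind discharged by `PushModExcFam.exc_hyps_b` from the vertical data, which are
  indexed by the crossing `e` of `S''` (`Ft (ze e) = k(b e, U e)`, `X.zT e = ptI`, `X.zW e = ptZ`,
  `X.zK e s = ptK (c e s)`, `ψ₀ e`); the compatibility is stated for every pair `e`, `e'` with
  `φe e = e'` and every gauge `a` with `a₀ e' = a`, so that no transport is needed on either side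
  (the consumer proves it by `subst`); `d = (q - 1) / 2`;
* **`hpb_of_fulls_vert₂`** : the same for `q = 2` (`X.zK e s = ptK₂`, `d = 1`).
-/

set_option autoImplicit false
set_option linter.unusedVariables false
set_option linter.unusedSectionVars false
set_option linter.style.haveILetI false
set_option synthInstance.maxHeartbeats 400000
set_option maxHeartbeats 1600000

noncomputable section

/- S36 build-time patch: file-local shortcut instances. They only shorten instance search;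
each is the instance that the search finds anyway (reducible, same terms after unfolding). -/
local instance (priority := 100000) Fermat.Agent.BR3.FastInst.instAlgFullC_PushModExcPlugB
    {k : Type*} [Field k] (N : ℕ) :
    Algebra k ↥(ModularCurve.modularFunctionFieldFullC k N) := inferInstance
local instance (priority := 100000) Fermat.Agent.BR3.FastInst.instFieldFullC_PushModExcPlugB
    {k : Type*} [Field k] (N : ℕ) :
    Field ↥(ModularCurve.modularFunctionFieldFullC k N) := inferInstance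
local instance (priority := 100000) Fermat.Agent.BR3.FastInst.instAlgLaurent_PushModExcPlugB
    {k : Type*} [Field k] : Algebra k (LaurentSeries k) := inferInstance


namespace Fermat.Agent.BR3.PushModExcPlugB

open ModularCurve AlgebraicCurve IsLocalRing
open Fermat.Agent.Red Fermat.Agent.Val Fermat.Agent.X0 Fermat.Agent.BR.SS Fermat.Agent.BR.Refine
open Fermat.Agent.BR.Circle Fermat.Agent.BR.S0 Fermat.Agent.BR.P1
open Fermat.Agent.BR.S0.PointDict Fermat.Agent.BR.S0.RedModular Fermat.Agent.BR.Final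
open Fermat.Agent.BR2.SetupOfData Fermat.Agent.BR3.CircleN Fermat.Agent.BR3.SRef
open Fermat.Agent.BR3.SRef.Modular Fermat.Agent.BR3.SDD Fermat.Agent.Jac Fermat.Agent.BR
open Fermat.Agent.BR2.Filt Fermat.Agent.BR3.G5Multi Fermat.Agent.BR3.TorGlue
open Fermat.Agent.BR3.GeoTor Fermat.Agent.BR3.GeoTorPush Fermat.Agent.BR3.PushGlue
open Fermat.Agent.BR3.PushShapes Fermat.Agent.BR3.MultiVal Fermat.Agent.BR3.PushModFull
open Fermat.Agent.BR3.PushModNRB Fermat.Agent.BR3.VertPts Fermat.Agent.BR3.VertPtsDef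

variable {M q : ℕ} [NeZero M] [hq : Fact q.Prime]
variable {B : ValuationSubring (AlgebraicClosure ℚ)} {hB : B.LiesOverPrime q} {hqM : ¬ q ∣ M}
variable [IsAlgClosed (ResidueField B)]

local notation "kB" => IsLocalRing.ResidueField B
local notation "FtM" => modularFunctionFieldFullC (IsLocalRing.ResidueField B) M
local notation "Kb" => AlgebraicClosure ℚ

/-- (shortcut instance) -/
local instance (priority := 100000) instAlgebraFtMShortcutPEB :
    Algebra (IsLocalRing.ResidueField B)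
      (modularFunctionFieldFullC (IsLocalRing.ResidueField B) M) :=
  inferInstance

variable (Dt : ModularData M q B hB hqM)
  (a₀ : Crossing (chartDataModular B hB hqM) → Kb) (hadm : ∀ e, (inputs Dt).adm e (a₀ e))
  {Mid KP : Type} [Fintype Mid] [Fintype KP]
  {Ft : Comp Mid (Crossing (chartDataModular B hB hqM)) → Type}
  [∀ v, Field (Ft v)] [∀ v, Algebra (ResidueField B) (Ft v)]
  (X : CaseInput (F := Fb (M * q * q)) B Mid (Crossing (chartDataModular B hB hqM)) KP Ft)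
  (φ : Fb (M * q) →ₐ[Kb] Fb (M * q * q))
  (φe : Crossing (chartDataModular B hB hqM) ≃ Crossing (chartDataModular B hB hqM))
  {κc : Type} [Fintype κc] {κz : Option Mid → Type} [∀ j, Fintype (κz j)]
  {κe : (oneLevel (inputs Dt) a₀ hadm).X → Type} [∀ x, Fintype (κe x)]
  (Dcan : letI := algebraAlong φ
    MultiVal.Full ((setup Dt).O 0) (fun _ : Unit => X.toInput.setup.O cInf) (fun _ => κc))
  (Det : letI := algebraAlong φ
    MultiVal.Full ((setup Dt).O 1) (fun j : Option Mid => X.toInput.setup.O (wOpt cZero j)) κz)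
  (Dexc : ∀ x : (oneLevel (inputs Dt) a₀ hadm).X, letI := algebraAlong φ
    MultiVal.Full ((srefM Dt a₀ hadm).O (Sum.inr x))
      (fun _ : Unit => X.toInput.setup.O (ze (fstB Dt a₀ hadm φe x))) (fun _ => κe x))

/-- **The residue extension of the exceptional component `exc e'` along `b`** is `ψ₀` as soon as
the residue map of `z (φe.symm e')` is compatible with `ψ₀` on the critical circle ring at `e'`. -/
theorem psiB_exc_apply (e' : Crossing (chartDataModular B hB hqM))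
    (ψ₀ : RatFunc kB →+* Ft (ze (φe.symm e')))
    (hcompat : ∀ (y : circleRing ((inputs Dt).ch e').toCore (a₀ e') (hadm e').1 (hadm e').2)
      (h : φ (y : Fb (M * q)) ∈ (X.C (ze (φe.symm e'))).O),
      (X.C (ze (φe.symm e'))).res ⟨φ (y : Fb (M * q)), h⟩ =
        ψ₀ (circleRes ((inputs Dt).ch e').toCore (a₀ e') (hadm e').1 (hadm e').2 y))
    (y : RatFunc kB) :
    psiB Dt a₀ hadm X φ φe Dcan Det Dexc (exc (inputs Dt) a₀ hadm e') () y = ψ₀ y :=
  (resHom_unique (S₀ := srefM Dt a₀ hadm) (S := X.toInput.setup) (φ := φ) residue_surjective_B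
    (liesOverAlong_of_full
      (fullB Dt a₀ hadm X φ φe Dcan Det Dexc (exc (inputs Dt) a₀ hadm e')) ())
    ψ₀ hcompat y).symm

/-- the residue extension of the exceptional component `exc e'` along `b`, with its type in normal
form -/
def psiExcB (e' : Crossing (chartDataModular B hB hqM)) :
    RatFunc kB →ₐ[kB] Ft (ze (φe.symm e')) :=
  psiB Dt a₀ hadm X φ φe Dcan Det Dexc (exc (inputs Dt) a₀ hadm e') ()

theorem psiExcB_eq (e' : Crossing (chartDataModular B hB hqM)) :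
    psiExcB Dt a₀ hadm X φ φe Dcan Det Dexc e' =
      psiB Dt a₀ hadm X φ φe Dcan Det Dexc (exc (inputs Dt) a₀ hadm e') () := rfl

theorem isIntegral_psiExcB (hfin : FiniteAlong Kb φ) (e' : Crossing (chartDataModular B hB hqM)) :
    (psiExcB Dt a₀ hadm X φ φe Dcan Det Dexc e').toRingHom.IsIntegral :=
  isIntegral_psiB Dt a₀ hadm X φ φe Dcan Det Dexc hfin (exc (inputs Dt) a₀ hadm e') ()

theorem psiExcB_apply (e' : Crossing (chartDataModular B hB hqM))
    (ψ₀ : RatFunc kB →+* Ft (ze (φe.symm e')))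
    (hcompat : ∀ (y : circleRing ((inputs Dt).ch e').toCore (a₀ e') (hadm e').1 (hadm e').2)
      (h : φ (y : Fb (M * q)) ∈ (X.C (ze (φe.symm e'))).O),
      (X.C (ze (φe.symm e'))).res ⟨φ (y : Fb (M * q)), h⟩ =
        ψ₀ (circleRes ((inputs Dt).ch e').toCore (a₀ e') (hadm e').1 (hadm e').2 y))
    (y : RatFunc kB) : psiExcB Dt a₀ hadm X φ φe Dcan Det Dexc e' y = ψ₀ y :=
  psiB_exc_apply Dt a₀ hadm X φ φe Dcan Det Dexc e' ψ₀ hcompat y

/-- The mirror relation `β' ψ(X) (U + b) = ω` of `BR3/VertPtsRam` for `ψ = psiExcB … e'`. -/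
theorem hXb_of_compat (e' : Crossing (chartDataModular B hB hqM))
    (ψ₀ : RatFunc kB →+* Ft (ze (φe.symm e')))
    (hcompat : ∀ (y : circleRing ((inputs Dt).ch e').toCore (a₀ e') (hadm e').1 (hadm e').2)
      (h : φ (y : Fb (M * q)) ∈ (X.C (ze (φe.symm e'))).O),
      (X.C (ze (φe.symm e'))).res ⟨φ (y : Fb (M * q)), h⟩ =
        ψ₀ (circleRes ((inputs Dt).ch e').toCore (a₀ e') (hadm e').1 (hadm e').2 y))
    {β' ω : kB} {b U : Ft (ze (φe.symm e'))}
    (hψ₀ : algebraMap kB (Ft (ze (φe.symm e'))) β' * ψ₀ RatFunc.X * (U + b) =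
      algebraMap kB (Ft (ze (φe.symm e'))) ω) :
    algebraMap kB (Ft (ze (φe.symm e'))) β' *
        psiExcB Dt a₀ hadm X φ φe Dcan Det Dexc e' RatFunc.X * (U + b) =
      algebraMap kB (Ft (ze (φe.symm e'))) ω := by
  rw [psiExcB_apply Dt a₀ hadm X φ φe Dcan Det Dexc e' ψ₀ hcompat]
  exact hψ₀


/-- **(G6-PUSH-MOD) along `b`, `q` odd, with the exceptional kind discharged** from the vertical
data, indexed by the crossing `e` of `S''` (`Ft (ze e) = k(b e, U e)`, the special points, the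
compatibility of the residue map of `z e` with `ψ₀ e` on the critical circle ring of the crossing
`e' = φe e` of `S'` and the mirror formula `β' e ψ₀ e (X) (U e + b e) = ω e`); `d = (q - 1) / 2`. -/
theorem hpb_of_fulls_vert [CharP kB q] (hq2 : q ≠ 2)
    (hF₀ : RiemannPkg Kb (Fb (M * q))) (hFtM : RiemannPkg kB FtM)
    (hFt : ∀ w', RiemannPkg kB (Ft w'))
    [HasPrincipalDivisors Kb (Fb (M * q))] [HasPrincipalDivisors Kb (Fb (M * q * q))]
    [∀ w', HasPrincipalDivisors kB (Ft w')]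
    (hφ : φ.toRingHom.IsIntegral) (hfin : FiniteAlong Kb φ) (hN : NormFormulaAlong Kb φ hfin)
    (hsm : ∀ P : Place Kb (Fb (M * q * q)), X.toInput.setup.IsSmoothPlace P →
      (srefM Dt a₀ hadm).IsSmoothPlace (P.restrictAlong φ hφ))
    (lam : ℕ) (hlam : lam ≠ 0)
    -- the component `'can'`
    (hInf : ∀ e, (X.pInf e).restrictAlong
        (psiB Dt a₀ hadm X φ φe Dcan Det Dexc (Sum.inl 0) ())
        (isIntegral_psiB Dt a₀ hadm X φ φe Dcan Det Dexc hfin (Sum.inl 0) ()) =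
        (setup Dt).s₁ (φe e))
    (hpow : ∀ g : Ft cInf, psiB Dt a₀ hadm X φ φe Dcan Det Dexc (Sum.inl 0) ()
      (normAlong (psiB Dt a₀ hadm X φ φe Dcan Det Dexc (Sum.inl 0) ()) g) = g ^ q)
    -- the vertical data
    {ρ β' ω : Crossing (chartDataModular B hB hqM) → kB} {b U : ∀ e, Ft (ze e)}
    (hρ : ∀ e, ρ e ≠ 0) (hβ' : ∀ e, β' e ≠ 0) (hω : ∀ e, ω e ≠ 0)
    (hb : ∀ e, Transcendental kB (b e))
    (heq : ∀ e, b e * U e ^ q + b e ^ 2 * U e ^ (q - 1) = algebraMap kB (Ft (ze e)) (ρ e))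
    (hgen : ∀ e, IntermediateField.adjoin kB {b e, U e} = ⊤)
    (c : Crossing (chartDataModular B hB hqM) → KP → kB) (hc : ∀ e s, c e s ^ 2 = ρ e)
    (hsurj : ∀ e c', c' ^ 2 = ρ e → ∃ s, c e s = c')
    (hzT : ∀ e, X.zT e = ptI q (hρ e) (hb e) (heq e) (hgen e))
    (hzW : ∀ e, X.zW e = ptZ q (hρ e) (hb e) (heq e) (hgen e))
    (hzK : ∀ e s, X.zK e s = ptK q hq2 (hρ e) (hb e) (heq e) (hgen e) (c e s) (hc e s))
    (ψ₀ : ∀ e, RatFunc kB →+* Ft (ze e))
    (hcompat : ∀ (e e' : Crossing (chartDataModular B hB hqM)) (he : φe e = e')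
      (a : Kb) (ha : a₀ e' = a)
      (h1 : B.valuation ((inputs Dt).ch e').toCore.thick < B.valuation a)
      (h2 : B.valuation a < 1)
      (y : circleRing ((inputs Dt).ch e').toCore a h1 h2)
      (h : φ (y : Fb (M * q)) ∈ (X.C (ze e)).O),
      (X.C (ze e)).res ⟨φ (y : Fb (M * q)), h⟩ =
        ψ₀ e (circleRes ((inputs Dt).ch e').toCore a h1 h2 y))
    (hψ₀ : ∀ e, algebraMap kB (Ft (ze e)) (β' e) * ψ₀ e RatFunc.X * (U e + b e) =
      algebraMap kB (Ft (ze e)) (ω e))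
    -- the component `'et'`
    (hFIet : ∀ j : Option Mid, FundamentalIdentityAlong kB
      (psiB Dt a₀ hadm X φ φe Dcan Det Dexc (Sum.inl 1) j)
      (isIntegral_psiB Dt a₀ hadm X φ φe Dcan Det Dexc hfin (Sum.inl 1) j))
    (hZero : ∀ e, (X.pZero e).restrictAlong
        (psiB Dt a₀ hadm X φ φe Dcan Det Dexc (Sum.inl 1) none)
        (isIntegral_psiB Dt a₀ hadm X φ φe Dcan Det Dexc hfin (Sum.inl 1) none) =
        (setup Dt).s₂ (φe e) ∧
      (X.pZero e).ramificationIndexAlong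
        (psiB Dt a₀ hadm X φ φe Dcan Det Dexc (Sum.inl 1) none) = 1)
    (hMid : ∀ e s, (X.pMid e s).restrictAlong
        (psiB Dt a₀ hadm X φ φe Dcan Det Dexc (Sum.inl 1) (some (X.comp e s)))
        (isIntegral_psiB Dt a₀ hadm X φ φe Dcan Det Dexc hfin (Sum.inl 1) (some (X.comp e s))) =
        (setup Dt).s₂ (φe e) ∧
      (X.pMid e s).ramificationIndexAlong
        (psiB Dt a₀ hadm X φ φe Dcan Det Dexc (Sum.inl 1) (some (X.comp e s))) = (q - 1) / 2)
    (hexhZero' : ∀ e (Q : Place kB (Ft cZero)),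
      Q.restrictAlong (psiB Dt a₀ hadm X φ φe Dcan Det Dexc (Sum.inl 1) none)
        (isIntegral_psiB Dt a₀ hadm X φ φe Dcan Det Dexc hfin (Sum.inl 1) none) =
        (setup Dt).s₂ (φe e) → Q = X.pZero e)
    (hexhMid : ∀ e (i : Mid) (Q : Place kB (Ft (mid i))),
      Q.restrictAlong (psiB Dt a₀ hadm X φ φe Dcan Det Dexc (Sum.inl 1) (some i))
        (isIntegral_psiB Dt a₀ hadm X φ φe Dcan Det Dexc hfin (Sum.inl 1) (some i)) =
        (setup Dt).s₂ (φe e) →
      ∃ s, (⟨mid i, Q⟩ : Σ v, Place kB (Ft v)) = ⟨mid (X.comp e s), X.pMid e s⟩) :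
    ∀ (m : ℕ) (z : Pic0 Kb (Fb (M * q * q)))
      (D : Divisor.degZero (K := Kb) (F := Fb (M * q * q))) (f : Fb (M * q * q))
      (u : ∀ v, Ft v), IsGood X.toInput.setup (lam ^ m) z D f u →
      PicFunct.pic0Push φ hφ hfin hN z = 0 →
      ∀ (av bv : Node (Crossing (chartDataModular B hB hqM)) KP → kB)
        (ha0 : ∀ e, av e ≠ 0) (hb0 : ∀ e, bv e ≠ 0),
      (∀ e, IsValueAt (X.toInput.setup.s₁ e) (u (X.toInput.setup.src e)) (av e)) →
      (∀ e, IsValueAt (X.toInput.setup.s₂ e) (u (X.toInput.setup.tgt e)) (bv e)) →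
      ∃ κ₀ : Fin 2 ⊕ (oneLevel (inputs Dt) a₀ hadm).X → kB, (∀ v, κ₀ v ≠ 0) ∧
        (∀ e, valH hor av bv (nT e) ^ q * κ₀ (exc (inputs Dt) a₀ hadm (φe e)) =
          valV hor av bv (nT e) ^ q * κ₀ (old (inputs Dt) a₀ hadm 0)) ∧
        ∀ e, (valH hor av bv (nW e) * ∏ s, valH hor av bv (nk e s) ^ ((q - 1) / 2)) *
            κ₀ (exc (inputs Dt) a₀ hadm (φe e)) =
          (valV hor av bv (nW e) * ∏ s, valV hor av bv (nk e s) ^ ((q - 1) / 2)) *
            κ₀ (old (inputs Dt) a₀ hadm 1) := by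
  obtain ⟨h1, h2, h3, h4, h5, h6⟩ := Fermat.Agent.BR3.PushModExcFam.exc_hyps_b (k := kB)
    (L := fun e' : Crossing (chartDataModular B hB hqM) => Ft (ze (φe.symm e'))) q hq2
    (fun e' => hρ (φe.symm e')) (fun e' => hb (φe.symm e')) (fun e' => heq (φe.symm e'))
    (fun e' => hgen (φe.symm e')) (fun e' => c (φe.symm e')) (fun e' => hc (φe.symm e'))
    (fun e' => hsurj (φe.symm e'))
    (zT := fun e' => X.zT (φe.symm e')) (zW := fun e' => X.zW (φe.symm e'))
    (zK := fun e' => X.zK (φe.symm e'))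
    (fun e' => hzT (φe.symm e')) (fun e' => hzW (φe.symm e')) (fun e' => hzK (φe.symm e'))
    (psiExcB Dt a₀ hadm X φ φe Dcan Det Dexc)
    (isIntegral_psiExcB Dt a₀ hadm X φ φe Dcan Det Dexc hfin)
    (fun e' => hβ' (φe.symm e')) (fun e' => hω (φe.symm e'))
    (fun e' => hXb_of_compat Dt a₀ hadm X φ φe Dcan Det Dexc e' (ψ₀ (φe.symm e'))
      (hcompat (φe.symm e') e' (φe.apply_symm_apply e') (a₀ e') rfl (hadm e').1 (hadm e').2) (hψ₀ (φe.symm e')))
  exact hpb_of_fulls Dt a₀ hadm X φ φe Dcan Det Dexc hF₀ hFtM hFt hφ hfin hN hsm lam hlam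
    ((q - 1) / 2) hInf hpow h1 h2 h3 h4 h5 h6 hFIet hZero hMid hexhZero' hexhMid

/-- **(G6-PUSH-MOD) along `b`, `q = 2`, with the exceptional kind discharged**; `d = 1`. -/
theorem hpb_of_fulls_vert₂ [CharP kB 2] [Nonempty KP] (hq2 : q = 2)
    (hF₀ : RiemannPkg Kb (Fb (M * q))) (hFtM : RiemannPkg kB FtM)
    (hFt : ∀ w', RiemannPkg kB (Ft w'))
    [HasPrincipalDivisors Kb (Fb (M * q))] [HasPrincipalDivisors Kb (Fb (M * q * q))]
    [∀ w', HasPrincipalDivisors kB (Ft w')]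
    (hφ : φ.toRingHom.IsIntegral) (hfin : FiniteAlong Kb φ) (hN : NormFormulaAlong Kb φ hfin)
    (hsm : ∀ P : Place Kb (Fb (M * q * q)), X.toInput.setup.IsSmoothPlace P →
      (srefM Dt a₀ hadm).IsSmoothPlace (P.restrictAlong φ hφ))
    (lam : ℕ) (hlam : lam ≠ 0)
    -- the component `'can'`
    (hInf : ∀ e, (X.pInf e).restrictAlong
        (psiB Dt a₀ hadm X φ φe Dcan Det Dexc (Sum.inl 0) ())
        (isIntegral_psiB Dt a₀ hadm X φ φe Dcan Det Dexc hfin (Sum.inl 0) ()) =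
        (setup Dt).s₁ (φe e))
    (hpow : ∀ g : Ft cInf, psiB Dt a₀ hadm X φ φe Dcan Det Dexc (Sum.inl 0) ()
      (normAlong (psiB Dt a₀ hadm X φ φe Dcan Det Dexc (Sum.inl 0) ()) g) = g ^ q)
    -- the vertical data
    {ρ β' ω : Crossing (chartDataModular B hB hqM) → kB} {b U : ∀ e, Ft (ze e)}
    (hρ : ∀ e, ρ e ≠ 0) (hβ' : ∀ e, β' e ≠ 0) (hω : ∀ e, ω e ≠ 0)
    (hb : ∀ e, Transcendental kB (b e))
    (heq : ∀ e, b e * U e ^ 2 + b e ^ 2 * U e = algebraMap kB (Ft (ze e)) (ρ e))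
    (hgen : ∀ e, IntermediateField.adjoin kB {b e, U e} = ⊤)
    (hzT : ∀ e, X.zT e = ptI 2 (hρ e) (hb e) (heq_two (heq e)) (hgen e))
    (hzW : ∀ e, X.zW e = ptZ 2 (hρ e) (hb e) (heq_two (heq e)) (hgen e))
    (hzK : ∀ e s, X.zK e s = ptK₂ (hρ e) (hb e) (heq e) (hgen e))
    (ψ₀ : ∀ e, RatFunc kB →+* Ft (ze e))
    (hcompat : ∀ (e e' : Crossing (chartDataModular B hB hqM)) (he : φe e = e')
      (a : Kb) (ha : a₀ e' = a)
      (h1 : B.valuation ((inputs Dt).ch e').toCore.thick < B.valuation a)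
      (h2 : B.valuation a < 1)
      (y : circleRing ((inputs Dt).ch e').toCore a h1 h2)
      (h : φ (y : Fb (M * q)) ∈ (X.C (ze e)).O),
      (X.C (ze e)).res ⟨φ (y : Fb (M * q)), h⟩ =
        ψ₀ e (circleRes ((inputs Dt).ch e').toCore a h1 h2 y))
    (hψ₀ : ∀ e, algebraMap kB (Ft (ze e)) (β' e) * ψ₀ e RatFunc.X * (U e + b e) =
      algebraMap kB (Ft (ze e)) (ω e))
    -- the component `'et'`
    (hFIet : ∀ j : Option Mid, FundamentalIdentityAlong kB
      (psiB Dt a₀ hadm X φ φe Dcan Det Dexc (Sum.inl 1) j)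
      (isIntegral_psiB Dt a₀ hadm X φ φe Dcan Det Dexc hfin (Sum.inl 1) j))
    (hZero : ∀ e, (X.pZero e).restrictAlong
        (psiB Dt a₀ hadm X φ φe Dcan Det Dexc (Sum.inl 1) none)
        (isIntegral_psiB Dt a₀ hadm X φ φe Dcan Det Dexc hfin (Sum.inl 1) none) =
        (setup Dt).s₂ (φe e) ∧
      (X.pZero e).ramificationIndexAlong
        (psiB Dt a₀ hadm X φ φe Dcan Det Dexc (Sum.inl 1) none) = 1)
    (hMid : ∀ e s, (X.pMid e s).restrictAlong
        (psiB Dt a₀ hadm X φ φe Dcan Det Dexc (Sum.inl 1) (some (X.comp e s)))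
        (isIntegral_psiB Dt a₀ hadm X φ φe Dcan Det Dexc hfin (Sum.inl 1) (some (X.comp e s))) =
        (setup Dt).s₂ (φe e) ∧
      (X.pMid e s).ramificationIndexAlong
        (psiB Dt a₀ hadm X φ φe Dcan Det Dexc (Sum.inl 1) (some (X.comp e s))) = 1)
    (hexhZero' : ∀ e (Q : Place kB (Ft cZero)),
      Q.restrictAlong (psiB Dt a₀ hadm X φ φe Dcan Det Dexc (Sum.inl 1) none)
        (isIntegral_psiB Dt a₀ hadm X φ φe Dcan Det Dexc hfin (Sum.inl 1) none) =
        (setup Dt).s₂ (φe e) → Q = X.pZero e)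
    (hexhMid : ∀ e (i : Mid) (Q : Place kB (Ft (mid i))),
      Q.restrictAlong (psiB Dt a₀ hadm X φ φe Dcan Det Dexc (Sum.inl 1) (some i))
        (isIntegral_psiB Dt a₀ hadm X φ φe Dcan Det Dexc hfin (Sum.inl 1) (some i)) =
        (setup Dt).s₂ (φe e) →
      ∃ s, (⟨mid i, Q⟩ : Σ v, Place kB (Ft v)) = ⟨mid (X.comp e s), X.pMid e s⟩) :
    ∀ (m : ℕ) (z : Pic0 Kb (Fb (M * q * q)))
      (D : Divisor.degZero (K := Kb) (F := Fb (M * q * q))) (f : Fb (M * q * q))
      (u : ∀ v, Ft v), IsGood X.toInput.setup (lam ^ m) z D f u →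
      PicFunct.pic0Push φ hφ hfin hN z = 0 →
      ∀ (av bv : Node (Crossing (chartDataModular B hB hqM)) KP → kB)
        (ha0 : ∀ e, av e ≠ 0) (hb0 : ∀ e, bv e ≠ 0),
      (∀ e, IsValueAt (X.toInput.setup.s₁ e) (u (X.toInput.setup.src e)) (av e)) →
      (∀ e, IsValueAt (X.toInput.setup.s₂ e) (u (X.toInput.setup.tgt e)) (bv e)) →
      ∃ κ₀ : Fin 2 ⊕ (oneLevel (inputs Dt) a₀ hadm).X → kB, (∀ v, κ₀ v ≠ 0) ∧
        (∀ e, valH hor av bv (nT e) ^ q * κ₀ (exc (inputs Dt) a₀ hadm (φe e)) =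
          valV hor av bv (nT e) ^ q * κ₀ (old (inputs Dt) a₀ hadm 0)) ∧
        ∀ e, (valH hor av bv (nW e) * ∏ s, valH hor av bv (nk e s) ^ 1) *
            κ₀ (exc (inputs Dt) a₀ hadm (φe e)) =
          (valV hor av bv (nW e) * ∏ s, valV hor av bv (nk e s) ^ 1) *
            κ₀ (old (inputs Dt) a₀ hadm 1) := by
  obtain ⟨h1, h2, h3, h4, h5, h6⟩ := Fermat.Agent.BR3.PushModExcFam.exc_hyps_b₂ (k := kB)
    (L := fun e' : Crossing (chartDataModular B hB hqM) => Ft (ze (φe.symm e')))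
    (fun e' => hρ (φe.symm e')) (fun e' => hb (φe.symm e')) (fun e' => heq (φe.symm e'))
    (fun e' => hgen (φe.symm e'))
    (zT := fun e' => X.zT (φe.symm e')) (zW := fun e' => X.zW (φe.symm e'))
    (zK := fun e' => X.zK (φe.symm e'))
    (fun e' => hzT (φe.symm e')) (fun e' => hzW (φe.symm e')) (fun e' => hzK (φe.symm e'))
    (psiExcB Dt a₀ hadm X φ φe Dcan Det Dexc)
    (isIntegral_psiExcB Dt a₀ hadm X φ φe Dcan Det Dexc hfin)
    (fun e' => hβ' (φe.symm e')) (fun e' => hω (φe.symm e'))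
    (fun e' => hXb_of_compat Dt a₀ hadm X φ φe Dcan Det Dexc e' (ψ₀ (φe.symm e'))
      (hcompat (φe.symm e') e' (φe.apply_symm_apply e') (a₀ e') rfl (hadm e').1 (hadm e').2) (hψ₀ (φe.symm e')))
  exact hpb_of_fulls Dt a₀ hadm X φ φe Dcan Det Dexc hF₀ hFtM hFt hφ hfin hN hsm lam hlam 1
    hInf hpow h1 (fun e' => ⟨(h2 e').1, (h2 e').2.trans hq2.symm⟩) h3 h4 h5 h6 hFIet hZero hMid
    hexhZero' hexhMid

end Fermat.Agent.BR3.PushModExcPlugB
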