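import Mathlib
import Fermat.Agent.BR3.PushModExcA
import Fermat.Agent.BR3.VertPtsU

/-!
# Program C (S36), node (G6-PUSH-MOD): the exceptional kind along `a`, uniformly in the prime `q`

`L = AdjoinRoot (vertBar q β ρ)` the residue field of the vertical component `z e`, with the special
points `ptIBar`, `ptZBar` and the Kummer points `ptKFam q hβ hρ : KPq q → Place k L`
(`BR3/VertPtsU`, uniform in `q`), `ψ : k(X) →ₐ[k] L` with `β ψ(X) = b̃` (the residue extension of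
`z e` over the exceptional component of `S'ref_a`).

* `zK_a_fam` : `ptKFam s` lies over `X = ∞` with ramification index `midDeg q` (all `q`);
* `exhInf_a_fam` : the points over `X = ∞` are `ptIBar` and the `ptKFam s`;
* **`exc_hyps_a_fam`** : the six hypotheses `hFIexc`, `hZT`, `hZK`, `hexhInf`, `hZW`, `hexhZero` of
  `PushModFull.hpa_of_fulls` for a family `e ↦ AdjoinRoot (vertBar q (β e) (ρ e))`, with
  `KP = KPq q`, `d = midDeg q`, no case distinction on `q` left to the caller.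
-/

set_option autoImplicit false
set_option linter.unusedVariables false
set_option linter.unusedSectionVars false
set_option linter.style.haveILetI false

noncomputable section

open AlgebraicCurve Polynomial

namespace Fermat.Agent.BR3.PushModExcU

open Fermat.Agent.Red Fermat.Agent.X0 Fermat.Agent.BR.P1 Fermat.Agent.BR3.VertPts
  Fermat.Agent.BR3.VertPtsDef Fermat.Agent.BR3.VertPtsRam Fermat.Agent.BR3.PushModExcA
  Fermat.Agent.BR3.VertPtsU Fermat.Agent.BR3.IgSq Fermat.Agent.BR3.VertResidue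
  Fermat.Agent.BR3.VertResField

section One

variable {k : Type*} [Field k] [IsAlgClosed k] (q : ℕ) [hq : Fact q.Prime] [CharP k q] {β ρ : k}
  [hP : Fact (Irreducible (vertBar q β ρ))] (hβ : β ≠ 0) (hρ : ρ ≠ 0)
  (ψ : RatFunc k →ₐ[k] AdjoinRoot (vertBar q β ρ)) (hψ : ψ.toRingHom.IsIntegral)
  (hXa : algebraMap k (AdjoinRoot (vertBar q β ρ)) β * ψ RatFunc.X =
    AdjoinRoot.of (vertBar q β ρ) (RatFunc.C β * RatFunc.X))

include hXa in
/-- **`hZK`**, along `a`, all `q`: the Kummer point `ptKFam s` lies over `X = ∞` with index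
`midDeg q`. -/
theorem zK_a_fam (s : KPq q) :
    (ptKFam q hβ hρ s).restrictAlong ψ hψ = placeInfty k ∧
      (ptKFam q hβ hρ s).ramificationIndexAlong ψ = midDeg q := by
  by_cases hq2 : q = 2
  · subst hq2
    rw [ptKFam_eq_ptKBar₂ hβ hρ s, midDeg_two]
    exact zK_a₂ hβ hρ ψ hψ hXa
  · rw [ptKFam_eq_ptKBar q hβ hρ hq2 s, midDeg_of_ne_two hq2]
    exact zK_a q hβ hρ ψ hψ hXa hq2 (rootsK_sq q ρ s)

include hXa in
/-- **`hexhInf`**, along `a`, all `q`: the points over `X = ∞` are `ptIBar` and the Kummer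
points. -/
theorem exhInf_a_fam {Q : Place k (AdjoinRoot (vertBar q β ρ))}
    (hQ : Q.restrictAlong ψ hψ = placeInfty k) :
    Q = ptIBar q hβ hρ ∨ ∃ s : KPq q, Q = ptKFam q hβ hρ s := by
  by_cases hq2 : q = 2
  · subst hq2
    rcases exhInf_a₂ hβ hρ ψ hψ hXa hQ with h | h
    · exact Or.inl h
    · exact Or.inr ⟨0, h.trans (ptKFam_eq_ptKBar₂ hβ hρ 0).symm⟩
  · rcases exhInf_a q hβ hρ ψ hψ hXa hq2 (rootsK q ρ) (rootsK_sq q ρ)
      (fun c' hc' => rootsK_surj q ρ hc') hQ with h | ⟨s, h⟩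
    · exact Or.inl h
    · exact Or.inr ⟨s, h.trans (ptKFam_eq_ptKBar q hβ hρ hq2 s).symm⟩

end One

section Family

variable {k : Type*} [Field k] [IsAlgClosed k] (q : ℕ) [hq : Fact q.Prime] [CharP k q]
  {E : Type*} {β ρ : E → k} [hP : ∀ e, Fact (Irreducible (vertBar q (β e) (ρ e)))]
  (hβ : ∀ e, β e ≠ 0) (hρ : ∀ e, ρ e ≠ 0)
  {zT zW : ∀ e, Place k (AdjoinRoot (vertBar q (β e) (ρ e)))}
  {zK : ∀ e, KPq q → Place k (AdjoinRoot (vertBar q (β e) (ρ e)))}
  (hzT : ∀ e, zT e = ptIBar q (hβ e) (hρ e)) (hzW : ∀ e, zW e = ptZBar q (hβ e) (hρ e))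
  (hzK : ∀ e s, zK e s = ptKFam q (hβ e) (hρ e) s)
  (ψ : ∀ e, RatFunc k →ₐ[k] AdjoinRoot (vertBar q (β e) (ρ e)))
  (hψ : ∀ e, (ψ e).toRingHom.IsIntegral)

include hzT hzW hzK in
/-- **The exceptional kind along `a`, uniformly in `q`**: the hypotheses `hFIexc`, `hZT`, `hZK`,
`hexhInf`, `hZW`, `hexhZero` of `PushModFull.hpa_of_fulls` with `KP = KPq q`, `d = midDeg q`. -/
theorem exc_hyps_a_fam [∀ e, HasPrincipalDivisors k (AdjoinRoot (vertBar q (β e) (ρ e)))]
    (hXa : ∀ e, algebraMap k (AdjoinRoot (vertBar q (β e) (ρ e))) (β e) * ψ e RatFunc.X =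
      AdjoinRoot.of (vertBar q (β e) (ρ e)) (RatFunc.C (β e) * RatFunc.X)) :
    (∀ e, FundamentalIdentityAlong k (ψ e) (hψ e)) ∧
    (∀ e, (zT e).restrictAlong (ψ e) (hψ e) = placeInfty k ∧
      (zT e).ramificationIndexAlong (ψ e) = 1) ∧
    (∀ e s, (zK e s).restrictAlong (ψ e) (hψ e) = placeInfty k ∧
      (zK e s).ramificationIndexAlong (ψ e) = midDeg q) ∧
    (∀ e (Q : Place k (AdjoinRoot (vertBar q (β e) (ρ e)))),
      Q.restrictAlong (ψ e) (hψ e) = placeInfty k → Q = zT e ∨ ∃ s, Q = zK e s) ∧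
    (∀ e, (zW e).restrictAlong (ψ e) (hψ e) = placeAt k 0 ∧
      (zW e).ramificationIndexAlong (ψ e) = q) ∧
    ∀ e (Q : Place k (AdjoinRoot (vertBar q (β e) (ρ e)))),
      Q.restrictAlong (ψ e) (hψ e) = placeAt k 0 → Q = zW e := by
  refine ⟨fun e => ?_, fun e => ?_, fun e s => ?_, fun e Q hQ => ?_, fun e => ?_, fun e Q hQ => ?_⟩
  · exact fi_a q (hβ e) (hρ e) (ψ e) (hψ e) (hXa e)
  · rw [hzT e]
    exact zT_a q (hβ e) (hρ e) (ψ e) (hψ e) (hXa e)
  · rw [hzK e s]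
    exact zK_a_fam q (hβ e) (hρ e) (ψ e) (hψ e) (hXa e) s
  · rcases exhInf_a_fam q (hβ e) (hρ e) (ψ e) (hψ e) (hXa e) hQ with h | ⟨s, h⟩
    · exact Or.inl (h.trans (hzT e).symm)
    · exact Or.inr ⟨s, h.trans (hzK e s).symm⟩
  · rw [hzW e]
    exact zW_a q (hβ e) (hρ e) (ψ e) (hψ e) (hXa e)
  · rw [hzW e]
    exact exhZero_a q (hβ e) (hρ e) (ψ e) (hψ e) (hXa e) hQ

end Family

end Fermat.Agent.BR3.PushModExcU
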