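import Mathlib
import Fermat.Agent.BR3.PushModExcA
import Fermat.Agent.BR3.VertPtsU

/-!
# Program C (S36), node (G6-PUSH-MOD): the exceptional kind along `b`, uniformly in the prime `q`

The `b`-twin of `BR3/PushModExcU`.  `L = AdjoinRoot (vertBar q β ρ)` the residue field of the
vertical component `z e`, with the special points `ptIBar`, `ptZBar` and the Kummer points
`ptKFam q hβ hρ : KPq q → Place k L` (`BR3/VertPtsU`, uniform in `q`), `ψ : k(X) →ₐ[k] L` with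
`β' ψ(X) (Ũ + b̃) = ω` (the residue extension of `z e` over the exceptional component of
`S'ref_b`).

* `zK_b_fam` : `ptKFam s` lies over `X = 0` with ramification index `midDeg q` (all `q`);
* `exhZero_b_fam` : the points over `X = 0` are `ptZBar` and the `ptKFam s`;
* **`exc_hyps_b_fam`** : the six hypotheses `hFIexc`, `hZT`, `hexhInf`, `hZW`, `hZK`, `hexhZero` of
  `PushModNRB.hpb_of_fulls` (in that order) for a family
  `e ↦ AdjoinRoot (vertBar q (β e) (ρ e))`, with `KP = KPq q`, `d = midDeg q`, no case distinction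
  on `q` left to the caller.
-/

set_option autoImplicit false
set_option linter.unusedVariables false
set_option linter.unusedSectionVars false
set_option linter.style.haveILetI false

noncomputable section

open AlgebraicCurve Polynomial

namespace Fermat.Agent.BR3.PushModExcUB

open Fermat.Agent.Red Fermat.Agent.X0 Fermat.Agent.BR.P1 Fermat.Agent.BR3.VertPts
  Fermat.Agent.BR3.VertPtsDef Fermat.Agent.BR3.VertPtsRam Fermat.Agent.BR3.PushModExcA
  Fermat.Agent.BR3.VertPtsU Fermat.Agent.BR3.IgSq Fermat.Agent.BR3.VertResidue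
  Fermat.Agent.BR3.VertResField

section One

variable {k : Type*} [Field k] [IsAlgClosed k] (q : ℕ) [hq : Fact q.Prime] [CharP k q] {β ρ : k}
  [hP : Fact (Irreducible (vertBar q β ρ))] (hβ : β ≠ 0) (hρ : ρ ≠ 0)
  (ψ : RatFunc k →ₐ[k] AdjoinRoot (vertBar q β ρ)) (hψ : ψ.toRingHom.IsIntegral)
  {β' ω : k} (hβ' : β' ≠ 0) (hω : ω ≠ 0)
  (hXb : algebraMap k (AdjoinRoot (vertBar q β ρ)) β' * ψ RatFunc.X *
      (AdjoinRoot.root (vertBar q β ρ) +
        AdjoinRoot.of (vertBar q β ρ) (RatFunc.C β * RatFunc.X)) =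
    algebraMap k (AdjoinRoot (vertBar q β ρ)) ω)

include hβ' hω hXb in
/-- **`hZK`**, along `b`, all `q`: the Kummer point `ptKFam s` lies over `X = 0` with index
`midDeg q`. -/
theorem zK_b_fam (s : KPq q) :
    (ptKFam q hβ hρ s).restrictAlong ψ hψ = placeAt k 0 ∧
      (ptKFam q hβ hρ s).ramificationIndexAlong ψ = midDeg q := by
  by_cases hq2 : q = 2
  · subst hq2
    rw [ptKFam_eq_ptKBar₂ hβ hρ s, midDeg_two]
    exact zK_b₂ hβ hρ ψ hψ hβ' hω hXb
  · rw [ptKFam_eq_ptKBar q hβ hρ hq2 s, midDeg_of_ne_two hq2]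
    exact zK_b q hβ hρ ψ hψ hβ' hω hXb hq2 (rootsK_sq q ρ s)

include hβ' hω hXb in
/-- **`hexhZero`**, along `b`, all `q`: the points over `X = 0` are `ptZBar` and the Kummer
points. -/
theorem exhZero_b_fam {Q : Place k (AdjoinRoot (vertBar q β ρ))}
    (hQ : Q.restrictAlong ψ hψ = placeAt k 0) :
    Q = ptZBar q hβ hρ ∨ ∃ s : KPq q, Q = ptKFam q hβ hρ s := by
  by_cases hq2 : q = 2
  · subst hq2
    rcases exhZero_b₂ hβ hρ ψ hψ hβ' hω hXb hQ with h | h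
    · exact Or.inl h
    · exact Or.inr ⟨0, h.trans (ptKFam_eq_ptKBar₂ hβ hρ 0).symm⟩
  · rcases exhZero_b q hβ hρ ψ hψ hβ' hω hXb hq2 (rootsK q ρ) (rootsK_sq q ρ)
      (fun c' hc' => rootsK_surj q ρ hc') hQ with h | ⟨s, h⟩
    · exact Or.inl h
    · exact Or.inr ⟨s, h.trans (ptKFam_eq_ptKBar q hβ hρ hq2 s).symm⟩

end One

section Family

variable {k : Type*} [Field k] [IsAlgClosed k] (q : ℕ) [hq : Fact q.Prime] [CharP k q]
  {E : Type*} {β ρ : E → k} [hP : ∀ e, Fact (Irreducible (vertBar q (β e) (ρ e)))]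
  (hβ : ∀ e, β e ≠ 0) (hρ : ∀ e, ρ e ≠ 0)
  {zT zW : ∀ e, Place k (AdjoinRoot (vertBar q (β e) (ρ e)))}
  {zK : ∀ e, KPq q → Place k (AdjoinRoot (vertBar q (β e) (ρ e)))}
  (hzT : ∀ e, zT e = ptIBar q (hβ e) (hρ e)) (hzW : ∀ e, zW e = ptZBar q (hβ e) (hρ e))
  (hzK : ∀ e s, zK e s = ptKFam q (hβ e) (hρ e) s)
  (ψ : ∀ e, RatFunc k →ₐ[k] AdjoinRoot (vertBar q (β e) (ρ e)))
  (hψ : ∀ e, (ψ e).toRingHom.IsIntegral)
  {β' ω : E → k} (hβ' : ∀ e, β' e ≠ 0) (hω : ∀ e, ω e ≠ 0)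

include hzT hzW hzK hβ' hω in
/-- **The exceptional kind along `b`, uniformly in `q`**: the hypotheses `hFIexc`, `hZT`,
`hexhInf`, `hZW`, `hZK`, `hexhZero` of `PushModNRB.hpb_of_fulls` (in that order) with
`KP = KPq q`, `d = midDeg q`. -/
theorem exc_hyps_b_fam [∀ e, HasPrincipalDivisors k (AdjoinRoot (vertBar q (β e) (ρ e)))]
    (hXb : ∀ e, algebraMap k (AdjoinRoot (vertBar q (β e) (ρ e))) (β' e) * ψ e RatFunc.X *
        (AdjoinRoot.root (vertBar q (β e) (ρ e)) +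
          AdjoinRoot.of (vertBar q (β e) (ρ e)) (RatFunc.C (β e) * RatFunc.X)) =
      algebraMap k (AdjoinRoot (vertBar q (β e) (ρ e))) (ω e)) :
    (∀ e, FundamentalIdentityAlong k (ψ e) (hψ e)) ∧
    (∀ e, (zT e).restrictAlong (ψ e) (hψ e) = placeInfty k ∧
      (zT e).ramificationIndexAlong (ψ e) = q) ∧
    (∀ e (Q : Place k (AdjoinRoot (vertBar q (β e) (ρ e)))),
      Q.restrictAlong (ψ e) (hψ e) = placeInfty k → Q = zT e) ∧
    (∀ e, (zW e).restrictAlong (ψ e) (hψ e) = placeAt k 0 ∧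
      (zW e).ramificationIndexAlong (ψ e) = 1) ∧
    (∀ e s, (zK e s).restrictAlong (ψ e) (hψ e) = placeAt k 0 ∧
      (zK e s).ramificationIndexAlong (ψ e) = midDeg q) ∧
    ∀ e (Q : Place k (AdjoinRoot (vertBar q (β e) (ρ e)))),
      Q.restrictAlong (ψ e) (hψ e) = placeAt k 0 → Q = zW e ∨ ∃ s, Q = zK e s := by
  refine ⟨fun e => ?_, fun e => ?_, fun e Q hQ => ?_, fun e => ?_, fun e s => ?_, fun e Q hQ => ?_⟩
  · exact fi_b q (hβ e) (hρ e) (ψ e) (hψ e) (hβ' e) (hω e) (hXb e)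
  · rw [hzT e]
    exact zT_b q (hβ e) (hρ e) (ψ e) (hψ e) (hβ' e) (hω e) (hXb e)
  · rw [hzT e]
    exact exhInf_b q (hβ e) (hρ e) (ψ e) (hψ e) (hβ' e) (hω e) (hXb e) hQ
  · rw [hzW e]
    exact zW_b q (hβ e) (hρ e) (ψ e) (hψ e) (hβ' e) (hω e) (hXb e)
  · rw [hzK e s]
    exact zK_b_fam q (hβ e) (hρ e) (ψ e) (hψ e) (hβ' e) (hω e) (hXb e) s
  · rcases exhZero_b_fam q (hβ e) (hρ e) (ψ e) (hψ e) (hβ' e) (hω e) (hXb e) hQ with h | ⟨s, h⟩
    · exact Or.inl (h.trans (hzW e).symm)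
    · exact Or.inr ⟨s, h.trans (hzK e s).symm⟩

end Family

end Fermat.Agent.BR3.PushModExcUB
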