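import Mathlib
import Fermat.Agent.BR3.PushModEtA

/-!
# Program C (S36), node (G6-PUSH-MOD): the middle components over `'can'` along `a`

## generic

* `restrict_eq_of_isValueAt`, `isValueAt_of_restrict_eq` : the place under `Q` in an extension
  `L / L₀` (with its `Algebra` instance) and the values;
* `ramificationIndexAlong_eq_of_ord` : `e (Q | Q') = d` from `ord_Q (ψ g) = d · ord_{Q'} g`.

## the setting of `BR3/PushModFull`

`V i : F̃_M → Ft (mid i)` the residue extensions of the middle components over `'can'`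
(`psiA … (Sum.inl 0) (some i) = V i` by `PushModEtA.psiA_can_apply`; for the modular instance
`Ft (mid i) = FMid M B`, `V i = algebraMap F̃_M (FMid M B)`).

* **`hMid_of_value`** : the hypothesis `hMid` of `PushModFull.hpa_of_fulls` from the values
  (`KummerGenus.MidFamily.pMid_restrict`) and the orders (`ord_pMid_algebraMap`, `d = fMid`);
* **`hexhMid_of_value`** : the hypothesis `hexhMid` from the surjectivity of every `X.comp e` and the
  uniqueness of the Kummer place over `z₁ e` (`KummerGenus.MidFamily.eq_pMid`).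
-/

set_option autoImplicit false
set_option linter.unusedVariables false
set_option linter.unusedSectionVars false
set_option linter.style.haveILetI false
set_option synthInstance.maxHeartbeats 400000

noncomputable section

/- S36 build-time patch: file-local shortcut instances. They only shorten instance search;
each is the instance that the search finds anyway (reducible, same terms after unfolding). -/
local instance (priority := 100000) Fermat.Agent.BR3.FastInst.instAlgFullC_PushModMidA
    {k : Type*} [Field k] (N : ℕ) :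
    Algebra k ↥(ModularCurve.modularFunctionFieldFullC k N) := inferInstance
local instance (priority := 100000) Fermat.Agent.BR3.FastInst.instFieldFullC_PushModMidA
    {k : Type*} [Field k] (N : ℕ) :
    Field ↥(ModularCurve.modularFunctionFieldFullC k N) := inferInstance
local instance (priority := 100000) Fermat.Agent.BR3.FastInst.instAlgLaurent_PushModMidA
    {k : Type*} [Field k] : Algebra k (LaurentSeries k) := inferInstance


namespace Fermat.Agent.BR3.PushModMidA

open ModularCurve AlgebraicCurve IsLocalRing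
open Fermat.Agent.Red Fermat.Agent.Val Fermat.Agent.X0 Fermat.Agent.BR.SS Fermat.Agent.BR.Refine
open Fermat.Agent.BR.Circle Fermat.Agent.BR.S0 Fermat.Agent.BR.P1
open Fermat.Agent.BR.S0.PointDict Fermat.Agent.BR.S0.RedModular Fermat.Agent.BR.Final
open Fermat.Agent.BR2.SetupOfData Fermat.Agent.BR3.CircleN Fermat.Agent.BR3.SRef
open Fermat.Agent.BR3.SRef.Modular Fermat.Agent.BR3.SDD Fermat.Agent.Jac Fermat.Agent.BR
open Fermat.Agent.BR2.Filt Fermat.Agent.BR3.G5Multi Fermat.Agent.BR3.TorGlue
open Fermat.Agent.BR3.GeoTor Fermat.Agent.BR3.GeoTorPush Fermat.Agent.BR3.PushGlue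
open Fermat.Agent.BR3.PushShapes Fermat.Agent.BR3.MultiVal Fermat.Agent.BR3.PushModFull
open Fermat.Agent.BR3.PushModEtA

/-! ### generic -/

section Generic

variable {k L₀ L : Type*} [Field k] [Field L₀] [Field L] [Algebra k L₀] [Algebra k L]

section Restrict

variable [Algebra L₀ L] [IsScalarTower k L₀ L] [Algebra.IsIntegral L₀ L]

/-- the values at `Q` of the functions of `L₀` are their values at the place under `Q` -/
theorem isValueAt_of_restrict_eq {Q : Place k L} {Q' : Place k L₀} (h : Q.restrict L₀ = Q')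
    (g : L₀) (c : k) (hg : IsValueAt Q (algebraMap L₀ L g) c) : IsValueAt Q' g c := by
  rw [← h]
  exact (Fermat.Agent.BR3.CoverPlaces.isValueAt_restrict_iff Q g c).mpr hg

/-- **The place under `Q`** (for an `Algebra` instance) is characterised by the values. -/
theorem restrict_eq_of_isValueAt (hdeg : ∀ P : Place k L₀, P.deg = 1) (Q : Place k L)
    (Q' : Place k L₀)
    (h : ∀ (g : L₀) (c : k), IsValueAt Q (algebraMap L₀ L g) c → IsValueAt Q' g c) :
    Q.restrict L₀ = Q' := by
  have hψ : (IsScalarTower.toAlgHom k L₀ L).toRingHom.IsIntegral := fun x =>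
    Algebra.IsIntegral.isIntegral (R := L₀) x
  have h1 := restrictAlong_eq_of_isValueAt (IsScalarTower.toAlgHom k L₀ L) hψ hdeg Q Q' h
  rw [← h1]
  apply Place.toValuationSubring_injective
  rfl

end Restrict

/-- **The ramification index from the orders.** -/
theorem ramificationIndexAlong_eq_of_ord (ψ : L₀ →ₐ[k] L) (hψ : ψ.toRingHom.IsIntegral)
    {Q : Place k L} {Q' : Place k L₀} (hQ : Q.restrictAlong ψ hψ = Q') {d : ℕ}
    (hord : ∀ g : L₀, Q.ord (ψ g) = (d : ℤ) * Q'.ord g) : Q.ramificationIndexAlong ψ = d := by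
  obtain ⟨t, ht⟩ := Fermat.Agent.Red.NormalForm.exists_ord_eq_one Q'
  have h := Place.ord_restrictAlong ψ hψ Q t
  rw [hQ, ht, mul_one, hord t, ht, mul_one] at h
  exact_mod_cast h.symm

end Generic

/-! ### the setting of `BR3/PushModFull` -/

section AlongA

variable {M q : ℕ} [NeZero M] [hq : Fact q.Prime]
variable {B : ValuationSubring (AlgebraicClosure ℚ)} {hB : B.LiesOverPrime q} {hqM : ¬ q ∣ M}
variable [IsAlgClosed (ResidueField B)]

local notation "kB" => IsLocalRing.ResidueField B
local notation "FtM" => modularFunctionFieldFullC (IsLocalRing.ResidueField B) M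
local notation "Kb" => AlgebraicClosure ℚ

/-- (shortcut instance) -/
local instance (priority := 100000) instAlgebraFtMShortcutMd :
    Algebra (IsLocalRing.ResidueField B)
      (modularFunctionFieldFullC (IsLocalRing.ResidueField B) M) :=
  inferInstance

variable (Dt : ModularData M q B hB hqM)
  (a₀ : Crossing (chartDataModular B hB hqM) → Kb) (hadm : ∀ e, (inputs Dt).adm e (a₀ e))
  {Mid KP : Type} [Fintype Mid] [Fintype KP]
  {Ft : Comp Mid (Crossing (chartDataModular B hB hqM)) → Type}
  [∀ v, Field (Ft v)] [∀ v, Algebra (ResidueField B) (Ft v)]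
  (X : CaseInput (F := Fb (M * q * q)) B Mid (Crossing (chartDataModular B hB hqM)) KP Ft)
  (φ : Fb (M * q) →ₐ[Kb] Fb (M * q * q))
  {κc : Option Mid → Type} [∀ j, Fintype (κc j)] {κz : Type} [Fintype κz]
  {κe : (oneLevel (inputs Dt) a₀ hadm).X → Type} [∀ x, Fintype (κe x)]
  (Dcan : letI := algebraAlong φ
    MultiVal.Full ((setup Dt).O 0) (fun j : Option Mid => X.toInput.setup.O (wOpt cInf j)) κc)
  (Det : letI := algebraAlong φ
    MultiVal.Full ((setup Dt).O 1) (fun _ : Unit => X.toInput.setup.O cZero) (fun _ => κz))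
  (Dexc : ∀ x : (oneLevel (inputs Dt) a₀ hadm).X, letI := algebraAlong φ
    MultiVal.Full ((srefM Dt a₀ hadm).O (Sum.inr x))
      (fun _ : Unit => X.toInput.setup.O (ze x.1)) (fun _ => κe x))

/-- the residue extension of `mid i` over `'can'` is `V i` -/
theorem psiA_mid_apply (V : ∀ i : Mid, FtM →+* Ft (mid i))
    (hres : ∀ (i : Mid) (y : (setup Dt).O 0) (h : φ (y : Fb (M * q)) ∈ (X.C (mid i)).O),
      (X.C (mid i)).res ⟨φ (y : Fb (M * q)), h⟩ = V i ((setup Dt).res 0 y))
    (i : Mid) (g : FtM) :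
    psiA Dt a₀ hadm X φ Dcan Det Dexc (Sum.inl 0) (some i) g = V i g :=
  psiA_can_apply Dt a₀ hadm X φ Dcan Det Dexc (some i) (V i) (hres i) g

/-- **`hMid`** of `hpa_of_fulls` from the values and the orders. -/
theorem hMid_of_value (V : ∀ i : Mid, FtM →+* Ft (mid i))
    (hres : ∀ (i : Mid) (y : (setup Dt).O 0) (h : φ (y : Fb (M * q)) ∈ (X.C (mid i)).O),
      (X.C (mid i)).res ⟨φ (y : Fb (M * q)), h⟩ = V i ((setup Dt).res 0 y))
    (hFtM : RiemannPkg kB FtM) (hfin : FiniteAlong Kb φ) (d : ℕ)
    (hV : ∀ e s (g : FtM) (c : kB), IsValueAt (X.pMid e s) (V (X.comp e s) g) c →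
      IsValueAt ((setup Dt).s₁ e) g c)
    (hord : ∀ e s (g : FtM), (X.pMid e s).ord (V (X.comp e s) g) =
      (d : ℤ) * ((setup Dt).s₁ e).ord g) :
    ∀ e s, (X.pMid e s).restrictAlong
        (psiA Dt a₀ hadm X φ Dcan Det Dexc (Sum.inl 0) (some (X.comp e s)))
        (isIntegral_psiA Dt a₀ hadm X φ Dcan Det Dexc hfin (Sum.inl 0) (some (X.comp e s))) =
        (setup Dt).s₁ e ∧
      (X.pMid e s).ramificationIndexAlong
        (psiA Dt a₀ hadm X φ Dcan Det Dexc (Sum.inl 0) (some (X.comp e s))) = d := by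
  intro e s
  have key : ∀ (c : kB) (x y : Ft (mid (X.comp e s))), x = y →
      IsValueAt (X.pMid e s) x c → IsValueAt (X.pMid e s) y c := fun c x y hxy hx => hxy ▸ hx
  have h1 : (X.pMid e s).restrictAlong
      (psiA Dt a₀ hadm X φ Dcan Det Dexc (Sum.inl 0) (some (X.comp e s)))
      (isIntegral_psiA Dt a₀ hadm X φ Dcan Det Dexc hfin (Sum.inl 0) (some (X.comp e s))) =
      (setup Dt).s₁ e :=
    restrictAlong_eq_of_isValueAt _ _ (fun P => hFtM.deg_one P) _ _ (fun g c h =>
      hV e s g c (key c _ _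
        (psiA_mid_apply Dt a₀ hadm X φ Dcan Det Dexc V hres (X.comp e s) g) h))
  refine ⟨h1, ramificationIndexAlong_eq_of_ord _ _ h1 (fun g => ?_)⟩
  have h2 := hord e s g
  have key2 : ∀ (x y : Ft (mid (X.comp e s))), x = y →
      (X.pMid e s).ord y = (d : ℤ) * ((setup Dt).s₁ e).ord g →
      (X.pMid e s).ord x = (d : ℤ) * ((setup Dt).s₁ e).ord g := fun x y hxy hy => hxy ▸ hy
  exact key2 _ _ (psiA_mid_apply Dt a₀ hadm X φ Dcan Det Dexc V hres (X.comp e s) g) h2

/-- **`hexhMid`** of `hpa_of_fulls` from the uniqueness of the Kummer place over `z₁ e`. -/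
theorem hexhMid_of_value (V : ∀ i : Mid, FtM →+* Ft (mid i))
    (hres : ∀ (i : Mid) (y : (setup Dt).O 0) (h : φ (y : Fb (M * q)) ∈ (X.C (mid i)).O),
      (X.C (mid i)).res ⟨φ (y : Fb (M * q)), h⟩ = V i ((setup Dt).res 0 y))
    (hfin : FiniteAlong Kb φ)
    (hall : ∀ e i, ∃ s, X.comp e s = i)
    (huniq : ∀ e s (Q : Place kB (Ft (mid (X.comp e s)))),
      (∀ (g : FtM) (c : kB), IsValueAt Q (V (X.comp e s) g) c →
        IsValueAt ((setup Dt).s₁ e) g c) → Q = X.pMid e s) :
    ∀ e (i : Mid) (Q : Place kB (Ft (mid i))),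
      Q.restrictAlong (psiA Dt a₀ hadm X φ Dcan Det Dexc (Sum.inl 0) (some i))
        (isIntegral_psiA Dt a₀ hadm X φ Dcan Det Dexc hfin (Sum.inl 0) (some i)) =
        (setup Dt).s₁ e →
      ∃ s, (⟨mid i, Q⟩ : Σ v, Place kB (Ft v)) = ⟨mid (X.comp e s), X.pMid e s⟩ := by
  intro e i Q hQ
  obtain ⟨s, rfl⟩ := hall e i
  refine ⟨s, ?_⟩
  have key : ∀ (c : kB) (x y : Ft (mid (X.comp e s))), x = y →
      IsValueAt Q x c → IsValueAt Q y c := fun c x y hxy hx => hxy ▸ hx
  rw [huniq e s Q (fun g c h => ?_)]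
  rw [← hQ]
  refine (isValueAt_restrictAlong_iff _ _ Q g c).mpr ?_
  exact key c _ _ (psiA_mid_apply Dt a₀ hadm X φ Dcan Det Dexc V hres (X.comp e s) g).symm h

end AlongA

end Fermat.Agent.BR3.PushModMidA
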