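import Mathlib
import Fermat.Agent.BR3.PushModNRB
import Fermat.Agent.BR3.PushModMidA

/-!
# Program C (S36), node (G6-PUSH-MOD), (b-2): the horizontal kinds of `PushModNRB.hpb_of_fulls`
from the residue maps of the horizontal components along `b`

Setting of `BR3/PushModNRB` (section `AlongB`); the mirror of `BR3/PushModEtA` + `BR3/PushModMidA`.

* `psiB_can_apply` (`cInf` over `'can'`, purely inseparable: `V = qExpandFullC`,
  `FibreInsepMod.res_cInf_beta2`), `psiB_et_apply` (`cZero`, `mid i` over `'et'`), `psiB_mid_apply` :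
  the residue extensions `psiB …` are given maps `V` as soon as the residue maps are compatible with
  `V` (`PushGlue.resHom_unique`);
* **`hInfB_of_value`** : the hypothesis `hInf` of `hpb_of_fulls` from
  `IsValueAt (X.pInf e) (V g) c → IsValueAt (s₁ (φe e)) g c`;
* **`hZeroB_of_value`**, **`hexhZeroB'_of_value`** : the hypotheses `hZero` (index `1`), `hexhZero'`
  for a surjective residue extension of `cZero` over `'et'`;
* **`hMidB_of_value`**, **`hexhMidB_of_value`** : the hypotheses `hMid` (index `d`), `hexhMid` from the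
  values, the orders and the uniqueness of the Kummer place over `z₂ (φe e)`.
-/

set_option autoImplicit false
set_option linter.unusedVariables false
set_option linter.unusedSectionVars false
set_option linter.style.haveILetI false
set_option synthInstance.maxHeartbeats 400000

noncomputable section

/- S36 build-time patch: file-local shortcut instances. They only shorten instance search;
each is the instance that the search finds anyway (reducible, same terms after unfolding). -/
local instance (priority := 100000) Fermat.Agent.BR3.FastInst.instAlgFullC_PushModHorB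
    {k : Type*} [Field k] (N : ℕ) :
    Algebra k ↥(ModularCurve.modularFunctionFieldFullC k N) := inferInstance
local instance (priority := 100000) Fermat.Agent.BR3.FastInst.instFieldFullC_PushModHorB
    {k : Type*} [Field k] (N : ℕ) :
    Field ↥(ModularCurve.modularFunctionFieldFullC k N) := inferInstance
local instance (priority := 100000) Fermat.Agent.BR3.FastInst.instAlgLaurent_PushModHorB
    {k : Type*} [Field k] : Algebra k (LaurentSeries k) := inferInstance


namespace Fermat.Agent.BR3.PushModHorB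

open ModularCurve AlgebraicCurve IsLocalRing
open Fermat.Agent.Red Fermat.Agent.Val Fermat.Agent.X0 Fermat.Agent.BR.SS Fermat.Agent.BR.Refine
open Fermat.Agent.BR.Circle Fermat.Agent.BR.S0 Fermat.Agent.BR.P1
open Fermat.Agent.BR.S0.PointDict Fermat.Agent.BR.S0.RedModular Fermat.Agent.BR.Final
open Fermat.Agent.BR2.SetupOfData Fermat.Agent.BR3.CircleN Fermat.Agent.BR3.SRef
open Fermat.Agent.BR3.SRef.Modular Fermat.Agent.BR3.SDD Fermat.Agent.Jac Fermat.Agent.BR
open Fermat.Agent.BR2.Filt Fermat.Agent.BR3.G5Multi Fermat.Agent.BR3.TorGlue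
open Fermat.Agent.BR3.GeoTor Fermat.Agent.BR3.GeoTorPush Fermat.Agent.BR3.PushGlue
open Fermat.Agent.BR3.PushShapes Fermat.Agent.BR3.MultiVal Fermat.Agent.BR3.PushModFull
open Fermat.Agent.BR3.PushModNRB Fermat.Agent.BR3.PushModEtA Fermat.Agent.BR3.PushModMidA

section AlongB

variable {M q : ℕ} [NeZero M] [hq : Fact q.Prime]
variable {B : ValuationSubring (AlgebraicClosure ℚ)} {hB : B.LiesOverPrime q} {hqM : ¬ q ∣ M}
variable [IsAlgClosed (ResidueField B)]

local notation "kB" => IsLocalRing.ResidueField B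
local notation "FtM" => modularFunctionFieldFullC (IsLocalRing.ResidueField B) M
local notation "Kb" => AlgebraicClosure ℚ

/-- (shortcut instance) -/
local instance (priority := 100000) instAlgebraFtMShortcutHB :
    Algebra (IsLocalRing.ResidueField B)
      (modularFunctionFieldFullC (IsLocalRing.ResidueField B) M) :=
  inferInstance

variable (Dt : ModularData M q B hB hqM)
  (a₀ : Crossing (chartDataModular B hB hqM) → Kb) (hadm : ∀ e, (inputs Dt).adm e (a₀ e))
  {Mid KP : Type} [Fintype Mid] [Fintype KP]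
  {Ft : Comp Mid (Crossing (chartDataModular B hB hqM)) → Type}
  [∀ v, Field (Ft v)] [∀ v, Algebra (ResidueField B) (Ft v)]
  (X : CaseInput (F := Fb (M * q * q)) B Mid (Crossing (chartDataModular B hB hqM)) KP Ft)
  (φ : Fb (M * q) →ₐ[Kb] Fb (M * q * q))
  (φe : Crossing (chartDataModular B hB hqM) ≃ Crossing (chartDataModular B hB hqM))
  {κc : Type} [Fintype κc] {κz : Option Mid → Type} [∀ j, Fintype (κz j)]
  {κe : (oneLevel (inputs Dt) a₀ hadm).X → Type} [∀ x, Fintype (κe x)]
  (Dcan : letI := algebraAlong φ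
    MultiVal.Full ((setup Dt).O 0) (fun _ : Unit => X.toInput.setup.O cInf) (fun _ => κc))
  (Det : letI := algebraAlong φ
    MultiVal.Full ((setup Dt).O 1) (fun j : Option Mid => X.toInput.setup.O (wOpt cZero j)) κz)
  (Dexc : ∀ x : (oneLevel (inputs Dt) a₀ hadm).X, letI := algebraAlong φ
    MultiVal.Full ((srefM Dt a₀ hadm).O (Sum.inr x))
      (fun _ : Unit => X.toInput.setup.O (ze (fstB Dt a₀ hadm φe x))) (fun _ => κe x))

/-- **The residue extension of `cInf` over `'can'` along `b`** is `V` as soon as the residue map of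
`cInf` is compatible with `V`. -/
theorem psiB_can_apply (V : FtM →+* Ft cInf)
    (hres : ∀ (y : (setup Dt).O 0) (h : φ (y : Fb (M * q)) ∈ (X.C cInf).O),
      (X.C cInf).res ⟨φ (y : Fb (M * q)), h⟩ = V ((setup Dt).res 0 y)) (g : FtM) :
    psiB Dt a₀ hadm X φ φe Dcan Det Dexc (Sum.inl 0) () g = V g :=
  (resHom_unique (S₀ := srefM Dt a₀ hadm) (S := X.toInput.setup) (φ := φ) residue_surjective_B
    (liesOverAlong_of_full (fullB Dt a₀ hadm X φ φe Dcan Det Dexc (Sum.inl 0)) ()) V hres g).symm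

/-- **The residue extensions of `cZero`, `mid i` over `'et'` along `b`** are `V` as soon as the
residue map is compatible with `V`. -/
theorem psiB_et_apply (j : Option Mid) (V : FtM →+* Ft (wOpt cZero j))
    (hres : ∀ (y : (setup Dt).O 1) (h : φ (y : Fb (M * q)) ∈ (X.C (wOpt cZero j)).O),
      (X.C (wOpt cZero j)).res ⟨φ (y : Fb (M * q)), h⟩ = V ((setup Dt).res 1 y)) (g : FtM) :
    psiB Dt a₀ hadm X φ φe Dcan Det Dexc (Sum.inl 1) j g = V g :=
  (resHom_unique (S₀ := srefM Dt a₀ hadm) (S := X.toInput.setup) (φ := φ) residue_surjective_B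
    (liesOverAlong_of_full (fullB Dt a₀ hadm X φ φe Dcan Det Dexc (Sum.inl 1)) j) V hres g).symm

/-- the residue extension of `mid i` over `'et'` along `b` is `V i` -/
theorem psiB_mid_apply (V : ∀ i : Mid, FtM →+* Ft (mid i))
    (hres : ∀ (i : Mid) (y : (setup Dt).O 1) (h : φ (y : Fb (M * q)) ∈ (X.C (mid i)).O),
      (X.C (mid i)).res ⟨φ (y : Fb (M * q)), h⟩ = V i ((setup Dt).res 1 y))
    (i : Mid) (g : FtM) :
    psiB Dt a₀ hadm X φ φe Dcan Det Dexc (Sum.inl 1) (some i) g = V i g :=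
  psiB_et_apply Dt a₀ hadm X φ φe Dcan Det Dexc (some i) (V i) (hres i) g

/-- **`hInf`** of `hpb_of_fulls` from the values. -/
theorem hInfB_of_value (hFtM : RiemannPkg kB FtM) (hfin : FiniteAlong Kb φ) (V : FtM →+* Ft cInf)
    (hres : ∀ (y : (setup Dt).O 0) (h : φ (y : Fb (M * q)) ∈ (X.C cInf).O),
      (X.C cInf).res ⟨φ (y : Fb (M * q)), h⟩ = V ((setup Dt).res 0 y))
    (hV : ∀ e (g : FtM) (c : kB), IsValueAt (X.pInf e) (V g) c →
      IsValueAt ((setup Dt).s₁ (φe e)) g c) :
    ∀ e, (X.pInf e).restrictAlong (psiB Dt a₀ hadm X φ φe Dcan Det Dexc (Sum.inl 0) ())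
      (isIntegral_psiB Dt a₀ hadm X φ φe Dcan Det Dexc hfin (Sum.inl 0) ()) =
        (setup Dt).s₁ (φe e) := by
  intro e
  have key : ∀ (c : kB) (x y : Ft cInf), x = y →
      IsValueAt (X.pInf e) x c → IsValueAt (X.pInf e) y c := fun c x y hxy hx => hxy ▸ hx
  exact restrictAlong_eq_of_isValueAt _ _ (fun P => hFtM.deg_one P) _ _ (fun g c h =>
    hV e g c (key c _ _ (psiB_can_apply Dt a₀ hadm X φ φe Dcan Det Dexc V hres g) h))

/-- **`hZero`** of `hpb_of_fulls` for a surjective residue extension of `cZero` over `'et'`. -/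
theorem hZeroB_of_value (hFtM : RiemannPkg kB FtM) (hfin : FiniteAlong Kb φ)
    (V : FtM →+* Ft cZero)
    (hres : ∀ (y : (setup Dt).O 1) (h : φ (y : Fb (M * q)) ∈ (X.C cZero).O),
      (X.C cZero).res ⟨φ (y : Fb (M * q)), h⟩ = V ((setup Dt).res 1 y))
    (hVs : Function.Surjective V)
    (hV : ∀ e (g : FtM) (c : kB), IsValueAt (X.pZero e) (V g) c →
      IsValueAt ((setup Dt).s₂ (φe e)) g c) :
    ∀ e, (X.pZero e).restrictAlong (psiB Dt a₀ hadm X φ φe Dcan Det Dexc (Sum.inl 1) none)
        (isIntegral_psiB Dt a₀ hadm X φ φe Dcan Det Dexc hfin (Sum.inl 1) none) =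
        (setup Dt).s₂ (φe e) ∧
      (X.pZero e).ramificationIndexAlong
        (psiB Dt a₀ hadm X φ φe Dcan Det Dexc (Sum.inl 1) none) = 1 := by
  have hs : Function.Surjective (psiB Dt a₀ hadm X φ φe Dcan Det Dexc (Sum.inl 1) none) :=
    fun x => by
      obtain ⟨g, rfl⟩ := hVs x
      exact ⟨g, psiB_et_apply Dt a₀ hadm X φ φe Dcan Det Dexc none V hres g⟩
  have key : ∀ (e : Crossing (chartDataModular B hB hqM)) (c : kB) (x y : Ft cZero), x = y →
      IsValueAt (X.pZero e) x c → IsValueAt (X.pZero e) y c := fun e c x y hxy hx => hxy ▸ hx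
  refine fun e => ⟨restrictAlong_eq_of_isValueAt _ _ (fun P => hFtM.deg_one P) _ _ (fun g c h =>
    hV e g c (key e c _ _ (psiB_et_apply Dt a₀ hadm X φ φe Dcan Det Dexc none V hres g) h)), ?_⟩
  exact ramificationIndexAlong_of_surjective _
    (isIntegral_psiB Dt a₀ hadm X φ φe Dcan Det Dexc hfin (Sum.inl 1) none) hs _

/-- **`hexhZero'`** of `hpb_of_fulls` for a surjective residue extension of `cZero` over `'et'`. -/
theorem hexhZeroB'_of_value (hFtM : RiemannPkg kB FtM) (hfin : FiniteAlong Kb φ)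
    (V : FtM →+* Ft cZero)
    (hres : ∀ (y : (setup Dt).O 1) (h : φ (y : Fb (M * q)) ∈ (X.C cZero).O),
      (X.C cZero).res ⟨φ (y : Fb (M * q)), h⟩ = V ((setup Dt).res 1 y))
    (hVs : Function.Surjective V)
    (hV : ∀ e (g : FtM) (c : kB), IsValueAt (X.pZero e) (V g) c →
      IsValueAt ((setup Dt).s₂ (φe e)) g c) :
    ∀ e (Q : Place kB (Ft cZero)),
      Q.restrictAlong (psiB Dt a₀ hadm X φ φe Dcan Det Dexc (Sum.inl 1) none)
        (isIntegral_psiB Dt a₀ hadm X φ φe Dcan Det Dexc hfin (Sum.inl 1) none) =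
        (setup Dt).s₂ (φe e) → Q = X.pZero e := by
  have hs : Function.Surjective (psiB Dt a₀ hadm X φ φe Dcan Det Dexc (Sum.inl 1) none) :=
    fun x => by
      obtain ⟨g, rfl⟩ := hVs x
      exact ⟨g, psiB_et_apply Dt a₀ hadm X φ φe Dcan Det Dexc none V hres g⟩
  intro e Q hQ
  refine restrictAlong_injective_of_surjective _
    (isIntegral_psiB Dt a₀ hadm X φ φe Dcan Det Dexc hfin (Sum.inl 1) none) hs ?_
  rw [hQ]
  exact ((hZeroB_of_value Dt a₀ hadm X φ φe Dcan Det Dexc hFtM hfin V hres hVs hV e).1).symm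

/-- **`hMid`** of `hpb_of_fulls` from the values and the orders. -/
theorem hMidB_of_value (V : ∀ i : Mid, FtM →+* Ft (mid i))
    (hres : ∀ (i : Mid) (y : (setup Dt).O 1) (h : φ (y : Fb (M * q)) ∈ (X.C (mid i)).O),
      (X.C (mid i)).res ⟨φ (y : Fb (M * q)), h⟩ = V i ((setup Dt).res 1 y))
    (hFtM : RiemannPkg kB FtM) (hfin : FiniteAlong Kb φ) (d : ℕ)
    (hV : ∀ e s (g : FtM) (c : kB), IsValueAt (X.pMid e s) (V (X.comp e s) g) c →
      IsValueAt ((setup Dt).s₂ (φe e)) g c)
    (hord : ∀ e s (g : FtM), (X.pMid e s).ord (V (X.comp e s) g) =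
      (d : ℤ) * ((setup Dt).s₂ (φe e)).ord g) :
    ∀ e s, (X.pMid e s).restrictAlong
        (psiB Dt a₀ hadm X φ φe Dcan Det Dexc (Sum.inl 1) (some (X.comp e s)))
        (isIntegral_psiB Dt a₀ hadm X φ φe Dcan Det Dexc hfin (Sum.inl 1) (some (X.comp e s))) =
        (setup Dt).s₂ (φe e) ∧
      (X.pMid e s).ramificationIndexAlong
        (psiB Dt a₀ hadm X φ φe Dcan Det Dexc (Sum.inl 1) (some (X.comp e s))) = d := by
  intro e s
  have key : ∀ (c : kB) (x y : Ft (mid (X.comp e s))), x = y →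
      IsValueAt (X.pMid e s) x c → IsValueAt (X.pMid e s) y c := fun c x y hxy hx => hxy ▸ hx
  have h1 : (X.pMid e s).restrictAlong
      (psiB Dt a₀ hadm X φ φe Dcan Det Dexc (Sum.inl 1) (some (X.comp e s)))
      (isIntegral_psiB Dt a₀ hadm X φ φe Dcan Det Dexc hfin (Sum.inl 1) (some (X.comp e s))) =
      (setup Dt).s₂ (φe e) :=
    restrictAlong_eq_of_isValueAt _ _ (fun P => hFtM.deg_one P) _ _ (fun g c h =>
      hV e s g c (key c _ _
        (psiB_mid_apply Dt a₀ hadm X φ φe Dcan Det Dexc V hres (X.comp e s) g) h))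
  refine ⟨h1, ramificationIndexAlong_eq_of_ord _ _ h1 (fun g => ?_)⟩
  have h2 := hord e s g
  have key2 : ∀ (x y : Ft (mid (X.comp e s))), x = y →
      (X.pMid e s).ord y = (d : ℤ) * ((setup Dt).s₂ (φe e)).ord g →
      (X.pMid e s).ord x = (d : ℤ) * ((setup Dt).s₂ (φe e)).ord g := fun x y hxy hy => hxy ▸ hy
  exact key2 _ _ (psiB_mid_apply Dt a₀ hadm X φ φe Dcan Det Dexc V hres (X.comp e s) g) h2

/-- **`hexhMid`** of `hpb_of_fulls` from the uniqueness of the Kummer place over `z₂ (φe e)`. -/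
theorem hexhMidB_of_value (V : ∀ i : Mid, FtM →+* Ft (mid i))
    (hres : ∀ (i : Mid) (y : (setup Dt).O 1) (h : φ (y : Fb (M * q)) ∈ (X.C (mid i)).O),
      (X.C (mid i)).res ⟨φ (y : Fb (M * q)), h⟩ = V i ((setup Dt).res 1 y))
    (hfin : FiniteAlong Kb φ)
    (hall : ∀ e i, ∃ s, X.comp e s = i)
    (huniq : ∀ e s (Q : Place kB (Ft (mid (X.comp e s)))),
      (∀ (g : FtM) (c : kB), IsValueAt Q (V (X.comp e s) g) c →
        IsValueAt ((setup Dt).s₂ (φe e)) g c) → Q = X.pMid e s) :
    ∀ e (i : Mid) (Q : Place kB (Ft (mid i))),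
      Q.restrictAlong (psiB Dt a₀ hadm X φ φe Dcan Det Dexc (Sum.inl 1) (some i))
        (isIntegral_psiB Dt a₀ hadm X φ φe Dcan Det Dexc hfin (Sum.inl 1) (some i)) =
        (setup Dt).s₂ (φe e) →
      ∃ s, (⟨mid i, Q⟩ : Σ v, Place kB (Ft v)) = ⟨mid (X.comp e s), X.pMid e s⟩ := by
  intro e i Q hQ
  obtain ⟨s, rfl⟩ := hall e i
  refine ⟨s, ?_⟩
  have key : ∀ (c : kB) (x y : Ft (mid (X.comp e s))), x = y →
      IsValueAt Q x c → IsValueAt Q y c := fun c x y hxy hx => hxy ▸ hx
  rw [huniq e s Q (fun g c h => ?_)]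
  rw [← hQ]
  refine (isValueAt_restrictAlong_iff _ _ Q g c).mpr ?_
  exact key c _ _ (psiB_mid_apply Dt a₀ hadm X φ φe Dcan Det Dexc V hres (X.comp e s) g).symm h

end AlongB

end Fermat.Agent.BR3.PushModHorB
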