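/-
Program C (S36), node (I7-REGBASE) part (iv) (helper4): transport of the charts of `S₀` to the
one-level refinement `S'ref` (`BR3/SRef/OneLevel`).

* `smoothChartCopy`, `regChartCopy` : a (regular) smooth chart read over an equal tube — same local
  ring and parameter (`rfl` lemmas `smoothChartCopy_R`, `smoothChartCopy_t`, `regChartCopy_chart`);
* `sref_r_eq_old_iff_of_smooth` : at a point `Q` of the component `v` which is not the branch
  `s₁ e` of a node, the places reducing to `⟨old v, Q⟩` in `S'ref` are the places reducing to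
  `⟨v, Q⟩` in `S₀`;
* `smoothChartSRef`, `regChartSRef` (+ `regChartSRef_R`, `regChartSRef_t`) : the charts of `S₀` at
  such a point as charts of `S'ref` at the same point of the old component.
-/
import Mathlib
import Fermat.Agent.BR3.SRef.OneLevel
import Fermat.Agent.BR3.CoverK.Defs

set_option autoImplicit false
set_option linter.unusedSectionVars false

noncomputable section

namespace Fermat.Agent.BR3.RegBase

open AlgebraicCurve IsLocalRing Fermat.Agent.Red Fermat.Agent.BR.Centre Fermat.Agent.BR.SS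
  Fermat.Agent.BR.Refine Fermat.Agent.BR.S0 Fermat.Agent.BR3.CircleN Fermat.Agent.BR3.SRef
  Fermat.Agent.BR3.CoverK

section Copy

variable {K k : Type*} [Field K] [Field k] {F : Type*} [Field F] [Algebra K F]
  {Ft : Type*} [Field Ft] [Algebra k Ft]
  {A : ValuationSubring K} {O : ValuationSubring F} {res : O →+* Ft} {Q : Place k Ft}
  {T T' : Set (Place K F)}

/-- A smooth chart over a tube, read over an equal tube (same ring, same parameter). -/
def smoothChartCopy (C : SmoothChart A O res Q T) (h : ∀ P, P ∈ T' ↔ P ∈ T) :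
    SmoothChart A O res Q T' where
  R := C.R
  le := C.le
  algebraMap_mem := C.algebraMap_mem
  residue := C.residue
  branch := C.branch
  normal := fun y hy hT => C.normal y hy fun P hP => hT P ((h P).2 hP)
  t := C.t
  t_mem := C.t_mem
  ord_res_t := C.ord_res_t
  value := fun P hP => C.value P ((h P).1 hP)
  simple := fun P hP => C.simple P ((h P).1 hP)
  inj := fun P hP P' hP' => C.inj P ((h P).1 hP) P' ((h P').1 hP')

@[simp] theorem smoothChartCopy_R (C : SmoothChart A O res Q T) (h : ∀ P, P ∈ T' ↔ P ∈ T) :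
    (smoothChartCopy C h).R = C.R := rfl

@[simp] theorem smoothChartCopy_t (C : SmoothChart A O res Q T) (h : ∀ P, P ∈ T' ↔ P ∈ T) :
    (smoothChartCopy C h).t = C.t := rfl

/-- A regular chart over a tube, read over an equal tube. -/
def regChartCopy (C : RegChart A O res Q T) (h : ∀ P, P ∈ T' ↔ P ∈ T) :
    RegChart A O res Q T' where
  chart := smoothChartCopy C.chart h
  centred := fun P hP => C.centred P ((h P).1 hP)
  frac := C.frac

@[simp] theorem regChartCopy_chart (C : RegChart A O res Q T) (h : ∀ P, P ∈ T' ↔ P ∈ T) :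
    (regChartCopy C h).chart = smoothChartCopy C.chart h := rfl

end Copy

variable {K : Type} {F : Type*} [Field K] [Field F] [Algebra K F]
  {A : ValuationSubring K} [IsAlgClosed (ResidueField A)]
  {ι₀ : Type} {Ft₀ : ι₀ → Type} [∀ v, Field (Ft₀ v)] [∀ v, Algebra (ResidueField A) (Ft₀ v)]
  {ν₀ : Type}
  {S₀ : SemistableSetup (F := F) A (residue A) ι₀ Ft₀ ν₀}
  (I : CircleInputsN S₀) (a₀ : ν₀ → K) (hadm : ∀ e, I.adm e (a₀ e))

local notation "k" => ResidueField A

/-- **(iv) The tube of `S'ref` at a smooth point of an old component is the tube of `S₀`.** -/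
theorem sref_r_eq_old_iff_of_smooth {v : ι₀} {Q : Place k (Ft₀ v)}
    (hQ : ∀ e, (⟨v, Q⟩ : Σ v, Place k (Ft₀ v)) ≠ ⟨S₀.src e, S₀.s₁ e⟩) (P : Place K F) :
    (sref I a₀ hadm).r P = (⟨old I a₀ hadm v, Q⟩ : (oneLevel I a₀ hadm).PtR) ↔
      S₀.r P = ⟨v, Q⟩ := by
  rw [sref_r_eq_old_iff]
  constructor
  · exact fun h => h.1
  · intro h
    refine ⟨h, Or.inr fun e he => hQ e ?_⟩
    have h1 : S₀.r P = ⟨S₀.src e, S₀.s₁ e⟩ := he
    rw [← h, h1]

/-- The smooth chart of `S₀` at a smooth point of a component, as a smooth chart of `S'ref` at the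
same point of the old component (same ring, same parameter). -/
def smoothChartSRef {v : ι₀} {Q : Place k (Ft₀ v)}
    (hQ : ∀ e, (⟨v, Q⟩ : Σ v, Place k (Ft₀ v)) ≠ ⟨S₀.src e, S₀.s₁ e⟩)
    (C : SmoothChart A (S₀.O v) (S₀.res v) Q {P | S₀.r P = ⟨v, Q⟩}) :
    SmoothChart A ((sref I a₀ hadm).O (old I a₀ hadm v)) ((sref I a₀ hadm).res (old I a₀ hadm v))
      (Q : Place k (FtR Ft₀ A (oneLevel I a₀ hadm).X (old I a₀ hadm v)))
      {P | (sref I a₀ hadm).r P = (⟨old I a₀ hadm v, Q⟩ : (oneLevel I a₀ hadm).PtR)} :=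
  smoothChartCopy C (sref_r_eq_old_iff_of_smooth I a₀ hadm hQ)

/-- The regular chart of `S₀` at a smooth point of a component, as a regular chart of `S'ref`. -/
def regChartSRef {v : ι₀} {Q : Place k (Ft₀ v)}
    (hQ : ∀ e, (⟨v, Q⟩ : Σ v, Place k (Ft₀ v)) ≠ ⟨S₀.src e, S₀.s₁ e⟩)
    (C : RegChart A (S₀.O v) (S₀.res v) Q {P | S₀.r P = ⟨v, Q⟩}) :
    RegChart A ((sref I a₀ hadm).O (old I a₀ hadm v)) ((sref I a₀ hadm).res (old I a₀ hadm v))
      (Q : Place k (FtR Ft₀ A (oneLevel I a₀ hadm).X (old I a₀ hadm v)))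
      {P | (sref I a₀ hadm).r P = (⟨old I a₀ hadm v, Q⟩ : (oneLevel I a₀ hadm).PtR)} :=
  regChartCopy C (sref_r_eq_old_iff_of_smooth I a₀ hadm hQ)

@[simp] theorem regChartSRef_R {v : ι₀} {Q : Place k (Ft₀ v)}
    (hQ : ∀ e, (⟨v, Q⟩ : Σ v, Place k (Ft₀ v)) ≠ ⟨S₀.src e, S₀.s₁ e⟩)
    (C : RegChart A (S₀.O v) (S₀.res v) Q {P | S₀.r P = ⟨v, Q⟩}) :
    (regChartSRef I a₀ hadm hQ C).chart.R = C.chart.R := rfl

@[simp] theorem regChartSRef_t {v : ι₀} {Q : Place k (Ft₀ v)}
    (hQ : ∀ e, (⟨v, Q⟩ : Σ v, Place k (Ft₀ v)) ≠ ⟨S₀.src e, S₀.s₁ e⟩)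
    (C : RegChart A (S₀.O v) (S₀.res v) Q {P | S₀.r P = ⟨v, Q⟩}) :
    (regChartSRef I a₀ hadm hQ C).chart.t = C.chart.t := rfl

end Fermat.Agent.BR3.RegBase
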