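import Fermat.Agent.BR2.S35Final
import Fermat.Agent.BR3.InertiaInput

/-!
# Program C (S36): the final instantiation of `inertiaInputSpan_of_nodes`

The twin of `BR2/S35Final.lean`.  Level `M = M₀ * q` with `q ∣ M₀` (`M₀ = M' * q`, `q ∤ M'`),
auxiliary prime `ℓ'` (`X₀(M' ℓ')` without elliptic points), `N = M₀ * ℓ' * q`,
`S' = insert ℓ' S`.

* `SquaresProp M₀ q ℓ' e` : the two squares `Ealpha (M₀ ℓ') q ∘ pullN = pullN ∘ Ealpha M₀ q`,
  `Ebeta (M₀ ℓ') q ∘ pullN = pullN ∘ Ebeta M₀ q` of the auxiliary level (for `q ∤ M₀ ℓ'` these are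
  `LevelPlug.EalphaN_pullN`, `LevelPlug.EbetaN_pullN`; for `q ∣ M₀` they are the output of the
  node (C-LEVEL));
* `NewInvBoundedLevel N₁ q lam B` : the contract **(A')** of the board at the level `N₁ * q`, in
  the form for the push-forwards `alphaDown N₁ q`, `betaDown N₁ q`;
* `newInvBounded_of_level`, `NewInvBoundedLevel.cast` : correspondence form, change of the
  spelling of the level;
* `inertiaInputSpan_of_props` : `InertiaInputSpan (M₀ * q) lam S' χ' B` from (E7'-OUT) at the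
  level `M₀ * q`, the squares and (A') at the level `M₀ * ℓ' * q`;
* `exists_inertiaInputSpan` : the hypothesis `hgeo` of `BR3.s36_of_inertiaFields` at one `q`, `B`,
  for the level `M' * q * q`: choice of the auxiliary prime by `GenusCount.exists_aux_level`.
-/

set_option autoImplicit false
set_option linter.style.haveILetI false
set_option linter.unusedSectionVars false

open ModularCurve CuspForm

namespace Fermat.Agent.BR3.S36Final

open Fermat.Agent.Pseudo Fermat.Agent.Pseudo.GQSys Fermat.Agent.Pseudo.JZ Fermat.Agent.Jac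
  Fermat.Agent.BR.LevelTransfer Fermat.Agent.BR2 Fermat.Agent.BR2.LevelMaps
  Fermat.Agent.BR2.LevelSquares Fermat.Agent.BR2.LevelPlug Fermat.Agent.BR2.S35Final
  Fermat.Agent.BR3.InertiaInput

local notation "Qb" => AlgebraicClosure ℚ
local notation "GQ" => (AlgebraicClosure ℚ ≃ₐ[ℚ] AlgebraicClosure ℚ)

/-- The two squares of the auxiliary level for the degeneracy correspondences. -/
def SquaresProp (M₀ q ℓ' : ℕ) [NeZero M₀] [NeZero q] [NeZero ℓ']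
    (e : M₀ * q * ℓ' = M₀ * ℓ' * q) : Prop :=
  (∀ x : JZero (M₀ * q),
    Ealpha (M₀ * ℓ') q (pullN M₀ q ℓ' e x) = pullN M₀ q ℓ' e (Ealpha M₀ q x)) ∧
  (∀ x : JZero (M₀ * q),
    Ebeta (M₀ * ℓ') q (pullN M₀ q ℓ' e x) = pullN M₀ q ℓ' e (Ebeta M₀ q x))

/-- The squares for `q ∤ M₀ ℓ'` (Phase 2). -/
theorem squaresProp_of_not_dvd (M₀ q ℓ' : ℕ) [NeZero M₀] [NeZero q] [NeZero ℓ']
    (e : M₀ * q * ℓ' = M₀ * ℓ' * q) (hq : q.Prime) (hqM : ¬ q ∣ M₀ * ℓ') :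
    SquaresProp M₀ q ℓ' e :=
  ⟨EalphaN_pullN M₀ q ℓ' e hq hqM, EbetaN_pullN M₀ q ℓ' e hq hqM⟩

/-- **(A')** of the board at the level `N₁ * q`, push-forward form: the `lam`-primary torsion of
`J₀(N₁ q)` fixed by the inertia group of `B` and killed by `α_*`, `β_* : J₀(N₁ q) → J₀(N₁)` has
bounded exponent. -/
def NewInvBoundedLevel (N₁ q lam : ℕ) [NeZero N₁] [NeZero q] (B : ValuationSubring Qb) : Prop :=
  ∃ e₀ : ℕ, e₀ ≠ 0 ∧ ∀ (m : ℕ) (x : JZero (N₁ * q)), (lam ^ m) • x = 0 →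
    (∀ s ∈ B.inertiaSubgroupIn ℚ, s • x = x) →
    alphaDown N₁ q x = 0 → betaDown N₁ q x = 0 → e₀ • x = 0

/-- (A') in correspondence form from the push-forward form. -/
theorem newInvBounded_of_level (N₁ q lam : ℕ) [NeZero N₁] [NeZero q] (B : ValuationSubring Qb)
    (h : NewInvBoundedLevel N₁ q lam B) :
    NewInvBounded (JZero (N₁ * q)) lam B (Ealpha N₁ q) (Ebeta N₁ q) :=
  newInvBounded_of_down lam B (alphaDown N₁ q) (betaDown N₁ q) (alphaUp N₁ q) (betaUp N₁ q)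
    (alphaDeg N₁ q) (alphaDeg_ne_zero N₁ q) (fun z => alphaDown_alphaUp N₁ q z)
    (fun z => betaDown_betaUp N₁ q z) h

/-- Change of the spelling of the level. -/
theorem NewInvBoundedLevel.cast {N₁ N₁' q lam : ℕ} [NeZero N₁] [NeZero N₁'] [NeZero q]
    {B : ValuationSubring Qb} (h : N₁ = N₁') (H : NewInvBoundedLevel N₁ q lam B) :
    NewInvBoundedLevel N₁' q lam B := by
  subst h
  exact H

section

variable (M₀ q ℓ' : ℕ) [NeZero M₀] [NeZero q] [NeZero ℓ'] (lam : ℕ) (S' : Finset ℕ)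
  {O' : Type} [CommRing O'] (χ' : heckeAlgebra (M₀ * q) 2 (↑S' : Set ℕ) →+* O')
  (B : ValuationSubring Qb)

/-- **`InertiaInputSpan` at the level `M₀ * q` from (E7'-OUT), the squares and (A').** -/
theorem inertiaInputSpan_of_props (hlam : lam ≠ 0) (e : M₀ * q * ℓ' = M₀ * ℓ' * q)
    (hE7 : E7OutProp M₀ q S' χ') (hsq : SquaresProp M₀ q ℓ' e)
    (hA' : NewInvBoundedLevel (M₀ * ℓ') q lam B) :
    InertiaInputSpan (M₀ * q) lam S' χ' B := by
  obtain ⟨rho, A, hA, Ψ, P, Q, hker, hTL, hΨ, -, hPQ, hχ, hE⟩ := hE7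
  exact inertiaInputSpan_of_nodes (M := M₀ * q) (N := M₀ * ℓ' * q) lam S' χ' B hlam
    rho A hA Ψ P Q hker hTL hΨ hPQ hχ
    (Ealpha M₀ q) (Ebeta M₀ q) (Ealpha_smul M₀ q) (Ebeta_smul M₀ q) hE
    (pullN M₀ q ℓ' e) (pushN M₀ q ℓ' e) (dN M₀ q ℓ') (dN_ne_zero M₀ q ℓ')
    (pushN_pullN M₀ q ℓ' e) (pullN_smul M₀ q ℓ' e)
    (Ealpha (M₀ * ℓ') q) (Ebeta (M₀ * ℓ') q) hsq.1 hsq.2
    (newInvBounded_of_level (M₀ * ℓ') q lam B hA')

end

/-- **The hypothesis `hgeo` of `s36_of_inertiaFields` at the level `M' * q * q`**, for one prime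
`q ∤ M'` and one valuation ring `B`: the auxiliary prime is chosen by `exists_aux_level`,
`S' := insert ℓ' S`; (A') is used at the level `M * q * q`, `M = M' * ℓ'` (no elliptic points on
`X₀(M)`). -/
theorem exists_inertiaInputSpan (M' q : ℕ) [NeZero M'] [NeZero q] (lam : ℕ) (S : Finset ℕ)
    {O' : Type} [CommRing O'] (χ : heckeAlgebra (M' * q * q) 2 (↑S : Set ℕ) →+* O')
    (B : ValuationSubring Qb) (hlam : lam ≠ 0) (hq : q.Prime) (hqM' : ¬ q ∣ M')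
    (hE7 : ∀ (S' : Finset ℕ) (hSS' : S ⊆ S'),
      E7OutProp (M' * q) q S' (χ.comp (heckeAlgebraIncl hSS')))
    (hsq : ∀ (ℓ' : ℕ) [NeZero ℓ'], ℓ'.Prime → ¬ ℓ' ∣ M' * q * q →
      ∀ e : M' * q * q * ℓ' = M' * q * ℓ' * q, SquaresProp (M' * q) q ℓ' e)
    (hA' : ∀ (ℓ' : ℕ) [NeZero ℓ'], ℓ'.Prime → ¬ ℓ' ∣ M' * q * q → ¬ q ∣ M' * ℓ' →
      nuTwo (M' * ℓ') = 0 → nuThree (M' * ℓ') = 0 →
      NewInvBoundedLevel (M' * ℓ' * q) q lam B) :
    ∃ (S' : Finset ℕ) (hSS' : S ⊆ S'),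
      InertiaInputSpan (M' * q * q) lam S' (χ.comp (heckeAlgebraIncl hSS')) B := by
  obtain ⟨ℓ', hℓ', -, hℓ'q, hℓ'M', -, h2, h3, -⟩ :=
    Fermat.Agent.BR.GenusCount.exists_aux_level (q := q) (M := M') (p := 1)
      (NeZero.ne q) (NeZero.ne M') one_ne_zero
  haveI : NeZero ℓ' := ⟨hℓ'.ne_zero⟩
  have hℓ'M : ¬ ℓ' ∣ M' * q * q := fun h =>
    (hℓ'.dvd_mul.mp h).elim (fun h' => (hℓ'.dvd_mul.mp h').elim hℓ'M' hℓ'q) hℓ'q
  have hqM : ¬ q ∣ M' * ℓ' := fun h =>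
    (hq.dvd_mul.mp h).elim hqM' fun h' =>
      hℓ'q (by rw [(Nat.prime_dvd_prime_iff_eq hq hℓ').mp h'])
  have hSS' : S ⊆ insert ℓ' S := Finset.subset_insert ℓ' S
  have e : M' * q * q * ℓ' = M' * q * ℓ' * q := by ring
  have e' : M' * ℓ' * q = M' * q * ℓ' := by ring
  exact ⟨insert ℓ' S, hSS',
    inertiaInputSpan_of_props (M' * q) q ℓ' lam (insert ℓ' S) _ B hlam e (hE7 _ hSS')
      (hsq ℓ' hℓ' hℓ'M e) ((hA' ℓ' hℓ' hℓ'M hqM h2 h3).cast e')⟩

end Fermat.Agent.BR3.S36Final
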