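import Fermat.Agent.BR3.S36Span
import Fermat.Agent.BR3.S36Final
import Fermat.Agent.BR3.E7PlugQ

set_option autoImplicit false
open Polynomial
open CuspForm CuspForm.IsNewform

/-!
# Program C (S36): the frozen statement of S36 from the two remaining inputs

`s36_of_inputs` : the verbatim statement of S36 (hypothesis `hres` not needed) from

* `hsq` : the two squares `S36Final.SquaresProp (M' * q) q ℓ' e` of the auxiliary level for
  `q ∣ M₀ = M' * q` (node (C-LEVEL));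
* `hA'` : the geometric contract **(A')** `S36Final.NewInvBoundedLevel (M * q) q lam B` at the levels
  `M * q * q`, `X₀(M)` without elliptic points, `q ∤ M` (node I11 GEO).

Everything else is discharged: `BR3.s36_of_inertiaFields` (C-TOP), `S36Final.exists_inertiaInputSpan`
(C-PLUG), `E7Q.e7OutProp_of_dvd` (C-E7q).
-/

namespace Fermat.Agent.BR3.S36Assembly

open Fermat.Agent.BR3 Fermat.Agent.BR3.S36Final Fermat.Agent.BR3.InertiaInput

local notation "Qb" => AlgebraicClosure ℚ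

/-- **S36 from the squares for `q ∣ M₀` and (A').** -/
theorem s36_of_inputs
    -- the two remaining inputs
    (hsq : ∀ (M' q ℓ' : ℕ) [NeZero M'] [NeZero q] [NeZero ℓ'], q.Prime → ¬ q ∣ M' → ℓ'.Prime →
      ¬ ℓ' ∣ M' * q * q → ∀ e : M' * q * q * ℓ' = M' * q * ℓ' * q, SquaresProp (M' * q) q ℓ' e)
    (hA' : ∀ (M q lam : ℕ) [NeZero M] [NeZero q], q.Prime → ¬ q ∣ M → lam.Prime → q ≠ lam →
      ModularCurve.nuTwo M = 0 → ModularCurve.nuThree M = 0 →
      ∀ B : ValuationSubring Qb, B.LiesOverPrime q → NewInvBoundedLevel (M * q) q lam B)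
    {M : ℕ} [NeZero M] {g : CuspForm (CongruenceSubgroup.Gamma0 M) 2} (hg : g.IsNewform)
    (lam : ℕ) [Fact lam.Prime]
    (S : Finset ℕ)
    (O' : Type) [CommRing O'] [IsDomain O'] [IsDiscreteValuationRing O']
    [IsAdicComplete (IsLocalRing.maximalIdeal O') O'] [Finite (IsLocalRing.ResidueField O')]
    [CharZero O'] (hlamO' : (lam : O') ∈ IsLocalRing.maximalIdeal O')
    (hlam2 : lam ≠ 2)
    (chig : CuspForm.heckeAlgebra M 2 (↑S : Set ℕ) →+* ℂ)
    (hchig : ∀ (ℓ : ℕ) (hℓ : ℓ.Prime) (hℓM : ¬ ℓ ∣ M) (hℓS : ℓ ∉ (↑S : Set ℕ)),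
      chig (CuspForm.heckeAlgebra.T hℓ hℓM hℓS) = ModularFormClass.qCoeff g ℓ)
    (iota : chig.range →+* O')
    (hlamS : lam ∈ S) (hMS : ∀ q : ℕ, q.Prime → q ∣ M → q ∈ S)
    :
    ∃ (O'' : Type) (_ : CommRing O'') (_ : IsDomain O'') (_ : IsDiscreteValuationRing O'')
      (_ : IsAdicComplete (IsLocalRing.maximalIdeal O'') O'') (_ : Finite (IsLocalRing.ResidueField O''))
      (_ : CharZero O'') (_ : Algebra O' O'') (_ : Module.Finite O' O'') (_ : IsLocalHom (algebraMap O' O'')),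
      Function.Injective (algebraMap O' O'') ∧
      ∃ ρ : GaloisRepAdic O'',
        (∀ (ℓ : ℕ) (hℓ : ℓ.Prime) (hℓM : ¬ ℓ ∣ M) (hℓS : ℓ ∉ (↑S : Set ℕ)),
          ∀ A : ValuationSubring (AlgebraicClosure ℚ), A.LiesOverPrime ℓ →
            ∀ σ : AlgebraicClosure ℚ ≃ₐ[ℚ] AlgebraicClosure ℚ, A.IsFrobeniusAt σ ℓ →
              LinearMap.charpoly (ρ.ρ σ) =
                X ^ 2 - C (algebraMap O' O'' ((iota.comp chig.rangeRestrict) (CuspForm.heckeAlgebra.T hℓ hℓM hℓS))) * X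
                  + C ((ℓ : O''))) ∧
        (∀ q : ℕ, q.Prime → q ≠ lam → M.factorization q = 2 → ¬ ρ.IsUnipotentOnInertiaAt q) := by
  refine s36_of_inertiaFields lam S O' hlamO' hlamS hMS hlam2 (iota.comp chig.rangeRestrict) ?_
  intro q hq hqlam hfac
  -- `M = M' * q * q`, `q ∤ M'`
  have hq2M : q ^ 2 ∣ M := by
    have := (hq.pow_dvd_iff_le_factorization (NeZero.ne M)).mpr (le_of_eq hfac.symm)
    exact this
  have hq3M : ¬ q ^ 3 ∣ M := by
    intro h
    have := (hq.pow_dvd_iff_le_factorization (NeZero.ne M)).mp h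
    omega
  obtain ⟨M', rfl⟩ : ∃ M', M = M' * q * q := ⟨M / q ^ 2, by
    rw [mul_assoc, ← pow_two]; exact (Nat.div_mul_cancel hq2M).symm⟩
  have hM' : M' ≠ 0 := fun h => NeZero.ne (M' * q * q) (by rw [h, zero_mul, zero_mul])
  have : NeZero M' := ⟨hM'⟩
  have : NeZero q := ⟨hq.ne_zero⟩
  have hqM' : ¬ q ∣ M' := fun h => hq3M (by
    obtain ⟨c, rfl⟩ := h
    exact ⟨c, by ring⟩)
  obtain ⟨B, hB, -⟩ := Fermat.Agent.S54.FrobExists.exists_isFrobeniusAt q hq
  refine ⟨B, hB, ?_⟩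
  exact exists_inertiaInputSpan M' q lam S _ B (Fact.out : lam.Prime).ne_zero hq hqM'
    (fun S' hSS' =>
      Fermat.Agent.BR3.E7Q.e7OutProp_of_dvd (M' * q) q hq (dvd_mul_left q M') hg S S' hSS' hMS
        chig hchig iota)
    (fun ℓ' _ hℓ' hℓ'M e => hsq M' q ℓ' hq hqM' hℓ' hℓ'M e)
    (fun ℓ' _ hℓ' _ hqM h2 h3 => hA' (M' * ℓ') q lam hq hqM Fact.out hqlam h2 h3 B hB)

end Fermat.Agent.BR3.S36Assembly
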