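import Fermat.Agent.BR3.S36Assembly
import Fermat.Agent.BR3.LevelDownGen

/-!
# Program C (S36): the frozen statement of S36 from the geometric contract (A') alone

`s36_of_newInvBounded` : `S36Assembly.s36_of_inputs` with the squares of the auxiliary level
discharged by `LevelDownGen.EalphaN_pullN_gen`, `LevelDownGen.EbetaN_pullN_gen` (node (C-LEVEL)).
The only remaining input is **(A')** = `S36Final.NewInvBoundedLevel (M * q) q lam B`
(node I11 GEO): for `X₀(M)` without elliptic points, `q ∤ M` prime, `lam ≠ q` prime and a valuation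
ring `B` of `ℚ̄` over `q`, the `lam`-primary torsion of `J₀(M q²)` which is fixed by the inertia
group of `B` and killed by the two push-forwards to `J₀(M q)` has bounded exponent.
-/

set_option autoImplicit false
open Polynomial
open CuspForm CuspForm.IsNewform

namespace Fermat.Agent.BR3.S36OfGeo

open Fermat.Agent.BR3 Fermat.Agent.BR3.S36Final

local notation "Qb" => AlgebraicClosure ℚ

/-- The squares of the auxiliary level, for every `q` (node (C-LEVEL)). -/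
theorem squaresProp (M₀ q ℓ' : ℕ) [NeZero M₀] [NeZero q] [NeZero ℓ']
    (e : M₀ * q * ℓ' = M₀ * ℓ' * q) (hℓ' : ℓ'.Prime) (hℓ'M : ¬ ℓ' ∣ M₀ * q) :
    SquaresProp M₀ q ℓ' e :=
  ⟨LevelDownGen.EalphaN_pullN_gen M₀ q ℓ' e hℓ' hℓ'M,
    LevelDownGen.EbetaN_pullN_gen M₀ q ℓ' e hℓ' hℓ'M⟩

/-- **S36 from (A') alone.** -/
theorem s36_of_newInvBounded
    (hA' : ∀ (M q lam : ℕ) [NeZero M] [NeZero q], q.Prime → ¬ q ∣ M → lam.Prime → q ≠ lam →
      ModularCurve.nuTwo M = 0 → ModularCurve.nuThree M = 0 →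
      ∀ B : ValuationSubring Qb, B.LiesOverPrime q → NewInvBoundedLevel (M * q) q lam B)
    {M : ℕ} [NeZero M] {g : CuspForm (CongruenceSubgroup.Gamma0 M) 2} (hg : g.IsNewform)
    (lam : ℕ) [Fact lam.Prime]
    (S : Finset ℕ)
    (O' : Type) [CommRing O'] [IsDomain O'] [IsDiscreteValuationRing O']
    [IsAdicComplete (IsLocalRing.maximalIdeal O') O'] [Finite (IsLocalRing.ResidueField O')]
    [CharZero O'] (hlamO' : (lam : O') ∈ IsLocalRing.maximalIdeal O')
    (hlam2 : lam ≠ 2)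
    (chig : CuspForm.heckeAlgebra M 2 (↑S : Set ℕ) →+* ℂ)
    (hchig : ∀ (ℓ : ℕ) (hℓ : ℓ.Prime) (hℓM : ¬ ℓ ∣ M) (hℓS : ℓ ∉ (↑S : Set ℕ)),
      chig (CuspForm.heckeAlgebra.T hℓ hℓM hℓS) = ModularFormClass.qCoeff g ℓ)
    (iota : chig.range →+* O')
    (hlamS : lam ∈ S) (hMS : ∀ q : ℕ, q.Prime → q ∣ M → q ∈ S) :
    ∃ (O'' : Type) (_ : CommRing O'') (_ : IsDomain O'') (_ : IsDiscreteValuationRing O'')
      (_ : IsAdicComplete (IsLocalRing.maximalIdeal O'') O'') (_ : Finite (IsLocalRing.ResidueField O''))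
      (_ : CharZero O'') (_ : Algebra O' O'') (_ : Module.Finite O' O'') (_ : IsLocalHom (algebraMap O' O'')),
      Function.Injective (algebraMap O' O'') ∧
      ∃ ρ : GaloisRepAdic O'',
        (∀ (ℓ : ℕ) (hℓ : ℓ.Prime) (hℓM : ¬ ℓ ∣ M) (hℓS : ℓ ∉ (↑S : Set ℕ)),
          ∀ A : ValuationSubring (AlgebraicClosure ℚ), A.LiesOverPrime ℓ →
            ∀ σ : AlgebraicClosure ℚ ≃ₐ[ℚ] AlgebraicClosure ℚ, A.IsFrobeniusAt σ ℓ →
              LinearMap.charpoly (ρ.ρ σ) =
                X ^ 2 - C (algebraMap O' O'' ((iota.comp chig.rangeRestrict) (CuspForm.heckeAlgebra.T hℓ hℓM hℓS))) * X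
                  + C ((ℓ : O''))) ∧
        (∀ q : ℕ, q.Prime → q ≠ lam → M.factorization q = 2 → ¬ ρ.IsUnipotentOnInertiaAt q) :=
  S36Assembly.s36_of_inputs
    (fun M' q ℓ' _ _ _ _ _ hℓ' hℓ'M e => squaresProp (M' * q) q ℓ' e hℓ' hℓ'M)
    hA' hg lam S O' hlamO' hlam2 chig hchig iota hlamS hMS

end Fermat.Agent.BR3.S36OfGeo
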