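import Fermat.Agent.BR2.S35Top

/-!
# Program C (S36), node (C-TOP): the frozen conclusion of S36 from a trace inequality on inertia

The representation is the one of S30/S35: `Pseudo.exists_galoisRepAdic_of_pseudo` applied to a Hecke
pseudo-character `H`, so that `charpoly ρ(σ) = X² - H.t σ X + H.d σ` for ALL `σ`.  Hence
`ρ` is not unipotent on inertia at `q` as soon as `H.t σ ≠ 2` for one `σ` in one inertia group
over `q`.

* `charpoly_ne_of_trace_ne_two` : `X² - tX + d ≠ (X - 1)²` if `t ≠ 2`;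
* `s36_of_heckePseudoChar` : the exact conclusion of the frozen statement S36 (with `O'' := O'`)
  from `H : HeckePseudoChar lam M S O' χ` and, for every prime `q ≠ λ` with `v_q(M) = 2`, a
  valuation ring `P` of `ℚ̄` over `q` and `σ ∈ I_P` with `H.t σ ≠ 2`.  The hypothesis `hres` of S36
  is not needed.
-/

set_option autoImplicit false
set_option linter.style.haveILetI false
set_option linter.unusedSectionVars false

open Polynomial CuspForm

namespace Fermat.Agent.BR3

open Fermat.Agent.Pseudo Fermat.Agent.Pseudo.JZ Fermat.Agent.Jac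

local notation "Qb" => AlgebraicClosure ℚ
local notation "GQ" => (AlgebraicClosure ℚ ≃ₐ[ℚ] AlgebraicClosure ℚ)

/-- `X² - tX + d` is not `(X - 1)²` when `t ≠ 2`. -/
theorem charpoly_ne_of_trace_ne_two {R : Type*} [CommRing R] {t d : R} (ht : t ≠ 2) :
    (X ^ 2 - C t * X + C d : R[X]) ≠ (X - 1) ^ 2 := by
  intro h
  apply ht
  have h1 := congrArg (fun p : R[X] => p.coeff 1) h
  have e2 : ((X - 1) ^ 2 : R[X]) = X ^ 2 - C 2 * X + C 1 := by
    rw [map_one, map_ofNat]
    ring
  simp only [e2, coeff_add, coeff_sub, coeff_X_pow, coeff_C_mul, coeff_X_one, coeff_C] at h1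
  norm_num at h1
  exact h1

/-- **(C-TOP)** The conclusion of the frozen statement S36 from a Hecke pseudo-character whose
trace is `≠ 2` somewhere on an inertia group over every prime `q ≠ λ` with `v_q(M) = 2`. -/
theorem s36_of_heckePseudoChar {M : ℕ} [NeZero M] (lam : ℕ) [Fact lam.Prime] (S : Finset ℕ)
    (O' : Type) [CommRing O'] [IsDomain O'] [IsDiscreteValuationRing O']
    [IsAdicComplete (IsLocalRing.maximalIdeal O') O'] [Finite (IsLocalRing.ResidueField O')]
    [CharZero O']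
    (χ : CuspForm.heckeAlgebra M 2 (↑S : Set ℕ) →+* O')
    (H : HeckePseudoChar lam M S O' χ)
    (hmain : ∀ q : ℕ, q.Prime → q ≠ lam → M.factorization q = 2 →
      ∃ P : ValuationSubring Qb, P.LiesOverPrime q ∧
        ∃ σ ∈ P.inertiaSubgroupIn ℚ, H.t σ ≠ 2) :
    ∃ (O'' : Type) (_ : CommRing O'') (_ : IsDomain O'') (_ : IsDiscreteValuationRing O'')
      (_ : IsAdicComplete (IsLocalRing.maximalIdeal O'') O'')
      (_ : Finite (IsLocalRing.ResidueField O''))
      (_ : CharZero O'') (_ : Algebra O' O'') (_ : Module.Finite O' O'')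
      (_ : IsLocalHom (algebraMap O' O'')),
      Function.Injective (algebraMap O' O'') ∧
      ∃ ρ : GaloisRepAdic O'',
        (∀ (ℓ : ℕ) (hℓ : ℓ.Prime) (hℓM : ¬ ℓ ∣ M) (hℓS : ℓ ∉ (↑S : Set ℕ)),
          ∀ A : ValuationSubring (AlgebraicClosure ℚ), A.LiesOverPrime ℓ →
            ∀ σ : AlgebraicClosure ℚ ≃ₐ[ℚ] AlgebraicClosure ℚ, A.IsFrobeniusAt σ ℓ →
              LinearMap.charpoly (ρ.ρ σ) =
                X ^ 2 - C (algebraMap O' O'' (χ (CuspForm.heckeAlgebra.T hℓ hℓM hℓS))) * X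
                  + C ((ℓ : O''))) ∧
        (∀ q : ℕ, q.Prime → q ≠ lam → M.factorization q = 2 →
          ¬ ρ.IsUnipotentOnInertiaAt q) := by
  have h2 : (2 : O') ≠ 0 := two_ne_zero
  obtain ⟨ρ, hchar, -⟩ := exists_galoisRepAdic_of_pseudo h2 H.t H.d H.P1 H.P2 H.P3 H.c
    H.c_mul_c H.t_c H.d_c H.cont
  refine ⟨O', inferInstance, inferInstance, inferInstance, inferInstance, inferInstance,
    inferInstance, Algebra.id O', inferInstance, ?_, Function.injective_id, ρ, ?_, ?_⟩
  · exact ⟨fun a ha => ha⟩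
  · intro ℓ hℓ hℓM hℓS A hA σ hσ
    obtain ⟨h1, h2'⟩ := H.frob ℓ hℓ hℓM hℓS A hA σ hσ
    rw [hchar σ, h1, h2']
    rfl
  · intro q hq hqlam hqM hunip
    obtain ⟨P, hP, σ, hσ, ht⟩ := hmain q hq hqlam hqM
    have h := hunip P hP σ hσ
    rw [hchar σ] at h
    exact charpoly_ne_of_trace_ne_two ht h

end Fermat.Agent.BR3
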