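import Fermat.Agent.S37
import Fermat.Agent.Pseudo.LamPsiHypProof
import Fermat.Agent.Jac.KummerMapsFinal
import Fermat.Agent.BR3.S36Top

/-!
# Program C (S36): the frozen conclusion of S36 from the single remaining input `hinert`

`s36_of_hinert` : `s36_of_heckePseudoChar` (`BR3/S36Top.lean`) applied to the Hecke pseudo-character
of `J₀(M)` (`Pseudo.JZ.heckePseudoChar_JZero`, with `KummerMaps M` = `Jac.KMF.kummerMaps M`,
`H37 M lam` = the frozen statement S37, `LamPsiHyp M S` = `Pseudo.JZ.lamPsiHyp M S`).  What remains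
for `Fermat/Agent/S36.lean` is exactly: for every Hecke pseudo-character `H` of `χ` and every prime
`q ≠ λ` with `v_q(M) = 2`, an element `σ` of an inertia group over `q` with `H.t σ ≠ 2`.
-/

set_option autoImplicit false

open Polynomial CuspForm

namespace Fermat.Agent.BR3

open Fermat.Agent.Pseudo Fermat.Agent.Pseudo.JZ Fermat.Agent.Jac

local notation "Qb" => AlgebraicClosure ℚ
local notation "GQ" => (AlgebraicClosure ℚ ≃ₐ[ℚ] AlgebraicClosure ℚ)

/-- **S36 (verbatim frozen conclusion) from `hinert` alone.** -/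
theorem s36_of_hinert {M : ℕ} [NeZero M] (lam : ℕ) [Fact lam.Prime] (S : Finset ℕ)
    (O' : Type) [CommRing O'] [IsDomain O'] [IsDiscreteValuationRing O']
    [IsAdicComplete (IsLocalRing.maximalIdeal O') O'] [Finite (IsLocalRing.ResidueField O')]
    [CharZero O'] (hlamO' : (lam : O') ∈ IsLocalRing.maximalIdeal O')
    (hlamS : lam ∈ S) (hMS : ∀ q : ℕ, q.Prime → q ∣ M → q ∈ S)
    (χ : heckeAlgebra M 2 (↑S : Set ℕ) →+* O')
    (hinert : ∀ H : HeckePseudoChar lam M S O' χ,
      ∀ q : ℕ, q.Prime → q ≠ lam → M.factorization q = 2 →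
        ∃ P : ValuationSubring Qb, P.LiesOverPrime q ∧
          ∃ σ ∈ P.inertiaSubgroupIn ℚ, H.t σ ≠ 2) :
    ∃ (O'' : Type) (_ : CommRing O'') (_ : IsDomain O'') (_ : IsDiscreteValuationRing O'')
      (_ : IsAdicComplete (IsLocalRing.maximalIdeal O'') O'')
      (_ : Finite (IsLocalRing.ResidueField O''))
      (_ : CharZero O'') (_ : Algebra O' O'') (_ : Module.Finite O' O'')
      (_ : IsLocalHom (algebraMap O' O'')),
      Function.Injective (algebraMap O' O'') ∧
      ∃ ρ : GaloisRepAdic O'',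
        (∀ (ℓ : ℕ) (hℓ : ℓ.Prime) (hℓM : ¬ ℓ ∣ M) (hℓS : ℓ ∉ (↑S : Set ℕ)),
          ∀ A : ValuationSubring (AlgebraicClosure ℚ), A.LiesOverPrime ℓ →
            ∀ σ : AlgebraicClosure ℚ ≃ₐ[ℚ] AlgebraicClosure ℚ, A.IsFrobeniusAt σ ℓ →
              LinearMap.charpoly (ρ.ρ σ) =
                X ^ 2 - C (algebraMap O' O'' (χ (CuspForm.heckeAlgebra.T hℓ hℓM hℓS))) * X
                  + C ((ℓ : O''))) ∧
        (∀ q : ℕ, q.Prime → q ≠ lam → M.factorization q = 2 →
          ¬ ρ.IsUnipotentOnInertiaAt q) := by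
  obtain ⟨H⟩ := heckePseudoChar_JZero hlamS hMS (Fermat.Agent.Jac.KMF.kummerMaps M)
    (Fermat.Agent.S37.result M lam (Fermat.Agent.Jac.heckeOperatorsCommuteBar M))
    (Fermat.Agent.Pseudo.JZ.lamPsiHyp M S) O' hlamO' χ
  exact s36_of_heckePseudoChar lam S O' χ H (hinert H)

end Fermat.Agent.BR3
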