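import Fermat.Agent.BR2.S35Span
import Fermat.Agent.BR3.InertiaGQ
import Fermat.Agent.BR3.S36Reduce
import Fermat.Agent.Cheb.FrobDict

/-!
# Program C (S36): S36 from the inertia input, span form with an enlarged set of primes

The `S36` twin of `BR2/S35Span.lean`.

* `exists_t_ne_two_of_fields` : from a `HeckePseudoChar` `H` of level `M`, a valuation ring `B` of
  `ℚ̄` over a prime `q ≠ lam` (`lam ≠ 2`) and the fields of the inertia input at `B` (the Kummer
  maps `rho`, the Hecke data `A`, `Ψ`, `P`, `PX`, `e`, and the kill statement on the inertia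
  invariants of the subgroups `W_m`), the trace `H.t` is not identically `2` on the inertia group
  of `B`.  The eigenvalue system is `χ' := χ ∘ heckeAlgebraIncl` for an enlarged set `S' ⊇ S`.
* `InertiaFields` : the statement of the input, as an explicit existential (literally the body of
  the interface `InertiaInputSpan`).
* `s36_of_inertiaFields` : the verbatim frozen conclusion of `S36` from the input at ONE valuation
  ring over every prime `q ≠ lam` with `v_q(M) = 2`.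
-/

set_option autoImplicit false
set_option linter.style.haveILetI false
set_option linter.unusedSectionVars false

open ModularCurve CuspForm Polynomial

namespace Fermat.Agent.BR3

open Fermat.Agent.Pseudo Fermat.Agent.Pseudo.GQSys Fermat.Agent.Pseudo.JZ Fermat.Agent.Jac
  Fermat.Agent.BR2

local notation "Qb" => AlgebraicClosure ℚ
local notation "GQ" => (AlgebraicClosure ℚ ≃ₐ[ℚ] AlgebraicClosure ℚ)

/-- **The deliverable of the geometric and Hecke nodes of Program C** at a valuation ring `B` of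
`ℚ̄` over `q`, as an explicit existential statement: `GeoInputSpan` of Phase 2 with the last
clause replaced by `x` fixed by the inertia group of `B` `⇒ e • PX x = 0`. -/
def InertiaFields (M lam : ℕ) [NeZero M] (S' : Finset ℕ) {O' : Type} [CommRing O']
    (χ' : heckeAlgebra M 2 (↑S' : Set ℕ) →+* O') (B : ValuationSubring Qb) : Prop :=
  letI := heckeModuleBar M
  ∃ (rho : ℕ → Lam M →+ JZero M) (A : Subalgebra ℤ (Module.End ℤ (Lam M)))
    (hA : ∀ i : Idx S', TLam M i.1 ∈ A) (Ψ : A →+* heckeAlgebra M 2 (↑S' : Set ℕ))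
    (P : A) (PX : Module.End ℤ (JZero M)) (e : ℕ),
    (∀ K : ℕ, 0 < K → ∀ x, rho K x = 0 ↔ ∃ mu, x = K • mu) ∧
    (∀ K : ℕ, 0 < K → ∀ (ℓ : Nat.Primes) (x : Lam M),
      rho K (TLam M ℓ x) = heckeGen ℓ • rho K x) ∧
    (∀ (ℓ : ℕ) (hℓ : ℓ.Prime) (hℓM : ¬ ℓ ∣ M) (hℓS : ℓ ∉ (↑S' : Set ℕ)),
      Ψ ⟨TLam M ⟨ℓ, hℓ⟩, hA ⟨⟨ℓ, hℓ⟩, hℓS⟩⟩ = heckeAlgebra.T hℓ hℓM hℓS) ∧
    (∀ K : ℕ, 0 < K → Intertwined (rho K) (P : Module.End ℤ (Lam M)) PX) ∧
    (∀ (g : GQ) (x : JZero M), PX (g • x) = g • PX x) ∧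
    χ' (Ψ P) ≠ 0 ∧ e ≠ 0 ∧
    ∀ (m : ℕ) (W : AddSubgroup (JZero M)),
      W = AddSubgroup.closure {x | ∃ (a : GQ) (l : Lam M), x = a • rho (lam ^ m) l} →
      (∀ (g : GQ), ∀ x ∈ W, g • x ∈ W) →
      (∀ i : Idx S', ∀ x ∈ W, heckeGen i.1 • x ∈ W) → (∀ x ∈ W, PX x ∈ W) →
      (∀ x ∈ W, (lam ^ m) • x = 0) →
      ∀ x ∈ W, (∀ s ∈ B.inertiaSubgroupIn ℚ, s • x = x) → e • PX x = 0

section

variable {M : ℕ} [NeZero M] (lam : ℕ) [hlam : Fact lam.Prime] (S : Finset ℕ)
  (O' : Type) [CommRing O'] [IsDomain O'] [IsDiscreteValuationRing O']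
  [IsAdicComplete (IsLocalRing.maximalIdeal O') O'] [CharZero O']

/-- **(LIM-JZ) for inertia, span form.** -/
theorem exists_t_ne_two_of_inertiaFields (hlamO' : (lam : O') ∈ IsLocalRing.maximalIdeal O')
    (hlamS : lam ∈ S) (hMS : ∀ q : ℕ, q.Prime → q ∣ M → q ∈ S) (h37 : H37 M lam)
    (hlam2 : lam ≠ 2)
    (χ : heckeAlgebra M 2 (↑S : Set ℕ) →+* O') (H : HeckePseudoChar lam M S O' χ)
    {q : ℕ} (hq : q.Prime) (hqlam : q ≠ lam) (B : ValuationSubring Qb) (hB : B.LiesOverPrime q)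
    (S' : Finset ℕ) (hSS' : S ⊆ S')
    (hgeo : InertiaFields M lam S' (χ.comp (heckeAlgebraIncl hSS')) B) :
    ∃ s ∈ B.inertiaSubgroupIn ℚ, H.t s ≠ 2 := by
  letI := heckeModuleBar M
  haveI := smulCommClass_GQ_heckeAlg M
  haveI := finite_Lam M
  haveI := JZ.free_Lam (N := M)
  obtain ⟨rho, A, hA, Ψ, P, PX, e, hker, hTL, hΨ, hPX, hPXG, hΦP, he, hkill⟩ := hgeo
  have he' : (e : O') ≠ 0 := Nat.cast_ne_zero.mpr he
  obtain ⟨φ, hφ⟩ := Fermat.Agent.Cheb.exists_isFrobeniusAt_of_liesOverPrime hq hB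
  exact InertiaGQ.exists_t_ne_two_GQ (X := JZero M) (TLam := fun ℓ => TLam M ℓ)
    (IsLocalRing.maximalIdeal O') (hSS' hlamS) (fun p hp hpM => hSS' (hMS p hp hpM))
    (frobeniusQuadratic_of_H37 h37) Fermat.Agent.Cheb.chebExact
    (Fermat.Agent.Res.exists_finite_fixing_JZero M) rho hker hTL A hA Ψ hΨ hlamO'
    (χ.comp (heckeAlgebraIncl hSS')) H.t H.cont
    (fun ℓ hℓ hℓM hℓS V hV φ hφ => by
      rw [RingHom.comp_apply, heckeAlgebraIncl_T]
      exact (H.frob ℓ hℓ hℓM _ V hV φ hφ).1)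
    hlam2 hq hqlam B hB hφ P PX hPX hPXG hΦP e he' hkill

variable [Finite (IsLocalRing.ResidueField O')]

/-- **S36 (verbatim frozen conclusion, `O'' := O'`) from the inertia input, span form**: at every
prime `q ≠ lam` with `v_q(M) = 2`, ONE valuation ring `B` over `q`, a finite set `S' ⊇ S` and the
inertia input at `B` for `χ ∘ heckeAlgebraIncl`. -/
theorem s36_of_inertiaFields (hlamO' : (lam : O') ∈ IsLocalRing.maximalIdeal O')
    (hlamS : lam ∈ S) (hMS : ∀ q : ℕ, q.Prime → q ∣ M → q ∈ S) (hlam2 : lam ≠ 2)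
    (χ : heckeAlgebra M 2 (↑S : Set ℕ) →+* O')
    (hgeo : ∀ q : ℕ, q.Prime → q ≠ lam → M.factorization q = 2 →
      ∃ B : ValuationSubring Qb, B.LiesOverPrime q ∧
        ∃ (S' : Finset ℕ) (hSS' : S ⊆ S'),
          InertiaFields M lam S' (χ.comp (heckeAlgebraIncl hSS')) B) :
    ∃ (O'' : Type) (_ : CommRing O'') (_ : IsDomain O'') (_ : IsDiscreteValuationRing O'')
      (_ : IsAdicComplete (IsLocalRing.maximalIdeal O'') O'')
      (_ : Finite (IsLocalRing.ResidueField O''))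
      (_ : CharZero O'') (_ : Algebra O' O'') (_ : Module.Finite O' O'')
      (_ : IsLocalHom (algebraMap O' O'')),
      Function.Injective (algebraMap O' O'') ∧
      ∃ ρ : GaloisRepAdic O'',
        (∀ (ℓ : ℕ) (hℓ : ℓ.Prime) (hℓM : ¬ ℓ ∣ M) (hℓS : ℓ ∉ (↑S : Set ℕ)),
          ∀ A : ValuationSubring (AlgebraicClosure ℚ), A.LiesOverPrime ℓ →
            ∀ σ : AlgebraicClosure ℚ ≃ₐ[ℚ] AlgebraicClosure ℚ, A.IsFrobeniusAt σ ℓ →
              LinearMap.charpoly (ρ.ρ σ) =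
                X ^ 2 - C (algebraMap O' O'' (χ (CuspForm.heckeAlgebra.T hℓ hℓM hℓS))) * X
                  + C ((ℓ : O''))) ∧
        (∀ q : ℕ, q.Prime → q ≠ lam → M.factorization q = 2 →
          ¬ ρ.IsUnipotentOnInertiaAt q) := by
  refine s36_of_hinert lam S O' hlamO' hlamS hMS χ ?_
  intro H q hq hqlam hfac
  obtain ⟨B, hB, S', hSS', hg⟩ := hgeo q hq hqlam hfac
  exact ⟨B, hB, exists_t_ne_two_of_inertiaFields lam S O' hlamO' hlamS hMS
    (Fermat.Agent.S37.result M lam (Fermat.Agent.Jac.heckeOperatorsCommuteBar M)) hlam2 χ H hq hqlam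
    B hB S' hSS' hg⟩

end

end Fermat.Agent.BR3
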