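/-
Program C (S36), node (N2-TWO), part 2a (helper12): the VERTICAL side of the Kummer node at
`q = 2` — the component `z e` of the cover over the critical circle, with its Kummer point over
`T = ∞`, on the SECOND split sheet `W = U / (-B_c) ≡ 0` (twin of helper13's
`SplitCompsMod.coverComp_ptI`, which is the sheet `W ≡ 1` at the point `ptI`).

Setting of `BR3/VertSheet/Sheet.lean`, `BR3/SplitCompsMod.lean`:
`H : VertComp C a₀ ha1 ha2 Z resZ θ`, `b₀` with residue `b̃ = C β * X` on the circle,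
`W * (-(α₂ b₀)) = θ`.

* `lies_of_restrict`, `ord_map_of_restrict` : a place over `T = ∞` at which `b̃` has a simple pole
  lies over `placeInfty` and is unramified (the fields `lies` / `hord` of `splitNodeChart`);
* **`coverComp_vert_zero`** : for ANY place `Q₂` of `z e` over `T = ∞` at which `Ũ / b̃` vanishes:
  `CoverComp (residue A) (circleRing …) (circleRes …) (placeInfty k) Z resZ Q₂ W c₀`,
  `residue A c₀ = 0`; `coverComp_vert_zero_div` : `W = U / α₂ (-Bc)`, `θ = U / α₂ a₀`;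
* `kummerPoint_two` : for `q = 2` (as a HYPOTHESIS `hq2 : q = 2`, `q` a variable: the uniform
  frame), a place `Q₂` of `AdjoinRoot (vertBar q β ρ)` at which `Ũ` VANISHES is the Kummer point:
  it lies over `T = ∞`, `ord b̃ = -1`, `ord Ũ = 2`, `Ũ / b̃ ≡ 0`;
* **`coverComp_kummer_two`**, `coverComp_kummer_two_div`, `ord_algebraMap_kummer_two` : the
  `CoverComp` and `hord` at such a point, uniform frame;
* `ptKBar₂_restrict`, `ord_algebraMap_ptKBar₂`, **`coverComp_ptKBar₂`**, `coverComp_ptKBar₂_div` :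
  the instance at `VertPtsDef.ptKBar₂` (`q = 2` literally).
-/
import Mathlib
import Fermat.Agent.BR3.SplitCompsMod

set_option autoImplicit false
set_option linter.unusedSectionVars false

noncomputable section

namespace Fermat.Agent.BR3.SplitNodeTwoVert

open AlgebraicCurve Polynomial IsLocalRing
open Fermat.Agent.Red Fermat.Agent.X0
open Fermat.Agent.BR.Circle Fermat.Agent.BR.S0 Fermat.Agent.BR.P1 Fermat.Agent.BR.InertiaRed
open Fermat.Agent.BR3.VertResidue Fermat.Agent.BR3.VertResField Fermat.Agent.BR3.VertPtsDef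
open Fermat.Agent.BR3.VertSheet Fermat.Agent.BR3.SplitBranch Fermat.Agent.BR3.SplitCompsMod

/-! ### places over `T = ∞` -/

section Points

variable {k : Type*} [Field k] [IsAlgClosed k] {L : Type*} [Field L] [Algebra k L]
  [Algebra (RatFunc k) L] [IsScalarTower k (RatFunc k) L] [Algebra.IsIntegral (RatFunc k) L]

/-- a place over `T = ∞` lies over `placeInfty` in the sense of `SplitBranch.CoverComp.lies` -/
theorem lies_of_restrict {Q₂ : Place k L} (hinf : Q₂.restrict (RatFunc k) = placeInfty k)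
    (g : RatFunc k) :
    algebraMap (RatFunc k) L g ∈ Q₂.toValuationSubring ↔ g ∈ (placeInfty k).toValuationSubring := by
  rw [← hinf]
  exact (Place.mem_restrict_iff (w := Q₂) (F := RatFunc k)).symm

/-- a place at which (the image of) `β T` has a simple pole lies over `T = ∞` -/
theorem restrict_of_ord_b {Q₂ : Place k L} {β : k} (hβ : β ≠ 0)
    (hb : Q₂.ord (algebraMap (RatFunc k) L (RatFunc.C β * RatFunc.X)) = -1) :
    Q₂.restrict (RatFunc k) = placeInfty k := by
  apply eq_placeInfty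
  have hC : (RatFunc.C β : RatFunc k) ≠ 0 := by
    rw [← RatFunc.algebraMap_eq_C]
    exact (_root_.map_ne_zero _).mpr hβ
  have h1 := Q₂.ord_restrict (F := RatFunc k) (RatFunc.C β * RatFunc.X)
  rw [hb, Place.ord_mul _ hC RatFunc.X_ne_zero, ← RatFunc.algebraMap_eq_C,
    Place.ord_algebraMap, zero_add] at h1
  have he : (0 : ℤ) < (Place.ramificationIndex (F := RatFunc k) Q₂ : ℤ) := by
    exact_mod_cast Q₂.ramificationIndex_pos (F := RatFunc k)
  by_contra hcon
  push Not at hcon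
  have := mul_nonneg he.le hcon
  omega

/-- a place at which (the image of) `β T` has a simple pole is unramified over `T = ∞` -/
theorem ord_map_of_ord_b {Q₂ : Place k L} {β : k} (hβ : β ≠ 0)
    (hb : Q₂.ord (algebraMap (RatFunc k) L (RatFunc.C β * RatFunc.X)) = -1) (g : RatFunc k) :
    Q₂.ord (algebraMap (RatFunc k) L g) = (placeInfty k).ord g := by
  have hinf := restrict_of_ord_b hβ hb
  have hC : (RatFunc.C β : RatFunc k) ≠ 0 := by
    rw [← RatFunc.algebraMap_eq_C]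
    exact (_root_.map_ne_zero _).mpr hβ
  have h1 := Q₂.ord_restrict (F := RatFunc k) (RatFunc.C β * RatFunc.X)
  rw [hb, hinf, Place.ord_mul _ hC RatFunc.X_ne_zero, ← RatFunc.algebraMap_eq_C,
    Place.ord_algebraMap, zero_add, ord_placeInfty_X] at h1
  have he : (Place.ramificationIndex (F := RatFunc k) Q₂ : ℤ) = 1 := by omega
  rw [Q₂.ord_restrict (F := RatFunc k) g, he, one_mul, hinf]

end Points

/-! ### the vertical side of the sheet `W ≡ 0`, at any point over `T = ∞` with `Ũ / b̃ ≡ 0` -/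

section Sheet

variable {K F' F'' : Type*} [Field K] [Field F'] [Field F''] [Algebra K F'] [Algebra K F'']
  [Algebra F' F''] [IsScalarTower K F' F''] {A : ValuationSubring K}
  [IsAlgClosed (ResidueField A)] {T' : Set (Place K F')}

variable {q : ℕ} [hqF : Fact q.Prime] [CharP (ResidueField A) q] {β ρ : ResidueField A}
  [hP : Fact (Irreducible (vertBar q β ρ))]
  {C : AnnulusCore A T'} {a₀ : K} {ha1 : A.valuation C.thick < A.valuation a₀}
  {ha2 : A.valuation a₀ < 1} {Z : ValuationSubring F''}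
  {resZ : Z →+* AdjoinRoot (vertBar q β ρ)} {θ : F''}

/-- **(N2-TWO, vertical side) The vertical component `z e` with a point `Q₂` over `T = ∞` at which
`Ũ / b̃` vanishes, over the circle component with its point `T = ∞`, on the sheet `W ≡ 0`.** -/
theorem coverComp_vert_zero (H : VertComp C a₀ ha1 ha2 Z resZ θ) (hβ : β ≠ 0) {b₀ : F'}
    (hb₀ : IsRed C a₀ b₀ (RatFunc.C β * RatFunc.X))
    {W : F''} (hW : W * -(algebraMap F' F'' b₀) = θ) {c₀ : A} (hc₀ : residue A c₀ = 0)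
    {Q₂ : Place (ResidueField A) (AdjoinRoot (vertBar q β ρ))}
    (hinf : Q₂.restrict (RatFunc (ResidueField A)) = placeInfty (ResidueField A))
    (hval : IsValueAt Q₂ (AdjoinRoot.root (vertBar q β ρ) /
      AdjoinRoot.of (vertBar q β ρ) (RatFunc.C β * RatFunc.X)) 0) :
    CoverComp (residue A) (circleRing C a₀ ha1 ha2) (circleRes C a₀ ha1 ha2)
      (placeInfty (ResidueField A)) Z resZ Q₂ W c₀ := by
  obtain ⟨hmem, hres⟩ := res_of_mul_eq H hβ hb₀ hW
  exact
    { map_mem := fun _ hy => H.map_mem hy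
      res_map := fun y hy => by rw [H.compat ⟨y, hy⟩ _, AdjoinRoot.algebraMap_eq]
      res_nonunits := fun x hx => by
        rw [H.ker x]
        rwa [ValuationSubring.coe_mem_nonunits_iff, IsLocalRing.mem_maximalIdeal,
          mem_nonunits_iff] at hx
      lies := lies_of_restrict hinf
      W_mem := hmem
      value := by
        rw [hres, hc₀, map_zero, sub_zero, Valuation.map_neg]
        exact isValueAt_zero_iff.mp hval }

/-- `coverComp_vert_zero` in the shape of the modular instance: `θ = U / α₂ a₀`,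
`W = U / α₂ (-Bc)`, `b₀ = a₀⁻¹ • Bc`. -/
theorem coverComp_vert_zero_div {U : F''}
    (H : VertComp C a₀ ha1 ha2 Z resZ (U / algebraMap F' F'' (algebraMap K F' a₀)))
    (hβ : β ≠ 0) {Bc : F'}
    (hb₀ : IsRed C a₀ (a₀⁻¹ • Bc) (RatFunc.C β * RatFunc.X))
    {c₀ : A} (hc₀ : residue A c₀ = 0)
    {Q₂ : Place (ResidueField A) (AdjoinRoot (vertBar q β ρ))}
    (hinf : Q₂.restrict (RatFunc (ResidueField A)) = placeInfty (ResidueField A))
    (hval : IsValueAt Q₂ (AdjoinRoot.root (vertBar q β ρ) /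
      AdjoinRoot.of (vertBar q β ρ) (RatFunc.C β * RatFunc.X)) 0) :
    CoverComp (residue A) (circleRing C a₀ ha1 ha2) (circleRes C a₀ ha1 ha2)
      (placeInfty (ResidueField A)) Z resZ Q₂ (U / algebraMap F' F'' (-Bc)) c₀ := by
  have ha₀ : a₀ ≠ 0 := gauge_ne_zero ha1
  have hA : algebraMap F' F'' (algebraMap K F' a₀) ≠ 0 :=
    (_root_.map_ne_zero _).mpr ((_root_.map_ne_zero _).mpr ha₀)
  have hBc : Bc ≠ 0 := by
    rintro rfl
    have h0 := res_map_of_isRed H hb₀
    have e : (⟨algebraMap F' F'' (a₀⁻¹ • (0 : F')), H.map_mem ⟨_, hb₀⟩⟩ : Z) = 0 := by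
      apply Subtype.ext
      show algebraMap F' F'' (a₀⁻¹ • (0 : F')) = 0
      simp
    rw [e, map_zero] at h0
    exact of_b_ne_zero (q := q) (ρ := ρ) (A := A) hβ h0.symm
  have hB : algebraMap F' F'' Bc ≠ 0 := (_root_.map_ne_zero _).mpr hBc
  refine coverComp_vert_zero H hβ hb₀ ?_ hc₀ hinf hval
  simp only [Algebra.smul_def, map_mul, map_inv₀, map_neg]
  field_simp

end Sheet

/-! ### the Kummer point at `q = 2`, uniform frame -/

section KummerTwo

variable {k : Type*} [Field k] [IsAlgClosed k] {q : ℕ} [hqF : Fact q.Prime] [CharP k q]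
  {β ρ : k} [hP : Fact (Irreducible (vertBar q β ρ))]

/-- **`q = 2`: a place of the residue field of `z e` at which `Ũ` vanishes is the Kummer point**:
it lies over `T = ∞`, `ord b̃ = -1`, `ord Ũ = 2`, and `Ũ / b̃` vanishes there. -/
theorem kummerPoint_two (hq2 : q = 2) (hβ : β ≠ 0) (hρ : ρ ≠ 0)
    {Q₂ : Place k (AdjoinRoot (vertBar q β ρ))}
    (hQ : 0 < Q₂.ord (AdjoinRoot.root (vertBar q β ρ))) :
    Q₂.restrict (RatFunc k) = placeInfty k ∧
      Q₂.ord (AdjoinRoot.of (vertBar q β ρ) (RatFunc.C β * RatFunc.X)) = -1 ∧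
      Q₂.ord (AdjoinRoot.root (vertBar q β ρ)) = 2 ∧
      IsValueAt Q₂ (AdjoinRoot.root (vertBar q β ρ) /
        AdjoinRoot.of (vertBar q β ρ) (RatFunc.C β * RatFunc.X)) 0 := by
  subst hq2
  have hb := vertBar_hb (q := 2) (ρ := ρ) hβ
  have heq := vertBar_heq_two (ρ := ρ) hβ
  have hgen := vertBar_hgen (q := 2) (ρ := ρ) hβ
  have hQ₂ : Q₂ = ptK₂ hρ hb heq hgen := (ord_U_pos_iff₂ hρ hb heq hgen Q₂).mp hQ
  have hbo : Q₂.ord (AdjoinRoot.of (vertBar 2 β ρ) (RatFunc.C β * RatFunc.X)) = -1 := by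
    rw [hQ₂]
    exact ord_b_ptK₂ hρ hb heq hgen
  refine ⟨restrict_of_ord_b hβ (by rw [AdjoinRoot.algebraMap_eq]; exact hbo), hbo, ?_, ?_⟩
  · rw [hQ₂]
    exact ord_U_ptK₂ hρ hb heq hgen
  · rw [hQ₂]
    exact isValueAt_ptK₂ hρ hb heq hgen

/-- `hord` of `SplitNodeChart.splitNodeChart` at the Kummer point, `q = 2`, uniform frame -/
theorem ord_algebraMap_kummer_two (hq2 : q = 2) (hβ : β ≠ 0) (hρ : ρ ≠ 0)
    {Q₂ : Place k (AdjoinRoot (vertBar q β ρ))}
    (hQ : 0 < Q₂.ord (AdjoinRoot.root (vertBar q β ρ))) (g : RatFunc k) :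
    Q₂.ord (algebraMap (RatFunc k) (AdjoinRoot (vertBar q β ρ)) g) = (placeInfty k).ord g :=
  ord_map_of_ord_b hβ (by
    rw [AdjoinRoot.algebraMap_eq]
    exact (kummerPoint_two hq2 hβ hρ hQ).2.1) g

end KummerTwo

section SheetTwo

variable {K F' F'' : Type*} [Field K] [Field F'] [Field F''] [Algebra K F'] [Algebra K F'']
  [Algebra F' F''] [IsScalarTower K F' F''] {A : ValuationSubring K}
  [IsAlgClosed (ResidueField A)] {T' : Set (Place K F')}

variable {q : ℕ} [hqF : Fact q.Prime] [CharP (ResidueField A) q] {β ρ : ResidueField A}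
  [hP : Fact (Irreducible (vertBar q β ρ))]
  {C : AnnulusCore A T'} {a₀ : K} {ha1 : A.valuation C.thick < A.valuation a₀}
  {ha2 : A.valuation a₀ < 1} {Z : ValuationSubring F''}
  {resZ : Z →+* AdjoinRoot (vertBar q β ρ)} {θ : F''}

/-- **(N2-TWO, vertical side, uniform frame)**: `q = 2`, `Q₂` the zero of `Ũ` on `z e`. -/
theorem coverComp_kummer_two (hq2 : q = 2) (H : VertComp C a₀ ha1 ha2 Z resZ θ) (hβ : β ≠ 0)
    (hρ : ρ ≠ 0) {b₀ : F'} (hb₀ : IsRed C a₀ b₀ (RatFunc.C β * RatFunc.X))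
    {W : F''} (hW : W * -(algebraMap F' F'' b₀) = θ) {c₀ : A} (hc₀ : residue A c₀ = 0)
    {Q₂ : Place (ResidueField A) (AdjoinRoot (vertBar q β ρ))}
    (hQ : 0 < Q₂.ord (AdjoinRoot.root (vertBar q β ρ))) :
    CoverComp (residue A) (circleRing C a₀ ha1 ha2) (circleRes C a₀ ha1 ha2)
      (placeInfty (ResidueField A)) Z resZ Q₂ W c₀ :=
  coverComp_vert_zero H hβ hb₀ hW hc₀ (kummerPoint_two hq2 hβ hρ hQ).1
    (kummerPoint_two hq2 hβ hρ hQ).2.2.2

/-- `coverComp_kummer_two` in the shape of the modular instance. -/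
theorem coverComp_kummer_two_div (hq2 : q = 2) {U : F''}
    (H : VertComp C a₀ ha1 ha2 Z resZ (U / algebraMap F' F'' (algebraMap K F' a₀)))
    (hβ : β ≠ 0) (hρ : ρ ≠ 0) {Bc : F'}
    (hb₀ : IsRed C a₀ (a₀⁻¹ • Bc) (RatFunc.C β * RatFunc.X))
    {c₀ : A} (hc₀ : residue A c₀ = 0)
    {Q₂ : Place (ResidueField A) (AdjoinRoot (vertBar q β ρ))}
    (hQ : 0 < Q₂.ord (AdjoinRoot.root (vertBar q β ρ))) :
    CoverComp (residue A) (circleRing C a₀ ha1 ha2) (circleRes C a₀ ha1 ha2)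
      (placeInfty (ResidueField A)) Z resZ Q₂ (U / algebraMap F' F'' (-Bc)) c₀ :=
  coverComp_vert_zero_div H hβ hb₀ hc₀ (kummerPoint_two hq2 hβ hρ hQ).1
    (kummerPoint_two hq2 hβ hρ hQ).2.2.2

end SheetTwo

/-! ### the instance at `ptKBar₂` -/

section PtK

variable {k : Type*} [Field k] [IsAlgClosed k] [CharP k 2] {β ρ : k}
  [hP : Fact (Irreducible (vertBar 2 β ρ))]

/-- `Ũ` has a double zero at the Kummer point, `q = 2` -/
theorem ord_root_ptKBar₂ (hβ : β ≠ 0) (hρ : ρ ≠ 0) :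
    (ptKBar₂ hβ hρ).ord (AdjoinRoot.root (vertBar 2 β ρ)) = 2 :=
  ord_U_ptK₂ hρ (vertBar_hb (q := 2) (ρ := ρ) hβ) (vertBar_heq_two hβ) (vertBar_hgen hβ)

/-- **The Kummer point of `z e` at `q = 2` lies over `T = ∞`.** -/
theorem ptKBar₂_restrict [Fact (Nat.Prime 2)] (hβ : β ≠ 0) (hρ : ρ ≠ 0) :
    (ptKBar₂ hβ hρ).restrict (RatFunc k) = placeInfty k :=
  (kummerPoint_two rfl hβ hρ (by rw [ord_root_ptKBar₂ hβ hρ]; norm_num)).1

/-- the Kummer point of `z e` at `q = 2` is unramified over `T = ∞` -/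
theorem ord_algebraMap_ptKBar₂ [Fact (Nat.Prime 2)] (hβ : β ≠ 0) (hρ : ρ ≠ 0) (g : RatFunc k) :
    (ptKBar₂ hβ hρ).ord (algebraMap (RatFunc k) (AdjoinRoot (vertBar 2 β ρ)) g) =
      (placeInfty k).ord g :=
  ord_algebraMap_kummer_two rfl hβ hρ (by rw [ord_root_ptKBar₂ hβ hρ]; norm_num) g

end PtK

section SheetPtK

variable {K F' F'' : Type*} [Field K] [Field F'] [Field F''] [Algebra K F'] [Algebra K F'']
  [Algebra F' F''] [IsScalarTower K F' F''] {A : ValuationSubring K}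
  [IsAlgClosed (ResidueField A)] [CharP (ResidueField A) 2] [Fact (Nat.Prime 2)]
  {T' : Set (Place K F')}

variable {β ρ : ResidueField A} [hP : Fact (Irreducible (vertBar 2 β ρ))]
  {C : AnnulusCore A T'} {a₀ : K} {ha1 : A.valuation C.thick < A.valuation a₀}
  {ha2 : A.valuation a₀ < 1} {Z : ValuationSubring F''}
  {resZ : Z →+* AdjoinRoot (vertBar 2 β ρ)} {θ : F''}

/-- **(N2-TWO, vertical side) at `ptKBar₂`.** -/
theorem coverComp_ptKBar₂ (H : VertComp C a₀ ha1 ha2 Z resZ θ) (hβ : β ≠ 0) (hρ : ρ ≠ 0)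
    {b₀ : F'} (hb₀ : IsRed C a₀ b₀ (RatFunc.C β * RatFunc.X))
    {W : F''} (hW : W * -(algebraMap F' F'' b₀) = θ) {c₀ : A} (hc₀ : residue A c₀ = 0) :
    CoverComp (residue A) (circleRing C a₀ ha1 ha2) (circleRes C a₀ ha1 ha2)
      (placeInfty (ResidueField A)) Z resZ (ptKBar₂ hβ hρ) W c₀ :=
  coverComp_kummer_two rfl H hβ hρ hb₀ hW hc₀ (by rw [ord_root_ptKBar₂ hβ hρ]; norm_num)

/-- `coverComp_ptKBar₂` in the shape of the modular instance. -/
theorem coverComp_ptKBar₂_div {U : F''}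
    (H : VertComp C a₀ ha1 ha2 Z resZ (U / algebraMap F' F'' (algebraMap K F' a₀)))
    (hβ : β ≠ 0) (hρ : ρ ≠ 0) {Bc : F'}
    (hb₀ : IsRed C a₀ (a₀⁻¹ • Bc) (RatFunc.C β * RatFunc.X))
    {c₀ : A} (hc₀ : residue A c₀ = 0) :
    CoverComp (residue A) (circleRing C a₀ ha1 ha2) (circleRes C a₀ ha1 ha2)
      (placeInfty (ResidueField A)) Z resZ (ptKBar₂ hβ hρ) (U / algebraMap F' F'' (-Bc)) c₀ :=
  coverComp_kummer_two_div rfl H hβ hρ hb₀ hc₀ (by rw [ord_root_ptKBar₂ hβ hρ]; norm_num)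

end SheetPtK

end Fermat.Agent.BR3.SplitNodeTwoVert
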