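/-
Program C (S36), node (N2-TWO), part 2b (helper12): the MIDDLE-COMPONENT side of the Kummer node
at `q = 2` — the component `(w₂ b, resMid b)` of the cover over the component `'can'` of the base,
with the place `pMidOver (z₁ e)` over the supersingular point `z₁ e`, on the SECOND split sheet
`W = splitW M q g g' = U_g / α₂ (-Bc) ≡ 0` (twin of helper13's `SplitCompsCInf.coverComp_cInf`,
which is the sheet `W ≡ 1` on `cInf`; frame of helper29's `KummerMidSide.overComp_mid`).

For EVERY prime `q`, every middle valuation `w₂ b` and every crossing `e`, with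
`P : IsSSParam B hB hqM e g g' g''`, `Bc := α g - (β g')^q`:

* `alpha2_bc_mem_w2`, `valuation_alpha2_bc` : `α₂ Bc` is a unit of `w₂ b` (`Bc` reduces on `'can'`
  to a function with a simple zero at `z₁ e`, in particular `≠ 0`);
* `splitW_mem_nonunits_w2` : `W ∈ 𝔪(w₂ b)` (`U_g ≡ 0` on the mids, `MidKummerMod.Ug_mem_nonunits_w2`);
  `resMid_splitW : resMid b W = 0`;
* `lies_mid` : `pMidOver v` lies over `v`; `ord_algebraMap_mid_two` : unramified for `q = 2`
  (`fMid = 1`): the hypothesis `hord` of `SplitNodeChart.splitNodeChart`;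
* **`coverComp_mid`** : `SplitBranch.CoverComp (residue B) O1 (constRedW1 …).res (z₁ e) (w₂ b)
  (resMid b) (pMidOver (z₁ e) hv) (splitW M q g g') c₀`, `residue B c₀ = 0`;
* **`coverComp_ze_two`** : the modular shape of the vertical side
  (`SplitNodeTwoVert.coverComp_kummer_two_div` along `α₂`, twin of `SplitCompsCInf.coverComp_ze`):
  `q = 2`, `Q₂` the zero of `Ũ` on `z e`:
  `CoverComp (residue B) (circleRing C a₀ ..) (circleRes C a₀ ..) (placeInfty kB) Z resZ Q₂
  (splitW M q g g') c₀`, `residue B c₀ = 0`.
-/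
import Mathlib
import Fermat.Agent.BR3.KummerMidSide
import Fermat.Agent.BR3.SplitCompsCInf
import Fermat.Agent.BR3.SplitNodeTwoVert

set_option autoImplicit false
set_option linter.unusedSectionVars false
set_option linter.style.haveILetI false
set_option synthInstance.maxHeartbeats 400000
set_option maxHeartbeats 1600000

noncomputable section

/- S36 build-time patch: file-local shortcut instances. They only shorten instance search;
each is the instance that the search finds anyway (reducible, same terms after unfolding). -/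
local instance (priority := 100000) Fermat.Agent.BR3.FastInst.instAlgFullC_SplitNodeTwoMid
    {k : Type*} [Field k] (N : ℕ) :
    Algebra k ↥(ModularCurve.modularFunctionFieldFullC k N) := inferInstance
local instance (priority := 100000) Fermat.Agent.BR3.FastInst.instFieldFullC_SplitNodeTwoMid
    {k : Type*} [Field k] (N : ℕ) :
    Field ↥(ModularCurve.modularFunctionFieldFullC k N) := inferInstance
local instance (priority := 100000) Fermat.Agent.BR3.FastInst.instAlgLaurent_SplitNodeTwoMid
    {k : Type*} [Field k] : Algebra k (LaurentSeries k) := inferInstance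


namespace Fermat.Agent.BR3.SplitNodeTwoMid

open AlgebraicCurve ModularCurve IsLocalRing
open Fermat.Agent.Red Fermat.Agent.X0 Fermat.Agent.Val Fermat.Agent.Hecke
open Fermat.Agent.BR.S0.RedModular Fermat.Agent.BR.S0.PointDict Fermat.Agent.BR.S0.ThickFinal
open Fermat.Agent.BR3.FibreProd Fermat.Agent.BR3.HeckePoly Fermat.Agent.BR3.MidKummerAbs
open Fermat.Agent.BR3.SSParam Fermat.Agent.BR3.IgSq
open Fermat.Agent.BR3.KummerGenus.MidInst Fermat.Agent.BR3.MidKummerNodeOrd
open Fermat.Agent.BR3.MidKummerMod
open Fermat.Agent.BR.ConstRedTwo Fermat.Agent.BR.TwoValInst Fermat.Agent.BR.TwoVal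
open Fermat.Agent.BR3.SplitBranch Fermat.Agent.BR3.SplitCompsCInf Fermat.Agent.BR3.CoverSmooth

variable {M q : ℕ} [NeZero M] [hq : Fact q.Prime]
variable (B : ValuationSubring Kb) (hB : B.LiesOverPrime q) (hqM : ¬ q ∣ M)
variable [IsAlgClosed (ResidueField B)] [CharP (IsLocalRing.ResidueField B) q]
  {e : Crossing (chartDataModular B hB hqM)}
variable {ζ : Kbˣ} (hζ : IsPrimitiveRoot ζ q) {b : ℕ} (hb : b < q - 1)

local notation "kB" => IsLocalRing.ResidueField B
local notation "FtM" => modularFunctionFieldFullC (IsLocalRing.ResidueField B) M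

/-- (shortcut instances, as in `KummerGenus.MidInst`) -/
local instance (priority := 100000) instAlgKFt₄ : Algebra kB FtM := inferInstance
local instance (priority := 100000) instAlgKFMid₄ : Algebra kB (FMid M B) := inferInstance
local instance (priority := 100000) instAlgFtFMid₄ : Algebra FtM (FMid M B) := inferInstance
local instance (priority := 100000) instTowerMid₄ : IsScalarTower kB FtM (FMid M B) :=
  inferInstance

/-! ### the place `pMidOver v` over `v` -/

section Lies

/-- `pMidOver v hv` lies over `v` (field `lies` of `SplitBranch.CoverComp`) -/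
theorem lies_mid (v : Place kB FtM)
    (hv : IsCoprime (v.ord (deltaMid B hB hqM)) (fMid M B hB : ℤ)) (g : FtM) :
    algebraMap FtM (FMid M B) g ∈ (pMidOver B hB hqM v hv).toValuationSubring ↔
      g ∈ v.toValuationSubring := by
  have hf : (0 : ℤ) < (fMid M B hB : ℤ) := by exact_mod_cast fMid_pos B hB hqM
  rw [mem_iff_le_one, mem_iff_le_one, Place.adicValuation_le_one_iff,
    Place.adicValuation_le_one_iff, ord_pMidOver_algebraMap B hB hqM v hv g, map_eq_zero,
    mul_nonneg_iff_of_pos_left hf]

/-- **`q = 2`: `pMidOver v hv` is unramified over `v`** (`fMid = 1`): the hypothesis `hord` of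
`SplitNodeChart.splitNodeChart` on the side of the mid. -/
theorem ord_algebraMap_mid_two (hq2 : q = 2) (v : Place kB FtM)
    (hv : IsCoprime (v.ord (deltaMid B hB hqM)) (fMid M B hB : ℤ)) (g : FtM) :
    (pMidOver B hB hqM v hv).ord (algebraMap FtM (FMid M B) g) = v.ord g := by
  rw [ord_pMidOver_algebraMap B hB hqM v hv g, fMid_eq_one_of_two B hB hqM hq2, Nat.cast_one,
    one_mul]

end Lies

/-! ### the split-sheet function on the mids -/

section Param

variable [PerfectField (IsLocalRing.ResidueField B)]
variable {g g' g'' : Fb M} (P : IsSSParam B hB hqM e g g' g'')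

include P

theorem alpha2_bc_mem_w2 :
    alpha2 M q (heckeAlphaBar Kb M q g - heckeBetaBar Kb M q g' ^ q) ∈ w2 B hB hqM hζ hb :=
  (alpha2_mem_w2_iff B hB hqM hζ hb _).2 (bc_mem_O1 B hB hqM P)

/-- `α₂ Bc` is a unit of every middle valuation -/
theorem valuation_alpha2_bc :
    (w2 B hB hqM hζ hb).valuation
      (alpha2 M q (heckeAlphaBar Kb M q g - heckeBetaBar Kb M q g' ^ q)) = 1 := by
  have hmem := alpha2_bc_mem_w2 B hB hqM hζ hb P
  have hnn : alpha2 M q (heckeAlphaBar Kb M q g - heckeBetaBar Kb M q g' ^ q) ∉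
      (w2 B hB hqM hζ hb).nonunits := by
    intro hnu
    have h0 := (resMid_eq_zero_iff_mem_nonunits B hB hqM hζ hb ⟨_, hmem⟩).mpr hnu
    rw [resMid_alpha2 B hB hqM hζ hb _ (bc_mem_O1 B hB hqM P)] at h0
    exact res_bc_ne_zero B hB hqM P
      ((_root_.map_eq_zero (algebraMap FtM (FMid M B))).mp h0)
  rw [ValuationSubring.mem_nonunits_iff, not_lt] at hnn
  exact le_antisymm ((ValuationSubring.valuation_le_one_iff _ _).mpr hmem) hnn

/-- **The split-sheet function `W = U_g / α₂ (-Bc)` is a non-unit of every middle valuation.** -/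
theorem splitW_mem_nonunits_w2 : splitW M q g g' ∈ (w2 B hB hqM hζ hb).nonunits := by
  have hU : (w2 B hB hqM hζ hb).valuation (Ug M q g) < 1 := by
    have h := Ug_mem_nonunits_w2 B hB hqM hζ hb (mem_OM_of_mem_CMod_base B hB hqM P.hg)
    rwa [ValuationSubring.mem_nonunits_iff] at h
  rw [ValuationSubring.mem_nonunits_iff, splitW, map_neg, map_div₀, Valuation.map_neg,
    valuation_alpha2_bc B hB hqM hζ hb P, div_one]
  exact hU

theorem splitW_mem_w2 : splitW M q g g' ∈ w2 B hB hqM hζ hb :=
  ValuationSubring.nonunits_subset (splitW_mem_nonunits_w2 B hB hqM hζ hb P)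

/-- **The split-sheet function vanishes on the mids.** -/
theorem resMid_splitW :
    resMid B hB hqM hζ hb ⟨splitW M q g g', splitW_mem_w2 B hB hqM hζ hb P⟩ = 0 :=
  (resMid_eq_zero_iff_mem_nonunits B hB hqM hζ hb _).mpr
    (splitW_mem_nonunits_w2 B hB hqM hζ hb P)

/-- **(N2-TWO, mid side) The middle component `(w₂ b, resMid b)` with the place over `z₁ e`, over
the component `'can'` with its point `z₁ e`, on the sheet `W ≡ 0`.** -/
theorem coverComp_mid
    (hv : IsCoprime ((z₁ (chartDataModular B hB hqM) e).ord (deltaMid B hB hqM))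
      (fMid M B hB : ℤ)) {c₀ : B} (hc₀ : residue B c₀ = 0) :
    letI := algebraAlong (alpha2 M q)
    CoverComp (IsLocalRing.residue B) (O1 M B hB) (constRedW1 B hB hqM).res
      (z₁ (chartDataModular B hB hqM) e) (w2 B hB hqM hζ hb) (resMid B hB hqM hζ hb)
      (pMidOver B hB hqM (z₁ (chartDataModular B hB hqM) e) hv) (splitW M q g g') c₀ := by
  letI := algebraAlong (alpha2 M q)
  exact
    { map_mem := fun y hy => (alpha2_mem_w2_iff B hB hqM hζ hb y).2 hy
      res_map := fun y hy => resMid_alpha2 B hB hqM hζ hb y hy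
      res_nonunits := fun x hx => (resMid_eq_zero_iff_mem_nonunits B hB hqM hζ hb x).mpr hx
      lies := lies_mid B hB hqM _ hv
      W_mem := splitW_mem_w2 B hB hqM hζ hb P
      value := by
        rw [resMid_splitW B hB hqM hζ hb P, hc₀, map_zero, sub_self, map_zero]
        exact zero_lt_one }

end Param

/-! ### the side of `z e` in the modular shape -/

section Ze

open Fermat.Agent.BR.Circle Fermat.Agent.BR.P1 Fermat.Agent.BR3.VertResidue
  Fermat.Agent.BR3.VertSheet Fermat.Agent.BR3.VertPtsDef Polynomial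

variable {T' : Set (Place Kb (Fb (M * q)))} {C : AnnulusCore B T'} {a₀ : Kb}
  {ha1 : B.valuation C.thick < B.valuation a₀} {ha2 : B.valuation a₀ < 1}
  {β ρ : IsLocalRing.ResidueField B} [hP : Fact (Irreducible (vertBar q β ρ))]
  {Z : ValuationSubring (Fb (M * q * q))} {resZ : Z →+* AdjoinRoot (vertBar q β ρ)}

/-- **(N2-TWO, vertical side) in the modular frame**: `q = 2`, the vertical component `z e`
(`H` = the clauses of `exists_vertComponent_of_param_gauge` / `ZeData.vertComp`, generator
`θ = U_g / α₂ a₀`) with its Kummer point `Q₂` (the zero of `Ũ`), over the circle component with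
its point `T = ∞`, on the sheet `W = splitW M q g g' ≡ 0`. -/
theorem coverComp_ze_two (hq2 : q = 2) (g g' : Fb M)
    (H : letI := algebraAlong (alpha2 M q)
      VertComp C a₀ ha1 ha2 Z resZ (Ug M q g / alpha2 M q (algebraMap Kb (Fb (M * q)) a₀)))
    (hβ : β ≠ 0) (hρ : ρ ≠ 0)
    (hred : IsRed C a₀ (a₀⁻¹ • (heckeAlphaBar Kb M q g - heckeBetaBar Kb M q g' ^ q))
      (RatFunc.C β * RatFunc.X))
    {c₀ : B} (hc₀ : residue B c₀ = 0)
    {Q₂ : Place (IsLocalRing.ResidueField B) (AdjoinRoot (vertBar q β ρ))}
    (hQ : 0 < Q₂.ord (AdjoinRoot.root (vertBar q β ρ))) :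
    letI := algebraAlong (alpha2 M q)
    CoverComp (IsLocalRing.residue B) (circleRing C a₀ ha1 ha2) (circleRes C a₀ ha1 ha2)
      (placeInfty (IsLocalRing.ResidueField B)) Z resZ Q₂ (splitW M q g g') c₀ := by
  letI := algebraAlong (alpha2 M q)
  haveI : IsScalarTower Kb (Fb (M * q)) (Fb (M * q * q)) := isScalarTower_along (alpha2 M q)
  exact Fermat.Agent.BR3.SplitNodeTwoVert.coverComp_kummer_two_div hq2 (U := Ug M q g) H hβ hρ
    hred hc₀ hQ

end Ze

end Fermat.Agent.BR3.SplitNodeTwoMid
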