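import Mathlib
import Fermat.Agent.BR3.SplitModularTw
import Fermat.Agent.BR3.SplitNodeTwoTw

/-!
# Program C (S36), node (N2-TWO), part 4 (helper12): the SECOND split sheet at `q = 2` in the
`g`-frame, over the outer sub-annulus

Twin at the root `c₀ = 0` of helper19's `SplitModularTw.sheetHypAt_frame` / `sheetHypTw`
(root `c₀ = 1`, the node `nT e`): for `q = 2`, at EVERY supersingular crossing `e`, for a twisted
triple `(g, g', g'')` with simple zeros at `e`, the function
`W = splitW M q g g' = U_g / α₂(-(α g - (β g')^q))` generates a SECOND split sheet `W ≡ 0` of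
`X₀(M q²) → X₀(M q)` (along `α₂`) over the outer sub-annulus of the tube of `e`: the Kummer node
`nk e ()` of the stable model at `q = 2`.

* `sheetHypAt_frame_two` : the generic wrapper in the modular frame (`SplitNodeTwoTw.
  sheetHyp_of_vertScaledAt_two` with `hfin`, `hhoriz` discharged), any base field / algebra map;
* **`sheetHypTw_two : SheetHyp L' (splitW M q g g') (0 : B)`** for `L'` with
  `H : SplitModular.OuterHyp …`, `hq2 : q = 2`;
* `splitLevelsTwo` : the levels on `coverTube B T' (splitW M q g g') 0`, with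
  `splitLevelsTwo_u/_v/_ε₀/_thick/_R` (use THESE, never `rfl`).
-/

set_option autoImplicit false
set_option linter.unusedSectionVars false
set_option linter.style.haveILetI false
set_option synthInstance.maxHeartbeats 400000
set_option maxHeartbeats 1600000

noncomputable section

/- S36 build-time patch: file-local shortcut instances. They only shorten instance search;
each is the instance that the search finds anyway (reducible, same terms after unfolding). -/
local instance (priority := 100000) Fermat.Agent.BR3.FastInst.instAlgFullC_SplitNodeTwoSheet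
    {k : Type*} [Field k] (N : ℕ) :
    Algebra k ↥(ModularCurve.modularFunctionFieldFullC k N) := inferInstance
local instance (priority := 100000) Fermat.Agent.BR3.FastInst.instFieldFullC_SplitNodeTwoSheet
    {k : Type*} [Field k] (N : ℕ) :
    Field ↥(ModularCurve.modularFunctionFieldFullC k N) := inferInstance
local instance (priority := 100000) Fermat.Agent.BR3.FastInst.instAlgLaurent_SplitNodeTwoSheet
    {k : Type*} [Field k] : Algebra k (LaurentSeries k) := inferInstance


namespace Fermat.Agent.BR3.SplitNodeTwoSheet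

open Polynomial ModularCurve AlgebraicCurve IsLocalRing
open Fermat.Agent.X0 Fermat.Agent.Val Fermat.Agent.Red Fermat.Agent.BR.Kron
open Fermat.Agent.BR.Centre Fermat.Agent.BR.SS Fermat.Agent.BR.Refine
open Fermat.Agent.BR.S0 Fermat.Agent.BR.S0.RedModular Fermat.Agent.BR.S0.PointDict
open Fermat.Agent.BR.Inst.AnnulusInstFinal Fermat.Agent.BR.Inst.NodeInstFinal
open Fermat.Agent.BR.Inst.Levels
open Fermat.Agent.BR.Inst.FKCover Fermat.Agent.BR.Final
open Fermat.Agent.BR3.FibreProd Fermat.Agent.BR3.VertTaylor Fermat.Agent.BR3.VertTaylorAt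
open Fermat.Agent.BR3.CircleN
open Fermat.Agent.BR3.EtaleLocal Fermat.Agent.BR3.SplitLevel Fermat.Agent.BR3.SplitLevels
open Fermat.Agent.BR3.SplitBranch Fermat.Agent.BR3.SplitNodeChart Fermat.Agent.BR3.SplitCoord
open Fermat.Agent.BR3.SplitHoriz Fermat.Agent.BR3.CoverSmooth Fermat.Agent.Good.Bridge
open Fermat.Agent.BR3.SplitModular Fermat.Agent.BR3.SplitCoordTw Fermat.Agent.BR3.HeckePoly
open Fermat.Agent.BR3.SplitCompsCInf Fermat.Agent.BR3.SSParam Fermat.Agent.BR3.SplitModularTw
open Fermat.Agent.BR3.SplitNodeTwoTw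

/-! ### The generic wrapper in the modular frame, root `0` -/

section Frame

attribute [local instance] NodeLevel.isLocal NodeLevel.noeth NodeLevel.intClosed

variable {N₂ : ℕ} [NeZero N₂] {F : Type*} [Field F] [Algebra Kb F] [Algebra F (Fb N₂)]
  [IsScalarTower Kb F (Fb N₂)] [Algebra.IsIntegral F (Fb N₂)]
  {A : ValuationSubring Kb} {T' : Set (Place Kb F)} {ι' : Type*}

/-- **The hypotheses of the second split sheet `W ≡ 0` at `q = 2` in the modular frame
`F₂ = F̄_{N₂}`**: `SplitNodeTwoTw.sheetHyp_of_vertScaledAt_two` with the finiteness of divisors and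
the K-point existence lemma discharged. Generic in the base field `F`. -/
theorem sheetHypAt_frame_two (L' : AnnulusLevels A T' ι') (q : ℕ) (hq2 : q = 2) {x₁ x₂ y : F}
    {Ψ₁ P : F[X]}
    (hx₁ : ∀ i', x₁ ∈ (L'.level i').R) (hx₂ : ∀ i', x₂ ∈ (L'.level i').R)
    (hy : ∀ i', y ∈ (L'.level i').R) (hΨ : ∀ i' n, Ψ₁.coeff n ∈ (L'.level i').R)
    (hc : y - x₁ ^ q ≠ 0)
    (ht : ∀ i', ∃ h : (q : F) * ((-(y - x₁ ^ q)) ^ (q + 1))⁻¹ ∈ (L'.level i').R,
      (⟨(q : F) * ((-(y - x₁ ^ q)) ^ (q + 1))⁻¹, h⟩ : (L'.level i').R) ∈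
        maximalIdeal (L'.level i').R)
    (hP : P = (X ^ q - C x₂) * (X - C (x₁ ^ q)) + C (q : F) * Ψ₁)
    (hmon : P.Monic) (hdeg : P.natDegree = q + 1) (h0 : P.eval y = 0) {W : Fb N₂}
    (hW : minpoly F W = vertScaledAt P q y (-(y - x₁ ^ q)))
    (hgen : ∀ z : Fb N₂, ∃ p : F[X], aeval W p = z)
    (hRFK : ∀ i', ∀ z ∈ (L'.level i').R, algebraMap F (Fb N₂) z ∈ FKs N₂ (L'.level i').K')
    (hWK : ∀ i', W ∈ FKs N₂ (L'.level i').K')
    (hT : ∀ i' (P : Place Kb F), CentredAt A (L'.level i').R P → P ∈ T') :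
    SheetHyp L' W (0 : A) :=
  sheetHyp_of_vertScaledAt_two L' q hq2 hx₁ hx₂ hy hΨ hc ht hP hmon hdeg h0 hW hgen
    (Fermat.Agent.BR.Inst.AnnulusInstAux.finite_div_modular N₂)
    (fun i' _ _ Hs => horiz_splitRing_frame (L'.level i') Hs (hRFK i') (hWK i')
      (fun _ hx hx0 => Fermat.Agent.BR3.SubAnnChart.exists_zpow_of_mem_K' (L'.level i') hx hx0)
      (hT i'))

end Frame

/-! ### The second split sheet over the outer sub-annulus, `g`-frame -/

section Final

open Fermat.Agent.BR3.VertAll Fermat.Agent.BR3.VertAllParam Fermat.Agent.BR3.VertAllLevels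
open Fermat.Agent.BR3.HeckePolyDescent Fermat.Agent.BR3.HeckePolyModel
open Fermat.Agent.BR3.ThickOneFinal Fermat.Agent.BR3.ThickOneUnit Fermat.Agent.BR3.VertTube
open Fermat.Agent.BR3.VertSheet Fermat.Agent.BR3.VertFinal Fermat.Agent.BR.S0.ThickFinal
open Fermat.Agent.BR.Circle Fermat.Agent.BR.ResGen

variable {M q : ℕ} [NeZero M] [hq : Fact q.Prime]

/-- the cover along `α₂` -/
local instance instAlgAlpha2Two : Algebra (Fb (M * q)) (Fb (M * q * q)) :=
  algebraAlong (alpha2 M q)

local instance instTowerAlpha2Two : IsScalarTower Kb (Fb (M * q)) (Fb (M * q * q)) :=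
  isScalarTower_along (alpha2 M q)

local instance instFiniteAlpha2Two : Module.Finite (Fb (M * q)) (Fb (M * q * q)) :=
  Fermat.Agent.Hecke.finiteAlong_heckeAlphaBar (M * q) q

variable {B : ValuationSubring Kb} {hB : B.LiesOverPrime q} {hqM : ¬ q ∣ M}
  [IsAlgClosed (ResidueField B)] [CharP (ResidueField B) q]
  {hne : Nonempty (Crossing (chartDataModular B hB hqM))}
  {e : Crossing (chartDataModular B hB hqM)}

local notation "kB" => ResidueField B

/-- (shortcut instance: the search through the generic instances costs seconds per declaration) -/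
local instance (priority := 100000) instAlgebraFtMShortcutSplitTwo :
    Algebra kB (modularFunctionFieldFullC kB M) :=
  inferInstance

variable (hq2 : q = 2) (h2 : nuTwo M = 0) (h3 : nuThree M = 0) {g g' g'' : Fb M}
  (Hp : IsSSParam B hB hqM e g g' g'')

attribute [local instance] NodeLevel.isLocal NodeLevel.noeth NodeLevel.intClosed

variable {T' : Set (Place Kb (Fb (M * q)))} {ι' : Type*}
variable {L' : AnnulusLevels B T' ι'} {idx : ι' → Finset Kb} {ρ : Kb}
  (H : OuterHyp B hB hqM hne e L' idx ρ) (hK0 : ∀ i', K0 q ≤ (L'.level i').K')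

include hq2 H hK0 Hp h2 h3 in
set_option maxHeartbeats 4000000 in
/-- **(N2-TWO, `g`-frame) The hypotheses of the SECOND split sheet of `X₀(M q²) → X₀(M q)` (along
`α₂`) over the outer sub-annulus of the crossing `e`, `q = 2`, at EVERY supersingular crossing**:
`W = splitW M q g g' = U_g / α₂(-(α g - (β g')^q)) ≡ 0`. -/
theorem sheetHypTw_two : SheetHyp L' (splitW M q g g') (0 : B) := by
  obtain ⟨Ψ₁, hΨR, hP, hz, hR⟩ := exists_frameData B hB hqM hne e h2 h3 Hp
  have hmono : ∀ i', ((annulusLevels_modular_final B hB hqM hne e).level (∅ : Finset Kb)).R ≤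
      (L'.level i').R := fun i' =>
    le_trans (level_mono B hB hqM hne e (Finset.empty_subset (idx i'))) (H.le i')
  exact sheetHypAt_frame_two L' q hq2
    (fun i' => hmono i' (beta_mem_level B hB hqM hne e Hp.hg'))
    (fun i' => hmono i' (beta_mem_level B hB hqM hne e Hp.hg''))
    (fun i' => hmono i' (alpha_mem_level B hB hqM hne e Hp.hg))
    (fun i' n => hmono i' (hΨR n))
    (vg_ne_zero B hB hqM e Hp) (smallTw h2 h3 Hp H) hP (PAt_monic g) (PAt_natDegree hqM g)
    (PAt_eval_alpha hqM g) (Fermat.Agent.BR3.SplitModularTw.minpoly_splitW B hB hqM hne e h2 h3 Hp)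
    (gen_splitW B hB hqM hne e h2 h3 Hp)
    (fun i' y hy => alpha2_mem_FKs _ (H.hRK i' y hy))
    (fun i' => splitW_mem_FKs B hB hqM e Hp (hK0 i')) H.hT

/-- **The levels of the second split sheet over the outer sub-annulus of the crossing `e`**
(`q = 2`, `g`-frame): the levels of the Kummer node `nk e ()`. -/
def splitLevelsTwo : AnnulusLevels B (coverTube B T' (splitW M q g g') (0 : B)) ι' :=
  (sheetHypTw_two hq2 h2 h3 Hp H hK0).levels

theorem splitLevelsTwo_eq :
    splitLevelsTwo hq2 h2 h3 Hp H hK0 = (sheetHypTw_two hq2 h2 h3 Hp H hK0).levels := rfl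

@[simp] theorem splitLevelsTwo_u :
    (splitLevelsTwo hq2 h2 h3 Hp H hK0).u = alpha2 M q L'.u :=
  SheetHyp.levels_u (sheetHypTw_two hq2 h2 h3 Hp H hK0)

@[simp] theorem splitLevelsTwo_v :
    (splitLevelsTwo hq2 h2 h3 Hp H hK0).v = alpha2 M q L'.v :=
  SheetHyp.levels_v (sheetHypTw_two hq2 h2 h3 Hp H hK0)

@[simp] theorem splitLevelsTwo_ε₀ :
    (splitLevelsTwo hq2 h2 h3 Hp H hK0).ε₀ = alpha2 M q L'.ε₀ :=
  SheetHyp.levels_ε₀ (sheetHypTw_two hq2 h2 h3 Hp H hK0)

@[simp] theorem splitLevelsTwo_thick :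
    (splitLevelsTwo hq2 h2 h3 Hp H hK0).thick = L'.thick :=
  SheetHyp.levels_thick (sheetHypTw_two hq2 h2 h3 Hp H hK0)

theorem splitLevelsTwo_R (i' : ι') :
    ((splitLevelsTwo hq2 h2 h3 Hp H hK0).level i').R =
      (sheetHypTw_two hq2 h2 h3 Hp H hK0).ring i' :=
  SheetHyp.levels_R (sheetHypTw_two hq2 h2 h3 Hp H hK0) i'

end Final

end Fermat.Agent.BR3.SplitNodeTwoSheet
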