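import Mathlib
import Fermat.Agent.BR3.SplitNode.ModT
import Fermat.Agent.BR3.SplitNodeTwoMid
import Fermat.Agent.BR3.SplitNodeTwoSheet
import Fermat.Agent.BR3.SplitModularRef
import Fermat.Agent.BR3.VertPtsU

/-!
# Program C (S36), node (N2-TWO), part 5 (helper12): the Kummer node `nk e s` of `S''` at `q = 2`

For `q = 2` the Kummer node `nk e s` (the middle component `w₂ b` at its place over `z₁ e` —— the
vertical component `z e` at its Kummer point, the zero of `Ũ`) is the SECOND split sheet
`W = splitW M q g g' = U_g / α₂(-(α g - (β g')^q)) ≡ 0` over the outer node of `S'ref_a` at `e`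
(the first one, `W ≡ 1`, is the node `nT e` : helper16's `SplitNode.nodeOutT`).

* `sheetHyp_levelsOutA_two` : `SheetHyp (levelsOutA …) (splitW M q g g') (0 : B)` at `q = 2`, at
  EVERY supersingular crossing, for a twisted triple (`SplitNodeTwoSheet.sheetHypTw_two` over
  helper19's `SplitModularRef.outerHyp_outerLevelsRef`);
* **`nodeOutK2`** : the bundle `SplitNode.NodeOut` (levels, branch data on `(w₂ b, resMid b)` at
  `pMidOver (z₁ e)` and on the vertical component `(Z, resZ)` at `Q₂`, `v ≡ 0` on the mid, `u ≡ 0`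
  on `z e`, uniformizers) on the raw tube `coverTube B (tube S'ref_a (outer e)) (splitW M q g g') 0`
  (along `α₂`): twin of `SplitNode.nodeOutT`; `nodeOutK2_thick` (= `gaugeA e` : (G3) `hK` with
  `κ₀ = 1`, `d = 1`), `nodeOutK2_u` (= `α₂ u_e`), `nodeOutK2_v`, `nodeOutK2_L`;
* `nodeOutK2'` : the same with `H` discharged by `sheetHyp_levelsOutA_two`;
* `chartK2` : the node chart (`chK e s` of `caseInputOfRaw`);
* `annSheetK2` : the annulus sheet of degree `1 = d` (W4);
* `hK_two` : `gaugeA e = 1 * thick ^ midDeg q` (the field `hK` of the integrator, `q = 2`);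
* `exists_value_K2` (`hWK`), `restrict_mem_K2` (`tube_a_nk`).
-/

set_option autoImplicit false
set_option linter.unusedSectionVars false
set_option linter.style.haveILetI false
set_option synthInstance.maxHeartbeats 400000

noncomputable section

/- S36 build-time patch: file-local shortcut instances. They only shorten instance search;
each is the instance that the search finds anyway (reducible, same terms after unfolding). -/
local instance (priority := 100000) Fermat.Agent.BR3.FastInst.instAlgFullC_SplitNodeTwoMod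
    {k : Type*} [Field k] (N : ℕ) :
    Algebra k ↥(ModularCurve.modularFunctionFieldFullC k N) := inferInstance
local instance (priority := 100000) Fermat.Agent.BR3.FastInst.instFieldFullC_SplitNodeTwoMod
    {k : Type*} [Field k] (N : ℕ) :
    Field ↥(ModularCurve.modularFunctionFieldFullC k N) := inferInstance
local instance (priority := 100000) Fermat.Agent.BR3.FastInst.instAlgLaurent_SplitNodeTwoMod
    {k : Type*} [Field k] : Algebra k (LaurentSeries k) := inferInstance


namespace Fermat.Agent.BR3.SplitNodeTwoMod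

open ModularCurve AlgebraicCurve IsLocalRing Polynomial
open Fermat.Agent.Red Fermat.Agent.Val Fermat.Agent.X0 Fermat.Agent.Hecke
open Fermat.Agent.BR.SS Fermat.Agent.BR.Refine Fermat.Agent.BR.TwoVal Fermat.Agent.BR.TwoValInst
open Fermat.Agent.BR.Circle Fermat.Agent.BR.S0 Fermat.Agent.BR.S0.PointDict Fermat.Agent.BR.P1
open Fermat.Agent.BR.S0.RedModular Fermat.Agent.BR.Final Fermat.Agent.BR.Inst.AnnulusInstFinal
open Fermat.Agent.BR.ConstRedTwo
open Fermat.Agent.BR2.SetupOfData Fermat.Agent.BR3.CircleN Fermat.Agent.BR3.SRef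
open Fermat.Agent.BR3.SRef.Modular Fermat.Agent.BR3.SDD.Modular Fermat.Agent.BR3.SubAnnChart
open Fermat.Agent.BR3.SplitLevels Fermat.Agent.BR3.SplitBranch Fermat.Agent.BR3.CoverSmooth
open Fermat.Agent.BR3.FibreProd Fermat.Agent.BR3.HeckePoly Fermat.Agent.BR3.SSParam
open Fermat.Agent.BR3.VertResidue Fermat.Agent.BR3.VertSheet Fermat.Agent.BR3.VertPtsDef
open Fermat.Agent.BR3.SplitCompsCInf Fermat.Agent.BR3.CInfRes Fermat.Agent.BR3.SplitNode
open Fermat.Agent.BR3.MidKummerAbs Fermat.Agent.BR3.IgSq
open Fermat.Agent.BR3.KummerGenus.MidInst Fermat.Agent.BR3.MidKummerNodeOrd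
open Fermat.Agent.BR3.MidKummerMod Fermat.Agent.BR3.SplitNodeTwoMid
open Fermat.Agent.BR3.SplitNodeTwoSheet Fermat.Agent.BR3.SplitModularRef

local notation "Kb" => AlgebraicClosure ℚ

variable {M q : ℕ} [NeZero M] [hq : Fact q.Prime]
variable (B : ValuationSubring (AlgebraicClosure ℚ)) (hB : B.LiesOverPrime q) (hqM : ¬ q ∣ M)
variable [IsAlgClosed (ResidueField B)]

local notation "kB" => IsLocalRing.ResidueField B
local notation "FtM" => modularFunctionFieldFullC (IsLocalRing.ResidueField B) M

/-- (shortcut instances) -/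
local instance (priority := 100000) instAlgebraFtMShortcutK2 :
    Algebra (IsLocalRing.ResidueField B)
      (modularFunctionFieldFullC (IsLocalRing.ResidueField B) M) :=
  inferInstance
local instance (priority := 100000) instAlgKFMidK2 : Algebra kB (FMid M B) := inferInstance
local instance (priority := 100000) instAlgFtFMidK2 : Algebra FtM (FMid M B) := inferInstance
local instance (priority := 100000) instTowerMidK2 : IsScalarTower kB FtM (FMid M B) :=
  inferInstance

variable (h2 : nuTwo M = 0) (h3 : nuThree M = 0) (e : Crossing (chartDataModular B hB hqM))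
  [CharP (ResidueField B) q] [PerfectField (ResidueField B)]
  {g g' g'' : Fb M} (P : IsSSParam B hB hqM e g g' g'')
  {β ρ : ResidueField B} [Fact (Irreducible (vertBar q β ρ))]
  {Z : ValuationSubring (Fb (M * q * q))} {resZ : Z →+* AdjoinRoot (vertBar q β ρ)}
  {ζ : Kbˣ} (hζ : IsPrimitiveRoot ζ q) {b : ℕ} (hb : b < q - 1)

/-! ### The sheet hypotheses over the outer node of `S'ref_a` -/

include P in
set_option maxHeartbeats 4000000 in
/-- **(N2-TWO) The hypotheses of the SECOND split sheet `W ≡ 0` over the outer node of `S'ref_a`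
at `e`**, `q = 2`, every supersingular crossing, twisted triple. -/
theorem sheetHyp_levelsOutA_two (hq2 : q = 2) :
    letI := algebraAlong (alpha2 M q)
    haveI := isScalarTower_along (alpha2 M q)
    haveI : Module.Finite (Fb (M * q)) (Fb (M * q * q)) :=
      Fermat.Agent.Hecke.finiteAlong_heckeAlphaBar (M * q) q
    SheetHyp (levelsOutA B hB hqM h2 h3 e) (splitW M q g g') (0 : B) := by
  letI := algebraAlong (alpha2 M q)
  haveI := isScalarTower_along (alpha2 M q)
  haveI : Module.Finite (Fb (M * q)) (Fb (M * q * q)) :=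
    Fermat.Agent.Hecke.finiteAlong_heckeAlphaBar (M * q) q
  exact sheetHypTw_two hq2 h2 h3 P
    (outerHyp_outerLevelsRef B hB hqM (gaugeA q B hB hqM) (admA B hB hqM h2 h3) e
      (hg_of_isGaugeA B hB hqM (gaugeA q B hB hqM) e (isGaugeA B hB hqM h2 h3)))
    (hK0_outerLevelsRef B hB hqM (gaugeA q B hB hqM) (admA B hB hqM h2 h3) e)

/-! ### The bundle of the node -/

set_option maxHeartbeats 4000000 in
/-- **(N2-TWO) The data of the Kummer node `nk e s` of `S''` at `q = 2`** (the middle component
`w₂ b` at `pMidOver (z₁ e)` —— `z e` at its Kummer point `Q₂`, the zero of `Ũ`), on the raw tube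
of the split sheet `W = U_g / α₂(-(α g - (β g')^q)) ≡ 0` over the outer node of `S'ref_a` at
`e`. -/
def nodeOutK2 (hq2 : q = 2)
    (H : letI := algebraAlong (alpha2 M q)
      haveI := isScalarTower_along (alpha2 M q)
      haveI : Module.Finite (Fb (M * q)) (Fb (M * q * q)) :=
        Fermat.Agent.Hecke.finiteAlong_heckeAlphaBar (M * q) q
      SheetHyp (levelsOutA B hB hqM h2 h3 e) (splitW M q g g') (0 : B))
    (hv : IsCoprime ((z₁ (chartDataModular B hB hqM) e).ord (deltaMid B hB hqM))
      (fMid M B hB : ℤ))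
    (Hv : letI := algebraAlong (alpha2 M q)
      VertComp (core (DtM B hB hqM) e) (gaugeA q B hB hqM e) (admA B hB hqM h2 h3 e).1
        (admA B hB hqM h2 h3 e).2 Z resZ
        (Ug M q g / alpha2 M q (algebraMap Kb (Fb (M * q)) (gaugeA q B hB hqM e))))
    (hβ : β ≠ 0) (hρ : ρ ≠ 0)
    (hred : IsRed (core (DtM B hB hqM) e) (gaugeA q B hB hqM e)
      ((gaugeA q B hB hqM e)⁻¹ • (heckeAlphaBar Kb M q g - heckeBetaBar Kb M q g' ^ q))
      (RatFunc.C β * RatFunc.X))
    {Q₂ : Place (ResidueField B) (AdjoinRoot (vertBar q β ρ))}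
    (hQ : 0 < Q₂.ord (AdjoinRoot.root (vertBar q β ρ))) :
    letI := algebraAlong (alpha2 M q)
    haveI := isScalarTower_along (alpha2 M q)
    haveI : Module.Finite (Fb (M * q)) (Fb (M * q * q)) :=
      Fermat.Agent.Hecke.finiteAlong_heckeAlphaBar (M * q) q
    NodeOut B (residue B) (w2 B hB hqM hζ hb) (resMid B hB hqM hζ hb)
      (pMidOver B hB hqM (z₁ (chartDataModular B hB hqM) e) hv)
      Z resZ Q₂
      (coverTube B
        (tube (srefM (DtM B hB hqM) (gaugeA q B hB hqM) (admA B hB hqM h2 h3))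
          (outer (inputs (DtM B hB hqM)) (gaugeA q B hB hqM) (admA B hB hqM h2 h3) e))
        (splitW M q g g') (0 : B))
      (idxOutA B hB hqM h2 h3 e) := by
  letI := algebraAlong (alpha2 M q)
  haveI := isScalarTower_along (alpha2 M q)
  haveI : Module.Finite (Fb (M * q)) (Fb (M * q * q)) :=
    Fermat.Agent.Hecke.finiteAlong_heckeAlphaBar (M * q) q
  exact nodeOutA B hB hqM h2 h3 e H
    (coverComp_mid B hB hqM hζ hb P hv (map_zero _))
    (coverComp_ze_two B hq2 g g' Hv hβ hρ hred (map_zero _) hQ)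
    (ord_algebraMap_mid_two B hB hqM hq2 _ hv)
    (Fermat.Agent.BR3.SplitNodeTwoVert.ord_algebraMap_kummer_two hq2 hβ hρ hQ)

section Lemmas

variable (hq2 : q = 2)
    (H : letI := algebraAlong (alpha2 M q)
      haveI := isScalarTower_along (alpha2 M q)
      haveI : Module.Finite (Fb (M * q)) (Fb (M * q * q)) :=
        Fermat.Agent.Hecke.finiteAlong_heckeAlphaBar (M * q) q
      SheetHyp (levelsOutA B hB hqM h2 h3 e) (splitW M q g g') (0 : B))
    (hv : IsCoprime ((z₁ (chartDataModular B hB hqM) e).ord (deltaMid B hB hqM))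
      (fMid M B hB : ℤ))
    (Hv : letI := algebraAlong (alpha2 M q)
      VertComp (core (DtM B hB hqM) e) (gaugeA q B hB hqM e) (admA B hB hqM h2 h3 e).1
        (admA B hB hqM h2 h3 e).2 Z resZ
        (Ug M q g / alpha2 M q (algebraMap (AlgebraicClosure ℚ) (Fb (M * q))
          (gaugeA q B hB hqM e))))
    (hβ : β ≠ 0) (hρ : ρ ≠ 0)
    (hred : IsRed (core (DtM B hB hqM) e) (gaugeA q B hB hqM e)
      ((gaugeA q B hB hqM e)⁻¹ •
        (heckeAlphaBar (AlgebraicClosure ℚ) M q g - heckeBetaBar (AlgebraicClosure ℚ) M q g' ^ q))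
      (RatFunc.C β * RatFunc.X))
    {Q₂ : Place (ResidueField B) (AdjoinRoot (vertBar q β ρ))}
    (hQ : 0 < Q₂.ord (AdjoinRoot.root (vertBar q β ρ)))

set_option maxHeartbeats 4000000 in
/-- the levels of `nk e s` (`q = 2`) are the levels of the split sheet -/
theorem nodeOutK2_L :
    letI := algebraAlong (alpha2 M q)
    haveI := isScalarTower_along (alpha2 M q)
    haveI : Module.Finite (Fb (M * q)) (Fb (M * q * q)) :=
      Fermat.Agent.Hecke.finiteAlong_heckeAlphaBar (M * q) q
    (nodeOutK2 B hB hqM h2 h3 e P hζ hb hq2 H hv Hv hβ hρ hred hQ).L = SheetHyp.levels H := rfl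

set_option maxHeartbeats 4000000 in
/-- **the thickness of the levels of `nk e s` (`q = 2`) is the gauge `gaugeA e`** -/
theorem nodeOutK2_thick :
    (nodeOutK2 B hB hqM h2 h3 e P hζ hb hq2 H hv Hv hβ hρ hred hQ).L.thick =
      gaugeA q B hB hqM e := by
  letI := algebraAlong (alpha2 M q)
  haveI := isScalarTower_along (alpha2 M q)
  haveI : Module.Finite (Fb (M * q)) (Fb (M * q * q)) :=
    Fermat.Agent.Hecke.finiteAlong_heckeAlphaBar (M * q) q
  exact nodeOutA_thick B hB hqM h2 h3 e H
    (coverComp_mid B hB hqM hζ hb P hv (map_zero _))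
    (coverComp_ze_two B hq2 g g' Hv hβ hρ hred (map_zero _) hQ)
    (ord_algebraMap_mid_two B hB hqM hq2 _ hv)
    (Fermat.Agent.BR3.SplitNodeTwoVert.ord_algebraMap_kummer_two hq2 hβ hρ hQ)

set_option maxHeartbeats 4000000 in
/-- the coordinate of the levels of `nk e s` (`q = 2`) is `α₂ u_e` -/
theorem nodeOutK2_u :
    (nodeOutK2 B hB hqM h2 h3 e P hζ hb hq2 H hv Hv hβ hρ hred hQ).L.u =
      alpha2 M q (annulusCoord (DtM B hB hqM) e) := by
  letI := algebraAlong (alpha2 M q)
  haveI := isScalarTower_along (alpha2 M q)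
  haveI : Module.Finite (Fb (M * q)) (Fb (M * q * q)) :=
    Fermat.Agent.Hecke.finiteAlong_heckeAlphaBar (M * q) q
  exact nodeOutA_u B hB hqM h2 h3 e H
    (coverComp_mid B hB hqM hζ hb P hv (map_zero _))
    (coverComp_ze_two B hq2 g g' Hv hβ hρ hred (map_zero _) hQ)
    (ord_algebraMap_mid_two B hB hqM hq2 _ hv)
    (Fermat.Agent.BR3.SplitNodeTwoVert.ord_algebraMap_kummer_two hq2 hβ hρ hQ)

set_option maxHeartbeats 4000000 in
/-- the second coordinate of the levels of `nk e s` (`q = 2`) is `α₂ (gaugeA e • u_e⁻¹)` -/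
theorem nodeOutK2_v :
    (nodeOutK2 B hB hqM h2 h3 e P hζ hb hq2 H hv Hv hβ hρ hred hQ).L.v =
      alpha2 M q (gaugeA q B hB hqM e • (annulusCoord (DtM B hB hqM) e)⁻¹) := by
  letI := algebraAlong (alpha2 M q)
  haveI := isScalarTower_along (alpha2 M q)
  haveI : Module.Finite (Fb (M * q)) (Fb (M * q * q)) :=
    Fermat.Agent.Hecke.finiteAlong_heckeAlphaBar (M * q) q
  exact nodeOutA_v B hB hqM h2 h3 e H
    (coverComp_mid B hB hqM hζ hb P hv (map_zero _))
    (coverComp_ze_two B hq2 g g' Hv hβ hρ hred (map_zero _) hQ)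
    (ord_algebraMap_mid_two B hB hqM hq2 _ hv)
    (Fermat.Agent.BR3.SplitNodeTwoVert.ord_algebraMap_kummer_two hq2 hβ hρ hQ)

set_option maxHeartbeats 4000000 in
/-- **(G3) `hK` at `q = 2`** : `gaugeA e = κ₀ * thick ^ d` with `κ₀ = 1`, `d = midDeg q = 1`. -/
theorem hK_two :
    gaugeA q B hB hqM e = 1 *
      (nodeOutK2 B hB hqM h2 h3 e P hζ hb hq2 H hv Hv hβ hρ hred hQ).L.thick ^ midDeg q := by
  have hd : midDeg q = 1 := by
    rw [hq2]
    exact midDeg_two
  rw [nodeOutK2_thick, one_mul, hd, pow_one]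

set_option maxHeartbeats 4000000 in
/-- **the node chart of `nk e s` at `q = 2`** (`chK e s` of `caseInputOfRaw`) -/
def chartK2 :
    NodeChart B (w2 B hB hqM hζ hb) Z (resMid B hB hqM hζ hb) resZ
      (pMidOver B hB hqM (z₁ (chartDataModular B hB hqM) e) hv) Q₂
      (letI := algebraAlong (alpha2 M q)
       haveI := isScalarTower_along (alpha2 M q)
       haveI : Module.Finite (Fb (M * q)) (Fb (M * q * q)) :=
         Fermat.Agent.Hecke.finiteAlong_heckeAlphaBar (M * q) q
       coverTube B
        (tube (srefM (DtM B hB hqM) (gaugeA q B hB hqM) (admA B hB hqM h2 h3))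
          (outer (inputs (DtM B hB hqM)) (gaugeA q B hB hqM) (admA B hB hqM h2 h3) e))
        (splitW M q g g') (0 : B)) := by
  letI := algebraAlong (alpha2 M q)
  haveI := isScalarTower_along (alpha2 M q)
  haveI : Module.Finite (Fb (M * q)) (Fb (M * q * q)) :=
    Fermat.Agent.Hecke.finiteAlong_heckeAlphaBar (M * q) q
  exact (nodeOutK2 B hB hqM h2 h3 e P hζ hb hq2 H hv Hv hβ hρ hred hQ).chart
    Fermat.Agent.BR3.SplitNodeChart.residue_eq_zero_of_lt
    (coverComp_mid B hB hqM hζ hb P hv (c₀ := (0 : B)) (map_zero _)).res_nonunits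
    (coverComp_ze_two B hq2 g g' Hv hβ hρ hred (c₀ := (0 : B)) (map_zero _) hQ).res_nonunits

set_option maxHeartbeats 4000000 in
/-- **the annulus sheet of degree `1` of `nk e s` at `q = 2`** (W4: the named hypothesis
`AnnSheet` of `NodeFibres.fibreOver_outer_along`, degree `1 = midDeg 2`) -/
def annSheetK2 :
    letI := algebraAlong (alpha2 M q)
    haveI := isScalarTower_along (alpha2 M q)
    haveI : Module.Finite (Fb (M * q)) (Fb (M * q * q)) :=
      Fermat.Agent.Hecke.finiteAlong_heckeAlphaBar (M * q) q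
    Fermat.Agent.BR3.SDD.Partition.AnnSheet B
      (coverTube B
        (tube (srefM (DtM B hB hqM) (gaugeA q B hB hqM) (admA B hB hqM h2 h3))
          (outer (inputs (DtM B hB hqM)) (gaugeA q B hB hqM) (admA B hB hqM h2 h3) e))
        (splitW M q g g') (0 : B))
      (alpha2 M q (annulusCoord (DtM B hB hqM) e)) (gaugeA q B hB hqM e) 1 := by
  letI := algebraAlong (alpha2 M q)
  haveI := isScalarTower_along (alpha2 M q)
  haveI : Module.Finite (Fb (M * q)) (Fb (M * q * q)) :=
    Fermat.Agent.Hecke.finiteAlong_heckeAlphaBar (M * q) q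
  exact NodeOut.ofSplit_annSheet H

end Lemmas

/-! ### Values on the raw tube -/

section Values

/-- **`hWK` at `q = 2`** : on the raw tube of `nk e s` the generator `W` has a value `≡ 0`. -/
theorem exists_value_K2 {T' : Set (Place Kb (Fb (M * q)))} {W : Fb (M * q * q)}
    {Pl : Place Kb (Fb (M * q * q))}
    (hP : letI := algebraAlong (alpha2 M q)
      haveI := isScalarTower_along (alpha2 M q)
      haveI : Module.Finite (Fb (M * q)) (Fb (M * q * q)) :=
        Fermat.Agent.Hecke.finiteAlong_heckeAlphaBar (M * q) q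
      Pl ∈ coverTube B T' W (0 : B)) :
    ∃ d : Kb, IsValueAt Pl W d ∧ B.valuation d < 1 := by
  letI := algebraAlong (alpha2 M q)
  haveI := isScalarTower_along (alpha2 M q)
  haveI : Module.Finite (Fb (M * q)) (Fb (M * q * q)) :=
    Fermat.Agent.Hecke.finiteAlong_heckeAlphaBar (M * q) q
  obtain ⟨d, hd, hlt⟩ := hP.2
  refine ⟨d, hd, ?_⟩
  rwa [show ((0 : B) : Kb) = 0 from rfl, sub_zero] at hlt

/-- **`tube_a_nk` at `q = 2`** : the raw tube of `nk e s` lies over the tube of the outer node of
`S'ref_a`. -/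
theorem restrict_mem_K2 {T' : Set (Place Kb (Fb (M * q)))} {W : Fb (M * q * q)} {c₀ : B}
    {Pl : Place Kb (Fb (M * q * q))}
    (hP : letI := algebraAlong (alpha2 M q)
      haveI := isScalarTower_along (alpha2 M q)
      haveI : Module.Finite (Fb (M * q)) (Fb (M * q * q)) :=
        Fermat.Agent.Hecke.finiteAlong_heckeAlphaBar (M * q) q
      Pl ∈ coverTube B T' W c₀) :
    letI := algebraAlong (alpha2 M q)
    haveI := isScalarTower_along (alpha2 M q)
    haveI : Module.Finite (Fb (M * q)) (Fb (M * q * q)) :=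
      Fermat.Agent.Hecke.finiteAlong_heckeAlphaBar (M * q) q
    Pl.restrict (Fb (M * q)) ∈ T' := hP.1

end Values

end Fermat.Agent.BR3.SplitNodeTwoMod
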