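/-
Program C (S36), node (N2-TWO), part 3a (helper12): the VALUE of the vertical coordinate on the
second split sheet at `q = 2`.

On the sheet `W ≡ 0` of `Pw = X^2 - X + t · G` (`BR3/SplitNodeTwoTw`, `t = 2 / c^3`, `c = -Bc`,
`G(0) ≡ r` a unit), at a place `P''` of the cover with `|W(P'')| < 1`:
`W (1 - W) = t G(W)` gives `|W(P'')| = |t(P')|`, hence for `U = W · c`:
`|U(P'')| = |2| / |c(P')|^2 < |γ|` as soon as `|γ|^3 = |2|` and `|γ| < |c(P')|` — the place lies
over the OUTER sub-annulus at the gauge `γ`.  This is the input `hU hUlt` of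
`TubesBFinal.tube_b_nk_of_value` (field `tube_b_nk` of `SepNSDD.SepInput`) at `q = 2`.

* `eval_mem_of_coeff_mem`, `valuation_eval_eq_one` : polynomials over a valuation ring;
* **`valuation_eq_of_sheet_zero`** : `|W(P'')| = |t(P')|`;
* **`exists_value_lt_of_sheet_zero`** : `∃ cU, IsValueAt P'' (W * c) cU ∧ |cU| < |γ|`;
* `exists_lift_vertScaledAt_form'` : the form `X^q - X^(q-1) + t (r + c · G₁)` of the scaled
  vertical polynomial over a base ring (`SplitNodeTwoTw.exists_lift_vertScaledAt_form` with the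
  constant term of `G` exposed: `r = Ψ(y)`, `c = -(y - x₁^q)`);
* **`exists_value_lt_of_integralAt`** : the level frame: `R₀ ⊆ F'` a ring of functions integral at
  the place `P'` under `P''` containing the data `x₁ x₂ y`, the coefficients of `Ψ₁` and
  `t = q / c^(q+1)`; `q = 2`, `P = (Y^q - x₂)(Y - x₁^q) + q Ψ₁`, `P(y) = 0`, `W` a root of
  `vertScaledAt P q y c` with `|W(P'')| < 1`, `|Ψ₁(y)(P')| = 1`, `|c(P')| < 1`, `|γ|^3 = |2|`,
  `|γ| < |c(P')|`:  `∃ cU, IsValueAt P'' (W * c) cU ∧ |cU| < |γ|`.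
-/
import Mathlib
import Fermat.Agent.BR3.CoverDiv
import Fermat.Agent.BR3.SplitNodeTwoTw
import Fermat.Agent.BR.Centre

set_option autoImplicit false
set_option linter.unusedSectionVars false
set_option linter.style.haveILetI false

noncomputable section

namespace Fermat.Agent.BR3.SplitNodeTwoValue

open AlgebraicCurve Polynomial Fermat.Agent.Red Fermat.Agent.BR3.CoverPlaces

/-! ### polynomials over a valuation ring -/

section Poly

variable {K : Type*} [Field K] (A : ValuationSubring K)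

/-- the value of a polynomial with coefficients in `A` at a point of `A` lies in `A` -/
theorem eval_mem_of_coeff_mem {p : K[X]} (hp : ∀ n, p.coeff n ∈ A) {c : K} (hc : c ∈ A) :
    p.eval c ∈ A := by
  rw [eval_eq_sum]
  exact A.toSubring.sum_mem fun i _ => A.mul_mem _ _ (hp i) (A.toSubring.pow_mem hc i)

/-- a polynomial over `A` with unit constant term has a unit value at every point of `𝔪` -/
theorem valuation_eval_eq_one {p : K[X]} (hp : ∀ n, p.coeff n ∈ A)
    (h0 : A.valuation (p.coeff 0) = 1) {c : K} (hc : A.valuation c < 1) :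
    A.valuation (p.eval c) = 1 := by
  have hcA : c ∈ A := (A.valuation_le_one_iff c).mp hc.le
  have hdiv : ∀ n, p.divX.coeff n ∈ A := fun n => by
    rw [coeff_divX]
    exact hp _
  have e : p.eval c = p.divX.eval c * c + p.coeff 0 := by
    conv_lhs => rw [← divX_mul_X_add p]
    simp
  have h1 : A.valuation (p.divX.eval c * c) < 1 := by
    rw [map_mul]
    exact mul_lt_one_of_nonneg_of_lt_one_right
      ((A.valuation_le_one_iff _).mpr (eval_mem_of_coeff_mem A hdiv hcA)) zero_le hc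
  rw [e, add_comm, Valuation.map_add_eq_of_lt_left]
  · exact h0
  · rw [h0]
    exact h1

end Poly

/-! ### the value on the sheet `W ≡ 0` -/

section Value

variable {K F' F'' : Type*} [Field K] [Field F'] [Field F''] [Algebra K F'] [Algebra K F'']
  [Algebra F' F''] [IsScalarTower K F' F''] [Algebra.IsIntegral F' F'']
  {A : ValuationSubring K}

/-- **The value of the sheet coordinate on the second sheet**: `W (1 - W) = t G(W)` with
`|W(P'')| < 1` and `G(0)` of absolute value one at the place under `P''` give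
`|W(P'')| = |t(P')|`. -/
theorem valuation_eq_of_sheet_zero {P'' : Place K F''} {W : F''} {t : F'} {G : F'[X]}
    (hroot : aeval W (X ^ 2 - X + C t * G : F'[X]) = 0)
    {cW cT : K} (hW : IsValueAt P'' W cW) (hcW : A.valuation cW < 1)
    (ht : IsValueAt (P''.restrict F') t cT) (b : K[X])
    (hb : ∀ n, IsValueAt (P''.restrict F') (G.coeff n) (b.coeff n))
    (hbA : ∀ n, b.coeff n ∈ A) (hb0 : A.valuation (b.coeff 0) = 1) :
    A.valuation cW = A.valuation cT := by
  have hG : IsValueAt P'' (aeval W G) (b.eval cW) :=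
    Fermat.Agent.BR3.CoverDiv.isValueAt_aeval hW G b
      (fun n => (isValueAt_restrict_iff P'' _ _).mp (hb n))
  have ht' : IsValueAt P'' (algebraMap F' F'' t) cT := (isValueAt_restrict_iff P'' _ _).mp ht
  have h0 : aeval W (X ^ 2 - X + C t * G : F'[X]) =
      W ^ 2 - W + algebraMap F' F'' t * aeval W G := by
    simp only [map_add, map_sub, map_mul, map_pow, aeval_X, aeval_C]
  have hval : IsValueAt P'' (W ^ 2 - W + algebraMap F' F'' t * aeval W G)
      (cW ^ 2 - cW + cT * b.eval cW) := ((hW.pow 2).sub hW).add (ht'.mul hG)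
  rw [← h0, hroot] at hval
  have hz : cW ^ 2 - cW + cT * b.eval cW = 0 := hval.unique (isValueAt_zero P'')
  have hkey : cW * (1 - cW) = cT * b.eval cW := by linear_combination (-1 : K) * hz
  have h1 : A.valuation (1 - cW) = 1 := by
    rw [sub_eq_add_neg, Valuation.map_add_eq_of_lt_left]
    · exact map_one _
    · rw [Valuation.map_neg, map_one]
      exact hcW
  have h2 := congrArg A.valuation hkey
  rwa [map_mul, map_mul, h1, mul_one, valuation_eval_eq_one A hbA hb0 hcW, mul_one] at h2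

theorem lt_of_mul_lt_mul_right_aux' {Γ₀ : Type*} [LinearOrderedCommGroupWithZero Γ₀]
    {a b c : Γ₀} (h : a * c < b * c) : a < b := by
  by_contra hcon
  push Not at hcon
  exact absurd (mul_le_mul_left hcon c) (not_le.mpr h)

/-- **The value of `U = W · c` on the second sheet is small**: `t c^3 = 2`, `|γ|^3 = |2|`,
`|γ| < |c(P')|` (the place under `P''` lies in the outer sub-annulus at the gauge `γ`) give
`|U(P'')| = |2| / |c(P')|^2 < |γ|`. -/
theorem exists_value_lt_of_sheet_zero {P'' : Place K F''} {W : F''} {t : F'} {G : F'[X]}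
    (hroot : aeval W (X ^ 2 - X + C t * G : F'[X]) = 0)
    {cW cT : K} (hW : IsValueAt P'' W cW) (hcW : A.valuation cW < 1)
    (ht : IsValueAt (P''.restrict F') t cT) (b : K[X])
    (hb : ∀ n, IsValueAt (P''.restrict F') (G.coeff n) (b.coeff n))
    (hbA : ∀ n, b.coeff n ∈ A) (hb0 : A.valuation (b.coeff 0) = 1)
    {cc : F'} {cB : K} (hcc : IsValueAt (P''.restrict F') cc cB) (htq : t * cc ^ 3 = 2)
    {γ : K} (hγ0 : γ ≠ 0) (hγ : A.valuation γ ^ 3 = A.valuation (2 : K))
    (hlt : A.valuation γ < A.valuation cB) :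
    ∃ cU : K, IsValueAt P'' (W * algebraMap F' F'' cc) cU ∧ A.valuation cU < A.valuation γ := by
  have hWT := valuation_eq_of_sheet_zero hroot hW hcW ht b hb hbA hb0
  have hcc' : IsValueAt P'' (algebraMap F' F'' cc) cB := (isValueAt_restrict_iff P'' _ _).mp hcc
  refine ⟨cW * cB, hW.mul hcc', ?_⟩
  -- `cT * cB^3 = 2`
  have h2v : IsValueAt (P''.restrict F') (t * cc ^ 3) (cT * cB ^ 3) := ht.mul (hcc.pow 3)
  rw [htq] at h2v
  have h2' : IsValueAt (P''.restrict F') (2 : F') (2 : K) := by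
    have := isValueAt_algebraMap (P''.restrict F') (2 : K)
    rwa [map_ofNat] at this
  have h2eq : cT * cB ^ 3 = 2 := h2v.unique h2'
  have hγpos : (0 : _) < A.valuation γ := (Valuation.pos_iff _).mpr hγ0
  have hB0 : A.valuation cB ≠ 0 := (lt_trans hγpos hlt).ne'
  have hB2 : A.valuation cB ^ 2 ≠ 0 := pow_ne_zero 2 hB0
  -- `|cU| |cB|^2 = |γ|^3 < |γ| |cB|^2`
  have e1 : A.valuation (cW * cB) * A.valuation cB ^ 2 = A.valuation γ ^ 3 := by
    rw [hγ, ← h2eq, map_mul, map_mul, map_pow, hWT, mul_assoc, ← pow_succ']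
  have e2 : A.valuation γ ^ 3 < A.valuation γ * A.valuation cB ^ 2 := by
    have h3 : A.valuation γ ^ 2 < A.valuation cB ^ 2 :=
      pow_lt_pow_left₀ hlt zero_le two_ne_zero
    calc A.valuation γ ^ 3 = A.valuation γ * A.valuation γ ^ 2 := pow_succ' _ 2
      _ < A.valuation γ * A.valuation cB ^ 2 := by
        exact mul_lt_mul_of_pos_left h3 hγpos
  exact lt_of_mul_lt_mul_right_aux' (e1 ▸ e2)

end Value

/-! ### the form of the scaled vertical polynomial, constant term exposed -/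

section Form

open Fermat.Agent.BR3.VertTaylor Fermat.Agent.BR3.VertTaylorAt Fermat.Agent.BR3.VertTaylorTw
  Fermat.Agent.BR3.SplitPoly Fermat.Agent.BR3.SplitPolyTw

variable {R K : Type*} [CommRing R] [Field K] (f : R →+* K)

/-- **The scaled vertical polynomial over a base ring is
`X^q - X^(q-1) + t · (Ψ(y) + c · G₁)`**, `c = -(y - x₁^q)`. -/
theorem exists_lift_vertScaledAt_form' {q : ℕ} (hq : q.Prime)
    (x₁ x₂ y t : R) (Ψ : R[X])
    (hc : f (y - x₁ ^ q) ≠ 0) (ht : t * (-(y - x₁ ^ q)) ^ (q + 1) = (q : R)) {P : K[X]}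
    (hP : P = (X ^ q - C (f x₂)) * (X - C ((f x₁) ^ q)) + C (q : K) * Ψ.map f)
    (h0 : P.eval (f y) = 0) :
    ∃ G₁ : R[X],
      (X ^ q - X ^ (q - 1) + C t * (C (Ψ.eval y) + C (-(y - x₁ ^ q)) * G₁) : R[X]).map f =
        vertScaledAt P q (f y) (f (-(y - x₁ ^ q))) := by
  set c : R := -(y - x₁ ^ q) with hcdef
  set r : R := Ψ.eval y with hr
  have hfc : f c ≠ 0 := by
    rw [hcdef, map_neg, neg_ne_zero]
    exact hc
  obtain ⟨H, hH⟩ := (mem_lifts _).mp (vertH₁_mem_lifts f q x₁ y)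
  obtain ⟨D, hD⟩ := (mem_lifts _).mp (vertPolyAt_mem_lifts f Ψ y)
  have hft : f t * f c ^ (q + 1) = (q : K) := by
    have := congrArg f ht
    rwa [map_mul, map_pow, map_natCast] at this
  have hfr : f r = (Ψ.map f).eval (f y) := by
    rw [hr, Polynomial.eval_map_apply]
  have hform : (X ^ q - X ^ (q - 1) +
      C t * (C r + C c * (H.comp (C c * X) + D.comp (C c * X))) : R[X]) =
      X ^ q - X ^ (q - 1) + C (r * t) + C (t * c) * H.comp (C c * X) +
        C (t * c) * D.comp (C c * X) := by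
    rw [C_mul, C_mul]
    ring
  have himg : (X ^ q - X ^ (q - 1) + C (r * t) + C (t * c) * H.comp (C c * X) +
      C (t * c) * D.comp (C c * X)).map f = vertScaledAt P q (f y) (f c) := by
    rw [vertScaledAt_eq_tw hq hP (f y) hfc]
    have hB : vertB q (f x₁) (f y) (f c) = -1 := by
      rw [vertB, hcdef, map_neg, map_sub, map_pow, div_neg, div_self]
      rw [← map_pow, ← map_sub]
      exact hc
    have hAB := vertA_mul_vertB_tw hP h0 (f c)
    rw [hB, mul_neg_one, neg_div, neg_inj] at hAB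
    have hA : vertA q (f x₂) (f y) (f c) = f r * f t := by
      rw [hAB, hfr, ← hft]
      field_simp
    have hE : (q : K) / f c ^ q = f t * f c := by
      rw [← hft, pow_succ]
      field_simp
    rw [hB, hA, vertETw, hE, ← hH, ← hD]
    simp only [Polynomial.map_add, Polynomial.map_sub, Polynomial.map_mul, Polynomial.map_pow,
      Polynomial.map_X, Polynomial.map_C, Polynomial.map_comp, map_mul, C_neg, C_1]
    ring
  exact ⟨H.comp (C c * X) + D.comp (C c * X), by rw [hform]; exact himg⟩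

end Form

/-! ### the level frame -/

section Level

open Fermat.Agent.BR.Centre Fermat.Agent.BR3.VertTaylorAt

variable {K F' F'' : Type*} [Field K] [Field F'] [Field F''] [Algebra K F'] [Algebra K F'']
  [Algebra F' F''] [IsScalarTower K F' F''] [Algebra.IsIntegral F' F'']
  {A : ValuationSubring K}

/-- the polynomial with coefficients `a n`, `n < N` -/
def polyOfFn (a : ℕ → K) (N : ℕ) : K[X] := ∑ n ∈ Finset.range N, monomial n (a n)

theorem coeff_polyOfFn (a : ℕ → K) (N m : ℕ) :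
    (polyOfFn a N).coeff m = if m < N then a m else 0 := by
  simp only [polyOfFn, finsetSum_coeff, coeff_monomial, Finset.sum_ite_eq', Finset.mem_range]

/-- **The value of `U = W · c` on the second split sheet at `q = 2`, level frame.** -/
theorem exists_value_lt_of_integralAt (q : ℕ) (hq2 : q = 2) {P'' : Place K F''}
    {R₀ : Subring F'} (hint : IntegralAt A R₀ (P''.restrict F'))
    {x₁ x₂ y : F'} {Ψ₁ P : F'[X]}
    (hx₁ : x₁ ∈ R₀) (hx₂ : x₂ ∈ R₀) (hy : y ∈ R₀) (hΨ : ∀ n, Ψ₁.coeff n ∈ R₀)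
    (hc : y - x₁ ^ q ≠ 0) (ht : (q : F') * ((-(y - x₁ ^ q)) ^ (q + 1))⁻¹ ∈ R₀)
    (hP : P = (X ^ q - C x₂) * (X - C (x₁ ^ q)) + C (q : F') * Ψ₁) (h0 : P.eval y = 0)
    {W : F''} (hW : aeval W (vertScaledAt P q y (-(y - x₁ ^ q))) = 0)
    {cW : K} (hWv : IsValueAt P'' W cW) (hcW : A.valuation cW < 1)
    (hr : A.valuation (evalAt (P''.restrict F') (Ψ₁.eval y)) = 1)
    (hcl : A.valuation (evalAt (P''.restrict F') (y - x₁ ^ q)) < 1)
    {γ : K} (hγ0 : γ ≠ 0) (hγ : A.valuation γ ^ 3 = A.valuation (2 : K))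
    (hlt : A.valuation γ < A.valuation (evalAt (P''.restrict F') (y - x₁ ^ q))) :
    ∃ cU : K, IsValueAt P'' (W * algebraMap F' F'' (-(y - x₁ ^ q))) cU ∧
      A.valuation cU < A.valuation γ := by
  subst hq2
  set P' := P''.restrict F' with hP'
  set t : F' := ((2 : ℕ) : F') * ((-(y - x₁ ^ 2)) ^ (2 + 1))⁻¹ with htdef
  have hc' : (-(y - x₁ ^ 2)) ^ (2 + 1) ≠ 0 := pow_ne_zero _ (neg_ne_zero.mpr hc)
  have htq : t * (-(y - x₁ ^ 2)) ^ 3 = 2 := by
    rw [htdef, mul_assoc, inv_mul_cancel₀ hc', mul_one]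
    norm_num
  have hcoef : (↑Ψ₁.coeffs : Set F') ⊆ R₀ := by
    intro c hc
    obtain ⟨n, -, rfl⟩ := (Polynomial.mem_coeffs_iff).mp hc
    exact hΨ n
  have hmap : (Ψ₁.toSubring R₀ hcoef).map R₀.subtype = Ψ₁ := Polynomial.map_toSubring Ψ₁ R₀ hcoef
  have htq' : (⟨t, ht⟩ : R₀) * (-((⟨y, hy⟩ : R₀) - ⟨x₁, hx₁⟩ ^ 2)) ^ (2 + 1) = ((2 : ℕ) : R₀) := by
    apply Subtype.ext
    show t * (-(y - x₁ ^ 2)) ^ 3 = ((2 : ℕ) : F')
    rw [htq]
    norm_num
  obtain ⟨G₁, hG₁⟩ := exists_lift_vertScaledAt_form' R₀.subtype Nat.prime_two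
    ⟨x₁, hx₁⟩ ⟨x₂, hx₂⟩ ⟨y, hy⟩ ⟨t, ht⟩ (Ψ₁.toSubring R₀ hcoef) hc htq' (P := P)
    (by rw [hmap]; exact hP) h0
  -- the polynomial `G` over `F'`
  set G₀ : R₀[X] := C ((Ψ₁.toSubring R₀ hcoef).eval ⟨y, hy⟩) +
    C (-((⟨y, hy⟩ : R₀) - ⟨x₁, hx₁⟩ ^ 2)) * G₁ with hG₀
  set G : F'[X] := G₀.map R₀.subtype with hG
  have hGc : ∀ n, G.coeff n ∈ R₀ := fun n => by
    rw [hG, coeff_map]
    exact (G₀.coeff n).2
  have hroot : aeval W (X ^ 2 - X + C t * G : F'[X]) = 0 := by
    have hG₁' : (X ^ 2 - X ^ (2 - 1) + C (⟨t, ht⟩ : R₀) * G₀ : R₀[X]).map R₀.subtype =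
        vertScaledAt P 2 y (-(y - x₁ ^ 2)) := hG₁
    have e : (X ^ 2 - X + C t * G : F'[X]) = vertScaledAt P 2 y (-(y - x₁ ^ 2)) := by
      rw [← hG₁', hG]
      simp only [Polynomial.map_add, Polynomial.map_sub, Polynomial.map_mul, Polynomial.map_pow,
        Polynomial.map_X, Polynomial.map_C, Subring.coe_subtype]
      norm_num
    rw [e]
    exact hW
  -- the values
  set b : K[X] := polyOfFn (fun n => evalAt P' (G.coeff n)) (G.natDegree + 1) with hb
  have hbv : ∀ n, IsValueAt P' (G.coeff n) (b.coeff n) := fun n => by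
    rw [hb, coeff_polyOfFn]
    split_ifs with hn
    · exact hint.isValueAt_evalAt (hGc n)
    · rw [coeff_eq_zero_of_natDegree_lt (by omega)]
      exact isValueAt_zero P'
  have hbA : ∀ n, b.coeff n ∈ A := fun n => by
    rw [hb, coeff_polyOfFn]
    split_ifs with hn
    · exact hint.evalAt_mem (hGc n)
    · exact A.zero_mem
  have hcR : y - x₁ ^ 2 ∈ R₀ := R₀.sub_mem hy (R₀.pow_mem hx₁ 2)
  have hrR : Ψ₁.eval y ∈ R₀ := by
    rw [eval_eq_sum]
    exact R₀.sum_mem fun i _ => R₀.mul_mem (hΨ i) (R₀.pow_mem hy i)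
  have hb0 : A.valuation (b.coeff 0) = 1 := by
    have hG0 : G.coeff 0 = Ψ₁.eval y + -(y - x₁ ^ 2) * ((G₁.coeff 0 : R₀) : F') := by
      rw [hG, coeff_map, hG₀]
      simp only [coeff_add, coeff_C_zero, mul_coeff_zero]
      have e1 : ((Ψ₁.toSubring R₀ hcoef).eval ⟨y, hy⟩ : R₀) = ⟨Ψ₁.eval y, hrR⟩ := by
        apply Subtype.ext
        have h1 := Polynomial.eval₂_at_apply (p := Ψ₁.toSubring R₀ hcoef) R₀.subtype ⟨y, hy⟩
        rw [← Polynomial.eval_map, hmap] at h1
        exact h1.symm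
      rw [e1]
      rfl
    have hv0 : IsValueAt P' (G.coeff 0)
        (evalAt P' (Ψ₁.eval y) + -(evalAt P' (y - x₁ ^ 2)) * evalAt P' ((G₁.coeff 0 : R₀) : F')) := by
      rw [hG0]
      exact (hint.isValueAt_evalAt hrR).add
        ((hint.isValueAt_evalAt hcR).neg.mul (hint.isValueAt_evalAt (G₁.coeff 0).2))
    rw [(hbv 0).unique hv0, Valuation.map_add_eq_of_lt_left]
    · exact hr
    · rw [hr, map_mul, Valuation.map_neg]
      exact mul_lt_one_of_nonneg_of_lt_one_left zero_le hcl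
        ((A.valuation_le_one_iff _).mpr (hint.evalAt_mem (G₁.coeff 0).2))
  have htv : IsValueAt P' t (evalAt P' t) := hint.isValueAt_evalAt ht
  have hccv : IsValueAt P' (-(y - x₁ ^ 2)) (-(evalAt P' (y - x₁ ^ 2))) :=
    (hint.isValueAt_evalAt hcR).neg
  have hlt' : A.valuation γ < A.valuation (-(evalAt P' (y - x₁ ^ 2))) := by
    rw [Valuation.map_neg]
    exact hlt
  exact exists_value_lt_of_sheet_zero hroot hWv hcW htv b hbv hbA hb0 hccv htq hγ0 hγ hlt'

end Level

end Fermat.Agent.BR3.SplitNodeTwoValue
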