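import Fermat.Agent.BR3.SDD.TubesBFinal
import Fermat.Agent.BR3.SplitNode.Sheet
import Fermat.Agent.BR3.SplitNodeTwoValue

/-!
# Program C (S36), node (N2-TWO), part 3b (helper12): the `b`-side tube inclusion of the Kummer
node at `q = 2`

`q = 2`, `e` a supersingular crossing, `H : IsSSParam B hB hqM e g g' g''`,
`W = SplitCompsCInf.splitW M q g g' = U_g / α₂ c`, `c = -(α g - (β g')^q)`.  The node `nk e ()` is
the SECOND split sheet `W ≡ 0` over the OUTER sub-annulus of `e` at the gauge `a₀`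
(`|a₀|^(q+1) = |q|`).  At a place `P` of the sheet (`|W(P)| < 1`) over the outer sub-annulus:

* **`exists_value_Ug_of_sheetTwo`** : `∃ cU, IsValueAt P (U_g) cU ∧ |cU| < |a₀|`
  (`|W(P)| = |q| / |c(P ∘ α₂)|^3`, `|c(P ∘ α₂)| = |u_e(P ∘ α₂)| > |a₀|`; `SplitNodeTwoValue`), from
  a ring `R₀` of functions integral at `P ∘ α₂` containing main's base level and
  `t = q / c^(q+1)` (e.g. a level of the outer sub-annulus: `hint := (L'.level i').integralAt hP'`,
  `hle := OuterHyp.le ∘ level_empty_le`, `ht := (small_mem_of_pow …).1`);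
* **`tube_b_nk_two`** : the literal field `tube_b_nk` of `SepNModular.sepInputModular` at `q = 2`
  (`TubesBFinal.tube_b_nk_of_value`): `P ∘ β₂` lies in the INNER sub-annulus of `Fr e` along `b`.
-/

set_option autoImplicit false
set_option linter.unusedSectionVars false
set_option linter.style.haveILetI false
set_option synthInstance.maxHeartbeats 400000
set_option maxHeartbeats 1600000

noncomputable section

/- S36 build-time patch: file-local shortcut instances. They only shorten instance search;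
each is the instance that the search finds anyway (reducible, same terms after unfolding). -/
local instance (priority := 100000) Fermat.Agent.BR3.FastInst.instAlgFullC_SplitNodeTwoTube
    {k : Type*} [Field k] (N : ℕ) :
    Algebra k ↥(ModularCurve.modularFunctionFieldFullC k N) := inferInstance
local instance (priority := 100000) Fermat.Agent.BR3.FastInst.instFieldFullC_SplitNodeTwoTube
    {k : Type*} [Field k] (N : ℕ) :
    Field ↥(ModularCurve.modularFunctionFieldFullC k N) := inferInstance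
local instance (priority := 100000) Fermat.Agent.BR3.FastInst.instAlgLaurent_SplitNodeTwoTube
    {k : Type*} [Field k] : Algebra k (LaurentSeries k) := inferInstance


namespace Fermat.Agent.BR3.SplitNodeTwoTube

open AlgebraicCurve ModularCurve IsLocalRing Polynomial
open Fermat.Agent.Red Fermat.Agent.Val Fermat.Agent.X0 Fermat.Agent.BR.SS Fermat.Agent.BR.Refine
open Fermat.Agent.BR.Centre Fermat.Agent.BR.Circle
open Fermat.Agent.BR.S0 Fermat.Agent.BR.S0.RedModular Fermat.Agent.BR.S0.PointDict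
open Fermat.Agent.BR.Inst.AnnulusInstFinal
open Fermat.Agent.BR.TwoVal Fermat.Agent.BR.Final
open Fermat.Agent.BR3.FibreProd Fermat.Agent.BR3.HeckePoly Fermat.Agent.Hecke
open Fermat.Agent.BR3.SSParam Fermat.Agent.BR3.VertAll Fermat.Agent.BR3.VertAllParam
open Fermat.Agent.BR3.VertBetaFr Fermat.Agent.BR3.SDD.TubesBAlg Fermat.Agent.BR3.SDD.TubesB
open Fermat.Agent.BR2.SetupOfData Fermat.Agent.BR3.CircleN Fermat.Agent.BR3.SRef
open Fermat.Agent.BR3.SRef.Modular Fermat.Agent.BR3.SDD.Modular Fermat.Agent.BR3.ThickSDDPlug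
open Fermat.Agent.BR3.SplitNode Fermat.Agent.BR3.SplitCompsCInf Fermat.Agent.BR3.VertTaylorAt
open Fermat.Agent.BR3.SplitNodeTwoValue

variable {M q : ℕ} [NeZero M] [hq : Fact q.Prime]
variable (B : ValuationSubring Kb) (hB : B.LiesOverPrime q) (hqM : ¬ q ∣ M)
variable [IsAlgClosed (ResidueField B)] [CharP (ResidueField B) q]
  (e : Crossing (chartDataModular B hB hqM)) {g g' g'' : Fb M}

local notation "kB" => IsLocalRing.ResidueField B

set_option maxHeartbeats 4000000 in
/-- **The value of `U_g` on the second split sheet at `q = 2` over the outer sub-annulus.** -/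
theorem exists_value_Ug_of_sheetTwo (hq2 : q = 2) (h2 : nuTwo M = 0) (h3 : nuThree M = 0)
    (H : IsSSParam B hB hqM e g g' g'')
    (hα : (alpha2 M q).toRingHom.IsIntegral)
    {a₀ : Kb} (ha₀ : B.valuation a₀ ^ (q + 1) = B.valuation (q : Kb))
    {P : Place Kb (Fb (M * q * q))}
    (hPa : P.restrictAlong (alpha2 M q) hα ∈ outerTube (core (DtM B hB hqM) e) a₀)
    {R₀ : Subring (Fb (M * q))} (hint : IntegralAt B R₀ (P.restrictAlong (alpha2 M q) hα))
    (hle : ((annulusLevels_modular_final B hB hqM (nonempty_crossing (DtM B hB hqM)) e).level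
      (∅ : Finset Kb)).R ≤ R₀)
    (ht : ((q : ℕ) : Fb (M * q)) * ((splitC M q g g') ^ (q + 1))⁻¹ ∈ R₀)
    {cW : Kb} (hW : IsValueAt P (splitW M q g g') cW) (hcW : B.valuation cW < 1) :
    ∃ cU : Kb, IsValueAt P (Ug M q g) cU ∧ B.valuation cU < B.valuation a₀ := by
  have hne := nonempty_crossing (DtM B hB hqM)
  letI := algebraAlong (alpha2 M q)
  haveI := isScalarTower_along (alpha2 M q)
  haveI := isIntegral_along (alpha2 M q) hα
  set Lf := annulusLevels_modular_final B hB hqM hne e with hLf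
  set P' : Place Kb (Fb (M * q)) := P.restrictAlong (alpha2 M q) hα with hP'
  have hP'eq : P' = P.restrict (Fb (M * q)) := rfl
  obtain ⟨Ψ₁, hPsh, hΨR, hαR, hβ'R, hβ''R, hz, hR⟩ :=
    exists_kronecker_level B hB hqM hne e H h2 h3
  have hgO := mem_OM_of_mem_CMod_base B hB hqM H.hg
  have hg'O := mem_OM_of_mem_CMod_base B hB hqM H.hg'
  have hPa' : P' ∈ tube (setupFinal B hB hqM hne) e := hPa.1
  -- the root
  have hW0 : aeval (splitW M q g g')
      (vertScaledAt (PAt M q g) q (heckeAlphaBar Kb M q g)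
        (-(heckeAlphaBar Kb M q g - heckeBetaBar Kb M q g' ^ q))) = 0 := by
    have h1 := (minpoly_splitW B hB hqM e H h2 h3).1
    have h2' := minpoly.aeval (Fb (M * q)) (splitW M q g g')
    rw [h1] at h2'
    exact h2'
  -- the unit `Ψ₁(α g)`
  have hr : B.valuation (evalAt P' (Ψ₁.eval (heckeAlphaBar Kb M q g))) = 1 :=
    valuation_evalAt_of_isUnit (Lf.level ∅) hPa' hz hR
  -- `c` is of `u`-type
  have hXm : heckeAlphaBar Kb M q g - heckeBetaBar Kb M q g' ^ q ∈ (Lf.level (∅ : Finset Kb)).R :=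
    sub_mem hαR (pow_mem hβ'R q)
  have hXv : B.valuation (evalAt P' (heckeAlphaBar Kb M q g - heckeBetaBar Kb M q g' ^ q)) =
      B.valuation (evalAt P' Lf.u) :=
    valuation_evalAt_eq_u B hB hqM hne e h2 h3 hXm
      (vg_mem_nonunits_O2 B hB hqM hgO hg'O H.untwist) (vg_mem_O1 B hB hqM hgO hg'O)
      (H.hxord _) hPa'
  obtain ⟨c₀, hc₀, -, hc₀1⟩ := Lf.val_mem P' hPa'
  have hu : evalAt P' Lf.u = c₀ := evalAt_eq_of_isValueAt hc₀
  have hcl : B.valuation (evalAt P' (heckeAlphaBar Kb M q g - heckeBetaBar Kb M q g' ^ q)) < 1 := by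
    rw [hXv, hu]
    exact hc₀1
  have hlt : B.valuation a₀ <
      B.valuation (evalAt P' (heckeAlphaBar Kb M q g - heckeBetaBar Kb M q g' ^ q)) := by
    rw [hXv]
    exact hPa.2
  have hq0 : B.valuation (q : Kb) ≠ 0 :=
    (_root_.map_ne_zero _).2 (Nat.cast_ne_zero.mpr hq.out.ne_zero)
  have ha0 : a₀ ≠ 0 := by
    rintro rfl
    rw [map_zero, zero_pow (Nat.succ_ne_zero q)] at ha₀
    exact hq0 ha₀.symm
  have hγ : B.valuation a₀ ^ 3 = B.valuation (2 : Kb) := by
    have := ha₀
    rw [hq2] at this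
    simpa using this
  have hcne : heckeAlphaBar Kb M q g - heckeBetaBar Kb M q g' ^ q ≠ 0 := by
    have := splitC_ne_zero B hB hqM e H
    unfold splitC at this
    exact neg_ne_zero.mp this
  obtain ⟨cU, hcU, hlt'⟩ := exists_value_lt_of_integralAt (A := B) q hq2 (P'' := P)
    (R₀ := R₀) (hP'eq ▸ hint) (hle hβ'R) (hle hβ''R) (hle hαR) (fun n => hle (hΨR n)) hcne ht
    hPsh (PAt_eval_alpha hqM g) hW0 hW hcW hr hcl ha0 hγ hlt
  refine ⟨cU, ?_, hlt'⟩
  rw [Ug_eq_splitW_mul B hB hqM e H]
  exact hcU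

set_option maxHeartbeats 4000000 in
/-- **The field `tube_b_nk` of `SepNSDD.SepInput` at `q = 2`**: a place of the second split sheet
(`|W(P)| < 1`) over the outer node of `e` along `a` lies over the INNER node of `Fr e` along
`b`. -/
theorem tube_b_nk_two (hq2 : q = 2) (h2 : nuTwo M = 0) (h3 : nuThree M = 0)
    (H : IsSSParam B hB hqM e g g' g'')
    (hα : (alpha2 M q).toRingHom.IsIntegral) (hβ : (beta2 M q).toRingHom.IsIntegral)
    (hadma : ∀ e, (inputs (DtM B hB hqM)).adm e (gaugeA q B hB hqM e))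
    (hadmb : ∀ e, (inputs (DtM B hB hqM)).adm e (gaugeB q B hB hqM e))
    {P : Place Kb (Fb (M * q * q))}
    (hPa : P.restrictAlong (alpha2 M q) hα ∈
      tube (srefM (DtM B hB hqM) (gaugeA q B hB hqM) hadma)
        (outer (inputs (DtM B hB hqM)) (gaugeA q B hB hqM) hadma e))
    {R₀ : Subring (Fb (M * q))} (hint : IntegralAt B R₀ (P.restrictAlong (alpha2 M q) hα))
    (hle : ((annulusLevels_modular_final B hB hqM (nonempty_crossing (DtM B hB hqM)) e).level
      (∅ : Finset Kb)).R ≤ R₀)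
    (ht : ((q : ℕ) : Fb (M * q)) * ((splitC M q g g') ^ (q + 1))⁻¹ ∈ R₀)
    {cW : Kb} (hW : IsValueAt P (splitW M q g g') cW) (hcW : B.valuation cW < 1) :
    P.restrictAlong (beta2 M q) hβ ∈
      tube (srefM (DtM B hB hqM) (gaugeB q B hB hqM) hadmb)
        (inner (inputs (DtM B hB hqM)) (gaugeB q B hB hqM) hadmb (Fr B hB hqM e)) := by
  have hPa' := hPa
  rw [tube_outerM] at hPa'
  obtain ⟨cU, hU, hUlt⟩ := exists_value_Ug_of_sheetTwo B hB hqM e hq2 h2 h3 H hα
    (valuation_gaugeSDD_pow_succ B) hPa' hint hle ht hW hcW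
  exact Fermat.Agent.BR3.SDD.TubesBFinal.tube_b_nk_of_value B hB hqM e h2 h3 H hα hβ hadma hadmb
    hPa hU hUlt

end Fermat.Agent.BR3.SplitNodeTwoTube
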