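import Mathlib
import Fermat.Agent.BR3.SplitNodeTwoMod
import Fermat.Agent.BR3.SplitNodeTwoTube

/-!
# Program C (S36), node (N2-TWO), part 6 (helper12): the tube clauses of the Kummer node at `q = 2`

The raw tube of the Kummer node `nk e s` of `S''` at `q = 2` is the tube of the SECOND split sheet
over the outer node of `S'ref_a` at `e`:

  `tubeK2 B hB hqM h2 h3 e g g' = coverTube B (tube S'ref_a (outer e)) (splitW M q g g') 0`

(along `α₂`; `(g, g', g'')` a twisted triple of the crossing `e`, `P : IsSSParam B hB hqM e g g' g''`).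

* `tubeK2`, `mem_tubeK2_iff` (`Iff.rfl`), `tubeK2_eq` (`rfl`: the tube of `SplitNodeTwoMod.nodeOutK2`);
* `tube_a_K2` : the field `tube_a_nk` of `SepInput` / `subK` of W4 (all `q`);
* **`tube_b_K2`** : the field `tube_b_nk` (`q = 2`): `SplitNodeTwoTube.tube_b_nk_two` with its
  ring `R₀` := a level of helper16's `levelsOutA` (`hint` := `centred`, `hle` := helper19's
  `outerHyp_outerLevelsRef … .le`, `ht` := `smallTw`);
* `value_W_K2` : on `tubeK2` the function `W` has a value `≡ 0` (the clause `hK` of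
  `NodeFibres.hTK_of_values` with `cK s = 0`, `cT = 1`); `value_W_T` : on the tube of `nT e` it
  has a value `≡ 1`; `valuation_zero_sub_one`; **`dTK2`** : the tubes of `nT e` and `nk e s` are
  disjoint (all `q`, as soon as the tube of `nk e s` is the sheet `W ≡ 0`).
-/

set_option autoImplicit false
set_option linter.unusedSectionVars false
set_option linter.style.haveILetI false
set_option synthInstance.maxHeartbeats 400000

noncomputable section

/- S36 build-time patch: file-local shortcut instances. They only shorten instance search;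
each is the instance that the search finds anyway (reducible, same terms after unfolding). -/
local instance (priority := 100000) Fermat.Agent.BR3.FastInst.instAlgFullC_SplitNodeTwoClauses
    {k : Type*} [Field k] (N : ℕ) :
    Algebra k ↥(ModularCurve.modularFunctionFieldFullC k N) := inferInstance
local instance (priority := 100000) Fermat.Agent.BR3.FastInst.instFieldFullC_SplitNodeTwoClauses
    {k : Type*} [Field k] (N : ℕ) :
    Field ↥(ModularCurve.modularFunctionFieldFullC k N) := inferInstance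
local instance (priority := 100000) Fermat.Agent.BR3.FastInst.instAlgLaurent_SplitNodeTwoClauses
    {k : Type*} [Field k] : Algebra k (LaurentSeries k) := inferInstance


namespace Fermat.Agent.BR3.SplitNodeTwoClauses

open ModularCurve AlgebraicCurve IsLocalRing Polynomial
open Fermat.Agent.Red Fermat.Agent.Val Fermat.Agent.X0 Fermat.Agent.Hecke
open Fermat.Agent.BR.SS Fermat.Agent.BR.Refine Fermat.Agent.BR.TwoVal Fermat.Agent.BR.TwoValInst
open Fermat.Agent.BR.Centre
open Fermat.Agent.BR.Circle Fermat.Agent.BR.S0 Fermat.Agent.BR.S0.PointDict Fermat.Agent.BR.P1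
open Fermat.Agent.BR.S0.RedModular Fermat.Agent.BR.Final Fermat.Agent.BR.Inst.AnnulusInstFinal
open Fermat.Agent.BR2.SetupOfData Fermat.Agent.BR3.CircleN Fermat.Agent.BR3.SRef
open Fermat.Agent.BR3.SRef.Modular Fermat.Agent.BR3.SDD.Modular Fermat.Agent.BR3.SubAnnChart
open Fermat.Agent.BR3.SplitLevels Fermat.Agent.BR3.SplitBranch Fermat.Agent.BR3.CoverSmooth
open Fermat.Agent.BR3.FibreProd Fermat.Agent.BR3.HeckePoly Fermat.Agent.BR3.SSParam
open Fermat.Agent.BR3.SplitCompsCInf Fermat.Agent.BR3.SplitNode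
open Fermat.Agent.BR3.SplitModular Fermat.Agent.BR3.SplitModularTw
open Fermat.Agent.BR3.SplitModularRef Fermat.Agent.BR3.SplitNodeTwoTube
open Fermat.Agent.BR3.VertBetaFr

local notation "Kb" => AlgebraicClosure ℚ

variable {M q : ℕ} [NeZero M] [hq : Fact q.Prime]
variable (B : ValuationSubring (AlgebraicClosure ℚ)) (hB : B.LiesOverPrime q) (hqM : ¬ q ∣ M)
variable [IsAlgClosed (ResidueField B)]

local notation "kB" => IsLocalRing.ResidueField B
local notation "FtM" => modularFunctionFieldFullC (IsLocalRing.ResidueField B) M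

/-- (shortcut instance) -/
local instance (priority := 100000) instAlgebraFtMShortcutK2C :
    Algebra (IsLocalRing.ResidueField B)
      (modularFunctionFieldFullC (IsLocalRing.ResidueField B) M) :=
  inferInstance

variable (h2 : nuTwo M = 0) (h3 : nuThree M = 0) (e : Crossing (chartDataModular B hB hqM))
  [CharP (ResidueField B) q]
  (g g' : Fb M) {g'' : Fb M}

/-- **The raw tube of the Kummer node `nk e s` at `q = 2`**: the sheet `W ≡ 0` of
`W = splitW M q g g'` over the outer node of `S'ref_a` at `e` (along `α₂`). -/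
def tubeK2 : Set (Place Kb (Fb (M * q * q))) :=
  letI := algebraAlong (alpha2 M q)
  haveI := isScalarTower_along (alpha2 M q)
  haveI : Module.Finite (Fb (M * q)) (Fb (M * q * q)) :=
    Fermat.Agent.Hecke.finiteAlong_heckeAlphaBar (M * q) q
  coverTube B
    (tube (srefM (DtM B hB hqM) (gaugeA q B hB hqM) (admA B hB hqM h2 h3))
      (outer (inputs (DtM B hB hqM)) (gaugeA q B hB hqM) (admA B hB hqM h2 h3) e))
    (splitW M q g g') (0 : B)

/-- **The raw tube of the node `nT e`**: the sheet `W ≡ 1` (helper16's `SplitNode.nodeOutT`). -/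
def tubeT1 : Set (Place Kb (Fb (M * q * q))) :=
  letI := algebraAlong (alpha2 M q)
  haveI := isScalarTower_along (alpha2 M q)
  haveI : Module.Finite (Fb (M * q)) (Fb (M * q * q)) :=
    Fermat.Agent.Hecke.finiteAlong_heckeAlphaBar (M * q) q
  coverTube B
    (tube (srefM (DtM B hB hqM) (gaugeA q B hB hqM) (admA B hB hqM h2 h3))
      (outer (inputs (DtM B hB hqM)) (gaugeA q B hB hqM) (admA B hB hqM h2 h3) e))
    (splitW M q g g') (1 : B)

theorem tubeK2_eq :
    letI := algebraAlong (alpha2 M q)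
    haveI := isScalarTower_along (alpha2 M q)
    haveI : Module.Finite (Fb (M * q)) (Fb (M * q * q)) :=
      Fermat.Agent.Hecke.finiteAlong_heckeAlphaBar (M * q) q
    tubeK2 B hB hqM h2 h3 e g g' = coverTube B
      (tube (srefM (DtM B hB hqM) (gaugeA q B hB hqM) (admA B hB hqM h2 h3))
        (outer (inputs (DtM B hB hqM)) (gaugeA q B hB hqM) (admA B hB hqM h2 h3) e))
      (splitW M q g g') (0 : B) := rfl

theorem tubeT1_eq :
    letI := algebraAlong (alpha2 M q)
    haveI := isScalarTower_along (alpha2 M q)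
    haveI : Module.Finite (Fb (M * q)) (Fb (M * q * q)) :=
      Fermat.Agent.Hecke.finiteAlong_heckeAlphaBar (M * q) q
    tubeT1 B hB hqM h2 h3 e g g' = coverTube B
      (tube (srefM (DtM B hB hqM) (gaugeA q B hB hqM) (admA B hB hqM h2 h3))
        (outer (inputs (DtM B hB hqM)) (gaugeA q B hB hqM) (admA B hB hqM h2 h3) e))
      (splitW M q g g') (1 : B) := rfl

/-- **`tube_a_nk` / `subK`** : the raw tube lies over the tube of the outer node of `S'ref_a`. -/
theorem tube_a_K2 (hα : (alpha2 M q).toRingHom.IsIntegral) :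
    ∀ Pl ∈ tubeK2 B hB hqM h2 h3 e g g',
      Pl.restrictAlong (alpha2 M q) hα ∈
        tube (srefM (DtM B hB hqM) (gaugeA q B hB hqM) (admA B hB hqM h2 h3))
          (outer (inputs (DtM B hB hqM)) (gaugeA q B hB hqM) (admA B hB hqM h2 h3) e) :=
  fun _ hP => hP.1

/-- `tube_a_nT` : the same for the tube of `nT e`. -/
theorem tube_a_T1 (hα : (alpha2 M q).toRingHom.IsIntegral) :
    ∀ Pl ∈ tubeT1 B hB hqM h2 h3 e g g',
      Pl.restrictAlong (alpha2 M q) hα ∈
        tube (srefM (DtM B hB hqM) (gaugeA q B hB hqM) (admA B hB hqM h2 h3))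
          (outer (inputs (DtM B hB hqM)) (gaugeA q B hB hqM) (admA B hB hqM h2 h3) e) :=
  fun _ hP => hP.1

/-- on the raw tube of `nk e s` the function `W` has a value `≡ 0` -/
theorem value_W_K2 :
    ∀ Pl ∈ tubeK2 B hB hqM h2 h3 e g g',
      ∃ d : Kb, IsValueAt Pl (splitW M q g g') d ∧ B.valuation (d - 0) < 1 := by
  intro Pl hP
  obtain ⟨d, hd, hlt⟩ := hP.2
  exact ⟨d, hd, hlt⟩

/-- on the raw tube of `nT e` the function `W` has a value `≡ 1` -/
theorem value_W_T1 :
    ∀ Pl ∈ tubeT1 B hB hqM h2 h3 e g g',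
      ∃ d : Kb, IsValueAt Pl (splitW M q g g') d ∧ B.valuation (d - 1) < 1 := by
  intro Pl hP
  obtain ⟨d, hd, hlt⟩ := hP.2
  exact ⟨d, hd, hlt⟩

theorem valuation_zero_sub_one : B.valuation ((0 : Kb) - 1) = 1 := by
  rw [zero_sub, Valuation.map_neg, map_one]

/-- **`dTK`** : the tubes of `nT e` and of `nk e s` are disjoint. -/
theorem dTK2 {Pl : Place Kb (Fb (M * q * q))} (hT : Pl ∈ tubeT1 B hB hqM h2 h3 e g g') :
    Pl ∉ tubeK2 B hB hqM h2 h3 e g g' := by
  intro hK
  obtain ⟨d, hd, hlt⟩ := value_W_T1 B hB hqM h2 h3 e g g' Pl hT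
  obtain ⟨d', hd', hlt'⟩ := value_W_K2 B hB hqM h2 h3 e g g' Pl hK
  have hdd : d = d' := hd.unique hd'
  subst hdd
  have h1 : B.valuation ((d - 0) - (d - 1)) < 1 :=
    lt_of_le_of_lt (Valuation.map_sub _ _ _) (max_lt hlt' hlt)
  have h2' : (d - 0) - (d - 1) = 1 := by ring
  rw [h2', map_one] at h1
  exact lt_irrefl _ h1

variable {g g'}

set_option maxHeartbeats 4000000 in
/-- **`tube_b_nk` at `q = 2`** : a place of the raw tube of `nk e s` lies, along `β₂`, over the
INNER node of `S'ref_b` at `Fr e`. -/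
theorem tube_b_K2 (hq2 : q = 2) (Hp : IsSSParam B hB hqM e g g' g'')
    (hα : (alpha2 M q).toRingHom.IsIntegral) (hβ : (beta2 M q).toRingHom.IsIntegral) :
    ∀ Pl ∈ tubeK2 B hB hqM h2 h3 e g g',
      Pl.restrictAlong (beta2 M q) hβ ∈
        tube (srefM (DtM B hB hqM) (gaugeB q B hB hqM) (admB B hB hqM h2 h3))
          (inner (inputs (DtM B hB hqM)) (gaugeB q B hB hqM) (admB B hB hqM h2 h3)
            (Fr B hB hqM e)) := by
  intro Pl hP
  have hPa := tube_a_K2 B hB hqM h2 h3 e g g' hα Pl hP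
  obtain ⟨d, hd, hlt⟩ := value_W_K2 B hB hqM h2 h3 e g g' Pl hP
  rw [sub_zero] at hlt
  have OH := outerHyp_outerLevelsRef B hB hqM (gaugeA q B hB hqM) (admA B hB hqM h2 h3) e
    (hg_of_isGaugeA B hB hqM (gaugeA q B hB hqM) e (isGaugeA B hB hqM h2 h3))
  obtain ⟨i', -⟩ := (levelsOutA B hB hqM h2 h3 e).const 0
  obtain ⟨hint, -⟩ := ((levelsOutA B hB hqM h2 h3 e).level i').centred _ hPa
  obtain ⟨ht, -⟩ := smallTw h2 h3 Hp OH i'
  exact tube_b_nk_two B hB hqM e hq2 h2 h3 Hp hα hβ (admA B hB hqM h2 h3) (admB B hB hqM h2 h3)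
    hPa hint
    (le_trans (level_mono B hB hqM (nonempty_crossing (DtM B hB hqM)) e
      (Finset.empty_subset _)) (OH.le i'))
    ht hd hlt

end Fermat.Agent.BR3.SplitNodeTwoClauses
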