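import Mathlib
import Fermat.Agent.BR3.VertPtsDef
import Fermat.Agent.BR3.PlaceIso

/-!
# Program C (S36), node (I9-ze), part (iii): the inertia action on the special points of `z e`

Setting of `BR3/VertPtsDef`: `L = k(b, U)`, `b U ^ q + b ^ 2 U ^ (q - 1) = ρ`, and
`a : L ≃ₐ[k] L` with `a b = ξ • b`, `a U = ξ • U`, `ξ ≠ 0` (the automorphism induced by an inertia
element on the residue field of the vertical component: `BR3/VertEquiv.exists_mapsComp_vert`).

* `placeMap_ptZ` : `placeMap a ptZ = ptZ` (the branch towards `cZero` is fixed);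
* `placeMap_ptI` : `placeMap a ptI = ptI` (the branch towards `cInf` is fixed);
* `placeMap_ptK` : `ξ ^ ((q - 1) / 2 + 1) = -1 → placeMap a (ptK c) = ptK (-c)` (`q` odd: the two
  Kummer branches are swapped); `pow_half_eq_neg_one` : this holds for a primitive
  `(q + 1)`-th root of unity `ξ`; `placeMap_ptK_of_primitive`;
* `placeMap_ptK_of_pow_eq_one` : `ξ ^ ((q - 1) / 2 + 1) = 1 → placeMap a (ptK c) = ptK c`;
* `placeMap_ptK₂` : `placeMap a ptK₂ = ptK₂` (`q = 2`);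
* the same for `ptZBar`, `ptIBar`, `ptKBar`, `ptKBar₂` on `AdjoinRoot (vertBar q β ρ)`.
-/

set_option autoImplicit false
set_option linter.unusedSectionVars false

open AlgebraicCurve Polynomial

namespace Fermat.Agent.BR3.VertPtsEquiv

open Fermat.Agent.Red Fermat.Agent.BR3.VertPts Fermat.Agent.BR3.VertPtsDef
  Fermat.Agent.BR3.PlaceIso Fermat.Agent.X0

variable {k L : Type*} [Field k] [Field L] [Algebra k L] [IsAlgClosed k]

omit [IsAlgClosed k] in
/-- The order of a nonzero constant multiple. -/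
theorem ord_smul_const (P : Place k L) {ξ : k} (hξ : ξ ≠ 0) (f : L) :
    P.ord (ξ • f) = P.ord f := by
  rcases eq_or_ne f 0 with rfl | hf
  · rw [smul_zero]
  · have hξL : algebraMap k L ξ ≠ 0 := (_root_.map_ne_zero _).mpr hξ
    rw [Algebra.smul_def, Place.ord_mul _ hξL hf, Place.ord_algebraMap, zero_add]

section Uniform

variable (q : ℕ) [hq : Fact q.Prime] [CharP k q] {ρ : k} {b U : L}
  (hρ : ρ ≠ 0) (hb : Transcendental k b)
  (heq : b * U ^ q + b ^ 2 * U ^ (q - 1) = algebraMap k L ρ)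
  (hgen : IntermediateField.adjoin k {b, U} = ⊤)
  {ξ : k} (hξ : ξ ≠ 0) {a : L ≃ₐ[k] L} (hab : a b = ξ • b) (haU : a U = ξ • U)

include hξ hab in
/-- **The branch of `z e` towards `cZero` is fixed.** -/
theorem placeMap_ptZ : placeMap a (ptZ q hρ hb heq hgen) = ptZ q hρ hb heq hgen := by
  rw [← ord_b_pos_iff q hρ hb heq hgen]
  have h1 := ord_placeMap a (ptZ q hρ hb heq hgen) b
  rw [hab, ord_smul_const _ hξ, ord_b_ptZ] at h1
  rw [h1]
  exact_mod_cast hq.out.pos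

include hξ hab haU in
/-- **The branch of `z e` towards `cInf` is fixed.** -/
theorem placeMap_ptI : placeMap a (ptI q hρ hb heq hgen) = ptI q hρ hb heq hgen := by
  rw [← ord_add_pos_iff q hρ hb heq hgen]
  have h1 := ord_placeMap a (ptI q hρ hb heq hgen) (U + b)
  rw [map_add, hab, haU, ← smul_add, ord_smul_const _ hξ, ord_add_ptI] at h1
  rw [h1]
  exact_mod_cast hq.out.pos

end Uniform

section Odd

variable (q : ℕ) [hq : Fact q.Prime] [CharP k q] {ρ : k} {b U : L}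
  (hq2 : q ≠ 2) (hρ : ρ ≠ 0) (hb : Transcendental k b)
  (heq : b * U ^ q + b ^ 2 * U ^ (q - 1) = algebraMap k L ρ)
  (hgen : IntermediateField.adjoin k {b, U} = ⊤) {c : k} (hc : c ^ 2 = ρ)
  {ξ : k} (hξ : ξ ≠ 0) {a : L ≃ₐ[k] L} (hab : a b = ξ • b) (haU : a U = ξ • U)

omit [IsAlgClosed k] hq [CharP k q] in
include hab haU in
/-- the action on `θ̄ = b U ^ d` -/
theorem apply_theta (d : ℕ) : a (b * U ^ d) = ξ ^ (d + 1) • (b * U ^ d) := by
  rw [map_mul, map_pow, hab, haU, Algebra.smul_def, Algebra.smul_def, Algebra.smul_def, map_pow]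
  ring

include hξ hab haU in
/-- The image of a Kummer point: `θ̄ ≡ c` becomes `θ̄ ≡ ξ ^ (d + 1) c`. -/
theorem placeMap_ptK_gen {c' : k} (hc' : c' ^ 2 = ρ)
    (h : ξ ^ ((q - 1) / 2 + 1) * c' = c) :
    placeMap a (ptK q hq2 hρ hb heq hgen c' hc') = ptK q hq2 hρ hb heq hgen c hc := by
  rw [← eq_ptK_iff q hq2 hρ hb heq hgen hc]
  constructor
  · have h1 := ord_placeMap a (ptK q hq2 hρ hb heq hgen c' hc') U
    rw [haU, ord_smul_const _ hξ, ord_U_ptK] at h1
    rw [h1]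
    exact one_pos
  · have h1 := isValueAt_placeMap (a := a) (isValueAt_theta_ptK q hq2 hρ hb heq hgen hc')
    rw [apply_theta hab haU] at h1
    -- `ξ^(d+1) • θ̄` has value `c'`, so `θ̄` has value `ξ^-(d+1) c'`
    have hξd : ξ ^ ((q - 1) / 2 + 1) ≠ 0 := pow_ne_zero _ hξ
    have h2 := (isValueAt_algebraMap (placeMap a (ptK q hq2 hρ hb heq hgen c' hc'))
      ((ξ ^ ((q - 1) / 2 + 1))⁻¹)).mul h1
    rw [Algebra.smul_def, ← mul_assoc, ← map_mul, inv_mul_cancel₀ hξd, map_one, one_mul] at h2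
    have h3 : (ξ ^ ((q - 1) / 2 + 1))⁻¹ * c' = c := by
      -- from `ξ^(d+1) c' = c` and `c'^2 = c^2`: `ξ^(2(d+1)) = 1`
      have hc0 : c' ≠ 0 := by
        rintro rfl
        rw [zero_pow two_ne_zero] at hc'
        exact hρ hc'.symm
      have hsq : (ξ ^ ((q - 1) / 2 + 1)) ^ 2 = 1 := by
        have h4 : (ξ ^ ((q - 1) / 2 + 1) * c') ^ 2 = c' ^ 2 := by rw [h, hc, hc']
        rw [mul_pow] at h4
        have h5 : (ξ ^ ((q - 1) / 2 + 1)) ^ 2 * c' ^ 2 = 1 * c' ^ 2 := by rw [h4, one_mul]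
        exact mul_right_cancel₀ (pow_ne_zero 2 hc0) h5
      have hinv : (ξ ^ ((q - 1) / 2 + 1))⁻¹ = ξ ^ ((q - 1) / 2 + 1) :=
        inv_eq_of_mul_eq_one_left (by rw [← sq, hsq])
      rw [hinv, h]
    rwa [h3] at h2

include hξ hab haU in
/-- **The two Kummer branches of `z e` are swapped** when `ξ ^ ((q - 1) / 2 + 1) = -1`. -/
theorem placeMap_ptK (h : ξ ^ ((q - 1) / 2 + 1) = -1) :
    placeMap a (ptK q hq2 hρ hb heq hgen c hc) =
      ptK q hq2 hρ hb heq hgen (-c) (neg_sq_eq hc) :=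
  placeMap_ptK_gen q hq2 hρ hb heq hgen (neg_sq_eq hc) hξ hab haU hc (by rw [h]; ring)

include hξ hab haU in
/-- The Kummer branches of `z e` are fixed when `ξ ^ ((q - 1) / 2 + 1) = 1`. -/
theorem placeMap_ptK_of_pow_eq_one (h : ξ ^ ((q - 1) / 2 + 1) = 1) :
    placeMap a (ptK q hq2 hρ hb heq hgen c hc) = ptK q hq2 hρ hb heq hgen c hc :=
  placeMap_ptK_gen q hq2 hρ hb heq hgen hc hξ hab haU hc (by rw [h, one_mul])

omit [IsAlgClosed k] [CharP k q] in
/-- For a primitive `(q + 1)`-th root of unity, `q` odd: `ξ ^ ((q + 1) / 2) = -1`. -/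
theorem pow_half_eq_neg_one (hq2 : q ≠ 2) {ξ : k} (hprim : IsPrimitiveRoot ξ (q + 1)) :
    ξ ^ ((q - 1) / 2 + 1) = -1 := by
  obtain ⟨j, hj⟩ := hq.out.odd_of_ne_two hq2
  have hq1 := hq.out.two_le
  have hd : (q - 1) / 2 + 1 = j + 1 := by omega
  have h2 : ((q - 1) / 2 + 1) * 2 = q + 1 := by omega
  have hsq : (ξ ^ ((q - 1) / 2 + 1)) ^ 2 = 1 := by
    rw [← pow_mul, h2]; exact hprim.pow_eq_one
  have hne : ξ ^ ((q - 1) / 2 + 1) ≠ 1 := by
    intro h1
    have hdvd := hprim.dvd_of_pow_eq_one _ h1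
    have hle := Nat.le_of_dvd (by omega) hdvd
    omega
  rw [sq] at hsq
  rcases mul_self_eq_one_iff.mp hsq with h | h
  · exact absurd h hne
  · exact h

include hab haU in
/-- **The generator of the inertia action swaps the two Kummer branches of `z e`** (`q` odd). -/
theorem placeMap_ptK_of_primitive (hprim : IsPrimitiveRoot ξ (q + 1)) :
    placeMap a (ptK q hq2 hρ hb heq hgen c hc) =
      ptK q hq2 hρ hb heq hgen (-c) (neg_sq_eq hc) :=
  placeMap_ptK q hq2 hρ hb heq hgen hc (hprim.ne_zero (Nat.succ_ne_zero q)) hab haU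
    (pow_half_eq_neg_one q hq2 hprim)

end Odd

section Two

variable [CharP k 2] {ρ : k} {b U : L}
  (hρ : ρ ≠ 0) (hb : Transcendental k b)
  (heq : b * U ^ 2 + b ^ 2 * U = algebraMap k L ρ)
  (hgen : IntermediateField.adjoin k {b, U} = ⊤)
  {ξ : k} (hξ : ξ ≠ 0) {a : L ≃ₐ[k] L} (haU : a U = ξ • U)

include hξ haU in
/-- **The Kummer branch of `z e` is fixed** (`q = 2`). -/
theorem placeMap_ptK₂ : placeMap a (ptK₂ hρ hb heq hgen) = ptK₂ hρ hb heq hgen := by
  rw [← ord_U_pos_iff₂ hρ hb heq hgen]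
  have h1 := ord_placeMap a (ptK₂ hρ hb heq hgen) U
  rw [haU, ord_smul_const _ hξ, ord_U_ptK₂] at h1
  rw [h1]
  norm_num

end Two

/-! ### the instances for `AdjoinRoot (vertBar q β ρ)` -/

section VertBar

open Fermat.Agent.BR3.VertResidue Fermat.Agent.BR3.VertResField

variable (q : ℕ) [hq : Fact q.Prime] [CharP k q] {β ρ : k}
  [hP : Fact (Irreducible (vertBar q β ρ))] (hβ : β ≠ 0) (hρ : ρ ≠ 0)
  {ξ : k} (hξ : ξ ≠ 0) {a : AdjoinRoot (vertBar q β ρ) ≃ₐ[k] AdjoinRoot (vertBar q β ρ)}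
  (hab : a (AdjoinRoot.of (vertBar q β ρ) (RatFunc.C β * RatFunc.X)) =
    ξ • AdjoinRoot.of (vertBar q β ρ) (RatFunc.C β * RatFunc.X))
  (haU : a (AdjoinRoot.root (vertBar q β ρ)) = ξ • AdjoinRoot.root (vertBar q β ρ))

include hξ hab in
theorem placeMap_ptZBar : placeMap a (ptZBar q hβ hρ) = ptZBar q hβ hρ :=
  placeMap_ptZ q hρ _ _ _ hξ hab

include hξ hab haU in
theorem placeMap_ptIBar : placeMap a (ptIBar q hβ hρ) = ptIBar q hβ hρ :=
  placeMap_ptI q hρ _ _ _ hξ hab haU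

include hab haU in
/-- **The generator of the inertia action swaps the two Kummer branches** `ptKBar c`,
`ptKBar (-c)` of `z e` (`q` odd). -/
theorem placeMap_ptKBar (hq2 : q ≠ 2) {c : k} (hc : c ^ 2 = ρ)
    (hprim : IsPrimitiveRoot ξ (q + 1)) :
    placeMap a (ptKBar q hq2 hβ hρ c hc) = ptKBar q hq2 hβ hρ (-c) (neg_sq_eq hc) :=
  placeMap_ptK_of_primitive q hq2 hρ _ _ _ hc hab haU hprim

include hξ hab haU in
/-- An element of the inertia group whose tame character has order dividing `(q + 1) / 2` fixes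
the Kummer branches. -/
theorem placeMap_ptKBar_of_pow_eq_one (hq2 : q ≠ 2) {c : k} (hc : c ^ 2 = ρ)
    (h : ξ ^ ((q - 1) / 2 + 1) = 1) :
    placeMap a (ptKBar q hq2 hβ hρ c hc) = ptKBar q hq2 hβ hρ c hc :=
  placeMap_ptK_of_pow_eq_one q hq2 hρ _ _ _ hc hξ hab haU h

end VertBar

section VertBarTwo

open Fermat.Agent.BR3.VertResidue Fermat.Agent.BR3.VertResField

variable [CharP k 2] {β ρ : k} [hP : Fact (Irreducible (vertBar 2 β ρ))] (hβ : β ≠ 0) (hρ : ρ ≠ 0)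
  {ξ : k} (hξ : ξ ≠ 0) {a : AdjoinRoot (vertBar 2 β ρ) ≃ₐ[k] AdjoinRoot (vertBar 2 β ρ)}
  (haU : a (AdjoinRoot.root (vertBar 2 β ρ)) = ξ • AdjoinRoot.root (vertBar 2 β ρ))

include hξ haU in
theorem placeMap_ptKBar₂ : placeMap a (ptKBar₂ hβ hρ) = ptKBar₂ hβ hρ :=
  placeMap_ptK₂ hρ _ _ _ hξ haU

end VertBarTwo

end Fermat.Agent.BR3.VertPtsEquiv
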