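import Mathlib
import Fermat.Agent.BR3.VertEquivSDD
import Fermat.Agent.BR3.VertPtsEquiv

/-!
# Program C (S36), node (I9-ze), σ0 package of one vertical component

Setting of `BR3/VertEquivSDD` (`S`, `v`, `hcomap`, `huniq`, `ψ`, `hψ` against `ringE`/`resE` of
`S'ref`).  For `σ ∈ I_B` with `σ (a₀ e) = ζ (a₀ e)`, `ζ` reducing to a primitive `(q + 1)`-th root of
unity (e.g. the tame generator `σ0` of `GeoSigma.exists_tame_generator` and the gauge
`gaugeSDD q = ϖ ^ (q - 1)`), and the generators `b̃ = ψ (β X)`, `Ũ = res (U₀ / α₂ (a₀ e))` of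
`Ft v` with `b̃ Ũ ^ q + b̃ ^ 2 Ũ ^ (q - 1) = ρ`:

* **`exists_mapsComp_pts_ringE`** : ONE `a : Ft v ≃ₐ Ft v` with `MapsComp S (galAut σ) v v a`,
  `a b̃ = ξ b̃`, `a Ũ = ξ Ũ` (`ξ = (residue of ζ)⁻¹`), fixing `ptZ` (branch towards `cZero`) and
  `ptI` (branch towards `cInf`), and swapping the Kummer branches `ptK c ↦ ptK (-c)` (`q` odd);
  and fixing `ptK₂` (`q = 2`).
-/

set_option autoImplicit false
set_option linter.unusedSectionVars false
set_option linter.unusedVariables false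
set_option linter.style.haveILetI false
set_option synthInstance.maxHeartbeats 400000

noncomputable section

namespace Fermat.Agent.BR3.VertSigmaPts

open Polynomial ModularCurve AlgebraicCurve IsLocalRing
open Fermat.Agent.X0 Fermat.Agent.Val Fermat.Agent.Red Fermat.Agent.BR.Kron Fermat.Agent.Jac
open Fermat.Agent.BR.Circle Fermat.Agent.BR.S0 Fermat.Agent.BR.S0.RedModular
open Fermat.Agent.BR.S0.PointDict Fermat.Agent.BR.SS Fermat.Agent.BR2.Filt Fermat.Agent.BR.Final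
open Fermat.Agent.BR.InertiaRed Fermat.Agent.BR.Refine Fermat.Agent.BR2.SetupOfData
open Fermat.Agent.BR3.FibreProd Fermat.Agent.BR3.InvFiniteTheta Fermat.Agent.BR3.CircleEquiv
open Fermat.Agent.BR3.VertEquiv Fermat.Agent.BR3.VertEquivKill Fermat.Agent.BR3.FiltPerm
open Fermat.Agent.BR3.FiltMaps Fermat.Agent.BR.AnnulusRed Fermat.Agent.BR3.VertEquivMod
open Fermat.Agent.BR3.SRef Fermat.Agent.BR3.SRef.Modular Fermat.Agent.BR3.VertEquivSDD
open Fermat.Agent.BR3.VertPtsDef Fermat.Agent.BR3.VertPtsEquiv Fermat.Agent.BR3.PlaceIso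

variable {M q : ℕ} [NeZero M] [hq : Fact q.Prime]

/-- shortcut instance (the search is slow) -/
local instance algResFtM''' (B : ValuationSubring Kb) :
    Algebra (ResidueField B) (modularFunctionFieldFullC (ResidueField B) M) := inferInstance

variable {B : ValuationSubring Kb} {hB : B.LiesOverPrime q} {hqM : ¬ q ∣ M}
  [IsAlgClosed (ResidueField B)] (Dt : ModularData M q B hB hqM)
  (a₀ : Crossing (chartDataModular B hB hqM) → Kb) (hadm : ∀ e, (inputs Dt).adm e (a₀ e))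
  (e : Crossing (chartDataModular B hB hqM)) {σ : GQ}

local notation "kB" => ResidueField B

variable {ι : Type*} {Ft : ι → Type*} [∀ v, Field (Ft v)] [∀ v, Algebra (ResidueField B) (Ft v)]
  {ν : Type*}
  (S : SemistableSetup (F := Fb (M * q * q)) B (residue B) ι Ft ν) (v : ι)
  (hcomap : (S.O v).comap (alpha2 M q : Fb (M * q) →+* Fb (M * q * q)) = ringE Dt a₀ hadm e)
  (huniq : ∀ Z' : ValuationSubring (Fb (M * q * q)),
    Z'.comap (alpha2 M q : Fb (M * q) →+* Fb (M * q * q)) = ringE Dt a₀ hadm e → Z' = S.O v)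
  (ψ : RatFunc (ResidueField B) →+* Ft v)
  (hψ : ∀ (y : ringE Dt a₀ hadm e) (h : alpha2 M q (y : Fb (M * q)) ∈ S.O v),
    S.res v ⟨alpha2 M q (y : Fb (M * q)), h⟩ = ψ (resE Dt a₀ hadm e y))

include hcomap huniq hψ in
/-- **The σ0 package of the vertical component over `E_e`** (`q` odd clauses included): one
automorphism `a` of `Ft v` above `galAut σ` with its action on the generators and on the special
points. -/
theorem exists_mapsComp_pts_ringE [CharP (ResidueField B) q]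
    (hσ : σ ∈ B.inertiaSubgroupIn ℚ) {ζ : Kb}
    (hσa : σ (a₀ e) = ζ * a₀ e) (hprim : IsPrimitiveRoot (resOf B ζ) (q + 1))
    (U₀ : Fb (M * q * q)) (hU₀ : galAut (M * q * q) σ • U₀ = U₀)
    {β ρ : ResidueField B} (hρ : ρ ≠ 0)
    (hθ : U₀ / alpha2 M q (algebraMap Kb (Fb (M * q)) (a₀ e)) ∈ S.O v)
    {b Ut : Ft v} (hbψ : ψ (RatFunc.C β * RatFunc.X) = b)
    (hUt : S.res v ⟨U₀ / alpha2 M q (algebraMap Kb (Fb (M * q)) (a₀ e)), hθ⟩ = Ut)
    (hb : Transcendental (ResidueField B) b)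
    (heq : b * Ut ^ q + b ^ 2 * Ut ^ (q - 1) = algebraMap (ResidueField B) (Ft v) ρ)
    (hgen : IntermediateField.adjoin (ResidueField B) {b, Ut} = ⊤) :
    ∃ a : Ft v ≃ₐ[ResidueField B] Ft v, MapsComp S (galAut (M * q * q) σ) v v a ∧
      a b = (resOf B ζ)⁻¹ • b ∧ a Ut = (resOf B ζ)⁻¹ • Ut ∧
      placeMap a (ptZ q hρ hb heq hgen) = ptZ q hρ hb heq hgen ∧
      placeMap a (ptI q hρ hb heq hgen) = ptI q hρ hb heq hgen ∧
      (∀ (hq2 : q ≠ 2) (c : ResidueField B) (hc : c ^ 2 = ρ),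
        placeMap a (ptK q hq2 hρ hb heq hgen c hc) =
          ptK q hq2 hρ hb heq hgen (-c) (neg_sq_eq hc)) ∧
      ∀ (_ : CharP (ResidueField B) 2)
        (heq₂ : b * Ut ^ 2 + b ^ 2 * Ut = algebraMap (ResidueField B) (Ft v) ρ),
        placeMap a (ptK₂ hρ hb heq₂ hgen) = ptK₂ hρ hb heq₂ hgen := by
  have hζ0 : resOf B ζ ≠ 0 := hprim.ne_zero (Nat.succ_ne_zero q)
  obtain ⟨a, ha, -, hab, haU⟩ :=
    exists_mapsComp_ringE Dt a₀ hadm e S v hcomap huniq ψ hψ hσ hσa hζ0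
  have hab' : a b = (resOf B ζ)⁻¹ • b := by rw [← hbψ]; exact hab β
  have haU' : a Ut = (resOf B ζ)⁻¹ • Ut := by rw [← hUt]; exact haU U₀ hU₀ hθ
  have hξ : (resOf B ζ)⁻¹ ≠ 0 := inv_ne_zero hζ0
  refine ⟨a, ha, hab', haU', placeMap_ptZ q hρ hb heq hgen hξ hab',
    placeMap_ptI q hρ hb heq hgen hξ hab' haU', fun hq2 c hc => ?_, fun _ heq₂ => ?_⟩
  · exact placeMap_ptK_of_primitive q hq2 hρ hb heq hgen hc hab' haU' hprim.inv
  · exact placeMap_ptK₂ hρ hb heq₂ hgen hξ haU'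

end Fermat.Agent.BR3.VertSigmaPts
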