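import Mathlib
import Fermat.Agent.BR3.VertSigmaPts
import Fermat.Agent.BR3.SDD.ModularGauge

/-!
# Program C (S36), node (I9-ze), σ0 package of `z e` at the fixed gauge `gaugeA`

`BR3/VertSigmaPts.exists_mapsComp_pts_ringE` for `Dt := DtM`, `a₀ := gaugeA q` (`= ϖ ^ (q - 1)`,
`ϖ = unifSDD q`), `hadm := admA`, against `ringEA`, and `σ`, `ζ₀` with
`σ (ϖ ^ (q - 1)) = ζ₀ ^ (q - 1) ϖ ^ (q - 1)`, `ζ₀ ^ (q - 1)` reducing to a primitive `(q + 1)`-th
root of unity: LITERALLY two conjuncts of `GeoSigma.exists_tame_generator`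
(`hϖ := unifSDD_pow hq.out.one_lt`).

* **`exists_mapsComp_pts_ringEA`** : ONE `a : Ft v ≃ₐ Ft v` with `MapsComp S (galAut σ) v v a`,
  `a b̃ = ξ b̃`, `a Ũ = ξ Ũ`, `ptZ`, `ptI` fixed, `ptK c ↦ ptK (-c)` (`q` odd), `ptK₂` fixed.
-/

set_option autoImplicit false
set_option linter.unusedSectionVars false
set_option linter.unusedVariables false
set_option linter.style.haveILetI false
set_option synthInstance.maxHeartbeats 400000

noncomputable section

namespace Fermat.Agent.BR3.VertSigmaMod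

open Polynomial ModularCurve AlgebraicCurve IsLocalRing
open Fermat.Agent.X0 Fermat.Agent.Val Fermat.Agent.Red Fermat.Agent.Jac
open Fermat.Agent.BR.Circle Fermat.Agent.BR.S0 Fermat.Agent.BR.S0.RedModular
open Fermat.Agent.BR.S0.PointDict Fermat.Agent.BR.SS Fermat.Agent.BR2.Filt Fermat.Agent.BR.Final
open Fermat.Agent.BR.InertiaRed Fermat.Agent.BR.Refine Fermat.Agent.BR2.SetupOfData
open Fermat.Agent.BR3.FibreProd Fermat.Agent.BR3.FiltPerm Fermat.Agent.BR3.FiltMaps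
open Fermat.Agent.BR3.SRef Fermat.Agent.BR3.SRef.Modular Fermat.Agent.BR3.VertEquivSDD
open Fermat.Agent.BR3.VertPtsDef Fermat.Agent.BR3.VertPtsEquiv Fermat.Agent.BR3.PlaceIso
open Fermat.Agent.BR3.SDD.Modular Fermat.Agent.BR3.ThickSDDPlug Fermat.Agent.BR3.VertSigmaPts

variable {M q : ℕ} [NeZero M] [hq : Fact q.Prime]

/-- shortcut instance (the search is slow) -/
local instance algResFtM4 (B : ValuationSubring Kb) :
    Algebra (ResidueField B) (modularFunctionFieldFullC (ResidueField B) M) := inferInstance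

variable (B : ValuationSubring Kb) (hB : B.LiesOverPrime q) (hqM : ¬ q ∣ M)
  [IsAlgClosed (ResidueField B)] (h2 : nuTwo M = 0) (h3 : nuThree M = 0)
  (e : Crossing (chartDataModular B hB hqM)) {σ : GQ}

variable {ι : Type*} {Ft : ι → Type*} [∀ v, Field (Ft v)] [∀ v, Algebra (ResidueField B) (Ft v)]
  {ν : Type*}
  (S : SemistableSetup (F := Fb (M * q * q)) B (residue B) ι Ft ν) (v : ι)
  (hcomap : (S.O v).comap (alpha2 M q : Fb (M * q) →+* Fb (M * q * q)) =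
    ringEA B hB hqM h2 h3 e)
  (huniq : ∀ Z' : ValuationSubring (Fb (M * q * q)),
    Z'.comap (alpha2 M q : Fb (M * q) →+* Fb (M * q * q)) = ringEA B hB hqM h2 h3 e →
      Z' = S.O v)
  (ψ : RatFunc (ResidueField B) →+* Ft v)
  (hψ : ∀ (y : ringEA B hB hqM h2 h3 e) (h : alpha2 M q (y : Fb (M * q)) ∈ S.O v),
    S.res v ⟨alpha2 M q (y : Fb (M * q)), h⟩ =
      ψ (resE (DtM B hB hqM) (gaugeA q B hB hqM) (admA B hB hqM h2 h3) e y))

include hcomap huniq hψ in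
/-- **The σ0 package of the vertical component `z e` at the fixed gauge** `gaugeA q = ϖ ^ (q - 1)`:
`σ`, `ζ₀` as in `GeoSigma.exists_tame_generator` (`ϖ := unifSDD q`). -/
theorem exists_mapsComp_pts_ringEA
    (hσ : σ ∈ B.inertiaSubgroupIn ℚ) {ζ₀ : Kb}
    (hσϖ : σ (unifSDD q ^ (q - 1)) = ζ₀ ^ (q - 1) * unifSDD q ^ (q - 1))
    (hprim : IsPrimitiveRoot (resOf B (ζ₀ ^ (q - 1))) (q + 1))
    (U₀ : Fb (M * q * q)) (hU₀ : galAut (M * q * q) σ • U₀ = U₀)
    {β ρ : ResidueField B} (hρ : ρ ≠ 0)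
    (hθ : U₀ / alpha2 M q (algebraMap Kb (Fb (M * q)) (gaugeA q B hB hqM e)) ∈ S.O v)
    {b Ut : Ft v} (hbψ : ψ (RatFunc.C β * RatFunc.X) = b)
    (hUt : S.res v ⟨U₀ / alpha2 M q (algebraMap Kb (Fb (M * q)) (gaugeA q B hB hqM e)), hθ⟩ = Ut)
    (hb : Transcendental (ResidueField B) b)
    (heq : b * Ut ^ q + b ^ 2 * Ut ^ (q - 1) = algebraMap (ResidueField B) (Ft v) ρ)
    (hgen : IntermediateField.adjoin (ResidueField B) {b, Ut} = ⊤) :
    haveI : CharP (ResidueField B) q :=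
      Fermat.Agent.Val.charP_residueField_of_liesOverPrime B hB
    ∃ a : Ft v ≃ₐ[ResidueField B] Ft v, MapsComp S (galAut (M * q * q) σ) v v a ∧
      a b = (resOf B (ζ₀ ^ (q - 1)))⁻¹ • b ∧ a Ut = (resOf B (ζ₀ ^ (q - 1)))⁻¹ • Ut ∧
      placeMap a (ptZ q hρ hb heq hgen) = ptZ q hρ hb heq hgen ∧
      placeMap a (ptI q hρ hb heq hgen) = ptI q hρ hb heq hgen ∧
      (∀ (hq2 : q ≠ 2) (c : ResidueField B) (hc : c ^ 2 = ρ),
        placeMap a (ptK q hq2 hρ hb heq hgen c hc) =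
          ptK q hq2 hρ hb heq hgen (-c) (neg_sq_eq hc)) ∧
      ∀ (_ : CharP (ResidueField B) 2)
        (heq₂ : b * Ut ^ 2 + b ^ 2 * Ut = algebraMap (ResidueField B) (Ft v) ρ),
        placeMap a (ptK₂ hρ hb heq₂ hgen) = ptK₂ hρ hb heq₂ hgen := by
  haveI : CharP (ResidueField B) q :=
    Fermat.Agent.Val.charP_residueField_of_liesOverPrime B hB
  exact exists_mapsComp_pts_ringE (DtM B hB hqM) (gaugeA q B hB hqM) (admA B hB hqM h2 h3) e S v
    hcomap huniq ψ hψ hσ (ζ := ζ₀ ^ (q - 1)) hσϖ hprim U₀ hU₀ hρ hθ hbψ hUt hb heq hgen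

end Fermat.Agent.BR3.VertSigmaMod
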