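import Mathlib
import Fermat.Agent.BR3.VertSigmaMod
import Fermat.Agent.BR3.SDD.Cases

/-!
# Program C (S36), node (I9-ze): the vertical clauses of `S''` as FAMILIES over the crossings

`X : SDD.CaseInput B Mid (Crossing …) KP Ft` the flat inputs of `S''` (any `Mid`, `KP`, `Ft`), with
the clauses of the vertical components `z e` at the fixed gauge `gaugeA q = ϖ ^ (q - 1)` given for
`(X.C (ze e)).O`, `(X.C (ze e)).res` (for `X.C = CAll … CZ` these are `(CZ e).O`, `(CZ e).res`):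

* `hcomap e`, `huniq e` : `(X.C (ze e)).O` is THE extension of `ringEA … e` along `α₂`;
* `ψ e : k(X) →+* Ft (ze e)` with `hψ e : res (α₂ y) = ψ e (resE y)`;
* generators `b e = ψ e (β_e X)`, `Ut e = res (U₀ e / α₂ (gaugeA e))` of `Ft (ze e)` with
  `b Ut ^ q + b ^ 2 Ut ^ (q - 1) = ρ_e` (`U₀ e` fixed by inertia: `U M q`, `Ug M q g_e`).

Then

* **`exists_aZe_family`** : for `σ`, `ζ₀` as in `GeoSigma.exists_tame_generator` a family
  `aZe e : Ft (ze e) ≃ₐ Ft (ze e)` with `hZe`, the action on the generators, `ptZ`, `ptI` fixed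
  (`hzW`, `hzT`), `ptK c ↦ ptK (-c)` (`hzK`, `q` odd), `ptK₂` fixed (`q = 2`): the vertical inputs of
  `EquivActsCases.tameProp_of_kinds`;
* **`hvert_family`** : the hypothesis `hvert` (G5) of `SDD.Modular.modelAt_of_cases(All)`,
  `e₂ = q + 1`.
-/

set_option autoImplicit false
set_option linter.unusedSectionVars false
set_option linter.unusedVariables false
set_option linter.style.haveILetI false
set_option synthInstance.maxHeartbeats 400000

noncomputable section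

namespace Fermat.Agent.BR3.VertSigmaFam

open Polynomial ModularCurve AlgebraicCurve IsLocalRing
open Fermat.Agent.X0 Fermat.Agent.Val Fermat.Agent.Red Fermat.Agent.Jac
open Fermat.Agent.BR.Circle Fermat.Agent.BR.S0 Fermat.Agent.BR.S0.RedModular
open Fermat.Agent.BR.S0.PointDict Fermat.Agent.BR.SS Fermat.Agent.BR2.Filt Fermat.Agent.BR.Final
open Fermat.Agent.BR.InertiaRed Fermat.Agent.BR.Refine Fermat.Agent.BR2.SetupOfData
open Fermat.Agent.BR3.FibreProd Fermat.Agent.BR3.FiltPerm Fermat.Agent.BR3.FiltMaps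
open Fermat.Agent.BR3.SRef Fermat.Agent.BR3.SRef.Modular Fermat.Agent.BR3.VertEquivSDD
open Fermat.Agent.BR3.VertPtsDef Fermat.Agent.BR3.VertPtsEquiv Fermat.Agent.BR3.PlaceIso
open Fermat.Agent.BR3.SDD.Modular Fermat.Agent.BR3.ThickSDDPlug Fermat.Agent.BR3.VertSigmaPts
open Fermat.Agent.BR3.VertSigmaMod Fermat.Agent.BR3.SDD

variable {M q : ℕ} [NeZero M] [hq : Fact q.Prime]

/-- shortcut instance (the search is slow) -/
local instance algResFtM6 (B : ValuationSubring Kb) :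
    Algebra (ResidueField B) (modularFunctionFieldFullC (ResidueField B) M) := inferInstance

variable (B : ValuationSubring Kb) (hB : B.LiesOverPrime q) (hqM : ¬ q ∣ M)
  [IsAlgClosed (ResidueField B)] (h2 : nuTwo M = 0) (h3 : nuThree M = 0)

variable {Mid KP : Type} {Ft : Comp Mid (Crossing (chartDataModular B hB hqM)) → Type}
  [∀ v, Field (Ft v)] [∀ v, Algebra (ResidueField B) (Ft v)]
  (X : CaseInput (F := Fb (M * q * q)) B Mid (Crossing (chartDataModular B hB hqM)) KP Ft)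
  (hcomap : ∀ e, ((X.C (ze e)).O).comap (alpha2 M q : Fb (M * q) →+* Fb (M * q * q)) =
    ringEA B hB hqM h2 h3 e)
  (huniq : ∀ e, ∀ Z' : ValuationSubring (Fb (M * q * q)),
    Z'.comap (alpha2 M q : Fb (M * q) →+* Fb (M * q * q)) = ringEA B hB hqM h2 h3 e →
      Z' = (X.C (ze e)).O)
  (ψ : ∀ e, RatFunc (ResidueField B) →+* Ft (ze e))
  (hψ : ∀ e, ∀ (y : ringEA B hB hqM h2 h3 e) (h : alpha2 M q (y : Fb (M * q)) ∈ (X.C (ze e)).O),
    (X.C (ze e)).res ⟨alpha2 M q (y : Fb (M * q)), h⟩ =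
      ψ e (resE (DtM B hB hqM) (gaugeA q B hB hqM) (admA B hB hqM h2 h3) e y))
  (U₀ : Crossing (chartDataModular B hB hqM) → Fb (M * q * q))
  {βf ρf : Crossing (chartDataModular B hB hqM) → ResidueField B} (hρ : ∀ e, ρf e ≠ 0)
  (hθ : ∀ e, U₀ e / alpha2 M q (algebraMap Kb (Fb (M * q)) (gaugeA q B hB hqM e)) ∈
    (X.C (ze e)).O)
  {b Ut : ∀ e, Ft (ze e)} (hbψ : ∀ e, ψ e (RatFunc.C (βf e) * RatFunc.X) = b e)
  (hUt : ∀ e, (X.C (ze e)).res
    ⟨U₀ e / alpha2 M q (algebraMap Kb (Fb (M * q)) (gaugeA q B hB hqM e)), hθ e⟩ = Ut e)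
  (hb : ∀ e, Transcendental (ResidueField B) (b e))
  (heq : ∀ e, b e * Ut e ^ q + b e ^ 2 * Ut e ^ (q - 1) =
    algebraMap (ResidueField B) (Ft (ze e)) (ρf e))
  (hgen : ∀ e, IntermediateField.adjoin (ResidueField B) {b e, Ut e} = ⊤)

include hcomap huniq hψ hbψ hUt in
/-- **The vertical inputs of `EquivActsCases.tameProp_of_kinds`** (`aZe`, `hZe`, `hzW`, `hzT`,
`hzK`) for `σ`, `ζ₀` as in `GeoSigma.exists_tame_generator` (`ϖ := unifSDD q`). -/
theorem exists_aZe_family {σ : GQ} (hσ : σ ∈ B.inertiaSubgroupIn ℚ) {ζ₀ : Kb}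
    (hσϖ : σ (unifSDD q ^ (q - 1)) = ζ₀ ^ (q - 1) * unifSDD q ^ (q - 1))
    (hprim : IsPrimitiveRoot (resOf B (ζ₀ ^ (q - 1))) (q + 1))
    (hU₀ : ∀ e, galAut (M * q * q) σ • U₀ e = U₀ e) :
    haveI : CharP (ResidueField B) q :=
      Fermat.Agent.Val.charP_residueField_of_liesOverPrime B hB
    ∃ aZe : ∀ e, Ft (ze e) ≃ₐ[ResidueField B] Ft (ze e),
      (∀ e, MapsComp X.toInput.setup (galAut (M * q * q) σ) (ze e) (ze e) (aZe e)) ∧
      (∀ e, aZe e (b e) = (resOf B (ζ₀ ^ (q - 1)))⁻¹ • b e) ∧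
      (∀ e, aZe e (Ut e) = (resOf B (ζ₀ ^ (q - 1)))⁻¹ • Ut e) ∧
      (∀ e, placeMap (aZe e) (ptZ q (hρ e) (hb e) (heq e) (hgen e)) =
        ptZ q (hρ e) (hb e) (heq e) (hgen e)) ∧
      (∀ e, placeMap (aZe e) (ptI q (hρ e) (hb e) (heq e) (hgen e)) =
        ptI q (hρ e) (hb e) (heq e) (hgen e)) ∧
      (∀ (hq2 : q ≠ 2) (e) (c : ResidueField B) (hc : c ^ 2 = ρf e),
        placeMap (aZe e) (ptK q hq2 (hρ e) (hb e) (heq e) (hgen e) c hc) =
          ptK q hq2 (hρ e) (hb e) (heq e) (hgen e) (-c) (neg_sq_eq hc)) ∧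
      ∀ (_ : CharP (ResidueField B) 2) (e)
        (heq₂ : b e * Ut e ^ 2 + b e ^ 2 * Ut e =
          algebraMap (ResidueField B) (Ft (ze e)) (ρf e)),
        placeMap (aZe e) (ptK₂ (hρ e) (hb e) heq₂ (hgen e)) =
          ptK₂ (hρ e) (hb e) heq₂ (hgen e) := by
  haveI : CharP (ResidueField B) q :=
    Fermat.Agent.Val.charP_residueField_of_liesOverPrime B hB
  have key := fun e => exists_mapsComp_pts_ringEA B hB hqM h2 h3 e X.toInput.setup (ze e)
    (hcomap e) (huniq e) (ψ e) (hψ e) hσ hσϖ hprim (U₀ e) (hU₀ e) (hρ e) (hθ e) (hbψ e) (hUt e)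
    (hb e) (heq e) (hgen e)
  choose aZe h1 h2' h3' h4 h5 h6 h7 using key
  exact ⟨aZe, h1, h2', h3', h4, h5, fun hq2 e c hc => h6 e hq2 c hc,
    fun i e heq₂ => h7 e i heq₂⟩

include hcomap huniq hψ hbψ hUt hρ hb heq hgen in
/-- **The hypothesis `hvert` (G5) of `SDD.Modular.modelAt_of_cases(All)`**, `e₂ = q + 1`. -/
theorem hvert_family
    (hU₀ : ∀ e, ∀ s ∈ B.inertiaSubgroupIn ℚ, galAut (M * q * q) s • U₀ e = U₀ e) :
    ∀ e : Crossing (chartDataModular B hB hqM), ∃ s ∈ B.inertiaSubgroupIn ℚ,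
      ∃ a : Ft (ze e) ≃ₐ[ResidueField B] Ft (ze e),
        MapsComp X.toInput.setup (galAut (M * q * q) s) (ze e) (ze e) a ∧
        ∀ x : Pic0 (ResidueField B) (Ft (ze e)),
          SemilinearAut.ofAlgAut a • x = x → (q + 1) • x = 0 := by
  intro e
  have hb' : Transcendental (ResidueField B) (ψ e (RatFunc.C (βf e) * RatFunc.X)) := by
    rw [hbψ e]; exact hb e
  have heq' : ψ e (RatFunc.C (βf e) * RatFunc.X) *
        X.toInput.setup.res (ze e)
          ⟨U₀ e / alpha2 M q (algebraMap Kb (Fb (M * q)) (gaugeA q B hB hqM e)), hθ e⟩ ^ q +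
      ψ e (RatFunc.C (βf e) * RatFunc.X) ^ 2 *
        X.toInput.setup.res (ze e)
          ⟨U₀ e / alpha2 M q (algebraMap Kb (Fb (M * q)) (gaugeA q B hB hqM e)), hθ e⟩ ^
            (q - 1) = algebraMap (ResidueField B) (Ft (ze e)) (ρf e) := by
    rw [hbψ e]
    exact (congrArg (fun t => b e * t ^ q + b e ^ 2 * t ^ (q - 1)) (hUt e)).trans (heq e)
  have hgen' : IntermediateField.adjoin (ResidueField B)
      {ψ e (RatFunc.C (βf e) * RatFunc.X),
        X.toInput.setup.res (ze e)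
          ⟨U₀ e / alpha2 M q (algebraMap Kb (Fb (M * q)) (gaugeA q B hB hqM e)), hθ e⟩} = ⊤ := by
    rw [hbψ e]
    exact (congrArg (fun t => IntermediateField.adjoin (ResidueField B) {b e, t})
      (hUt e)).trans (hgen e)
  exact exists_mapsComp_kill_ringE (DtM B hB hqM) (gaugeA q B hB hqM) (admA B hB hqM h2 h3) e
    X.toInput.setup (ze e) (hcomap e) (huniq e) (ψ e) (hψ e) (gaugeA_pow B hB hqM e) (U₀ e)
    (hU₀ e) (hρ e) (hθ e) hb' heq' hgen'

end Fermat.Agent.BR3.VertSigmaFam
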