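import Mathlib
import Fermat.Agent.BR3.VertSigmaFam
import Fermat.Agent.BR3.SDD.Fields

/-!
# Program C (S36), node (I9-ze): the vertical clauses of `S''` for `FZ e = k(T)[Ũ]/(vertBar)`

`BR3/VertSigmaFam` for `Ft := SDD.FtOf FH FM FZ` with
`FZ e := AdjoinRoot (vertBar q (βf e) (ρf e))` (any `FH`, `FM`; e.g. `SDD.Modular.FtAll`), the
clauses of the vertical components being given in the LITERAL shape of
`VertAllFinal.exists_vertComponent_ss_gauge` at the gauge `gaugeA q` for `(X.C (ze e)).O`,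
`(X.C (ze e)).res` (`hcomap`, `huniq`, `hcompat` with `AdjoinRoot.of`, `hθ`, `hroot` with
`AdjoinRoot.root`):

* **`hvert_bar`** : the hypothesis `hvert` (G5) of `SDD.Modular.modelAt_of_cases(All)`, `e₂ = q + 1`;
* **`exists_aZe_bar`** : for `σ`, `ζ₀` as in `GeoSigma.exists_tame_generator`: `aZe e` with `hZe`,
  `placeMap (aZe e) ptZBar = ptZBar`, `placeMap (aZe e) ptIBar = ptIBar`,
  `placeMap (aZe e) (ptKBar c) = ptKBar (-c)` (`q` odd), and the Kummer point fixed for `q = 2`
  (generic `ptK₂` on `AdjoinRoot (vertBar q β ρ)`, any proof of the `q = 2` form of the equation).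
-/

set_option autoImplicit false
set_option linter.unusedSectionVars false
set_option linter.unusedVariables false
set_option linter.style.haveILetI false
set_option synthInstance.maxHeartbeats 400000

noncomputable section

/- S36 build-time patch: file-local shortcut instances. They only shorten instance search;
each is the instance that the search finds anyway (reducible, same terms after unfolding). -/
local instance (priority := 100000) Fermat.Agent.BR3.FastInst.instAlgFullC_VertSigmaBar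
    {k : Type*} [Field k] (N : ℕ) :
    Algebra k ↥(ModularCurve.modularFunctionFieldFullC k N) := inferInstance
local instance (priority := 100000) Fermat.Agent.BR3.FastInst.instFieldFullC_VertSigmaBar
    {k : Type*} [Field k] (N : ℕ) :
    Field ↥(ModularCurve.modularFunctionFieldFullC k N) := inferInstance
local instance (priority := 100000) Fermat.Agent.BR3.FastInst.instAlgLaurent_VertSigmaBar
    {k : Type*} [Field k] : Algebra k (LaurentSeries k) := inferInstance


namespace Fermat.Agent.BR3.VertSigmaBar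

open Polynomial ModularCurve AlgebraicCurve IsLocalRing
open Fermat.Agent.X0 Fermat.Agent.Val Fermat.Agent.Red Fermat.Agent.Jac
open Fermat.Agent.BR.Circle Fermat.Agent.BR.S0 Fermat.Agent.BR.S0.RedModular
open Fermat.Agent.BR.S0.PointDict Fermat.Agent.BR.SS Fermat.Agent.BR2.Filt Fermat.Agent.BR.Final
open Fermat.Agent.BR.InertiaRed Fermat.Agent.BR.Refine Fermat.Agent.BR2.SetupOfData
open Fermat.Agent.BR3.FibreProd Fermat.Agent.BR3.FiltPerm Fermat.Agent.BR3.FiltMaps
open Fermat.Agent.BR3.SRef Fermat.Agent.BR3.SRef.Modular Fermat.Agent.BR3.VertEquivSDD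
open Fermat.Agent.BR3.VertPtsDef Fermat.Agent.BR3.VertPtsEquiv Fermat.Agent.BR3.PlaceIso
open Fermat.Agent.BR3.SDD.Modular Fermat.Agent.BR3.ThickSDDPlug Fermat.Agent.BR3.VertSigmaPts
open Fermat.Agent.BR3.VertSigmaMod Fermat.Agent.BR3.SDD Fermat.Agent.BR3.VertSigmaFam
open Fermat.Agent.BR3.VertResidue Fermat.Agent.BR3.VertResField

variable {M q : ℕ} [NeZero M] [hq : Fact q.Prime]

/-- shortcut instance (the search is slow) -/
local instance algResFtM7 (B : ValuationSubring Kb) :
    Algebra (ResidueField B) (modularFunctionFieldFullC (ResidueField B) M) := inferInstance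

/-- shortcut instance (the search is slow) -/
local instance (priority := 100000) algKbFbBar (N : ℕ) : Algebra Kb (Fb N) := inferInstance

/-- shortcut instance (the search is slow) -/
local instance (priority := 100000) algResAdjoinRootVertBar (B : ValuationSubring Kb)
    (β ρ : ResidueField B) [Fact (Irreducible (vertBar q β ρ))] :
    Algebra (ResidueField B) (AdjoinRoot (vertBar q β ρ)) := inferInstance

variable (B : ValuationSubring Kb) (hB : B.LiesOverPrime q) (hqM : ¬ q ∣ M)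
  [IsAlgClosed (ResidueField B)] (h2 : nuTwo M = 0) (h3 : nuThree M = 0)

variable {Mid KP : Type} {FH : Bool → Type} {FM : Mid → Type}
  [∀ b, Field (FH b)] [∀ i, Field (FM i)]
  [∀ b, Algebra (ResidueField B) (FH b)] [∀ i, Algebra (ResidueField B) (FM i)]
  {βf ρf : Crossing (chartDataModular B hB hqM) → ResidueField B}
  [hP : ∀ e, Fact (Irreducible (vertBar q (βf e) (ρf e)))]
  (hβ : ∀ e, βf e ≠ 0) (hρ : ∀ e, ρf e ≠ 0)
  (X : CaseInput (F := Fb (M * q * q)) B Mid (Crossing (chartDataModular B hB hqM)) KP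
    (FtOf FH FM fun e => AdjoinRoot (vertBar q (βf e) (ρf e))))
  (hcomap : ∀ e, ((X.C (ze e)).O).comap (alpha2 M q : Fb (M * q) →+* Fb (M * q * q)) =
    ringEA B hB hqM h2 h3 e)
  (huniq : ∀ e, ∀ Z' : ValuationSubring (Fb (M * q * q)),
    Z'.comap (alpha2 M q : Fb (M * q) →+* Fb (M * q * q)) = ringEA B hB hqM h2 h3 e →
      Z' = (X.C (ze e)).O)
  (hcompat : ∀ e, ∀ (y : ringEA B hB hqM h2 h3 e)
    (h : alpha2 M q (y : Fb (M * q)) ∈ (X.C (ze e)).O),
    (X.C (ze e)).res ⟨alpha2 M q (y : Fb (M * q)), h⟩ =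
      AdjoinRoot.of (vertBar q (βf e) (ρf e))
        (resE (DtM B hB hqM) (gaugeA q B hB hqM) (admA B hB hqM h2 h3) e y))
  (U₀ : Crossing (chartDataModular B hB hqM) → Fb (M * q * q))
  (hθ : ∀ e, U₀ e / alpha2 M q (algebraMap Kb (Fb (M * q)) (gaugeA q B hB hqM e)) ∈
    (X.C (ze e)).O)
  (hroot : ∀ e, (X.C (ze e)).res
    ⟨U₀ e / alpha2 M q (algebraMap Kb (Fb (M * q)) (gaugeA q B hB hqM e)), hθ e⟩ =
      AdjoinRoot.root (vertBar q (βf e) (ρf e)))

include hβ hρ hcomap huniq hcompat hroot in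
/-- **The hypothesis `hvert` (G5) of `SDD.Modular.modelAt_of_cases(All)`**, `e₂ = q + 1`, for
`FZ e = AdjoinRoot (vertBar q (βf e) (ρf e))`. -/
theorem hvert_bar
    (hU₀ : ∀ e, ∀ s ∈ B.inertiaSubgroupIn ℚ, galAut (M * q * q) s • U₀ e = U₀ e) :
    ∀ e : Crossing (chartDataModular B hB hqM), ∃ s ∈ B.inertiaSubgroupIn ℚ,
      ∃ a : AdjoinRoot (vertBar q (βf e) (ρf e)) ≃ₐ[ResidueField B]
          AdjoinRoot (vertBar q (βf e) (ρf e)),
        MapsComp X.toInput.setup (galAut (M * q * q) s) (ze e) (ze e) a ∧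
        ∀ x : Pic0 (ResidueField B) (AdjoinRoot (vertBar q (βf e) (ρf e))),
          SemilinearAut.ofAlgAut a • x = x → (q + 1) • x = 0 :=
  hvert_family B hB hqM h2 h3 X hcomap huniq
    (fun e => AdjoinRoot.of (vertBar q (βf e) (ρf e))) hcompat U₀ hρ hθ (fun e => rfl) hroot
    (fun e => vertBar_hb (q := q) (ρ := ρf e) (hβ e)) (fun e => vertBar_heq (hβ e))
    (fun e => vertBar_hgen (q := q) (ρ := ρf e) (hβ e)) hU₀

set_option maxHeartbeats 1000000 in
include hcomap huniq hcompat hroot in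
/-- **The vertical inputs of `EquivActsCases.tameProp_of_kinds`** for
`FZ e = AdjoinRoot (vertBar q (βf e) (ρf e))` and the special points `ptZBar` (`zW e`), `ptIBar`
(`zT e`), `ptKBar c` (`zK e s`). -/
theorem exists_aZe_bar [CharP (ResidueField B) q] {σ : GQ} (hσ : σ ∈ B.inertiaSubgroupIn ℚ)
    {ζ₀ : Kb}
    (hσϖ : σ (unifSDD q ^ (q - 1)) = ζ₀ ^ (q - 1) * unifSDD q ^ (q - 1))
    (hprim : IsPrimitiveRoot (resOf B (ζ₀ ^ (q - 1))) (q + 1))
    (hU₀ : ∀ e, galAut (M * q * q) σ • U₀ e = U₀ e) :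
    ∃ aZe : ∀ e, AdjoinRoot (vertBar q (βf e) (ρf e)) ≃ₐ[ResidueField B]
        AdjoinRoot (vertBar q (βf e) (ρf e)),
      (∀ e, MapsComp X.toInput.setup (galAut (M * q * q) σ) (ze e) (ze e) (aZe e)) ∧
      (∀ e, aZe e (AdjoinRoot.of (vertBar q (βf e) (ρf e)) (RatFunc.C (βf e) * RatFunc.X)) =
        (resOf B (ζ₀ ^ (q - 1)))⁻¹ •
          AdjoinRoot.of (vertBar q (βf e) (ρf e)) (RatFunc.C (βf e) * RatFunc.X)) ∧
      (∀ e, aZe e (AdjoinRoot.root (vertBar q (βf e) (ρf e))) =
        (resOf B (ζ₀ ^ (q - 1)))⁻¹ • AdjoinRoot.root (vertBar q (βf e) (ρf e))) ∧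
      (∀ e, placeMap (aZe e) (ptZBar q (hβ e) (hρ e)) = ptZBar q (hβ e) (hρ e)) ∧
      (∀ e, placeMap (aZe e) (ptIBar q (hβ e) (hρ e)) = ptIBar q (hβ e) (hρ e)) ∧
      (∀ (hq2 : q ≠ 2) (e) (c : ResidueField B) (hc : c ^ 2 = ρf e),
        placeMap (aZe e) (ptKBar q hq2 (hβ e) (hρ e) c hc) =
          ptKBar q hq2 (hβ e) (hρ e) (-c) (neg_sq_eq hc)) ∧
      ∀ (_ : CharP (ResidueField B) 2) (e)
        (heq₂ : AdjoinRoot.of (vertBar q (βf e) (ρf e)) (RatFunc.C (βf e) * RatFunc.X) *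
            AdjoinRoot.root (vertBar q (βf e) (ρf e)) ^ 2 +
          AdjoinRoot.of (vertBar q (βf e) (ρf e)) (RatFunc.C (βf e) * RatFunc.X) ^ 2 *
            AdjoinRoot.root (vertBar q (βf e) (ρf e)) =
          algebraMap (ResidueField B) (AdjoinRoot (vertBar q (βf e) (ρf e))) (ρf e)),
        placeMap (aZe e) (ptK₂ (hρ e) (vertBar_hb (q := q) (ρ := ρf e) (hβ e)) heq₂
            (vertBar_hgen (q := q) (ρ := ρf e) (hβ e))) =
          ptK₂ (hρ e) (vertBar_hb (q := q) (ρ := ρf e) (hβ e)) heq₂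
            (vertBar_hgen (q := q) (ρ := ρf e) (hβ e)) := by
  have hchar : (Fermat.Agent.Val.charP_residueField_of_liesOverPrime B hB :
      CharP (ResidueField B) q) = ‹CharP (ResidueField B) q› := Subsingleton.elim _ _
  have key := exists_aZe_family B hB hqM h2 h3 X hcomap huniq
    (fun e => AdjoinRoot.of (vertBar q (βf e) (ρf e))) hcompat U₀ hρ hθ (fun e => rfl) hroot
    (fun e => vertBar_hb (q := q) (ρ := ρf e) (hβ e)) (fun e => vertBar_heq (hβ e))
    (fun e => vertBar_hgen (q := q) (ρ := ρf e) (hβ e)) hσ hσϖ hprim hU₀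
  rw [hchar] at key
  exact key

end Fermat.Agent.BR3.VertSigmaBar
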