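import Mathlib
import Fermat.Agent.BR3.VertSigmaBar
import Fermat.Agent.BR3.VertPtsU

/-!
# Program C (S36), node (I9-ze): the Kummer points of `z e` under the tame generator, uniformly in `q`

`BR3/VertPtsU` (helper20): `KPq q`, `rev q = Fin.revPerm`, `rootsK`, the uniform Kummer points
`ptKU q … c hc` (`= ptK c` for `q` odd, `= ptK₂` for `q = 2`) and the family `ptKFam q hβ hρ s` on
`AdjoinRoot (vertBar q β ρ)`.

* `ptKU_congr` : `ptKU` only depends on the root `c`;
* `placeMap_ptKU` : `a b = ξ b`, `a U = ξ U`, `ξ` a primitive `(q + 1)`-th root of unity ⇒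
  `placeMap a (ptKU c) = ptKU (-c)`, EVERY prime `q`;
* `placeMap_ptKFam` : `placeMap a (ptKFam s) = ptKFam (rev q s)`;
* **`exists_aZe_fam`** : `VertSigmaBar.exists_aZe_bar` with the Kummer clause in the uniform form
  `placeMap (aZe e) (ptKFam q (hβ e) (hρ e) s) = ptKFam q (hβ e) (hρ e) (rev q s)` = the inputs `aZe`,
  `hZe`, `hzW`, `hzT`, `hzK` of `EquivActsCases.tameProp_of_kinds` for `zW e := ptZBar`,
  `zT e := ptIBar`, `zK e := ptKFam`, `KP := KPq q`, `p e := rev q`.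
-/

set_option autoImplicit false
set_option linter.unusedSectionVars false
set_option linter.unusedVariables false
set_option linter.style.haveILetI false
set_option synthInstance.maxHeartbeats 400000

noncomputable section

namespace Fermat.Agent.BR3.VertSigmaU

open Polynomial ModularCurve AlgebraicCurve IsLocalRing
open Fermat.Agent.Red Fermat.Agent.BR3.VertPts Fermat.Agent.BR3.VertPtsDef
open Fermat.Agent.BR3.VertPtsEquiv Fermat.Agent.BR3.PlaceIso Fermat.Agent.BR3.VertPtsU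

section Generic

variable {k L : Type*} [Field k] [Field L] [Algebra k L] [IsAlgClosed k]
variable (q : ℕ) [hq : Fact q.Prime] [CharP k q] {ρ : k} {b U : L}
  (hρ : ρ ≠ 0) (hb : Transcendental k b)
  (heq : b * U ^ q + b ^ 2 * U ^ (q - 1) = algebraMap k L ρ)
  (hgen : IntermediateField.adjoin k {b, U} = ⊤)

theorem ptKU_congr {c c' : k} (hc : c ^ 2 = ρ) (hc' : c' ^ 2 = ρ) (h : c = c') :
    ptKU q hρ hb heq hgen c hc = ptKU q hρ hb heq hgen c' hc' := by
  subst h; rfl

variable {ξ : k} {a : L ≃ₐ[k] L} (hab : a b = ξ • b) (haU : a U = ξ • U)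
  {c : k} (hc : c ^ 2 = ρ)

include hab haU in
/-- **The tame generator maps the Kummer point of `c` to the Kummer point of `-c`**, every prime
`q` (for `q = 2`: `-c = c`, the single Kummer point is fixed). -/
theorem placeMap_ptKU (hprim : IsPrimitiveRoot ξ (q + 1)) :
    placeMap a (ptKU q hρ hb heq hgen c hc) = ptKU q hρ hb heq hgen (-c) (neg_sq_eq hc) := by
  have hξ : ξ ≠ 0 := hprim.ne_zero (Nat.succ_ne_zero q)
  by_cases hq2 : q = 2
  · rw [← eq_ptKU_iff q hρ hb heq hgen (neg_sq_eq hc)]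
    refine ⟨?_, fun h => absurd hq2 h⟩
    have h1 := ord_placeMap a (ptKU q hρ hb heq hgen c hc) U
    rw [haU, ord_smul_const _ hξ] at h1
    rw [h1]
    exact ord_U_ptKU_pos q hρ hb heq hgen hc
  · rw [ptKU_eq_ptK q hρ hb heq hgen hc hq2, ptKU_eq_ptK q hρ hb heq hgen (neg_sq_eq hc) hq2]
    exact placeMap_ptK_of_primitive q hq2 hρ hb heq hgen hc hab haU hprim

end Generic

section VertBar

open Fermat.Agent.BR3.VertResidue Fermat.Agent.BR3.VertResField

variable {k : Type*} [Field k] [IsAlgClosed k]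
variable (q : ℕ) [hq : Fact q.Prime] [CharP k q] {β ρ : k}
  [hP : Fact (Irreducible (vertBar q β ρ))] (hβ : β ≠ 0) (hρ : ρ ≠ 0)
  {ξ : k} {a : AdjoinRoot (vertBar q β ρ) ≃ₐ[k] AdjoinRoot (vertBar q β ρ)}
  (hab : a (AdjoinRoot.of (vertBar q β ρ) (RatFunc.C β * RatFunc.X)) =
    ξ • AdjoinRoot.of (vertBar q β ρ) (RatFunc.C β * RatFunc.X))
  (haU : a (AdjoinRoot.root (vertBar q β ρ)) = ξ • AdjoinRoot.root (vertBar q β ρ))

include hab haU in
/-- **The tame generator acts on the Kummer points of `z e` by the reversal of the index**, every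
prime `q`. -/
theorem placeMap_ptKFam (hprim : IsPrimitiveRoot ξ (q + 1)) (s : KPq q) :
    placeMap a (ptKFam q hβ hρ s) = ptKFam q hβ hρ (rev q s) := by
  unfold ptKFam
  rw [placeMap_ptKU q hρ _ _ _ hab haU (rootsK_sq q ρ s) hprim]
  exact ptKU_congr q hρ _ _ _ _ _ (rootsK_rev q ρ s).symm

end VertBar

section Family

open Fermat.Agent.X0 Fermat.Agent.Val Fermat.Agent.Jac
open Fermat.Agent.BR.Circle Fermat.Agent.BR.S0 Fermat.Agent.BR.S0.RedModular
open Fermat.Agent.BR.S0.PointDict Fermat.Agent.BR.SS Fermat.Agent.BR2.Filt Fermat.Agent.BR.Final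
open Fermat.Agent.BR.InertiaRed Fermat.Agent.BR.Refine Fermat.Agent.BR2.SetupOfData
open Fermat.Agent.BR3.FibreProd Fermat.Agent.BR3.FiltPerm Fermat.Agent.BR3.FiltMaps
open Fermat.Agent.BR3.SRef Fermat.Agent.BR3.SRef.Modular Fermat.Agent.BR3.VertEquivSDD
open Fermat.Agent.BR3.SDD.Modular Fermat.Agent.BR3.ThickSDDPlug
open Fermat.Agent.BR3.SDD Fermat.Agent.BR3.VertSigmaBar
open Fermat.Agent.BR3.VertResidue Fermat.Agent.BR3.VertResField

variable {M q : ℕ} [NeZero M] [hq : Fact q.Prime]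

/-- shortcut instance (the search is slow) -/
local instance algResFtM8 (B : ValuationSubring Kb) :
    Algebra (ResidueField B) (modularFunctionFieldFullC (ResidueField B) M) := inferInstance

/-- shortcut instance (the search is slow) -/
local instance (priority := 100000) algKbFbU (N : ℕ) : Algebra Kb (Fb N) := inferInstance

/-- shortcut instance (the search is slow) -/
local instance (priority := 100000) algResAdjoinRootVertBarU (B : ValuationSubring Kb)
    (β ρ : ResidueField B) [Fact (Irreducible (vertBar q β ρ))] :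
    Algebra (ResidueField B) (AdjoinRoot (vertBar q β ρ)) := inferInstance

variable (B : ValuationSubring Kb) (hB : B.LiesOverPrime q) (hqM : ¬ q ∣ M)
  [IsAlgClosed (ResidueField B)] (h2 : nuTwo M = 0) (h3 : nuThree M = 0)

variable {Mid KP : Type} {FH : Bool → Type} {FM : Mid → Type}
  [∀ b, Field (FH b)] [∀ i, Field (FM i)]
  [∀ b, Algebra (ResidueField B) (FH b)] [∀ i, Algebra (ResidueField B) (FM i)]
  {βf ρf : Crossing (chartDataModular B hB hqM) → ResidueField B}
  [hP : ∀ e, Fact (Irreducible (vertBar q (βf e) (ρf e)))]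
  (hβ : ∀ e, βf e ≠ 0) (hρ : ∀ e, ρf e ≠ 0)
  (X : CaseInput (F := Fb (M * q * q)) B Mid (Crossing (chartDataModular B hB hqM)) KP
    (FtOf FH FM fun e => AdjoinRoot (vertBar q (βf e) (ρf e))))
  (hcomap : ∀ e, ((X.C (ze e)).O).comap (alpha2 M q : Fb (M * q) →+* Fb (M * q * q)) =
    ringEA B hB hqM h2 h3 e)
  (huniq : ∀ e, ∀ Z' : ValuationSubring (Fb (M * q * q)),
    Z'.comap (alpha2 M q : Fb (M * q) →+* Fb (M * q * q)) = ringEA B hB hqM h2 h3 e →
      Z' = (X.C (ze e)).O)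
  (hcompat : ∀ e, ∀ (y : ringEA B hB hqM h2 h3 e)
    (h : alpha2 M q (y : Fb (M * q)) ∈ (X.C (ze e)).O),
    (X.C (ze e)).res ⟨alpha2 M q (y : Fb (M * q)), h⟩ =
      AdjoinRoot.of (vertBar q (βf e) (ρf e))
        (resE (DtM B hB hqM) (gaugeA q B hB hqM) (admA B hB hqM h2 h3) e y))
  (U₀ : Crossing (chartDataModular B hB hqM) → Fb (M * q * q))
  (hθ : ∀ e, U₀ e / alpha2 M q (algebraMap Kb (Fb (M * q)) (gaugeA q B hB hqM e)) ∈
    (X.C (ze e)).O)
  (hroot : ∀ e, (X.C (ze e)).res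
    ⟨U₀ e / alpha2 M q (algebraMap Kb (Fb (M * q)) (gaugeA q B hB hqM e)), hθ e⟩ =
      AdjoinRoot.root (vertBar q (βf e) (ρf e)))

set_option maxHeartbeats 1000000 in
include hcomap huniq hcompat hroot in
/-- **The vertical inputs of `EquivActsCases.tameProp_of_kinds`, uniformly in `q`**:
`zW e := ptZBar`, `zT e := ptIBar`, `zK e := ptKFam`, `KP := KPq q`, `p e := rev q`. -/
theorem exists_aZe_fam [CharP (ResidueField B) q] {σ : GQ} (hσ : σ ∈ B.inertiaSubgroupIn ℚ)
    {ζ₀ : Kb}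
    (hσϖ : σ (unifSDD q ^ (q - 1)) = ζ₀ ^ (q - 1) * unifSDD q ^ (q - 1))
    (hprim : IsPrimitiveRoot (resOf B (ζ₀ ^ (q - 1))) (q + 1))
    (hU₀ : ∀ e, galAut (M * q * q) σ • U₀ e = U₀ e) :
    ∃ aZe : ∀ e, AdjoinRoot (vertBar q (βf e) (ρf e)) ≃ₐ[ResidueField B]
        AdjoinRoot (vertBar q (βf e) (ρf e)),
      (∀ e, MapsComp X.toInput.setup (galAut (M * q * q) σ) (ze e) (ze e) (aZe e)) ∧
      (∀ e, placeMap (aZe e) (ptZBar q (hβ e) (hρ e)) = ptZBar q (hβ e) (hρ e)) ∧
      (∀ e, placeMap (aZe e) (ptIBar q (hβ e) (hρ e)) = ptIBar q (hβ e) (hρ e)) ∧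
      ∀ e (s : KPq q), placeMap (aZe e) (ptKFam q (hβ e) (hρ e) s) =
        ptKFam q (hβ e) (hρ e) (rev q s) := by
  obtain ⟨aZe, hZe, hab, haU, hzW, hzT, -, -⟩ :=
    exists_aZe_bar B hB hqM h2 h3 hβ hρ X hcomap huniq hcompat U₀ hθ hroot hσ hσϖ hprim hU₀
  exact ⟨aZe, hZe, hzW, hzT, fun e s =>
    placeMap_ptKFam q (hβ e) (hρ e) (hab e) (haU e) hprim.inv s⟩

end Family

end Fermat.Agent.BR3.VertSigmaU
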