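import Mathlib
import Fermat.Agent.BR3.SplitModularTw
import Fermat.Agent.BR3.SubAnnChart.ModularRef
import Fermat.Agent.BR3.SplitNode.Mod

/-!
# Program C (S36), node (N3-INST), ref-B (helper19): the levels of the INNER node of `S'ref`
against main's levels — the inner twin of `BR3/SplitModularRef.lean`

`Dt := modularData_final B hB hqM` (main's data of `S'`), `b₀` a family of gauges with
`hadm : ∀ e, (inputs Dt).adm e (b₀ e)`.  helper5's levels of the inner node of
`S'ref = srefM Dt b₀ hadm` at the crossing `e` (`SubAnnChart.levelsM B hB hqM b₀ hadm (inner … e)`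
= helper16's `innerLevelsRef`) are `innerRef B hB hqM b₀ hadm e`; with
`Lf := annulusLevels_modular_final B hB hqM (nonempty_crossing _) e` and the index map
`Subtype.val`:

* `innerRef_le` (the old level ring is contained in the new one), `innerRef_u`
  (`= (b₀ e)⁻¹ • Lf.u`), `innerRef_v` (`= Lf.v`), `innerRef_ε₀`, `innerRef_thick`
  (`= (b₀ e)⁻¹ * Lf.thick`), `innerRef_K'`, `innerRef_ϖ` (all `rfl`), `innerRef_rho_mem`,
  `innerRef_rho_ne_zero`, `innerRef_hT`, `innerRef_hRK`, `hK0_innerRef`;
* `levelsM_inner` (helper5's `levelsM … (inner e)` IS `innerRef`), `hg_of_isGaugeB` (the critical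
  gauge along `b`: `|b₀ e|^(q+1) = |thick|^q`);
* `beta2_mem_FKs`, `innerRef_hRFK` (`hRFK` of `SplitModularTw.sheetHypAt_frame` along `β₂`);
* the same for helper16's `SplitNode.levelsInB B hB hqM h2 h3 e` (`levelsInB_eq` : `rfl`;
  `levelsInB_le`, `_v`, `_ε₀`, `_rho_mem`, `_gauge`, `_hT`, `_hRK`, `_hRFK`, `hK0_levelsInB`).

These are the fields of helper29's `InnerHypB` (`BR3/SplitModularB.lean`), as separate lemmas.
-/

set_option autoImplicit false
set_option linter.unusedSectionVars false
set_option linter.style.haveILetI false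
set_option synthInstance.maxHeartbeats 400000
set_option maxHeartbeats 4000000

noncomputable section

/- S36 build-time patch: file-local shortcut instances. They only shorten instance search;
each is the instance that the search finds anyway (reducible, same terms after unfolding). -/
local instance (priority := 100000) Fermat.Agent.BR3.FastInst.instAlgFullC_SplitModularRefB
    {k : Type*} [Field k] (N : ℕ) :
    Algebra k ↥(ModularCurve.modularFunctionFieldFullC k N) := inferInstance
local instance (priority := 100000) Fermat.Agent.BR3.FastInst.instFieldFullC_SplitModularRefB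
    {k : Type*} [Field k] (N : ℕ) :
    Field ↥(ModularCurve.modularFunctionFieldFullC k N) := inferInstance
local instance (priority := 100000) Fermat.Agent.BR3.FastInst.instAlgLaurent_SplitModularRefB
    {k : Type*} [Field k] : Algebra k (LaurentSeries k) := inferInstance


namespace Fermat.Agent.BR3.SplitModularRefB

open ModularCurve AlgebraicCurve IsLocalRing
open Fermat.Agent.X0 Fermat.Agent.Val Fermat.Agent.Red
open Fermat.Agent.BR.Centre Fermat.Agent.BR.SS Fermat.Agent.BR.Refine
open Fermat.Agent.BR.S0 Fermat.Agent.BR.S0.RedModular Fermat.Agent.BR.S0.PointDict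
open Fermat.Agent.BR.Inst.AnnulusInstFinal Fermat.Agent.BR.Inst.FKCover Fermat.Agent.BR.Final
open Fermat.Agent.BR2.SetupOfData Fermat.Agent.BR3.CircleN Fermat.Agent.BR3.SRef
open Fermat.Agent.BR3.SRef.Modular Fermat.Agent.BR3.SubAnnPlaces Fermat.Agent.BR3.SubAnnChart
open Fermat.Agent.BR3.SplitModular Fermat.Agent.BR3.SplitModularTw
open Fermat.Agent.BR3.SplitLevels Fermat.Agent.BR3.SplitLevel Fermat.Agent.BR3.FibreProd
open Fermat.Agent.BR.S0.ThickFinal Fermat.Agent.BR3.CoverSmooth


/-! ### The generic frame -/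

section Frame

variable {N : ℕ} [NeZero N] {A : ValuationSubring Kb} [IsAlgClosed (ResidueField A)]
  {ι₀ : Type} {Ft₀ : ι₀ → Type} [∀ v, Field (Ft₀ v)] [∀ v, Algebra (ResidueField A) (Ft₀ v)]
  {ν₀ : Type}
  {S₀ : SemistableSetup (F := Fb N) A (residue A) ι₀ Ft₀ ν₀}
  (I : CircleInputsN S₀) (a₀ : ν₀ → Kb) (hadm : ∀ e, I.adm e (a₀ e)) (e : ν₀)
  {ι : Type*} (L : AnnulusLevels A (tube S₀ e) ι)
  (hu : (I.ch e).u = L.u) (hth : (I.ch e).thick = L.thick)
  (hT : ∀ (i : ι) (P : Place Kb (Fb N)), CentredAt A (L.level i).R P → P ∈ tube S₀ e)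
  (hPL : ∀ (i : ι) (hi : a₀ e ∈ (L.level i).K')
      (p : Ideal (innerRing L (a₀ e) (gauge_h1 I a₀ hadm e L hth) (gauge_h2 I a₀ hadm e) hi)),
      p.IsPrime → p ≠ ⊥ →
      (⟨algebraMap Kb (Fb N) (L.level i).ϖ,
        unif_mem_innerRing L (a₀ e) (gauge_h1 I a₀ hadm e L hth) (gauge_h2 I a₀ hadm e) hi⟩ :
        innerRing L (a₀ e) (gauge_h1 I a₀ hadm e L hth) (gauge_h2 I a₀ hadm e) hi) ∉ p →
      ∃ P : Place Kb (Fb N),
        CentredAt A (innerRing L (a₀ e) (gauge_h1 I a₀ hadm e L hth) (gauge_h2 I a₀ hadm e) hi) P ∧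
        ∀ y : innerRing L (a₀ e) (gauge_h1 I a₀ hadm e L hth) (gauge_h2 I a₀ hadm e) hi,
          evalAt P (y : Fb N) = 0 ↔ y ∈ p)

/-- **(le)** the old level ring is contained in the level ring of the inner node -/
theorem innerLevelsRef_le (i : {i : ι // a₀ e ∈ (L.level i).K'}) :
    (L.level i.1).R ≤ ((innerLevelsRef I a₀ hadm e L hu hth hT hPL).level i).R :=
  le_innerLevels_level_R L (a₀ e) (gauge_h1 I a₀ hadm e L hth) (gauge_h2 I a₀ hadm e) hT hPL i

/-- **(hT)** the converse of `centred` for the levels of the inner node -/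
theorem innerLevelsRef_hT (i : {i : ι // a₀ e ∈ (L.level i).K'}) (P : Place Kb (Fb N))
    (hP : CentredAt A ((innerLevelsRef I a₀ hadm e L hu hth hT hPL).level i).R P) :
    P ∈ tube (sref I a₀ hadm) (inner I a₀ hadm e) := by
  rw [tube_inner_eq I a₀ hadm e L hu]
  exact mem_innerTube_of_centredAt_innerLevels L (a₀ e) (gauge_h1 I a₀ hadm e L hth)
    (gauge_h2 I a₀ hadm e) hT hPL i hP

/-- **(hRK)** the level rings of the inner node lie in the function field of their field of
constants -/
theorem innerLevelsRef_hRK (i : {i : ι // a₀ e ∈ (L.level i).K'})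
    (hRK : ∀ y ∈ (L.level i.1).R, y ∈ FKs N (L.level i.1).K') :
    ∀ y ∈ ((innerLevelsRef I a₀ hadm e L hu hth hT hPL).level i).R,
      y ∈ FKs N ((innerLevelsRef I a₀ hadm e L hu hth hT hPL).level i).K' := by
  have hRK' : ∀ y ∈ (L.swap.level i.1).R, y ∈ FKs N (L.level i.1).K' := by
    intro y hy
    rw [AnnulusLevels.swap_level_R] at hy
    exact hRK y hy
  exact (innerHyp L (a₀ e) (gauge_h1 I a₀ hadm e L hth) (gauge_h2 I a₀ hadm e)
    i.2).subRing_le_of_le (FKs N (L.level i.1).K') hRK'
      (Subfield.subset_closure (Or.inl ⟨(a₀ e)⁻¹ * L.thick, inner_mem L (a₀ e) i.2, rfl⟩))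

end Frame

/-! ### The modular curve on main -/

variable {M q : ℕ} [NeZero M] [hq : Fact q.Prime]
variable (B : ValuationSubring Kb) (hB : B.LiesOverPrime q) (hqM : ¬ q ∣ M)
variable [IsAlgClosed (ResidueField B)]

local notation "kB" => ResidueField B

/-- (shortcut instance) -/
local instance (priority := 100000) instAlgebraFtMShortcutSplitRefB :
    Algebra kB (modularFunctionFieldFullC kB M) :=
  inferInstance

section Ref

variable (b₀ : Crossing (chartDataModular B hB hqM) → Kb)
  (hadm : ∀ e, (inputs (DtF B hB hqM)).adm e (b₀ e))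
  (e : Crossing (chartDataModular B hB hqM))

/-- the levels of the inner node of `S'ref` at the crossing `e` (helper5 / helper16) -/
abbrev innerRef :=
  innerLevelsRef (inputs (DtF B hB hqM)) b₀ hadm e (LD (DtF B hB hqM) e) rfl rfl
    (hT_F B hB hqM e)
    (hPL_inner (inputs (DtF B hB hqM)) b₀ hadm (LD (DtF B hB hqM)) (fun _ => rfl)
      (hRK_F B hB hqM) e)

/-- the index type of `innerRef` -/
abbrev innerIdxT : Type :=
  {i : (DtF B hB hqM).ι e // b₀ e ∈ ((LD (DtF B hB hqM) e).level i).K'}

/-- helper5's `levelsM` at the inner node is `innerRef` -/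
theorem levelsM_inner :
    levelsM B hB hqM b₀ hadm (inner (inputs (DtF B hB hqM)) b₀ hadm e) =
      innerRef B hB hqM b₀ hadm e := rfl

/-- **(le)** the level ring of main is contained in the level ring of the inner node -/
theorem innerRef_le (i' : innerIdxT B hB hqM b₀ e) :
    ((annulusLevels_modular_final B hB hqM (nonempty_crossing (DtF B hB hqM)) e).level i'.1).R ≤
      ((innerRef B hB hqM b₀ hadm e).level i').R :=
  innerLevelsRef_le (inputs (DtF B hB hqM)) b₀ hadm e (LD (DtF B hB hqM) e) rfl rfl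
    (hT_F B hB hqM e)
    (hPL_inner (inputs (DtF B hB hqM)) b₀ hadm (LD (DtF B hB hqM)) (fun _ => rfl)
      (hRK_F B hB hqM) e) i'

@[simp] theorem innerRef_u : (innerRef B hB hqM b₀ hadm e).u =
    (b₀ e)⁻¹ • (annulusLevels_modular_final B hB hqM (nonempty_crossing (DtF B hB hqM)) e).u :=
  rfl

@[simp] theorem innerRef_v : (innerRef B hB hqM b₀ hadm e).v =
    (annulusLevels_modular_final B hB hqM (nonempty_crossing (DtF B hB hqM)) e).v := rfl

@[simp] theorem innerRef_ε₀ : (innerRef B hB hqM b₀ hadm e).ε₀ =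
    (annulusLevels_modular_final B hB hqM (nonempty_crossing (DtF B hB hqM)) e).ε₀ := rfl

@[simp] theorem innerRef_thick : (innerRef B hB hqM b₀ hadm e).thick =
    (b₀ e)⁻¹ *
      (annulusLevels_modular_final B hB hqM (nonempty_crossing (DtF B hB hqM)) e).thick := rfl

@[simp] theorem innerRef_K' (i' : innerIdxT B hB hqM b₀ e) :
    ((innerRef B hB hqM b₀ hadm e).level i').K' =
      ((annulusLevels_modular_final B hB hqM (nonempty_crossing (DtF B hB hqM)) e).level
        i'.1).K' := rfl

@[simp] theorem innerRef_ϖ (i' : innerIdxT B hB hqM b₀ e) :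
    ((innerRef B hB hqM b₀ hadm e).level i').ϖ =
      ((annulusLevels_modular_final B hB hqM (nonempty_crossing (DtF B hB hqM)) e).level
        i'.1).ϖ := rfl

/-- **(rho_mem)** the gauge lies in the constant field of every level of the inner node -/
theorem innerRef_rho_mem (i' : innerIdxT B hB hqM b₀ e) :
    b₀ e ∈ ((annulusLevels_modular_final B hB hqM (nonempty_crossing (DtF B hB hqM)) e).level
      i'.1).K' := i'.2

include hadm in
theorem innerRef_rho_ne_zero : b₀ e ≠ 0 := by
  intro h0
  have h1 := gauge_h1 (inputs (DtF B hB hqM)) b₀ hadm e (LD (DtF B hB hqM) e) rfl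
  rw [h0, map_zero] at h1
  exact not_lt_zero h1

/-- **(hT)** the converse of `centred` for the levels of the inner node -/
theorem innerRef_hT (i' : innerIdxT B hB hqM b₀ e) (P : Place Kb (Fb (M * q)))
    (hP : CentredAt B ((innerRef B hB hqM b₀ hadm e).level i').R P) :
    P ∈ tube (sref (inputs (DtF B hB hqM)) b₀ hadm) (inner (inputs (DtF B hB hqM)) b₀ hadm e) :=
  innerLevelsRef_hT (inputs (DtF B hB hqM)) b₀ hadm e (LD (DtF B hB hqM) e) rfl rfl
    (hT_F B hB hqM e)
    (hPL_inner (inputs (DtF B hB hqM)) b₀ hadm (LD (DtF B hB hqM)) (fun _ => rfl)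
      (hRK_F B hB hqM) e) i' P hP

/-- **(hRK)** the level rings of the inner node lie in the function field of their field of
constants -/
theorem innerRef_hRK (i' : innerIdxT B hB hqM b₀ e) :
    ∀ y ∈ ((innerRef B hB hqM b₀ hadm e).level i').R,
      y ∈ FKs (M * q) ((innerRef B hB hqM b₀ hadm e).level i').K' :=
  innerLevelsRef_hRK (inputs (DtF B hB hqM)) b₀ hadm e (LD (DtF B hB hqM) e) rfl rfl
    (hT_F B hB hqM e)
    (hPL_inner (inputs (DtF B hB hqM)) b₀ hadm (LD (DtF B hB hqM)) (fun _ => rfl)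
      (hRK_F B hB hqM) e) i' (hRK_F B hB hqM e i'.1)

/-- **(hK0)** the constant field of every level of the inner node contains `K₀` -/
theorem hK0_innerRef (i' : innerIdxT B hB hqM b₀ e) :
    K0 q ≤ ((innerRef B hB hqM b₀ hadm e).level i').K' :=
  K0_le_K'_final B hB hqM (nonempty_crossing (DtF B hB hqM)) e i'.1

/-- the hypothesis `gauge` from a critical gauge along `b` (`SRef.Modular.IsGaugeB`; then
`hadm := h.adm`) -/
theorem hg_of_isGaugeB (h : IsGaugeB (DtF B hB hqM) b₀) :
    B.valuation (b₀ e) ^ (q + 1) =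
      B.valuation (annulusLevels_modular_final B hB hqM
        (nonempty_crossing (DtF B hB hqM)) e).thick ^ q := h e

/-! ### The algebra along `β₂` -/

omit [IsAlgClosed (ResidueField B)] in
/-- `β₂` preserves the function fields of a field of constants -/
theorem beta2_map_mem_FKs (E : Subfield Kb) {y : Fb (M * q)} (hy : y ∈ FKs (M * q) E) :
    beta2 M q y ∈ FKs (M * q * q) E :=
  heckeBeta_mem_FKs (M * q) q E hy

/-- **(hRFK)** of `SplitModularTw.sheetHypAt_frame` for the levels of the inner node, along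
`β₂` -/
theorem innerRef_hRFK (i' : innerIdxT B hB hqM b₀ e) :
    letI := algebraAlong (beta2 M q)
    ∀ z ∈ ((innerRef B hB hqM b₀ hadm e).level i').R,
      algebraMap (Fb (M * q)) (Fb (M * q * q)) z ∈
        FKs (M * q * q) ((innerRef B hB hqM b₀ hadm e).level i').K' := fun z hz =>
  beta2_map_mem_FKs _ (innerRef_hRK B hB hqM b₀ hadm e i' z hz)

end Ref

/-! ### helper16's `SplitNode.levelsInB` (the frame of the integrator) -/

section InB

open Fermat.Agent.BR3.SDD.Modular Fermat.Agent.BR3.SplitNode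

variable (h2 : nuTwo M = 0) (h3 : nuThree M = 0) (e : Crossing (chartDataModular B hB hqM))

/-- helper16's levels of the inner node of `S'ref_b` are `innerRef` at `gaugeB`, `admB` -/
theorem levelsInB_eq :
    levelsInB B hB hqM h2 h3 e =
      innerRef B hB hqM (gaugeB q B hB hqM) (admB B hB hqM h2 h3) e := rfl

/-- the value of an index of the levels of the inner node of `S'ref_b`: a level of main -/
def idxInBVal (i' : idxInB B hB hqM h2 h3 e) : Finset Kb :=
  (show innerIdxT B hB hqM (gaugeB q B hB hqM) e from i').1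

theorem levelsInB_le (i' : idxInB B hB hqM h2 h3 e) :
    ((annulusLevels_modular_final B hB hqM (nonempty_crossing (DtF B hB hqM)) e).level
      (idxInBVal B hB hqM h2 h3 e i')).R ≤ ((levelsInB B hB hqM h2 h3 e).level i').R :=
  innerRef_le B hB hqM (gaugeB q B hB hqM) (admB B hB hqM h2 h3) e i'

theorem levelsInB_u' : (levelsInB B hB hqM h2 h3 e).u =
    (gaugeB q B hB hqM e)⁻¹ •
      (annulusLevels_modular_final B hB hqM (nonempty_crossing (DtF B hB hqM)) e).u := rfl

theorem levelsInB_v : (levelsInB B hB hqM h2 h3 e).v =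
    (annulusLevels_modular_final B hB hqM (nonempty_crossing (DtF B hB hqM)) e).v := rfl

theorem levelsInB_ε₀ : (levelsInB B hB hqM h2 h3 e).ε₀ =
    (annulusLevels_modular_final B hB hqM (nonempty_crossing (DtF B hB hqM)) e).ε₀ := rfl

theorem levelsInB_thick' : (levelsInB B hB hqM h2 h3 e).thick =
    (gaugeB q B hB hqM e)⁻¹ *
      (annulusLevels_modular_final B hB hqM (nonempty_crossing (DtF B hB hqM)) e).thick := rfl

theorem levelsInB_K' (i' : idxInB B hB hqM h2 h3 e) :
    ((levelsInB B hB hqM h2 h3 e).level i').K' =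
      ((annulusLevels_modular_final B hB hqM (nonempty_crossing (DtF B hB hqM)) e).level
        (idxInBVal B hB hqM h2 h3 e i')).K' := rfl

theorem levelsInB_rho_mem (i' : idxInB B hB hqM h2 h3 e) :
    gaugeB q B hB hqM e ∈
      ((annulusLevels_modular_final B hB hqM (nonempty_crossing (DtF B hB hqM)) e).level
        (idxInBVal B hB hqM h2 h3 e i')).K' :=
  innerRef_rho_mem B hB hqM (gaugeB q B hB hqM) e i'

include h2 h3 in
theorem gaugeB_ne_zero : gaugeB q B hB hqM e ≠ 0 :=
  innerRef_rho_ne_zero B hB hqM (gaugeB q B hB hqM) (admB B hB hqM h2 h3) e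

include h2 h3 in
/-- **(gauge)** `|gaugeB e|^(q+1) = |thick|^q` -/
theorem levelsInB_gauge :
    B.valuation (gaugeB q B hB hqM e) ^ (q + 1) =
      B.valuation (annulusLevels_modular_final B hB hqM
        (nonempty_crossing (DtF B hB hqM)) e).thick ^ q :=
  hg_of_isGaugeB B hB hqM (gaugeB q B hB hqM) e (isGaugeB B hB hqM h2 h3)

theorem levelsInB_hT (i' : idxInB B hB hqM h2 h3 e) (P : Place Kb (Fb (M * q)))
    (hP : CentredAt B ((levelsInB B hB hqM h2 h3 e).level i').R P) :
    P ∈ tube (srefM (DtM B hB hqM) (gaugeB q B hB hqM) (admB B hB hqM h2 h3))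
      (inner (inputs (DtM B hB hqM)) (gaugeB q B hB hqM) (admB B hB hqM h2 h3) e) :=
  innerRef_hT B hB hqM (gaugeB q B hB hqM) (admB B hB hqM h2 h3) e i' P hP

theorem levelsInB_hRK (i' : idxInB B hB hqM h2 h3 e) :
    ∀ y ∈ ((levelsInB B hB hqM h2 h3 e).level i').R,
      y ∈ FKs (M * q) ((levelsInB B hB hqM h2 h3 e).level i').K' :=
  innerRef_hRK B hB hqM (gaugeB q B hB hqM) (admB B hB hqM h2 h3) e i'

theorem levelsInB_hRFK (i' : idxInB B hB hqM h2 h3 e) :
    letI := algebraAlong (beta2 M q)
    ∀ z ∈ ((levelsInB B hB hqM h2 h3 e).level i').R,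
      algebraMap (Fb (M * q)) (Fb (M * q * q)) z ∈
        FKs (M * q * q) ((levelsInB B hB hqM h2 h3 e).level i').K' :=
  innerRef_hRFK B hB hqM (gaugeB q B hB hqM) (admB B hB hqM h2 h3) e i'

theorem hK0_levelsInB (i' : idxInB B hB hqM h2 h3 e) :
    K0 q ≤ ((levelsInB B hB hqM h2 h3 e).level i').K' :=
  hK0_innerRef B hB hqM (gaugeB q B hB hqM) (admB B hB hqM h2 h3) e i'

end InB

end Fermat.Agent.BR3.SplitModularRefB
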