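import Mathlib
import Fermat.Agent.BR3.SplitModular
import Fermat.Agent.BR3.SplitCoordTw
import Fermat.Agent.BR3.HeckePolyB
import Fermat.Agent.BR3.VertBetaAll
import Fermat.Agent.BR3.SubAnnPlaces.Inner

/-!
# Program C (S36), node (N3-INST), file 2: the split sheet of `X₀(M q²) → X₀(M q)` along `β₂` over
the INNER sub-annulus of a crossing of main's two-component model of `X₀(M q)` (helper29)

The `b`-mirror of helper19's `BR3/SplitModular` in the `g`-frame of helper7's
`BR3/SplitCoordTw.sheetHyp_of_vertScaledAt`.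

`F = Fb (M q)`, `F₂ = Fb (M q q)` along `β₂`; `e'` a crossing (`e' = Fr e` in the application),
`(g', g₀, g)` a twisted triple with simple zeros at `e'` (`P' : IsSSParam B hB hqM e' g' g₀ g`), `g''`
a Frobenius twist of `g`.  The polynomial is `PBt g = P_g.map α = (X^q - α g'')(X - (α g')^q) + q Ψ₁`
with the root `β g`, `c = -(β g - (α g')^q) = -u_{g'}`, and

  **`WsplitB M q g g' = U_g / β₂ (β g - (α g')^q)`**

is the generator of the split sheet `W ≡ 1` over the inner sub-annulus
`{|thick| < |u| < |ρ|}`, `|ρ|^(q+1) = |thick|^q`, of the tube of `e'` (there `|u_{g'}| > |ρ|^{1/q}`).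

* `alphaBar_mem_FKs`, `betaBar_mem_FKs`, `mem_FKs_of_mem_CMod`, `WsplitB_mem_FKs`;
* `gen_WsplitB`;
* `v_mul_ug_inv_mem` : `u_{g'} = β g - (α g')^q` divides the coordinate `v` of the tube of `e'` in
  every level;
* `InnerHypB L' idx ρ` : the hypotheses on a family of levels `L'` of the inner sub-annulus
  (coordinates `(ρ⁻¹ • u, v)`, thickness `ρ⁻¹ * thick`); `InnerHypB.small`;
* **`InnerHypB.sheetHyp : SheetHyp L' (WsplitB M q g g') (1 : B)`**, `InnerHypB.splitLevels` with
  `splitLevels_u/_v/_ε₀/_thick/_R`.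
-/

set_option autoImplicit false
set_option linter.unusedSectionVars false
set_option linter.style.haveILetI false
set_option synthInstance.maxHeartbeats 400000
set_option maxHeartbeats 1600000

noncomputable section

namespace Fermat.Agent.BR3.SplitModularB

open Polynomial ModularCurve AlgebraicCurve IsLocalRing
open Fermat.Agent.X0 Fermat.Agent.Val Fermat.Agent.Red Fermat.Agent.Hecke
open Fermat.Agent.BR.Centre Fermat.Agent.BR.SS Fermat.Agent.BR.Refine
open Fermat.Agent.BR.S0 Fermat.Agent.BR.S0.RedModular Fermat.Agent.BR.S0.PointDict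
open Fermat.Agent.BR.S0.ThickFinal
open Fermat.Agent.BR.Inst.AnnulusInstFinal Fermat.Agent.BR.Inst.NodeInstFinal
open Fermat.Agent.BR.Inst.Levels Fermat.Agent.BR.Inst.LevelsInst Fermat.Agent.BR.Inst.NormalModel
open Fermat.Agent.BR.Inst.ChartInModel
open Fermat.Agent.BR.Inst.FKCover Fermat.Agent.BR.Final
open Fermat.Agent.BR3.FibreProd Fermat.Agent.BR3.VertTaylorAt
open Fermat.Agent.BR3.VertLevelMem Fermat.Agent.BR3.VertAll Fermat.Agent.BR3.VertBetaAll
open Fermat.Agent.BR3.CircleN Fermat.Agent.BR3.SSParam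
open Fermat.Agent.BR3.EtaleLocal Fermat.Agent.BR3.SplitLevel Fermat.Agent.BR3.SplitLevels
open Fermat.Agent.BR3.SplitBranch Fermat.Agent.BR3.SplitNodeChart Fermat.Agent.BR3.SplitCoord
open Fermat.Agent.BR3.SplitHoriz Fermat.Agent.BR3.CoverSmooth Fermat.Agent.Good.Bridge
open Fermat.Agent.BR3.SplitModular Fermat.Agent.BR3.SplitCoordTw Fermat.Agent.BR3.HeckePoly
open Fermat.Agent.BR3.HeckePolyB Fermat.Agent.BR3.ThickOneFinal Fermat.Agent.BR3.VertAllParam
open Fermat.Agent.BR.Inst.SpecIso Fermat.Agent.BR.ResGen Fermat.Agent.BR.TwoVal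

/-! ### The function field of a field of constants along the degeneracy maps -/

section FKs

variable (N p : ℕ) [NeZero N] [NeZero p] [NeZero (N * p)] (E : Subfield Kb)

/-- `α` maps the function field of `E` at level `N` into that at level `N p` -/
theorem alphaBar_mem_FKs {y : Fb N} (hy : y ∈ FKs N E) :
    heckeAlphaBar Kb N p y ∈ FKs (N * p) E := by
  refine Fermat.Agent.BR.Inst.DegenModel.map_mem_of_closure
    (heckeAlphaBar Kb N p : Fb N →+* Fb (N * p)) _ (FKs (N * p) E) ?_ hy
  rintro t (⟨c, hc, rfl⟩ | ⟨z, rfl⟩)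
  · have e : (heckeAlphaBar Kb N p : Fb N →+* Fb (N * p)) (algebraMap Kb (Fb N) c) =
        algebraMap Kb (Fb (N * p)) c := (heckeAlphaBar Kb N p).commutes c
    rw [e]
    exact Subfield.subset_closure (Or.inl ⟨c, hc, rfl⟩)
  · have e : (heckeAlphaBar Kb N p : Fb N →+* Fb (N * p)) (barEmb N z) =
        barEmb (N * p) ⟨(z : LaurentSeries ℚ), full_degeneracy_le (dvd_mul_right N p) z.2⟩ :=
      Fermat.Agent.BR.Inst.DegenModel.alpha_barEmb N p z
    rw [e]
    exact Subfield.subset_closure (Or.inr ⟨_, rfl⟩)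

/-- `β` maps the function field of `E` at level `N` into that at level `N p` -/
theorem betaBar_mem_FKs {y : Fb N} (hy : y ∈ FKs N E) :
    heckeBetaBar Kb N p y ∈ FKs (N * p) E := by
  refine Fermat.Agent.BR.Inst.DegenModel.map_mem_of_closure
    (heckeBetaBar Kb N p : Fb N →+* Fb (N * p)) _ (FKs (N * p) E) ?_ hy
  rintro t (⟨c, hc, rfl⟩ | ⟨z, rfl⟩)
  · have e : (heckeBetaBar Kb N p : Fb N →+* Fb (N * p)) (algebraMap Kb (Fb N) c) =
        algebraMap Kb (Fb (N * p)) c := (heckeBetaBar Kb N p).commutes c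
    rw [e]
    exact Subfield.subset_closure (Or.inl ⟨c, hc, rfl⟩)
  · have e := Fermat.Agent.BR.Inst.DegenModel.beta_barEmb N p z
    have e' : (heckeBetaBar Kb N p : Fb N →+* Fb (N * p)) (barEmb N z) =
        heckeBetaBar Kb N p (barEmb N z) := rfl
    rw [e', e]
    exact Subfield.subset_closure (Or.inr ⟨_, rfl⟩)

end FKs

/-! ### Generic: the mirror statements for the second coordinate (via the swapped levels) -/

section Generic

attribute [local instance] NodeLevel.isLocal

variable {K F k : Type*} [Field K] [Field F] [Field k] [Algebra K F]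
  {Ft₁ Ft₂ : Type*} [Field Ft₁] [Algebra k Ft₁] [Field Ft₂] [Algebra k Ft₂]
  {A : ValuationSubring K} {T : Set (Place K F)} {ι : Type*}
  {π : A →+* k} {O₁ O₂ : ValuationSubring F} {res₁ : O₁ →+* Ft₁} {res₂ : O₂ →+* Ft₂}
  {Q₁ : Place k Ft₁} {Q₂ : Place k Ft₂} {L : AnnulusLevels A T ι}

/-- the branch data on a component are the same for the swapped levels -/
theorem branchComp_swap (X : BranchComp π O₁ res₁ Q₁ L) : BranchComp π O₁ res₁ Q₁ L.swap :=
  X.of_ring_eq L.swap id (fun _ => rfl)

/-- **The second coordinate of a thickness-one tube at a finite level** (mirror of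
`SplitCoord.coord_mul_inv_mem`): `x y z` in the level `i` with `x * y = κ • z`, `z` a unit of the
level, `|κ| = |thick|`, `x` a unit on the SECOND component (where `v` is a unit) and `y` a unit on
the first one. Then `x` divides `v` in the level: `v * x⁻¹ ∈ R_i`. -/
theorem coord_v_mul_inv_mem (X₁ : BranchComp π O₁ res₁ Q₁ L) (X₂ : BranchComp π O₂ res₂ Q₂ L)
    (hπ0 : ∀ a : A, A.valuation (a : K) < 1 → π a = 0)
    (hu₁ : L.u ∉ O₁.nonunits) (hv₂ : L.v ∉ O₂.nonunits) (i : ι) {x y z : F} {κ : K}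
    (hx : x ∈ (L.level i).R) (hy : y ∈ (L.level i).R) (hz : z ∈ (L.level i).R)
    (hzu : IsUnit (⟨z, hz⟩ : (L.level i).R)) (hxyz : x * y = κ • z)
    (hκ : A.valuation κ = A.valuation L.thick)
    (hx₂ : x ∉ O₂.nonunits) (hy₁ : y ∉ O₁.nonunits) :
    L.v * x⁻¹ ∈ (L.level i).R :=
  coord_mul_inv_mem (L := L.swap) (branchComp_swap X₂) (branchComp_swap X₁) hπ0 hv₂ hu₁ i
    hx hy hz hzu hxyz hκ hx₂ hy₁

/-- the second coordinate of an annulus is not zero -/
theorem v_ne_zero' (L : AnnulusLevels A T ι) : L.v ≠ 0 := L.swap.u_ne_zero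

/-- the unit `ε₀` of an annulus is not zero -/
theorem eps_ne_zero' (L : AnnulusLevels A T ι) : L.ε₀ ≠ 0 := by
  intro h0
  have h := L.uv
  rw [h0, smul_zero] at h
  rcases mul_eq_zero.mp h with h | h
  · exact L.u_ne_zero h
  · exact v_ne_zero' L h

/-- the first coordinate in terms of the second one -/
theorem u_eq_smul_inv (L : AnnulusLevels A T ι) : L.u = L.thick • (L.ε₀⁻¹ * L.v)⁻¹ := by
  have hv0 := v_ne_zero' L
  have hε0 := eps_ne_zero' L
  have h := L.uv
  rw [Algebra.smul_def] at h ⊢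
  rw [mul_inv, inv_inv]
  field_simp
  linear_combination h

variable {T' : Set (Place K F)} {ι' : Type*} (L' : AnnulusLevels A T' ι')

/-- **The small parameter `t = κ / c^(n+1)` lies in the maximal ideal of every level of a
sub-annulus whose FIRST coordinate is `ρ' • w⁻¹`**, `|ρ'|^(n+1) = |κ|`, as soon as `c` divides `w`
in the level (mirror of `SplitModular.small_mem_maximalIdeal_val`). -/
theorem small_mem_maximalIdeal_u {w : F} {ρ' : K} (hu' : L'.u = ρ' • w⁻¹) {n : ℕ} (hw0 : w ≠ 0)
    (hρ0 : ρ' ≠ 0) (i' : ι') {c : F} {κ : K} (hc0 : c ≠ 0) (hwc : w * c⁻¹ ∈ (L'.level i').R)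
    (hκK : κ ∈ (L'.level i').K') (hρK : ρ' ∈ (L'.level i').K')
    (hκ : A.valuation κ = A.valuation ρ' ^ (n + 1)) :
    ∃ h : algebraMap K F κ * (c ^ (n + 1))⁻¹ ∈ (L'.level i').R,
      (⟨algebraMap K F κ * (c ^ (n + 1))⁻¹, h⟩ : (L'.level i').R) ∈
        maximalIdeal (L'.level i').R :=
  small_mem_maximalIdeal_val L'.swap hu' hw0 hρ0 i' hc0 hwc hκK hρK hκ

end Generic

/-! ### Generic: `hRK` for helper5's levels of the inner half -/

section GenericInner

open Fermat.Agent.BR3.SubAnnChart Fermat.Agent.BR3.SubAnnPlaces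

variable {N : ℕ} [NeZero N] {A : ValuationSubring Kb} [IsAlgClosed (ResidueField A)]
  {T : Set (Place Kb (Fb N))} {ι : Type*} (L : AnnulusLevels A T ι) (r : Kb)
  (h1 : A.valuation L.thick < A.valuation r) (h2 : A.valuation r < 1)
  (hT : ∀ (i : ι) (P : Place Kb (Fb N)), CentredAt A (L.level i).R P → P ∈ T)
  (hPL : ∀ (i : ι) (hi : r ∈ (L.level i).K') (p : Ideal (innerRing L r h1 h2 hi)),
    p.IsPrime → p ≠ ⊥ →
    (⟨algebraMap Kb (Fb N) (L.level i).ϖ, unif_mem_innerRing L r h1 h2 hi⟩ :
      innerRing L r h1 h2 hi) ∉ p →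
    ∃ P : Place Kb (Fb N), CentredAt A (innerRing L r h1 h2 hi) P ∧
      ∀ y : innerRing L r h1 h2 hi, evalAt P (y : Fb N) = 0 ↔ y ∈ p)

/-- the level rings of the inner half again lie in the function fields of their constant
fields -/
theorem hRK_innerLevels (hRK : ∀ i, ∀ y ∈ (L.level i).R, y ∈ FKs N (L.level i).K')
    (i' : {i : ι // r ∈ (L.level i).K'}) :
    ∀ y ∈ ((innerLevels L r h1 h2 hT hPL).level i').R,
      y ∈ FKs N ((innerLevels L r h1 h2 hT hPL).level i').K' := by
  rw [innerLevels_level_K', innerLevels_level_R]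
  refine (innerHyp L r h1 h2 i'.2).subRing_le_of_le (FKs N (L.level i'.1).K') (hRK i'.1) ?_
  refine Subfield.subset_closure (Or.inl ⟨_, ?_, rfl⟩)
  exact (L.level i'.1).K'.mul_mem ((L.level i'.1).K'.inv_mem i'.2) (L.level i'.1).thick_mem

end GenericInner

variable {M q : ℕ} [NeZero M] [hq : Fact q.Prime]

/-- a function of the level `M` model over `(W, K')` lies in the function field of every field of
constants containing `K'` -/
theorem mem_FKs_of_mem_CMod {W : Subring Kb} {K' E : Subfield Kb} (hE : K' ≤ E) {g : Fb M}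
    (hg : g ∈ CMod M W K') : g ∈ FKs M E :=
  FKs_mono hE ((isModel_CMod M W K' g).mp hg).1

/-! ### The cover `Fb (M q q) / Fb (M q)` along `β₂` -/

/-- the cover along `β₂` -/
local instance instAlgBeta2 : Algebra (Fb (M * q)) (Fb (M * q * q)) := algebraAlong (beta2 M q)

local instance instTowerBeta2 : IsScalarTower Kb (Fb (M * q)) (Fb (M * q * q)) :=
  isScalarTower_along (beta2 M q)

local instance instFiniteBeta2 : Module.Finite (Fb (M * q)) (Fb (M * q * q)) :=
  Fermat.Agent.Hecke.finiteAlong_heckeBetaBar (M * q) q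

theorem algebraMap_eq_beta2 (y : Fb (M * q)) :
    algebraMap (Fb (M * q)) (Fb (M * q * q)) y = beta2 M q y := rfl

variable (M q) in
/-- **the generator of the split sheet along `β₂`**: `W = U_g / β₂ (β g - (α g')^q)` -/
def WsplitB (g g' : Fb M) : Fb (M * q * q) :=
  Ug M q g / beta2 M q (heckeBetaBar Kb M q g - heckeAlphaBar Kb M q g' ^ q)

theorem WsplitB_mem_FKs (E : Subfield Kb) {g g' : Fb M} (hg : g ∈ FKs M E) (hg' : g' ∈ FKs M E) :
    WsplitB M q g g' ∈ FKs (M * q * q) E := by
  have h1 : heckeBetaBar Kb M q g ∈ FKs (M * q) E := betaBar_mem_FKs M q E hg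
  have h2 : heckeAlphaBar Kb M q g ∈ FKs (M * q) E := alphaBar_mem_FKs M q E hg
  have h3 : heckeAlphaBar Kb M q g' ∈ FKs (M * q) E := alphaBar_mem_FKs M q E hg'
  refine div_mem (sub_mem (betaBar_mem_FKs (M * q) q E h1) (alphaBar_mem_FKs (M * q) q E h2)) ?_
  exact betaBar_mem_FKs (M * q) q E (sub_mem h1 (pow_mem h3 q))

/-- the minimal polynomial of `W` over `Fb (M q)` (along `β₂`) is the scaled vertical polynomial -/
theorem minpoly_WsplitB (hqM : ¬ q ∣ M) {g : Fb M} (hU : Ug M q g ∉ Set.range (alpha2 M q))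
    (g' : Fb M) (hc : heckeBetaBar Kb M q g - heckeAlphaBar Kb M q g' ^ q ≠ 0) :
    minpoly (Fb (M * q)) (WsplitB M q g g') =
      vertScaledAt (PBt M q g) q (heckeBetaBar Kb M q g)
        (-(heckeBetaBar Kb M q g - heckeAlphaBar Kb M q g' ^ q)) :=
  (minpoly_Ug_div_beta2 hqM hU g' hc).1

/-- `W` generates `Fb (M q q)` over `Fb (M q)` (along `β₂`) -/
theorem gen_WsplitB (hqM : ¬ q ∣ M) {g : Fb M} (hU : Ug M q g ∉ Set.range (alpha2 M q))
    (g' : Fb M) (hc : heckeBetaBar Kb M q g - heckeAlphaBar Kb M q g' ^ q ≠ 0)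
    (z : Fb (M * q * q)) : ∃ p : (Fb (M * q))[X], aeval (WsplitB M q g g') p = z := by
  have htop : IntermediateField.adjoin (Fb (M * q)) {WsplitB M q g g'} = ⊤ :=
    (minpoly_Ug_div_beta2 hqM hU g' hc).2
  have halg : IsAlgebraic (Fb (M * q)) (WsplitB M q g g') :=
    (Algebra.IsIntegral.isIntegral (R := Fb (M * q)) (WsplitB M q g g')).isAlgebraic
  have h1 : z ∈ (IntermediateField.adjoin (Fb (M * q)) {WsplitB M q g g'}).toSubalgebra := by
    rw [htop]
    exact Algebra.mem_top
  rw [IntermediateField.adjoin_simple_toSubalgebra_of_isAlgebraic halg,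
    Algebra.adjoin_singleton_eq_range_aeval] at h1
  exact h1

/-! ### The base levels of main at a crossing -/

section Final

variable (B : ValuationSubring Kb) (hB : B.LiesOverPrime q) (hqM : ¬ q ∣ M)
  [IsAlgClosed (ResidueField B)] [CharP (ResidueField B) q]
  (hne : Nonempty (Crossing (chartDataModular B hB hqM)))
  (e : Crossing (chartDataModular B hB hqM))

local notation "kB" => ResidueField B

/-- (shortcut instance: the search through the generic instances costs seconds per declaration) -/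
local instance (priority := 100000) instAlgebraFtMShortcutSplitB :
    Algebra kB (modularFunctionFieldFullC kB M) :=
  inferInstance

/-- the level `M q` model over the base level `W₀` lies in EVERY level of the tube of `e` -/
theorem CQ0_le_level_all (S : Finset Kb) {y : Fb (M * q)}
    (hy : y ∈ CQ M q (W0 B q) (K0 q)) :
    y ∈ ((annulusLevels_modular_final B hB hqM hne e).level S).R :=
  level_mono B hB hqM hne e (Finset.empty_subset S) (CQ0_le_level B hB hqM hne e hy)

theorem alpha_mem_level_all (S : Finset Kb) {g : Fb M} (hg : g ∈ CMod M (W0 B q) (K0 q)) :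
    heckeAlphaBar Kb M q g ∈ ((annulusLevels_modular_final B hB hqM hne e).level S).R :=
  level_mono B hB hqM hne e (Finset.empty_subset S) (alpha_mem_level B hB hqM hne e hg)

theorem beta_mem_level_all (S : Finset Kb) {g : Fb M} (hg : g ∈ CMod M (W0 B q) (K0 q)) :
    heckeBetaBar Kb M q g ∈ ((annulusLevels_modular_final B hB hqM hne e).level S).R :=
  level_mono B hB hqM hne e (Finset.empty_subset S) (beta_mem_level B hB hqM hne e hg)

/-! ### The coordinate `u_{g'} = β g - (α g')^q` divides `v` in every level -/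

section Coord

variable {g' g₀ g : Fb M} (P' : IsSSParam B hB hqM e g' g₀ g)

include P' in
/-- `u_{g'} = β g - (α g')^q` lies in the valuation ring of the target component `'et'` -/
theorem ug_mem_tgt :
    heckeBetaBar Kb M q g - heckeAlphaBar Kb M q g' ^ q ∈
      (setupFinal B hB hqM hne).O ((setupFinal B hB hqM hne).tgt e) :=
  ug_mem_O2 B hB hqM (mem_OM_of_mem_CMod_base B hB hqM P'.hg)
    (mem_OM_of_mem_CMod_base B hB hqM P'.hg'')

include P' in
/-- `v_{g'} = α g' - (β g₀)^q` lies in the valuation ring of the source component `'can'` -/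
theorem vg_mem_src :
    heckeAlphaBar Kb M q g' - heckeBetaBar Kb M q g₀ ^ q ∈
      (setupFinal B hB hqM hne).O ((setupFinal B hB hqM hne).src e) :=
  vg_mem_O1 B hB hqM (mem_OM_of_mem_CMod_base B hB hqM P'.hg)
    (mem_OM_of_mem_CMod_base B hB hqM P'.hg')

include P' in
/-- `u_{g'}` does not vanish identically on the target component -/
theorem ug_notMem_nonunits_tgt :
    heckeBetaBar Kb M q g - heckeAlphaBar Kb M q g' ^ q ∉
      ((setupFinal B hB hqM hne).O ((setupFinal B hB hqM hne).tgt e)).nonunits := by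
  intro h
  have h0 := res_eq_zero_of_nonunits (S₀ := setupFinal B hB hqM hne) _
    ⟨_, ug_mem_tgt B hB hqM hne e P'⟩ h
  have h1 : ((setupFinal B hB hqM hne).s₂ e).ord
      ((setupFinal B hB hqM hne).res ((setupFinal B hB hqM hne).tgt e)
        ⟨_, ug_mem_tgt B hB hqM hne e P'⟩) = 1 := P'.hyord _
  rw [h0, Place.ord_zero] at h1
  exact zero_ne_one h1

include P' in
/-- `v_{g'}` does not vanish identically on the source component -/
theorem vg_notMem_nonunits_src :
    heckeAlphaBar Kb M q g' - heckeBetaBar Kb M q g₀ ^ q ∉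
      ((setupFinal B hB hqM hne).O ((setupFinal B hB hqM hne).src e)).nonunits := by
  intro h
  have h0 := res_eq_zero_of_nonunits (S₀ := setupFinal B hB hqM hne) _
    ⟨_, vg_mem_src B hB hqM hne e P'⟩ h
  have h1 : ((setupFinal B hB hqM hne).s₁ e).ord
      ((setupFinal B hB hqM hne).res ((setupFinal B hB hqM hne).src e)
        ⟨_, vg_mem_src B hB hqM hne e P'⟩) = 1 := P'.hxord _
  rw [h0, Place.ord_zero] at h1
  exact zero_ne_one h1

include P' in
theorem ug_ne_zero : heckeBetaBar Kb M q g - heckeAlphaBar Kb M q g' ^ q ≠ 0 := by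
  intro h0
  have hm := ug_mem_O2 B hB hqM (mem_OM_of_mem_CMod_base B hB hqM P'.hg)
    (mem_OM_of_mem_CMod_base B hB hqM P'.hg'')
  have h1 := P'.hyord hm
  have e0 : (⟨_, hm⟩ : (compW B hB hqM 1).O) = 0 := Subtype.ext h0
  rw [e0, map_zero, Place.ord_zero] at h1
  exact zero_ne_one h1

include P' in
set_option maxHeartbeats 4000000 in
/-- **`u_{g'} = β g - (α g')^q` divides the coordinate `v` of the tube of `e` in the level `S`**
(thickness one; `SplitCoord.coord_mul_inv_mem` for the swapped levels). -/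
theorem v_mul_ug_inv_mem (h2 : nuTwo M = 0) (h3 : nuThree M = 0) (S : Finset Kb) :
    (annulusLevels_modular_final B hB hqM hne e).v *
        (heckeBetaBar Kb M q g - heckeAlphaBar Kb M q g' ^ q)⁻¹ ∈
      ((annulusLevels_modular_final B hB hqM hne e).level S).R := by
  obtain ⟨Ψ₁, -, -, hx, hy, hz, hR, hxyz, -⟩ := exists_tube_data B hB hqM hne e h2 h3 P'
  have X := branchDataN_final B hB hqM hne e
  have hmono := level_mono B hB hqM hne e (Finset.empty_subset S)
  have hzS : IsUnit (⟨_, hmono hz⟩ :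
      ((annulusLevels_modular_final B hB hqM hne e).level S).R) :=
    hR.map (Subring.inclusion hmono)
  have hκ : B.valuation ((q : ℕ) : Kb) =
      B.valuation (annulusLevels_modular_final B hB hqM hne e).thick :=
    (valuation_thick_levels_final B hB hqM h2 h3 hne e).symm
  have hxyz' : (heckeBetaBar Kb M q g - heckeAlphaBar Kb M q g' ^ q) *
      (heckeAlphaBar Kb M q g' - heckeBetaBar Kb M q g₀ ^ q) =
      ((q : ℕ) : Kb) • Ψ₁.eval (heckeAlphaBar Kb M q g') :=
    (mul_comm _ _).trans hxyz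
  exact coord_v_mul_inv_mem (branchComp_src X) (branchComp_tgt X) residue_eq_zero_of_lt
    (u_notMem_nonunits_of_unif (branchComp_src X) (res_eq_zero_of_nonunits _)
      residue_eq_zero_of_lt X.v_src X.unif₁)
    (v_notMem_nonunits_of_unif (branchComp_tgt X) (res_eq_zero_of_nonunits _)
      residue_eq_zero_of_lt X.u_tgt X.unif₂) S
    (hmono hy) (hmono hx) (hmono hz) hzS hxyz' hκ
    (ug_notMem_nonunits_tgt B hB hqM hne e P') (vg_notMem_nonunits_src B hB hqM hne e P')

end Coord

/-! ### The split sheet over the inner sub-annulus -/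

section Inner

attribute [local instance] NodeLevel.isLocal NodeLevel.noeth NodeLevel.intClosed

variable {T' : Set (Place Kb (Fb (M * q)))} {ι' : Type*}

/-- **The hypotheses on a family of levels `L'` of the inner sub-annulus `{|thick| < |u| < |ρ|}` of
the tube of the crossing `e`** (`ρ` the gauge of the critical circle along `b`,
`|ρ|^(q+1) = |thick e|^q`): the level `i'` contains main's level `idx i'` (X2), coordinates
`(ρ⁻¹ • u, v)`, thickness `ρ⁻¹ * thick`, `ρ` a constant of every level, the constant fields contain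
the base field `K₀`, the converse of `centred` (X1) and `hRK`.  Satisfied by helper5's
`SubAnnPlaces.innerLevels` / `innerLevelsRef` over main's levels. -/
structure InnerHypB (L' : AnnulusLevels B T' ι') (idx : ι' → Finset Kb) (ρ : Kb) : Prop where
  le : ∀ i', ((annulusLevels_modular_final B hB hqM hne e).level (idx i')).R ≤ (L'.level i').R
  u_eq : L'.u = ρ⁻¹ • (annulusLevels_modular_final B hB hqM hne e).u
  v_eq : L'.v = (annulusLevels_modular_final B hB hqM hne e).v
  thick_eq : L'.thick = ρ⁻¹ * (annulusLevels_modular_final B hB hqM hne e).thick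
  rho_mem : ∀ i', ρ ∈ (L'.level i').K'
  hK0 : ∀ i', K0 q ≤ (L'.level i').K'
  gauge : B.valuation ρ ^ (q + 1) =
    B.valuation (annulusLevels_modular_final B hB hqM hne e).thick ^ q
  hT : ∀ i' (P : Place Kb (Fb (M * q))), CentredAt B (L'.level i').R P → P ∈ T'
  hRK : ∀ i', ∀ y ∈ (L'.level i').R, y ∈ FKs (M * q) (L'.level i').K'

variable {B hB hqM hne e}
variable {L' : AnnulusLevels B T' ι'} {idx : ι' → Finset Kb} {ρ : Kb}
  (H : InnerHypB B hB hqM hne e L' idx ρ)
  {g' g₀ g g'' : Fb M} (P' : IsSSParam B hB hqM e g' g₀ g)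
  (h2 : nuTwo M = 0) (h3 : nuThree M = 0)

include H in
theorem InnerHypB.rho_ne_zero : ρ ≠ 0 := by
  rintro rfl
  have h := H.gauge
  rw [map_zero, zero_pow (Nat.succ_ne_zero q)] at h
  exact pow_ne_zero q ((_root_.map_ne_zero _).mpr
    (annulusLevels_modular_final B hB hqM hne e).thick_ne) h.symm

include H P' h2 h3 in
set_option maxHeartbeats 4000000 in
/-- **The small parameter `t = q / (-u_{g'})^(q+1)` of the split sheet along `β₂`** lies in the
maximal ideal of every level of the inner sub-annulus. -/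
theorem InnerHypB.small (i' : ι') :
    ∃ h : ((q : ℕ) : Fb (M * q)) *
        ((-(heckeBetaBar Kb M q g - heckeAlphaBar Kb M q g' ^ q)) ^ (q + 1))⁻¹ ∈ (L'.level i').R,
      (⟨((q : ℕ) : Fb (M * q)) *
        ((-(heckeBetaBar Kb M q g - heckeAlphaBar Kb M q g' ^ q)) ^ (q + 1))⁻¹, h⟩ :
        (L'.level i').R) ∈ maximalIdeal (L'.level i').R := by
  have hu0 : heckeBetaBar Kb M q g - heckeAlphaBar Kb M q g' ^ q ≠ 0 :=
    ug_ne_zero B hB hqM e P'
  have hc0 : -(heckeBetaBar Kb M q g - heckeAlphaBar Kb M q g' ^ q) ≠ 0 := neg_ne_zero.mpr hu0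
  have hthick0 : (annulusLevels_modular_final B hB hqM hne e).thick ≠ 0 :=
    (annulusLevels_modular_final B hB hqM hne e).thick_ne
  have hρ0 : ρ ≠ 0 := H.rho_ne_zero
  have hv0 := v_ne_zero' (annulusLevels_modular_final B hB hqM hne e)
  have hε0 := eps_ne_zero' (annulusLevels_modular_final B hB hqM hne e)
  have hu' : L'.u = (ρ⁻¹ * (annulusLevels_modular_final B hB hqM hne e).thick) •
      ((annulusLevels_modular_final B hB hqM hne e).ε₀⁻¹ *
        (annulusLevels_modular_final B hB hqM hne e).v)⁻¹ := by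
    rw [H.u_eq, mul_smul, ← u_eq_smul_inv]
  have hw0 : (annulusLevels_modular_final B hB hqM hne e).ε₀⁻¹ *
      (annulusLevels_modular_final B hB hqM hne e).v ≠ 0 :=
    mul_ne_zero (inv_ne_zero hε0) hv0
  have hwc : (annulusLevels_modular_final B hB hqM hne e).ε₀⁻¹ *
      (annulusLevels_modular_final B hB hqM hne e).v *
      (-(heckeBetaBar Kb M q g - heckeAlphaBar Kb M q g' ^ q))⁻¹ ∈ (L'.level i').R := by
    have h1 := H.le i' (v_mul_ug_inv_mem B hB hqM hne e P' h2 h3 (idx i'))
    have h4 := H.le i' ((annulusLevels_modular_final B hB hqM hne e).level (idx i')).ε₀_inv_mem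
    have e1 : (annulusLevels_modular_final B hB hqM hne e).ε₀⁻¹ *
        (annulusLevels_modular_final B hB hqM hne e).v *
        (-(heckeBetaBar Kb M q g - heckeAlphaBar Kb M q g' ^ q))⁻¹ =
        -((annulusLevels_modular_final B hB hqM hne e).ε₀⁻¹ *
          ((annulusLevels_modular_final B hB hqM hne e).v *
            (heckeBetaBar Kb M q g - heckeAlphaBar Kb M q g' ^ q)⁻¹)) := by
      rw [inv_neg]
      ring
    rw [e1]
    exact neg_mem (mul_mem h4 h1)
  have hρK : ρ⁻¹ * (annulusLevels_modular_final B hB hqM hne e).thick ∈ (L'.level i').K' := by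
    rw [← H.thick_eq]
    exact (L'.level i').thick_mem
  have hκ : B.valuation ((q : ℕ) : Kb) =
      B.valuation (ρ⁻¹ * (annulusLevels_modular_final B hB hqM hne e).thick) ^ (q + 1) := by
    have ht0 : B.valuation (annulusLevels_modular_final B hB hqM hne e).thick ≠ 0 :=
      (_root_.map_ne_zero _).mpr hthick0
    rw [map_mul, map_inv₀, mul_pow, inv_pow, H.gauge, pow_succ,
      inv_mul_cancel_left₀ (pow_ne_zero q ht0),
      valuation_thick_levels_final B hB hqM h2 h3 hne e]
  have key := small_mem_maximalIdeal_u L' hu' (n := q) hw0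
    (mul_ne_zero (inv_ne_zero hρ0) hthick0) i' hc0 hwc (natCast_mem _ q) hρK hκ
  rw [map_natCast] at key
  exact key

include H P' h2 h3 in
set_option maxHeartbeats 4000000 in
/-- **(N3-INST) The hypotheses of the split sheet of `X₀(M q²) → X₀(M q)` along `β₂` over the inner
sub-annulus of the crossing `e`**: `W = U_g / β₂ (β g - (α g')^q) ≡ 1`.  Inputs: the twisted triple
`(g', g₀, g)` at `e`, a Frobenius twist `g''` of `g` (for the Kronecker shape of `PBt g`), and the
`a`-side fact `U_g ∉ α₂ F₁`. -/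
theorem InnerHypB.sheetHyp (hg'' : g'' ∈ CMod M (W0 B q) (K0 q))
    (htw : redMF B hB hqM ⟨g'', mem_OM_of_mem_CMod_base B hB hqM hg''⟩ =
      frobAutFullC kB M q • redMF B hB hqM ⟨g, mem_OM_of_mem_CMod_base B hB hqM P'.hg''⟩)
    (hU : Ug M q g ∉ Set.range (alpha2 M q)) :
    SheetHyp L' (WsplitB M q g g') (1 : B) := by
  have hu0 : heckeBetaBar Kb M q g - heckeAlphaBar Kb M q g' ^ q ≠ 0 :=
    ug_ne_zero B hB hqM e P'
  obtain ⟨Ψ₁, hΨ, hP⟩ := exists_kronecker_PBt_q B hB hqM P'.hg'' P'.hg hg'' P'.twist htw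
  refine sheetHyp_of_vertScaledAt L' hq.out (x₁ := heckeAlphaBar Kb M q g')
    (x₂ := heckeAlphaBar Kb M q g'') (y := heckeBetaBar Kb M q g) (Ψ₁ := Ψ₁) (P := PBt M q g)
    (fun i' => H.le i' (alpha_mem_level_all B hB hqM hne e (idx i') P'.hg))
    (fun i' => H.le i' (alpha_mem_level_all B hB hqM hne e (idx i') hg''))
    (fun i' => H.le i' (beta_mem_level_all B hB hqM hne e (idx i') P'.hg''))
    (fun i' n => H.le i' (CQ0_le_level_all B hB hqM hne e (idx i') (hΨ n)))
    hu0 (H.small P' h2 h3) hP (PBt_monic g) (PBt_natDegree hqM g) (PBt_eval_beta g)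
    (minpoly_WsplitB hqM hU g' hu0) (gen_WsplitB hqM hU g' hu0)
    (Fermat.Agent.BR.Inst.AnnulusInstAux.finite_div_modular (M * q * q)) ?_
  intro i' χ h1 Hs
  exact horiz_splitRing_frame (L'.level i') Hs
    (fun y hy => betaBar_mem_FKs (M * q) q _ (H.hRK i' y hy))
    (WsplitB_mem_FKs _ (mem_FKs_of_mem_CMod (H.hK0 i') P'.hg'')
      (mem_FKs_of_mem_CMod (H.hK0 i') P'.hg))
    (fun x hx hx0 => Fermat.Agent.BR3.SubAnnChart.exists_zpow_of_mem_K' (L'.level i') hx hx0)
    (H.hT i')

/-- **The levels of the split sheet along `β₂` over the inner sub-annulus of the crossing `e`** -/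
def InnerHypB.splitLevels (hg'' : g'' ∈ CMod M (W0 B q) (K0 q))
    (htw : redMF B hB hqM ⟨g'', mem_OM_of_mem_CMod_base B hB hqM hg''⟩ =
      frobAutFullC kB M q • redMF B hB hqM ⟨g, mem_OM_of_mem_CMod_base B hB hqM P'.hg''⟩)
    (hU : Ug M q g ∉ Set.range (alpha2 M q)) :
    AnnulusLevels B (coverTube B T' (WsplitB M q g g') (1 : B)) ι' :=
  (H.sheetHyp P' h2 h3 hg'' htw hU).levels

theorem InnerHypB.splitLevels_eq (hg'' : g'' ∈ CMod M (W0 B q) (K0 q))
    (htw : redMF B hB hqM ⟨g'', mem_OM_of_mem_CMod_base B hB hqM hg''⟩ =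
      frobAutFullC kB M q • redMF B hB hqM ⟨g, mem_OM_of_mem_CMod_base B hB hqM P'.hg''⟩)
    (hU : Ug M q g ∉ Set.range (alpha2 M q)) :
    H.splitLevels P' h2 h3 hg'' htw hU = (H.sheetHyp P' h2 h3 hg'' htw hU).levels := rfl

theorem InnerHypB.splitLevels_u (hg'' : g'' ∈ CMod M (W0 B q) (K0 q))
    (htw : redMF B hB hqM ⟨g'', mem_OM_of_mem_CMod_base B hB hqM hg''⟩ =
      frobAutFullC kB M q • redMF B hB hqM ⟨g, mem_OM_of_mem_CMod_base B hB hqM P'.hg''⟩)
    (hU : Ug M q g ∉ Set.range (alpha2 M q)) :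
    (H.splitLevels P' h2 h3 hg'' htw hU).u = beta2 M q L'.u :=
  SheetHyp.levels_u (H.sheetHyp P' h2 h3 hg'' htw hU)

theorem InnerHypB.splitLevels_v (hg'' : g'' ∈ CMod M (W0 B q) (K0 q))
    (htw : redMF B hB hqM ⟨g'', mem_OM_of_mem_CMod_base B hB hqM hg''⟩ =
      frobAutFullC kB M q • redMF B hB hqM ⟨g, mem_OM_of_mem_CMod_base B hB hqM P'.hg''⟩)
    (hU : Ug M q g ∉ Set.range (alpha2 M q)) :
    (H.splitLevels P' h2 h3 hg'' htw hU).v = beta2 M q L'.v :=
  SheetHyp.levels_v (H.sheetHyp P' h2 h3 hg'' htw hU)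

theorem InnerHypB.splitLevels_ε₀ (hg'' : g'' ∈ CMod M (W0 B q) (K0 q))
    (htw : redMF B hB hqM ⟨g'', mem_OM_of_mem_CMod_base B hB hqM hg''⟩ =
      frobAutFullC kB M q • redMF B hB hqM ⟨g, mem_OM_of_mem_CMod_base B hB hqM P'.hg''⟩)
    (hU : Ug M q g ∉ Set.range (alpha2 M q)) :
    (H.splitLevels P' h2 h3 hg'' htw hU).ε₀ = beta2 M q L'.ε₀ :=
  SheetHyp.levels_ε₀ (H.sheetHyp P' h2 h3 hg'' htw hU)

theorem InnerHypB.splitLevels_thick (hg'' : g'' ∈ CMod M (W0 B q) (K0 q))
    (htw : redMF B hB hqM ⟨g'', mem_OM_of_mem_CMod_base B hB hqM hg''⟩ =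
      frobAutFullC kB M q • redMF B hB hqM ⟨g, mem_OM_of_mem_CMod_base B hB hqM P'.hg''⟩)
    (hU : Ug M q g ∉ Set.range (alpha2 M q)) :
    (H.splitLevels P' h2 h3 hg'' htw hU).thick = L'.thick :=
  SheetHyp.levels_thick (H.sheetHyp P' h2 h3 hg'' htw hU)

theorem InnerHypB.splitLevels_R (hg'' : g'' ∈ CMod M (W0 B q) (K0 q))
    (htw : redMF B hB hqM ⟨g'', mem_OM_of_mem_CMod_base B hB hqM hg''⟩ =
      frobAutFullC kB M q • redMF B hB hqM ⟨g, mem_OM_of_mem_CMod_base B hB hqM P'.hg''⟩)
    (hU : Ug M q g ∉ Set.range (alpha2 M q)) (i' : ι') :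
    ((H.splitLevels P' h2 h3 hg'' htw hU).level i').R =
      (H.sheetHyp P' h2 h3 hg'' htw hU).ring i' :=
  SheetHyp.levels_R (H.sheetHyp P' h2 h3 hg'' htw hU) i'

include H in
/-- transport of the hypotheses to the same levels on an equal tube -/
theorem InnerHypB.congrTube {T'' : Set (Place Kb (Fb (M * q)))} (h : T'' = T') :
    InnerHypB B hB hqM hne e (Fermat.Agent.BR3.SubAnnPlaces.levelsCongrTube L' h) idx ρ where
  le := H.le
  u_eq := H.u_eq
  v_eq := H.v_eq
  thick_eq := H.thick_eq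
  rho_mem := H.rho_mem
  hK0 := H.hK0
  gauge := H.gauge
  hT i' P hP := by
    rw [h]
    exact H.hT i' P hP
  hRK := H.hRK

end Inner

/-! ### The instance: helper5's levels of the inner half -/

section Inst

open Fermat.Agent.BR3.SubAnnChart Fermat.Agent.BR3.SubAnnPlaces

variable {ρ : Kb}
  (h1 : B.valuation (annulusLevels_modular_final B hB hqM hne e).thick < B.valuation ρ)
  (h2 : B.valuation ρ < 1)
  (hρ : B.valuation ρ ^ (q + 1) =
    B.valuation (annulusLevels_modular_final B hB hqM hne e).thick ^ q)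
  (hPL : ∀ (i : Finset Kb)
    (hi : ρ ∈ ((annulusLevels_modular_final B hB hqM hne e).level i).K')
    (p : Ideal (innerRing (annulusLevels_modular_final B hB hqM hne e) ρ h1 h2 hi)),
    p.IsPrime → p ≠ ⊥ →
    (⟨algebraMap Kb (Fb (M * q)) ((annulusLevels_modular_final B hB hqM hne e).level i).ϖ,
      unif_mem_innerRing (annulusLevels_modular_final B hB hqM hne e) ρ h1 h2 hi⟩ :
      innerRing (annulusLevels_modular_final B hB hqM hne e) ρ h1 h2 hi) ∉ p →
    ∃ P : Place Kb (Fb (M * q)),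
      CentredAt B (innerRing (annulusLevels_modular_final B hB hqM hne e) ρ h1 h2 hi) P ∧
      ∀ y : innerRing (annulusLevels_modular_final B hB hqM hne e) ρ h1 h2 hi,
        evalAt P (y : Fb (M * q)) = 0 ↔ y ∈ p)

include hρ in
set_option maxHeartbeats 4000000 in
/-- **helper5's levels `SubAnnPlaces.innerLevels` of the inner half `{|thick| < |u| < |ρ|}`** of
main's levels satisfy `InnerHypB` (index map: the underlying finite set of constants). -/
theorem innerHypB_innerLevels :
    InnerHypB B hB hqM hne e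
      (innerLevels (annulusLevels_modular_final B hB hqM hne e) ρ h1 h2
        (hT_modular_final B hB hqM hne e) hPL) Subtype.val ρ where
  le := le_innerLevels_level_R (annulusLevels_modular_final B hB hqM hne e) ρ h1 h2
    (hT_modular_final B hB hqM hne e) hPL
  u_eq := innerLevels_u (annulusLevels_modular_final B hB hqM hne e) ρ h1 h2
    (hT_modular_final B hB hqM hne e) hPL
  v_eq := innerLevels_v (annulusLevels_modular_final B hB hqM hne e) ρ h1 h2
    (hT_modular_final B hB hqM hne e) hPL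
  thick_eq := innerLevels_thick (annulusLevels_modular_final B hB hqM hne e) ρ h1 h2
    (hT_modular_final B hB hqM hne e) hPL
  rho_mem i' := by
    rw [innerLevels_level_K']
    exact i'.2
  hK0 i' := by
    rw [innerLevels_level_K']
    exact (K0_le_KS.trans (KS_mono q (Finset.empty_subset i'.1))).trans
      (KS_le_K'_modular_final B hB hqM hne e i'.1)
  gauge := hρ
  hT i' _ hP := mem_innerTube_of_centredAt_innerLevels
    (annulusLevels_modular_final B hB hqM hne e) ρ h1 h2 (hT_modular_final B hB hqM hne e) hPL i' hP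
  hRK i' := hRK_innerLevels (annulusLevels_modular_final B hB hqM hne e) ρ h1 h2
    (hT_modular_final B hB hqM hne e) hPL (hRK_modular_final B hB hqM hne e) i'

end Inst

end Final

end Fermat.Agent.BR3.SplitModularB

end
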