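/-
Program C (S36), node I7, piece (W7), the Kummer fields (helper12): the two direct inputs `sep_nk`,
`sepComp_nk` of `SepNSDD.SepInput` from ONE function `Θ e` per supersingular point `e` whose
residue on the vertical component `ze e` takes pairwise different values at the Kummer points
`s₂ (nk e s)` (for `q` odd: `θ̄ = b U^d ≡ ± c` at the two points over `V = 0`, `c² = ρ`).

* `nodeFun_of_tgt` : the hypotheses of `SepN.NodeFun` with the value read at the branch `s₂ e` of
  the TARGET component (by `node_match` the two branch values agree);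
* `separated_of_tgt_values` : two nodes at which one function has different branch values are
  separated;
* `sepComp_src_of_tgt_values` : … and the first node is separated from the source component of
  the second;
* `sep_nk_of_theta`, `sepComp_nk_of_theta` : the fields `sep_nk`, `sepComp_nk`.
-/
import Mathlib
import Fermat.Agent.BR3.SepN
import Fermat.Agent.BR3.SDD.Skeleton

set_option autoImplicit false
set_option linter.unusedSectionVars false

namespace Fermat.Agent.BR3.SepNKummer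

open AlgebraicCurve IsLocalRing Fermat.Agent.Red Fermat.Agent.BR.SS Fermat.Agent.BR.Refine
  Fermat.Agent.BR.Circle Fermat.Agent.BR3.CircleN Fermat.Agent.BR3.SepN Fermat.Agent.BR3.SDD

section Abstract

variable {K F k : Type*} [Field K] [Field F] [Algebra K F] [Field k]
  {A : ValuationSubring K} {π : A →+* k} {ι : Type*} {Ft : ι → Type*}
  [∀ v, Field (Ft v)] [∀ v, Algebra k (Ft v)] {ν : Type*}
  {S : SemistableSetup (F := F) A π ι Ft ν}

/-- The hypotheses of `NodeFun`, with the value read on the target component. -/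
theorem nodeFun_of_tgt {e : ν} {f : F} {c : k} (h₁ : f ∈ S.O (S.src e)) (h₂ : f ∈ S.O (S.tgt e))
    (hpole : ∀ P, S.r P = ⟨S.src e, S.s₁ e⟩ → 0 ≤ P.ord f)
    (hv : IsValueAt (S.s₂ e) (S.res (S.tgt e) ⟨f, h₂⟩) c) : NodeFun S e f c := by
  obtain ⟨c', hc₁, hc₂⟩ := S.node_match e f h₁ h₂ hpole
  have hcc : c' = c := hc₂.unique hv
  exact ⟨h₁, h₂, hpole, hcc ▸ hc₁⟩

/-- The value on the target component of a `NodeFun`. -/
theorem nodeFun_value_tgt {e : ν} {f : F} {c : k} (hf : NodeFun S e f c) :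
    IsValueAt (S.s₂ e) (S.res (S.tgt e) ⟨f, hf.mem_tgt⟩) c := by
  obtain ⟨c', hc₁, hc₂⟩ := S.node_match e f hf.mem_src hf.mem_tgt hf.pole
  have hcc : c' = c := hc₁.unique hf.value
  exact hcc ▸ hc₂

/-- Subtracting a constant. -/
theorem nodeFun_sub_const {e : ν} {f : F} {c : k} (hf : NodeFun S e f c) {a : K} (ha : a ∈ A) :
    NodeFun S e (f - algebraMap K F a) (c - π ⟨a, ha⟩) := by
  have hcm₁ : algebraMap K F a ∈ S.O (S.src e) := (S.algebraMap_mem_iff _ a).mpr ha
  have hcm₂ : algebraMap K F a ∈ S.O (S.tgt e) := (S.algebraMap_mem_iff _ a).mpr ha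
  have hg₁ : f - algebraMap K F a ∈ S.O (S.src e) := sub_mem hf.mem_src hcm₁
  refine ⟨hg₁, sub_mem hf.mem_tgt hcm₂, fun P hP => ?_, ?_⟩
  · exact (Fermat.Agent.X0.Place.mem_iff_ord_nonneg P).mp
      (sub_mem ((Fermat.Agent.X0.Place.mem_iff_ord_nonneg P).mpr (hf.pole P hP))
        (P.algebraMap_mem' a))
  · have hres : S.res (S.src e) ⟨f - algebraMap K F a, hg₁⟩ =
        S.res (S.src e) ⟨f, hf.mem_src⟩ - algebraMap k (Ft (S.src e)) (π ⟨a, ha⟩) := by
      rw [← S.res_algebraMap (S.src e) a ha hcm₁, ← map_sub]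
      rfl
    rw [hres]
    exact hf.value.sub (isValueAt_algebraMap _ _)

end Abstract

section Circle

variable {K : Type} {F : Type*} [Field K] [Field F] [Algebra K F]
  {A : ValuationSubring K}
  {ι₀ : Type} {Ft₀ : ι₀ → Type} [∀ v, Field (Ft₀ v)] [∀ v, Algebra (ResidueField A) (Ft₀ v)]
  {ν₀ : Type} {S₀ : SemistableSetup (F := F) A (residue A) ι₀ Ft₀ ν₀}

/-- **Two nodes at which one function has different values are separated.** -/
theorem separated_of_nodeFun_ne (hdeg : ∀ P : Place K F, P.deg = 1) {n₁ n₂ : ν₀} {f : F}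
    {c₁ c₂ : ResidueField A} (h₁ : NodeFun S₀ n₁ f c₁) (h₂ : NodeFun S₀ n₂ f c₂)
    (hne : c₁ ≠ c₂) : Separated S₀ n₁ n₂ := by
  obtain ⟨⟨a, ha⟩, hac⟩ := residue_surjective (R := A) c₁
  have g₁ := nodeFun_sub_const h₁ ha
  have g₂ := nodeFun_sub_const h₂ ha
  rw [hac, sub_self] at g₁
  rw [hac] at g₂
  exact separated_of_nodeFun hdeg g₁ g₂ (sub_ne_zero.mpr hne.symm)

/-- … and the first node is separated from the source component of the second. -/
theorem sepComp_src_of_nodeFun_ne (hdeg : ∀ P : Place K F, P.deg = 1) {n₁ n₂ : ν₀} {f : F}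
    {c₁ c₂ : ResidueField A} (h₁ : NodeFun S₀ n₁ f c₁) (h₂ : NodeFun S₀ n₂ f c₂)
    (hne : c₁ ≠ c₂) : SepComp S₀ n₁ (S₀.src n₂) := by
  obtain ⟨⟨a, ha⟩, hac⟩ := residue_surjective (R := A) c₁
  have g₁ := nodeFun_sub_const h₁ ha
  have g₂ := nodeFun_sub_const h₂ ha
  rw [hac, sub_self] at g₁
  rw [hac] at g₂
  refine sepComp_of_nodeFun hdeg g₁ g₂.mem_src ?_
  intro h0
  have hv := g₂.value
  rw [h0] at hv
  exact sub_ne_zero.mpr hne.symm (hv.unique (isValueAt_zero _))

/-- … and from the target component of the second. -/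
theorem sepComp_tgt_of_nodeFun_ne (hdeg : ∀ P : Place K F, P.deg = 1) {n₁ n₂ : ν₀} {f : F}
    {c₁ c₂ : ResidueField A} (h₁ : NodeFun S₀ n₁ f c₁) (h₂ : NodeFun S₀ n₂ f c₂)
    (hne : c₁ ≠ c₂) : SepComp S₀ n₁ (S₀.tgt n₂) := by
  obtain ⟨⟨a, ha⟩, hac⟩ := residue_surjective (R := A) c₁
  have g₁ := nodeFun_sub_const h₁ ha
  have g₂ := nodeFun_sub_const h₂ ha
  rw [hac, sub_self] at g₁
  rw [hac] at g₂
  refine sepComp_of_nodeFun hdeg g₁ g₂.mem_tgt ?_
  intro h0
  have hv := nodeFun_value_tgt g₂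
  rw [h0] at hv
  exact sub_ne_zero.mpr hne.symm (hv.unique (isValueAt_zero _))

end Circle

/-! ### the Kummer fields of `SepNSDD.SepInput` -/

section SDD

variable {K : Type} {F : Type*} [Field K] [Field F] [Algebra K F]
  {A : ValuationSubring K} {Mid SSp KP : Type} {Ft : Comp Mid SSp → Type}
  [∀ v, Field (Ft v)] [∀ v, Algebra (ResidueField A) (Ft v)]
  (I : Input (F := F) A Mid SSp KP Ft)

/-- The function `Θ e` at the Kummer node `nk e s`. -/
theorem nodeFun_nk (Θ : SSp → F) (c : SSp → KP → ResidueField A)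
    (hmid : ∀ e i, Θ e ∈ (I.C (mid i)).O) (hze : ∀ e, Θ e ∈ (I.C (ze e)).O)
    (hpole : ∀ e s, ∀ P ∈ tube I.setup (nk e s), 0 ≤ P.ord (Θ e))
    (hval : ∀ e s, IsValueAt (I.s₂ (nk e s)) ((I.C (ze e)).res ⟨Θ e, hze e⟩) (c e s))
    (e : SSp) (s : KP) : NodeFun I.setup (nk e s) (Θ e) (c e s) :=
  nodeFun_of_tgt (S := I.setup) (e := nk e s) (hmid e (I.comp e s)) (hze e)
    (fun P hP => hpole e s P hP) (hval e s)

/-- **The field `sep_nk` of `SepNSDD.SepInput`.** -/
theorem sep_nk_of_theta (hdeg : ∀ P : Place K F, P.deg = 1) (Θ : SSp → F)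
    (c : SSp → KP → ResidueField A) (hc : ∀ e, Function.Injective (c e))
    (hmid : ∀ e i, Θ e ∈ (I.C (mid i)).O) (hze : ∀ e, Θ e ∈ (I.C (ze e)).O)
    (hpole : ∀ e s, ∀ P ∈ tube I.setup (nk e s), 0 ≤ P.ord (Θ e))
    (hval : ∀ e s, IsValueAt (I.s₂ (nk e s)) ((I.C (ze e)).res ⟨Θ e, hze e⟩) (c e s))
    (e : SSp) (s s' : KP) (hss : s ≠ s') : Separated I.setup (nk e s) (nk e s') :=
  separated_of_nodeFun_ne hdeg (nodeFun_nk I Θ c hmid hze hpole hval e s)
    (nodeFun_nk I Θ c hmid hze hpole hval e s') (fun h => hss (hc e h))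

/-- **The field `sepComp_nk` of `SepNSDD.SepInput`** (every middle component passes over every
supersingular point: `hall`). -/
theorem sepComp_nk_of_theta (hdeg : ∀ P : Place K F, P.deg = 1) (Θ : SSp → F)
    (c : SSp → KP → ResidueField A) (hc : ∀ e, Function.Injective (c e))
    (hmid : ∀ e i, Θ e ∈ (I.C (mid i)).O) (hze : ∀ e, Θ e ∈ (I.C (ze e)).O)
    (hpole : ∀ e s, ∀ P ∈ tube I.setup (nk e s), 0 ≤ P.ord (Θ e))
    (hval : ∀ e s, IsValueAt (I.s₂ (nk e s)) ((I.C (ze e)).res ⟨Θ e, hze e⟩) (c e s))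
    (hall : ∀ e i, ∃ s, I.comp e s = i)
    (e : SSp) (s : KP) (i : Mid) (hi : i ≠ I.comp e s) : SepComp I.setup (nk e s) (mid i) := by
  obtain ⟨s', hs'⟩ := hall e i
  have hss : s ≠ s' := fun h => hi (by rw [← hs', h])
  have key := sepComp_src_of_nodeFun_ne hdeg (nodeFun_nk I Θ c hmid hze hpole hval e s)
    (nodeFun_nk I Θ c hmid hze hpole hval e s') (fun h => hss (hc e h))
  rw [Input.setup_src, src_nk, hs'] at key
  exact key

end SDD

end Fermat.Agent.BR3.SepNKummer
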