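/-
Program C (S36), node I7, pieces (C2)/(W7), modular instance (helper12): the `SepNSDD.SepInput`
term for the stable model `S'' = I.setup` of `X₀(M q²)` over `S'ref_a = srefM Dt a₀ _` along
`a = alpha2 M q` and `S'ref_b = srefM Dt b₀ _` along `b = beta2 M q`.

Inputs:
* (O) the restrictions of the components of `I` along `alpha2`, `beta2` in `comap` form
  (`FibreProd.comap_alpha2_w1`, `comap_beta2_w1`, `CZero.comap_alpha2_cZero`,
  `FibreProdMid.comap_alpha2_w2`, `MidBeta.comap_beta2_w2`, `VertMain` for `ze e`);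
* (T) the tubes of the nodes of `S''` over the tubes of `S'ref_a`, `S'ref_b` (the partition
  theorem of (I7-PART));
* the Kummer function `Θ e` of `SepNKummer`.

Output: `sepInputModular`, `sepInputModularOfTheta : SepInput I (inputs Dt) a₀ _ (inputs Dt) b₀ _
(alpha2 M q) hα (beta2 M q) hβ`; then `(sepInputModular …).sep` is the field `sep` of
`SDD.CircleData` and `(sepInputModular …).sepComp` the field `sep_comp` of `BranchDataN` /
`AnnulusChartN`.
-/
import Mathlib
import Fermat.Agent.BR3.SepNSDD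
import Fermat.Agent.BR3.SepNKummer
import Fermat.Agent.BR3.SRef.Modular
import Fermat.Agent.BR3.FibreProd

set_option autoImplicit false
set_option synthInstance.maxHeartbeats 400000
set_option linter.unusedSectionVars false

noncomputable section

/- S36 build-time patch: file-local shortcut instances. They only shorten instance search;
each is the instance that the search finds anyway (reducible, same terms after unfolding). -/
local instance (priority := 100000) Fermat.Agent.BR3.FastInst.instAlgFullC_SepNModular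
    {k : Type*} [Field k] (N : ℕ) :
    Algebra k ↥(ModularCurve.modularFunctionFieldFullC k N) := inferInstance
local instance (priority := 100000) Fermat.Agent.BR3.FastInst.instFieldFullC_SepNModular
    {k : Type*} [Field k] (N : ℕ) :
    Field ↥(ModularCurve.modularFunctionFieldFullC k N) := inferInstance
local instance (priority := 100000) Fermat.Agent.BR3.FastInst.instAlgLaurent_SepNModular
    {k : Type*} [Field k] : Algebra k (LaurentSeries k) := inferInstance


namespace Fermat.Agent.BR3.SepNModular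

open AlgebraicCurve ModularCurve IsLocalRing
open Fermat.Agent.Red Fermat.Agent.Val Fermat.Agent.X0 Fermat.Agent.BR.SS Fermat.Agent.BR.Refine
open Fermat.Agent.BR.Centre Fermat.Agent.BR.Circle Fermat.Agent.BR.S0
open Fermat.Agent.BR.S0.PointDict Fermat.Agent.BR.S0.RedModular Fermat.Agent.BR.Final
open Fermat.Agent.BR2.SetupOfData Fermat.Agent.BR3.CircleN Fermat.Agent.BR3.SRef
open Fermat.Agent.BR3.SRef.Modular Fermat.Agent.BR3.FibreProd Fermat.Agent.BR3.SDD
open Fermat.Agent.BR3.SepN Fermat.Agent.BR3.SepNSDD Fermat.Agent.BR3.SepNKummer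
open Fermat.Agent.BR.TwoVal

variable {M q : ℕ} [NeZero M] [hq : Fact q.Prime]
variable {B : ValuationSubring (AlgebraicClosure ℚ)} {hB : B.LiesOverPrime q} {hqM : ¬ q ∣ M}
variable [IsAlgClosed (ResidueField B)]

local notation "kB" => IsLocalRing.ResidueField B
local notation "FtM" => modularFunctionFieldFullC (IsLocalRing.ResidueField B) M
local notation "Kb" => AlgebraicClosure ℚ

/-- (shortcut instance: the search through the generic instances costs seconds per declaration) -/
local instance (priority := 100000) instAlgebraFtMShortcut :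
    Algebra (IsLocalRing.ResidueField B)
      (modularFunctionFieldFullC (IsLocalRing.ResidueField B) M) :=
  inferInstance

variable (Dt : ModularData M q B hB hqM)
  (a₀ b₀ : Crossing (chartDataModular B hB hqM) → AlgebraicClosure ℚ)
  (hadma : ∀ e, (inputs Dt).adm e (a₀ e)) (hadmb : ∀ e, (inputs Dt).adm e (b₀ e))
  {Mid KP : Type} {Ft : Comp Mid (Crossing (chartDataModular B hB hqM)) → Type}
  [∀ v, Field (Ft v)] [∀ v, Algebra (ResidueField B) (Ft v)]
  (I : Input (F := Fb (M * q * q)) B Mid (Crossing (chartDataModular B hB hqM)) KP Ft)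
  (hα : (alpha2 M q).toRingHom.IsIntegral) (hβ : (beta2 M q).toRingHom.IsIntegral)

/-- **The separation inputs of `S''` at level `M q²`.** -/
def sepInputModular
    (Fr : Crossing (chartDataModular B hB hqM) → Crossing (chartDataModular B hB hqM))
    -- (O)
    (hInfA : ((I.C cInf).O).comap (alpha2 M q : Fb (M * q) →+* Fb (M * q * q)) = O1 M B hB)
    (hMidA : ∀ i, ((I.C (mid i)).O).comap (alpha2 M q : Fb (M * q) →+* Fb (M * q * q)) =
      O1 M B hB)
    (hZeroA : ((I.C cZero).O).comap (alpha2 M q : Fb (M * q) →+* Fb (M * q * q)) =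
      O2 B hB hqM)
    (hZeA : ∀ e, ((I.C (ze e)).O).comap (alpha2 M q : Fb (M * q) →+* Fb (M * q * q)) =
      ringE Dt a₀ hadma e)
    (hInfB : ((I.C cInf).O).comap (beta2 M q : Fb (M * q) →+* Fb (M * q * q)) = O1 M B hB)
    (hMidB : ∀ i, ((I.C (mid i)).O).comap (beta2 M q : Fb (M * q) →+* Fb (M * q * q)) =
      O2 B hB hqM)
    -- (T)
    (tube_a_nT : ∀ e, ∀ P ∈ tube I.setup (nT e), P.restrictAlong (alpha2 M q) hα ∈
      tube (srefM Dt a₀ hadma) (outer (inputs Dt) a₀ hadma e))
    (tube_a_nk : ∀ e s, ∀ P ∈ tube I.setup (nk e s), P.restrictAlong (alpha2 M q) hα ∈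
      tube (srefM Dt a₀ hadma) (outer (inputs Dt) a₀ hadma e))
    (tube_a_nW : ∀ e, ∀ P ∈ tube I.setup (nW e), P.restrictAlong (alpha2 M q) hα ∈
      tube (srefM Dt a₀ hadma) (inner (inputs Dt) a₀ hadma e))
    (tube_b_nT : ∀ e, ∀ P ∈ tube I.setup (nT e), P.restrictAlong (beta2 M q) hβ ∈
      tube (srefM Dt b₀ hadmb) (outer (inputs Dt) b₀ hadmb (Fr e)))
    (tube_b_nk : ∀ e s, ∀ P ∈ tube I.setup (nk e s), P.restrictAlong (beta2 M q) hβ ∈
      tube (srefM Dt b₀ hadmb) (inner (inputs Dt) b₀ hadmb (Fr e)))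
    -- the Kummer nodes
    (sep_nk : ∀ e s s', s ≠ s' → Separated I.setup (nk e s) (nk e s'))
    (sepComp_nk : ∀ e s i, i ≠ I.comp e s → SepComp I.setup (nk e s) (mid i)) :
    SepInput I (inputs Dt) a₀ hadma (inputs Dt) b₀ hadmb (alpha2 M q) hα (beta2 M q) hβ where
  ea := id
  ea_injective := Function.injective_id
  eb := Fr
  canA := 0
  etA := 1
  canA_ne := by decide
  src_a := fun e => setup_src Dt e
  tgt_a := fun e => setup_tgt Dt e
  canB := 0
  etB := 1
  canB_ne := by decide
  src_b := fun e => setup_src Dt (Fr e)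
  tgt_b := fun e => setup_tgt Dt (Fr e)
  tube_a_nT := tube_a_nT
  tube_a_nk := tube_a_nk
  tube_a_nW := tube_a_nW
  tube_b_nT := tube_b_nT
  tube_b_nk := tube_b_nk
  O_a_cInf := fun y hy => by
    have h : y ∈ ((I.C cInf).O).comap (alpha2 M q : Fb (M * q) →+* Fb (M * q * q)) := by
      rw [hInfA]; exact hy
    rw [ValuationSubring.mem_comap, RingHom.coe_coe] at h
    exact h
  O_a_mid := fun i y hy => by
    have h : y ∈ ((I.C (mid i)).O).comap (alpha2 M q : Fb (M * q) →+* Fb (M * q * q)) := by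
      rw [hMidA i]; exact hy
    rw [ValuationSubring.mem_comap, RingHom.coe_coe] at h
    exact h
  O_a_cZero := fun y hy => by
    have h : y ∈ ((I.C cZero).O).comap (alpha2 M q : Fb (M * q) →+* Fb (M * q * q)) := by
      rw [hZeroA]; exact hy
    rw [ValuationSubring.mem_comap, RingHom.coe_coe] at h
    exact h
  O_a_ze := fun e y hy => by
    have h : y ∈ ((I.C (ze e)).O).comap (alpha2 M q : Fb (M * q) →+* Fb (M * q * q)) := by
      rw [hZeA e]; exact hy
    rw [ValuationSubring.mem_comap, RingHom.coe_coe] at h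
    exact h
  O_b_cInf := fun y hy => by
    have h : y ∈ ((I.C cInf).O).comap (beta2 M q : Fb (M * q) →+* Fb (M * q * q)) := by
      rw [hInfB]; exact hy
    rw [ValuationSubring.mem_comap, RingHom.coe_coe] at h
    exact h
  O_b_mid := fun i y hy => by
    have h : y ∈ ((I.C (mid i)).O).comap (beta2 M q : Fb (M * q) →+* Fb (M * q * q)) := by
      rw [hMidB i]; exact hy
    rw [ValuationSubring.mem_comap, RingHom.coe_coe] at h
    exact h
  sep_nk := sep_nk
  sepComp_nk := sepComp_nk

/-- **The separation inputs of `S''` at level `M q²`**, with the Kummer fields discharged by the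
Kummer function `Θ e` (`SepNKummer`). -/
def sepInputModularOfTheta
    (Fr : Crossing (chartDataModular B hB hqM) → Crossing (chartDataModular B hB hqM))
    (hInfA : ((I.C cInf).O).comap (alpha2 M q : Fb (M * q) →+* Fb (M * q * q)) = O1 M B hB)
    (hMidA : ∀ i, ((I.C (mid i)).O).comap (alpha2 M q : Fb (M * q) →+* Fb (M * q * q)) =
      O1 M B hB)
    (hZeroA : ((I.C cZero).O).comap (alpha2 M q : Fb (M * q) →+* Fb (M * q * q)) =
      O2 B hB hqM)
    (hZeA : ∀ e, ((I.C (ze e)).O).comap (alpha2 M q : Fb (M * q) →+* Fb (M * q * q)) =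
      ringE Dt a₀ hadma e)
    (hInfB : ((I.C cInf).O).comap (beta2 M q : Fb (M * q) →+* Fb (M * q * q)) = O1 M B hB)
    (hMidB : ∀ i, ((I.C (mid i)).O).comap (beta2 M q : Fb (M * q) →+* Fb (M * q * q)) =
      O2 B hB hqM)
    (tube_a_nT : ∀ e, ∀ P ∈ tube I.setup (nT e), P.restrictAlong (alpha2 M q) hα ∈
      tube (srefM Dt a₀ hadma) (outer (inputs Dt) a₀ hadma e))
    (tube_a_nk : ∀ e s, ∀ P ∈ tube I.setup (nk e s), P.restrictAlong (alpha2 M q) hα ∈
      tube (srefM Dt a₀ hadma) (outer (inputs Dt) a₀ hadma e))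
    (tube_a_nW : ∀ e, ∀ P ∈ tube I.setup (nW e), P.restrictAlong (alpha2 M q) hα ∈
      tube (srefM Dt a₀ hadma) (inner (inputs Dt) a₀ hadma e))
    (tube_b_nT : ∀ e, ∀ P ∈ tube I.setup (nT e), P.restrictAlong (beta2 M q) hβ ∈
      tube (srefM Dt b₀ hadmb) (outer (inputs Dt) b₀ hadmb (Fr e)))
    (tube_b_nk : ∀ e s, ∀ P ∈ tube I.setup (nk e s), P.restrictAlong (beta2 M q) hβ ∈
      tube (srefM Dt b₀ hadmb) (inner (inputs Dt) b₀ hadmb (Fr e)))
    (hdeg : ∀ P : Place (AlgebraicClosure ℚ) (Fb (M * q * q)), P.deg = 1)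
    (Θ : Crossing (chartDataModular B hB hqM) → Fb (M * q * q))
    (c : Crossing (chartDataModular B hB hqM) → KP → ResidueField B)
    (hc : ∀ e, Function.Injective (c e))
    (hmid : ∀ e i, Θ e ∈ (I.C (mid i)).O) (hze : ∀ e, Θ e ∈ (I.C (ze e)).O)
    (hpole : ∀ e s, ∀ P ∈ tube I.setup (nk e s), 0 ≤ P.ord (Θ e))
    (hval : ∀ e s, IsValueAt (I.s₂ (nk e s)) ((I.C (ze e)).res ⟨Θ e, hze e⟩) (c e s))
    (hall : ∀ e i, ∃ s, I.comp e s = i) :
    SepInput I (inputs Dt) a₀ hadma (inputs Dt) b₀ hadmb (alpha2 M q) hα (beta2 M q) hβ :=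
  sepInputModular Dt a₀ b₀ hadma hadmb I hα hβ Fr hInfA hMidA hZeroA hZeA hInfB hMidB
    tube_a_nT tube_a_nk tube_a_nW tube_b_nT tube_b_nk
    (sep_nk_of_theta I hdeg Θ c hc hmid hze hpole hval)
    (sepComp_nk_of_theta I hdeg Θ c hc hmid hze hpole hval hall)

end Fermat.Agent.BR3.SepNModular
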