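/-
Program C (S36), node I7, piece (W3), bookkeeping (helper12): the field `branch_injective` of
`SDD.Input` from the facts on each component:

* the supersingular points of `cInf` (resp. `cZero`) are pairwise different;
* the Kummer places `(e, s) ↦ (mid (comp e s), s₁ (nk e s))` are pairwise different;
* on `ze e` the points `s₁ (nW e)` (`V = ∞`), `s₂ (nT e)` (`V = -1`) and `s₂ (nk e s)` (over
  `V = 0`) are pairwise different.
-/
import Mathlib
import Fermat.Agent.BR3.SDD.Skeleton

set_option autoImplicit false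
set_option linter.unusedSectionVars false

namespace Fermat.Agent.BR3.SepNBranchInj

open AlgebraicCurve Fermat.Agent.BR3.SDD

variable {k : Type*} [Field k] {Mid SSp KP : Type} {Ft : Comp Mid SSp → Type}
  [∀ v, Field (Ft v)] [∀ v, Algebra k (Ft v)] (comp : SSp → KP → Mid)
  (s₁ : ∀ x : Node SSp KP, Place k (Ft (src comp x)))
  (s₂ : ∀ x : Node SSp KP, Place k (Ft (tgt (Mid := Mid) x)))

/-- **The field `branch_injective` of `SDD.Input`**, component by component. -/
theorem branch_injective_of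
    (hInf : ∀ e e', s₁ (nT e) = s₁ (nT e') → e = e')
    (hZero : ∀ e e', s₂ (nW e) = s₂ (nW e') → e = e')
    (hK : ∀ e s e' s', (⟨src comp (nk e s), s₁ (nk e s)⟩ : Σ v, Place k (Ft v)) =
      ⟨src comp (nk e' s'), s₁ (nk e' s')⟩ → e = e' ∧ s = s')
    (hWT : ∀ e, s₁ (nW e) ≠ s₂ (nT e))
    (hWK : ∀ e s, s₁ (nW e) ≠ s₂ (nk e s))
    (hTK : ∀ e s, s₂ (nT e) ≠ s₂ (nk e s))
    (hKK : ∀ e s s', s₂ (nk e s) = s₂ (nk e s') → s = s') :
    Function.Injective
      (Sum.elim (fun x => (⟨src comp x, s₁ x⟩ : Σ v, Place k (Ft v)))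
        (fun x => ⟨tgt x, s₂ x⟩)) := by
  -- the points of `ze e`
  have hze : ∀ (e e' : SSp) (Q : Place k (Ft (ze e))) (Q' : Place k (Ft (ze e'))),
      (⟨ze e, Q⟩ : Σ v, Place k (Ft v)) = ⟨ze e', Q'⟩ → ∃ h : e = e', h ▸ Q = Q' := by
    intro e e' Q Q' h
    have h1 : e = e' := Sum.inr.inj (congrArg Sigma.fst h)
    subst h1
    exact ⟨rfl, eq_of_heq (Sigma.mk.inj h).2⟩
  rintro (⟨e, (_ | _) | s⟩ | ⟨e, (_ | _) | s⟩) (⟨e', (_ | _) | s'⟩ | ⟨e', (_ | _) | s'⟩) h
  -- source of `nT e` : a point of `cInf`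
  · have h2 : s₁ (nT e) = s₁ (nT e') := eq_of_heq (Sigma.mk.inj h).2
    rw [hInf e e' h2]
  · exact absurd (congrArg Sigma.fst h) (by simp [src, cInf, ze])
  · exact absurd (congrArg Sigma.fst h) (by simp [src, cInf, mid])
  · exact absurd (congrArg Sigma.fst h) (by simp [src, tgt, cInf, ze])
  · exact absurd (congrArg Sigma.fst h) (by simp [src, tgt, cInf, cZero])
  · exact absurd (congrArg Sigma.fst h) (by simp [src, tgt, cInf, ze])
  -- source of `nW e` : the point `V = ∞` of `ze e`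
  · exact absurd (congrArg Sigma.fst h) (by simp [src, cInf, ze])
  · obtain ⟨h1, -⟩ := hze e e' (s₁ (nW e)) (s₁ (nW e')) h
    rw [h1]
  · exact absurd (congrArg Sigma.fst h) (by simp [src, mid, ze])
  · obtain ⟨h1, h2⟩ := hze e e' (s₁ (nW e)) (s₂ (nT e')) h
    subst h1
    exact absurd h2 (hWT e)
  · exact absurd (congrArg Sigma.fst h) (by simp [src, tgt, cZero, ze])
  · obtain ⟨h1, h2⟩ := hze e e' (s₁ (nW e)) (s₂ (nk e' s')) h
    subst h1
    exact absurd h2 (hWK e s')
  -- source of `nk e s` : a Kummer place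
  · exact absurd (congrArg Sigma.fst h) (by simp [src, cInf, mid])
  · exact absurd (congrArg Sigma.fst h) (by simp [src, mid, ze])
  · obtain ⟨h1, h2⟩ := hK e s e' s' h
    rw [h1, h2]
  · exact absurd (congrArg Sigma.fst h) (by simp [src, tgt, mid, ze])
  · exact absurd (congrArg Sigma.fst h) (by simp [src, tgt, mid, cZero])
  · exact absurd (congrArg Sigma.fst h) (by simp [src, tgt, mid, ze])
  -- target of `nT e` : the point `V = -1` of `ze e`
  · exact absurd (congrArg Sigma.fst h) (by simp [src, tgt, cInf, ze])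
  · obtain ⟨h1, h2⟩ := hze e e' (s₂ (nT e)) (s₁ (nW e')) h
    subst h1
    exact absurd h2.symm (hWT e)
  · exact absurd (congrArg Sigma.fst h) (by simp [src, tgt, mid, ze])
  · obtain ⟨h1, -⟩ := hze e e' (s₂ (nT e)) (s₂ (nT e')) h
    rw [h1]
  · exact absurd (congrArg Sigma.fst h) (by simp [tgt, cZero, ze])
  · obtain ⟨h1, h2⟩ := hze e e' (s₂ (nT e)) (s₂ (nk e' s')) h
    subst h1
    exact absurd h2 (hTK e s')
  -- target of `nW e` : a point of `cZero`
  · exact absurd (congrArg Sigma.fst h) (by simp [src, tgt, cInf, cZero])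
  · exact absurd (congrArg Sigma.fst h) (by simp [src, tgt, cZero, ze])
  · exact absurd (congrArg Sigma.fst h) (by simp [src, tgt, mid, cZero])
  · exact absurd (congrArg Sigma.fst h) (by simp [tgt, cZero, ze])
  · have h2 : s₂ (nW e) = s₂ (nW e') := eq_of_heq (Sigma.mk.inj h).2
    rw [hZero e e' h2]
  · exact absurd (congrArg Sigma.fst h) (by simp [tgt, cZero, ze])
  -- target of `nk e s` : a point of `ze e` over `V = 0`
  · exact absurd (congrArg Sigma.fst h) (by simp [src, tgt, cInf, ze])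
  · obtain ⟨h1, h2⟩ := hze e e' (s₂ (nk e s)) (s₁ (nW e')) h
    subst h1
    exact absurd h2.symm (hWK e s)
  · exact absurd (congrArg Sigma.fst h) (by simp [src, tgt, mid, ze])
  · obtain ⟨h1, h2⟩ := hze e e' (s₂ (nk e s)) (s₂ (nT e')) h
    subst h1
    exact absurd h2.symm (hTK e s)
  · exact absurd (congrArg Sigma.fst h) (by simp [tgt, cZero, ze])
  · obtain ⟨h1, h2⟩ := hze e e' (s₂ (nk e s)) (s₂ (nk e' s')) h
    subst h1
    rw [hKK e s s' h2]

end Fermat.Agent.BR3.SepNBranchInj
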