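/-
Program C (S36), node I7, pieces (C2)/(W7) (helper12): `sep` and `sep_comp` for the stable model
`S'' = I.setup` (`I : SDD.Input A Mid SSp KP Ft`) in the literal shapes of `SDD.CircleData.sep` and
`CircleN.BranchDataN.sep_comp`, from

* (T) the tubes of the nodes of `S''` lie over the tubes of the nodes of `S'ref_a` along `a` and of
  `S'ref_b` along `b` (`nT e`, `nk e s ↦ outer (ea e)`, `nW e ↦ inner (ea e)` along `a`;
  `nT e ↦ outer (eb e)`, `nk e s`, `nW e ↦ inner (eb e)` along `b`);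
* (O) the components of `S''` lie over components of `S'ref_a`, `S'ref_b` (`cInf`, `mid i ↦ can`,
  `cZero ↦ et`, `ze e ↦ exc (ea e)` along `a`; `cInf ↦ can`, `cZero`, `mid i ↦ et` along `b`);
* the two direct inputs at the Kummer nodes (`nk e s` vs `nk e s'`, `nk e s` vs `mid i`).
-/
import Mathlib
import Fermat.Agent.BR3.SepNCover
import Fermat.Agent.BR3.SDD.Skeleton

set_option autoImplicit false
set_option linter.unusedSectionVars false

namespace Fermat.Agent.BR3.SepNSDD

open AlgebraicCurve IsLocalRing Fermat.Agent.Red Fermat.Agent.BR.SS Fermat.Agent.BR.Refine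
  Fermat.Agent.BR.Circle Fermat.Agent.BR3.CircleN Fermat.Agent.BR3.SRef Fermat.Agent.BR3.SepN
  Fermat.Agent.BR3.SepNCover Fermat.Agent.BR3.SDD

variable {K : Type} {Fa Fb F'' : Type*} [Field K] [Field Fa] [Field Fb] [Field F''] [Algebra K Fa]
  [Algebra K Fb] [Algebra K F''] {A : ValuationSubring K} [IsAlgClosed (ResidueField A)]
  {ιa : Type} {Fta : ιa → Type} [∀ v, Field (Fta v)] [∀ v, Algebra (ResidueField A) (Fta v)]
  {νa : Type}
  {ιb : Type} {Ftb : ιb → Type} [∀ v, Field (Ftb v)] [∀ v, Algebra (ResidueField A) (Ftb v)]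
  {νb : Type}
  {Sa : SemistableSetup (F := Fa) A (residue A) ιa Fta νa}
  {Sb : SemistableSetup (F := Fb) A (residue A) ιb Ftb νb}
  {Mid SSp KP : Type} {Ft : Comp Mid SSp → Type}
  [∀ v, Field (Ft v)] [∀ v, Algebra (ResidueField A) (Ft v)]

/-- **The separation inputs of `S''`**: the dictionaries (T), (O) along the two covers. -/
structure SepInput (I : Input (F := F'') A Mid SSp KP Ft)
    (Ia : CircleInputsN Sa) (a₀ : νa → K) (hadma : ∀ e, Ia.adm e (a₀ e))
    (Ib : CircleInputsN Sb) (b₀ : νb → K) (hadmb : ∀ e, Ib.adm e (b₀ e))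
    (a : Fa →ₐ[K] F'') (ha : a.toRingHom.IsIntegral) (b : Fb →ₐ[K] F'')
    (hb : b.toRingHom.IsIntegral) where
  /-- the crossing of `S'` under `e` along `a` -/
  ea : SSp → νa
  ea_injective : Function.Injective ea
  /-- the crossing of `S'` under `e` along `b` -/
  eb : SSp → νb
  /-- the components `can`, `et` of `S'` -/
  canA : ιa
  etA : ιa
  canA_ne : canA ≠ etA
  src_a : ∀ e, Sa.src (ea e) = canA
  tgt_a : ∀ e, Sa.tgt (ea e) = etA
  canB : ιb
  etB : ιb
  canB_ne : canB ≠ etB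
  src_b : ∀ e, Sb.src (eb e) = canB
  tgt_b : ∀ e, Sb.tgt (eb e) = etB
  -- (T) along `a`
  tube_a_nT : ∀ e, ∀ P ∈ tube I.setup (nT e),
    P.restrictAlong a ha ∈ tube (sref Ia a₀ hadma) (outer Ia a₀ hadma (ea e))
  tube_a_nk : ∀ e s, ∀ P ∈ tube I.setup (nk e s),
    P.restrictAlong a ha ∈ tube (sref Ia a₀ hadma) (outer Ia a₀ hadma (ea e))
  tube_a_nW : ∀ e, ∀ P ∈ tube I.setup (nW e),
    P.restrictAlong a ha ∈ tube (sref Ia a₀ hadma) (inner Ia a₀ hadma (ea e))
  -- (T) along `b`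
  tube_b_nT : ∀ e, ∀ P ∈ tube I.setup (nT e),
    P.restrictAlong b hb ∈ tube (sref Ib b₀ hadmb) (outer Ib b₀ hadmb (eb e))
  tube_b_nk : ∀ e s, ∀ P ∈ tube I.setup (nk e s),
    P.restrictAlong b hb ∈ tube (sref Ib b₀ hadmb) (inner Ib b₀ hadmb (eb e))
  -- (O) along `a`
  O_a_cInf : ∀ y ∈ Sa.O canA, a y ∈ (I.C cInf).O
  O_a_mid : ∀ i, ∀ y ∈ Sa.O canA, a y ∈ (I.C (mid i)).O
  O_a_cZero : ∀ y ∈ Sa.O etA, a y ∈ (I.C cZero).O
  O_a_ze : ∀ e, ∀ y ∈ circleRing (Ia.ch (ea e)).toCore (a₀ (ea e)) (hadma (ea e)).1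
    (hadma (ea e)).2, a y ∈ (I.C (ze e)).O
  -- (O) along `b`
  O_b_cInf : ∀ y ∈ Sb.O canB, b y ∈ (I.C cInf).O
  O_b_mid : ∀ i, ∀ y ∈ Sb.O etB, b y ∈ (I.C (mid i)).O
  -- the Kummer nodes
  sep_nk : ∀ e s s', s ≠ s' → Separated I.setup (nk e s) (nk e s')
  sepComp_nk : ∀ e s i, i ≠ I.comp e s → SepComp I.setup (nk e s) (mid i)

namespace SepInput

variable {I : Input (F := F'') A Mid SSp KP Ft}
  {Ia : CircleInputsN Sa} {a₀ : νa → K} {hadma : ∀ e, Ia.adm e (a₀ e)}
  {Ib : CircleInputsN Sb} {b₀ : νb → K} {hadmb : ∀ e, Ib.adm e (b₀ e)}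
  {a : Fa →ₐ[K] F''} {ha : a.toRingHom.IsIntegral} {b : Fb →ₐ[K] F''}
  {hb : b.toRingHom.IsIntegral}
  (X : SepInput I Ia a₀ hadma Ib b₀ hadmb a ha b hb)

/-- The node of `S'ref_a` under a node of `S''`. -/
def underA : Node SSp KP → νa ⊕ (oneLevel Ia a₀ hadma).X
  | (e, Sum.inl true) => inner Ia a₀ hadma (X.ea e)
  | (e, Sum.inl false) => outer Ia a₀ hadma (X.ea e)
  | (e, Sum.inr _) => outer Ia a₀ hadma (X.ea e)

/-- The node of `S'ref_b` under a node of `S''` (not needed at the wild node). -/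
def underB : Node SSp KP → Option (νb ⊕ (oneLevel Ib b₀ hadmb).X)
  | (_, Sum.inl true) => none
  | (e, Sum.inl false) => some (outer Ib b₀ hadmb (X.eb e))
  | (e, Sum.inr _) => some (inner Ib b₀ hadmb (X.eb e))

/-- The component of `S'ref_a` under a component of `S''`. -/
def compA : Comp Mid SSp → ιa ⊕ (oneLevel Ia a₀ hadma).X
  | Sum.inl (Sum.inl true) => old Ia a₀ hadma X.etA
  | Sum.inl (Sum.inl false) => old Ia a₀ hadma X.canA
  | Sum.inl (Sum.inr _) => old Ia a₀ hadma X.canA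
  | Sum.inr e => exc Ia a₀ hadma (X.ea e)

/-- The component of `S'ref_b` under a component of `S''` (only `cInf` and the `mid i`). -/
def compB : Comp Mid SSp → Option (ιb ⊕ (oneLevel Ib b₀ hadmb).X)
  | Sum.inl (Sum.inl true) => none
  | Sum.inl (Sum.inl false) => some (old Ib b₀ hadmb X.canB)
  | Sum.inl (Sum.inr _) => some (old Ib b₀ hadmb X.etB)
  | Sum.inr _ => none

/-- The dictionary along `a`. -/
def dictA : CoverDictN (sref Ia a₀ hadma) I.setup a ha where
  underNode := fun n => some (X.underA n)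
  underComp := fun w => some (X.compA w)
  tube_under := by
    rintro ⟨e, (_ | _) | s⟩ m hm P hP
    · cases Option.some.inj hm
      exact X.tube_a_nT e P hP
    · cases Option.some.inj hm
      exact X.tube_a_nW e P hP
    · cases Option.some.inj hm
      exact X.tube_a_nk e s P hP
  O_under := by
    rintro (((_ | _) | i) | e) v hv y hy
    · cases Option.some.inj hv
      exact X.O_a_cInf y hy
    · cases Option.some.inj hv
      exact X.O_a_cZero y hy
    · cases Option.some.inj hv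
      exact X.O_a_mid i y hy
    · cases Option.some.inj hv
      exact X.O_a_ze e y hy

/-- The dictionary along `b`. -/
def dictB : CoverDictN (sref Ib b₀ hadmb) I.setup b hb where
  underNode := X.underB
  underComp := X.compB
  tube_under := by
    rintro ⟨e, (_ | _) | s⟩ m hm P hP
    · cases Option.some.inj hm
      exact X.tube_b_nT e P hP
    · exact absurd hm (by simp [underB])
    · cases Option.some.inj hm
      exact X.tube_b_nk e s P hP
  O_under := by
    rintro (((_ | _) | i) | e) v hv y hy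
    · cases Option.some.inj hv
      exact X.O_b_cInf y hy
    · exact absurd hv (by simp [compB])
    · cases Option.some.inj hv
      exact X.O_b_mid i y hy
    · exact absurd hv (by simp [compB])

theorem baseNode_underA (n : Node SSp KP) :
    baseNode Ia a₀ hadma (X.underA n) = X.ea n.1 := by
  obtain ⟨e, (_ | _) | s⟩ := n <;> rfl

omit [IsAlgClosed (ResidueField A)] in
theorem outer_ne_inner {ι₀ : Type} {Ft₀ : ι₀ → Type} [∀ v, Field (Ft₀ v)]
    [∀ v, Algebra (ResidueField A) (Ft₀ v)] {ν₀ : Type} {F : Type*} [Field F] [Algebra K F]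
    [IsAlgClosed (ResidueField A)]
    {S₀ : SemistableSetup (F := F) A (residue A) ι₀ Ft₀ ν₀} (J : CircleInputsN S₀) (c₀ : ν₀ → K)
    (hadm : ∀ e, J.adm e (c₀ e)) (m m' : ν₀) :
    SRef.outer J c₀ hadm m ≠ SRef.inner J c₀ hadm m' :=
  Sum.inl_ne_inr

include X in
/-- **`sep` of `S''`** (the field `sep` of `SDD.CircleData`). -/
theorem sep (x x' : Node SSp KP) (hne : x ≠ x') : Separated I.setup x x' := by
  refine separated_of_two_srefs Ia a₀ hadma Ib b₀ hadmb X.dictA X.dictB ?_ x x' hne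
  intro n n' hnn hA hB
  -- the nodes under `n`, `n'` along `a` coincide
  have hA' : X.underA n = X.underA n' := by
    by_contra h
    exact hA ⟨_, _, rfl, rfl, h⟩
  have he : n.1 = n'.1 := by
    apply X.ea_injective
    rw [← X.baseNode_underA n, ← X.baseNode_underA n', hA']
  obtain ⟨e, t⟩ := n
  obtain ⟨e', t'⟩ := n'
  simp only at he
  subst he
  rcases t with (_ | _) | s <;> rcases t' with (_ | _) | s'
  · exact absurd rfl hnn
  · exact absurd hA' (outer_ne_inner Ia a₀ hadma _ _)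
  · -- `nT e` vs `nk e s'`: apart along `b`
    exact absurd ⟨_, _, rfl, rfl, outer_ne_inner Ib b₀ hadmb _ _⟩ hB
  · exact absurd hA'.symm (outer_ne_inner Ia a₀ hadma _ _)
  · exact absurd rfl hnn
  · exact absurd hA'.symm (outer_ne_inner Ia a₀ hadma _ _)
  · exact absurd ⟨_, _, rfl, rfl, (outer_ne_inner Ib b₀ hadmb _ _).symm⟩ hB
  · exact absurd hA' (outer_ne_inner Ia a₀ hadma _ _)
  · have hss : s ≠ s' := fun h => hnn (by rw [h])
    exact X.sep_nk e s s' hss

omit [IsAlgClosed (ResidueField A)] in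
theorem old_ne_exc {ι₀ : Type} {Ft₀ : ι₀ → Type} [∀ v, Field (Ft₀ v)]
    [∀ v, Algebra (ResidueField A) (Ft₀ v)] {ν₀ : Type} {F : Type*} [Field F] [Algebra K F]
    [IsAlgClosed (ResidueField A)]
    {S₀ : SemistableSetup (F := F) A (residue A) ι₀ Ft₀ ν₀} (J : CircleInputsN S₀) (c₀ : ν₀ → K)
    (hadm : ∀ e, J.adm e (c₀ e)) (v : ι₀) (m : ν₀) :
    SRef.old J c₀ hadm v ≠ SRef.exc J c₀ hadm m :=
  Sum.inl_ne_inr

omit [IsAlgClosed (ResidueField A)] in
theorem old_injective {ι₀ : Type} {Ft₀ : ι₀ → Type} [∀ v, Field (Ft₀ v)]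
    [∀ v, Algebra (ResidueField A) (Ft₀ v)] {ν₀ : Type} {F : Type*} [Field F] [Algebra K F]
    [IsAlgClosed (ResidueField A)]
    {S₀ : SemistableSetup (F := F) A (residue A) ι₀ Ft₀ ν₀} (J : CircleInputsN S₀) (c₀ : ν₀ → K)
    (hadm : ∀ e, J.adm e (c₀ e)) {v v' : ι₀} (h : SRef.old J c₀ hadm v = SRef.old J c₀ hadm v') :
    v = v' :=
  Sum.inl.inj h

omit [IsAlgClosed (ResidueField A)] in
theorem exc_injective {ι₀ : Type} {Ft₀ : ι₀ → Type} [∀ v, Field (Ft₀ v)]
    [∀ v, Algebra (ResidueField A) (Ft₀ v)] {ν₀ : Type} {F : Type*} [Field F] [Algebra K F]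
    [IsAlgClosed (ResidueField A)]
    {S₀ : SemistableSetup (F := F) A (residue A) ι₀ Ft₀ ν₀} (J : CircleInputsN S₀) (c₀ : ν₀ → K)
    (hadm : ∀ e, J.adm e (c₀ e)) {m m' : ν₀} (h : SRef.exc J c₀ hadm m = SRef.exc J c₀ hadm m') :
    m = m' :=
  congrArg Sigma.fst (Sum.inr.inj h)

include X in
/-- **`sep_comp` of `S''`** (the field `sep_comp` of `CircleN.BranchDataN` / `AnnulusChartN`). -/
theorem sepComp (x : Node SSp KP) (w : Comp Mid SSp) (h1 : w ≠ I.setup.src x)
    (h2 : w ≠ I.setup.tgt x) : SepComp I.setup x w := by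
  refine sepComp_of_two_srefs Ia a₀ hadma Ib b₀ hadmb X.dictA X.dictB ?_ x w h1 h2
  intro n v hv1 hv2 hA hB
  rw [Input.setup_src] at hv1
  rw [Input.setup_tgt] at hv2
  -- `CompApart` along `a`, unfolded
  have hA' : ¬ (X.compA v ≠ (sref Ia a₀ hadma).src (X.underA n) ∧
      X.compA v ≠ (sref Ia a₀ hadma).tgt (X.underA n)) := fun h => hA ⟨_, _, rfl, rfl, h.1, h.2⟩
  obtain ⟨e, t⟩ := n
  rcases t with (_ | _) | s
  · -- `nT e : cInf → ze e`, over `outer (ea e)`
    have hsrc : (sref Ia a₀ hadma).src (X.underA (e, Sum.inl false)) =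
        SRef.old Ia a₀ hadma X.canA := by
      change (sref Ia a₀ hadma).src (SRef.outer Ia a₀ hadma (X.ea e)) = _
      rw [sref_src_outer, X.src_a]
    have htgt : (sref Ia a₀ hadma).tgt (X.underA (e, Sum.inl false)) =
        SRef.exc Ia a₀ hadma (X.ea e) := sref_tgt_outer Ia a₀ hadma (X.ea e)
    rw [hsrc, htgt] at hA'
    rcases v with ((_ | _) | i) | e'
    · exact absurd rfl hv1
    · -- `cZero` lies over `et`
      exact absurd ⟨fun h => X.canA_ne (old_injective Ia a₀ hadma h).symm,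
        old_ne_exc Ia a₀ hadma _ _⟩ hA'
    · -- `mid i`: apart along `b`
      refine absurd ⟨_, _, rfl, rfl, ?_, ?_⟩ hB
      · rw [sref_src_outer, X.src_b]
        exact fun h => X.canB_ne (old_injective Ib b₀ hadmb h).symm
      · rw [sref_tgt_outer]
        exact old_ne_exc Ib b₀ hadmb _ _
    · -- `ze e'`, `e' ≠ e`
      have hee : e' ≠ e := fun h => hv2 (by rw [h]; rfl)
      exact absurd ⟨(old_ne_exc Ia a₀ hadma _ _).symm,
        fun h => hee (X.ea_injective (exc_injective Ia a₀ hadma h))⟩ hA'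
  · -- `nW e : ze e → cZero`, over `inner (ea e)`
    have hsrc : (sref Ia a₀ hadma).src (X.underA (e, Sum.inl true)) =
        SRef.exc Ia a₀ hadma (X.ea e) := sref_src_inner Ia a₀ hadma (X.ea e)
    have htgt : (sref Ia a₀ hadma).tgt (X.underA (e, Sum.inl true)) =
        SRef.old Ia a₀ hadma X.etA := by
      change (sref Ia a₀ hadma).tgt (SRef.inner Ia a₀ hadma (X.ea e)) = _
      rw [sref_tgt_inner, X.tgt_a]
    rw [hsrc, htgt] at hA'
    rcases v with ((_ | _) | i) | e'
    · exact absurd ⟨old_ne_exc Ia a₀ hadma _ _,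
        fun h => X.canA_ne (old_injective Ia a₀ hadma h)⟩ hA'
    · exact absurd rfl hv2
    · exact absurd ⟨old_ne_exc Ia a₀ hadma _ _,
        fun h => X.canA_ne (old_injective Ia a₀ hadma h)⟩ hA'
    · have hee : e' ≠ e := fun h => hv1 (by rw [h]; rfl)
      exact absurd ⟨fun h => hee (X.ea_injective (exc_injective Ia a₀ hadma h)),
        (old_ne_exc Ia a₀ hadma _ _).symm⟩ hA'
  · -- `nk e s : mid (comp e s) → ze e`, over `outer (ea e)`
    have hsrc : (sref Ia a₀ hadma).src (X.underA (e, Sum.inr s)) =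
        SRef.old Ia a₀ hadma X.canA := by
      change (sref Ia a₀ hadma).src (SRef.outer Ia a₀ hadma (X.ea e)) = _
      rw [sref_src_outer, X.src_a]
    have htgt : (sref Ia a₀ hadma).tgt (X.underA (e, Sum.inr s)) =
        SRef.exc Ia a₀ hadma (X.ea e) := sref_tgt_outer Ia a₀ hadma (X.ea e)
    rw [hsrc, htgt] at hA'
    rcases v with ((_ | _) | i) | e'
    · -- `cInf`: apart along `b` (over `can`, the node over `inner (eb e)`)
      refine absurd ⟨_, _, rfl, rfl, ?_, ?_⟩ hB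
      · rw [sref_src_inner]
        exact old_ne_exc Ib b₀ hadmb _ _
      · rw [sref_tgt_inner, X.tgt_b]
        exact fun h => X.canB_ne (old_injective Ib b₀ hadmb h)
    · exact absurd ⟨fun h => X.canA_ne (old_injective Ia a₀ hadma h).symm,
        old_ne_exc Ia a₀ hadma _ _⟩ hA'
    · -- another middle component: the direct input
      have hi : i ≠ I.comp e s := fun h => hv1 (by rw [h]; rfl)
      exact X.sepComp_nk e s i hi
    · have hee : e' ≠ e := fun h => hv2 (by rw [h]; rfl)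
      exact absurd ⟨(old_ne_exc Ia a₀ hadma _ _).symm,
        fun h => hee (X.ea_injective (exc_injective Ia a₀ hadma h))⟩ hA'

end SepInput

end Fermat.Agent.BR3.SepNSDD
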