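import Mathlib
import Fermat.Agent.BR3.SplitModularRef
import Fermat.Agent.BR3.SplitNode.ModT

/-!
# Program C (S36), node (N1-INST), part 6 (helper19): the missing input of the node `nT e`

`sheetHyp_levelsOutA : SheetHyp (SplitNode.levelsOutA B hB hqM h2 h3 e) (splitW M q g g') (1 : B)`
for a twisted triple `Hp : IsSSParam B hB hqM e g g' g''`, in the frame of the integrator
(`DtM`, `gaugeA`, `admA`): the input `H` of helper16's `SplitNode.nodeOutT` / `nodeOutA`
(`sheetHyp_levelsOutA'` : the same in the literal binder form of `nodeOutT`), and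

* **`nodeT`** : the data `NodeOut` of the node `nT e` of `S''` (`cInf` at `z₁ e` —— `z e` at
  `ptIBar`) from the twisted triple and the vertical component `(Z, resZ)` with `hred` alone;
  `nodeT_thick` (`= gaugeA e`, the field `hT` of the integrator), `nodeT_u`.
-/

set_option autoImplicit false
set_option linter.unusedSectionVars false
set_option linter.style.haveILetI false
set_option synthInstance.maxHeartbeats 400000
set_option maxHeartbeats 4000000

noncomputable section

namespace Fermat.Agent.BR3.SplitModularOutA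

open ModularCurve AlgebraicCurve IsLocalRing
open Fermat.Agent.X0 Fermat.Agent.Val Fermat.Agent.Red
open Fermat.Agent.BR.SS Fermat.Agent.BR.Refine
open Fermat.Agent.BR.S0 Fermat.Agent.BR.S0.RedModular Fermat.Agent.BR.S0.PointDict
open Fermat.Agent.BR3.SDD.Modular Fermat.Agent.BR3.SplitNode Fermat.Agent.BR3.SplitModularRef
open Fermat.Agent.BR3.SplitLevels Fermat.Agent.BR3.FibreProd Fermat.Agent.BR3.SSParam
open Fermat.Agent.BR3.SplitCompsCInf

variable {M q : ℕ} [NeZero M] [hq : Fact q.Prime]
variable (B : ValuationSubring Kb) (hB : B.LiesOverPrime q) (hqM : ¬ q ∣ M)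
variable [IsAlgClosed (ResidueField B)] [CharP (ResidueField B) q]

local notation "kB" => ResidueField B

/-- (shortcut instance) -/
local instance (priority := 100000) instAlgebraFtMShortcutOutA :
    Algebra kB (modularFunctionFieldFullC kB M) :=
  inferInstance

/-- the cover along `α₂` -/
local instance instAlgAlpha2OutA : Algebra (Fb (M * q)) (Fb (M * q * q)) :=
  algebraAlong (alpha2 M q)

local instance instTowerAlpha2OutA : IsScalarTower Kb (Fb (M * q)) (Fb (M * q * q)) :=
  isScalarTower_along (alpha2 M q)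

local instance instFiniteAlpha2OutA : Module.Finite (Fb (M * q)) (Fb (M * q * q)) :=
  Fermat.Agent.Hecke.finiteAlong_heckeAlphaBar (M * q) q

variable (h2 : nuTwo M = 0) (h3 : nuThree M = 0) (e : Crossing (chartDataModular B hB hqM))
  {g g' g'' : Fb M} (Hp : IsSSParam B hB hqM e g g' g'')

include Hp in
/-- **The sheet hypotheses of the node `nT e` over the outer node of `S'ref_a`** in the frame of the
integrator: the input `H` of `SplitNode.nodeOutT`. -/
theorem sheetHyp_levelsOutA :
    SheetHyp (levelsOutA B hB hqM h2 h3 e) (splitW M q g g') (1 : B) :=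
  sheetHyp_outerRef B hB hqM (gaugeA q B hB hqM) (admA B hB hqM h2 h3) e
    (hg_of_isGaugeA B hB hqM (gaugeA q B hB hqM) e (isGaugeA B hB hqM h2 h3)) h2 h3 Hp


include Hp in
/-- the same, in the literal binder form of the input `H` of `SplitNode.nodeOutT` -/
theorem sheetHyp_levelsOutA' :
    letI := algebraAlong (alpha2 M q)
    haveI := isScalarTower_along (alpha2 M q)
    haveI : Module.Finite (Fb (M * q)) (Fb (M * q * q)) :=
      Fermat.Agent.Hecke.finiteAlong_heckeAlphaBar (M * q) q
    SheetHyp (levelsOutA B hB hqM h2 h3 e) (splitW M q g g') (1 : B) :=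
  sheetHyp_levelsOutA B hB hqM h2 h3 e Hp

/-! ### The node `nT e` -/

section Node

open Fermat.Agent.BR3.VertSheet Fermat.Agent.BR3.VertResidue Fermat.Agent.BR3.CInfRes
open Fermat.Agent.BR.Circle Fermat.Agent.BR3.SRef Fermat.Agent.BR3.SRef.Modular
open Fermat.Agent.BR3.CircleN Fermat.Agent.BR3.CoverSmooth Fermat.Agent.BR3.VertPtsDef
open Fermat.Agent.BR2.SetupOfData Fermat.Agent.BR3.HeckePoly

variable {β ρ : ResidueField B} [Fact (Irreducible (vertBar q β ρ))]
  {Z : ValuationSubring (Fb (M * q * q))} {resZ : Z →+* AdjoinRoot (vertBar q β ρ)}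
  (Hv : VertComp (core (DtM B hB hqM) e) (gaugeA q B hB hqM e) (admA B hB hqM h2 h3 e).1
    (admA B hB hqM h2 h3 e).2 Z resZ
    (Ug M q g / alpha2 M q (algebraMap Kb (Fb (M * q)) (gaugeA q B hB hqM e))))
  (hβ : β ≠ 0) (hρ : ρ ≠ 0)
  (hred : IsRed (core (DtM B hB hqM) e) (gaugeA q B hB hqM e)
    ((gaugeA q B hB hqM e)⁻¹ • (heckeAlphaBar Kb M q g - heckeBetaBar Kb M q g' ^ q))
    (RatFunc.C β * RatFunc.X))

/-- **(N1-INST) The data of the node `nT e` of `S''`**, hypothesis-free up to the vertical
component: `SplitNode.nodeOutT` with the sheet hypotheses discharged. -/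
def nodeT :=
  nodeOutT B hB hqM h2 h3 e Hp (sheetHyp_levelsOutA' B hB hqM h2 h3 e Hp) Hv hβ hρ hred

/-- **(G3) `hT`** : the thickness of the levels of `nT e` is the gauge `gaugeA e` -/
theorem nodeT_thick :
    (nodeT B hB hqM h2 h3 e Hp Hv hβ hρ hred).L.thick = gaugeA q B hB hqM e :=
  nodeOutT_thick B hB hqM h2 h3 e Hp (sheetHyp_levelsOutA' B hB hqM h2 h3 e Hp) Hv hβ hρ hred

end Node

end Fermat.Agent.BR3.SplitModularOutA
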