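/-
Program C (S36), node (N2-TWO), part 1 (helper12): the Kummer node at `q = 2` is the SECOND SPLIT
SHEET of the vertical polynomial.

`Φ = Φ_q`, `(x, y)` a zero of `Φ`, `c := -(y - x^q)`, `t := q / c^(q+1)`, `W = U / c` with minimal
polynomial `vertScaled Φ_q q x y c` (setting of `BR3/SplitPoly`, `BR3/SplitCoord`, helper19).

* `exists_lift_vertScaled_form` : over a base ring `R ∋ x, y, t` the scaled vertical polynomial is
  `X^q - X^(q-1) + t · G`, `G ∈ R[X]` (so `≡ X^(q-1) (X - 1)` modulo `t`), monic;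
* `exists_lift_vertScaled_two` : for `q = 2` a monic `P` with `P(0) ∈ (t)` and `P'(0) ∈ -1 + (t)`:
  `0` is a SIMPLE root modulo `t` (for `q = 2`, `P ≡ X (X - 1)`); `…_subring`;
* **`sheetHyp_of_vertScaled_two`** : `SplitLevels.SheetHyp L' W (0 : A)` at `q = 2` — the sheet
  `W ≡ 0` over the outer sub-annulus: the node `nk e ()` (the sheet `W ≡ 1` is `nT e`,
  `SplitCoord.sheetHyp_of_vertScaled`).
-/
import Mathlib
import Fermat.Agent.BR3.SplitCoord

set_option autoImplicit false
set_option linter.unusedSectionVars false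
set_option linter.style.haveILetI false

noncomputable section

namespace Fermat.Agent.BR3.SplitNodeTwo

open Polynomial Finset Fermat.Agent.BR.Kron Fermat.Agent.BR3.VertTaylor
  Fermat.Agent.BR3.SplitPoly
open scoped Polynomial.Bivariate

/-! ### The form of the scaled vertical polynomial over a base ring -/

section Form

variable {R K : Type*} [CommRing R] [Field K] (f : R →+* K) (q : ℕ) [NeZero q]

/-- **The scaled vertical polynomial over a base ring is `X^q - X^(q-1) + t · G`.** -/
theorem exists_lift_vertScaled_form (hf : Function.Injective f) (hq : q.Prime) (x y t : R)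
    (hc : f (y - x ^ q) ≠ 0) (ht : t * (-(y - x ^ q)) ^ (q + 1) = (q : R))
    (h0 : (phiK q K).evalEval (f x) (f y) = 0) :
    ∃ G : R[X], (X ^ q - X ^ (q - 1) + C t * G : R[X]).Monic ∧
      (X ^ q - X ^ (q - 1) + C t * G : R[X]).map f =
        vertScaled (phiK q K) q (f x) (f y) (f (-(y - x ^ q))) := by
  set c : R := -(y - x ^ q) with hcdef
  set r : R := (psiK q R).evalEval x y with hr
  have hfc : f c ≠ 0 := by
    rw [hcdef, map_neg, neg_ne_zero]
    exact hc
  obtain ⟨H, hH⟩ := (mem_lifts _).mp (vertH_mem_lifts f (psiK q R) q x y)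
  rw [psiK_map] at hH
  have hft : f t * f c ^ (q + 1) = (q : K) := by
    have := congrArg f ht
    rwa [map_mul, map_pow, map_natCast] at this
  have hfr : f r = (psiK q K).evalEval (f x) (f y) := map_psiK_evalEval q f x y
  have hform : (X ^ q - X ^ (q - 1) + C t * (C r + C c * H.comp (C c * X)) : R[X]) =
      X ^ q - X ^ (q - 1) + C (r * t) + C (t * c) * H.comp (C c * X) := by
    rw [C_mul, C_mul]
    ring
  have himg : (X ^ q - X ^ (q - 1) + C (r * t) + C (t * c) * H.comp (C c * X)).map f =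
      vertScaled (phiK q K) q (f x) (f y) (f c) := by
    rw [vertScaled_eq hq (phiK_eq q hq K) (f y) hfc]
    have hB : vertB q (f x) (f y) (f c) = -1 := by
      rw [vertB, hcdef, map_neg, map_sub, map_pow, div_neg, div_self]
      rw [← map_pow, ← map_sub]
      exact hc
    have hAB := vertA_mul_vertB (phiK_eq q hq K) h0 (f c)
    rw [hB, mul_neg_one, neg_div, neg_inj] at hAB
    have hA : vertA q (f x) (f y) (f c) = f r * f t := by
      rw [hAB, hfr, ← hft]
      field_simp
    have hE : (q : K) / f c ^ q = f t * f c := by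
      rw [← hft, pow_succ]
      field_simp
    rw [hB, hA, vertE, hE, ← hH]
    simp only [Polynomial.map_add, Polynomial.map_sub, Polynomial.map_mul, Polynomial.map_pow,
      Polynomial.map_X, Polynomial.map_C, Polynomial.map_comp, map_mul, C_neg, C_1]
    ring
  refine ⟨C r + C c * H.comp (C c * X), ?_, ?_⟩
  · rw [hform]
    apply Polynomial.monic_of_injective hf
    rw [himg]
    have hmon : (outerAt (phiK q K) (f x)).Monic := (phiK_monic q hq K).map _
    have hdeg : (outerAt (phiK q K) (f x)).natDegree = q + 1 := by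
      rw [outerAt, (phiK_monic q hq K).natDegree_map, phiK_natDegree q hq]
    exact vertScaled_monic hdeg hmon (f y) hfc
  · rw [hform]
    exact himg

end Form

/-! ### `q = 2` : the simple root `0` -/

section Two

variable {R K : Type*} [CommRing R] [Field K] (f : R →+* K)

/-- **`q = 2` : `0` is a simple root of the scaled vertical polynomial modulo `t`.** -/
theorem exists_lift_vertScaled_two (hf : Function.Injective f) (x y t : R)
    (hc : f (y - x ^ 2) ≠ 0) (ht : t * (-(y - x ^ 2)) ^ 3 = 2)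
    (h0 : (phiK 2 K).evalEval (f x) (f y) = 0) :
    ∃ P : R[X], P.Monic ∧
      P.map f = vertScaled (phiK 2 K) 2 (f x) (f y) (f (-(y - x ^ 2))) ∧
      (∃ g : R, P.eval 0 = t * g) ∧ ∃ g : R, (derivative P).eval 0 = -1 + t * g := by
  obtain ⟨G, hmon, hmap⟩ :=
    exists_lift_vertScaled_form f 2 hf Nat.prime_two x y t hc (by rw [ht]; norm_num) h0
  refine ⟨X ^ 2 - X ^ (2 - 1) + C t * G, hmon, hmap, ⟨G.eval 0, ?_⟩, ⟨(derivative G).eval 0, ?_⟩⟩
  · simp only [eval_add, eval_sub, eval_mul, eval_pow, eval_X, eval_C]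
    norm_num
  · simp only [derivative_add, derivative_sub, derivative_mul, derivative_X_pow, derivative_C,
      eval_add, eval_sub, eval_mul, eval_pow, eval_X, eval_C, zero_mul, zero_add]
    norm_num

/-- `exists_lift_vertScaled_two` for a subring of a field. -/
theorem exists_lift_vertScaled_two_subring (R₀ : Subring K) {x y t : K} (hx : x ∈ R₀)
    (hy : y ∈ R₀) (ht : t ∈ R₀) (hc : y - x ^ 2 ≠ 0)
    (htq : t * (-(y - x ^ 2)) ^ 3 = 2)
    (h0 : (phiK 2 K).evalEval x y = 0) :
    ∃ P : R₀[X], P.Monic ∧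
      P.map R₀.subtype = vertScaled (phiK 2 K) 2 x y (-(y - x ^ 2)) ∧
      (∃ g : R₀, P.eval 0 = ⟨t, ht⟩ * g) ∧ ∃ g : R₀, (derivative P).eval 0 = -1 + ⟨t, ht⟩ * g :=
  exists_lift_vertScaled_two R₀.subtype Subtype.val_injective ⟨x, hx⟩ ⟨y, hy⟩ ⟨t, ht⟩ hc
    (Subtype.ext (by push_cast; exact htq)) h0

end Two

/-! ### The sheet hypotheses of the second split sheet at `q = 2` -/

section Sheet

open IsLocalRing AlgebraicCurve Fermat.Agent.Red Fermat.Agent.BR.Centre
  Fermat.Agent.BR.S0 Fermat.Agent.BR3.EtaleLocal Fermat.Agent.BR3.SplitLevel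
  Fermat.Agent.BR3.SplitLevels Fermat.Agent.BR3.SplitBranch Fermat.Agent.BR3.SplitNodeChart
  Fermat.Agent.BR3.SplitCoord Fermat.Agent.BR3.CoverSmooth

attribute [local instance] NodeLevel.isLocal NodeLevel.noeth NodeLevel.intClosed

variable {K F : Type*} [Field K] [Field F] [Algebra K F] {A : ValuationSubring K}
  {F₂ : Type*} [Field F₂] [Algebra K F₂] [Algebra F F₂] [IsScalarTower K F F₂]
  [Algebra.IsIntegral F F₂] [CharZero F₂]
  {T' : Set (Place K F)} {ι' : Type*} (L' : AnnulusLevels A T' ι')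

/-- **The sheet hypotheses of the SECOND split sheet `W = U / c ≡ 0` at `q = 2`** from the scaled
vertical polynomial (same inputs as `SplitCoord.sheetHyp_of_vertScaled`, which is the sheet
`W ≡ 1`): `(x, y)` a zero of `Φ_2` in every level, `c = -(y - x^2)`, the small parameter
`t = 2 / c^3` in the maximal ideal of every level, `W` with minimal polynomial
`vertScaled Φ_2 2 x y c` over `F`. -/
theorem sheetHyp_of_vertScaled_two (q : ℕ) [NeZero q] (hq2 : q = 2) {x y : F}
    (hx : ∀ i', x ∈ (L'.level i').R) (hy : ∀ i', y ∈ (L'.level i').R) (hc : y - x ^ q ≠ 0)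
    (ht : ∀ i', ∃ h : (q : F) * ((-(y - x ^ q)) ^ (q + 1))⁻¹ ∈ (L'.level i').R,
      (⟨(q : F) * ((-(y - x ^ q)) ^ (q + 1))⁻¹, h⟩ : (L'.level i').R) ∈
        maximalIdeal (L'.level i').R)
    (h0 : (phiK q F).evalEval x y = 0) {W : F₂}
    (hW : minpoly F W = vertScaled (phiK q F) q x y (-(y - x ^ q)))
    (hgen : ∀ z : F₂, ∃ p : F[X], aeval W p = z)
    (hfin : ∀ z : F₂, z ≠ 0 → {P : Place K F₂ | P.ord z ≠ 0}.Finite)
    (hhoriz : ∀ i' (χ : adjSub (L'.level i').R W →+* ResidueField (L'.level i').R)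
      (h1 : algebraMap K F ((0 : A) : K) ∈ (L'.level i').R),
      IsSheetPoint χ (⟨algebraMap K F ((0 : A) : K), h1⟩ : (L'.level i').R) →
      ∀ Q : Ideal (splitRing χ), Q.IsPrime → Q.height = 1 → toSplit χ (ϖR (L'.level i')) ∉ Q →
        ∃ P ∈ coverTube A T' W (0 : A), ∀ z : splitRing χ, z ∈ Q ↔ evalAt P (z : F₂) = 0) :
    SheetHyp L' W (0 : A) := by
  subst hq2
  set t : F := ((2 : ℕ) : F) * ((-(y - x ^ 2)) ^ (2 + 1))⁻¹ with htdef
  have hc' : (-(y - x ^ 2)) ^ (2 + 1) ≠ 0 := pow_ne_zero _ (neg_ne_zero.mpr hc)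
  have htq : t * (-(y - x ^ 2)) ^ 3 = 2 := by
    rw [htdef, mul_assoc, inv_mul_cancel₀ hc', mul_one]
    norm_num
  have hxR : x ∈ baseRing L' := (mem_baseRing_iff L').mpr hx
  have hyR : y ∈ baseRing L' := (mem_baseRing_iff L').mpr hy
  have htR : t ∈ baseRing L' := (mem_baseRing_iff L').mpr fun i' => (ht i').1
  obtain ⟨P, hPm, hPmap, ⟨g, hg⟩, ⟨g', hg'⟩⟩ :=
    exists_lift_vertScaled_two_subring (baseRing L') hxR hyR htR hc htq h0
  have hint : IsIntegral F W := Algebra.IsIntegral.isIntegral W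
  have h0R : algebraMap K F ((0 : A) : K) ∈ baseRing L' := by
    rw [show ((0 : A) : K) = 0 from rfl, map_zero]
    exact (baseRing L').zero_mem
  have h0eq : (⟨algebraMap K F ((0 : A) : K), h0R⟩ : baseRing L') = 0 := by
    apply Subtype.ext
    show algebraMap K F ((0 : A) : K) = ((0 : baseRing L') : F)
    rw [ZeroMemClass.coe_zero, map_zero, ZeroMemClass.coe_zero]
  refine SheetHyp.of_poly L' (baseRing L') (baseRing_le L') P hPm ?_ ?_ h0R ?_ ?_ hgen hfin
    (fun i' χ => hhoriz i' χ (baseRing_le L' i' h0R))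
  · -- irreducible over `F`
    rw [hPmap, ← hW]
    exact minpoly.irreducible hint
  · -- root
    have h2 : aeval W P = aeval W (P.map (algebraMap (baseRing L') F)) :=
      (aeval_map_algebraMap F W P).symm
    rw [h2, show algebraMap (baseRing L') F = (baseRing L').subtype from rfl, hPmap, ← hW]
    exact minpoly.aeval F W
  · -- the value at `0` is a non-unit of every level
    intro i'
    rw [h0eq, hg]
    intro hu
    have e : (⟨(((⟨t, htR⟩ : baseRing L') * g : baseRing L') : F),
        baseRing_le L' i' ((⟨t, htR⟩ : baseRing L') * g : baseRing L').2⟩ : (L'.level i').R) =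
        ⟨t, (ht i').1⟩ * ⟨(g : F), baseRing_le L' i' g.2⟩ := Subtype.ext rfl
    rw [e] at hu
    have hmem : (⟨t, (ht i').1⟩ * ⟨(g : F), baseRing_le L' i' g.2⟩ : (L'.level i').R) ∈
        maximalIdeal (L'.level i').R := Ideal.mul_mem_right _ _ (ht i').2
    exact (mem_maximalIdeal _).mp hmem hu
  · -- the derivative at `0` is a unit of the base ring
    rw [h0eq, hg']
    have hunit : ∀ i', IsUnit (-1 + ⟨t, (ht i').1⟩ * ⟨(g' : F), baseRing_le L' i' g'.2⟩ :
        (L'.level i').R) := by
      intro i'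
      have hmem : (⟨t, (ht i').1⟩ * ⟨(g' : F), baseRing_le L' i' g'.2⟩ : (L'.level i').R) ∈
          maximalIdeal (L'.level i').R := Ideal.mul_mem_right _ _ (ht i').2
      by_contra hnu
      have h1 : (1 : (L'.level i').R) ∈ maximalIdeal (L'.level i').R := by
        have h2 := Ideal.sub_mem _ hmem ((mem_maximalIdeal _).mpr hnu)
        simp at h2
      exact (Ideal.ne_top_iff_one _).mp (maximalIdeal.isMaximal _).ne_top h1
    have hunit' : ∀ i', (-1 : F) + t * (g' : F) ≠ 0 ∧
        ((-1 : F) + t * (g' : F))⁻¹ ∈ (L'.level i').R :=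
      fun i' => (isUnit_subring_iff (S := (L'.level i').R) (y := (-1 : F) + t * (g' : F))
        ((-1 + ⟨t, (ht i').1⟩ * ⟨(g' : F), baseRing_le L' i' g'.2⟩ : (L'.level i').R)).2).mp
        (hunit i')
    obtain ⟨i₀, -⟩ := L'.frac 0
    rw [isUnit_subring_iff]
    exact ⟨(hunit' i₀).1, (mem_baseRing_iff L').mpr fun i' => (hunit' i').2⟩

end Sheet

end Fermat.Agent.BR3.SplitNodeTwo
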