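/-
Program C (S36), node (N1-INST), `q = 2`: the SECOND split sheet `W ≡ 0` (helper7, for helper12's
`SplitNodeTwo`).  For `q = 2` the scaled vertical polynomial is `≡ X (X - 1)` modulo `t`, with the
two simple roots `1` (the sheet of `nT e`) and `0` (the second sheet over the outer node, which
replaces the Kummer sheets: `d = (q - 1)/2` is not an integer).

* `exists_lift_vertScaledAt_two` : the lift `Pw` of `SplitPolyTw.exists_lift_vertScaledAt` for
  `q = 2` with BOTH roots: `Pw(1) ∈ (t)`, `Pw'(1) ∈ 1 + (t)`, `Pw(0) ∈ (t)`, `Pw'(0) ∈ -1 + (t)`;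
  `exists_lift_vertScaledAt_two_subring`;
* `sheetHyp_of_vertScaledAt_zero` : `SplitLevels.SheetHyp L' W 0` for `q = 2`.
-/
import Mathlib
import Fermat.Agent.BR3.SplitCoordTw

set_option autoImplicit false
set_option linter.unusedSectionVars false
set_option linter.style.haveILetI false

noncomputable section

namespace Fermat.Agent.BR3.SplitPolyTwTwo

open Polynomial Finset Fermat.Agent.BR3.VertTaylor Fermat.Agent.BR3.VertTaylorAt
  Fermat.Agent.BR3.VertTaylorTw Fermat.Agent.BR3.SplitPoly Fermat.Agent.BR3.SplitPolyTw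

section Poly

variable {R K : Type*} [CommRing R] [Field K] (f : R →+* K)

/-- **The scaled vertical polynomial over a base ring, `q = 2`, with both simple roots.** -/
theorem exists_lift_vertScaledAt_two (hf : Function.Injective f)
    (x₁ x₂ y t : R) (Ψ : R[X])
    (hc : f (y - x₁ ^ 2) ≠ 0) (ht : t * (-(y - x₁ ^ 2)) ^ (2 + 1) = ((2 : ℕ) : R)) {P : K[X]}
    (hP : P = (X ^ 2 - C (f x₂)) * (X - C ((f x₁) ^ 2)) + C ((2 : ℕ) : K) * Ψ.map f)
    (hmon : P.Monic) (hdeg : P.natDegree = 2 + 1) (h0 : P.eval (f y) = 0) :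
    ∃ Pw : R[X], Pw.Monic ∧
      Pw.map f = vertScaledAt P 2 (f y) (f (-(y - x₁ ^ 2))) ∧
      (∃ g : R, Pw.eval 1 = t * g) ∧ (∃ g : R, (derivative Pw).eval 1 = 1 + t * g) ∧
      (∃ g : R, Pw.eval 0 = t * g) ∧ ∃ g : R, (derivative Pw).eval 0 = -1 + t * g := by
  have hq : (2 : ℕ).Prime := Nat.prime_two
  set c : R := -(y - x₁ ^ 2) with hcdef
  set r : R := Ψ.eval y with hr
  have hfc : f c ≠ 0 := by
    rw [hcdef, map_neg, neg_ne_zero]
    exact hc
  obtain ⟨H, hH⟩ := (mem_lifts _).mp (vertH₁_mem_lifts f 2 x₁ y)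
  obtain ⟨D, hD⟩ := (mem_lifts _).mp (vertPolyAt_mem_lifts f Ψ y)
  have hft : f t * f c ^ (2 + 1) = ((2 : ℕ) : K) := by
    have := congrArg f ht
    rwa [map_mul, map_pow, map_natCast] at this
  have hfr : f r = (Ψ.map f).eval (f y) := by
    rw [hr, Polynomial.eval_map_apply]
  have himg : (X ^ 2 - X ^ (2 - 1) + C (r * t) + C (t * c) * H.comp (C c * X) +
      C (t * c) * D.comp (C c * X)).map f = vertScaledAt P 2 (f y) (f c) := by
    rw [vertScaledAt_eq_tw hq hP (f y) hfc]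
    have hB : vertB 2 (f x₁) (f y) (f c) = -1 := by
      rw [vertB, hcdef, map_neg, map_sub, map_pow, div_neg, div_self]
      rw [← map_pow, ← map_sub]
      exact hc
    have hAB := vertA_mul_vertB_tw hP h0 (f c)
    rw [hB, mul_neg_one, neg_div, neg_inj] at hAB
    have hA : vertA 2 (f x₂) (f y) (f c) = f r * f t := by
      rw [hAB, hfr, ← hft]
      field_simp
    have hE : ((2 : ℕ) : K) / f c ^ 2 = f t * f c := by
      rw [← hft, pow_succ]
      field_simp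
    rw [hB, hA, vertETw, hE, ← hH, ← hD]
    simp only [Polynomial.map_add, Polynomial.map_sub, Polynomial.map_mul, Polynomial.map_pow,
      Polynomial.map_X, Polynomial.map_C, Polynomial.map_comp, map_mul, C_neg, C_1]
    ring
  refine ⟨X ^ 2 - X ^ (2 - 1) + C (r * t) + C (t * c) * H.comp (C c * X) +
    C (t * c) * D.comp (C c * X), ?_, himg, ?_, ?_, ?_, ?_⟩
  · apply Polynomial.monic_of_injective hf
    rw [himg]
    exact vertScaledAt_monic hdeg hmon (f y) hfc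
  · refine ⟨r + c * H.eval c + c * D.eval c, ?_⟩
    simp only [eval_add, eval_sub, eval_mul, eval_pow, eval_X, eval_C, eval_comp, one_pow,
      mul_one, sub_self, zero_add]
    ring
  · refine ⟨c * c * (derivative H).eval c + c * c * (derivative D).eval c, ?_⟩
    simp only [derivative_add, derivative_sub, derivative_mul, derivative_X_pow, derivative_C,
      derivative_comp, derivative_X, zero_mul, zero_add, add_zero, mul_one, eval_add, eval_sub,
      eval_mul, eval_pow, eval_X, eval_C, eval_comp, one_pow]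
    norm_num
    ring
  · refine ⟨r + c * H.eval 0 + c * D.eval 0, ?_⟩
    simp only [eval_add, eval_sub, eval_mul, eval_pow, eval_X, eval_C, eval_comp, mul_zero]
    norm_num
    ring
  · refine ⟨c * c * (derivative H).eval 0 + c * c * (derivative D).eval 0, ?_⟩
    simp only [derivative_add, derivative_sub, derivative_mul, derivative_X_pow, derivative_C,
      derivative_comp, derivative_X, zero_mul, zero_add, add_zero, mul_one, eval_add, eval_sub,
      eval_mul, eval_pow, eval_X, eval_C, eval_comp, mul_zero]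
    norm_num
    ring

/-- `exists_lift_vertScaledAt_two` for a subring of a field. -/
theorem exists_lift_vertScaledAt_two_subring (R₀ : Subring K)
    {x₁ x₂ y t : K} (hx₁ : x₁ ∈ R₀) (hx₂ : x₂ ∈ R₀) (hy : y ∈ R₀) (ht : t ∈ R₀) {Ψ₁ : K[X]}
    (hΨ : ∀ n, Ψ₁.coeff n ∈ R₀) (hc : y - x₁ ^ 2 ≠ 0)
    (htq : t * (-(y - x₁ ^ 2)) ^ (2 + 1) = ((2 : ℕ) : K)) {P : K[X]}
    (hP : P = (X ^ 2 - C x₂) * (X - C (x₁ ^ 2)) + C ((2 : ℕ) : K) * Ψ₁)
    (hmon : P.Monic) (hdeg : P.natDegree = 2 + 1) (h0 : P.eval y = 0) :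
    ∃ Pw : R₀[X], Pw.Monic ∧
      Pw.map R₀.subtype = vertScaledAt P 2 y (-(y - x₁ ^ 2)) ∧
      (∃ g : R₀, Pw.eval 1 = ⟨t, ht⟩ * g) ∧
      (∃ g : R₀, (derivative Pw).eval 1 = 1 + ⟨t, ht⟩ * g) ∧
      (∃ g : R₀, Pw.eval 0 = ⟨t, ht⟩ * g) ∧
      ∃ g : R₀, (derivative Pw).eval 0 = -1 + ⟨t, ht⟩ * g := by
  have hcoef : (↑Ψ₁.coeffs : Set K) ⊆ R₀ := by
    intro c hc
    obtain ⟨n, -, rfl⟩ := (Polynomial.mem_coeffs_iff).mp hc
    exact hΨ n
  have hmap : (Ψ₁.toSubring R₀ hcoef).map R₀.subtype = Ψ₁ := Polynomial.map_toSubring Ψ₁ R₀ hcoef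
  refine exists_lift_vertScaledAt_two R₀.subtype Subtype.val_injective ⟨x₁, hx₁⟩ ⟨x₂, hx₂⟩ ⟨y, hy⟩
    ⟨t, ht⟩ (Ψ₁.toSubring R₀ hcoef) hc
    (Subtype.ext (by
      have h := htq
      push_cast at h ⊢
      exact h)) ?_ hmon hdeg h0
  rw [hmap]
  exact hP

end Poly

/-! ### the sheet hypotheses of the second sheet -/

section Sheet

open IsLocalRing AlgebraicCurve Fermat.Agent.Red Fermat.Agent.BR.Centre
  Fermat.Agent.BR.S0 Fermat.Agent.BR3.EtaleLocal Fermat.Agent.BR3.SplitLevel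
  Fermat.Agent.BR3.SplitBranch Fermat.Agent.BR3.SplitNodeChart Fermat.Agent.BR3.SplitCoord
  Fermat.Agent.BR3.SplitLevels Fermat.Agent.BR3.CoverSmooth

attribute [local instance] NodeLevel.isLocal NodeLevel.noeth NodeLevel.intClosed

variable {K F : Type*} [Field K] [Field F] [Algebra K F]
  {A : ValuationSubring K}
  {F₂ : Type*} [Field F₂] [Algebra K F₂] [Algebra F F₂] [IsScalarTower K F F₂]
  [Algebra.IsIntegral F F₂] [CharZero F₂]
  {T' : Set (Place K F)} {ι' : Type*} (L' : AnnulusLevels A T' ι')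

/-- **The sheet hypotheses of the SECOND split sheet `W = U / c ≡ 0` for `q = 2`.** -/
theorem sheetHyp_of_vertScaledAt_zero {x₁ x₂ y : F} {Ψ₁ P : F[X]}
    (hx₁ : ∀ i', x₁ ∈ (L'.level i').R) (hx₂ : ∀ i', x₂ ∈ (L'.level i').R)
    (hy : ∀ i', y ∈ (L'.level i').R) (hΨ : ∀ i' n, Ψ₁.coeff n ∈ (L'.level i').R)
    (hc : y - x₁ ^ 2 ≠ 0)
    (ht : ∀ i', ∃ h : ((2 : ℕ) : F) * ((-(y - x₁ ^ 2)) ^ (2 + 1))⁻¹ ∈ (L'.level i').R,
      (⟨((2 : ℕ) : F) * ((-(y - x₁ ^ 2)) ^ (2 + 1))⁻¹, h⟩ : (L'.level i').R) ∈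
        maximalIdeal (L'.level i').R)
    (hP : P = (X ^ 2 - C x₂) * (X - C (x₁ ^ 2)) + C ((2 : ℕ) : F) * Ψ₁)
    (hmon : P.Monic) (hdeg : P.natDegree = 2 + 1) (h0 : P.eval y = 0) {W : F₂}
    (hW : minpoly F W = vertScaledAt P 2 y (-(y - x₁ ^ 2)))
    (hgen : ∀ z : F₂, ∃ p : F[X], aeval W p = z)
    (hfin : ∀ z : F₂, z ≠ 0 → {P : Place K F₂ | P.ord z ≠ 0}.Finite)
    (hhoriz : ∀ i' (χ : adjSub (L'.level i').R W →+* ResidueField (L'.level i').R)
      (h1 : algebraMap K F ((0 : A) : K) ∈ (L'.level i').R),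
      IsSheetPoint χ (⟨algebraMap K F ((0 : A) : K), h1⟩ : (L'.level i').R) →
      ∀ Q : Ideal (splitRing χ), Q.IsPrime → Q.height = 1 → toSplit χ (ϖR (L'.level i')) ∉ Q →
        ∃ P ∈ coverTube A T' W (0 : A), ∀ z : splitRing χ, z ∈ Q ↔ evalAt P (z : F₂) = 0) :
    SheetHyp L' W (0 : A) := by
  set t : F := ((2 : ℕ) : F) * ((-(y - x₁ ^ 2)) ^ (2 + 1))⁻¹ with htdef
  have hc' : (-(y - x₁ ^ 2)) ^ (2 + 1) ≠ 0 := pow_ne_zero _ (neg_ne_zero.mpr hc)
  have htq : t * (-(y - x₁ ^ 2)) ^ (2 + 1) = ((2 : ℕ) : F) := by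
    rw [htdef, mul_assoc, inv_mul_cancel₀ hc', mul_one]
  have hx₁R : x₁ ∈ baseRing L' := (mem_baseRing_iff L').mpr hx₁
  have hx₂R : x₂ ∈ baseRing L' := (mem_baseRing_iff L').mpr hx₂
  have hyR : y ∈ baseRing L' := (mem_baseRing_iff L').mpr hy
  have htR : t ∈ baseRing L' := (mem_baseRing_iff L').mpr fun i' => (ht i').1
  have hΨR : ∀ n, Ψ₁.coeff n ∈ baseRing L' := fun n =>
    (mem_baseRing_iff L').mpr fun i' => hΨ i' n
  obtain ⟨Pw, hPm, hPmap, -, -, ⟨g, hg⟩, ⟨g', hg'⟩⟩ :=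
    exists_lift_vertScaledAt_two_subring (baseRing L') hx₁R hx₂R hyR htR hΨR hc htq hP hmon hdeg h0
  have hint : IsIntegral F W := Algebra.IsIntegral.isIntegral W
  have h0R : algebraMap K F ((0 : A) : K) ∈ baseRing L' := by
    rw [show ((0 : A) : K) = 0 from rfl, map_zero]
    exact (baseRing L').zero_mem
  have h0eq : (⟨algebraMap K F ((0 : A) : K), h0R⟩ : baseRing L') = 0 := by
    apply Subtype.ext
    show algebraMap K F ((0 : A) : K) = ((0 : baseRing L') : F)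
    rw [ZeroMemClass.coe_zero, map_zero, ZeroMemClass.coe_zero]
  refine SheetHyp.of_poly L' (baseRing L') (baseRing_le L') Pw hPm ?_ ?_ h0R ?_ ?_ hgen hfin
    (fun i' χ => hhoriz i' χ (baseRing_le L' i' h0R))
  · rw [hPmap, ← hW]
    exact minpoly.irreducible hint
  · have h2 : aeval W Pw = aeval W (Pw.map (algebraMap (baseRing L') F)) :=
      (aeval_map_algebraMap F W Pw).symm
    rw [h2, show algebraMap (baseRing L') F = (baseRing L').subtype from rfl, hPmap, ← hW]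
    exact minpoly.aeval F W
  · intro i'
    rw [h0eq, hg]
    intro hu
    have e : (⟨(((⟨t, htR⟩ : baseRing L') * g : baseRing L') : F),
        baseRing_le L' i' ((⟨t, htR⟩ : baseRing L') * g : baseRing L').2⟩ : (L'.level i').R) =
        ⟨t, (ht i').1⟩ * ⟨(g : F), baseRing_le L' i' g.2⟩ := Subtype.ext rfl
    rw [e] at hu
    have hmem : (⟨t, (ht i').1⟩ * ⟨(g : F), baseRing_le L' i' g.2⟩ : (L'.level i').R) ∈
        maximalIdeal (L'.level i').R := Ideal.mul_mem_right _ _ (ht i').2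
    exact (mem_maximalIdeal _).mp hmem hu
  · rw [h0eq, hg']
    have hunit : ∀ i', IsUnit (-1 + ⟨t, (ht i').1⟩ * ⟨(g' : F), baseRing_le L' i' g'.2⟩ :
        (L'.level i').R) := by
      intro i'
      have hmem : (⟨t, (ht i').1⟩ * ⟨(g' : F), baseRing_le L' i' g'.2⟩ : (L'.level i').R) ∈
          maximalIdeal (L'.level i').R := Ideal.mul_mem_right _ _ (ht i').2
      by_contra hnu
      have h1 : (1 : (L'.level i').R) ∈ maximalIdeal (L'.level i').R := by
        have h2 := Ideal.sub_mem _ hmem ((mem_maximalIdeal _).mpr hnu)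
        have e : (⟨t, (ht i').1⟩ * ⟨(g' : F), baseRing_le L' i' g'.2⟩ : (L'.level i').R) -
            (-1 + ⟨t, (ht i').1⟩ * ⟨(g' : F), baseRing_le L' i' g'.2⟩) = 1 := by ring
        rwa [e] at h2
      exact (Ideal.ne_top_iff_one _).mp (maximalIdeal.isMaximal _).ne_top h1
    have hunit' : ∀ i', (-1 : F) + t * (g' : F) ≠ 0 ∧
        ((-1 : F) + t * (g' : F))⁻¹ ∈ (L'.level i').R :=
      fun i' => (isUnit_subring_iff (S := (L'.level i').R) (y := (-1 : F) + t * (g' : F))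
        ((-1 + ⟨t, (ht i').1⟩ * ⟨(g' : F), baseRing_le L' i' g'.2⟩ : (L'.level i').R)).2).mp
        (hunit i')
    obtain ⟨i₀, -⟩ := L'.frac 0
    rw [isUnit_subring_iff]
    exact ⟨(hunit' i₀).1, (mem_baseRing_iff L').mpr fun i' => (hunit' i').2⟩

end Sheet

end Fermat.Agent.BR3.SplitPolyTwTwo
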