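import Mathlib
import Fermat.Agent.BR3.BalOfPZ
import Fermat.Agent.BR3.InvFiniteFlow

/-!
# Program C (S36), node (C-ML), part (ML-d): `TorGood` from prescribed tube zeros

`S` a semistable setup with node contracts `N e : Fact.NodeFact S e (u e) (thick e) (TU e)`.

* `torGood_of_pz_of_gauss` : every class of the toric part has a good representative on the model
  `S` itself (`TorGlue.TorGood S m`), from `TorPZDef.PZ` (prescribed tube zeros),
  `TorPZDef.RadiusAttained` (every radius of the annuli is attained), rank one, and the existence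
  of functions with prescribed Gauss norms on the components (`hgauss`, the statement of
  `TorGauss.exists_gauss`).

It is the composition of `BalOfPZ.balTube_of_pz` ((C-BAL-D°) from `PZ`) and
`TorGoodOfBal.torGood_of_balTube` (`TorGood` from (C-BAL-D°)).
-/

set_option autoImplicit false
set_option linter.unusedVariables false
set_option linter.unusedSectionVars false

namespace Fermat.Agent.BR3.TorGoodOfPZGauss

open AlgebraicCurve IsLocalRing Fermat.Agent.Red Fermat.Agent.BR.SS Fermat.Agent.BR.Fact
  Fermat.Agent.BR.Refine Fermat.Agent.BR3.TorPZDef Fermat.Agent.BR3.TorGlue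

variable {K : Type} {F : Type*} [Field K] [Field F] [Algebra K F]
  {A : ValuationSubring K} [IsAlgClosed (ResidueField A)]
  {ι : Type} {Ft : ι → Type} [∀ v, Field (Ft v)] [∀ v, Algebra (ResidueField A) (Ft v)]
  {ν : Type} {S : SemistableSetup (F := F) A (residue A) ι Ft ν}
  {u : ν → F} {thick : ν → K} {TU : ν → F → Prop}

/-- **The moving lemma**: `TorGood` from prescribed tube zeros, with the existence of functions
with prescribed Gauss norms as a hypothesis. -/
theorem torGood_of_pz_of_gauss [Finite ν] [IsAlgClosed K] (hA : IsRankOne A)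
    (hF : RiemannPkg K F)
    (N : ∀ e, NodeFact S e (u e) (thick e) (TU e))
    (hsrc : ∀ e (h : u e ∈ S.O (S.src e)),
      (S.s₁ e).ord (S.res (S.src e) ⟨u e, h⟩) = 1)
    (hthick : ∀ e, A.valuation (thick e) < 1)
    (hgauss : ∀ c : ι → K, (∀ v, c v ≠ 0) → ∃ G : F, G ≠ 0 ∧ ∀ v, S.resF v (c v • G) ≠ 0)
    (hPZ : PZ S u thick) (hRA : RadiusAttained S u thick) {m : ℕ} (hm : m ≠ 0) :
    TorGood S m :=
  TorGoodOfBal.torGood_of_balTube N hF
    (BalOfPZ.balTube_of_pz N hA hF hthick hgauss hPZ hRA) hm
    (fun x => IsAlgClosed.exists_pow_nat_eq x (Nat.pos_of_ne_zero hm)) hthick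
    (fun e => InvFiniteFlow.ord_T_src (N e) (hsrc e))

end Fermat.Agent.BR3.TorGoodOfPZGauss
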