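import Mathlib
import Fermat.Agent.BR3.TorGoodOfPZGauss
import Fermat.Agent.BR3.TorGauss
import Fermat.Agent.BR3.TorPZFinal

/-!
# Program C (S36), node (C-ML) = (C-BAL): the moving lemma `TorGood`

`S` a semistable setup with node contracts `N e : Fact.NodeFact S e (u e) (thick e) (TU e)`.

* `torGood_of_pz` : `TorGlue.TorGood S m` from `TorPZDef.PZ` (prescribed tube zeros) and
  `TorPZDef.RadiusAttained` (every radius of the annuli is attained), in rank one;
* `torGood` : `TorGlue.TorGood S m` with `PZ` discharged by `TorPZFinal.pz` (Riemann packages on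
  the generic and special fibres, the genus equality): the only remaining analytic input is
  `RadiusAttained`.
-/

set_option autoImplicit false
set_option linter.unusedVariables false
set_option linter.unusedSectionVars false

namespace Fermat.Agent.BR3.TorGoodOfPZ

open AlgebraicCurve IsLocalRing Fermat.Agent.Red Fermat.Agent.BR.SS Fermat.Agent.BR.Fact
  Fermat.Agent.BR.Refine Fermat.Agent.BR3.TorPZDef Fermat.Agent.BR3.TorGlue

variable {K : Type} {F : Type*} [Field K] [Field F] [Algebra K F]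
  {A : ValuationSubring K} [IsAlgClosed (ResidueField A)]
  {ι : Type} {Ft : ι → Type} [∀ v, Field (Ft v)] [∀ v, Algebra (ResidueField A) (Ft v)]
  {ν : Type} {S : SemistableSetup (F := F) A (residue A) ι Ft ν}
  {u : ν → F} {thick : ν → K} {TU : ν → F → Prop}

/-- **The moving lemma, from prescribed tube zeros.** -/
theorem torGood_of_pz [Fintype ι] [Fintype ν] [IsAlgClosed K] (hA : IsRankOne A)
    (hF : RiemannPkg K F) (hFt : ∀ v, RiemannPkg (ResidueField A) (Ft v))
    (N : ∀ e, NodeFact S e (u e) (thick e) (TU e))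
    (hsrc : ∀ e (h : u e ∈ S.O (S.src e)),
      (S.s₁ e).ord (S.res (S.src e) ⟨u e, h⟩) = 1)
    (htgt : ∀ e (h : thick e • (u e)⁻¹ ∈ S.O (S.tgt e)),
      (S.s₂ e).ord (S.res (S.tgt e) ⟨thick e • (u e)⁻¹, h⟩) = 1)
    (hthick : ∀ e, A.valuation (thick e) < 1)
    (hPZ : PZ S u thick) (hRA : RadiusAttained S u thick) {m : ℕ} (hm : m ≠ 0) :
    TorGood S m :=
  TorGoodOfPZGauss.torGood_of_pz_of_gauss hA hF N hsrc hthick
    (fun c hc => TorGauss.exists_gauss S hA c hc) hPZ hRA hm

/-- **The moving lemma**: every class of the toric part has a good representative on the model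
`S` itself. -/
theorem torGood [Fintype ι] [Fintype ν] [IsAlgClosed K] (hA : IsRankOne A)
    (hF : RiemannPkg K F) (hFt : ∀ v, RiemannPkg (ResidueField A) (Ft v))
    (hg : (genusFF K F : ℤ) =
      ∑ v, (genusFF (ResidueField A) (Ft v) : ℤ) + Fintype.card ν - Fintype.card ι + 1)
    (N : ∀ e, NodeFact S e (u e) (thick e) (TU e))
    (hsrc : ∀ e (h : u e ∈ S.O (S.src e)),
      (S.s₁ e).ord (S.res (S.src e) ⟨u e, h⟩) = 1)
    (htgt : ∀ e (h : thick e • (u e)⁻¹ ∈ S.O (S.tgt e)),
      (S.s₂ e).ord (S.res (S.tgt e) ⟨thick e • (u e)⁻¹, h⟩) = 1)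
    (hthick : ∀ e, A.valuation (thick e) < 1)
    (hRA : RadiusAttained S u thick) {m : ℕ} (hm : m ≠ 0) : TorGood S m :=
  torGood_of_pz hA hF hFt N hsrc htgt hthick
    (TorPZFinal.pz hF hFt hg u thick TU N hsrc htgt hthick) hRA hm

end Fermat.Agent.BR3.TorGoodOfPZ
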