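import Mathlib
import Fermat.Agent.BR.InertiaRed
import Fermat.Agent.BR3.InvFiniteFlow
import Fermat.Agent.BR3.TwistedNode

/-!
# Program C (S36), moving lemma (C-ML), piece (ML-a): the node lemma with prescribed tube zeros

One node `e` of a semistable setup, `N : Fact.NodeFact S e u thick TU` its contract.  `y ≠ 0` a
function which is integral at both components of the node, `Z ≥ 0` a divisor with `Z ≤ div y` on
the tube of `e` whose tube moment has the absolute value `|thick| ^ k₂`.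

* `node_prescribed` : there is `l` in the residue field with
  `(res_src y / T₁ ^ (tdeg Z - k₂)) (s₁ e) = l`,
  `(res_tgt y * T₂ ^ k₂) (s₂ e) = res (thick ^ (-k₂) * tmom Z) * l`,
  and `l ≠ 0` only if `div y = Z` on the tube (`T₁ = N.gaugeSrc.T` of order `1` at `s₁ e`,
  `T₂ = N.gaugeTgt.T` of order `-1` at `s₂ e`);
* `node_prescribed_ord_src`, `node_prescribed_ord_tgt` : the orders of the two residues at the
  branches are at least `tdeg Z - k₂` and `k₂`;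
* `node_prescribed_div` : the divided form: for `p₁`, `p₂` normalised as in
  `TorTuple.exists_tuple`, `res_src y / p₁` and `res_tgt y / p₂` have EQUAL values at the branches;
* `resOf_eta_ne_zero` : the matching constant `res (thick ^ (-k₂) * tmom Z)` is nonzero.

This is the instance `c₁ = c₂ = 1`, `n = -k₂`, `κ = thick ^ (-k₂) * tmom Z` of
`TwistedNode.twisted_node`.
-/

set_option autoImplicit false

namespace Fermat.Agent.BR3.TorNode

open AlgebraicCurve IsLocalRing Fermat.Agent.Red Fermat.Agent.BR.SS Fermat.Agent.BR.Fact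
  Fermat.Agent.BR.Refine Fermat.Agent.BR.InertiaRed Fermat.Agent.BR3.InvFiniteMoment
  Fermat.Agent.BR3.InvFiniteNode Fermat.Agent.BR3.TwistedNode

variable {K : Type} {F : Type*} [Field K] [Field F] [Algebra K F]
  {A : ValuationSubring K} [IsAlgClosed (ResidueField A)]
  {ι : Type} {Ft : ι → Type} [∀ v, Field (Ft v)] [∀ v, Algebra (ResidueField A) (Ft v)]
  {ν : Type} {S : SemistableSetup (F := F) A (residue A) ι Ft ν} {e : ν} {u : F}
  {thick : K} {TU : F → Prop}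

/-- the matching constant `η = thick ^ (-k₂) * tmom Z` has absolute value one -/
theorem valuation_eta (N : NodeFact S e u thick TU) {Z : Divisor K F} {k₂ : ℤ}
    (hk₂ : A.valuation (tmom (tube S e) u Z) = A.valuation thick ^ k₂) :
    A.valuation (thick ^ (-k₂) * tmom (tube S e) u Z) = 1 := by
  have ht0 : A.valuation thick ≠ 0 := by
    rw [ne_eq, map_eq_zero]
    exact N.thick_ne
  rw [map_mul, map_zpow₀, hk₂, zpow_neg]
  exact inv_mul_cancel₀ (zpow_ne_zero _ ht0)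

/-- the matching constant `res (thick ^ (-k₂) * tmom Z)` is nonzero -/
theorem resOf_eta_ne_zero (N : NodeFact S e u thick TU) {Z : Divisor K F} {k₂ : ℤ}
    (hk₂ : A.valuation (tmom (tube S e) u Z) = A.valuation thick ^ k₂) :
    resOf A (thick ^ (-k₂) * tmom (tube S e) u Z) ≠ 0 :=
  resOf_ne_zero A (valuation_eta N hk₂)

/-- **(ML-a), the node lemma with prescribed tube zeros** (finding #1023). -/
theorem node_prescribed (N : NodeFact S e u thick TU)
    (hsrc : ∀ h : u ∈ S.O (S.src e), (S.s₁ e).ord (S.res (S.src e) ⟨u, h⟩) = 1)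
    (htgt : ∀ h : thick • u⁻¹ ∈ S.O (S.tgt e),
      (S.s₂ e).ord (S.res (S.tgt e) ⟨thick • u⁻¹, h⟩) = 1)
    (hthick : A.valuation thick < 1) {y : F} (hy : y ≠ 0) {E : Divisor K F}
    (hE : ∀ P, E P = P.ord y) (h₁ : y ∈ S.O (S.src e)) (h₂ : y ∈ S.O (S.tgt e))
    {Z : Divisor K F} (hZ0 : 0 ≤ Z) (hZE : ∀ P ∈ tube S e, Z P ≤ E P) {k₂ : ℤ}
    (hk₂ : A.valuation (tmom (tube S e) u Z) = A.valuation thick ^ k₂) :
    ∃ l : ResidueField A,
      IsValueAt (S.s₁ e)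
        (S.resF (S.src e) y / N.gaugeSrc.T ^ (tdeg (tube S e) Z - k₂)) l ∧
      IsValueAt (S.s₂ e) (S.resF (S.tgt e) y * N.gaugeTgt.T ^ k₂)
        (resOf A (thick ^ (-k₂) * tmom (tube S e) u Z) * l) ∧
      (l ≠ 0 → ∀ P ∈ tube S e, E P = Z P) := by
  have _ := hsrc
  have _ := htgt
  have _ := hZ0
  have hη := valuation_eta N hk₂
  have ht0 : thick ≠ 0 := N.thick_ne
  have hm0 : tmom (tube S e) u Z ≠ 0 := by
    intro h0
    rw [h0, map_zero] at hk₂
    have : A.valuation thick ^ k₂ ≠ 0 := zpow_ne_zero _ (by rw [ne_eq, map_eq_zero]; exact ht0)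
    exact this hk₂.symm
  have hc₂ : (1 : K) = 1 * (thick ^ (-k₂) * tmom (tube S e) u Z) * thick ^ (-(-k₂)) *
      (tmom (tube S e) u Z)⁻¹ := by
    rw [neg_neg, zpow_neg]
    field_simp
  have h₁' : (1 : K) • y ∈ S.O (S.src e) := by rw [one_smul]; exact h₁
  have h₂' : (1 : K) • y ∈ S.O (S.tgt e) := by rw [one_smul]; exact h₂
  obtain ⟨l, hl₁, hl₂, hl₃⟩ := twisted_node N hthick hy hE Z
    (fun P hP => by rw [← hE]; exact hZE P hP) (-k₂) one_ne_zero hη hc₂ h₁' h₂'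
  refine ⟨l, ?_, ?_, fun hl P hP => ?_⟩
  · have e1 : S.resF (S.src e) y / N.gaugeSrc.T ^ (tdeg (tube S e) Z - k₂) =
        S.resF (S.src e) ((1 : K) • y) * N.gaugeSrc.T ^ (-(-k₂ + tdeg (tube S e) Z)) := by
      rw [one_smul, div_eq_mul_inv, ← zpow_neg]
      congr 2
      ring
    rw [e1]
    exact hl₁
  · have e2 : S.resF (S.tgt e) y * N.gaugeTgt.T ^ k₂ =
        S.resF (S.tgt e) ((1 : K) • y) * N.gaugeTgt.T ^ (-(-k₂)) := by
      rw [one_smul, neg_neg]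
    rw [e2, resOf_of_mem A (mem_of_valuation_eq_one A hη)]
    exact hl₂
  · rw [hE]
    exact hl₃ hl P hP

/-- the order at `s₁ e` of the residue of `y` at the source is at least `tdeg Z - k₂` -/
theorem node_prescribed_ord_src (N : NodeFact S e u thick TU)
    (hsrc : ∀ h : u ∈ S.O (S.src e), (S.s₁ e).ord (S.res (S.src e) ⟨u, h⟩) = 1)
    (htgt : ∀ h : thick • u⁻¹ ∈ S.O (S.tgt e),
      (S.s₂ e).ord (S.res (S.tgt e) ⟨thick • u⁻¹, h⟩) = 1)
    (hthick : A.valuation thick < 1) {y : F} (hy : y ≠ 0) {E : Divisor K F}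
    (hE : ∀ P, E P = P.ord y) (h₁ : y ∈ S.O (S.src e)) (h₂ : y ∈ S.O (S.tgt e))
    {Z : Divisor K F} (hZ0 : 0 ≤ Z) (hZE : ∀ P ∈ tube S e, Z P ≤ E P) {k₂ : ℤ}
    (hk₂ : A.valuation (tmom (tube S e) u Z) = A.valuation thick ^ k₂) :
    S.resF (S.src e) y = 0 ∨
      tdeg (tube S e) Z - k₂ ≤ (S.s₁ e).ord (S.resF (S.src e) y) := by
  obtain ⟨l, hl, -, -⟩ := node_prescribed N hsrc htgt hthick hy hE h₁ h₂ hZ0 hZE hk₂
  rw [div_eq_mul_inv, ← zpow_neg] at hl
  rcases le_ord_of_isValueAt (T_src_ne_zero N) hl with h | h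
  · exact Or.inl h
  · right
    rw [InvFiniteFlow.ord_T_src N hsrc, mul_one] at h
    exact h

/-- the order at `s₂ e` of the residue of `y` at the target is at least `k₂` -/
theorem node_prescribed_ord_tgt (N : NodeFact S e u thick TU)
    (hsrc : ∀ h : u ∈ S.O (S.src e), (S.s₁ e).ord (S.res (S.src e) ⟨u, h⟩) = 1)
    (htgt : ∀ h : thick • u⁻¹ ∈ S.O (S.tgt e),
      (S.s₂ e).ord (S.res (S.tgt e) ⟨thick • u⁻¹, h⟩) = 1)
    (hthick : A.valuation thick < 1) {y : F} (hy : y ≠ 0) {E : Divisor K F}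
    (hE : ∀ P, E P = P.ord y) (h₁ : y ∈ S.O (S.src e)) (h₂ : y ∈ S.O (S.tgt e))
    {Z : Divisor K F} (hZ0 : 0 ≤ Z) (hZE : ∀ P ∈ tube S e, Z P ≤ E P) {k₂ : ℤ}
    (hk₂ : A.valuation (tmom (tube S e) u Z) = A.valuation thick ^ k₂) :
    S.resF (S.tgt e) y = 0 ∨ k₂ ≤ (S.s₂ e).ord (S.resF (S.tgt e) y) := by
  obtain ⟨l, -, hl, -⟩ := node_prescribed N hsrc htgt hthick hy hE h₁ h₂ hZ0 hZE hk₂
  have hl' : IsValueAt (S.s₂ e) (S.resF (S.tgt e) y * N.gaugeTgt.T ^ (-(-k₂)))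
      (resOf A (thick ^ (-k₂) * tmom (tube S e) u Z) * l) := by
    rw [neg_neg]
    exact hl
  rcases le_ord_of_isValueAt (T_tgt_ne_zero N) hl' with h | h
  · exact Or.inl h
  · right
    rw [InvFiniteFlow.ord_T_tgt N htgt] at h
    linarith

/-- **(ML-a), divided form**: for `p₁`, `p₂` normalised as the tuple of `TorTuple.exists_tuple`
(with `t₁ = N.gaugeSrc.T`, `t₂ = N.gaugeTgt.T`, `k₁ = tdeg Z - k₂`,
`γ = res (thick ^ (-k₂) * tmom Z)`), the quotients `res_src y / p₁` and `res_tgt y / p₂` are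
regular at the two branches with EQUAL values (the `Match` clause of `gluedRR`); the common value
is nonzero only if `div y = Z` on the tube. -/
theorem node_prescribed_div (N : NodeFact S e u thick TU)
    (hsrc : ∀ h : u ∈ S.O (S.src e), (S.s₁ e).ord (S.res (S.src e) ⟨u, h⟩) = 1)
    (htgt : ∀ h : thick • u⁻¹ ∈ S.O (S.tgt e),
      (S.s₂ e).ord (S.res (S.tgt e) ⟨thick • u⁻¹, h⟩) = 1)
    (hthick : A.valuation thick < 1) {y : F} (hy : y ≠ 0) {E : Divisor K F}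
    (hE : ∀ P, E P = P.ord y) (h₁ : y ∈ S.O (S.src e)) (h₂ : y ∈ S.O (S.tgt e))
    {Z : Divisor K F} (hZ0 : 0 ≤ Z) (hZE : ∀ P ∈ tube S e, Z P ≤ E P) {k₂ : ℤ}
    (hk₂ : A.valuation (tmom (tube S e) u Z) = A.valuation thick ^ k₂)
    {p₁ : Ft (S.src e)} {p₂ : Ft (S.tgt e)}
    (hp₁ : IsValueAt (S.s₁ e) (p₁ / N.gaugeSrc.T ^ (tdeg (tube S e) Z - k₂)) 1)
    (hp₂ : IsValueAt (S.s₂ e) (p₂ * N.gaugeTgt.T ^ k₂)
      (resOf A (thick ^ (-k₂) * tmom (tube S e) u Z))) :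
    ∃ l : ResidueField A,
      IsValueAt (S.s₁ e) (S.resF (S.src e) y / p₁) l ∧
      IsValueAt (S.s₂ e) (S.resF (S.tgt e) y / p₂) l ∧
      (l ≠ 0 → ∀ P ∈ tube S e, E P = Z P) := by
  obtain ⟨l, hl₁, hl₂, hl₃⟩ := node_prescribed N hsrc htgt hthick hy hE h₁ h₂ hZ0 hZE hk₂
  have hη := resOf_eta_ne_zero N hk₂
  have hTs : N.gaugeSrc.T ^ (tdeg (tube S e) Z - k₂) ≠ 0 := zpow_ne_zero _ (T_src_ne_zero N)
  have hTt : N.gaugeTgt.T ^ k₂ ≠ 0 := zpow_ne_zero _ (T_tgt_ne_zero N)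
  have hp₁0 : p₁ ≠ 0 := by
    rintro rfl
    rw [zero_div] at hp₁
    exact one_ne_zero ((isValueAt_zero _).unique hp₁).symm
  have hp₂0 : p₂ ≠ 0 := by
    rintro rfl
    rw [zero_mul] at hp₂
    exact hη ((isValueAt_zero _).unique hp₂).symm
  refine ⟨l, ?_, ?_, hl₃⟩
  · have e1 : S.resF (S.src e) y / p₁ =
        (S.resF (S.src e) y / N.gaugeSrc.T ^ (tdeg (tube S e) Z - k₂)) *
          (p₁ / N.gaugeSrc.T ^ (tdeg (tube S e) Z - k₂))⁻¹ := by
      field_simp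
    have e3 : l = l * (1 : ResidueField A)⁻¹ := by rw [inv_one, mul_one]
    rw [e1, e3]
    exact hl₁.mul (isValueAt_inv_of_ne hp₁ one_ne_zero)
  · have e2 : S.resF (S.tgt e) y / p₂ =
        (S.resF (S.tgt e) y * N.gaugeTgt.T ^ k₂) * (p₂ * N.gaugeTgt.T ^ k₂)⁻¹ := by
      field_simp
    have e3 : l = (resOf A (thick ^ (-k₂) * tmom (tube S e) u Z) * l) *
        (resOf A (thick ^ (-k₂) * tmom (tube S e) u Z))⁻¹ := by
      field_simp
    rw [e2, e3]
    exact hl₂.mul (isValueAt_inv_of_ne hp₂ hη)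

end Fermat.Agent.BR3.TorNode
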