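import Mathlib
import Fermat.Agent.BR.SS.GlueOfSetup
import Fermat.Agent.BR.SS.NormalForm
import Fermat.Agent.BR3.TorTuple

/-!
# Program C (S36), node (C-ML)/(C-BAL), piece (B1): the twisted glued Riemann–Roch space
(the `p`-trick)

Special fibre only.  `S` a semistable setup, `p : ∀ v, Ft v` a tuple of nonzero functions on the
components (the tuple of `BR3/TorTuple`), `θ₁ e`, `θ₂ e` normalising functions on the source and
target component of the node `e` and `γ e ≠ 0` constants with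
`(p (src e) / θ₁ e) (s₁ e) = 1`, `(p (tgt e) * θ₂ e) (s₂ e) = γ e`.

* `offBr S v D` : the divisor `D` on the component `v` with the branch points zeroed out;
  `sum_degree_offBr` : `Σ_v deg (div p_v off the branches) = - Σ_e (ord_{s₁ e} p + ord_{s₂ e} p)`.
* `twistRR S hdeg p hp D` : the families `h` with `h / p ∈ gluedRR (S.graphNodes hdeg) D`, a
  `k`-subspace of `∏ Ft v` of the same dimension as `gluedRR … D`.
* `mem_twistRR_of_isValueAt` (**upper half**): a family `h` with poles bounded by `D v` off the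
  branches and the twisted matching condition
  `(h (src e) / θ₁ e) (s₁ e) = l`, `(h (tgt e) * θ₂ e) (s₂ e) = γ e * l` at every node lies in
  `twistRR … (D + div p off the branches)`; `isValueAt_of_mem_twistRR` : the converse.
* `finrank_twistRR_of_genus` : in large multidegree the dimension is
  `Σ_v deg D_v - Σ_e (ord_{s₁ e} p + ord_{s₂ e} p) + 1 - g(F)`.
* `exists_mem_twistRR_exact` : in large multidegree there is a member with all components nonzero
  and `l = 1` at every node (exact orders at all branches).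
-/

set_option autoImplicit false
set_option linter.unusedVariables false
set_option linter.unusedSectionVars false
set_option linter.style.haveILetI false

namespace Fermat.Agent.BR3.TorShift

open AlgebraicCurve Fermat.Agent.Red Fermat.Agent.BR.SS Fermat.Agent.BR.GlueG Fermat.Agent.X0

/-- a sum over all branches, component by component, is a sum over the nodes -/
theorem sum_branchesOn {k : Type*} [Field k] {V : Type*} {Ft : V → Type*} [∀ v, Field (Ft v)]
    [∀ v, Algebra k (Ft v)] {E : Type*} [Fintype V] [Fintype E] (n : GraphNodes k Ft E)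
    {M : Type*} [AddCommMonoid M] (g : Pt k Ft → M) :
    ∑ v, ∑ Q ∈ branchesOn n v, g ⟨v, Q⟩ = ∑ e, (g (n.b e) + g (n.b' e)) := by
  classical
  rw [Finset.sum_sigma' Finset.univ (fun v => branchesOn n v) (fun v Q => g ⟨v, Q⟩)]
  have h1 : ∑ e, (g (n.b e) + g (n.b' e)) = ∑ a : E ⊕ E, g (Sum.elim n.b n.b' a) := by
    rw [Fintype.sum_sum_type, Finset.sum_add_distrib]
    rfl
  rw [h1, ← Finset.sum_image (s := Finset.univ) (g := Sum.elim n.b n.b') (f := g)
    (fun a _ b _ hab => n.branch_inj hab)]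
  refine Finset.sum_congr ?_ (fun _ _ => rfl)
  ext ⟨v, Q⟩
  rw [Finset.mem_sigma, Finset.mem_image]
  constructor
  · rintro ⟨-, hQ⟩
    rcases mem_branchesOn.mp hQ with ⟨e, he⟩ | ⟨e, he⟩
    · exact ⟨Sum.inl e, Finset.mem_univ _, he⟩
    · exact ⟨Sum.inr e, Finset.mem_univ _, he⟩
  · rintro ⟨a | a, -, ha⟩
    · exact ⟨Finset.mem_univ _, mem_branchesOn.mpr (Or.inl ⟨a, ha⟩)⟩
    · exact ⟨Finset.mem_univ _, mem_branchesOn.mpr (Or.inr ⟨a, ha⟩)⟩

section Value

variable {k L : Type*} [Field k] [Field L] [Algebra k L]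

/-- `(y θ)(P) = b ≠ 0` and `(x θ)(P) = a` give `(x / y)(P) = a / b` -/
theorem isValueAt_div_of_mul {P : Place k L} {x y θ : L} {a b : k} (hb : b ≠ 0)
    (hy : IsValueAt P (y * θ) b) (hx : IsValueAt P (x * θ) a) : IsValueAt P (x / y) (a / b) := by
  have hyθ : y * θ ≠ 0 := ne_zero_of_isValueAt_ne_zero hy hb
  have hy0 : y ≠ 0 := left_ne_zero_of_mul hyθ
  have hθ0 : θ ≠ 0 := right_ne_zero_of_mul hyθ
  have h1 : x / y = x * θ * (y * θ)⁻¹ := by
    field_simp
  rw [h1, div_eq_mul_inv]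
  exact hx.mul (isValueAt_inv hy hb)

/-- a function with a value at `P` has nonnegative order there -/
theorem ord_nonneg_of_isValueAt {P : Place k L} {x : L} {a : k} (hx : IsValueAt P x a) :
    0 ≤ P.ord x := by
  rcases (P.adicValuation_le_one_iff).mp hx.adicValuation_le_one with rfl | h
  · rw [Place.ord_zero]
  · exact h

end Value

variable {K F k : Type*} [Field K] [Field F] [Algebra K F] [Field k]
  {A : ValuationSubring K} {π : A →+* k} {ι : Type*} {Ft : ι → Type*}
  [∀ v, Field (Ft v)] [∀ v, Algebra k (Ft v)] {ν : Type*}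

variable (S : SemistableSetup (F := F) A π ι Ft ν)

open Classical in
/-- the divisor `D` on the component `v` with the branch points zeroed out -/
noncomputable def offBr (v : ι) (D : Divisor k (Ft v)) : Divisor k (Ft v) :=
  Finsupp.filter (fun Q => ¬ S.IsBranch ⟨v, Q⟩) D

theorem offBr_apply_of_isBranch {v : ι} (D : Divisor k (Ft v)) {Q : Place k (Ft v)}
    (hQ : S.IsBranch ⟨v, Q⟩) : offBr S v D Q = 0 := by
  classical
  unfold offBr
  exact Finsupp.filter_apply_neg _ _ (not_not.mpr hQ)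

theorem offBr_apply_of_not_isBranch {v : ι} (D : Divisor k (Ft v)) {Q : Place k (Ft v)}
    (hQ : ¬ S.IsBranch ⟨v, Q⟩) : offBr S v D Q = D Q := by
  classical
  unfold offBr
  exact Finsupp.filter_apply_pos _ _ hQ

theorem offBr_src (e : ν) (D : Divisor k (Ft (S.src e))) : offBr S (S.src e) D (S.s₁ e) = 0 :=
  offBr_apply_of_isBranch S D ⟨e, Or.inl rfl⟩

theorem offBr_tgt (e : ν) (D : Divisor k (Ft (S.tgt e))) : offBr S (S.tgt e) D (S.s₂ e) = 0 :=
  offBr_apply_of_isBranch S D ⟨e, Or.inr rfl⟩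

/-- the degree of the divisor with the branches zeroed out -/
theorem degree_offBr [Finite ν] (hFt : ∀ v, RiemannPkg k (Ft v)) (v : ι) (D : Divisor k (Ft v)) :
    Divisor.degree (offBr S v D) = Divisor.degree D -
      ∑ Q ∈ branchesOn (S.graphNodes fun v Q => (hFt v).deg_one Q) v, D Q := by
  classical
  have hsplit : D = offBr S v D +
      ∑ Q ∈ branchesOn (S.graphNodes fun v Q => (hFt v).deg_one Q) v, Finsupp.single Q (D Q) := by
    ext Q
    rw [Finsupp.add_apply, Finsupp.finsetSum_apply]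
    by_cases hQ : S.IsBranch ⟨v, Q⟩
    · rw [offBr_apply_of_isBranch S D hQ, zero_add]
      have hmem := (S.isBranch_iff_mem_branchesOn (fun v Q => (hFt v).deg_one Q) v Q).mp hQ
      rw [Finset.sum_eq_single Q]
      · rw [Finsupp.single_eq_same]
      · intro Q' _ hne
        exact Finsupp.single_eq_of_ne hne.symm
      · intro h
        exact absurd hmem h
    · rw [offBr_apply_of_not_isBranch S D hQ]
      have hmem : Q ∉ branchesOn (S.graphNodes fun v Q => (hFt v).deg_one Q) v := fun h =>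
        hQ ((S.isBranch_iff_mem_branchesOn (fun v Q => (hFt v).deg_one Q) v Q).mpr h)
      rw [Finset.sum_eq_zero, add_zero]
      intro Q' hQ'
      apply Finsupp.single_eq_of_ne
      rintro rfl
      exact hmem hQ'
  have h2 := congrArg Divisor.degree hsplit
  rw [map_add, map_sum] at h2
  simp only [degree_single_of_pkg (hFt v)] at h2
  linarith

/-- a divisor with the orders of a nonzero function has degree zero -/
theorem degree_eq_zero_of_forall_ord {L : Type*} [Field L] [Algebra k L] (hL : RiemannPkg k L)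
    {f : L} {D : Divisor k L} (hD : ∀ Q : Place k L, D Q = Q.ord f) : Divisor.degree D = 0 := by
  have := hL.principal
  rw [← divOf_eq_of_forall hD]
  exact degree_divOf f

/-- **degree count of the `p`-trick**: the divisors of the `p v` off the branches have total
degree minus the sum of the orders of `p` at all branches. -/
theorem sum_degree_offBr [Fintype ι] [Fintype ν] (hFt : ∀ v, RiemannPkg k (Ft v))
    (p : ∀ v, Ft v) (Dp : ∀ v, Divisor k (Ft v))
    (hDp : ∀ v (Q : Place k (Ft v)), Dp v Q = Q.ord (p v)) :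
    ∑ v, Divisor.degree (offBr S v (Dp v)) =
      -∑ e, ((S.s₁ e).ord (p (S.src e)) + (S.s₂ e).ord (p (S.tgt e))) := by
  have h1 : ∀ v, Divisor.degree (offBr S v (Dp v)) =
      -∑ Q ∈ branchesOn (S.graphNodes fun v Q => (hFt v).deg_one Q) v, Q.ord (p v) := by
    intro v
    rw [degree_offBr S hFt v (Dp v), degree_eq_zero_of_forall_ord (hFt v) (hDp v), zero_sub]
    congr 1
    exact Finset.sum_congr rfl fun Q _ => hDp v Q
  rw [Finset.sum_congr rfl fun v _ => h1 v, Finset.sum_neg_distrib]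
  congr 1
  exact sum_branchesOn (S.graphNodes fun v Q => (hFt v).deg_one Q)
    (fun x : Pt k Ft => x.2.ord (p x.1))

/-- componentwise multiplication by a tuple of nonzero functions -/
noncomputable def mulEquiv (p : ∀ v, Ft v) (hp : ∀ v, p v ≠ 0) :
    (∀ v, Ft v) ≃ₗ[k] (∀ v, Ft v) where
  toFun h := fun v => p v * h v
  invFun h := fun v => (p v)⁻¹ * h v
  map_add' h h' := by
    funext v
    simp [mul_add]
  map_smul' a h := by
    funext v
    simp
  left_inv h := by
    funext v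
    simp [hp v]
  right_inv h := by
    funext v
    simp [hp v]

@[simp] theorem mulEquiv_apply (p : ∀ v, Ft v) (hp : ∀ v, p v ≠ 0) (h : ∀ v, Ft v) (v : ι) :
    mulEquiv (k := k) p hp h v = p v * h v := rfl

@[simp] theorem mulEquiv_symm_apply (p : ∀ v, Ft v) (hp : ∀ v, p v ≠ 0) (h : ∀ v, Ft v) (v : ι) :
    (mulEquiv (k := k) p hp).symm h v = (p v)⁻¹ * h v := rfl

variable (hdeg : ∀ v (Q : Place k (Ft v)), Q.deg = 1)

/-- **the twisted glued Riemann–Roch space**: the families `h` with `h / p ∈ gluedRR … D`. -/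
noncomputable def twistRR (p : ∀ v, Ft v) (hp : ∀ v, p v ≠ 0) (D : ∀ v, Divisor k (Ft v)) :
    Submodule k (∀ v, Ft v) :=
  (gluedRR (S.graphNodes hdeg) D).map (mulEquiv p hp).toLinearMap

theorem mem_twistRR_iff {p : ∀ v, Ft v} {hp : ∀ v, p v ≠ 0} {D : ∀ v, Divisor k (Ft v)}
    {h : ∀ v, Ft v} :
    h ∈ twistRR S hdeg p hp D ↔ (fun v => h v / p v) ∈ gluedRR (S.graphNodes hdeg) D := by
  unfold twistRR
  rw [Submodule.mem_map_equiv]
  have : (mulEquiv (k := k) p hp).symm h = fun v => h v / p v := by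
    funext v
    rw [mulEquiv_symm_apply, div_eq_mul_inv, mul_comm]
  rw [this]

theorem mul_mem_twistRR {p : ∀ v, Ft v} {hp : ∀ v, p v ≠ 0} {D : ∀ v, Divisor k (Ft v)}
    {φ : ∀ v, Ft v} (hφ : φ ∈ gluedRR (S.graphNodes hdeg) D) :
    (fun v => p v * φ v) ∈ twistRR S hdeg p hp D :=
  Submodule.mem_map_of_mem (f := (mulEquiv (k := k) p hp).toLinearMap) hφ

theorem finrank_twistRR (p : ∀ v, Ft v) (hp : ∀ v, p v ≠ 0) (D : ∀ v, Divisor k (Ft v)) :
    Module.finrank k (twistRR S hdeg p hp D) =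
      Module.finrank k (gluedRR (S.graphNodes hdeg) D) :=
  ((mulEquiv (k := k) p hp).submoduleMap (gluedRR (S.graphNodes hdeg) D)).finrank_eq.symm

/-- **upper half of the `p`-trick**: poles bounded by `D` off the branches + the twisted matching
condition at the nodes ⟹ membership of the twisted glued Riemann–Roch space of
`D + (div p off the branches)`. -/
theorem mem_twistRR_of_isValueAt {p : ∀ v, Ft v} (hp0 : ∀ v, p v ≠ 0)
    (Dp : ∀ v, Divisor k (Ft v)) (hDp : ∀ v (Q : Place k (Ft v)), Dp v Q = Q.ord (p v))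
    (θ₁ : ∀ e, Ft (S.src e)) (θ₂ : ∀ e, Ft (S.tgt e)) (γ : ν → k) (hγ : ∀ e, γ e ≠ 0)
    (hp : ∀ e, IsValueAt (S.s₁ e) (p (S.src e) / θ₁ e) 1 ∧
      IsValueAt (S.s₂ e) (p (S.tgt e) * θ₂ e) (γ e))
    (D : ∀ v, Divisor k (Ft v))
    (hD : ∀ e, D (S.src e) (S.s₁ e) = 0 ∧ D (S.tgt e) (S.s₂ e) = 0)
    {h : ∀ v, Ft v}
    (hoff : ∀ v (Q : Place k (Ft v)), ¬ S.IsBranch ⟨v, Q⟩ → h v = 0 ∨ -(D v Q) ≤ Q.ord (h v))
    (hnode : ∀ e, ∃ l : k, IsValueAt (S.s₁ e) (h (S.src e) / θ₁ e) l ∧
      IsValueAt (S.s₂ e) (h (S.tgt e) * θ₂ e) (γ e * l)) :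
    h ∈ twistRR S hdeg p hp0 (fun v => D v + offBr S v (Dp v)) := by
  rw [mem_twistRR_iff]
  -- the values of `h / p` at the nodes
  have hval : ∀ e, ∃ l : k, IsValueAt (S.s₁ e) (h (S.src e) / p (S.src e)) l ∧
      IsValueAt (S.s₂ e) (h (S.tgt e) / p (S.tgt e)) l := by
    intro e
    obtain ⟨l, hl1, hl2⟩ := hnode e
    refine ⟨l, ?_, ?_⟩
    · have h1 := (hp e).1
      rw [div_eq_mul_inv] at h1 hl1
      have := isValueAt_div_of_mul one_ne_zero h1 hl1
      rwa [div_one] at this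
    · have := isValueAt_div_of_mul (hγ e) (hp e).2 hl2
      rwa [mul_div_cancel_left₀ _ (hγ e)] at this
  refine S.mem_gluedRR_of_forall_isValueAt hdeg (fun v => ?_) hval
  rw [mem_riemannRochSpace_iff]
  intro Q
  by_cases hQ : S.IsBranch ⟨v, Q⟩
  · right
    rw [Finsupp.add_apply, offBr_apply_of_isBranch S _ hQ, add_zero]
    obtain ⟨e, he | he⟩ := hQ
    · have hv : v = S.src e := congrArg Sigma.fst he
      subst hv
      have hQe : Q = S.s₁ e := eq_of_heq (Sigma.mk.inj he).2
      subst hQe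
      rw [(hD e).1, neg_zero]
      obtain ⟨l, hl, -⟩ := hval e
      exact ord_nonneg_of_isValueAt hl
    · have hv : v = S.tgt e := congrArg Sigma.fst he
      subst hv
      have hQe : Q = S.s₂ e := eq_of_heq (Sigma.mk.inj he).2
      subst hQe
      rw [(hD e).2, neg_zero]
      obtain ⟨l, -, hl⟩ := hval e
      exact ord_nonneg_of_isValueAt hl
  · rcases hoff v Q hQ with h0 | hle
    · left
      show h v / p v = 0
      rw [h0, zero_div]
    · by_cases h0 : h v = 0
      · left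
        show h v / p v = 0
        rw [h0, zero_div]
      · right
        show -((D v + offBr S v (Dp v)) Q) ≤ Q.ord (h v / p v)
        rw [Finsupp.add_apply, offBr_apply_of_not_isBranch S _ hQ, hDp v Q, div_eq_mul_inv,
          Q.ord_mul h0 (inv_ne_zero (hp0 v)), Place.ord_inv]
        linarith

/-- the converse: a member of the twisted space has poles bounded by `D` off the branches and
satisfies the twisted matching condition at the nodes. -/
theorem isValueAt_of_mem_twistRR {p : ∀ v, Ft v} (hp0 : ∀ v, p v ≠ 0)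
    (Dp : ∀ v, Divisor k (Ft v)) (hDp : ∀ v (Q : Place k (Ft v)), Dp v Q = Q.ord (p v))
    (θ₁ : ∀ e, Ft (S.src e)) (θ₂ : ∀ e, Ft (S.tgt e)) (γ : ν → k)
    (hp : ∀ e, IsValueAt (S.s₁ e) (p (S.src e) / θ₁ e) 1 ∧
      IsValueAt (S.s₂ e) (p (S.tgt e) * θ₂ e) (γ e))
    (D : ∀ v, Divisor k (Ft v)) {h : ∀ v, Ft v}
    (hh : h ∈ twistRR S hdeg p hp0 (fun v => D v + offBr S v (Dp v))) :
    (∀ v (Q : Place k (Ft v)), ¬ S.IsBranch ⟨v, Q⟩ → h v = 0 ∨ -(D v Q) ≤ Q.ord (h v)) ∧
    ∀ e, ∃ l : k, IsValueAt (S.s₁ e) (h (S.src e) / θ₁ e) l ∧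
      IsValueAt (S.s₂ e) (h (S.tgt e) * θ₂ e) (γ e * l) := by
  rw [mem_twistRR_iff] at hh
  refine ⟨fun v Q hQ => ?_, fun e => ?_⟩
  · have h1 := (mem_riemannRochSpace_iff.mp (hh.1 v)) Q
    by_cases h0 : h v = 0
    · exact Or.inl h0
    right
    rcases h1 with h1 | h1
    · exact absurd h1 (div_ne_zero h0 (hp0 v))
    · have h2 : -((D v + offBr S v (Dp v)) Q) ≤ Q.ord (h v / p v) := h1
      rw [Finsupp.add_apply, offBr_apply_of_not_isBranch S _ hQ, hDp v Q, div_eq_mul_inv,
        Q.ord_mul h0 (inv_ne_zero (hp0 v)), Place.ord_inv] at h2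
      linarith
  · obtain ⟨c, hc1, hc2⟩ := S.forall_isValueAt_of_mem_gluedRR hdeg hh e
    refine ⟨c, ?_, ?_⟩
    · have h1 : h (S.src e) / θ₁ e = h (S.src e) / p (S.src e) * (p (S.src e) / θ₁ e) := by
        have := hp0 (S.src e)
        field_simp
      rw [h1, ← mul_one c]
      exact hc1.mul (hp e).1
    · have h1 : h (S.tgt e) * θ₂ e = p (S.tgt e) * θ₂ e * (h (S.tgt e) / p (S.tgt e)) := by
        have := hp0 (S.tgt e)
        field_simp
      rw [h1]
      exact (hp e).2.mul hc2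

/-- **dimension count of the `p`-trick** (twist of `finrank_gluedRR_of_genus`). -/
theorem finrank_twistRR_of_genus [Fintype ι] [Fintype ν] (hFt : ∀ v, RiemannPkg k (Ft v))
    (hg : (genusFF K F : ℤ) =
      ∑ v, (genusFF k (Ft v) : ℤ) + Fintype.card ν - Fintype.card ι + 1)
    {p : ∀ v, Ft v} (hp0 : ∀ v, p v ≠ 0)
    (Dp : ∀ v, Divisor k (Ft v)) (hDp : ∀ v (Q : Place k (Ft v)), Dp v Q = Q.ord (p v)) :
    ∃ c : ι → ℤ, ∀ D : ∀ v, Divisor k (Ft v),
      (∀ e, D (S.src e) (S.s₁ e) = 0 ∧ D (S.tgt e) (S.s₂ e) = 0) →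
      (∀ v, c v ≤ Divisor.degree (D v)) →
      (Module.finrank k (twistRR S (fun v Q => (hFt v).deg_one Q) p hp0
        (fun v => D v + offBr S v (Dp v))) : ℤ) =
        (∑ v, Divisor.degree (D v)) -
          (∑ e, ((S.s₁ e).ord (p (S.src e)) + (S.s₂ e).ord (p (S.tgt e)))) + 1 -
          (genusFF K F : ℤ) := by
  obtain ⟨c₀, hc₀⟩ := S.finrank_gluedRR_of_genus hFt hg
  refine ⟨fun v => c₀ v - Divisor.degree (offBr S v (Dp v)), fun D hD hdegD => ?_⟩
  rw [finrank_twistRR, hc₀ (fun v => D v + offBr S v (Dp v)) (fun e => ?_) (fun v => ?_)]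
  · simp only [map_add]
    rw [Finset.sum_add_distrib, sum_degree_offBr S hFt p Dp hDp]
    ring
  · constructor
    · show (D (S.src e) + offBr S (S.src e) (Dp (S.src e))) (S.s₁ e) = 0
      rw [Finsupp.add_apply, (hD e).1, offBr_src, add_zero]
    · show (D (S.tgt e) + offBr S (S.tgt e) (Dp (S.tgt e))) (S.s₂ e) = 0
      rw [Finsupp.add_apply, (hD e).2, offBr_tgt, add_zero]
  · show c₀ v ≤ Divisor.degree (D v + offBr S v (Dp v))
    rw [map_add]
    have := hdegD v
    linarith

/-- in large degree there is a nonzero function in `L(D)` with value `1` at all places of a finite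
set off the support of `D` -/
theorem exists_ne_zero_evalAt_eq_one {L : Type*} [Field L] [Algebra k L] (hL : RiemannPkg k L) :
    ∃ c : ℤ, ∀ (Q : Finset (Place k L)) (D : Divisor k L), (∀ P ∈ Q, D P = 0) →
      c + Q.card ≤ Divisor.degree D →
      ∃ f ∈ riemannRochSpace D, f ≠ 0 ∧ ∀ P ∈ Q, IsValueAt P f 1 := by
  classical
  obtain ⟨c₀, hc₀⟩ := exists_bound_evalFinset_surjective hL
  refine ⟨max c₀ (genusFF k L : ℤ), fun Q D hQ hdegD => ?_⟩
  have hcard : (0 : ℤ) ≤ Q.card := Int.natCast_nonneg _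
  by_cases hne : Q.Nonempty
  · obtain ⟨f, hf⟩ := hc₀ Q D hQ (by have := le_max_left c₀ (genusFF k L : ℤ); linarith)
      (fun _ => 1)
    have hval : ∀ P ∈ Q, IsValueAt P (f : L) 1 := by
      intro P hP
      have h1 := congrFun hf ⟨P, hP⟩
      rw [evalFinset_apply] at h1
      have h2 := isValueAt_evalAt P (hL.deg_one P)
        (mem_toValuationSubring_of_mem_riemannRochSpace f.2 (hQ P hP))
      rwa [h1] at h2
    refine ⟨f, f.2, ?_, hval⟩
    obtain ⟨P, hP⟩ := hne
    exact ne_zero_of_isValueAt_ne_zero (hval P hP) one_ne_zero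
  · rw [Finset.not_nonempty_iff_eq_empty] at hne
    subst hne
    have := hL.finite_L D
    have h1 := hL.riemann_le D
    have h2 : 0 < Module.finrank k (riemannRochSpace D) := by
      have := le_max_right c₀ (genusFF k L : ℤ)
      rw [Finset.card_empty, Nat.cast_zero, add_zero] at hdegD
      have h3 : (0 : ℤ) < (Module.finrank k (riemannRochSpace D) : ℤ) := by linarith
      exact_mod_cast h3
    obtain ⟨f, hf⟩ := Module.finrank_pos_iff_exists_ne_zero.mp h2
    refine ⟨f, f.2, fun h0 => hf (Subtype.ext h0), fun P hP => absurd hP (by simp)⟩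

/-- **the exact member**: in large multidegree the twisted space contains a family with all
components nonzero and `l = 1` at every node. -/
theorem exists_mem_twistRR_exact [Fintype ι] [Fintype ν] (hFt : ∀ v, RiemannPkg k (Ft v))
    {p : ∀ v, Ft v} (hp0 : ∀ v, p v ≠ 0)
    (Dp : ∀ v, Divisor k (Ft v)) (hDp : ∀ v (Q : Place k (Ft v)), Dp v Q = Q.ord (p v))
    (θ₁ : ∀ e, Ft (S.src e)) (θ₂ : ∀ e, Ft (S.tgt e)) (γ : ν → k)
    (hp : ∀ e, IsValueAt (S.s₁ e) (p (S.src e) / θ₁ e) 1 ∧
      IsValueAt (S.s₂ e) (p (S.tgt e) * θ₂ e) (γ e)) :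
    ∃ c : ι → ℤ, ∀ D : ∀ v, Divisor k (Ft v),
      (∀ e, D (S.src e) (S.s₁ e) = 0 ∧ D (S.tgt e) (S.s₂ e) = 0) →
      (∀ v, c v ≤ Divisor.degree (D v)) →
      ∃ h ∈ twistRR S (fun v Q => (hFt v).deg_one Q) p hp0 (fun v => D v + offBr S v (Dp v)),
        (∀ v, h v ≠ 0) ∧
        ∀ e, IsValueAt (S.s₁ e) (h (S.src e) / θ₁ e) 1 ∧
          IsValueAt (S.s₂ e) (h (S.tgt e) * θ₂ e) (γ e) := by
  classical
  choose c₀ hc₀ using fun v => exists_ne_zero_evalAt_eq_one (hFt v)
  refine ⟨fun v => c₀ v + (branchesOn (S.graphNodes fun v Q => (hFt v).deg_one Q) v).card -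
    Divisor.degree (offBr S v (Dp v)), fun D hD hdegD => ?_⟩
  -- the divisors avoid the branches
  have hQ : ∀ v, ∀ P ∈ branchesOn (S.graphNodes fun v Q => (hFt v).deg_one Q) v,
      (D v + offBr S v (Dp v)) P = 0 := by
    intro v P hP
    have hb := (S.isBranch_iff_mem_branchesOn (fun v Q => (hFt v).deg_one Q) v P).mpr hP
    rw [Finsupp.add_apply, offBr_apply_of_isBranch S _ hb, add_zero]
    obtain ⟨e, he | he⟩ := hb
    · have hv : v = S.src e := congrArg Sigma.fst he
      subst hv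
      have hQe : P = S.s₁ e := eq_of_heq (Sigma.mk.inj he).2
      subst hQe
      exact (hD e).1
    · have hv : v = S.tgt e := congrArg Sigma.fst he
      subst hv
      have hQe : P = S.s₂ e := eq_of_heq (Sigma.mk.inj he).2
      subst hQe
      exact (hD e).2
  have hex : ∀ v, ∃ f ∈ riemannRochSpace (D v + offBr S v (Dp v)), f ≠ 0 ∧
      ∀ P ∈ branchesOn (S.graphNodes fun v Q => (hFt v).deg_one Q) v, IsValueAt P f 1 := by
    intro v
    refine hc₀ v _ _ (hQ v) ?_
    rw [map_add]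
    have := hdegD v
    linarith
  choose φ hφL hφ0 hφ1 using hex
  have hφ1s : ∀ e, IsValueAt (S.s₁ e) (φ (S.src e)) 1 := fun e =>
    hφ1 (S.src e) (S.s₁ e) (b_mem_branchesOn (S.graphNodes fun v Q => (hFt v).deg_one Q) e)
  have hφ1t : ∀ e, IsValueAt (S.s₂ e) (φ (S.tgt e)) 1 := fun e =>
    hφ1 (S.tgt e) (S.s₂ e) (b'_mem_branchesOn (S.graphNodes fun v Q => (hFt v).deg_one Q) e)
  have hφ : φ ∈ gluedRR (S.graphNodes fun v Q => (hFt v).deg_one Q)
      (fun v => D v + offBr S v (Dp v)) :=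
    S.mem_gluedRR_of_forall_isValueAt _ hφL (fun e => ⟨1, hφ1s e, hφ1t e⟩)
  refine ⟨fun v => p v * φ v, mul_mem_twistRR S _ hφ, fun v => mul_ne_zero (hp0 v) (hφ0 v),
    fun e => ⟨?_, ?_⟩⟩
  · have h1 : p (S.src e) * φ (S.src e) / θ₁ e = p (S.src e) / θ₁ e * φ (S.src e) := by ring
    rw [h1, ← mul_one (1 : k)]
    exact (hp e).1.mul (hφ1s e)
  · have h1 : p (S.tgt e) * φ (S.tgt e) * θ₂ e = p (S.tgt e) * θ₂ e * φ (S.tgt e) := by ring
    rw [h1, ← mul_one (γ e)]
    exact (hp e).2.mul (hφ1t e)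

end Fermat.Agent.BR3.TorShift
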