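import Fermat.Agent.BR3.VertAllLevels
import Fermat.Agent.BR3.HeckePolyDescent
import Fermat.Agent.BR3.ThickOneUnit
import Fermat.Agent.BR3.VertTube
import Fermat.Agent.BR3.VertFinal

/-!
# Program C (S36), node (I5-GLUE), layer B: the vertical component at EVERY supersingular crossing

`L := annulusLevels_modular_final B hB hqM hne e` the level data of the tube of the crossing `e` of
main's two-component model of `X₀(M q)` at `q` (`M` without elliptic points).  For `g g' g''` in the
level `M` model over the unramified base level `(K₀, W₀ = B ∩ K₀, q)` with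
`redMF g = σ • redMF g'`, `redMF g'' = σ • redMF g` (Frobenius untwist / twist), put

`v_g := α g - (β g')^q`  (vanishes on `'et'`),   `u_g := β g'' - (α g)^q`  (vanishes on `'can'`).

* `CQ0_le_CS`, `CQ0_le_level` : the level `M q` model over `W₀` lies in the base level of `L`;
* `vg_mem_nonunits_O2`, `ug_mem_nonunits_O1` : the two vanishing statements;
* `vg_mul_ug` : `v_g u_g = q • Ψ₁(α g)` from the Kronecker congruence modulo `q`
  (`HeckePolyDescent.exists_kronecker_PAt_q`);
* `exists_vertComponent_all` : **the vertical component over the `a`-critical circle at EVERY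
  crossing `e`** (elliptic or not), as soon as `v_g`, `u_g` have SIMPLE zeros at the two branches
  `z₁ e`, `z₂ e` (which holds when `redMF g` is a local parameter at the supersingular point under
  `e`) and `g` is not constant; conclusion in the shape of `VertMain.exists_vertComponent_main'`
  with the generator `Ug M q g / α₂ a₀`.
-/

set_option autoImplicit false
set_option linter.unusedSectionVars false
set_option linter.style.haveILetI false
set_option synthInstance.maxHeartbeats 400000

noncomputable section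

/- S36 build-time patch: file-local shortcut instances. They only shorten instance search;
each is the instance that the search finds anyway (reducible, same terms after unfolding). -/
local instance (priority := 100000) Fermat.Agent.BR3.FastInst.instAlgFullC_VertAll
    {k : Type*} [Field k] (N : ℕ) :
    Algebra k ↥(ModularCurve.modularFunctionFieldFullC k N) := inferInstance
local instance (priority := 100000) Fermat.Agent.BR3.FastInst.instFieldFullC_VertAll
    {k : Type*} [Field k] (N : ℕ) :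
    Field ↥(ModularCurve.modularFunctionFieldFullC k N) := inferInstance
local instance (priority := 100000) Fermat.Agent.BR3.FastInst.instAlgLaurent_VertAll
    {k : Type*} [Field k] : Algebra k (LaurentSeries k) := inferInstance


namespace Fermat.Agent.BR3.VertAll

open Polynomial ModularCurve AlgebraicCurve IsLocalRing
open Fermat.Agent.X0 Fermat.Agent.Val Fermat.Agent.Red Fermat.Agent.Hecke
open Fermat.Agent.BR.SS Fermat.Agent.BR.Refine Fermat.Agent.BR.TwoVal Fermat.Agent.BR.TwoValInst
open Fermat.Agent.BR.ResGen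
open Fermat.Agent.BR.Circle Fermat.Agent.BR.S0 Fermat.Agent.BR.S0.RedModular
open Fermat.Agent.BR.S0.PointDict Fermat.Agent.BR.S0.AnnulusChartOfLevels
open Fermat.Agent.BR.S0.Modular Fermat.Agent.BR.S0.ThickFinal
open Fermat.Agent.BR.UnramCycloTower Fermat.Agent.BR.UnramCyclo
open Fermat.Agent.BR.Inst.Levels Fermat.Agent.BR.Inst.NormalModel Fermat.Agent.BR.Inst.LevelsInst
open Fermat.Agent.BR.Inst.ChartInModel Fermat.Agent.BR.Inst.DegenModel
open Fermat.Agent.BR.Inst.SpecIso Fermat.Agent.BR.Inst.NodeInstFinal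
open Fermat.Agent.BR.Inst.AnnulusInst
open Fermat.Agent.BR.Inst.AnnulusInstFinal Fermat.Agent.BR.Final
open Fermat.Agent.BR3.FibreProd Fermat.Agent.BR3.VertResidue Fermat.Agent.BR3.HeckePoly
open Fermat.Agent.BR3.HeckePolyKron Fermat.Agent.BR3.HeckePolyModel
open Fermat.Agent.BR3.HeckePolyDescent
open Fermat.Agent.BR3.VertCircleMod Fermat.Agent.BR3.VertLevelMem Fermat.Agent.BR3.VertFinal
open Fermat.Agent.BR3.VertTube Fermat.Agent.BR3.VertAllLevels
open Fermat.Agent.BR3.ThickOneFinal Fermat.Agent.BR3.ThickOneUnit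

variable {M q : ℕ} [NeZero M] [hq : Fact q.Prime]
variable (B : ValuationSubring Kb) (hB : B.LiesOverPrime q) (hqM : ¬ q ∣ M)

local notation "kB" => ResidueField B

/-! ### The base level `(K₀, W₀)` sits in the level `∅` of the tower -/

theorem K0_le_KS : K0 q ≤ KS q (∅ : Finset Kb) := fun _ hx =>
  cycloField_le_coeffField q ∅ hx

theorem W0_le_WS : W0 B q ≤ WS B q (∅ : Finset Kb) := fun _ hx =>
  ⟨hx.1, K0_le_KS hx.2⟩

/-- the level `M q` model over the base level `W₀` lies in the model of level `∅` of the tower -/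
theorem CQ0_le_CS : CQ M q (W0 B q) (K0 q) ≤ CS (M * q) q (baseFin M q B) ∅ := by
  refine modelOf_mono ?_ ?_
  · unfold modelBase
    apply Subring.closure_mono
    apply Set.union_subset_union_left
    exact Set.image_mono (W0_le_WS B)
  · unfold FS modelField
    apply Subfield.closure_mono
    apply Set.union_subset_union_left
    exact Set.image_mono K0_le_KS

/-! ### The two vanishing statements -/

section Vanish

variable [CharP (ResidueField B) q] [PerfectField (ResidueField B)]

/-- `v_g = α g - (β g')^q` vanishes on the component `'et'` when `redMF g = σ • redMF g'`. -/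
theorem vg_mem_nonunits_O2 {g g' : Fb M} (hg : g ∈ OM M B hB) (hg' : g' ∈ OM M B hB)
    (h' : redMF B hB hqM ⟨g, hg⟩ = frobAutFullC kB M q • redMF B hB hqM ⟨g', hg'⟩) :
    heckeAlphaBar Kb M q g - (heckeBetaBar Kb M q g') ^ q ∈ (O2 B hB hqM).nonunits := by
  have h2a : heckeAlphaBar Kb M q g ∈ O2 B hB hqM := (alpha_mem_O2_iff B hB hqM g).2 hg
  have h2b : heckeBetaBar Kb M q g' ∈ O2 B hB hqM := (beta_mem_O2_iff B hB hqM g').2 hg'
  have hmem : heckeAlphaBar Kb M q g - (heckeBetaBar Kb M q g') ^ q ∈ O2 B hB hqM :=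
    sub_mem h2a (pow_mem h2b q)
  have e : (⟨_, hmem⟩ : O2 B hB hqM) =
      ⟨heckeAlphaBar Kb M q g, h2a⟩ - ⟨heckeBetaBar Kb M q g', h2b⟩ ^ q := rfl
  have h0 : red2F B hB hqM ⟨_, hmem⟩ = 0 := by
    rw [e, map_sub, map_pow, red2F_alpha B hB hqM g hg, red2F_beta B hB hqM g' hg', h',
      qExpandFullC_eq, inv_smul_smul, sub_self]
  exact (red2F_eq_zero_iff B hB hqM ⟨_, hmem⟩).mp h0

/-- `u_g = β g'' - (α g)^q` vanishes on the component `'can'` when `redMF g'' = σ • redMF g`. -/
theorem ug_mem_nonunits_O1 {g g'' : Fb M} (hg : g ∈ OM M B hB) (hg'' : g'' ∈ OM M B hB)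
    (h'' : redMF B hB hqM ⟨g'', hg''⟩ = frobAutFullC kB M q • redMF B hB hqM ⟨g, hg⟩) :
    heckeBetaBar Kb M q g'' - (heckeAlphaBar Kb M q g) ^ q ∈ (O1 M B hB).nonunits := by
  have h1a : heckeAlphaBar Kb M q g ∈ O1 M B hB := (alpha_mem_O1_iff B hB g).2 hg
  have h1b : heckeBetaBar Kb M q g'' ∈ O1 M B hB := (beta_mem_O1_iff B hB g'').2 hg''
  have hmem : heckeBetaBar Kb M q g'' - (heckeAlphaBar Kb M q g) ^ q ∈ O1 M B hB :=
    sub_mem h1b (pow_mem h1a q)
  have e : (⟨_, hmem⟩ : O1 M B hB) =
      ⟨heckeBetaBar Kb M q g'', h1b⟩ - ⟨heckeAlphaBar Kb M q g, h1a⟩ ^ q := rfl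
  have h0 : red1F B hB hqM ⟨_, hmem⟩ = 0 := by
    rw [e, map_sub, map_pow, red1F_beta B hB hqM g'' hg'', red1F_alpha B hB hqM g hg, h'',
      qExpandFullC_eq, inv_smul_smul, sub_self]
  exact (red1F_eq_zero_iff B hB hqM ⟨_, hmem⟩).mp h0

end Vanish

/-! ### The product `v_g u_g = q • Ψ₁(α g)` -/

include hqM in
/-- from the Kronecker congruence modulo `q` at the root `α g`. -/
theorem vg_mul_ug {g : Fb M} {x₁ x₂ : Fb (M * q)} {Ψ₁ : (Fb (M * q))[X]}
    (hP : PAt M q g = (X ^ q - C x₂) * (X - C (x₁ ^ q)) + C ((q : ℕ) : Fb (M * q)) * Ψ₁) :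
    (heckeAlphaBar Kb M q g - x₁ ^ q) * (x₂ - (heckeAlphaBar Kb M q g) ^ q) =
      (q : Kb) • Ψ₁.eval (heckeAlphaBar Kb M q g) := by
  have h := PAt_eval_alpha (M := M) (q := q) hqM g
  rw [hP] at h
  simp only [eval_add, eval_mul, eval_sub, eval_pow, eval_X, eval_C] at h
  rw [Algebra.smul_def, map_natCast]
  linear_combination -h

/-! ### The level data of the tube of a crossing -/

section Final

variable [IsAlgClosed (ResidueField B)]
  (hne : Nonempty (Crossing (chartDataModular B hB hqM)))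
  (e : Crossing (chartDataModular B hB hqM))

/-- the level `M q` model over the base level `W₀` lies in the base level of the tube of `e` -/
theorem CQ0_le_level {y : Fb (M * q)} (hy : y ∈ CQ M q (W0 B q) (K0 q)) :
    y ∈ ((annulusLevels_modular_final B hB hqM hne e).level (∅ : Finset Kb)).R :=
  CS_le_level B hB hqM hne e ∅ (CQ0_le_CS B hy)

theorem alpha_mem_level {g : Fb M} (hg : g ∈ CMod M (W0 B q) (K0 q)) :
    heckeAlphaBar Kb M q g ∈
      ((annulusLevels_modular_final B hB hqM hne e).level (∅ : Finset Kb)).R :=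
  CQ0_le_level B hB hqM hne e
    (alpha_mem_model M q (isModel_CMod M (W0 B q) (K0 q)) (isModel_CQ M q (W0 B q) (K0 q)) hg)

theorem beta_mem_level {g : Fb M} (hg : g ∈ CMod M (W0 B q) (K0 q)) :
    heckeBetaBar Kb M q g ∈
      ((annulusLevels_modular_final B hB hqM hne e).level (∅ : Finset Kb)).R :=
  CQ0_le_level B hB hqM hne e
    (beta_mem_model M q hq.out (isModel_CMod M (W0 B q) (K0 q))
      (isModel_CQ M q (W0 B q) (K0 q)) hg)

variable [CharP (ResidueField B) q]

set_option maxHeartbeats 1600000 in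
/-- **(I5-GLUE): the vertical component over the `a`-critical circle at EVERY crossing `e`**
(elliptic or not) of main's two-component model of `X₀(M q)` at `q`.

`g g' g''` in the level `M` model over the unramified base level, `g'` a Frobenius untwist and
`g''` a Frobenius twist of `g`, `g` not constant, `v_g = α g - (β g')^q` with a SIMPLE zero at the
branch `z₁ e` of `'can'`, `u_g = β g'' - (α g)^q` with a SIMPLE zero at the branch `z₂ e` of `'et'`
(both hold when `redMF g` is a local parameter at the supersingular point under `e`).  Then there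
is a gauge `a₀` of the critical circle (`|a₀|^(q+1) = |q| = |thick e|`) and the circle valuation
`circleRing L.core a₀` of `Fb (M q)` has exactly ONE extension `Z` to `Fb (M q q)` along `α₂`; its
residue field is `k(T)[Ũ]/(Ũ^q + β T Ũ^(q-1) - ρ/(β T))`, `β ρ ≠ 0`, generated by the residue of
`U_g / α₂ a₀`, `U_g = β₂ (β g) - α₂ (α g)`. -/
theorem exists_vertComponent_all (h2 : nuTwo M = 0) (h3 : nuThree M = 0) {g g' g'' : Fb M}
    (hg : g ∈ CMod M (W0 B q) (K0 q)) (hg' : g' ∈ CMod M (W0 B q) (K0 q))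
    (hg'' : g'' ∈ CMod M (W0 B q) (K0 q))
    (h' : redMF B hB hqM ⟨g, mem_OM_of_mem_CMod (levelHyp_base B hB hqM) hg⟩ =
      frobAutFullC kB M q •
        redMF B hB hqM ⟨g', mem_OM_of_mem_CMod (levelHyp_base B hB hqM) hg'⟩)
    (h'' : redMF B hB hqM ⟨g'', mem_OM_of_mem_CMod (levelHyp_base B hB hqM) hg''⟩ =
      frobAutFullC kB M q •
        redMF B hB hqM ⟨g, mem_OM_of_mem_CMod (levelHyp_base B hB hqM) hg⟩)
    (hgc : g ∉ Set.range (algebraMap Kb (Fb M)))
    (hxO : heckeAlphaBar Kb M q g - (heckeBetaBar Kb M q g') ^ q ∈ (compW B hB hqM 0).O)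
    (hyO : heckeBetaBar Kb M q g'' - (heckeAlphaBar Kb M q g) ^ q ∈ (compW B hB hqM 1).O)
    (hxord : (z₁ (chartDataModular B hB hqM) e).ord
      ((compW B hB hqM 0).res ⟨_, hxO⟩) = 1)
    (hyord : (z₂ (chartDataModular B hB hqM) e).ord
      ((compW B hB hqM 1).res ⟨_, hyO⟩) = 1) :
    ∃ (a₀ : Kb)
      (ha1 : B.valuation (annulusLevels_modular_final B hB hqM hne e).core.thick <
        B.valuation a₀) (ha2 : B.valuation a₀ < 1),
      B.valuation a₀ ^ (q + 1) = B.valuation (q : Kb) ∧
      ∃ β : kB, β ≠ 0 ∧ ∃ ρ : kB, ρ ≠ 0 ∧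
      ∃ (Z : ValuationSubring (Fb (M * q * q))) (resZ : Z →+* AdjoinRoot (vertBar q β ρ)),
        Z.comap (alpha2 M q : Fb (M * q) →+* Fb (M * q * q)) =
          circleRing (annulusLevels_modular_final B hB hqM hne e).core a₀ ha1 ha2 ∧
        (∀ Z' : ValuationSubring (Fb (M * q * q)),
          Z'.comap (alpha2 M q : Fb (M * q) →+* Fb (M * q * q)) =
            circleRing (annulusLevels_modular_final B hB hqM hne e).core a₀ ha1 ha2 → Z' = Z) ∧
        Function.Surjective resZ ∧ (∀ z : Z, resZ z = 0 ↔ ¬ IsUnit z) ∧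
        (∀ (y : circleRing (annulusLevels_modular_final B hB hqM hne e).core a₀ ha1 ha2)
          (h : alpha2 M q (y : Fb (M * q)) ∈ Z),
          resZ ⟨alpha2 M q (y : Fb (M * q)), h⟩ =
            AdjoinRoot.of (vertBar q β ρ)
              (circleRes (annulusLevels_modular_final B hB hqM hne e).core a₀ ha1 ha2 y)) ∧
        ∃ hθ : Ug M q g / alpha2 M q (algebraMap Kb (Fb (M * q)) a₀) ∈ Z,
          resZ ⟨Ug M q g / alpha2 M q (algebraMap Kb (Fb (M * q)) a₀), hθ⟩ =
            AdjoinRoot.root (vertBar q β ρ) := by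
  obtain ⟨Ψ₁, hΨ, hP⟩ := exists_kronecker_PAt_q B hB hqM hg hg' hg'' h' h''
  have hgO := mem_OM_of_mem_CMod (levelHyp_base B hB hqM) hg
  have hg'O := mem_OM_of_mem_CMod (levelHyp_base B hB hqM) hg'
  have hg''O := mem_OM_of_mem_CMod (levelHyp_base B hB hqM) hg''
  have hαR := alpha_mem_level B hB hqM hne e hg
  have hβ'R := beta_mem_level B hB hqM hne e hg'
  have hβ''R := beta_mem_level B hB hqM hne e hg''
  have hΨR : ∀ k, Ψ₁.coeff k ∈
      ((annulusLevels_modular_final B hB hqM hne e).level (∅ : Finset Kb)).R :=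
    fun k => CQ0_le_level B hB hqM hne e (hΨ k)
  have hx : heckeAlphaBar Kb M q g - (heckeBetaBar Kb M q g') ^ q ∈
      ((annulusLevels_modular_final B hB hqM hne e).level (∅ : Finset Kb)).R :=
    sub_mem hαR (pow_mem hβ'R q)
  have hy : heckeBetaBar Kb M q g'' - (heckeAlphaBar Kb M q g) ^ q ∈
      ((annulusLevels_modular_final B hB hqM hne e).level (∅ : Finset Kb)).R :=
    sub_mem hβ''R (pow_mem hαR q)
  have hz : Ψ₁.eval (heckeAlphaBar Kb M q g) ∈
      ((annulusLevels_modular_final B hB hqM hne e).level (∅ : Finset Kb)).R :=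
    eval_mem_of_coeff_mem _ hΨR hαR
  have hxyz := vg_mul_ug (M := M) (q := q) hqM hP
  have hx₂ : heckeAlphaBar Kb M q g - (heckeBetaBar Kb M q g') ^ q ∈
      (compW B hB hqM 1).O.nonunits := vg_mem_nonunits_O2 B hB hqM hgO hg'O h'
  have hy₁ : heckeBetaBar Kb M q g'' - (heckeAlphaBar Kb M q g) ^ q ∈
      (compW B hB hqM 0).O.nonunits := ug_mem_nonunits_O1 B hB hqM hgO hg''O h''
  have hR := isUnit_of_simple_zeros_final B hB hqM hne e h2 h3 hx hy hz hx₂ hy₁ hxO hyO
    hxord hyord hxyz
  have hthick := valuation_thick_levels_final B hB hqM h2 h3 hne e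
  obtain ⟨a₀, ha1, ha2, ha₀⟩ := exists_gauge B hB hthick
  have hq0 : ((q : ℕ) : Kb) ≠ 0 := Nat.cast_ne_zero.mpr hq.out.ne_zero
  obtain ⟨β, hβ, hred⟩ := exists_isRed_inv_smul_of_levels
    (branchData_modular_final B hB hqM hne e) a₀ ha1 ∅ hx hy hz hR hq0 hxyz hxord
  obtain ⟨ρ, hρ, Z, resZ, hZ⟩ := exists_vertComponent_of_levels_tw hqM
    (annulusLevels_modular_final B hB hqM hne e) a₀ ha1 ha2 ha₀ ∅ hgc hP hβ'R hαR hΨR hz hR
    hβ hred
  exact ⟨a₀, ha1, ha2, ha₀, β, hβ, ρ, hρ, Z, resZ, hZ⟩

end Final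

end Fermat.Agent.BR3.VertAll

end
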