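import Fermat.Agent.BR3.VertAllParam
import Fermat.Agent.BR3.SSParamAll

/-!
# Program C (S36), node (I5-GLUE), final: the vertical component at EVERY supersingular crossing,
without hypothesis

`SSParamAll.exists_isSSParam` (node (I5-SZ)) fed into `VertAllParam.exists_vertComponent_of_param`:

* `exists_vertComponent_ss_gauge` : for every crossing `e` of main's two-component model of
  `X₀(M q)` at `q` (`M` without elliptic points) and every gauge `|a₀|^(q+1) = |q|` there is a
  twisted triple `(g, g', g'')` with simple zeros at `e` (`SSParam.IsSSParam`) such that the circle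
  valuation `circleRing L.core a₀` of `Fb (M q)` has exactly ONE extension `Z` to `Fb (M q q)` along
  `α₂`, with residue field `k(T)[Ũ]/(Ũ^q + β T Ũ^(q-1) - ρ/(β T))`, `β ρ ≠ 0`, generated by the
  residue of `U_g / α₂ a₀`;
* `exists_vertComponent_ss` : the same with the gauge produced.
-/

set_option autoImplicit false
set_option linter.unusedSectionVars false
set_option linter.style.haveILetI false
set_option synthInstance.maxHeartbeats 400000

noncomputable section

namespace Fermat.Agent.BR3.VertAllFinal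

open Polynomial ModularCurve AlgebraicCurve IsLocalRing
open Fermat.Agent.X0 Fermat.Agent.Val Fermat.Agent.Red Fermat.Agent.Hecke
open Fermat.Agent.BR.SS Fermat.Agent.BR.Refine
open Fermat.Agent.BR.Circle Fermat.Agent.BR.S0 Fermat.Agent.BR.S0.RedModular
open Fermat.Agent.BR.S0.PointDict Fermat.Agent.BR.S0.Modular
open Fermat.Agent.BR.Inst.AnnulusInstFinal Fermat.Agent.BR.Final
open Fermat.Agent.BR3.FibreProd Fermat.Agent.BR3.VertResidue Fermat.Agent.BR3.HeckePoly
open Fermat.Agent.BR3.VertCircleMod
open Fermat.Agent.BR3.SSParam Fermat.Agent.BR3.SSParamAll Fermat.Agent.BR3.VertAllParam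

variable {M q : ℕ} [NeZero M] [hq : Fact q.Prime]
variable (B : ValuationSubring Kb) (hB : B.LiesOverPrime q) (hqM : ¬ q ∣ M)
  [IsAlgClosed (ResidueField B)] [CharP (ResidueField B) q]
  (hne : Nonempty (Crossing (chartDataModular B hB hqM)))
  (e : Crossing (chartDataModular B hB hqM))

local notation "kB" => ResidueField B

/-- **The vertical component over the `a`-critical circle at EVERY supersingular crossing `e`,
hypothesis-free, gauge given.** -/
theorem exists_vertComponent_ss_gauge (h2 : nuTwo M = 0) (h3 : nuThree M = 0) (a₀ : Kb)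
    (ha₀ : B.valuation a₀ ^ (q + 1) = B.valuation (q : Kb)) :
    ∃ g g' g'' : Fb M, IsSSParam B hB hqM e g g' g'' ∧
      ∃ (ha1 : B.valuation (annulusLevels_modular_final B hB hqM hne e).core.thick <
        B.valuation a₀) (ha2 : B.valuation a₀ < 1),
      ∃ β : kB, β ≠ 0 ∧ ∃ ρ : kB, ρ ≠ 0 ∧
      ∃ (Z : ValuationSubring (Fb (M * q * q))) (resZ : Z →+* AdjoinRoot (vertBar q β ρ)),
        Z.comap (alpha2 M q : Fb (M * q) →+* Fb (M * q * q)) =
          circleRing (annulusLevels_modular_final B hB hqM hne e).core a₀ ha1 ha2 ∧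
        (∀ Z' : ValuationSubring (Fb (M * q * q)),
          Z'.comap (alpha2 M q : Fb (M * q) →+* Fb (M * q * q)) =
            circleRing (annulusLevels_modular_final B hB hqM hne e).core a₀ ha1 ha2 → Z' = Z) ∧
        Function.Surjective resZ ∧ (∀ z : Z, resZ z = 0 ↔ ¬ IsUnit z) ∧
        (∀ (y : circleRing (annulusLevels_modular_final B hB hqM hne e).core a₀ ha1 ha2)
          (h : alpha2 M q (y : Fb (M * q)) ∈ Z),
          resZ ⟨alpha2 M q (y : Fb (M * q)), h⟩ =
            AdjoinRoot.of (vertBar q β ρ)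
              (circleRes (annulusLevels_modular_final B hB hqM hne e).core a₀ ha1 ha2 y)) ∧
        ∃ hθ : Ug M q g / alpha2 M q (algebraMap Kb (Fb (M * q)) a₀) ∈ Z,
          resZ ⟨Ug M q g / alpha2 M q (algebraMap Kb (Fb (M * q)) a₀), hθ⟩ =
            AdjoinRoot.root (vertBar q β ρ) := by
  obtain ⟨g, g', g'', P⟩ := exists_isSSParam B hB hqM e
  obtain ⟨ha1, ha2⟩ := gauge_bounds B hB hqM hne e h2 h3 ha₀
  exact ⟨g, g', g'', P, ha1, ha2,
    exists_vertComponent_of_param_gauge B hB hqM hne e h2 h3 P a₀ ha1 ha2 ha₀⟩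

/-- **The vertical component over the `a`-critical circle at EVERY supersingular crossing `e`,
hypothesis-free.** -/
theorem exists_vertComponent_ss (h2 : nuTwo M = 0) (h3 : nuThree M = 0) :
    ∃ g g' g'' : Fb M, IsSSParam B hB hqM e g g' g'' ∧
      ∃ (a₀ : Kb)
      (ha1 : B.valuation (annulusLevels_modular_final B hB hqM hne e).core.thick <
        B.valuation a₀) (ha2 : B.valuation a₀ < 1),
      B.valuation a₀ ^ (q + 1) = B.valuation (q : Kb) ∧
      ∃ β : kB, β ≠ 0 ∧ ∃ ρ : kB, ρ ≠ 0 ∧
      ∃ (Z : ValuationSubring (Fb (M * q * q))) (resZ : Z →+* AdjoinRoot (vertBar q β ρ)),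
        Z.comap (alpha2 M q : Fb (M * q) →+* Fb (M * q * q)) =
          circleRing (annulusLevels_modular_final B hB hqM hne e).core a₀ ha1 ha2 ∧
        (∀ Z' : ValuationSubring (Fb (M * q * q)),
          Z'.comap (alpha2 M q : Fb (M * q) →+* Fb (M * q * q)) =
            circleRing (annulusLevels_modular_final B hB hqM hne e).core a₀ ha1 ha2 → Z' = Z) ∧
        Function.Surjective resZ ∧ (∀ z : Z, resZ z = 0 ↔ ¬ IsUnit z) ∧
        (∀ (y : circleRing (annulusLevels_modular_final B hB hqM hne e).core a₀ ha1 ha2)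
          (h : alpha2 M q (y : Fb (M * q)) ∈ Z),
          resZ ⟨alpha2 M q (y : Fb (M * q)), h⟩ =
            AdjoinRoot.of (vertBar q β ρ)
              (circleRes (annulusLevels_modular_final B hB hqM hne e).core a₀ ha1 ha2 y)) ∧
        ∃ hθ : Ug M q g / alpha2 M q (algebraMap Kb (Fb (M * q)) a₀) ∈ Z,
          resZ ⟨Ug M q g / alpha2 M q (algebraMap Kb (Fb (M * q)) a₀), hθ⟩ =
            AdjoinRoot.root (vertBar q β ρ) := by
  obtain ⟨g, g', g'', P⟩ := exists_isSSParam B hB hqM e
  exact ⟨g, g', g'', P, exists_vertComponent_of_param B hB hqM hne e h2 h3 P⟩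

end Fermat.Agent.BR3.VertAllFinal

end
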