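import Mathlib
import Fermat.Agent.BR3.VertBetaFr
import Fermat.Agent.BR3.CentreHom
import Fermat.Agent.BR3.ResConst
import Fermat.Agent.BR3.VertLevelMem
import Fermat.Agent.BR3.FibreProdRoots
import Fermat.Agent.BR3.VertCircle
import Fermat.Agent.BR.Inst.NodeInstFinal
import Fermat.Agent.BR.S0.GeomModular

/-!
# Program C (S36), node (I7-ZE-B), part (ii): the centre of `z e` along `b` is the crossing `Fr e`

`Z` a valuation subring of `Fb (M q q)` over the circle `circleRing L.core a₀` of the tube of a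
crossing `e` of `S'` along `a = α₂` (only `hcomap : Z.comap α₂ = circleRing …` is used).  Then the
restriction `Z.comap β₂` of `Z` along `b = β₂` contains every model `CS (M q) S` of the tower, its
centre on it is the point of the crossing `Fr e` (`VertBetaFr.Fr`: the two branches exchanged), and
it DOMINATES the level rings of the tube of `Fr e`:

* `exists_res_of_mem_CS` : a function `y` of a model has a CONSTANT residue on `Z` along `a`, its
  value at the branch `z₂ e`;
* `CS_le_constSub`, `phiS S : CS (M q) S →+* kB` : the residue of `β₂ x` is a constant;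
  `phiS_const`, `phiS_alpha` (`β₂ ∘ α₁ = α₂ ∘ β₁`);
* `mem_point_Fr_iff` : the kernel of `phiS S` is the point of `Fr e`
  (`CentreHom.exists_place_of_hom` + helper26's four residues of the rational chart of level `M`);
* **`dominates_level_Fr`** : `Z.comap β₂` contains the level rings of main's level data of the tube
  of `Fr e` and dominates them.
-/

set_option autoImplicit false
set_option linter.unusedSectionVars false
set_option linter.style.haveILetI false
set_option synthInstance.maxHeartbeats 400000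

noncomputable section

namespace Fermat.Agent.BR3.VertBetaDom

open AlgebraicCurve ModularCurve ModularCurve.IgusaScheme IsLocalRing Polynomial
open Fermat.Agent.Red Fermat.Agent.Val Fermat.Agent.X0 Fermat.Agent.BR.SS Fermat.Agent.Hecke
open Fermat.Agent.BR.TwoVal Fermat.Agent.BR.TwoValInst Fermat.Agent.BR.ConstRedTwo
open Fermat.Agent.BR.ResGen Fermat.Agent.BR.Inst Fermat.Agent.BR.Inst.SpecIso
open Fermat.Agent.BR.Circle
open Fermat.Agent.BR.S0 Fermat.Agent.BR.S0.RedModular Fermat.Agent.BR.S0.PointDict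
open Fermat.Agent.BR.S0.SepModular Fermat.Agent.BR.S0.RedHyp
open Fermat.Agent.BR.Inst.Levels Fermat.Agent.BR.Inst.NormalModel Fermat.Agent.BR.Inst.LevelsInst
open Fermat.Agent.BR.Inst.NodeInstFinal Fermat.Agent.BR.Inst.AnnulusInst
open Fermat.Agent.BR.Inst.AnnulusInstFinal Fermat.Agent.BR.Inst.ChartInModel
open Fermat.Agent.BR.Inst.NormalGen Fermat.Agent.BR.Inst.ChartInLevels
open Fermat.Agent.BR2.G3PrepCross Fermat.Agent.BR2.G3Prep Fermat.Agent.Igusa
open Fermat.Agent.BR3.FibreProd Fermat.Agent.BR3.VertCircle Fermat.Agent.BR3.VertLevelMem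
open Fermat.Agent.BR3.VertBetaFr Fermat.Agent.BR3.CentreHom Fermat.Agent.BR3.ResConst

variable {M q : ℕ} [NeZero M] [hq : Fact q.Prime]
variable (B : ValuationSubring Kb) (hB : B.LiesOverPrime q) (hqM : ¬ q ∣ M)
  [IsAlgClosed (ResidueField B)]
  (hne : Nonempty (Crossing (chartDataModular B hB hqM)))
  (e : Crossing (chartDataModular B hB hqM))

local notation "kB" => ResidueField B
local notation "FtM" => modularFunctionFieldFullC (ResidueField B) M

/-! ### the levels are the local rings of the models -/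

/-- the global model of level `S` at the crossing `e` (main's `crossingModel_modular_final`) -/
theorem modS (S : Finset Kb) (e : Crossing (chartDataModular B hB hqM)) :
    CrossingModel B (IsLocalRing.residue B) (compW B hB hqM 0).O (compW B hB hqM 1).O
      (compW B hB hqM 0).res (compW B hB hqM 1).res (z₁ (chartDataModular B hB hqM) e)
      (z₂ (chartDataModular B hB hqM) e)
      {P | (atlasHyp_modular B hB hqM
        (Fermat.Agent.BR.S0.GeomFinal.geomInputs_modular_final B hB hqM)).r P =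
          ⟨0, z₁ (chartDataModular B hB hqM) e⟩}
      (CS (M * q) q (baseFin M q B) S) (unif B hq.out hB S) :=
  crossingModel_modular_final B hB hqM _ S e

set_option maxHeartbeats 4000000 in
/-- the level `S` of main's level data of the tube of `e` is the local ring of the model -/
theorem level_R_eq (S : Finset Kb) :
    ((annulusLevels_modular_final B hB hqM hne e).level S).R = (modS B hB hqM S e).loc := rfl

/-- transport of non-units along an equality of subrings -/
theorem not_isUnit_of_subring_eq {F : Type*} [Field F] {R R' : Subring F} (h : R = R') {x : F}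
    (hx : x ∈ R) (hnu : ¬ IsUnit (⟨x, hx⟩ : R)) : ¬ IsUnit (⟨x, h ▸ hx⟩ : R') := by
  subst h
  exact hnu

/-- transport of domination along an equality of subrings -/
theorem dominates_of_subring_eq {F : Type*} [Field F] {R R' : Subring F} (h : R = R')
    (O : ValuationSubring F)
    (hd : (∀ z ∈ R', z ∈ O) ∧ ∀ z : R', ¬ IsUnit z → O.valuation (z : F) < 1) :
    (∀ z ∈ R, z ∈ O) ∧ ∀ z : R, ¬ IsUnit z → O.valuation (z : F) < 1 := by
  subst h
  exact hd

/-! ### a valuation ring over the circle -/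

section OverCircle

variable (a₀ : Kb)
  (ha1 : B.valuation (annulusLevels_modular_final B hB hqM hne e).core.thick < B.valuation a₀)
  (ha2 : B.valuation a₀ < 1) (Z : ValuationSubring (Fb (M * q * q)))
  (hcomap : Z.comap (alpha2 M q : Fb (M * q) →+* Fb (M * q * q)) =
    circleRing (annulusLevels_modular_final B hB hqM hne e).core a₀ ha1 ha2)

include hcomap in
theorem alpha2_mem_iff (y : Fb (M * q)) :
    alpha2 M q y ∈ Z ↔
      y ∈ circleRing (annulusLevels_modular_final B hB hqM hne e).core a₀ ha1 ha2 := by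
  rw [← hcomap, ValuationSubring.mem_comap]
  rfl

include hcomap in
theorem alpha2_valuation_lt_iff (y : Fb (M * q)) :
    Z.valuation (alpha2 M q y) < 1 ↔
      (circleRing (annulusLevels_modular_final B hB hqM hne e).core a₀ ha1 ha2).valuation y < 1 := by
  rw [← hcomap, valuation_comap_lt_one_iff]
  rfl

include hcomap in
theorem const_mem_iff (c : Kb) : alpha2 M q (algebraMap Kb (Fb (M * q)) c) ∈ Z ↔ c ∈ B := by
  rw [alpha2_mem_iff B hB hqM hne e a₀ ha1 ha2 Z hcomap]
  exact algebraMap_mem_circleRing_iff _ a₀ ha1 ha2 c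

theorem beta2_const (c : Kb) :
    beta2 M q (algebraMap Kb (Fb (M * q)) c) = alpha2 M q (algebraMap Kb (Fb (M * q)) c) := by
  rw [AlgHom.commutes, AlgHom.commutes]

/-- the constants, `B → Z` -/
def baseHom : B →+* Z :=
  ((alpha2 M q : Fb (M * q) →+* Fb (M * q * q)).comp
    ((algebraMap Kb (Fb (M * q))).comp B.subtype)).codRestrict Z.toSubring
    (fun a => (const_mem_iff B hB hqM hne e a₀ ha1 ha2 Z hcomap (a : Kb)).mpr a.2)

theorem coe_baseHom (a : B) :
    ((baseHom B hB hqM hne e a₀ ha1 ha2 Z hcomap a : Z) : Fb (M * q * q)) =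
      alpha2 M q (algebraMap Kb (Fb (M * q)) (a : Kb)) := rfl

theorem isLocalHom_baseHom : IsLocalHom (baseHom B hB hqM hne e a₀ ha1 ha2 Z hcomap) := by
  constructor
  intro a ha
  obtain ⟨w, hw⟩ := ha.exists_right_inv
  have h1 : alpha2 M q (algebraMap Kb (Fb (M * q)) (a : Kb)) * (w : Fb (M * q * q)) = 1 := by
    have := congrArg (fun t : Z => (t : Fb (M * q * q))) hw
    exact this
  have ha0 : (a : Kb) ≠ 0 := by
    intro h0
    rw [h0, map_zero, map_zero, zero_mul] at h1
    exact zero_ne_one h1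
  have h2 : (w : Fb (M * q * q)) = alpha2 M q (algebraMap Kb (Fb (M * q)) (a : Kb)⁻¹) := by
    rw [map_inv₀, map_inv₀]
    exact eq_inv_of_mul_eq_one_right h1
  have h3 : (a : Kb)⁻¹ ∈ B := by
    rw [← const_mem_iff B hB hqM hne e a₀ ha1 ha2 Z hcomap, ← h2]
    exact w.2
  refine IsUnit.of_mul_eq_one ⟨(a : Kb)⁻¹, h3⟩ ?_
  apply Subtype.ext
  show (a : Kb) * (a : Kb)⁻¹ = 1
  exact mul_inv_cancel₀ ha0

/-- the constants of the residue field of `Z` -/
def ιk : kB →+* ResidueField Z :=
  haveI := isLocalHom_baseHom B hB hqM hne e a₀ ha1 ha2 Z hcomap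
  IsLocalRing.ResidueField.map (baseHom B hB hqM hne e a₀ ha1 ha2 Z hcomap)

theorem ιk_residue (a : B) :
    ιk B hB hqM hne e a₀ ha1 ha2 Z hcomap (IsLocalRing.residue B a) =
      IsLocalRing.residue Z (baseHom B hB hqM hne e a₀ ha1 ha2 Z hcomap a) := by
  haveI := isLocalHom_baseHom B hB hqM hne e a₀ ha1 ha2 Z hcomap
  exact IsLocalRing.ResidueField.map_residue _ a

/-- the residue map of `Z` kills the elements of valuation `< 1` -/
theorem residue_eq_zero_of_lt {z : Fb (M * q * q)} (hz : z ∈ Z) (h : Z.valuation z < 1) :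
    IsLocalRing.residue Z ⟨z, hz⟩ = 0 := by
  rw [IsLocalRing.residue_eq_zero_iff, mem_maximalIdeal, mem_nonunits_iff]
  exact (valuation_lt_one_iff_of_mem Z hz).mp h

theorem residue_eq_zero_iff_lt (z : Z) :
    IsLocalRing.residue Z z = 0 ↔ Z.valuation (z : Fb (M * q * q)) < 1 := by
  rw [IsLocalRing.residue_eq_zero_iff, mem_maximalIdeal, mem_nonunits_iff,
    valuation_lt_one_iff_of_mem Z z.2]

/-! ### the functions of a model have constant residues -/

local notation "ιZ" => ιk B hB hqM hne e a₀ ha1 ha2 Z hcomap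

set_option maxHeartbeats 1600000 in
/-- **A function of a model has a constant residue on `Z` along `a`: its value at the branch
`z₂ e`.** -/
theorem exists_res_of_mem_CS (S : Finset Kb) {y : Fb (M * q)}
    (hy : y ∈ CS (M * q) q (baseFin M q B) S) :
    ∃ (c : kB) (h : alpha2 M q y ∈ Z), IsLocalRing.residue Z ⟨alpha2 M q y, h⟩ = ιZ c ∧
      IsValueAt (z₂ (chartDataModular B hB hqM) e)
        ((compW B hB hqM 1).res ⟨y, (modS B hB hqM S e).le₂ y hy⟩) c := by
  have hy' := CS_le_level B hB hqM hne e S hy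
  obtain ⟨d, hdR, hnu⟩ := ((annulusLevels_modular_final B hB hqM hne e).level S).residue ⟨y, hy'⟩
  have hred := isRed_of_sub_const_not_isUnit (annulusLevels_modular_final B hB hqM hne e) a₀ S hy'
    d.2 hdR hnu
  have hyO : y ∈ circleRing (annulusLevels_modular_final B hB hqM hne e).core a₀ ha1 ha2 :=
    ⟨_, hred⟩
  have hZ : alpha2 M q y ∈ Z := (alpha2_mem_iff B hB hqM hne e a₀ ha1 ha2 Z hcomap y).mpr hyO
  refine ⟨IsLocalRing.residue B ⟨(d : Kb), d.2⟩, hZ, ?_, ?_⟩
  · -- the residue on `Z`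
    have hsub : IsRed (annulusLevels_modular_final B hB hqM hne e).core a₀
        (y - algebraMap Kb (Fb (M * q)) (d : Kb)) 0 := by
      have h1 := hred.add
        (isRed_const (C := (annulusLevels_modular_final B hB hqM hne e).core) (a := a₀) d.2).neg
      rwa [add_neg_cancel, ← sub_eq_add_neg] at h1
    have hmemO : y - algebraMap Kb (Fb (M * q)) (d : Kb) ∈
        circleRing (annulusLevels_modular_final B hB hqM hne e).core a₀ ha1 ha2 := ⟨_, hsub⟩
    have h0 : circleRes (annulusLevels_modular_final B hB hqM hne e).core a₀ ha1 ha2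
        ⟨_, hmemO⟩ = 0 := circleRes_mk _ a₀ ha1 ha2 hsub
    have hnuO := (circleRes_eq_zero_iff _ a₀ ha1 ha2 _).mp h0
    have hltO := (valuation_lt_one_iff_of_mem _ hmemO).mpr hnuO
    have hltZ : Z.valuation (alpha2 M q (y - algebraMap Kb (Fb (M * q)) (d : Kb))) < 1 :=
      (alpha2_valuation_lt_iff B hB hqM hne e a₀ ha1 ha2 Z hcomap _).mpr hltO
    have e1 : ιZ (IsLocalRing.residue B ⟨(d : Kb), d.2⟩) =
        IsLocalRing.residue Z (baseHom B hB hqM hne e a₀ ha1 ha2 Z hcomap d) :=
      ιk_residue B hB hqM hne e a₀ ha1 ha2 Z hcomap d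
    rw [e1, ← sub_eq_zero, ← map_sub, residue_eq_zero_iff_lt]
    have e2 : (((⟨alpha2 M q y, hZ⟩ : Z) - baseHom B hB hqM hne e a₀ ha1 ha2 Z hcomap d : Z) :
        Fb (M * q * q)) = alpha2 M q (y - algebraMap Kb (Fb (M * q)) (d : Kb)) := by
      rw [map_sub]
      rfl
    rw [e2]
    exact hltZ
  · -- the value at `z₂ e`
    have hsub : (⟨y, hy'⟩ - ⟨algebraMap Kb (Fb (M * q)) (d : Kb), hdR⟩ :
        ((annulusLevels_modular_final B hB hqM hne e).level S).R) =
        ⟨y - algebraMap Kb (Fb (M * q)) (d : Kb), sub_mem hy' hdR⟩ := rfl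
    rw [hsub] at hnu
    have hnu' := not_isUnit_of_subring_eq (level_R_eq B hB hqM hne e S) _ hnu
    have hdO : algebraMap Kb (Fb (M * q)) (d : Kb) ∈ (compW B hB hqM 1).O :=
      ((compW B hB hqM 1).algebraMap_mem_iff _).mpr d.2
    have hmem : y - algebraMap Kb (Fb (M * q)) (d : Kb) ∈ (compW B hB hqM 1).O :=
      sub_mem ((modS B hB hqM S e).le₂ y hy) hdO
    have hlt := (modS B hB hqM S e).loc_branch₂ ⟨_, _⟩ hnu' hmem
    have e1 : (compW B hB hqM 1).res ⟨y - algebraMap Kb (Fb (M * q)) (d : Kb), hmem⟩ =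
        (compW B hB hqM 1).res ⟨y, (modS B hB hqM S e).le₂ y hy⟩ -
          algebraMap kB FtM (IsLocalRing.residue B ⟨(d : Kb), d.2⟩) := by
      have e2 : (⟨y - algebraMap Kb (Fb (M * q)) (d : Kb), hmem⟩ : (compW B hB hqM 1).O) =
          ⟨y, (modS B hB hqM S e).le₂ y hy⟩ - ⟨algebraMap Kb (Fb (M * q)) (d : Kb), hdO⟩ := rfl
      rw [e2, map_sub, (compW B hB hqM 1).res_algebraMap (d : Kb) d.2]
    rw [e1] at hlt
    exact hlt

/-! ### the residue of `β₂ x` is a constant for `x` in a model -/

set_option maxHeartbeats 1600000 in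
/-- The base ring `W_S[j]` has constant residues along `b`. -/
theorem modelBase_le_constSub (S : Finset Kb) :
    modelBase (M * q) (WS B q S) ≤
      constSub (beta2 M q : Fb (M * q) →+* Fb (M * q * q)) Z (IsLocalRing.residue Z) ιZ := by
  unfold modelBase
  rw [Subring.closure_le]
  rintro g (⟨c, hc, rfl⟩ | hg)
  · -- a constant
    have hcB : c ∈ B := (mem_WS_iff.mp hc).1
    have hZ : alpha2 M q (algebraMap Kb (Fb (M * q)) c) ∈ Z :=
      (const_mem_iff B hB hqM hne e a₀ ha1 ha2 Z hcomap c).mpr hcB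
    have h1 : (beta2 M q : Fb (M * q) →+* Fb (M * q * q)) (algebraMap Kb (Fb (M * q)) c) =
        alpha2 M q (algebraMap Kb (Fb (M * q)) c) := beta2_const c
    refine (mem_constSub_iff _ Z _ ιZ).mpr ⟨h1 ▸ hZ, IsLocalRing.residue B ⟨c, hcB⟩, ?_⟩
    rw [ιk_residue B hB hqM hne e a₀ ha1 ha2 Z hcomap ⟨c, hcB⟩]
    congr 1
    exact Subtype.ext h1
  · -- `j`
    rw [Set.mem_singleton_iff] at hg
    subst hg
    obtain ⟨c, hZ, hres, -⟩ := exists_res_of_mem_CS B hB hqM hne e a₀ ha1 ha2 Z hcomap S
      (jq'_mem_CS B hB S)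
    have h1 : (beta2 M q : Fb (M * q) →+* Fb (M * q * q)) (jBar (M * q)) =
        alpha2 M q (jq' M q) := Fermat.Agent.BR3.FibreProd.beta2_jBar
    refine (mem_constSub_iff _ Z _ ιZ).mpr ⟨h1 ▸ hZ, c, ?_⟩
    rw [← hres]
    congr 1
    exact Subtype.ext h1

/-- **The models of the tower have constant residues along `b`.** -/
theorem CS_le_constSub (S : Finset Kb) :
    CS (M * q) q (baseFin M q B) S ≤
      constSub (beta2 M q : Fb (M * q) →+* Fb (M * q * q)) Z (IsLocalRing.residue Z) ιZ := by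
  intro x hx
  have hC : IsModel (modelBase (M * q) (WS B q S)) (modelField (M * q) (KS q S))
      (CS (M * q) q (baseFin M q B) S) := isModel_CS S
  have hint : IsIntegral (modelBase (M * q) (WS B q S)) x := ((hC x).mp hx).2
  exact mem_constSub_of_isIntegral _ Z _ ιZ
    (ResConst.isIntegral_mono (modelBase_le_constSub B hB hqM hne e a₀ ha1 ha2 Z hcomap S) hint)

include hcomap in
/-- The image along `b` of a function of a model lies in `Z`. -/
theorem beta2_mem_of_mem_CS (S : Finset Kb) {x : Fb (M * q)}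
    (hx : x ∈ CS (M * q) q (baseFin M q B) S) : beta2 M q x ∈ Z :=
  map_mem_of_mem_constSub _ Z _ ιZ (CS_le_constSub B hB hqM hne e a₀ ha1 ha2 Z hcomap S hx)

/-- **The point of the special fibre of the model of level `S` under `z e` along `b`**: the
constant residue of `β₂ x`. -/
def phiS (S : Finset Kb) : CS (M * q) q (baseFin M q B) S →+* kB :=
  (constHom (beta2 M q : Fb (M * q) →+* Fb (M * q * q)) Z (IsLocalRing.residue Z) ιZ).comp
    (Subring.inclusion (CS_le_constSub B hB hqM hne e a₀ ha1 ha2 Z hcomap S))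

local notation "φS" => phiS B hB hqM hne e a₀ ha1 ha2 Z hcomap

theorem ιk_phiS (S : Finset Kb) (x : CS (M * q) q (baseFin M q B) S) :
    ιZ (φS S x) = IsLocalRing.residue Z ⟨beta2 M q (x : Fb (M * q)),
      beta2_mem_of_mem_CS B hB hqM hne e a₀ ha1 ha2 Z hcomap S x.2⟩ :=
  ιk_constHom _ Z _ ιZ _

theorem phiS_eq (S : Finset Kb) {x : Fb (M * q)} (hx : x ∈ CS (M * q) q (baseFin M q B) S)
    {c : kB} (hc : IsLocalRing.residue Z ⟨beta2 M q x,
      beta2_mem_of_mem_CS B hB hqM hne e a₀ ha1 ha2 Z hcomap S hx⟩ = ιZ c) :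
    φS S ⟨x, hx⟩ = c :=
  constHom_eq _ Z _ ιZ (CS_le_constSub B hB hqM hne e a₀ ha1 ha2 Z hcomap S hx) hc

theorem phiS_eq_zero_iff (S : Finset Kb) (x : CS (M * q) q (baseFin M q B) S) :
    φS S x = 0 ↔ Z.valuation (beta2 M q (x : Fb (M * q))) < 1 := by
  have h1 := residue_eq_zero_iff_lt Z ⟨beta2 M q (x : Fb (M * q)),
    beta2_mem_of_mem_CS B hB hqM hne e a₀ ha1 ha2 Z hcomap S x.2⟩
  rw [← h1, ← ιk_phiS B hB hqM hne e a₀ ha1 ha2 Z hcomap S x]
  constructor
  · intro h
    rw [h, map_zero]
  · intro h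
    exact (ιZ).injective (by rw [h, map_zero])

/-- `phiS` on the constants -/
theorem phiS_const (S : Finset Kb) (a : B)
    (h : algebraMap Kb (Fb (M * q)) (a : Kb) ∈ CS (M * q) q (baseFin M q B) S) :
    φS S ⟨algebraMap Kb (Fb (M * q)) (a : Kb), h⟩ = IsLocalRing.residue B a := by
  apply phiS_eq B hB hqM hne e a₀ ha1 ha2 Z hcomap S h
  rw [ιk_residue B hB hqM hne e a₀ ha1 ha2 Z hcomap a]
  congr 1
  exact Subtype.ext (beta2_const (a : Kb))

end OverCircle

end Fermat.Agent.BR3.VertBetaDom
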