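import Mathlib
import Fermat.Agent.BR3.VertBetaDom

/-!
# Program C (S36), node (I7-ZE-B), part (ii), continued: the centre of `z e` along `b` is the point
of the crossing `Fr e`, and `Z.comap β₂` dominates the level rings of the tube of `Fr e`

* `phiS_alpha` : `phiS` on `α₁ b`, `b` in the rational chart of level `M`, is the value of
  `res_M b` at `z₂ e` (`β₂ ∘ α₁ = α₂ ∘ β₁`);
* `mem_point_Fr_iff` : the kernel of `phiS S` is the point of `Fr e`
  (`CentreHom.exists_place_of_hom` + helper26's four residues of the rational chart of level `M`);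
* **`dominates_level_Fr`** : `Z.comap β₂` contains the level rings of main's level data of the tube
  of `Fr e` and dominates them.
-/

set_option autoImplicit false
set_option linter.unusedSectionVars false
set_option linter.style.haveILetI false
set_option synthInstance.maxHeartbeats 400000

noncomputable section

namespace Fermat.Agent.BR3.VertBetaDom

open AlgebraicCurve ModularCurve ModularCurve.IgusaScheme IsLocalRing Polynomial
open Fermat.Agent.Red Fermat.Agent.Val Fermat.Agent.X0 Fermat.Agent.BR.SS Fermat.Agent.Hecke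
open Fermat.Agent.BR.TwoVal Fermat.Agent.BR.TwoValInst Fermat.Agent.BR.ConstRedTwo
open Fermat.Agent.BR.ResGen Fermat.Agent.BR.Inst Fermat.Agent.BR.Inst.SpecIso
open Fermat.Agent.BR.Circle
open Fermat.Agent.BR.S0 Fermat.Agent.BR.S0.RedModular Fermat.Agent.BR.S0.PointDict
open Fermat.Agent.BR.S0.SepModular Fermat.Agent.BR.S0.RedHyp
open Fermat.Agent.BR.Inst.Levels Fermat.Agent.BR.Inst.NormalModel Fermat.Agent.BR.Inst.LevelsInst
open Fermat.Agent.BR.Inst.NodeInstFinal Fermat.Agent.BR.Inst.AnnulusInst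
open Fermat.Agent.BR.Inst.AnnulusInstFinal Fermat.Agent.BR.Inst.ChartInModel
open Fermat.Agent.BR.Inst.NormalGen Fermat.Agent.BR.Inst.ChartInLevels
open Fermat.Agent.BR2.G3PrepCross Fermat.Agent.BR2.G3Prep Fermat.Agent.Igusa
open Fermat.Agent.BR3.FibreProd Fermat.Agent.BR3.VertCircle Fermat.Agent.BR3.VertLevelMem
open Fermat.Agent.BR3.VertBetaFr Fermat.Agent.BR3.CentreHom Fermat.Agent.BR3.ResConst
open Fermat.Agent.Good.Bridge

variable {M q : ℕ} [NeZero M] [hq : Fact q.Prime]
variable (B : ValuationSubring Kb) (hB : B.LiesOverPrime q) (hqM : ¬ q ∣ M)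
  [IsAlgClosed (ResidueField B)]
  (hne : Nonempty (Crossing (chartDataModular B hB hqM)))
  (e : Crossing (chartDataModular B hB hqM))

local notation "kB" => ResidueField B
local notation "FtM" => modularFunctionFieldFullC (ResidueField B) M

section OverCircle

variable (a₀ : Kb)
  (ha1 : B.valuation (annulusLevels_modular_final B hB hqM hne e).core.thick < B.valuation a₀)
  (ha2 : B.valuation a₀ < 1) (Z : ValuationSubring (Fb (M * q * q)))
  (hcomap : Z.comap (alpha2 M q : Fb (M * q) →+* Fb (M * q * q)) =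
    circleRing (annulusLevels_modular_final B hB hqM hne e).core a₀ ha1 ha2)

local notation "ιZ" => ιk B hB hqM hne e a₀ ha1 ha2 Z hcomap
local notation "φS" => phiS B hB hqM hne e a₀ ha1 ha2 Z hcomap

/-! ### the centre is the point of `Fr e` -/

set_option maxHeartbeats 1600000 in
/-- `phiS` on `α₁ b`, `b` in the rational chart of level `M`: the value of `res_M b` at `z₂ e`
(`β₂ ∘ α₁ = α₂ ∘ β₁`). -/
theorem phiS_alpha (S : Finset Kb) {b : ↥(modularFunctionFieldFull M)}
    (hb : b ∈ chartAlgFin M q) (hO : barEmb M b ∈ OM M B hB) :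
    IsValueAt (z₂ (chartDataModular B hB hqM) e) (redMF B hB hqM ⟨barEmb M b, hO⟩)
      (φS S ⟨heckeAlphaBar Kb M q (barEmb M b),
        chartFin_le_CS B hB S (alpha_barEmb_mem_chartFin hb)⟩) := by
  have hβC : heckeBetaBar Kb M q (barEmb M b) ∈ CS (M * q) q (baseFin M q B) S :=
    chartFin_le_CS B hB S (beta_barEmb_mem_chartFin hb)
  obtain ⟨c, hZ, hres, hval⟩ := exists_res_of_mem_CS B hB hqM hne e a₀ ha1 ha2 Z hcomap S hβC
  have e1 : (compW B hB hqM 1).res
      ⟨heckeBetaBar Kb M q (barEmb M b), (modS B hB hqM S e).le₂ _ hβC⟩ =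
      redMF B hB hqM ⟨barEmb M b, hO⟩ := compW_one_res_beta B hB hqM hb hO
  rw [e1] at hval
  have e2 : φS S ⟨heckeAlphaBar Kb M q (barEmb M b),
      chartFin_le_CS B hB S (alpha_barEmb_mem_chartFin hb)⟩ = c := by
    apply phiS_eq B hB hqM hne e a₀ ha1 ha2 Z hcomap S
    have e3 : (⟨beta2 M q (heckeAlphaBar Kb M q (barEmb M b)),
        beta2_mem_of_mem_CS B hB hqM hne e a₀ ha1 ha2 Z hcomap S
          (chartFin_le_CS B hB S (alpha_barEmb_mem_chartFin hb))⟩ : Z) =
        ⟨alpha2 M q (heckeBetaBar Kb M q (barEmb M b)), hZ⟩ :=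
      Subtype.ext (alpha2_beta1 (barEmb M b)).symm
    rw [e3]
    exact hres
  rw [e2]
  exact hval


set_option maxHeartbeats 4000000 in
/-- **The kernel of `phiS S` is the point of the crossing `Fr e`.** -/
theorem mem_point_Fr_iff (S : Finset Kb) (x : CS (M * q) q (baseFin M q B) S) :
    x ∈ (modS B hB hqM S (Fr B hB hqM e)).point ↔ φS S x = 0 := by
  haveI : CharP kB q := Val.charP_residueField_of_liesOverPrime B hB
  have := isDedekindDomain_Ck B hB hqM
  have := Fermat.Agent.BR.S0.SepModular.isFractionRing_Ck B hB hqM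
  have : IsScalarTower kB ↥(Ck M B) FtM := IsScalarTower.of_algebraMap_eq (fun _ => rfl)
  obtain ⟨v, Q', hQ'⟩ := exists_place_of_hom (Dk := ↥(Ck M B))
    (GeomModular.levelHyp_fin (levelHyp_tower B hB hqM S)) (not_isField_Ck B hB hqM)
    (pi_zero_modular B hB hqM) (fun v a ha h => (compW B hB hqM v).res_algebraMap a ha h)
    (φS S) (phiS_const B hB hqM hne e a₀ ha1 ha2 Z hcomap S)
  fin_cases v
  · -- the component `0`: `Q' = z₂ e = z₁ (Fr e)`
    have hQ : Q' = z₂ (chartDataModular B hB hqM) e := by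
      refine place_eq_of_span (Dk := ↥(Ck M B)) _ (mem_span_redMF B hB hqM) _ _ ?_
      rintro z ⟨b, hb, hO, rfl⟩
      refine ⟨_, ?_, phiS_alpha B hB hqM hne e a₀ ha1 ha2 Z hcomap S hb hO⟩
      have h1 := hQ' ⟨heckeAlphaBar Kb M q (barEmb M b),
        chartFin_le_CS B hB S (alpha_barEmb_mem_chartFin hb)⟩
      have e1 := compW_zero_res_alpha B hB hqM hb hO
      rw [← e1]
      exact h1
    subst hQ
    exact mem_point_iff_of_values₁ (modS B hB hqM S (Fr B hB hqM e)) (φS S) (fun y => hQ' y) x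
  · -- the component `1`: `Q' = z₁ e = z₂ (Fr e)`
    have hQ : Q' = z₁ (chartDataModular B hB hqM) e := by
      refine place_eq_of_span (Dk := ↥(Ck M B)) _ (mem_span_redMF B hB hqM) _ _ ?_
      rintro z ⟨b, hb, hO, rfl⟩
      obtain ⟨c₁, c₂, h1, h2, e21, -⟩ := exists_values_of_gluedF B hB hqM
        (glued (chartDataModular B hB hqM) e) hb hO
      refine ⟨c₁, ?_, h1⟩
      have h3 := hQ' ⟨heckeAlphaBar Kb M q (barEmb M b),
        chartFin_le_CS B hB S (alpha_barEmb_mem_chartFin hb)⟩
      have e1 := compW_one_res_alpha B hB hqM hb hO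
      have h4 : IsValueAt Q' ((redMF B hB hqM ⟨barEmb M b, hO⟩) ^ q)
          (φS S ⟨heckeAlphaBar Kb M q (barEmb M b),
            chartFin_le_CS B hB S (alpha_barEmb_mem_chartFin hb)⟩) := by
        rw [← e1]
        exact h3
      have h5 := (phiS_alpha B hB hqM hne e a₀ ha1 ha2 Z hcomap S hb hO).unique h2
      rw [h5, e21] at h4
      have h6 := Fermat.Agent.BR.S0.SepModular.isValueAt_of_pow_char q Q' h4
      rwa [frobeniusEquiv_symm_pow] at h6
    subst hQ
    exact mem_point_iff_of_values₂ (modS B hB hqM S (Fr B hB hqM e)) (φS S) (fun y => hQ' y) x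



end OverCircle

end Fermat.Agent.BR3.VertBetaDom
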