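import Mathlib
import Fermat.Agent.BR3.VertBetaDom2

/-!
# Program C (S36), node (I7-ZE-B), part (ii), conclusion: `Z.comap β₂` dominates the level rings of
the tube of `Fr e`

* **`dominates_level_Fr`** : for every valuation subring `Z` of `Fb (M q q)` over the circle of gauge
  `a₀` of the tube of `e` along `α₂`, the restriction `Z.comap β₂` contains the level rings of main's
  level data of the tube of `Fr e` and dominates them (`CentreHom.dominates_loc` at the point of
  `Fr e`, `VertBetaDom.mem_point_Fr_iff`).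
-/

set_option autoImplicit false
set_option linter.unusedSectionVars false
set_option linter.style.haveILetI false
set_option synthInstance.maxHeartbeats 400000

noncomputable section

namespace Fermat.Agent.BR3.VertBetaDom

open AlgebraicCurve ModularCurve ModularCurve.IgusaScheme IsLocalRing Polynomial
open Fermat.Agent.Red Fermat.Agent.Val Fermat.Agent.X0 Fermat.Agent.BR.SS Fermat.Agent.Hecke
open Fermat.Agent.BR.TwoVal Fermat.Agent.BR.TwoValInst Fermat.Agent.BR.ConstRedTwo
open Fermat.Agent.BR.ResGen Fermat.Agent.BR.Inst Fermat.Agent.BR.Inst.SpecIso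
open Fermat.Agent.BR.Circle
open Fermat.Agent.BR.S0 Fermat.Agent.BR.S0.RedModular Fermat.Agent.BR.S0.PointDict
open Fermat.Agent.BR.S0.SepModular Fermat.Agent.BR.S0.RedHyp
open Fermat.Agent.BR.Inst.Levels Fermat.Agent.BR.Inst.NormalModel Fermat.Agent.BR.Inst.LevelsInst
open Fermat.Agent.BR.Inst.NodeInstFinal Fermat.Agent.BR.Inst.AnnulusInst
open Fermat.Agent.BR.Inst.AnnulusInstFinal Fermat.Agent.BR.Inst.ChartInModel
open Fermat.Agent.BR.Inst.NormalGen Fermat.Agent.BR.Inst.ChartInLevels
open Fermat.Agent.BR2.G3PrepCross Fermat.Agent.BR2.G3Prep Fermat.Agent.Igusa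
open Fermat.Agent.BR3.FibreProd Fermat.Agent.BR3.VertCircle Fermat.Agent.BR3.VertLevelMem
open Fermat.Agent.BR3.VertBetaFr Fermat.Agent.BR3.CentreHom Fermat.Agent.BR3.ResConst
open Fermat.Agent.Good.Bridge

variable {M q : ℕ} [NeZero M] [hq : Fact q.Prime]
variable (B : ValuationSubring Kb) (hB : B.LiesOverPrime q) (hqM : ¬ q ∣ M)
  [IsAlgClosed (ResidueField B)]
  (hne : Nonempty (Crossing (chartDataModular B hB hqM)))
  (e : Crossing (chartDataModular B hB hqM))

local notation "kB" => ResidueField B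
local notation "FtM" => modularFunctionFieldFullC (ResidueField B) M

section OverCircle

variable (a₀ : Kb)
  (ha1 : B.valuation (annulusLevels_modular_final B hB hqM hne e).core.thick < B.valuation a₀)
  (ha2 : B.valuation a₀ < 1) (Z : ValuationSubring (Fb (M * q * q)))
  (hcomap : Z.comap (alpha2 M q : Fb (M * q) →+* Fb (M * q * q)) =
    circleRing (annulusLevels_modular_final B hB hqM hne e).core a₀ ha1 ha2)

local notation "ιZ" => ιk B hB hqM hne e a₀ ha1 ha2 Z hcomap
local notation "φS" => phiS B hB hqM hne e a₀ ha1 ha2 Z hcomap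
include hcomap in
set_option maxHeartbeats 4000000 in
/-- **(I7-ZE-B)(ii): `Z.comap β₂` contains the level rings of the tube of `Fr e` and dominates
them.** -/
theorem dominates_level_Fr (S : Finset Kb) :
    (∀ y ∈ ((annulusLevels_modular_final B hB hqM hne (Fr B hB hqM e)).level S).R,
      beta2 M q y ∈ Z) ∧
    ∀ y : ((annulusLevels_modular_final B hB hqM hne (Fr B hB hqM e)).level S).R, ¬ IsUnit y →
      Z.valuation (beta2 M q (y : Fb (M * q))) < 1 := by
  have hK : ∀ c : Kb, algebraMap Kb (Fb (M * q)) c ∈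
      Z.comap (beta2 M q : Fb (M * q) →+* Fb (M * q * q)) ↔ c ∈ B := by
    intro c
    rw [ValuationSubring.mem_comap]
    have h1 : (beta2 M q : Fb (M * q) →+* Fb (M * q * q)) (algebraMap Kb (Fb (M * q)) c) =
        alpha2 M q (algebraMap Kb (Fb (M * q)) c) := beta2_const c
    rw [h1]
    exact const_mem_iff B hB hqM hne e a₀ ha1 ha2 Z hcomap c
  have hC : ∀ x ∈ CS (M * q) q (baseFin M q B) S,
      x ∈ Z.comap (beta2 M q : Fb (M * q) →+* Fb (M * q * q)) := by
    intro x hx
    rw [ValuationSubring.mem_comap]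
    exact beta2_mem_of_mem_CS B hB hqM hne e a₀ ha1 ha2 Z hcomap S hx
  have hp : ∀ x : CS (M * q) q (baseFin M q B) S,
      x ∈ (modS B hB hqM S (Fr B hB hqM e)).point →
      (Z.comap (beta2 M q : Fb (M * q) →+* Fb (M * q * q))).valuation (x : Fb (M * q)) < 1 := by
    intro x hx
    rw [valuation_comap_lt_one_iff]
    exact (phiS_eq_zero_iff B hB hqM hne e a₀ ha1 ha2 Z hcomap S x).mp
      ((mem_point_Fr_iff B hB hqM hne e a₀ ha1 ha2 Z hcomap S x).mp hx)
  have hπ : ∀ a : B, IsLocalRing.residue B a ≠ 0 → (a : Kb)⁻¹ ∈ B := by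
    intro a ha
    have hu : IsUnit a := by
      by_contra hn
      exact ha ((IsLocalRing.residue_eq_zero_iff a).mpr ((mem_maximalIdeal a).mpr hn))
    have h1 := (B.valuation_eq_one_iff a).mp hu
    rw [← B.valuation_le_one_iff, map_inv₀, h1, inv_one]
  have hdom := dominates_loc (modS B hB hqM S (Fr B hB hqM e))
    (Z.comap (beta2 M q : Fb (M * q) →+* Fb (M * q * q))) hK hC hp
    (fun a ha h => (compW B hB hqM 0).res_algebraMap a ha h) hπ
  obtain ⟨h1, h2⟩ := dominates_of_subring_eq (level_R_eq B hB hqM hne (Fr B hB hqM e) S) _ hdom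
  refine ⟨fun y hy => ?_, fun y hy => ?_⟩
  · have h3 := h1 y hy
    rwa [ValuationSubring.mem_comap] at h3
  · have h3 := h2 y hy
    rwa [valuation_comap_lt_one_iff] at h3

end OverCircle

end Fermat.Agent.BR3.VertBetaDom
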