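import Mathlib
import Fermat.Agent.BR3.VertBetaSS
import Fermat.Agent.BR3.VertBetaDom3

/-!
# Program C (S36), node (I7-ZE-B), FINAL: the vertical component `z e` at EVERY supersingular crossing
with its TWO restrictions, hypothesis-free

* `centre` : the domination hypothesis `VertBetaSS.Centre` (part (ii)) holds
  (`VertBetaDom.dominates_level_Fr`);
* **`exists_vertComponent_ss_gauge_ab`** : for every crossing `e` of main's two-component model of
  `X₀(M q)` (`nuTwo M = nuThree M = 0`) and every gauge `a₀` (`|a₀|^(q+1) = |q|`) there are a chain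
  `g₀, g', g, g''` of twisted triples and THE valuation ring `Z` of `Fb (M q q)` with
  `Z.comap α₂ = circleRing (L e).core a₀` (unique such; residue field
  `k(T)[Ũ]/(Ũ^q + β T Ũ^(q-1) - ρ/(β T))`, `Ũ` the residue of `U_g / a₀`) and
  `Z.comap β₂ = circleRing (L (Fr e)).core (a₀^q)` (residue map `φ ∘ circleRes`, `φ (C c) = C c`,
  `φ (β' T) * (Ũ + β T) = ω`).
-/

set_option autoImplicit false
set_option linter.unusedSectionVars false
set_option linter.style.haveILetI false
set_option synthInstance.maxHeartbeats 400000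

noncomputable section

namespace Fermat.Agent.BR3.VertBetaFinal

open Polynomial ModularCurve AlgebraicCurve IsLocalRing
open Fermat.Agent.X0 Fermat.Agent.Val Fermat.Agent.Red Fermat.Agent.Hecke
open Fermat.Agent.BR.Circle Fermat.Agent.BR.S0 Fermat.Agent.BR.S0.RedModular
open Fermat.Agent.BR.S0.PointDict
open Fermat.Agent.BR.Inst.AnnulusInstFinal
open Fermat.Agent.BR3.FibreProd Fermat.Agent.BR3.VertResidue Fermat.Agent.BR3.HeckePoly
open Fermat.Agent.BR3.SSParam Fermat.Agent.BR3.SSParamChain
open Fermat.Agent.BR3.VertBetaFr Fermat.Agent.BR3.VertBetaAll Fermat.Agent.BR3.VertBetaSS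
open Fermat.Agent.BR3.VertBetaDom

variable {M q : ℕ} [NeZero M] [hq : Fact q.Prime]
variable (B : ValuationSubring Kb) (hB : B.LiesOverPrime q) (hqM : ¬ q ∣ M)
  [IsAlgClosed (ResidueField B)]
  (hne : Nonempty (Crossing (chartDataModular B hB hqM)))
  (e : Crossing (chartDataModular B hB hqM))

local notation "kB" => ResidueField B

/-- **Part (ii) of (I7-ZE-B)**: the restriction along `β₂` of every valuation ring over the
`a`-circle at `e` dominates the level rings of the tube of `Fr e`. -/
theorem centre (a₀ : Kb)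
    (ha1 : B.valuation (annulusLevels_modular_final B hB hqM hne e).core.thick < B.valuation a₀)
    (ha2 : B.valuation a₀ < 1) : Centre B hB hqM hne e a₀ ha1 ha2 :=
  fun _ _ Z _ hcomap _ _ =>
    ⟨fun S' => (dominates_level_Fr B hB hqM hne e a₀ ha1 ha2 Z hcomap S').1,
      fun S' => (dominates_level_Fr B hB hqM hne e a₀ ha1 ha2 Z hcomap S').2⟩

variable [CharP (ResidueField B) q]

set_option maxHeartbeats 1600000 in
/-- **(I7-ZE-B), FINAL: the vertical component at EVERY supersingular crossing with its two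
restrictions (along `α₂` over the `a`-circle at `e`, along `β₂` over the `b`-circle at `Fr e`),
gauge given, hypothesis-free.** -/
theorem exists_vertComponent_ss_gauge_ab (h2 : nuTwo M = 0) (h3 : nuThree M = 0) (a₀ : Kb)
    (ha1 : B.valuation (annulusLevels_modular_final B hB hqM hne e).core.thick < B.valuation a₀)
    (ha2 : B.valuation a₀ < 1) (ha₀ : B.valuation a₀ ^ (q + 1) = B.valuation (q : Kb)) :
    ∃ g₀ g' g g'' : Fb M, IsSSParam B hB hqM e g g' g'' ∧
      IsSSParam B hB hqM (Fr B hB hqM e) g' g₀ g ∧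
      ∃ β : kB, β ≠ 0 ∧
      IsRed (annulusLevels_modular_final B hB hqM hne e).core a₀
        (a₀⁻¹ • (heckeAlphaBar Kb M q g - (heckeBetaBar Kb M q g') ^ q))
        (RatFunc.C β * RatFunc.X) ∧
      ∃ ρ : kB, ρ ≠ 0 ∧
      ∃ (Z : ValuationSubring (Fb (M * q * q))) (resZ : Z →+* AdjoinRoot (vertBar q β ρ)),
        -- along `α₂`
        (Z.comap (alpha2 M q : Fb (M * q) →+* Fb (M * q * q)) =
          circleRing (annulusLevels_modular_final B hB hqM hne e).core a₀ ha1 ha2 ∧
        (∀ Z' : ValuationSubring (Fb (M * q * q)),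
          Z'.comap (alpha2 M q : Fb (M * q) →+* Fb (M * q * q)) =
            circleRing (annulusLevels_modular_final B hB hqM hne e).core a₀ ha1 ha2 → Z' = Z) ∧
        Function.Surjective resZ ∧ (∀ z : Z, resZ z = 0 ↔ ¬ IsUnit z) ∧
        (∀ (y : circleRing (annulusLevels_modular_final B hB hqM hne e).core a₀ ha1 ha2)
          (h : alpha2 M q (y : Fb (M * q)) ∈ Z),
          resZ ⟨alpha2 M q (y : Fb (M * q)), h⟩ =
            AdjoinRoot.of (vertBar q β ρ)
              (circleRes (annulusLevels_modular_final B hB hqM hne e).core a₀ ha1 ha2 y)) ∧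
        ∃ hθ : Ug M q g / alpha2 M q (algebraMap Kb (Fb (M * q)) a₀) ∈ Z,
          resZ ⟨Ug M q g / alpha2 M q (algebraMap Kb (Fb (M * q)) a₀), hθ⟩ =
            AdjoinRoot.root (vertBar q β ρ)) ∧
        -- along `β₂`
        ∃ (hb1 : B.valuation
            (annulusLevels_modular_final B hB hqM hne (Fr B hB hqM e)).core.thick <
            B.valuation (a₀ ^ q)) (hb2 : B.valuation (a₀ ^ q) < 1),
          Z.comap (beta2 M q : Fb (M * q) →+* Fb (M * q * q)) =
            circleRing (annulusLevels_modular_final B hB hqM hne (Fr B hB hqM e)).core (a₀ ^ q)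
              hb1 hb2 ∧
          ∃ β' : kB, β' ≠ 0 ∧
            IsRed (annulusLevels_modular_final B hB hqM hne (Fr B hB hqM e)).core (a₀ ^ q)
              ((a₀ ^ q)⁻¹ • (heckeAlphaBar Kb M q g' - (heckeBetaBar Kb M q g₀) ^ q))
              (RatFunc.C β' * RatFunc.X) ∧
          ∃ ω : kB, ω ≠ 0 ∧
          ∃ φ : RatFunc kB →+* AdjoinRoot (vertBar q β ρ),
            (∀ (y : Fb (M * q))
              (hy : y ∈ circleRing
                (annulusLevels_modular_final B hB hqM hne (Fr B hB hqM e)).core (a₀ ^ q) hb1 hb2)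
              (h : beta2 M q y ∈ Z),
              resZ ⟨beta2 M q y, h⟩ =
                φ (circleRes (annulusLevels_modular_final B hB hqM hne (Fr B hB hqM e)).core
                  (a₀ ^ q) hb1 hb2 ⟨y, hy⟩)) ∧
            (∀ c : kB, φ (RatFunc.C c) = AdjoinRoot.of (vertBar q β ρ) (RatFunc.C c)) ∧
            φ (RatFunc.C β' * RatFunc.X) *
              (AdjoinRoot.root (vertBar q β ρ) +
                AdjoinRoot.of (vertBar q β ρ) (RatFunc.C β * RatFunc.X)) =
              AdjoinRoot.of (vertBar q β ρ) (RatFunc.C ω) :=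
  exists_vertComponent_ss_gauge_beta B hB hqM hne e h2 h3 a₀ ha1 ha2 ha₀
    (centre B hB hqM hne e a₀ ha1 ha2)

end Fermat.Agent.BR3.VertBetaFinal
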