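import Mathlib
import Fermat.Agent.BR3.VertBetaFr
import Fermat.Agent.BR3.VertResidue
import Fermat.Agent.BR3.FibreProdRoots
import Fermat.Agent.BR.Inst.AnnulusInstFinal

/-!
# Program C (S36), node (I7-ZE-B), part (ii): the test functions of `PushCentre.push_centre`

`e` a crossing of main's two-component model of `X₀(M q)`, `L e` its annulus levels, `a₀` a gauge,
`Z` ANY valuation ring of `Fb (M q q)` over the circle of gauge `a₀` of the tube of `e` along
`α₂`, with a residue map compatible with `circleRes`.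

* `isRed_const_of_mem_chartFin` : a function `y` of the finite chart has the CONSTANT reduction
  `C c` on every circle of the tube of `e`, `c` the value of its residue at the crossing (every place
  of the tube reduces to the crossing);
* `exists_circleRes_eq_C` : `chartFin ⊆ circleRing`, with constant `circleRes`;
* `resZ_alpha2_of_mem_chartFin` : `α₂ y ∈ Z` with constant residue;
* `resZ_beta2_algebraMap` (`hbK` of `push_centre`), `resZ_beta2_jBar` (`β₂ j = α₂ j(s^q)`: the
  generator of `hR₀`);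
* **`htest_beta2_gen`**, **`htest_beta2`** : the hypothesis `htest` of `PushCentre.push_centre` at
  `Q₂ := z₂ e = z₁ (Fr e)`, `Q₁ := z₁ e = z₂ (Fr e)`: for `b` in the rational finite chart of level
  `M`, `z = res_M b`, the test function `g = α₁ b` has `res₀ g = z`, `res₁ g = z ^ q`
  (`G3PrepCross.compW_zero_res_alpha`, `compW_one_res_alpha`) and
  `resZ (β₂ g) = resZ (α₂ (β₁ b))` is the constant `z(Q₂) = z(Q₁) ^ q`.
-/

set_option autoImplicit false
set_option linter.unusedSectionVars false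
set_option linter.style.haveILetI false
set_option synthInstance.maxHeartbeats 400000

noncomputable section

namespace Fermat.Agent.BR3.VertBetaTest

open ModularCurve ModularCurve.IgusaScheme AlgebraicCurve IsLocalRing Polynomial
open Fermat.Agent.X0 Fermat.Agent.Val Fermat.Agent.Red Fermat.Agent.Hecke
open Fermat.Agent.BR.Centre Fermat.Agent.BR.SS Fermat.Agent.BR.Refine
open Fermat.Agent.BR.TwoVal Fermat.Agent.BR.TwoValInst Fermat.Agent.BR.ConstRedTwo
open Fermat.Agent.BR.ResGen Fermat.Agent.BR.Inst Fermat.Agent.BR.Inst.SpecIso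
open Fermat.Agent.BR.ModUnit Fermat.Agent.Good.Bridge
open Fermat.Agent.BR.Circle Fermat.Agent.BR.S0 Fermat.Agent.BR.S0.RedModular
open Fermat.Agent.BR.S0.PointDict Fermat.Agent.BR.S0.SepModular Fermat.Agent.BR.S0.RedHyp
open Fermat.Agent.BR.S0.Modular Fermat.Agent.BR.S0.GeomFinal
open Fermat.Agent.BR.Inst.AnnulusInstFinal Fermat.Agent.BR.Final
open Fermat.Agent.BR2.G3PrepCross Fermat.Agent.Igusa
open Fermat.Agent.BR3.FibreProd Fermat.Agent.BR3.VertResidue Fermat.Agent.BR3.VertBetaFr

variable {M q : ℕ} [NeZero M] [hq : Fact q.Prime]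
variable (B : ValuationSubring Kb)

local notation "kB" => ResidueField B
local notation "FtM" => modularFunctionFieldFullC (IsLocalRing.ResidueField B) M

/-- shortcut instance (the search takes more than a second each time) -/
local instance (priority := 100000) instAlgebraFtM : Algebra kB FtM := inferInstance

variable (hB : B.LiesOverPrime q) (hqM : ¬ q ∣ M)
  [IsAlgClosed (ResidueField B)]
  (hne : Nonempty (Crossing (chartDataModular B hB hqM)))
  (e : Crossing (chartDataModular B hB hqM))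

/-! ### the finite chart on the circles of the tube of `e` -/

set_option maxHeartbeats 1600000 in
/-- **A function of the finite chart has a constant reduction on every circle of the tube of a
crossing**: the value of its residue at the crossing. -/
theorem isRed_const_of_mem_chartFin (a₀ : Kb) {y : Fb (M * q)}
    (hy : y ∈ chartFin (M := M) (q := q)) {c : kB}
    (hc : IsValueAt (z₁ (chartDataModular B hB hqM) e)
      ((compW B hB hqM 0).res ⟨y, chartFin_le B hB hqM 0 hy⟩) c) :
    IsRed (annulusLevels_modular_final B hB hqM hne e).core a₀ y (RatFunc.C c) := by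
  refine ⟨∅, fun P hP _ _ => ?_⟩
  have hr : (atlasHyp_modular B hB hqM (geomInputs_modular_final B hB hqM)).r P =
      ⟨0, z₁ (chartDataModular B hB hqM) e⟩ := hP
  have hred : IsRedOf B (residue B) chartFin (compW B hB hqM 0).O (compW B hB hqM 0).res
      (chartFin_le B hB hqM 0) P (z₁ (chartDataModular B hB hqM) e) :=
    ((atlasHyp_modular B hB hqM (geomInputs_modular_final B hB hqM)).r_eq_z₁_iff e).mp hr
  obtain ⟨d, hd, hv⟩ := hred.integralAt y hy
  refine ⟨d, hd, hv, ?_⟩
  have h1 := hred.isValueAt hy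
  have h2 : residue B ⟨d, hd⟩ = c := by
    have e3 : evHom B chartFin P hred.integralAt ⟨y, hy⟩ = ⟨d, hd⟩ :=
      Subtype.ext (by rw [coe_evHom]; exact evalAt_eq_of_isValueAt hv)
    rw [← e3]
    exact h1.unique hc
  rw [h2, ← RatFunc.algebraMap_eq_C]
  exact isValueAt_algebraMap _ c

/-- **The finite chart lies in every circle ring of the tube of a crossing, with constant
residue.** -/
theorem exists_circleRes_eq_C (a₀ : Kb)
    (ha1 : B.valuation (annulusLevels_modular_final B hB hqM hne e).core.thick < B.valuation a₀)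
    (ha2 : B.valuation a₀ < 1) {y : Fb (M * q)} (hy : y ∈ chartFin (M := M) (q := q)) :
    ∃ (h : y ∈ circleRing (annulusLevels_modular_final B hB hqM hne e).core a₀ ha1 ha2) (c : kB),
      IsValueAt (z₁ (chartDataModular B hB hqM) e)
        ((compW B hB hqM 0).res ⟨y, chartFin_le B hB hqM 0 hy⟩) c ∧
      IsValueAt (z₂ (chartDataModular B hB hqM) e)
        ((compW B hB hqM 1).res ⟨y, chartFin_le B hB hqM 1 hy⟩) c ∧
      circleRes (annulusLevels_modular_final B hB hqM hne e).core a₀ ha1 ha2 ⟨y, h⟩ =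
        RatFunc.C c := by
  obtain ⟨c, h1, h2⟩ := glued (chartDataModular B hB hqM) e y hy
  have hred := isRed_const_of_mem_chartFin B hB hqM hne e a₀ hy h1
  exact ⟨⟨_, hred⟩, c, h1, h2, circleRes_mk _ _ ha1 ha2 hred⟩

/-! ### abstract: a valuation ring over a circle ring along a ring homomorphism -/

section Abstract

variable {K F F₂ κ : Type*} [Field K] [Field F] [Algebra K F] [Field F₂] [CommRing κ]
  {A : ValuationSubring K} [IsAlgClosed (ResidueField A)] {T : Set (Place K F)}

/-- `Z` a valuation ring with `Z.comap f` the circle ring, the residue map compatible with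
`circleRes`: `f` maps a function with a reduction `yb` on the circle into `Z`, with residue
`φ yb`. -/
theorem resZ_of_isRed (C : AnnulusCore A T) (a : K) (ha1 : A.valuation C.thick < A.valuation a)
    (ha2 : A.valuation a < 1) (f : F →+* F₂) (Z : ValuationSubring F₂) (resZ : Z →+* κ)
    (φ : RatFunc (ResidueField A) →+* κ)
    (hcomap : Z.comap f = circleRing C a ha1 ha2)
    (hcompat : ∀ (y : circleRing C a ha1 ha2) (h : f (y : F) ∈ Z),
      resZ ⟨f (y : F), h⟩ = φ (circleRes C a ha1 ha2 y))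
    {y : F} {yb : RatFunc (ResidueField A)} (hy : IsRed C a y yb) :
    ∃ h : f y ∈ Z, resZ ⟨f y, h⟩ = φ yb := by
  have hmem : y ∈ circleRing C a ha1 ha2 := ⟨yb, hy⟩
  have h4 : y ∈ Z.comap f := by
    rw [hcomap]
    exact hmem
  have hZ : f y ∈ Z := ValuationSubring.mem_comap.mp h4
  refine ⟨hZ, ?_⟩
  have h5 := hcompat ⟨y, hmem⟩ hZ
  rw [circleRes_mk C a ha1 ha2 hy] at h5
  exact h5

/-- transport of a residue along an equality of elements -/
theorem resZ_congr (Z : ValuationSubring F₂) (resZ : Z →+* κ) {x y : F₂} (e1 : x = y)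
    (hZ : y ∈ Z) {v : κ} (h3 : resZ ⟨y, hZ⟩ = v) : ∃ hZ' : x ∈ Z, resZ ⟨x, hZ'⟩ = v := by
  subst e1
  exact ⟨hZ, h3⟩

end Abstract

/-! ### a valuation ring over the circle along `α₂` -/

section Z

variable {κ : Type*} [CommRing κ]

/-- `α₂` maps the finite chart into `Z`, with constant residues: the values at the crossing. -/
theorem resZ_alpha2_of_mem_chartFin (Z : ValuationSubring (Fb (M * q * q))) (resZ : Z →+* κ)
    (φ : RatFunc kB →+* κ) (a₀ : Kb)
    (ha1 : B.valuation (annulusLevels_modular_final B hB hqM hne e).core.thick < B.valuation a₀)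
    (ha2 : B.valuation a₀ < 1)
    (hcomap : Z.comap (alpha2 M q : Fb (M * q) →+* Fb (M * q * q)) =
      circleRing (annulusLevels_modular_final B hB hqM hne e).core a₀ ha1 ha2)
    (hcompat : ∀ (y : circleRing (annulusLevels_modular_final B hB hqM hne e).core a₀ ha1 ha2)
      (h : alpha2 M q (y : Fb (M * q)) ∈ Z),
      resZ ⟨alpha2 M q (y : Fb (M * q)), h⟩ =
        φ (circleRes (annulusLevels_modular_final B hB hqM hne e).core a₀ ha1 ha2 y))
    {y : Fb (M * q)} (hy : y ∈ chartFin (M := M) (q := q)) :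
    ∃ (h : alpha2 M q y ∈ Z) (c : kB),
      IsValueAt (z₁ (chartDataModular B hB hqM) e)
        ((compW B hB hqM 0).res ⟨y, chartFin_le B hB hqM 0 hy⟩) c ∧
      IsValueAt (z₂ (chartDataModular B hB hqM) e)
        ((compW B hB hqM 1).res ⟨y, chartFin_le B hB hqM 1 hy⟩) c ∧
      resZ ⟨alpha2 M q y, h⟩ = φ (RatFunc.C c) := by
  obtain ⟨c, h1, h2⟩ := glued (chartDataModular B hB hqM) e y hy
  have hred := isRed_const_of_mem_chartFin B hB hqM hne e a₀ hy h1
  obtain ⟨hZ, h3⟩ := resZ_of_isRed (annulusLevels_modular_final B hB hqM hne e).core a₀ ha1 ha2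
    (alpha2 M q : Fb (M * q) →+* Fb (M * q * q)) Z resZ φ hcomap hcompat hred
  exact ⟨hZ, c, h1, h2, h3⟩

/-- **`hbK` of `push_centre`**: `β₂` maps the constants of `B` into `Z`, with the constant
residues. -/
theorem resZ_beta2_algebraMap (Z : ValuationSubring (Fb (M * q * q))) (resZ : Z →+* κ)
    (φ : RatFunc kB →+* κ) (a₀ : Kb)
    (ha1 : B.valuation (annulusLevels_modular_final B hB hqM hne e).core.thick < B.valuation a₀)
    (ha2 : B.valuation a₀ < 1)
    (hcomap : Z.comap (alpha2 M q : Fb (M * q) →+* Fb (M * q * q)) =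
      circleRing (annulusLevels_modular_final B hB hqM hne e).core a₀ ha1 ha2)
    (hcompat : ∀ (y : circleRing (annulusLevels_modular_final B hB hqM hne e).core a₀ ha1 ha2)
      (h : alpha2 M q (y : Fb (M * q)) ∈ Z),
      resZ ⟨alpha2 M q (y : Fb (M * q)), h⟩ =
        φ (circleRes (annulusLevels_modular_final B hB hqM hne e).core a₀ ha1 ha2 y))
    (a : B) :
    ∃ h : beta2 M q (algebraMap Kb (Fb (M * q)) (a : Kb)) ∈ Z,
      resZ ⟨beta2 M q (algebraMap Kb (Fb (M * q)) (a : Kb)), h⟩ =
        φ (RatFunc.C (residue B a)) := by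
  obtain ⟨hZ, h3⟩ := resZ_of_isRed (annulusLevels_modular_final B hB hqM hne e).core a₀ ha1 ha2
    (alpha2 M q : Fb (M * q) →+* Fb (M * q * q)) Z resZ φ hcomap hcompat
    (isRed_const (C := (annulusLevels_modular_final B hB hqM hne e).core) (a := a₀) a.2)
  have e1 : beta2 M q (algebraMap Kb (Fb (M * q)) (a : Kb)) =
      alpha2 M q (algebraMap Kb (Fb (M * q)) (a : Kb)) := by
    rw [AlgHom.commutes, AlgHom.commutes]
  rw [← RatFunc.algebraMap_eq_C]
  exact resZ_congr Z resZ e1 hZ h3

set_option maxHeartbeats 1600000 in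
/-- **The test functions of `push_centre`** (general residue field).  For `b` in the rational
finite chart of level `M`, `z = res_M b`: `β₂ (α₁ b) = α₂ (β₁ b) ∈ Z` and its residue is the
constant `c = z(z₂ e) = z(z₁ e) ^ q`. -/
theorem htest_beta2_gen (Z : ValuationSubring (Fb (M * q * q))) (resZ : Z →+* κ)
    (φ : RatFunc kB →+* κ) (a₀ : Kb)
    (ha1 : B.valuation (annulusLevels_modular_final B hB hqM hne e).core.thick < B.valuation a₀)
    (ha2 : B.valuation a₀ < 1)
    (hcomap : Z.comap (alpha2 M q : Fb (M * q) →+* Fb (M * q * q)) =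
      circleRing (annulusLevels_modular_final B hB hqM hne e).core a₀ ha1 ha2)
    (hcompat : ∀ (y : circleRing (annulusLevels_modular_final B hB hqM hne e).core a₀ ha1 ha2)
      (h : alpha2 M q (y : Fb (M * q)) ∈ Z),
      resZ ⟨alpha2 M q (y : Fb (M * q)), h⟩ =
        φ (circleRes (annulusLevels_modular_final B hB hqM hne e).core a₀ ha1 ha2 y))
    {b : ↥(modularFunctionFieldFull M)} (hb : b ∈ chartAlgFin M q)
    (hO : barEmb M b ∈ OM M B hB) :
    ∃ (hbg : beta2 M q (heckeAlphaBar Kb M q (barEmb M b)) ∈ Z) (c c' : kB),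
      resZ ⟨beta2 M q (heckeAlphaBar Kb M q (barEmb M b)), hbg⟩ = φ (RatFunc.C c) ∧
      IsValueAt (z₂ (chartDataModular B hB hqM) e) (redMF B hB hqM ⟨barEmb M b, hO⟩ : ↥FtM) c ∧
      IsValueAt (z₁ (chartDataModular B hB hqM) e) (redMF B hB hqM ⟨barEmb M b, hO⟩ : ↥FtM) c' ∧
      c = c' ^ q := by
  obtain ⟨hZ, c, -, h2, h3⟩ := resZ_alpha2_of_mem_chartFin B hB hqM hne e Z resZ φ a₀ ha1 ha2
    hcomap hcompat (beta_barEmb_mem_chartFin hb)
  rw [compW_one_res_beta B hB hqM hb hO] at h2
  obtain ⟨c₁, c₂, k1, k2, e21, -⟩ :=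
    exists_values_of_gluedF B hB hqM (glued (chartDataModular B hB hqM) e) hb hO
  have e1 : beta2 M q (heckeAlphaBar Kb M q (barEmb M b)) =
      alpha2 M q (heckeBetaBar Kb M q (barEmb M b)) := (alpha2_beta1 _).symm
  obtain ⟨hZ', h4⟩ := resZ_congr Z resZ e1 hZ h3
  refine ⟨hZ', c, c₁, h4, h2, k1, ?_⟩
  rw [h2.unique k2]
  exact e21

/-- **The generator of `hR₀`**: `β₂ j = α₂ j(s^q) ∈ Z`, with constant residue. -/
theorem resZ_beta2_jBar (Z : ValuationSubring (Fb (M * q * q))) (resZ : Z →+* κ)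
    (φ : RatFunc kB →+* κ) (a₀ : Kb)
    (ha1 : B.valuation (annulusLevels_modular_final B hB hqM hne e).core.thick < B.valuation a₀)
    (ha2 : B.valuation a₀ < 1)
    (hcomap : Z.comap (alpha2 M q : Fb (M * q) →+* Fb (M * q * q)) =
      circleRing (annulusLevels_modular_final B hB hqM hne e).core a₀ ha1 ha2)
    (hcompat : ∀ (y : circleRing (annulusLevels_modular_final B hB hqM hne e).core a₀ ha1 ha2)
      (h : alpha2 M q (y : Fb (M * q)) ∈ Z),
      resZ ⟨alpha2 M q (y : Fb (M * q)), h⟩ =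
        φ (circleRes (annulusLevels_modular_final B hB hqM hne e).core a₀ ha1 ha2 y)) :
    ∃ (h : beta2 M q (jBar (M * q)) ∈ Z) (c : kB),
      resZ ⟨beta2 M q (jBar (M * q)), h⟩ = φ (RatFunc.C c) := by
  have hjq : jq' M q ∈ chartFin (M := M) (q := q) := by
    have h1 : jq' M q = heckeBetaBar Kb M q (barEmb M (jFull M)) :=
      (Fermat.Agent.BR.Inst.DegenModel.beta_jBar (M := M) (q := q)).symm
    rw [h1]
    exact beta_barEmb_mem_chartFin (subset_chartAlg M q _ (Set.mem_singleton _))
  obtain ⟨hZ, c, -, -, h3⟩ := resZ_alpha2_of_mem_chartFin B hB hqM hne e Z resZ φ a₀ ha1 ha2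
    hcomap hcompat hjq
  obtain ⟨hZ', h4⟩ := resZ_congr Z resZ (beta2_jBar (M := M) (q := q)) hZ h3
  exact ⟨hZ', c, h4⟩

end Z

/-! ### the literal shape for the vertical component -/

/-- the constants of the residue field of the vertical component -/
theorem algebraMap_adjoinRoot_vertBar {β ρ : kB} (c : kB) :
    algebraMap kB (AdjoinRoot (vertBar q β ρ)) c =
      AdjoinRoot.of (vertBar q β ρ) (RatFunc.C c) := by
  rw [AdjoinRoot.algebraMap_eq', RingHom.comp_apply, RatFunc.algebraMap_eq_C]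

/-- **`htest` of `PushCentre.push_centre`** at `Q₂ := z₂ e = z₁ (Fr e)`, `Q₁ := z₁ e = z₂ (Fr e)`,
`b := β₂`, for any `(Z, resZ)` with the `a`-side clauses of the vertical component at `e`. -/
theorem htest_beta2 {β ρ : kB} (Z : ValuationSubring (Fb (M * q * q)))
    (resZ : Z →+* AdjoinRoot (vertBar q β ρ)) (a₀ : Kb)
    (ha1 : B.valuation (annulusLevels_modular_final B hB hqM hne e).core.thick < B.valuation a₀)
    (ha2 : B.valuation a₀ < 1)
    (hcomap : Z.comap (alpha2 M q : Fb (M * q) →+* Fb (M * q * q)) =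
      circleRing (annulusLevels_modular_final B hB hqM hne e).core a₀ ha1 ha2)
    (hcompat : ∀ (y : circleRing (annulusLevels_modular_final B hB hqM hne e).core a₀ ha1 ha2)
      (h : alpha2 M q (y : Fb (M * q)) ∈ Z),
      resZ ⟨alpha2 M q (y : Fb (M * q)), h⟩ =
        AdjoinRoot.of (vertBar q β ρ)
          (circleRes (annulusLevels_modular_final B hB hqM hne e).core a₀ ha1 ha2 y))
    {b : ↥(modularFunctionFieldFull M)} (hb : b ∈ chartAlgFin M q)
    (hO : barEmb M b ∈ OM M B hB) :
    ∃ (hbg : beta2 M q (heckeAlphaBar Kb M q (barEmb M b)) ∈ Z) (c c' : kB),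
      resZ ⟨beta2 M q (heckeAlphaBar Kb M q (barEmb M b)), hbg⟩ =
        algebraMap kB (AdjoinRoot (vertBar q β ρ)) c ∧
      IsValueAt (z₂ (chartDataModular B hB hqM) e) (redMF B hB hqM ⟨barEmb M b, hO⟩ : ↥FtM) c ∧
      IsValueAt (z₁ (chartDataModular B hB hqM) e) (redMF B hB hqM ⟨barEmb M b, hO⟩ : ↥FtM) c' ∧
      c = c' ^ q := by
  obtain ⟨hbg, c, c', h1, h2, h3, h4⟩ := htest_beta2_gen (κ := AdjoinRoot (vertBar q β ρ))
    B hB hqM hne e Z resZ (AdjoinRoot.of (vertBar q β ρ)) a₀ ha1 ha2 hcomap hcompat hb hO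
  exact ⟨hbg, c, c', h1.trans (algebraMap_adjoinRoot_vertBar B c).symm, h2, h3, h4⟩

/-- **`hbK` of `PushCentre.push_centre`** for the vertical component. -/
theorem hbK_beta2 {β ρ : kB} (Z : ValuationSubring (Fb (M * q * q)))
    (resZ : Z →+* AdjoinRoot (vertBar q β ρ)) (a₀ : Kb)
    (ha1 : B.valuation (annulusLevels_modular_final B hB hqM hne e).core.thick < B.valuation a₀)
    (ha2 : B.valuation a₀ < 1)
    (hcomap : Z.comap (alpha2 M q : Fb (M * q) →+* Fb (M * q * q)) =
      circleRing (annulusLevels_modular_final B hB hqM hne e).core a₀ ha1 ha2)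
    (hcompat : ∀ (y : circleRing (annulusLevels_modular_final B hB hqM hne e).core a₀ ha1 ha2)
      (h : alpha2 M q (y : Fb (M * q)) ∈ Z),
      resZ ⟨alpha2 M q (y : Fb (M * q)), h⟩ =
        AdjoinRoot.of (vertBar q β ρ)
          (circleRes (annulusLevels_modular_final B hB hqM hne e).core a₀ ha1 ha2 y))
    (a : B) :
    ∃ h : (beta2 M q : Fb (M * q) →+* Fb (M * q * q)) (algebraMap Kb (Fb (M * q)) (a : Kb)) ∈ Z,
      resZ ⟨(beta2 M q : Fb (M * q) →+* Fb (M * q * q)) (algebraMap Kb (Fb (M * q)) (a : Kb)), h⟩ =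
        algebraMap kB (AdjoinRoot (vertBar q β ρ)) (residue B a) := by
  obtain ⟨h, h1⟩ := resZ_beta2_algebraMap (κ := AdjoinRoot (vertBar q β ρ))
    B hB hqM hne e Z resZ (AdjoinRoot.of (vertBar q β ρ)) a₀ ha1 ha2 hcomap hcompat a
  exact ⟨h, h1.trans (algebraMap_adjoinRoot_vertBar B _).symm⟩

end Fermat.Agent.BR3.VertBetaTest
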