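import Mathlib
import Fermat.Agent.BR3.VertPtsInj

/-!
# Program C (S36), node (I7-ZE-PTS), part 4: the Kummer points of `z e` UNIFORMLY in `q`

`b U^q + b² U^(q-1) = ρ` over `k` algebraically closed of characteristic `q` (any prime, `q = 2`
included).  The Kummer points of the curve (the zeros of `U`) are indexed by the square roots of
`ρ`: two of them for `q` odd, one for `q = 2`.

* `ptKq2 q … (hq2 : q = 2)` : the Kummer point for `q = 2`, in the `q`-form of the equation;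
* `ptKU q hρ hb heq hgen c hc` (`c ^ 2 = ρ`) : **the Kummer point attached to the square root
  `c`** (`= ptK … c hc` for `q` odd, `= ptK₂` for `q = 2`): `ptKU_of_ne_two`, `ptKU_of_two`;
* `ord_U_ptKU`, `ord_b_ptKU`, `ord_add_ptKU`, `isValueAt_ptKU` (`U / b ↦ 0`), `ord_U_ptKU_pos`;
* `ord_U_pos_iffU : 0 < P.ord U ↔ ∃ c hc, P = ptKU c hc`;
* `ptZ_ne_ptKU`, `ptI_ne_ptKU`, `ptKU_injective`, `injective_ptKU_family`,
  `ord_eq_zero_of_ne_familyU` (exhaustion for a family of square roots);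
* the index type `KPq q := Fin (if q = 2 then 1 else 2)` and the family of square roots
  `rootsK q ρ : KPq q → k` (`rootsK_sq`, `rootsK_injective`, `rootsK_surj`), `card_KPq`;
* `ptZBar`/`ptIBar` companions on `AdjoinRoot (vertBar q β ρ)`: `ptKUBar`.
-/

set_option autoImplicit false
set_option linter.unusedSectionVars false
set_option linter.style.haveILetI false

open AlgebraicCurve Polynomial

namespace Fermat.Agent.BR3.VertPtsUnif

open Fermat.Agent.Red Fermat.Agent.BR3.VertPts Fermat.Agent.BR3.VertPtsDef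
  Fermat.Agent.BR3.VertPtsInj

variable {k L : Type*} [Field k] [Field L] [Algebra k L] [IsAlgClosed k]

section Unif

variable (q : ℕ) [hq : Fact q.Prime] [CharP k q] {ρ : k} {b U : L}
  (hρ : ρ ≠ 0) (hb : Transcendental k b)
  (heq : b * U ^ q + b ^ 2 * U ^ (q - 1) = algebraMap k L ρ)
  (hgen : IntermediateField.adjoin k {b, U} = ⊤)

omit [IsAlgClosed k] hq [CharP k q] in
include heq in
theorem heq_of_two (hq2 : q = 2) : b * U ^ 2 + b ^ 2 * U = algebraMap k L ρ := by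
  subst hq2
  simpa using heq

omit [IsAlgClosed k] hq in
theorem charP_two_of_eq (hq2 : q = 2) : CharP k 2 := hq2 ▸ (inferInstance : CharP k q)

/-- **the Kummer point for `q = 2`**, in the `q`-form of the equation -/
noncomputable def ptKq2 (hq2 : q = 2) : Place k L :=
  haveI : CharP k 2 := charP_two_of_eq q hq2
  ptK₂ hρ hb (heq_of_two q heq hq2) hgen

section Two

variable (hq2 : q = 2)

theorem ord_U_pos_iff_q2 (P : Place k L) : 0 < P.ord U ↔ P = ptKq2 q hρ hb heq hgen hq2 := by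
  haveI : CharP k 2 := charP_two_of_eq q hq2
  exact ord_U_pos_iff₂ hρ hb (heq_of_two q heq hq2) hgen P

theorem ord_b_ptKq2 : (ptKq2 q hρ hb heq hgen hq2).ord b = -1 := by
  haveI : CharP k 2 := charP_two_of_eq q hq2
  exact ord_b_ptK₂ hρ hb (heq_of_two q heq hq2) hgen

theorem ord_U_ptKq2 : (ptKq2 q hρ hb heq hgen hq2).ord U = 2 := by
  haveI : CharP k 2 := charP_two_of_eq q hq2
  exact ord_U_ptK₂ hρ hb (heq_of_two q heq hq2) hgen

theorem ord_add_ptKq2 : (ptKq2 q hρ hb heq hgen hq2).ord (U + b) = -1 := by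
  haveI : CharP k 2 := charP_two_of_eq q hq2
  exact ord_add_ptK₂ hρ hb (heq_of_two q heq hq2) hgen

theorem isValueAt_sq_ptKq2 : IsValueAt (ptKq2 q hρ hb heq hgen hq2) (b ^ 2 * U) ρ := by
  haveI : CharP k 2 := charP_two_of_eq q hq2
  exact isValueAt_sq_ptK₂ hρ hb (heq_of_two q heq hq2) hgen

theorem isValueAt_ptKq2 : IsValueAt (ptKq2 q hρ hb heq hgen hq2) (U / b) 0 := by
  haveI : CharP k 2 := charP_two_of_eq q hq2
  exact isValueAt_ptK₂ hρ hb (heq_of_two q heq hq2) hgen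

/-- **exhaustion, `q = 2`, in the `q`-form** -/
theorem ord_eq_zero_of_ne_q2 {P : Place k L}
    (hz : P ≠ ptZ q hρ hb heq hgen) (hi : P ≠ ptI q hρ hb heq hgen)
    (hk : P ≠ ptKq2 q hρ hb heq hgen hq2) :
    P.ord b = 0 ∧ P.ord U = 0 ∧ P.ord (U + b) = 0 := by
  have hυ : P.ord U = 0 := by
    rcases lt_trichotomy (P.ord U) 0 with h | h | h
    · rcases (ord_U_neg_iff q hρ hb heq hgen P).mp h with h' | h'
      · exact absurd h' hz
      · exact absurd h' hi
    · exact h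
    · exact absurd ((ord_U_pos_iff_q2 q hρ hb heq hgen hq2 P).mp h) hk
  rcases ord_types hq.out.two_le hρ heq P with h | ⟨h, -, -⟩ | ⟨h, -, -⟩ | ⟨h, -, -⟩
  · exact ⟨h.2.1, h.1, h.2.2⟩
  all_goals omega

omit [IsAlgClosed k] hq in
include hq2 in
/-- in characteristic two the square root is unique -/
theorem sqrt_unique_of_two {c c' : k} (hc : c ^ 2 = ρ) (hc' : c' ^ 2 = ρ) : c = c' := by
  haveI : CharP k 2 := charP_two_of_eq q hq2
  have h : (c - c') ^ 2 = 0 := by
    rw [sub_sq, hc, hc']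
    have h2 : (2 : k) = 0 := CharP.cast_eq_zero k 2
    linear_combination (-(c * c') + ρ) * h2
  exact sub_eq_zero.mp (pow_eq_zero_iff two_ne_zero |>.mp h)

end Two

/-- **The Kummer point of `z e` attached to the square root `c` of `ρ`**, uniformly in `q`. -/
noncomputable def ptKU (c : k) (hc : c ^ 2 = ρ) : Place k L :=
  if hq2 : q = 2 then ptKq2 q hρ hb heq hgen hq2 else ptK q hq2 hρ hb heq hgen c hc

variable {c : k} (hc : c ^ 2 = ρ)

theorem ptKU_of_ne_two (hq2 : q ≠ 2) :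
    ptKU q hρ hb heq hgen c hc = ptK q hq2 hρ hb heq hgen c hc := dif_neg hq2

theorem ptKU_of_two (hq2 : q = 2) :
    ptKU q hρ hb heq hgen c hc = ptKq2 q hρ hb heq hgen hq2 := dif_pos hq2

theorem ord_U_ptKU : (ptKU q hρ hb heq hgen c hc).ord U = if q = 2 then 2 else 1 := by
  by_cases hq2 : q = 2
  · rw [ptKU_of_two q hρ hb heq hgen hc hq2, if_pos hq2, ord_U_ptKq2]
  · rw [ptKU_of_ne_two q hρ hb heq hgen hc hq2, if_neg hq2, ord_U_ptK]

theorem ord_U_ptKU_pos : 0 < (ptKU q hρ hb heq hgen c hc).ord U := by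
  rw [ord_U_ptKU]
  split_ifs <;> norm_num

theorem ord_b_ptKU :
    (ptKU q hρ hb heq hgen c hc).ord b = -(((if q = 2 then 1 else (q - 1) / 2 : ℕ)) : ℤ) := by
  by_cases hq2 : q = 2
  · rw [ptKU_of_two q hρ hb heq hgen hc hq2, if_pos hq2, ord_b_ptKq2]
    norm_num
  · rw [ptKU_of_ne_two q hρ hb heq hgen hc hq2, if_neg hq2, ord_b_ptK]

theorem ord_add_ptKU :
    (ptKU q hρ hb heq hgen c hc).ord (U + b) =
      -(((if q = 2 then 1 else (q - 1) / 2 : ℕ)) : ℤ) := by
  by_cases hq2 : q = 2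
  · rw [ptKU_of_two q hρ hb heq hgen hc hq2, if_pos hq2, ord_add_ptKq2]
    norm_num
  · rw [ptKU_of_ne_two q hρ hb heq hgen hc hq2, if_neg hq2, ord_add_ptK]

theorem ord_b_ptKU_neg : (ptKU q hρ hb heq hgen c hc).ord b < 0 := by
  rw [ord_b_ptKU]
  by_cases hq2 : q = 2
  · rw [if_pos hq2]; norm_num
  · rw [if_neg hq2]
    have h1 : 1 ≤ (q - 1) / 2 := by
      obtain ⟨j, hj⟩ := hq.out.odd_of_ne_two hq2
      have := hq.out.two_le
      omega
    have : (1 : ℤ) ≤ (((q - 1) / 2 : ℕ) : ℤ) := by exact_mod_cast h1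
    omega

theorem isValueAt_ptKU : IsValueAt (ptKU q hρ hb heq hgen c hc) (U / b) 0 := by
  by_cases hq2 : q = 2
  · rw [ptKU_of_two q hρ hb heq hgen hc hq2]
    exact isValueAt_ptKq2 q hρ hb heq hgen hq2
  · rw [ptKU_of_ne_two q hρ hb heq hgen hc hq2]
    exact isValueAt_ptK q hq2 hρ hb heq hgen hc

/-- the Kummer point determines the square root -/
theorem ptKU_injective {c c' : k} (hc : c ^ 2 = ρ) (hc' : c' ^ 2 = ρ)
    (h : ptKU q hρ hb heq hgen c hc = ptKU q hρ hb heq hgen c' hc') : c = c' := by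
  by_cases hq2 : q = 2
  · exact sqrt_unique_of_two q hq2 hc hc'
  · rw [ptKU_of_ne_two q hρ hb heq hgen hc hq2, ptKU_of_ne_two q hρ hb heq hgen hc' hq2] at h
    exact ptK_injective q hq2 hρ hb heq hgen hc hc' h

theorem ptKU_congr {c c' : k} (hc : c ^ 2 = ρ) (hc' : c' ^ 2 = ρ) (h : c = c') :
    ptKU q hρ hb heq hgen c hc = ptKU q hρ hb heq hgen c' hc' := by
  subst h
  rfl

/-- **the zeros of `U` are the Kummer points** -/
theorem ord_U_pos_iffU (P : Place k L) :
    0 < P.ord U ↔ ∃ (c : k) (hc : c ^ 2 = ρ), P = ptKU q hρ hb heq hgen c hc := by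
  obtain ⟨c₀, hc₀⟩ := IsAlgClosed.exists_pow_nat_eq ρ (n := 2) two_pos
  constructor
  · intro h
    by_cases hq2 : q = 2
    · refine ⟨c₀, hc₀, ?_⟩
      rw [ptKU_of_two q hρ hb heq hgen hc₀ hq2]
      exact (ord_U_pos_iff_q2 q hρ hb heq hgen hq2 P).mp h
    · rcases (ord_U_pos_iff q hq2 hρ hb heq hgen hc₀ P).mp h with h' | h'
      · exact ⟨c₀, hc₀, by rw [ptKU_of_ne_two q hρ hb heq hgen hc₀ hq2]; exact h'⟩
      · exact ⟨-c₀, neg_sq_eq hc₀, by
          rw [ptKU_of_ne_two q hρ hb heq hgen (neg_sq_eq hc₀) hq2]; exact h'⟩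
  · rintro ⟨c, hc, rfl⟩
    exact ord_U_ptKU_pos q hρ hb heq hgen hc

theorem ptZ_ne_ptKU : ptZ q hρ hb heq hgen ≠ ptKU q hρ hb heq hgen c hc := by
  intro h
  have h1 := ord_U_ptZ q hρ hb heq hgen
  have h2 := ord_U_ptKU_pos q hρ hb heq hgen hc
  rw [← h, h1] at h2
  omega

theorem ptI_ne_ptKU : ptI q hρ hb heq hgen ≠ ptKU q hρ hb heq hgen c hc := by
  intro h
  have h1 := ord_U_ptI q hρ hb heq hgen
  have h2 := ord_U_ptKU_pos q hρ hb heq hgen hc
  rw [← h, h1] at h2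
  omega

/-- `s ↦ ptKU (c s)` is injective when `c` is -/
theorem injective_ptKU_family {KP : Type*} (c : KP → k) (hc : ∀ s, c s ^ 2 = ρ)
    (hinj : Function.Injective c) :
    Function.Injective fun s => ptKU q hρ hb heq hgen (c s) (hc s) :=
  fun _ _ h => hinj (ptKU_injective q hρ hb heq hgen _ _ h)

/-- **exhaustion, family form, uniformly in `q`**: a place different from `ptZ`, `ptI` and all the
`ptKU (c s)`, where the `c s` exhaust the square roots of `ρ`, is generic -/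
theorem ord_eq_zero_of_ne_familyU {KP : Type*} (c : KP → k) (hc : ∀ s, c s ^ 2 = ρ)
    (hsurj : ∀ c' : k, c' ^ 2 = ρ → ∃ s, c s = c') {P : Place k L}
    (hz : P ≠ ptZ q hρ hb heq hgen) (hi : P ≠ ptI q hρ hb heq hgen)
    (hk : ∀ s, P ≠ ptKU q hρ hb heq hgen (c s) (hc s)) :
    P.ord b = 0 ∧ P.ord U = 0 ∧ P.ord (U + b) = 0 := by
  have hυ : P.ord U = 0 := by
    rcases lt_trichotomy (P.ord U) 0 with h | h | h
    · rcases (ord_U_neg_iff q hρ hb heq hgen P).mp h with h' | h'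
      · exact absurd h' hz
      · exact absurd h' hi
    · exact h
    · obtain ⟨c', hc', hP⟩ := (ord_U_pos_iffU q hρ hb heq hgen P).mp h
      obtain ⟨s, hs⟩ := hsurj c' hc'
      exact absurd (hP.trans (ptKU_congr q hρ hb heq hgen hc' (hc s) hs.symm)) (hk s)
  rcases ord_types hq.out.two_le hρ heq P with h | ⟨h, -, -⟩ | ⟨h, -, -⟩ | ⟨h, -, -⟩
  · exact ⟨h.2.1, h.1, h.2.2⟩
  all_goals omega

/-- the poles of `b`: `ptI` and the Kummer points -/
theorem ord_b_neg_iffU (P : Place k L) :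
    P.ord b < 0 ↔ P = ptI q hρ hb heq hgen ∨
      ∃ (c : k) (hc : c ^ 2 = ρ), P = ptKU q hρ hb heq hgen c hc := by
  constructor
  · intro h
    by_contra hcon
    push Not at hcon
    by_cases hz : P = ptZ q hρ hb heq hgen
    · rw [hz, ord_b_ptZ] at h
      have : (0 : ℤ) < (q : ℤ) := by exact_mod_cast hq.out.pos
      omega
    · have := (ord_eq_zero_of_ne_familyU q hρ hb heq hgen
        (fun s : {c : k // c ^ 2 = ρ} => (s : k)) (fun s => s.2) (fun c' hc' => ⟨⟨c', hc'⟩, rfl⟩)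
        hz hcon.1 (fun s => hcon.2 s.1 s.2)).1
      omega
  · rintro (rfl | ⟨c, hc, rfl⟩)
    · rw [ord_b_ptI]
      norm_num
    · exact ord_b_ptKU_neg q hρ hb heq hgen hc

end Unif

/-! ### the index type of the Kummer points and the family of the square roots -/

section Roots

/-- the index type of the Kummer points of a vertical component: one for `q = 2`, two for `q`
odd -/
abbrev KPq (q : ℕ) : Type := Fin (if q = 2 then 1 else 2)

theorem card_KPq (q : ℕ) : Fintype.card (KPq q) = if q = 2 then 1 else 2 := Fintype.card_fin _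

/-- a chosen square root -/
noncomputable def sqrtK (ρ : k) : k :=
  (IsAlgClosed.exists_pow_nat_eq ρ (n := 2) two_pos).choose

theorem sqrtK_sq (ρ : k) : sqrtK ρ ^ 2 = ρ :=
  (IsAlgClosed.exists_pow_nat_eq ρ (n := 2) two_pos).choose_spec

/-- **the square roots of `ρ`**, indexed by `KPq q` -/
noncomputable def rootsK (q : ℕ) (ρ : k) (s : KPq q) : k :=
  if (s : ℕ) = 0 then sqrtK ρ else -sqrtK ρ

theorem rootsK_sq (q : ℕ) (ρ : k) (s : KPq q) : rootsK q ρ s ^ 2 = ρ := by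
  unfold rootsK
  by_cases h : (s : ℕ) = 0
  · rw [if_pos h]; exact sqrtK_sq ρ
  · rw [if_neg h, neg_sq]; exact sqrtK_sq ρ

variable (q : ℕ) [hq : Fact q.Prime] [CharP k q] {ρ : k}

theorem rootsK_injective (hρ : ρ ≠ 0) : Function.Injective (rootsK (k := k) q ρ) := by
  intro s t h
  by_cases hq2 : q = 2
  · have hs : (s : ℕ) < 1 := lt_of_lt_of_eq s.2 (if_pos hq2)
    have ht : (t : ℕ) < 1 := lt_of_lt_of_eq t.2 (if_pos hq2)
    exact Fin.ext (by omega)
  · have hs : (s : ℕ) < 2 := lt_of_lt_of_eq s.2 (if_neg hq2)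
    have ht : (t : ℕ) < 2 := lt_of_lt_of_eq t.2 (if_neg hq2)
    have hne := ne_neg_of_sq q hq2 hρ (sqrtK_sq ρ)
    unfold rootsK at h
    apply Fin.ext
    by_cases h0 : (s : ℕ) = 0 <;> by_cases h1 : (t : ℕ) = 0
    · omega
    · rw [if_pos h0, if_neg h1] at h
      exact absurd h hne
    · rw [if_neg h0, if_pos h1] at h
      exact absurd h.symm hne
    · omega

theorem rootsK_surj (c' : k) (hc' : c' ^ 2 = ρ) : ∃ s, rootsK q ρ s = c' := by
  have h0 : (0 : ℕ) < if q = 2 then 1 else 2 := by split_ifs <;> norm_num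
  by_cases hq2 : q = 2
  · refine ⟨⟨0, h0⟩, ?_⟩
    unfold rootsK
    rw [if_pos rfl]
    exact sqrt_unique_of_two q hq2 (sqrtK_sq ρ) hc'
  · have h1 : (1 : ℕ) < if q = 2 then 1 else 2 := by rw [if_neg hq2]; norm_num
    have hmul : (c' - sqrtK ρ) * (c' + sqrtK ρ) = 0 := by
      have := sqrtK_sq ρ
      linear_combination hc' - this
    rcases mul_eq_zero.mp hmul with h | h
    · refine ⟨⟨0, h0⟩, ?_⟩
      unfold rootsK
      rw [if_pos rfl]
      exact (sub_eq_zero.mp h).symm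
    · refine ⟨⟨1, h1⟩, ?_⟩
      unfold rootsK
      rw [if_neg (by norm_num)]
      linear_combination -h

end Roots

/-! ### the instances for `AdjoinRoot (vertBar q β ρ)` -/

section VertBar

open Fermat.Agent.BR3.VertResidue Fermat.Agent.BR3.VertResField

variable (q : ℕ) [hq : Fact q.Prime] [CharP k q] {β ρ : k}
  [hP : Fact (Irreducible (vertBar q β ρ))]

/-- the Kummer branch of `z e` attached to the square root `c` of `ρ`, uniformly in `q` -/
noncomputable def ptKUBar (hβ : β ≠ 0) (hρ : ρ ≠ 0) (c : k) (hc : c ^ 2 = ρ) :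
    Place k (AdjoinRoot (vertBar q β ρ)) :=
  ptKU q hρ (vertBar_hb (q := q) (ρ := ρ) hβ) (vertBar_heq hβ) (vertBar_hgen hβ) c hc

/-- the Kummer branches of `z e`, indexed by `KPq q` -/
noncomputable def ptKFam (hβ : β ≠ 0) (hρ : ρ ≠ 0) (s : KPq q) :
    Place k (AdjoinRoot (vertBar q β ρ)) :=
  ptKUBar q hβ hρ (rootsK q ρ s) (rootsK_sq q ρ s)

variable (hβ : β ≠ 0) (hρ : ρ ≠ 0)

theorem ptKFam_injective : Function.Injective (ptKFam (k := k) q hβ hρ) :=
  injective_ptKU_family q hρ (vertBar_hb (q := q) (ρ := ρ) hβ) (vertBar_heq hβ) (vertBar_hgen hβ)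
    (rootsK q ρ) (rootsK_sq q ρ) (rootsK_injective q hρ)

theorem ptIBar_ne_ptKFam (s : KPq q) : ptIBar q hβ hρ ≠ ptKFam q hβ hρ s :=
  ptI_ne_ptKU q hρ _ _ _ _

theorem ptZBar_ne_ptKFam (s : KPq q) : ptZBar q hβ hρ ≠ ptKFam q hβ hρ s :=
  ptZ_ne_ptKU q hρ _ _ _ _

theorem ptZBar_ne_ptIBar : ptZBar (k := k) q hβ hρ ≠ ptIBar q hβ hρ :=
  ptZ_ne_ptI q hρ _ _ _

/-- **exhaustion on `AdjoinRoot (vertBar q β ρ)`**: a place different from `ptZBar`, `ptIBar` and
the `ptKFam s` is generic (`b̃`, `Ũ`, `Ũ + b̃` are units there) -/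
theorem ord_eq_zero_of_ne_bar {P : Place k (AdjoinRoot (vertBar q β ρ))}
    (hz : P ≠ ptZBar q hβ hρ) (hi : P ≠ ptIBar q hβ hρ) (hk : ∀ s, P ≠ ptKFam q hβ hρ s) :
    P.ord (AdjoinRoot.of (vertBar q β ρ) (RatFunc.C β * (RatFunc.X : RatFunc k))) = 0 ∧
      P.ord (AdjoinRoot.root (vertBar q β ρ)) = 0 ∧
      P.ord (AdjoinRoot.root (vertBar q β ρ) +
        AdjoinRoot.of (vertBar q β ρ) (RatFunc.C β * (RatFunc.X : RatFunc k))) = 0 :=
  ord_eq_zero_of_ne_familyU q hρ (vertBar_hb (q := q) (ρ := ρ) hβ) (vertBar_heq hβ)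
    (vertBar_hgen hβ) (rootsK q ρ) (rootsK_sq q ρ) (rootsK_surj q) hz hi hk

end VertBar

end Fermat.Agent.BR3.VertPtsUnif
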