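import Mathlib
import Fermat.Agent.BR3.ConstRedZe
import Fermat.Agent.BR3.SRef.Modular
import Fermat.Agent.BR3.VertPtsUnif

/-!
# Program C (S36), node (I7-CR), part 4: the vertical components of `S''` for `(M, q, B)` as a
family over the crossings of `S'`

`Dt : ModularData M q B hB hqM` the named inputs of `S'`, `a₀ e` the gauges of `S'ref_a`
(`hadm : ∀ e, (inputs Dt).adm e (a₀ e)`), `Ugen e` the generators (`U M q`, or `Ug M q (g e)`).

* `ZeFamily Dt a₀ hadm Ugen` := `∀ e, ZeData B (core Dt e) (a₀ e) _ _ (Ugen e)` (one choice for all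
  the owners), `nonempty_zeFamily`;
* `FZ D e := AdjoinRoot (vertBar q (D e).β (D e).ρ)` (an `abbrev`: `Field`, `Algebra kB` by
  instance search through `ZeData.instFact`);
* `constRedZe D e : ConstRed (F := Fb (M q²)) (Ft := FZ D e) B (residue B)` (`CZ` of
  `SDD.Modular.CAll`), `constRedZe_O`, `constRedZe_res` (`rfl`), **`constRedZe_comap`** (`hZc` of
  `SDD.Modular.CAll_O_injective`), `riemannPkg_FZ` (`hZ` of `SDD.Modular.hFtAll`);
* the special points `zW D e`, `zT D e`, `zK D e s` (`s : KPq q`) `: Place kB (FZ D e)` with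
  `zK_injective`, `zT_ne_zK`, `zW_ne_zT`, `zW_ne_zK` (the fields of `SDD.CaseInput`) and the
  exhaustion `ord_eq_zero_of_ne_special`.
-/

set_option autoImplicit false
set_option linter.unusedSectionVars false
set_option linter.style.haveILetI false
set_option synthInstance.maxHeartbeats 400000

noncomputable section

namespace Fermat.Agent.BR3.VertConstRed

open Polynomial ModularCurve AlgebraicCurve IsLocalRing
open Fermat.Agent.X0 Fermat.Agent.Val Fermat.Agent.Red Fermat.Agent.BR.TwoVal
open Fermat.Agent.BR.Circle Fermat.Agent.BR.S0 Fermat.Agent.BR.S0.PointDict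
open Fermat.Agent.BR.S0.RedModular Fermat.Agent.BR.Final
open Fermat.Agent.BR2.SetupOfData Fermat.Agent.BR3.CircleN Fermat.Agent.BR3.SRef.Modular
open Fermat.Agent.BR3.FibreProd Fermat.Agent.BR3.VertResidue Fermat.Agent.BR3.VertSheet
open Fermat.Agent.BR3.ConstRedZe Fermat.Agent.BR3.VertPtsDef Fermat.Agent.BR3.VertPtsUnif

variable {M q : ℕ} [NeZero M] [hq : Fact q.Prime]
variable {B : ValuationSubring (AlgebraicClosure ℚ)} {hB : B.LiesOverPrime q} {hqM : ¬ q ∣ M}
variable [IsAlgClosed (ResidueField B)]

local notation "kB" => IsLocalRing.ResidueField B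
local notation "Kb" => AlgebraicClosure ℚ

/-- (shortcut instance, as in `BR3/SRef/Modular`: the search through the generic instances costs
seconds per mention of `Crossing (chartDataModular B hB hqM)`) -/
local instance (priority := 100000) instAlgebraFtMShortcutVCR :
    Algebra (IsLocalRing.ResidueField B)
      (modularFunctionFieldFullC (IsLocalRing.ResidueField B) M) :=
  inferInstance

variable (Dt : ModularData M q B hB hqM)
  (a₀ : Crossing (chartDataModular B hB hqM) → Kb) (hadm : ∀ e, (inputs Dt).adm e (a₀ e))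
  (Ugen : Crossing (chartDataModular B hB hqM) → Fb (M * q * q))

/-- **The data of all the vertical components**: for every crossing `e` of `S'`, the vertical
component over the circle `|u e| = |a₀ e|`. -/
abbrev ZeFamily : Type :=
  ∀ e, ZeData B (core Dt e) (a₀ e) (hadm e).1 (hadm e).2 (Ugen e)

variable {Dt a₀ hadm Ugen}

theorem nonempty_zeFamily
    (h : ∀ e, Nonempty (ZeData B (core Dt e) (a₀ e) (hadm e).1 (hadm e).2 (Ugen e))) :
    Nonempty (ZeFamily Dt a₀ hadm Ugen) :=
  ⟨fun e => (h e).some⟩

variable (D : ZeFamily Dt a₀ hadm Ugen)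

/-- The residue field of the vertical component `z e`. -/
abbrev FZ (e : Crossing (chartDataModular B hB hqM)) : Type :=
  AdjoinRoot (vertBar q (D e).β (D e).ρ)

/-- **The constant reduction of `z e`** (`CZ e` of `SDD.constRedOf`). -/
def constRedZe (e : Crossing (chartDataModular B hB hqM)) :
    ConstRed (F := Fb (M * q * q)) (Ft := FZ D e) B (residue B) :=
  (D e).constRed hB ((inputs Dt).approx e (a₀ e) (hadm e).1 (hadm e).2)

@[simp] theorem constRedZe_O (e : Crossing (chartDataModular B hB hqM)) :
    (constRedZe D e).O = (D e).Z := rfl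

@[simp] theorem constRedZe_res (e : Crossing (chartDataModular B hB hqM)) :
    (constRedZe D e).res = (D e).resZ := rfl

/-- **`z e` lies over the exceptional component `E_e` of `S'ref_a` along `α₂`** (`hZc` of
`SDD.Modular.CAll_O_injective`). -/
theorem constRedZe_comap (e : Crossing (chartDataModular B hB hqM)) :
    ((constRedZe D e).O).comap (alpha2 M q : Fb (M * q) →+* Fb (M * q * q)) =
      ringE Dt a₀ hadm e :=
  (D e).comap_eq

/-- `z e` is THE component over `E_e`. -/
theorem eq_constRedZe_O_of_comap (e : Crossing (chartDataModular B hB hqM))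
    (Z' : ValuationSubring (Fb (M * q * q)))
    (h : Z'.comap (alpha2 M q : Fb (M * q) →+* Fb (M * q * q)) = ringE Dt a₀ hadm e) :
    Z' = (constRedZe D e).O :=
  (D e).unique Z' h

/-- `z e` has rank one. -/
theorem arch_constRedZe (e : Crossing (chartDataModular B hB hqM)) : Arch (constRedZe D e).O :=
  (D e).arch hB ((inputs Dt).approx e (a₀ e) (hadm e).1 (hadm e).2)

/-- **(G2) for the vertical components** (`hZ` of `SDD.Modular.hFtAll`). -/
theorem riemannPkg_FZ (e : Crossing (chartDataModular B hB hqM)) : RiemannPkg kB (FZ D e) :=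
  haveI := Fermat.Agent.Val.charP_residueField_of_liesOverPrime B hB
  riemannPkg_vert_line (q := q) hq.out.two_le (D e).hβ (D e).hρ

/-! ### the special points of `z e` -/

section Points

variable (e : Crossing (chartDataModular B hB hqM))

/-- the branch of `z e` towards `cZero` (wild node `nW e`): the zero of `b̃` -/
def zW : Place kB (FZ D e) :=
  haveI := Fermat.Agent.Val.charP_residueField_of_liesOverPrime B hB
  ptZBar q (D e).hβ (D e).hρ

/-- the branch of `z e` towards `cInf` (split node `nT e`): the zero of `Ũ + b̃` -/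
def zT : Place kB (FZ D e) :=
  haveI := Fermat.Agent.Val.charP_residueField_of_liesOverPrime B hB
  ptIBar q (D e).hβ (D e).hρ

/-- the Kummer branches of `z e` (nodes `nk e s`): the zeros of `Ũ`, indexed by the square roots
of `ρ e` -/
def zK (s : KPq q) : Place kB (FZ D e) :=
  haveI := Fermat.Agent.Val.charP_residueField_of_liesOverPrime B hB
  ptKFam q (D e).hβ (D e).hρ s

theorem zK_injective : Function.Injective (zK D e) :=
  haveI := Fermat.Agent.Val.charP_residueField_of_liesOverPrime B hB
  ptKFam_injective q (D e).hβ (D e).hρ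

theorem zT_ne_zK (s : KPq q) : zT D e ≠ zK D e s :=
  haveI := Fermat.Agent.Val.charP_residueField_of_liesOverPrime B hB
  ptIBar_ne_ptKFam q (D e).hβ (D e).hρ s

theorem zW_ne_zT : zW D e ≠ zT D e :=
  haveI := Fermat.Agent.Val.charP_residueField_of_liesOverPrime B hB
  ptZBar_ne_ptIBar q (D e).hβ (D e).hρ

theorem zW_ne_zK (s : KPq q) : zW D e ≠ zK D e s :=
  haveI := Fermat.Agent.Val.charP_residueField_of_liesOverPrime B hB
  ptZBar_ne_ptKFam q (D e).hβ (D e).hρ s

/-- **exhaustion**: a point of `z e` different from the special points is generic: `b̃`, `Ũ`,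
`Ũ + b̃` are units there. -/
theorem ord_eq_zero_of_ne_special {P : Place kB (FZ D e)}
    (hz : P ≠ zW D e) (hi : P ≠ zT D e) (hk : ∀ s, P ≠ zK D e s) :
    P.ord (AdjoinRoot.of (vertBar q (D e).β (D e).ρ)
        (RatFunc.C (D e).β * (RatFunc.X : RatFunc kB))) = 0 ∧
      P.ord (AdjoinRoot.root (vertBar q (D e).β (D e).ρ)) = 0 ∧
      P.ord (AdjoinRoot.root (vertBar q (D e).β (D e).ρ) +
        AdjoinRoot.of (vertBar q (D e).β (D e).ρ)
          (RatFunc.C (D e).β * (RatFunc.X : RatFunc kB))) = 0 :=
  haveI := Fermat.Agent.Val.charP_residueField_of_liesOverPrime B hB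
  ord_eq_zero_of_ne_bar q (D e).hβ (D e).hρ hz hi hk

end Points

end Fermat.Agent.BR3.VertConstRed
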