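import Mathlib
import Fermat.Agent.BR3.VertConstRed
import Fermat.Agent.BR3.VertAllFinal
import Fermat.Agent.BR3.SDD.ModularGauge

/-!
# Program C (S36), node (I7-CR), part 5: THE vertical components of `S''` for `(M, q, B)` in the
final frame, hypothesis-free

Frame (`BR3/SDD/ModularGauge`): `DtM B hB hqM := modularData_final B hB hqM`,
`gaugeA q B hB hqM e = gaugeSDD q` (`= ϖ ^ (q - 1)`), `admA B hB hqM h2 h3`.

* `SSVert B hB hqM h2 h3 e : Type` : a supersingular parameter triple `(g, g', g'')` at `e`
  (`SSParam.IsSSParam`) together with the data `ZeData` of the vertical component over the circle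
  `|u e| = |gaugeSDD q|` with generator `Ug M q g`;
* `nonempty_ssVert` : from helper15's `VertAllFinal.exists_vertComponent_ss_gauge`
  (hypothesis-free, `M` without elliptic points);
* THE CHOICE: `ssVert … e`, `gSS`, `gSS'`, `gSS''`, `isSSParam_gSS`, `UgenM … e := Ug M q (gSS e)`,
  **`zeFamilyM B hB hqM h2 h3 : ZeFamily (DtM …) (gaugeA …) (admA …) (UgenM …)`**;
* the specialisations `FZM e`, `CZM e := constRedZe (zeFamilyM …) e`, `CZM_comap` (`hZc`),
  `riemannPkg_FZM` (`hZ`), `zWM`, `zTM`, `zKM`.
-/

set_option autoImplicit false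
set_option linter.unusedSectionVars false
set_option linter.style.haveILetI false
set_option synthInstance.maxHeartbeats 400000

noncomputable section

namespace Fermat.Agent.BR3.VertConstRedFinal

open Polynomial ModularCurve AlgebraicCurve IsLocalRing
open Fermat.Agent.X0 Fermat.Agent.Val Fermat.Agent.Red Fermat.Agent.Hecke
open Fermat.Agent.BR.Circle Fermat.Agent.BR.S0 Fermat.Agent.BR.S0.PointDict
open Fermat.Agent.BR.S0.RedModular Fermat.Agent.BR.Final Fermat.Agent.BR.Inst.AnnulusInstFinal
open Fermat.Agent.BR2.SetupOfData Fermat.Agent.BR3.CircleN Fermat.Agent.BR3.SRef.Modular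
open Fermat.Agent.BR3.FibreProd Fermat.Agent.BR3.VertResidue Fermat.Agent.BR3.HeckePoly
open Fermat.Agent.BR3.SSParam Fermat.Agent.BR3.VertAllFinal Fermat.Agent.BR3.SDD.Modular
open Fermat.Agent.BR3.ConstRedZe Fermat.Agent.BR3.VertConstRed Fermat.Agent.BR3.VertPtsUnif

variable {M q : ℕ} [NeZero M] [hq : Fact q.Prime]
variable (B : ValuationSubring (AlgebraicClosure ℚ)) (hB : B.LiesOverPrime q) (hqM : ¬ q ∣ M)
variable [IsAlgClosed (ResidueField B)] [CharP (ResidueField B) q]
variable (h2 : nuTwo M = 0) (h3 : nuThree M = 0)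

local notation "kB" => IsLocalRing.ResidueField B
local notation "Kb" => AlgebraicClosure ℚ

/-- (shortcut instance, as in `BR3/SRef/Modular`: the search through the generic instances costs
seconds per mention of `Crossing (chartDataModular B hB hqM)`) -/
local instance (priority := 100000) instAlgebraFtMShortcutVCRF :
    Algebra (IsLocalRing.ResidueField B)
      (modularFunctionFieldFullC (IsLocalRing.ResidueField B) M) :=
  inferInstance

/-- **The choice at a supersingular crossing `e`**: a parameter triple and the vertical component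
over the critical circle `|u e| = |gaugeSDD q|` with generator `Ug M q g`. -/
structure SSVert (e : Crossing (chartDataModular B hB hqM)) : Type where
  /-- the parameter at `e` -/
  g : Fb M
  /-- its Frobenius untwist -/
  g' : Fb M
  /-- its Frobenius twist -/
  g'' : Fb M
  param : IsSSParam B hB hqM e g g' g''
  /-- the vertical component -/
  data : ZeData B (core (DtM B hB hqM) e) (gaugeA q B hB hqM e) (admA B hB hqM h2 h3 e).1
    (admA B hB hqM h2 h3 e).2 (Ug M q g)

theorem valuation_gaugeA_pow (e : Crossing (chartDataModular B hB hqM)) :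
    B.valuation (gaugeA q B hB hqM e) ^ (q + 1) = B.valuation (q : Kb) := by
  rw [← map_pow, gaugeA_pow]

set_option maxHeartbeats 1600000 in
/-- **The vertical component exists at every supersingular crossing**, in the final frame. -/
theorem nonempty_ssVert (e : Crossing (chartDataModular B hB hqM)) :
    Nonempty (SSVert B hB hqM h2 h3 e) := by
  obtain ⟨g, g', g'', P, ha1, ha2, h⟩ :=
    exists_vertComponent_ss_gauge B hB hqM (nonempty_crossing (DtM B hB hqM)) e h2 h3
      (gaugeA q B hB hqM e) (valuation_gaugeA_pow B hB hqM e)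
  obtain ⟨D⟩ := nonempty_zeData_of_exists h
  exact ⟨⟨g, g', g'', P, D⟩⟩

/-- THE chosen data at the crossing `e`. -/
def ssVert (e : Crossing (chartDataModular B hB hqM)) : SSVert B hB hqM h2 h3 e :=
  (nonempty_ssVert B hB hqM h2 h3 e).some

/-- the chosen parameter at `e` -/
def gSS (e : Crossing (chartDataModular B hB hqM)) : Fb M := (ssVert B hB hqM h2 h3 e).g

/-- its Frobenius untwist -/
def gSS' (e : Crossing (chartDataModular B hB hqM)) : Fb M := (ssVert B hB hqM h2 h3 e).g'

/-- its Frobenius twist -/
def gSS'' (e : Crossing (chartDataModular B hB hqM)) : Fb M := (ssVert B hB hqM h2 h3 e).g''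

theorem isSSParam_gSS (e : Crossing (chartDataModular B hB hqM)) :
    IsSSParam B hB hqM e (gSS B hB hqM h2 h3 e) (gSS' B hB hqM h2 h3 e)
      (gSS'' B hB hqM h2 h3 e) :=
  (ssVert B hB hqM h2 h3 e).param

/-- the generators of the vertical components: `U_g = β₂ (β g) - α₂ (α g)` -/
def UgenM (e : Crossing (chartDataModular B hB hqM)) : Fb (M * q * q) :=
  Ug M q (gSS B hB hqM h2 h3 e)

/-- **THE family of the vertical components of `S''`.** -/
def zeFamilyM :
    ZeFamily (DtM B hB hqM) (gaugeA q B hB hqM) (admA B hB hqM h2 h3) (UgenM B hB hqM h2 h3) :=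
  fun e => (ssVert B hB hqM h2 h3 e).data

/-- the residue fields of the vertical components -/
abbrev FZM (e : Crossing (chartDataModular B hB hqM)) : Type :=
  FZ (zeFamilyM B hB hqM h2 h3) e

/-- **the constant reductions of the vertical components** (`CZ` of `SDD.Modular.CAll`) -/
def CZM (e : Crossing (chartDataModular B hB hqM)) :
    ConstRed (F := Fb (M * q * q)) (Ft := FZM B hB hqM h2 h3 e) B (residue B) :=
  constRedZe (zeFamilyM B hB hqM h2 h3) e

/-- `hZc` of `SDD.Modular.CAll_O_injective` -/
theorem CZM_comap (e : Crossing (chartDataModular B hB hqM)) :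
    ((CZM B hB hqM h2 h3 e).O).comap (alpha2 M q : Fb (M * q) →+* Fb (M * q * q)) =
      ringEA B hB hqM h2 h3 e :=
  constRedZe_comap (zeFamilyM B hB hqM h2 h3) e

/-- `hZ` of `SDD.Modular.hFtAll` -/
theorem riemannPkg_FZM (e : Crossing (chartDataModular B hB hqM)) :
    RiemannPkg kB (FZM B hB hqM h2 h3 e) :=
  riemannPkg_FZ (zeFamilyM B hB hqM h2 h3) e

/-- the branch of `z e` towards `cZero` -/
def zWM (e : Crossing (chartDataModular B hB hqM)) : Place kB (FZM B hB hqM h2 h3 e) :=
  zW (zeFamilyM B hB hqM h2 h3) e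

/-- the branch of `z e` towards `cInf` -/
def zTM (e : Crossing (chartDataModular B hB hqM)) : Place kB (FZM B hB hqM h2 h3 e) :=
  zT (zeFamilyM B hB hqM h2 h3) e

/-- the Kummer branches of `z e` -/
def zKM (e : Crossing (chartDataModular B hB hqM)) (s : KPq q) :
    Place kB (FZM B hB hqM h2 h3 e) :=
  zK (zeFamilyM B hB hqM h2 h3) e s

end Fermat.Agent.BR3.VertConstRedFinal
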