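/-
Program C (S36), node I2 (C-VERT), third file (helper9): the coordinate of a tube from
THICKNESS ONE alone.

`S₀` a semistable setup, `e` a node with an annulus chart `ch`; `x y z : F`, `κ : K` with
`x * y = κ • z` (for the modular curve: `x = x1 := jBar − jq'^q`, `y = y1 := jq' − jBar^q`,
`z = R := Ψ(jq', jBar)`, `κ = q`: Kronecker), where
* `x` is a unit on `src e`, `y` a unit on `tgt e`, both without poles on the tube,
* `z` is a unit at the node (`hR`),
* `|κ| = |thick|` (thickness one, `(h1)`).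

Then the reductions of `x` on `src e` and of `y` on `tgt e` have SIMPLE zeros at the branches of
the node and `x`, `y` have no zeros on the tube (`ord_eq_one_of_valuation_eq_thick`), hence
(`VertCoord`) `a⁻¹ • x` reduces to `β · X` and `(a / thick) • y` to `β' · X⁻¹` on every circle.
No hypothesis "non-elliptic" / "local parameter" is needed: it is a CONSEQUENCE of `(h1)`, `(hR)`.

`exists_isRed_of_levels` : the same from the finite levels `L : AnnulusLevels A (tube S₀ e) ι` with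
branch data `X` (Program B's shape): `x y z ∈ (L.level i).R`, `z` a unit of the level; conclusion in
the literal shape of the hypothesis `hb` of `VertCircleMod.exists_vertComponent_of_levels`:
`∃ β ≠ 0, IsRed L.core a (a⁻¹ • x) (RatFunc.C β * RatFunc.X)`.
-/
import Mathlib
import Fermat.Agent.BR3.VertCoord
import Fermat.Agent.BR.S0.AnnulusChartOfLevels

set_option autoImplicit false

noncomputable section

namespace Fermat.Agent.BR3.VertCoordThick

open AlgebraicCurve IsLocalRing Fermat.Agent.Red Fermat.Agent.BR.InertiaRed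
  Fermat.Agent.BR.AnnulusRed Fermat.Agent.BR.P1 Fermat.Agent.BR.Centre Fermat.Agent.BR.SS
  Fermat.Agent.BR.Refine Fermat.Agent.BR.Fact Fermat.Agent.BR.Circle Fermat.Agent.BR3.CircleN
  Fermat.Agent.BR3.VertCoord Fermat.Agent.BR.S0 Fermat.Agent.BR.S0.AnnulusChartOfLevels

variable {K : Type} {F : Type*} [Field K] [Field F] [Algebra K F]
  {A : ValuationSubring K}
  {ι₀ : Type} {Ft₀ : ι₀ → Type} [∀ v, Field (Ft₀ v)] [∀ v, Algebra (ResidueField A) (Ft₀ v)]
  {ν₀ : Type}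
  {S₀ : SemistableSetup (F := F) A (residue A) ι₀ Ft₀ ν₀} {e : ν₀}

/-! ### the exponents are equal, and equal to one when `|κ| = |thick|` -/

/-- **Exponents from the product.** If `x` (unit on `src e`), `y` (unit on `tgt e`) and `z` (unit at
the node) have neither zeros nor poles on the tube and `x * y = κ • z`, then the orders `b` of the
reduction of `x` at `s₁ e` and `b'` of the reduction of `y` at `s₂ e` are EQUAL and
`|κ| = |thick| ^ b`. -/
theorem ord_eq_ord_and_valuation_eq (ch : AnnulusChartN S₀ e) {x y z : F} {κ : K}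
    (hx : x ∈ S₀.O (S₀.src e)) (hxres : S₀.res (S₀.src e) ⟨x, hx⟩ ≠ 0)
    (hxord : ∀ P ∈ tube S₀ e, P.ord x = 0)
    (hy : y ∈ S₀.O (S₀.tgt e)) (hyres : S₀.res (S₀.tgt e) ⟨y, hy⟩ ≠ 0)
    (hyord : ∀ P ∈ tube S₀ e, P.ord y = 0)
    (hz : z ∈ S₀.O (S₀.src e)) (hzres : S₀.res (S₀.src e) ⟨z, hz⟩ ≠ 0)
    (hzord0 : (S₀.s₁ e).ord (S₀.res (S₀.src e) ⟨z, hz⟩) = 0)
    (hzord : ∀ P ∈ tube S₀ e, P.ord z = 0) (hxyz : x * y = κ • z) :
    (S₀.s₁ e).ord (S₀.res (S₀.src e) ⟨x, hx⟩) = (S₀.s₂ e).ord (S₀.res (S₀.tgt e) ⟨y, hy⟩) ∧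
      A.valuation κ =
        A.valuation ch.thick ^ ((S₀.s₂ e).ord (S₀.res (S₀.tgt e) ⟨y, hy⟩)) := by
  obtain ⟨c₀, ε₀, h1, h2, h3⟩ := exists_eq_const_mul_zpow_mul_nodeUnit ch hx hxres hxord
  obtain ⟨c₁, ε₁, h1', h2', h3'⟩ := exists_eq_const_mul_zpow_mul_nodeUnit_tgt ch hy hyres hyord
  obtain ⟨c, ε, h1'', h2'', h3''⟩ := exists_eq_smul_nodeUnit ch hz hzres hzord0 hzord
  set b := (S₀.s₁ e).ord (S₀.res (S₀.src e) ⟨x, hx⟩) with hb
  set b' := (S₀.s₂ e).ord (S₀.res (S₀.tgt e) ⟨y, hy⟩) with hb'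
  have hu0 : ch.u ≠ 0 := by
    intro h0
    apply ch.res_u_src_ne_zero
    have : (⟨ch.u, ch.u_src⟩ : S₀.O (S₀.src e)) = 0 := Subtype.ext h0
    rw [this, map_zero]
  have hc₀ : c₀ ≠ 0 := by
    rintro rfl
    rw [map_zero] at h1
    exact zero_ne_one h1
  have hc₁ : c₁ ≠ 0 := by
    rintro rfl
    rw [map_zero] at h1'
    exact zero_ne_one h1'
  have hc : c ≠ 0 := by
    rintro rfl
    rw [map_zero] at h1''
    exact zero_ne_one h1''
  have hresiff := S₀.res_eq_zero_iff (S₀.src e)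
  -- the three node units on `src e`
  have hv₀ : ValAt (S₀.O (S₀.src e)) (S₀.res (S₀.src e)) (S₀.s₁ e) ε₀ 1 := h2.2.1
  have hv₁ : ValAt (S₀.O (S₀.src e)) (S₀.res (S₀.src e)) (S₀.s₁ e) ε₁ 1 := h2'.2.1
  have hv : ValAt (S₀.O (S₀.src e)) (S₀.res (S₀.src e)) (S₀.s₁ e) ε 1 := h2''.2.1
  have hη : ValAt (S₀.O (S₀.src e)) (S₀.res (S₀.src e)) (S₀.s₁ e) (ε₀ * ε₁ * ε⁻¹) 1 := by
    have := (hv₀.mul hv₁).mul (ValAt.inv hresiff hv one_ne_zero)
    rwa [mul_one, inv_one, mul_one] at this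
  have hε0 : ε ≠ 0 := by
    rintro rfl
    have h4 := hv.res_ne_zero one_ne_zero
    apply h4
    have : (⟨0, hv.mem⟩ : S₀.O (S₀.src e)) = 0 := rfl
    rw [this, map_zero]
  have hκ0 : κ ≠ 0 := by
    rintro rfl
    rw [zero_smul] at hxyz
    have hx0 : x ≠ 0 := by
      rintro rfl
      apply hxres
      have : (⟨0, hx⟩ : S₀.O (S₀.src e)) = 0 := rfl
      rw [this, map_zero]
    have hy0 : y ≠ 0 := by
      rintro rfl
      apply hyres
      have : (⟨0, hy⟩ : S₀.O (S₀.tgt e)) = 0 := rfl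
      rw [this, map_zero]
    exact (mul_ne_zero hx0 hy0) hxyz
  have htF : algebraMap K F ch.thick ≠ 0 := (map_ne_zero _).mpr ch.thick_ne
  have hκF : algebraMap K F κ ≠ 0 := (map_ne_zero _).mpr hκ0
  have hcF : algebraMap K F c ≠ 0 := (map_ne_zero _).mpr hc
  have hc₀F : algebraMap K F c₀ ≠ 0 := (map_ne_zero _).mpr hc₀
  have hc₁F : algebraMap K F c₁ ≠ 0 := (map_ne_zero _).mpr hc₁
  -- the constant
  set lam : K := c₀ * c₁ * ch.thick ^ b' * (κ * c)⁻¹ with hlam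
  have hlam0 : lam ≠ 0 :=
    mul_ne_zero (mul_ne_zero (mul_ne_zero hc₀ hc₁) (zpow_ne_zero _ ch.thick_ne))
      (inv_ne_zero (mul_ne_zero hκ0 hc))
  -- `1 = lam · u ^ (b - b') · (ε₀ ε₁ ε⁻¹)`
  have hone : (1 : F) = algebraMap K F lam * ch.u ^ (b - b') * (ε₀ * ε₁ * ε⁻¹) := by
    have h4 : algebraMap K F c₀ * ch.u ^ b * ε₀ *
        (algebraMap K F c₁ * (ch.thick • ch.u⁻¹) ^ b' * ε₁) = κ • (c • ε) := by
      rw [← h3, ← h3', ← h3'']
      exact hxyz
    rw [Algebra.smul_def, Algebra.smul_def, Algebra.smul_def, mul_zpow, inv_zpow] at h4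
    have hub : ch.u ^ b ≠ 0 := zpow_ne_zero _ hu0
    have hub' : ch.u ^ b' ≠ 0 := zpow_ne_zero _ hu0
    have htb : algebraMap K F ch.thick ^ b' ≠ 0 := zpow_ne_zero _ htF
    rw [hlam, map_mul, map_mul, map_mul, map_inv₀, map_mul, map_zpow₀, zpow_sub₀ hu0]
    field_simp
    field_simp at h4
    linear_combination -h4
  have hone_mem : (1 : F) ∈ S₀.O (S₀.src e) := (S₀.O (S₀.src e)).one_mem
  have hone_res : S₀.res (S₀.src e) ⟨1, hone_mem⟩ ≠ 0 := by
    have : (⟨1, hone_mem⟩ : S₀.O (S₀.src e)) = 1 := rfl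
    rw [this, map_one]
    exact one_ne_zero
  obtain ⟨hlamval, hordone⟩ := valuation_eq_one_and_ord_eq (S₀.res (S₀.src e))
    (S₀.res_eq_zero_iff (S₀.src e)) (S₀.algebraMap_mem_iff (S₀.src e))
    (S₀.res_algebraMap (S₀.src e)) (S₀.s₁ e) ch.u_src ch.isUnit_u_src hη hone_mem hone_res
    hlam0 (b - b') hone
  have hbb' : b = b' := by
    have h5 : (⟨1, hone_mem⟩ : S₀.O (S₀.src e)) = 1 := rfl
    rw [h5, map_one, Place.ord_one, ch.ord_src, mul_one] at hordone
    omega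
  refine ⟨hbb', ?_⟩
  -- `|κ| = |thick| ^ b'`
  rw [hlam, map_mul, map_mul, map_mul, map_inv₀, map_mul, map_zpow₀, h1, h1', h1'', one_mul,
    one_mul, mul_one] at hlamval
  have hκpos : A.valuation κ ≠ 0 := (Valuation.ne_zero_iff _).mpr hκ0
  have h6 := congrArg (fun t => t * A.valuation κ) hlamval
  simp only [one_mul] at h6
  rw [mul_assoc, inv_mul_cancel₀ hκpos, mul_one] at h6
  exact h6.symm

/-- **Simple zeros from thickness one.** With the hypotheses of `ord_eq_ord_and_valuation_eq`, if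
moreover `|κ| = |thick|` then the reduction of `x` on `src e` has a simple zero at `s₁ e` and the
reduction of `y` on `tgt e` has a simple zero at `s₂ e`. -/
theorem ord_eq_one_of_valuation_eq_thick (ch : AnnulusChartN S₀ e) {x y z : F} {κ : K}
    (hx : x ∈ S₀.O (S₀.src e)) (hxres : S₀.res (S₀.src e) ⟨x, hx⟩ ≠ 0)
    (hxord : ∀ P ∈ tube S₀ e, P.ord x = 0)
    (hy : y ∈ S₀.O (S₀.tgt e)) (hyres : S₀.res (S₀.tgt e) ⟨y, hy⟩ ≠ 0)
    (hyord : ∀ P ∈ tube S₀ e, P.ord y = 0)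
    (hz : z ∈ S₀.O (S₀.src e)) (hzres : S₀.res (S₀.src e) ⟨z, hz⟩ ≠ 0)
    (hzord0 : (S₀.s₁ e).ord (S₀.res (S₀.src e) ⟨z, hz⟩) = 0)
    (hzord : ∀ P ∈ tube S₀ e, P.ord z = 0) (hxyz : x * y = κ • z)
    (hκ : A.valuation κ = A.valuation ch.thick) :
    (S₀.s₁ e).ord (S₀.res (S₀.src e) ⟨x, hx⟩) = 1 ∧
      (S₀.s₂ e).ord (S₀.res (S₀.tgt e) ⟨y, hy⟩) = 1 := by
  obtain ⟨h1, h2⟩ := ord_eq_ord_and_valuation_eq ch hx hxres hxord hy hyres hyord hz hzres hzord0
    hzord hxyz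
  have hpos : 0 < A.valuation ch.thick :=
    lt_of_le_of_ne zero_le ((Valuation.ne_zero_iff _).mpr ch.thick_ne).symm
  have hne1 : A.valuation ch.thick ≠ 1 := ne_of_lt ch.thick_lt
  have h3 : (S₀.s₂ e).ord (S₀.res (S₀.tgt e) ⟨y, hy⟩) = 1 := by
    rw [hκ] at h2
    have h4 : A.valuation ch.thick ^ (1 : ℤ) =
        A.valuation ch.thick ^ ((S₀.s₂ e).ord (S₀.res (S₀.tgt e) ⟨y, hy⟩)) := by
      rw [zpow_one]
      exact h2
    exact ((zpow_right_inj₀ hpos hne1).mp h4).symm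
  exact ⟨h1.trans h3, h3⟩

/-! ### the levels of Program B -/

section Levels

variable [IsAlgClosed (ResidueField A)] {ι : Type*} {L : AnnulusLevels A (tube S₀ e) ι}
  (X : BranchData S₀ e L)

omit [IsAlgClosed (ResidueField A)] in
/-- A unit of a level has neither zeros nor poles on the tube. -/
theorem ord_eq_zero_of_isUnit_level (L : AnnulusLevels A (tube S₀ e) ι) (i : ι) {z : F}
    (hz : z ∈ (L.level i).R) (hu : IsUnit (⟨z, hz⟩ : (L.level i).R)) :
    ∀ P ∈ tube S₀ e, P.ord z = 0 := by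
  intro P hP
  obtain ⟨z', hz'⟩ := hu.exists_right_inv
  have h1 : z * (z' : F) = 1 := congrArg Subtype.val hz'
  have h2 := (L.level i).evalAt_mul hP hz z'.2
  rw [h1, evalAt_eq_of_isValueAt (isValueAt_one P)] at h2
  have h3 : evalAt P z ≠ 0 := left_ne_zero_of_mul (h2 ▸ one_ne_zero)
  exact ((L.level i).isValueAt_evalAt hP hz).ord_eq_zero h3

omit [IsAlgClosed (ResidueField A)] in
/-- If `x * y = κ • z` in a level, `κ ≠ 0` and `z` is a unit of the level, then `x` has neither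
zeros nor poles on the tube. -/
theorem ord_eq_zero_of_mul_eq_level (L : AnnulusLevels A (tube S₀ e) ι) (i : ι) {x y z : F}
    {κ : K} (hκ : κ ≠ 0) (hx : x ∈ (L.level i).R) (hy : y ∈ (L.level i).R)
    (hz : z ∈ (L.level i).R) (hu : IsUnit (⟨z, hz⟩ : (L.level i).R)) (hxyz : x * y = κ • z) :
    ∀ P ∈ tube S₀ e, P.ord x = 0 := by
  intro P hP
  obtain ⟨z', hz'⟩ := hu.exists_right_inv
  have h1 : z * (z' : F) = 1 := congrArg Subtype.val hz'
  have h2 := (L.level i).evalAt_mul hP hz z'.2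
  rw [h1, evalAt_eq_of_isValueAt (isValueAt_one P)] at h2
  have h3 : evalAt P z ≠ 0 := left_ne_zero_of_mul (h2 ▸ one_ne_zero)
  exact ord_eq_zero_of_mul_eq_of_isValueAt P ((L.level i).isValueAt_evalAt hP hx)
    ((L.level i).isValueAt_evalAt hP hy) hxyz (((L.level i).isValueAt_evalAt hP hz).smul κ)
    (mul_ne_zero hκ h3)

include X in
/-- **The coordinate of a thickness-one tube from the levels** (the literal shape of the
hypothesis `hb` of `VertCircleMod.exists_vertComponent_of_levels`, and its mirror): `x y z` in a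
level, `z` a unit of the level, `x * y = κ • z` with `|κ| = |thick|`, `x` a unit on `src e`, `y` a
unit on `tgt e`. Then on the circle of ANY gauge `a`: `a⁻¹ • x` reduces to `β · X` and
`(a / thick) • y` to `β' · X⁻¹`, `β β' ≠ 0`. -/
theorem exists_isRed_of_levels (i : ι) {x y z : F} {κ : K}
    (hx : x ∈ (L.level i).R) (hy : y ∈ (L.level i).R) (hz : z ∈ (L.level i).R)
    (hu : IsUnit (⟨z, hz⟩ : (L.level i).R))
    (hxres : S₀.res (S₀.src e) ⟨x, X.le₁ i x hx⟩ ≠ 0)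
    (hyres : S₀.res (S₀.tgt e) ⟨y, X.le₂ i y hy⟩ ≠ 0)
    (hxyz : x * y = κ • z) (hκ : A.valuation κ = A.valuation L.thick)
    (a : K) (ha1 : A.valuation L.core.thick < A.valuation a) :
    (∃ β : ResidueField A, β ≠ 0 ∧ IsRed L.core a (a⁻¹ • x) (RatFunc.C β * RatFunc.X)) ∧
      ∃ β' : ResidueField A, β' ≠ 0 ∧
        IsRed L.core a ((a / L.thick) • y) (RatFunc.C β' * RatFunc.X⁻¹) := by
  have hκ0 : κ ≠ 0 := by
    rintro rfl
    rw [map_zero] at hκ
    exact L.thick_ne ((map_eq_zero _).mp hκ.symm)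
  have hxord := ord_eq_zero_of_mul_eq_level L i hκ0 hx hy hz hu hxyz
  have hyord := ord_eq_zero_of_mul_eq_level L i hκ0 hy hx hz hu (by rw [mul_comm]; exact hxyz)
  have hzord := ord_eq_zero_of_isUnit_level L i hz hu
  have hzres : S₀.res (S₀.src e) ⟨z, X.le₁ i z hz⟩ ≠ 0 := by
    intro h0
    have h1 := hu.map (X.red₁ i)
    rw [X.red₁_apply, h0] at h1
    exact not_isUnit_zero h1
  have hzord0 : (S₀.s₁ e).ord (S₀.res (S₀.src e) ⟨z, X.le₁ i z hz⟩) = 0 := by
    have := ord_res_unit_eq_zero (X.red₁ i) (S₀.s₁ e) (X.adicValuation_red₁_le_one i) hu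
    rwa [X.red₁_apply] at this
  set ch : AnnulusChartN S₀ e := AnnulusChartN.ofChart X.annulusChartOfLevels with hch
  have hthick : ch.thick = L.thick := rfl
  obtain ⟨hx1, hy1⟩ := ord_eq_one_of_valuation_eq_thick ch (X.le₁ i x hx) hxres hxord
    (X.le₂ i y hy) hyres hyord (X.le₁ i z hz) hzres hzord0 hzord hxyz (hthick ▸ hκ)
  exact ⟨exists_isRed_inv_smul ch a ha1 (X.le₁ i x hx) hx1 hxord,
    exists_isRed_div_smul ch a ha1 (X.le₂ i y hy) hy1 hyord⟩

end Levels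

end Fermat.Agent.BR3.VertCoordThick
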