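import Mathlib
import Fermat.Agent.BR3.VertEquivMod

/-!
# Program C (S36), node (I9-ze): the hypothesis `hvert` of `FullPlugSDD.hkindProp_of_input`

`S` a semistable setup of `Fb (M q q)` over `B`, `v` a component which is the unique extension
along `α₂` of the circle `circleRing L.core a₀` (`L := annulusLevels_modular_final B hB hqM hne e`,
`a₀ ^ (q + 1) = q`), with residue field presented by `ψ : k(X) → Ft v` and the residue `Ũ` of
`U / α₂ a₀` satisfying `hb`, `heq`, `hgen` of `BR3/VertKill`.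

* **`exists_mapsComp_kill_vert_modular`** : `∃ s ∈ I_B, ∃ a : Ft v ≃ₐ[k] Ft v,
  MapsComp S (galAut (M q q) s) v v a ∧ ∀ x : Pic0 k (Ft v), ofAlgAut a • x = x → (q + 1) • x = 0`,
  for EVERY prime `q` (`q = 2` included) — literally the clause of `hvert` (`e₂ = q + 1`) for the
  component `v = ze e`.
-/

set_option autoImplicit false
set_option linter.unusedSectionVars false
set_option linter.unusedVariables false
set_option linter.style.haveILetI false
set_option synthInstance.maxHeartbeats 400000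

noncomputable section

namespace Fermat.Agent.BR3.VertEquivPlug

open Polynomial ModularCurve AlgebraicCurve IsLocalRing
open Fermat.Agent.X0 Fermat.Agent.Val Fermat.Agent.Red Fermat.Agent.BR.Kron Fermat.Agent.Jac
open Fermat.Agent.BR.Circle Fermat.Agent.BR.S0 Fermat.Agent.BR.S0.RedModular
open Fermat.Agent.BR.S0.PointDict Fermat.Agent.BR.SS Fermat.Agent.BR2.Filt
open Fermat.Agent.BR.Inst.AnnulusInstFinal Fermat.Agent.BR.InertiaRed
open Fermat.Agent.BR3.FibreProd Fermat.Agent.BR3.InvFiniteTheta Fermat.Agent.BR3.CircleEquiv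
open Fermat.Agent.BR3.VertEquiv Fermat.Agent.BR3.VertEquivKill Fermat.Agent.BR3.FiltPerm
open Fermat.Agent.BR3.FiltMaps Fermat.Agent.BR.AnnulusRed Fermat.Agent.BR.S0.Modular
open Fermat.Agent.BR.S0.RedHyp Fermat.Agent.BR3.VertEquivMod

variable {M q : ℕ} [NeZero M] [hq : Fact q.Prime]

/-- shortcut instance (the search is slow) -/
local instance algResFtM' (B : ValuationSubring Kb) :
    Algebra (ResidueField B) (modularFunctionFieldFullC (ResidueField B) M) := inferInstance

variable (B : ValuationSubring Kb) (hB : B.LiesOverPrime q) (hqM : ¬ q ∣ M)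
  [IsAlgClosed (ResidueField B)]
  (hne : Nonempty (Crossing (chartDataModular B hB hqM)))
  (e : Crossing (chartDataModular B hB hqM))

local notation "kB" => ResidueField B

variable (a₀ : Kb)
  (ha1 : B.valuation (annulusLevels_modular_final B hB hqM hne e).core.thick < B.valuation a₀)
  (ha2 : B.valuation a₀ < 1)
  {ι : Type*} {Ft : ι → Type*} [∀ v, Field (Ft v)] [∀ v, Algebra (ResidueField B) (Ft v)]
  {ν : Type*}
  (S : SemistableSetup (F := Fb (M * q * q)) B (residue B) ι Ft ν) (v : ι)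
  (hcomap : (S.O v).comap (alpha2 M q : Fb (M * q) →+* Fb (M * q * q)) =
    circleRing (annulusLevels_modular_final B hB hqM hne e).core a₀ ha1 ha2)
  (huniq : ∀ Z' : ValuationSubring (Fb (M * q * q)),
    Z'.comap (alpha2 M q : Fb (M * q) →+* Fb (M * q * q)) =
      circleRing (annulusLevels_modular_final B hB hqM hne e).core a₀ ha1 ha2 → Z' = S.O v)
  (ψ : RatFunc (ResidueField B) →+* Ft v)
  (hψ : ∀ (y : circleRing (annulusLevels_modular_final B hB hqM hne e).core a₀ ha1 ha2)
    (h : alpha2 M q (y : Fb (M * q)) ∈ S.O v),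
    S.res v ⟨alpha2 M q (y : Fb (M * q)), h⟩ =
      ψ (circleRes (annulusLevels_modular_final B hB hqM hne e).core a₀ ha1 ha2 y))

include hcomap huniq hψ in
/-- **The hypothesis `hvert` of `FullPlugSDD.hkindProp_of_input`** (`e₂ = q + 1`) at a vertical
component, for every prime `q` (`q = 2` included): some inertia element maps the component to
itself through an isomorphism `a` of its residue field such that every class of `Pic⁰` fixed by `a`
is killed by `q + 1`. -/
theorem exists_mapsComp_kill_vert_modular (ha₀ : a₀ ^ (q + 1) = (q : Kb))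
    {β ρ : kB} (hρ : ρ ≠ 0)
    (hθ : U M q / alpha2 M q (algebraMap Kb (Fb (M * q)) a₀) ∈ S.O v)
    (hb : Transcendental kB (ψ (RatFunc.C β * RatFunc.X)))
    (heq : ψ (RatFunc.C β * RatFunc.X) *
        S.res v ⟨U M q / alpha2 M q (algebraMap Kb (Fb (M * q)) a₀), hθ⟩ ^ q +
      ψ (RatFunc.C β * RatFunc.X) ^ 2 *
        S.res v ⟨U M q / alpha2 M q (algebraMap Kb (Fb (M * q)) a₀), hθ⟩ ^ (q - 1) =
        algebraMap kB (Ft v) ρ)
    (hgen : IntermediateField.adjoin kB
      {ψ (RatFunc.C β * RatFunc.X),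
        S.res v ⟨U M q / alpha2 M q (algebraMap Kb (Fb (M * q)) a₀), hθ⟩} = ⊤) :
    ∃ s ∈ B.inertiaSubgroupIn ℚ, ∃ a : Ft v ≃ₐ[kB] Ft v,
      MapsComp S (galAut (M * q * q) s) v v a ∧
      ∀ x : Pic0 kB (Ft v), SemilinearAut.ofAlgAut a • x = x → (q + 1) • x = 0 := by
  haveI : CharP kB q := Fermat.Agent.Val.charP_residueField_of_liesOverPrime B hB
  have hqn : ¬ q ∣ q + 1 := by
    intro h
    have h1 : q ∣ 1 := (Nat.dvd_add_right (dvd_refl q)).mp h
    exact hq.out.one_lt.ne' (Nat.dvd_one.mp h1)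
  obtain ⟨σ, hσ, ζ, -, hσa, -, -, hprim⟩ :=
    Fermat.Agent.BR3.TameSurj.exists_inertia_smul_root_primitive B hq.out hB hqn ha₀
  obtain ⟨a, ha, hab, haU⟩ :=
    exists_mapsComp_vert_modular B hB hqM hne e a₀ ha1 ha2 S v hcomap huniq ψ hψ hσ hσa
  refine ⟨σ, hσ, a, ha, fun x hx => ?_⟩
  by_cases hq2 : q = 2
  · subst hq2
    have heq' : ψ (RatFunc.C β * RatFunc.X) *
        S.res v ⟨U M 2 / alpha2 M 2 (algebraMap Kb (Fb (M * 2)) a₀), hθ⟩ ^ 2 +
      ψ (RatFunc.C β * RatFunc.X) ^ 2 *
        S.res v ⟨U M 2 / alpha2 M 2 (algebraMap Kb (Fb (M * 2)) a₀), hθ⟩ =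
        algebraMap kB (Ft v) ρ := by
      simpa using heq
    exact Fermat.Agent.BR3.VertCurve.vert_smul_eq_zero_of_fixed_two hρ hb heq' hgen hprim.inv
      (hab β) (haU hθ) x hx
  · exact Fermat.Agent.BR3.VertCurve.vert_smul_eq_zero_of_fixed q hq2 hρ hb heq hgen hprim.inv
      (hab β) (haU hθ) x hx

end Fermat.Agent.BR3.VertEquivPlug
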